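import Mathlib
import Fermat.Prelude.Def_FLTPrelim_Ramification
import Fermat.Prelude.Def_EllipticCurve_FrobeniusTrace
import Fermat.Prelude.Def_GaloisRep_Residual
import Fermat.Agent.Lib.helper2489_Unramified
import Fermat.Agent.Lib.helper3858_ResidueQbar
import Fermat.Agent.S18.helper8351_NFDescent
import Fermat.Agent.S58.helper6024_Unram

/-!
# Tame inertia at a prime `q` for `Gal(ℚ̄/ℚ)` in the frozen vocabulary (helper6024)

`Qb := AlgebraicClosure ℚ`, `GQ := Qb ≃ₐ[ℚ] Qb`, `A` a valuation subring of `Qb` over the prime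
`q`, `I := A.inertiaSubgroupIn ℚ`, `D := A.decompositionSubgroup ℚ`.

For a homomorphism `ρ : GQ →* H` into a monoid which factors through a finite level and whose
values on `I` have order prime to `q` (`hcop`):

* `tame_cyclic`      : `ρ(I)` is cyclic: there is `s ∈ I` with `ρ σ ∈ {ρ s ^ n}` for all `σ ∈ I`;
* `tame_frobenius`   : `ρ (φ σ φ⁻¹) = ρ σ ^ q` for every Frobenius element `φ` at `A`, `σ ∈ I`;
* `decomposition_eq` : every `τ ∈ D` has `ρ τ = ρ (φ ^ n) * ρ σ` with `σ ∈ I`.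
-/

set_option autoImplicit false

namespace Fermat.Agent.S56.helper6024

open IsLocalRing
open scoped Pointwise

/-! ## Residues and the multiplier `σ x / x` -/

section generic

variable {K L : Type*} [Field K] [Field L] [Algebra K L]
variable (A : ValuationSubring L)

open Classical in
/-- The residue of an element of `L` modulo the maximal ideal of `A` (zero outside `A`). -/
noncomputable def res (x : L) : ResidueField A :=
  if h : x ∈ A then residue A ⟨x, h⟩ else 0

theorem res_of_mem {x : L} (h : x ∈ A) : res A x = residue A ⟨x, h⟩ := by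
  unfold res
  rw [dif_pos h]

theorem res_one : res A 1 = 1 := by
  rw [res_of_mem A A.one_mem]
  exact map_one _

theorem res_mul {x y : L} (hx : x ∈ A) (hy : y ∈ A) : res A (x * y) = res A x * res A y := by
  rw [res_of_mem A hx, res_of_mem A hy, res_of_mem A (A.mul_mem _ _ hx hy), ← map_mul]
  rfl

theorem res_pow {x : L} (hx : x ∈ A) (n : ℕ) : res A (x ^ n) = res A x ^ n := by
  rw [res_of_mem A hx, res_of_mem A (A.pow_mem hx n), ← map_pow]
  rfl

theorem res_eq_res_iff {x y : L} (hx : x ∈ A) (hy : y ∈ A) :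
    res A x = res A y ↔ x - y ∈ A.nonunits := by
  rw [res_of_mem A hx, res_of_mem A hy, ← sub_eq_zero, ← map_sub, residue_eq_zero_iff,
    ← ValuationSubring.coe_mem_nonunits_iff]
  rfl

theorem res_eq_one_iff {x : L} (hx : x ∈ A) : res A x = 1 ↔ x - 1 ∈ A.nonunits := by
  rw [← res_one A, res_eq_res_iff A hx A.one_mem]

theorem res_eq_zero_iff {x : L} (hx : x ∈ A) : res A x = 0 ↔ x ∈ A.nonunits := by
  rw [res_of_mem A hx, residue_eq_zero_iff, ← ValuationSubring.coe_mem_nonunits_iff]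

theorem mem_of_valuation_eq_one {x : L} (hx : A.valuation x = 1) : x ∈ A :=
  (ValuationSubring.valuation_le_one_iff A x).mp hx.le

theorem res_ne_zero {x : L} (hx : A.valuation x = 1) : res A x ≠ 0 := by
  rw [Ne, res_eq_zero_iff A (mem_of_valuation_eq_one A hx), ValuationSubring.mem_nonunits_iff, hx]
  exact lt_irrefl _

/-- The multiplier `σ x / x` modulo the maximal ideal of `A`. -/
noncomputable def mult (σ : L ≃ₐ[K] L) (x : L) : ResidueField A := res A (σ x / x)

variable {A}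

theorem valuation_apply_div [Algebra.IsAlgebraic K L] {σ : L ≃ₐ[K] L}
    (hσ : σ ∈ A.decompositionSubgroup K) {x : L} (hx : x ≠ 0) :
    A.valuation (σ x / x) = 1 := by
  rw [map_div₀, Fermat.Agent.S05.helper4205.valuation_apply_of_mem_decomposition hσ x]
  exact div_self ((map_ne_zero _).mpr hx)

theorem mult_ne_zero [Algebra.IsAlgebraic K L] {σ : L ≃ₐ[K] L}
    (hσ : σ ∈ A.decompositionSubgroup K) {x : L} (hx : x ≠ 0) : mult A σ x ≠ 0 :=
  res_ne_zero A (valuation_apply_div hσ hx)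

/-- The multiplier is multiplicative in the element. -/
theorem mult_mul_right [Algebra.IsAlgebraic K L] {σ : L ≃ₐ[K] L}
    (hσ : σ ∈ A.decompositionSubgroup K) {x y : L} (hx : x ≠ 0) (hy : y ≠ 0) :
    mult A σ (x * y) = mult A σ x * mult A σ y := by
  unfold mult
  rw [← res_mul A (mem_of_valuation_eq_one A (valuation_apply_div hσ hx))
    (mem_of_valuation_eq_one A (valuation_apply_div hσ hy)), map_mul, mul_div_mul_comm]

/-- The multiplier of an inertia element on a unit is trivial. -/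
theorem mult_of_unit {σ : L ≃ₐ[K] L} (hσ : σ ∈ A.inertiaSubgroupIn K) {u : L}
    (hu : A.valuation u = 1) : mult A σ u = 1 := by
  have h := Fermat.Agent.S05.helper4205.apply_div_sub_one_mem_nonunits_of_unit hσ hu
  have hmem : σ u / u ∈ A := by
    have h1 : σ u / u = (σ u / u - 1) + 1 := by ring
    rw [h1]
    exact A.add_mem _ _ (A.nonunits_subset h) A.one_mem
  unfold mult
  rw [res_eq_one_iff A hmem]
  exact h

/-- The multiplier is multiplicative in the group element (first factor in the inertia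
group). -/
theorem mult_mul_left [Algebra.IsAlgebraic K L] {σ τ : L ≃ₐ[K] L}
    (hσ : σ ∈ A.inertiaSubgroupIn K) (hτ : τ ∈ A.decompositionSubgroup K) {x : L} (hx : x ≠ 0) :
    mult A (σ * τ) x = mult A σ x * mult A τ x := by
  have hσD := Fermat.Agent.S05.helper4205.mem_decomposition_of_mem_inertiaSubgroupIn hσ
  have hw : τ x / x ∈ A := mem_of_valuation_eq_one A (valuation_apply_div hτ hx)
  have hσw : σ (τ x / x) ∈ A := Fermat.Agent.S05.helper4205.apply_mem_of_mem_decomposition hσD hw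
  have h1 : (σ * τ) x / x = σ x / x * σ (τ x / x) := by
    rw [AlgEquiv.mul_apply, map_div₀]
    have hσx : σ x ≠ 0 := (map_ne_zero σ).mpr hx
    field_simp
  unfold mult
  rw [h1, res_mul A (mem_of_valuation_eq_one A (valuation_apply_div hσD hx)) hσw]
  congr 1
  rw [res_eq_res_iff A hσw hw]
  exact Fermat.Agent.S05.helper4205.apply_sub_mem_nonunits hσ hw

/-- Conjugating an inertia element by a Frobenius element raises the multiplier to the
`q`-th power. -/
theorem mult_conj_of_isFrobeniusAt [Algebra.IsAlgebraic K L] {φ σ : L ≃ₐ[K] L} {q : ℕ}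
    (hφ : A.IsFrobeniusAt φ q) (hσ : σ ∈ A.inertiaSubgroupIn K) {x : L} (hx : x ≠ 0) :
    mult A (φ * σ * φ⁻¹) x = mult A σ x ^ q := by
  have hσD := Fermat.Agent.S05.helper4205.mem_decomposition_of_mem_inertiaSubgroupIn hσ
  have hφD := hφ.mem_decompositionSubgroup
  have hφD' : φ⁻¹ ∈ A.decompositionSubgroup K := inv_mem hφD
  set x' : L := φ⁻¹ x with hx'
  have hx'0 : x' ≠ 0 := (map_ne_zero _).mpr hx
  have hφx' : φ x' = x := by
    rw [hx', ← AlgEquiv.mul_apply, mul_inv_cancel, AlgEquiv.one_apply]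
  have hw : σ x' / x' ∈ A := mem_of_valuation_eq_one A (valuation_apply_div hσD hx'0)
  have hφw : φ (σ x' / x') ∈ A :=
    Fermat.Agent.S05.helper4205.apply_mem_of_mem_decomposition hφD hw
  have h1 : (φ * σ * φ⁻¹) x / x = φ (σ x' / x') := by
    rw [AlgEquiv.mul_apply, AlgEquiv.mul_apply, map_div₀, hφx']
  have h2 : res A (φ (σ x' / x')) = res A (σ x' / x') ^ q := by
    rw [res_of_mem A hφw, res_of_mem A hw]
    exact Fermat.Agent.Lib.helper3858.residue_apply_of_isFrobeniusAt hφ hw hφw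
  have hu : A.valuation (x' / x) = 1 := valuation_apply_div hφD' hx
  have h3 : mult A σ x' = mult A σ x := by
    have hxx : x' = x * (x' / x) := by field_simp
    have hu0 : x' / x ≠ 0 := div_ne_zero hx'0 hx
    rw [hxx, mult_mul_right hσD hx hu0, mult_of_unit hσ hu, mul_one]
  unfold mult at h3 ⊢
  rw [h1, h2, h3]

theorem mult_one_right (σ : L ≃ₐ[K] L) : mult A σ 1 = 1 := by
  unfold mult
  rw [map_one, div_one, res_one]

theorem mult_pow [Algebra.IsAlgebraic K L] {σ : L ≃ₐ[K] L}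
    (hσ : σ ∈ A.decompositionSubgroup K) {x : L} (hx : x ≠ 0) (n : ℕ) :
    mult A σ (x ^ n) = mult A σ x ^ n := by
  induction n with
  | zero => rw [pow_zero, pow_zero, mult_one_right]
  | succ n ih => rw [pow_succ, pow_succ, mult_mul_right hσ (pow_ne_zero n hx) hx, ih]

theorem mult_one_left (x : L) (hx : x ≠ 0) : mult A (1 : L ≃ₐ[K] L) x = 1 := by
  unfold mult
  rw [AlgEquiv.one_apply, div_self hx, res_one]

variable (A) in
/-- The **tame character** attached to a nonzero element `x`: the class of `σ x / x` in the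
residue field, a homomorphism on the inertia group. -/
noncomputable def tameChar [Algebra.IsAlgebraic K L] (x : L) (hx : x ≠ 0) :
    ↥(A.inertiaSubgroupIn K) →* (ResidueField A)ˣ where
  toFun σ := Units.mk0 (mult A σ.1 x)
    (mult_ne_zero (Fermat.Agent.S05.helper4205.mem_decomposition_of_mem_inertiaSubgroupIn σ.2) hx)
  map_one' := Units.ext (mult_one_left x hx)
  map_mul' σ τ := Units.ext (mult_mul_left σ.2
    (Fermat.Agent.S05.helper4205.mem_decomposition_of_mem_inertiaSubgroupIn τ.2) hx)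

theorem coe_tameChar [Algebra.IsAlgebraic K L] (x : L) (hx : x ≠ 0)
    (σ : ↥(A.inertiaSubgroupIn K)) :
    ((tameChar A x hx σ : (ResidueField A)ˣ) : ResidueField A) = mult A σ.1 x := rfl

/-- The tame character has finite image. -/
theorem finite_range_tameChar [Algebra.IsAlgebraic K L] (x : L) (hx : x ≠ 0) :
    (Set.range (tameChar (K := K) A x hx)).Finite := by
  classical
  have hfin : ((minpoly K x).rootSet L).Finite := Polynomial.rootSet_finite _ _
  let g : L → (ResidueField A)ˣ := fun y =>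
    if h : res A (y / x) = 0 then 1 else Units.mk0 _ h
  refine (hfin.image g).subset ?_
  rintro _ ⟨σ, rfl⟩
  have halg : IsAlgebraic K x := Algebra.IsAlgebraic.isAlgebraic x
  refine ⟨σ.1 x, ?_, ?_⟩
  · rw [Polynomial.mem_rootSet]
    refine ⟨minpoly.ne_zero halg.isIntegral, ?_⟩
    rw [Polynomial.aeval_algHom_apply σ.1 x, minpoly.aeval, map_zero]
  · have hne : res A (σ.1 x / x) ≠ 0 :=
      mult_ne_zero (Fermat.Agent.S05.helper4205.mem_decomposition_of_mem_inertiaSubgroupIn σ.2) hx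
    have hg : g (σ.1 x) = Units.mk0 _ hne := dif_neg hne
    rw [hg]
    rfl

/-- Inertia is stable under conjugation by the decomposition group. -/
theorem conj_mem_inertiaSubgroupIn {φ σ : L ≃ₐ[K] L} (hφ : φ ∈ A.decompositionSubgroup K)
    (hσ : σ ∈ A.inertiaSubgroupIn K) : φ * σ * φ⁻¹ ∈ A.inertiaSubgroupIn K := by
  obtain ⟨hσD, hσI⟩ := (Fermat.Agent.S05.helper4205.mem_inertiaSubgroupIn_iff A σ).mp hσ
  rw [Fermat.Agent.S05.helper4205.mem_inertiaSubgroupIn_iff]
  refine ⟨mul_mem (mul_mem hφ hσD) (inv_mem hφ), ?_⟩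
  have hn : (A.inertiaSubgroup K).Normal := by
    unfold ValuationSubring.inertiaSubgroup
    infer_instance
  exact hn.conj_mem _ hσI ⟨φ, hφ⟩

/-! ## Wild elements act through `q`-groups -/

variable (A) in
/-- `σ` is *wild* on the set `F`: it moves every nonzero element of `F` by a strictly smaller
amount. -/
def IsWildOn (σ : L ≃ₐ[K] L) (F : Set L) : Prop :=
  ∀ x ∈ F, x ≠ 0 → A.valuation (σ x - x) < A.valuation x

theorem IsWildOn.pow [Algebra.IsAlgebraic K L] {σ : L ≃ₐ[K] L} {F : Set L}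
    (hσ : σ ∈ A.decompositionSubgroup K) (h : IsWildOn A σ F) (n : ℕ) :
    IsWildOn A (σ ^ n) F := by
  intro x hxF hx
  induction n with
  | zero =>
    rw [pow_zero, AlgEquiv.one_apply, sub_self, map_zero]
    exact zero_lt_iff.mpr ((map_ne_zero _).mpr hx)
  | succ n ih =>
    have h1 : (σ ^ (n + 1)) x - x = σ ((σ ^ n) x - x) + (σ x - x) := by
      rw [pow_succ', AlgEquiv.mul_apply, map_sub]
      ring
    rw [h1]
    refine Valuation.map_add_lt _ ?_ (h x hxF hx)
    rw [Fermat.Agent.S05.helper4205.valuation_apply_of_mem_decomposition hσ]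
    exact ih

/-- A wild element of the decomposition group which has order prime to `q` on a stable subfield
`F` is trivial on `F`. -/
theorem IsWildOn.apply_eq_of_pow [Algebra.IsAlgebraic K L] {q : ℕ} (hq : q.Prime)
    (hA : A.LiesOverPrime q) {σ : L ≃ₐ[K] L} {F : IntermediateField K L}
    (hσ : σ ∈ A.decompositionSubgroup K) (h : IsWildOn A σ (F : Set L))
    (hF : ∀ x ∈ F, σ x ∈ F) {r : ℕ} (hr : ¬ q ∣ r) (hpow : ∀ x ∈ F, (σ ^ r) x = x) :
    ∀ x ∈ F, σ x = x := by
  intro x hxF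
  by_contra hne
  set z : L := σ x - x with hz
  have hz0 : z ≠ 0 := sub_ne_zero.mpr hne
  have hzF : z ∈ F := F.sub_mem (hF x hxF) hxF
  have hsum : ∑ i ∈ Finset.range r, (σ ^ i) z = 0 := by
    have h1 : ∀ i : ℕ, (σ ^ i) z = (σ ^ (i + 1)) x - (σ ^ i) x := by
      intro i
      rw [hz, map_sub, pow_succ, AlgEquiv.mul_apply]
    rw [Finset.sum_congr rfl (fun i _ => h1 i), Finset.sum_range_sub (fun i => (σ ^ i) x),
      hpow x hxF, pow_zero, AlgEquiv.one_apply, sub_self]
  have hsplit : (r : L) * z = - ∑ i ∈ Finset.range r, ((σ ^ i) z - z) := by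
    rw [Finset.sum_sub_distrib, hsum, Finset.sum_const, Finset.card_range, nsmul_eq_mul]
    ring
  have hv1 : A.valuation ((r : L) * z) = A.valuation z := by
    rw [map_mul, Fermat.Agent.S05.helper4205.valuation_natCast_eq_one hq hA hr, one_mul]
  have hv2 : A.valuation (- ∑ i ∈ Finset.range r, ((σ ^ i) z - z)) < A.valuation z := by
    rw [Valuation.map_neg]
    refine Valuation.map_sum_lt _ ((map_ne_zero _).mpr hz0) ?_
    intro i _
    exact IsWildOn.pow hσ h i z hzF hz0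
  rw [← hsplit, hv1] at hv2
  exact lt_irrefl _ hv2

end generic

/-! ## Finite levels of `ℚ̄` -/

section qbar

open Fermat.Agent.Lib.helper54 Fermat.Agent.Lib.helper2489

attribute [local instance] isAlgebraic_Qbar isAlgClosure_Qbar isGalois_Qbar isIntegral_Qbar

local notation "Qb" => AlgebraicClosure ℚ
local notation "GQ" => (AlgebraicClosure ℚ ≃ₐ[ℚ] AlgebraicClosure ℚ)
local notation "Zb" => integralClosure ℤ (AlgebraicClosure ℚ)

/-- Every automorphism has finite order on a finite normal level. -/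
theorem exists_pow_apply_eq (F : IntermediateField ℚ Qb) [FiniteDimensional ℚ F] [Normal ℚ F]
    (σ : GQ) : ∃ N : ℕ, 0 < N ∧ ∀ x ∈ F, (σ ^ N) x = x := by
  obtain ⟨N, hN, hpow⟩ :=
    (isOfFinOrder_of_finite (AlgEquiv.restrictNormalHom F σ)).exists_pow_eq_one
  refine ⟨N, hN, fun x hx => ?_⟩
  have h1 : AlgEquiv.restrictNormalHom F (σ ^ N) = 1 := by rw [map_pow, hpow]
  have h2 := AlgEquiv.restrictNormal_commutes (σ ^ N) F ⟨x, hx⟩
  have h3 : (σ ^ N).restrictNormal F = 1 := h1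
  rw [h3] at h2
  exact h2.symm

variable {q : ℕ} (hq : q.Prime) (A : ValuationSubring Qb) (hA : A.LiesOverPrime q)

include hq hA in
/-- A wild element of the decomposition group acts on a finite normal level through an element
of `q`-power order. -/
theorem IsWildOn.exists_pow_fix (F : IntermediateField ℚ Qb) [FiniteDimensional ℚ F]
    [Normal ℚ F] {σ : GQ} (hσ : σ ∈ A.decompositionSubgroup ℚ)
    (h : IsWildOn A σ (F : Set Qb)) : ∃ a : ℕ, ∀ x ∈ F, (σ ^ (q ^ a)) x = x := by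
  obtain ⟨N, hN, hfix⟩ := exists_pow_apply_eq F σ
  obtain ⟨a, r, hr, rfl⟩ := Nat.exists_eq_pow_mul_and_not_dvd hN.ne' q hq.ne_one
  refine ⟨a, ?_⟩
  refine IsWildOn.apply_eq_of_pow hq hA (pow_mem hσ _) (h.pow hσ _)
    (fun x hx => apply_mem_of_normal F _ hx) hr ?_
  intro x hx
  rw [← pow_mul]
  exact hfix x hx

include hq hA in
/-- A finite level of `ℚ̄` has a uniformiser for the valuation of `A`. -/
theorem exists_uniformizer (F : IntermediateField ℚ Qb) [FiniteDimensional ℚ F] :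
    ∃ π ∈ F, π ≠ 0 ∧
      ∀ x ∈ F, x ≠ 0 → x ∈ A → ∃ n : ℕ, A.valuation x = A.valuation π ^ n := by
  have hdvr : IsDiscreteValuationRing (A.comap (algebraMap F Qb)) :=
    Fermat.Agent.S18.helper8351.isDiscreteValuationRing_comap A F hq hA
  obtain ⟨ϖ, hϖ⟩ := IsDiscreteValuationRing.exists_irreducible (A.comap (algebraMap F Qb))
  have hunit : ∀ u : (A.comap (algebraMap F Qb))ˣ,
      A.valuation (((u : A.comap (algebraMap F Qb)) : F) : Qb) = 1 := by
    intro u
    have h1 : A.valuation (((u : A.comap (algebraMap F Qb)) : F) : Qb) ≤ 1 :=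
      (ValuationSubring.valuation_le_one_iff A _).mpr (u : A.comap (algebraMap F Qb)).2
    have h2 : A.valuation ((((u⁻¹ : (A.comap (algebraMap F Qb))ˣ) :
        A.comap (algebraMap F Qb)) : F) : Qb) ≤ 1 :=
      (ValuationSubring.valuation_le_one_iff A _).mpr
        ((u⁻¹ : (A.comap (algebraMap F Qb))ˣ) : A.comap (algebraMap F Qb)).2
    have h3 : (((u : A.comap (algebraMap F Qb)) : F) : Qb) *
        ((((u⁻¹ : (A.comap (algebraMap F Qb))ˣ) : A.comap (algebraMap F Qb)) : F) : Qb) = 1 := by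
      have e : (u : A.comap (algebraMap F Qb)) *
          ((u⁻¹ : (A.comap (algebraMap F Qb))ˣ) : A.comap (algebraMap F Qb)) = 1 := u.mul_inv
      exact congrArg (fun z : A.comap (algebraMap F Qb) => ((z : F) : Qb)) e
    have h4 := congrArg A.valuation h3
    rw [map_mul, map_one] at h4
    refine le_antisymm h1 ?_
    by_contra hlt
    have h5 : A.valuation (((u : A.comap (algebraMap F Qb)) : F) : Qb) *
        A.valuation ((((u⁻¹ : (A.comap (algebraMap F Qb))ˣ) :
          A.comap (algebraMap F Qb)) : F) : Qb) < 1 := by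
      calc _ ≤ A.valuation (((u : A.comap (algebraMap F Qb)) : F) : Qb) * 1 :=
            mul_le_mul_right h2 _
        _ = A.valuation (((u : A.comap (algebraMap F Qb)) : F) : Qb) := mul_one _
        _ < 1 := not_le.mp hlt
    rw [h4] at h5
    exact lt_irrefl _ h5
  have hϖ0 : ϖ ≠ 0 := hϖ.ne_zero
  refine ⟨((ϖ : F) : Qb), (ϖ : F).2, ?_, ?_⟩
  · intro h
    apply hϖ0
    exact Subtype.ext (Subtype.ext h)
  · intro x hxF hx0 hxA
    let x' : A.comap (algebraMap F Qb) := ⟨⟨x, hxF⟩, hxA⟩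
    have hx'0 : x' ≠ 0 := by
      intro h
      apply hx0
      exact congrArg (fun z : A.comap (algebraMap F Qb) => ((z : F) : Qb)) h
    obtain ⟨n, u, hu⟩ := IsDiscreteValuationRing.eq_unit_mul_pow_irreducible hx'0 hϖ
    refine ⟨n, ?_⟩
    have h1 : x = (((u : A.comap (algebraMap F Qb)) : F) : Qb) * ((ϖ : F) : Qb) ^ n := by
      have := congrArg (fun z : A.comap (algebraMap F Qb) => ((z : F) : Qb)) hu
      simpa using this
    rw [h1, map_mul, hunit u, one_mul, map_pow]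

variable {A}

omit hq hA in
/-- An inertia element with trivial tame character at a uniformiser of the level `F` is wild
on `F`. -/
theorem isWildOn_of_mult_eq_one (F : IntermediateField ℚ Qb) {π : Qb} (hπ0 : π ≠ 0)
    (huni : ∀ x ∈ F, x ≠ 0 → x ∈ A → ∃ n : ℕ, A.valuation x = A.valuation π ^ n)
    {σ : GQ} (hσ : σ ∈ A.inertiaSubgroupIn ℚ) (h : mult A σ π = 1) :
    IsWildOn A σ (F : Set Qb) := by
  have hσD := Fermat.Agent.S05.helper4205.mem_decomposition_of_mem_inertiaSubgroupIn hσ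
  have key : ∀ x ∈ F, x ≠ 0 → x ∈ A → mult A σ x = 1 := by
    intro x hxF hx0 hxA
    obtain ⟨n, hn⟩ := huni x hxF hx0 hxA
    have hπn : π ^ n ≠ 0 := pow_ne_zero n hπ0
    have hu : A.valuation (x / π ^ n) = 1 := by
      rw [map_div₀, map_pow, hn]
      exact div_self (pow_ne_zero n ((map_ne_zero _).mpr hπ0))
    have hx : x = x / π ^ n * π ^ n := by field_simp
    have hu0 : x / π ^ n ≠ 0 := div_ne_zero hx0 hπn
    rw [hx, mult_mul_right hσD hu0 hπn, mult_of_unit hσ hu, one_mul, mult_pow hσD hπ0 n, h,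
      one_pow]
  intro x hxF hx0
  have hm : mult A σ x = 1 := by
    rcases A.mem_or_inv_mem x with hxA | hxA
    · exact key x hxF hx0 hxA
    · have h1 := key x⁻¹ (F.inv_mem hxF) (inv_ne_zero hx0) hxA
      have h2 := mult_mul_right hσD hx0 (inv_ne_zero hx0)
      rw [mul_inv_cancel₀ hx0, mult_one_right, h1, mul_one] at h2
      exact h2.symm
  unfold mult at hm
  rw [res_eq_one_iff A (mem_of_valuation_eq_one A (valuation_apply_div hσD hx0)),
    ValuationSubring.mem_nonunits_iff] at hm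
  have h1 : σ x - x = (σ x / x - 1) * x := by field_simp
  rw [h1, map_mul]
  calc A.valuation (σ x / x - 1) * A.valuation x
      < 1 * A.valuation x :=
        mul_lt_mul_of_pos_right hm (zero_lt_iff.mpr ((map_ne_zero _).mpr hx0))
    _ = A.valuation x := one_mul _

/-! ## The tame quotient: element forms -/

variable (A)

include hq hA in
/-- **Tame level.**  For every finite level `E` there is a tame character of the inertia group
at `A` whose kernel acts on `E` through elements of `q`-power order. -/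
theorem exists_tame_level (E : IntermediateField ℚ Qb) [FiniteDimensional ℚ E] :
    ∃ (π : Qb) (hπ : π ≠ 0), ∀ σ : ↥(A.inertiaSubgroupIn ℚ),
      tameChar A π hπ σ = 1 → ∃ m : ℕ, ∀ x ∈ E, ((σ : GQ) ^ (q ^ m)) x = x := by
  have hnormal : Normal ℚ (IntermediateField.normalClosure ℚ E Qb) :=
    normalClosure.normal ℚ _ Qb
  obtain ⟨π, hπF, hπ0, huni⟩ :=
    exists_uniformizer hq A hA (IntermediateField.normalClosure ℚ E Qb)
  refine ⟨π, hπ0, fun σ hσ => ?_⟩
  have hσD := Fermat.Agent.S05.helper4205.mem_decomposition_of_mem_inertiaSubgroupIn σ.2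
  have hmult : mult A σ.1 π = 1 := by
    have := congrArg (fun u : (ResidueField A)ˣ => (u : ResidueField A)) hσ
    exact this
  have hwild := isWildOn_of_mult_eq_one (IntermediateField.normalClosure ℚ E Qb) hπ0 huni σ.2
    hmult
  obtain ⟨a, ha⟩ := IsWildOn.exists_pow_fix hq A hA _ hσD hwild
  exact ⟨a, fun x hx => ha x (IntermediateField.le_normalClosure E hx)⟩

include hq hA in
/-- **(T1e) The tame quotient is cyclic, element form.**  For every finite level `E` there is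
`s` in the inertia group `I` at `A` such that every `σ ∈ I` is `s ^ n * w` with `w ∈ I` acting on
`E` through an element of `q`-power order. -/
theorem tame_cyclic_elt (E : IntermediateField ℚ Qb) [FiniteDimensional ℚ E] :
    ∃ s ∈ A.inertiaSubgroupIn ℚ, ∀ σ ∈ A.inertiaSubgroupIn ℚ, ∃ (n : ℕ) (w : GQ) (m : ℕ),
      w ∈ A.inertiaSubgroupIn ℚ ∧ σ = s ^ n * w ∧ ∀ x ∈ E, (w ^ (q ^ m)) x = x := by
  obtain ⟨π, hπ, hker⟩ := exists_tame_level hq A hA E
  have hfin : Finite (tameChar (K := ℚ) A π hπ).range := by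
    have h1 : (Set.range (tameChar (K := ℚ) A π hπ)).Finite := finite_range_tameChar π hπ
    exact h1.to_subtype
  have hcyc : IsCyclic (tameChar (K := ℚ) A π hπ).range := inferInstance
  obtain ⟨g, hg⟩ := hcyc.exists_generator
  obtain ⟨s, hs⟩ := g.2
  refine ⟨s.1, s.2, fun σ hσ => ?_⟩
  have hmem : (⟨tameChar A π hπ ⟨σ, hσ⟩, ⟨_, rfl⟩⟩ : (tameChar (K := ℚ) A π hπ).range) ∈
      Submonoid.powers g := by
    rw [mem_powers_iff_mem_zpowers]
    exact hg _
  obtain ⟨n, hn⟩ := hmem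
  set w : ↥(A.inertiaSubgroupIn ℚ) := (s ^ n)⁻¹ * ⟨σ, hσ⟩ with hw
  have hwval : (w : GQ) = (s.1 ^ n)⁻¹ * σ := by
    rw [hw, Subgroup.coe_mul, Subgroup.coe_inv, Subgroup.coe_pow]
  have h1 : tameChar A π hπ w = 1 := by
    have h2 : tameChar A π hπ ⟨σ, hσ⟩ = tameChar A π hπ s ^ n := by
      have := congrArg (fun u : (tameChar (K := ℚ) A π hπ).range => (u : (ResidueField A)ˣ)) hn
      simp only [SubmonoidClass.coe_pow] at this
      rw [hs]
      exact this.symm
    rw [hw, map_mul, map_inv, map_pow, h2, inv_mul_cancel]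
  obtain ⟨m, hm⟩ := hker w h1
  refine ⟨n, (w : GQ), m, w.2, ?_, hm⟩
  rw [hwval, mul_inv_cancel_left]

include hq hA in
/-- **(T2e) Frobenius acts on the tame quotient by the `q`-th power, element form.**  For every
finite level `E`, every Frobenius element `φ` at `A` and every `σ` in the inertia group `I`:
`φ σ φ⁻¹ = σ ^ q * w` with `w ∈ I` acting on `E` through an element of `q`-power order. -/
theorem tame_frobenius_elt (E : IntermediateField ℚ Qb) [FiniteDimensional ℚ E]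
    (φ : GQ) (hφ : A.IsFrobeniusAt φ q) (σ : GQ) (hσ : σ ∈ A.inertiaSubgroupIn ℚ) :
    ∃ (w : GQ) (m : ℕ), w ∈ A.inertiaSubgroupIn ℚ ∧ φ * σ * φ⁻¹ = σ ^ q * w ∧
      ∀ x ∈ E, (w ^ (q ^ m)) x = x := by
  obtain ⟨π, hπ, hker⟩ := exists_tame_level hq A hA E
  have hconj : φ * σ * φ⁻¹ ∈ A.inertiaSubgroupIn ℚ :=
    conj_mem_inertiaSubgroupIn hφ.mem_decompositionSubgroup hσ
  have h2 : tameChar A π hπ ⟨φ * σ * φ⁻¹, hconj⟩ = tameChar A π hπ ⟨σ, hσ⟩ ^ q := by
    apply Units.ext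
    rw [Units.val_pow_eq_pow_val, coe_tameChar, coe_tameChar]
    exact mult_conj_of_isFrobeniusAt hφ hσ hπ
  set w : ↥(A.inertiaSubgroupIn ℚ) := (⟨σ, hσ⟩ ^ q)⁻¹ * ⟨φ * σ * φ⁻¹, hconj⟩ with hw
  have hwval : (w : GQ) = (σ ^ q)⁻¹ * (φ * σ * φ⁻¹) := by
    rw [hw, Subgroup.coe_mul, Subgroup.coe_inv, Subgroup.coe_pow]
  have h1 : tameChar A π hπ w = 1 := by
    rw [hw, map_mul, map_inv, map_pow, h2, inv_mul_cancel]
  obtain ⟨m, hm⟩ := hker w h1
  refine ⟨(w : GQ), m, w.2, ?_, hm⟩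
  rw [hwval, mul_inv_cancel_left]

/-! ## The decomposition group is generated by Frobenius and inertia -/

omit hq hA in
/-- Powers of a Frobenius element act on residues as powers of the `q`-th power map. -/
theorem res_pow_apply_of_isFrobeniusAt {φ : GQ} (hφ : A.IsFrobeniusAt φ q) (n : ℕ) {z : Qb}
    (hz : z ∈ A) : res A ((φ ^ n) z) = res A z ^ (q ^ n) := by
  induction n generalizing z with
  | zero => rw [pow_zero, AlgEquiv.one_apply, pow_zero, pow_one]
  | succ n ih =>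
    have hφz : φ z ∈ A := Fermat.Agent.Lib.helper3858.apply_mem_of_isFrobeniusAt hφ hz
    rw [pow_succ, AlgEquiv.mul_apply, ih hφz, res_of_mem A hφz, res_of_mem A hz,
      Fermat.Agent.Lib.helper3858.residue_apply_of_isFrobeniusAt hφ hz hφz, ← pow_mul,
      ← pow_succ']

attribute [local instance] Fermat.Agent.S58.helper6024.numberField_level

open NumberField Fermat.Agent.S58.helper6024 in
include hq hA in
/-- An element of the decomposition group at `A` acts on the residues of the integers of a finite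
level as a power of the `q`-th power map. -/
theorem exists_pow_residue_eq (F : IntermediateField ℚ Qb) [FiniteDimensional ℚ F]
    {τ : GQ} (hτ : τ ∈ A.decompositionSubgroup ℚ) :
    ∃ n : ℕ, ∀ z : Qb, IsIntegral ℤ z → z ∈ F → res A (τ z) = res A z ^ (q ^ n) := by
  classical
  have : Fact q.Prime := ⟨hq⟩
  have : CharP (ResidueField A) q := Fermat.Agent.Lib.helper3858.charP_residueField A hq hA
  let _ : Algebra (ZMod q) (ResidueField A) := ZMod.algebra _ q
  have : Algebra.IsAlgebraic (ZMod q) (ResidueField A) :=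
    Fermat.Agent.Lib.helper3858.isAlgebraic_residueField A hq hA
  -- the residue map on the integers of `F` has finite image
  let g : 𝓞 F →+* ResidueField A := (residue A).comp (levelToValuationSubring A F)
  have hgfin : (Set.range g).Finite := by
    have hker : (q : 𝓞 F) ∈ RingHom.ker g := by
      rw [RingHom.mem_ker, map_natCast]
      exact Fermat.Agent.Lib.helper3858.natCast_residueField_eq_zero A hA
    have hne : RingHom.ker g ≠ ⊥ := by
      intro h
      rw [h, Ideal.mem_bot] at hker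
      exact (Nat.cast_ne_zero.mpr hq.ne_zero) hker
    have : Finite (𝓞 F ⧸ RingHom.ker g) := Ideal.finiteQuotientOfFreeOfNeBot _ hne
    have hsub : Set.range g ⊆
        Set.range (Ideal.Quotient.lift (RingHom.ker g) g (fun a ha => ha)) := by
      rintro _ ⟨w, rfl⟩
      exact ⟨Ideal.Quotient.mk _ w, Ideal.Quotient.lift_mk _ _ _⟩
    exact (Set.finite_range _).subset hsub
  have : Finite (Set.range g) := hgfin.to_subtype
  let k₀ : IntermediateField (ZMod q) (ResidueField A) :=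
    IntermediateField.adjoin (ZMod q) (Set.range g)
  have : FiniteDimensional (ZMod q) k₀ :=
    IntermediateField.finiteDimensional_adjoin (fun x _ => Algebra.IsIntegral.isIntegral x)
  have : Finite k₀ := Module.finite_of_finite (ZMod q)
  -- `τ` as an automorphism of the residue field over `ZMod q`
  let τr : ResidueField A ≃+* ResidueField A :=
    MulSemiringAction.toRingAut (A.decompositionSubgroup ℚ) (ResidueField A) ⟨τ, hτ⟩
  let τa : ResidueField A ≃ₐ[ZMod q] ResidueField A := AlgEquiv.ofRingEquiv (f := τr) (by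
    intro c
    obtain ⟨m, rfl⟩ := ZMod.natCast_zmod_surjective c
    rw [map_natCast, map_natCast])
  obtain ⟨i, hi⟩ := (FiniteField.bijective_frobeniusAlgEquivOfAlgebraic_pow (ZMod q) k₀).2
    (τa.restrictNormal k₀)
  refine ⟨i.1, fun z hz hzF => ?_⟩
  have hzA : z ∈ A := mem_valuationSubring_of_isIntegral A z hz
  have hτzA : τ z ∈ A := Fermat.Agent.S05.helper4205.apply_mem_of_mem_decomposition hτ hzA
  have hint : IsIntegral ℤ (⟨z, hzF⟩ : F) :=
    (isIntegral_algebraMap_iff (algebraMap F Qb).injective).mp hz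
  let z' : 𝓞 F := ⟨⟨z, hzF⟩, hint⟩
  have hgz : g z' = res A z := by
    rw [res_of_mem A hzA]
    rfl
  have hmem : res A z ∈ k₀ := by
    rw [← hgz]
    exact IntermediateField.subset_adjoin _ _ ⟨z', rfl⟩
  have h1 := AlgEquiv.restrictNormal_commutes τa k₀ ⟨res A z, hmem⟩
  rw [← hi] at h1
  have h2 : τa (res A z) = res A (τ z) := by
    rw [res_of_mem A hzA, res_of_mem A hτzA]
    exact Fermat.Agent.Lib.helper3858.smul_residue_eq hτ hzA
  have h3 : (FiniteField.frobeniusAlgEquivOfAlgebraic (ZMod q) k₀ ^ i.1)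
      (⟨res A z, hmem⟩ : k₀) = (⟨res A z, hmem⟩ : k₀) ^ (q ^ i.1) := by
    rw [AlgEquiv.coe_pow, FiniteField.coe_frobeniusAlgEquivOfAlgebraic_iterate, ZMod.card]
  rw [← h2]
  have h4 : τa (res A z) = algebraMap k₀ (ResidueField A)
      ((FiniteField.frobeniusAlgEquivOfAlgebraic (ZMod q) k₀ ^ i.1) ⟨res A z, hmem⟩) :=
    h1.symm
  rw [h4, h3]
  rfl

include hq hA in
/-- **(T3e) `D = ⟨Frob⟩ · I`, element form.**  For every finite level `E`, every Frobenius
element `φ` at `A` and every `τ` in the decomposition group at `A`, there are `n` and `σ` in the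
inertia group with `τ = φ ^ n * σ` on `E`. -/
theorem decomposition_elt (E : IntermediateField ℚ Qb) [FiniteDimensional ℚ E]
    (φ : GQ) (hφ : A.IsFrobeniusAt φ q) (τ : GQ) (hτ : τ ∈ A.decompositionSubgroup ℚ) :
    ∃ (n : ℕ) (σ : GQ), σ ∈ A.inertiaSubgroupIn ℚ ∧ ∀ x ∈ E, τ x = (φ ^ n * σ) x := by
  have hnormal : Normal ℚ (IntermediateField.normalClosure ℚ E Qb) :=
    normalClosure.normal ℚ _ Qb
  obtain ⟨n, hn⟩ := exists_pow_residue_eq hq A hA (IntermediateField.normalClosure ℚ E Qb) hτ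
  have hφnD : φ ^ n ∈ A.decompositionSubgroup ℚ := pow_mem hφ.mem_decompositionSubgroup n
  have h₀ : ∀ z : Zb, (z : Qb) ∈ IntermediateField.normalClosure ℚ E Qb →
      ((φ ^ n)⁻¹ * τ) • z - z ∈ primeOfValuationSubring A := by
    intro z hz
    rw [mem_primeOfValuationSubring]
    have hzA : (z : Qb) ∈ A := mem_valuationSubring_of_isIntegral A _ z.2
    have hτzA : τ (z : Qb) ∈ A :=
      Fermat.Agent.S05.helper4205.apply_mem_of_mem_decomposition hτ hzA
    have hφzA : (φ ^ n) (z : Qb) ∈ A :=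
      Fermat.Agent.S05.helper4205.apply_mem_of_mem_decomposition hφnD hzA
    have h1 : τ (z : Qb) - (φ ^ n) (z : Qb) ∈ A.nonunits := by
      rw [← res_eq_res_iff A hτzA hφzA, hn _ z.2 hz, res_pow_apply_of_isFrobeniusAt A hφ n hzA]
    have h2 : (φ ^ n) (((φ ^ n)⁻¹ * τ) (z : Qb) - (z : Qb)) = τ (z : Qb) - (φ ^ n) (z : Qb) := by
      rw [map_sub, ← AlgEquiv.mul_apply, mul_inv_cancel_left]
    rw [← h2] at h1
    have h3 := (Fermat.Agent.S05.helper4205.apply_mem_nonunits_iff_of_mem_decomposition hφnD).mp h1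
    exact h3
  obtain ⟨κ, hκ, hQ, hall⟩ := exists_inertia_lift (IntermediateField.normalClosure ℚ E Qb)
    (primeOfValuationSubring A) ((φ ^ n)⁻¹ * τ) h₀
  have hin : κ * ((φ ^ n)⁻¹ * τ) ∈ A.inertiaSubgroupIn ℚ :=
    mem_inertiaSubgroupIn_of_zbar hq A hA _ hQ hall
  refine ⟨n, κ * ((φ ^ n)⁻¹ * τ), hin, fun x hx => ?_⟩
  have hxF : x ∈ IntermediateField.normalClosure ℚ E Qb := IntermediateField.le_normalClosure E hx
  have h4 : ((φ ^ n)⁻¹ * τ) x ∈ IntermediateField.normalClosure ℚ E Qb :=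
    apply_mem_of_normal _ _ hxF
  have h5 : κ (((φ ^ n)⁻¹ * τ) x) = ((φ ^ n)⁻¹ * τ) x :=
    (IntermediateField.mem_fixingSubgroup_iff _ κ).mp hκ _ h4
  rw [AlgEquiv.mul_apply, AlgEquiv.mul_apply, h5, ← AlgEquiv.mul_apply, mul_inv_cancel_left]

/-! ## The tame quotient: homomorphism forms -/

omit hq hA in
/-- An element of a monoid killed by a power of `q` and by a number prime to `q` is trivial. -/
theorem eq_one_of_pow_eq_one_of_coprime {H : Type*} [Monoid H] {h : H} {m n : ℕ}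
    (h1 : h ^ (q ^ m) = 1) (hn : n.Coprime q) (h2 : h ^ n = 1) : h = 1 := by
  have hdvd : orderOf h ∣ Nat.gcd (q ^ m) n :=
    Nat.dvd_gcd (orderOf_dvd_of_pow_eq_one h1) (orderOf_dvd_of_pow_eq_one h2)
  have hgcd : Nat.gcd (q ^ m) n = 1 := Nat.Coprime.pow_left m hn.symm
  rw [hgcd, Nat.dvd_one, orderOf_eq_one_iff] at hdvd
  exact hdvd

include hq hA in
/-- **(T1) The tame quotient is cyclic.**  If `ρ` factors through a finite level and its values
on the inertia group `I` at `A` have order prime to `q`, then `ρ(I)` is generated by one element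
`ρ s`, `s ∈ I`. -/
theorem tame_cyclic {H : Type} [Monoid H] (ρ : GQ →* H)
    (hρ : GaloisFactorsThroughFiniteLevel ρ)
    (hcop : ∀ σ ∈ A.inertiaSubgroupIn ℚ, ∃ n : ℕ, n.Coprime q ∧ ρ σ ^ n = 1) :
    ∃ s ∈ A.inertiaSubgroupIn ℚ, ∀ σ ∈ A.inertiaSubgroupIn ℚ, ∃ n : ℕ, ρ σ = ρ s ^ n := by
  obtain ⟨E, hEfd, hE⟩ := hρ
  obtain ⟨s, hs, hgen⟩ := tame_cyclic_elt hq A hA E
  refine ⟨s, hs, fun σ hσ => ?_⟩
  obtain ⟨n, w, m, hw, hσw, hfix⟩ := hgen σ hσ
  refine ⟨n, ?_⟩
  obtain ⟨k, hk, hk1⟩ := hcop w hw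
  have h1 : ρ w ^ (q ^ m) = 1 := by
    rw [← map_pow]
    exact hE _ hfix
  rw [hσw, map_mul, map_pow, eq_one_of_pow_eq_one_of_coprime h1 hk hk1, mul_one]

include hq hA in
/-- **(T2) Frobenius acts on the tame quotient by the `q`-th power.**  If `ρ` factors through
a finite level and its values on the inertia group `I` at `A` have order prime to `q`, then
`ρ (φ σ φ⁻¹) = ρ σ ^ q` for every Frobenius element `φ` at `A` and every `σ ∈ I`. -/
theorem tame_frobenius {H : Type} [Monoid H] (ρ : GQ →* H)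
    (hρ : GaloisFactorsThroughFiniteLevel ρ)
    (hcop : ∀ σ ∈ A.inertiaSubgroupIn ℚ, ∃ n : ℕ, n.Coprime q ∧ ρ σ ^ n = 1)
    (φ : GQ) (hφ : A.IsFrobeniusAt φ q) (σ : GQ) (hσ : σ ∈ A.inertiaSubgroupIn ℚ) :
    ρ (φ * σ * φ⁻¹) = ρ σ ^ q := by
  obtain ⟨E, hEfd, hE⟩ := hρ
  obtain ⟨w, m, hw, hσw, hfix⟩ := tame_frobenius_elt hq A hA E φ hφ σ hσ
  obtain ⟨k, hk, hk1⟩ := hcop w hw
  have h1 : ρ w ^ (q ^ m) = 1 := by
    rw [← map_pow]
    exact hE _ hfix
  rw [hσw, map_mul, map_pow, eq_one_of_pow_eq_one_of_coprime h1 hk hk1, mul_one]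

include hq hA in
/-- **(T3) `D = ⟨Frob⟩ · I` modulo the kernel.**  If `ρ` factors through a finite level, then for
every Frobenius element `φ` at `A` and every `τ` in the decomposition group at `A` there are `n`
and `σ` in the inertia group with `ρ τ = ρ (φ ^ n) * ρ σ`. -/
theorem decomposition_eq {H : Type} [Monoid H] (ρ : GQ →* H)
    (hρ : GaloisFactorsThroughFiniteLevel ρ)
    (φ : GQ) (hφ : A.IsFrobeniusAt φ q) (τ : GQ) (hτ : τ ∈ A.decompositionSubgroup ℚ) :
    ∃ (n : ℕ) (σ : GQ), σ ∈ A.inertiaSubgroupIn ℚ ∧ ρ τ = ρ (φ ^ n) * ρ σ := by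
  obtain ⟨E, hEfd, hE⟩ := hρ
  obtain ⟨n, σ, hσ, hfix⟩ := decomposition_elt hq A hA E φ hφ τ hτ
  refine ⟨n, σ, hσ, ?_⟩
  have h1 : ρ ((φ ^ n * σ)⁻¹ * τ) = 1 := by
    refine hE _ fun x hx => ?_
    rw [AlgEquiv.mul_apply, hfix x hx, ← AlgEquiv.mul_apply, inv_mul_cancel, AlgEquiv.one_apply]
  have h2 : ρ τ = ρ (φ ^ n * σ) * ρ ((φ ^ n * σ)⁻¹ * τ) := by
    rw [← map_mul, mul_inv_cancel_left]
  rw [h2, h1, mul_one, map_mul]

end qbar

/-! ## The wild inertia subgroup of a level -/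

section wildgeneric

variable {K L : Type*} [Field K] [Field L] [Algebra K L] [Algebra.IsAlgebraic K L]
variable (A : ValuationSubring L)

/-- The wild inertia subgroup relative to a set `F`: the inertia elements moving every nonzero
element of `F` by a strictly smaller amount. -/
def wildSubgroup (F : Set L) : Subgroup (L ≃ₐ[K] L) where
  carrier := {σ | σ ∈ A.inertiaSubgroupIn K ∧ IsWildOn A σ F}
  mul_mem' := by
    rintro σ τ ⟨hσ, hσw⟩ ⟨hτ, hτw⟩
    refine ⟨mul_mem hσ hτ, fun x hxF hx => ?_⟩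
    have hσD := Fermat.Agent.S05.helper4205.mem_decomposition_of_mem_inertiaSubgroupIn hσ
    have h1 : (σ * τ) x - x = σ (τ x - x) + (σ x - x) := by
      rw [AlgEquiv.mul_apply, map_sub]
      ring
    rw [h1]
    refine Valuation.map_add_lt _ ?_ (hσw x hxF hx)
    rw [Fermat.Agent.S05.helper4205.valuation_apply_of_mem_decomposition hσD]
    exact hτw x hxF hx
  one_mem' := ⟨one_mem _, fun x _ hx => by
    rw [AlgEquiv.one_apply, sub_self, map_zero]
    exact zero_lt_iff.mpr ((map_ne_zero _).mpr hx)⟩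
  inv_mem' := by
    rintro σ ⟨hσ, hσw⟩
    refine ⟨inv_mem hσ, fun x hxF hx => ?_⟩
    have hσD' : σ⁻¹ ∈ A.decompositionSubgroup K :=
      inv_mem (Fermat.Agent.S05.helper4205.mem_decomposition_of_mem_inertiaSubgroupIn hσ)
    have h1 : σ⁻¹ x - x = - σ⁻¹ (σ x - x) := by
      rw [map_sub, ← AlgEquiv.mul_apply, inv_mul_cancel, AlgEquiv.one_apply]
      ring
    rw [h1, Valuation.map_neg,
      Fermat.Agent.S05.helper4205.valuation_apply_of_mem_decomposition hσD']
    exact hσw x hxF hx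

variable {A}

theorem mem_wildSubgroup {F : Set L} {σ : L ≃ₐ[K] L} :
    σ ∈ wildSubgroup A F ↔ σ ∈ A.inertiaSubgroupIn K ∧ IsWildOn A σ F := Iff.rfl

theorem wildSubgroup_le (F : Set L) : wildSubgroup (K := K) A F ≤ A.inertiaSubgroupIn K :=
  fun _ h => h.1

/-- A wild element has trivial multiplier on the nonzero elements of `F`. -/
theorem mult_eq_one_of_isWildOn {σ : L ≃ₐ[K] L} (hσ : σ ∈ A.decompositionSubgroup K)
    {F : Set L} (h : IsWildOn A σ F) {x : L} (hxF : x ∈ F) (hx : x ≠ 0) : mult A σ x = 1 := by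
  unfold mult
  rw [res_eq_one_iff A (mem_of_valuation_eq_one A (valuation_apply_div hσ hx)),
    ValuationSubring.mem_nonunits_iff]
  have h1 : σ x / x - 1 = (σ x - x) / x := by field_simp
  rw [h1, map_div₀]
  exact (div_lt_one₀ (zero_lt_iff.mpr ((map_ne_zero _).mpr hx))).mpr (h x hxF hx)

omit [Algebra.IsAlgebraic K L] in
/-- In a field of characteristic `q`, a unit of finite order has order prime to `q`. -/
theorem not_dvd_orderOf_units {k : Type*} [Field k] {q : ℕ} [Fact q.Prime] [CharP k q] (u : kˣ)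
    (hu : IsOfFinOrder u) : ¬ q ∣ orderOf u := by
  rintro ⟨c, hc⟩
  have h1 : (u ^ c) ^ q = 1 := by rw [← pow_mul, mul_comm, ← hc, pow_orderOf_eq_one]
  have h2 : u ^ c = 1 := by
    have h3 : (((u ^ c : kˣ) : k) - 1) ^ q = 0 := by
      rw [sub_pow_char, one_pow, ← Units.val_pow_eq_pow_val, h1, Units.val_one, sub_self]
    exact Units.ext (sub_eq_zero.mp (pow_eq_zero_iff (Fact.out : q.Prime).ne_zero |>.mp h3))
  have h4 : orderOf u ∣ c := orderOf_dvd_of_pow_eq_one h2
  rw [hc] at h4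
  have hc0 : c = 0 := by
    by_contra hne
    have h5 := Nat.le_of_dvd (Nat.pos_of_ne_zero hne) h4
    have hq2 : 2 ≤ q := (Fact.out : q.Prime).two_le
    nlinarith [Nat.pos_of_ne_zero hne]
  rw [hc0, mul_zero] at hc
  exact (orderOf_pos_iff.mpr hu).ne' hc

end wildgeneric

section wildqbar

open Fermat.Agent.Lib.helper54 Fermat.Agent.Lib.helper2489

attribute [local instance] isAlgebraic_Qbar isAlgClosure_Qbar isGalois_Qbar isIntegral_Qbar

local notation "Qb" => AlgebraicClosure ℚ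
local notation "GQ" => (AlgebraicClosure ℚ ≃ₐ[ℚ] AlgebraicClosure ℚ)

variable {q : ℕ} (hq : q.Prime) (A : ValuationSubring Qb) (hA : A.LiesOverPrime q)

omit hq hA in
/-- The wild inertia subgroup of a normal level is normalised by the decomposition group. -/
theorem conj_mem_wildSubgroup (F : IntermediateField ℚ Qb) [Normal ℚ F] {τ σ : GQ}
    (hτ : τ ∈ A.decompositionSubgroup ℚ) (hσ : σ ∈ wildSubgroup A (F : Set Qb)) :
    τ * σ * τ⁻¹ ∈ wildSubgroup A (F : Set Qb) := by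
  refine ⟨conj_mem_inertiaSubgroupIn hτ hσ.1, fun x hxF hx => ?_⟩
  have hyF : τ⁻¹ x ∈ F := apply_mem_of_normal F _ hxF
  have hy0 : τ⁻¹ x ≠ 0 := (map_ne_zero _).mpr hx
  have h1 : (τ * σ * τ⁻¹) x - x = τ (σ (τ⁻¹ x) - τ⁻¹ x) := by
    rw [AlgEquiv.mul_apply, AlgEquiv.mul_apply, map_sub, ← AlgEquiv.mul_apply τ τ⁻¹,
      mul_inv_cancel, AlgEquiv.one_apply]
  rw [h1, Fermat.Agent.S05.helper4205.valuation_apply_of_mem_decomposition hτ]
  have h2 := hσ.2 _ hyF hy0
  rwa [Fermat.Agent.S05.helper4205.valuation_apply_of_mem_decomposition (inv_mem hτ)] at h2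

include hq hA in
/-- The wild inertia subgroup of a finite normal level acts on it through elements of `q`-power
order. -/
theorem exists_pow_fix_of_mem_wildSubgroup (F : IntermediateField ℚ Qb) [FiniteDimensional ℚ F]
    [Normal ℚ F] {σ : GQ} (hσ : σ ∈ wildSubgroup A (F : Set Qb)) :
    ∃ a : ℕ, ∀ x ∈ F, (σ ^ (q ^ a)) x = x :=
  IsWildOn.exists_pow_fix hq A hA F
    (Fermat.Agent.S05.helper4205.mem_decomposition_of_mem_inertiaSubgroupIn hσ.1) hσ.2

include hq hA in
/-- **The tame quotient has order prime to `q`.**  Every inertia element has a power of exponent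
prime to `q` in the wild inertia subgroup of a finite level. -/
theorem exists_pow_mem_wildSubgroup (F : IntermediateField ℚ Qb) [FiniteDimensional ℚ F]
    {σ : GQ} (hσ : σ ∈ A.inertiaSubgroupIn ℚ) :
    ∃ n : ℕ, 0 < n ∧ ¬ q ∣ n ∧ σ ^ n ∈ wildSubgroup A (F : Set Qb) := by
  obtain ⟨π, hπF, hπ0, huni⟩ := exists_uniformizer hq A hA F
  have : Fact q.Prime := ⟨hq⟩
  have : CharP (ResidueField A) q := Fermat.Agent.Lib.helper3858.charP_residueField A hq hA
  have hfin : Finite (tameChar (K := ℚ) A π hπ0).range :=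
    (finite_range_tameChar (K := ℚ) π hπ0).to_subtype
  have hu : IsOfFinOrder (tameChar A π hπ0 ⟨σ, hσ⟩) := by
    have h1 : IsOfFinOrder
        (⟨tameChar A π hπ0 ⟨σ, hσ⟩, ⟨_, rfl⟩⟩ : (tameChar (K := ℚ) A π hπ0).range) :=
      isOfFinOrder_of_finite _
    exact (Submonoid.isOfFinOrder_coe
      (H := (tameChar (K := ℚ) A π hπ0).range.toSubmonoid)).mpr h1
  refine ⟨orderOf (tameChar A π hπ0 ⟨σ, hσ⟩), orderOf_pos_iff.mpr hu,
    not_dvd_orderOf_units _ hu, pow_mem hσ _, ?_⟩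
  have h1 : tameChar A π hπ0 (⟨σ, hσ⟩ ^ orderOf (tameChar A π hπ0 ⟨σ, hσ⟩)) = 1 := by
    rw [map_pow]
    exact pow_orderOf_eq_one _
  have h2 : mult A (σ ^ orderOf (tameChar A π hπ0 ⟨σ, hσ⟩)) π = 1 :=
    congrArg (fun u : (ResidueField A)ˣ => (u : ResidueField A)) h1
  exact isWildOn_of_mult_eq_one F hπ0 huni (pow_mem hσ _) h2

include hq hA in
/-- **Structure of inertia modulo a finite level.**  For every finite level `E` there is a
subgroup `W` of the inertia group `I` at `A` (the wild inertia subgroup of the normal closure of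
`E`), normalised by the decomposition group `D`, such that
* `W` acts on `E` through elements of `q`-power order;
* every element of `I` has a power of exponent prime to `q` in `W`;
* `I = ⟨s⟩ · W` for some `s ∈ I`;
* `φ σ φ⁻¹ ∈ σ ^ q · W` for every Frobenius element `φ` at `A` and `σ ∈ I`. -/
theorem exists_wildSubgroup (E : IntermediateField ℚ Qb) [FiniteDimensional ℚ E] :
    ∃ W : Subgroup GQ, W ≤ A.inertiaSubgroupIn ℚ ∧
      (∀ τ ∈ A.decompositionSubgroup ℚ, ∀ σ ∈ W, τ * σ * τ⁻¹ ∈ W) ∧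
      (∀ σ ∈ W, ∃ a : ℕ, ∀ x ∈ E, (σ ^ (q ^ a)) x = x) ∧
      (∀ σ ∈ A.inertiaSubgroupIn ℚ, ∃ n : ℕ, 0 < n ∧ ¬ q ∣ n ∧ σ ^ n ∈ W) ∧
      (∃ s ∈ A.inertiaSubgroupIn ℚ, ∀ σ ∈ A.inertiaSubgroupIn ℚ,
        ∃ (n : ℕ) (w : GQ), w ∈ W ∧ σ = s ^ n * w) ∧
      (∀ φ : GQ, A.IsFrobeniusAt φ q → ∀ σ ∈ A.inertiaSubgroupIn ℚ,
        ∃ w : GQ, w ∈ W ∧ φ * σ * φ⁻¹ = σ ^ q * w) := by
  have hnormal : Normal ℚ (IntermediateField.normalClosure ℚ E Qb) :=
    normalClosure.normal ℚ _ Qb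
  obtain ⟨π, hπF, hπ0, huni⟩ :=
    exists_uniformizer hq A hA (IntermediateField.normalClosure ℚ E Qb)
  have hker : ∀ w : ↥(A.inertiaSubgroupIn ℚ), tameChar A π hπ0 w = 1 →
      (w : GQ) ∈ wildSubgroup A ((IntermediateField.normalClosure ℚ E Qb :
        IntermediateField ℚ Qb) : Set Qb) := by
    intro w hw
    have hmult : mult A w.1 π = 1 :=
      congrArg (fun u : (ResidueField A)ˣ => (u : ResidueField A)) hw
    exact ⟨w.2, isWildOn_of_mult_eq_one _ hπ0 huni w.2 hmult⟩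
  refine ⟨wildSubgroup A ((IntermediateField.normalClosure ℚ E Qb :
      IntermediateField ℚ Qb) : Set Qb), wildSubgroup_le _,
    fun τ hτ σ hσ => conj_mem_wildSubgroup A _ hτ hσ, ?_,
    fun σ hσ => exists_pow_mem_wildSubgroup hq A hA _ hσ, ?_, ?_⟩
  · intro σ hσ
    obtain ⟨a, ha⟩ := exists_pow_fix_of_mem_wildSubgroup hq A hA _ hσ
    exact ⟨a, fun x hx => ha x (IntermediateField.le_normalClosure E hx)⟩
  · have hfin : Finite (tameChar (K := ℚ) A π hπ0).range :=
      (finite_range_tameChar (K := ℚ) π hπ0).to_subtype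
    have hcyc : IsCyclic (tameChar (K := ℚ) A π hπ0).range := inferInstance
    obtain ⟨g, hg⟩ := hcyc.exists_generator
    obtain ⟨s, hs⟩ := g.2
    refine ⟨s.1, s.2, fun σ hσ => ?_⟩
    have hmem : (⟨tameChar A π hπ0 ⟨σ, hσ⟩, ⟨_, rfl⟩⟩ : (tameChar (K := ℚ) A π hπ0).range) ∈
        Submonoid.powers g := by
      rw [mem_powers_iff_mem_zpowers]
      exact hg _
    obtain ⟨n, hn⟩ := hmem
    set w : ↥(A.inertiaSubgroupIn ℚ) := (s ^ n)⁻¹ * ⟨σ, hσ⟩ with hw
    have hwval : (w : GQ) = (s.1 ^ n)⁻¹ * σ := by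
      rw [hw, Subgroup.coe_mul, Subgroup.coe_inv, Subgroup.coe_pow]
    have h1 : tameChar A π hπ0 w = 1 := by
      have h2 : tameChar A π hπ0 ⟨σ, hσ⟩ = tameChar A π hπ0 s ^ n := by
        have := congrArg
          (fun u : (tameChar (K := ℚ) A π hπ0).range => (u : (ResidueField A)ˣ)) hn
        simp only [SubmonoidClass.coe_pow] at this
        rw [hs]
        exact this.symm
      rw [hw, map_mul, map_inv, map_pow, h2, inv_mul_cancel]
    refine ⟨n, (w : GQ), hker w h1, ?_⟩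
    rw [hwval, mul_inv_cancel_left]
  · intro φ hφ σ hσ
    have hconj : φ * σ * φ⁻¹ ∈ A.inertiaSubgroupIn ℚ :=
      conj_mem_inertiaSubgroupIn hφ.mem_decompositionSubgroup hσ
    have h2 : tameChar A π hπ0 ⟨φ * σ * φ⁻¹, hconj⟩ = tameChar A π hπ0 ⟨σ, hσ⟩ ^ q := by
      apply Units.ext
      rw [Units.val_pow_eq_pow_val, coe_tameChar, coe_tameChar]
      exact mult_conj_of_isFrobeniusAt hφ hσ hπ0
    set w : ↥(A.inertiaSubgroupIn ℚ) := (⟨σ, hσ⟩ ^ q)⁻¹ * ⟨φ * σ * φ⁻¹, hconj⟩ with hw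
    have hwval : (w : GQ) = (σ ^ q)⁻¹ * (φ * σ * φ⁻¹) := by
      rw [hw, Subgroup.coe_mul, Subgroup.coe_inv, Subgroup.coe_pow]
    have h1 : tameChar A π hπ0 w = 1 := by
      rw [hw, map_mul, map_inv, map_pow, h2, inv_mul_cancel]
    refine ⟨(w : GQ), hker w h1, ?_⟩
    rw [hwval, mul_inv_cancel_left]

include hq hA in
/-- **Structure of `ρ` on inertia**, homomorphism form of `exists_wildSubgroup` (no hypothesis
on the order of `ρ` on inertia): there is `W ≤ I` normalised by `D` with `ρ(W)` consisting of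
elements of `q`-power order, `I/W` of exponent prime to `q` elementwise, `I = ⟨s⟩ W` and
`φ σ φ⁻¹ ∈ σ ^ q W`. -/
theorem exists_wildSubgroup_hom {H : Type} [Monoid H] (ρ : GQ →* H)
    (hρ : GaloisFactorsThroughFiniteLevel ρ) :
    ∃ W : Subgroup GQ, W ≤ A.inertiaSubgroupIn ℚ ∧
      (∀ τ ∈ A.decompositionSubgroup ℚ, ∀ σ ∈ W, τ * σ * τ⁻¹ ∈ W) ∧
      (∀ σ ∈ W, ∃ a : ℕ, ρ σ ^ (q ^ a) = 1) ∧
      (∀ σ ∈ A.inertiaSubgroupIn ℚ, ∃ n : ℕ, 0 < n ∧ ¬ q ∣ n ∧ σ ^ n ∈ W) ∧
      (∃ s ∈ A.inertiaSubgroupIn ℚ, ∀ σ ∈ A.inertiaSubgroupIn ℚ,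
        ∃ (n : ℕ) (w : GQ), w ∈ W ∧ σ = s ^ n * w) ∧
      (∀ φ : GQ, A.IsFrobeniusAt φ q → ∀ σ ∈ A.inertiaSubgroupIn ℚ,
        ∃ w : GQ, w ∈ W ∧ φ * σ * φ⁻¹ = σ ^ q * w) := by
  obtain ⟨E, hEfd, hE⟩ := hρ
  obtain ⟨W, hWI, hWD, hWq, hWn, hWs, hWφ⟩ := exists_wildSubgroup hq A hA E
  refine ⟨W, hWI, hWD, fun σ hσ => ?_, hWn, hWs, hWφ⟩
  obtain ⟨a, ha⟩ := hWq σ hσ
  exact ⟨a, by rw [← map_pow]; exact hE _ ha⟩

/-! ## Forms for homomorphisms on the decomposition group -/

omit hq hA in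
/-- Membership in Mathlib's inertia subgroup of the decomposition group, in terms of the Prelude
inertia subgroup of the Galois group. -/
theorem mem_inertiaSubgroup_iff (σ : ↥(A.decompositionSubgroup ℚ)) :
    σ ∈ A.inertiaSubgroup ℚ ↔ (σ : GQ) ∈ A.inertiaSubgroupIn ℚ := by
  rw [Fermat.Agent.S05.helper4205.mem_inertiaSubgroupIn_iff]
  exact ⟨fun h => ⟨σ.2, h⟩, fun ⟨_, h⟩ => h⟩

include hq hA in
/-- **(T1) on the decomposition group.**  A homomorphism `Ψ` on the decomposition group `D` at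
`A` which is trivial on `D ∩ Gal(ℚ̄/E)` for a finite level `E` and whose values on the inertia
subgroup have order prime to `q` has cyclic image of inertia. -/
theorem tame_cyclic_dec {H : Type*} [Monoid H] (Ψ : ↥(A.decompositionSubgroup ℚ) →* H)
    (E : IntermediateField ℚ Qb) (hE : FiniteDimensional ℚ E)
    (hΨ : ∀ u : ↥(A.decompositionSubgroup ℚ), (u : GQ) ∈ E.fixingSubgroup → Ψ u = 1)
    (hcop : ∀ σ ∈ A.inertiaSubgroup ℚ, ∃ n : ℕ, n.Coprime q ∧ Ψ σ ^ n = 1) :
    ∃ s ∈ A.inertiaSubgroup ℚ, ∀ σ ∈ A.inertiaSubgroup ℚ, ∃ n : ℕ, Ψ σ = Ψ s ^ n := by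
  obtain ⟨s, hs, hgen⟩ := tame_cyclic_elt hq A hA E
  have hsD := Fermat.Agent.S05.helper4205.mem_decomposition_of_mem_inertiaSubgroupIn hs
  refine ⟨⟨s, hsD⟩, (mem_inertiaSubgroup_iff A _).mpr hs, fun σ hσ => ?_⟩
  obtain ⟨n, w, m, hw, hσw, hfix⟩ := hgen σ.1 ((mem_inertiaSubgroup_iff A σ).mp hσ)
  have hwD := Fermat.Agent.S05.helper4205.mem_decomposition_of_mem_inertiaSubgroupIn hw
  refine ⟨n, ?_⟩
  have hσeq : σ = (⟨s, hsD⟩ : ↥(A.decompositionSubgroup ℚ)) ^ n * ⟨w, hwD⟩ := by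
    apply Subtype.ext
    rw [Subgroup.coe_mul, Subgroup.coe_pow]
    exact hσw
  obtain ⟨k, hk, hk1⟩ := hcop ⟨w, hwD⟩ ((mem_inertiaSubgroup_iff A _).mpr hw)
  have h1 : Ψ ⟨w, hwD⟩ ^ (q ^ m) = 1 := by
    rw [← map_pow]
    apply hΨ
    rw [IntermediateField.mem_fixingSubgroup_iff]
    intro x hx
    rw [Subgroup.coe_pow]
    exact hfix x hx
  rw [hσeq, map_mul, map_pow, eq_one_of_pow_eq_one_of_coprime h1 hk hk1, mul_one]

include hq hA in
/-- **(T2) on the decomposition group.**  For `Ψ` as in `tame_cyclic_dec`, a Frobenius element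
`φ` and `σ` in the inertia subgroup: `Ψ (φ σ φ⁻¹) = Ψ σ ^ q`. -/
theorem tame_frobenius_dec {H : Type*} [Monoid H] (Ψ : ↥(A.decompositionSubgroup ℚ) →* H)
    (E : IntermediateField ℚ Qb) (hE : FiniteDimensional ℚ E)
    (hΨ : ∀ u : ↥(A.decompositionSubgroup ℚ), (u : GQ) ∈ E.fixingSubgroup → Ψ u = 1)
    (hcop : ∀ σ ∈ A.inertiaSubgroup ℚ, ∃ n : ℕ, n.Coprime q ∧ Ψ σ ^ n = 1)
    (φ : ↥(A.decompositionSubgroup ℚ)) (hφ : A.IsFrobeniusAt (φ : GQ) q)
    (σ : ↥(A.decompositionSubgroup ℚ)) (hσ : σ ∈ A.inertiaSubgroup ℚ) :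
    Ψ (φ * σ * φ⁻¹) = Ψ σ ^ q := by
  obtain ⟨w, m, hw, hσw, hfix⟩ := tame_frobenius_elt hq A hA E φ.1 hφ σ.1
    ((mem_inertiaSubgroup_iff A σ).mp hσ)
  have hwD := Fermat.Agent.S05.helper4205.mem_decomposition_of_mem_inertiaSubgroupIn hw
  have hσeq : φ * σ * φ⁻¹ = σ ^ q * (⟨w, hwD⟩ : ↥(A.decompositionSubgroup ℚ)) := by
    apply Subtype.ext
    rw [Subgroup.coe_mul, Subgroup.coe_mul, Subgroup.coe_inv, Subgroup.coe_mul,
      Subgroup.coe_pow]
    exact hσw
  obtain ⟨k, hk, hk1⟩ := hcop ⟨w, hwD⟩ ((mem_inertiaSubgroup_iff A _).mpr hw)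
  have h1 : Ψ ⟨w, hwD⟩ ^ (q ^ m) = 1 := by
    rw [← map_pow]
    apply hΨ
    rw [IntermediateField.mem_fixingSubgroup_iff]
    intro x hx
    rw [Subgroup.coe_pow]
    exact hfix x hx
  rw [hσeq, map_mul, map_pow, eq_one_of_pow_eq_one_of_coprime h1 hk hk1, mul_one]

include hq hA in
/-- **(T3) on the decomposition group.**  For a homomorphism `Ψ` on the decomposition group `D`
at `A` which is trivial on `D ∩ Gal(ℚ̄/E)` for a finite level `E`, a Frobenius element `φ` and
`τ ∈ D`: `Ψ τ = Ψ (φ ^ n) * Ψ σ` with `σ` in the inertia subgroup. -/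
theorem decomposition_eq_dec {H : Type*} [Monoid H] (Ψ : ↥(A.decompositionSubgroup ℚ) →* H)
    (E : IntermediateField ℚ Qb) (hE : FiniteDimensional ℚ E)
    (hΨ : ∀ u : ↥(A.decompositionSubgroup ℚ), (u : GQ) ∈ E.fixingSubgroup → Ψ u = 1)
    (φ : ↥(A.decompositionSubgroup ℚ)) (hφ : A.IsFrobeniusAt (φ : GQ) q)
    (τ : ↥(A.decompositionSubgroup ℚ)) :
    ∃ n : ℕ, ∃ σ ∈ A.inertiaSubgroup ℚ, Ψ τ = Ψ (φ ^ n) * Ψ σ := by
  obtain ⟨n, σ, hσ, hfix⟩ := decomposition_elt hq A hA E φ.1 hφ τ.1 τ.2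
  have hσD := Fermat.Agent.S05.helper4205.mem_decomposition_of_mem_inertiaSubgroupIn hσ
  refine ⟨n, ⟨σ, hσD⟩, (mem_inertiaSubgroup_iff A _).mpr hσ, ?_⟩
  have h1 : Ψ ((φ ^ n * ⟨σ, hσD⟩)⁻¹ * τ) = 1 := by
    apply hΨ
    rw [IntermediateField.mem_fixingSubgroup_iff]
    intro x hx
    rw [Subgroup.coe_mul, Subgroup.coe_inv, Subgroup.coe_mul, Subgroup.coe_pow,
      AlgEquiv.mul_apply, hfix x hx, ← AlgEquiv.mul_apply, inv_mul_cancel, AlgEquiv.one_apply]
  have h2 : Ψ τ = Ψ (φ ^ n * ⟨σ, hσD⟩) * Ψ ((φ ^ n * ⟨σ, hσD⟩)⁻¹ * τ) := by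
    rw [← map_mul, mul_inv_cancel_left]
  rw [h2, h1, mul_one, map_mul]

end wildqbar

end Fermat.Agent.S56.helper6024
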