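/-
S56 (Taylor–Wiles primes and the generator bound), TOP SPEC.  Author: helper2229.

This file fixes the interface between the top wiring of S56 and everything below it:

* `TanBound 𝒪 ρbar 𝒟 N` : every finite family of pairwise non-equivalent lifts of `ρbar` of
  type `𝒟` over the dual numbers `k[ε]` (`k = ResidueField 𝒪`, with the `𝒪`-algebra structure
  `Fermat.Agent.S53.helper413.dualAlgebra`) has at most `N` members.
* `condSO`, `condFL` : the two deformation conditions of the frozen statement, as named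
  constants (definitionally the two lambdas of the frozen statement).
* `FrozenHyp`, `IsTWFamily` : the hypotheses of the frozen statement and its three clauses on
  the Taylor–Wiles primes, bundled.
* `Stmt_CountSO`, `Stmt_CountFL` : the two deep inputs ("Selmer count"): under the frozen
  hypotheses there is `r` such that for every `n` there are `r` Taylor–Wiles primes of level `n`
  for which the lifts over `k[ε]` of type `condSO` (resp. `condFL`) are at most `(#k) ^ r`.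
* `Stmt_CNL` (generator bound from the tangent bound) and `Stmt_StableSO`, `Stmt_StableFL`
  (stability of the conditions under surjective base change) : the two commutative-algebra
  inputs of the top wiring, stated here as closed `Prop`s.
* `result_of` : the LITERAL frozen statement S56 from these five `Prop`s.
-/
import Mathlib
import Fermat.Prelude.Def_GaloisRep_DeformationRingData
import Fermat.Prelude.Def_GaloisRep_LocalConditions
import Fermat.Prelude.Def_GaloisRep_StrictOrdinary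
import Fermat.Prelude.Def_GaloisRep_Flat
import Fermat.Prelude.Def_GaloisRep_Residual
import Fermat.Agent.S53.helper413_Tangent

set_option autoImplicit false

namespace Fermat.Agent.S56.helper2229

open Polynomial IsLocalRing

attribute [local instance] Fermat.Agent.S53.helper413.dualAlgebra

/-! ### The tangent bound -/

/-- **Tangent bound** (family form).  Every finite family of pairwise non-equivalent lifts of
`ρbar` of type `𝒟` to the dual numbers `k[ε]`, `k = ResidueField 𝒪`, has at most `N` members.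
Here `k[ε] = DualNumber (ResidueField 𝒪)` carries the `𝒪`-algebra structure
`Fermat.Agent.S53.helper413.dualAlgebra` (the one of the frozen `GaloisRep.TangentFinite`). -/
def TanBound (𝒪 : Type) [CommRing 𝒪] [IsLocalRing 𝒪]
    (ρbar : ResidualGaloisRep (ResidueField 𝒪))
    (𝒟 : ∀ ⦃A : Type⦄ [CommRing A] [IsLocalRing A] [Algebra 𝒪 A], GaloisRepAdic A → Prop)
    (N : ℕ) : Prop :=
  ∀ (m : ℕ) (ρs : Fin m → GaloisRepAdic (DualNumber (ResidueField 𝒪))),
    (∀ i, 𝒟 (ρs i)) →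
    (∀ i, (ρs i).residual.IsEquiv (ρbar.baseChangeAlong
      (IsLocalRing.ResidueField.map (algebraMap 𝒪 (DualNumber (ResidueField 𝒪)))))) →
    (∀ i j, (ρs i).IsEquiv (ρs j) → i = j) → m ≤ N

theorem TanBound.mono {𝒪 : Type} [CommRing 𝒪] [IsLocalRing 𝒪]
    {ρbar : ResidualGaloisRep (ResidueField 𝒪)}
    {𝒟 : ∀ ⦃A : Type⦄ [CommRing A] [IsLocalRing A] [Algebra 𝒪 A], GaloisRepAdic A → Prop}
    {N N' : ℕ} (h : TanBound 𝒪 ρbar 𝒟 N) (hN : N ≤ N') : TanBound 𝒪 ρbar 𝒟 N' :=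
  fun m ρs h1 h2 h3 => (h m ρs h1 h2 h3).trans hN

/-- The tangent bound only depends on the restriction of the condition to `k[ε]`. -/
theorem TanBound.of_imp {𝒪 : Type} [CommRing 𝒪] [IsLocalRing 𝒪]
    {ρbar : ResidualGaloisRep (ResidueField 𝒪)}
    {𝒟 𝒟' : ∀ ⦃A : Type⦄ [CommRing A] [IsLocalRing A] [Algebra 𝒪 A], GaloisRepAdic A → Prop}
    {N : ℕ} (h : TanBound 𝒪 ρbar 𝒟 N)
    (himp : ∀ ρ : GaloisRepAdic (DualNumber (ResidueField 𝒪)), 𝒟' ρ → 𝒟 ρ) :
    TanBound 𝒪 ρbar 𝒟' N :=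
  fun m ρs h1 h2 h3 => h m ρs (fun i => himp _ (h1 i)) h2 h3

/-- Family form with an arbitrary finite index type. -/
theorem TanBound.card_le {𝒪 : Type} [CommRing 𝒪] [IsLocalRing 𝒪]
    {ρbar : ResidualGaloisRep (ResidueField 𝒪)}
    {𝒟 : ∀ ⦃A : Type⦄ [CommRing A] [IsLocalRing A] [Algebra 𝒪 A], GaloisRepAdic A → Prop}
    {N : ℕ} (h : TanBound 𝒪 ρbar 𝒟 N) {ι : Type*} [Finite ι]
    (ρs : ι → GaloisRepAdic (DualNumber (ResidueField 𝒪)))
    (h1 : ∀ i, 𝒟 (ρs i))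
    (h2 : ∀ i, (ρs i).residual.IsEquiv (ρbar.baseChangeAlong
      (IsLocalRing.ResidueField.map (algebraMap 𝒪 (DualNumber (ResidueField 𝒪))))))
    (h3 : ∀ i j, (ρs i).IsEquiv (ρs j) → i = j) : Nat.card ι ≤ N := by
  let e := Finite.equivFin ι
  refine h (Nat.card ι) (fun i => ρs (e.symm i)) (fun i => h1 _) (fun i => h2 _) ?_
  intro i j hij
  exact e.symm.injective (h3 _ _ hij)

/-- **Tangent bound from a class map.**  If the lifts of `ρbar` of type `𝒟` over `k[ε]` are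
classified, up to equivalence, by a map `cls` to a finite type `X` (equal classes ⟹ equivalent
lifts) and `#X ≤ N`, then the tangent bound `N` holds.  (`cls ρ h₁ h₂` may depend on the proofs
that `ρ` is of type `𝒟` and lifts `ρbar`.) -/
theorem TanBound.of_class {𝒪 : Type} [CommRing 𝒪] [IsLocalRing 𝒪]
    {ρbar : ResidualGaloisRep (ResidueField 𝒪)}
    {𝒟 : ∀ ⦃A : Type⦄ [CommRing A] [IsLocalRing A] [Algebra 𝒪 A], GaloisRepAdic A → Prop}
    {N : ℕ} {X : Type*} [Finite X]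
    (cls : ∀ ρ : GaloisRepAdic (DualNumber (ResidueField 𝒪)), 𝒟 ρ →
      ρ.residual.IsEquiv (ρbar.baseChangeAlong
        (IsLocalRing.ResidueField.map (algebraMap 𝒪 (DualNumber (ResidueField 𝒪))))) → X)
    (hinj : ∀ (ρ ρ' : GaloisRepAdic (DualNumber (ResidueField 𝒪))) (h₁ : 𝒟 ρ) (h₁' : 𝒟 ρ')
      (h₂ : ρ.residual.IsEquiv (ρbar.baseChangeAlong
        (IsLocalRing.ResidueField.map (algebraMap 𝒪 (DualNumber (ResidueField 𝒪))))))
      (h₂' : ρ'.residual.IsEquiv (ρbar.baseChangeAlong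
        (IsLocalRing.ResidueField.map (algebraMap 𝒪 (DualNumber (ResidueField 𝒪)))))),
      cls ρ h₁ h₂ = cls ρ' h₁' h₂' → ρ.IsEquiv ρ')
    (hN : Nat.card X ≤ N) : TanBound 𝒪 ρbar 𝒟 N := by
  intro m ρs h1 h2 h3
  have hinj' : Function.Injective (fun i : Fin m => cls (ρs i) (h1 i) (h2 i)) :=
    fun i j hij => h3 i j (hinj _ _ _ _ _ _ hij)
  have h := Nat.card_le_card_of_injective _ hinj'
  rw [Nat.card_fin] at h
  exact h.trans hN

/-- **Tangent bound from a class map into an `𝔽_p`-vector space.**  As `TanBound.of_class`, with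
`X = W` an `𝔽_p`-vector space of dimension at most `f * r`, where `#k = p ^ f`: the tangent
bound `(#k) ^ r` holds.  This is the form in which a Selmer group bound
`finrank_{𝔽_p} Sel ≤ [k : 𝔽_p] * r` is consumed. -/
theorem TanBound.of_class_finrank {𝒪 : Type} [CommRing 𝒪] [IsLocalRing 𝒪]
    {ρbar : ResidualGaloisRep (ResidueField 𝒪)}
    {𝒟 : ∀ ⦃A : Type⦄ [CommRing A] [IsLocalRing A] [Algebra 𝒪 A], GaloisRepAdic A → Prop}
    {p : ℕ} [Fact p.Prime] {W : Type*} [AddCommGroup W] [Module (ZMod p) W]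
    [FiniteDimensional (ZMod p) W]
    (cls : ∀ ρ : GaloisRepAdic (DualNumber (ResidueField 𝒪)), 𝒟 ρ →
      ρ.residual.IsEquiv (ρbar.baseChangeAlong
        (IsLocalRing.ResidueField.map (algebraMap 𝒪 (DualNumber (ResidueField 𝒪))))) → W)
    (hinj : ∀ (ρ ρ' : GaloisRepAdic (DualNumber (ResidueField 𝒪))) (h₁ : 𝒟 ρ) (h₁' : 𝒟 ρ')
      (h₂ : ρ.residual.IsEquiv (ρbar.baseChangeAlong
        (IsLocalRing.ResidueField.map (algebraMap 𝒪 (DualNumber (ResidueField 𝒪))))))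
      (h₂' : ρ'.residual.IsEquiv (ρbar.baseChangeAlong
        (IsLocalRing.ResidueField.map (algebraMap 𝒪 (DualNumber (ResidueField 𝒪)))))),
      cls ρ h₁ h₂ = cls ρ' h₁' h₂' → ρ.IsEquiv ρ')
    {f r : ℕ} (hk : Nat.card (ResidueField 𝒪) = p ^ f)
    (hW : Module.finrank (ZMod p) W ≤ f * r) :
    TanBound 𝒪 ρbar 𝒟 (Nat.card (ResidueField 𝒪) ^ r) := by
  have hfin : Finite W := Module.finite_of_finite (ZMod p)
  refine TanBound.of_class cls hinj ?_
  rw [Module.natCard_eq_pow_finrank (K := ZMod p) (V := W), Nat.card_zmod, hk, ← pow_mul]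
  exact Nat.pow_le_pow_right (Fact.out : p.Prime).pos hW

/-! ### The two conditions of the frozen statement -/

/-- The strict-ordinary condition of the frozen statement S56: `strictOrdinaryCondition` for the
ramification set `T`, and unipotent inertia at the primes of `Smin` other than `p`. -/
def condSO (𝒪 : Type) [CommRing 𝒪] (p : ℕ) (Smin T : Finset ℕ) :
    ∀ ⦃A : Type⦄ [CommRing A] [IsLocalRing A] [Algebra 𝒪 A], GaloisRepAdic A → Prop :=
  fun _A _ _ _ ρ => GaloisRep.strictOrdinaryCondition 𝒪 p T ρ ∧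
    ∀ q ∈ Smin, q.Prime → q ≠ p → ρ.IsUnipotentOnInertiaAt q

/-- The flat condition of the frozen statement S56: `flatCondition` for the ramification set
`T`, and unipotent inertia at the primes of `Smin` other than `p`. -/
def condFL (𝒪 : Type) [CommRing 𝒪] (p : ℕ) (Smin T : Finset ℕ) :
    ∀ ⦃A : Type⦄ [CommRing A] [IsLocalRing A] [Algebra 𝒪 A], GaloisRepAdic A → Prop :=
  fun _A _ _ _ ρ => GaloisRep.flatCondition 𝒪 p T ρ ∧
    ∀ q ∈ Smin, q.Prime → q ≠ p → ρ.IsUnipotentOnInertiaAt q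

theorem condSO_iff {𝒪 : Type} [CommRing 𝒪] {p : ℕ} {Smin T : Finset ℕ}
    {A : Type} [CommRing A] [IsLocalRing A] [Algebra 𝒪 A] (ρ : GaloisRepAdic A) :
    condSO 𝒪 p Smin T ρ ↔
      (ρ.DetIsCyclotomic p ∧ ρ.IsStrictOrdinaryAt p ∧
        ∀ q : ℕ, q.Prime → q ∉ T → ρ.IsUnramifiedAt q) ∧
      ∀ q ∈ Smin, q.Prime → q ≠ p → ρ.IsUnipotentOnInertiaAt q := Iff.rfl

theorem condFL_iff {𝒪 : Type} [CommRing 𝒪] {p : ℕ} {Smin T : Finset ℕ}
    {A : Type} [CommRing A] [IsLocalRing A] [Algebra 𝒪 A] (ρ : GaloisRepAdic A) :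
    condFL 𝒪 p Smin T ρ ↔
      (ρ.DetIsCyclotomic p ∧ ρ.IsFlatAt p ∧
        ∀ q : ℕ, q.Prime → q ∉ T → ρ.IsUnramifiedAt q) ∧
      ∀ q ∈ Smin, q.Prime → q ≠ p → ρ.IsUnipotentOnInertiaAt q := Iff.rfl

/-! ### The hypotheses of the frozen statement -/

/-- The hypotheses of the frozen statement S56 (other than the instance hypotheses on `𝒪` and
`Fact p.Prime`), verbatim. -/
structure FrozenHyp (𝒪 : Type) [CommRing 𝒪] [IsLocalRing 𝒪] (p : ℕ)
    (ρbar : ResidualGaloisRep (ResidueField 𝒪)) (S Smin : Finset ℕ) : Prop where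
  hp2 : p ≠ 2
  hp𝒪 : (p : 𝒪) ∈ maximalIdeal 𝒪
  habs : ρbar.IsAbsolutelyIrreducible
  hdet : (GaloisRepAdic.ofResidualGaloisRep ρbar).DetIsCyclotomic p
  hsplit : ∀ σ : AlgebraicClosure ℚ ≃ₐ[ℚ] AlgebraicClosure ℚ,
    ∃ α β : ResidueField 𝒪, LinearMap.charpoly (ρbar.ρ σ) = (X - C α) * (X - C β)
  hTW : ∀ (K : Type) [Field K] [Algebra (ResidueField 𝒪) K]
    (G : Subgroup (AlgebraicClosure ℚ ≃ₐ[ℚ] AlgebraicClosure ℚ)), G.index = 2 →
    ∀ V : Submodule K (ρbar.baseChange K).V,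
      (∀ σ ∈ G, ∀ x ∈ V, (ρbar.baseChange K).ρ σ x ∈ V) → V = ⊥ ∨ V = ⊤
  hpSmin : p ∈ Smin
  hSmin : Smin ⊆ S
  hS : ∀ q ∈ S, q.Prime
  hmin : ∀ q : ℕ, q.Prime → q ≠ p → (q ∈ Smin ↔ ¬ ρbar.IsUnramifiedAt q)

/-- The three clauses of the frozen statement S56 on a family `qv` of `r` Taylor–Wiles primes
of level `n`, verbatim: injective; prime, outside `S`, `≡ 1 mod p ^ (n + 1)`; every Frobenius
has two distinct eigenvalues in `k`. -/
def IsTWFamily (𝒪 : Type) [CommRing 𝒪] [IsLocalRing 𝒪] (p : ℕ)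
    (ρbar : ResidualGaloisRep (ResidueField 𝒪)) (S : Finset ℕ) (n : ℕ) {r : ℕ}
    (qv : Fin r → ℕ) : Prop :=
  Function.Injective qv ∧
  (∀ i, (qv i).Prime ∧ qv i ∉ S ∧ p ^ (n + 1) ∣ qv i - 1) ∧
  (∀ i, ∀ P : ValuationSubring (AlgebraicClosure ℚ), P.LiesOverPrime (qv i) →
    ∀ φ : AlgebraicClosure ℚ ≃ₐ[ℚ] AlgebraicClosure ℚ, P.IsFrobeniusAt φ (qv i) →
      ∃ α β : ResidueField 𝒪, α ≠ β ∧ LinearMap.charpoly (ρbar.ρ φ) = (X - C α) * (X - C β))

/-! ### The deep inputs: the two Selmer counts -/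

/-- **Count, strict-ordinary half.**  Under the frozen hypotheses there is `r` such that for
every level `n` there is a family of `r` Taylor–Wiles primes for which the lifts of `ρbar` over
`k[ε]` of the strict-ordinary type (ramification allowed in `Smin ∪ Q`) satisfy the tangent
bound `(#k) ^ r`. -/
def Stmt_CountSO : Prop :=
  ∀ {𝒪 : Type} [CommRing 𝒪] [IsDomain 𝒪] [IsDiscreteValuationRing 𝒪]
    [IsAdicComplete (maximalIdeal 𝒪) 𝒪] [Finite (ResidueField 𝒪)]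
    (p : ℕ) [Fact p.Prime] (ρbar : ResidualGaloisRep (ResidueField 𝒪)) (S Smin : Finset ℕ),
    FrozenHyp 𝒪 p ρbar S Smin →
    ∃ r : ℕ, ∀ n : ℕ, ∃ qv : Fin r → ℕ, IsTWFamily 𝒪 p ρbar S n qv ∧
      TanBound 𝒪 ρbar (condSO 𝒪 p Smin (Smin ∪ Finset.univ.image qv))
        (Nat.card (ResidueField 𝒪) ^ r)

/-- **Count, flat half.**  As `Stmt_CountSO`, for the flat type. -/
def Stmt_CountFL : Prop :=
  ∀ {𝒪 : Type} [CommRing 𝒪] [IsDomain 𝒪] [IsDiscreteValuationRing 𝒪]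
    [IsAdicComplete (maximalIdeal 𝒪) 𝒪] [Finite (ResidueField 𝒪)]
    (p : ℕ) [Fact p.Prime] (ρbar : ResidualGaloisRep (ResidueField 𝒪)) (S Smin : Finset ℕ),
    FrozenHyp 𝒪 p ρbar S Smin →
    ∃ r : ℕ, ∀ n : ℕ, ∃ qv : Fin r → ℕ, IsTWFamily 𝒪 p ρbar S n qv ∧
      TanBound 𝒪 ρbar (condFL 𝒪 p Smin (Smin ∪ Finset.univ.image qv))
        (Nat.card (ResidueField 𝒪) ^ r)

/-! ### The commutative-algebra inputs of the top wiring -/

/-- **Generator bound from the tangent bound** (complete noetherian local `𝒪`-algebras).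
If the condition `𝒟` passes from the universal deformation to its base changes along the
SURJECTIVE `𝒪`-algebra maps `R → k[ε]` and the lifts of type `𝒟` over `k[ε]` satisfy the tangent
bound `(#k) ^ r`, then the deformation ring `R` is a quotient of `𝒪⟦X₁, …, X_r⟧`.
(`3 ≤ #k` pays for the trivial map `R → k → k[ε]`, which is not base-changed.) -/
def Stmt_CNL : Prop :=
  ∀ {𝒪 : Type} [CommRing 𝒪] [IsDomain 𝒪] [IsDiscreteValuationRing 𝒪]
    [IsAdicComplete (maximalIdeal 𝒪) 𝒪] [Finite (ResidueField 𝒪)],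
    3 ≤ Nat.card (ResidueField 𝒪) →
    ∀ (ρbar : ResidualGaloisRep (ResidueField 𝒪))
      (𝒟 : ∀ ⦃A : Type⦄ [CommRing A] [IsLocalRing A] [Algebra 𝒪 A], GaloisRepAdic A → Prop)
      (DQ : GaloisRep.DeformationRingData 𝒪 ρbar 𝒟) (r : ℕ),
      (∀ (φ : DQ.R →ₐ[𝒪] DualNumber (ResidueField 𝒪))
          (hφ : IsLocalHom (φ : DQ.R →+* DualNumber (ResidueField 𝒪))),
          Function.Surjective φ →
          𝒟 (DQ.ρ.baseChangeAlong (φ : DQ.R →+* DualNumber (ResidueField 𝒪)) hφ)) →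
      TanBound 𝒪 ρbar 𝒟 (Nat.card (ResidueField 𝒪) ^ r) →
      ∃ γ : MvPowerSeries (Fin r) 𝒪 →ₐ[𝒪] DQ.R, Function.Surjective γ

/-- **Stability of the strict-ordinary condition** under base change along a surjective local
homomorphism of local rings. -/
def Stmt_StableSO : Prop :=
  ∀ (𝒪 : Type) [CommRing 𝒪] (p : ℕ) (Smin T : Finset ℕ)
    (A B : Type) [CommRing A] [IsLocalRing A] [Algebra 𝒪 A]
    [CommRing B] [IsLocalRing B] [Algebra 𝒪 B]
    (φ : A →+* B) (hφ : IsLocalHom φ), Function.Surjective φ →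
    ∀ ρ : GaloisRepAdic A, condSO 𝒪 p Smin T ρ → condSO 𝒪 p Smin T (ρ.baseChangeAlong φ hφ)

/-- **Stability of the flat condition** under base change along a surjective local
homomorphism of local rings. -/
def Stmt_StableFL : Prop :=
  ∀ (𝒪 : Type) [CommRing 𝒪] (p : ℕ) (Smin T : Finset ℕ)
    (A B : Type) [CommRing A] [IsLocalRing A] [Algebra 𝒪 A]
    [CommRing B] [IsLocalRing B] [Algebra 𝒪 B]
    (φ : A →+* B) (hφ : IsLocalHom φ), Function.Surjective φ →
    ∀ ρ : GaloisRepAdic A, condFL 𝒪 p Smin T ρ → condFL 𝒪 p Smin T (ρ.baseChangeAlong φ hφ)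

/-! ### Assembly -/

/-- A finite residue field of odd residue characteristic has at least three elements. -/
theorem three_le_card_residueField {𝒪 : Type} [CommRing 𝒪] [IsLocalRing 𝒪]
    [Finite (ResidueField 𝒪)] {p : ℕ} (hp : p.Prime) (hp2 : p ≠ 2)
    (hp𝒪 : (p : 𝒪) ∈ maximalIdeal 𝒪) : 3 ≤ Nat.card (ResidueField 𝒪) := by
  classical
  have hp0 : (p : ResidueField 𝒪) = 0 := by
    have h := (residue_eq_zero_iff (p : 𝒪)).2 hp𝒪
    rwa [map_natCast] at h
  have h2 : (2 : ResidueField 𝒪) ≠ 0 := by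
    intro h
    obtain ⟨m, hm⟩ := hp.eq_two_or_odd'.resolve_left hp2
    have h1 : (p : ResidueField 𝒪) = 1 := by
      rw [hm]
      push_cast
      rw [h, zero_mul, zero_add]
    rw [hp0] at h1
    exact zero_ne_one h1
  have h12 : (1 : ResidueField 𝒪) ≠ 2 := by
    intro h
    have h3 : (2 : ResidueField 𝒪) = 1 + 1 := by norm_num
    rw [h3] at h
    simp at h
  let _ := Fintype.ofFinite (ResidueField 𝒪)
  rw [Nat.card_eq_fintype_card]
  have hc : ({0, 1, 2} : Finset (ResidueField 𝒪)).card = 3 :=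
    Finset.card_eq_three.2 ⟨0, 1, 2, zero_ne_one, h2.symm, h12, rfl⟩
  rw [← hc]
  exact Finset.card_le_univ _

/-- **TOP of S56.**  The literal frozen statement S56 from the two Selmer counts, the generator
bound and the stability of the two conditions under surjective base change. -/
theorem result_of (hCNL : Stmt_CNL) (hStSO : Stmt_StableSO) (hStFL : Stmt_StableFL)
    (hSO : Stmt_CountSO) (hFL : Stmt_CountFL)
    {𝒪 : Type} [CommRing 𝒪] [IsDomain 𝒪] [IsDiscreteValuationRing 𝒪]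
    [IsAdicComplete (maximalIdeal 𝒪) 𝒪] [Finite (ResidueField 𝒪)]
    (p : ℕ) [Fact p.Prime] (hp2 : p ≠ 2) (hp𝒪 : (p : 𝒪) ∈ maximalIdeal 𝒪)
    (ρbar : ResidualGaloisRep (ResidueField 𝒪))
    (habs : ρbar.IsAbsolutelyIrreducible)
    (hdet : (GaloisRepAdic.ofResidualGaloisRep ρbar).DetIsCyclotomic p)
    (hsplit : ∀ σ : AlgebraicClosure ℚ ≃ₐ[ℚ] AlgebraicClosure ℚ,
      ∃ α β : ResidueField 𝒪, LinearMap.charpoly (ρbar.ρ σ) = (X - C α) * (X - C β))
    (hTW : ∀ (K : Type) [Field K] [Algebra (ResidueField 𝒪) K]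
      (G : Subgroup (AlgebraicClosure ℚ ≃ₐ[ℚ] AlgebraicClosure ℚ)), G.index = 2 →
      ∀ V : Submodule K (ρbar.baseChange K).V,
        (∀ σ ∈ G, ∀ x ∈ V, (ρbar.baseChange K).ρ σ x ∈ V) → V = ⊥ ∨ V = ⊤)
    (S Smin : Finset ℕ) (hpSmin : p ∈ Smin) (hSmin : Smin ⊆ S) (hS : ∀ q ∈ S, q.Prime)
    (hmin : ∀ q : ℕ, q.Prime → q ≠ p → (q ∈ Smin ↔ ¬ ρbar.IsUnramifiedAt q)) :
    (∃ r : ℕ, ∀ n : ℕ, ∃ qv : Fin r → ℕ, Function.Injective qv ∧
      (∀ i, (qv i).Prime ∧ qv i ∉ S ∧ p ^ (n + 1) ∣ qv i - 1) ∧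
      (∀ i, ∀ P : ValuationSubring (AlgebraicClosure ℚ), P.LiesOverPrime (qv i) →
        ∀ φ : AlgebraicClosure ℚ ≃ₐ[ℚ] AlgebraicClosure ℚ, P.IsFrobeniusAt φ (qv i) →
          ∃ α β : ResidueField 𝒪, α ≠ β ∧ LinearMap.charpoly (ρbar.ρ φ) = (X - C α) * (X - C β)) ∧
      ∀ DQ : GaloisRep.DeformationRingData 𝒪 ρbar (fun _A _ _ _ ρ =>
          GaloisRep.strictOrdinaryCondition 𝒪 p (Smin ∪ Finset.univ.image qv) ρ ∧
            ∀ q ∈ Smin, q.Prime → q ≠ p → ρ.IsUnipotentOnInertiaAt q),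
        ∃ γ : MvPowerSeries (Fin r) 𝒪 →ₐ[𝒪] DQ.R, Function.Surjective γ) ∧
    (∃ r : ℕ, ∀ n : ℕ, ∃ qv : Fin r → ℕ, Function.Injective qv ∧
      (∀ i, (qv i).Prime ∧ qv i ∉ S ∧ p ^ (n + 1) ∣ qv i - 1) ∧
      (∀ i, ∀ P : ValuationSubring (AlgebraicClosure ℚ), P.LiesOverPrime (qv i) →
        ∀ φ : AlgebraicClosure ℚ ≃ₐ[ℚ] AlgebraicClosure ℚ, P.IsFrobeniusAt φ (qv i) →
          ∃ α β : ResidueField 𝒪, α ≠ β ∧ LinearMap.charpoly (ρbar.ρ φ) = (X - C α) * (X - C β)) ∧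
      ∀ DQ : GaloisRep.DeformationRingData 𝒪 ρbar (fun _A _ _ _ ρ =>
          GaloisRep.flatCondition 𝒪 p (Smin ∪ Finset.univ.image qv) ρ ∧
            ∀ q ∈ Smin, q.Prime → q ≠ p → ρ.IsUnipotentOnInertiaAt q),
        ∃ γ : MvPowerSeries (Fin r) 𝒪 →ₐ[𝒪] DQ.R, Function.Surjective γ) := by
  have hyp : FrozenHyp 𝒪 p ρbar S Smin :=
    ⟨hp2, hp𝒪, habs, hdet, hsplit, hTW, hpSmin, hSmin, hS, hmin⟩
  have hk : 3 ≤ Nat.card (ResidueField 𝒪) :=
    three_le_card_residueField (Fact.out : p.Prime) hp2 hp𝒪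
  refine ⟨?_, ?_⟩
  · obtain ⟨r, hr⟩ := hSO p ρbar S Smin hyp
    refine ⟨r, fun n => ?_⟩
    obtain ⟨qv, ⟨hinj, h1, h2⟩, hT⟩ := hr n
    refine ⟨qv, hinj, h1, h2, fun DQ => ?_⟩
    exact hCNL hk ρbar (condSO 𝒪 p Smin (Smin ∪ Finset.univ.image qv)) DQ r
      (fun φ hφ hsurj => hStSO 𝒪 p Smin _ DQ.R _ (φ : DQ.R →+* DualNumber (ResidueField 𝒪)) hφ
        hsurj DQ.ρ DQ.isOfType) hT
  · obtain ⟨r, hr⟩ := hFL p ρbar S Smin hyp
    refine ⟨r, fun n => ?_⟩
    obtain ⟨qv, ⟨hinj, h1, h2⟩, hT⟩ := hr n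
    refine ⟨qv, hinj, h1, h2, fun DQ => ?_⟩
    exact hCNL hk ρbar (condFL 𝒪 p Smin (Smin ∪ Finset.univ.image qv)) DQ r
      (fun φ hφ hsurj => hStFL 𝒪 p Smin _ DQ.R _ (φ : DQ.R →+* DualNumber (ResidueField 𝒪)) hφ
        hsurj DQ.ρ DQ.isOfType) hT

end Fermat.Agent.S56.helper2229
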