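/-
S56 FLAT-LOCAL, module LEVEL (helper4188): unit levels modulo `p`-th powers in a discretely
valued field containing a primitive `p`-th root of unity.  Mathlib only.

Carrier: a field `K`, a valuation `v : Valuation K Γ₀` (any value group), `ζ` a primitive `p`-th
root of unity, `lam := v (ζ - 1)`, and (where discreteness is needed) an element `π` which is a
uniformizer in the elementwise sense `IsUnif v π`.
-/
import Mathlib

set_option autoImplicit false

namespace Fermat.Agent.S56.helper4188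

open Finset Polynomial

variable {K : Type*} [Field K] {Γ₀ : Type*} [LinearOrderedCommGroupWithZero Γ₀]
  (v : Valuation K Γ₀)

/-! ### Roots of unity -/

theorem val_eq_one_of_pow_eq_one {x : K} {n : ℕ} (hn : n ≠ 0) (hx : x ^ n = 1) : v x = 1 := by
  have h : v x ^ n = 1 := by rw [← v.map_pow, hx, v.map_one]
  rcases lt_trichotomy (v x) 1 with h1 | h1 | h1
  · exact absurd h (ne_of_lt (pow_lt_one₀ zero_le h1 hn))
  · exact h1
  · exact absurd h (ne_of_gt (one_lt_pow₀ h1 hn))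

theorem val_pow_sub_one_le {ζ : K} (hζ : v ζ = 1) (k : ℕ) : v (ζ ^ k - 1) ≤ v (ζ - 1) := by
  rw [← mul_geom_sum ζ k, v.map_mul]
  have h : v (∑ i ∈ range k, ζ ^ i) ≤ 1 := by
    apply v.map_sum_le
    intro i _
    rw [v.map_pow, hζ, one_pow]
  calc v (ζ - 1) * v (∑ i ∈ range k, ζ ^ i) ≤ v (ζ - 1) * 1 := by gcongr
    _ = v (ζ - 1) := mul_one _

variable {p : ℕ}

theorem val_root_sub_one_le (hp : p.Prime) {ζ : K} (hζ : IsPrimitiveRoot ζ p) {ξ : K}
    (hξ : ξ ^ p = 1) : v (ξ - 1) ≤ v (ζ - 1) := by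
  have : NeZero p := ⟨hp.ne_zero⟩
  obtain ⟨i, -, rfl⟩ := hζ.eq_pow_of_pow_eq_one hξ
  exact val_pow_sub_one_le v (val_eq_one_of_pow_eq_one v hp.ne_zero hζ.pow_eq_one) i

theorem isPrimitiveRoot_of_ne_one (hp : p.Prime) {ξ : K} (hξ : ξ ^ p = 1) (hξ1 : ξ ≠ 1) :
    IsPrimitiveRoot ξ p := by
  have h := IsPrimitiveRoot.orderOf ξ
  have : Fact p.Prime := ⟨hp⟩
  have ho : orderOf ξ = p := orderOf_eq_prime hξ hξ1
  rwa [ho] at h

theorem val_root_sub_one_eq (hp : p.Prime) {ζ : K} (hζ : IsPrimitiveRoot ζ p) {ξ : K}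
    (hξ : ξ ^ p = 1) (hξ1 : ξ ≠ 1) : v (ξ - 1) = v (ζ - 1) :=
  le_antisymm (val_root_sub_one_le v hp hζ hξ)
    (val_root_sub_one_le v hp (isPrimitiveRoot_of_ne_one hp hξ hξ1) hζ.pow_eq_one)

/-! ### The key product estimate -/

theorem val_prod_sub_one_lt {ι : Type*} (s : Finset ι) (f : ι → K)
    (h : ∀ i ∈ s, v (f i - 1) < 1) : v (∏ i ∈ s, f i - 1) < 1 := by
  classical
  induction s using Finset.induction_on with
  | empty => simp
  | insert a s ha ih =>
    rw [Finset.prod_insert ha]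
    have h1 : v (f a - 1) < 1 := h a (Finset.mem_insert_self a s)
    have h2 : v (∏ i ∈ s, f i - 1) < 1 := ih (fun i hi => h i (Finset.mem_insert_of_mem hi))
    have hfa : v (f a) = 1 := by
      have : f a = 1 + (f a - 1) := by ring
      rw [this]; exact v.map_one_add_of_lt h1
    have e : f a * ∏ i ∈ s, f i - 1 = f a * (∏ i ∈ s, f i - 1) + (f a - 1) := by ring
    rw [e]
    apply v.map_add_lt _ h1
    rw [v.map_mul, hfa, one_mul]; exact h2

/-- **Lemma A.** If `v (ζ - 1) < v c` then `(1 + c) ^ p - 1 = c ^ p * (1 + δ)` with `v δ < 1`. -/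
theorem exists_one_add_pow_sub_one (hp : p.Prime) {ζ : K} (hζ : IsPrimitiveRoot ζ p) {c : K}
    (hc : v (ζ - 1) < v c) : ∃ δ : K, v δ < 1 ∧ (1 + c) ^ p - 1 = c ^ p * (1 + δ) := by
  have hc0 : c ≠ 0 := by
    rintro rfl; simp at hc
  have hprod := hζ.pow_sub_pow_eq_prod_sub_mul (1 + c) 1 hp.pos
  rw [one_pow] at hprod
  refine ⟨∏ ξ ∈ nthRootsFinset p (1 : K), (1 - (ξ - 1) / c) - 1, ?_, ?_⟩
  · apply val_prod_sub_one_lt
    intro ξ hξ
    have hξ' : ξ ^ p = 1 := (mem_nthRootsFinset hp.pos 1).1 hξ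
    have e : 1 - (ξ - 1) / c - 1 = -((ξ - 1) / c) := by ring
    rw [e, v.map_neg, v.map_div]
    have hv0 : v c ≠ 0 := v.ne_zero_iff.2 hc0
    rw [div_lt_one₀ (lt_of_le_of_ne zero_le hv0.symm)]
    exact lt_of_le_of_lt (val_root_sub_one_le v hp hζ hξ') hc
  · rw [hprod]
    have e : ∀ ξ ∈ nthRootsFinset p (1 : K), (1 + c - ξ * 1) = c * (1 - (ξ - 1) / c) := by
      intro ξ _; field_simp; ring
    rw [Finset.prod_congr rfl e, Finset.prod_mul_distrib, Finset.prod_const,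
      hζ.card_nthRootsFinset]
    ring

/-- If `v (ζ - 1) < v (x - 1)` then `v (x ^ p - 1) = v (x - 1) ^ p`. -/
theorem val_pow_sub_one_of_lt (hp : p.Prime) {ζ : K} (hζ : IsPrimitiveRoot ζ p) {x : K}
    (hx : v (ζ - 1) < v (x - 1)) : v (x ^ p - 1) = v (x - 1) ^ p := by
  obtain ⟨δ, hδ, h⟩ := exists_one_add_pow_sub_one v hp hζ hx
  have e : (1 + (x - 1)) = x := by ring
  rw [e] at h
  rw [h, v.map_mul, v.map_pow, v.map_one_add_of_lt hδ, mul_one]

/-- **Lemma B.** If `v (x - 1) ≤ v (ζ - 1)` then `v (x ^ p - 1) ≤ v (ζ - 1) ^ p`. -/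
theorem val_pow_sub_one_le_of_le (hp : p.Prime) {ζ : K} (hζ : IsPrimitiveRoot ζ p) {x : K}
    (hx : v (x - 1) ≤ v (ζ - 1)) : v (x ^ p - 1) ≤ v (ζ - 1) ^ p := by
  have hprod := hζ.pow_sub_pow_eq_prod_sub_mul x 1 hp.pos
  rw [one_pow] at hprod
  rw [hprod, map_prod]
  calc ∏ ξ ∈ nthRootsFinset p (1 : K), v (x - ξ * 1)
      ≤ ∏ _ξ ∈ nthRootsFinset p (1 : K), v (ζ - 1) := by
        apply Finset.prod_le_prod'
        intro ξ hξ
        have hξ' : ξ ^ p = 1 := (mem_nthRootsFinset hp.pos 1).1 hξ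
        have e : x - ξ * 1 = (x - 1) - (ξ - 1) := by ring
        rw [e]
        exact v.map_sub_le hx (val_root_sub_one_le v hp hζ hξ')
    _ = v (ζ - 1) ^ p := by rw [Finset.prod_const, hζ.card_nthRootsFinset]

/-- **(L1)** If `v (ζ - 1) ^ p < v (x ^ p - 1)` then `v (x - 1) ^ p = v (x ^ p - 1)`. -/
theorem val_sub_one_pow_of_lt (hp : p.Prime) {ζ : K} (hζ : IsPrimitiveRoot ζ p) {x : K}
    (h : v (ζ - 1) ^ p < v (x ^ p - 1)) : v (x - 1) ^ p = v (x ^ p - 1) := by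
  rcases le_or_gt (v (x - 1)) (v (ζ - 1)) with h1 | h1
  · exact absurd (val_pow_sub_one_le_of_le v hp hζ h1) (not_le.2 h)
  · exact (val_pow_sub_one_of_lt v hp hζ h1).symm

/-- **(L5a)** If `v (x ^ p - 1) ≤ v (ζ - 1) ^ p` then `v (x - 1) ≤ v (ζ - 1)`. -/
theorem val_sub_one_le_of_le (hp : p.Prime) {ζ : K} (hζ : IsPrimitiveRoot ζ p) {x : K}
    (h : v (x ^ p - 1) ≤ v (ζ - 1) ^ p) : v (x - 1) ≤ v (ζ - 1) := by
  by_contra h1
  rw [not_le] at h1
  have h2 := val_pow_sub_one_of_lt v hp hζ h1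
  rw [h2] at h
  exact absurd h (not_le.2 (pow_lt_pow_left₀ h1 zero_le hp.ne_zero))

/-! ### Discreteness -/

/-- `π` is a uniformizer of `(K, v)`, elementwise form. -/
structure IsUnif (v : Valuation K Γ₀) (π : K) : Prop where
  lt_one : v π < 1
  ne_zero : π ≠ 0
  exists_zpow : ∀ x : K, x ≠ 0 → ∃ n : ℤ, v x = v π ^ n

namespace IsUnif

variable {v} {π : K} (hπ : IsUnif v π)
include hπ

theorem val_pos : 0 < v π := lt_of_le_of_ne zero_le (v.ne_zero_iff.2 hπ.ne_zero).symm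

theorem val_ne_zero : v π ≠ 0 := v.ne_zero_iff.2 hπ.ne_zero

theorem zpow_lt_zpow_iff {m n : ℤ} : v π ^ m < v π ^ n ↔ n < m :=
  zpow_lt_zpow_iff_right_of_lt_one₀ hπ.val_pos hπ.lt_one

theorem zpow_le_zpow_iff {m n : ℤ} : v π ^ m ≤ v π ^ n ↔ n ≤ m :=
  zpow_le_zpow_iff_right_of_lt_one₀ hπ.val_pos hπ.lt_one

theorem zpow_inj {m n : ℤ} : v π ^ m = v π ^ n ↔ m = n :=
  (zpow_right_injective₀ hπ.val_pos (ne_of_lt hπ.lt_one)).eq_iff

/-- Discreteness: `v x < v π ^ m` implies `v x ≤ v π ^ (m + 1)`. -/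
theorem le_succ_of_lt {x : K} {m : ℤ} (h : v x < v π ^ m) : v x ≤ v π ^ (m + 1) := by
  by_cases hx : x = 0
  · rw [hx, v.map_zero]; exact zero_le
  · obtain ⟨n, hn⟩ := hπ.exists_zpow x hx
    rw [hn] at h ⊢
    rw [hπ.zpow_lt_zpow_iff] at h
    rw [hπ.zpow_le_zpow_iff]
    omega

end IsUnif

theorem val_eq_one_of_val_pow_eq_one {x : K} {n : ℕ} (hn : n ≠ 0) (h : v x ^ n = 1) : v x = 1 := by
  rcases lt_trichotomy (v x) 1 with h1 | h1 | h1
  · exact absurd h (ne_of_lt (pow_lt_one₀ zero_le h1 hn))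
  · exact h1
  · exact absurd h (ne_of_gt (one_lt_pow₀ h1 hn))

/-- **(L1')** No `p`-th power has exact level `m` when `p ∤ m` and `v (ζ - 1) ^ p < v π ^ m`. -/
theorem val_pow_sub_one_ne (hp : p.Prime) {ζ : K} (hζ : IsPrimitiveRoot ζ p) {π : K}
    (hπ : IsUnif v π) {m : ℤ} (hm : ¬ (p : ℤ) ∣ m) (hlt : v (ζ - 1) ^ p < v π ^ m) (x : K) :
    v (x ^ p - 1) ≠ v π ^ m := by
  intro h
  have h1 := val_sub_one_pow_of_lt v hp hζ (x := x) (by rw [h]; exact hlt)
  have hx1 : x - 1 ≠ 0 := by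
    intro h0
    rw [h0, v.map_zero, zero_pow hp.ne_zero, h] at h1
    exact zpow_ne_zero m hπ.val_ne_zero h1.symm
  obtain ⟨n, hn⟩ := hπ.exists_zpow _ hx1
  rw [hn, h, ← zpow_natCast, ← zpow_mul] at h1
  have h2 := hπ.zpow_inj.1 h1
  exact hm ⟨n, by rw [← h2]; ring⟩

/-- Natural-number form of `val_pow_sub_one_ne`. -/
theorem val_pow_sub_one_ne' (hp : p.Prime) {ζ : K} (hζ : IsPrimitiveRoot ζ p) {π : K}
    (hπ : IsUnif v π) {m : ℕ} (hm : ¬ p ∣ m) (hlt : v (ζ - 1) ^ p < v π ^ m) (x : K) :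
    v (x ^ p - 1) ≠ v π ^ m := by
  have h := val_pow_sub_one_ne v hp hζ hπ (m := (m : ℤ))
    (by rwa [Int.natCast_dvd_natCast]) (by rwa [zpow_natCast]) x
  rwa [zpow_natCast] at h

/-! ### Normal form modulo `p`-th powers -/

/-- The "unit part" of the normal form: exact level `m` with `p ∤ m` below the top, or top. -/
def UnitNormal (v : Valuation K Γ₀) (π ζ : K) (p : ℕ) (u : K) : Prop :=
  (∃ m : ℕ, 0 < m ∧ ¬ p ∣ m ∧ v (ζ - 1) ^ p < v π ^ m ∧ v (u - 1) = v π ^ m) ∨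
    v (u - 1) ≤ v (ζ - 1) ^ p

/-- Killing the leading term at a level divisible by `p` (residue field perfect): if
`v (u - 1) = v π ^ m` with `p ∣ m`, `0 < m`, below the top level, then some `u * w ^ p` has
`v (u * w ^ p - 1) < v π ^ m`. -/
theorem exists_kill_leading (hp : p.Prime) {ζ : K} (hζ : IsPrimitiveRoot ζ p) {π : K}
    (hπ : IsUnif v π) (hperf : ∀ a : K, v a ≤ 1 → ∃ b : K, v (a - b ^ p) < 1) {u : K} {m : ℤ}
    (hm0 : 0 < m) (hpm : (p : ℤ) ∣ m) (htop : v (ζ - 1) ^ p < v π ^ m)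
    (hm : v (u - 1) = v π ^ m) : ∃ w : K, w ≠ 0 ∧ v (u * w ^ p - 1) < v π ^ m := by
  have hu1 : v (u - 1) < 1 := by
    rw [hm, ← zpow_zero (v π), hπ.zpow_lt_zpow_iff]; exact hm0
  obtain ⟨j, hj⟩ := hpm
  have hp0 : (0 : ℤ) < p := by exact_mod_cast hp.pos
  have hj0 : 0 < j := by
    by_contra h
    rw [not_lt] at h
    have : (p : ℤ) * j ≤ 0 := mul_nonpos_of_nonneg_of_nonpos hp0.le h
    omega
  -- the leading coefficient
  set a : K := (u - 1) / π ^ m with ha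
  have hva : v a = 1 := by
    rw [ha, v.map_div, map_zpow₀, hm]
    exact div_self (zpow_ne_zero m hπ.val_ne_zero)
  obtain ⟨b, hb⟩ := hperf (-a) (by rw [v.map_neg, hva])
  have hvb : v b = 1 := by
    apply val_eq_one_of_val_pow_eq_one v hp.ne_zero
    rw [← v.map_pow]
    have e : b ^ p = -a - (-a - b ^ p) := by ring
    rw [e, v.map_sub_eq_of_lt_left (by rw [v.map_neg, hva]; exact hb), v.map_neg, hva]
  set c : K := b * π ^ j with hc
  have hvc : v c = v π ^ j := by rw [hc, v.map_mul, hvb, one_mul, map_zpow₀]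
  have hvc1 : v c < 1 := by
    rw [hvc, ← zpow_zero (v π), hπ.zpow_lt_zpow_iff]; exact hj0
  have hlamc : v (ζ - 1) < v c := by
    rw [hvc]
    apply lt_of_pow_lt_pow_left₀ p zero_le
    rw [← zpow_natCast (v π ^ j), ← zpow_mul, mul_comm, ← hj]
    exact htop
  obtain ⟨δ, hδ, hA⟩ := exists_one_add_pow_sub_one v hp hζ hlamc
  have hw : v (1 + c) = 1 := v.map_one_add_of_lt hvc1
  have hw0 : (1 + c) ≠ 0 := by
    intro h; rw [h, v.map_zero] at hw; exact zero_ne_one hw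
  have hcp : c ^ p = b ^ p * π ^ m := by
    rw [hc, mul_pow, ← zpow_natCast (π ^ j), ← zpow_mul, mul_comm j, ← hj]
  have hπm : π ^ m ≠ 0 := zpow_ne_zero m hπ.ne_zero
  have hkey : u * (1 + c) ^ p - 1 =
      π ^ m * ((a + b ^ p) + (u - 1) * b ^ p * (1 + δ) + b ^ p * δ) := by
    have h1 : (1 + c) ^ p = 1 + c ^ p * (1 + δ) := by rw [← hA]; ring
    have h2 : u - 1 = a * π ^ m := by rw [ha]; field_simp
    rw [h1, hcp]
    have h3 : u = 1 + a * π ^ m := by rw [← h2]; ring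
    rw [h3]; ring
  have hsmall : v ((a + b ^ p) + (u - 1) * b ^ p * (1 + δ) + b ^ p * δ) < 1 := by
    apply v.map_add_lt (v.map_add_lt _ _)
    · rw [v.map_mul, v.map_pow, hvb, one_pow, one_mul]; exact hδ
    · have e : a + b ^ p = -(-a - b ^ p) := by ring
      rw [e, v.map_neg]; exact hb
    · rw [v.map_mul, v.map_mul, v.map_pow, hvb, one_pow, mul_one, v.map_one_add_of_lt hδ,
        mul_one]
      exact hu1
  refine ⟨1 + c, hw0, ?_⟩
  rw [hkey, v.map_mul, map_zpow₀]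
  calc v π ^ m * v ((a + b ^ p) + (u - 1) * b ^ p * (1 + δ) + b ^ p * δ)
      < v π ^ m * 1 := by
        apply mul_lt_mul_of_pos_left hsmall
        exact lt_of_le_of_ne zero_le (zpow_ne_zero m hπ.val_ne_zero).symm
    _ = v π ^ m := mul_one _

theorem exists_unitNormal_aux (hp : p.Prime) {ζ : K} (hζ : IsPrimitiveRoot ζ p) {π : K}
    (hπ : IsUnif v π) (hperf : ∀ a : K, v a ≤ 1 → ∃ b : K, v (a - b ^ p) < 1) (E' : ℤ)
    (hE' : v (ζ - 1) ^ p = v π ^ E') :
    ∀ (d : ℕ) (u : K), v (u - 1) < 1 → (∀ m : ℤ, v (u - 1) = v π ^ m → E' - m ≤ d) →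
      ∃ w : K, w ≠ 0 ∧ UnitNormal v π ζ p (u * w ^ p) := by
  intro d
  induction d with
  | zero =>
    intro u hu1 hd
    refine ⟨1, one_ne_zero, Or.inr ?_⟩
    rw [one_pow, mul_one]
    by_cases hu : u - 1 = 0
    · rw [hu, v.map_zero]; exact zero_le
    · obtain ⟨m, hm⟩ := hπ.exists_zpow _ hu
      have := hd m hm
      rw [hm, hE', hπ.zpow_le_zpow_iff]
      simpa using this
  | succ d ih =>
    intro u hu1 hd
    by_cases hu : u - 1 = 0
    · refine ⟨1, one_ne_zero, Or.inr ?_⟩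
      rw [one_pow, mul_one, hu, v.map_zero]; exact zero_le
    obtain ⟨m, hm⟩ := hπ.exists_zpow _ hu
    have hm0 : 0 < m := by
      have h := hu1
      rw [hm, ← zpow_zero (v π), hπ.zpow_lt_zpow_iff] at h
      exact h
    by_cases htop : v π ^ m ≤ v (ζ - 1) ^ p
    · refine ⟨1, one_ne_zero, Or.inr ?_⟩
      rw [one_pow, mul_one, hm]; exact htop
    rw [not_le] at htop
    by_cases hpm : (p : ℤ) ∣ m
    swap
    · refine ⟨1, one_ne_zero, Or.inl ⟨m.toNat, ?_, ?_, ?_, ?_⟩⟩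
      · omega
      · intro h
        apply hpm
        have : (m.toNat : ℤ) = m := Int.toNat_of_nonneg hm0.le
        rw [← this]; exact Int.natCast_dvd_natCast.2 h
      · rw [← zpow_natCast (v π) m.toNat, Int.toNat_of_nonneg hm0.le]; exact htop
      · rw [one_pow, mul_one, hm, ← zpow_natCast (v π) m.toNat, Int.toNat_of_nonneg hm0.le]
    obtain ⟨w₁, hw₁, hlt⟩ := exists_kill_leading v hp hζ hπ hperf hm0 hpm htop hm
    have hlt1 : v (u * w₁ ^ p - 1) < 1 := lt_trans hlt (by rw [← hm]; exact hu1)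
    obtain ⟨w₂, hw₂, hN⟩ := ih (u * w₁ ^ p) hlt1 (by
      intro m' hm'
      rw [hm', hπ.zpow_lt_zpow_iff] at hlt
      have := hd m hm
      push_cast at this ⊢
      omega)
    refine ⟨w₁ * w₂, mul_ne_zero hw₁ hw₂, ?_⟩
    rw [mul_pow, ← mul_assoc]
    exact hN

/-- **(L2) Normal form modulo `p`-th powers** (residue field perfect, in the elementwise form
`hperf`).  Every `u ≠ 0` is, up to a `p`-th power, either of valuation `v π ^ n` with `p ∤ n`,
or a unit of exact level `m` with `p ∤ m` below the top level, or a unit of top level. -/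
theorem exists_normal_form (hp : p.Prime) {ζ : K} (hζ : IsPrimitiveRoot ζ p) {π : K}
    (hπ : IsUnif v π) (hperf : ∀ a : K, v a ≤ 1 → ∃ b : K, v (a - b ^ p) < 1) {u : K}
    (hu : u ≠ 0) :
    ∃ w : K, w ≠ 0 ∧
      ((∃ n : ℤ, ¬ (p : ℤ) ∣ n ∧ v (u * w ^ p) = v π ^ n) ∨ UnitNormal v π ζ p (u * w ^ p)) := by
  obtain ⟨n, hn⟩ := hπ.exists_zpow u hu
  by_cases hpn : (p : ℤ) ∣ n
  swap
  · exact ⟨1, one_ne_zero, Or.inl ⟨n, hpn, by rw [one_pow, mul_one, hn]⟩⟩
  obtain ⟨j, hj⟩ := hpn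
  set u₁ : K := u * (π ^ (-j)) ^ p with hu₁
  have hvu₁ : v u₁ = 1 := by
    rw [hu₁, v.map_mul, v.map_pow, map_zpow₀, hn, ← zpow_natCast (v π ^ (-j)), ← zpow_mul,
      ← zpow_add₀ hπ.val_ne_zero, hj]
    have : (p : ℤ) * j + -j * (p : ℤ) = 0 := by ring
    rw [this, zpow_zero]
  have hu₁0 : u₁ ≠ 0 := by
    intro h; rw [h, v.map_zero] at hvu₁; exact zero_ne_one hvu₁
  obtain ⟨b, hb⟩ := hperf u₁⁻¹ (by rw [map_inv₀, hvu₁, inv_one])
  have hvb : v b = 1 := by
    apply val_eq_one_of_val_pow_eq_one v hp.ne_zero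
    rw [← v.map_pow]
    have e : b ^ p = u₁⁻¹ - (u₁⁻¹ - b ^ p) := by ring
    rw [e, v.map_sub_eq_of_lt_left (by rw [map_inv₀, hvu₁, inv_one]; exact hb), map_inv₀, hvu₁,
      inv_one]
  have hb0 : b ≠ 0 := by
    intro h; rw [h, v.map_zero] at hvb; exact zero_ne_one hvb
  have h2 : v (u₁ * b ^ p - 1) < 1 := by
    have e : u₁ * b ^ p - 1 = -(u₁ * (u₁⁻¹ - b ^ p)) := by field_simp; ring
    rw [e, v.map_neg, v.map_mul, hvu₁, one_mul]; exact hb
  have hζ1 : ζ - 1 ≠ 0 := sub_ne_zero.2 (hζ.ne_one hp.one_lt)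
  obtain ⟨E, hE⟩ := hπ.exists_zpow _ hζ1
  have hE' : v (ζ - 1) ^ p = v π ^ (E * p) := by rw [hE, ← zpow_natCast (v π ^ E), ← zpow_mul]
  obtain ⟨w, hw, hN⟩ := exists_unitNormal_aux v hp hζ hπ hperf (E * p) hE' (E * p).toNat
    (u₁ * b ^ p) h2 (by
      intro m hm
      have hm0 : 0 < m := by
        have h := h2
        rw [hm, ← zpow_zero (v π), hπ.zpow_lt_zpow_iff] at h
        exact h
      have := Int.self_le_toNat (E * p)
      omega)
  refine ⟨π ^ (-j) * b * w, mul_ne_zero (mul_ne_zero (zpow_ne_zero _ hπ.ne_zero) hb0) hw,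
    Or.inr ?_⟩
  have e : u * (π ^ (-j) * b * w) ^ p = u₁ * b ^ p * w ^ p := by rw [hu₁]; ring
  rw [e]; exact hN

/-! ### Levels and leading coefficients modulo `p`-th powers -/

/-- `u` has level at least `m` modulo `p`-th powers. -/
def LevelGE (v : Valuation K Γ₀) (π : K) (p m : ℕ) (u : K) : Prop :=
  ∃ w : K, w ≠ 0 ∧ v (u * w ^ p - 1) ≤ v π ^ m

/-- `a` is a leading coefficient of `u` at level `m` modulo `p`-th powers:
`u * w ^ p ≡ 1 + a * π ^ m` modulo elements of valuation `< v π ^ m`. -/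
def Lead (v : Valuation K Γ₀) (π : K) (p m : ℕ) (u a : K) : Prop :=
  v a ≤ 1 ∧ ∃ w : K, w ≠ 0 ∧ v (u * w ^ p - 1 - a * π ^ m) < v π ^ m

section Lead

variable {v} {π : K} {m : ℕ} {u u' a a' : K}

theorem Lead.levelGE (h : Lead v π p m u a) : LevelGE v π p m u := by
  obtain ⟨ha, w, hw, h⟩ := h
  refine ⟨w, hw, ?_⟩
  have e : u * w ^ p - 1 = (u * w ^ p - 1 - a * π ^ m) + a * π ^ m := by ring
  rw [e]
  apply v.map_add_le (le_of_lt h)
  rw [v.map_mul, v.map_pow]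
  exact mul_le_of_le_one_left' ha

theorem LevelGE.exists_lead (hπ : IsUnif v π) (h : LevelGE v π p m u) :
    ∃ a : K, Lead v π p m u a := by
  obtain ⟨w, hw, h⟩ := h
  have hpos : 0 < v π ^ m := pow_pos hπ.val_pos m
  have hπm : π ^ m ≠ 0 := pow_ne_zero m hπ.ne_zero
  refine ⟨(u * w ^ p - 1) / π ^ m, ?_, w, hw, ?_⟩
  · rw [v.map_div, v.map_pow, div_le_one₀ hpos]; exact h
  · have e : u * w ^ p - 1 - (u * w ^ p - 1) / π ^ m * π ^ m = 0 := by field_simp; ring
    rw [e, v.map_zero]; exact hpos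

theorem Lead.congr (hπ : IsUnif v π) (h : Lead v π p m u a) (h' : v (a - a') < 1) :
    Lead v π p m u a' := by
  obtain ⟨ha, w, hw, h⟩ := h
  have hpos : 0 < v π ^ m := pow_pos hπ.val_pos m
  refine ⟨?_, w, hw, ?_⟩
  · have e : a' = a - (a - a') := by ring
    rw [e]; exact v.map_sub_le ha (le_of_lt h')
  · have e : u * w ^ p - 1 - a' * π ^ m = (u * w ^ p - 1 - a * π ^ m) + (a - a') * π ^ m := by
      ring
    rw [e]
    apply v.map_add_lt h
    rw [v.map_mul, v.map_pow]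
    calc v (a - a') * v π ^ m < 1 * v π ^ m := mul_lt_mul_of_pos_right h' hpos
      _ = v π ^ m := one_mul _

theorem lead_pow_self (hπ : IsUnif v π) {x : K} (hx : x ≠ 0) : Lead v π p m (x ^ p) 0 := by
  refine ⟨by rw [v.map_zero]; exact zero_le, x⁻¹, inv_ne_zero hx, ?_⟩
  have e : x ^ p * x⁻¹ ^ p - 1 - 0 * π ^ m = 0 := by
    rw [← mul_pow, mul_inv_cancel₀ hx]; ring
  rw [e, v.map_zero]; exact pow_pos hπ.val_pos m

theorem lead_one (hπ : IsUnif v π) : Lead v π p m 1 0 := by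
  have h := lead_pow_self (p := p) (m := m) hπ (one_ne_zero (α := K))
  rwa [one_pow] at h

theorem Lead.mul (hπ : IsUnif v π) (hm : 0 < m) (h : Lead v π p m u a)
    (h' : Lead v π p m u' a') : Lead v π p m (u * u') (a + a') := by
  obtain ⟨ha, w, hw, h⟩ := h
  obtain ⟨ha', w', hw', h'⟩ := h'
  have hpos : 0 < v π ^ m := pow_pos hπ.val_pos m
  have hlt1 : v π ^ m < 1 := pow_lt_one₀ zero_le hπ.lt_one hm.ne'
  refine ⟨v.map_add_le ha ha', w * w', mul_ne_zero hw hw', ?_⟩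
  have hY : v (u' * w' ^ p) ≤ 1 := by
    have e : u' * w' ^ p = (u' * w' ^ p - 1 - a' * π ^ m) + (1 + a' * π ^ m) := by ring
    rw [e]
    apply v.map_add_le (le_of_lt (lt_trans h' hlt1))
    apply v.map_add_le (le_of_eq v.map_one)
    rw [v.map_mul, v.map_pow]
    exact le_trans (mul_le_of_le_one_left' ha') hlt1.le
  have hZ : v (1 + a * π ^ m) ≤ 1 := by
    apply v.map_add_le (le_of_eq v.map_one)
    rw [v.map_mul, v.map_pow]
    exact le_trans (mul_le_of_le_one_left' ha) hlt1.le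
  have e : u * u' * (w * w') ^ p - 1 - (a + a') * π ^ m =
      (u * w ^ p - 1 - a * π ^ m) * (u' * w' ^ p) +
        (u' * w' ^ p - 1 - a' * π ^ m) * (1 + a * π ^ m) + a * a' * π ^ m * π ^ m := by ring
  rw [e]
  apply v.map_add_lt (v.map_add_lt _ _)
  · rw [v.map_mul, v.map_mul, v.map_mul, v.map_pow]
    calc v a * v a' * v π ^ m * v π ^ m ≤ 1 * v π ^ m * v π ^ m := by
          gcongr
          calc v a * v a' ≤ 1 * 1 := mul_le_mul' ha ha'
            _ = 1 := one_mul 1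
      _ = v π ^ m * v π ^ m := by rw [one_mul]
      _ < v π ^ m * 1 := mul_lt_mul_of_pos_left hlt1 hpos
      _ = v π ^ m := mul_one _
  · rw [v.map_mul]
    calc v (u * w ^ p - 1 - a * π ^ m) * v (u' * w' ^ p)
        ≤ v (u * w ^ p - 1 - a * π ^ m) * 1 := by gcongr
      _ = v (u * w ^ p - 1 - a * π ^ m) := mul_one _
      _ < v π ^ m := h
  · rw [v.map_mul]
    calc v (u' * w' ^ p - 1 - a' * π ^ m) * v (1 + a * π ^ m)
        ≤ v (u' * w' ^ p - 1 - a' * π ^ m) * 1 := by gcongr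
      _ = v (u' * w' ^ p - 1 - a' * π ^ m) := mul_one _
      _ < v π ^ m := h'

theorem Lead.pow (hπ : IsUnif v π) (hm : 0 < m) (h : Lead v π p m u a) (k : ℕ) :
    Lead v π p m (u ^ k) ((k : K) * a) := by
  induction k with
  | zero => simpa using lead_one (p := p) (m := m) hπ
  | succ k ih =>
    have := ih.mul hπ hm h
    have e : ((k + 1 : ℕ) : K) * a = (k : K) * a + a := by push_cast; ring
    rw [pow_succ, e]; exact this

/-- **(L3) Uniqueness of the leading coefficient** (for `p ∤ m`, below the top level). -/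
theorem Lead.unique (hp : p.Prime) {ζ : K} (hζ : IsPrimitiveRoot ζ p) (hπ : IsUnif v π)
    (hm : ¬ p ∣ m) (hlt : v (ζ - 1) ^ p < v π ^ m) (h : Lead v π p m u a)
    (h' : Lead v π p m u a') : v (a - a') < 1 := by
  obtain ⟨ha, w, hw, h⟩ := h
  obtain ⟨ha', w', hw', h'⟩ := h'
  have hm0 : 0 < m := Nat.pos_of_ne_zero (by rintro rfl; exact hm (dvd_zero p))
  have hpos : 0 < v π ^ m := pow_pos hπ.val_pos m
  have hlt1 : v π ^ m < 1 := pow_lt_one₀ zero_le hπ.lt_one hm0.ne'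
  by_contra hcon
  have haa : v (a' - a) = 1 := by
    rw [v.map_sub_swap]
    exact le_antisymm (v.map_sub_le ha ha') (not_lt.1 hcon)
  -- X = u * w ^ p is a unit
  have hX : v (u * w ^ p) = 1 := by
    have e : u * w ^ p = 1 + ((u * w ^ p - 1 - a * π ^ m) + a * π ^ m) := by ring
    rw [e]
    apply v.map_one_add_of_lt
    apply v.map_add_lt (lt_trans h hlt1)
    rw [v.map_mul, v.map_pow]
    exact lt_of_le_of_lt (mul_le_of_le_one_left' ha) hlt1
  have hX0 : u * w ^ p ≠ 0 := by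
    intro h0; rw [h0, v.map_zero] at hX; exact zero_ne_one hX
  have hdiff : v (u * w' ^ p - u * w ^ p) = v π ^ m := by
    have e : u * w' ^ p - u * w ^ p =
        (a' - a) * π ^ m + ((u * w' ^ p - 1 - a' * π ^ m) - (u * w ^ p - 1 - a * π ^ m)) := by ring
    rw [e]
    have h3 : v ((a' - a) * π ^ m) = v π ^ m := by rw [v.map_mul, v.map_pow, haa, one_mul]
    rw [v.map_add_eq_of_lt_left (by rw [h3]; exact v.map_sub_lt h' h), h3]
  have hx : v ((w' / w) ^ p - 1) = v π ^ m := by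
    have hu0 : u ≠ 0 := by rintro rfl; simp at hX0
    have e : (w' / w) ^ p - 1 = (u * w' ^ p - u * w ^ p) / (u * w ^ p) := by
      have hwp : w ^ p ≠ 0 := pow_ne_zero p hw
      rw [div_pow]
      field_simp
    rw [e, v.map_div, hX, div_one, hdiff]
  exact val_pow_sub_one_ne' v hp hζ hπ hm hlt _ hx

/-- The leading coefficient vanishes (mod `π`) iff the level is at least `m + 1`. -/
theorem Lead.val_lt_one_iff (hp : p.Prime) {ζ : K} (hζ : IsPrimitiveRoot ζ p) (hπ : IsUnif v π)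
    (hm : ¬ p ∣ m) (hlt : v (ζ - 1) ^ p < v π ^ m) (h : Lead v π p m u a) :
    v a < 1 ↔ LevelGE v π p (m + 1) u := by
  have hpos : 0 < v π ^ m := pow_pos hπ.val_pos m
  constructor
  · intro hva
    obtain ⟨-, w, hw, h1⟩ := h
    refine ⟨w, hw, ?_⟩
    have h2 : v (u * w ^ p - 1) < v π ^ (m : ℤ) := by
      have e : u * w ^ p - 1 = (u * w ^ p - 1 - a * π ^ m) + a * π ^ m := by ring
      rw [e, zpow_natCast]
      apply v.map_add_lt h1
      rw [v.map_mul, v.map_pow]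
      calc v a * v π ^ m < 1 * v π ^ m := mul_lt_mul_of_pos_right hva hpos
        _ = v π ^ m := one_mul _
    have h3 := hπ.le_succ_of_lt h2
    have e : ((m : ℤ) + 1) = ((m + 1 : ℕ) : ℤ) := by push_cast; ring
    rwa [e, zpow_natCast] at h3
  · rintro ⟨w, hw, h1⟩
    have h0 : Lead v π p m u 0 := by
      refine ⟨by rw [v.map_zero]; exact zero_le, w, hw, ?_⟩
      rw [zero_mul, sub_zero]
      refine lt_of_le_of_lt h1 ?_
      rw [pow_succ]
      calc v π ^ m * v π < v π ^ m * 1 := mul_lt_mul_of_pos_left hπ.lt_one hpos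
        _ = v π ^ m := mul_one _
    simpa using h.unique hp hζ hπ hm hlt h0

/-- **(L4) Equivariance.** A valuation-preserving ring endomorphism `g` with `g π = π * c`
multiplies leading coefficients at level `m` by `c ^ m` (and applies `g`). -/
theorem Lead.map (hπ : IsUnif v π) (g : K →+* K) (hg : ∀ x, v (g x) = v x) {c : K}
    (hc : g π = π * c) (h : Lead v π p m u a) : Lead v π p m (g u) (c ^ m * g a) := by
  obtain ⟨ha, w, hw, h⟩ := h
  have hvc : v c = 1 := by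
    have h1 := hg π
    rw [hc, v.map_mul] at h1
    have h2 : v π * v c = v π * 1 := by rw [h1, mul_one]
    exact mul_left_cancel₀ hπ.val_ne_zero h2
  refine ⟨?_, g w, ?_, ?_⟩
  · rw [v.map_mul, v.map_pow, hvc, one_pow, one_mul, hg]; exact ha
  · intro h0
    have := hg w
    rw [h0, v.map_zero] at this
    exact hw (v.zero_iff.1 this.symm)
  · have e : g u * g w ^ p - 1 - c ^ m * g a * π ^ m = g (u * w ^ p - 1 - a * π ^ m) := by
      simp only [map_sub, map_mul, map_pow, map_one, hc]; ring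
    rw [e, hg]; exact h

/-- Tame version of (L4): if moreover `g` is trivial on the residue field, the leading
coefficient is multiplied by `c ^ m`. -/
theorem Lead.map_tame (hπ : IsUnif v π) (g : K →+* K) (hg : ∀ x, v (g x) = v x)
    (htame : ∀ x, v x ≤ 1 → v (g x - x) < 1) {c : K} (hc : g π = π * c)
    (h : Lead v π p m u a) : Lead v π p m (g u) (c ^ m * a) := by
  have h1 := h.map hπ g hg hc
  have hvc : v c = 1 := by
    have h1 := hg π
    rw [hc, v.map_mul] at h1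
    have h2 : v π * v c = v π * 1 := by rw [h1, mul_one]
    exact mul_left_cancel₀ hπ.val_ne_zero h2
  apply h1.congr hπ
  have e : c ^ m * g a - c ^ m * a = c ^ m * (g a - a) := by ring
  rw [e, v.map_mul, v.map_pow, hvc, one_pow, one_mul]
  exact htame a h.1

/-- Iterated tame version. -/
theorem Lead.map_tame_iterate (hπ : IsUnif v π) (g : K →+* K) (hg : ∀ x, v (g x) = v x)
    (htame : ∀ x, v x ≤ 1 → v (g x - x) < 1) {c : K} (hc : g π = π * c)
    (h : Lead v π p m u a) (i : ℕ) : Lead v π p m (g^[i] u) ((c ^ m) ^ i * a) := by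
  induction i with
  | zero => simpa using h
  | succ i ih =>
    have := ih.map_tame hπ g hg htame hc
    rw [Function.iterate_succ_apply', pow_succ]
    have e : (c ^ m) ^ i * c ^ m * a = c ^ m * ((c ^ m) ^ i * a) := by ring
    rw [e]; exact this

/-- **Eigen-constraint.** If `u` has exact level `m` (leading coefficient a unit), `g` is tame
with `g π = π * c`, and `g u = u ^ k * x ^ p`, then `c ^ m ≡ k` in the residue field. -/
theorem Lead.eigen (hp : p.Prime) {ζ : K} (hζ : IsPrimitiveRoot ζ p) (hπ : IsUnif v π)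
    (hm : ¬ p ∣ m) (hlt : v (ζ - 1) ^ p < v π ^ m) (g : K →+* K) (hg : ∀ x, v (g x) = v x)
    (htame : ∀ x, v x ≤ 1 → v (g x - x) < 1) {c : K} (hc : g π = π * c)
    (h : Lead v π p m u a) (hva : v a = 1) {k : ℕ} {x : K} (hx : x ≠ 0)
    (hgu : g u = u ^ k * x ^ p) : v (c ^ m - (k : K)) < 1 := by
  have hm0 : 0 < m := Nat.pos_of_ne_zero (by rintro rfl; exact hm (dvd_zero p))
  have h1 := h.map_tame hπ g hg htame hc
  have h2 := (h.pow hπ hm0 k).mul hπ hm0 (lead_pow_self (p := p) (m := m) hπ hx)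
  rw [← hgu] at h2
  have h3 := h1.unique hp hζ hπ hm hlt h2
  have e : c ^ m * a - ((k : K) * a + 0) = (c ^ m - (k : K)) * a := by ring
  rwa [e, v.map_mul, hva, mul_one] at h3

/-- **Three-term eigen-constraint** (the form used for `𝔽_{p²}`-valued classes): if
`g (g u) ^ k₂ * u ^ k₀ = g u ^ k₁ * x ^ p` then `k₂ c^{2m} + k₀ ≡ k₁ c^m` in the residue
field. -/
theorem Lead.eigen_three (hp : p.Prime) {ζ : K} (hζ : IsPrimitiveRoot ζ p) (hπ : IsUnif v π)
    (hm : ¬ p ∣ m) (hlt : v (ζ - 1) ^ p < v π ^ m) (g : K →+* K) (hg : ∀ x, v (g x) = v x)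
    (htame : ∀ x, v x ≤ 1 → v (g x - x) < 1) {c : K} (hc : g π = π * c)
    (h : Lead v π p m u a) (hva : v a = 1) {k₀ k₁ k₂ : ℕ} {x : K} (hx : x ≠ 0)
    (hgu : g (g u) ^ k₂ * u ^ k₀ = g u ^ k₁ * x ^ p) :
    v ((k₂ : K) * (c ^ m) ^ 2 + (k₀ : K) - (k₁ : K) * c ^ m) < 1 := by
  have hm0 : 0 < m := Nat.pos_of_ne_zero (by rintro rfl; exact hm (dvd_zero p))
  have h1 := h.map_tame hπ g hg htame hc
  have h2 := h1.map_tame hπ g hg htame hc
  have hL := ((h2.pow hπ hm0 k₂).mul hπ hm0 (h.pow hπ hm0 k₀))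
  have hR := (h1.pow hπ hm0 k₁).mul hπ hm0 (lead_pow_self (p := p) (m := m) hπ hx)
  rw [hgu] at hL
  have h3 := hL.unique hp hζ hπ hm hlt hR
  have e : (k₂ : K) * (c ^ m * (c ^ m * a)) + (k₀ : K) * a - ((k₁ : K) * (c ^ m * a) + 0) =
      ((k₂ : K) * (c ^ m) ^ 2 + (k₀ : K) - (k₁ : K) * c ^ m) * a := by ring
  rwa [e, v.map_mul, hva, mul_one] at h3

end Lead

/-! ### Monotonicity and raising the level -/

section LevelGE

variable {v} {π : K} {m : ℕ} {u : K}

theorem LevelGE.mono (hπ : IsUnif v π) {m' : ℕ} (hmm : m ≤ m') (h : LevelGE v π p m' u) :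
    LevelGE v π p m u := by
  obtain ⟨w, hw, h⟩ := h
  refine ⟨w, hw, le_trans h ?_⟩
  exact pow_le_pow_of_le_one zero_le hπ.lt_one.le hmm

theorem levelGE_pow_self (hπ : IsUnif v π) {x : K} (hx : x ≠ 0) : LevelGE v π p m (x ^ p) :=
  (lead_pow_self (p := p) (m := m) hπ hx).levelGE

theorem LevelGE.mul_pow_self (h : LevelGE v π p m u) {x : K} (hx : x ≠ 0) :
    LevelGE v π p m (u * x ^ p) := by
  obtain ⟨w, hw, h⟩ := h
  refine ⟨x⁻¹ * w, mul_ne_zero (inv_ne_zero hx) hw, ?_⟩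
  have e : u * x ^ p * (x⁻¹ * w) ^ p = u * w ^ p := by
    rw [mul_pow, inv_pow]; field_simp
  rw [e]; exact h

/-- **Raising the level at levels divisible by `p`** (residue field perfect): below the top
level, `p ∣ m` and level `≥ m` imply level `≥ m + 1`. -/
theorem LevelGE.succ_of_dvd (hp : p.Prime) {ζ : K} (hζ : IsPrimitiveRoot ζ p)
    (hπ : IsUnif v π) (hperf : ∀ a : K, v a ≤ 1 → ∃ b : K, v (a - b ^ p) < 1) (hm0 : 0 < m)
    (hpm : p ∣ m) (htop : v (ζ - 1) ^ p < v π ^ m) (h : LevelGE v π p m u) :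
    LevelGE v π p (m + 1) u := by
  obtain ⟨w, hw, h⟩ := h
  have e1 : ((m : ℤ) + 1) = ((m + 1 : ℕ) : ℤ) := by push_cast; ring
  rcases lt_or_eq_of_le h with h1 | h1
  · refine ⟨w, hw, ?_⟩
    have h2 : v (u * w ^ p - 1) < v π ^ (m : ℤ) := by rwa [zpow_natCast]
    have h3 := hπ.le_succ_of_lt h2
    rwa [e1, zpow_natCast] at h3
  · obtain ⟨w₁, hw₁, hlt⟩ := exists_kill_leading v hp hζ hπ hperf (u := u * w ^ p)
      (m := (m : ℤ)) (by exact_mod_cast hm0) (Int.natCast_dvd_natCast.2 hpm)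
      (by rwa [zpow_natCast]) (by rwa [zpow_natCast])
    refine ⟨w * w₁, mul_ne_zero hw hw₁, ?_⟩
    have h3 := hπ.le_succ_of_lt hlt
    rw [e1, zpow_natCast] at h3
    rw [mul_pow, ← mul_assoc]; exact h3

/-- **Raising the level at non-admissible levels**: if every leading coefficient at level `m`
is a non-unit (e.g. by an eigen-constraint), level `≥ m` implies level `≥ m + 1`. -/
theorem LevelGE.succ_of_lead (hp : p.Prime) {ζ : K} (hζ : IsPrimitiveRoot ζ p)
    (hπ : IsUnif v π) (hm : ¬ p ∣ m) (hlt : v (ζ - 1) ^ p < v π ^ m)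
    (h : LevelGE v π p m u) (hna : ∀ a, Lead v π p m u a → v a < 1) :
    LevelGE v π p (m + 1) u := by
  obtain ⟨a, ha⟩ := h.exists_lead hπ
  exact (ha.val_lt_one_iff hp hζ hπ hm hlt).1 (hna a ha)

end LevelGE

/-! ### Above the top level: `p`-th powers -/

/-- Two `p`-th roots of the same element which are both close to `1` (closer than `ζ`)
coincide. -/
theorem root_unique_of_near_one (hp : p.Prime) {ζ : K} (hζ : IsPrimitiveRoot ζ p) {z₁ z₂ : K}
    (h : z₁ ^ p = z₂ ^ p) (h1 : v (z₁ - 1) < v (ζ - 1)) (h2 : v (z₂ - 1) < v (ζ - 1)) :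
    z₁ = z₂ := by
  have hlam1 : v (ζ - 1) ≤ 1 := by
    exact v.map_sub_le (le_of_eq (val_eq_one_of_pow_eq_one v hp.ne_zero hζ.pow_eq_one))
      (le_of_eq v.map_one)
  have hvz : v z₂ = 1 := by
    have e : z₂ = 1 + (z₂ - 1) := by ring
    rw [e]; exact v.map_one_add_of_lt (lt_of_lt_of_le h2 hlam1)
  have hz0 : z₂ ≠ 0 := by
    intro h0; rw [h0, v.map_zero] at hvz; exact zero_ne_one hvz
  by_contra hne
  have hξ : (z₁ / z₂) ^ p = 1 := by rw [div_pow, h, div_self (pow_ne_zero p hz0)]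
  have hξ1 : z₁ / z₂ ≠ 1 := by
    intro h'; exact hne (by rwa [div_eq_one_iff_eq hz0] at h')
  have h3 := val_root_sub_one_eq v hp hζ hξ hξ1
  have e3 : z₁ / z₂ - 1 = ((z₁ - 1) - (z₂ - 1)) / z₂ := by field_simp; ring
  rw [e3, v.map_div, hvz, div_one] at h3
  have h4 : v ((z₁ - 1) - (z₂ - 1)) < v (ζ - 1) := v.map_sub_lt h1 h2
  exact absurd h3 (ne_of_lt h4)

/-- If `z ^ p = u` and `v (u - 1) < v (ζ - 1) ^ p` (above the top level), one of the `p`-th
roots `ζ ^ k * z` of `u` is close to `1`. -/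
theorem exists_root_near_one (hp : p.Prime) {ζ : K} (hζ : IsPrimitiveRoot ζ p) {z : K}
    (hz : v (z ^ p - 1) < v (ζ - 1) ^ p) : ∃ ξ : K, ξ ^ p = 1 ∧ v (ξ * z - 1) < v (ζ - 1) := by
  by_contra hcon0
  have hcon : ∀ ξ : K, ξ ^ p = 1 → v (ζ - 1) ≤ v (ξ * z - 1) :=
    fun ξ hξ => not_lt.1 (fun h => hcon0 ⟨ξ, hξ, h⟩)
  have hprod := hζ.pow_sub_pow_eq_prod_sub_mul 1 z hp.pos
  rw [one_pow] at hprod
  have h1 : v (z ^ p - 1) = v (1 - z ^ p) := v.map_sub_swap _ _
  rw [h1, hprod, map_prod] at hz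
  have h2 : ∏ _ξ ∈ nthRootsFinset p (1 : K), v (ζ - 1) ≤
      ∏ ξ ∈ nthRootsFinset p (1 : K), v (1 - ξ * z) := by
    apply Finset.prod_le_prod'
    intro ξ hξ
    have hξ' : ξ ^ p = 1 := (mem_nthRootsFinset hp.pos 1).1 hξ
    rw [v.map_sub_swap 1 (ξ * z)]
    exact hcon ξ hξ'
  rw [Finset.prod_const, hζ.card_nthRootsFinset] at h2
  exact absurd hz (not_lt.2 h2)

/-- **Above the top level.** If `z ^ p = u` with `v (u - 1) < v (ζ - 1) ^ p`, then `u` has a
`p`-th root `z'` which is fixed by every valuation-preserving ring endomorphism fixing `u`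
(so `z'` lies in every henselian-type subfield containing `u`: the Kummer character of `u` is
trivial). -/
theorem exists_fixed_root_above_top (hp : p.Prime) {ζ : K} (hζ : IsPrimitiveRoot ζ p) {z : K}
    (hz : v (z ^ p - 1) < v (ζ - 1) ^ p) :
    ∃ z' : K, z' ^ p = z ^ p ∧ v (z' - 1) < v (ζ - 1) ∧
      ∀ g : K →+* K, (∀ x, v (g x) = v x) → g (z ^ p) = z ^ p → g z' = z' := by
  obtain ⟨ξ, hξ, h⟩ := exists_root_near_one v hp hζ hz
  refine ⟨ξ * z, by rw [mul_pow, hξ, one_mul], h, ?_⟩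
  intro g hg hgu
  apply root_unique_of_near_one v hp hζ
  · rw [← map_pow, mul_pow, hξ, one_mul, hgu]
  · have e : g (ξ * z) - 1 = g (ξ * z - 1) := by simp
    rw [e, hg]; exact h
  · exact h

/-! ### Top level: unramified -/

/-- **(L5)** If `z ^ p` has top level (`v (z ^ p - 1) ≤ v (ζ - 1) ^ p`), then every ring
endomorphism `g` fixing `ζ` and `z ^ p` which is trivial on the residue field (inertia) fixes
`z`: the Kummer character of a top-level class is unramified. -/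
theorem fixed_of_top_level (hp : p.Prime) {ζ : K} (hζ : IsPrimitiveRoot ζ p)
    (hlam : v (ζ - 1) < 1) {z : K} (hz : v (z ^ p - 1) ≤ v (ζ - 1) ^ p) (g : K →+* K)
    (hgζ : g ζ = ζ) (hgu : g (z ^ p) = z ^ p) (hin : ∀ x, v x ≤ 1 → v (g x - x) < 1) :
    g z = z := by
  have hζ1 : ζ - 1 ≠ 0 := sub_ne_zero.2 (hζ.ne_one hp.one_lt)
  have hlam0 : 0 < v (ζ - 1) := lt_of_le_of_ne zero_le (v.ne_zero_iff.2 hζ1).symm
  have h1 : v (z - 1) ≤ v (ζ - 1) := val_sub_one_le_of_le v hp hζ hz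
  have hzp : v (z ^ p) = 1 := by
    have e : z ^ p = 1 + (z ^ p - 1) := by ring
    rw [e]
    exact v.map_one_add_of_lt (lt_of_le_of_lt hz (pow_lt_one₀ zero_le hlam hp.ne_zero))
  have hvz : v z = 1 := val_eq_one_of_val_pow_eq_one v hp.ne_zero (by rw [← v.map_pow]; exact hzp)
  have hz0 : z ≠ 0 := by
    intro h; rw [h, v.map_zero] at hvz; exact zero_ne_one hvz
  -- `g z - z` has valuation `< v (ζ - 1)`
  have h2 : v (g z - z) < v (ζ - 1) := by
    set x : K := (z - 1) / (ζ - 1) with hx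
    have hvx : v x ≤ 1 := by rw [hx, v.map_div, div_le_one₀ hlam0]; exact h1
    have e : z = 1 + (ζ - 1) * x := by rw [hx]; field_simp; ring
    have e2 : g z - z = (ζ - 1) * (g x - x) := by
      conv_lhs => rw [e]
      simp only [map_add, map_mul, map_sub, map_one, hgζ]; ring
    rw [e2, v.map_mul]
    calc v (ζ - 1) * v (g x - x) < v (ζ - 1) * 1 := mul_lt_mul_of_pos_left (hin x hvx) hlam0
      _ = v (ζ - 1) := mul_one _
  by_contra hne
  have hξ : (g z / z) ^ p = 1 := by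
    rw [div_pow, ← map_pow, hgu, div_self (pow_ne_zero p hz0)]
  have hξ1 : g z / z ≠ 1 := by
    intro h; exact hne (by rwa [div_eq_one_iff_eq hz0] at h)
  have h3 := val_root_sub_one_eq v hp hζ hξ hξ1
  have e3 : g z / z - 1 = (g z - z) / z := by field_simp
  rw [e3, v.map_div, hvz, div_one] at h3
  exact absurd h3 (ne_of_lt h2)

end Fermat.Agent.S56.helper4188
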