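import Mathlib

/-!
# The abstract tame layer (helper4753, S56 registry node FLAT-TAMEK0)

`L` is a field with a valuation `v`, and `G` is a group of automorphisms of `L` that preserve `v`
and act trivially on the residue field ("inertia"), whose fixed elements have the discrete value
group `v ϖ ^ ℤ` (`InertialAction v G ϖ`).  For finite `G` we prove, elementwise and without
residue-field or ramification-group machinery:

* `exists_zpow_pow_card` : `v x ^ |G| ∈ v ϖ ^ ℤ` (norm argument);
* `exists_unif` : `L` has a uniformizer `π` (`∀ x ≠ 0, ∃ n : ℤ, v x = v π ^ n`) with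
  `v π ^ k = v ϖ`, `k ∣ |G|`;
* the tame character `c g = g • π / π` (`tameCoeff`), multiplicative modulo the maximal ideal
  (`val_tameCoeff_mul_sub`), and the monoid hom `tameChar` to the residue field;
* `wild_of_val_tameCoeff_sub_one_lt` : `c g ≡ 1` implies `v (g • x - x) < v x` for all `x ≠ 0`;
* `smul_eq_of_wild` : a wild automorphism of finite order prime to the residue characteristic is
  trivial;
* for `|G|` a unit of the valuation ring (tameness) and a faithful action: `tameChar` is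
  injective, `G` is cyclic, some generator `t` has `c t ^ j ≡ 1 ↔ |G| ∣ j`, and the ramification
  index is `|G|`: `v π ^ |G| = v ϖ` (`isCyclic`, `exists_generator`, `val_unif_pow_card`);
* `val_tameCoeff_frob` : a Frobenius `φ` normalising the action raises the tame character to the
  `p`-th power.

Everything is Mathlib-only.  The instantiation for `ℚ̄`, a valuation subring `P` over `p` and the
image of the inertia group in the automorphisms of the fixed field of `I ∩ N` is in
`helper4753_TameField.lean`.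
-/

set_option autoImplicit false

namespace Fermat.Agent.S56.helper4753

open Finset

variable {L : Type*} [Field L] {Γ₀ : Type*} [LinearOrderedCommGroupWithZero Γ₀]

/-- Natural numbers have valuation at most one. -/
theorem val_natCast_le_one (v : Valuation L Γ₀) (n : ℕ) : v (n : L) ≤ 1 := by
  induction n with
  | zero => simp
  | succ n ih =>
    rw [Nat.cast_succ]
    exact v.map_add_le ih (le_of_eq v.map_one)

/-- If `c ≡ 1` then `c ^ n ≡ 1` (natural exponents). -/
theorem val_pow_sub_one_lt (v : Valuation L Γ₀) {c : L} (hc : v (c - 1) < 1) (n : ℕ) :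
    v (c ^ n - 1) < 1 := by
  induction n with
  | zero => simp
  | succ n ih =>
    have hc1 : v c ≤ 1 := by
      have e : c = (c - 1) + 1 := by ring
      rw [e]; exact v.map_add_le (le_of_lt hc) (le_of_eq v.map_one)
    have e : c ^ (n + 1) - 1 = (c ^ n - 1) * c + (c - 1) := by ring
    rw [e]
    refine v.map_add_lt ?_ hc
    rw [v.map_mul]
    exact lt_of_le_of_lt (mul_le_of_le_one_right' hc1) ih

/-- If `c ≡ 1` then `v c = 1`. -/
theorem val_eq_one_of_sub_one_lt (v : Valuation L Γ₀) {c : L} (hc : v (c - 1) < 1) : v c = 1 := by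
  have e : c = 1 + (c - 1) := by ring
  rw [e]; exact v.map_one_add_of_lt hc

/-- If `c ≡ 1` then `c ^ n ≡ 1` (integer exponents). -/
theorem val_zpow_sub_one_lt (v : Valuation L Γ₀) {c : L} (hc : v (c - 1) < 1) (n : ℤ) :
    v (c ^ n - 1) < 1 := by
  have hvc : v c = 1 := val_eq_one_of_sub_one_lt v hc
  have hc0 : c ≠ 0 := by
    intro h; rw [h, v.map_zero] at hvc; exact zero_ne_one hvc
  obtain ⟨m, rfl | rfl⟩ := n.eq_nat_or_neg
  · rw [zpow_natCast]; exact val_pow_sub_one_lt v hc m
  · rw [zpow_neg, zpow_natCast]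
    have e : (c ^ m)⁻¹ - 1 = -(c ^ m - 1) * (c ^ m)⁻¹ := by
      field_simp
      ring
    rw [e, v.map_mul, v.map_neg, map_inv₀, v.map_pow, hvc, one_pow, inv_one, mul_one]
    exact val_pow_sub_one_lt v hc m

/-- Two elements of the valuation ring have the same residue iff their difference has valuation
`< 1`. -/
theorem residue_eq_iff (v : Valuation L Γ₀) (a b : v.valuationSubring) :
    IsLocalRing.residue _ a = IsLocalRing.residue _ b ↔ v ((a : L) - b) < 1 := by
  rw [← sub_eq_zero, ← map_sub, IsLocalRing.residue_eq_zero_iff,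
    ValuationSubring.valuation_lt_one_iff]
  exact (v.isEquiv_valuation_valuationSubring.lt_one_iff_lt_one).symm

/-- **The setting.**  `G` acts on `L` by automorphisms preserving the valuation and trivial on
the residue field; `ϖ` is fixed and generates the value group of the fixed elements. -/
structure InertialAction (v : Valuation L Γ₀) (G : Type*) [Group G] [MulSemiringAction G L]
    (ϖ : L) : Prop where
  val_smul : ∀ (g : G) (x : L), v (g • x) = v x
  res_triv : ∀ (g : G) (x : L), v x ≤ 1 → v (g • x - x) < 1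
  fixed : ∀ g : G, g • ϖ = ϖ
  lt_one : v ϖ < 1
  ne_zero : ϖ ≠ 0
  fixed_disc : ∀ x : L, (∀ g : G, g • x = x) → x ≠ 0 → ∃ n : ℤ, v x = v ϖ ^ n

variable {G : Type*} [Group G] [MulSemiringAction G L]

/-- The tame coefficient `g • π / π`. -/
noncomputable def tameCoeff (G : Type*) [Group G] [MulSemiringAction G L] (π : L) (g : G) : L :=
  g • π / π

theorem smul_eq_mul_tameCoeff {π : L} (hπ : π ≠ 0) (g : G) : g • π = π * tameCoeff G π g := by
  unfold tameCoeff; field_simp

@[simp] theorem tameCoeff_one {π : L} (hπ : π ≠ 0) : tameCoeff G π (1 : G) = 1 := by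
  unfold tameCoeff; rw [one_smul, div_self hπ]

namespace InertialAction

variable {v : Valuation L Γ₀} {ϖ : L}

section basic

variable (h : InertialAction v G ϖ)
include h

theorem val_pos : 0 < v ϖ := lt_of_le_of_ne zero_le (v.ne_zero_iff.2 h.ne_zero).symm

theorem val_ne_zero : v ϖ ≠ 0 := v.ne_zero_iff.2 h.ne_zero

theorem zpow_inj {m n : ℤ} : v ϖ ^ m = v ϖ ^ n ↔ m = n :=
  (zpow_right_injective₀ h.val_pos (ne_of_lt h.lt_one)).eq_iff

theorem val_tameCoeff {π : L} (hπ : π ≠ 0) (g : G) : v (tameCoeff G π g) = 1 := by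
  unfold tameCoeff
  rw [map_div₀, h.val_smul, div_self (v.ne_zero_iff.2 hπ)]

theorem val_smul_sub_lt_of_val_eq_one (g : G) {y : L} (hy : v y = 1) : v (g • y - y) < 1 :=
  h.res_triv g y (le_of_eq hy)

/-- The tame coefficient is multiplicative modulo the maximal ideal. -/
theorem val_tameCoeff_mul_sub {π : L} (hπ : π ≠ 0) (g k : G) :
    v (tameCoeff G π (g * k) - tameCoeff G π g * tameCoeff G π k) < 1 := by
  have e : tameCoeff G π (g * k) - tameCoeff G π g * tameCoeff G π k =
      tameCoeff G π g * (g • tameCoeff G π k - tameCoeff G π k) := by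
    have h1 : (g * k) • π = g • π * g • tameCoeff G π k := by
      rw [mul_smul, smul_eq_mul_tameCoeff hπ k, smul_mul']
    have h2 : tameCoeff G π (g * k) = tameCoeff G π g * g • tameCoeff G π k := by
      unfold tameCoeff at h1 ⊢
      rw [h1]; field_simp
    rw [h2]; ring
  rw [e, v.map_mul, h.val_tameCoeff hπ g, one_mul]
  exact h.val_smul_sub_lt_of_val_eq_one g (h.val_tameCoeff hπ k)

/-- **Norm argument**: the `|G|`-th power of every value is a value of a fixed element. -/
theorem exists_zpow_pow_card [Fintype G] {x : L} (hx : x ≠ 0) :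
    ∃ n : ℤ, v x ^ Fintype.card G = v ϖ ^ n := by
  have hfix : ∀ g : G, g • (∏ k : G, k • x) = ∏ k : G, k • x := by
    intro g
    rw [smul_prod']
    simp_rw [smul_smul]
    exact Fintype.prod_equiv (Equiv.mulLeft g) _ _ (fun k => rfl)
  have hne : (∏ k : G, k • x) ≠ 0 :=
    Finset.prod_ne_zero_iff.2 (fun k _ => (smul_eq_zero_iff_eq k).not.2 hx)
  obtain ⟨n, hn⟩ := h.fixed_disc _ hfix hne
  refine ⟨n, ?_⟩
  rw [← hn, map_prod]
  simp [h.val_smul]

end basic

section unif

variable (h : InertialAction v G ϖ) [Finite G]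
include h

theorem exists_zpow_pow_natCard {x : L} (hx : x ≠ 0) :
    ∃ n : ℤ, v x ^ Nat.card G = v ϖ ^ n := by
  classical
  let _ := Fintype.ofFinite G
  rw [Nat.card_eq_fintype_card]
  exact h.exists_zpow_pow_card hx

/-- **Discreteness.**  `L` has a uniformizer `π`, and `v π ^ k = v ϖ` with `k ∣ |G|`. -/
theorem exists_unif : ∃ (π : L) (k : ℕ), π ≠ 0 ∧ v π < 1 ∧
    (∀ x : L, x ≠ 0 → ∃ n : ℤ, v x = v π ^ n) ∧ 0 < k ∧ k ∣ Nat.card G ∧ v π ^ k = v ϖ := by
  classical
  set e := Nat.card G with he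
  have he0 : e ≠ 0 := Nat.card_pos.ne'
  have hSe : ∃ d : ℕ, 0 < d ∧ ∃ x : L, x ≠ 0 ∧ v x ^ e = v ϖ ^ d :=
    ⟨e, Nat.pos_of_ne_zero he0, ϖ, h.ne_zero, rfl⟩
  obtain ⟨hd0, π, hπ0, hπ⟩ := Nat.find_spec hSe
  have hmin : ∀ m : ℕ, 0 < m → (∃ x : L, x ≠ 0 ∧ v x ^ e = v ϖ ^ m) → Nat.find hSe ≤ m :=
    fun m hm hS => Nat.find_min' hSe ⟨hm, hS⟩
  set d := Nat.find hSe with hd
  have hvπ0 : v π ≠ 0 := v.ne_zero_iff.2 hπ0
  have hd0' : (0 : ℤ) < d := by exact_mod_cast hd0
  have key : ∀ x : L, x ≠ 0 → ∃ n : ℤ, v x = v π ^ n := by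
    intro x hx
    obtain ⟨n, hn⟩ := h.exists_zpow_pow_natCard hx
    rw [← he] at hn
    have hr0 : 0 ≤ n % (d : ℤ) := Int.emod_nonneg _ hd0'.ne'
    have hrd : n % (d : ℤ) < d := Int.emod_lt_of_pos _ hd0'
    have hnqr : (d : ℤ) * (n / d) + n % d = n := Int.mul_ediv_add_emod n d
    have hy0 : x / π ^ (n / (d : ℤ)) ≠ 0 := div_ne_zero hx (zpow_ne_zero _ hπ0)
    have e1 : (v π ^ (n / (d : ℤ))) ^ e = v ϖ ^ ((d : ℤ) * (n / d)) := by
      rw [← zpow_natCast (v π ^ (n / (d : ℤ))) e, ← zpow_mul, mul_comm, zpow_mul, zpow_natCast,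
        hπ, ← zpow_natCast (v ϖ) d, ← zpow_mul]
    have hy : v (x / π ^ (n / (d : ℤ))) ^ e = v ϖ ^ (n % (d : ℤ)) := by
      rw [map_div₀, map_zpow₀, div_pow, hn, e1, ← zpow_sub₀ h.val_ne_zero]
      congr 1
      omega
    have hr : n % (d : ℤ) = 0 := by
      by_contra hne
      have hpos : 0 < n % (d : ℤ) := lt_of_le_of_ne hr0 (Ne.symm hne)
      have h1 : Nat.find hSe ≤ (n % (d : ℤ)).toNat := by
        apply hmin _ (by omega)
        refine ⟨_, hy0, ?_⟩
        rw [hy, ← zpow_natCast, Int.toNat_of_nonneg hr0]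
      omega
    rw [hr, zpow_zero] at hy
    have hy1 : v (x / π ^ (n / (d : ℤ))) = 1 := by
      have : v (x / π ^ (n / (d : ℤ))) ^ e = 1 ^ e := by rw [hy, one_pow]
      exact (pow_left_inj he0).mp this
    refine ⟨n / (d : ℤ), ?_⟩
    rw [map_div₀, map_zpow₀, div_eq_one_iff_eq (zpow_ne_zero _ hvπ0)] at hy1
    exact hy1
  have hπlt : v π < 1 := by
    by_contra hge
    rw [not_lt] at hge
    have h1 : (1 : Γ₀) ≤ v π ^ e := one_le_pow₀ hge
    rw [hπ] at h1
    exact absurd h1 (not_le.2 (pow_lt_one₀ zero_le h.lt_one hd0.ne'))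
  obtain ⟨k, hk⟩ := key ϖ h.ne_zero
  have hek : (e : ℤ) = d * k := by
    have h1 : v ϖ ^ (e : ℤ) = v ϖ ^ ((d : ℤ) * k) := by
      rw [zpow_natCast]
      conv_lhs => rw [hk]
      rw [← zpow_natCast (v π ^ k) e, ← zpow_mul, mul_comm, zpow_mul, zpow_natCast, hπ,
        ← zpow_natCast (v ϖ) d, ← zpow_mul]
    exact h.zpow_inj.1 h1
  have hk0 : 0 < k := by
    have : (0 : ℤ) < d * k := by rw [← hek]; exact_mod_cast Nat.pos_of_ne_zero he0
    exact (mul_pos_iff_of_pos_left hd0').1 this
  refine ⟨π, k.toNat, hπ0, hπlt, key, by omega, ?_, ?_⟩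
  · refine ⟨d, ?_⟩
    have : (e : ℤ) = ((k.toNat * d : ℕ) : ℤ) := by
      push_cast
      rw [Int.toNat_of_nonneg hk0.le, hek]; ring
    exact_mod_cast this
  · rw [← zpow_natCast, Int.toNat_of_nonneg hk0.le]
    exact hk.symm

end unif

section wild

variable (h : InertialAction v G ϖ)
include h

/-- If the tame coefficient of `g` is `≡ 1`, then `g` is wild: it moves every `x ≠ 0` by an
element of strictly smaller valuation. -/
theorem wild_of_val_tameCoeff_sub_one_lt {π : L} (hπ : π ≠ 0)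
    (hunif : ∀ x : L, x ≠ 0 → ∃ n : ℤ, v x = v π ^ n) {g : G}
    (hg : v (tameCoeff G π g - 1) < 1) {x : L} (hx : x ≠ 0) : v (g • x - x) < v x := by
  obtain ⟨n, hn⟩ := hunif x hx
  have hvπ0 : v π ≠ 0 := v.ne_zero_iff.2 hπ
  have hπn : π ^ n ≠ 0 := zpow_ne_zero _ hπ
  obtain ⟨y, hy⟩ : ∃ y : L, y = x / π ^ n := ⟨_, rfl⟩
  have hvy : v y = 1 := by
    rw [hy, map_div₀, map_zpow₀, hn, div_self (zpow_ne_zero _ hvπ0)]
  have hx' : x = π ^ n * y := by rw [hy]; field_simp
  have hgπ : g • (π ^ n) = π ^ n * tameCoeff G π g ^ n := by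
    rw [← MulSemiringAction.toRingHom_apply G L g (π ^ n), map_zpow₀,
      MulSemiringAction.toRingHom_apply, smul_eq_mul_tameCoeff hπ g, mul_zpow]
  have e : g • x - x = π ^ n * ((tameCoeff G π g ^ n - 1) * g • y + (g • y - y)) := by
    rw [hx', smul_mul', hgπ]; ring
  rw [e, v.map_mul, map_zpow₀, hn]
  have hlt : v ((tameCoeff G π g ^ n - 1) * g • y + (g • y - y)) < 1 := by
    refine v.map_add_lt ?_ (h.res_triv g y (le_of_eq hvy))
    rw [v.map_mul, h.val_smul, hvy, mul_one]
    exact val_zpow_sub_one_lt v hg n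
  calc v π ^ n * v ((tameCoeff G π g ^ n - 1) * g • y + (g • y - y))
      < v π ^ n * 1 := mul_lt_mul_of_pos_left hlt (zpow_pos (lt_of_le_of_ne zero_le hvπ0.symm) n)
    _ = v π ^ n := mul_one _

end wild

end InertialAction

/-- **A wild automorphism of finite order prime to the residue characteristic is trivial.**
(Trace argument: `∑_{i<n} g^i` kills `z = g • x - x`, but is `≡ n` on every element.) -/
theorem smul_eq_of_wild (v : Valuation L Γ₀) {g : G}
    (hw : ∀ x : L, x ≠ 0 → v (g • x - x) < v x) {n : ℕ} (hn : g ^ n = 1)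
    (hvn : v (n : L) = 1) (x : L) : g • x = x := by
  by_contra hne
  obtain ⟨z, hz⟩ : ∃ z : L, z = g • x - x := ⟨_, rfl⟩
  have hz0 : z ≠ 0 := by rw [hz]; exact sub_ne_zero.2 hne
  have hvz0 : v z ≠ 0 := v.ne_zero_iff.2 hz0
  -- the trace of `z` vanishes (telescoping)
  have htr : ∑ i ∈ range n, g ^ i • z = 0 := by
    have e : ∀ i : ℕ, g ^ i • z = g ^ (i + 1) • x - g ^ i • x := by
      intro i
      rw [hz, smul_sub, pow_succ, mul_smul]
    simp_rw [e]
    rw [Finset.sum_range_sub (fun i => g ^ i • x) n, hn, pow_zero, sub_self]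
  -- every power of `g` is wild on `z`
  have hpw : ∀ i : ℕ, v (g ^ i • z - z) < v z := by
    intro i
    induction i with
    | zero => simpa using lt_of_le_of_ne zero_le hvz0.symm
    | succ i ih =>
      have hu : v (g ^ i • z) = v z := by
        have e : g ^ i • z = z + (g ^ i • z - z) := by ring
        rw [e]; exact v.map_add_eq_of_lt_left ih
      have hu0 : g ^ i • z ≠ 0 := by
        intro h0; rw [h0, v.map_zero] at hu; exact hvz0 hu.symm
      have e : g ^ (i + 1) • z - z = (g • (g ^ i • z) - g ^ i • z) + (g ^ i • z - z) := by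
        rw [pow_succ', mul_smul]; ring
      rw [e]
      exact v.map_add_lt (hu ▸ hw _ hu0) ih
  have hdiff : v (∑ i ∈ range n, g ^ i • z - (n : L) * z) < v z := by
    have e : ∑ i ∈ range n, g ^ i • z - (n : L) * z = ∑ i ∈ range n, (g ^ i • z - z) := by
      rw [Finset.sum_sub_distrib, Finset.sum_const, Finset.card_range, nsmul_eq_mul]
    rw [e]
    exact v.map_sum_lt hvz0 (fun i _ => hpw i)
  rw [htr, zero_sub, v.map_neg, v.map_mul, hvn, one_mul] at hdiff
  exact lt_irrefl _ hdiff

namespace InertialAction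

variable {v : Valuation L Γ₀} {ϖ : L}

section tame

variable (h : InertialAction v G ϖ)
include h

/-- The tame character `g ↦ g • π / π` with values in the residue field of `v`. -/
noncomputable def tameChar {π : L} (hπ : π ≠ 0) :
    G →* IsLocalRing.ResidueField v.valuationSubring where
  toFun g := IsLocalRing.residue _
    ⟨tameCoeff G π g, (v.mem_valuationSubring_iff _).2 (le_of_eq (h.val_tameCoeff hπ g))⟩
  map_one' := by
    have e : (⟨tameCoeff G π (1 : G),
        (v.mem_valuationSubring_iff _).2 (le_of_eq (h.val_tameCoeff hπ 1))⟩ :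
        v.valuationSubring) = 1 := Subtype.ext (tameCoeff_one hπ)
    rw [e, map_one]
  map_mul' g k := by
    rw [← map_mul, residue_eq_iff]
    exact h.val_tameCoeff_mul_sub hπ g k

theorem tameChar_eq_one_iff {π : L} (hπ : π ≠ 0) (g : G) :
    h.tameChar hπ g = 1 ↔ v (tameCoeff G π g - 1) < 1 := by
  have e : h.tameChar hπ g = IsLocalRing.residue _
    ⟨tameCoeff G π g, (v.mem_valuationSubring_iff _).2 (le_of_eq (h.val_tameCoeff hπ g))⟩ := rfl
  rw [e, ← map_one (IsLocalRing.residue _), residue_eq_iff]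
  rfl

theorem tameChar_pow_eq_one_iff {π : L} (hπ : π ≠ 0) (g : G) (j : ℕ) :
    h.tameChar hπ g ^ j = 1 ↔ v (tameCoeff G π g ^ j - 1) < 1 := by
  have e : h.tameChar hπ g = IsLocalRing.residue _
    ⟨tameCoeff G π g, (v.mem_valuationSubring_iff _).2 (le_of_eq (h.val_tameCoeff hπ g))⟩ := rfl
  rw [e, ← map_pow, ← map_one (IsLocalRing.residue _), residue_eq_iff]
  rfl

/-- Under tameness (`|G|` is a unit of the valuation ring), an element with trivial tame
character acts trivially. -/
theorem smul_eq_of_val_tameCoeff_sub_one_lt (htame : v (Nat.card G : L) = 1) {π : L} (hπ : π ≠ 0)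
    (hunif : ∀ x : L, x ≠ 0 → ∃ n : ℤ, v x = v π ^ n) {g : G}
    (hg : v (tameCoeff G π g - 1) < 1) (x : L) : g • x = x :=
  smul_eq_of_wild v (fun _ hy => h.wild_of_val_tameCoeff_sub_one_lt hπ hunif hg hy)
    pow_card_eq_one' htame x

/-- **Frobenius raises the tame character to the `p`-th power.** -/
theorem val_tameCoeff_frob {π : L} (hπ : π ≠ 0) (φ : L →+* L) (hφv : ∀ x, v (φ x) = v x)
    {p : ℕ} (hφ : ∀ x, v x ≤ 1 → v (φ x - x ^ p) < 1) {g g' : G}
    (hgg' : ∀ x : L, φ (g • x) = g' • φ x) :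
    v (tameCoeff G π g' - tameCoeff G π g ^ p) < 1 := by
  obtain ⟨d, hd⟩ : ∃ d : L, d = φ π / π := ⟨_, rfl⟩
  have hvd : v d = 1 := by rw [hd, map_div₀, hφv, div_self (v.ne_zero_iff.2 hπ)]
  have hφπ : φ π = π * d := by rw [hd]; field_simp
  have hgd : v (g' • d) = 1 := by rw [h.val_smul, hvd]
  have hgd0 : g' • d ≠ 0 := by
    intro h0; rw [h0, v.map_zero] at hgd; exact zero_ne_one hgd
  have h1 : tameCoeff G π g' * g' • d = d * φ (tameCoeff G π g) := by
    have h2 : g' • φ π = φ π * φ (tameCoeff G π g) := by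
      rw [← hgg', smul_eq_mul_tameCoeff hπ g, map_mul]
    rw [hφπ, smul_mul', smul_eq_mul_tameCoeff hπ g'] at h2
    have h3 : π * (tameCoeff G π g' * g' • d) = π * (d * φ (tameCoeff G π g)) := by
      rw [← mul_assoc, h2]; ring
    exact mul_left_cancel₀ hπ h3
  have e : tameCoeff G π g' - tameCoeff G π g ^ p =
      φ (tameCoeff G π g) * ((d - g' • d) / g' • d) +
        (φ (tameCoeff G π g) - tameCoeff G π g ^ p) := by
    have h4 : tameCoeff G π g' = d * φ (tameCoeff G π g) / g' • d := by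
      rw [eq_div_iff hgd0]; exact h1
    rw [h4]; field_simp; ring
  rw [e]
  refine v.map_add_lt ?_ (hφ _ (le_of_eq (h.val_tameCoeff hπ g)))
  rw [v.map_mul, hφv, h.val_tameCoeff hπ g, one_mul, map_div₀, hgd, div_one, v.map_sub_swap]
  exact h.res_triv g' d (le_of_eq hvd)

variable [Finite G] [FaithfulSMul G L]

omit [Finite G] in
theorem tameChar_injective (htame : v (Nat.card G : L) = 1) {π : L} (hπ : π ≠ 0)
    (hunif : ∀ x : L, x ≠ 0 → ∃ n : ℤ, v x = v π ^ n) :
    Function.Injective (h.tameChar hπ) := by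
  rw [injective_iff_map_eq_one]
  intro g hg
  have hg' := (h.tameChar_eq_one_iff hπ g).1 hg
  exact eq_of_smul_eq_smul (α := L) fun x => by
    rw [one_smul]; exact h.smul_eq_of_val_tameCoeff_sub_one_lt htame hπ hunif hg' x

/-- **Tame inertia is cyclic.** -/
theorem isCyclic (htame : v (Nat.card G : L) = 1) : IsCyclic G := by
  obtain ⟨π, k, hπ, -, hunif, -⟩ := h.exists_unif
  exact isCyclic_of_injective_ringHom (h.tameChar hπ) (h.tameChar_injective htame hπ hunif)

/-- A generator `t` of the tame inertia group whose tame coefficient has exact order `|G|`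
modulo the maximal ideal (for any uniformizer `π`). -/
theorem exists_generator (htame : v (Nat.card G : L) = 1) :
    ∃ t : G, (∀ g : G, g ∈ Subgroup.zpowers t) ∧ ∀ (π : L), π ≠ 0 →
      (∀ x : L, x ≠ 0 → ∃ n : ℤ, v x = v π ^ n) →
      ∀ j : ℕ, v (tameCoeff G π t ^ j - 1) < 1 ↔ Nat.card G ∣ j := by
  have := h.isCyclic htame
  obtain ⟨t, ht⟩ := IsCyclic.exists_generator (α := G)
  refine ⟨t, ht, fun π hπ hunif j => ?_⟩
  rw [← h.tameChar_pow_eq_one_iff hπ t j, ← map_pow,
    ← orderOf_eq_card_of_forall_mem_zpowers ht, orderOf_dvd_iff_pow_eq_one]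
  constructor
  · intro h1
    exact h.tameChar_injective htame hπ hunif (by rw [h1, map_one])
  · intro h1; rw [h1, map_one]

/-- **The ramification index of the tame layer is `|G|`.** -/
theorem val_unif_pow_card (htame : v (Nat.card G : L) = 1) {π : L} (hπ : π ≠ 0) (hπ1 : v π < 1)
    (hunif : ∀ x : L, x ≠ 0 → ∃ n : ℤ, v x = v π ^ n) : v π ^ Nat.card G = v ϖ := by
  have hvπ0 : v π ≠ 0 := v.ne_zero_iff.2 hπ
  have hvπpos : 0 < v π := lt_of_le_of_ne zero_le hvπ0.symm
  have hinj : ∀ {m n : ℤ}, v π ^ m = v π ^ n → m = n := fun {m n} hmn =>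
    zpow_right_injective₀ hvπpos (ne_of_lt hπ1) hmn
  obtain ⟨k, hk⟩ := hunif ϖ h.ne_zero
  -- `k > 0`
  have hk0 : 0 < k := by
    by_contra hle
    rw [not_lt] at hle
    have h1 : (1 : Γ₀) ≤ v π ^ k := by
      have h2 : v π ^ (-k) ≤ 1 := zpow_le_one₀ hvπpos hπ1.le (by omega)
      rw [zpow_neg] at h2
      exact (inv_le_one₀ (zpow_pos hvπpos k)).1 h2
    rw [← hk] at h1
    exact absurd h1 (not_le.2 h.lt_one)
  -- `k ∣ |G|` by the norm argument
  obtain ⟨n, hn⟩ := h.exists_zpow_pow_natCard hπ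
  have hkn : (Nat.card G : ℤ) = k * n := by
    apply hinj
    rw [zpow_natCast, hn, hk, ← zpow_mul]
  -- `|G| ∣ k` by the tame character of a generator
  obtain ⟨t, -, ht⟩ := h.exists_generator htame
  have hck : v (tameCoeff G π t ^ k.toNat - 1) < 1 := by
    obtain ⟨y, hy⟩ : ∃ y : L, y = π ^ k.toNat / ϖ := ⟨_, rfl⟩
    have hvy : v y = 1 := by
      rw [hy, map_div₀, v.map_pow, hk, ← zpow_natCast (v π) k.toNat, Int.toNat_of_nonneg hk0.le,
        div_self (zpow_ne_zero _ hvπ0)]
    have hy0 : y ≠ 0 := by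
      intro h0; rw [h0, v.map_zero] at hvy; exact zero_ne_one hvy
    have hπk : π ^ k.toNat = ϖ * y := by rw [hy]; field_simp [h.ne_zero]
    have h1 : π ^ k.toNat * tameCoeff G π t ^ k.toNat = ϖ * t • y := by
      rw [← mul_pow, ← smul_eq_mul_tameCoeff hπ t, ← smul_pow', hπk, smul_mul', h.fixed]
    have h2 : tameCoeff G π t ^ k.toNat - 1 = (t • y - y) / y := by
      have h3 : tameCoeff G π t ^ k.toNat = t • y / y := by
        rw [eq_div_iff hy0]
        have h4 : ϖ * (tameCoeff G π t ^ k.toNat * y) = ϖ * t • y := by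
          rw [← h1, hπk]; ring
        exact mul_left_cancel₀ h.ne_zero h4
      rw [h3]; field_simp
    rw [h2, map_div₀, hvy, div_one]
    exact h.res_triv t y (le_of_eq hvy)
  have hdvd : Nat.card G ∣ k.toNat := (ht π hπ hunif k.toNat).1 hck
  have hkeq : (Nat.card G : ℤ) = k := by
    obtain ⟨m, hm⟩ := hdvd
    have hm' : k = (Nat.card G : ℤ) * m := by
      rw [← Int.toNat_of_nonneg hk0.le, hm]; push_cast; ring
    have hcard : (0 : ℤ) < Nat.card G := by exact_mod_cast Nat.card_pos
    have h5 : (Nat.card G : ℤ) * 1 = (Nat.card G : ℤ) * ((m : ℤ) * n) := by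
      rw [mul_one]; conv_lhs => rw [hkn, hm']
      ring
    have h6 : (m : ℤ) * n = 1 := (mul_left_cancel₀ hcard.ne' h5).symm
    have hm1 : (m : ℤ) = 1 := by
      rcases Int.eq_one_or_neg_one_of_mul_eq_one h6 with h7 | h7
      · exact h7
      · omega
    rw [hm', hm1, mul_one]
  rw [← zpow_natCast, hkeq, hk]

end tame

end InertialAction

end Fermat.Agent.S56.helper4753
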