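import Mathlib
import Fermat.Prelude.Def_FLTPrelim_Ramification
import Fermat.Prelude.Def_EllipticCurve_FrobeniusTrace
import Fermat.Agent.Lib.helper3858_ResidueQbar
import Fermat.Agent.S05.helper4205_Inertia
import Fermat.Agent.S58.helper6024_Unram
import Fermat.Agent.S56.helper6024_TameInertia
import Fermat.Agent.S56.helper4753_TameLayer

/-!
# The tame field at `p` in the frozen vocabulary (helper4753, S56 registry node FLAT-TAMEK0)

`Qb = AlgebraicClosure ℚ`, `P` a valuation subring of `Qb` over `p`, `I = P.inertiaSubgroupIn ℚ`.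
For a subgroup `J ≤ I` which is normalised by `I`, contains `I ∩ Gal(Qb/E)` for a finite level
`E`, and such that `I / J` has exponent prime to `p` (`IsTameSub p P J`; instance: `J = I ∩ ker ρ`
for a residual representation `ρ` on which inertia acts through a quotient of order prime to `p`),
the fixed field `K = fixSub J` with the valuation `vK P J` is a discretely valued field, tamely
and totally ramified of degree `e = [I : J]` over the inertia field.  We export, elementwise: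

* `(K1)` `exists_pow_sub_lt` : residue classes of `K` are `p`-th powers (any `J`);
* `(K2)` a uniformizer `π` of `K` with `v π ^ e = v p`, `p ∤ e`;
* `(K3)` the tame coefficient `tcoef J σ _ π = σ π / π` of `σ ∈ I`: a unit, multiplicative modulo
  the maximal ideal, `≡ 1` iff `σ ∈ J`; a generator `t` of `I` modulo `J` with
  `tcoef t ^ j ≡ 1 ↔ e ∣ j ↔ t ^ j ∈ J`;
* `(K5)` a Frobenius `φ` normalising `J` preserves `vK`, is `x ↦ x ^ p` on residues, and
  `tcoef (φ σ φ⁻¹) ≡ tcoef σ ^ p`.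

The statements about `p`-th roots of unity (`(K4)`, `(K6)`) are in `helper4753_TameAdapt.lean`.
-/

set_option autoImplicit false

namespace Fermat.Agent.S56.helper4753

open Fermat.Agent.Lib.helper54 Fermat.Agent.Lib.helper2489

attribute [local instance] isAlgebraic_Qbar isAlgClosure_Qbar isGalois_Qbar isIntegral_Qbar

local notation "Qb" => AlgebraicClosure ℚ
local notation "GQ" => (AlgebraicClosure ℚ ≃ₐ[ℚ] AlgebraicClosure ℚ)

/-! ### The fixed field, its valuation, and restricted automorphisms -/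

/-- The subfield of `ℚ̄` fixed by a subgroup of the absolute Galois group. -/
noncomputable def fixSub (J : Subgroup GQ) : Subfield Qb := (IntermediateField.fixedField J).toSubfield

theorem mem_fixSub {J : Subgroup GQ} {x : Qb} : x ∈ fixSub J ↔ ∀ σ ∈ J, σ x = x := by
  unfold fixSub
  rw [IntermediateField.mem_toSubfield, IntermediateField.mem_fixedField_iff]

theorem fixSub_anti {J J' : Subgroup GQ} (h : J ≤ J') : fixSub J' ≤ fixSub J := by
  intro x hx
  rw [mem_fixSub] at hx ⊢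
  exact fun σ hσ => hx σ (h hσ)

/-- The valuation of `P` restricted to the fixed field of `J`. -/
noncomputable def vK (P : ValuationSubring Qb) (J : Subgroup GQ) :
    Valuation (fixSub J) P.ValueGroup :=
  P.valuation.comap (fixSub J).subtype

theorem vK_apply (P : ValuationSubring Qb) (J : Subgroup GQ) (x : fixSub J) :
    vK P J x = P.valuation (x : Qb) := rfl

/-- An automorphism normalising `J` maps the fixed field of `J` into itself. -/
theorem apply_mem_fixSub {J : Subgroup GQ} {σ : GQ} (hσ : ∀ τ ∈ J, σ⁻¹ * τ * σ ∈ J) {x : Qb}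
    (hx : x ∈ fixSub J) : σ x ∈ fixSub J := by
  rw [mem_fixSub] at hx ⊢
  intro τ hτ
  have h1 := hx _ (hσ τ hτ)
  have h2 : σ ((σ⁻¹ * τ * σ) x) = τ (σ x) := by
    simp only [AlgEquiv.mul_apply]
    exact AlgEquiv.apply_symm_apply σ _
  rw [← h2, h1]

/-- The ring endomorphism of the fixed field of `J` induced by an automorphism normalising
`J`. -/
noncomputable def resHom (J : Subgroup GQ) (σ : GQ) (hσ : ∀ τ ∈ J, σ⁻¹ * τ * σ ∈ J) : fixSub J →+* fixSub J :=
  ((σ : Qb →+* Qb).comp (fixSub J).subtype).codRestrict (fixSub J)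
    (fun x => apply_mem_fixSub hσ x.2)

@[simp] theorem coe_resHom (J : Subgroup GQ) (σ : GQ) (hσ : ∀ τ ∈ J, σ⁻¹ * τ * σ ∈ J)
    (x : fixSub J) : ((resHom J σ hσ x : fixSub J) : Qb) = σ (x : Qb) := rfl

/-- The tame coefficient `σ π / π` of an automorphism normalising `J` at `π ∈ fixSub J`. -/
noncomputable def tcoef (J : Subgroup GQ) (σ : GQ) (hσ : ∀ τ ∈ J, σ⁻¹ * τ * σ ∈ J)
    (π : fixSub J) : fixSub J :=
  resHom J σ hσ π / π

theorem resHom_eq_mul_tcoef (J : Subgroup GQ) (σ : GQ) (hσ : ∀ τ ∈ J, σ⁻¹ * τ * σ ∈ J)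
    {π : fixSub J} (hπ : π ≠ 0) : resHom J σ hσ π = π * tcoef J σ hσ π := by
  unfold tcoef
  field_simp

section generic

variable {p : ℕ} (P : ValuationSubring Qb) (J : Subgroup GQ)

/-- Decomposition-group elements preserve the valuation of the fixed field. -/
theorem vK_resHom {σ : GQ} (hσD : σ ∈ P.decompositionSubgroup ℚ)
    (hσ : ∀ τ ∈ J, σ⁻¹ * τ * σ ∈ J) (x : fixSub J) : vK P J (resHom J σ hσ x) = vK P J x :=
  Fermat.Agent.S05.helper4205.valuation_apply_of_mem_decomposition hσD _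

/-- Inertia elements act trivially on the residue field of the fixed field. -/
theorem vK_resHom_sub_lt {σ : GQ} (hσI : σ ∈ P.inertiaSubgroupIn ℚ)
    (hσ : ∀ τ ∈ J, σ⁻¹ * τ * σ ∈ J) (x : fixSub J) (hx : vK P J x ≤ 1) :
    vK P J (resHom J σ hσ x - x) < 1 := by
  have hxP : (x : Qb) ∈ P := (ValuationSubring.valuation_le_one_iff P _).1 hx
  exact (ValuationSubring.mem_nonunits_iff P).1
    (Fermat.Agent.S05.helper4205.apply_sub_mem_nonunits hσI hxP)

/-- A Frobenius element acts as `x ↦ x ^ p` on the residue field of the fixed field. -/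
theorem vK_resHom_frob {φ : GQ} (hφ : P.IsFrobeniusAt φ p)
    (hσ : ∀ τ ∈ J, φ⁻¹ * τ * φ ∈ J) (x : fixSub J) (hx : vK P J x ≤ 1) :
    vK P J (resHom J φ hσ x - x ^ p) < 1 := by
  have hxP : (x : Qb) ∈ P := (ValuationSubring.valuation_le_one_iff P _).1 hx
  exact (ValuationSubring.mem_nonunits_iff P).1
    (Fermat.Agent.Lib.helper3858.apply_sub_pow_mem_nonunits_of_isFrobeniusAt hφ hxP)

/-- The tame coefficient of a decomposition-group element is a unit. -/
theorem vK_tcoef {σ : GQ} (hσD : σ ∈ P.decompositionSubgroup ℚ)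
    (hσ : ∀ τ ∈ J, σ⁻¹ * τ * σ ∈ J) {π : fixSub J} (hπ : π ≠ 0) :
    vK P J (tcoef J σ hσ π) = 1 := by
  unfold tcoef
  rw [map_div₀, vK_resHom P J hσD hσ]
  exact div_self ((map_ne_zero _).2 hπ)

theorem vK_natCast_prime_lt_one (hP : P.LiesOverPrime p) : vK P J (p : fixSub J) < 1 := by
  rw [vK_apply]
  exact (ValuationSubring.mem_nonunits_iff P).1 hP

/-- **(K1)** Every residue class of the fixed field of any subgroup is a `p`-th power. -/
theorem exists_pow_sub_lt (hp : p.Prime) (hP : P.LiesOverPrime p) (a : fixSub J)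
    (ha : vK P J a ≤ 1) : ∃ b : fixSub J, vK P J (a - b ^ p) < 1 := by
  have haP : (a : Qb) ∈ P := (ValuationSubring.valuation_le_one_iff P _).1 ha
  obtain ⟨n, hn, hx⟩ := Fermat.Agent.Lib.helper3858.exists_pow_eq_self_residueField P hp hP
    (IsLocalRing.residue P ⟨a, haP⟩)
  refine ⟨a ^ (p ^ (n - 1)), ?_⟩
  have e : a - (a ^ (p ^ (n - 1))) ^ p = a - a ^ (p ^ n) := by
    rw [← pow_mul, ← pow_succ, Nat.sub_add_cancel hn]
  rw [e, vK_apply]
  have h0 : (⟨a, haP⟩ : P) - ⟨a, haP⟩ ^ (p ^ n) ∈ IsLocalRing.maximalIdeal P := by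
    rw [← IsLocalRing.residue_eq_zero_iff, map_sub, map_pow, hx, sub_self]
  exact (ValuationSubring.valuation_lt_one_iff P _).1 h0

end generic

/-! ### Closedness of the subgroup cut out by a finite level -/

/-- **Closedness.** If `J ≤ H` contains every element of `H` fixing a finite level `E`, then an
element of `H` fixing the fixed field of `J` pointwise lies in `J` (finite Galois theory on the
normal closure of `E`). -/
theorem mem_of_forall_mem_fixSub {J H : Subgroup GQ} (hJH : J ≤ H)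
    (E : IntermediateField ℚ Qb) [FiniteDimensional ℚ E]
    (hE : ∀ σ ∈ H, (∀ x ∈ E, σ x = x) → σ ∈ J) {σ : GQ} (hσH : σ ∈ H)
    (hσ : ∀ x ∈ fixSub J, σ x = x) : σ ∈ J := by
  have hnormal : Normal ℚ (IntermediateField.normalClosure ℚ E Qb) :=
    normalClosure.normal ℚ _ Qb
  have hfd : FiniteDimensional ℚ (IntermediateField.normalClosure ℚ E Qb) :=
    normalClosure.is_finiteDimensional ℚ E Qb
  set N := IntermediateField.normalClosure ℚ E Qb with hN
  let res : GQ →* (N ≃ₐ[ℚ] N) := AlgEquiv.restrictNormalHom N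
  have hres : ∀ (τ : GQ) (x : N), ((res τ x : N) : Qb) = τ (x : Qb) := fun τ x =>
    AlgEquiv.restrictNormal_commutes τ N x
  have h1 : res σ ∈ (IntermediateField.fixedField (J.map res)).fixingSubgroup := by
    rw [IntermediateField.mem_fixingSubgroup_iff]
    intro x hx
    rw [IntermediateField.mem_fixedField_iff] at hx
    have hxJ : (x : Qb) ∈ fixSub J := by
      rw [mem_fixSub]
      intro τ hτ
      have h2 := hx (res τ) (Subgroup.mem_map_of_mem _ hτ)
      rw [← hres, h2]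
    apply Subtype.ext
    rw [hres]
    exact hσ _ hxJ
  rw [IntermediateField.fixingSubgroup_fixedField] at h1
  obtain ⟨τ, hτJ, hτ⟩ := Subgroup.mem_map.1 h1
  have h2 : τ⁻¹ * σ ∈ J := by
    refine hE _ (H.mul_mem (H.inv_mem (hJH hτJ)) hσH) (fun x hx => ?_)
    have hxN : x ∈ N := IntermediateField.le_normalClosure E hx
    have h3 : res (τ⁻¹ * σ) = 1 := by rw [map_mul, map_inv, hτ, inv_mul_cancel]
    have h4 := hres (τ⁻¹ * σ) ⟨x, hxN⟩
    rw [h3] at h4
    exact h4.symm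
  have h5 := J.mul_mem hτJ h2
  rwa [mul_inv_cancel_left] at h5

/-! ### Tame subgroups of the inertia group -/

/-- `J` is a *tame subgroup* of the inertia group `I` at `P`: a subgroup of `I` normalised by
`I`, containing the elements of `I` fixing some finite level, with `I / J` of exponent prime to
`p`. -/
structure IsTameSub (p : ℕ) (P : ValuationSubring Qb) (J : Subgroup GQ) : Prop where
  le : J ≤ P.inertiaSubgroupIn ℚ
  conj : ∀ σ ∈ P.inertiaSubgroupIn ℚ, ∀ τ ∈ J, σ⁻¹ * τ * σ ∈ J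
  level : ∃ E : IntermediateField ℚ Qb, FiniteDimensional ℚ E ∧
    ∀ σ ∈ P.inertiaSubgroupIn ℚ, (∀ x ∈ E, σ x = x) → σ ∈ J
  coprime : ∀ σ ∈ P.inertiaSubgroupIn ℚ, ∃ n : ℕ, n.Coprime p ∧ σ ^ n ∈ J

/-- The kernel on inertia of a homomorphism factoring through a finite level, on which inertia
acts through elements of order prime to `p`, is a tame subgroup. -/
theorem IsTameSub.of_hom {p : ℕ} {P : ValuationSubring Qb} {H : Type} [Monoid H] (ρ : GQ →* H)
    (hρ : GaloisFactorsThroughFiniteLevel ρ)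
    (hcop : ∀ σ ∈ P.inertiaSubgroupIn ℚ, ∃ n : ℕ, n.Coprime p ∧ ρ σ ^ n = 1)
    {J : Subgroup GQ} (hJ : ∀ σ, σ ∈ J ↔ σ ∈ P.inertiaSubgroupIn ℚ ∧ ρ σ = 1) :
    IsTameSub p P J where
  le := fun σ hσ => ((hJ σ).1 hσ).1
  conj := fun σ hσ τ hτ => (hJ _).2 ⟨mul_mem (mul_mem (inv_mem hσ) ((hJ τ).1 hτ).1) hσ, by
    rw [map_mul, map_mul, ((hJ τ).1 hτ).2, mul_one, ← map_mul, inv_mul_cancel, map_one]⟩
  level := by
    obtain ⟨E, hE, hfix⟩ := hρ
    exact ⟨E, hE, fun σ hσ hx => (hJ σ).2 ⟨hσ, hfix σ hx⟩⟩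
  coprime := fun σ hσ => by
    obtain ⟨n, hn, hpow⟩ := hcop σ hσ
    exact ⟨n, hn, (hJ _).2 ⟨pow_mem hσ n, by rw [map_pow, hpow]⟩⟩

/-- The subgroup cut out on inertia by a homomorphism is normalised by the decomposition
group (so the restriction `resHom J g _` exists for every `g` in the decomposition group, e.g. a
Frobenius element). -/
theorem conj_mem_of_hom {P : ValuationSubring Qb} {H : Type} [Monoid H] (ρ : GQ →* H)
    {J : Subgroup GQ} (hJ : ∀ σ, σ ∈ J ↔ σ ∈ P.inertiaSubgroupIn ℚ ∧ ρ σ = 1) {g : GQ}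
    (hg : g ∈ P.decompositionSubgroup ℚ) : ∀ τ ∈ J, g⁻¹ * τ * g ∈ J := by
  intro τ hτ
  have h1 := Fermat.Agent.S56.helper6024.conj_mem_inertiaSubgroupIn (inv_mem hg) ((hJ τ).1 hτ).1
  rw [inv_inv] at h1
  refine (hJ _).2 ⟨h1, ?_⟩
  rw [map_mul, map_mul, ((hJ τ).1 hτ).2, mul_one, ← map_mul, inv_mul_cancel, map_one]

/-- The intersection of two tame subgroups is a tame subgroup. -/
theorem IsTameSub.inf {p : ℕ} {P : ValuationSubring Qb} {J₁ J₂ : Subgroup GQ}
    (h₁ : IsTameSub p P J₁) (h₂ : IsTameSub p P J₂) : IsTameSub p P (J₁ ⊓ J₂) where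
  le := inf_le_left.trans h₁.le
  conj := fun σ hσ τ hτ => ⟨h₁.conj σ hσ τ hτ.1, h₂.conj σ hσ τ hτ.2⟩
  level := by
    obtain ⟨E₁, hE₁, hl₁⟩ := h₁.level
    obtain ⟨E₂, hE₂, hl₂⟩ := h₂.level
    have := hE₁
    have := hE₂
    refine ⟨E₁ ⊔ E₂, IntermediateField.finiteDimensional_sup E₁ E₂, fun σ hσ hx => ⟨?_, ?_⟩⟩
    · exact hl₁ σ hσ (fun x hx1 => hx x ((le_sup_left : E₁ ≤ E₁ ⊔ E₂) hx1))
    · exact hl₂ σ hσ (fun x hx2 => hx x ((le_sup_right : E₂ ≤ E₁ ⊔ E₂) hx2))
  coprime := fun σ hσ => by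
    obtain ⟨n₁, hn₁, hp₁⟩ := h₁.coprime σ hσ
    obtain ⟨n₂, hn₂, hp₂⟩ := h₂.coprime σ hσ
    refine ⟨n₁ * n₂, Nat.Coprime.mul_left hn₁ hn₂, ?_, ?_⟩
    · rw [pow_mul]; exact pow_mem hp₁ _
    · rw [mul_comm, pow_mul]; exact pow_mem hp₂ _

namespace IsTameSub

variable {p : ℕ} {P : ValuationSubring Qb} {J : Subgroup GQ} (h : IsTameSub p P J)

include h in
/-- An inertia element fixing the fixed field of a tame subgroup `J` lies in `J`. -/
theorem mem_of_fixes {σ : GQ} (hσ : σ ∈ P.inertiaSubgroupIn ℚ)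
    (hfix : ∀ x ∈ fixSub J, σ x = x) : σ ∈ J := by
  obtain ⟨E, hE, hlev⟩ := h.level
  have := hE
  exact mem_of_forall_mem_fixSub h.le E hlev hσ hfix

/-- The automorphism of the fixed field of `J` induced by an inertia element. -/
noncomputable def resEquiv (σ : ↥(P.inertiaSubgroupIn ℚ)) : RingAut (fixSub J) :=
  RingEquiv.ofRingHom (resHom J σ.1 (h.conj σ.1 σ.2))
    (resHom J σ.1⁻¹ (h.conj σ.1⁻¹ (inv_mem σ.2)))
    (by
      ext x
      simp only [RingHom.comp_apply, coe_resHom, RingHom.id_apply]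
      exact AlgEquiv.apply_symm_apply σ.1 _)
    (by
      ext x
      simp only [RingHom.comp_apply, coe_resHom, RingHom.id_apply]
      exact AlgEquiv.symm_apply_apply σ.1 _)

theorem resEquiv_apply (σ : ↥(P.inertiaSubgroupIn ℚ)) (x : fixSub J) :
    h.resEquiv σ x = resHom J σ.1 (h.conj σ.1 σ.2) x := rfl

/-- The action of the inertia group on the fixed field of `J`, as a homomorphism. -/
noncomputable def resMonoidHom : ↥(P.inertiaSubgroupIn ℚ) →* RingAut (fixSub J) where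
  toFun := h.resEquiv
  map_one' := by
    ext x
    rfl
  map_mul' σ τ := by
    ext x
    rfl

theorem resMonoidHom_apply (σ : ↥(P.inertiaSubgroupIn ℚ)) (x : fixSub J) :
    h.resMonoidHom σ x = resHom J σ.1 (h.conj σ.1 σ.2) x := rfl

theorem resMonoidHom_eq_one_of_mem {σ : ↥(P.inertiaSubgroupIn ℚ)} (hσ : σ.1 ∈ J) :
    h.resMonoidHom σ = 1 := by
  ext x
  rw [resMonoidHom_apply, coe_resHom]
  exact mem_fixSub.1 x.2 _ hσ

theorem mem_of_resMonoidHom_eq_one {σ : ↥(P.inertiaSubgroupIn ℚ)} (hσ : h.resMonoidHom σ = 1) :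
    σ.1 ∈ J := by
  refine h.mem_of_fixes σ.2 (fun x hx => ?_)
  have h1 := h.resMonoidHom_apply σ ⟨x, hx⟩
  rw [hσ] at h1
  exact (congrArg Subtype.val h1).symm

theorem ker_resMonoidHom :
    h.resMonoidHom.ker = J.subgroupOf (P.inertiaSubgroupIn ℚ) := by
  ext σ
  rw [MonoidHom.mem_ker, Subgroup.mem_subgroupOf]
  exact ⟨h.mem_of_resMonoidHom_eq_one, h.resMonoidHom_eq_one_of_mem⟩

theorem card_range :
    Nat.card h.resMonoidHom.range = J.relIndex (P.inertiaSubgroupIn ℚ) := by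
  rw [Subgroup.relIndex, ← h.ker_resMonoidHom, Subgroup.index_ker]

theorem finite_range : Finite h.resMonoidHom.range := by
  obtain ⟨E, hE, hlev⟩ := h.level
  have := hE
  have hsurj : ∀ g : h.resMonoidHom.range, ∃ σ : ↥(P.inertiaSubgroupIn ℚ),
      h.resMonoidHom σ = g.1 := fun g => g.2
  choose s hs using hsurj
  let f : h.resMonoidHom.range → (E →ₐ[ℚ] Qb) := fun g =>
    ((s g).1 : Qb →ₐ[ℚ] Qb).comp E.val
  have hf : Function.Injective f := by
    intro g g' hgg'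
    have h1 : ((s g)⁻¹ * s g' : ↥(P.inertiaSubgroupIn ℚ)).1 ∈ J := by
      refine hlev _ ((s g)⁻¹ * s g').2 (fun x hx => ?_)
      have h2 : (s g).1 x = (s g').1 x := DFunLike.congr_fun hgg' ⟨x, hx⟩
      change (s g).1⁻¹ ((s g').1 x) = x
      rw [← h2]
      exact AlgEquiv.symm_apply_apply _ _
    have h2 := h.resMonoidHom_eq_one_of_mem h1
    rw [map_mul, map_inv, inv_mul_eq_one] at h2
    apply Subtype.ext
    rw [← hs g, ← hs g', h2]
  exact Finite.of_injective f hf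

include h in
theorem not_dvd_card_range (hp : p.Prime) : ¬ p ∣ Nat.card h.resMonoidHom.range := by
  have := h.finite_range
  have : Fact p.Prime := ⟨hp⟩
  intro hdvd
  obtain ⟨g, hg⟩ := exists_prime_orderOf_dvd_card' p hdvd
  obtain ⟨σ, hσ⟩ := g.2
  obtain ⟨n, hn, hnJ⟩ := h.coprime σ.1 σ.2
  have h1 : g ^ n = 1 := by
    apply Subtype.ext
    rw [SubmonoidClass.coe_pow, ← hσ, ← map_pow]
    exact h.resMonoidHom_eq_one_of_mem hnJ
  have h2 := orderOf_dvd_of_pow_eq_one h1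
  rw [hg] at h2
  exact hp.one_lt.ne' (hn.symm.eq_one_of_dvd h2)

/-- The image of inertia in the automorphisms of the fixed field of a tame subgroup is an
inertial action in the sense of `helper4753_TameLayer`. -/
theorem inertialAction (hp : p.Prime) (hP : P.LiesOverPrime p) :
    InertialAction (vK P J) h.resMonoidHom.range (p : fixSub J) where
  val_smul g x := by
    obtain ⟨σ, hσ⟩ := g.2
    have e : g • x = resHom J σ.1 (h.conj σ.1 σ.2) x := by
      change (g : RingAut (fixSub J)) x = _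
      rw [← hσ]
      rfl
    rw [e]
    exact vK_resHom P J
      (Fermat.Agent.S05.helper4205.mem_decomposition_of_mem_inertiaSubgroupIn σ.2) _ x
  res_triv g x hx := by
    obtain ⟨σ, hσ⟩ := g.2
    have e : g • x = resHom J σ.1 (h.conj σ.1 σ.2) x := by
      change (g : RingAut (fixSub J)) x = _
      rw [← hσ]
      rfl
    rw [e]
    exact vK_resHom_sub_lt P J σ.2 _ x hx
  fixed g := by
    change (g : RingAut (fixSub J)) (p : fixSub J) = p
    exact map_natCast _ p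
  lt_one := vK_natCast_prime_lt_one P J hP
  ne_zero := Nat.cast_ne_zero.2 hp.ne_zero
  fixed_disc x hx hx0 := by
    have hfix : ∀ σ ∈ P.inertiaSubgroupIn ℚ, σ (x : Qb) = x := by
      intro σ hσ
      have h1 := hx ⟨h.resMonoidHom ⟨σ, hσ⟩, ⟨_, rfl⟩⟩
      exact congrArg Subtype.val h1
    have hx0' : (x : Qb) ≠ 0 := fun h0 => hx0 (Subtype.ext h0)
    obtain ⟨n, hn⟩ := Fermat.Agent.S58.helper6024.exists_zpow_valuation_eq P hp hP x hfix hx0'
    exact ⟨n, by rw [vK_apply, vK_apply]; simpa using hn⟩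

include h in
theorem vK_card_range (hp : p.Prime) (hP : P.LiesOverPrime p) :
    vK P J (Nat.card h.resMonoidHom.range : fixSub J) = 1 := by
  rw [vK_apply]
  have := Fermat.Agent.S05.helper4205.valuation_natCast_eq_one (A := P) hp hP
    (h.not_dvd_card_range hp)
  simpa using this

end IsTameSub

/-! ### The tame coefficient: generic identities -/

section tcoefGeneric

variable (P : ValuationSubring Qb) (J : Subgroup GQ)

theorem tcoef_congr_left {σ σ' : GQ} (e : σ = σ') (hσ : ∀ τ ∈ J, σ⁻¹ * τ * σ ∈ J)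
    (hσ' : ∀ τ ∈ J, σ'⁻¹ * τ * σ' ∈ J) (π : fixSub J) : tcoef J σ hσ π = tcoef J σ' hσ' π := by
  subst e
  rfl

theorem tcoef_one (h1 : ∀ τ ∈ J, (1 : GQ)⁻¹ * τ * 1 ∈ J) {π : fixSub J} (hπ : π ≠ 0) :
    tcoef J 1 h1 π = 1 := by
  have e : resHom J 1 h1 π = π := Subtype.ext rfl
  unfold tcoef
  rw [e, div_self hπ]

theorem tcoef_of_mem {σ : GQ} (hσJ : σ ∈ J) (hσ : ∀ τ ∈ J, σ⁻¹ * τ * σ ∈ J) {π : fixSub J}
    (hπ : π ≠ 0) : tcoef J σ hσ π = 1 := by
  have e : resHom J σ hσ π = π := Subtype.ext (mem_fixSub.1 π.2 σ hσJ)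
  unfold tcoef
  rw [e, div_self hπ]

/-- `c_{στ} = c_σ · σ(c_τ)`. -/
theorem tcoef_mul_eq {σ τ : GQ} (hσ : ∀ ρ ∈ J, σ⁻¹ * ρ * σ ∈ J) (hτ : ∀ ρ ∈ J, τ⁻¹ * ρ * τ ∈ J)
    (hστ : ∀ ρ ∈ J, (σ * τ)⁻¹ * ρ * (σ * τ) ∈ J) {π : fixSub J} (hπ : π ≠ 0) :
    tcoef J (σ * τ) hστ π = tcoef J σ hσ π * resHom J σ hσ (tcoef J τ hτ π) := by
  have e1 : resHom J (σ * τ) hστ π = resHom J σ hσ (resHom J τ hτ π) := Subtype.ext rfl
  have h2 : resHom J σ hσ π ≠ 0 := (map_ne_zero _).2 hπ
  unfold tcoef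
  rw [e1, map_div₀]
  field_simp

/-- **(K3)** The tame coefficient is multiplicative modulo the maximal ideal. -/
theorem vK_tcoef_mul_sub_lt {σ τ : GQ} (hσI : σ ∈ P.inertiaSubgroupIn ℚ)
    (hτD : τ ∈ P.decompositionSubgroup ℚ) (hσ : ∀ ρ ∈ J, σ⁻¹ * ρ * σ ∈ J)
    (hτ : ∀ ρ ∈ J, τ⁻¹ * ρ * τ ∈ J) (hστ : ∀ ρ ∈ J, (σ * τ)⁻¹ * ρ * (σ * τ) ∈ J)
    {π : fixSub J} (hπ : π ≠ 0) :
    vK P J (tcoef J (σ * τ) hστ π - tcoef J σ hσ π * tcoef J τ hτ π) < 1 := by
  rw [tcoef_mul_eq J hσ hτ hστ hπ, ← mul_sub, map_mul,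
    vK_tcoef P J (Fermat.Agent.S05.helper4205.mem_decomposition_of_mem_inertiaSubgroupIn hσI) hσ hπ,
    one_mul]
  exact vK_resHom_sub_lt P J hσI hσ _ (le_of_eq (vK_tcoef P J hτD hτ hπ))

/-- The tame coefficient of an inertia element does not depend on the choice of an element of
given valuation, modulo the maximal ideal. -/
theorem vK_tcoef_sub_lt_of_vK_eq {σ : GQ} (hσI : σ ∈ P.inertiaSubgroupIn ℚ)
    (hσ : ∀ ρ ∈ J, σ⁻¹ * ρ * σ ∈ J) {π π' : fixSub J} (hπ : π ≠ 0) (hπ' : π' ≠ 0)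
    (hv : vK P J π = vK P J π') : vK P J (tcoef J σ hσ π - tcoef J σ hσ π') < 1 := by
  have hσD := Fermat.Agent.S05.helper4205.mem_decomposition_of_mem_inertiaSubgroupIn hσI
  set u : fixSub J := π' / π with hu
  have hvu : vK P J u = 1 := by
    rw [hu, map_div₀, hv]
    exact div_self ((map_ne_zero _).2 hπ')
  have hu0 : u ≠ 0 := div_ne_zero hπ' hπ
  have hgu : resHom J σ hσ u ≠ 0 := (map_ne_zero _).2 hu0
  have hvgu : vK P J (resHom J σ hσ u) = 1 := by rw [vK_resHom P J hσD hσ, hvu]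
  have e : tcoef J σ hσ π - tcoef J σ hσ π' =
      tcoef J σ hσ π * ((u - resHom J σ hσ u) / u) := by
    have e1 : π' = π * u := by rw [hu]; field_simp
    have e2 : resHom J σ hσ π' = resHom J σ hσ π * resHom J σ hσ u := by rw [e1, map_mul]
    unfold tcoef
    rw [e2, e1]
    field_simp
  rw [e, map_mul, vK_tcoef P J hσD hσ hπ, one_mul, map_div₀, hvu, div_one, Valuation.map_sub_swap]
  exact vK_resHom_sub_lt P J hσI hσ u (le_of_eq hvu)

end tcoefGeneric

namespace IsTameSub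

variable {p : ℕ} {P : ValuationSubring Qb} {J : Subgroup GQ} (h : IsTameSub p P J)

include h in
theorem relIndex_pos : 0 < J.relIndex (P.inertiaSubgroupIn ℚ) := by
  rw [← h.card_range]
  have := h.finite_range
  exact Nat.card_pos

include h in
theorem not_dvd_relIndex (hp : p.Prime) : ¬ p ∣ J.relIndex (P.inertiaSubgroupIn ℚ) := by
  rw [← h.card_range]
  exact h.not_dvd_card_range hp

include h in
/-- **(K2)** The fixed field of a tame subgroup has a uniformizer. -/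
theorem exists_unif (hp : p.Prime) (hP : P.LiesOverPrime p) :
    ∃ π : fixSub J, π ≠ 0 ∧ vK P J π < 1 ∧
      ∀ x : fixSub J, x ≠ 0 → ∃ n : ℤ, vK P J x = vK P J π ^ n := by
  have := h.finite_range
  obtain ⟨π, k, h1, h2, h3, -⟩ := (h.inertialAction hp hP).exists_unif
  exact ⟨π, h1, h2, h3⟩

include h in
/-- **(K2)** The ramification index of the fixed field of a tame subgroup `J` is `[I : J]`. -/
theorem vK_unif_pow (hp : p.Prime) (hP : P.LiesOverPrime p) {π : fixSub J} (hπ : π ≠ 0)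
    (hπ1 : vK P J π < 1) (hunif : ∀ x : fixSub J, x ≠ 0 → ∃ n : ℤ, vK P J x = vK P J π ^ n) :
    vK P J π ^ J.relIndex (P.inertiaSubgroupIn ℚ) = vK P J (p : fixSub J) := by
  have := h.finite_range
  rw [← h.card_range]
  exact (h.inertialAction hp hP).val_unif_pow_card (h.vK_card_range hp hP) hπ hπ1 hunif

include h in
/-- **(K3)** The tame coefficient at a uniformizer is `≡ 1` exactly on `J`. -/
theorem vK_tcoef_sub_one_lt_iff (hp : p.Prime) (hP : P.LiesOverPrime p) {π : fixSub J}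
    (hπ : π ≠ 0) (hunif : ∀ x : fixSub J, x ≠ 0 → ∃ n : ℤ, vK P J x = vK P J π ^ n)
    {σ : GQ} (hσ : σ ∈ P.inertiaSubgroupIn ℚ) :
    vK P J (tcoef J σ (h.conj σ hσ) π - 1) < 1 ↔ σ ∈ J := by
  constructor
  · intro hlt
    have h1 := (h.inertialAction hp hP).smul_eq_of_val_tameCoeff_sub_one_lt
      (h.vK_card_range hp hP) hπ hunif (g := ⟨h.resMonoidHom ⟨σ, hσ⟩, ⟨_, rfl⟩⟩) hlt
    refine h.mem_of_fixes hσ (fun x hx => ?_)
    exact congrArg Subtype.val (h1 ⟨x, hx⟩)
  · intro hσJ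
    rw [tcoef_of_mem J hσJ _ hπ, sub_self, map_zero]
    exact zero_lt_one

include h in
/-- The tame coefficient of a power is the power of the tame coefficient, modulo the maximal
ideal. -/
theorem vK_tcoef_pow_sub_lt {σ : GQ} (hσ : σ ∈ P.inertiaSubgroupIn ℚ) {π : fixSub J}
    (hπ : π ≠ 0) (n : ℕ) :
    vK P J (tcoef J (σ ^ n) (h.conj _ (pow_mem hσ n)) π - tcoef J σ (h.conj σ hσ) π ^ n) < 1 := by
  have hσD := Fermat.Agent.S05.helper4205.mem_decomposition_of_mem_inertiaSubgroupIn hσ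
  induction n with
  | zero =>
    rw [tcoef_congr_left J (pow_zero σ) _ (h.conj 1 (one_mem _)) π, tcoef_one J _ hπ, pow_zero,
      sub_self, map_zero]
    exact zero_lt_one
  | succ n ih =>
    rw [tcoef_congr_left J (pow_succ' σ n) _ (h.conj _ (mul_mem hσ (pow_mem hσ n))) π]
    have h1 := vK_tcoef_mul_sub_lt P J hσ
      (Fermat.Agent.S05.helper4205.mem_decomposition_of_mem_inertiaSubgroupIn (pow_mem hσ n))
      (h.conj σ hσ) (h.conj _ (pow_mem hσ n)) (h.conj _ (mul_mem hσ (pow_mem hσ n))) hπ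
    have e : tcoef J (σ * σ ^ n) (h.conj _ (mul_mem hσ (pow_mem hσ n))) π
          - tcoef J σ (h.conj σ hσ) π ^ (n + 1) =
        (tcoef J (σ * σ ^ n) (h.conj _ (mul_mem hσ (pow_mem hσ n))) π
          - tcoef J σ (h.conj σ hσ) π * tcoef J (σ ^ n) (h.conj _ (pow_mem hσ n)) π)
        + tcoef J σ (h.conj σ hσ) π *
          (tcoef J (σ ^ n) (h.conj _ (pow_mem hσ n)) π - tcoef J σ (h.conj σ hσ) π ^ n) := by
      ring
    rw [e]
    refine Valuation.map_add_lt _ h1 ?_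
    rw [map_mul, vK_tcoef P J hσD _ hπ, one_mul]
    exact ih

include h in
/-- **(K3)** `c_σ ^ j ≡ 1` if and only if `σ ^ j ∈ J`. -/
theorem vK_tcoef_pow_sub_one_lt_iff (hp : p.Prime) (hP : P.LiesOverPrime p) {π : fixSub J}
    (hπ : π ≠ 0) (hunif : ∀ x : fixSub J, x ≠ 0 → ∃ n : ℤ, vK P J x = vK P J π ^ n)
    {σ : GQ} (hσ : σ ∈ P.inertiaSubgroupIn ℚ) (j : ℕ) :
    vK P J (tcoef J σ (h.conj σ hσ) π ^ j - 1) < 1 ↔ σ ^ j ∈ J := by
  rw [← h.vK_tcoef_sub_one_lt_iff hp hP hπ hunif (pow_mem hσ j)]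
  have h1 := h.vK_tcoef_pow_sub_lt hσ hπ j
  constructor
  · intro h2
    have e : tcoef J (σ ^ j) (h.conj _ (pow_mem hσ j)) π - 1 =
        (tcoef J (σ ^ j) (h.conj _ (pow_mem hσ j)) π - tcoef J σ (h.conj σ hσ) π ^ j)
          + (tcoef J σ (h.conj σ hσ) π ^ j - 1) := by ring
    rw [e]
    exact Valuation.map_add_lt _ h1 h2
  · intro h2
    have e : tcoef J σ (h.conj σ hσ) π ^ j - 1 =
        (tcoef J (σ ^ j) (h.conj _ (pow_mem hσ j)) π - 1)
          - (tcoef J (σ ^ j) (h.conj _ (pow_mem hσ j)) π - tcoef J σ (h.conj σ hσ) π ^ j) := by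
      ring
    rw [e]
    exact Valuation.map_sub_lt _ h2 h1

include h in
/-- **(K3)** The inertia group is generated modulo a tame subgroup `J` by one element `t`, of
order exactly `[I : J]` modulo `J`. -/
theorem exists_generator (hp : p.Prime) (hP : P.LiesOverPrime p) :
    ∃ t ∈ P.inertiaSubgroupIn ℚ, (∀ σ ∈ P.inertiaSubgroupIn ℚ, ∃ n : ℕ, σ⁻¹ * t ^ n ∈ J) ∧
      ∀ j : ℕ, t ^ j ∈ J ↔ J.relIndex (P.inertiaSubgroupIn ℚ) ∣ j := by
  have := h.finite_range
  obtain ⟨g, hg, -⟩ := (h.inertialAction hp hP).exists_generator (h.vK_card_range hp hP)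
  obtain ⟨t, ht⟩ := g.2
  refine ⟨t.1, t.2, ?_, ?_⟩
  · intro σ hσ
    have h1 := hg ⟨h.resMonoidHom ⟨σ, hσ⟩, ⟨_, rfl⟩⟩
    rw [← mem_powers_iff_mem_zpowers] at h1
    obtain ⟨n, hn⟩ := (Submonoid.mem_powers_iff _ _).1 h1
    refine ⟨n, ?_⟩
    have h2 : h.resMonoidHom (⟨σ, hσ⟩⁻¹ * t ^ n) = 1 := by
      rw [map_mul, map_inv, map_pow, ht]
      have h3 := congrArg Subtype.val hn
      rw [SubmonoidClass.coe_pow] at h3
      rw [h3, inv_mul_cancel]
    exact h.mem_of_resMonoidHom_eq_one h2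
  · intro j
    rw [← h.card_range, ← orderOf_eq_card_of_forall_mem_zpowers hg, orderOf_dvd_iff_pow_eq_one]
    constructor
    · intro hj
      apply Subtype.ext
      rw [SubmonoidClass.coe_pow, ← ht, ← map_pow]
      exact h.resMonoidHom_eq_one_of_mem (σ := t ^ j) hj
    · intro hj
      have h3 := congrArg Subtype.val hj
      rw [SubmonoidClass.coe_pow, ← ht, ← map_pow] at h3
      exact h.mem_of_resMonoidHom_eq_one (σ := t ^ j) h3

include h in
/-- **(K3)** For a generator `t` of `I` modulo `J` as in `exists_generator`, the tame coefficient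
of `t` at a uniformizer has exact order `[I : J]` in the residue field. -/
theorem vK_tcoef_generator_pow_sub_one_lt_iff (hp : p.Prime) (hP : P.LiesOverPrime p)
    {π : fixSub J} (hπ : π ≠ 0)
    (hunif : ∀ x : fixSub J, x ≠ 0 → ∃ n : ℤ, vK P J x = vK P J π ^ n)
    {t : GQ} (ht : t ∈ P.inertiaSubgroupIn ℚ)
    (hord : ∀ j : ℕ, t ^ j ∈ J ↔ J.relIndex (P.inertiaSubgroupIn ℚ) ∣ j) (j : ℕ) :
    vK P J (tcoef J t (h.conj t ht) π ^ j - 1) < 1 ↔ J.relIndex (P.inertiaSubgroupIn ℚ) ∣ j := by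
  rw [h.vK_tcoef_pow_sub_one_lt_iff hp hP hπ hunif ht j, hord]

include h in
/-- **(K5)** A Frobenius element `φ` normalising `J` raises the tame coefficient to the `p`-th
power: `c_{φ σ φ⁻¹} ≡ c_σ ^ p`. -/
theorem vK_tcoef_frob_sub_lt (hp : p.Prime) (hP : P.LiesOverPrime p) {φ : GQ}
    (hφ : P.IsFrobeniusAt φ p) (hφJ : ∀ τ ∈ J, φ⁻¹ * τ * φ ∈ J) {σ : GQ}
    (hσ : σ ∈ P.inertiaSubgroupIn ℚ) {π : fixSub J} (hπ : π ≠ 0) :
    vK P J (tcoef J (φ * σ * φ⁻¹)
      (h.conj _ (Fermat.Agent.S56.helper6024.conj_mem_inertiaSubgroupIn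
        hφ.mem_decompositionSubgroup hσ)) π - tcoef J σ (h.conj σ hσ) π ^ p) < 1 := by
  have hconj := Fermat.Agent.S56.helper6024.conj_mem_inertiaSubgroupIn
    hφ.mem_decompositionSubgroup hσ
  exact (h.inertialAction hp hP).val_tameCoeff_frob hπ (resHom J φ hφJ)
    (vK_resHom P J hφ.mem_decompositionSubgroup hφJ) (p := p) (vK_resHom_frob P J hφ hφJ)
    (g := ⟨h.resMonoidHom ⟨σ, hσ⟩, ⟨_, rfl⟩⟩)
    (g' := ⟨h.resMonoidHom ⟨φ * σ * φ⁻¹, hconj⟩, ⟨_, rfl⟩⟩)
    (fun x => Subtype.ext (by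
      change φ (σ (x : Qb)) = (φ * σ * φ⁻¹) (φ (x : Qb))
      simp only [AlgEquiv.mul_apply]
      exact congrArg φ (congrArg σ (AlgEquiv.symm_apply_apply φ _).symm)))

end IsTameSub

end Fermat.Agent.S56.helper4753
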