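import Mathlib
import Fermat.Agent.S56.helper4188_UnitLevel
import Fermat.Agent.S56.helper4753_TameField

/-!
# The tame field at `p` and `p`-th roots of unity (helper4753, S56 registry node FLAT-TAMEK0)

Continuation of `helper4753_TameField.lean`, in the vocabulary of `helper4188_UnitLevel`
(`IsUnif`): for a tame subgroup `J` of the inertia group at `P` (over `p`), `K = fixSub J`,
`v = vK P J`:

* `val_primitiveRoot_sub_one_pow` : `v (ζ - 1) ^ (p - 1) = v p` (any valued field);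
* `(K4)` `exists_val_primitiveRoot_sub_one_eq` : `v (ζ - 1) = v π ^ E`, `e = (p - 1) * E`;
  `val_natCast_sub_coeff_pow_lt` : `g ζ = ζ ^ j` and `g π = π * c` imply `j ≡ c ^ E`;
* `(K6)` `exists_pow_eq_of_vK_sub_one_lt` : `u ∈ K` with `v (u - 1) < v (ζ - 1) ^ p` is a `p`-th
  power in `K` (any `J` inside the decomposition group);
* `IsTameSub.of_primitiveRoot` : the stabiliser of `ζ_p` in inertia is a tame subgroup, and
  `isUnif_primitiveRoot_sub_one` : its fixed field has uniformizer `ζ - 1`, `[I : J] = p - 1`;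
* `IsTameSub.exists_tame_package` : all hypotheses of `helper4188.exists_dependence_tame` about
  the tame generator, in one statement.
-/

set_option autoImplicit false

namespace Fermat.Agent.S56.helper4753

open Fermat.Agent.Lib.helper54 Fermat.Agent.Lib.helper2489
open Fermat.Agent.S56.helper4188 (IsUnif)

attribute [local instance] isAlgebraic_Qbar isAlgClosure_Qbar isGalois_Qbar isIntegral_Qbar

local notation "Qb" => AlgebraicClosure ℚ
local notation "GQ" => (AlgebraicClosure ℚ ≃ₐ[ℚ] AlgebraicClosure ℚ)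

/-! ### Valued fields -/

section valued

variable {K : Type*} [Field K] {Γ₀ : Type*} [LinearOrderedCommGroupWithZero Γ₀]
  (v : Valuation K Γ₀)

/-- `v (ζ - 1) ^ (p - 1) = v p` for a primitive `p`-th root of unity. -/
theorem val_primitiveRoot_sub_one_pow {p : ℕ} (hp : p.Prime) {ζ : K}
    (hζ : IsPrimitiveRoot ζ p) : v (ζ - 1) ^ (p - 1) = v (p : K) := by
  have hp1 : p - 1 + 1 = p := Nat.sub_add_cancel hp.one_le
  have hζ' : IsPrimitiveRoot ζ (p - 1 + 1) := by rw [hp1]; exact hζ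
  have hprod := hζ'.prod_one_sub_pow_eq_order
  have hcast : ((p - 1 : ℕ) : K) + 1 = (p : K) := by
    rw [← Nat.cast_add_one, hp1]
  rw [hcast] at hprod
  have hfac : ∀ k ∈ Finset.range (p - 1), v (1 - ζ ^ (k + 1)) = v (ζ - 1) := by
    intro k hk
    rw [Valuation.map_sub_swap]
    refine helper4188.val_root_sub_one_eq v hp hζ ?_ ?_
    · rw [← pow_mul, mul_comm, pow_mul, hζ.pow_eq_one, one_pow]
    · exact hζ.pow_ne_one_of_pos_of_lt (Nat.succ_ne_zero k)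
        (by have := Finset.mem_range.1 hk; omega)
  rw [← hprod, map_prod, Finset.prod_congr rfl hfac, Finset.prod_const, Finset.card_range]

/-- **(K4)** In a discretely valued field with uniformizer `π` and `v π ^ e = v p`, a primitive
`p`-th root of unity has `v (ζ - 1) = v π ^ E` with `e = (p - 1) * E`. -/
theorem exists_val_primitiveRoot_sub_one_eq {p e : ℕ} (hp : p.Prime) {π ζ : K}
    (hπ : IsUnif v π) (he0 : 0 < e) (he : v π ^ e = v (p : K)) (hζ : IsPrimitiveRoot ζ p) :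
    ∃ E : ℕ, 0 < E ∧ e = (p - 1) * E ∧ v (ζ - 1) = v π ^ E := by
  have hζ1 : ζ - 1 ≠ 0 := sub_ne_zero.2 (hζ.ne_one hp.one_lt)
  obtain ⟨n, hn⟩ := hπ.exists_zpow (ζ - 1) hζ1
  have hq : 0 < p - 1 := Nat.sub_pos_of_lt hp.one_lt
  have hpow := val_primitiveRoot_sub_one_pow v hp hζ
  generalize p - 1 = q at hq hpow ⊢
  have h1 : v π ^ (n * (q : ℤ)) = v π ^ (e : ℤ) := by
    rw [zpow_mul, ← hn, zpow_natCast, zpow_natCast, hpow, he]
  have h2 : n * (q : ℤ) = (e : ℤ) := hπ.zpow_inj.1 h1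
  have hn0 : 0 < n := by
    by_contra hneg
    have hn' : n ≤ 0 := not_lt.1 hneg
    have h3 : n * (q : ℤ) ≤ 0 := mul_nonpos_of_nonpos_of_nonneg hn' (Int.natCast_nonneg q)
    rw [h2] at h3
    have : (0 : ℤ) < (e : ℤ) := by exact_mod_cast he0
    omega
  have h3 : ((n.toNat : ℕ) : ℤ) = n := Int.toNat_of_nonneg hn0.le
  refine ⟨n.toNat, by omega, ?_, ?_⟩
  · have h4 : ((e : ℕ) : ℤ) = ((q * n.toNat : ℕ) : ℤ) := by
      rw [Nat.cast_mul, h3, ← h2, mul_comm]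
    exact_mod_cast h4
  · rw [hn, ← zpow_natCast, h3]

/-- If `g` is a valuation-preserving endomorphism acting trivially on residues, `g π = π * c`,
`v y = v π ^ E` and `g y = y * s` with `s ≡ k`, then `c ^ E ≡ k`. -/
theorem val_coeff_pow_sub_lt (g : K →+* K) (hg : ∀ x, v (g x) = v x)
    (htame : ∀ x, v x ≤ 1 → v (g x - x) < 1) {π c : K} (hπ : π ≠ 0) (hc : g π = π * c) {E : ℕ}
    {y s k : K} (hy0 : y ≠ 0) (hy : v y = v π ^ E) (hs : g y = y * s) (hk : v (s - k) < 1) :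
    v (c ^ E - k) < 1 := by
  have hvπ : v π ≠ 0 := (Valuation.ne_zero_iff v).2 hπ
  have hπE : π ^ E ≠ 0 := pow_ne_zero E hπ
  obtain ⟨u, hu⟩ : ∃ u : K, u = y / π ^ E := ⟨_, rfl⟩
  have hu0 : u ≠ 0 := by rw [hu]; exact div_ne_zero hy0 hπE
  have hvu : v u = 1 := by
    rw [hu, map_div₀, map_pow, hy]
    exact div_self (pow_ne_zero E hvπ)
  have hgu0 : g u ≠ 0 := (map_ne_zero g).2 hu0
  have hvgu : v (g u) = 1 := by rw [hg, hvu]
  have hvs : v s = 1 := by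
    have h1 := hg y
    rw [hs, map_mul] at h1
    have hvy : v y ≠ 0 := (Valuation.ne_zero_iff v).2 hy0
    exact mul_left_cancel₀ hvy (by rw [h1, mul_one])
  have hvk : v k ≤ 1 := by
    have e : k = s - (s - k) := by ring
    rw [e]
    exact v.map_sub_le (le_of_eq hvs) (le_of_lt hk)
  have e1 : y = u * π ^ E := by rw [hu]; field_simp
  have key : g u * c ^ E = u * s := by
    have e2 : g y = g u * (π ^ E * c ^ E) := by
      rw [e1, map_mul, map_pow, hc, mul_pow]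
    rw [hs, e1] at e2
    have e3 : π ^ E * (g u * c ^ E) = π ^ E * (u * s) := by linear_combination -e2
    exact mul_left_cancel₀ hπE e3
  have e : c ^ E - k = (u * (s - k) + k * (u - g u)) / g u := by
    rw [eq_div_iff hgu0]
    linear_combination key
  rw [e, map_div₀, hvgu, div_one]
  refine Valuation.map_add_lt v ?_ ?_
  · rw [map_mul, hvu, one_mul]
    exact hk
  · rw [map_mul, Valuation.map_sub_swap]
    exact lt_of_le_of_lt (mul_le_of_le_one_left' hvk) (htame u (le_of_eq hvu))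

/-- **(K4)** `ω = θ ^ E`: if `g ζ = ζ ^ j` and `g π = π * c` then `j ≡ c ^ E`, where
`v (ζ - 1) = v π ^ E`. -/
theorem val_natCast_sub_coeff_pow_lt {p : ℕ} (hp : p.Prime) {ζ : K} (hζ : IsPrimitiveRoot ζ p)
    (g : K →+* K) (hg : ∀ x, v (g x) = v x) (htame : ∀ x, v x ≤ 1 → v (g x - x) < 1)
    {π c : K} (hπ : π ≠ 0) (hc : g π = π * c) {E : ℕ} (hlam : v (ζ - 1) = v π ^ E)
    (hlam1 : v (ζ - 1) < 1) {j : ℕ} (hgζ : g ζ = ζ ^ j) : v ((j : K) - c ^ E) < 1 := by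
  have hvζ : v ζ = 1 := helper4188.val_eq_one_of_pow_eq_one v hp.ne_zero hζ.pow_eq_one
  have hζ1 : ζ - 1 ≠ 0 := sub_ne_zero.2 (hζ.ne_one hp.one_lt)
  have h1 : g (ζ - 1) = (ζ - 1) * ∑ i ∈ Finset.range j, ζ ^ i := by
    rw [map_sub, map_one, hgζ, mul_geom_sum]
  have h2 : v ((∑ i ∈ Finset.range j, ζ ^ i) - (j : K)) < 1 := by
    have e : (∑ i ∈ Finset.range j, ζ ^ i) - (j : K) = ∑ i ∈ Finset.range j, (ζ ^ i - 1) := by
      rw [Finset.sum_sub_distrib, Finset.sum_const, Finset.card_range, nsmul_eq_mul, mul_one]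
    rw [e]
    exact Valuation.map_sum_lt v one_ne_zero
      (fun i _ => lt_of_le_of_lt (helper4188.val_pow_sub_one_le v hvζ i) hlam1)
  have h3 := val_coeff_pow_sub_lt v g hg htame hπ hc hζ1 hlam h1 h2
  rwa [Valuation.map_sub_swap]

end valued

/-! ### The frozen vocabulary -/

section frozen

variable {p : ℕ} (P : ValuationSubring Qb) (J : Subgroup GQ)

/-- **(K6)** Hensel for `p`-th roots in the fixed field of a subgroup of the decomposition
group: an element `u` with `v (u - 1) < v (ζ - 1) ^ p` is a `p`-th power. -/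
theorem exists_pow_eq_of_vK_sub_one_lt (hp : p.Prime) (hJD : J ≤ P.decompositionSubgroup ℚ)
    {ζ : fixSub J} (hζ : IsPrimitiveRoot ζ p) (u : fixSub J)
    (hu : vK P J (u - 1) < vK P J (ζ - 1) ^ p) : ∃ x : fixSub J, x ^ p = u := by
  have hζ' : IsPrimitiveRoot (ζ : Qb) p :=
    hζ.map_of_injective (f := (fixSub J).subtype) Subtype.val_injective
  obtain ⟨z, hz⟩ := IsAlgClosed.exists_pow_nat_eq (u : Qb) hp.pos
  have hz' : P.valuation (z ^ p - 1) < P.valuation ((ζ : Qb) - 1) ^ p := by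
    rw [hz]
    exact hu
  obtain ⟨z', hz'p, -, hfix⟩ := helper4188.exists_fixed_root_above_top P.valuation hp hζ' hz'
  have hmem : z' ∈ fixSub J := by
    rw [mem_fixSub]
    intro τ hτ
    exact hfix (τ : Qb →+* Qb)
      (fun x => Fermat.Agent.S05.helper4205.valuation_apply_of_mem_decomposition (hJD hτ) x)
      (by rw [hz]; exact mem_fixSub.1 u.2 τ hτ)
  exact ⟨⟨z', hmem⟩, Subtype.ext (by rw [← hz, ← hz'p]; rfl)⟩

/-- An automorphism maps a primitive `p`-th root of unity to a power of itself. -/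
theorem apply_primitiveRoot_eq_pow (hp : p.Prime) {ζ : Qb} (hζ : IsPrimitiveRoot ζ p)
    (σ : GQ) : ∃ k : ℕ, k.Coprime p ∧ σ ζ = ζ ^ k := by
  have : NeZero p := ⟨hp.ne_zero⟩
  have h1 : (σ ζ) ^ p = 1 := by rw [← map_pow, hζ.pow_eq_one, map_one]
  obtain ⟨k, hk, hkζ⟩ := hζ.eq_pow_of_pow_eq_one h1
  refine ⟨k, ?_, hkζ.symm⟩
  have hk0 : k ≠ 0 := by
    rintro rfl
    rw [pow_zero] at hkζ
    have h2 : σ ζ = σ 1 := by rw [← hkζ, map_one]
    exact hζ.ne_one hp.one_lt (σ.injective h2)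
  exact Nat.Coprime.symm
    ((Nat.Prime.coprime_iff_not_dvd hp).2 (Nat.not_dvd_of_pos_of_lt (Nat.pos_of_ne_zero hk0) hk))

theorem pow_apply_primitiveRoot {ζ : Qb} {σ : GQ} {k : ℕ} (h : σ ζ = ζ ^ k) (n : ℕ) :
    (σ ^ n) ζ = ζ ^ (k ^ n) := by
  induction n with
  | zero => simp
  | succ n ih =>
    rw [pow_succ', AlgEquiv.mul_apply, ih, map_pow, h, ← pow_mul, pow_succ']

/-- The `(p - 1)`-st power of any automorphism fixes the `p`-th roots of unity. -/
theorem pow_pred_apply_primitiveRoot (hp : p.Prime) {ζ : Qb} (hζ : IsPrimitiveRoot ζ p)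
    (σ : GQ) : (σ ^ (p - 1)) ζ = ζ := by
  obtain ⟨k, hk, hkζ⟩ := apply_primitiveRoot_eq_pow hp hζ σ
  rw [pow_apply_primitiveRoot hkζ, pow_eq_pow_mod _ hζ.pow_eq_one]
  have h1 : k ^ (p - 1) % p = 1 := by
    have h2 := Nat.ModEq.pow_totient hk
    rw [Nat.totient_prime hp] at h2
    rw [h2]
    exact Nat.mod_eq_of_lt hp.one_lt
  rw [h1, pow_one]

/-- Conjugation by any automorphism preserves the condition "fixes `ζ_p`". -/
theorem conj_apply_primitiveRoot (hp : p.Prime) {ζ : Qb} (hζ : IsPrimitiveRoot ζ p)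
    (σ : GQ) {τ : GQ} (hτ : τ ζ = ζ) : (σ⁻¹ * τ * σ) ζ = ζ := by
  obtain ⟨k, -, hk⟩ := apply_primitiveRoot_eq_pow hp hζ σ
  simp only [AlgEquiv.mul_apply]
  rw [hk, map_pow, hτ, ← hk]
  exact AlgEquiv.symm_apply_apply σ ζ

/-- The stabiliser of `ζ_p` in the inertia group at `P` is a tame subgroup. -/
theorem IsTameSub.of_primitiveRoot (hp : p.Prime) {ζ : Qb} (hζ : IsPrimitiveRoot ζ p)
    {J : Subgroup GQ} (hJ : ∀ σ, σ ∈ J ↔ σ ∈ P.inertiaSubgroupIn ℚ ∧ σ ζ = ζ) :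
    IsTameSub p P J where
  le := fun σ hσ => ((hJ σ).1 hσ).1
  conj := fun σ hσ τ hτ => (hJ _).2 ⟨mul_mem (mul_mem (inv_mem hσ) ((hJ τ).1 hτ).1) hσ,
    conj_apply_primitiveRoot hp hζ σ ((hJ τ).1 hτ).2⟩
  level := ⟨IntermediateField.adjoin ℚ {ζ},
    IntermediateField.adjoin.finiteDimensional (Algebra.IsIntegral.isIntegral ζ),
    fun σ hσ hx => (hJ σ).2 ⟨hσ, hx ζ (IntermediateField.mem_adjoin_simple_self ℚ ζ)⟩⟩
  coprime := fun σ hσ => ⟨p - 1,
    Nat.Coprime.symm ((Nat.Prime.coprime_iff_not_dvd hp).2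
      (Nat.not_dvd_of_pos_of_lt (Nat.sub_pos_of_lt hp.one_lt) (Nat.sub_lt hp.pos one_pos))),
    (hJ _).2 ⟨pow_mem hσ _, pow_pred_apply_primitiveRoot hp hζ σ⟩⟩

/-- The stabiliser of `ζ_p` in inertia is normalised by the decomposition group. -/
theorem conj_mem_of_primitiveRoot (hp : p.Prime) {ζ : Qb} (hζ : IsPrimitiveRoot ζ p)
    {J : Subgroup GQ} (hJ : ∀ σ, σ ∈ J ↔ σ ∈ P.inertiaSubgroupIn ℚ ∧ σ ζ = ζ) {g : GQ}
    (hg : g ∈ P.decompositionSubgroup ℚ) : ∀ τ ∈ J, g⁻¹ * τ * g ∈ J := by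
  intro τ hτ
  have h1 := Fermat.Agent.S56.helper6024.conj_mem_inertiaSubgroupIn (inv_mem hg) ((hJ τ).1 hτ).1
  rw [inv_inv] at h1
  exact (hJ _).2 ⟨h1, conj_apply_primitiveRoot hp hζ g ((hJ τ).1 hτ).2⟩

variable {P J}

/-- **(K4)** For `σ` in inertia with `σ ζ = ζ ^ j`: `j ≡ c_σ ^ E`, where `v (ζ - 1) = v π ^ E`. -/
theorem IsTameSub.vK_natCast_sub_tcoef_pow_lt (h : IsTameSub p P J) (hp : p.Prime)
    {ζ : fixSub J} (hζ : IsPrimitiveRoot ζ p) {π : fixSub J} (hπ : π ≠ 0) {E : ℕ}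
    (hlam : vK P J (ζ - 1) = vK P J π ^ E) (hlam1 : vK P J (ζ - 1) < 1) {σ : GQ}
    (hσ : σ ∈ P.inertiaSubgroupIn ℚ) {j : ℕ} (hσζ : σ (ζ : Qb) = (ζ : Qb) ^ j) :
    vK P J ((j : fixSub J) - tcoef J σ (h.conj σ hσ) π ^ E) < 1 :=
  val_natCast_sub_coeff_pow_lt (vK P J) hp hζ (resHom J σ (h.conj σ hσ))
    (vK_resHom P J (Fermat.Agent.S05.helper4205.mem_decomposition_of_mem_inertiaSubgroupIn hσ) _)
    (vK_resHom_sub_lt P J hσ _) hπ (resHom_eq_mul_tcoef J σ _ hπ) hlam hlam1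
    (Subtype.ext (by rw [coe_resHom, hσζ]; rfl))

/-- **The tame package.** For a tame subgroup `J` whose fixed field `K` contains `ζ_p`: a
uniformizer `π` of `K`, the exponent `E` with `v (ζ - 1) = v π ^ E`, `[I : J] = (p - 1) E`, and
a generator `t` of `I` modulo `J` whose tame coefficient `c` has exact order `(p - 1) E` in the
residue field and satisfies `j ≡ c ^ E` when `t ζ = ζ ^ j`.  These are the hypotheses
`hπ hE hlam hcord hj` of `helper4188.exists_dependence_tame` (with `t := resHom J t _`,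
`c := tcoef J t _ π`). -/
theorem IsTameSub.exists_tame_package (h : IsTameSub p P J) (hp : p.Prime)
    (hP : P.LiesOverPrime p) {ζ : fixSub J} (hζ : IsPrimitiveRoot ζ p) :
    ∃ (π : fixSub J) (E : ℕ) (t : GQ) (ht : t ∈ P.inertiaSubgroupIn ℚ),
      IsUnif (vK P J) π ∧ 0 < E ∧ vK P J (ζ - 1) = vK P J π ^ E ∧
      J.relIndex (P.inertiaSubgroupIn ℚ) = (p - 1) * E ∧
      vK P J π ^ ((p - 1) * E) = vK P J (p : fixSub J) ∧
      (∀ σ ∈ P.inertiaSubgroupIn ℚ, ∃ n : ℕ, σ⁻¹ * t ^ n ∈ J) ∧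
      (∀ k : ℕ, t ^ k ∈ J ↔ ((p - 1) * E) ∣ k) ∧
      (∀ k : ℕ, vK P J (tcoef J t (h.conj t ht) π ^ k - 1) < 1 ↔ ((p - 1) * E) ∣ k) ∧
      (∀ j : ℕ, t (ζ : Qb) = (ζ : Qb) ^ j →
        vK P J ((j : fixSub J) - tcoef J t (h.conj t ht) π ^ E) < 1) := by
  obtain ⟨π, hπ0, hπ1, hunif⟩ := h.exists_unif hp hP
  have hπ : IsUnif (vK P J) π := ⟨hπ1, hπ0, hunif⟩
  have he := h.vK_unif_pow hp hP hπ0 hπ1 hunif
  obtain ⟨E, hE, heE, hlam⟩ :=
    exists_val_primitiveRoot_sub_one_eq (vK P J) hp hπ h.relIndex_pos he hζ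
  obtain ⟨t, ht, hgen, hord⟩ := h.exists_generator hp hP
  have hlam1 : vK P J (ζ - 1) < 1 := by
    rw [hlam]
    exact pow_lt_one₀ zero_le hπ1 hE.ne'
  refine ⟨π, E, t, ht, hπ, hE, hlam, heE, ?_, hgen, ?_, ?_, ?_⟩
  · rw [← heE]; exact he
  · intro k; rw [← heE]; exact hord k
  · intro k
    rw [← heE]
    exact h.vK_tcoef_generator_pow_sub_one_lt_iff hp hP hπ0 hunif ht hord k
  · intro j hj
    exact h.vK_natCast_sub_tcoef_pow_lt hp hζ hπ0 hlam hlam1 ht hj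

/-- For the stabiliser `J` of `ζ_p` in inertia, `ζ - 1` is a uniformizer of the fixed field of
`J`, and `[I : J] = p - 1`. -/
theorem isUnif_primitiveRoot_sub_one (hp : p.Prime) (hP : P.LiesOverPrime p) {ζ : Qb}
    (hζ : IsPrimitiveRoot ζ p) (hJ : ∀ σ, σ ∈ J ↔ σ ∈ P.inertiaSubgroupIn ℚ ∧ σ ζ = ζ)
    (hmem : ζ ∈ fixSub J) :
    IsUnif (vK P J) ((⟨ζ, hmem⟩ : fixSub J) - 1) ∧
      J.relIndex (P.inertiaSubgroupIn ℚ) = p - 1 := by
  have h : IsTameSub p P J := IsTameSub.of_primitiveRoot P hp hζ hJ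
  have hζK : IsPrimitiveRoot (⟨ζ, hmem⟩ : fixSub J) p :=
    IsPrimitiveRoot.of_map_of_injective (f := (fixSub J).subtype) hζ Subtype.val_injective
  obtain ⟨π, E, t, ht, hπ, hE, hlam, hidx, -, -, hord, -, -⟩ := h.exists_tame_package hp hP hζK
  have h1 : t ^ (p - 1) ∈ J := (hJ _).2 ⟨pow_mem ht _, pow_pred_apply_primitiveRoot hp hζ t⟩
  have h2 : (p - 1) * E ∣ p - 1 := (hord _).1 h1
  have hq : 0 < p - 1 := Nat.sub_pos_of_lt hp.one_lt
  have hE1 : E = 1 := by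
    have h3 := Nat.le_of_dvd hq h2
    have h4 : (p - 1) * E ≤ (p - 1) * 1 := by rw [mul_one]; exact h3
    have h5 := Nat.le_of_mul_le_mul_left h4 hq
    omega
  rw [hE1, pow_one] at hlam
  rw [hE1, mul_one] at hidx
  refine ⟨⟨?_, sub_ne_zero.2 (hζK.ne_one hp.one_lt), ?_⟩, hidx⟩
  · rw [hlam]; exact hπ.lt_one
  · intro x hx
    obtain ⟨n, hn⟩ := hπ.exists_zpow x hx
    exact ⟨n, by rw [hn, hlam]⟩

/-- The stabiliser of `ζ` in the inertia group at `P`, as a subgroup. -/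
noncomputable def inertiaStab (P : ValuationSubring Qb) (ζ : Qb) : Subgroup GQ :=
  P.inertiaSubgroupIn ℚ ⊓ MulAction.stabilizer GQ ζ

theorem mem_inertiaStab {P : ValuationSubring Qb} {ζ : Qb} (σ : GQ) :
    σ ∈ inertiaStab P ζ ↔ σ ∈ P.inertiaSubgroupIn ℚ ∧ σ ζ = ζ := by
  unfold inertiaStab
  rw [Subgroup.mem_inf, MulAction.mem_stabilizer_iff]
  rfl

/-- **Carrier-free form.** An element of `ℚ̄` fixed by the inertia elements fixing `ζ_p` has
valuation in `v (ζ - 1) ^ ℤ`. -/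
theorem exists_zpow_valuation_eq_of_inertiaStab_fixed (hp : p.Prime) (hP : P.LiesOverPrime p)
    {ζ : Qb} (hζ : IsPrimitiveRoot ζ p) {x : Qb} (hx : x ≠ 0)
    (hfix : ∀ s ∈ P.inertiaSubgroupIn ℚ, s ζ = ζ → s x = x) :
    ∃ n : ℤ, P.valuation x = P.valuation (ζ - 1) ^ n := by
  have hmem : ζ ∈ fixSub (inertiaStab P ζ) :=
    mem_fixSub.2 (fun σ hσ => ((mem_inertiaStab σ).1 hσ).2)
  have hxmem : x ∈ fixSub (inertiaStab P ζ) :=
    mem_fixSub.2 (fun σ hσ => hfix σ ((mem_inertiaStab σ).1 hσ).1 ((mem_inertiaStab σ).1 hσ).2)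
  obtain ⟨hunif, -⟩ := isUnif_primitiveRoot_sub_one hp hP hζ mem_inertiaStab hmem
  obtain ⟨n, hn⟩ := hunif.exists_zpow ⟨x, hxmem⟩ (fun h0 => hx (congrArg Subtype.val h0))
  exact ⟨n, hn⟩

/-- **Carrier-free form.** `v (ζ - 1) < 1`, `v (ζ - 1) ^ (p - 1) = v p` at a place over `p`. -/
theorem valuation_primitiveRoot_sub_one (hp : p.Prime) (hP : P.LiesOverPrime p)
    {ζ : Qb} (hζ : IsPrimitiveRoot ζ p) :
    P.valuation (ζ - 1) < 1 ∧ P.valuation (ζ - 1) ^ (p - 1) = P.valuation (p : Qb) := by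
  have h1 := val_primitiveRoot_sub_one_pow P.valuation hp hζ
  refine ⟨?_, h1⟩
  by_contra hge
  have h2 : (1 : P.ValueGroup) ≤ P.valuation (ζ - 1) ^ (p - 1) := one_le_pow₀ (not_lt.1 hge)
  rw [h1] at h2
  exact absurd ((ValuationSubring.mem_nonunits_iff P).1 hP) (not_lt.2 h2)

/-- **Inertia at `P` over `p` is transitive on the primitive `p`-th roots of unity**
(`ℚ(ζ_p)` is totally ramified at `p`): orbit count from `[I : Stab ζ] = p - 1`. -/
theorem exists_inertia_apply_eq (hp : p.Prime) (hP : P.LiesOverPrime p) {ζ ξ : Qb}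
    (hζ : IsPrimitiveRoot ζ p) (hξ : IsPrimitiveRoot ξ p) :
    ∃ σ ∈ P.inertiaSubgroupIn ℚ, σ ζ = ξ := by
  classical
  have hmem : ζ ∈ fixSub (inertiaStab P ζ) :=
    mem_fixSub.2 (fun σ hσ => ((mem_inertiaStab σ).1 hσ).2)
  obtain ⟨-, hidx⟩ := isUnif_primitiveRoot_sub_one hp hP hζ mem_inertiaStab hmem
  have hstab : MulAction.stabilizer ↥(P.inertiaSubgroupIn ℚ) ζ =
      (inertiaStab P ζ).subgroupOf (P.inertiaSubgroupIn ℚ) := by
    ext σ
    rw [MulAction.mem_stabilizer_iff, Subgroup.mem_subgroupOf, mem_inertiaStab]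
    exact ⟨fun h => ⟨σ.2, h⟩, fun h => h.2⟩
  have hcard : (MulAction.orbit ↥(P.inertiaSubgroupIn ℚ) ζ).ncard = p - 1 := by
    rw [← MulAction.index_stabilizer, hstab]
    exact hidx
  have hsub : MulAction.orbit ↥(P.inertiaSubgroupIn ℚ) ζ ⊆
      ((primitiveRoots p Qb : Finset Qb) : Set Qb) := by
    rintro _ ⟨σ, rfl⟩
    rw [Finset.mem_coe, mem_primitiveRoots hp.pos]
    exact hζ.map_of_injective (f := (σ : GQ)) (σ : GQ).injective
  have hcard' : ((primitiveRoots p Qb : Finset Qb) : Set Qb).ncard ≤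
      (MulAction.orbit ↥(P.inertiaSubgroupIn ℚ) ζ).ncard := by
    rw [Set.ncard_coe_finset, hζ.card_primitiveRoots, Nat.totient_prime hp, hcard]
  have heq := Set.eq_of_subset_of_ncard_le hsub hcard' (Finset.finite_toSet _)
  have hξmem : ξ ∈ MulAction.orbit ↥(P.inertiaSubgroupIn ℚ) ζ := by
    rw [heq, Finset.mem_coe, mem_primitiveRoots hp.pos]
    exact hξ
  obtain ⟨σ, hσ⟩ := hξmem
  exact ⟨σ.1, σ.2, hσ⟩

/-- There is a Frobenius element at `P` fixing the `p`-th roots of unity. -/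
theorem exists_isFrobeniusAt_fix_primitiveRoot (hp : p.Prime) (hP : P.LiesOverPrime p)
    {ζ : Qb} (hζ : IsPrimitiveRoot ζ p) : ∃ φ : GQ, P.IsFrobeniusAt φ p ∧ φ ζ = ζ := by
  obtain ⟨φ₀, hφ₀⟩ := Fermat.Agent.Lib.helper54.exists_isFrobeniusAt hp P hP
  have hξ : IsPrimitiveRoot (φ₀⁻¹ ζ) p :=
    hζ.map_of_injective (f := (φ₀⁻¹ : GQ)) (φ₀⁻¹ : GQ).injective
  obtain ⟨σ, hσ, hσζ⟩ := exists_inertia_apply_eq hp hP hζ hξ
  refine ⟨φ₀ * σ,
    Fermat.Agent.Lib.helper3858.isFrobeniusAt_mul_of_mem_inertiaSubgroupIn hφ₀ hσ, ?_⟩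
  rw [AlgEquiv.mul_apply, hσζ]
  exact AlgEquiv.apply_symm_apply φ₀ ζ

/-- **Carrier-free form.** A decomposition-group element fixing `ζ_p` and acting as `x ↦ x ^ p`
on residues. -/
theorem exists_frobenius_fix_zeta (hp : p.Prime) (hP : P.LiesOverPrime p)
    {ζ : Qb} (hζ : IsPrimitiveRoot ζ p) :
    ∃ φ ∈ P.decompositionSubgroup ℚ, φ ζ = ζ ∧ ∀ x ∈ P, φ x - x ^ p ∈ P.nonunits := by
  obtain ⟨φ, hφ, hφζ⟩ := exists_isFrobeniusAt_fix_primitiveRoot hp hP hζ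
  exact ⟨φ, hφ.mem_decompositionSubgroup, hφζ, fun x hx =>
    Fermat.Agent.Lib.helper3858.apply_sub_pow_mem_nonunits_of_isFrobeniusAt hφ hx⟩

/-- **(K6′)** Non-strict Hensel at the top level, for the fixed field of a subgroup of the
inertia group: if `v (u - 1) ≤ v (ζ - 1) ^ p` then `u` is a `p`-th power (every `p`-th root of
`u` in `ℚ̄` is fixed by `J`, by `helper4188.fixed_of_top_level`). -/
theorem exists_pow_eq_of_vK_sub_one_le (hp : p.Prime) (hP : P.LiesOverPrime p)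
    (hJI : J ≤ P.inertiaSubgroupIn ℚ) {ζ : fixSub J} (hζ : IsPrimitiveRoot ζ p) (u : fixSub J)
    (hu : vK P J (u - 1) ≤ vK P J (ζ - 1) ^ p) : ∃ x : fixSub J, x ^ p = u := by
  have hζ' : IsPrimitiveRoot (ζ : Qb) p :=
    hζ.map_of_injective (f := (fixSub J).subtype) Subtype.val_injective
  obtain ⟨z, hz⟩ := IsAlgClosed.exists_pow_nat_eq (u : Qb) hp.pos
  have hz' : P.valuation (z ^ p - 1) ≤ P.valuation ((ζ : Qb) - 1) ^ p := by
    rw [hz]
    exact hu
  have hmem : z ∈ fixSub J := by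
    rw [mem_fixSub]
    intro τ hτ
    exact helper4188.fixed_of_top_level P.valuation hp hζ'
      (valuation_primitiveRoot_sub_one hp hP hζ').1 hz' (τ : Qb →+* Qb)
      (mem_fixSub.1 ζ.2 τ hτ) (by rw [hz]; exact mem_fixSub.1 u.2 τ hτ)
      (fun x hx => (ValuationSubring.mem_nonunits_iff P).1
        (Fermat.Agent.S05.helper4205.apply_sub_mem_nonunits (hJI hτ)
          ((ValuationSubring.valuation_le_one_iff P _).1 hx)))
  exact ⟨⟨z, hmem⟩, Subtype.ext hz⟩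

end frozen

end Fermat.Agent.S56.helper4753
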