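/-
S56, global chain, T1 (Tate's Euler characteristic on modules induced from characters):
the MACKEY COUNT WITH COEFFICIENTS (helper1127).  Mathlib only.

For `H ≤ G` of finite index, a finite-dimensional representation `σ` of `H` on `N`, a group `D`
acting on `coind_H^G σ` through `r : D →* G`, and `η : D → k`:

* `finrank_le_sum_stabSemi` (M1): a space of `η`-semi-invariant ELEMENTS of `coind_H^G σ` has
  dimension at most `∑_{x ∈ H \ G / r(D)} dim {n | σ h n = η d • n whenever h g_x = g_x r(d)}`;
* `finrank_le_sum_stabSemiDual` (M2): the same for a space of `η`-semi-invariant FUNCTIONALS on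
  `coind_H^G σ` (summands: functionals `λ` on `N` with `λ (σ h n) = η d * λ n`);
* `finrank_semiDual_le_finrank` (M4): a lower bound for the `χ`-semi-invariant functionals under
  the whole group;
* the character instances (`N = k'`, `σ h` = multiplication by `ψ h`).
-/
import Mathlib

set_option autoImplicit false

namespace Fermat.Agent.S56.helper1127

open Module

section Abstract

variable {k : Type*} [Field k] {G : Type*} [Group G] (H : Subgroup G)
  {N : Type*} [AddCommGroup N] [Module k N] (σ : Representation k ↥H N)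
  {D : Type*} [Group D] (r : D →* G) (η : D → k)

/-- The right cosets of a finite-index subgroup are finitely many. -/
lemma finite_rightCosets [H.FiniteIndex] : Finite (Quotient (QuotientGroup.rightRel H)) :=
  Finite.of_equiv _ (QuotientGroup.quotientRightRelEquivQuotientLeftRel H).symm

/-- The double cosets `H \ G / K` of a finite-index subgroup `H` are finitely many. -/
lemma finite_doubleCosets [H.FiniteIndex] (K : Subgroup G) :
    Finite (DoubleCoset.Quotient (H : Set G) (K : Set G)) := by
  have := finite_rightCosets H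
  refine Finite.of_surjective
    (fun c : Quotient (QuotientGroup.rightRel H) =>
      Quotient.liftOn' c (DoubleCoset.mk H K) (fun a b hab => ?_)) ?_
  · have hab' : b * a⁻¹ ∈ H := QuotientGroup.rightRel_apply.1 hab
    exact (DoubleCoset.eq H K a b).2 ⟨b * a⁻¹, hab', 1, K.one_mem, by group⟩
  · intro c
    induction c using Quotient.inductionOn' with
    | h a => exact ⟨Quotient.mk'' a, rfl⟩

/-- The chosen representative of a double coset. -/
noncomputable def dcRep (K : Subgroup G) (x : DoubleCoset.Quotient (H : Set G) (K : Set G)) : G :=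
  x.out

lemma mk_dcRep (K : Subgroup G) (x : DoubleCoset.Quotient (H : Set G) (K : Set G)) :
    DoubleCoset.mk H K (dcRep H K x) = x :=
  DoubleCoset.out_eq' H K x

/-- Every element is `h * g_x * r(d)` with `g_x` the chosen representative of its double coset. -/
lemma exists_eq_mul_dcRep_mul (y : G) :
    ∃ (h : ↥H) (d : D),
      y = (h : G) * dcRep H r.range (DoubleCoset.mk H r.range y) * r d := by
  obtain ⟨h, κ, hh, hκ, he⟩ := DoubleCoset.mk_out_eq_mul H r.range y
  obtain ⟨d, rfl⟩ := hκ
  refine ⟨⟨h⁻¹, H.inv_mem hh⟩, d⁻¹, ?_⟩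
  have he' : dcRep H r.range (DoubleCoset.mk H r.range y) = h * y * r d := he
  rw [he', map_inv]
  simp only [mul_assoc, mul_inv_cancel, mul_one, inv_mul_cancel_left]

lemma coindV_apply_mul (f : ↥(Representation.coindV H.subtype σ)) (h : ↥H) (x : G) :
    (f : G → N) ((h : G) * x) = σ h ((f : G → N) x) :=
  f.2 h x

lemma coind_apply_apply (g : G) (f : ↥(Representation.coindV H.subtype σ)) (x : G) :
    ((Representation.coind H.subtype σ g f : ↥(Representation.coindV H.subtype σ)) : G → N) x
      = (f : G → N) (x * g) := rfl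

/-! ### (M1) semi-invariant elements -/

/-- The elements of the coefficient module which are `η`-semi-invariant under the stabiliser of
the double coset `H g r(D)`: `σ h n = η d • n` whenever `h g = g r(d)`. -/
def stabSemi (g : G) : Submodule k N where
  carrier := {n | ∀ (h : ↥H) (d : D), (h : G) * g = g * r d → σ h n = η d • n}
  add_mem' := fun {a b} ha hb h d hg => by
    rw [map_add, ha h d hg, hb h d hg, smul_add]
  zero_mem' := fun h d _ => by rw [map_zero, smul_zero]
  smul_mem' := fun c n hn h d hg => by
    rw [map_smul, hn h d hg, smul_comm]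

lemma mem_stabSemi (g : G) (n : N) :
    n ∈ stabSemi H σ r η g ↔ ∀ (h : ↥H) (d : D), (h : G) * g = g * r d → σ h n = η d • n :=
  Iff.rfl

/-- **(M1) Mackey bound for semi-invariant elements.** Let `W` be a space of elements of
`coind_H^G σ` with `d • f = η d • f`.  Then
`dim W ≤ ∑_{x ∈ H \ G / r(D)} dim {n ∈ N | σ h n = η d • n whenever h g_x = g_x r(d)}`. -/
theorem finrank_le_sum_stabSemi [H.FiniteIndex] [FiniteDimensional k N]
    {W : Type*} [AddCommGroup W] [Module k W]
    (j : W →ₗ[k] ↥(Representation.coindV H.subtype σ))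
    (hj : Function.Injective j)
    (hW : ∀ (w : W) (d : D),
      Representation.coind H.subtype σ (r d) (j w) = η d • j w) :
    finrank k W ≤
      ∑ᶠ x : DoubleCoset.Quotient (H : Set G) (r.range : Set G),
        finrank k ↥(stabSemi H σ r η (dcRep H r.range x)) := by
  have := finite_doubleCosets H r.range
  cases nonempty_fintype (DoubleCoset.Quotient (H : Set G) (r.range : Set G))
  rw [finsum_eq_sum_of_fintype]
  have hmul : ∀ (w : W) (x : G) (d : D),
      ((j w : ↥(Representation.coindV H.subtype σ)) : G → N) (x * r d) =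
        η d • ((j w : ↥(Representation.coindV H.subtype σ)) : G → N) x := fun w x d =>
    congrArg (fun φ : ↥(Representation.coindV H.subtype σ) => (φ : G → N) x) (hW w d)
  let ev : W →ₗ[k]
      (∀ x : DoubleCoset.Quotient (H : Set G) (r.range : Set G),
        ↥(stabSemi H σ r η (dcRep H r.range x))) :=
    { toFun := fun w x => ⟨((j w : ↥(Representation.coindV H.subtype σ)) : G → N)
          (dcRep H r.range x),
        fun h d hg => by
          rw [← coindV_apply_mul, hg, hmul]⟩
      map_add' := fun w w' => by
        funext x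
        apply Subtype.ext
        show ((j (w + w') : ↥(Representation.coindV H.subtype σ)) : G → N) (dcRep H r.range x) =
          ((j w : ↥(Representation.coindV H.subtype σ)) : G → N) (dcRep H r.range x) +
            ((j w' : ↥(Representation.coindV H.subtype σ)) : G → N) (dcRep H r.range x)
        rw [map_add]
        rfl
      map_smul' := fun t w => by
        funext x
        apply Subtype.ext
        show ((j (t • w) : ↥(Representation.coindV H.subtype σ)) : G → N) (dcRep H r.range x) =
          t • ((j w : ↥(Representation.coindV H.subtype σ)) : G → N) (dcRep H r.range x)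
        rw [map_smul]
        rfl }
  have hinj : Function.Injective ev := by
    refine (injective_iff_map_eq_zero ev).2 fun w hw => ?_
    apply hj
    rw [map_zero]
    apply Subtype.ext
    funext y
    obtain ⟨h, d, hy⟩ := exists_eq_mul_dcRep_mul H r y
    have h0 : ((j w : ↥(Representation.coindV H.subtype σ)) : G → N)
        (dcRep H r.range (DoubleCoset.mk H r.range y)) = 0 :=
      congrArg Subtype.val (congrFun hw (DoubleCoset.mk H r.range y))
    show ((j w : ↥(Representation.coindV H.subtype σ)) : G → N) y = 0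
    rw [hy, mul_assoc, coindV_apply_mul, hmul, h0, smul_zero, map_zero]
  calc finrank k W
      ≤ finrank k (∀ x : DoubleCoset.Quotient (H : Set G) (r.range : Set G),
        ↥(stabSemi H σ r η (dcRep H r.range x))) := LinearMap.finrank_le_finrank_of_injective hinj
    _ = _ := Module.finrank_pi_fintype k

/-! ### (M2) semi-invariant functionals -/

open Classical in
/-- The function supported on the coset `H g` with value `n` at `g`. -/
noncomputable def deltaFun (g : G) (n : N) : G → N :=
  fun y => if hy : y * g⁻¹ ∈ H then σ ⟨y * g⁻¹, hy⟩ n else 0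

lemma deltaFun_of_mem (g : G) (n : N) (y : G) (hy : y * g⁻¹ ∈ H) :
    deltaFun H σ g n y = σ ⟨y * g⁻¹, hy⟩ n := by
  unfold deltaFun
  rw [dif_pos hy]

lemma deltaFun_of_not_mem (g : G) (n : N) (y : G) (hy : ¬ y * g⁻¹ ∈ H) :
    deltaFun H σ g n y = 0 := by
  unfold deltaFun
  rw [dif_neg hy]

/-- The function supported on the coset `H g` with value `n` at `g`, as a linear map into
`coind_H^G σ`. -/
noncomputable def delta (g : G) : N →ₗ[k] ↥(Representation.coindV H.subtype σ) where
  toFun n := ⟨deltaFun H σ g n, fun h y => by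
    by_cases hy : y * g⁻¹ ∈ H
    · have hy' : H.subtype h * y * g⁻¹ ∈ H := by
        rw [mul_assoc]
        exact H.mul_mem h.2 hy
      rw [deltaFun_of_mem H σ g n _ hy', deltaFun_of_mem H σ g n _ hy, ← Module.End.mul_apply,
        ← map_mul]
      congr 2
      exact Subtype.ext (mul_assoc _ _ _)
    · have hy' : ¬ H.subtype h * y * g⁻¹ ∈ H := by
        rw [mul_assoc]
        exact fun hc => hy ((H.mul_mem_cancel_left h.2).1 hc)
      rw [deltaFun_of_not_mem H σ g n _ hy', deltaFun_of_not_mem H σ g n _ hy, map_zero]⟩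
  map_add' n n' := by
    apply Subtype.ext
    funext y
    show deltaFun H σ g (n + n') y = deltaFun H σ g n y + deltaFun H σ g n' y
    by_cases hy : y * g⁻¹ ∈ H
    · rw [deltaFun_of_mem H σ g _ _ hy, deltaFun_of_mem H σ g _ _ hy,
        deltaFun_of_mem H σ g _ _ hy, map_add]
    · rw [deltaFun_of_not_mem H σ g _ _ hy, deltaFun_of_not_mem H σ g _ _ hy,
        deltaFun_of_not_mem H σ g _ _ hy, add_zero]
  map_smul' t n := by
    apply Subtype.ext
    funext y
    show deltaFun H σ g (t • n) y = t • deltaFun H σ g n y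
    by_cases hy : y * g⁻¹ ∈ H
    · rw [deltaFun_of_mem H σ g _ _ hy, deltaFun_of_mem H σ g _ _ hy, map_smul]
    · rw [deltaFun_of_not_mem H σ g _ _ hy, deltaFun_of_not_mem H σ g _ _ hy, smul_zero]

lemma delta_apply_of_mem (g : G) (n : N) (y : G) (hy : y * g⁻¹ ∈ H) :
    ((delta H σ g n : ↥(Representation.coindV H.subtype σ)) : G → N) y = σ ⟨y * g⁻¹, hy⟩ n :=
  deltaFun_of_mem H σ g n y hy

lemma delta_apply_of_not_mem (g : G) (n : N) (y : G) (hy : ¬ y * g⁻¹ ∈ H) :
    ((delta H σ g n : ↥(Representation.coindV H.subtype σ)) : G → N) y = 0 :=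
  deltaFun_of_not_mem H σ g n y hy

lemma delta_apply_self (g : G) (n : N) :
    ((delta H σ g n : ↥(Representation.coindV H.subtype σ)) : G → N) g = n := by
  have hg : g * g⁻¹ ∈ H := by
    rw [mul_inv_cancel]
    exact H.one_mem
  rw [delta_apply_of_mem H σ g n g hg]
  have : (⟨g * g⁻¹, hg⟩ : ↥H) = 1 := Subtype.ext (mul_inv_cancel g)
  rw [this, map_one, Module.End.one_apply]

/-- Right translation moves the delta functions. -/
lemma coind_delta (g g' : G) (n : N) :
    Representation.coind H.subtype σ g' (delta H σ g n) = delta H σ (g * g'⁻¹) n := by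
  apply Subtype.ext
  funext y
  rw [coind_apply_apply]
  have he : y * g' * g⁻¹ = y * (g * g'⁻¹)⁻¹ := by group
  by_cases hy : y * g' * g⁻¹ ∈ H
  · have hy' : y * (g * g'⁻¹)⁻¹ ∈ H := he ▸ hy
    rw [delta_apply_of_mem H σ g n _ hy, delta_apply_of_mem H σ _ n _ hy']
    congr 2
    exact Subtype.ext he
  · have hy' : ¬ y * (g * g'⁻¹)⁻¹ ∈ H := he ▸ hy
    rw [delta_apply_of_not_mem H σ g n _ hy, delta_apply_of_not_mem H σ _ n _ hy']

/-- Changing the representative of the coset `H g`. -/
lemma delta_mul (h : ↥H) (g : G) (n : N) :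
    delta H σ ((h : G) * g) n = delta H σ g (σ h⁻¹ n) := by
  apply Subtype.ext
  funext y
  have he : y * ((h : G) * g)⁻¹ = y * g⁻¹ * ((h⁻¹ : ↥H) : G) := by
    rw [mul_inv_rev, mul_assoc]
    rfl
  by_cases hy : y * g⁻¹ ∈ H
  · have hy' : y * ((h : G) * g)⁻¹ ∈ H := by
      rw [he]
      exact H.mul_mem hy (h⁻¹).2
    rw [delta_apply_of_mem H σ _ n _ hy', delta_apply_of_mem H σ g _ _ hy,
      ← Module.End.mul_apply, ← map_mul]
    congr 2
    exact Subtype.ext he
  · have hy' : ¬ y * ((h : G) * g)⁻¹ ∈ H := by
      rw [he]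
      exact fun hc => hy ((H.mul_mem_cancel_right (h⁻¹).2).1 hc)
    rw [delta_apply_of_not_mem H σ _ n _ hy', delta_apply_of_not_mem H σ g _ _ hy]

open Classical in
/-- Every coinduced function is the sum of its delta components. -/
lemma eq_sum_delta [H.FiniteIndex] [Fintype (Quotient (QuotientGroup.rightRel H))]
    (f : ↥(Representation.coindV H.subtype σ)) :
    f = ∑ c : Quotient (QuotientGroup.rightRel H),
      delta H σ (Quotient.out c) ((f : G → N) (Quotient.out c)) := by
  apply Subtype.ext
  funext y
  rw [Submodule.coe_sum, Finset.sum_apply]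
  have hy : y * (Quotient.out (Quotient.mk'' y : Quotient (QuotientGroup.rightRel H)))⁻¹ ∈ H :=
    QuotientGroup.rightRel_apply.1
      (Quotient.exact' (Quotient.out_eq' (Quotient.mk'' y : Quotient (QuotientGroup.rightRel H))))
  rw [Finset.sum_eq_single (Quotient.mk'' y : Quotient (QuotientGroup.rightRel H))]
  · rw [delta_apply_of_mem H σ _ _ _ hy, ← coindV_apply_mul]
    simp only [inv_mul_cancel_right]
  · intro c _ hc
    apply delta_apply_of_not_mem
    intro hmem
    apply hc
    have : (Quotient.mk'' (Quotient.out c) : Quotient (QuotientGroup.rightRel H)) =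
        Quotient.mk'' y := Quotient.sound' (QuotientGroup.rightRel_apply.2 hmem)
    rw [Quotient.out_eq'] at this
    exact this
  · intro h
    exact absurd (Finset.mem_univ _) h

/-- A functional on `coind_H^G σ` vanishing on all delta functions is zero. -/
lemma eq_zero_of_delta [H.FiniteIndex] (l : Module.Dual k ↥(Representation.coindV H.subtype σ))
    (hl : ∀ (g : G) (n : N), l (delta H σ g n) = 0) : l = 0 := by
  have := finite_rightCosets H
  cases nonempty_fintype (Quotient (QuotientGroup.rightRel H))
  apply LinearMap.ext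
  intro f
  rw [eq_sum_delta H σ f, map_sum]
  exact Finset.sum_eq_zero fun c _ => hl _ _

/-- The functionals on the coefficient module which are `η`-semi-invariant under the stabiliser
of the double coset `H g r(D)`: `λ (σ h n) = η d * λ n` whenever `h g = g r(d)`. -/
def stabSemiDual (g : G) : Submodule k (Module.Dual k N) where
  carrier := {lam | ∀ (h : ↥H) (d : D), (h : G) * g = g * r d → ∀ n, lam (σ h n) = η d * lam n}
  add_mem' := fun {a b} ha hb h d hg n => by
    rw [LinearMap.add_apply, LinearMap.add_apply, ha h d hg, hb h d hg, mul_add]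
  zero_mem' := fun h d _ n => by rw [LinearMap.zero_apply, LinearMap.zero_apply, mul_zero]
  smul_mem' := fun c lam hlam h d hg n => by
    rw [LinearMap.smul_apply, LinearMap.smul_apply, hlam h d hg, smul_eq_mul, smul_eq_mul,
      mul_left_comm]

lemma mem_stabSemiDual (g : G) (lam : Module.Dual k N) :
    lam ∈ stabSemiDual H σ r η g ↔
      ∀ (h : ↥H) (d : D), (h : G) * g = g * r d → ∀ n, lam (σ h n) = η d * lam n :=
  Iff.rfl

/-- **(M2) Mackey bound for semi-invariant functionals.** Let `W` be a space of functionals on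
`coind_H^G σ` with `l (d • f) = η d * l f`.  Then
`dim W ≤ ∑_{x ∈ H \ G / r(D)} dim {λ ∈ N^* | λ (σ h n) = η d * λ n whenever h g_x = g_x r(d)}`. -/
theorem finrank_le_sum_stabSemiDual [H.FiniteIndex] [FiniteDimensional k N]
    {W : Type*} [AddCommGroup W] [Module k W]
    (j : W →ₗ[k] Module.Dual k ↥(Representation.coindV H.subtype σ))
    (hj : Function.Injective j)
    (hW : ∀ (w : W) (d : D) (f : ↥(Representation.coindV H.subtype σ)),
      j w (Representation.coind H.subtype σ (r d) f) = η d * j w f) :
    finrank k W ≤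
      ∑ᶠ x : DoubleCoset.Quotient (H : Set G) (r.range : Set G),
        finrank k ↥(stabSemiDual H σ r η (dcRep H r.range x)) := by
  have := finite_doubleCosets H r.range
  cases nonempty_fintype (DoubleCoset.Quotient (H : Set G) (r.range : Set G))
  rw [finsum_eq_sum_of_fintype]
  -- the key relation
  have key : ∀ (w : W) (g : G) (h : ↥H) (d : D), (h : G) * g = g * r d → ∀ n : N,
      j w (delta H σ g (σ h n)) = η d * j w (delta H σ g n) := by
    intro w g h d hg n
    rw [← hW w d, coind_delta]
    have h1 : g * (r d)⁻¹ = ((h⁻¹ : ↥H) : G) * g := by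
      have : ((h⁻¹ : ↥H) : G) = (h : G)⁻¹ := rfl
      rw [this, eq_inv_mul_iff_mul_eq, ← mul_assoc, hg, mul_assoc, mul_inv_cancel, mul_one]
    rw [h1, delta_mul, inv_inv]
  let ev : W →ₗ[k]
      (∀ x : DoubleCoset.Quotient (H : Set G) (r.range : Set G),
        ↥(stabSemiDual H σ r η (dcRep H r.range x))) :=
    { toFun := fun w x => ⟨(j w) ∘ₗ (delta H σ (dcRep H r.range x)),
        fun h d hg n => key w _ h d hg n⟩
      map_add' := fun w w' => by
        funext x
        apply Subtype.ext
        show (j (w + w')) ∘ₗ (delta H σ (dcRep H r.range x)) =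
          (j w) ∘ₗ (delta H σ (dcRep H r.range x)) + (j w') ∘ₗ (delta H σ (dcRep H r.range x))
        rw [map_add, LinearMap.add_comp]
      map_smul' := fun t w => by
        funext x
        apply Subtype.ext
        show (j (t • w)) ∘ₗ (delta H σ (dcRep H r.range x)) =
          t • ((j w) ∘ₗ (delta H σ (dcRep H r.range x)))
        rw [map_smul, LinearMap.smul_comp] }
  have hinj : Function.Injective ev := by
    refine (injective_iff_map_eq_zero ev).2 fun w hw => ?_
    apply hj
    rw [map_zero]
    apply eq_zero_of_delta H σ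
    intro g n
    obtain ⟨h, d, hg⟩ := exists_eq_mul_dcRep_mul H r g
    have h0 : ∀ m : N, j w (delta H σ
        (dcRep H r.range (DoubleCoset.mk H r.range g)) m) = 0 := fun m =>
      LinearMap.congr_fun (congrArg Subtype.val
        (congrFun hw (DoubleCoset.mk H r.range g))) m
    have h1 : delta H σ g n = Representation.coind H.subtype σ (r d⁻¹)
        (delta H σ (dcRep H r.range (DoubleCoset.mk H r.range g))
          (σ h⁻¹ n)) := by
      rw [coind_delta, ← delta_mul, map_inv, inv_inv, ← mul_assoc]
      exact congrArg (fun z => delta H σ z n) hg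
    rw [h1, hW, h0, mul_zero]
  calc finrank k W
      ≤ finrank k (∀ x : DoubleCoset.Quotient (H : Set G) (r.range : Set G),
        ↥(stabSemiDual H σ r η (dcRep H r.range x))) := LinearMap.finrank_le_finrank_of_injective hinj
    _ = _ := by
      have : ∀ i, Module.Free k ↥(stabSemiDual H σ r η (dcRep H r.range i)) := fun i => by
        let _ : AddCommGroup ↥(stabSemiDual H σ r η (dcRep H r.range i)) :=
          (stabSemiDual H σ r η (dcRep H r.range i)).addCommGroup
        exact Module.Free.of_divisionRing k _
      exact Module.finrank_pi_fintype k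

/-! ### The invariants under the whole group -/

/-- **(M0)** A space of `G`-invariant elements of `coind_H^G σ` has dimension at most
`dim σ^H` (evaluation at `1`). -/
theorem finrank_le_finrank_invariants [FiniteDimensional k N]
    {W : Type*} [AddCommGroup W] [Module k W]
    (j : W →ₗ[k] ↥(Representation.coindV H.subtype σ))
    (hj : Function.Injective j)
    (hW : ∀ (w : W) (g : G), Representation.coind H.subtype σ g (j w) = j w) :
    finrank k W ≤ finrank k ↥(Representation.invariants σ) := by
  have hmul : ∀ (w : W) (x g : G),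
      ((j w : ↥(Representation.coindV H.subtype σ)) : G → N) (x * g) =
        ((j w : ↥(Representation.coindV H.subtype σ)) : G → N) x := fun w x g =>
    congrArg (fun φ : ↥(Representation.coindV H.subtype σ) => (φ : G → N) x) (hW w g)
  let ev : W →ₗ[k] ↥(Representation.invariants σ) :=
    { toFun := fun w => ⟨((j w : ↥(Representation.coindV H.subtype σ)) : G → N) 1, fun h => by
        rw [← coindV_apply_mul, mul_one]
        have := hmul w 1 (h : G)
        rw [one_mul] at this
        exact this⟩
      map_add' := fun w w' => by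
        apply Subtype.ext
        show ((j (w + w') : ↥(Representation.coindV H.subtype σ)) : G → N) 1 =
          ((j w : ↥(Representation.coindV H.subtype σ)) : G → N) 1 +
            ((j w' : ↥(Representation.coindV H.subtype σ)) : G → N) 1
        rw [map_add]
        rfl
      map_smul' := fun t w => by
        apply Subtype.ext
        show ((j (t • w) : ↥(Representation.coindV H.subtype σ)) : G → N) 1 =
          t • ((j w : ↥(Representation.coindV H.subtype σ)) : G → N) 1
        rw [map_smul]
        rfl }
  have hinj : Function.Injective ev := by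
    refine (injective_iff_map_eq_zero ev).2 fun w hw => ?_
    apply hj
    rw [map_zero]
    apply Subtype.ext
    funext y
    have h0 : ((j w : ↥(Representation.coindV H.subtype σ)) : G → N) 1 = 0 :=
      congrArg Subtype.val hw
    have h1 := hmul w 1 y
    rw [one_mul, h0] at h1
    exact h1
  exact LinearMap.finrank_le_finrank_of_injective hinj

/-- Eigenvectors of one element are semi-invariant under all its integer powers. -/
lemma apply_zpow_of_apply_eq {V : Type*} [AddCommGroup V] [Module k V] (ρ : Representation k G V)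
    (c : G) (ε : kˣ) (v : V) (hv : ρ c v = (ε : k) • v) (n : ℤ) :
    ρ (c ^ n) v = ((ε ^ n : kˣ) : k) • v := by
  have hinv : ρ c⁻¹ v = ((ε⁻¹ : kˣ) : k) • v := by
    have h1 : ρ c⁻¹ (ρ c v) = v := by
      rw [← Module.End.mul_apply, ← map_mul, inv_mul_cancel, map_one, Module.End.one_apply]
    rw [hv, map_smul] at h1
    have h2 : ((ε⁻¹ : kˣ) : k) • ((ε : k) • ρ c⁻¹ v) = ((ε⁻¹ : kˣ) : k) • v := by rw [h1]
    rw [smul_smul, ← Units.val_mul, inv_mul_cancel, Units.val_one, one_smul] at h2
    exact h2
  induction n using Int.induction_on with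
  | zero => simp
  | succ n ih =>
    rw [zpow_add_one, map_mul, Module.End.mul_apply, hv, map_smul, ih, smul_smul, zpow_add_one,
      Units.val_mul, mul_comm]
  | pred n ih =>
    rw [zpow_sub_one, map_mul, Module.End.mul_apply, hinv, map_smul, ih, smul_smul, zpow_sub_one,
      Units.val_mul, mul_comm]

/-! ### Finite-dimensionality of the coinduced module -/

lemma mul_out_inv_mem (y : G) :
    y * (Quotient.out (Quotient.mk'' y : Quotient (QuotientGroup.rightRel H)))⁻¹ ∈ H :=
  QuotientGroup.rightRel_apply.1
    (Quotient.exact' (Quotient.out_eq' (Quotient.mk'' y : Quotient (QuotientGroup.rightRel H))))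

/-- `coind_H^G σ` is finite-dimensional when `H` has finite index and `σ` is
finite-dimensional. -/
theorem finiteDimensional_coindV [H.FiniteIndex] [FiniteDimensional k N] :
    FiniteDimensional k ↥(Representation.coindV H.subtype σ) := by
  have := finite_rightCosets H
  let ev : ↥(Representation.coindV H.subtype σ) →ₗ[k]
      (Quotient (QuotientGroup.rightRel H) → N) :=
    { toFun := fun f c => (f : G → N) (Quotient.out c)
      map_add' := fun _ _ => rfl
      map_smul' := fun _ _ => rfl }
  refine Module.Finite.of_injective ev ?_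
  refine (injective_iff_map_eq_zero ev).2 fun f hf => ?_
  apply Subtype.ext
  funext y
  have h0 : (f : G → N) (Quotient.out (Quotient.mk'' y : Quotient (QuotientGroup.rightRel H))) = 0 :=
    congrFun hf _
  have h1 := coindV_apply_mul H σ f ⟨_, mul_out_inv_mem H y⟩
    (Quotient.out (Quotient.mk'' y : Quotient (QuotientGroup.rightRel H)))
  simp only [inv_mul_cancel_right] at h1
  show (f : G → N) y = 0
  rw [h1, h0, map_zero]

/-! ### (M4) a lower bound: semi-invariant functionals under the whole group -/

/-- Right multiplication by `g` on the right cosets `H \ G`. -/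
def rightCosetMulRight (g : G) : Equiv.Perm (Quotient (QuotientGroup.rightRel H)) where
  toFun := Quotient.map' (· * g) (fun a b hab => by
    rw [QuotientGroup.rightRel_apply] at hab ⊢
    have : b * g * (a * g)⁻¹ = b * a⁻¹ := by group
    rw [this]
    exact hab)
  invFun := Quotient.map' (· * g⁻¹) (fun a b hab => by
    rw [QuotientGroup.rightRel_apply] at hab ⊢
    have : b * g⁻¹ * (a * g⁻¹)⁻¹ = b * a⁻¹ := by group
    rw [this]
    exact hab)
  left_inv c := by
    induction c using Quotient.inductionOn' with
    | h a =>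
      show (Quotient.mk'' (a * g * g⁻¹) : Quotient (QuotientGroup.rightRel H)) = Quotient.mk'' a
      rw [mul_inv_cancel_right]
  right_inv c := by
    induction c using Quotient.inductionOn' with
    | h a =>
      show (Quotient.mk'' (a * g⁻¹ * g) : Quotient (QuotientGroup.rightRel H)) = Quotient.mk'' a
      rw [inv_mul_cancel_right]

lemma rightCosetMulRight_mk (g x : G) :
    rightCosetMulRight H g (Quotient.mk'' x) = Quotient.mk'' (x * g) := rfl

/-- The functionals on the coefficient module which are `χ`-semi-invariant under `H`: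
`λ (σ h n) = χ h * λ n`. -/
def coeffSemiDual (χ : G →* kˣ) : Submodule k (Module.Dual k N) where
  carrier := {lam | ∀ (h : ↥H) (n : N), lam (σ h n) = ((χ (h : G) : kˣ) : k) * lam n}
  add_mem' := fun {a b} ha hb h n => by
    rw [LinearMap.add_apply, LinearMap.add_apply, ha h, hb h, mul_add]
  zero_mem' := fun h n => by rw [LinearMap.zero_apply, LinearMap.zero_apply, mul_zero]
  smul_mem' := fun c lam hlam h n => by
    rw [LinearMap.smul_apply, LinearMap.smul_apply, hlam h, smul_eq_mul, smul_eq_mul,
      mul_left_comm]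

lemma mem_coeffSemiDual (χ : G →* kˣ) (lam : Module.Dual k N) :
    lam ∈ coeffSemiDual H σ χ ↔
      ∀ (h : ↥H) (n : N), lam (σ h n) = ((χ (h : G) : kˣ) : k) * lam n :=
  Iff.rfl

open Classical in
/-- **(M4)** There is an injective linear map from the functionals on `N` to the functionals on
`coind_H^G σ` (`λ ↦ (f ↦ ∑_{c ∈ H \ G} χ(c)⁻¹ λ (f c))`) which sends the `χ`-semi-invariant
functionals under `H` to `χ`-semi-invariant functionals under `G`. -/
theorem exists_sumDual [H.FiniteIndex] (χ : G →* kˣ) :
    ∃ Λ : Module.Dual k N →ₗ[k] Module.Dual k ↥(Representation.coindV H.subtype σ),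
      Function.Injective Λ ∧
      ∀ lam ∈ coeffSemiDual H σ χ, ∀ (g : G) (f : ↥(Representation.coindV H.subtype σ)),
        Λ lam (Representation.coind H.subtype σ g f) = ((χ g : kˣ) : k) * Λ lam f := by
  have := finite_rightCosets H
  cases nonempty_fintype (Quotient (QuotientGroup.rightRel H))
  let evalAt : G → (↥(Representation.coindV H.subtype σ) →ₗ[k] N) := fun x =>
    (LinearMap.proj x) ∘ₗ (Representation.coindV H.subtype σ).subtype
  let a : Quotient (QuotientGroup.rightRel H) → k := fun c =>
    (((χ (Quotient.out c))⁻¹ : kˣ) : k)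
  let Λ : Module.Dual k N →ₗ[k] Module.Dual k ↥(Representation.coindV H.subtype σ) :=
    ∑ c : Quotient (QuotientGroup.rightRel H),
      a c • (LinearMap.lcomp k k (evalAt (Quotient.out c)))
  have hΛ : ∀ (lam : Module.Dual k N) (f : ↥(Representation.coindV H.subtype σ)),
      Λ lam f = ∑ c : Quotient (QuotientGroup.rightRel H),
        a c * lam ((f : G → N) (Quotient.out c)) := by
    intro lam f
    simp only [Λ, LinearMap.sum_apply, LinearMap.smul_apply, smul_eq_mul]
    rfl
  refine ⟨Λ, ?_, ?_⟩
  · refine (injective_iff_map_eq_zero Λ).2 fun lam hlam => ?_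
    apply LinearMap.ext
    intro n
    set c₀ : Quotient (QuotientGroup.rightRel H) := Quotient.mk'' 1 with hc₀
    have h1 : Λ lam (delta H σ (Quotient.out c₀) n) = a c₀ * lam n := by
      rw [hΛ, Finset.sum_eq_single c₀]
      · rw [delta_apply_self]
      · intro c _ hc
        rw [delta_apply_of_not_mem, map_zero, mul_zero]
        intro hmem
        apply hc
        have : (Quotient.mk'' (Quotient.out c₀) : Quotient (QuotientGroup.rightRel H)) =
            Quotient.mk'' (Quotient.out c) := Quotient.sound' (QuotientGroup.rightRel_apply.2 hmem)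
        rw [Quotient.out_eq', Quotient.out_eq'] at this
        exact this.symm
      · intro h
        exact absurd (Finset.mem_univ _) h
    rw [hlam, LinearMap.zero_apply] at h1
    have ha : a c₀ ≠ 0 := Units.ne_zero _
    rw [LinearMap.zero_apply]
    exact (mul_eq_zero.1 h1.symm).resolve_left ha
  · intro lam hlam g f
    -- the summand as a left-`H`-invariant function on `G`
    let T : ↥(Representation.coindV H.subtype σ) → G → k := fun f x =>
      (((χ x)⁻¹ : kˣ) : k) * lam ((f : G → N) x)
    have hT : ∀ (f : ↥(Representation.coindV H.subtype σ)) (h : ↥H) (x : G),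
        T f ((h : G) * x) = T f x := by
      intro f h x
      show (((χ ((h : G) * x))⁻¹ : kˣ) : k) * lam ((f : G → N) ((h : G) * x)) =
        (((χ x)⁻¹ : kˣ) : k) * lam ((f : G → N) x)
      rw [coindV_apply_mul, hlam h, map_mul, mul_inv, Units.val_mul, ← mul_assoc,
        mul_assoc (((χ (h : G))⁻¹ : kˣ) : k), mul_comm (((χ x)⁻¹ : kˣ) : k),
        ← mul_assoc, ← Units.val_mul, inv_mul_cancel, Units.val_one, one_mul]
    have hout : ∀ (f : ↥(Representation.coindV H.subtype σ)) (x : G),
        T f (Quotient.out (Quotient.mk'' x : Quotient (QuotientGroup.rightRel H))) = T f x := by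
      intro f x
      have h1 := hT f ⟨_, mul_out_inv_mem H x⟩
        (Quotient.out (Quotient.mk'' x : Quotient (QuotientGroup.rightRel H)))
      simp only [inv_mul_cancel_right] at h1
      exact h1.symm
    have hsum : ∀ f : ↥(Representation.coindV H.subtype σ),
        Λ lam f = ∑ c : Quotient (QuotientGroup.rightRel H), T f (Quotient.out c) := fun f => hΛ lam f
    rw [hsum, hsum, Finset.mul_sum,
      ← Equiv.sum_comp (rightCosetMulRight H g) (fun c => ((χ g : kˣ) : k) * T f (Quotient.out c))]
    refine Finset.sum_congr rfl fun c _ => ?_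
    have hc : rightCosetMulRight H g c = Quotient.mk'' (Quotient.out c * g) := by
      conv_lhs => rw [← Quotient.out_eq' c]
      rfl
    rw [hc, hout]
    show (((χ (Quotient.out c))⁻¹ : kˣ) : k) * lam ((f : G → N) (Quotient.out c * g)) =
      ((χ g : kˣ) : k) * ((((χ (Quotient.out c * g))⁻¹ : kˣ) : k) *
        lam ((f : G → N) (Quotient.out c * g)))
    have hB : ((χ g : kˣ) : k) * (((χ (Quotient.out c * g))⁻¹ : kˣ) : k) =
        (((χ (Quotient.out c))⁻¹ : kˣ) : k) := by
      rw [← Units.val_mul]
      congr 1
      rw [map_mul, mul_inv_rev, mul_inv_cancel_left]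
    rw [← mul_assoc, hB]

end Abstract

/-! ### The character instances -/

section Character

variable (k : Type*) [Field k] {G : Type*} [Group G] (H : Subgroup G)
  (k' : Type*) [Field k'] [Algebra k k'] (ψ : ↥H →* k'ˣ)
  {D : Type*} [Group D] (r : D →* G) (η : D → k)

/-- The character `ψ : H → k'ˣ` as a `k`-linear representation of `H` on `k'`. -/
def charRep : Representation k ↥H k' where
  toFun h := LinearMap.mulLeft k ((ψ h : k'ˣ) : k')
  map_one' := by
    ext x
    simp
  map_mul' a b := by
    ext x
    simp

lemma charRep_apply (h : ↥H) (x : k') : charRep k H k' ψ h x = ((ψ h : k'ˣ) : k') * x := rfl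

/-- The double coset of `g` is compatible with `(ψ, η)`: `ψ h = η d` whenever `h g = g r(d)`. -/
def Compat (g : G) : Prop :=
  ∀ (h : ↥H) (d : D), (h : G) * g = g * r d → ((ψ h : k'ˣ) : k') = algebraMap k k' (η d)

lemma stabSemi_charRep_eq_bot (g : G) (hg : ¬ Compat k H k' ψ r η g) :
    stabSemi H (charRep k H k' ψ) r η g = ⊥ := by
  rw [eq_bot_iff]
  intro n hn
  simp only [Compat, not_forall] at hg
  obtain ⟨h, d, hgd, hne⟩ := hg
  have h1 := hn h d hgd
  rw [charRep_apply, Algebra.smul_def] at h1
  have h2 : (((ψ h : k'ˣ) : k') - algebraMap k k' (η d)) * n = 0 := by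
    rw [sub_mul, h1, sub_self]
  rw [Submodule.mem_bot]
  exact (mul_eq_zero.1 h2).resolve_left (sub_ne_zero.2 hne)

lemma stabSemiDual_charRep_eq_bot (g : G) (hg : ¬ Compat k H k' ψ r η g) :
    stabSemiDual H (charRep k H k' ψ) r η g = ⊥ := by
  rw [eq_bot_iff]
  intro lam hlam
  simp only [Compat, not_forall] at hg
  obtain ⟨h, d, hgd, hne⟩ := hg
  have h1 := hlam h d hgd
  set u : k' := ((ψ h : k'ˣ) : k') - algebraMap k k' (η d) with hu
  have hu0 : u ≠ 0 := sub_ne_zero.2 hne
  have h2 : ∀ n : k', lam (u * n) = 0 := by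
    intro n
    have h3 := h1 n
    rw [charRep_apply] at h3
    rw [hu, sub_mul, map_sub, h3, ← Algebra.smul_def, map_smul, smul_eq_mul, sub_self]
  rw [Submodule.mem_bot]
  apply LinearMap.ext
  intro m
  have h4 := h2 (u⁻¹ * m)
  rw [← mul_assoc, mul_inv_cancel₀ hu0, one_mul] at h4
  rw [h4, LinearMap.zero_apply]

open Classical in
/-- **(M3), elements.** For a character, the Mackey bound counts compatible double cosets. -/
theorem finsum_stabSemi_charRep_le [H.FiniteIndex] [FiniteDimensional k k'] :
    ∑ᶠ x : DoubleCoset.Quotient (H : Set G) (r.range : Set G),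
        finrank k ↥(stabSemi H (charRep k H k' ψ) r η (dcRep H r.range x)) ≤
      finrank k k' * Nat.card {x : DoubleCoset.Quotient (H : Set G) (r.range : Set G) //
        Compat k H k' ψ r η (dcRep H r.range x)} := by
  have := finite_doubleCosets H r.range
  cases nonempty_fintype (DoubleCoset.Quotient (H : Set G) (r.range : Set G))
  rw [finsum_eq_sum_of_fintype, Nat.card_eq_fintype_card, Fintype.card_subtype, mul_comm,
    ← smul_eq_mul, ← Finset.sum_const, Finset.sum_filter]
  refine Finset.sum_le_sum fun x _ => ?_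
  by_cases hx : Compat k H k' ψ r η (dcRep H r.range x)
  · rw [if_pos hx]
    exact Submodule.finrank_le _
  · rw [if_neg hx, stabSemi_charRep_eq_bot k H k' ψ r η _ hx, finrank_bot]

open Classical in
/-- **(M3), functionals.** -/
theorem finsum_stabSemiDual_charRep_le [H.FiniteIndex] [FiniteDimensional k k'] :
    ∑ᶠ x : DoubleCoset.Quotient (H : Set G) (r.range : Set G),
        finrank k ↥(stabSemiDual H (charRep k H k' ψ) r η (dcRep H r.range x)) ≤
      finrank k k' * Nat.card {x : DoubleCoset.Quotient (H : Set G) (r.range : Set G) //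
        Compat k H k' ψ r η (dcRep H r.range x)} := by
  have := finite_doubleCosets H r.range
  cases nonempty_fintype (DoubleCoset.Quotient (H : Set G) (r.range : Set G))
  rw [finsum_eq_sum_of_fintype, Nat.card_eq_fintype_card, Fintype.card_subtype, mul_comm,
    ← smul_eq_mul, ← Finset.sum_const, Finset.sum_filter]
  refine Finset.sum_le_sum fun x _ => ?_
  by_cases hx : Compat k H k' ψ r η (dcRep H r.range x)
  · rw [if_pos hx]
    calc finrank k ↥(stabSemiDual H (charRep k H k' ψ) r η (dcRep H r.range x))
        ≤ finrank k (Module.Dual k k') := Submodule.finrank_le _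
      _ = finrank k k' := Subspace.dual_finrank_eq
  · rw [if_neg hx, stabSemiDual_charRep_eq_bot k H k' ψ r η _ hx, finrank_bot]

/-- Compatibility does not depend on the representative of the double coset (for a
multiplicative `η`). -/
lemma compat_mul_of_compat (ηh : D →* kˣ) (g : G) (h₀ : ↥H) (d₀ : D)
    (hg : Compat k H k' ψ r (fun d => ((ηh d : kˣ) : k)) ((h₀ : G) * g * r d₀)) :
    Compat k H k' ψ r (fun d => ((ηh d : kˣ) : k)) g := by
  intro h d hhd
  have h1 : ((h₀ * h * h₀⁻¹ : ↥H) : G) * ((h₀ : G) * g * r d₀) =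
      (h₀ : G) * g * r d₀ * r (d₀⁻¹ * d * d₀) := by
    have e1 : ((h₀ * h * h₀⁻¹ : ↥H) : G) = (h₀ : G) * (h : G) * (h₀ : G)⁻¹ := rfl
    rw [e1, map_mul, map_mul, map_inv]
    calc (h₀ : G) * (h : G) * (h₀ : G)⁻¹ * ((h₀ : G) * g * r d₀)
        = (h₀ : G) * ((h : G) * g) * r d₀ := by group
      _ = (h₀ : G) * (g * r d) * r d₀ := by rw [hhd]
      _ = (h₀ : G) * g * r d₀ * ((r d₀)⁻¹ * r d * r d₀) := by group
  have h2 := hg _ _ h1
  have e2 : ψ (h₀ * h * h₀⁻¹) = ψ h := by
    rw [map_mul, map_mul, map_inv, mul_comm (ψ h₀), mul_assoc, mul_inv_cancel, mul_one]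
  have e3 : ηh (d₀⁻¹ * d * d₀) = ηh d := by
    rw [map_mul, map_mul, map_inv, mul_comm ((ηh d₀)⁻¹), mul_assoc, inv_mul_cancel, mul_one]
  rw [e2] at h2
  rw [h2]
  show algebraMap k k' ((ηh (d₀⁻¹ * d * d₀) : kˣ) : k) = algebraMap k k' ((ηh d : kˣ) : k)
  rw [e3]

lemma compat_mul_iff (ηh : D →* kˣ) (g : G) (h₀ : ↥H) (d₀ : D) :
    Compat k H k' ψ r (fun d => ((ηh d : kˣ) : k)) ((h₀ : G) * g * r d₀) ↔
      Compat k H k' ψ r (fun d => ((ηh d : kˣ) : k)) g := by
  refine ⟨compat_mul_of_compat k H k' ψ r ηh g h₀ d₀, fun hg => ?_⟩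
  refine compat_mul_of_compat k H k' ψ r ηh ((h₀ : G) * g * r d₀) h₀⁻¹ d₀⁻¹ ?_
  have e : ((h₀⁻¹ : ↥H) : G) * ((h₀ : G) * g * r d₀) * r d₀⁻¹ = g := by
    have e1 : ((h₀⁻¹ : ↥H) : G) = (h₀ : G)⁻¹ := rfl
    rw [e1, map_inv]
    group
  rw [e]
  exact hg

/-- Compatibility of the chosen representative is compatibility of any representative. -/
lemma compat_dcRep_mk_iff (ηh : D →* kˣ) (g : G) :
    Compat k H k' ψ r (fun d => ((ηh d : kˣ) : k)) (dcRep H r.range (DoubleCoset.mk H r.range g)) ↔
      Compat k H k' ψ r (fun d => ((ηh d : kˣ) : k)) g := by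
  obtain ⟨h, d, hg⟩ := exists_eq_mul_dcRep_mul H r g
  conv_rhs => rw [hg]
  exact (compat_mul_iff k H k' ψ r ηh _ h d).symm

/-- If `η = ω ∘ r` for a character `ω` of `G`, compatibility reads: `ψ = ω` on
`H ∩ g r(D) g⁻¹`. -/
lemma compat_iff_of_comp (ω : G →* kˣ) (g : G) :
    Compat k H k' ψ r (fun d => ((ω (r d) : kˣ) : k)) g ↔
      ∀ h : ↥H, g⁻¹ * (h : G) * g ∈ r.range →
        ((ψ h : k'ˣ) : k') = algebraMap k k' ((ω (h : G) : kˣ) : k) := by
  constructor
  · intro hc h hmem
    obtain ⟨d, hd⟩ := hmem
    have h1 : (h : G) * g = g * r d := by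
      rw [hd]
      group
    rw [hc h d h1]
    have h2 : ω (r d) = ω (h : G) := by
      rw [hd, map_mul, map_mul, map_inv, mul_comm ((ω g)⁻¹), mul_assoc, inv_mul_cancel, mul_one]
    show algebraMap k k' ((ω (r d) : kˣ) : k) = algebraMap k k' ((ω (h : G) : kˣ) : k)
    rw [h2]
  · intro hc h d hhd
    have h1 : g⁻¹ * (h : G) * g = r d := by
      rw [mul_assoc, hhd, inv_mul_cancel_left]
    rw [hc h ⟨d, h1.symm⟩]
    have h2 : ω (r d) = ω (h : G) := by
      rw [← h1, map_mul, map_mul, map_inv, mul_comm ((ω g)⁻¹), mul_assoc, inv_mul_cancel,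
        mul_one]
    show algebraMap k k' ((ω (h : G) : kˣ) : k) = algebraMap k k' ((ω (r d) : kˣ) : k)
    rw [h2]

end Character

end Fermat.Agent.S56.helper1127
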