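/-
S56, global chain, T1 (operator form, chat #196): the MACKEY NUMERALS of the kernel summands
`kap φ = ker φ(lam)` of `P = coind_U^G k`, `lam` = left translation by an element `s`
normalising `U` (helper1127).  Mathlib + helper1127_MackeyCoeff only; Spec-independent:
`lam` is ANY linear endomorphism with `(lam f) g = f (s⁻¹ g)`, the permutation operator on the
functions on the double cosets is ANY endomorphism `T` with `T F (mk g) = F (mk (s⁻¹ g))`.

* `aeval_apply_of_intertwine`, `comp_aeval_eq_aeval_dualMap` : polynomial calculus;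
* `finrank_ker_aeval_funLeft_le` : `kd φ (a • perm_e) ≤ kd φ (a • perm_{e⁻¹})`;
* `finrank_le_of_invariant` (H0), `exists_semiDual_ne_zero` (H0'),
  `finrank_le_kd_of_eigen` (MIN), `finrank_le_kd_of_semiDual` (PI2);
* the same four for any model `ι : M ↪ P` of the kernel (`finrank_invariants_le_of_model`,
  `exists_semiDual_ne_zero_of_model`, `finrank_ker_add_one_le_of_model`,
  `finrank_le_kd_of_semiDual_of_model`).
-/
import Mathlib
import Fermat.Agent.S56.helper1127_MackeyCoeff

set_option autoImplicit false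

namespace Fermat.Agent.S56.helper1127

open Module Polynomial

section PolyCalc

variable {k : Type*} [Field k]

/-- If `Θ ∘ A = B ∘ Θ` on a set of vectors stable under `A`, then `Θ ∘ φ(A) = φ(B) ∘ Θ` there. -/
theorem aeval_apply_of_intertwine {V V' : Type*} [AddCommGroup V] [Module k V]
    [AddCommGroup V'] [Module k V'] (A : Module.End k V) (B : Module.End k V')
    (Θ : V →ₗ[k] V') (Q : V → Prop) (hQ : ∀ v, Q v → Q (A v))
    (h : ∀ v, Q v → Θ (A v) = B (Θ v)) (Φ : k[X]) :
    ∀ v, Q v → Θ (aeval A Φ v) = aeval B Φ (Θ v) := by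
  induction Φ using Polynomial.induction_on with
  | C c =>
    intro v _
    simp only [aeval_C, Module.algebraMap_end_apply, map_smul]
  | add p q hp hq =>
    intro v hv
    simp only [map_add, LinearMap.add_apply, hp v hv, hq v hv]
  | monomial n c ih =>
    intro v hv
    have e1 : (C c * X ^ (n + 1) : k[X]) = (C c * X ^ n) * X := by ring
    have hA : aeval A (C c * X ^ (n + 1)) = aeval A (C c * X ^ n) * A := by
      rw [e1, map_mul (aeval A), aeval_X]
    have hB : aeval B (C c * X ^ (n + 1)) = aeval B (C c * X ^ n) * B := by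
      rw [e1, map_mul (aeval B), aeval_X]
    rw [hA, hB, Module.End.mul_apply, Module.End.mul_apply, ih (A v) (hQ v hv), h v hv]

/-- `L ∘ φ(A) = φ(Aᵗ) L` for a functional `L`. -/
theorem comp_aeval_eq_aeval_dualMap {V : Type*} [AddCommGroup V] [Module k V]
    (A : Module.End k V) (Φ : k[X]) (L : Module.Dual k V) :
    L ∘ₗ (aeval A Φ) = aeval (LinearMap.dualMap A : Module.End k (Module.Dual k V)) Φ L := by
  induction Φ using Polynomial.induction_on generalizing L with
  | C c =>
    apply LinearMap.ext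
    intro v
    simp only [aeval_C, LinearMap.comp_apply, Module.algebraMap_end_apply, map_smul,
      LinearMap.smul_apply]
  | add p q hp hq =>
    rw [map_add, LinearMap.comp_add, hp, hq, map_add, LinearMap.add_apply]
  | monomial n c ih =>
    have e2 : (C c * X ^ (n + 1) : k[X]) = X * (C c * X ^ n) := by ring
    have hA : aeval A (C c * X ^ (n + 1)) = A * aeval A (C c * X ^ n) := by
      rw [e2, map_mul (aeval A), aeval_X]
    have hB : aeval (LinearMap.dualMap A : Module.End k (Module.Dual k V)) (C c * X ^ (n + 1)) =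
        aeval (LinearMap.dualMap A : Module.End k (Module.Dual k V)) (C c * X ^ n) *
          (LinearMap.dualMap A : Module.End k (Module.Dual k V)) := by
      have e1 : (C c * X ^ (n + 1) : k[X]) = (C c * X ^ n) * X := by ring
      rw [e1, map_mul (aeval (LinearMap.dualMap A : Module.End k (Module.Dual k V))), aeval_X]
    rw [hA, hB, Module.End.mul_apply, ← ih]
    rfl

end PolyCalc

section Transpose

variable {k : Type*} [Field k] {X : Type*} [Finite X]

/-- **Transposition.** For a permutation `e` of a finite set, the kernel of `φ(a • perm_e)` on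
`X → k` is not bigger than that of `φ(a • perm_{e⁻¹})` (a permutation is conjugate to its
inverse). -/
theorem finrank_ker_aeval_funLeft_le (e : X ≃ X) (a : k) (Φ : k[X]) :
    finrank k ↥(LinearMap.ker (aeval (a • LinearMap.funLeft k k e : Module.End k (X → k)) Φ)) ≤
      finrank k ↥(LinearMap.ker
        (aeval (a • LinearMap.funLeft k k e.symm : Module.End k (X → k)) Φ)) := by
  classical
  cases nonempty_fintype X
  have hconj : IsConj (e : Equiv.Perm X) (e⁻¹ : Equiv.Perm X) := by
    rw [Equiv.Perm.isConj_iff_cycleType_eq, Equiv.Perm.cycleType_inv]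
  obtain ⟨π, hπ⟩ := isConj_iff.1 hconj
  -- `e (π⁻¹ x) = π⁻¹ (e⁻¹ x)`
  have hcomm : ∀ x : X, e ((π⁻¹ : Equiv.Perm X) x) = (π⁻¹ : Equiv.Perm X) (e.symm x) := by
    intro x
    have h1 : (e : Equiv.Perm X) * π⁻¹ = π⁻¹ * (e⁻¹ : Equiv.Perm X) := by
      rw [← hπ]
      group
    have h2 := congrArg (fun τ : Equiv.Perm X => τ x) h1
    simpa using h2
  set A : Module.End k (X → k) := a • LinearMap.funLeft k k e with hA
  set A' : Module.End k (X → k) := a • LinearMap.funLeft k k e.symm with hA'
  let Cm : (X → k) →ₗ[k] (X → k) := LinearMap.funLeft k k (π⁻¹ : Equiv.Perm X)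
  have hCinj : Function.Injective Cm :=
    LinearMap.funLeft_injective_of_surjective k k _ (π⁻¹ : Equiv.Perm X).surjective
  have hint : ∀ F : X → k, Cm (A F) = A' (Cm F) := by
    intro F
    funext x
    show a • F (e ((π⁻¹ : Equiv.Perm X) x)) = a • F ((π⁻¹ : Equiv.Perm X) (e.symm x))
    rw [hcomm]
  have hae := aeval_apply_of_intertwine A A' Cm (fun _ => True) (fun _ _ => trivial)
    (fun v _ => hint v) Φ
  let Cr : ↥(LinearMap.ker (aeval A Φ)) →ₗ[k] ↥(LinearMap.ker (aeval A' Φ)) :=
    LinearMap.codRestrict _ (Cm ∘ₗ (LinearMap.ker (aeval A Φ)).subtype) (fun v => by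
      rw [LinearMap.mem_ker, LinearMap.comp_apply, ← hae _ trivial]
      have hv : aeval A Φ (v : X → k) = 0 := v.2
      show Cm (aeval A Φ (v : X → k)) = 0
      rw [hv, map_zero])
  have hCr : Function.Injective Cr := by
    intro v w hvw
    apply Subtype.ext
    apply hCinj
    exact congrArg Subtype.val hvw
  exact LinearMap.finrank_le_finrank_of_injective hCr

end Transpose

/-! ### The operator `lam` on `P = coind_U^G k` -/

section Op

variable {k : Type*} [Field k] {G : Type*} [Group G] (U : Subgroup G)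
  (σ0 : Representation k ↥U k) (hσ0 : ∀ (u : ↥U) (x : k), σ0 u x = x)
  (s : G) (hs : ∀ u : G, u ∈ U ↔ s * u * s⁻¹ ∈ U)
  (lam : Module.End k ↥(Representation.coindV U.subtype σ0))
  (hlam : ∀ (f : ↥(Representation.coindV U.subtype σ0)) (g : G),
    ((lam f : ↥(Representation.coindV U.subtype σ0)) : G → k) g = (f : G → k) (s⁻¹ * g))
  (ω : G →* kˣ) (hω : ∀ u ∈ U, ω u = 1)

include hlam in
/-- (F1) `lam` commutes with the right translations. -/
lemma lam_coind (g : G) (f : ↥(Representation.coindV U.subtype σ0)) :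
    lam (Representation.coind U.subtype σ0 g f) = Representation.coind U.subtype σ0 g (lam f) := by
  apply Subtype.ext
  funext x
  rw [hlam, coind_apply_apply, coind_apply_apply, hlam, mul_assoc]

include hlam in
/-- (F1) `φ(lam)` commutes with the right translations. -/
lemma aeval_lam_coind (Φ : k[X]) (g : G) (f : ↥(Representation.coindV U.subtype σ0)) :
    aeval lam Φ (Representation.coind U.subtype σ0 g f) =
      Representation.coind U.subtype σ0 g (aeval lam Φ f) :=
  (aeval_apply_of_intertwine lam lam (Representation.coind U.subtype σ0 g) (fun _ => True)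
    (fun _ _ => trivial) (fun v _ => (lam_coind U σ0 s lam hlam g v).symm) Φ f trivial).symm

include hσ0 in
/-- For the trivial coefficient action the delta function depends only on the coset. -/
lemma delta_mul_of_trivial (u : ↥U) (g : G) (n : k) :
    delta U σ0 ((u : G) * g) n = delta U σ0 g n := by
  rw [delta_mul, hσ0]

include hσ0 in
lemma delta_apply_of_mem_of_trivial (g : G) (n : k) (y : G) (hy : y * g⁻¹ ∈ U) :
    ((delta U σ0 g n : ↥(Representation.coindV U.subtype σ0)) : G → k) y = n := by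
  rw [delta_apply_of_mem U σ0 g n y hy, hσ0]

include hσ0 hs hlam in
/-- (F2) `lam` moves the delta functions. -/
lemma lam_delta (g : G) (n : k) : lam (delta U σ0 g n) = delta U σ0 (s * g) n := by
  apply Subtype.ext
  funext x
  rw [hlam]
  have hiff : s⁻¹ * x * g⁻¹ ∈ U ↔ x * (s * g)⁻¹ ∈ U := by
    rw [hs (s⁻¹ * x * g⁻¹)]
    have : s * (s⁻¹ * x * g⁻¹) * s⁻¹ = x * (s * g)⁻¹ := by group
    rw [this]
  by_cases hx : x * (s * g)⁻¹ ∈ U
  · rw [delta_apply_of_mem_of_trivial U σ0 hσ0 g n _ (hiff.2 hx),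
      delta_apply_of_mem_of_trivial U σ0 hσ0 (s * g) n _ hx]
  · rw [delta_apply_of_not_mem U σ0 g n _ (fun h => hx (hiff.1 h)),
      delta_apply_of_not_mem U σ0 (s * g) n _ hx]

lemma delta_eq_smul (g : G) (n : k) : delta U σ0 g n = n • delta U σ0 g 1 := by
  rw [← map_smul, smul_eq_mul, mul_one]

include hlam in
/-- Powers of `lam`. -/
lemma lam_pow_apply (m : ℕ) (f : ↥(Representation.coindV U.subtype σ0)) (g : G) :
    (((lam ^ m) f : ↥(Representation.coindV U.subtype σ0)) : G → k) g =
      (f : G → k) ((s ^ m)⁻¹ * g) := by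
  induction m generalizing g with
  | zero => rw [pow_zero, pow_zero, inv_one, one_mul, Module.End.one_apply]
  | succ m ih =>
    rw [pow_succ', Module.End.mul_apply, hlam, ih, pow_succ', mul_inv_rev, mul_assoc]

include hσ0 hlam in
/-- If `s ^ n ∈ U` then `lam ^ n = 1`, i.e. `X ^ n - 1` kills `lam`. -/
lemma aeval_lam_X_pow_sub_one (n : ℕ) (hsn : s ^ n ∈ U) : aeval lam (X ^ n - 1 : k[X]) = 0 := by
  rw [map_sub, map_pow, aeval_X, map_one, sub_eq_zero]
  apply LinearMap.ext
  intro f
  apply Subtype.ext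
  funext g
  rw [lam_pow_apply U σ0 s lam hlam, Module.End.one_apply]
  have h1 := coindV_apply_mul U σ0 f ⟨(s ^ n)⁻¹, U.inv_mem hsn⟩ g
  rw [hσ0] at h1
  exact h1

omit [Field k] in
/-- The two factors of a factorisation of `X ^ n - 1`, `n` invertible, are coprime. -/
lemma isCoprime_of_mul_eq_X_pow_sub_one {F : Type*} [Field F] {n : ℕ} (hn : (n : F) ≠ 0)
    (φ φ' : F[X]) (h : φ * φ' = X ^ n - 1) : IsCoprime φ φ' := by
  apply Polynomial.Separable.isCoprime
  rw [h]
  have := Polynomial.separable_X_pow_sub_C (1 : F) hn one_ne_zero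
  rwa [map_one] at this

/-! ### (H0) -/

include hlam in
/-- **(H0)** A space of `G`-invariant elements of `P` killed by `φ(lam)` has dimension
`≤ 1`, and is zero unless `φ(1) = 0`. -/
theorem finrank_le_of_invariant_aux {W : Type*} [AddCommGroup W] [Module k W]
    (j : W →ₗ[k] ↥(Representation.coindV U.subtype σ0)) (hj : Function.Injective j)
    (hinv : ∀ (w : W) (g : G), Representation.coind U.subtype σ0 g (j w) = j w)
    (φ : k[X]) (hφ : ∀ w, aeval lam φ (j w) = 0) :
    finrank k W ≤ 1 ∧ (φ.eval 1 ≠ 0 → finrank k W = 0) := by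
  have hconst : ∀ (w : W) (g : G), ((j w : ↥(Representation.coindV U.subtype σ0)) : G → k) g =
      ((j w : ↥(Representation.coindV U.subtype σ0)) : G → k) 1 := by
    intro w g
    have h1 := coind_apply_apply U σ0 g (j w) 1
    rw [hinv w g, one_mul] at h1
    exact h1.symm
  have hfix : ∀ w : W, lam (j w) = (1 : k) • j w := by
    intro w
    rw [one_smul]
    apply Subtype.ext
    funext x
    rw [hlam, hconst w (s⁻¹ * x), hconst w x]
  have haev : ∀ w : W, aeval lam φ (j w) = φ.eval 1 • j w := fun w =>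
    Module.End.aeval_apply_of_mem_apply_eq_smul (hfix w)
  constructor
  · let ev : W →ₗ[k] k :=
      ((LinearMap.proj (1 : G) : (G → k) →ₗ[k] k) ∘ₗ
        (Representation.coindV U.subtype σ0).subtype) ∘ₗ j
    have hev : Function.Injective ev := by
      refine (injective_iff_map_eq_zero ev).2 fun w hw => ?_
      apply hj
      rw [map_zero]
      apply Subtype.ext
      funext x
      have hw' : ((j w : ↥(Representation.coindV U.subtype σ0)) : G → k) 1 = 0 := hw
      rw [hconst w x, hw']
      rfl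
    have := LinearMap.finrank_le_finrank_of_injective hev
    rwa [Module.finrank_self] at this
  · intro h1
    have hsub : Subsingleton W := by
      refine ⟨fun w w' => ?_⟩
      have hz : ∀ w : W, w = 0 := by
        intro w
        apply hj
        rw [map_zero]
        have h2 := haev w
        rw [hφ w] at h2
        exact (smul_eq_zero.1 h2.symm).resolve_left h1
      rw [hz w, hz w']
    exact Module.finrank_zero_of_subsingleton

include hlam in
/-- **(H0)** `dim ≤ [φ(1) = 0]`. -/
theorem finrank_le_of_invariant [DecidableEq k] {W : Type*} [AddCommGroup W] [Module k W]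
    (j : W →ₗ[k] ↥(Representation.coindV U.subtype σ0)) (hj : Function.Injective j)
    (hinv : ∀ (w : W) (g : G), Representation.coind U.subtype σ0 g (j w) = j w)
    (φ : k[X]) (hφ : ∀ w, aeval lam φ (j w) = 0) :
    finrank k W ≤ if φ.eval 1 = 0 then 1 else 0 := by
  obtain ⟨h1, h2⟩ := finrank_le_of_invariant_aux U σ0 s lam hlam j hj hinv φ hφ
  split_ifs with h
  · exact h1
  · exact (h2 h).le

/-! ### (H0') -/

open Classical in
include hσ0 hω in
/-- The functional `f ↦ ∑_{c ∈ U \ G} ω(c)⁻¹ f(c)` on `P`, characterised on the delta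
functions. -/
lemma exists_sumFunctional [U.FiniteIndex] :
    ∃ L : Module.Dual k ↥(Representation.coindV U.subtype σ0),
      ∀ (g : G) (n : k), L (delta U σ0 g n) = (((ω g)⁻¹ : kˣ) : k) * n := by
  have := finite_rightCosets U
  cases nonempty_fintype (Quotient (QuotientGroup.rightRel U))
  let evalAt : G → (↥(Representation.coindV U.subtype σ0) →ₗ[k] k) := fun x =>
    (LinearMap.proj x) ∘ₗ (Representation.coindV U.subtype σ0).subtype
  let L : Module.Dual k ↥(Representation.coindV U.subtype σ0) :=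
    ∑ c : Quotient (QuotientGroup.rightRel U),
      (((ω (Quotient.out c))⁻¹ : kˣ) : k) • evalAt (Quotient.out c)
  have hL : ∀ f : ↥(Representation.coindV U.subtype σ0),
      L f = ∑ c : Quotient (QuotientGroup.rightRel U),
        (((ω (Quotient.out c))⁻¹ : kˣ) : k) * (f : G → k) (Quotient.out c) := by
    intro f
    simp only [L, LinearMap.sum_apply, LinearMap.smul_apply, smul_eq_mul]
    rfl
  refine ⟨L, fun g n => ?_⟩
  set c₀ : Quotient (QuotientGroup.rightRel U) := Quotient.mk'' g with hc₀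
  have hmem : Quotient.out c₀ * g⁻¹ ∈ U := by
    have h1 := mul_out_inv_mem U g
    have h2 := U.inv_mem h1
    rwa [mul_inv_rev, inv_inv] at h2
  rw [hL, Finset.sum_eq_single c₀]
  · rw [delta_apply_of_mem_of_trivial U σ0 hσ0 g n _ hmem]
    have hωe : ω (Quotient.out c₀) = ω g := by
      have h3 : Quotient.out c₀ = (Quotient.out c₀ * g⁻¹) * g := by group
      rw [h3, map_mul, hω _ hmem, one_mul]
    rw [hωe]
  · intro c _ hc
    rw [delta_apply_of_not_mem, mul_zero]
    intro hm
    apply hc
    have : (Quotient.mk'' g : Quotient (QuotientGroup.rightRel U)) =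
        Quotient.mk'' (Quotient.out c) := Quotient.sound' (QuotientGroup.rightRel_apply.2 hm)
    rw [Quotient.out_eq'] at this
    exact this.symm
  · intro h
    exact absurd (Finset.mem_univ _) h

include hσ0 hs hlam hω in
/-- **(H0'), functional on `P`.** There is a functional `L ≠ 0` on `P` with
`L (g f) = ω(g) L(f)` for all `g ∈ G` and `L ∘ lam = ω(s)⁻¹ L`. -/
theorem exists_semiDual [U.FiniteIndex] :
    ∃ L : Module.Dual k ↥(Representation.coindV U.subtype σ0),
      (∀ (g : G) (f : ↥(Representation.coindV U.subtype σ0)),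
        L (Representation.coind U.subtype σ0 g f) = ((ω g : kˣ) : k) * L f) ∧
      (∀ f : ↥(Representation.coindV U.subtype σ0),
        L (lam f) = (((ω s)⁻¹ : kˣ) : k) * L f) ∧
      L (delta U σ0 1 1) = 1 := by
  obtain ⟨L, hL⟩ := exists_sumFunctional U σ0 hσ0 ω hω
  refine ⟨L, fun g f => ?_, fun f => ?_, ?_⟩
  · have hD : L ∘ₗ (Representation.coind U.subtype σ0 g) - ((ω g : kˣ) : k) • L = 0 := by
      apply eq_zero_of_delta U σ0
      intro g' n
      rw [LinearMap.sub_apply, LinearMap.comp_apply, LinearMap.smul_apply, coind_delta, hL, hL,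
        map_mul, mul_inv_rev, map_inv, inv_inv, Units.val_mul, smul_eq_mul]
      ring
    have h1 := LinearMap.congr_fun hD f
    rw [LinearMap.sub_apply, LinearMap.comp_apply, LinearMap.smul_apply, smul_eq_mul,
      LinearMap.zero_apply, sub_eq_zero] at h1
    exact h1
  · have hD : L ∘ₗ lam - (((ω s)⁻¹ : kˣ) : k) • L = 0 := by
      apply eq_zero_of_delta U σ0
      intro g' n
      rw [LinearMap.sub_apply, LinearMap.comp_apply, LinearMap.smul_apply,
        lam_delta U σ0 hσ0 s hs lam hlam, hL, hL, map_mul, mul_inv_rev, Units.val_mul,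
        smul_eq_mul]
      ring
    have h1 := LinearMap.congr_fun hD f
    rw [LinearMap.sub_apply, LinearMap.comp_apply, LinearMap.smul_apply, smul_eq_mul,
      LinearMap.zero_apply, sub_eq_zero] at h1
    exact h1
  · rw [hL, map_one, inv_one, Units.val_one, one_mul]

include hσ0 hs hlam hω in
/-- **(H0')** If `φ φ'` kills `lam`, `φ` and `φ'` are coprime and `φ(ω(s)⁻¹) = 0`, then there is
an `ω`-semi-invariant functional on `P` which does not vanish on `ker φ(lam)`. -/
theorem exists_semiDual_ne_zero [U.FiniteIndex] (φ φ' : k[X]) (hcop : IsCoprime φ φ')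
    (hann : aeval lam (φ * φ') = 0) (ha : φ.eval (((ω s)⁻¹ : kˣ) : k) = 0) :
    ∃ L : Module.Dual k ↥(Representation.coindV U.subtype σ0),
      (∀ (g : G) (f : ↥(Representation.coindV U.subtype σ0)),
        L (Representation.coind U.subtype σ0 g f) = ((ω g : kˣ) : k) * L f) ∧
      ∃ f : ↥(Representation.coindV U.subtype σ0), aeval lam φ f = 0 ∧ L f ≠ 0 := by
  obtain ⟨L, hL1, hL2, hL3⟩ := exists_semiDual U σ0 hσ0 s hs lam hlam ω hω
  refine ⟨L, hL1, aeval lam φ' (delta U σ0 1 1), ?_, ?_⟩
  · rw [← Module.End.mul_apply, ← map_mul, hann, LinearMap.zero_apply]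
  · have heig : (LinearMap.dualMap lam : Module.End k (Module.Dual k _)) L =
        (((ω s)⁻¹ : kˣ) : k) • L := by
      apply LinearMap.ext
      intro f
      rw [LinearMap.dualMap_apply, LinearMap.smul_apply, smul_eq_mul, hL2]
    have h1 : L (aeval lam φ' (delta U σ0 1 1)) = φ'.eval (((ω s)⁻¹ : kˣ) : k) * 1 := by
      have h2 := comp_aeval_eq_aeval_dualMap lam φ' L
      rw [Module.End.aeval_apply_of_mem_apply_eq_smul heig] at h2
      have h3 := LinearMap.congr_fun h2 (delta U σ0 1 1)
      rw [LinearMap.comp_apply, LinearMap.smul_apply, hL3, smul_eq_mul] at h3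
      exact h3
    rw [h1, mul_one]
    obtain ⟨u, v, huv⟩ := hcop
    have h4 := congrArg (Polynomial.eval (((ω s)⁻¹ : kˣ) : k)) huv
    rw [eval_add, eval_mul, eval_mul, ha, mul_zero, zero_add, eval_one] at h4
    intro h5
    rw [h5, mul_zero] at h4
    exact zero_ne_one h4

/-! ### (MIN): eigen-elements under a subgroup `K` -/

include hσ0 hω in
/-- The value `ω(g)⁻¹ f(g)` of an `ω`-eigenfunction under `K` depends only on the double coset
`U g K`. -/
lemma eigen_dcRep (K : Subgroup G) (f : ↥(Representation.coindV U.subtype σ0))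
    (hf : ∀ d ∈ K, Representation.coind U.subtype σ0 d f = ((ω d : kˣ) : k) • f) (g : G) :
    (((ω (dcRep U K (DoubleCoset.mk U K g)))⁻¹ : kˣ) : k) *
        (f : G → k) (dcRep U K (DoubleCoset.mk U K g)) =
      (((ω g)⁻¹ : kˣ) : k) * (f : G → k) g := by
  obtain ⟨h, κ, hh, hκ, he⟩ := DoubleCoset.mk_out_eq_mul U K g
  have he' : dcRep U K (DoubleCoset.mk U K g) = h * g * κ := he
  rw [he']
  have h1 : (f : G → k) (h * g * κ) = ((ω κ : kˣ) : k) * (f : G → k) g := by
    have h2 := coindV_apply_mul U σ0 f ⟨h, hh⟩ (g * κ)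
    rw [hσ0] at h2
    have h3 : h * g * κ = ((⟨h, hh⟩ : ↥U) : G) * (g * κ) := by rw [mul_assoc]
    rw [h3, h2, ← coind_apply_apply U σ0 κ f g, hf κ hκ]
    rfl
  have hu : (ω (h * g * κ))⁻¹ * ω κ = (ω g)⁻¹ := by
    rw [map_mul, map_mul, hω h hh, one_mul, mul_inv, mul_assoc, inv_mul_cancel, mul_one]
  rw [h1, ← mul_assoc, ← Units.val_mul, hu]

include hσ0 hlam hω in
/-- **(MIN)** A space of elements of `P` which are `ω`-eigen under a subgroup `K` and killed by
`φ(lam)` embeds into the kernel of `φ(ω(s)⁻¹ • T)` on the functions on `U \ G / K`, `T` the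
permutation operator `T F (U g K) = F (U s⁻¹ g K)`. -/
theorem finrank_le_kd_of_eigen [U.FiniteIndex] (K : Subgroup G)
    {W : Type*} [AddCommGroup W] [Module k W]
    (j : W →ₗ[k] ↥(Representation.coindV U.subtype σ0)) (hj : Function.Injective j)
    (heig : ∀ (w : W), ∀ d ∈ K,
      Representation.coind U.subtype σ0 d (j w) = ((ω d : kˣ) : k) • j w)
    (φ : k[X]) (hφ : ∀ w, aeval lam φ (j w) = 0)
    (T : Module.End k (DoubleCoset.Quotient (U : Set G) (K : Set G) → k))
    (hT : ∀ (F : DoubleCoset.Quotient (U : Set G) (K : Set G) → k) (g : G),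
      T F (DoubleCoset.mk U K g) = F (DoubleCoset.mk U K (s⁻¹ * g))) :
    finrank k W ≤ finrank k ↥(LinearMap.ker (aeval ((((ω s)⁻¹ : kˣ) : k) • T) φ)) := by
  have hfinX := finite_doubleCosets U K
  let evalAt : G → (↥(Representation.coindV U.subtype σ0) →ₗ[k] k) := fun x =>
    (LinearMap.proj x) ∘ₗ (Representation.coindV U.subtype σ0).subtype
  let Θ : ↥(Representation.coindV U.subtype σ0) →ₗ[k]
      (DoubleCoset.Quotient (U : Set G) (K : Set G) → k) :=
    LinearMap.pi fun x => (((ω (dcRep U K x))⁻¹ : kˣ) : k) • evalAt (dcRep U K x)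
  have hΘ : ∀ (f : ↥(Representation.coindV U.subtype σ0))
      (x : DoubleCoset.Quotient (U : Set G) (K : Set G)),
      Θ f x = (((ω (dcRep U K x))⁻¹ : kˣ) : k) * (f : G → k) (dcRep U K x) := fun f x => rfl
  let Q : ↥(Representation.coindV U.subtype σ0) → Prop := fun f =>
    ∀ d ∈ K, Representation.coind U.subtype σ0 d f = ((ω d : kˣ) : k) • f
  have hQ : ∀ f, Q f → Q (lam f) := by
    intro f hf d hd
    rw [← lam_coind U σ0 s lam hlam, hf d hd, map_smul]
  have hkey : ∀ f, Q f → ∀ g : G, Θ f (DoubleCoset.mk U K g) =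
      (((ω g)⁻¹ : kˣ) : k) * (f : G → k) g := fun f hf g => by
    rw [hΘ]
    exact eigen_dcRep U σ0 hσ0 ω hω K f hf g
  have hint : ∀ f, Q f → Θ (lam f) = ((((ω s)⁻¹ : kˣ) : k) • T) (Θ f) := by
    intro f hf
    funext x
    have hx := mk_dcRep U K x
    generalize dcRep U K x = g at hx
    subst hx
    have hu : (ω s)⁻¹ * (ω (s⁻¹ * g))⁻¹ = (ω g)⁻¹ := by
      rw [map_mul, map_inv, mul_inv, inv_inv, inv_mul_cancel_left]
    rw [hkey (lam f) (hQ f hf), LinearMap.smul_apply, Pi.smul_apply, hT, hkey f hf, hlam,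
      smul_eq_mul, ← mul_assoc, ← Units.val_mul, hu]
  have hae := aeval_apply_of_intertwine lam ((((ω s)⁻¹ : kˣ) : k) • T) Θ Q hQ hint φ
  let Θr : W →ₗ[k] ↥(LinearMap.ker (aeval ((((ω s)⁻¹ : kˣ) : k) • T) φ)) :=
    LinearMap.codRestrict _ (Θ ∘ₗ j) (fun w => by
      rw [LinearMap.mem_ker, LinearMap.comp_apply, ← hae (j w) (heig w), hφ w, map_zero])
  have hΘr : Function.Injective Θr := by
    refine (injective_iff_map_eq_zero Θr).2 fun w hw => ?_
    apply hj
    rw [map_zero]
    apply Subtype.ext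
    funext g
    have h1 : Θ (j w) (DoubleCoset.mk U K g) = 0 := by
      have h2 : Θ (j w) = 0 := congrArg Subtype.val hw
      rw [h2]
      rfl
    rw [hkey (j w) (heig w) g] at h1
    exact (mul_eq_zero.1 h1).resolve_left (Units.ne_zero _)
  exact LinearMap.finrank_le_finrank_of_injective hΘr

/-! ### (PI2): semi-invariant functionals under a subgroup `K` -/

/-- Left multiplication by the normalising element `s` on the double cosets `U \ G / K`. -/
def dcMulLeft (K : Subgroup G) (hs : ∀ u : G, u ∈ U ↔ s * u * s⁻¹ ∈ U) :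
    DoubleCoset.Quotient (U : Set G) (K : Set G) ≃ DoubleCoset.Quotient (U : Set G) (K : Set G)
    where
  toFun := Quotient.map' (s * ·) (fun a b hab => by
    obtain ⟨h, hh, κ, hκ, he⟩ := DoubleCoset.rel_iff.1 hab
    refine DoubleCoset.rel_iff.2 ⟨s * h * s⁻¹, (hs h).1 hh, κ, hκ, ?_⟩
    rw [he]
    group)
  invFun := Quotient.map' (s⁻¹ * ·) (fun a b hab => by
    obtain ⟨h, hh, κ, hκ, he⟩ := DoubleCoset.rel_iff.1 hab
    refine DoubleCoset.rel_iff.2 ⟨s⁻¹ * h * s, (hs _).2 ?_, κ, hκ, ?_⟩
    · have : s * (s⁻¹ * h * s) * s⁻¹ = h := by group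
      rw [this]
      exact hh
    · rw [he]
      group)
  left_inv x := by
    induction x using Quotient.inductionOn' with
    | h a =>
      show (Quotient.mk'' (s⁻¹ * (s * a)) : DoubleCoset.Quotient (U : Set G) (K : Set G)) =
        Quotient.mk'' a
      rw [inv_mul_cancel_left]
  right_inv x := by
    induction x using Quotient.inductionOn' with
    | h a =>
      show (Quotient.mk'' (s * (s⁻¹ * a)) : DoubleCoset.Quotient (U : Set G) (K : Set G)) =
        Quotient.mk'' a
      rw [mul_inv_cancel_left]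

lemma dcMulLeft_mk (K : Subgroup G) (hs : ∀ u : G, u ∈ U ↔ s * u * s⁻¹ ∈ U) (g : G) :
    dcMulLeft U s K hs (DoubleCoset.mk U K g) = DoubleCoset.mk U K (s * g) := rfl

lemma dcMulLeft_symm_mk (K : Subgroup G) (hs : ∀ u : G, u ∈ U ↔ s * u * s⁻¹ ∈ U) (g : G) :
    (dcMulLeft U s K hs).symm (DoubleCoset.mk U K g) = DoubleCoset.mk U K (s⁻¹ * g) := rfl

include hσ0 hω in
/-- The value `ω(g) L(δ_g)` of an `ω`-semi-invariant functional under `K` depends only on the
double coset `U g K`. -/
lemma semiDual_dcRep (K : Subgroup G)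
    (L : Module.Dual k ↥(Representation.coindV U.subtype σ0))
    (hL : ∀ d ∈ K, ∀ f, L (Representation.coind U.subtype σ0 d f) = ((ω d : kˣ) : k) * L f)
    (g : G) :
    ((ω (dcRep U K (DoubleCoset.mk U K g)) : kˣ) : k) *
        L (delta U σ0 (dcRep U K (DoubleCoset.mk U K g)) 1) =
      ((ω g : kˣ) : k) * L (delta U σ0 g 1) := by
  obtain ⟨h, κ, hh, hκ, he⟩ := DoubleCoset.mk_out_eq_mul U K g
  have he' : dcRep U K (DoubleCoset.mk U K g) = h * g * κ := he
  rw [he']
  have h1 : delta U σ0 (h * g * κ) (1 : k) =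
      Representation.coind U.subtype σ0 κ⁻¹ (delta U σ0 g 1) := by
    have h3 : h * g * κ = ((⟨h, hh⟩ : ↥U) : G) * (g * κ) := by rw [mul_assoc]
    rw [h3, delta_mul_of_trivial U σ0 hσ0, coind_delta, inv_inv]
  have hu : ω (h * g * κ) * ω κ⁻¹ = ω g := by
    rw [map_mul, map_mul, hω h hh, one_mul, map_inv, mul_inv_cancel_right]
  rw [h1, hL κ⁻¹ (K.inv_mem hκ), ← mul_assoc, ← Units.val_mul, hu]

include hσ0 hs hlam hω in
/-- **(PI2)** A space of functionals on `P` which are `ω`-semi-invariant under a subgroup `K`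
and vanish on the image of `φ(lam)` embeds into the kernel of `φ(ω(s)⁻¹ • T)` on the functions
on `U \ G / K`, `T` the permutation operator `T F (U g K) = F (U s⁻¹ g K)`. -/
theorem finrank_le_kd_of_semiDual [U.FiniteIndex] (K : Subgroup G)
    {W : Type*} [AddCommGroup W] [Module k W]
    (j : W →ₗ[k] Module.Dual k ↥(Representation.coindV U.subtype σ0))
    (hj : Function.Injective j)
    (hsemi : ∀ (w : W), ∀ d ∈ K, ∀ f,
      j w (Representation.coind U.subtype σ0 d f) = ((ω d : kˣ) : k) * j w f)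
    (φ : k[X]) (hφ : ∀ w f, j w (aeval lam φ f) = 0)
    (T : Module.End k (DoubleCoset.Quotient (U : Set G) (K : Set G) → k))
    (hT : ∀ (F : DoubleCoset.Quotient (U : Set G) (K : Set G) → k) (g : G),
      T F (DoubleCoset.mk U K g) = F (DoubleCoset.mk U K (s⁻¹ * g))) :
    finrank k W ≤ finrank k ↥(LinearMap.ker (aeval ((((ω s)⁻¹ : kˣ) : k) • T) φ)) := by
  have hfinX := finite_doubleCosets U K
  set e := dcMulLeft U s K hs with he
  -- `T` is the permutation operator of `e⁻¹`
  have hTe : T = LinearMap.funLeft k k e.symm := by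
    apply LinearMap.ext
    intro F
    funext x
    have hx := mk_dcRep U K x
    generalize dcRep U K x = g at hx
    subst hx
    rw [hT, LinearMap.funLeft_apply, he, dcMulLeft_symm_mk]
  rw [hTe]
  refine le_trans ?_ (finrank_ker_aeval_funLeft_le e (((ω s)⁻¹ : kˣ) : k) φ)
  let Ξ : Module.Dual k ↥(Representation.coindV U.subtype σ0) →ₗ[k]
      (DoubleCoset.Quotient (U : Set G) (K : Set G) → k) :=
    LinearMap.pi fun x => ((ω (dcRep U K x) : kˣ) : k) •
      (LinearMap.applyₗ (delta U σ0 (dcRep U K x) (1 : k)))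
  have hΞ : ∀ (L : Module.Dual k ↥(Representation.coindV U.subtype σ0))
      (x : DoubleCoset.Quotient (U : Set G) (K : Set G)),
      Ξ L x = ((ω (dcRep U K x) : kˣ) : k) * L (delta U σ0 (dcRep U K x) 1) := fun L x => rfl
  let Q : Module.Dual k ↥(Representation.coindV U.subtype σ0) → Prop := fun L =>
    ∀ d ∈ K, ∀ f, L (Representation.coind U.subtype σ0 d f) = ((ω d : kˣ) : k) * L f
  have hQ : ∀ L, Q L → Q ((LinearMap.dualMap lam : Module.End k (Module.Dual k _)) L) := by
    intro L hL d hd f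
    rw [LinearMap.dualMap_apply, LinearMap.dualMap_apply, lam_coind U σ0 s lam hlam, hL d hd]
  have hkey : ∀ L, Q L → ∀ g : G, Ξ L (DoubleCoset.mk U K g) =
      ((ω g : kˣ) : k) * L (delta U σ0 g 1) := fun L hL g => by
    rw [hΞ]
    exact semiDual_dcRep U σ0 hσ0 ω hω K L hL g
  have hint : ∀ L, Q L → Ξ ((LinearMap.dualMap lam : Module.End k (Module.Dual k _)) L) =
      ((((ω s)⁻¹ : kˣ) : k) • LinearMap.funLeft k k e : Module.End k _) (Ξ L) := by
    intro L hL
    funext x
    have hx := mk_dcRep U K x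
    generalize dcRep U K x = g at hx
    subst hx
    have hu : (ω s)⁻¹ * ω (s * g) = ω g := by
      rw [map_mul, inv_mul_cancel_left]
    rw [hkey _ (hQ L hL), LinearMap.smul_apply, Pi.smul_apply, LinearMap.funLeft_apply, he,
      dcMulLeft_mk, hkey L hL, LinearMap.dualMap_apply, lam_delta U σ0 hσ0 s hs lam hlam,
      smul_eq_mul, ← mul_assoc, ← Units.val_mul, hu]
  have hae := aeval_apply_of_intertwine (LinearMap.dualMap lam : Module.End k (Module.Dual k _))
    ((((ω s)⁻¹ : kˣ) : k) • LinearMap.funLeft k k e : Module.End k _) Ξ Q hQ hint φ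
  let Ξr : W →ₗ[k] ↥(LinearMap.ker
      (aeval ((((ω s)⁻¹ : kˣ) : k) • LinearMap.funLeft k k e : Module.End k _) φ)) :=
    LinearMap.codRestrict _ (Ξ ∘ₗ j) (fun w => by
      rw [LinearMap.mem_ker, LinearMap.comp_apply, ← hae (j w) (hsemi w),
        ← comp_aeval_eq_aeval_dualMap]
      have h0 : j w ∘ₗ aeval lam φ = 0 := LinearMap.ext fun f => hφ w f
      rw [h0, map_zero])
  have hΞr : Function.Injective Ξr := by
    refine (injective_iff_map_eq_zero Ξr).2 fun w hw => ?_
    apply hj
    rw [map_zero]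
    apply eq_zero_of_delta U σ0
    intro g n
    have h1 : Ξ (j w) (DoubleCoset.mk U K g) = 0 := by
      have h2 : Ξ (j w) = 0 := congrArg Subtype.val hw
      rw [h2]
      rfl
    rw [hkey (j w) (hsemi w) g] at h1
    rw [delta_eq_smul U σ0 g n, map_smul, (mul_eq_zero.1 h1).resolve_left (Units.ne_zero _),
      smul_zero]
  exact LinearMap.finrank_le_finrank_of_injective hΞr

/-! ### The four bounds for a model `ι : M ↪ P` of `ker φ(lam)` -/

section Model

variable {M : Type*} [AddCommGroup M] [Module k M] (ρM : Representation k G M)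
  (ι : M →ₗ[k] ↥(Representation.coindV U.subtype σ0)) (hι : Function.Injective ι)
  (hιρ : ∀ (g : G) (m : M), ι (ρM g m) = Representation.coind U.subtype σ0 g (ι m))
  (φ : k[X]) (hιφ : ∀ m : M, aeval lam φ (ι m) = 0)
  (hιsurj : ∀ f : ↥(Representation.coindV U.subtype σ0), aeval lam φ f = 0 → ∃ m, ι m = f)

include hlam hι hιρ hιφ in
/-- **(H0), model form.** `dim M^G ≤ 1`, and `= 0` unless `φ(1) = 0`. -/
theorem finrank_invariants_le_of_model_aux :
    finrank k ↥(Representation.invariants ρM) ≤ 1 ∧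
      (φ.eval 1 ≠ 0 → finrank k ↥(Representation.invariants ρM) = 0) :=
  finrank_le_of_invariant_aux U σ0 s lam hlam (ι ∘ₗ (Representation.invariants ρM).subtype)
    (hι.comp Subtype.val_injective)
    (fun w g => by
      rw [LinearMap.comp_apply, Submodule.subtype_apply, ← hιρ, w.2 g]) φ (fun w => hιφ _)

include hlam hι hιρ hιφ in
/-- **(H0), model form.** `dim M^G ≤ [φ(1) = 0]`. -/
theorem finrank_invariants_le_of_model [DecidableEq k] :
    finrank k ↥(Representation.invariants ρM) ≤ if φ.eval 1 = 0 then 1 else 0 := by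
  obtain ⟨h1, h2⟩ := finrank_invariants_le_of_model_aux U σ0 s lam hlam ρM ι hι hιρ φ hιφ
  split_ifs with h
  · exact h1
  · exact (h2 h).le

include hσ0 hs hlam hω hιρ hιsurj in
/-- **(H0'), model form.** If `φ φ'` kills `lam`, `φ` and `φ'` are coprime and
`φ(ω(s)⁻¹) = 0`, then `M ≅ ker φ(lam)` carries a nonzero functional `ℓ` with
`ℓ (g m) = ω(g) ℓ(m)` for all `g ∈ G`. -/
theorem exists_semiDual_ne_zero_of_model [U.FiniteIndex] (φ' : k[X]) (hcop : IsCoprime φ φ')
    (hann : aeval lam (φ * φ') = 0) (ha : φ.eval (((ω s)⁻¹ : kˣ) : k) = 0) :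
    ∃ ℓ : Module.Dual k M, ℓ ≠ 0 ∧ ∀ (g : G) (m : M), ℓ (ρM g m) = ((ω g : kˣ) : k) * ℓ m := by
  obtain ⟨L, hL1, f, hf, hLf⟩ :=
    exists_semiDual_ne_zero U σ0 hσ0 s hs lam hlam ω hω φ φ' hcop hann ha
  obtain ⟨m, rfl⟩ := hιsurj f hf
  refine ⟨L ∘ₗ ι, fun h0 => hLf ?_, fun g m' => ?_⟩
  · have := LinearMap.congr_fun h0 m
    rwa [LinearMap.comp_apply, LinearMap.zero_apply] at this
  · rw [LinearMap.comp_apply, LinearMap.comp_apply, hιρ, hL1]

include hσ0 hlam hω hι hιρ hιφ in
/-- **(MIN), model form.** A subspace of `M` on which a subgroup `K` acts through `ω` has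
dimension at most `kd φ (ω(s)⁻¹ • T)` on `U \ G / K`. -/
theorem finrank_le_kd_of_eigen_of_model [U.FiniteIndex] (K : Subgroup G) (E : Submodule k M)
    (hE : ∀ m ∈ E, ∀ d ∈ K, ρM d m = ((ω d : kˣ) : k) • m)
    (T : Module.End k (DoubleCoset.Quotient (U : Set G) (K : Set G) → k))
    (hT : ∀ (F : DoubleCoset.Quotient (U : Set G) (K : Set G) → k) (g : G),
      T F (DoubleCoset.mk U K g) = F (DoubleCoset.mk U K (s⁻¹ * g))) :
    finrank k ↥E ≤ finrank k ↥(LinearMap.ker (aeval ((((ω s)⁻¹ : kˣ) : k) • T) φ)) :=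
  finrank_le_kd_of_eigen U σ0 hσ0 s lam hlam ω hω K (ι ∘ₗ E.subtype)
    (hι.comp Subtype.val_injective)
    (fun w d hd => by
      rw [LinearMap.comp_apply, Submodule.subtype_apply, ← hιρ, hE w.1 w.2 d hd, map_smul])
    φ (fun w => hιφ _) T hT

include hσ0 hs hlam hω hι hιρ hιφ hιsurj in
/-- **(PI2), model form.** If `φ φ'` kills `lam` and `φ`, `φ'` are coprime, a space of
functionals on `M ≅ ker φ(lam)` which are `ω`-semi-invariant under a subgroup `K` has dimension
at most `kd φ (ω(s)⁻¹ • T)` on `U \ G / K`. -/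
theorem finrank_le_kd_of_semiDual_of_model [U.FiniteIndex] (K : Subgroup G)
    {W : Type*} [AddCommGroup W] [Module k W]
    (j : W →ₗ[k] Module.Dual k M) (hj : Function.Injective j)
    (hsemi : ∀ (w : W), ∀ d ∈ K, ∀ m : M, j w (ρM d m) = ((ω d : kˣ) : k) * j w m)
    (φ' : k[X]) (hcop : IsCoprime φ φ') (hann : aeval lam (φ * φ') = 0)
    (T : Module.End k (DoubleCoset.Quotient (U : Set G) (K : Set G) → k))
    (hT : ∀ (F : DoubleCoset.Quotient (U : Set G) (K : Set G) → k) (g : G),
      T F (DoubleCoset.mk U K g) = F (DoubleCoset.mk U K (s⁻¹ * g))) :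
    finrank k W ≤ finrank k ↥(LinearMap.ker (aeval ((((ω s)⁻¹ : kˣ) : k) • T) φ)) := by
  obtain ⟨u, v, huv⟩ := hcop
  -- the projector `(v φ')(lam)` onto `ker φ(lam)`, lifted to `M`
  have hproj : ∀ f : ↥(Representation.coindV U.subtype σ0),
      ∃ m : M, ι m = aeval lam (v * φ') f := by
    intro f
    apply hιsurj
    rw [← Module.End.mul_apply, ← map_mul]
    have : φ * (v * φ') = v * (φ * φ') := by ring
    rw [this, map_mul, hann, mul_zero, LinearMap.zero_apply]
  choose πf hπf using hproj
  have hπadd : ∀ f f', πf (f + f') = πf f + πf f' := by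
    intro f f'
    apply hι
    rw [map_add, hπf, hπf, hπf, map_add]
  have hπsmul : ∀ (t : k) f, πf (t • f) = t • πf f := by
    intro t f
    apply hι
    rw [map_smul, hπf, hπf, map_smul]
  let π : ↥(Representation.coindV U.subtype σ0) →ₗ[k] M :=
    { toFun := πf
      map_add' := hπadd
      map_smul' := hπsmul }
  have hπ : ∀ f, ι (π f) = aeval lam (v * φ') f := hπf
  have hπι : ∀ m : M, π (ι m) = m := by
    intro m
    apply hι
    rw [hπ]
    have h1 : v * φ' = 1 - u * φ := by rw [← huv]; ring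
    rw [h1, map_sub, map_one, map_mul, LinearMap.sub_apply, Module.End.one_apply,
      Module.End.mul_apply, hιφ, map_zero, sub_zero]
  have hπρ : ∀ (d : G) f, π (Representation.coind U.subtype σ0 d f) = ρM d (π f) := by
    intro d f
    apply hι
    rw [hπ, hιρ, hπ, aeval_lam_coind U σ0 s lam hlam]
  have hπφ : ∀ f, π (aeval lam φ f) = 0 := by
    intro f
    apply hι
    rw [hπ, map_zero, ← Module.End.mul_apply, ← map_mul]
    have : v * φ' * φ = v * (φ * φ') := by ring
    rw [this, map_mul, hann, mul_zero, LinearMap.zero_apply]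
  let j' : W →ₗ[k] Module.Dual k ↥(Representation.coindV U.subtype σ0) :=
    (LinearMap.dualMap π) ∘ₗ j
  have hj'app : ∀ w f, j' w f = j w (π f) := fun w f => rfl
  have hj' : Function.Injective j' := by
    refine (injective_iff_map_eq_zero j').2 fun w hw => ?_
    apply hj
    rw [map_zero]
    apply LinearMap.ext
    intro m
    rw [← hπι m, ← hj'app, hw]
    rfl
  exact finrank_le_kd_of_semiDual U σ0 hσ0 s hs lam hlam ω hω K j' hj'
    (fun w d hd f => by rw [hj'app, hj'app, hπρ, hsemi w d hd])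
    φ (fun w f => by rw [hj'app, hπφ, map_zero]) T hT

end Model

end Op

end Fermat.Agent.S56.helper1127
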