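/-
S56 (Taylor–Wiles primes), global chain, step (C0) of the Tate Euler-characteristic route.
Author: helper2906.

`tateDef S M := h⁰(M) + h²(G_S, M) + dim M^{c = -1} - h¹(G_S, M)` (an integer; Tate's global
Euler characteristic formula over `ℚ` says it is `0`) is ADDITIVE on short exact sequences of
`S`-modules and invariant under isomorphisms.  Hypothesis-passing over the S55 soft Props
(through `helper2906.chi_add`); the archimedean term is exact because `p` is odd.

* `finrank_ker_add_one_of_exact` : Mathlib-only; the `(-1)`-eigenspace of an involution is an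
  exact functor in characteristic `≠ 2`.
* `dimMinus M`      : `dim_{F_p} ker (ρ(c) + 1)`, `c = complexConjugation` (frozen Prelude).
* `dimMinus_add`    : additivity on short exact sequences (`p` odd).
* `tateDef S M`, `tateDef_add`, `tateDef_iso`, `tateDef_zero`.
-/
import Mathlib
import Fermat.Prelude.Def_GaloisRep_ComplexConjugation
import Fermat.Agent.S55.helper2906_ChiAdd

set_option autoImplicit false

namespace Fermat.Agent.S56.helper2906

open CategoryTheory Module ExtCitation
open Fermat.Agent.S55.helper2945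

section LinAlg

variable {k : Type*} [Field k] {A B C : Type*} [AddCommGroup A] [Module k A]
  [AddCommGroup B] [Module k B] [AddCommGroup C] [Module k C]

/-- The `(-1)`-eigenspace of an involution is exact in characteristic `≠ 2`: for a short exact
sequence `0 → A → B → C → 0` with compatible endomorphisms, `c_B ∘ c_B = 1`, the dimensions of
`ker (c + 1)` add up. -/
theorem finrank_ker_add_one_of_exact (h2 : (2 : k) ≠ 0) [FiniteDimensional k B]
    (f : A →ₗ[k] B) (g : B →ₗ[k] C) (hf : Function.Injective f) (hg : Function.Surjective g)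
    (hex : Function.Exact f g) (cA : A →ₗ[k] A) (cB : B →ₗ[k] B) (cC : C →ₗ[k] C)
    (hfc : ∀ a, f (cA a) = cB (f a)) (hgc : ∀ b, g (cB b) = cC (g b))
    (hB : ∀ b, cB (cB b) = b) :
    finrank k (LinearMap.ker (cB + 1)) =
      finrank k (LinearMap.ker (cA + 1)) + finrank k (LinearMap.ker (cC + 1)) := by
  have hrn := LinearMap.finrank_range_add_finrank_ker (g.domRestrict (LinearMap.ker (cB + 1)))
  have hrange : LinearMap.range (g.domRestrict (LinearMap.ker (cB + 1))) =
      LinearMap.ker (cC + 1) := by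
    rw [LinearMap.range_domRestrict]
    ext z
    simp only [Submodule.mem_map, LinearMap.mem_ker, LinearMap.add_apply, Module.End.one_apply]
    constructor
    · rintro ⟨y, hy, rfl⟩
      rw [← hgc, ← map_add, hy, map_zero]
    · intro hz
      obtain ⟨y, rfl⟩ := hg z
      refine ⟨(2 : k)⁻¹ • (y - cB y), ?_, ?_⟩
      · rw [map_smul, map_sub, hB, ← smul_add]
        simp
      · have h1 : cC (g y) = - g y := eq_neg_of_add_eq_zero_left hz
        rw [map_smul, map_sub, hgc, h1, sub_neg_eq_add, ← two_smul k (g y), smul_smul,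
          inv_mul_cancel₀ h2, one_smul]
  have hker : finrank k (LinearMap.ker (g.domRestrict (LinearMap.ker (cB + 1)))) =
      finrank k (LinearMap.ker (cA + 1)) := by
    have hmem : ∀ a : LinearMap.ker (cA + 1), f a ∈ LinearMap.ker (cB + 1) := by
      intro a
      have ha : cA a + a = 0 := by
        have := a.2
        rw [LinearMap.mem_ker, LinearMap.add_apply, Module.End.one_apply] at this
        exact this
      simp only [LinearMap.mem_ker, LinearMap.add_apply, Module.End.one_apply]
      rw [← hfc, ← map_add, ha, map_zero]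
    let φ : LinearMap.ker (cA + 1) →ₗ[k]
        LinearMap.ker (g.domRestrict (LinearMap.ker (cB + 1))) :=
      { toFun := fun a => ⟨⟨f a, hmem a⟩, by
          simp only [LinearMap.mem_ker, LinearMap.domRestrict_apply]
          exact hex.apply_apply_eq_zero _⟩
        map_add' := fun a b => by ext; simp
        map_smul' := fun r a => by ext; simp }
    have hφ : Function.Bijective φ := by
      constructor
      · intro a b hab
        have h1 : (φ a : LinearMap.ker (cB + 1)) = (φ b : LinearMap.ker (cB + 1)) :=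
          congrArg Subtype.val hab
        have h2 : f a = f b := congrArg Subtype.val h1
        exact Subtype.ext (hf h2)
      · rintro ⟨⟨y, hy⟩, hy'⟩
        have hgy : g y = 0 := by simpa [LinearMap.domRestrict_apply] using hy'
        obtain ⟨a, rfl⟩ := (hex y).1 hgy
        have hy2 : cB (f a) + f a = 0 := by simpa using hy
        have ha : cA a + a = 0 := by
          apply hf
          rw [map_add, hfc, hy2, map_zero]
        exact ⟨⟨a, by simpa using ha⟩, rfl⟩
    exact (LinearEquiv.ofBijective φ hφ).finrank_eq.symm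
  rw [hrange, hker] at hrn
  omega

end LinAlg

section Rep

variable {p : ℕ} [Fact p.Prime]

/-- `dim_{F_p} M^{c = -1}`: the dimension of the `(-1)`-eigenspace of complex conjugation. -/
noncomputable def dimMinus (M : Rep.{0, 0, 0} (ZMod p) GQ) : ℕ :=
  finrank (ZMod p) (LinearMap.ker (M.ρ complexConjugation + 1))

theorem rho_conj_conj (M : Rep.{0, 0, 0} (ZMod p) GQ) (m : M) :
    M.ρ complexConjugation (M.ρ complexConjugation m) = m := by
  have h := congrArg (fun φ : M →ₗ[ZMod p] M => φ m)
    (M.ρ.map_mul complexConjugation complexConjugation)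
  rw [complexConjugation_mul_self, map_one] at h
  exact h.symm

/-- `dimMinus` is additive on short exact sequences (`p` odd). -/
theorem dimMinus_add (hp2 : p ≠ 2) (A B C : Rep.{0, 0, 0} (ZMod p) GQ) (f : A ⟶ B) (g : B ⟶ C)
    [FiniteDimensional (ZMod p) B]
    (hf : Function.Injective f.hom) (hg : Function.Surjective g.hom)
    (hex : Function.Exact f.hom g.hom) :
    dimMinus B = dimMinus A + dimMinus C := by
  have h2 : (2 : ZMod p) ≠ 0 := by
    intro h
    have h' : ((2 : ℕ) : ZMod p) = 0 := by exact_mod_cast h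
    rw [ZMod.natCast_eq_zero_iff] at h'
    exact hp2 ((Nat.prime_dvd_prime_iff_eq (Fact.out : p.Prime) Nat.prime_two).1 h')
  exact finrank_ker_add_one_of_exact h2 f.hom.toLinearMap g.hom.toLinearMap hf hg hex
    (A.ρ complexConjugation) (B.ρ complexConjugation) (C.ρ complexConjugation)
    (fun a => Rep.hom_comm_apply f complexConjugation a)
    (fun b => Rep.hom_comm_apply g complexConjugation b)
    (rho_conj_conj B)

/-- Tate's defect `h⁰ + h² + dim M^{c=-1} - h¹` of the global Euler characteristic formula. -/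
noncomputable def tateDef (S : Finset Nat.Primes) (M : Rep.{0, 0, 0} (ZMod p) GQ) : ℤ :=
  (h0 M : ℤ) + h2 S M + dimMinus M - h1 S M

theorem tateDef_nonpos_iff (S : Finset Nat.Primes) (M : Rep.{0, 0, 0} (ZMod p) GQ) :
    tateDef S M ≤ 0 ↔ h0 M + h2 S M + dimMinus M ≤ h1 S M := by
  unfold tateDef
  omega

theorem tateDef_eq_zero_iff (S : Finset Nat.Primes) (M : Rep.{0, 0, 0} (ZMod p) GQ) :
    tateDef S M = 0 ↔ h0 M + h2 S M + dimMinus M = h1 S M := by
  unfold tateDef
  omega

/-- **Additivity of Tate's defect** on short exact sequences of `S`-modules. -/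
theorem tateDef_add (hFin : Stmt_Fin) (hA : Stmt_A) (hB : Stmt_B) (hC : Stmt_C)
    (hL : Stmt_L2num) (hE : Stmt_E) (hSub : Fermat.Agent.S55.helper613.Stmt_ChiSub)
    (hLocAdd : Fermat.Agent.S55.helper613.Stmt_ChiLocAdd)
    (hp2 : p ≠ 2) (S : Finset Nat.Primes) (hpS : pPrime p ∈ S)
    (A B C : Rep.{0, 0, 0} (ZMod p) GQ) (f : A ⟶ B) (g : B ⟶ C)
    (sA : IsSMod S A) (sB : IsSMod S B) (sC : IsSMod S C)
    (hf : Function.Injective f.hom) (hg : Function.Surjective g.hom)
    (hex : Function.Exact f.hom g.hom) :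
    tateDef S B = tateDef S A + tateDef S C := by
  have h1 := Fermat.Agent.S55.helper2906.chi_add hFin hA hB hC hL hE hSub hLocAdd hp2 S hpS
    A B C f g sA sB sC hf hg hex
  have := sB.finite
  have h2 := dimMinus_add hp2 A B C f g hf hg hex
  unfold tateDef
  omega

/-- Tate's defect vanishes on a module with one element. -/
theorem tateDef_of_subsingleton (hFin : Stmt_Fin) (hA : Stmt_A) (hB : Stmt_B) (hC : Stmt_C)
    (hL : Stmt_L2num) (hE : Stmt_E) (hSub : Fermat.Agent.S55.helper613.Stmt_ChiSub)
    (hLocAdd : Fermat.Agent.S55.helper613.Stmt_ChiLocAdd)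
    (hp2 : p ≠ 2) (S : Finset Nat.Primes) (hpS : pPrime p ∈ S)
    (Z : Rep.{0, 0, 0} (ZMod p) GQ) (sZ : IsSMod S Z) [Subsingleton Z] :
    tateDef S Z = 0 := by
  have h := tateDef_add hFin hA hB hC hL hE hSub hLocAdd hp2 S hpS Z Z Z (𝟙 Z) (𝟙 Z) sZ sZ sZ
    (fun a b _ => Subsingleton.elim a b) (fun c => ⟨c, Subsingleton.elim _ _⟩)
    (fun b => ⟨fun _ => ⟨b, Subsingleton.elim _ _⟩, fun _ => Subsingleton.elim _ _⟩)
  omega

/-- Tate's defect is invariant under bijective morphisms of `S`-modules. -/
theorem tateDef_of_bijective (hFin : Stmt_Fin) (hA : Stmt_A) (hB : Stmt_B) (hC : Stmt_C)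
    (hL : Stmt_L2num) (hE : Stmt_E) (hSub : Fermat.Agent.S55.helper613.Stmt_ChiSub)
    (hLocAdd : Fermat.Agent.S55.helper613.Stmt_ChiLocAdd)
    (hp2 : p ≠ 2) (S : Finset Nat.Primes) (hpS : pPrime p ∈ S)
    (A B : Rep.{0, 0, 0} (ZMod p) GQ) (f : A ⟶ B) (sA : IsSMod S A) (sB : IsSMod S B)
    (hf : Function.Bijective f.hom) :
    tateDef S B = tateDef S A := by
  let Z : Rep.{0, 0, 0} (ZMod p) GQ := Rep.of (1 : Representation (ZMod p) GQ PUnit)
  have sZ : IsSMod S Z :=
    { finite := inferInstanceAs (FiniteDimensional (ZMod p) PUnit)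
      smooth := fun m => ⟨⊥, inferInstance, fun _ _ => Subsingleton.elim _ _⟩
      unram := fun _ _ _ _ _ _ => LinearMap.ext fun _ => Subsingleton.elim _ _ }
  haveI : Subsingleton Z := inferInstanceAs (Subsingleton PUnit)
  have hZ := tateDef_of_subsingleton hFin hA hB hC hL hE hSub hLocAdd hp2 S hpS Z sZ
  have h := tateDef_add hFin hA hB hC hL hE hSub hLocAdd hp2 S hpS A B Z f (0 : B ⟶ Z) sA sB sZ
    hf.1 (fun c => ⟨0, Subsingleton.elim _ _⟩)
    (fun b => ⟨fun _ => hf.2 b, fun _ => Subsingleton.elim _ _⟩)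
  omega

/-- Tate's defect is invariant under isomorphisms of `S`-modules. -/
theorem tateDef_iso (hFin : Stmt_Fin) (hA : Stmt_A) (hB : Stmt_B) (hC : Stmt_C)
    (hL : Stmt_L2num) (hE : Stmt_E) (hSub : Fermat.Agent.S55.helper613.Stmt_ChiSub)
    (hLocAdd : Fermat.Agent.S55.helper613.Stmt_ChiLocAdd)
    (hp2 : p ≠ 2) (S : Finset Nat.Primes) (hpS : pPrime p ∈ S)
    (A B : Rep.{0, 0, 0} (ZMod p) GQ) (e : A ≅ B) (sA : IsSMod S A) (sB : IsSMod S B) :
    tateDef S B = tateDef S A := by
  refine tateDef_of_bijective hFin hA hB hC hL hE hSub hLocAdd hp2 S hpS A B e.hom sA sB ⟨?_, ?_⟩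
  · intro a b hab
    have h1 := congrArg (fun x => e.inv.hom x) hab
    have h2 : ∀ x : A, e.inv.hom (e.hom.hom x) = x := fun x => by
      simp
    simpa [h2] using h1
  · intro b
    refine ⟨e.inv.hom b, ?_⟩
    simp

end Rep

end Fermat.Agent.S56.helper2906
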