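/-
S56, global chain, T1 (operator form, chat #196): the four MACKEY NUMERALS
(H0), (H0'), (PI2), (MIN) of a kernel summand `kap φ = ker φ(lam)` of
`P = coind_U^{G_ℚ} 𝔽_p` on the frozen S55/S56 carriers (helper1127).

`lam` is ANY linear endomorphism of `P` with `(lam e) g = e (σ⁻¹ g)`; `kap φ` is ANY model
`ι : Q ⟶ P`, injective with image `ker φ(lam)` (the shape of helper5022's junction); the
permutation operator on the functions on the double cosets `U \ G_ℚ / K` is ANY endomorphism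
`T` with `T F (U g K) = F (U σ⁻¹ g K)`; `a = ω(σ)⁻¹`, `ω` the mod `p` cyclotomic character.

* `h0_le_of_kernelModel`          (H0)  : `h⁰(Q) ≤ [φ(1) = 0]`;
* `le_h0_dualT_of_kernelModel`    (H0') : `[φ(a) = 0] ≤ h⁰(Q')`;
* `pi2_le_of_kernelModel`         (PI2) : `π₂(Q) ≤ ∑_{q ∈ S} dim ker φ(a • T_q)`;
* `dimMinus_le_of_kernelModel`    (MIN) : `dim Q^{c=-1} ≤ dim ker φ(a • T_∞)`.
-/
import Mathlib
import Fermat.Prelude.Def_GroupCohomology_ContinuousUnramified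
import Fermat.Agent.S55.helper4075_Closed
import Fermat.Agent.S56.helper2906_TateDef
import Fermat.Agent.S56.helper1127_MackeyOp

set_option autoImplicit false

namespace Fermat.Agent.S56.helper1127

open CategoryTheory groupCohomology ExtCitation Module Polynomial
open Fermat.Agent.S55

section KapInst

local notation "GQ" => (AlgebraicClosure ℚ ≃ₐ[ℚ] AlgebraicClosure ℚ)

variable {p : ℕ} [Fact p.Prime] (U : Subgroup GQ)

/-- `P = coind_U^{G_ℚ} 𝔽_p` (`= helper3071.indRep p K` for `U = K.fixingSubgroup`, by `rfl`). -/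
noncomputable abbrev coindOne : Rep.{0, 0, 0} (ZMod p) GQ :=
  Rep.coind U.subtype (Rep.trivial (ZMod p) ↥U (ZMod p))

variable (σ : GQ) (hσ : ∀ u : GQ, u ∈ U ↔ σ * u * σ⁻¹ ∈ U)
  (lam : (coindOne (p := p) U) →ₗ[ZMod p] (coindOne (p := p) U))
  (hlam : ∀ (e : coindOne (p := p) U) (g : GQ), (lam e).1 g = e.1 (σ⁻¹ * g))
  (hζ : ∀ u ∈ U, cycloChar p u = 1)
  (Q : Rep.{0, 0, 0} (ZMod p) GQ) (ι : Q ⟶ coindOne (p := p) U)
  (hι : Function.Injective ι.hom) (φ : (ZMod p)[X])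
  (hrange : ∀ e : coindOne (p := p) U, e ∈ Set.range ι.hom ↔ aeval lam φ e = 0)

include hι in
/-- A kernel model is finite-dimensional. -/
theorem finiteDimensional_of_kernelModel [U.FiniteIndex] : FiniteDimensional (ZMod p) Q := by
  have : FiniteDimensional (ZMod p) (coindOne (p := p) U) :=
    finiteDimensional_coindV U (Rep.trivial (ZMod p) ↥U (ZMod p)).ρ
  exact Module.Finite.of_injective ι.hom.toLinearMap hι

include hlam hι hrange in
/-- **(H0)** `h⁰(Q) ≤ 1`, and `h⁰(Q) = 0` unless `φ(1) = 0`. -/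
theorem h0_le_of_kernelModel_aux :
    helper2945.h0 Q ≤ 1 ∧ (φ.eval 1 ≠ 0 → helper2945.h0 Q = 0) :=
  finrank_invariants_le_of_model_aux U (Rep.trivial (ZMod p) ↥U (ZMod p)).ρ σ lam hlam Q.ρ
    ι.hom.toLinearMap hι (fun g m => Rep.hom_comm_apply ι g m) φ
    (fun m => (hrange _).1 ⟨m, rfl⟩)

include hlam hι hrange in
/-- **(H0)** `h⁰(Q) ≤ [φ(1) = 0]`. -/
theorem h0_le_of_kernelModel :
    helper2945.h0 Q ≤ if φ.eval 1 = 0 then 1 else 0 := by
  obtain ⟨h1, h2⟩ := h0_le_of_kernelModel_aux U σ lam hlam Q ι hι φ hrange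
  split_ifs with h
  · exact h1
  · exact (h2 h).le

include hσ hlam hζ hι hrange in
/-- **(H0')** If `φ ∣ X ^ n - 1` with `σ ^ n ∈ U`, `p ∤ n`, and `φ(ω(σ)⁻¹) = 0`, then
`1 ≤ h⁰(Q')`. -/
theorem one_le_h0_dualT_of_kernelModel [U.FiniteIndex] (n : ℕ) (hpn : ¬ p ∣ n)
    (hσn : σ ^ n ∈ U) (hφ : φ ∣ X ^ n - 1)
    (ha : φ.eval ((((cycloChar p σ)⁻¹ : (ZMod p)ˣ) : (ZMod p)ˣ) : ZMod p) = 0) :
    1 ≤ helper2945.h0 (helper2945.dualT Q) := by
  obtain ⟨φ', hφ'⟩ := hφ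
  have hn0 : ((n : ℕ) : ZMod p) ≠ 0 := by
    rwa [Ne, ZMod.natCast_eq_zero_iff]
  have hcop : IsCoprime φ φ' := isCoprime_of_mul_eq_X_pow_sub_one hn0 φ φ' hφ'.symm
  have hann : aeval lam (φ * φ') = 0 := by
    rw [← hφ']
    exact aeval_lam_X_pow_sub_one U (Rep.trivial (ZMod p) ↥U (ZMod p)).ρ (fun _ _ => rfl) σ lam
      hlam n hσn
  obtain ⟨ℓ, hℓ0, hℓ⟩ := exists_semiDual_ne_zero_of_model U (Rep.trivial (ZMod p) ↥U (ZMod p)).ρ
    (fun _ _ => rfl) σ hσ lam hlam (cycloChar p) hζ Q.ρ ι.hom.toLinearMap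
    (fun g m => Rep.hom_comm_apply ι g m) φ (fun f hf => (hrange f).2 hf) φ' hcop hann ha
  have := finiteDimensional_of_kernelModel U Q ι hι
  unfold helper2945.h0
  have hmem : (ℓ : Q.dualTwist (cycloChar p)) ∈ (Q.dualTwist (cycloChar p)).ρ.invariants :=
    (helper5036.mem_invariants_dualTwist_iff Q (cycloChar p) ℓ).2 hℓ
  have hpos : 0 < finrank (ZMod p) ↥((Q.dualTwist (cycloChar p)).ρ.invariants) := by
    rw [Module.finrank_pos_iff_exists_ne_zero]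
    exact ⟨⟨ℓ, hmem⟩, fun h => hℓ0 (congrArg Subtype.val h)⟩
  exact hpos

include hσ hlam hζ hι hrange in
/-- **(H0')** `[φ(a) = 0] ≤ h⁰(Q')`, `a = ω(σ)⁻¹`. -/
theorem le_h0_dualT_of_kernelModel [U.FiniteIndex] (n : ℕ) (hpn : ¬ p ∣ n)
    (hσn : σ ^ n ∈ U) (hφ : φ ∣ X ^ n - 1) :
    (if φ.eval ((((cycloChar p σ)⁻¹ : (ZMod p)ˣ) : (ZMod p)ˣ) : ZMod p) = 0 then 1 else 0) ≤
      helper2945.h0 (helper2945.dualT Q) := by
  split_ifs with h
  · exact one_le_h0_dualT_of_kernelModel U σ hσ lam hlam hζ Q ι hι φ hrange n hpn hσn hφ h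
  · exact Nat.zero_le _

include hlam hζ hι hrange in
/-- **(MIN)** `dim Q^{c=-1} ≤ dim ker φ(a • T)` on the functions on `U \ G_ℚ / K`, for any
subgroup `K ⊆ {1, c}` (e.g. the archimedean decomposition group), `a = ω(σ)⁻¹`. -/
theorem dimMinus_le_of_kernelModel [U.FiniteIndex]
    (hc : ((cycloChar p complexConjugation : (ZMod p)ˣ) : ZMod p) = -1)
    (K : Subgroup GQ) (hK : ∀ d ∈ K, d = 1 ∨ d = complexConjugation)
    (T : Module.End (ZMod p) (DoubleCoset.Quotient (U : Set GQ) (K : Set GQ) → ZMod p))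
    (hT : ∀ (F : DoubleCoset.Quotient (U : Set GQ) (K : Set GQ) → ZMod p) (g : GQ),
      T F (DoubleCoset.mk U K g) = F (DoubleCoset.mk U K (σ⁻¹ * g))) :
    helper2906.dimMinus Q ≤
      finrank (ZMod p) ↥(LinearMap.ker
        (aeval ((((cycloChar p σ)⁻¹ : (ZMod p)ˣ) : ZMod p) • T) φ)) := by
  unfold helper2906.dimMinus
  refine finrank_le_kd_of_eigen_of_model U (Rep.trivial (ZMod p) ↥U (ZMod p)).ρ (fun _ _ => rfl)
    σ lam hlam (cycloChar p) hζ Q.ρ ι.hom.toLinearMap hι (fun g m => Rep.hom_comm_apply ι g m) φ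
    (fun m => (hrange _).1 ⟨m, rfl⟩) K (LinearMap.ker (Q.ρ complexConjugation + 1))
    (fun m hm d hd => ?_) T hT
  rcases hK d hd with rfl | rfl
  · rw [map_one, map_one, Units.val_one, one_smul, Module.End.one_apply]
  · rw [LinearMap.mem_ker, LinearMap.add_apply, Module.End.one_apply] at hm
    rw [hc, eq_neg_of_add_eq_zero_left hm]
    exact (neg_one_smul (ZMod p) (m : Q)).symm

include hσ hlam hζ hι hrange in
/-- **(PI2), one prime.** `dim H²(ℚ_q, Q) ≤ dim ker φ(a • T)` on the functions on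
`U \ G_ℚ / K`, for any subgroup `K` of the decomposition group `r_q(G_{ℚ_q})`. -/
theorem finrank_continuousH2_le_of_kernelModel [U.FiniteIndex] (hp2 : p ≠ 2)
    (hsm : ∀ m : Q, ∃ F : IntermediateField ℚ (AlgebraicClosure ℚ), FiniteDimensional ℚ F ∧
      ∀ s ∈ F.fixingSubgroup, Q.ρ s m = m)
    (n : ℕ) (hpn : ¬ p ∣ n) (hσn : σ ^ n ∈ U) (hφ : φ ∣ X ^ n - 1)
    (q : Nat.Primes) (K : Subgroup GQ) (hK : K ≤ (primeLocalToGlobal q).range)
    (T : Module.End (ZMod p) (DoubleCoset.Quotient (U : Set GQ) (K : Set GQ) → ZMod p))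
    (hT : ∀ (F : DoubleCoset.Quotient (U : Set GQ) (K : Set GQ) → ZMod p) (g : GQ),
      T F (DoubleCoset.mk U K g) = F (DoubleCoset.mk U K (σ⁻¹ * g))) :
    finrank (ZMod p) (continuousH2 (primeLocalToGlobal q) (Rep.res (primeLocalToGlobal q) Q)) ≤
      finrank (ZMod p) ↥(LinearMap.ker
        (aeval ((((cycloChar p σ)⁻¹ : (ZMod p)ˣ) : ZMod p) • T) φ)) := by
  obtain ⟨φ', hφ'⟩ := hφ
  have hn0 : ((n : ℕ) : ZMod p) ≠ 0 := by
    rwa [Ne, ZMod.natCast_eq_zero_iff]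
  have hcop : IsCoprime φ φ' := isCoprime_of_mul_eq_X_pow_sub_one hn0 φ φ' hφ'.symm
  have hann : aeval lam (φ * φ') = 0 := by
    rw [← hφ']
    exact aeval_lam_X_pow_sub_one U (Rep.trivial (ZMod p) ↥U (ZMod p)).ρ (fun _ _ => rfl) σ lam
      hlam n hσn
  obtain ⟨h0, h1, h2⟩ := helper4075.stmt_LocalL2 p hp2
  obtain ⟨inv, hinv⟩ := h0 q
  have := finiteDimensional_of_kernelModel U Q ι hι
  have hisL2 := helper665.isL2_res h1 h2 q hinv.1 Q hsm
  obtain ⟨-, hrk⟩ := helper665.finrank_continuousH2_eq_of_isL2 _ hisL2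
  rw [hrk]
  refine finrank_le_kd_of_semiDual_of_model U (Rep.trivial (ZMod p) ↥U (ZMod p)).ρ
    (fun _ _ => rfl) σ hσ lam hlam (cycloChar p) hζ Q.ρ ι.hom.toLinearMap hι
    (fun g m => Rep.hom_comm_apply ι g m) φ (fun m => (hrange _).1 ⟨m, rfl⟩)
    (fun f hf => (hrange f).2 hf) K
    (helper5036.invariantToLin (Rep.res (primeLocalToGlobal q) Q) (helper665.chiLoc p q))
    Subtype.val_injective (fun w d hd m => ?_) φ' hcop hann T hT
  obtain ⟨d', rfl⟩ := hK hd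
  exact helper5036.invariantToLin_equivariant _ _ w d' m

include hσ hlam hζ hι hrange in
/-- **(PI2)** `π₂(Q) ≤ ∑_{q ∈ S} dim ker φ(a • T_q)`, `T_q` the permutation operator on the
functions on `U \ G_ℚ / K_q`, `K_q` any subgroup of the decomposition group at `q`. -/
theorem pi2_le_of_kernelModel [U.FiniteIndex] (hp2 : p ≠ 2) (S : Finset Nat.Primes)
    (hsm : ∀ m : Q, ∃ F : IntermediateField ℚ (AlgebraicClosure ℚ), FiniteDimensional ℚ F ∧
      ∀ s ∈ F.fixingSubgroup, Q.ρ s m = m)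
    (n : ℕ) (hpn : ¬ p ∣ n) (hσn : σ ^ n ∈ U) (hφ : φ ∣ X ^ n - 1)
    (K : Nat.Primes → Subgroup GQ) (hK : ∀ q, K q ≤ (primeLocalToGlobal q).range)
    (T : ∀ q : Nat.Primes,
      Module.End (ZMod p) (DoubleCoset.Quotient (U : Set GQ) (K q : Set GQ) → ZMod p))
    (hT : ∀ (q : Nat.Primes) (F : DoubleCoset.Quotient (U : Set GQ) (K q : Set GQ) → ZMod p)
      (g : GQ), T q F (DoubleCoset.mk U (K q) g) = F (DoubleCoset.mk U (K q) (σ⁻¹ * g))) :
    helper2945.pi2 S Q ≤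
      ∑ q ∈ S, finrank (ZMod p) ↥(LinearMap.ker
        (aeval ((((cycloChar p σ)⁻¹ : (ZMod p)ˣ) : ZMod p) • T q) φ)) := by
  unfold helper2945.pi2
  exact Finset.sum_le_sum fun q _ =>
    finrank_continuousH2_le_of_kernelModel U σ hσ lam hlam hζ Q ι hι φ hrange hp2 hsm n hpn hσn
      hφ q (K q) (hK q) (T q) (hT q)

end KapInst

end Fermat.Agent.S56.helper1127
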