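/-
S56 (Taylor–Wiles primes), global chain, step T3 (glue) of the Tate Euler-characteristic route.
Author: helper2906.

Tate's defect `tateDef S` (see `helper2906_TateDef`) transported to a FINITE quotient `π : G_ℚ ↠ G`
through which an `S`-field `K` acts: `tateFun S π A := tateDef S (Rep.res π A)` is an
iso-invariant function on `Rep (ZMod p) G`, additive on short exact sequences of
finite-dimensional modules (the input surface of modular Artin induction, T2), and every
`S`-module trivialised by `ker π` is the inflation of a finite-dimensional `G`-module.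

Hypothesis-passing over the S55 soft Props (through `tateDef_add`).
-/
import Mathlib
import Fermat.Agent.S56.helper2906_TateDef

set_option autoImplicit false

namespace Fermat.Agent.S56.helper2906

open CategoryTheory Module ExtCitation
open Fermat.Agent.S55.helper2945

variable {p : ℕ} [Fact p.Prime] {G : Type} [Group G] (π : GQ →* G)

/-- A finite-dimensional `G_ℚ`-module on which the fixing subgroup of a field `K` unramified
outside `S` acts trivially is an `S`-module. -/
theorem isSMod_of_fixingSubgroup {S : Finset Nat.Primes}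
    {K : IntermediateField ℚ (AlgebraicClosure ℚ)} (hK : K.IsUnramifiedOutside S)
    (A : Rep.{0, 0, 0} (ZMod p) GQ) [FiniteDimensional (ZMod p) A]
    (hA : ∀ s ∈ K.fixingSubgroup, A.ρ s = 1) : IsSMod S A where
  finite := inferInstance
  smooth := fun m => ⟨K, hK.1, fun s hs => by rw [hA s hs]; rfl⟩
  unram := fun q hq A' hA' g hg => hA g (hK.2 q hq A' hA' hg)

/-- The inflation of a finite-dimensional `G`-module along `π : G_ℚ → G` is an `S`-module as
soon as `π` kills the fixing subgroup of a field `K` unramified outside `S`. -/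
theorem isSMod_res {S : Finset Nat.Primes} {K : IntermediateField ℚ (AlgebraicClosure ℚ)}
    (hK : K.IsUnramifiedOutside S) (hKπ : ∀ s ∈ K.fixingSubgroup, π s = 1)
    (A : Rep.{0, 0, 0} (ZMod p) G) [FiniteDimensional (ZMod p) A] :
    IsSMod S (Rep.res π A) :=
  haveI : FiniteDimensional (ZMod p) (Rep.res π A) :=
    inferInstanceAs (FiniteDimensional (ZMod p) A)
  isSMod_of_fixingSubgroup hK (Rep.res π A) fun s hs => by
    rw [Rep.coe_res_obj_ρ', hKπ s hs, map_one]

open Classical in
/-- Tate's defect as a function on `Rep (ZMod p) G` (`0` by convention on infinite-dimensional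
modules). -/
noncomputable def tateFun (S : Finset Nat.Primes) (A : Rep.{0, 0, 0} (ZMod p) G) : ℤ :=
  if FiniteDimensional (ZMod p) A then tateDef S (Rep.res π A) else 0

theorem tateFun_of_finite (S : Finset Nat.Primes) (A : Rep.{0, 0, 0} (ZMod p) G)
    [h : FiniteDimensional (ZMod p) A] : tateFun π S A = tateDef S (Rep.res π A) := by
  unfold tateFun
  rw [if_pos h]

theorem finiteDimensional_of_iso {A B : Rep.{0, 0, 0} (ZMod p) G} (e : A ≅ B)
    [FiniteDimensional (ZMod p) A] : FiniteDimensional (ZMod p) B := by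
  have hsurj : Function.Surjective e.hom.hom.toLinearMap := fun b => ⟨e.inv.hom b, by simp⟩
  exact Module.Finite.of_surjective e.hom.hom.toLinearMap hsurj

section Props

variable (hFin : Stmt_Fin) (hA : Stmt_A) (hB : Stmt_B) (hC : Stmt_C) (hL : Stmt_L2num)
  (hE : Stmt_E) (hSub : Fermat.Agent.S55.helper613.Stmt_ChiSub)
  (hLocAdd : Fermat.Agent.S55.helper613.Stmt_ChiLocAdd)

include hFin hA hB hC hL hE hSub hLocAdd

/-- Additivity of Tate's defect on short exact sequences of finite-dimensional `G_ℚ`-modules
trivialised by the fixing subgroup of a field unramified outside `S` (the class `C_U`,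
`U = G_K`, of the T2/T3 glue). -/
theorem tateDef_add_of_field (hp2 : p ≠ 2) {S : Finset Nat.Primes} (hpS : pPrime p ∈ S)
    {K : IntermediateField ℚ (AlgebraicClosure ℚ)} (hK : K.IsUnramifiedOutside S)
    (A B C : Rep.{0, 0, 0} (ZMod p) GQ) [FiniteDimensional (ZMod p) A]
    [FiniteDimensional (ZMod p) B] [FiniteDimensional (ZMod p) C]
    (tA : ∀ s ∈ K.fixingSubgroup, A.ρ s = 1) (tB : ∀ s ∈ K.fixingSubgroup, B.ρ s = 1)
    (tC : ∀ s ∈ K.fixingSubgroup, C.ρ s = 1) (i : A ⟶ B) (q : B ⟶ C)
    (hi : Function.Injective i.hom) (hq : Function.Surjective q.hom)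
    (hex : Function.Exact i.hom q.hom) :
    tateDef S B = tateDef S A + tateDef S C :=
  tateDef_add hFin hA hB hC hL hE hSub hLocAdd hp2 S hpS A B C i q
    (isSMod_of_fixingSubgroup hK A tA) (isSMod_of_fixingSubgroup hK B tB)
    (isSMod_of_fixingSubgroup hK C tC) hi hq hex

/-- `tateFun` is invariant under isomorphisms. -/
theorem tateFun_iso (hp2 : p ≠ 2) {S : Finset Nat.Primes} (hpS : pPrime p ∈ S)
    {K : IntermediateField ℚ (AlgebraicClosure ℚ)}
    (hK : K.IsUnramifiedOutside S) (hKπ : ∀ s ∈ K.fixingSubgroup, π s = 1)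
    {A B : Rep.{0, 0, 0} (ZMod p) G} (e : A ≅ B) : tateFun π S A = tateFun π S B := by
  by_cases hfin : FiniteDimensional (ZMod p) A
  · have hfinB : FiniteDimensional (ZMod p) B := finiteDimensional_of_iso e
    rw [tateFun_of_finite, tateFun_of_finite]
    exact (tateDef_iso hFin hA hB hC hL hE hSub hLocAdd hp2 S hpS _ _
      ((Rep.resFunctor π).mapIso e) (isSMod_res π hK hKπ A) (isSMod_res π hK hKπ B)).symm
  · have hfinB : ¬ FiniteDimensional (ZMod p) B := fun h => hfin (finiteDimensional_of_iso e.symm)
    unfold tateFun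
    rw [if_neg hfin, if_neg hfinB]

/-- `tateFun` is additive on short exact sequences of finite-dimensional `G`-modules. -/
theorem tateFun_exact (hp2 : p ≠ 2) {S : Finset Nat.Primes} (hpS : pPrime p ∈ S)
    {K : IntermediateField ℚ (AlgebraicClosure ℚ)}
    (hK : K.IsUnramifiedOutside S) (hKπ : ∀ s ∈ K.fixingSubgroup, π s = 1)
    (A B C : Rep.{0, 0, 0} (ZMod p) G) [FiniteDimensional (ZMod p) A]
    [FiniteDimensional (ZMod p) B] [FiniteDimensional (ZMod p) C] (i : A ⟶ B) (q : B ⟶ C)
    (hi : Function.Injective i.hom) (hq : Function.Surjective q.hom)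
    (hex : Function.Exact i.hom q.hom) :
    tateFun π S B = tateFun π S A + tateFun π S C := by
  rw [tateFun_of_finite, tateFun_of_finite, tateFun_of_finite]
  exact tateDef_add hFin hA hB hC hL hE hSub hLocAdd hp2 S hpS _ _ _
    ((Rep.resFunctor π).map i) ((Rep.resFunctor π).map q)
    (isSMod_res π hK hKπ A) (isSMod_res π hK hKπ B) (isSMod_res π hK hKπ C) hi hq hex

end Props

/-- Every `S`-module on which `ker π` acts trivially is the inflation of a finite-dimensional
`G`-module (`π` surjective). -/
theorem exists_res_iso (hπ : Function.Surjective π) (M : Rep.{0, 0, 0} (ZMod p) GQ)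
    [FiniteDimensional (ZMod p) M] (hM : ∀ s : GQ, π s = 1 → M.ρ s = 1) :
    ∃ A : Rep.{0, 0, 0} (ZMod p) G, FiniteDimensional (ZMod p) A ∧ Nonempty (Rep.res π A ≅ M) := by
  have hcong : ∀ a b : GQ, π a = π b → M.ρ a = M.ρ b := by
    intro a b hab
    have h1 : π (a⁻¹ * b) = 1 := by rw [map_mul, map_inv, hab, inv_mul_cancel]
    have h2 : M.ρ b = M.ρ a * M.ρ (a⁻¹ * b) := by rw [← map_mul, mul_inv_cancel_left]
    rw [h2, hM _ h1, mul_one]
  have hinv : ∀ g : G, π (Function.surjInv hπ g) = g := Function.surjInv_eq hπ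
  let ρ' : Representation (ZMod p) G M :=
    { toFun := fun g => M.ρ (Function.surjInv hπ g)
      map_one' := by
        rw [hcong (Function.surjInv hπ 1) 1 (by rw [hinv, map_one]), map_one]
      map_mul' := fun g h => by
        rw [← map_mul]
        exact hcong _ _ (by rw [hinv, map_mul, hinv, hinv]) }
  have hρ' : ∀ s : GQ, ρ' (π s) = M.ρ s := fun s => hcong _ _ (hinv (π s))
  refine ⟨Rep.of ρ', inferInstanceAs (FiniteDimensional (ZMod p) M), ⟨?_⟩⟩
  exact Rep.mkIso (ρ := ρ'.comp π) (σ := M.ρ)
    (Representation.Equiv.mk' ⟨LinearMap.id, fun g => by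
      ext v
      simp [hρ' g]⟩ (fun v => v) (fun _ => rfl) (fun _ => rfl))

end Fermat.Agent.S56.helper2906
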