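/-
S56 global chain: ONE-HYPOTHESIS forms of the S55 → S56 interface.  Author: helper2906.

Every theorem here takes the single hypothesis `h : Fermat.Agent.S55.helper2945.Frontier` (the
open frontier of S55, a structure of closed Props) instead of the eight separate S55 Props of
`helper2906_GreenbergWiles` / `helper2906_ChiAdd` / `helper2906_TateDef`; the day S55 closes,
each of them closes by one application.

* `greenbergWiles_pi_of_frontier`  : Greenberg–Wiles EQUALITY for a family of local conditions.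
* `greenbergWiles_of_frontier`     : the same for an arbitrary subspace of `∏ H¹(ℚ_q, M)`.
* `mem_range_resTotal_dualT_of_frontier` : middle exactness of Poitou–Tate.
* `eStar_eq_of_frontier`, `chi_add_of_frontier` : `χ + χ' = ∑ χ_q`, additivity of `χ(G_S, -)`.
* `tateDef_add_of_frontier`, `tateDef_iso_of_frontier`, `tateDef_of_bijective_of_frontier`,
  `tateDef_of_subsingleton_of_frontier` : Tate's defect is an additive invariant.
* `tateDef_add_of_field_of_frontier` : additivity on the class of modules trivialised by `G_K`.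
* `finrank_selmer_le_of_frontier` : the Selmer bound in the `ℕ`-form consumed by the count
  (Greenberg–Wiles + Tate's inequality for `M'`).
-/
import Mathlib
import Fermat.Agent.S55.helper2945_Integration
import Fermat.Agent.S55.helper2906_GreenbergWiles
import Fermat.Agent.S56.helper2906_TateDef
import Fermat.Agent.S56.helper2906_TateInfl

set_option autoImplicit false

namespace Fermat.Agent.S56.helper2906

open CategoryTheory Module groupCohomology ExtCitation
open Fermat.Agent.S55 Fermat.Agent.S55.helper2945 Fermat.Agent.S55.helper15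
open Fermat.Agent.S55.helper2906 Fermat.Agent.S56.helper2906

variable (h : Frontier) {p : ℕ} [Fact p.Prime]

include h

/-- Greenberg–Wiles equality for a family of local conditions (one-hypothesis form). -/
theorem greenbergWiles_pi_of_frontier (hp2 : p ≠ 2)
    (S : Finset Nat.Primes) (hpS : pPrime p ∈ S) (M : Rep.{0, 0, 0} (ZMod p) GQ)
    (hM : IsSMod S M) (Lq : ∀ q : ↥S, Submodule (ZMod p) (LocH1 M q.1)) :
    finrank (ZMod p) ↥(selmer S M (Submodule.pi Set.univ Lq)) + h1 S (dualT M) + pi0 S M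
      = finrank (ZMod p) ↥(selmer S (dualT M)
          (Submodule.pi Set.univ fun q => dualCond (isSmoothS_of_isSMod hpS hM) q (Lq q)))
        + h0 M + h2 S (dualT M) + ∑ q : ↥S, finrank (ZMod p) ↥(Lq q) :=
  helper2906.greenbergWiles_pi h.stmt_Fin h.stmt_A h.stmt_B h.stmt_C stmt_L2num h.stmt_E
    h.stmt_R localL2 hp2 S hpS M hM Lq

/-- Greenberg–Wiles equality for an arbitrary subspace of the product of the local `H¹`. -/
theorem greenbergWiles_of_frontier (hp2 : p ≠ 2)
    (S : Finset Nat.Primes) (hpS : pPrime p ∈ S) (M : Rep.{0, 0, 0} (ZMod p) GQ)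
    (hM : IsSMod S M) (inv : ∀ q : ↥S, LocH2 (muRep p) q.1 →ₗ[ZMod p] ZMod p)
    (hinj : ∀ q, Function.Injective (inv q))
    (hsum : ∀ z : continuousH2S S (muRep p),
      ∑ q : ↥S, inv q (locRes₂S S (muRep p) (primeLocalToGlobal q.1) z) = 0)
    (L : Submodule (ZMod p) (∀ q : ↥S, LocH1 M q.1)) :
    finrank (ZMod p) ↥(selmer S M L) + h1 S (dualT M) + pi0 S M
      = finrank (ZMod p) ↥(selmer S (dualT M) (perpTotal (isSmoothS_of_isSMod hpS hM) inv L))
        + h0 M + h2 S (dualT M) + finrank (ZMod p) ↥L :=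
  helper2906.greenbergWiles h.stmt_Fin h.stmt_A h.stmt_B h.stmt_C stmt_L2num h.stmt_E
    localL2 hp2 S hpS M hM inv hinj hsum L

/-- Middle exactness of Poitou–Tate (one-hypothesis form). -/
theorem mem_range_resTotal_dualT_of_frontier (hp2 : p ≠ 2)
    (S : Finset Nat.Primes) (hpS : pPrime p ∈ S) (M : Rep.{0, 0, 0} (ZMod p) GQ)
    (hM : IsSMod S M) (inv : ∀ q : ↥S, LocH2 (muRep p) q.1 →ₗ[ZMod p] ZMod p)
    (hinj : ∀ q, Function.Injective (inv q))
    (hsum : ∀ z : continuousH2S S (muRep p),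
      ∑ q : ↥S, inv q (locRes₂S S (muRep p) (primeLocalToGlobal q.1) z) = 0)
    (y : ∀ q : ↥S, LocH1 (dualT M) q.1)
    (hy : ∀ x : ↥(continuousH1S S M),
      ∑ q : ↥S, locPair (isSmoothS_of_isSMod hpS hM) inv q (y q) (resTotal S M x q) = 0) :
    y ∈ LinearMap.range (resTotal S (dualT M)) :=
  helper2906.mem_range_resTotal_dualT h.stmt_Fin h.stmt_A h.stmt_B h.stmt_C stmt_L2num
    h.stmt_E localL2 hp2 S hpS M hM inv hinj hsum y hy

/-- `χ(G_S, M) + χ(G_S, M') = ∑_q χ_q(M)` in `ℕ`-form. -/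
theorem eStar_eq_of_frontier (hp2 : p ≠ 2) (S : Finset Nat.Primes)
    (hpS : pPrime p ∈ S) (M : Rep.{0, 0, 0} (ZMod p) GQ) (hM : IsSMod S M) :
    h0 M + h2 S M + h0 (dualT M) + h2 S (dualT M) + pi1 S M =
      h1 S M + h1 S (dualT M) + pi0 S M + pi2 S M :=
  helper2906.eStar_eq h.stmt_Fin h.stmt_A h.stmt_B h.stmt_C stmt_L2num h.stmt_E hp2 S hpS M hM

/-- Additivity of the global truncated Euler characteristic. -/
theorem chi_add_of_frontier (hp2 : p ≠ 2) (S : Finset Nat.Primes) (hpS : pPrime p ∈ S)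
    (A B C : Rep.{0, 0, 0} (ZMod p) GQ) (f : A ⟶ B) (g : B ⟶ C)
    (sA : IsSMod S A) (sB : IsSMod S B) (sC : IsSMod S C)
    (hf : Function.Injective f.hom) (hg : Function.Surjective g.hom)
    (hex : Function.Exact f.hom g.hom) :
    h0 B + h1 S A + h1 S C + h2 S B = h0 A + h0 C + h1 S B + h2 S A + h2 S C :=
  helper2906.chi_add h.stmt_Fin h.stmt_A h.stmt_B h.stmt_C stmt_L2num h.stmt_E
    (helper613.stmt_ChiSub_of h.stmt_Fin) (helper5215.stmt_ChiLocAdd_of_local localL2)
    hp2 S hpS A B C f g sA sB sC hf hg hex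

/-- Additivity of Tate's defect on short exact sequences of `S`-modules. -/
theorem tateDef_add_of_frontier (hp2 : p ≠ 2) (S : Finset Nat.Primes) (hpS : pPrime p ∈ S)
    (A B C : Rep.{0, 0, 0} (ZMod p) GQ) (f : A ⟶ B) (g : B ⟶ C)
    (sA : IsSMod S A) (sB : IsSMod S B) (sC : IsSMod S C)
    (hf : Function.Injective f.hom) (hg : Function.Surjective g.hom)
    (hex : Function.Exact f.hom g.hom) :
    tateDef S B = tateDef S A + tateDef S C :=
  Fermat.Agent.S56.helper2906.tateDef_add h.stmt_Fin h.stmt_A h.stmt_B h.stmt_C stmt_L2num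
    h.stmt_E (helper613.stmt_ChiSub_of h.stmt_Fin) (helper5215.stmt_ChiLocAdd_of_local localL2)
    hp2 S hpS A B C f g sA sB sC hf hg hex

/-- Tate's defect vanishes on a module with one element. -/
theorem tateDef_of_subsingleton_of_frontier (hp2 : p ≠ 2) (S : Finset Nat.Primes) (hpS : pPrime p ∈ S)
    (Z : Rep.{0, 0, 0} (ZMod p) GQ) (sZ : IsSMod S Z) [Subsingleton Z] :
    tateDef S Z = 0 :=
  Fermat.Agent.S56.helper2906.tateDef_of_subsingleton h.stmt_Fin h.stmt_A h.stmt_B h.stmt_C
    stmt_L2num h.stmt_E (helper613.stmt_ChiSub_of h.stmt_Fin)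
    (helper5215.stmt_ChiLocAdd_of_local localL2) hp2 S hpS Z sZ

/-- Tate's defect is invariant under bijective morphisms of `S`-modules. -/
theorem tateDef_of_bijective_of_frontier (hp2 : p ≠ 2) (S : Finset Nat.Primes) (hpS : pPrime p ∈ S)
    (A B : Rep.{0, 0, 0} (ZMod p) GQ) (f : A ⟶ B) (sA : IsSMod S A) (sB : IsSMod S B)
    (hf : Function.Bijective f.hom) :
    tateDef S B = tateDef S A :=
  Fermat.Agent.S56.helper2906.tateDef_of_bijective h.stmt_Fin h.stmt_A h.stmt_B h.stmt_C
    stmt_L2num h.stmt_E (helper613.stmt_ChiSub_of h.stmt_Fin)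
    (helper5215.stmt_ChiLocAdd_of_local localL2) hp2 S hpS A B f sA sB hf

/-- Tate's defect is invariant under isomorphisms of `S`-modules. -/
theorem tateDef_iso_of_frontier (hp2 : p ≠ 2) (S : Finset Nat.Primes) (hpS : pPrime p ∈ S)
    (A B : Rep.{0, 0, 0} (ZMod p) GQ) (e : A ≅ B) (sA : IsSMod S A) (sB : IsSMod S B) :
    tateDef S B = tateDef S A :=
  Fermat.Agent.S56.helper2906.tateDef_iso h.stmt_Fin h.stmt_A h.stmt_B h.stmt_C stmt_L2num
    h.stmt_E (helper613.stmt_ChiSub_of h.stmt_Fin) (helper5215.stmt_ChiLocAdd_of_local localL2)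
    hp2 S hpS A B e sA sB

/-- Additivity of Tate's defect on short exact sequences of finite-dimensional `G_ℚ`-modules
trivialised by `G_K`, `K` unramified outside `S` (the hypothesis `hses` of the T2/T3 glue for
`E = tateDef S`, `U = K.fixingSubgroup`). -/
theorem tateDef_add_of_field_of_frontier (hp2 : p ≠ 2) {S : Finset Nat.Primes}
    (hpS : pPrime p ∈ S) {K : IntermediateField ℚ (AlgebraicClosure ℚ)}
    (hK : K.IsUnramifiedOutside S)
    (A B C : Rep.{0, 0, 0} (ZMod p) GQ) [FiniteDimensional (ZMod p) A]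
    [FiniteDimensional (ZMod p) B] [FiniteDimensional (ZMod p) C]
    (tA : ∀ s ∈ K.fixingSubgroup, A.ρ s = 1) (tB : ∀ s ∈ K.fixingSubgroup, B.ρ s = 1)
    (tC : ∀ s ∈ K.fixingSubgroup, C.ρ s = 1) (i : A ⟶ B) (q : B ⟶ C)
    (hi : Function.Injective i.hom) (hq : Function.Surjective q.hom)
    (hex : Function.Exact i.hom q.hom) :
    tateDef S B = tateDef S A + tateDef S C :=
  tateDef_add_of_field h.stmt_Fin h.stmt_A h.stmt_B h.stmt_C stmt_L2num h.stmt_E
    (helper613.stmt_ChiSub_of h.stmt_Fin) (helper5215.stmt_ChiLocAdd_of_local localL2)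
    hp2 hpS hK A B C tA tB tC i q hi hq hex

/-- **Selmer bound** (the `ℕ`-form the count consumes): Greenberg–Wiles together with Tate's
inequality for `M' = dualT M` gives
`dim Sel_L(M) + π₀(M) + dim (M')^{c=-1} + h⁰(M') ≤ dim Sel_{L^⊥}(M') + h⁰(M) + ∑_q dim L_q`. -/
theorem finrank_selmer_le_of_frontier (hp2 : p ≠ 2)
    (S : Finset Nat.Primes) (hpS : pPrime p ∈ S) (M : Rep.{0, 0, 0} (ZMod p) GQ)
    (hM : IsSMod S M) (Lq : ∀ q : ↥S, Submodule (ZMod p) (LocH1 M q.1))
    (hTate : tateDef S (dualT M) ≤ 0) :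
    finrank (ZMod p) ↥(selmer S M (Submodule.pi Set.univ Lq)) + pi0 S M + dimMinus (dualT M)
        + h0 (dualT M)
      ≤ finrank (ZMod p) ↥(selmer S (dualT M)
          (Submodule.pi Set.univ fun q => dualCond (isSmoothS_of_isSMod hpS hM) q (Lq q)))
        + h0 M + ∑ q : ↥S, finrank (ZMod p) ↥(Lq q) := by
  have h1 := greenbergWiles_pi_of_frontier h hp2 S hpS M hM Lq
  have h2 := (tateDef_nonpos_iff S (dualT M)).1 hTate
  omega

end Fermat.Agent.S56.helper2906
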