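/-
S56 (Taylor–Wiles primes), Tate chain, leaf TATE-T1-C2.  Author: helper5075.

Tate's global Euler characteristic formula for the induced module `A_F = coind_{G_F}^{G_ℚ} 𝔽_p`
of an `S`-field `F ∋ ζ_p`, on the frozen carriers, as a SOFT consequence of the S55 package
(no class group, no units, no field-level `H¹` formula):

* `cycloChar_complexConjugation` : `cycloChar p c = -1`.
* `dimMinus_eq_of_iso`           : `dimMinus` is invariant under isomorphisms.
* `dimMinus_dualT_add`           : `dimMinus M' + dimMinus M = dim M` (`p` odd, `M' = dualT M`;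
                                   `c` acts on `M'` as minus the transpose).
* `tateDef_add_dualT`            : `tateDef M + tateDef M' = π₀ + π₂ + dim M - π₁`
                                   (the equality `χ + χ' = ∑ χ_q` of `helper2906`).
* `tateDef_indRep`               : `tateDef S A_F = 0`.
* `tateDef_indRep_nonneg`        : `0 ≤ tateDef S A_F` (the leaf (C2) of the T1 squeeze).

Proof of `tateDef_indRep`: `A_F' ≅ A_F` (`helper1610.indRepDualIso`), so the numerals of `A_F'`
are those of `A_F`; `π₂(A_F) = π₂(A_F') = π₀(A_F) = s` (`stmt_L2num`, `helper1610.pi0_indRep`),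
`π₁(A_F) = 2 s + [F:ℚ]` (`helper1610.pi1_indRep`), `[F:ℚ] = dim A_F = 2 dimMinus A_F`.
-/
import Mathlib
import Fermat.Agent.S56.helper2906_GlobalFrontier
import Fermat.Agent.S55.helper9763_IsoNumerals
import Fermat.Agent.S55.helper1610_LocalCount
import Fermat.Agent.S55.helper1702_FinTop
import Fermat.Agent.S55.helper1408_DualTwist

set_option autoImplicit false

namespace Fermat.Agent.S56.helper5075

open CategoryTheory Module ExtCitation
open Fermat.Agent.S55 Fermat.Agent.S55.helper2945 Fermat.Agent.S56.helper2906

section LinAlg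

variable {k : Type*} [Field k] {V : Type*} [AddCommGroup V] [Module k V]

/-- For an involution `T` in characteristic `≠ 2`: `ker (T + 1) = range (T - 1)`. -/
theorem ker_add_one_eq_range_sub_one (h2 : (2 : k) ≠ 0) (T : V →ₗ[k] V)
    (hT : ∀ v, T (T v) = v) :
    LinearMap.ker (T + 1) = LinearMap.range (T - 1) := by
  ext x
  simp only [LinearMap.mem_ker, LinearMap.mem_range, LinearMap.add_apply, LinearMap.sub_apply,
    Module.End.one_apply]
  constructor
  · intro hx
    have h1 : T x = -x := eq_neg_of_add_eq_zero_left hx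
    refine ⟨-((2 : k)⁻¹ • x), ?_⟩
    rw [map_neg, map_smul, h1, smul_neg, neg_neg, sub_neg_eq_add, ← two_smul k ((2 : k)⁻¹ • x),
      smul_smul, mul_inv_cancel₀ h2, one_smul]
  · rintro ⟨y, rfl⟩
    rw [map_sub, hT]
    abel

/-- For an involution `T` in characteristic `≠ 2`: `dim ker (T + 1) + dim ker (T - 1) = dim V`. -/
theorem finrank_ker_add_one_add_finrank_ker_sub_one [FiniteDimensional k V] (h2 : (2 : k) ≠ 0)
    (T : V →ₗ[k] V) (hT : ∀ v, T (T v) = v) :
    finrank k (LinearMap.ker (T + 1)) + finrank k (LinearMap.ker (T - 1)) = finrank k V := by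
  rw [ker_add_one_eq_range_sub_one h2 T hT]
  exact LinearMap.finrank_range_add_finrank_ker (T - 1)

/-- `dim ker (T - 1)ᵗ = dim ker (T - 1)`. -/
theorem finrank_ker_dualMap_eq [FiniteDimensional k V] (f : V →ₗ[k] V) :
    finrank k (LinearMap.ker f.dualMap) = finrank k (LinearMap.ker f) := by
  have h1 := LinearMap.finrank_range_add_finrank_ker f.dualMap
  have h2 := LinearMap.finrank_range_add_finrank_ker f
  have h3 := LinearMap.finrank_range_dualMap_eq_finrank_range f
  have h4 : finrank k (Module.Dual k V) = finrank k V := Subspace.dual_finrank_eq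
  omega

end LinAlg

section Rep

variable {p : ℕ} [Fact p.Prime]

/-- Complex conjugation inverts the roots of unity of `ℚ̄`. -/
theorem complexConjugation_apply_of_pow_eq_one {ζ : AlgebraicClosure ℚ} {m : ℕ} (hm : m ≠ 0)
    (hζ : ζ ^ m = 1) : complexConjugation ζ = ζ⁻¹ := by
  apply (complexEmbedding : AlgebraicClosure ℚ →+* ℂ).injective
  show complexEmbedding (complexConjugation ζ) = complexEmbedding ζ⁻¹
  rw [complexEmbedding_complexConjugation, map_inv₀]
  have h1 : complexEmbedding ζ ^ m = 1 := by rw [← map_pow, hζ, map_one]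
  exact (Complex.inv_eq_conj (Complex.norm_eq_one_of_pow_eq_one h1 hm)).symm

variable (p) in
/-- The mod `p` cyclotomic character takes the value `-1` at complex conjugation. -/
theorem cycloChar_complexConjugation :
    ((cycloChar p complexConjugation : (ZMod p)ˣ) : ZMod p) = -1 := by
  have hp : p.Prime := Fact.out
  obtain ⟨ζ, hζ⟩ := helper1408.exists_primitiveRoot_Qb p
  have h1 := helper1408.apply_primitiveRoot p complexConjugation hζ
  rw [complexConjugation_apply_of_pow_eq_one hp.ne_zero hζ.pow_eq_one] at h1
  have hζ0 : ζ ≠ 0 := hζ.ne_zero hp.ne_zero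
  have h2 : ζ ^ (cycloExp p complexConjugation + 1) = 1 := by
    rw [pow_succ, ← h1, inv_mul_cancel₀ hζ0]
  have h3 : p ∣ cycloExp p complexConjugation + 1 := hζ.dvd_of_pow_eq_one _ h2
  have h4 : ((cycloExp p complexConjugation + 1 : ℕ) : ZMod p) = 0 :=
    (ZMod.natCast_eq_zero_iff _ _).2 h3
  rw [coe_cycloChar]
  push_cast at h4
  exact eq_neg_of_add_eq_zero_left h4

/-- `dimMinus` is invariant under isomorphisms of representations. -/
theorem dimMinus_eq_of_iso {A B : Rep.{0, 0, 0} (ZMod p) GQ} (e : A ≅ B) :
    dimMinus A = dimMinus B := by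
  have hl : ∀ a : A, e.inv.hom (e.hom.hom a) = a := fun a => by simp
  have hr : ∀ b : B, e.hom.hom (e.inv.hom b) = b := fun b => by simp
  let E : A ≃ₗ[ZMod p] B :=
    { e.hom.hom.toLinearMap with
      invFun := fun b => e.inv.hom b
      left_inv := hl
      right_inv := hr }
  have hE : ∀ a : A, E a = e.hom.hom a := fun _ => rfl
  have hmap : (LinearMap.ker (A.ρ complexConjugation + 1)).map E.toLinearMap =
      LinearMap.ker (B.ρ complexConjugation + 1) := by
    ext b
    simp only [Submodule.mem_map, LinearMap.mem_ker, LinearMap.add_apply, Module.End.one_apply,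
      LinearEquiv.coe_coe]
    constructor
    · rintro ⟨a, ha, rfl⟩
      rw [hE, ← Rep.hom_comm_apply e.hom complexConjugation a, ← map_add, ha, map_zero]
    · intro hb
      refine ⟨e.inv.hom b, ?_, hr b⟩
      rw [← Rep.hom_comm_apply e.inv complexConjugation b, ← map_add, hb, map_zero]
  unfold dimMinus
  rw [← hmap]
  exact (LinearEquiv.finrank_map_eq E _).symm

/-- `(2 : 𝔽_p) ≠ 0` for `p` odd. -/
theorem two_ne_zero_zmod (hp2 : p ≠ 2) : (2 : ZMod p) ≠ 0 := by
  intro h
  have h' : ((2 : ℕ) : ZMod p) = 0 := by exact_mod_cast h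
  rw [ZMod.natCast_eq_zero_iff] at h'
  exact hp2 ((Nat.prime_dvd_prime_iff_eq (Fact.out : p.Prime) Nat.prime_two).1 h')

/-- `dimMinus M' = dim ker (ρ(c) - 1)`: complex conjugation acts on the Tate-twisted dual as
minus the transpose. -/
theorem dimMinus_dualT (M : Rep.{0, 0, 0} (ZMod p) GQ) [FiniteDimensional (ZMod p) M] :
    dimMinus (dualT M) = finrank (ZMod p) (LinearMap.ker (M.ρ complexConjugation - 1)) := by
  rw [← finrank_ker_dualMap_eq (M.ρ complexConjugation - 1)]
  unfold dimMinus
  have hker : LinearMap.ker ((dualT M).ρ complexConjugation + 1) =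
      LinearMap.ker (M.ρ complexConjugation - 1).dualMap := by
    ext φ
    simp only [LinearMap.mem_ker, LinearMap.add_apply, Module.End.one_apply]
    rw [Rep.dualTwist_ρ_apply, cycloChar_complexConjugation, complexConjugation_inv]
    constructor
    · intro h
      ext v
      have h1 := LinearMap.congr_fun h v
      simp only [LinearMap.add_apply, LinearMap.smul_apply, LinearMap.comp_apply,
        LinearMap.zero_apply, smul_eq_mul, neg_mul, one_mul] at h1
      simp only [LinearMap.dualMap_apply, LinearMap.sub_apply, Module.End.one_apply, map_sub,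
        LinearMap.zero_apply]
      linear_combination -h1
    · intro h
      ext v
      have h1 := LinearMap.congr_fun h v
      simp only [LinearMap.dualMap_apply, LinearMap.sub_apply, Module.End.one_apply, map_sub,
        LinearMap.zero_apply] at h1
      simp only [LinearMap.add_apply, LinearMap.smul_apply, LinearMap.comp_apply,
        LinearMap.zero_apply, smul_eq_mul, neg_mul, one_mul]
      linear_combination -h1
  rw [hker]

/-- **`dimMinus M' + dimMinus M = dim M`** for `p` odd (`M' = dualT M`). -/
theorem dimMinus_dualT_add (hp2 : p ≠ 2) (M : Rep.{0, 0, 0} (ZMod p) GQ)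
    [FiniteDimensional (ZMod p) M] :
    dimMinus (dualT M) + dimMinus M = finrank (ZMod p) M := by
  have h := finrank_ker_add_one_add_finrank_ker_sub_one (two_ne_zero_zmod hp2)
    (M.ρ complexConjugation) (rho_conj_conj M)
  rw [dimMinus_dualT]
  unfold dimMinus
  omega

/-- **`tateDef M + tateDef M' = π₀ + π₂ + dim M - π₁`**: the sum of the Tate defects of `M` and
its Tate-twisted dual is the defect of the local Euler characteristic formula. -/
theorem tateDef_add_dualT (h : Frontier) (hp2 : p ≠ 2) (S : Finset Nat.Primes)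
    (hpS : pPrime p ∈ S) (M : Rep.{0, 0, 0} (ZMod p) GQ) (hM : IsSMod S M) :
    tateDef S M + tateDef S (dualT M) =
      (pi0 S M : ℤ) + pi2 S M + finrank (ZMod p) M - pi1 S M := by
  have := hM.finite
  have hE := eStar_eq_of_frontier h hp2 S hpS M hM
  have hd := dimMinus_dualT_add hp2 M
  unfold tateDef
  omega

variable (p) in
/-- `dim A_F = [F:ℚ]`. -/
theorem finrank_indRep (F : IntermediateField ℚ (AlgebraicClosure ℚ)) [FiniteDimensional ℚ F] :
    finrank (ZMod p) (helper3071.indRep p F) = finrank ℚ F := by
  rw [Module.finrank_eq_nat_card_basis (helper1610.indRepBasis p F),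
    helper1610.card_quotient_fixingSubgroup]

/-- **Tate's global Euler characteristic formula for the induced module** `A_F = coind_F 𝔽_p` of
an `S`-field `F ∋ ζ_p`: `h⁰ + h² + dim A_F^{c=-1} = h¹`. -/
theorem tateDef_indRep (h : Frontier) (hp2 : p ≠ 2) (S : Finset Nat.Primes)
    (hpS : pPrime p ∈ S) (F : IntermediateField ℚ (AlgebraicClosure ℚ))
    (hF : F.IsUnramifiedOutside S) (hζ : helper3071.HasZeta p F) :
    tateDef S (helper3071.indRep p F) = 0 := by
  have : FiniteDimensional ℚ F := hF.1
  have hP : IsSMod S (helper3071.indRep p F) := helper1702.isSMod_indRep S F hF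
  have := hP.finite
  have hχ := helper1610.cycloChar_eq_one_of_hasZeta p F hζ
  have e : dualT (helper3071.indRep p F) ≅ helper3071.indRep p F :=
    helper1610.indRepDualIso p F hχ
  have hsum := tateDef_add_dualT h hp2 S hpS (helper3071.indRep p F) hP
  have k0 : h0 (dualT (helper3071.indRep p F)) = h0 (helper3071.indRep p F) :=
    helper9763.h0_eq_of_iso e
  have k1 : h1 S (dualT (helper3071.indRep p F)) = h1 S (helper3071.indRep p F) :=
    helper9763.h1_eq_of_iso S e
  have k2 : h2 S (dualT (helper3071.indRep p F)) = h2 S (helper3071.indRep p F) :=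
    helper9763.h2_eq_of_iso S e
  have kp2 : pi2 S (dualT (helper3071.indRep p F)) = pi2 S (helper3071.indRep p F) :=
    helper9763.pi2_eq_of_iso S e
  have kd : dimMinus (dualT (helper3071.indRep p F)) = dimMinus (helper3071.indRep p F) :=
    dimMinus_eq_of_iso e
  have hL := stmt_L2num hp2 S hpS (helper3071.indRep p F) hP
  have hp0 := helper1610.pi0_indRep p F S
  have hp1 := helper1610.pi1_indRep p F hχ S
  rw [if_pos hpS] at hp1
  have hr := finrank_indRep p F
  unfold tateDef at hsum ⊢
  omega

/-- **Leaf (C2) of the T1 squeeze**: `0 ≤ tateDef S (coind_F 𝔽_p)`. -/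
theorem tateDef_indRep_nonneg (h : Frontier) (hp2 : p ≠ 2) (S : Finset Nat.Primes)
    (hpS : pPrime p ∈ S) (F : IntermediateField ℚ (AlgebraicClosure ℚ))
    (hF : F.IsUnramifiedOutside S) (hζ : helper3071.HasZeta p F) :
    0 ≤ tateDef S (helper3071.indRep p F) :=
  (tateDef_indRep h hp2 S hpS F hF hζ).ge

/-- `tateDef S (coind_F 𝔽_p) = 0` in the `IsSFieldZeta` form. -/
theorem tateDef_indRep_of_isSFieldZeta (h : Frontier) (S : Finset Nat.Primes)
    (hpS : pPrime p ∈ S) (F : IntermediateField ℚ (AlgebraicClosure ℚ))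
    (hF : helper3071.IsSFieldZeta S p F) :
    tateDef S (helper3071.indRep p F) = 0 :=
  tateDef_indRep h hF.odd S hpS F hF.unram hF.zeta

end Rep

end Fermat.Agent.S56.helper5075
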