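/-
S56 global chain: the S55 → S56 interface, UNCONDITIONAL.  Author: helper2906.

S55 is closed on main (`helper4075.theFrontier : helper2945.Frontier`), so the theorems of
`helper2906_GlobalFrontier` hold without hypotheses.  Namespace
`Fermat.Agent.S56.helper2906.Closed`.

* `Closed.greenbergWiles_pi` : **Greenberg–Wiles EQUALITY** for a family of local conditions
  `Lq q ≤ H¹(ℚ_q, M)`, `q ∈ S`, with the dual conditions `dualCond`:
  `dim Sel_L(M) + h¹(G_S, M') + π₀(M) = dim Sel_{L^⊥}(M') + h⁰(M) + h²(G_S, M') + ∑_q dim L_q`.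
* `Closed.greenbergWiles`, `Closed.mem_range_resTotal_dualT` (middle exactness of Poitou–Tate).
* `Closed.eStar_eq`, `Closed.chi_add` : `χ + χ' = ∑ χ_q`; `χ(G_S, -)` is additive.
* `Closed.tateDef_add`, `Closed.tateDef_iso`, `Closed.tateDef_of_bijective`,
  `Closed.tateDef_of_subsingleton`, `Closed.tateDef_add_of_field` : Tate's defect is an
  additive invariant of `S`-modules.
* `Closed.finrank_selmer_le` : Selmer bound from Tate's inequality for `M'`.
-/
import Mathlib
import Fermat.Agent.S55.helper4075_Closed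
import Fermat.Agent.S56.helper2906_GlobalFrontier

set_option autoImplicit false

namespace Fermat.Agent.S56.helper2906.Closed

open CategoryTheory Module groupCohomology ExtCitation
open Fermat.Agent.S55 Fermat.Agent.S55.helper2945 Fermat.Agent.S55.helper15
open Fermat.Agent.S55.helper2906 Fermat.Agent.S56.helper2906

variable {p : ℕ} [Fact p.Prime]

/-- **Greenberg–Wiles equality** for a family of local conditions (unconditional). -/
theorem greenbergWiles_pi (hp2 : p ≠ 2)
    (S : Finset Nat.Primes) (hpS : pPrime p ∈ S) (M : Rep.{0, 0, 0} (ZMod p) GQ)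
    (hM : IsSMod S M) (Lq : ∀ q : ↥S, Submodule (ZMod p) (LocH1 M q.1)) :
    finrank (ZMod p) ↥(selmer S M (Submodule.pi Set.univ Lq)) + h1 S (dualT M) + pi0 S M
      = finrank (ZMod p) ↥(selmer S (dualT M)
          (Submodule.pi Set.univ fun q => dualCond (isSmoothS_of_isSMod hpS hM) q (Lq q)))
        + h0 M + h2 S (dualT M) + ∑ q : ↥S, finrank (ZMod p) ↥(Lq q) :=
  greenbergWiles_pi_of_frontier helper4075.theFrontier hp2 S hpS M hM Lq

/-- Greenberg–Wiles equality for an arbitrary subspace of the product of the local `H¹`. -/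
theorem greenbergWiles (hp2 : p ≠ 2)
    (S : Finset Nat.Primes) (hpS : pPrime p ∈ S) (M : Rep.{0, 0, 0} (ZMod p) GQ)
    (hM : IsSMod S M) (inv : ∀ q : ↥S, LocH2 (muRep p) q.1 →ₗ[ZMod p] ZMod p)
    (hinj : ∀ q, Function.Injective (inv q))
    (hsum : ∀ z : continuousH2S S (muRep p),
      ∑ q : ↥S, inv q (locRes₂S S (muRep p) (primeLocalToGlobal q.1) z) = 0)
    (L : Submodule (ZMod p) (∀ q : ↥S, LocH1 M q.1)) :
    finrank (ZMod p) ↥(selmer S M L) + h1 S (dualT M) + pi0 S M
      = finrank (ZMod p) ↥(selmer S (dualT M) (perpTotal (isSmoothS_of_isSMod hpS hM) inv L))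
        + h0 M + h2 S (dualT M) + finrank (ZMod p) ↥L :=
  greenbergWiles_of_frontier helper4075.theFrontier hp2 S hpS M hM inv hinj hsum L

/-- Middle exactness of Poitou–Tate. -/
theorem mem_range_resTotal_dualT (hp2 : p ≠ 2)
    (S : Finset Nat.Primes) (hpS : pPrime p ∈ S) (M : Rep.{0, 0, 0} (ZMod p) GQ)
    (hM : IsSMod S M) (inv : ∀ q : ↥S, LocH2 (muRep p) q.1 →ₗ[ZMod p] ZMod p)
    (hinj : ∀ q, Function.Injective (inv q))
    (hsum : ∀ z : continuousH2S S (muRep p),
      ∑ q : ↥S, inv q (locRes₂S S (muRep p) (primeLocalToGlobal q.1) z) = 0)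
    (y : ∀ q : ↥S, LocH1 (dualT M) q.1)
    (hy : ∀ x : ↥(continuousH1S S M),
      ∑ q : ↥S, locPair (isSmoothS_of_isSMod hpS hM) inv q (y q) (resTotal S M x q) = 0) :
    y ∈ LinearMap.range (resTotal S (dualT M)) :=
  mem_range_resTotal_dualT_of_frontier helper4075.theFrontier hp2 S hpS M hM inv hinj hsum y hy

/-- `χ(G_S, M) + χ(G_S, M') = ∑_q χ_q(M)` in `ℕ`-form. -/
theorem eStar_eq (hp2 : p ≠ 2) (S : Finset Nat.Primes)
    (hpS : pPrime p ∈ S) (M : Rep.{0, 0, 0} (ZMod p) GQ) (hM : IsSMod S M) :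
    h0 M + h2 S M + h0 (dualT M) + h2 S (dualT M) + pi1 S M =
      h1 S M + h1 S (dualT M) + pi0 S M + pi2 S M :=
  eStar_eq_of_frontier helper4075.theFrontier hp2 S hpS M hM

/-- **Additivity of the global truncated Euler characteristic** (`cd_p(G_S) ≤ 2`). -/
theorem chi_add (hp2 : p ≠ 2) (S : Finset Nat.Primes) (hpS : pPrime p ∈ S)
    (A B C : Rep.{0, 0, 0} (ZMod p) GQ) (f : A ⟶ B) (g : B ⟶ C)
    (sA : IsSMod S A) (sB : IsSMod S B) (sC : IsSMod S C)
    (hf : Function.Injective f.hom) (hg : Function.Surjective g.hom)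
    (hex : Function.Exact f.hom g.hom) :
    h0 B + h1 S A + h1 S C + h2 S B = h0 A + h0 C + h1 S B + h2 S A + h2 S C :=
  chi_add_of_frontier helper4075.theFrontier hp2 S hpS A B C f g sA sB sC hf hg hex

/-- **Additivity of Tate's defect** on short exact sequences of `S`-modules. -/
theorem tateDef_add (hp2 : p ≠ 2) (S : Finset Nat.Primes) (hpS : pPrime p ∈ S)
    (A B C : Rep.{0, 0, 0} (ZMod p) GQ) (f : A ⟶ B) (g : B ⟶ C)
    (sA : IsSMod S A) (sB : IsSMod S B) (sC : IsSMod S C)
    (hf : Function.Injective f.hom) (hg : Function.Surjective g.hom)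
    (hex : Function.Exact f.hom g.hom) :
    tateDef S B = tateDef S A + tateDef S C :=
  tateDef_add_of_frontier helper4075.theFrontier hp2 S hpS A B C f g sA sB sC hf hg hex

/-- Tate's defect vanishes on a module with one element. -/
theorem tateDef_of_subsingleton (hp2 : p ≠ 2) (S : Finset Nat.Primes) (hpS : pPrime p ∈ S)
    (Z : Rep.{0, 0, 0} (ZMod p) GQ) (sZ : IsSMod S Z) [Subsingleton Z] :
    tateDef S Z = 0 :=
  tateDef_of_subsingleton_of_frontier helper4075.theFrontier hp2 S hpS Z sZ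

/-- Tate's defect is invariant under bijective morphisms of `S`-modules. -/
theorem tateDef_of_bijective (hp2 : p ≠ 2) (S : Finset Nat.Primes) (hpS : pPrime p ∈ S)
    (A B : Rep.{0, 0, 0} (ZMod p) GQ) (f : A ⟶ B) (sA : IsSMod S A) (sB : IsSMod S B)
    (hf : Function.Bijective f.hom) :
    tateDef S B = tateDef S A :=
  tateDef_of_bijective_of_frontier helper4075.theFrontier hp2 S hpS A B f sA sB hf

/-- Tate's defect is invariant under isomorphisms of `S`-modules. -/
theorem tateDef_iso (hp2 : p ≠ 2) (S : Finset Nat.Primes) (hpS : pPrime p ∈ S)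
    (A B : Rep.{0, 0, 0} (ZMod p) GQ) (e : A ≅ B) (sA : IsSMod S A) (sB : IsSMod S B) :
    tateDef S B = tateDef S A :=
  tateDef_iso_of_frontier helper4075.theFrontier hp2 S hpS A B e sA sB

/-- Additivity of Tate's defect on short exact sequences of finite-dimensional `G_ℚ`-modules
trivialised by `G_K`, `K` unramified outside `S`. -/
theorem tateDef_add_of_field (hp2 : p ≠ 2) {S : Finset Nat.Primes}
    (hpS : pPrime p ∈ S) {K : IntermediateField ℚ (AlgebraicClosure ℚ)}
    (hK : K.IsUnramifiedOutside S)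
    (A B C : Rep.{0, 0, 0} (ZMod p) GQ) [FiniteDimensional (ZMod p) A]
    [FiniteDimensional (ZMod p) B] [FiniteDimensional (ZMod p) C]
    (tA : ∀ s ∈ K.fixingSubgroup, A.ρ s = 1) (tB : ∀ s ∈ K.fixingSubgroup, B.ρ s = 1)
    (tC : ∀ s ∈ K.fixingSubgroup, C.ρ s = 1) (i : A ⟶ B) (q : B ⟶ C)
    (hi : Function.Injective i.hom) (hq : Function.Surjective q.hom)
    (hex : Function.Exact i.hom q.hom) :
    tateDef S B = tateDef S A + tateDef S C :=
  tateDef_add_of_field_of_frontier helper4075.theFrontier hp2 hpS hK A B C tA tB tC i q hi hq hex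

/-- **Selmer bound**: Greenberg–Wiles together with Tate's inequality for `M' = dualT M`:
`dim Sel_L(M) + π₀(M) + dim (M')^{c=-1} + h⁰(M') ≤ dim Sel_{L^⊥}(M') + h⁰(M) + ∑_q dim L_q`. -/
theorem finrank_selmer_le (hp2 : p ≠ 2)
    (S : Finset Nat.Primes) (hpS : pPrime p ∈ S) (M : Rep.{0, 0, 0} (ZMod p) GQ)
    (hM : IsSMod S M) (Lq : ∀ q : ↥S, Submodule (ZMod p) (LocH1 M q.1))
    (hTate : tateDef S (dualT M) ≤ 0) :
    finrank (ZMod p) ↥(selmer S M (Submodule.pi Set.univ Lq)) + pi0 S M + dimMinus (dualT M)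
        + h0 (dualT M)
      ≤ finrank (ZMod p) ↥(selmer S (dualT M)
          (Submodule.pi Set.univ fun q => dualCond (isSmoothS_of_isSMod hpS hM) q (Lq q)))
        + h0 M + ∑ q : ↥S, finrank (ZMod p) ↥(Lq q) :=
  finrank_selmer_le_of_frontier helper4075.theFrontier hp2 S hpS M hM Lq hTate

end Fermat.Agent.S56.helper2906.Closed
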