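/-
S56 (Taylor–Wiles primes), global chain, node TATE-T1 (helper9859): SPEC of the core of Tate's
global Euler characteristic formula, OPERATOR form, class-group-free ("large `S`") version.

Data (`CycData S p K σ n`): `p` an odd prime in `S`, `K` a finite Galois extension of `ℚ`
unramified outside `S` with `ζ_p ∈ K`, `U = Gal(ℚ̄/K)`, `σ ∈ G_ℚ` with `σ ^ n ∈ U`, `p ∤ n`.
`P = indRep p K = coind_U^{G_ℚ} 𝔽_p` (functions `f : G_ℚ → 𝔽_p`, `f (u g) = f g`, `G_ℚ` acting by
right translation), `lam` = LEFT translation by `σ` (`(lam f) g = f (σ⁻¹ g)`), a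
`G_ℚ`-endomorphism of `P` with `lam ^ n = 1`, and for `φ ∣ X ^ n - 1` in `𝔽_p[X]`

  `kap φ = ker φ(lam)`   (a `G_ℚ`-direct summand of `P`).

TARGET (`Stmt_TateCyc`): if `Cl_S(K)/p = 0` then `tateDef S (kap φ) = 0`, i.e.
`h¹(G_S, kap φ) = h⁰ + h² + dim (kap φ)^{c = -1}`.

The file contains

* a generic kit (`kd`, `rootInd`, `polyHom`, `kerRep`, `kerIncl`, `kerProj`, `kerRetr`, exactness,
  `IsSMod` of kernels) for a `G`-endomorphism `T` of a representation and polynomials in `T`;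
* `lam`, `kap`, the double coset operators `dcOp` (`twist p σ • ` permutation of
  `U \ G_ℚ / D` by `σ`), `twist p σ = ω(σ)⁻¹`;
* the LEAF Props `Stmt_H0`, `Stmt_H0Dual`, `Stmt_Pi2`, `Stmt_Minus`, `Stmt_A2`, `Stmt_H1`,
  `Stmt_IndNonneg`;
* the REDUCTION `stmt_TateCyc_of` : leaves ⟹ `Stmt_TateCyc` (one-sided bound for each `kap φ`
  from the leaves and the S55 squeeze, then the two-sided squeeze through
  `P = kap φ ⊕ kap φ'`, `φ φ' = X ^ n - 1`, and `0 ≤ tateDef S P`).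
-/
import Mathlib
import Fermat.Agent.S55.helper1127_IndCount
import Fermat.Agent.S55.helper9763_IsoTransport
import Fermat.Agent.S56.helper2906_GlobalClosed

set_option autoImplicit false

namespace Fermat.Agent.S56.helper9859

open CategoryTheory Module Polynomial ExtCitation
open Fermat.Agent.S55
open Fermat.Agent.S55.helper3071 hiding GQ
open Fermat.Agent.S55.helper2945 hiding GQ
open Fermat.Agent.S56.helper2906

local notation "Qb" => AlgebraicClosure ℚ
local notation "GQ" => (AlgebraicClosure ℚ ≃ₐ[ℚ] AlgebraicClosure ℚ)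

noncomputable section

/-! ## 0. Linear algebra kit -/

section LinKit

variable {k : Type*} [Field k]

/-- `kd φ T = dim ker φ(T)`. -/
def kd {V : Type*} [AddCommGroup V] [Module k V] (φ : k[X]) (T : Module.End k V) : ℕ :=
  finrank k (LinearMap.ker (aeval T φ))

/-- `rootInd φ a = 1` if `φ(a) = 0`, and `0` otherwise (`= kd φ` of the scalar `a` on a line). -/
def rootInd (φ : k[X]) (a : k) : ℕ :=
  open Classical in if φ.eval a = 0 then 1 else 0

lemma commute_aeval {A : Type*} [Ring A] [Algebra k A] {a b : A} (h : Commute a b)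
    (φ : k[X]) : Commute (aeval a φ) b := by
  induction φ using Polynomial.induction_on' with
  | add f g hf hg => rw [map_add]; exact hf.add_left hg
  | monomial n r =>
    rw [aeval_monomial]
    exact (Algebra.commute_algebraMap_left r b).mul_left (h.pow_left n)

end LinKit

/-! ## 1. Kernels of polynomials in an endomorphism of a representation -/

section RepKit

variable {k G : Type} [Field k] [Group G] (A : Rep.{0, 0, 0} k G) (T : A ⟶ A)

/-- The underlying linear endomorphism of an endomorphism of a representation. -/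
abbrev endOf : Module.End k A := T.hom.toLinearMap

lemma endOf_commute (g : G) : Commute (endOf A T) (A.ρ g) :=
  T.hom.isIntertwining' g

lemma aeval_endOf_commute (φ : k[X]) (g : G) : Commute (aeval (endOf A T) φ) (A.ρ g) :=
  commute_aeval (endOf_commute A T g) φ

/-- `φ(T)` as an endomorphism of the representation. -/
def polyHom (φ : k[X]) : A ⟶ A :=
  Rep.ofHom ⟨aeval (endOf A T) φ, fun g => (aeval_endOf_commute A T φ g).eq⟩

@[simp] lemma polyHom_hom_apply (φ : k[X]) (x : A) :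
    (polyHom A T φ).hom x = aeval (endOf A T) φ x := rfl

/-- `ker φ(T)` as a submodule. -/
def kerSub (φ : k[X]) : Submodule k A := LinearMap.ker (aeval (endOf A T) φ)

lemma mem_kerSub (φ : k[X]) (x : A) : x ∈ kerSub A T φ ↔ aeval (endOf A T) φ x = 0 :=
  LinearMap.mem_ker

lemma kerSub_le_comap (φ : k[X]) (g : G) : kerSub A T φ ≤ (kerSub A T φ).comap (A.ρ g) := by
  intro x hx
  rw [Submodule.mem_comap, mem_kerSub]
  rw [mem_kerSub] at hx
  have h := congrArg (fun f : Module.End k A => f x) (aeval_endOf_commute A T φ g).eq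
  simp only [Module.End.mul_apply] at h
  rw [h, hx, map_zero]

/-- **`ker φ(T)` as a representation** (a subrepresentation of `A`). -/
abbrev kerRep (φ : k[X]) : Rep.{0, 0, 0} k G :=
  Rep.of (A.ρ.subrepresentation (kerSub A T φ) (kerSub_le_comap A T φ))

lemma kerRep_ρ_coe (φ : k[X]) (g : G) (x : kerRep A T φ) :
    (((kerRep A T φ).ρ g x : kerSub A T φ) : A) = A.ρ g (x : kerSub A T φ) := rfl

/-- The inclusion `ker φ(T) ⟶ A`. -/
def kerIncl (φ : k[X]) : kerRep A T φ ⟶ A :=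
  Rep.ofHom ⟨(kerSub A T φ).subtype, fun _ => rfl⟩

@[simp] lemma kerIncl_hom_apply (φ : k[X]) (x : kerRep A T φ) :
    (kerIncl A T φ).hom x = ((x : kerSub A T φ) : A) := rfl

lemma kerIncl_injective (φ : k[X]) : Function.Injective (kerIncl A T φ).hom :=
  fun _ _ h => Subtype.ext h

/-- If `(φ * ψ)(T) = 0` then `φ(T)` maps `A` into `ker ψ(T)`. -/
lemma aeval_mem_kerSub {φ ψ : k[X]} (h : aeval (endOf A T) (φ * ψ) = 0) (x : A) :
    aeval (endOf A T) φ x ∈ kerSub A T ψ := by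
  rw [mem_kerSub]
  have h1 : aeval (endOf A T) ψ (aeval (endOf A T) φ x) = aeval (endOf A T) (φ * ψ) x := by
    rw [mul_comm, map_mul]; rfl
  rw [h1, h]; rfl

/-- `φ(T) : A ⟶ ker ψ(T)` when `(φ * ψ)(T) = 0`. -/
def kerProj (φ ψ : k[X]) (h : aeval (endOf A T) (φ * ψ) = 0) : A ⟶ kerRep A T ψ :=
  Rep.ofHom ⟨(aeval (endOf A T) φ).codRestrict (kerSub A T ψ) (aeval_mem_kerSub A T h),
    fun g => by
      apply LinearMap.ext
      intro x
      apply Subtype.ext
      have h1 := congrArg (fun f : Module.End k A => f x) (aeval_endOf_commute A T φ g).eq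
      exact h1⟩

@[simp] lemma kerProj_hom_apply_coe (φ ψ : k[X]) (h : aeval (endOf A T) (φ * ψ) = 0) (x : A) :
    (((kerProj A T φ ψ h).hom x : kerSub A T ψ) : A) = aeval (endOf A T) φ x := rfl

/-- `0 → ker φ(T) → A → ker ψ(T)` is exact. -/
lemma exact_kerIncl_kerProj (φ ψ : k[X]) (h : aeval (endOf A T) (φ * ψ) = 0) :
    Function.Exact (kerIncl A T φ).hom (kerProj A T φ ψ h).hom := by
  intro x
  constructor
  · intro hx
    have hx' : aeval (endOf A T) φ x = 0 := congrArg Subtype.val hx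
    exact ⟨⟨x, (mem_kerSub A T φ x).2 hx'⟩, rfl⟩
  · rintro ⟨y, rfl⟩
    apply Subtype.ext
    exact (mem_kerSub A T φ _).1 y.2

/-- `A → ker ψ(T)` is onto when `φ`, `ψ` are coprime. -/
lemma kerProj_surjective (φ ψ : k[X]) (h : aeval (endOf A T) (φ * ψ) = 0)
    (hcop : IsCoprime φ ψ) : Function.Surjective (kerProj A T φ ψ h).hom := by
  obtain ⟨u, v, huv⟩ := hcop
  intro y
  refine ⟨aeval (endOf A T) u (y : kerSub A T ψ), ?_⟩
  apply Subtype.ext
  rw [kerProj_hom_apply_coe]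
  have hy : aeval (endOf A T) ψ (y : kerSub A T ψ) = 0 := (mem_kerSub A T ψ _).1 y.2
  have h1 : aeval (endOf A T) (u * φ + v * ψ) ((y : kerSub A T ψ) : A) = (y : kerSub A T ψ) := by
    rw [huv, map_one]; rfl
  rw [map_add, map_mul, map_mul, LinearMap.add_apply, Module.End.mul_apply, Module.End.mul_apply,
    hy, map_zero, add_zero] at h1
  have h2 : aeval (endOf A T) φ (aeval (endOf A T) u ((y : kerSub A T ψ) : A)) =
      aeval (endOf A T) u (aeval (endOf A T) φ ((y : kerSub A T ψ) : A)) := by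
    have := congrArg (fun f : Module.End k A => f ((y : kerSub A T ψ) : A))
      (show aeval (endOf A T) φ * aeval (endOf A T) u = aeval (endOf A T) u * aeval (endOf A T) φ
        by rw [← map_mul, ← map_mul, mul_comm])
    exact this
  rw [h2, h1]

/-- **`ker φ(T)` is a direct summand** of `A` when `(φ * ψ)(T) = 0`, `φ`, `ψ` coprime:
a retraction of the inclusion. -/
lemma exists_kerRetr (φ ψ : k[X]) (h : aeval (endOf A T) (φ * ψ) = 0) (hcop : IsCoprime φ ψ) :
    ∃ r : A ⟶ kerRep A T φ, kerIncl A T φ ≫ r = 𝟙 (kerRep A T φ) := by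
  obtain ⟨u, v, huv⟩ := hcop
  have h' : aeval (endOf A T) ((v * ψ) * φ) = 0 := by
    rw [mul_assoc, mul_comm ψ φ, map_mul, h, mul_zero]
  refine ⟨kerProj A T (v * ψ) φ h', ?_⟩
  apply Rep.hom_ext
  apply Representation.IntertwiningMap.ext
  apply LinearMap.ext
  intro y
  apply Subtype.ext
  show aeval (endOf A T) (v * ψ) ((y : kerSub A T φ) : A) = ((y : kerSub A T φ) : A)
  have hy : aeval (endOf A T) φ (y : kerSub A T φ) = 0 := (mem_kerSub A T φ _).1 y.2
  have h1 : aeval (endOf A T) (u * φ + v * ψ) ((y : kerSub A T φ) : A) = (y : kerSub A T φ) := by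
    rw [huv, map_one]; rfl
  rw [map_add, LinearMap.add_apply, map_mul (aeval (endOf A T)) u φ, Module.End.mul_apply, hy,
    map_zero, zero_add] at h1
  exact h1

end RepKit

/-! ### `S`-modules -/

section SMod

variable {p : ℕ} [Fact p.Prime]

/-- Kernels of polynomials in an endomorphism of an `S`-module are `S`-modules. -/
lemma isSMod_kerRep {S : Finset Nat.Primes} (A : Rep.{0, 0, 0} (ZMod p) GQ) (T : A ⟶ A)
    (φ : (ZMod p)[X]) (hA : IsSMod S A) : IsSMod S (kerRep A T φ) where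
  finite := by
    have := hA.finite
    exact inferInstanceAs (FiniteDimensional (ZMod p) (kerSub A T φ))
  smooth := fun m => by
    obtain ⟨F, hF, h⟩ := hA.smooth ((m : kerSub A T φ) : A)
    exact ⟨F, hF, fun s hs => Subtype.ext (h s hs)⟩
  unram := fun q hq B hB g hg => by
    apply LinearMap.ext
    intro m
    apply Subtype.ext
    have := hA.unram q hq B hB g hg
    show A.ρ g ((m : kerSub A T φ) : A) = ((m : kerSub A T φ) : A)
    rw [this]; rfl

end SMod

/-! ## 2. Left translation on `indRep p K` -/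

section Lam

lemma conj_mem_fixing (K : IntermediateField ℚ Qb) [hN : K.fixingSubgroup.Normal] (σ : GQ)
    {u : GQ} (hu : u ∈ K.fixingSubgroup) : σ⁻¹ * u * σ ∈ K.fixingSubgroup := by
  have := hN.conj_mem u hu σ⁻¹
  rwa [inv_inv] at this

variable (p : ℕ) [Fact p.Prime] (K : IntermediateField ℚ Qb) [hN : K.fixingSubgroup.Normal]
  (σ : GQ)

/-- Left translation `f ↦ (g ↦ f (σ⁻¹ * g))` on the functions of `indRep p K`. -/
def lamLin :
    ↥(Representation.coindV K.fixingSubgroup.subtype (trivF p K).ρ) →ₗ[ZMod p]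
      ↥(Representation.coindV K.fixingSubgroup.subtype (trivF p K).ρ) :=
  (LinearMap.funLeft (ZMod p) (trivF p K) (fun g : GQ => σ⁻¹ * g)).restrict (by
    intro f hf u g
    have h1 := hf ⟨σ⁻¹ * (u : GQ) * σ, conj_mem_fixing K σ u.2⟩ (σ⁻¹ * g)
    simp only [LinearMap.funLeft_apply, Subgroup.coe_subtype] at h1 ⊢
    have h2 : σ⁻¹ * ((u : GQ) * g) = σ⁻¹ * (u : GQ) * σ * (σ⁻¹ * g) := by group
    rw [h2, h1]
    rfl)

/-- **Left translation by `σ`** as a `G_ℚ`-endomorphism of `indRep p K`: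
`(lam f) g = f (σ⁻¹ * g)`. -/
def lam : indRep p K ⟶ indRep p K :=
  Rep.ofHom ⟨lamLin p K σ, fun g => by
    apply LinearMap.ext
    intro f
    apply Subtype.ext
    funext x
    show (f : GQ → trivF p K) (σ⁻¹ * x * g) = (f : GQ → trivF p K) (σ⁻¹ * (x * g))
    rw [mul_assoc]⟩

lemma lam_hom_apply (f : indRep p K) (g : GQ) :
    (((lam p K σ).hom f : indRep p K) : GQ → trivF p K) g =
      (f : GQ → trivF p K) (σ⁻¹ * g) := rfl

omit hN [Fact p.Prime] in
/-- Functions of `indRep p K` are left `U`-invariant. -/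
lemma indRep_apply_mul (f : indRep p K) {u : GQ} (hu : u ∈ K.fixingSubgroup) (g : GQ) :
    (f : GQ → trivF p K) (u * g) = (f : GQ → trivF p K) g :=
  f.2 ⟨u, hu⟩ g

lemma lam_pow_apply (m : ℕ) (f : indRep p K) (g : GQ) :
    (((endOf (indRep p K) (lam p K σ) ^ m) f : indRep p K) : GQ → trivF p K) g =
      (f : GQ → trivF p K) ((σ ^ m)⁻¹ * g) := by
  induction m generalizing f with
  | zero => simp
  | succ m ih =>
    rw [pow_succ, Module.End.mul_apply, ih]
    show (f : GQ → trivF p K) (σ⁻¹ * ((σ ^ m)⁻¹ * g)) = _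
    have h1 : σ⁻¹ * ((σ ^ m)⁻¹ * g) = (σ ^ (m + 1))⁻¹ * g := by
      rw [pow_succ, mul_inv_rev, mul_assoc]
    rw [h1]

/-- `lam ^ n = 1` when `σ ^ n ∈ U`. -/
lemma lam_pow_eq_one {n : ℕ} (h : σ ^ n ∈ K.fixingSubgroup) :
    endOf (indRep p K) (lam p K σ) ^ n = 1 := by
  apply LinearMap.ext
  intro f
  apply Subtype.ext
  funext g
  rw [lam_pow_apply]
  exact indRep_apply_mul p K f (K.fixingSubgroup.inv_mem h) g

lemma aeval_lam_X_pow_sub_one {n : ℕ} (h : σ ^ n ∈ K.fixingSubgroup) :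
    aeval (endOf (indRep p K) (lam p K σ)) (X ^ n - 1 : (ZMod p)[X]) = 0 := by
  rw [map_sub, map_pow, aeval_X, map_one, lam_pow_eq_one p K σ h, sub_self]

/-- **`kap φ = ker φ(lam)`**, a `G_ℚ`-subrepresentation (direct summand) of `indRep p K`. -/
abbrev kap (φ : (ZMod p)[X]) : Rep.{0, 0, 0} (ZMod p) GQ :=
  kerRep (indRep p K) (lam p K σ) φ

end Lam

/-! ## 3. Double coset operators -/

section DC

variable (K : IntermediateField ℚ Qb) [hN : K.fixingSubgroup.Normal] (σ : GQ) (D : Subgroup GQ)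

/-- `U \ G_ℚ / D`, `U = Gal(ℚ̄/K)`. -/
abbrev DC : Type := DoubleCoset.Quotient (K.fixingSubgroup : Set GQ) (D : Set GQ)

/-- Left multiplication by `σ⁻¹` on `U \ G_ℚ / D` (`U` normal). -/
def dcShift : DC K D → DC K D := fun x =>
  Quotient.liftOn' x (fun g : GQ => DoubleCoset.mk K.fixingSubgroup D (σ⁻¹ * g)) (by
    intro a b hab
    obtain ⟨h, hh, d, hd, rfl⟩ := DoubleCoset.rel_iff.1 hab
    exact (DoubleCoset.eq _ _ _ _).2 ⟨σ⁻¹ * h * σ, conj_mem_fixing K σ hh, d, hd, by group⟩)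

@[simp] lemma dcShift_mk (g : GQ) :
    dcShift K σ D (DoubleCoset.mk K.fixingSubgroup D g) =
      DoubleCoset.mk K.fixingSubgroup D (σ⁻¹ * g) := rfl

variable (p : ℕ)

/-- The permutation operator `f ↦ (x ↦ f (σ⁻¹ x))` on the functions on `U \ G_ℚ / D`. -/
def dcPerm : Module.End (ZMod p) (DC K D → ZMod p) :=
  LinearMap.funLeft (ZMod p) (ZMod p) (dcShift K σ D)

@[simp] lemma dcPerm_apply (f : DC K D → ZMod p) (x : DC K D) :
    dcPerm K σ D p f x = f (dcShift K σ D x) := rfl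

variable [Fact p.Prime]

omit hN in
/-- The twist `ω(σ)⁻¹`, `ω = cycloChar p` (`σ ζ = ζ ^ ω(σ)` on `μ_p`). -/
def twist : ZMod p := (((cycloChar p σ)⁻¹ : (ZMod p)ˣ) : ZMod p)

/-- **The twisted permutation operator** `ω(σ)⁻¹ • (f ↦ f (σ⁻¹ ·))` on the functions on
`U \ G_ℚ / D`. -/
def dcOp : Module.End (ZMod p) (DC K D → ZMod p) := twist σ p • dcPerm K σ D p

/-- The decomposition group at `q` (the range of the frozen `primeLocalToGlobal q`, i.e. the
decomposition group of `primeLocalPlace q`). -/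
def decQ (q : Nat.Primes) : Subgroup GQ := (primeLocalToGlobal q).range

/-- The decomposition group at infinity `⟨c⟩`. -/
def decInf : Subgroup GQ := Subgroup.zpowers complexConjugation

end DC

/-! ## 4. The data, the leaf Props and the target -/

/-- **The data of the cyclic core**: `p` an odd prime in `S`, `K` unramified outside `S`
(in particular finite over `ℚ`) with `ζ_p ∈ K`, `σ ^ n ∈ Gal(ℚ̄/K)`, `n ≥ 1` prime to `p`.
(`K/ℚ` Galois is the separate instance argument `[K.fixingSubgroup.Normal]`.) -/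
structure CycData (S : Finset Nat.Primes) (p : ℕ) [Fact p.Prime] (K : IntermediateField ℚ Qb)
    (σ : GQ) (n : ℕ) : Prop where
  odd : p ≠ 2
  mem : pPrime p ∈ S
  unram : K.IsUnramifiedOutside S
  zeta : HasZeta p K
  pos : 0 < n
  pow : σ ^ n ∈ K.fixingSubgroup
  cop : ¬ p ∣ n

lemma CycData.isSFieldZeta {S : Finset Nat.Primes} {p : ℕ} [Fact p.Prime]
    {K : IntermediateField ℚ Qb} {σ : GQ} {n : ℕ} (h : CycData S p K σ n) :
    IsSFieldZeta S p K :=
  ⟨Fact.out, h.odd, ⟨pPrime p, h.mem, rfl⟩, h.unram, h.zeta⟩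

/-- (H0) `h⁰(kap φ) ≤ [φ(1) = 0]`: the invariants of `indRep p K` are the constants, on which
`lam = 1`. -/
def Stmt_H0 : Prop :=
  ∀ (S : Finset Nat.Primes) (p : ℕ) [Fact p.Prime] (K : IntermediateField ℚ Qb)
    [K.fixingSubgroup.Normal] (σ : GQ) (n : ℕ), CycData S p K σ n →
    ∀ φ : (ZMod p)[X], φ ∣ X ^ n - 1 → h0 (kap p K σ φ) ≤ rootInd φ 1

/-- (H0') `[φ(ω(σ)⁻¹) = 0] ≤ h⁰((kap φ)')`: the functional `f ↦ ∑_{x ∈ U \ G} ω(x)⁻¹ f(x)` is
an invariant of `(indRep p K)'` on which the transpose of `lam` is `ω(σ)⁻¹`. -/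
def Stmt_H0Dual : Prop :=
  ∀ (S : Finset Nat.Primes) (p : ℕ) [Fact p.Prime] (K : IntermediateField ℚ Qb)
    [K.fixingSubgroup.Normal] (σ : GQ) (n : ℕ), CycData S p K σ n →
    ∀ φ : (ZMod p)[X], φ ∣ X ^ n - 1 → rootInd φ (twist σ p) ≤ h0 (dualT (kap p K σ φ))

/-- (PI2) `π₂(kap φ) ≤ ∑_{q ∈ S} dim ker φ(ω(σ)⁻¹ σ | 𝔽_p[U \ G / D_q])` (local duality +
Mackey, operator form). -/
def Stmt_Pi2 : Prop :=
  ∀ (S : Finset Nat.Primes) (p : ℕ) [Fact p.Prime] (K : IntermediateField ℚ Qb)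
    [K.fixingSubgroup.Normal] (σ : GQ) (n : ℕ), CycData S p K σ n →
    ∀ φ : (ZMod p)[X], φ ∣ X ^ n - 1 →
      pi2 S (kap p K σ φ) ≤ ∑ q ∈ S, kd φ (dcOp K σ (decQ q) p)

/-- (MIN) `dim (kap φ)^{c = -1} ≤ dim ker φ(ω(σ)⁻¹ σ | 𝔽_p[U \ G / ⟨c⟩])` (`f ↦ ω⁻¹ f`). -/
def Stmt_Minus : Prop :=
  ∀ (S : Finset Nat.Primes) (p : ℕ) [Fact p.Prime] (K : IntermediateField ℚ Qb)
    [K.fixingSubgroup.Normal] (σ : GQ) (n : ℕ), CycData S p K σ n →
    ∀ φ : (ZMod p)[X], φ ∣ X ^ n - 1 →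
      dimMinus (kap p K σ φ) ≤ kd φ (dcOp K σ decInf p)

/-- (H1) **the arithmetic heart** (equivariant Kummer theory + Dirichlet–Herbrand for the
`S`-units of `K`): `[φ(1) = 0] + ∑_{q ∈ S} kd φ(ω(σ)⁻¹ σ | 𝔽_p[U \ G / D_q])
+ kd φ(ω(σ)⁻¹ σ | 𝔽_p[U \ G / ⟨c⟩]) ≤ h¹(G_S, kap φ) + [φ(ω(σ)⁻¹) = 0]`. -/
def Stmt_H1 : Prop :=
  ∀ (S : Finset Nat.Primes) (p : ℕ) [Fact p.Prime] (K : IntermediateField ℚ Qb)
    [K.fixingSubgroup.Normal] (σ : GQ) (n : ℕ), CycData S p K σ n →
    ∀ φ : (ZMod p)[X], φ ∣ X ^ n - 1 →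
      rootInd φ 1 + ∑ q ∈ S, kd φ (dcOp K σ (decQ q) p) + kd φ (dcOp K σ decInf p)
        ≤ h1 S (kap p K σ φ) + rootInd φ (twist σ p)

/-- (C2) `0 ≤ tateDef S (indRep p F)`, i.e. `h¹(G_S, coind_F 𝔽_p) ≤ h⁰ + h² + [F:ℚ]/2`. -/
def Stmt_IndNonneg : Prop :=
  ∀ (S : Finset Nat.Primes) (p : ℕ) [Fact p.Prime] (F : IntermediateField ℚ Qb),
    IsSFieldZeta S p F → 0 ≤ tateDef S (indRep p F)

/-- **TARGET of TATE-T1** (operator form, large `S`): if `Ш²_S(indRep p K) = 0` (true for all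
`S ⊇ S₀ ∪ T`, `T` depending on `K` only) then Tate's formula holds for every `kap φ`. -/
def Stmt_TateCyc : Prop :=
  ∀ (S : Finset Nat.Primes) (p : ℕ) [Fact p.Prime] (K : IntermediateField ℚ Qb)
    [K.fixingSubgroup.Normal] (σ : GQ) (n : ℕ), CycData S p K σ n →
    groupCohomology.sha₂ S (indRep p K) = ⊥ →
    ∀ φ : (ZMod p)[X], φ ∣ X ^ n - 1 → tateDef S (kap p K σ φ) = 0

/-! ## 5. The reduction -/

section Reduction

variable {S : Finset Nat.Primes} {p : ℕ} [Fact p.Prime] {K : IntermediateField ℚ Qb}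
  [hN : K.fixingSubgroup.Normal] {σ : GQ} {n : ℕ}

omit hN in
lemma CycData.natCast_ne_zero (h : CycData S p K σ n) : (n : ZMod p) ≠ 0 := by
  rw [Ne, ZMod.natCast_eq_zero_iff]
  exact h.cop

omit hN in
/-- Complementary factors of `X ^ n - 1` are coprime (`p ∤ n`). -/
lemma CycData.isCoprime (h : CycData S p K σ n) {φ ψ : (ZMod p)[X]}
    (hφψ : X ^ n - 1 = φ * ψ) : IsCoprime φ ψ := by
  have hsep : (X ^ n - 1 : (ZMod p)[X]).Separable :=
    (X_pow_sub_one_separable_iff).2 h.natCast_ne_zero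
  rw [hφψ] at hsep
  exact hsep.isCoprime

lemma CycData.aeval_lam (h : CycData S p K σ n) {φ ψ : (ZMod p)[X]}
    (hφψ : X ^ n - 1 = φ * ψ) :
    aeval (endOf (indRep p K) (lam p K σ)) (φ * ψ) = 0 := by
  rw [← hφψ]
  exact aeval_lam_X_pow_sub_one p K σ h.pow

lemma CycData.isSMod_kap (h : CycData S p K σ n) (φ : (ZMod p)[X]) :
    IsSMod S (kap p K σ φ) :=
  isSMod_kerRep _ _ φ (helper1127.isSMod_indRep (p := p) S K h.unram)

/-- (A2), proved: `a₂(kap φ) = 0` when `Ш²_S(indRep p K) = 0` (`kap φ` is a retract). -/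
theorem a2_kap_eq_zero (h : CycData S p K σ n)
    (hsha : groupCohomology.sha₂ S (indRep p K) = ⊥) {φ : (ZMod p)[X]}
    (hφ : φ ∣ X ^ n - 1) : a2 S (kap p K σ φ) = 0 := by
  obtain ⟨ψ, hψ⟩ := hφ
  obtain ⟨r, hr⟩ := exists_kerRetr (indRep p K) (lam p K σ) φ ψ (h.aeval_lam hψ) (h.isCoprime hψ)
  have hbot : groupCohomology.sha₂ S (kap p K σ φ) = ⊥ := by
    rw [eq_bot_iff]
    intro x hx
    have h1 : helper9763.continuousH2SMap S (kerIncl (indRep p K) (lam p K σ) φ) x ∈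
        groupCohomology.sha₂ S (indRep p K) :=
      helper9763.continuousH2SMap_mem_sha₂ S _ hx
    rw [hsha, Submodule.mem_bot] at h1
    have h2 : helper9763.continuousH2SMap S r
        (helper9763.continuousH2SMap S (kerIncl (indRep p K) (lam p K σ) φ) x) = x := by
      rw [← helper9763.continuousH2SMap_comp, hr, helper9763.continuousH2SMap_id]
    rw [Submodule.mem_bot, ← h2, h1, map_zero]
  unfold a2
  rw [hbot]
  exact finrank_bot _ _

/-- (C3) **One-sided bound** `tateDef S (kap φ) ≤ 0` (Tate's inequality for `kap φ`) from the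
leaves and the S55 squeeze (`h² = a₂ + r₂`, `r₂ + h⁰(M') = π₂`). -/
theorem tateDef_kap_nonpos (hH0 : Stmt_H0) (hH0D : Stmt_H0Dual) (hPi2 : Stmt_Pi2)
    (hMin : Stmt_Minus) (hH1 : Stmt_H1) (h : CycData S p K σ n)
    (hsha : groupCohomology.sha₂ S (indRep p K) = ⊥) {φ : (ZMod p)[X]}
    (hφ : φ ∣ X ^ n - 1) : tateDef S (kap p K σ φ) ≤ 0 := by
  have hM := h.isSMod_kap (σ := σ) φ
  obtain ⟨-, f2, -, -⟩ := helper4075.finite_global h.odd S h.mem _ hM
  have e1 := a2_add_r2 S (kap p K σ φ)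
  have e2 := (helper4075.r2_add_h0_dual h.odd S h.mem _ hM).1
  have e3 := a2_kap_eq_zero h hsha hφ
  have l1 := hH0 S p K σ n h φ hφ
  have l2 := hH0D S p K σ n h φ hφ
  have l3 := hPi2 S p K σ n h φ hφ
  have l4 := hMin S p K σ n h φ hφ
  have l5 := hH1 S p K σ n h φ hφ
  rw [tateDef_nonpos_iff]
  omega

/-- **The reduction**: the leaves imply the target.  Squeeze through
`0 → kap φ → indRep p K → kap ψ → 0`, `φ ψ = X ^ n - 1`. -/
theorem stmt_TateCyc_of (hH0 : Stmt_H0) (hH0D : Stmt_H0Dual) (hPi2 : Stmt_Pi2)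
    (hMin : Stmt_Minus) (hH1 : Stmt_H1) (hInd : Stmt_IndNonneg) : Stmt_TateCyc := by
  intro S p _ K _ σ n h hsha φ hφ
  obtain ⟨ψ, hψ⟩ := hφ
  have hφ' : φ ∣ X ^ n - 1 := ⟨ψ, hψ⟩
  have hψ' : ψ ∣ X ^ n - 1 := ⟨φ, by rw [hψ, mul_comm]⟩
  have b1 := tateDef_kap_nonpos hH0 hH0D hPi2 hMin hH1 h hsha hφ'
  have b2 := tateDef_kap_nonpos hH0 hH0D hPi2 hMin hH1 h hsha hψ'
  have b3 := hInd S p K h.isSFieldZeta
  have hadd := Closed.tateDef_add h.odd S h.mem (kap p K σ φ) (indRep p K) (kap p K σ ψ)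
    (kerIncl (indRep p K) (lam p K σ) φ) (kerProj (indRep p K) (lam p K σ) φ ψ (h.aeval_lam hψ))
    (h.isSMod_kap φ) (helper1127.isSMod_indRep (p := p) S K h.unram) (h.isSMod_kap ψ)
    (kerIncl_injective _ _ φ) (kerProj_surjective _ _ φ ψ (h.aeval_lam hψ) (h.isCoprime hψ))
    (exact_kerIncl_kerProj _ _ φ ψ (h.aeval_lam hψ))
  omega

end Reduction

end

end Fermat.Agent.S56.helper9859
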