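/-
S56, global chain, T1 (operator form): the four MACKEY leaves of
`helper9859_TateCycSpec`, concluded verbatim (helper1127):

* `stmt_H0     : helper9859.Stmt_H0`      — `h⁰(kap φ) ≤ [φ(1) = 0]`;
* `stmt_H0Dual : helper9859.Stmt_H0Dual`  — `[φ(ω(σ)⁻¹) = 0] ≤ h⁰((kap φ)')`;
* `stmt_Pi2    : helper9859.Stmt_Pi2`     — `π₂(kap φ) ≤ ∑_{q ∈ S} kd φ (dcOp K σ (decQ q) p)`;
* `stmt_Minus  : helper9859.Stmt_Minus`   — `dim (kap φ)^{c=-1} ≤ kd φ (dcOp K σ decInf p)`.

All four are instances of the "any kernel model" theorems of `helper1127_KapCount`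
(`Q := kap p K σ φ`, `ι := kerIncl`, `lam := (lam p K σ).hom.toLinearMap`, `T := dcPerm`).
-/
import Mathlib
import Fermat.Agent.S56.helper9859_TateCycSpec
import Fermat.Agent.S56.helper5075_TateInd
import Fermat.Agent.S56.helper1127_KapCount

set_option autoImplicit false

namespace Fermat.Agent.S56.helper1127

open CategoryTheory Module Polynomial ExtCitation
open Fermat.Agent.S55

section OpNum

local notation "Qb" => AlgebraicClosure ℚ
local notation "GQ" => (AlgebraicClosure ℚ ≃ₐ[ℚ] AlgebraicClosure ℚ)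

variable {S : Finset Nat.Primes} {p : ℕ} [Fact p.Prime] {K : IntermediateField ℚ Qb}
  [hN : K.fixingSubgroup.Normal] {σ : GQ} {n : ℕ}

/-- A normal subgroup is normalised by every element. -/
lemma normal_mem_iff_conj_mem {G : Type*} [Group G] (U : Subgroup G) [hU : U.Normal] (s u : G) :
    u ∈ U ↔ s * u * s⁻¹ ∈ U := by
  constructor
  · intro hu
    exact hU.conj_mem u hu s
  · intro hu
    have := hU.conj_mem _ hu s⁻¹
    have he : s⁻¹ * (s * u * s⁻¹) * s⁻¹⁻¹ = u := by group
    rwa [he] at this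

/-- `kap φ` with its inclusion is a kernel model. -/
lemma kap_range_iff (φ : (ZMod p)[X]) (e : coindOne (p := p) K.fixingSubgroup) :
    e ∈ Set.range (helper9859.kerIncl (helper3071.indRep p K) (helper9859.lam p K σ) φ).hom ↔
      aeval (helper9859.lam p K σ).hom.toLinearMap φ e = 0 := by
  constructor
  · rintro ⟨x, rfl⟩
    exact (helper9859.mem_kerSub (helper3071.indRep p K) (helper9859.lam p K σ) φ _).1 x.2
  · intro h
    exact ⟨⟨e, (helper9859.mem_kerSub (helper3071.indRep p K) (helper9859.lam p K σ) φ e).2 h⟩,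
      rfl⟩

/-- **(H0)** `h⁰(kap φ) ≤ [φ(1) = 0]`. -/
theorem stmt_H0 : helper9859.Stmt_H0 := by
  intro S p _ K _ σ n h φ hφ
  obtain ⟨h1, h2⟩ := h0_le_of_kernelModel_aux K.fixingSubgroup σ
    (helper9859.lam p K σ).hom.toLinearMap (fun _ _ => rfl) (helper9859.kap p K σ φ)
    (helper9859.kerIncl (helper3071.indRep p K) (helper9859.lam p K σ) φ)
    (helper9859.kerIncl_injective _ _ φ) φ (kap_range_iff φ)
  unfold helper9859.rootInd
  split_ifs with h0
  · exact h1
  · exact (h2 h0).le

/-- **(H0')** `[φ(ω(σ)⁻¹) = 0] ≤ h⁰((kap φ)')`. -/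
theorem stmt_H0Dual : helper9859.Stmt_H0Dual := by
  intro S p _ K _ σ n h φ hφ
  have hfd : FiniteDimensional ℚ K := h.unram.1
  have := helper4039.finiteIndex_fixingSubgroup K
  unfold helper9859.rootInd
  split_ifs with h0
  · exact one_le_h0_dualT_of_kernelModel K.fixingSubgroup σ
      (normal_mem_iff_conj_mem K.fixingSubgroup σ) (helper9859.lam p K σ).hom.toLinearMap
      (fun _ _ => rfl) (Fermat.Agent.S55.helper1127.cycloChar_eq_one_of_hasZeta K h.zeta)
      (helper9859.kap p K σ φ)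
      (helper9859.kerIncl (helper3071.indRep p K) (helper9859.lam p K σ) φ)
      (helper9859.kerIncl_injective _ _ φ) φ (kap_range_iff φ) n h.cop h.pow hφ h0
  · exact Nat.zero_le _

/-- **(PI2)** `π₂(kap φ) ≤ ∑_{q ∈ S} kd φ (dcOp K σ (decQ q) p)`. -/
theorem stmt_Pi2 : helper9859.Stmt_Pi2 := by
  intro S p _ K _ σ n h φ hφ
  have hfd : FiniteDimensional ℚ K := h.unram.1
  have := helper4039.finiteIndex_fixingSubgroup K
  exact pi2_le_of_kernelModel K.fixingSubgroup σ
    (normal_mem_iff_conj_mem K.fixingSubgroup σ) (helper9859.lam p K σ).hom.toLinearMap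
    (fun _ _ => rfl) (Fermat.Agent.S55.helper1127.cycloChar_eq_one_of_hasZeta K h.zeta)
    (helper9859.kap p K σ φ)
    (helper9859.kerIncl (helper3071.indRep p K) (helper9859.lam p K σ) φ)
    (helper9859.kerIncl_injective _ _ φ) φ (kap_range_iff φ) h.odd S
    (h.isSMod_kap (σ := σ) φ).smooth n h.cop h.pow hφ
    (fun q => helper9859.decQ q) (fun q => le_refl _)
    (fun q => helper9859.dcPerm K σ (helper9859.decQ q) p) (fun q F g => rfl)

/-- **(MIN)** `dim (kap φ)^{c=-1} ≤ kd φ (dcOp K σ decInf p)`. -/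
theorem stmt_Minus : helper9859.Stmt_Minus := by
  intro S p _ K _ σ n h φ hφ
  have hfd : FiniteDimensional ℚ K := h.unram.1
  have := helper4039.finiteIndex_fixingSubgroup K
  refine dimMinus_le_of_kernelModel K.fixingSubgroup σ
    (helper9859.lam p K σ).hom.toLinearMap
    (fun _ _ => rfl) (Fermat.Agent.S55.helper1127.cycloChar_eq_one_of_hasZeta K h.zeta)
    (helper9859.kap p K σ φ)
    (helper9859.kerIncl (helper3071.indRep p K) (helper9859.lam p K σ) φ)
    (helper9859.kerIncl_injective _ _ φ) φ (kap_range_iff φ)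
    (helper5075.cycloChar_complexConjugation (p := p)) helper9859.decInf (fun d hd => ?_)
    (helper9859.dcPerm K σ helper9859.decInf p) (fun F g => rfl)
  obtain ⟨m, rfl⟩ := Subgroup.mem_zpowers_iff.1 hd
  rcases Int.even_or_odd m with ⟨j, rfl⟩ | ⟨j, rfl⟩
  · left
    rw [← two_mul, zpow_mul, zpow_two, complexConjugation_mul_self, one_zpow]
  · right
    rw [zpow_add, zpow_mul, zpow_two, complexConjugation_mul_self, one_zpow, one_mul, zpow_one]

end OpNum

end Fermat.Agent.S56.helper1127
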