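/-
S56, leaf R2 (seat helper1962), local Kummer count with TWISTED coefficients over `ℚ_l` itself.

`Γ = Gal(ℚ̄_l / ℚ_l)` (the frozen local group), `χ = cycloChar p ∘ localGaloisToGlobal l`.
`cycloZ1 l p` = the `𝔽_p`-space of frozen-level-constant 1-cocycles `Γ → 𝔽_p(χ)`.

Main result: `finrank_cycloZ1_le : finrank 𝔽_p (cycloZ1 l p) ≤ 2 + [l = p]`
(so `dim Z¹(ℚ_p, μ_p) ≤ 3`), by Kummer theory: Hilbert 90 on level cocycles
(`helper9072`), the `μ_p` dictionary (`helper6706`), the Krull form of the frozen level condition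
(`helper698`) and the index of `p`-th powers in `ℚ_lˣ` (`helper8235`).  No hypothesis `μ_p ⊂ ℚ_l`
or `μ_p ⊄ ℚ_l`: the number of rational `p`-th roots of unity cancels.
-/
import Mathlib
import Fermat.Agent.S55.helper698_LocTop
import Fermat.Agent.S55.helper6706_MuP
import Fermat.Agent.S55.helper9072_LevelKummer
import Fermat.Agent.S55.helper8235_PowIndex

set_option autoImplicit false

namespace Fermat.Agent.S56.helper1962

open groupCohomology ExtCitation
open Fermat.Agent.S55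

noncomputable section

section MulSide

variable (l p : ℕ) [Fact l.Prime] [Fact p.Prime]

/-- `μ_p`-valued level 1-cocycles of `Gal(ℚ̄_l/ℚ_l)`, multiplicatively. -/
def muZ1 : Subgroup ((PadicAlgCl l ≃ₐ[ℚ_[l]] PadicAlgCl l) → (PadicAlgCl l)ˣ) where
  carrier := {u | (∀ g h, u (g * h) = g • u h * u g) ∧
    helper9072.IsLev₁ (MonoidHom.id (PadicAlgCl l ≃ₐ[ℚ_[l]] PadicAlgCl l)) u ∧
    ∀ g, u g ^ p = 1}
  mul_mem' := by
    rintro u u' ⟨h1, h2, h3⟩ ⟨h1', h2', h3'⟩
    refine ⟨fun g h => ?_, h2.mul h2', fun g => ?_⟩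
    · simp only [Pi.mul_apply, h1, h1', smul_mul']
      exact mul_mul_mul_comm _ _ _ _
    · simp only [Pi.mul_apply, mul_pow, h3, h3', one_mul]
  one_mem' := ⟨fun g h => by simp, ⟨⊥, inferInstance, fun _ _ _ => rfl⟩, fun g => by simp⟩
  inv_mem' := by
    rintro u ⟨h1, h2, h3⟩
    refine ⟨fun g h => ?_, h2.comp (·⁻¹), fun g => ?_⟩
    · simp only [Pi.inv_apply, h1, smul_inv', mul_inv]
    · simp only [Pi.inv_apply, inv_pow, h3, inv_one]

/-- A unit of `ℚ̄_l` fixed by the Galois group is a unit of `ℚ_l`. -/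
theorem exists_units_of_fixed (β : (PadicAlgCl l)ˣ)
    (h : ∀ g : PadicAlgCl l ≃ₐ[ℚ_[l]] PadicAlgCl l, g • β = β) :
    ∃ a : ℚ_[l]ˣ, Units.map (algebraMap ℚ_[l] (PadicAlgCl l) : ℚ_[l] →* PadicAlgCl l) a = β := by
  have h1 : ∀ g : PadicAlgCl l ≃ₐ[ℚ_[l]] PadicAlgCl l, g (β : PadicAlgCl l) = β :=
    fun g => congrArg Units.val (h g)
  obtain ⟨a, ha⟩ := (InfiniteGalois.mem_range_algebraMap_iff_fixed (k := ℚ_[l])
    (K := PadicAlgCl l) (β : PadicAlgCl l)).2 h1
  have ha0 : a ≠ 0 := by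
    rintro rfl
    rw [map_zero] at ha
    exact β.ne_zero ha.symm
  exact ⟨Units.mk0 a ha0, Units.ext (by simpa using ha)⟩

/-- Units of `ℚ_l` are fixed by the Galois group. -/
theorem smul_unitsMap (g : PadicAlgCl l ≃ₐ[ℚ_[l]] PadicAlgCl l) (a : ℚ_[l]ˣ) :
    g • Units.map (algebraMap ℚ_[l] (PadicAlgCl l) : ℚ_[l] →* PadicAlgCl l) a =
      Units.map (algebraMap ℚ_[l] (PadicAlgCl l) : ℚ_[l] →* PadicAlgCl l) a :=
  Units.ext (by simp)

theorem unitsMap_injective :
    Function.Injective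
      (Units.map (algebraMap ℚ_[l] (PadicAlgCl l) : ℚ_[l] →* PadicAlgCl l)) :=
  Units.map_injective (algebraMap ℚ_[l] (PadicAlgCl l)).injective

/-- Kummer datum of a cochain: `u = dβ` and `β ^ p = a ∈ ℚ_lˣ`. -/
def IsKummerDatum (u : (PadicAlgCl l ≃ₐ[ℚ_[l]] PadicAlgCl l) → (PadicAlgCl l)ˣ)
    (β : (PadicAlgCl l)ˣ) (a : ℚ_[l]ˣ) : Prop :=
  (∀ g, g • β / β = u g) ∧
    Units.map (algebraMap ℚ_[l] (PadicAlgCl l) : ℚ_[l] →* PadicAlgCl l) a = β ^ p

variable {l p}

omit [Fact p.Prime] in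
theorem exists_isKummerDatum {u : (PadicAlgCl l ≃ₐ[ℚ_[l]] PadicAlgCl l) → (PadicAlgCl l)ˣ}
    (hu : u ∈ muZ1 l p) : ∃ β a, IsKummerDatum l p u β a := by
  obtain ⟨h1, h2, h3⟩ := hu
  obtain ⟨β, hβ, hfix⟩ := helper9072.exists_kummer_of_mu_cocycle
    (MonoidHom.id (PadicAlgCl l ≃ₐ[ℚ_[l]] PadicAlgCl l)) h1 h2 h3
  obtain ⟨a, ha⟩ := exists_units_of_fixed l (β ^ p) hfix
  exact ⟨β, a, hβ, ha⟩

omit [Fact p.Prime] in
/-- Multiplicativity (hence well-definedness) of the Kummer class. -/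
theorem IsKummerDatum.mk_mul
    {u u' u'' : (PadicAlgCl l ≃ₐ[ℚ_[l]] PadicAlgCl l) → (PadicAlgCl l)ˣ}
    {β β' β'' : (PadicAlgCl l)ˣ} {a a' a'' : ℚ_[l]ˣ}
    (h : IsKummerDatum l p u β a) (h' : IsKummerDatum l p u' β' a')
    (h'' : IsKummerDatum l p u'' β'' a'') (hu : ∀ g, u'' g = u g * u' g) :
    (QuotientGroup.mk a'' : ℚ_[l]ˣ ⧸ (powMonoidHom p : ℚ_[l]ˣ →* ℚ_[l]ˣ).range) =
      QuotientGroup.mk a * QuotientGroup.mk a' := by
  have hfix : ∀ g : PadicAlgCl l ≃ₐ[ℚ_[l]] PadicAlgCl l,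
      g • (β'' / (β * β')) = β'' / (β * β') := by
    intro g
    have e1 : g • β = u g * β := by rw [← h.1 g, div_mul_cancel]
    have e2 : g • β' = u' g * β' := by rw [← h'.1 g, div_mul_cancel]
    have e3 : g • β'' = u g * u' g * β'' := by rw [← hu g, ← h''.1 g, div_mul_cancel]
    rw [smul_div', smul_mul', e1, e2, e3, mul_mul_mul_comm, mul_div_mul_left_eq_div]
  obtain ⟨s, hs⟩ := exists_units_of_fixed l _ hfix
  have hkey : a'' = s ^ p * a * a' := by
    apply unitsMap_injective l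
    rw [map_mul, map_mul, map_pow, hs, h.2, h'.2, h''.2, ← mul_pow, ← mul_pow, mul_assoc,
      div_mul_cancel]
  rw [← QuotientGroup.mk_mul]
  refine QuotientGroup.eq.2 ⟨s⁻¹, ?_⟩
  rw [hkey, powMonoidHom_apply, inv_pow, mul_assoc, mul_inv_rev, mul_comm (a * a')⁻¹,
    inv_mul_cancel_right]

variable (l p)

/-- The Kummer class `Z¹(ℚ_l, μ_p) → ℚ_lˣ / ℚ_lˣᵖ`. -/
def kummerClass : muZ1 l p →* ℚ_[l]ˣ ⧸ (powMonoidHom p : ℚ_[l]ˣ →* ℚ_[l]ˣ).range :=
  MonoidHom.mk' (fun u => QuotientGroup.mk (exists_isKummerDatum u.2).choose_spec.choose)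
    (fun u u' => IsKummerDatum.mk_mul (exists_isKummerDatum u.2).choose_spec.choose_spec
      (exists_isKummerDatum u'.2).choose_spec.choose_spec
      (exists_isKummerDatum (u * u').2).choose_spec.choose_spec (fun _ => rfl))

variable {l p}

omit [Fact p.Prime] in
/-- A cocycle with trivial Kummer class is the coboundary of a `p`-th root of unity. -/
theorem exists_root_of_kummerClass_eq_one {u : muZ1 l p} (h : kummerClass l p u = 1) :
    ∃ ξ : (PadicAlgCl l)ˣ, ξ ^ p = 1 ∧ ∀ g, g • ξ / ξ = u.1 g := by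
  have hd := (exists_isKummerDatum u.2).choose_spec.choose_spec
  set β := (exists_isKummerDatum u.2).choose
  set a := (exists_isKummerDatum u.2).choose_spec.choose
  have h1 : (QuotientGroup.mk a : ℚ_[l]ˣ ⧸ (powMonoidHom p : ℚ_[l]ˣ →* ℚ_[l]ˣ).range) = 1 := h
  obtain ⟨s, hs⟩ := (QuotientGroup.eq_one_iff _).1 h1
  refine ⟨β / Units.map (algebraMap ℚ_[l] (PadicAlgCl l) : ℚ_[l] →* PadicAlgCl l) s, ?_, fun g => ?_⟩
  · rw [div_pow, ← hd.2, ← map_pow, ← hs]
    exact div_self' _
  · rw [smul_div', smul_unitsMap, ← hd.1 g, div_div_div_cancel_right]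

variable (l p)

/-- The coboundary homomorphism `β ↦ (g ↦ g • β / β)`. -/
def cobHom : (PadicAlgCl l)ˣ →* ((PadicAlgCl l ≃ₐ[ℚ_[l]] PadicAlgCl l) → (PadicAlgCl l)ˣ) where
  toFun β g := g • β / β
  map_one' := by ext g; simp
  map_mul' β β' := by
    funext g
    simp only [Pi.mul_apply, smul_mul']
    exact mul_div_mul_comm _ _ _ _

/-- Coboundaries of the `p`-th roots of unity, parametrised by `ℤ/p`. -/
def rootCob : Multiplicative (ZMod p) →* ((PadicAlgCl l ≃ₐ[ℚ_[l]] PadicAlgCl l) → (PadicAlgCl l)ˣ) :=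
  (cobHom l).comp (helper6706.muExpHom (helper6706.zetaPadic p l) (helper6706.zetaPadic_pow l p))

theorem card_ker_mul_card_range_rootCob :
    Nat.card (rootCob l p).ker * Nat.card (rootCob l p).range = p := by
  rw [← Subgroup.index_ker, Subgroup.card_mul_index, Nat.card_eq_fintype_card]
  exact (Fintype.card_multiplicative _).trans (ZMod.card p)

theorem ker_kummerClass_mem_range (u : (kummerClass l p).ker) :
    (u.1.1) ∈ (rootCob l p).range := by
  obtain ⟨ξ, hξ, hu⟩ := exists_root_of_kummerClass_eq_one (MonoidHom.mem_ker.1 u.2)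
  obtain ⟨i, hi⟩ := (helper6706.mem_range_muExp_units_iff (helper6706.zetaPadic_pow l p)
    (helper6706.zetaPadic_ne_one l p) ξ).2 hξ
  refine ⟨Multiplicative.ofAdd i, funext fun g => ?_⟩
  rw [← hu g, ← hi]
  rfl

theorem ker_kummerClass_injective :
    Function.Injective (fun u : (kummerClass l p).ker =>
      (⟨u.1.1, ker_kummerClass_mem_range l p u⟩ : (rootCob l p).range)) := by
  intro u u' h
  have h1 := congrArg Subtype.val h
  exact Subtype.ext (Subtype.ext h1)

instance finite_range_rootCob : Finite (rootCob l p).range :=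
  Finite.of_surjective _ (rootCob l p).rangeRestrict_surjective

theorem card_ker_kummerClass_le : Nat.card (kummerClass l p).ker ≤ Nat.card (rootCob l p).range :=
  Nat.card_le_card_of_injective _ (ker_kummerClass_injective l p)

theorem card_rootsOfUnity_le : Nat.card (rootsOfUnity p ℚ_[l]) ≤ Nat.card (rootCob l p).ker := by
  have hex : ∀ ξ : rootsOfUnity p ℚ_[l], ∃ i : ZMod p,
      helper6706.muExp (helper6706.zetaPadic p l) i =
        Units.map (algebraMap ℚ_[l] (PadicAlgCl l) : ℚ_[l] →* PadicAlgCl l) (ξ : ℚ_[l]ˣ) := by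
    intro ξ
    refine (helper6706.mem_range_muExp_units_iff (helper6706.zetaPadic_pow l p)
      (helper6706.zetaPadic_ne_one l p) _).2 ?_
    rw [← map_pow, (mem_rootsOfUnity _ _).1 ξ.2, map_one]
  choose f hf using hex
  have hker : ∀ ξ : rootsOfUnity p ℚ_[l], Multiplicative.ofAdd (f ξ) ∈ (rootCob l p).ker := by
    intro ξ
    rw [MonoidHom.mem_ker]
    funext g
    show g • helper6706.muExp (helper6706.zetaPadic p l) (f ξ) /
      helper6706.muExp (helper6706.zetaPadic p l) (f ξ) = 1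
    rw [hf, smul_unitsMap, div_self']
  refine Nat.card_le_card_of_injective (fun ξ => ⟨Multiplicative.ofAdd (f ξ), hker ξ⟩) ?_
  intro ξ ξ' h
  have h1 : f ξ = f ξ' := by
    have := congrArg Subtype.val h
    exact Multiplicative.ofAdd.injective this
  have h2 := hf ξ
  rw [h1, hf ξ'] at h2
  exact Subtype.ext (unitsMap_injective l h2.symm)

/-- `#Z¹(ℚ_l, μ_p) ≤ p ^ 2 · (p if l = p)`, and the group is finite. -/
theorem finite_muZ1_and_card_le :
    Finite (muZ1 l p) ∧ Nat.card (muZ1 l p) ≤ p * (p * (if l = p then p else 1)) := by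
  have hp : p.Prime := Fact.out
  have hQfin := helper8235.finite_units_quot_pow l p ℚ_[l]
  have hQ := helper8235.card_units_quot_pow l p ℚ_[l]
  rw [Module.finrank_self, pow_one] at hQ
  have hcard : Nat.card (kummerClass l p).ker * Nat.card (kummerClass l p).range =
      Nat.card (muZ1 l p) := by
    rw [← Subgroup.index_ker, Subgroup.card_mul_index]
  have hrange : Nat.card (kummerClass l p).range ≤
      Nat.card (ℚ_[l]ˣ ⧸ (powMonoidHom p : ℚ_[l]ˣ →* ℚ_[l]ˣ).range) :=
    Nat.card_le_card_of_injective _ Subtype.val_injective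
  have hkerfin : Finite (kummerClass l p).ker :=
    Finite.of_injective _ (ker_kummerClass_injective l p)
  have hrangefin : Finite (kummerClass l p).range := Finite.of_injective _ Subtype.val_injective
  have hfin : Finite (muZ1 l p) := by
    apply Nat.finite_of_card_ne_zero
    rw [← hcard]
    exact mul_ne_zero Nat.card_pos.ne' Nat.card_pos.ne'
  refine ⟨hfin, ?_⟩
  have h4 : Nat.card (kummerClass l p).ker * Nat.card (rootsOfUnity p ℚ_[l]) ≤ p := by
    have h5 := card_ker_mul_card_range_rootCob l p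
    have h6 := Nat.mul_le_mul (card_ker_kummerClass_le l p) (card_rootsOfUnity_le l p)
    rw [mul_comm] at h5
    exact h6.trans h5.le
  calc Nat.card (muZ1 l p)
      = Nat.card (kummerClass l p).ker * Nat.card (kummerClass l p).range := hcard.symm
    _ ≤ Nat.card (kummerClass l p).ker *
          (p * Nat.card (rootsOfUnity p ℚ_[l]) * (if l = p then p else 1)) := by
        rw [← hQ]; exact Nat.mul_le_mul_left _ hrange
    _ = (Nat.card (kummerClass l p).ker * Nat.card (rootsOfUnity p ℚ_[l])) *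
          (p * (if l = p then p else 1)) := by ring
    _ ≤ p * (p * (if l = p then p else 1)) := Nat.mul_le_mul_right _ h4

end MulSide

section AddSide

variable (l p : ℕ) [Fact l.Prime] [Fact p.Prime]

/-- The mod `p` cyclotomic character of the local Galois group, as an element of `𝔽_p`. -/
abbrev chiL (g : PadicAlgCl l ≃ₐ[ℚ_[l]] PadicAlgCl l) : ZMod p :=
  ((cycloChar p (localGaloisToGlobal l g) : (ZMod p)ˣ) : ZMod p)

/-- Frozen-level-constant 1-cocycles of `Gal(ℚ̄_l/ℚ_l)` with values in `𝔽_p(χ)`. -/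
def cycloZ1 : Submodule (ZMod p) ((PadicAlgCl l ≃ₐ[ℚ_[l]] PadicAlgCl l) → ZMod p) where
  carrier := {c | (∀ g h, c (g * h) = chiL l p g * c h + c g) ∧
    IsLevelConstant₁ (localGaloisToGlobal l) c}
  add_mem' := by
    rintro c c' ⟨h1, h2⟩ ⟨h1', h2'⟩
    refine ⟨fun g h => ?_, h2.add h2'⟩
    simp only [Pi.add_apply, h1, h1']
    ring
  zero_mem' := ⟨fun g h => by simp, isLevelConstant₁_const _ (0 : ZMod p)⟩
  smul_mem' := by
    rintro a c ⟨h1, h2⟩
    refine ⟨fun g h => ?_, h2.comp (a • ·)⟩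
    simp only [Pi.smul_apply, smul_eq_mul, h1]
    ring

theorem mem_cycloZ1_iff (c : (PadicAlgCl l ≃ₐ[ℚ_[l]] PadicAlgCl l) → ZMod p) :
    c ∈ cycloZ1 l p ↔ (∀ g h, c (g * h) = chiL l p g * c h + c g) ∧
      IsLevelConstant₁ (localGaloisToGlobal l) c := Iff.rfl

/-- The exponential of a cocycle is a multiplicative `μ_p`-valued level cocycle. -/
theorem muExp_comp_mem_muZ1 {c : (PadicAlgCl l ≃ₐ[ℚ_[l]] PadicAlgCl l) → ZMod p}
    (hc : c ∈ cycloZ1 l p) :
    (fun g => helper6706.muExp (helper6706.zetaPadic p l) (c g)) ∈ muZ1 l p := by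
  obtain ⟨h1, h2⟩ := hc
  refine ⟨fun g h => ?_, ?_, fun g => helper6706.muExp_pow_prime (helper6706.zetaPadic_pow l p) _⟩
  · show helper6706.muExp (helper6706.zetaPadic p l) (c (g * h)) = _
    rw [h1, helper6706.muExp_add (helper6706.zetaPadic_pow l p),
      helper6706.smul_muExp (helper6706.zetaPadic_pow l p)
        (χ := (cycloChar p).comp (localGaloisToGlobal l)) (helper6706.smul_zetaPadic l) g (c h)]
    rfl
  · obtain ⟨K, hK, h⟩ := (helper698.isLevelConstant₁_localGaloisToGlobal_iff l c).1 h2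
    exact ⟨K, hK, fun g s hs => by
      show helper6706.muExp _ (c (g * s)) = helper6706.muExp _ (c g)
      rw [h g s hs]⟩

theorem finite_cycloZ1 : Finite (cycloZ1 l p) := by
  have := (finite_muZ1_and_card_le l p).1
  refine Finite.of_injective
    (fun c : cycloZ1 l p => (⟨_, muExp_comp_mem_muZ1 l p c.2⟩ : muZ1 l p)) ?_
  intro c c' h
  apply Subtype.ext
  funext g
  have h1 := congrFun (congrArg Subtype.val h) g
  exact helper6706.muExp_injective (helper6706.zetaPadic_pow l p) (helper6706.zetaPadic_ne_one l p) h1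

theorem card_cycloZ1_le : Nat.card (cycloZ1 l p) ≤ p * (p * (if l = p then p else 1)) := by
  have := (finite_muZ1_and_card_le l p).1
  refine le_trans (Nat.card_le_card_of_injective
    (fun c : cycloZ1 l p => (⟨_, muExp_comp_mem_muZ1 l p c.2⟩ : muZ1 l p)) ?_)
    (finite_muZ1_and_card_le l p).2
  intro c c' h
  apply Subtype.ext
  funext g
  have h1 := congrFun (congrArg Subtype.val h) g
  exact helper6706.muExp_injective (helper6706.zetaPadic_pow l p) (helper6706.zetaPadic_ne_one l p) h1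

instance : Module.Finite (ZMod p) (cycloZ1 l p) :=
  haveI := finite_cycloZ1 l p
  Module.Finite.of_finite

/-- **`dim_{𝔽_p} Z¹(ℚ_l, μ_p) ≤ 2 + [l = p]`** on the frozen level-constant cochains. -/
theorem finrank_cycloZ1_le :
    Module.finrank (ZMod p) (cycloZ1 l p) ≤ 2 + (if l = p then 1 else 0) := by
  have hp : p.Prime := Fact.out
  have := finite_cycloZ1 l p
  have h1 : Nat.card (cycloZ1 l p) = p ^ Module.finrank (ZMod p) (cycloZ1 l p) := by
    rw [Module.natCard_eq_pow_finrank (K := ZMod p), Nat.card_eq_fintype_card, ZMod.card]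
  have h2 := card_cycloZ1_le l p
  rw [h1] at h2
  have h3 : p * (p * (if l = p then p else 1)) = p ^ (2 + (if l = p then 1 else 0)) := by
    split_ifs <;> ring
  rw [h3] at h2
  exact (Nat.pow_le_pow_iff_right hp.one_lt).1 h2

end AddSide

end

end Fermat.Agent.S56.helper1962
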