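/-
S56, leaf LOC-R2 (seat helper1962): the COUNT for the strict-ordinary local condition, generic in
the module.

`M : Rep (ZMod p) G_ℚ`, `r : G →* G_ℚ` any group over `G_ℚ` (instance: the frozen local group at
`p`), `W ≤ M` a subspace on which `G` acts through a character `χ`.

* `cornerZ1 r M W` : level 1-cocycles `G → M` of `Rep.res r M` with values in `W`;
  `finite_cornerZ1_and_finrank_le` : `dim ≤ dim W · dim Z¹_level(G, 𝔽_p(χ))`.
* `strictZ r M W := cornerZ1 r M W ⊔ B¹(G, M)`;
  `finite_strictZ_and_finrank_add_le` : `dim strictZ + dim T ≤ dim cornerZ1 + dim M` for every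
  `T ≤ M` with `(g - 1) T ⊆ W`.
* `cornerH1 r M W` : the classes of `cornerZ1` in the frozen `H¹`;
  `finrank_cornerH1_add_le` : `dim cornerH1 + dim T ≤ dim cornerZ1 + h⁰(G, M)`.
* at the prime `p` (frozen carrier `helper15.LocH1 M (pPrime p)`): `strictLoc p M W` and
  `finrank_strictLoc_add_le` :
  `dim strictLoc + dim T ≤ 3 · dim W + h⁰(ℚ_p, M)` when `G_{ℚ_p}` acts on `W` by the mod `p`
  cyclotomic character and `(g - 1) T ⊆ W`.  With `dim W = f`, `dim T = 2 f` this is
  `dim L_p ≤ h⁰(ℚ_p, M) + f`.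
-/
import Mathlib
import Fermat.Agent.S55.helper15_StepC
import Fermat.Agent.S56.helper1962_CycloZ1

set_option autoImplicit false

namespace Fermat.Agent.S56.helper1962

open groupCohomology ExtCitation Module
open Fermat.Agent.S55

local notation "GQ" => (AlgebraicClosure ℚ ≃ₐ[ℚ] AlgebraicClosure ℚ)

noncomputable section

section Generic

variable {p : ℕ} [Fact p.Prime] {G : Type} [Group G] (r : G →* GQ)
  (M : Rep.{0, 0, 0} (ZMod p) GQ)

/-- Level 1-cocycles of `Rep.res r M` with values in the subspace `W`. -/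
def cornerZ1 (W : Submodule (ZMod p) M) : Submodule (ZMod p) (G → M) where
  carrier := {c | (∀ g h, c (g * h) = M.ρ (r g) (c h) + c g) ∧ IsLevelConstant₁ r c ∧
    ∀ g, c g ∈ W}
  add_mem' := by
    rintro c c' ⟨h1, h2, h3⟩ ⟨h1', h2', h3'⟩
    refine ⟨fun g h => ?_, h2.add h2', fun g => W.add_mem (h3 g) (h3' g)⟩
    simp only [Pi.add_apply, h1, h1', map_add]
    abel
  zero_mem' := ⟨fun g h => by simp, isLevelConstant₁_const r (0 : M), fun g => W.zero_mem⟩
  smul_mem' := by
    rintro a c ⟨h1, h2, h3⟩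
    refine ⟨fun g h => ?_, h2.comp (a • ·), fun g => W.smul_mem a (h3 g)⟩
    simp only [Pi.smul_apply, h1, map_smul, smul_add]

theorem mem_cornerZ1_iff (W : Submodule (ZMod p) M) (c : G → M) :
    c ∈ cornerZ1 r M W ↔ (∀ g h, c (g * h) = M.ρ (r g) (c h) + c g) ∧ IsLevelConstant₁ r c ∧
      ∀ g, c g ∈ W := Iff.rfl

/-- The coboundary map `m ↦ (g ↦ g m - m)` of `Rep.res r M`. -/
def cobMap : M →ₗ[ZMod p] (G → M) where
  toFun m g := M.ρ (r g) m - m
  map_add' x y := by
    funext g
    simp only [Pi.add_apply, map_add]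
    abel
  map_smul' a x := by
    funext g
    simp only [Pi.smul_apply, map_smul, smul_sub, RingHom.id_apply]

@[simp] theorem cobMap_apply (m : M) (g : G) : cobMap r M m g = M.ρ (r g) m - m := rfl

/-- `W`-valued level cocycles plus all coboundaries. -/
def strictZ (W : Submodule (ZMod p) M) : Submodule (ZMod p) (G → M) :=
  cornerZ1 r M W ⊔ LinearMap.range (cobMap r M)

/-- Level 1-cocycles `G → 𝔽_p(χ)`. -/
def charZ1 (χ : G → ZMod p) : Submodule (ZMod p) (G → ZMod p) where
  carrier := {c | (∀ g h, c (g * h) = χ g * c h + c g) ∧ IsLevelConstant₁ r c}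
  add_mem' := by
    rintro c c' ⟨h1, h2⟩ ⟨h1', h2'⟩
    refine ⟨fun g h => ?_, h2.add h2'⟩
    simp only [Pi.add_apply, h1, h1']
    ring
  zero_mem' := ⟨fun g h => by simp, isLevelConstant₁_const r (0 : ZMod p)⟩
  smul_mem' := by
    rintro a c ⟨h1, h2⟩
    refine ⟨fun g h => ?_, h2.comp (a • ·)⟩
    simp only [Pi.smul_apply, smul_eq_mul, h1]
    ring

/-- **Theorem A.** If `G` acts on `W` through `χ`, then
`dim cornerZ1 ≤ dim W · dim Z¹_level(G, 𝔽_p(χ))`. -/
theorem finite_cornerZ1_and_finrank_le (χ : G → ZMod p) [Module.Finite (ZMod p) (charZ1 r χ)]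
    (W : Submodule (ZMod p) M) [Module.Finite (ZMod p) W]
    (hW : ∀ g, ∀ w ∈ W, M.ρ (r g) w = χ g • w) :
    Module.Finite (ZMod p) (cornerZ1 r M W) ∧
      finrank (ZMod p) (cornerZ1 r M W) ≤ finrank (ZMod p) W * finrank (ZMod p) (charZ1 r χ) := by
  classical
  let b := Module.finBasis (ZMod p) W
  have hcomp : ∀ (c : cornerZ1 r M W) (i : Fin (finrank (ZMod p) W)),
      (fun g => b.repr ⟨c.1 g, c.2.2.2 g⟩ i) ∈ charZ1 r χ := by
    intro c i
    obtain ⟨h1, h2, h3⟩ := c.2
    refine ⟨fun g h => ?_, ?_⟩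
    · have e : (⟨c.1 (g * h), h3 (g * h)⟩ : W) = χ g • ⟨c.1 h, h3 h⟩ + ⟨c.1 g, h3 g⟩ := by
        apply Subtype.ext
        show c.1 (g * h) = χ g • c.1 h + c.1 g
        rw [h1, hW g _ (h3 h)]
      show b.repr ⟨c.1 (g * h), h3 (g * h)⟩ i = χ g * b.repr ⟨c.1 h, h3 h⟩ i + b.repr ⟨c.1 g, h3 g⟩ i
      rw [e, map_add, map_smul]
      rfl
    · obtain ⟨F, hF, h⟩ := h2
      exact ⟨F, hF, fun g s hs => by
        have e : (⟨c.1 (g * s), h3 (g * s)⟩ : W) = ⟨c.1 g, h3 g⟩ := Subtype.ext (h g s hs)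
        show b.repr ⟨c.1 (g * s), h3 (g * s)⟩ i = b.repr ⟨c.1 g, h3 g⟩ i
        rw [e]⟩
  let Ψ : cornerZ1 r M W →ₗ[ZMod p] (Fin (finrank (ZMod p) W) → charZ1 r χ) :=
    { toFun := fun c i => ⟨fun g => b.repr ⟨c.1 g, c.2.2.2 g⟩ i, hcomp c i⟩
      map_add' := by
        intro c c'
        funext i
        apply Subtype.ext
        funext g
        show b.repr ⟨c.1 g + c'.1 g, _⟩ i = b.repr ⟨c.1 g, _⟩ i + b.repr ⟨c'.1 g, _⟩ i
        rw [← Finsupp.add_apply, ← map_add]
        rfl
      map_smul' := by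
        intro a c
        funext i
        apply Subtype.ext
        funext g
        show b.repr ⟨a • c.1 g, _⟩ i = a • b.repr ⟨c.1 g, _⟩ i
        rw [← Finsupp.smul_apply, ← map_smul]
        rfl }
  have hΨ : Function.Injective Ψ := by
    intro c c' h
    apply Subtype.ext
    funext g
    have h1 : (⟨c.1 g, c.2.2.2 g⟩ : W) = ⟨c'.1 g, c'.2.2.2 g⟩ := by
      apply b.repr.injective
      ext i
      exact congrFun (congrArg Subtype.val (congrFun h i)) g
    exact congrArg Subtype.val h1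
  refine ⟨Module.Finite.of_injective Ψ hΨ, ?_⟩
  have h1 := LinearMap.finrank_le_finrank_of_injective hΨ
  rw [Module.finrank_pi_fintype, Finset.sum_const, Finset.card_univ, Fintype.card_fin,
    smul_eq_mul] at h1
  exact h1

variable {r M}

/-- Smoothness of `M` makes coboundaries level-constant. -/
theorem isLevelConstant₁_cobMap
    (hsm : ∀ m : M, ∃ F : IntermediateField ℚ (AlgebraicClosure ℚ), FiniteDimensional ℚ F ∧
      ∀ s ∈ F.fixingSubgroup, M.ρ s m = m) (m : M) :
    IsLevelConstant₁ r (cobMap r M m) := by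
  obtain ⟨F, hF, h⟩ := hsm m
  refine ⟨F, hF, fun g s hs => ?_⟩
  show M.ρ (r (g * s)) m - m = M.ρ (r g) m - m
  rw [map_mul, map_mul, Module.End.mul_apply, h _ hs]

theorem cobMap_mul (m : M) (g h : G) :
    cobMap r M m (g * h) = M.ρ (r g) (cobMap r M m h) + cobMap r M m g := by
  simp only [cobMap_apply, map_mul, Module.End.mul_apply, map_sub]
  abel

/-- Coboundaries of elements of `T` are `W`-valued level cocycles when `(g - 1) T ⊆ W`. -/
theorem cobMap_mem_cornerZ1
    (hsm : ∀ m : M, ∃ F : IntermediateField ℚ (AlgebraicClosure ℚ), FiniteDimensional ℚ F ∧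
      ∀ s ∈ F.fixingSubgroup, M.ρ s m = m)
    {W T : Submodule (ZMod p) M} (hT : ∀ g, ∀ t ∈ T, M.ρ (r g) t - t ∈ W) {t : M} (ht : t ∈ T) :
    cobMap r M t ∈ cornerZ1 r M W :=
  ⟨fun g h => cobMap_mul t g h, isLevelConstant₁_cobMap hsm t, fun g => hT g t ht⟩

variable (r M)

/-- **Theorem B.** `dim strictZ + dim T ≤ dim cornerZ1 + dim M`. -/
theorem finite_strictZ_and_finrank_add_le [Module.Finite (ZMod p) M]
    (hsm : ∀ m : M, ∃ F : IntermediateField ℚ (AlgebraicClosure ℚ), FiniteDimensional ℚ F ∧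
      ∀ s ∈ F.fixingSubgroup, M.ρ s m = m)
    (W T : Submodule (ZMod p) M) [Module.Finite (ZMod p) (cornerZ1 r M W)]
    (hT : ∀ g, ∀ t ∈ T, M.ρ (r g) t - t ∈ W) :
    Module.Finite (ZMod p) (strictZ r M W) ∧
      finrank (ZMod p) (strictZ r M W) + finrank (ZMod p) T ≤
        finrank (ZMod p) (cornerZ1 r M W) + finrank (ZMod p) M := by
  let Φ : (cornerZ1 r M W × M) →ₗ[ZMod p] (G → M) :=
    (cornerZ1 r M W).subtype.coprod (cobMap r M)
  have hrange : LinearMap.range Φ = strictZ r M W := by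
    rw [LinearMap.range_coprod, Submodule.range_subtype]
    rfl
  have hfin : Module.Finite (ZMod p) (strictZ r M W) := by
    rw [← hrange]
    infer_instance
  refine ⟨hfin, ?_⟩
  let ι : T →ₗ[ZMod p] LinearMap.ker Φ :=
    { toFun := fun t => ⟨(-⟨cobMap r M t.1, cobMap_mem_cornerZ1 hsm hT t.2⟩, t.1), by
        rw [LinearMap.mem_ker]
        show ((cornerZ1 r M W).subtype.coprod (cobMap r M)) _ = 0
        rw [LinearMap.coprod_apply]
        simp⟩
      map_add' := by
        intro t t'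
        apply Subtype.ext
        apply Prod.ext
        · apply Subtype.ext
          show -(cobMap r M (t.1 + t'.1)) = -(cobMap r M t.1) + -(cobMap r M t'.1)
          rw [map_add, neg_add]
        · rfl
      map_smul' := by
        intro a t
        apply Subtype.ext
        apply Prod.ext
        · apply Subtype.ext
          show -(cobMap r M (a • t.1)) = a • -(cobMap r M t.1)
          rw [map_smul, smul_neg]
        · rfl }
  have hι : Function.Injective ι := by
    intro t t' h
    exact Subtype.ext (congrArg (fun x : LinearMap.ker Φ => x.1.2) h)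
  have h1 := LinearMap.finrank_le_finrank_of_injective hι
  have h2 := LinearMap.finrank_range_add_finrank_ker Φ
  rw [Module.finrank_prod, hrange] at h2
  omega

/-- The classes in `H¹(G, Res M)` of the `W`-valued level cocycles. -/
def cornerH1 (W : Submodule (ZMod p) M) : Submodule (ZMod p) (H1 (Rep.res r M)) :=
  ((cornerZ1 r M W).comap (cocycles₁ (Rep.res r M)).subtype).map (H1π (Rep.res r M)).hom

theorem mem_cornerH1_iff (W : Submodule (ZMod p) M) (x : H1 (Rep.res r M)) :
    x ∈ cornerH1 r M W ↔ ∃ c : cocycles₁ (Rep.res r M), (c : G → M) ∈ cornerZ1 r M W ∧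
      (H1π (Rep.res r M)).hom c = x := by
  simp only [cornerH1, Submodule.mem_map, Submodule.mem_comap]
  rfl

theorem cornerH1_le_continuousH1 (W : Submodule (ZMod p) M) :
    cornerH1 r M W ≤ continuousH1 r (Rep.res r M) := by
  intro x hx
  obtain ⟨c, hc, rfl⟩ := (mem_cornerH1_iff r M W x).1 hx
  exact H1π_mem_continuousH1 r _ hc.2.1

theorem cornerZ1_le_cocycles₁ (W : Submodule (ZMod p) M) :
    cornerZ1 r M W ≤ cocycles₁ (Rep.res r M) := by
  intro c hc
  exact (mem_cocycles₁_iff (A := Rep.res r M) c).2 hc.1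

theorem cobMap_mem_coboundaries₁ (m : M) : cobMap r M m ∈ coboundaries₁ (Rep.res r M) :=
  ⟨m, rfl⟩

/-- A cocycle lying in `strictZ` has its class in `cornerH1`. -/
theorem mem_cornerH1_of_mem_strictZ (W : Submodule (ZMod p) M) (a : cocycles₁ (Rep.res r M))
    (ha : (a : G → M) ∈ strictZ r M W) : (H1π (Rep.res r M)).hom a ∈ cornerH1 r M W := by
  obtain ⟨c, hc, b, ⟨m, rfl⟩, hab⟩ := Submodule.mem_sup.1 ha
  refine (mem_cornerH1_iff r M W _).2 ⟨⟨c, cornerZ1_le_cocycles₁ r M W hc⟩, hc, ?_⟩
  symm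
  show (H1π (Rep.res r M)) a = (H1π (Rep.res r M)) ⟨c, cornerZ1_le_cocycles₁ r M W hc⟩
  rw [H1π_eq_iff]
  have : (a : G → M) - c = cobMap r M m := by rw [← hab]; abel
  show (a : G → M) - c ∈ coboundaries₁ (Rep.res r M)
  rw [this]
  exact cobMap_mem_coboundaries₁ r M m

/-- **Theorem C.** `dim cornerH1 + dim T ≤ dim cornerZ1 + h⁰(G, M)`. -/
theorem finrank_cornerH1_add_le [Module.Finite (ZMod p) M]
    (hsm : ∀ m : M, ∃ F : IntermediateField ℚ (AlgebraicClosure ℚ), FiniteDimensional ℚ F ∧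
      ∀ s ∈ F.fixingSubgroup, M.ρ s m = m)
    (W T : Submodule (ZMod p) M) [Module.Finite (ZMod p) (cornerZ1 r M W)]
    (hT : ∀ g, ∀ t ∈ T, M.ρ (r g) t - t ∈ W) :
    finrank (ZMod p) (cornerH1 r M W) + finrank (ZMod p) T ≤
      finrank (ZMod p) (cornerZ1 r M W) +
        finrank (ZMod p) (Representation.invariants (Rep.res r M).ρ) := by
  -- the class map on `cornerZ1`
  let π : cornerZ1 r M W →ₗ[ZMod p] H1 (Rep.res r M) :=
    (H1π (Rep.res r M)).hom ∘ₗ Submodule.inclusion (cornerZ1_le_cocycles₁ r M W)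
  have hrange : LinearMap.range π = cornerH1 r M W := by
    ext x
    rw [mem_cornerH1_iff]
    constructor
    · rintro ⟨c, rfl⟩
      exact ⟨Submodule.inclusion (cornerZ1_le_cocycles₁ r M W) c, c.2, rfl⟩
    · rintro ⟨c, hc, rfl⟩
      exact ⟨⟨c, hc⟩, rfl⟩
  -- coboundaries of `T` lie in the kernel
  let δ : T →ₗ[ZMod p] LinearMap.ker π :=
    { toFun := fun t => ⟨⟨cobMap r M t.1, cobMap_mem_cornerZ1 hsm hT t.2⟩, by
        rw [LinearMap.mem_ker]
        show (H1π (Rep.res r M)) _ = 0
        rw [H1π_eq_zero_iff]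
        exact cobMap_mem_coboundaries₁ r M t.1⟩
      map_add' := by
        intro t t'
        apply Subtype.ext
        apply Subtype.ext
        show cobMap r M (t.1 + t'.1) = cobMap r M t.1 + cobMap r M t'.1
        rw [map_add]
      map_smul' := by
        intro a t
        apply Subtype.ext
        apply Subtype.ext
        show cobMap r M (a • t.1) = a • cobMap r M t.1
        rw [map_smul] }
  -- the kernel of `δ` consists of invariants
  let κ : LinearMap.ker δ →ₗ[ZMod p] Representation.invariants (Rep.res r M).ρ :=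
    { toFun := fun t => ⟨t.1.1, by
        intro g
        have h1 : δ t.1 = 0 := t.2
        have h2 : cobMap r M t.1.1 g = 0 :=
          congrFun (congrArg (fun x : LinearMap.ker π => (x.1.1 : G → M)) h1) g
        rw [cobMap_apply, sub_eq_zero] at h2
        exact h2⟩
      map_add' := fun _ _ => rfl
      map_smul' := fun _ _ => rfl }
  have hκ : Function.Injective κ := by
    intro t t' h
    have h0 : t.1.1 = t'.1.1 := congrArg (fun x : Representation.invariants (Rep.res r M).ρ => x.1) h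
    exact Subtype.ext (Subtype.ext h0)
  have h1 := LinearMap.finrank_le_finrank_of_injective hκ
  have h2 := LinearMap.finrank_range_add_finrank_ker δ
  have h3 := LinearMap.finrank_range_add_finrank_ker π
  have h4 : finrank (ZMod p) (LinearMap.range δ) ≤ finrank (ZMod p) (LinearMap.ker π) :=
    Submodule.finrank_le _
  rw [hrange] at h3
  omega

end Generic

/-! ### The frozen local carrier at `p` -/

section AtP

variable (p : ℕ) [Fact p.Prime] (M : Rep.{0, 0, 0} (ZMod p) GQ)

/-- The mod `p` cyclotomic character on the frozen local group at `p`, with values in `𝔽_p`. -/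
def chiP (g : primeLocalGaloisGroup (pPrime p)) : ZMod p :=
  ((cycloChar p (primeLocalToGlobal (pPrime p) g) : (ZMod p)ˣ) : ZMod p)

/-- `dim Z¹_level(ℚ_p, 𝔽_p(χ)) ≤ 3` on the frozen local group at `p`. -/
theorem finite_charZ1_primeLocal_and_finrank_le :
    Module.Finite (ZMod p) (charZ1 (primeLocalToGlobal (pPrime p)) (chiP p)) ∧
      finrank (ZMod p) (charZ1 (primeLocalToGlobal (pPrime p)) (chiP p)) ≤ 3 := by
  let f : charZ1 (primeLocalToGlobal (pPrime p)) (chiP p) →ₗ[ZMod p] cycloZ1 p p :=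
    { toFun := fun c => ⟨c.1, c.2⟩
      map_add' := fun _ _ => rfl
      map_smul' := fun _ _ => rfl }
  have hf : Function.Injective f := by
    intro c c' h
    have h0 : c.1 = c'.1 := congrArg (fun x : cycloZ1 p p => x.1) h
    exact Subtype.ext h0
  refine ⟨Module.Finite.of_injective f hf, ?_⟩
  have h1 := LinearMap.finrank_le_finrank_of_injective hf
  have h2 := finrank_cycloZ1_le p p
  rw [if_pos rfl] at h2
  omega

instance : Module.Finite (ZMod p) (charZ1 (primeLocalToGlobal (pPrime p)) (chiP p)) :=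
  (finite_charZ1_primeLocal_and_finrank_le p).1

/-- **The strict-ordinary local condition at `p`** for a subspace `W` (the corner): the classes
in the frozen local `H¹` with a level cocycle representative with values in `W`. -/
def strictLoc (W : Submodule (ZMod p) M) : Submodule (ZMod p) (helper15.LocH1 M (pPrime p)) :=
  (cornerH1 (primeLocalToGlobal (pPrime p)) M W).comap
    (continuousH1 (primeLocalToGlobal (pPrime p))
      (Rep.res (primeLocalToGlobal (pPrime p)) M)).subtype

theorem mem_strictLoc_iff (W : Submodule (ZMod p) M) (x : helper15.LocH1 M (pPrime p)) :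
    x ∈ strictLoc p M W ↔ ∃ c : cocycles₁ (Rep.res (primeLocalToGlobal (pPrime p)) M),
      (c : primeLocalGaloisGroup (pPrime p) → M) ∈ cornerZ1 (primeLocalToGlobal (pPrime p)) M W ∧
        (H1π (Rep.res (primeLocalToGlobal (pPrime p)) M)).hom c = x.1 := by
  rw [strictLoc, Submodule.mem_comap, Submodule.subtype_apply, mem_cornerH1_iff]

/-- The class of a local cocycle lying in `strictZ` (a `W`-valued level cocycle plus a
coboundary) lies in `strictLoc`. -/
theorem mem_strictLoc_of_mem_strictZ (W : Submodule (ZMod p) M)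
    (a : cocycles₁ (Rep.res (primeLocalToGlobal (pPrime p)) M))
    (ha : (a : primeLocalGaloisGroup (pPrime p) → M) ∈ strictZ (primeLocalToGlobal (pPrime p)) M W)
    (x : helper15.LocH1 M (pPrime p))
    (hx : x.1 = (H1π (Rep.res (primeLocalToGlobal (pPrime p)) M)).hom a) :
    x ∈ strictLoc p M W := by
  rw [strictLoc, Submodule.mem_comap, Submodule.subtype_apply, hx]
  exact mem_cornerH1_of_mem_strictZ _ M W a ha

theorem finrank_strictLoc_eq (W : Submodule (ZMod p) M) :
    finrank (ZMod p) (strictLoc p M W) =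
      finrank (ZMod p) (cornerH1 (primeLocalToGlobal (pPrime p)) M W) :=
  (Submodule.comapSubtypeEquivOfLe (cornerH1_le_continuousH1 _ M W)).finrank_eq

variable {M}

/-- **(R2c) The local count at `p`, cochain form** (input of the LOC-CARRIER / LOC-SEAM
transport): `strictZ` is finite-dimensional and `dim strictZ + dim T ≤ 3 dim W + dim M`. -/
theorem finite_strictZ_primeLocal_and_finrank_add_le [Module.Finite (ZMod p) M]
    (hsm : ∀ m : M, ∃ F : IntermediateField ℚ (AlgebraicClosure ℚ), FiniteDimensional ℚ F ∧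
      ∀ s ∈ F.fixingSubgroup, M.ρ s m = m)
    (W T : Submodule (ZMod p) M)
    (hW : ∀ g, ∀ w ∈ W, M.ρ (primeLocalToGlobal (pPrime p) g) w = chiP p g • w)
    (hT : ∀ g, ∀ t ∈ T, M.ρ (primeLocalToGlobal (pPrime p) g) t - t ∈ W) :
    Module.Finite (ZMod p) (strictZ (primeLocalToGlobal (pPrime p)) M W) ∧
      finrank (ZMod p) (strictZ (primeLocalToGlobal (pPrime p)) M W) + finrank (ZMod p) T ≤
        3 * finrank (ZMod p) W + finrank (ZMod p) M := by
  obtain ⟨hfin, hle⟩ := finite_cornerZ1_and_finrank_le (primeLocalToGlobal (pPrime p)) M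
    (chiP p) W hW
  obtain ⟨hfin', hle'⟩ := finite_strictZ_and_finrank_add_le (primeLocalToGlobal (pPrime p)) M
    hsm W T hT
  refine ⟨hfin', ?_⟩
  have h3 := (finite_charZ1_primeLocal_and_finrank_le p).2
  have h4 : finrank (ZMod p) W * finrank (ZMod p) (charZ1 (primeLocalToGlobal (pPrime p)) (chiP p))
      ≤ finrank (ZMod p) W * 3 := Nat.mul_le_mul_left _ h3
  omega

/-- **(R2c) The local count at `p`, frozen `H¹` form** (captain's item 4):
`dim strictLoc + dim T ≤ 3 dim W + h⁰(ℚ_p, M)`. -/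
theorem finrank_strictLoc_add_le [Module.Finite (ZMod p) M]
    (hsm : ∀ m : M, ∃ F : IntermediateField ℚ (AlgebraicClosure ℚ), FiniteDimensional ℚ F ∧
      ∀ s ∈ F.fixingSubgroup, M.ρ s m = m)
    (W T : Submodule (ZMod p) M)
    (hW : ∀ g, ∀ w ∈ W, M.ρ (primeLocalToGlobal (pPrime p) g) w = chiP p g • w)
    (hT : ∀ g, ∀ t ∈ T, M.ρ (primeLocalToGlobal (pPrime p) g) t - t ∈ W) :
    finrank (ZMod p) (strictLoc p M W) + finrank (ZMod p) T ≤
      3 * finrank (ZMod p) W + finrank (ZMod p)
        (Representation.invariants (Rep.res (primeLocalToGlobal (pPrime p)) M).ρ) := by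
  obtain ⟨hfin, hle⟩ := finite_cornerZ1_and_finrank_le (primeLocalToGlobal (pPrime p)) M
    (chiP p) W hW
  have h2 := finrank_cornerH1_add_le (primeLocalToGlobal (pPrime p)) M hsm W T hT
  have h3 := (finite_charZ1_primeLocal_and_finrank_le p).2
  have h4 : finrank (ZMod p) W * finrank (ZMod p) (charZ1 (primeLocalToGlobal (pPrime p)) (chiP p))
      ≤ finrank (ZMod p) W * 3 := Nat.mul_le_mul_left _ h3
  rw [finrank_strictLoc_eq]
  omega

/-- The count in the shape `dim L_p ≤ h⁰(ℚ_p, M) + f` (`dim W = f`, `dim T = 2 f`). -/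
theorem finrank_strictLoc_le [Module.Finite (ZMod p) M]
    (hsm : ∀ m : M, ∃ F : IntermediateField ℚ (AlgebraicClosure ℚ), FiniteDimensional ℚ F ∧
      ∀ s ∈ F.fixingSubgroup, M.ρ s m = m)
    (W T : Submodule (ZMod p) M) (f : ℕ) (hWf : finrank (ZMod p) W = f)
    (hTf : finrank (ZMod p) T = 2 * f)
    (hW : ∀ g, ∀ w ∈ W, M.ρ (primeLocalToGlobal (pPrime p) g) w = chiP p g • w)
    (hT : ∀ g, ∀ t ∈ T, M.ρ (primeLocalToGlobal (pPrime p) g) t - t ∈ W) :
    finrank (ZMod p) (strictLoc p M W) ≤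
      finrank (ZMod p) (Representation.invariants (Rep.res (primeLocalToGlobal (pPrime p)) M).ρ)
        + f := by
  have h := finrank_strictLoc_add_le p hsm W T hW hT
  omega

end AtP

end

end Fermat.Agent.S56.helper1962
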