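/-
S56 node LOC-CARRIER (helper6044): the generic adapter between

* cocycle FUNCTIONS on the decomposition group `D = (primeLocalPlace q).decompositionSubgroup ℚ`
  inside `Gal(ℚ̄/ℚ)` (the vocabulary of the frozen local clauses), and
* the S55 local carrier `helper15.LocH1 M q = continuousH1 (primeLocalToGlobal q) (Rep.res _ M)`.

Main surface (`k` a field, `M : Rep k GQ`, `q : Nat.Primes`):

* `locZ1 M q`, `locB1 M q : Submodule k (↥(decomp q) → M)` : level cocycles / coboundaries on `D`;
* `locClass M q : ↥(locZ1 M q) →ₗ[k] LocH1 M q`, surjective, with kernel the coboundaries;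
* `resTotal_eq_locClass` : the localisation of a global class is the class of the restriction
  of a representing cocycle to `D`;
* `locSub M q Z : Submodule k (LocH1 M q)` for a space `Z` of functions on `D`, with
  `finrank_locSub_add` : `finrank (locSub Z) + finrank M = finrank Z + finrank H⁰(ℚ_q, M)`
  when `locB1 ≤ Z ≤ locZ1`.
-/
import Mathlib
import Fermat.Agent.S55.helper15_StepC
import Fermat.Agent.S55.helper4145_Decomp

set_option autoImplicit false

namespace Fermat.Agent.S56.helper6044

open groupCohomology ExtCitation Module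
open Fermat.Agent.S55

noncomputable section

/-- The absolute Galois group of `ℚ`. -/
abbrev GQ : Type := AlgebraicClosure ℚ ≃ₐ[ℚ] AlgebraicClosure ℚ

/-- The decomposition group of the frozen place over `q`. -/
abbrev decomp (q : Nat.Primes) : Subgroup GQ := (primeLocalPlace q).decompositionSubgroup ℚ

theorem primeLocalToGlobal_mem_decomp (q : Nat.Primes) (τ : primeLocalGaloisGroup q) :
    primeLocalToGlobal q τ ∈ decomp q := by
  have h : primeLocalToGlobal q τ ∈ (primeLocalToGlobal q).range := ⟨τ, rfl⟩
  rwa [helper4145.primeLocalToGlobal_range] at h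

/-- The local Galois group is the decomposition group. -/
def locEquiv (q : Nat.Primes) : primeLocalGaloisGroup q ≃* ↥(decomp q) :=
  MulEquiv.ofBijective
    ((primeLocalToGlobal q).codRestrict _ (primeLocalToGlobal_mem_decomp q))
    ⟨fun _ _ h => helper698.primeLocalToGlobal_injective q (congrArg Subtype.val h),
      fun σ => by
        obtain ⟨τ, hτ⟩ := helper4145.exists_primeLocalToGlobal_eq q σ.2
        exact ⟨τ, Subtype.ext hτ⟩⟩

@[simp] theorem coe_locEquiv (q : Nat.Primes) (τ : primeLocalGaloisGroup q) :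
    ((locEquiv q τ : ↥(decomp q)) : GQ) = primeLocalToGlobal q τ := rfl

theorem primeLocalToGlobal_locEquiv_symm (q : Nat.Primes) (σ : ↥(decomp q)) :
    primeLocalToGlobal q ((locEquiv q).symm σ) = σ := by
  have := (locEquiv q).apply_symm_apply σ
  exact congrArg Subtype.val this

section Carrier

variable {k : Type} [Field k] (M : Rep.{0, 0, 0} k GQ) (q : Nat.Primes)

/-- Level condition for a function on the decomposition group. -/
def IsLevD {X : Type*} (c : ↥(decomp q) → X) : Prop :=
  ∃ F : IntermediateField ℚ (AlgebraicClosure ℚ), FiniteDimensional ℚ F ∧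
    ∀ g s : ↥(decomp q), (s : GQ) ∈ F.fixingSubgroup → c (g * s) = c g

variable {q} in
lemma IsLevD.add {X : Type*} [Add X] {c c' : ↥(decomp q) → X} (hc : IsLevD q c)
    (hc' : IsLevD q c') : IsLevD q (c + c') := by
  obtain ⟨F, hF, h⟩ := hc
  obtain ⟨F', hF', h'⟩ := hc'
  have := hF
  have := hF'
  refine ⟨F ⊔ F', inferInstance, fun g s hs => ?_⟩
  have h1 : (s : GQ) ∈ F.fixingSubgroup :=
    IntermediateField.fixingSubgroup_antitone le_sup_left hs
  have h2 : (s : GQ) ∈ F'.fixingSubgroup :=
    IntermediateField.fixingSubgroup_antitone le_sup_right hs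
  simp only [Pi.add_apply, h g s h1, h' g s h2]

variable {q} in
lemma IsLevD.comp {X Y : Type*} {c : ↥(decomp q) → X} (hc : IsLevD q c) (φ : X → Y) :
    IsLevD q (φ ∘ c) := by
  obtain ⟨F, hF, h⟩ := hc
  exact ⟨F, hF, fun g s hs => by simp only [Function.comp_apply, h g s hs]⟩

lemma isLevD_const {X : Type*} (x : X) : IsLevD q (fun _ : ↥(decomp q) => x) :=
  ⟨⊥, inferInstance, fun _ _ _ => rfl⟩

/-- Level 1-cocycles on the decomposition group, as functions. -/
def locZ1 : Submodule k (↥(decomp q) → M) where
  carrier := {c | (∀ g h : ↥(decomp q), c (g * h) = c g + M.ρ (g : GQ) (c h)) ∧ IsLevD q c}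
  add_mem' := by
    rintro c c' ⟨hc, hl⟩ ⟨hc', hl'⟩
    refine ⟨fun g h => ?_, hl.add hl'⟩
    simp only [Pi.add_apply, hc g h, hc' g h, map_add]
    abel
  zero_mem' := ⟨fun g h => by simp, isLevD_const q (0 : M)⟩
  smul_mem' := by
    rintro a c ⟨hc, hl⟩
    refine ⟨fun g h => ?_, hl.comp (a • ·)⟩
    simp only [Pi.smul_apply, hc g h, smul_add, map_smul]

lemma mem_locZ1_iff (c : ↥(decomp q) → M) :
    c ∈ locZ1 M q ↔
      (∀ g h : ↥(decomp q), c (g * h) = c g + M.ρ (g : GQ) (c h)) ∧ IsLevD q c := Iff.rfl

/-- The coboundary map on the decomposition group. -/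
def locD : M →ₗ[k] (↥(decomp q) → M) where
  toFun m g := M.ρ (g : GQ) m - m
  map_add' x y := funext fun g => by simp only [map_add, Pi.add_apply]; abel
  map_smul' a x := funext fun g => by simp only [map_smul, Pi.smul_apply, smul_sub, RingHom.id_apply]

@[simp] lemma locD_apply (m : M) (g : ↥(decomp q)) : locD M q m g = M.ρ (g : GQ) m - m := rfl

/-- 1-coboundaries on the decomposition group, as functions. -/
def locB1 : Submodule k (↥(decomp q) → M) := LinearMap.range (locD M q)

lemma mem_locB1_iff (c : ↥(decomp q) → M) :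
    c ∈ locB1 M q ↔ ∃ m : M, ∀ g : ↥(decomp q), c g = M.ρ (g : GQ) m - m := by
  constructor
  · rintro ⟨m, rfl⟩
    exact ⟨m, fun g => rfl⟩
  · rintro ⟨m, hm⟩
    exact ⟨m, funext fun g => (hm g).symm⟩

/-- Smoothness of `M` (open stabilisers), in the shape of `helper2945.IsSMod.smooth`. -/
def IsSmoothRep : Prop :=
  ∀ m : M, ∃ F : IntermediateField ℚ (AlgebraicClosure ℚ), FiniteDimensional ℚ F ∧
    ∀ s ∈ F.fixingSubgroup, M.ρ s m = m

variable {M} in
lemma locB1_le_locZ1 (hsm : IsSmoothRep M) : locB1 M q ≤ locZ1 M q := by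
  rintro _ ⟨m, rfl⟩
  refine ⟨fun g h => ?_, ?_⟩
  · simp only [locD_apply, Subgroup.coe_mul, map_mul, Module.End.mul_apply, map_sub]
    abel
  · obtain ⟨F, hF, h⟩ := hsm m
    refine ⟨F, hF, fun g s hs => ?_⟩
    simp only [locD_apply, Subgroup.coe_mul, map_mul, Module.End.mul_apply, h _ hs]

/-- The level cocycle of the local Galois group attached to a level cocycle on `D`. -/
def locCocycle :
    ↥(locZ1 M q) →ₗ[k]
      ↥(levelCocycles₁ (primeLocalToGlobal q) (Rep.res (primeLocalToGlobal q) M)) where
  toFun c :=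
    ⟨⟨fun τ => c.1 (locEquiv q τ),
        (mem_cocycles₁_iff (A := Rep.res (primeLocalToGlobal q) M) _).2 fun g h => by
          rw [map_mul, c.2.1, add_comm]; rfl⟩, by
      obtain ⟨F, hF, h⟩ := c.2.2
      exact ⟨F, hF, fun g s hs => by
        change c.1 (locEquiv q (g * s)) = c.1 (locEquiv q g)
        rw [map_mul]
        exact h _ _ hs⟩⟩
  map_add' c c' := rfl
  map_smul' a c := rfl

@[simp] lemma locCocycle_apply (c : ↥(locZ1 M q)) (τ : primeLocalGaloisGroup q) :
    (locCocycle M q c).1.1 τ = c.1 (locEquiv q τ) := rfl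

lemma locCocycle_surjective : Function.Surjective (locCocycle M q) := by
  rintro ⟨⟨a, ha⟩, hl⟩
  have hcoc := (mem_cocycles₁_iff (A := Rep.res (primeLocalToGlobal q) M) a).1 ha
  refine ⟨⟨fun σ => a ((locEquiv q).symm σ), fun g h => ?_, ?_⟩, ?_⟩
  · change a ((locEquiv q).symm (g * h)) =
      a ((locEquiv q).symm g) + M.ρ (g : GQ) (a ((locEquiv q).symm h))
    rw [map_mul, hcoc, add_comm]
    change _ + M.ρ (primeLocalToGlobal q ((locEquiv q).symm g)) _ = _
    rw [primeLocalToGlobal_locEquiv_symm]
  · obtain ⟨F, hF, h⟩ := hl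
    refine ⟨F, hF, fun g s hs => ?_⟩
    change a ((locEquiv q).symm (g * s)) = a ((locEquiv q).symm g)
    rw [map_mul]
    refine h _ _ ?_
    rw [primeLocalToGlobal_locEquiv_symm]
    exact hs
  · apply Subtype.ext
    apply Subtype.ext
    funext τ
    change a ((locEquiv q).symm (locEquiv q τ)) = a τ
    rw [MulEquiv.symm_apply_apply]

/-- **The class map** from level cocycles on the decomposition group to the frozen local
carrier. -/
def locClass : ↥(locZ1 M q) →ₗ[k] helper15.LocH1 M q :=
  (helper7860.toContinuousH1 (primeLocalToGlobal q) (Rep.res (primeLocalToGlobal q) M)).comp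
    (locCocycle M q)

lemma locClass_surjective : Function.Surjective (locClass M q) :=
  (helper7860.toContinuousH1_surjective _ _).comp (locCocycle_surjective M q)

/-- A class is trivial iff the cocycle is a coboundary on the decomposition group. -/
theorem locClass_eq_zero_iff (c : ↥(locZ1 M q)) :
    locClass M q c = 0 ↔ ∃ m : M, ∀ g : ↥(decomp q), c.1 g = M.ρ (g : GQ) m - m := by
  have h1 : locClass M q c = 0 ↔
      (H1π (Rep.res (primeLocalToGlobal q) M)).hom (locCocycle M q c).1 = 0 := by
    rw [← helper7860.coe_toContinuousH1]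
    exact ⟨fun h => by rw [show helper7860.toContinuousH1 _ _ (locCocycle M q c) = 0 from h]; rfl,
      fun h => Subtype.ext h⟩
  rw [h1, H1π_eq_zero_iff]
  constructor
  · rintro ⟨m, hm⟩
    refine ⟨m, fun g => ?_⟩
    have h2 := congrFun hm ((locEquiv q).symm g)
    have h3 : (locCocycle M q c).1.1 ((locEquiv q).symm g) = c.1 g := by
      rw [locCocycle_apply, MulEquiv.apply_symm_apply]
    rw [← h3]
    change _ = M.ρ (g : GQ) m - m
    rw [← primeLocalToGlobal_locEquiv_symm q g]
    exact h2.symm
  · rintro ⟨m, hm⟩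
    exact ⟨m, funext fun τ => (hm (locEquiv q τ)).symm⟩

theorem locClass_eq_zero_iff_mem (c : ↥(locZ1 M q)) :
    locClass M q c = 0 ↔ c.1 ∈ locB1 M q := by
  rw [locClass_eq_zero_iff, mem_locB1_iff]

theorem locClass_eq_iff (c c' : ↥(locZ1 M q)) :
    locClass M q c = locClass M q c' ↔
      ∃ m : M, ∀ g : ↥(decomp q), c.1 g - c'.1 g = M.ρ (g : GQ) m - m := by
  rw [← sub_eq_zero, ← map_sub, locClass_eq_zero_iff]
  rfl

/-! ### Localisation of global classes -/

/-- The restriction to the decomposition group of an `S`-level global cocycle. -/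
def restrictD (S : Finset Nat.Primes) (a : ↥(levelCocyclesS₁ S M)) : ↥(locZ1 M q) :=
  ⟨fun d => a.1.1 (d : GQ), fun g h => by
      have := (mem_cocycles₁_iff a.1.1).1 a.1.2 (g : GQ) (h : GQ)
      change a.1.1 ((g : GQ) * (h : GQ)) = a.1.1 (g : GQ) + M.ρ (g : GQ) (a.1.1 (h : GQ))
      rw [this, add_comm], by
    obtain ⟨F, hF, h⟩ := a.2
    exact ⟨F, hF.1, fun g s hs => h _ _ hs⟩⟩

@[simp] lemma restrictD_apply (S : Finset Nat.Primes) (a : ↥(levelCocyclesS₁ S M))
    (d : ↥(decomp q)) : (restrictD M q S a).1 d = a.1.1 (d : GQ) := rfl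

/-- **Localisation = restriction of the cocycle to the decomposition group.** -/
theorem resH1S_eq_locClass (S : Finset Nat.Primes) (a : ↥(levelCocyclesS₁ S M)) :
    helper7860.resH1S S (primeLocalToGlobal q) M (helper7860.toContinuousH1S S M a)
      = locClass M q (restrictD M q S a) := by
  rw [helper7860.resH1S_toContinuousH1S]
  rfl

theorem resTotal_eq_locClass (S : Finset Nat.Primes) (a : ↥(levelCocyclesS₁ S M)) (q : ↥S) :
    helper15.resTotal S M (helper7860.toContinuousH1S S M a) q
      = locClass M q.1 (restrictD M q.1 S a) := by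
  rw [helper15.resTotal_apply, resH1S_eq_locClass]

/-! ### Subspaces of the local carrier cut out by spaces of functions on `D` -/

/-- The subspace of the frozen local carrier consisting of the classes of the level cocycles
on the decomposition group lying in `Z`. -/
def locSub (Z : Submodule k (↥(decomp q) → M)) : Submodule k (helper15.LocH1 M q) :=
  (Z.comap (locZ1 M q).subtype).map (locClass M q)

variable {M q} in
lemma locClass_mem_locSub {Z : Submodule k (↥(decomp q) → M)} (c : ↥(locZ1 M q))
    (hc : c.1 ∈ Z) : locClass M q c ∈ locSub M q Z :=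
  Submodule.mem_map_of_mem hc

lemma mem_locSub_iff (Z : Submodule k (↥(decomp q) → M)) (x : helper15.LocH1 M q) :
    x ∈ locSub M q Z ↔ ∃ c : ↥(locZ1 M q), c.1 ∈ Z ∧ locClass M q c = x := by
  simp only [locSub, Submodule.mem_map, Submodule.mem_comap, Submodule.subtype_apply]

lemma locSub_mono {Z Z' : Submodule k (↥(decomp q) → M)} (h : Z ≤ Z') :
    locSub M q Z ≤ locSub M q Z' :=
  Submodule.map_mono (Submodule.comap_mono h)

lemma locSub_locZ1 : locSub M q (locZ1 M q) = ⊤ := by
  rw [eq_top_iff]
  intro x _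
  obtain ⟨c, rfl⟩ := locClass_surjective M q x
  exact locClass_mem_locSub c c.2

/-- Localisation of a global class lies in `locSub Z` as soon as the restriction of a
representing cocycle to the decomposition group lies in `Z`. -/
theorem resTotal_mem_locSub (S : Finset Nat.Primes) (a : ↥(levelCocyclesS₁ S M)) (q : ↥S)
    (Z : Submodule k (↥(decomp q.1) → M)) (h : (fun d : ↥(decomp q.1) => a.1.1 (d : GQ)) ∈ Z) :
    helper15.resTotal S M (helper7860.toContinuousH1S S M a) q ∈ locSub M q.1 Z := by
  rw [resTotal_eq_locClass]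
  exact locClass_mem_locSub _ h

/-- Invariants of the restricted representation = invariants under the decomposition group. -/
theorem mem_invariants_res_iff (m : M) :
    m ∈ Representation.invariants (Rep.res (primeLocalToGlobal q) M).ρ ↔
      ∀ g ∈ decomp q, M.ρ g m = m := by
  constructor
  · intro h g hg
    obtain ⟨τ, rfl⟩ := helper4145.exists_primeLocalToGlobal_eq q hg
    exact h τ
  · intro h τ
    exact h _ (primeLocalToGlobal_mem_decomp q τ)

theorem ker_locD :
    LinearMap.ker (locD M q) = Representation.invariants (Rep.res (primeLocalToGlobal q) M).ρ := by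
  ext m
  rw [LinearMap.mem_ker, mem_invariants_res_iff]
  constructor
  · intro h g hg
    have := congrFun h ⟨g, hg⟩
    simpa [sub_eq_zero] using this
  · intro h
    funext g
    simp [h g g.2]

/-- `dim B¹ + dim H⁰ = dim M`. -/
theorem finrank_locB1_add [FiniteDimensional k M] :
    finrank k ↥(locB1 M q) +
      finrank k ↥(Representation.invariants (Rep.res (primeLocalToGlobal q) M).ρ) = finrank k M := by
  have h := LinearMap.finrank_range_add_finrank_ker (locD M q)
  rw [ker_locD] at h
  exact h

variable {M q} in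
/-- **The dimension formula**: for `B¹ ≤ Z ≤ Z¹`,
`dim (locSub Z) + dim M = dim Z + dim H⁰(ℚ_q, M)`. -/
theorem finrank_locSub_add [FiniteDimensional k M] {Z : Submodule k (↥(decomp q) → M)}
    [FiniteDimensional k ↥Z] (hB : locB1 M q ≤ Z) (hZ : Z ≤ locZ1 M q) :
    finrank k ↥(locSub M q Z) + finrank k M =
      finrank k ↥Z + finrank k ↥(Representation.invariants (Rep.res (primeLocalToGlobal q) M).ρ) := by
  -- the restriction of the class map to `Z`
  let φ : ↥Z →ₗ[k] helper15.LocH1 M q := (locClass M q).comp (Submodule.inclusion hZ)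
  have hrange : LinearMap.range φ = locSub M q Z := by
    ext x
    rw [mem_locSub_iff]
    constructor
    · rintro ⟨z, rfl⟩
      exact ⟨Submodule.inclusion hZ z, z.2, rfl⟩
    · rintro ⟨c, hc, rfl⟩
      exact ⟨⟨c.1, hc⟩, rfl⟩
  have hker : LinearMap.ker φ = (locB1 M q).comap Z.subtype := by
    ext z
    rw [LinearMap.mem_ker, Submodule.mem_comap]
    exact locClass_eq_zero_iff_mem M q (Submodule.inclusion hZ z)
  have h1 := LinearMap.finrank_range_add_finrank_ker φ
  rw [hrange, hker] at h1
  have h2 : finrank k ↥((locB1 M q).comap Z.subtype) = finrank k ↥(locB1 M q) :=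
    (Submodule.comapSubtypeEquivOfLe hB).finrank_eq
  have h3 := finrank_locB1_add M q
  omega

variable {M q} in
/-- The bound in the shape consumed by the Greenberg–Wiles count: if `dim Z ≤ dim B¹ + n`
then `dim (locSub Z) ≤ n`. -/
theorem finrank_locSub_le [FiniteDimensional k M] {Z : Submodule k (↥(decomp q) → M)}
    [FiniteDimensional k ↥Z] (hB : locB1 M q ≤ Z) (hZ : Z ≤ locZ1 M q) {n : ℕ}
    (hn : finrank k ↥Z ≤ finrank k ↥(locB1 M q) + n) :
    finrank k ↥(locSub M q Z) ≤ n := by
  have h1 := finrank_locSub_add hB hZ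
  have h3 := finrank_locB1_add M q
  omega

end Carrier

end

end Fermat.Agent.S56.helper6044
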