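/-
S56, leaf LOC-R2 (seat helper1962): THE STRICT-ORDINARY LOCAL CONDITION AT `p`, final surface.

`p` an odd prime, `k` a finite field with an `𝔽_p`-algebra structure, `ρbar : ResidualGaloisRep k`,
`M = helper6599.ad0 p ρbar`.

* `strictLp p ρbar : Submodule (ZMod p) (helper15.LocH1 (ad0 p ρbar) (pPrime p))` : the local
  condition (classes with a level cocycle representative with values in the corner of the
  inertia line at the frozen place over `p`; `⊥` if `ρbar` has no strict lift at all).
* `finrank_strictLp_le` : `dim_{𝔽_p} strictLp ≤ h⁰(ℚ_p, ad0) + f` when `#k = p ^ f`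
  (no hypothesis on `ρbar`).
* `locClass_mem_strictLp`, `resTotal_mem_strictLp` : the local class at `p` of every first-order
  lift `stdLift c` with cyclotomic determinant which is strictly ordinary at `p` lies in
  `strictLp` (cocycle form on the decomposition group = the membership clause of
  `helper2229.LocLeaf`; global form = the seam `hloc` of the dictionary layer).
-/
import Mathlib
import Fermat.Agent.S56.helper6044_LocCarrier
import Fermat.Agent.S56.helper1962_StrictCount
import Fermat.Agent.S56.helper1962_StrictShape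

set_option autoImplicit false

namespace Fermat.Agent.S56.helper1962

open groupCohomology ExtCitation Module
open Fermat.Agent.S55 Fermat.Agent.S56.helper6599

noncomputable section

section

variable (p : ℕ) [Fact p.Prime] {k : Type} [Field k] [Algebra (ZMod p) k]
  (ρbar : ResidualGaloisRep k)

theorem primeLocalPlace_pPrime_liesOverPrime : (primeLocalPlace (pPrime p)).LiesOverPrime p :=
  helper4145.primeLocalPlace_liesOverPrime (pPrime p)

/-- The corner of `ad0` at the frozen place over `p`: trace-zero endomorphisms mapping `V` into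
the inertia line and killing it. -/
def cornerP : Submodule (ZMod p) (ad0 p ρbar) :=
  cornerSub p ρbar (inertiaLine ρbar (primeLocalPlace (pPrime p)))

/-- The Borel of `ad0` at the frozen place over `p`: trace-zero endomorphisms preserving the
inertia line. -/
def borelP : Submodule (ZMod p) (ad0 p ρbar) :=
  borelSub p ρbar (inertiaLine ρbar (primeLocalPlace (pPrime p)))

open Classical in
/-- **The strict-ordinary local condition at `p`** on the frozen local carrier of `ad0 ρbar`. -/
def strictLp : Submodule (ZMod p) (helper15.LocH1 (ad0 p ρbar) (pPrime p)) :=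
  if ∃ c : LiftCocycle ρbar, (stdLift c).DetIsCyclotomic p ∧ (stdLift c).IsStrictOrdinaryAt p then
    strictLoc p (ad0 p ρbar) (cornerP p ρbar)
  else ⊥

variable {ρbar}

/-- The decomposition group at `p` acts on the corner through the mod `p` cyclotomic character. -/
theorem cornerP_char (hp2 : p ≠ 2) {b : Module.Basis (Fin 2) k ρbar.V}
    (hb : IsStrictBasis p ρbar (primeLocalPlace (pPrime p)) b)
    (g : primeLocalGaloisGroup (pPrime p)) (w : ad0 p ρbar) (hw : w ∈ cornerP p ρbar) :
    (ad0 p ρbar).ρ (primeLocalToGlobal (pPrime p) g) w = chiP p g • w := by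
  have hE := inertiaLine_eq hp2 (natCast_eq_zero_of_algebra p (k := k))
    (primeLocalPlace_pPrime_liesOverPrime p) hb
  have hw' : IsCorner (k ∙ b 0) (ad0Val p ρbar w) := by
    rw [← hE]
    exact hw
  apply ad0_ext
  rw [ad0Val_ρ, ad0Val_smul,
    conj_corner hb (helper6044.primeLocalToGlobal_mem_decomp (pPrime p) g) hw']
  congr 1
  rw [chiP, coe_cycloChar, map_natCast]

/-- `(g - 1)` maps the Borel into the corner. -/
theorem borelP_sub_mem (hp2 : p ≠ 2) {b : Module.Basis (Fin 2) k ρbar.V}
    (hb : IsStrictBasis p ρbar (primeLocalPlace (pPrime p)) b)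
    (g : primeLocalGaloisGroup (pPrime p)) (t : ad0 p ρbar) (ht : t ∈ borelP p ρbar) :
    (ad0 p ρbar).ρ (primeLocalToGlobal (pPrime p) g) t - t ∈ cornerP p ρbar := by
  have hE := inertiaLine_eq hp2 (natCast_eq_zero_of_algebra p (k := k))
    (primeLocalPlace_pPrime_liesOverPrime p) hb
  show IsCorner _ (ad0Val p ρbar ((ad0 p ρbar).ρ (primeLocalToGlobal (pPrime p) g) t - t))
  rw [map_sub, ad0Val_ρ, hE]
  refine conj_sub_corner hb (helper6044.primeLocalToGlobal_mem_decomp (pPrime p) g) ?_
  rw [← hE]
  exact ht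

variable (ρbar)

/-- **The local count at `p`**: `dim_{𝔽_p} strictLp ≤ h⁰(ℚ_p, ad0 ρbar) + f`, `#k = p ^ f`. -/
theorem finrank_strictLp_le [Finite k] (hp2 : p ≠ 2) {f : ℕ} (hf : Nat.card k = p ^ f) :
    finrank (ZMod p) (strictLp p ρbar) ≤
      finrank (ZMod p) (Representation.invariants
        (Rep.res (primeLocalToGlobal (pPrime p)) (ad0 p ρbar)).ρ) + f := by
  classical
  by_cases h : ∃ c : LiftCocycle ρbar,
      (stdLift c).DetIsCyclotomic p ∧ (stdLift c).IsStrictOrdinaryAt p
  · rw [strictLp, if_pos h]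
    obtain ⟨c, hdet, hstr⟩ := h
    obtain ⟨b, φ, hb, -, -⟩ := exists_strict_normal_form hp2 c hdet hstr _
      (primeLocalPlace_pPrime_liesOverPrime p)
    have hE := inertiaLine_eq hp2 (natCast_eq_zero_of_algebra p (k := k))
      (primeLocalPlace_pPrime_liesOverPrime p) hb
    have := ad0_finite p ρbar
    have h1 := finrank_strictLoc_add_le p (ad0_smooth p ρbar) (cornerP p ρbar) (borelP p ρbar)
      (cornerP_char p hp2 hb) (borelP_sub_mem p hp2 hb)
    have h2 : finrank (ZMod p) (cornerP p ρbar) ≤ f := by
      unfold cornerP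
      rw [hE]
      exact finrank_cornerSub_le p b hf
    have h3 : 2 * f ≤ finrank (ZMod p) (borelP p ρbar) := by
      unfold borelP
      rw [hE]
      exact two_mul_le_finrank_borelSub p b hf
    omega
  · rw [strictLp, if_neg h, finrank_bot]
    exact Nat.zero_le _

variable {ρbar}

/-- **The local class of a strict lift lies in `strictLp`**, cocycle form on the decomposition
group (the membership clause of `helper2229.LocLeaf`): if the level cocycle `z` on the
decomposition group at `p` has the values of the lift cocycle `c`, and `stdLift c` has cyclotomic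
determinant and is strictly ordinary at `p`, then the class of `z` lies in `strictLp`. -/
theorem locClass_mem_strictLp (hp2 : p ≠ 2) (c : LiftCocycle ρbar)
    (z : ↥(helper6044.locZ1 (ad0 p ρbar) (pPrime p)))
    (hz : ∀ d : ↥(helper6044.decomp (pPrime p)), ad0Val p ρbar (z.1 d) = c.c (d : GQ))
    (hdet : (stdLift c).DetIsCyclotomic p) (hstr : (stdLift c).IsStrictOrdinaryAt p) :
    helper6044.locClass (ad0 p ρbar) (pPrime p) z ∈ strictLp p ρbar := by
  classical
  rw [strictLp, if_pos ⟨c, hdet, hstr⟩]
  obtain ⟨b, φ, hb, hφtr, hN⟩ := exists_strict_normal_form hp2 c hdet hstr _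
    (primeLocalPlace_pPrime_liesOverPrime p)
  have hE := inertiaLine_eq hp2 (natCast_eq_zero_of_algebra p (k := k))
    (primeLocalPlace_pPrime_liesOverPrime p) hb
  -- the local cocycle
  let aloc := helper6044.locCocycle (ad0 p ρbar) (pPrime p) z
  have haloc : ∀ τ, ad0Val p ρbar (aloc.1.1 τ) = c.c (primeLocalToGlobal (pPrime p) τ) :=
    fun τ => hz (helper6044.locEquiv (pPrime p) τ)
  refine mem_strictLoc_of_mem_strictZ p (ad0 p ρbar) (cornerP p ρbar) aloc.1 ?_ _ rfl
  let m : ad0 p ρbar := ad0Mk p ρbar φ hφtr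
  let n : primeLocalGaloisGroup (pPrime p) → ad0 p ρbar := fun τ =>
    aloc.1.1 τ + cobMap (primeLocalToGlobal (pPrime p)) (ad0 p ρbar) m τ
  have hn : n ∈ cornerZ1 (primeLocalToGlobal (pPrime p)) (ad0 p ρbar) (cornerP p ρbar) := by
    refine ⟨fun g h => ?_, ?_, fun g => ?_⟩
    · have h1 : aloc.1.1 (g * h) =
          (ad0 p ρbar).ρ (primeLocalToGlobal (pPrime p) g) (aloc.1.1 h) + aloc.1.1 g :=
        (mem_cocycles₁_iff
          (A := Rep.res (primeLocalToGlobal (pPrime p)) (ad0 p ρbar)) aloc.1.1).1 aloc.1.2 g h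
      show aloc.1.1 (g * h) + cobMap (primeLocalToGlobal (pPrime p)) (ad0 p ρbar) m (g * h) =
        (ad0 p ρbar).ρ (primeLocalToGlobal (pPrime p) g)
          (aloc.1.1 h + cobMap (primeLocalToGlobal (pPrime p)) (ad0 p ρbar) m h) +
        (aloc.1.1 g + cobMap (primeLocalToGlobal (pPrime p)) (ad0 p ρbar) m g)
      rw [h1, cobMap_mul, map_add]
      abel
    · exact IsLevelConstant₁.add aloc.2 (isLevelConstant₁_cobMap (ad0_smooth p ρbar) m)
    · show IsCorner _ (ad0Val p ρbar
        (aloc.1.1 g + cobMap (primeLocalToGlobal (pPrime p)) (ad0 p ρbar) m g))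
      rw [map_add, haloc, cobMap_apply, map_sub, ad0Val_ρ, ad0Val_ad0Mk, hE]
      exact hN _ (helper6044.primeLocalToGlobal_mem_decomp (pPrime p) g)
  refine Submodule.mem_sup.2
    ⟨n, hn, cobMap (primeLocalToGlobal (pPrime p)) (ad0 p ρbar) (-m), ⟨-m, rfl⟩, ?_⟩
  funext τ
  show aloc.1.1 τ + cobMap (primeLocalToGlobal (pPrime p)) (ad0 p ρbar) m τ +
    cobMap (primeLocalToGlobal (pPrime p)) (ad0 p ρbar) (-m) τ = aloc.1.1 τ
  rw [map_neg, Pi.neg_apply]
  abel

/-- **The local class of a strict lift lies in `strictLp`**, global form (the `q = p` instance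
of the seam `hloc` of the dictionary layer). -/
theorem resTotal_mem_strictLp (hp2 : p ≠ 2) (c : LiftCocycle ρbar)
    (htr : ∀ g, LinearMap.trace k ρbar.V (c.c g) = 0) (S : Finset Nat.Primes)
    (hur : ∀ q : Nat.Primes, q ∉ S → (stdLift c).IsUnramifiedAt q) (hpS : pPrime p ∈ S)
    (hdet : (stdLift c).DetIsCyclotomic p) (hstr : (stdLift c).IsStrictOrdinaryAt p) :
    helper15.resTotal S (ad0 p ρbar)
        (helper7860.toContinuousH1S S (ad0 p ρbar) (c.toLevelCocycle p htr S hur))
        ⟨pPrime p, hpS⟩ ∈ strictLp p ρbar := by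
  rw [helper6044.resTotal_eq_locClass]
  exact locClass_mem_strictLp p hp2 c _ (fun d => rfl) hdet hstr

end

end

end Fermat.Agent.S56.helper1962
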