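/-
S56-AD0NUM, adapters (helper1848): the numerics of `ad0` on the landed numerals.

Model-independent: a module `M : Rep (ZMod p) GQ` is an *End-model* (`IsEndModel ρbar χ M ι`)
when `ι : M → Module.End k ρbar.V` is injective, additive, trace-zero valued and intertwines the
action of `M` with `X ↦ χ(g) • (ρbar(g) X ρbar(g)⁻¹)` (`χ = 1` for `ad0`, `χ` = the determinant /
mod `p` cyclotomic character for `ad0(1)`).  Then

* `h0_eq_zero_of_isEndModel`        : `h0 M = 0`  (frozen `habs`, `hTW`);
* `h0_eq_zero_of_isEndModel_one`    : the same for `χ = 1` from `habs` alone;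
* `finrank_invariants_res_le`       : `finrank (invariants (Rep.res (primeLocalToGlobal q) M).ρ) ≤ f`
  at a prime whose Frobenius has two distinct eigenvalues and `χ(Frob) = 1`;
* `dimMinus_eq_of_isEndModel`       : `helper2906.dimMinus M = f` when `χ(c) = -1` and `ι` is onto
  the trace-zero endomorphisms,

where `Nat.card k = p ^ f`.  All dimension statements go through cardinalities, so no
`ZMod p`-module structure on `Module.End k ρbar.V` is needed.
-/
import Mathlib
import Fermat.Agent.S56.helper1848_Ad0Num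
import Fermat.Agent.S56.helper2906_TateDef
import Fermat.Agent.S55.helper4145_Decomp
import Fermat.Agent.Lib.helper54_Frobenius

set_option autoImplicit false

noncomputable section

namespace Fermat.Agent.S56.helper1848

open Module Polynomial ExtCitation
open Fermat.Agent.S55.helper2945

variable {p : ℕ} [Fact p.Prime] {k : Type} [Field k]

/-- `ι` identifies `M` with a space of trace-zero endomorphisms of `ρbar.V`, the action of `g`
being `X ↦ χ(g) • (ρbar(g) X ρbar(g)⁻¹)`. -/
structure IsEndModel (ρbar : ResidualGaloisRep k) (χ : GQ →* kˣ) (M : Rep.{0, 0, 0} (ZMod p) GQ)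
    (ι : M → Module.End k ρbar.V) : Prop where
  inj : Function.Injective ι
  map_add : ∀ m m' : M, ι (m + m') = ι m + ι m'
  trace : ∀ m : M, LinearMap.trace k ρbar.V (ι m) = 0
  equiv : ∀ (g : GQ) (m : M), ι (M.ρ g m) = (χ g : k) • (ρbar.ρ g * ι m * ρbar.ρ g⁻¹)

/-- The determinant of `ρbar` as a character. -/
def detChar (ρbar : ResidualGaloisRep k) : GQ →* kˣ := (LinearMap.det.comp ρbar.ρ).toHomUnits

@[simp] lemma detChar_coe (ρbar : ResidualGaloisRep k) (σ : GQ) :
    (detChar ρbar σ : k) = LinearMap.det (ρbar.ρ σ) := rfl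

namespace IsEndModel

variable {ρbar : ResidualGaloisRep k} {χ : GQ →* kˣ} {M : Rep.{0, 0, 0} (ZMod p) GQ}
  {ι : M → Module.End k ρbar.V}

lemma map_zero (hM : IsEndModel ρbar χ M ι) : ι 0 = 0 := by
  have h := hM.map_add 0 0
  rw [add_zero] at h
  exact left_eq_add.mp h

lemma map_neg (hM : IsEndModel ρbar χ M ι) (m : M) : ι (-m) = -ι m := by
  have h := hM.map_add m (-m)
  rw [add_neg_cancel, hM.map_zero] at h
  exact eq_neg_of_add_eq_zero_right h.symm

lemma eq_zero_of_map_eq_zero (hM : IsEndModel ρbar χ M ι) {m : M} (h : ι m = 0) : m = 0 :=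
  hM.inj (h.trans hM.map_zero.symm)

/-- A vector fixed by `g` gives an endomorphism `χ`-commuting with `ρbar g`. -/
lemma twisted_commute (hM : IsEndModel ρbar χ M ι) {g : GQ} {m : M} (h : M.ρ g m = m) :
    (χ g : k) • (ρbar.ρ g * ι m) = ι m * ρbar.ρ g := by
  have e := hM.equiv g m
  rw [h] at e
  conv_rhs => rw [e]
  rw [smul_mul_assoc, mul_assoc, ← _root_.map_mul, inv_mul_cancel, _root_.map_one, mul_one]

end IsEndModel

/-- **`h0 M = 0`** for an End-model of `ad0 ⊗ χ` (frozen hypotheses `habs`, `hTW` of S56). -/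
theorem h0_eq_zero_of_isEndModel (ρbar : ResidualGaloisRep k) (χ : GQ →* kˣ)
    (M : Rep.{0, 0, 0} (ZMod p) GQ) (ι : M → Module.End k ρbar.V) (hM : IsEndModel ρbar χ M ι)
    (habs : ρbar.IsAbsolutelyIrreducible)
    (hTW : ∀ (K : Type) [Field K] [Algebra k K] (G : Subgroup GQ), G.index = 2 →
      ∀ V : Submodule K (ρbar.baseChange K).V,
        (∀ σ ∈ G, ∀ x ∈ V, (ρbar.baseChange K).ρ σ x ∈ V) → V = ⊥ ∨ V = ⊤)
    (h2 : (2 : k) ≠ 0) : h0 M = 0 := by
  have hbot : Representation.invariants M.ρ = ⊥ := by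
    rw [eq_bot_iff]
    intro m hm
    rw [Representation.mem_invariants] at hm
    have hX := ad0_twist_invariant_eq_zero ρbar habs hTW h2 χ (ι m) (hM.trace m)
      (fun σ => hM.twisted_commute (hm σ))
    rw [Submodule.mem_bot]
    exact hM.eq_zero_of_map_eq_zero hX
  unfold h0
  rw [hbot]
  exact finrank_bot _ _

/-- **`h0 M = 0`** for an End-model of `ad0` (`χ = 1`), from the frozen `habs` alone. -/
theorem h0_eq_zero_of_isEndModel_one (ρbar : ResidualGaloisRep k)
    (M : Rep.{0, 0, 0} (ZMod p) GQ) (ι : M → Module.End k ρbar.V) (hM : IsEndModel ρbar 1 M ι)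
    (habs : ρbar.IsAbsolutelyIrreducible) (h2 : (2 : k) ≠ 0) : h0 M = 0 := by
  have hbot : Representation.invariants M.ρ = ⊥ := by
    rw [eq_bot_iff]
    intro m hm
    rw [Representation.mem_invariants] at hm
    have hX := ad0_invariant_eq_zero ρbar habs h2 (ι m) (hM.trace m) (fun σ => by
      have := hM.twisted_commute (hm σ)
      rwa [MonoidHom.one_apply, Units.val_one, one_smul] at this)
    rw [Submodule.mem_bot]
    exact hM.eq_zero_of_map_eq_zero hX
  unfold h0
  rw [hbot]
  exact finrank_bot _ _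

/-- The trace-zero centraliser of an endomorphism with two distinct eigenvalues has as many
elements as `k`. -/
theorem card_ad0Centralizer [Finite k] (ρbar : ResidualGaloisRep k) (h2 : (2 : k) ≠ 0)
    (F : Module.End k ρbar.V) (α β : k) (hαβ : α ≠ β)
    (hF : F.charpoly = (X - C α) * (X - C β)) :
    Nat.card (ad0Centralizer F) = Nat.card k := by
  rw [Module.natCard_eq_pow_finrank (K := k),
    finrank_ad0Centralizer ρbar.finrank_eq h2 F α β hαβ hF, pow_one]

/-- **Local `H⁰` at a Taylor–Wiles prime, cardinality form.** -/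
theorem card_invariants_res_le [Finite k] (ρbar : ResidualGaloisRep k) (χ : GQ →* kˣ)
    (M : Rep.{0, 0, 0} (ZMod p) GQ) (ι : M → Module.End k ρbar.V) (hM : IsEndModel ρbar χ M ι)
    (h2 : (2 : k) ≠ 0) (q : Nat.Primes) (φ : GQ)
    (hφ : (primeLocalPlace q).IsFrobeniusAt φ (q : ℕ)) (hχφ : χ φ = 1) (α β : k) (hαβ : α ≠ β)
    (hcp : LinearMap.charpoly (ρbar.ρ φ) = (X - C α) * (X - C β)) :
    Nat.card (Representation.invariants (Rep.res (primeLocalToGlobal q) M).ρ) ≤ Nat.card k := by
  obtain ⟨τ, hτ⟩ := Fermat.Agent.S55.helper4145.exists_primeLocalToGlobal_eq q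
    hφ.mem_decompositionSubgroup
  have hmem : ∀ m : Representation.invariants (Rep.res (primeLocalToGlobal q) M).ρ,
      ι (m : M) ∈ ad0Centralizer (ρbar.ρ φ) := by
    intro m
    have hm : M.ρ φ (m : M) = (m : M) := by
      have := (Representation.mem_invariants _ _).mp m.2 τ
      rw [Rep.coe_res_obj_ρ', hτ] at this
      exact this
    have hc := hM.twisted_commute hm
    rw [hχφ, Units.val_one, one_smul] at hc
    exact ⟨hM.trace _, hc.symm⟩
  have hfin : Finite (ad0Centralizer (ρbar.ρ φ)) := Module.finite_of_finite k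
  rw [← card_ad0Centralizer ρbar h2 (ρbar.ρ φ) α β hαβ hcp]
  refine Nat.card_le_card_of_injective
    (fun m => (⟨ι (m : M), hmem m⟩ : ad0Centralizer (ρbar.ρ φ))) ?_
  intro m m' h
  exact Subtype.ext (hM.inj (congrArg Subtype.val h))

/-- **Local `H⁰` at a Taylor–Wiles prime**: `finrank ≤ f`, where `Nat.card k = p ^ f`. -/
theorem finrank_invariants_res_le [Finite k] (ρbar : ResidualGaloisRep k) (χ : GQ →* kˣ)
    (M : Rep.{0, 0, 0} (ZMod p) GQ) [FiniteDimensional (ZMod p) M]
    (ι : M → Module.End k ρbar.V) (hM : IsEndModel ρbar χ M ι)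
    (h2 : (2 : k) ≠ 0) (q : Nat.Primes) (φ : GQ)
    (hφ : (primeLocalPlace q).IsFrobeniusAt φ (q : ℕ)) (hχφ : χ φ = 1) (α β : k) (hαβ : α ≠ β)
    (hcp : LinearMap.charpoly (ρbar.ρ φ) = (X - C α) * (X - C β)) (f : ℕ)
    (hf : Nat.card k = p ^ f) :
    finrank (ZMod p) (Representation.invariants (Rep.res (primeLocalToGlobal q) M).ρ) ≤ f := by
  have hp : p.Prime := Fact.out
  have hle := card_invariants_res_le ρbar χ M ι hM h2 q φ hφ hχφ α β hαβ hcp
  have hfd : Module.Finite (ZMod p) (Rep.res (primeLocalToGlobal q) M).V :=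
    (inferInstance : Module.Finite (ZMod p) M)
  rw [Module.natCard_eq_pow_finrank (K := ZMod p), Nat.card_zmod, hf] at hle
  exact (Nat.pow_le_pow_iff_right hp.one_lt).mp hle

/-- **Local `H⁰` at a Taylor–Wiles prime**, from the frozen Taylor–Wiles clause at `q`. -/
theorem finrank_invariants_res_le_of_clause [Finite k] (ρbar : ResidualGaloisRep k)
    (χ : GQ →* kˣ) (M : Rep.{0, 0, 0} (ZMod p) GQ) [FiniteDimensional (ZMod p) M]
    (ι : M → Module.End k ρbar.V) (hM : IsEndModel ρbar χ M ι)
    (h2 : (2 : k) ≠ 0) (q : Nat.Primes)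
    (hχ : ∀ φ : GQ, (primeLocalPlace q).IsFrobeniusAt φ (q : ℕ) → χ φ = 1)
    (hcl : ∀ P : ValuationSubring (AlgebraicClosure ℚ), P.LiesOverPrime (q : ℕ) →
      ∀ φ : GQ, P.IsFrobeniusAt φ (q : ℕ) →
        ∃ α β : k, α ≠ β ∧ LinearMap.charpoly (ρbar.ρ φ) = (X - C α) * (X - C β))
    (f : ℕ) (hf : Nat.card k = p ^ f) :
    finrank (ZMod p) (Representation.invariants (Rep.res (primeLocalToGlobal q) M).ρ) ≤ f := by
  have hP := Fermat.Agent.S55.helper4145.primeLocalPlace_liesOverPrime q
  obtain ⟨φ, hφ⟩ := Fermat.Agent.Lib.helper54.exists_isFrobeniusAt q.2 (primeLocalPlace q) hP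
  obtain ⟨α, β, hαβ, hcp⟩ := hcl _ hP φ hφ
  exact finrank_invariants_res_le ρbar χ M ι hM h2 q φ hφ (hχ φ hφ) α β hαβ hcp f hf

/-- **`dimMinus M = f`** for an End-model of `ad0 ⊗ χ` with `χ(c) = -1` which contains all
trace-zero endomorphisms, where `Nat.card k = p ^ f`. -/
theorem dimMinus_eq_of_isEndModel [Finite k] (ρbar : ResidualGaloisRep k) (χ : GQ →* kˣ)
    (M : Rep.{0, 0, 0} (ZMod p) GQ) (ι : M → Module.End k ρbar.V) (hM : IsEndModel ρbar χ M ι)
    (hsurj : ∀ Y : Module.End k ρbar.V, LinearMap.trace k ρbar.V Y = 0 → ∃ m : M, ι m = Y)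
    (hp2 : p ≠ 2) (hdet : (GaloisRepAdic.ofResidualGaloisRep ρbar).DetIsCyclotomic p)
    (hχc : χ complexConjugation = -1) (f : ℕ) (hf : Nat.card k = p ^ f) :
    Fermat.Agent.S56.helper2906.dimMinus M = f := by
  have hp : p.Prime := Fact.out
  have h2 : (2 : k) ≠ 0 := two_ne_zero_of_detIsCyclotomic ρbar p hp2 hdet
  set c : Module.End k ρbar.V := ρbar.ρ complexConjugation with hc
  have hcc : c * c = 1 := by
    rw [hc, ← _root_.map_mul, complexConjugation_mul_self, _root_.map_one]
  -- membership in the kernel in terms of `ι`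
  have key : ∀ m : M, m ∈ LinearMap.ker (M.ρ complexConjugation + 1) ↔
      ι m ∈ ad0Centralizer c := by
    intro m
    have e := hM.equiv complexConjugation m
    rw [hχc, complexConjugation_inv, ← hc, Units.val_neg, Units.val_one, neg_smul, one_smul] at e
    rw [LinearMap.mem_ker, LinearMap.add_apply, Module.End.one_apply, mem_ad0Centralizer]
    constructor
    · intro h
      have h' : M.ρ complexConjugation m = -m := eq_neg_of_add_eq_zero_left h
      rw [h', hM.map_neg, neg_inj] at e
      refine ⟨hM.trace m, ?_⟩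
      conv_lhs => rw [e]
      rw [mul_assoc, hcc, mul_one]
    · rintro ⟨-, h⟩
      apply hM.eq_zero_of_map_eq_zero
      rw [hM.map_add, e, ← h, mul_assoc, hcc, mul_one, neg_add_cancel]
  have hcard : Nat.card (LinearMap.ker (M.ρ complexConjugation + 1))
      = Nat.card (ad0Centralizer c) := by
    refine Nat.card_eq_of_bijective
      (fun m => (⟨ι (m : M), (key m).mp m.2⟩ : ad0Centralizer c)) ⟨?_, ?_⟩
    · intro m m' h
      exact Subtype.ext (hM.inj (congrArg Subtype.val h))
    · rintro ⟨Y, hY⟩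
      obtain ⟨m, rfl⟩ := hsurj Y hY.1
      exact ⟨⟨m, (key m).mpr hY⟩, rfl⟩
  have hck : Nat.card (ad0Centralizer c) = Nat.card k := by
    rw [Module.natCard_eq_pow_finrank (K := k),
      finrank_ad0Centralizer_complexConjugation ρbar p hp2 hdet, pow_one]
  have hfinC : Finite (ad0Centralizer c) := Module.finite_of_finite k
  have hfinK : Finite (LinearMap.ker (M.ρ complexConjugation + 1)) :=
    Nat.finite_of_card_ne_zero (by rw [hcard, hck, hf]; exact pow_ne_zero _ hp.ne_zero)
  have hmf : Module.Finite (ZMod p) (LinearMap.ker (M.ρ complexConjugation + 1)) :=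
    Module.Finite.of_finite
  have h1 : Nat.card (LinearMap.ker (M.ρ complexConjugation + 1))
      = p ^ Fermat.Agent.S56.helper2906.dimMinus M := by
    rw [Module.natCard_eq_pow_finrank (K := ZMod p), Nat.card_zmod]
    rfl
  rw [hcard, hck, hf] at h1
  exact (Nat.pow_right_injective hp.two_le h1).symm

end Fermat.Agent.S56.helper1848
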