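/-
S56-ADDUAL (helper8200): the trace-dual bridge between the two carriers of `ad⁰(1)`.

* `End0 k V`            : trace-zero endomorphisms (a `k`-submodule of `Module.End k V`);
* `tracePair`           : `(X, m) ↦ Tr_{k/𝔽_p} (tr (X * m))`;
* `traceDual`           : `End0 k V ≃ₗ[ZMod p] Module.Dual (ZMod p) (End0 k V)` (any `ZMod p`-module
                          instance on `End0 k V`), `traceDual X m = tracePair X m`;
* `traceDual_conj`      : equivariance for conjugation and `ZMod p`-twists.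
-/
import Mathlib
import Fermat.Prelude.Def_GaloisRep_LocalConditions
import Fermat.Prelude.Def_ExtCitation_KummerBridge
import Fermat.Prelude.Def_GroupCohomology_Selmer

set_option autoImplicit false

namespace Fermat.Agent.S56.helper8200

open Module

section LinAlg

variable (k : Type*) [Field k] (V : Type*) [AddCommGroup V] [Module k V]

/-- Trace-zero endomorphisms. -/
noncomputable abbrev End0 : Submodule k (Module.End k V) :=
  LinearMap.ker (LinearMap.trace k V)

variable {k V}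

theorem mem_End0 {X : Module.End k V} : X ∈ End0 k V ↔ LinearMap.trace k V X = 0 :=
  LinearMap.mem_ker

/-- The trace form on all endomorphisms is nondegenerate. -/
theorem eq_zero_of_trace_mul_eq_zero [FiniteDimensional k V] (X : Module.End k V)
    (h : ∀ m : Module.End k V, LinearMap.trace k V (X * m) = 0) : X = 0 := by
  classical
  set b := Module.finBasis k V
  apply (LinearMap.toMatrixAlgEquiv b).injective
  rw [map_zero]
  apply Matrix.ext_iff_trace_mul_right.mpr
  intro x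
  have h1 := h ((LinearMap.toMatrixAlgEquiv b).symm x)
  rw [LinearMap.trace_eq_matrix_trace k b] at h1
  have h2 : LinearMap.toMatrix b b (X * (LinearMap.toMatrixAlgEquiv b).symm x)
      = LinearMap.toMatrixAlgEquiv b X * x := by
    change LinearMap.toMatrixAlgEquiv b (X * (LinearMap.toMatrixAlgEquiv b).symm x) = _
    rw [map_mul, AlgEquiv.apply_symm_apply]
  rw [← h2, h1, Matrix.zero_mul, Matrix.trace_zero]

/-- The trace form restricted to trace-zero endomorphisms is nondegenerate when `dim V` is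
invertible in `k`. -/
theorem eq_zero_of_trace_mul_eq_zero_of_mem_End0 [FiniteDimensional k V]
    (hd : (Module.finrank k V : k) ≠ 0) {X : Module.End k V} (hX : X ∈ End0 k V)
    (h : ∀ m ∈ End0 k V, LinearMap.trace k V (X * m) = 0) : X = 0 := by
  apply eq_zero_of_trace_mul_eq_zero
  intro m
  set c : k := LinearMap.trace k V m / (Module.finrank k V : k) with hc
  have hm0 : m - c • (1 : Module.End k V) ∈ End0 k V := by
    rw [mem_End0, map_sub, map_smul, LinearMap.trace_one, smul_eq_mul, hc,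
      div_mul_cancel₀ _ hd, sub_self]
  have h1 := h _ hm0
  rw [mul_sub, mul_smul_comm, mul_one, map_sub, map_smul, mem_End0.mp hX, smul_zero,
    sub_zero] at h1
  exact h1

/-- Conjugation preserves trace zero. -/
theorem conj_mem_End0 {u u' : Module.End k V} (hu : u' * u = 1) {X : Module.End k V}
    (hX : X ∈ End0 k V) : u * X * u' ∈ End0 k V := by
  rw [mem_End0, LinearMap.trace_mul_comm, ← mul_assoc, hu, one_mul]
  exact mem_End0.mp hX

/-- An element of the form `u x u⁻¹ - x` is orthogonal to `u` for the trace form. -/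
theorem trace_conj_sub_mul {u u' : Module.End k V} (hu : u' * u = 1) (x : Module.End k V) :
    LinearMap.trace k V ((u * x * u' - x) * u) = 0 := by
  rw [sub_mul, map_sub, mul_assoc, mul_assoc, hu, mul_one, LinearMap.trace_mul_comm, sub_self]

/-- If `tr (w u) ≠ 0` then `w` is not of the form `u x u⁻¹ - x`. -/
theorem ne_conj_sub_of_trace_ne_zero {u u' : Module.End k V} (hu : u' * u = 1)
    {w : Module.End k V} (hw : LinearMap.trace k V (w * u) ≠ 0) (x : Module.End k V) :
    w ≠ u * x * u' - x := by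
  rintro rfl
  exact hw (trace_conj_sub_mul hu x)

open Polynomial in
/-- A regular semisimple endomorphism with eigenvalues in a finite field has order dividing
`#k - 1`. -/
theorem pow_card_sub_one_eq_one_of_charpoly [Finite k] [FiniteDimensional k V]
    {u u' : Module.End k V} (hu : u' * u = 1) {α β : k} (hαβ : α ≠ β)
    (hc : LinearMap.charpoly u = (X - C α) * (X - C β)) : u ^ (Nat.card k - 1) = 1 := by
  classical
  have := Fintype.ofFinite k
  have hne : ∀ γ : k, (LinearMap.charpoly u).IsRoot γ → γ ≠ 0 := by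
    rintro γ hroot rfl
    obtain ⟨v, hv⟩ :=
      ((Module.End.hasEigenvalue_iff_isRoot_charpoly u 0).mpr hroot).exists_hasEigenvector
    have h1 : u v = 0 := by
      have h2 := hv.apply_eq_smul
      rwa [zero_smul] at h2
    have h3 : v = 0 := by
      have h4 : (u' * u) v = v := by rw [hu, Module.End.one_apply]
      rw [Module.End.mul_apply, h1, map_zero] at h4
      exact h4.symm
    exact hv.2 h3
  have hα : α ≠ 0 := hne α (by rw [hc]; simp)
  have hβ : β ≠ 0 := hne β (by rw [hc]; simp)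
  rw [Nat.card_eq_fintype_card]
  have h1 : (X - C α : k[X]) ∣ X ^ (Fintype.card k - 1) - 1 := by
    rw [dvd_iff_isRoot]
    simp [FiniteField.pow_card_sub_one_eq_one α hα]
  have h2 : (X - C β : k[X]) ∣ X ^ (Fintype.card k - 1) - 1 := by
    rw [dvd_iff_isRoot]
    simp [FiniteField.pow_card_sub_one_eq_one β hβ]
  have hcop : IsCoprime (X - C α : k[X]) (X - C β) :=
    isCoprime_X_sub_C_of_isUnit_sub (sub_ne_zero.mpr hαβ).isUnit
  obtain ⟨g, hg⟩ := hcop.mul_dvd h1 h2
  have h3 := LinearMap.aeval_self_charpoly u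
  rw [hc] at h3
  have h4 : aeval u (X ^ (Fintype.card k - 1) - 1 : k[X]) = 0 := by
    rw [hg, map_mul, h3, zero_mul]
  rw [map_sub, map_pow, aeval_X, map_one, sub_eq_zero] at h4
  exact h4

open Polynomial in
/-- A nonzero endomorphism commuting with a regular semisimple `u` (eigenvalues in the finite
field `k`) is not of the form `u x u⁻¹ - x`. -/
theorem ne_conj_sub_of_commute [Finite k] [FiniteDimensional k V]
    {u u' : Module.End k V} (hu : u' * u = 1) (hu' : u * u' = 1) {α β : k} (hαβ : α ≠ β)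
    (hc : LinearMap.charpoly u = (X - C α) * (X - C β)) {w : Module.End k V} (hw : w ≠ 0)
    (hcomm : u * w = w * u) (x : Module.End k V) : w ≠ u * x * u' - x := by
  classical
  have := Fintype.ofFinite k
  intro h
  have key : ∀ j : ℕ, u ^ j * x * u' ^ j = x + j • w := by
    intro j
    induction j with
    | zero => simp
    | succ j ih =>
      have h1 : u ^ (j + 1) * x * u' ^ (j + 1) = u * (u ^ j * x * u' ^ j) * u' := by
        rw [pow_succ', pow_succ]
        simp only [mul_assoc]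
      have h2 : u * w * u' = w := by rw [hcomm, mul_assoc, hu', mul_one]
      have h3 : u * x * u' = x + w := by rw [h]; abel
      rw [h1, ih, mul_add, add_mul, mul_smul_comm, smul_mul_assoc, h2, h3, succ_nsmul]
      abel
  have hN := pow_card_sub_one_eq_one_of_charpoly hu hαβ hc
  have hN' : u' ^ (Nat.card k - 1) = 1 := by
    have h1 := pow_mul_pow_eq_one (Nat.card k - 1) hu
    rwa [hN, mul_one] at h1
  have h5 := key (Nat.card k - 1)
  rw [hN, hN', one_mul, mul_one] at h5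
  have h6 : (Nat.card k - 1) • w = 0 := by
    have h7 : x + 0 = x + (Nat.card k - 1) • w := by rw [add_zero]; exact h5
    exact (add_left_cancel h7).symm
  have h8 : ((Nat.card k - 1 : ℕ) : k) = -1 := by
    have h9 : ((Nat.card k - 1 : ℕ) : k) + 1 = 0 := by
      have h10 : 1 ≤ Nat.card k := Nat.one_le_iff_ne_zero.mpr Nat.card_pos.ne'
      rw [← Nat.cast_one (R := k), ← Nat.cast_add, Nat.sub_add_cancel h10,
        Nat.card_eq_fintype_card]
      exact FiniteField.cast_card_eq_zero k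
    exact eq_neg_of_add_eq_zero_left h9
  rw [← Nat.cast_smul_eq_nsmul k, h8, neg_smul, one_smul, neg_eq_zero] at h6
  exact hw h6

end LinAlg

section Pairing

variable {k : Type*} [Field k] {V : Type*} [AddCommGroup V] [Module k V]
variable (p : ℕ) [Fact p.Prime] [Algebra (ZMod p) k]

/-- The pairing `(X, m) ↦ Tr_{k/𝔽_p} (tr (X * m))` on endomorphisms. -/
noncomputable def tracePair (X m : Module.End k V) : ZMod p :=
  Algebra.trace (ZMod p) k (LinearMap.trace k V (X * m))

theorem tracePair_add_left (X Y m : Module.End k V) :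
    tracePair p (X + Y) m = tracePair p X m + tracePair p Y m := by
  simp only [tracePair, add_mul, map_add]

theorem tracePair_add_right (X m n : Module.End k V) :
    tracePair p X (m + n) = tracePair p X m + tracePair p X n := by
  simp only [tracePair, mul_add, map_add]

theorem tracePair_comm (X m : Module.End k V) : tracePair p X m = tracePair p m X := by
  simp only [tracePair, LinearMap.trace_mul_comm k X m]

/-- Conjugation moves across the pairing. -/
theorem tracePair_conj (u u' X m : Module.End k V) :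
    tracePair p (u * X * u') m = tracePair p X (u' * m * u) := by
  unfold tracePair
  congr 1
  have h1 : u * X * u' * m = u * (X * (u' * m)) := by simp only [mul_assoc]
  rw [h1, LinearMap.trace_mul_comm]
  simp only [mul_assoc]

/-- `ZMod p`-scalars (through `k`) come out of the pairing. -/
theorem tracePair_algebraMap_smul (c : ZMod p) (X m : Module.End k V) :
    tracePair p (algebraMap (ZMod p) k c • X) m = c * tracePair p X m := by
  unfold tracePair
  rw [smul_mul_assoc, map_smul, smul_eq_mul, ← Algebra.smul_def, map_smul, smul_eq_mul]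

/-- The trace of a finite field to its prime field is nondegenerate. -/
theorem exists_trace_mul_ne_zero [Finite k] {a : k} (ha : a ≠ 0) :
    ∃ b : k, Algebra.trace (ZMod p) k (a * b) ≠ 0 := by
  have htr := (traceForm_nondegenerate (ZMod p) k).1 a
  simp_rw [Algebra.traceForm_apply] at htr
  by_contra! hf
  exact ha (htr hf)

/-- The `ZMod p`-valued trace pairing is nondegenerate on trace-zero endomorphisms. -/
theorem eq_zero_of_tracePair_eq_zero [Finite k] [FiniteDimensional k V]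
    (hd : (Module.finrank k V : k) ≠ 0) {X : Module.End k V} (hX : X ∈ End0 k V)
    (h : ∀ m ∈ End0 k V, tracePair p X m = 0) : X = 0 := by
  apply eq_zero_of_trace_mul_eq_zero_of_mem_End0 hd hX
  intro m hm
  by_contra hne
  obtain ⟨b, hb⟩ := exists_trace_mul_ne_zero p hne
  apply hb
  have h1 := h (b • m) ((End0 k V).smul_mem b hm)
  rw [tracePair, mul_smul_comm, map_smul, smul_eq_mul, mul_comm] at h1
  exact h1

variable [Module (ZMod p) ↥(End0 k V)]

/-- The trace pairing as a `ZMod p`-bilinear form on trace-zero endomorphisms, for an arbitrary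
`ZMod p`-module structure on `End0 k V` (all such structures are equal). -/
noncomputable def traceBilin : LinearMap.BilinForm (ZMod p) ↥(End0 k V) :=
  AddMonoidHom.toZModLinearMap p
    ((AddMonoidHom.toZModLinearMapEquiv p).toAddMonoidHom.comp
      (AddMonoidHom.mk'
        (fun X : ↥(End0 k V) =>
          AddMonoidHom.mk' (fun m : ↥(End0 k V) => tracePair p (X : Module.End k V) m)
            (fun _ _ => tracePair_add_right p _ _ _))
        (fun _ _ => AddMonoidHom.ext fun _ => tracePair_add_left p _ _ _)))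

theorem traceBilin_apply (X m : ↥(End0 k V)) :
    traceBilin p X m = tracePair p (X : Module.End k V) m := rfl

theorem traceBilin_nondegenerate [Finite k] [FiniteDimensional k V]
    (hd : (Module.finrank k V : k) ≠ 0) :
    (traceBilin p : LinearMap.BilinForm (ZMod p) ↥(End0 k V)).Nondegenerate := by
  have hl : ∀ X : ↥(End0 k V), (∀ m : ↥(End0 k V), traceBilin p X m = 0) → X = 0 := by
    intro X hX
    apply Subtype.ext
    exact eq_zero_of_tracePair_eq_zero p hd X.2 (fun m hm => hX ⟨m, hm⟩)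
  refine ⟨hl, fun m hm => hl m fun X => ?_⟩
  rw [traceBilin_apply, tracePair_comm, ← traceBilin_apply]
  exact hm X

/-- Finiteness of the trace-zero endomorphisms over a finite field. -/
theorem finite_End0 [Finite k] [FiniteDimensional k V] : Finite ↥(End0 k V) := by
  have : Finite (Module.End k V) := Module.finite_of_finite k
  infer_instance

/-- **The trace-dual bridge**: trace-zero endomorphisms are their own `𝔽_p`-linear dual, through
`X ↦ (m ↦ Tr_{k/𝔽_p} (tr (X m)))`. -/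
noncomputable def traceDual [Finite k] [FiniteDimensional k V]
    (hd : (Module.finrank k V : k) ≠ 0) :
    ↥(End0 k V) ≃ₗ[ZMod p] Module.Dual (ZMod p) ↥(End0 k V) :=
  haveI : Finite ↥(End0 k V) := finite_End0
  haveI : FiniteDimensional (ZMod p) ↥(End0 k V) := Module.Finite.of_finite
  (traceBilin p).toDual (traceBilin_nondegenerate p hd)

theorem traceDual_apply [Finite k] [FiniteDimensional k V]
    (hd : (Module.finrank k V : k) ≠ 0) (X m : ↥(End0 k V)) :
    traceDual p hd X m = tracePair p (X : Module.End k V) m := rfl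

/-- **Equivariance of the bridge.**  If `Y = c • (u X u')` (`c ∈ 𝔽_p` acting through `k`) and
`L` is the map `m ↦ u' m u` on trace-zero endomorphisms, then
`traceDual Y = c • (traceDual X ∘ L)`.  With `u = ρ g`, `u' = ρ g⁻¹`, `c = χ g` this says that
`traceDual` intertwines the action `g • X = χ(g) ρ(g) X ρ(g)⁻¹` with the dual-twist action
`g • f = χ(g) • (f ∘ (conjugation by g⁻¹))` of `Rep.dualTwist`. -/
theorem traceDual_conj [Finite k] [FiniteDimensional k V]
    (hd : (Module.finrank k V : k) ≠ 0) (c : ZMod p) (u u' : Module.End k V)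
    (X Y : ↥(End0 k V))
    (hY : (Y : Module.End k V) = algebraMap (ZMod p) k c • (u * (X : Module.End k V) * u'))
    (L : ↥(End0 k V) →ₗ[ZMod p] ↥(End0 k V))
    (hL : ∀ m : ↥(End0 k V), ((L m : ↥(End0 k V)) : Module.End k V) = u' * m * u) :
    traceDual p hd Y = c • (traceDual p hd X ∘ₗ L) := by
  apply LinearMap.ext
  intro m
  rw [LinearMap.smul_apply, LinearMap.comp_apply, traceDual_apply, traceDual_apply, hY,
    tracePair_algebraMap_smul, tracePair_conj, hL, smul_eq_mul]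

/-- Any `ZMod p`-module structure on `End0 k V` is the restriction of the `k`-structure. -/
theorem zmod_smul_eq (c : ZMod p) (X : ↥(End0 k V)) :
    c • X = algebraMap (ZMod p) k c • X := by
  have : NeZero p := ⟨(Fact.out : p.Prime).ne_zero⟩
  obtain ⟨n, rfl⟩ := ZMod.natCast_zmod_surjective c
  rw [Nat.cast_smul_eq_nsmul, map_natCast, Nat.cast_smul_eq_nsmul]

/-- **Equivariance in the vocabulary of the frozen `Rep.dualTwist`.**  For ANY representation `A`
of a group `G` on `End0 k V` given by conjugation through `ρ : G →* Module.End k V`, and any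
character `χ`, the bridge intertwines `A.twist χ` (`g • X = χ(g) ρ(g) X ρ(g)⁻¹`) with
`A.dual.twist χ` (the representation of `(Rep.of A).dualTwist χ`). -/
theorem traceDual_twist [Finite k] [FiniteDimensional k V]
    (hd : (Module.finrank k V : k) ≠ 0) {G : Type*} [Group G] (ρ : G →* Module.End k V)
    (A : Representation (ZMod p) G ↥(End0 k V))
    (hA : ∀ (g : G) (X : ↥(End0 k V)),
      ((A g X : ↥(End0 k V)) : Module.End k V) = ρ g * X * ρ g⁻¹)
    (χ : G →* (ZMod p)ˣ) (g : G) (X : ↥(End0 k V)) :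
    traceDual p hd (A.twist χ g X) = A.dual.twist χ g (traceDual p hd X) := by
  rw [Representation.twist_apply_apply, Representation.twist_apply_apply, map_smul]
  congr 1
  apply LinearMap.ext
  intro m
  rw [Representation.dual_apply, Module.Dual.transpose_apply, LinearMap.comp_apply,
    traceDual_apply, traceDual_apply, hA, hA, tracePair_conj, inv_inv]

/-- The twisted conjugation action in coordinates: `A.twist χ g X = χ(g) • (ρ g * X * ρ g⁻¹)`,
the scalar acting through `k` (this is the action `det(ρ g) • ρ(g) X ρ(g)⁻¹` of `ad⁰(1)` when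
`det ∘ ρ = χ`). -/
theorem coe_twist_apply {G : Type*} [Group G] (ρ : G →* Module.End k V)
    (A : Representation (ZMod p) G ↥(End0 k V))
    (hA : ∀ (g : G) (X : ↥(End0 k V)),
      ((A g X : ↥(End0 k V)) : Module.End k V) = ρ g * X * ρ g⁻¹)
    (χ : G →* (ZMod p)ˣ) (g : G) (X : ↥(End0 k V)) :
    ((A.twist χ g X : ↥(End0 k V)) : Module.End k V)
      = algebraMap (ZMod p) k (χ g : ZMod p) • (ρ g * X * ρ g⁻¹) := by
  rw [Representation.twist_apply_apply, zmod_smul_eq, Submodule.coe_smul, hA]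

end Pairing

/-! ### Transport of cocycle statements along an equivariant additive equivalence -/

section Transport

variable {Γ : Type*} [Mul Γ] {M₁ M₂ : Type*} [AddCommGroup M₁] [AddCommGroup M₂]

/-- `c` is a 1-cocycle for the action `a` (function form). -/
def IsCocycleFn {M : Type*} [AddCommGroup M] (a : Γ → M → M) (c : Γ → M) : Prop :=
  ∀ g h : Γ, c (g * h) = c g + a g (c h)

/-- `c` is a 1-coboundary for the action `a` (function form). -/
def IsCoboundaryFn {M : Type*} [AddCommGroup M] (a : Γ → M → M) (c : Γ → M) : Prop :=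
  ∃ x : M, ∀ g : Γ, c g = a g x - x

/-- `y ∈ (g - 1) M` (function form). -/
def InRangeSub {M : Type*} [AddCommGroup M] (a : Γ → M → M) (g : Γ) (y : M) : Prop :=
  ∃ x : M, y = a g x - x

variable (a₁ : Γ → M₁ → M₁) (a₂ : Γ → M₂ → M₂) (Φ : M₁ ≃+ M₂)

theorem isCocycleFn_map (hΦ : ∀ g x, Φ (a₁ g x) = a₂ g (Φ x)) (c : Γ → M₁) :
    IsCocycleFn a₂ (fun g => Φ (c g)) ↔ IsCocycleFn a₁ c := by
  constructor
  · intro h g g'
    apply Φ.injective
    rw [map_add, hΦ]
    exact h g g'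
  · intro h g g'
    change Φ (c (g * g')) = Φ (c g) + a₂ g (Φ (c g'))
    rw [h g g', map_add, hΦ]

omit [Mul Γ] in
theorem isCoboundaryFn_map (hΦ : ∀ g x, Φ (a₁ g x) = a₂ g (Φ x)) (c : Γ → M₁) :
    IsCoboundaryFn a₂ (fun g => Φ (c g)) ↔ IsCoboundaryFn a₁ c := by
  constructor
  · rintro ⟨x, hx⟩
    refine ⟨Φ.symm x, fun g => Φ.injective ?_⟩
    rw [map_sub, hΦ, AddEquiv.apply_symm_apply]
    exact hx g
  · rintro ⟨x, hx⟩
    refine ⟨Φ x, fun g => ?_⟩
    change Φ (c g) = a₂ g (Φ x) - Φ x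
    rw [hx g, map_sub, hΦ]

omit [Mul Γ] in
theorem inRangeSub_map (hΦ : ∀ g x, Φ (a₁ g x) = a₂ g (Φ x)) (g : Γ) (y : M₁) :
    InRangeSub a₂ g (Φ y) ↔ InRangeSub a₁ g y := by
  constructor
  · rintro ⟨x, hx⟩
    refine ⟨Φ.symm x, Φ.injective ?_⟩
    rw [map_sub, hΦ, AddEquiv.apply_symm_apply]
    exact hx
  · rintro ⟨x, hx⟩
    exact ⟨Φ x, by rw [hx, map_sub, hΦ]⟩

/-- **Transport of the (R5)-shape**: "every cocycle vanishing on `H` is a coboundary" passes
from `M₁` to `M₂`. -/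
theorem coboundary_of_vanishing_transport (hΦ : ∀ g x, Φ (a₁ g x) = a₂ g (Φ x)) (H : Set Γ)
    (h5 : ∀ c : Γ → M₁, IsCocycleFn a₁ c → (∀ h ∈ H, c h = 0) → IsCoboundaryFn a₁ c)
    (c' : Γ → M₂) (hc' : IsCocycleFn a₂ c') (hH : ∀ h ∈ H, c' h = 0) : IsCoboundaryFn a₂ c' := by
  have e : c' = fun g => Φ (Φ.symm (c' g)) := by
    funext g
    rw [AddEquiv.apply_symm_apply]
  rw [e] at hc' ⊢
  rw [isCocycleFn_map a₁ a₂ Φ hΦ] at hc'
  rw [isCoboundaryFn_map a₁ a₂ Φ hΦ]
  exact h5 _ hc' (fun h hh => by rw [hH h hh, map_zero])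

omit [Mul Γ] in
/-- **Transport of the (R4)-shape**: "every nonzero stable subgroup `W` has an element outside
`(g - 1) M` for some `g ∈ 𝒯`" passes from `M₁` to `M₂`. -/
theorem exists_not_inRangeSub_transport (hΦ : ∀ g x, Φ (a₁ g x) = a₂ g (Φ x)) (𝒯 : Set Γ)
    (h4 : ∀ W : AddSubgroup M₁, W ≠ ⊥ → (∀ g, ∀ w ∈ W, a₁ g w ∈ W) →
      ∃ g ∈ 𝒯, ∃ w ∈ W, ¬ InRangeSub a₁ g w)
    (W' : AddSubgroup M₂) (hW' : W' ≠ ⊥) (hst : ∀ g, ∀ w ∈ W', a₂ g w ∈ W') :
    ∃ g ∈ 𝒯, ∃ w ∈ W', ¬ InRangeSub a₂ g w := by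
  have hne : W'.comap Φ.toAddMonoidHom ≠ ⊥ := by
    intro h0
    apply hW'
    rw [eq_bot_iff]
    intro w hw
    have h1 : Φ.symm w ∈ W'.comap Φ.toAddMonoidHom := by
      change Φ (Φ.symm w) ∈ W'
      rwa [AddEquiv.apply_symm_apply]
    rw [h0, AddSubgroup.mem_bot] at h1
    rw [AddSubgroup.mem_bot, ← Φ.apply_symm_apply w, h1, map_zero]
  obtain ⟨g, hg, w, hw, hn⟩ := h4 (W'.comap Φ.toAddMonoidHom) hne (fun g w hw => by
    change Φ (a₁ g w) ∈ W'
    rw [hΦ]
    exact hst g _ hw)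
  exact ⟨g, hg, Φ w, hw, fun h => hn ((inRangeSub_map a₁ a₂ Φ hΦ g w).mp h)⟩

end Transport

/-! ### The two shapes consumed by the Taylor–Wiles prime selection, on the dual carrier -/

section DualShapes

variable {k : Type*} [Field k] {V : Type*} [AddCommGroup V] [Module k V]
variable (p : ℕ) [Fact p.Prime] [Algebra (ZMod p) k] [Module (ZMod p) ↥(End0 k V)]
variable [Finite k] [FiniteDimensional k V]

/-- (R5)-shape on the dual carrier `Module.Dual (ZMod p) (End0 k V)` with the `dualTwist` action,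
from the (R5)-shape on `End0 k V` with the action `g • X = χ(g) ρ(g) X ρ(g)⁻¹`. -/
theorem coboundary_dual_of_coboundary_End0 (hd : (Module.finrank k V : k) ≠ 0)
    {G : Type*} [Group G] (ρ : G →* Module.End k V)
    (A : Representation (ZMod p) G ↥(End0 k V))
    (hA : ∀ (g : G) (X : ↥(End0 k V)),
      ((A g X : ↥(End0 k V)) : Module.End k V) = ρ g * X * ρ g⁻¹)
    (χ : G →* (ZMod p)ˣ) (H : Set G)
    (h5 : ∀ c : G → ↥(End0 k V), IsCocycleFn (fun g => A.twist χ g) c → (∀ h ∈ H, c h = 0) →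
      IsCoboundaryFn (fun g => A.twist χ g) c)
    (c' : G → Module.Dual (ZMod p) ↥(End0 k V))
    (hc' : IsCocycleFn (fun g => A.dual.twist χ g) c') (hH : ∀ h ∈ H, c' h = 0) :
    IsCoboundaryFn (fun g => A.dual.twist χ g) c' :=
  coboundary_of_vanishing_transport (fun g => A.twist χ g) (fun g => A.dual.twist χ g)
    (traceDual p hd).toAddEquiv (fun g X => traceDual_twist p hd ρ A hA χ g X) H h5 c' hc' hH

/-- (R4)-shape on the dual carrier from the (R4)-shape on `End0 k V`. -/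
theorem exists_not_inRangeSub_dual (hd : (Module.finrank k V : k) ≠ 0)
    {G : Type*} [Group G] (ρ : G →* Module.End k V)
    (A : Representation (ZMod p) G ↥(End0 k V))
    (hA : ∀ (g : G) (X : ↥(End0 k V)),
      ((A g X : ↥(End0 k V)) : Module.End k V) = ρ g * X * ρ g⁻¹)
    (χ : G →* (ZMod p)ˣ) (𝒯 : Set G)
    (h4 : ∀ W : AddSubgroup ↥(End0 k V), W ≠ ⊥ → (∀ g, ∀ w ∈ W, A.twist χ g w ∈ W) →
      ∃ g ∈ 𝒯, ∃ w ∈ W, ¬ InRangeSub (fun g => A.twist χ g) g w)
    (W' : AddSubgroup (Module.Dual (ZMod p) ↥(End0 k V))) (hW' : W' ≠ ⊥)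
    (hst : ∀ g, ∀ f ∈ W', A.dual.twist χ g f ∈ W') :
    ∃ g ∈ 𝒯, ∃ f ∈ W', ¬ InRangeSub (fun g => A.dual.twist χ g) g f :=
  exists_not_inRangeSub_transport (fun g => A.twist χ g) (fun g => A.dual.twist χ g)
    (traceDual p hd).toAddEquiv (fun g X => traceDual_twist p hd ρ A hA χ g X) 𝒯 h4 W' hW' hst

end DualShapes

section Frozen

variable {k : Type} [Field k] (p : ℕ) [Fact p.Prime]

omit [Fact p.Prime] in
/-- `DetIsCyclotomic` for a residual representation forces characteristic `p`. -/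
theorem natCast_eq_zero_of_detIsCyclotomic (ρbar : ResidualGaloisRep k)
    (hdet : (GaloisRepAdic.ofResidualGaloisRep ρbar).DetIsCyclotomic p) : (p : k) = 0 := by
  have h := hdet.1
  rwa [IsLocalRing.isField_iff_maximalIdeal_eq.mp (Field.toIsField k), Ideal.mem_bot] at h

/-- **det = mod-`p` cyclotomic character**, in the vocabulary of the S55 carriers. -/
theorem det_eq_cycloExp (ρbar : ResidualGaloisRep k)
    (hdet : (GaloisRepAdic.ofResidualGaloisRep ρbar).DetIsCyclotomic p)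
    (σ : AlgebraicClosure ℚ ≃ₐ[ℚ] AlgebraicClosure ℚ) :
    LinearMap.det (ρbar.ρ σ) = (ExtCitation.cycloExp p σ : k) := by
  have : NeZero p := ⟨(Fact.out : p.Prime).ne_zero⟩
  have h0 := natCast_eq_zero_of_detIsCyclotomic p ρbar hdet
  have h1 := hdet.2 1 σ (ExtCitation.cycloExp p σ) (fun μ hμ => by
    rw [pow_one] at hμ
    have hμ0 : μ ≠ 0 := by
      rintro rfl
      rw [zero_pow (Fact.out : p.Prime).ne_zero] at hμ
      exact zero_ne_one hμ
    have ht : Units.mk0 μ hμ0 ∈ rootsOfUnity p (AlgebraicClosure ℚ) := by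
      rw [mem_rootsOfUnity]
      exact Units.ext (by simpa using hμ)
    have h2 := modularCyclotomicCharacter.spec (AlgebraicClosure ℚ)
      (ExtCitation.card_rootsOfUnity_eq_self p)
      (σ : AlgebraicClosure ℚ ≃+* AlgebraicClosure ℚ) ht
    exact h2)
  rw [pow_one, h0] at h1
  have h3 : Ideal.span {(0 : k)} = ⊥ := Ideal.span_singleton_eq_bot.mpr rfl
  rw [h3, Ideal.mem_bot, sub_eq_zero] at h1
  exact h1

theorem det_eq_cycloChar (ρbar : ResidualGaloisRep k)
    (hdet : (GaloisRepAdic.ofResidualGaloisRep ρbar).DetIsCyclotomic p)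
    (σ : AlgebraicClosure ℚ ≃ₐ[ℚ] AlgebraicClosure ℚ) :
    LinearMap.det (ρbar.ρ σ) = (((ExtCitation.cycloChar p σ : (ZMod p)ˣ) : ZMod p).val : k) :=
  det_eq_cycloExp p ρbar hdet σ

theorem det_eq_algebraMap_cycloChar [Algebra (ZMod p) k] (ρbar : ResidualGaloisRep k)
    (hdet : (GaloisRepAdic.ofResidualGaloisRep ρbar).DetIsCyclotomic p)
    (σ : AlgebraicClosure ℚ ≃ₐ[ℚ] AlgebraicClosure ℚ) :
    LinearMap.det (ρbar.ρ σ)
      = algebraMap (ZMod p) k ((ExtCitation.cycloChar p σ : (ZMod p)ˣ) : ZMod p) := by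
  have : NeZero p := ⟨(Fact.out : p.Prime).ne_zero⟩
  rw [det_eq_cycloChar p ρbar hdet σ, ← map_natCast (algebraMap (ZMod p) k), ZMod.natCast_val,
    ZMod.cast_id', id]

omit [Fact p.Prime] in
/-- The determinant is trivial on automorphisms fixing the `p`-th roots of unity. -/
theorem det_eq_one_of_fixes (ρbar : ResidualGaloisRep k)
    (hdet : (GaloisRepAdic.ofResidualGaloisRep ρbar).DetIsCyclotomic p)
    (σ : AlgebraicClosure ℚ ≃ₐ[ℚ] AlgebraicClosure ℚ)
    (hσ : ∀ μ : AlgebraicClosure ℚ, μ ^ p = 1 → σ μ = μ) :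
    LinearMap.det (ρbar.ρ σ) = 1 := by
  have h0 := natCast_eq_zero_of_detIsCyclotomic p ρbar hdet
  have h1 := hdet.2 1 σ 1 (fun μ hμ => by
    rw [pow_one] at hμ ⊢
    exact hσ μ hμ)
  rw [pow_one, h0] at h1
  have h3 : Ideal.span {(0 : k)} = ⊥ := Ideal.span_singleton_eq_bot.mpr rfl
  rw [h3, Ideal.mem_bot, sub_eq_zero, Nat.cast_one] at h1
  exact h1

/-- The mod-`p` cyclotomic character is trivial on automorphisms fixing the `p^(n+1)`-th roots
of unity. -/
theorem cycloChar_eq_one_of_fixes (σ : AlgebraicClosure ℚ ≃ₐ[ℚ] AlgebraicClosure ℚ) (n : ℕ)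
    (hσ : ∀ μ : AlgebraicClosure ℚ, μ ^ p ^ (n + 1) = 1 → σ μ = μ) :
    ExtCitation.cycloChar p σ = 1 := by
  have : NeZero p := ⟨(Fact.out : p.Prime).ne_zero⟩
  have : Fact (1 < p) := ⟨(Fact.out : p.Prime).one_lt⟩
  have h1 := modularCyclotomicCharacter.unique (AlgebraicClosure ℚ)
    (ExtCitation.card_rootsOfUnity_eq_self p)
    (σ : AlgebraicClosure ℚ ≃+* AlgebraicClosure ℚ) (c := 1) (fun t ht => by
      rw [ZMod.val_one, pow_one]
      have h2 : ((t : (AlgebraicClosure ℚ)ˣ) : AlgebraicClosure ℚ) ^ p = 1 := by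
        have h3 := (mem_rootsOfUnity _ _).mp ht
        rw [← Units.val_pow_eq_pow_val, h3, Units.val_one]
      exact hσ _ (by rw [pow_succ, pow_mul', h2, one_pow]))
  apply Units.ext
  exact h1.symm

end Frozen

/-! ### The `End`-valued shapes of TW-R5B and TW-R4 (inputs of the bridge) -/

section Shapes

open Polynomial

variable {k : Type} [Field k] (p : ℕ) (ρbar : ResidualGaloisRep k)

/-- The conclusion of TW-R5B (`h1_vanish`) at level `n`: every trace-zero `End`-valued cocycle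
for `σ • X = det(ρ σ) • ρ(σ) X ρ(σ)⁻¹` vanishing on `{σ | ρbar σ = 1 ∧ σ fixes μ_{p^(n+1)}}` is a
coboundary. -/
def H1VanishShape (n : ℕ) : Prop :=
  ∀ ψ : (AlgebraicClosure ℚ ≃ₐ[ℚ] AlgebraicClosure ℚ) → Module.End k ρbar.V,
    (∀ σ, LinearMap.trace k ρbar.V (ψ σ) = 0) →
    (∀ σ τ, ψ (σ * τ) = ψ σ + LinearMap.det (ρbar.ρ σ) • (ρbar.ρ σ * ψ τ * ρbar.ρ σ⁻¹)) →
    (∀ σ, ρbar.ρ σ = 1 → (∀ μ : AlgebraicClosure ℚ, μ ^ p ^ (n + 1) = 1 → σ μ = μ) → ψ σ = 0) →
    ∃ X, LinearMap.trace k ρbar.V X = 0 ∧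
      ∀ σ, ψ σ = LinearMap.det (ρbar.ρ σ) • (ρbar.ρ σ * X * ρbar.ρ σ⁻¹) - X

/-- TW-R4 (C) at level `n`, "not in `(h - 1) ad⁰`" form: every nonzero conjugation-stable
additive subgroup of trace-zero endomorphisms has an element outside `(h - 1) ad⁰` for some `h`
fixing `μ_{p^(n+1)}` with `ρbar h` regular semisimple over `k`. -/
def TWElementShape (n : ℕ) : Prop :=
  ∀ W : AddSubgroup (Module.End k ρbar.V), (∀ w ∈ W, LinearMap.trace k ρbar.V w = 0) →
    W ≠ ⊥ → (∀ g, ∀ w ∈ W, ρbar.ρ g * w * ρbar.ρ g⁻¹ ∈ W) →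
    ∃ h : AlgebraicClosure ℚ ≃ₐ[ℚ] AlgebraicClosure ℚ,
      (∀ μ : AlgebraicClosure ℚ, μ ^ p ^ (n + 1) = 1 → h μ = μ) ∧
      (∃ α β : k, α ≠ β ∧ LinearMap.charpoly (ρbar.ρ h) = (X - C α) * (X - C β)) ∧
      ∃ w ∈ W, ∀ x : Module.End k ρbar.V, LinearMap.trace k ρbar.V x = 0 →
        w ≠ ρbar.ρ h * x * ρbar.ρ h⁻¹ - x

/-- TW-R4 (C) at level `n`, "commuting" form: some nonzero `w ∈ W` commutes with `ρbar h`. -/
def TWElementCommShape (n : ℕ) : Prop :=
  ∀ W : AddSubgroup (Module.End k ρbar.V), (∀ w ∈ W, LinearMap.trace k ρbar.V w = 0) →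
    W ≠ ⊥ → (∀ g, ∀ w ∈ W, ρbar.ρ g * w * ρbar.ρ g⁻¹ ∈ W) →
    ∃ h : AlgebraicClosure ℚ ≃ₐ[ℚ] AlgebraicClosure ℚ,
      (∀ μ : AlgebraicClosure ℚ, μ ^ p ^ (n + 1) = 1 → h μ = μ) ∧
      (∃ α β : k, α ≠ β ∧ LinearMap.charpoly (ρbar.ρ h) = (X - C α) * (X - C β)) ∧
      ∃ w ∈ W, w ≠ 0 ∧ ρbar.ρ h * w = w * ρbar.ρ h

/-- TW-R4 (C) at level `n`, "trace" form: some `w ∈ W` has `tr (w ρbar(h)) ≠ 0`. -/
def TWElementTraceShape (n : ℕ) : Prop :=
  ∀ W : AddSubgroup (Module.End k ρbar.V), (∀ w ∈ W, LinearMap.trace k ρbar.V w = 0) →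
    W ≠ ⊥ → (∀ g, ∀ w ∈ W, ρbar.ρ g * w * ρbar.ρ g⁻¹ ∈ W) →
    ∃ h : AlgebraicClosure ℚ ≃ₐ[ℚ] AlgebraicClosure ℚ,
      (∀ μ : AlgebraicClosure ℚ, μ ^ p ^ (n + 1) = 1 → h μ = μ) ∧
      (∃ α β : k, α ≠ β ∧ LinearMap.charpoly (ρbar.ρ h) = (X - C α) * (X - C β)) ∧
      ∃ w ∈ W, LinearMap.trace k ρbar.V (w * ρbar.ρ h) ≠ 0

variable {p ρbar}

theorem ρ_inv_mul (g : AlgebraicClosure ℚ ≃ₐ[ℚ] AlgebraicClosure ℚ) :
    ρbar.ρ g⁻¹ * ρbar.ρ g = 1 := by
  rw [← map_mul, inv_mul_cancel, map_one]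

theorem ρ_mul_inv (g : AlgebraicClosure ℚ ≃ₐ[ℚ] AlgebraicClosure ℚ) :
    ρbar.ρ g * ρbar.ρ g⁻¹ = 1 := by
  rw [← map_mul, mul_inv_cancel, map_one]

theorem twElementShape_of_trace {n : ℕ} (h : TWElementTraceShape p ρbar n) :
    TWElementShape p ρbar n := by
  intro W h0 hne hst
  obtain ⟨g, hfix, heig, w, hw, htr⟩ := h W h0 hne hst
  exact ⟨g, hfix, heig, w, hw, fun x _ => ne_conj_sub_of_trace_ne_zero (ρ_inv_mul g) htr x⟩

theorem twElementShape_of_comm [Finite k] {n : ℕ} (h : TWElementCommShape p ρbar n) :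
    TWElementShape p ρbar n := by
  intro W h0 hne hst
  obtain ⟨g, hfix, ⟨α, β, hαβ, hc⟩, w, hw, hw0, hcomm⟩ := h W h0 hne hst
  exact ⟨g, hfix, ⟨α, β, hαβ, hc⟩, w, hw, fun x _ =>
    ne_conj_sub_of_commute (ρ_inv_mul g) (ρ_mul_inv g) hαβ hc hw0 hcomm x⟩

end Shapes

/-! ### The two shapes consumed by TW-R6 on `dualT (ad⁰)`, from the `End`-valued shapes of
TW-R4 / TW-R5B -/

section FrozenShapes

open Polynomial

variable {k : Type} [Field k] [Finite k] (p : ℕ) [Fact p.Prime] [Algebra (ZMod p) k]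
variable (ρbar : ResidualGaloisRep k) [Module (ZMod p) ↥(End0 k ρbar.V)]

/-- **(R5)-shape on the dual carrier.**  Hypothesis `h1v` = the conclusion of TW-R5B
(`helper2902.h1_vanish`, `End`-valued cocycles for `σ • X = det(ρ σ) • ρ(σ) X ρ(σ)⁻¹`) at the
level `n`.  Conclusion: every function cocycle `GQ → Module.Dual (ZMod p) (End0 k ρbar.V)` for the
`dualTwist (cycloChar p)` action of ANY conjugation representation `A` on `End0 k ρbar.V`, which
vanishes on `{σ | ρbar σ = 1 ∧ σ fixes μ_{p^(n+1)}}`, is a coboundary. -/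
theorem coboundary_dualTwist_of_h1_vanish (hp2 : (2 : k) ≠ 0)
    (hdet : (GaloisRepAdic.ofResidualGaloisRep ρbar).DetIsCyclotomic p)
    (A : Representation (ZMod p) (AlgebraicClosure ℚ ≃ₐ[ℚ] AlgebraicClosure ℚ) ↥(End0 k ρbar.V))
    (hA : ∀ (g : AlgebraicClosure ℚ ≃ₐ[ℚ] AlgebraicClosure ℚ) (X : ↥(End0 k ρbar.V)),
      ((A g X : ↥(End0 k ρbar.V)) : Module.End k ρbar.V) = ρbar.ρ g * X * ρbar.ρ g⁻¹)
    (n : ℕ)
    (h1v : H1VanishShape p ρbar n)
    (c' : (AlgebraicClosure ℚ ≃ₐ[ℚ] AlgebraicClosure ℚ) → Module.Dual (ZMod p) ↥(End0 k ρbar.V))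
    (hc' : ∀ σ τ, c' (σ * τ) = c' σ + A.dual.twist (ExtCitation.cycloChar p) σ (c' τ))
    (hvan : ∀ σ, ρbar.ρ σ = 1 → (∀ μ : AlgebraicClosure ℚ, μ ^ p ^ (n + 1) = 1 → σ μ = μ) →
      c' σ = 0) :
    ∃ f : Module.Dual (ZMod p) ↥(End0 k ρbar.V),
      ∀ σ, c' σ = A.dual.twist (ExtCitation.cycloChar p) σ f - f := by
  have hd : ((Module.finrank k ρbar.V : ℕ) : k) ≠ 0 := by
    rw [ρbar.finrank_eq]
    exact_mod_cast hp2
  set Φ := traceDual (k := k) (V := ρbar.V) p hd with hΦdef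
  have hΦ : ∀ g X, Φ (A.twist (ExtCitation.cycloChar p) g X)
      = A.dual.twist (ExtCitation.cycloChar p) g (Φ X) :=
    fun g X => traceDual_twist p hd ρbar.ρ A hA (ExtCitation.cycloChar p) g X
  have hcoe : ∀ g (X : ↥(End0 k ρbar.V)),
      ((A.twist (ExtCitation.cycloChar p) g X : ↥(End0 k ρbar.V)) : Module.End k ρbar.V)
        = LinearMap.det (ρbar.ρ g) • (ρbar.ρ g * X * ρbar.ρ g⁻¹) := by
    intro g X
    rw [coe_twist_apply p ρbar.ρ A hA, det_eq_algebraMap_cycloChar p ρbar hdet g]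
  obtain ⟨X, hX0, hX⟩ := h1v (fun σ => ((Φ.symm (c' σ) : ↥(End0 k ρbar.V)) : Module.End k ρbar.V))
    (fun σ => mem_End0.mp (Φ.symm (c' σ)).2)
    (fun σ τ => by
      have h1 : Φ.symm (c' (σ * τ))
          = Φ.symm (c' σ) + A.twist (ExtCitation.cycloChar p) σ (Φ.symm (c' τ)) := by
        apply Φ.injective
        rw [map_add, hΦ, LinearEquiv.apply_symm_apply, LinearEquiv.apply_symm_apply,
          LinearEquiv.apply_symm_apply]
        exact hc' σ τ
      rw [h1, Submodule.coe_add, hcoe])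
    (fun σ h1 h2 => by rw [hvan σ h1 h2, map_zero, Submodule.coe_zero])
  refine ⟨Φ ⟨X, mem_End0.mpr hX0⟩, fun σ => ?_⟩
  rw [← hΦ, ← map_sub]
  apply Φ.symm.injective
  rw [LinearEquiv.symm_apply_apply]
  apply Subtype.ext
  rw [hX σ, Submodule.coe_sub, hcoe]

/-- **(R4)-shape on the dual carrier.**  Hypothesis `hC` = the exported form of TW-R4 (C) at the
level `n` (additive subgroups of trace-zero endomorphisms stable under conjugation; the element
`w` is outside `(h - 1) ad⁰`).  Conclusion: the same for subgroups of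
`Module.Dual (ZMod p) (End0 k ρbar.V)` stable under the `dualTwist (cycloChar p)` action. -/
theorem exists_not_range_dualTwist_of_tw_element (hp2 : (2 : k) ≠ 0)
    (A : Representation (ZMod p) (AlgebraicClosure ℚ ≃ₐ[ℚ] AlgebraicClosure ℚ) ↥(End0 k ρbar.V))
    (hA : ∀ (g : AlgebraicClosure ℚ ≃ₐ[ℚ] AlgebraicClosure ℚ) (X : ↥(End0 k ρbar.V)),
      ((A g X : ↥(End0 k ρbar.V)) : Module.End k ρbar.V) = ρbar.ρ g * X * ρbar.ρ g⁻¹)
    (n : ℕ)
    (hC : TWElementShape p ρbar n)
    (W' : AddSubgroup (Module.Dual (ZMod p) ↥(End0 k ρbar.V))) (hW' : W' ≠ ⊥)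
    (hst : ∀ g, ∀ f ∈ W', A.dual.twist (ExtCitation.cycloChar p) g f ∈ W') :
    ∃ h : AlgebraicClosure ℚ ≃ₐ[ℚ] AlgebraicClosure ℚ,
      (∀ μ : AlgebraicClosure ℚ, μ ^ p ^ (n + 1) = 1 → h μ = μ) ∧
      (∃ α β : k, α ≠ β ∧ LinearMap.charpoly (ρbar.ρ h) = (X - C α) * (X - C β)) ∧
      ∃ f ∈ W', ∀ m : Module.Dual (ZMod p) ↥(End0 k ρbar.V),
        f ≠ A.dual.twist (ExtCitation.cycloChar p) h m - m := by
  have hd : ((Module.finrank k ρbar.V : ℕ) : k) ≠ 0 := by
    rw [ρbar.finrank_eq]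
    exact_mod_cast hp2
  set Φ := traceDual (k := k) (V := ρbar.V) p hd with hΦdef
  have hΦ : ∀ g X, Φ (A.twist (ExtCitation.cycloChar p) g X)
      = A.dual.twist (ExtCitation.cycloChar p) g (Φ X) :=
    fun g X => traceDual_twist p hd ρbar.ρ A hA (ExtCitation.cycloChar p) g X
  -- the subgroup of `End` corresponding to `W'`
  let W0 : AddSubgroup ↥(End0 k ρbar.V) := W'.comap Φ.toAddMonoidHom
  let W : AddSubgroup (Module.End k ρbar.V) := W0.map (End0 k ρbar.V).subtype.toAddMonoidHom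
  have hWmem : ∀ w, w ∈ W ↔ ∃ X : ↥(End0 k ρbar.V), Φ X ∈ W' ∧ (X : Module.End k ρbar.V) = w := by
    intro w
    exact AddSubgroup.mem_map
  have hW0 : ∀ w ∈ W, LinearMap.trace k ρbar.V w = 0 := by
    intro w hw
    obtain ⟨X, -, rfl⟩ := (hWmem w).mp hw
    exact mem_End0.mp X.2
  have hWne : W ≠ ⊥ := by
    intro h0
    apply hW'
    rw [eq_bot_iff]
    intro f hf
    have h1 : ((Φ.symm f : ↥(End0 k ρbar.V)) : Module.End k ρbar.V) ∈ W :=
      (hWmem _).mpr ⟨Φ.symm f, by rwa [LinearEquiv.apply_symm_apply], rfl⟩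
    rw [h0, AddSubgroup.mem_bot] at h1
    have h2 : Φ.symm f = 0 := Subtype.ext h1
    rw [AddSubgroup.mem_bot, ← Φ.apply_symm_apply f, h2, map_zero]
  have hWst : ∀ g, ∀ w ∈ W, ρbar.ρ g * w * ρbar.ρ g⁻¹ ∈ W := by
    intro g w hw
    obtain ⟨X, hX, rfl⟩ := (hWmem w).mp hw
    refine (hWmem _).mpr ⟨A g X, ?_, hA g X⟩
    have h1 : A g X = (((ExtCitation.cycloChar p g)⁻¹ : (ZMod p)ˣ) : ZMod p)
        • A.twist (ExtCitation.cycloChar p) g X := by
      rw [Representation.twist_apply_apply, smul_smul, ← Units.val_mul, inv_mul_cancel,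
        Units.val_one, one_smul]
    rw [h1, map_smul, hΦ]
    exact ZMod.smul_mem (K := W') (hst g _ hX) _
  obtain ⟨h, hfix, heig, w, hw, hout⟩ := hC W hW0 hWne hWst
  obtain ⟨X, hX, rfl⟩ := (hWmem w).mp hw
  refine ⟨h, hfix, heig, Φ X, hX, fun m hm => ?_⟩
  have hχ : ExtCitation.cycloChar p h = 1 := cycloChar_eq_one_of_fixes p h n hfix
  have h2 : X = A (h) (Φ.symm m) - Φ.symm m := by
    apply Φ.injective
    rw [hm, map_sub, LinearEquiv.apply_symm_apply]
    congr 1
    have h3 := hΦ h (Φ.symm m)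
    rw [LinearEquiv.apply_symm_apply, Representation.twist_apply_apply, hχ, Units.val_one,
      one_smul] at h3
    exact h3.symm
  apply hout _ (mem_End0.mp (Φ.symm m).2)
  rw [h2, Submodule.coe_sub, hA]

end FrozenShapes

/-! ### The same two shapes in `groupCohomology` / `Rep` vocabulary (the S55 carrier) -/

section RepShapes

open groupCohomology Polynomial

variable {k : Type} [Field k] [Finite k] (p : ℕ) [Fact p.Prime] [Algebra (ZMod p) k]
variable (ρbar : ResidualGaloisRep k) [Module (ZMod p) ↥(End0 k ρbar.V)]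

/-- **(R5)-shape on the S55 carrier**: for ANY conjugation representation `A` on
`End0 k ρbar.V` (the `ad⁰` of the dictionary), every 1-cocycle of
`(Rep.of A).dualTwist (cycloChar p)` vanishing on `{σ | ρbar σ = 1 ∧ σ fixes μ_{p^(n+1)}}` has
zero class. -/
theorem h1π_dualTwist_eq_zero (hp2 : (2 : k) ≠ 0)
    (hdet : (GaloisRepAdic.ofResidualGaloisRep ρbar).DetIsCyclotomic p)
    (A : Representation (ZMod p) (AlgebraicClosure ℚ ≃ₐ[ℚ] AlgebraicClosure ℚ) ↥(End0 k ρbar.V))
    (hA : ∀ (g : AlgebraicClosure ℚ ≃ₐ[ℚ] AlgebraicClosure ℚ) (X : ↥(End0 k ρbar.V)),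
      ((A g X : ↥(End0 k ρbar.V)) : Module.End k ρbar.V) = ρbar.ρ g * X * ρbar.ρ g⁻¹)
    (n : ℕ)
    (h1v : H1VanishShape p ρbar n)
    (c : cocycles₁ ((Rep.of A).dualTwist (ExtCitation.cycloChar p)))
    (hvan : ∀ σ, ρbar.ρ σ = 1 → (∀ μ : AlgebraicClosure ℚ, μ ^ p ^ (n + 1) = 1 → σ μ = μ) →
      c σ = 0) :
    H1π ((Rep.of A).dualTwist (ExtCitation.cycloChar p)) c = 0 := by
  rw [H1π_eq_zero_iff]
  obtain ⟨f, hf⟩ := coboundary_dualTwist_of_h1_vanish p ρbar hp2 hdet A hA n h1v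
    (fun σ => c σ)
    (fun σ τ => by
      have h := (mem_cocycles₁_iff (A := (Rep.of A).dualTwist (ExtCitation.cycloChar p))
        (c : (AlgebraicClosure ℚ ≃ₐ[ℚ] AlgebraicClosure ℚ) → _)).mp c.2 σ τ
      rw [add_comm]
      exact h) hvan
  exact ⟨f, funext fun σ => (hf σ).symm⟩

/-- **(R4)-shape on the S55 carrier**: nonzero stable subgroups of
`(Rep.of A).dualTwist (cycloChar p)` have an element outside `(h - 1) M` for a Taylor–Wiles
element `h`. -/
theorem exists_tw_element_dualTwist (hp2 : (2 : k) ≠ 0)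
    (A : Representation (ZMod p) (AlgebraicClosure ℚ ≃ₐ[ℚ] AlgebraicClosure ℚ) ↥(End0 k ρbar.V))
    (hA : ∀ (g : AlgebraicClosure ℚ ≃ₐ[ℚ] AlgebraicClosure ℚ) (X : ↥(End0 k ρbar.V)),
      ((A g X : ↥(End0 k ρbar.V)) : Module.End k ρbar.V) = ρbar.ρ g * X * ρbar.ρ g⁻¹)
    (n : ℕ)
    (hC : TWElementShape p ρbar n)
    (W : AddSubgroup ((Rep.of A).dualTwist (ExtCitation.cycloChar p))) (hW : W ≠ ⊥)
    (hst : ∀ g, ∀ w ∈ W, ((Rep.of A).dualTwist (ExtCitation.cycloChar p)).ρ g w ∈ W) :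
    ∃ h : AlgebraicClosure ℚ ≃ₐ[ℚ] AlgebraicClosure ℚ,
      (∀ μ : AlgebraicClosure ℚ, μ ^ p ^ (n + 1) = 1 → h μ = μ) ∧
      (∃ α β : k, α ≠ β ∧ LinearMap.charpoly (ρbar.ρ h) = (X - C α) * (X - C β)) ∧
      ∃ w ∈ W, ∀ m : ((Rep.of A).dualTwist (ExtCitation.cycloChar p)),
        w ≠ ((Rep.of A).dualTwist (ExtCitation.cycloChar p)).ρ h m - m :=
  exists_not_range_dualTwist_of_tw_element p ρbar hp2 A hA n hC W hW hst

end RepShapes

end Fermat.Agent.S56.helper8200
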