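/-
S56-AD0NUM, instances (helper1848): the numerics of `ad0` and of `dualT ad0` on the landed
numerals, for ANY representation `A` of `G_ℚ` on the trace-zero endomorphisms `End0 k ρbar.V`
acting by conjugation through `ρbar` (the carrier-agnostic surface of helper8200_TraceDual):

* `h0_ad0`            : `h0 (Rep.of A) = 0`;
* `h0_dualT_ad0`      : `h0 (dualT (Rep.of A)) = 0`;
* `dimMinus_dualT_ad0`: `helper2906.dimMinus (dualT (Rep.of A)) = f`;
* `finrank_invariants_res_ad0_le` : the local `h0` of `Rep.of A` at a Taylor–Wiles prime is `≤ f`,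

where `Nat.card k = p ^ f`; hypotheses = the frozen ones of S56.
-/
import Mathlib
import Fermat.Agent.S56.helper1848_Ad0Rep
import Fermat.Agent.S56.helper8200_TraceDual

set_option autoImplicit false

noncomputable section

namespace Fermat.Agent.S56.helper1848

open Module Polynomial ExtCitation
open Fermat.Agent.S55.helper2945
open Fermat.Agent.S56.helper8200 (End0 traceDual)

variable (p : ℕ) [Fact p.Prime] (k : Type) [Field k] [Algebra (ZMod p) k]

/-- The mod `p` cyclotomic character with values in `kˣ`. -/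
def cycloCharK : GQ →* kˣ :=
  (Units.map ((algebraMap (ZMod p) k : ZMod p →+* k) : ZMod p →* k)).comp (cycloChar p)

lemma cycloCharK_coe (σ : GQ) :
    (cycloCharK p k σ : k) = algebraMap (ZMod p) k ((cycloChar p σ : (ZMod p)ˣ) : ZMod p) := rfl

variable {p k}
variable [Finite k] (ρbar : ResidualGaloisRep k) [Module (ZMod p) ↥(End0 k ρbar.V)]
  (A : Representation (ZMod p) GQ ↥(End0 k ρbar.V))

/-- `Rep.of A` is an End-model of `ad0` (untwisted). -/
theorem isEndModel_ad0
    (hA : ∀ (g : GQ) (X : ↥(End0 k ρbar.V)),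
      ((A g X : ↥(End0 k ρbar.V)) : Module.End k ρbar.V) = ρbar.ρ g * X * ρbar.ρ g⁻¹) :
    IsEndModel (p := p) ρbar 1 (Rep.of A)
      (fun X : ↥(End0 k ρbar.V) => (X : Module.End k ρbar.V)) where
  inj := Subtype.val_injective
  map_add := fun _ _ => rfl
  trace := fun m => LinearMap.mem_ker.mp m.2
  equiv := fun g m => by
    rw [MonoidHom.one_apply, Units.val_one, one_smul]
    exact hA g m

/-- `dualT (Rep.of A)` is an End-model of `ad0 ⊗ ω` through the trace-dual bridge. -/
theorem isEndModel_dualT (hd : (Module.finrank k ρbar.V : k) ≠ 0)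
    (hA : ∀ (g : GQ) (X : ↥(End0 k ρbar.V)),
      ((A g X : ↥(End0 k ρbar.V)) : Module.End k ρbar.V) = ρbar.ρ g * X * ρbar.ρ g⁻¹) :
    IsEndModel (p := p) ρbar (cycloCharK p k) (dualT (Rep.of A))
      (fun ξ : Module.Dual (ZMod p) ↥(End0 k ρbar.V) =>
        (((traceDual p hd).symm ξ : ↥(End0 k ρbar.V)) : Module.End k ρbar.V)) where
  inj := fun ξ ξ' h => (traceDual p hd).symm.injective (Subtype.val_injective h)
  map_add := fun ξ ξ' => by rw [map_add]; rfl
  trace := fun ξ => LinearMap.mem_ker.mp ((traceDual p hd).symm ξ).2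
  equiv := fun g ξ => by
    have h1 : (dualT (Rep.of A)).ρ g ξ
        = traceDual p hd (A.twist (cycloChar p) g ((traceDual p hd).symm ξ)) := by
      rw [Fermat.Agent.S56.helper8200.traceDual_twist p hd ρbar.ρ A hA (cycloChar p) g,
        LinearEquiv.apply_symm_apply]
    show (((traceDual p hd).symm ((dualT (Rep.of A)).ρ g ξ) : ↥(End0 k ρbar.V)) :
      Module.End k ρbar.V) = _
    rw [h1, LinearEquiv.symm_apply_apply,
      Fermat.Agent.S56.helper8200.coe_twist_apply p ρbar.ρ A hA, cycloCharK_coe]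

section Numerics

variable (hA : ∀ (g : GQ) (X : ↥(End0 k ρbar.V)),
      ((A g X : ↥(End0 k ρbar.V)) : Module.End k ρbar.V) = ρbar.ρ g * X * ρbar.ρ g⁻¹)
include hA

/-- **`h0 (ad0) = 0`.** -/
theorem h0_ad0 (habs : ρbar.IsAbsolutelyIrreducible) (h2 : (2 : k) ≠ 0) :
    h0 (p := p) (Rep.of A) = 0 :=
  h0_eq_zero_of_isEndModel_one ρbar (Rep.of A) _ (isEndModel_ad0 ρbar A hA) habs h2

/-- **`h0 (dualT ad0) = 0`.** -/
theorem h0_dualT_ad0 (habs : ρbar.IsAbsolutelyIrreducible)
    (hTW : ∀ (K : Type) [Field K] [Algebra k K] (G : Subgroup GQ), G.index = 2 →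
      ∀ V : Submodule K (ρbar.baseChange K).V,
        (∀ σ ∈ G, ∀ x ∈ V, (ρbar.baseChange K).ρ σ x ∈ V) → V = ⊥ ∨ V = ⊤)
    (h2 : (2 : k) ≠ 0) : h0 (dualT (Rep.of A)) = 0 := by
  have hd : (Module.finrank k ρbar.V : k) ≠ 0 := by
    rw [ρbar.finrank_eq]; exact_mod_cast h2
  exact h0_eq_zero_of_isEndModel ρbar (cycloCharK p k) (dualT (Rep.of A)) _
    (isEndModel_dualT ρbar A hd hA) habs hTW h2

/-- **`dimMinus (dualT ad0) = f`**, `Nat.card k = p ^ f`. -/
theorem dimMinus_dualT_ad0 (hp2 : p ≠ 2)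
    (hdet : (GaloisRepAdic.ofResidualGaloisRep ρbar).DetIsCyclotomic p) (f : ℕ)
    (hf : Nat.card k = p ^ f) :
    Fermat.Agent.S56.helper2906.dimMinus (dualT (Rep.of A)) = f := by
  have h2 : (2 : k) ≠ 0 := two_ne_zero_of_detIsCyclotomic ρbar p hp2 hdet
  have hd : (Module.finrank k ρbar.V : k) ≠ 0 := by
    rw [ρbar.finrank_eq]; exact_mod_cast h2
  refine dimMinus_eq_of_isEndModel ρbar (cycloCharK p k) (dualT (Rep.of A)) _
    (isEndModel_dualT ρbar A hd hA) ?_ hp2 hdet ?_ f hf
  · intro Y hY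
    exact ⟨traceDual p hd ⟨Y, LinearMap.mem_ker.mpr hY⟩, by
      show (((traceDual p hd).symm (traceDual p hd ⟨Y, _⟩) : ↥(End0 k ρbar.V)) :
        Module.End k ρbar.V) = Y
      rw [LinearEquiv.symm_apply_apply]⟩
  · apply Units.ext
    rw [cycloCharK_coe,
      ← Fermat.Agent.S56.helper8200.det_eq_algebraMap_cycloChar p ρbar hdet complexConjugation,
      det_complexConjugation ρbar p hdet]
    rfl

/-- **Local `h0` of `ad0` at a Taylor–Wiles prime is `≤ f`** (frozen TW clause at `q`). -/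
theorem finrank_invariants_res_ad0_le (h2 : (2 : k) ≠ 0) (q : Nat.Primes)
    (hcl : ∀ P : ValuationSubring (AlgebraicClosure ℚ), P.LiesOverPrime (q : ℕ) →
      ∀ φ : GQ, P.IsFrobeniusAt φ (q : ℕ) →
        ∃ α β : k, α ≠ β ∧ LinearMap.charpoly (ρbar.ρ φ) = (X - C α) * (X - C β))
    (f : ℕ) (hf : Nat.card k = p ^ f) :
    finrank (ZMod p)
      (Representation.invariants (Rep.res (primeLocalToGlobal q) (Rep.of A)).ρ) ≤ f := by
  have hfin : Finite ↥(End0 k ρbar.V) := Fermat.Agent.S56.helper8200.finite_End0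
  have hfd : FiniteDimensional (ZMod p) (Rep.of A) :=
    (Module.Finite.of_finite : Module.Finite (ZMod p) ↥(End0 k ρbar.V))
  exact finrank_invariants_res_le_of_clause ρbar 1 (Rep.of A) _ (isEndModel_ad0 ρbar A hA) h2 q
    (fun _ _ => rfl) hcl f hf

end Numerics

end Fermat.Agent.S56.helper1848
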