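/-
S56 (Taylor–Wiles primes), DICTIONARY layer, part 1 (helper6599).

First-order lifts of a residual representation `ρbar : ResidualGaloisRep k` to the dual numbers
`k[ε] = DualNumber k`, in cocycle form:

* `LiftCocycle ρbar` : a map `c : G_ℚ → End_k(ρbar.V)` with the cocycle identity for the adjoint
  action and finite level.
* `stdLift ρbar c : GaloisRepAdic (DualNumber k)` : the lift `g ↦ (1 + ε c(g)) ρbar(g)` on
  `k[ε] ⊗ ρbar.V`.
* `exists_isEquiv_stdLift` : EVERY `ρ : GaloisRepAdic (DualNumber k)` whose residual is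
  equivalent to `ρbar` (base changed to the residue field of `k[ε]`) is `IsEquiv` to some
  `stdLift ρbar c`.
* `stdLift_isEquiv_of_cohomologous` : cohomologous cocycles give equivalent lifts.
* necessary conditions on `c` read off from the frozen clauses
  (`DetIsCyclotomic`, `IsUnramifiedAt`, `IsUnipotentOnInertiaAt`).
-/
import Mathlib
import Fermat.Prelude.Def_GaloisRep_LocalConditions

set_option autoImplicit false

noncomputable section

namespace Fermat.Agent.S56.helper6599

open TensorProduct IsLocalRing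

/-- The absolute Galois group of `ℚ`. -/
abbrev GQ : Type := AlgebraicClosure ℚ ≃ₐ[ℚ] AlgebraicClosure ℚ

variable {k : Type} [Field k]

/-! ## Dual numbers over a field -/

theorem dual_mem_maximalIdeal_iff (z : DualNumber k) :
    z ∈ maximalIdeal (DualNumber k) ↔ TrivSqZeroExt.fst z = 0 := by
  rw [mem_maximalIdeal, mem_nonunits_iff, TrivSqZeroExt.isUnit_iff_isUnit_fst, isUnit_iff_ne_zero,
    not_not]

theorem dual_maximalIdeal_sq : maximalIdeal (DualNumber k) ^ 2 = ⊥ := by
  rw [pow_two, eq_bot_iff, Ideal.mul_le]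
  intro a ha b hb
  rw [dual_mem_maximalIdeal_iff] at ha hb
  rw [Ideal.mem_bot]
  apply TrivSqZeroExt.ext
  · simp [ha]
  · simp [ha, hb]

theorem eps_mul_eps : (DualNumber.eps : DualNumber k) * DualNumber.eps = 0 :=
  DualNumber.eps_mul_eps

/-- Every dual number is `fst + snd • ε`. -/
theorem dual_eq (a : DualNumber k) :
    a = algebraMap k (DualNumber k) (TrivSqZeroExt.fst a) +
      (TrivSqZeroExt.snd a) • (DualNumber.eps : DualNumber k) := by
  rw [TrivSqZeroExt.algebraMap_eq_inl]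
  apply TrivSqZeroExt.ext
  · rw [TrivSqZeroExt.fst_add, TrivSqZeroExt.fst_inl, TrivSqZeroExt.fst_smul, DualNumber.fst_eps,
      smul_zero, add_zero]
  · rw [TrivSqZeroExt.snd_add, TrivSqZeroExt.snd_inl, TrivSqZeroExt.snd_smul, DualNumber.snd_eps,
      smul_eq_mul, mul_one, zero_add]

/-! ## Cocycles -/

/-- A first-order deformation cocycle: `c (g h) = c g + ρbar g ∘ c h ∘ ρbar g⁻¹`, of finite
level. -/
structure LiftCocycle (ρbar : ResidualGaloisRep k) where
  c : GQ → Module.End k ρbar.V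
  map_mul' : ∀ g h : GQ, c (g * h) = c g + ρbar.ρ g * c h * ρbar.ρ g⁻¹
  level' : ∃ F : IntermediateField ℚ (AlgebraicClosure ℚ), FiniteDimensional ℚ F ∧
    ∀ σ : GQ, (∀ x ∈ F, σ x = x) → c σ = 0

namespace LiftCocycle

variable {ρbar : ResidualGaloisRep k} (c : LiftCocycle ρbar)

theorem rho_mul_inv (g : GQ) : ρbar.ρ g * ρbar.ρ g⁻¹ = 1 := by
  rw [← map_mul, mul_inv_cancel, map_one]

theorem rho_inv_mul (g : GQ) : ρbar.ρ g⁻¹ * ρbar.ρ g = 1 := by
  rw [← map_mul, inv_mul_cancel, map_one]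

theorem map_one : c.c 1 = 0 := by
  have h := c.map_mul' 1 1
  rw [mul_one, _root_.map_one, inv_one, _root_.map_one, one_mul, mul_one] at h
  exact left_eq_add.mp h

/-- The `ε`-part `b g = c g ∘ ρbar g` of the lift. -/
def b (g : GQ) : Module.End k ρbar.V := c.c g * ρbar.ρ g

theorem b_mul (g h : GQ) : c.b (g * h) = c.b g * ρbar.ρ h + ρbar.ρ g * c.b h := by
  unfold b
  rw [c.map_mul', _root_.map_mul, add_mul, ← mul_assoc (c.c g)]
  congr 1
  rw [mul_assoc (ρbar.ρ g * c.c h), ← mul_assoc (ρbar.ρ g⁻¹), rho_inv_mul, one_mul, mul_assoc]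

theorem b_one : c.b 1 = 0 := by
  unfold b
  rw [c.map_one, zero_mul]

end LiftCocycle

/-! ## The standard lift -/

section StdLift

variable (ρbar : ResidualGaloisRep k)

/-- The `k[ε]`-linear endomorphism `A ⊗ 1 + ε (B ⊗ 1)` of `k[ε] ⊗ V`. -/
def dualEnd (A B : Module.End k ρbar.V) :
    Module.End (DualNumber k) (DualNumber k ⊗[k] ρbar.V) :=
  A.baseChange (DualNumber k) + (DualNumber.eps : DualNumber k) • B.baseChange (DualNumber k)

theorem dualEnd_tmul (A B : Module.End k ρbar.V) (a : DualNumber k) (v : ρbar.V) :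
    dualEnd ρbar A B (a ⊗ₜ[k] v) = a ⊗ₜ[k] A v + (DualNumber.eps * a) ⊗ₜ[k] B v := by
  simp only [dualEnd, LinearMap.add_apply, LinearMap.smul_apply, LinearMap.baseChange_tmul,
    TensorProduct.smul_tmul', smul_eq_mul]

theorem dualEnd_mul (A B A' B' : Module.End k ρbar.V) :
    dualEnd ρbar A B * dualEnd ρbar A' B' = dualEnd ρbar (A * A') (A * B' + B * A') := by
  apply LinearMap.ext
  intro x
  induction x using TensorProduct.induction_on with
  | zero => simp
  | tmul a v =>
    simp only [Module.End.mul_apply, dualEnd_tmul, map_add, LinearMap.add_apply]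
    have h0 : (DualNumber.eps : DualNumber k) * (DualNumber.eps * a) = 0 := by
      rw [← mul_assoc, eps_mul_eps, zero_mul]
    rw [h0, zero_tmul, add_zero, tmul_add]
    abel
  | add x y hx hy => simp only [map_add, hx, hy]

theorem dualEnd_one : dualEnd ρbar 1 0 = 1 := by
  apply LinearMap.ext
  intro x
  induction x using TensorProduct.induction_on with
  | zero => simp
  | tmul a v => simp [dualEnd_tmul]
  | add x y hx hy => simp only [map_add, hx, hy]

variable {ρbar}

/-- The action of the standard lift attached to a cocycle. -/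
def stdRho (c : LiftCocycle ρbar) : GQ →* Module.End (DualNumber k) (DualNumber k ⊗[k] ρbar.V) where
  toFun g := dualEnd ρbar (ρbar.ρ g) (c.b g)
  map_one' := by rw [c.b_one, _root_.map_one, dualEnd_one]
  map_mul' g h := by
    rw [dualEnd_mul, c.b_mul, _root_.map_mul, add_comm]

theorem stdRho_apply (c : LiftCocycle ρbar) (g : GQ) :
    stdRho c g = dualEnd ρbar (ρbar.ρ g) (c.b g) := rfl

/-- The standard lift `g ↦ (1 + ε c(g)) ρbar(g)` of `ρbar` to the dual numbers. -/
def stdLift (c : LiftCocycle ρbar) : GaloisRepAdic (DualNumber k) where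
  V := DualNumber k ⊗[k] ρbar.V
  finrank_eq := by rw [Module.finrank_baseChange, ρbar.finrank_eq]
  ρ := stdRho c
  isAdicContinuous := by
    intro n
    obtain ⟨F, hF, hc⟩ := c.level'
    obtain ⟨F', hF', hρ⟩ := ρbar.factorsThroughFiniteLevel
    have := hF; have := hF'
    refine ⟨F ⊔ F', IntermediateField.finiteDimensional_sup F F', fun σ hσ v => ?_⟩
    have h1 : c.c σ = 0 := hc σ fun x hx => hσ x ((le_sup_left : F ≤ F ⊔ F') hx)
    have h2 : ρbar.ρ σ = 1 := hρ σ fun x hx => hσ x ((le_sup_right : F' ≤ F ⊔ F') hx)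
    have h3 : stdRho c σ = 1 := by
      rw [stdRho_apply, LiftCocycle.b, h1, h2, zero_mul, dualEnd_one]
    rw [h3, Module.End.one_apply, sub_self]
    exact Submodule.zero_mem _

theorem stdLift_rho (c : LiftCocycle ρbar) (g : GQ) :
    (stdLift c).ρ g = dualEnd ρbar (ρbar.ρ g) (c.b g) := rfl

end StdLift

/-! ## Components of `k[ε] ⊗ V` -/

section Components

variable (V : Type) [AddCommGroup V] [Module k V]

/-- The "constant term" `a ⊗ v ↦ fst a • v`. -/
def fstC : DualNumber k ⊗[k] V →ₗ[k] V :=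
  (TensorProduct.lid k V).toLinearMap ∘ₗ
    ((TrivSqZeroExt.fstHom k k k).toLinearMap.rTensor V)

/-- The "`ε`-term" `a ⊗ v ↦ snd a • v`. -/
def sndC : DualNumber k ⊗[k] V →ₗ[k] V :=
  (TensorProduct.lid k V).toLinearMap ∘ₗ ((TrivSqZeroExt.sndHom k k).rTensor V)

variable {V}

@[simp] theorem fstC_tmul (a : DualNumber k) (v : V) :
    fstC V (a ⊗ₜ[k] v) = TrivSqZeroExt.fst a • v := by
  simp [fstC]

@[simp] theorem sndC_tmul (a : DualNumber k) (v : V) :
    sndC V (a ⊗ₜ[k] v) = TrivSqZeroExt.snd a • v := by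
  simp [sndC]

theorem fstC_smul (a : DualNumber k) (x : DualNumber k ⊗[k] V) :
    fstC V (a • x) = TrivSqZeroExt.fst a • fstC V x := by
  induction x using TensorProduct.induction_on with
  | zero => simp
  | tmul b v => simp [TensorProduct.smul_tmul', mul_smul]
  | add x y hx hy => simp only [smul_add, map_add, hx, hy]

/-- Every element of `k[ε] ⊗ V` is `1 ⊗ v₀ + ε ⊗ v₁`. -/
theorem eq_one_tmul_add_eps_tmul (x : DualNumber k ⊗[k] V) :
    x = (1 : DualNumber k) ⊗ₜ[k] fstC V x + (DualNumber.eps : DualNumber k) ⊗ₜ[k] sndC V x := by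
  induction x using TensorProduct.induction_on with
  | zero => simp
  | tmul a v =>
    rw [fstC_tmul, sndC_tmul, ← TensorProduct.smul_tmul, ← TensorProduct.smul_tmul, ← add_tmul]
    congr 1
    conv_lhs => rw [dual_eq a]
    rw [Algebra.algebraMap_eq_smul_one]
  | add x y hx hy =>
    rw [map_add, map_add, tmul_add, tmul_add, add_add_add_comm, ← hx, ← hy]

end Components

theorem fstC_dualEnd (ρbar : ResidualGaloisRep k) (A B : Module.End k ρbar.V)
    (x : DualNumber k ⊗[k] ρbar.V) :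
    fstC ρbar.V (dualEnd ρbar A B x) = A (fstC ρbar.V x) := by
  induction x using TensorProduct.induction_on with
  | zero => simp
  | tmul a v => simp [dualEnd_tmul]
  | add x y hx hy => simp only [map_add, hx, hy]

theorem sndC_dualEnd_one_tmul (ρbar : ResidualGaloisRep k) (A B : Module.End k ρbar.V)
    (v : ρbar.V) :
    sndC ρbar.V (dualEnd ρbar A B ((1 : DualNumber k) ⊗ₜ[k] v)) = B v := by
  simp [dualEnd_tmul]

theorem dualEnd_injective (ρbar : ResidualGaloisRep k) {A B A' B' : Module.End k ρbar.V}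
    (h : dualEnd ρbar A B = dualEnd ρbar A' B') : A = A' ∧ B = B' := by
  constructor
  · apply LinearMap.ext
    intro v
    have := congrArg (fun f => fstC ρbar.V (f ((1 : DualNumber k) ⊗ₜ[k] v))) h
    simpa [fstC_dualEnd] using this
  · apply LinearMap.ext
    intro v
    have := congrArg (fun f => sndC ρbar.V (f ((1 : DualNumber k) ⊗ₜ[k] v))) h
    simpa [sndC_dualEnd_one_tmul] using this

/-- A `k[ε]`-linear endomorphism of `k[ε] ⊗ V` whose constant term is `A` is `dualEnd A B`. -/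
theorem eq_dualEnd_of_fstC (ρbar : ResidualGaloisRep k) (A : Module.End k ρbar.V)
    (Φ : Module.End (DualNumber k) (DualNumber k ⊗[k] ρbar.V))
    (hΦ : ∀ x, fstC ρbar.V (Φ x) = A (fstC ρbar.V x)) :
    ∃ B : Module.End k ρbar.V, Φ = dualEnd ρbar A B := by
  refine ⟨sndC ρbar.V ∘ₗ (Φ.restrictScalars k) ∘ₗ (TensorProduct.mk k (DualNumber k) ρbar.V 1),
    ?_⟩
  apply TensorProduct.AlgebraTensorModule.ext
  intro a v
  have ha : a ⊗ₜ[k] v = a • ((1 : DualNumber k) ⊗ₜ[k] v) := by
    rw [TensorProduct.smul_tmul', smul_eq_mul, mul_one]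
  rw [ha, map_smul, map_smul]
  congr 1
  rw [dualEnd_tmul, mul_one]
  conv_lhs => rw [eq_one_tmul_add_eps_tmul (Φ ((1 : DualNumber k) ⊗ₜ[k] v))]
  rw [hΦ, fstC_tmul, TrivSqZeroExt.fst_one, one_smul]
  rfl

/-! ## Every lift is a standard lift -/

section Exists

/-- `v ↦ 1 ⊗ v` is injective into the base change to a field. -/
theorem one_tmul_injective (K' : Type) [Field K'] [Algebra k K'] (V : Type) [AddCommGroup V]
    [Module k V] : Function.Injective (fun v : V => (1 : K') ⊗ₜ[k] v) := by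
  obtain ⟨g, hg⟩ := LinearMap.exists_leftInverse_of_injective (Algebra.linearMap k K')
    (LinearMap.ker_eq_bot.mpr (algebraMap k K').injective)
  have hg1 : g 1 = 1 := by
    have := congrArg (fun f => f (1 : k)) hg
    simpa using this
  intro v w h
  have h2 := congrArg (fun x => TensorProduct.lid k V (g.rTensor V x)) h
  simpa [hg1] using h2

theorem residue_eq_residue_fst (a : DualNumber k) :
    residue (DualNumber k) a =
      residue (DualNumber k) (algebraMap k (DualNumber k) (TrivSqZeroExt.fst a)) := by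
  rw [← sub_eq_zero, ← map_sub, residue_eq_zero_iff, dual_mem_maximalIdeal_iff,
    TrivSqZeroExt.algebraMap_eq_inl, TrivSqZeroExt.fst_sub, TrivSqZeroExt.fst_inl, sub_self]

/-- The canonical semilinear embedding `V → K' ⊗ V` for the frozen `ResidualGaloisRep.baseChange`,
with the properties used below (stated without tensor notation, so that it can be instantiated
with a non-canonical algebra structure). -/
theorem baseChange_model (K' : Type) [Field K'] [Algebra k K'] (ρbar : ResidualGaloisRep k) :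
    ∃ ι : ρbar.V →+ (ρbar.baseChange K').V,
      (∀ (a : k) (v : ρbar.V), ι (a • v) = algebraMap k K' a • ι v) ∧
      Function.Injective ι ∧
      (∀ (σ : GQ) (v : ρbar.V), (ρbar.baseChange K').ρ σ (ι v) = ι (ρbar.ρ σ v)) ∧
      ∀ e : Module.Basis (Fin 2) k ρbar.V, ∃ eK : Module.Basis (Fin 2) K' (ρbar.baseChange K').V,
        ∀ i, eK i = ι (e i) := by
  refine ⟨(TensorProduct.mk k K' ρbar.V 1).toAddMonoidHom, ?_, ?_, ?_, ?_⟩
  · intro a v
    show (1 : K') ⊗ₜ[k] (a • v) = algebraMap k K' a • ((1 : K') ⊗ₜ[k] v)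
    rw [TensorProduct.tmul_smul, TensorProduct.smul_tmul', TensorProduct.smul_tmul',
      Algebra.smul_def, smul_eq_mul]
  · exact one_tmul_injective K' ρbar.V
  · intro σ v
    show (ρbar.ρ σ).baseChange K' ((1 : K') ⊗ₜ[k] v) = (1 : K') ⊗ₜ[k] (ρbar.ρ σ v)
    rw [LinearMap.baseChange_tmul]
  · intro e
    exact ⟨Algebra.TensorProduct.basis K' e, fun i => Algebra.TensorProduct.basis_apply e i⟩

/-- The reduction map `V → κ ⊗ V` of the frozen `GaloisRepAdic.residual`. -/
theorem residual_model (ρ : GaloisRepAdic (DualNumber k)) :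
    ∃ j : ρ.V →+ ρ.residual.V,
      (∀ (a : DualNumber k) (x : ρ.V), j (a • x) = residue (DualNumber k) a • j x) ∧
      (∀ (σ : GQ) (x : ρ.V), ρ.residual.ρ σ (j x) = j (ρ.ρ σ x)) ∧
      ∀ w : Module.Basis (Fin 2) (ResidueField (DualNumber k)) ρ.residual.V,
        ∃ b : Module.Basis (Fin 2) (DualNumber k) ρ.V, ∀ i, j (b i) = w i := by
  refine ⟨(TensorProduct.mk (DualNumber k) (ResidueField (DualNumber k)) ρ.V 1).toAddMonoidHom,
    ?_, ?_, ?_⟩
  · intro a x
    show (1 : ResidueField (DualNumber k)) ⊗ₜ[DualNumber k] (a • x) =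
      residue (DualNumber k) a • ((1 : ResidueField (DualNumber k)) ⊗ₜ[DualNumber k] x)
    rw [TensorProduct.tmul_smul, TensorProduct.smul_tmul', TensorProduct.smul_tmul',
      Algebra.smul_def, IsLocalRing.ResidueField.algebraMap_eq, smul_eq_mul]
  · intro σ x
    show (ρ.ρ σ).baseChange (ResidueField (DualNumber k))
        ((1 : ResidueField (DualNumber k)) ⊗ₜ[DualNumber k] x) =
      (1 : ResidueField (DualNumber k)) ⊗ₜ[DualNumber k] (ρ.ρ σ x)
    rw [LinearMap.baseChange_tmul]
  · intro w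
    let w' : Module.Basis (Fin 2) (ResidueField (DualNumber k))
        (ResidueField (DualNumber k) ⊗[DualNumber k] ρ.V) := w
    obtain ⟨v, hv⟩ := (TensorProduct.mk_surjective (DualNumber k) ρ.V
      (ResidueField (DualNumber k)) IsLocalRing.residue_surjective).comp_left w'
    have hv' : (TensorProduct.mk (DualNumber k) (ResidueField (DualNumber k)) ρ.V 1) ∘ v = w' := hv
    have hli : LinearIndependent (DualNumber k) v :=
      Module.IsLocalRing.linearIndependent_of_flat v (hv' ▸ w'.linearIndependent)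
    have hsp : ⊤ ≤ Submodule.span (DualNumber k) (Set.range v) :=
      (IsLocalRing.span_eq_top_of_tmul_eq_basis v w' (congr_fun hv')).ge
    refine ⟨Module.Basis.mk hli hsp, fun i => ?_⟩
    rw [Module.Basis.mk_apply]
    exact congr_fun hv' i

/-- `baseChange_model` for the frozen `ResidualGaloisRep.baseChangeAlong`. -/
theorem baseChangeAlong_model {K' : Type} [Field K'] (ψ : k →+* K') (ρbar : ResidualGaloisRep k) :
    ∃ ι : ρbar.V →+ (ρbar.baseChangeAlong ψ).V,
      (∀ (a : k) (v : ρbar.V), ι (a • v) = ψ a • ι v) ∧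
      Function.Injective ι ∧
      (∀ (σ : GQ) (v : ρbar.V), (ρbar.baseChangeAlong ψ).ρ σ (ι v) = ι (ρbar.ρ σ v)) ∧
      ∀ e : Module.Basis (Fin 2) k ρbar.V,
        ∃ eK : Module.Basis (Fin 2) K' (ρbar.baseChangeAlong ψ).V, ∀ i, eK i = ι (e i) := by
  let _ : Algebra k K' := ψ.toAlgebra
  exact baseChange_model K' ρbar

variable (ρbar : ResidualGaloisRep k)

/-- **Normal form of first-order lifts.** Every `ρ : GaloisRepAdic k[ε]` whose residual
representation is equivalent to `ρbar` (base changed along `ψ = residue ∘ inl`) is equivalent to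
the standard lift of some cocycle. -/
theorem exists_isEquiv_stdLift (ψ : k →+* ResidueField (DualNumber k))
    (hψ : ∀ a : k, ψ a = residue (DualNumber k) (algebraMap k (DualNumber k) a))
    (ρ : GaloisRepAdic (DualNumber k)) (hres : ρ.residual.IsEquiv (ρbar.baseChangeAlong ψ)) :
    ∃ c : LiftCocycle ρbar, ρ.IsEquiv (stdLift c) := by
  classical
  obtain ⟨E⟩ := hres
  obtain ⟨ι, hιs', hιinj, hιeq, hιb⟩ := baseChangeAlong_model ψ ρbar
  obtain ⟨j, hjs, hjeq, hjb⟩ := residual_model ρ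
  -- a basis of `ρbar.V` and an adapted basis of `ρ.V`
  let e : Module.Basis (Fin 2) k ρbar.V := Module.finBasisOfFinrankEq k ρbar.V ρbar.finrank_eq
  obtain ⟨eK, heK⟩ := hιb e
  obtain ⟨b, hb⟩ := hjb (eK.map E.toLinearEquiv.symm)
  have hbE : ∀ i, E.toLinearEquiv (j (b i)) = ι (e i) := by
    intro i
    rw [hb, Module.Basis.map_apply, LinearEquiv.apply_symm_apply, heK]
  let T : ρ.V ≃ₗ[DualNumber k] DualNumber k ⊗[k] ρbar.V :=
    b.equiv (Algebra.TensorProduct.basis (DualNumber k) e) (Equiv.refl _)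
  have hT : ∀ i, T (b i) = (1 : DualNumber k) ⊗ₜ[k] e i := by
    intro i
    rw [Module.Basis.equiv_apply, Algebra.TensorProduct.basis_apply, Equiv.refl_apply]
  -- Claim A: `E` is "reduction of `T`"
  have hA : ∀ x : ρ.V, E.toLinearEquiv (j x) = ι (fstC ρbar.V (T x)) := by
    intro x
    rw [← b.sum_repr x, map_sum, map_sum, map_sum, map_sum, map_sum]
    refine Finset.sum_congr rfl fun i _ => ?_
    rw [hjs, map_smul, hbE, map_smul, hT, fstC_smul, fstC_tmul, TrivSqZeroExt.fst_one, one_smul,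
      hιs', hψ, ← residue_eq_residue_fst]
  have hred : ∀ (σ : GQ) (x : ρ.V),
      fstC ρbar.V (T (ρ.ρ σ x)) = ρbar.ρ σ (fstC ρbar.V (T x)) := by
    intro σ x
    apply hιinj
    rw [← hA, ← hjeq, E.map_apply, hA]
    exact hιeq σ _
  -- the transported action
  let Φ : GQ → Module.End (DualNumber k) (DualNumber k ⊗[k] ρbar.V) := fun σ =>
    T.toLinearMap ∘ₗ ρ.ρ σ ∘ₗ T.symm.toLinearMap
  have hΦ : ∀ σ x, Φ σ x = T (ρ.ρ σ (T.symm x)) := fun σ x => rfl
  have hΦfst : ∀ σ x, fstC ρbar.V (Φ σ x) = ρbar.ρ σ (fstC ρbar.V x) := by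
    intro σ x
    rw [hΦ, hred, LinearEquiv.apply_symm_apply]
  choose Y hY using fun σ => eq_dualEnd_of_fstC ρbar (ρbar.ρ σ) (Φ σ) (hΦfst σ)
  have hΦmul : ∀ σ τ, Φ (σ * τ) = Φ σ * Φ τ := by
    intro σ τ
    apply LinearMap.ext
    intro x
    rw [Module.End.mul_apply, hΦ, hΦ, hΦ, LinearEquiv.symm_apply_apply, map_mul,
      Module.End.mul_apply]
  have hYmul : ∀ σ τ, Y (σ * τ) = ρbar.ρ σ * Y τ + Y σ * ρbar.ρ τ := by
    intro σ τ
    have h := hΦmul σ τ
    rw [hY, hY σ, hY τ, dualEnd_mul] at h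
    exact (dualEnd_injective ρbar h).2
  obtain ⟨L, hL, hcont⟩ := ρ.isAdicContinuous 2
  have hlev : ∀ σ : GQ, (∀ x ∈ L, σ x = x) → Y σ = 0 := by
    intro σ hσ
    have h1 : ρ.ρ σ = 1 := by
      apply LinearMap.ext
      intro v
      have h := hcont σ hσ v
      rw [dual_maximalIdeal_sq, Submodule.bot_smul, Submodule.mem_bot, sub_eq_zero] at h
      rw [h, Module.End.one_apply]
    have h2 : Φ σ = 1 := by
      apply LinearMap.ext
      intro x
      rw [hΦ, h1, Module.End.one_apply, LinearEquiv.apply_symm_apply, Module.End.one_apply]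
    rw [hY, ← dualEnd_one ρbar] at h2
    exact (dualEnd_injective ρbar h2).2
  let c : LiftCocycle ρbar :=
    { c := fun g => Y g * ρbar.ρ g⁻¹
      map_mul' := by
        intro g h
        rw [hYmul, mul_inv_rev, map_mul, add_mul, add_comm]
        congr 1
        rw [mul_assoc, ← mul_assoc (ρbar.ρ h), LiftCocycle.rho_mul_inv, one_mul]
      level' := ⟨L, hL, fun σ hσ => by rw [hlev σ hσ, zero_mul]⟩ }
  have hcb : ∀ g, c.b g = Y g := by
    intro g
    show Y g * ρbar.ρ g⁻¹ * ρbar.ρ g = Y g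
    rw [mul_assoc, LiftCocycle.rho_inv_mul, mul_one]
  refine ⟨c, ⟨⟨T, fun σ x => ?_⟩⟩⟩
  show T (ρ.ρ σ x) = dualEnd ρbar (ρbar.ρ σ) (c.b σ) (T x)
  rw [hcb, ← hY, hΦ, LinearEquiv.symm_apply_apply]

end Exists

/-! ## Cohomologous cocycles give equivalent lifts -/

section Cohomologous

variable {ρbar : ResidualGaloisRep k}

theorem LiftCocycle.c_eq_b_mul (c : LiftCocycle ρbar) (g : GQ) : c.c g = c.b g * ρbar.ρ g⁻¹ := by
  unfold LiftCocycle.b
  rw [mul_assoc, LiftCocycle.rho_mul_inv, mul_one]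

/-- If `c' = c + d X` (coboundary of `X ∈ End V`), the standard lifts are equivalent
(conjugate by `1 - ε X`). -/
theorem stdLift_isEquiv_of_cohomologous (c c' : LiftCocycle ρbar) (X : Module.End k ρbar.V)
    (h : ∀ g, c'.c g = c.c g + (ρbar.ρ g * X * ρbar.ρ g⁻¹ - X)) :
    (stdLift c).IsEquiv (stdLift c') := by
  have h1 : dualEnd ρbar 1 (-X) * dualEnd ρbar 1 X = 1 := by
    rw [dualEnd_mul, one_mul, one_mul, mul_one, add_neg_cancel, dualEnd_one]
  have h2 : dualEnd ρbar 1 X * dualEnd ρbar 1 (-X) = 1 := by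
    rw [dualEnd_mul, one_mul, one_mul, mul_one, neg_add_cancel, dualEnd_one]
  let U : (DualNumber k ⊗[k] ρbar.V) ≃ₗ[DualNumber k] (DualNumber k ⊗[k] ρbar.V) :=
    LinearEquiv.ofLinearMap (dualEnd ρbar 1 (-X)) (dualEnd ρbar 1 X) h1 h2
  have hb : ∀ g, c'.b g = c.b g + (ρbar.ρ g * X - X * ρbar.ρ g) := by
    intro g
    unfold LiftCocycle.b
    rw [h g, add_mul, sub_mul, mul_assoc (ρbar.ρ g * X), LiftCocycle.rho_inv_mul, mul_one]
  refine ⟨⟨U, fun σ x => ?_⟩⟩
  show (dualEnd ρbar 1 (-X) * dualEnd ρbar (ρbar.ρ σ) (c.b σ)) x =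
    (dualEnd ρbar (ρbar.ρ σ) (c'.b σ) * dualEnd ρbar 1 (-X)) x
  rw [dualEnd_mul, dualEnd_mul, hb, one_mul, mul_one, one_mul, mul_one]
  congr 2
  rw [mul_neg, neg_mul]
  abel

end Cohomologous

/-! ## Determinant and trace of `dualEnd`; necessary conditions on the cocycle -/

section DetTrace

variable (ρbar : ResidualGaloisRep k)

theorem toMatrix_dualEnd (e : Module.Basis (Fin 2) k ρbar.V) (A B : Module.End k ρbar.V) :
    LinearMap.toMatrix (Algebra.TensorProduct.basis (DualNumber k) e)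
        (Algebra.TensorProduct.basis (DualNumber k) e) (dualEnd ρbar A B) =
      (LinearMap.toMatrix e e A).map (algebraMap k (DualNumber k)) +
        (DualNumber.eps : DualNumber k) •
          (LinearMap.toMatrix e e B).map (algebraMap k (DualNumber k)) := by
  unfold dualEnd
  rw [map_add, map_smul, LinearMap.toMatrix_baseChange, LinearMap.toMatrix_baseChange]

theorem fst_entry (a b : k) :
    TrivSqZeroExt.fst (algebraMap k (DualNumber k) a +
      (DualNumber.eps : DualNumber k) * algebraMap k (DualNumber k) b) = a := by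
  rw [TrivSqZeroExt.algebraMap_eq_inl, TrivSqZeroExt.fst_add, TrivSqZeroExt.fst_mul,
    DualNumber.fst_eps, zero_mul, add_zero, TrivSqZeroExt.fst_inl]

theorem snd_entry (a b : k) :
    TrivSqZeroExt.snd (algebraMap k (DualNumber k) a +
      (DualNumber.eps : DualNumber k) * algebraMap k (DualNumber k) b) = b := by
  rw [TrivSqZeroExt.algebraMap_eq_inl, TrivSqZeroExt.snd_add, TrivSqZeroExt.snd_inl,
    zero_add, TrivSqZeroExt.snd_mul, DualNumber.fst_eps, DualNumber.snd_eps, TrivSqZeroExt.fst_inl,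
    TrivSqZeroExt.snd_inl]
  simp

/-- The constant term of `det (A + ε B)` is `det A`. -/
theorem fst_det_dualEnd (A B : Module.End k ρbar.V) :
    TrivSqZeroExt.fst (LinearMap.det (dualEnd ρbar A B)) = LinearMap.det A := by
  classical
  let e : Module.Basis (Fin 2) k ρbar.V := Module.finBasisOfFinrankEq k ρbar.V ρbar.finrank_eq
  rw [← LinearMap.det_toMatrix (Algebra.TensorProduct.basis (DualNumber k) e),
    ← LinearMap.det_toMatrix e, toMatrix_dualEnd, Matrix.det_fin_two, Matrix.det_fin_two]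
  simp only [Matrix.add_apply, Matrix.smul_apply, Matrix.map_apply, TrivSqZeroExt.fst_sub,
    TrivSqZeroExt.fst_mul, smul_eq_mul, fst_entry]

/-- The `ε`-term of `det ((1 + ε C) A)` is `det A * tr C`. -/
theorem snd_det_dualEnd (A C : Module.End k ρbar.V) :
    TrivSqZeroExt.snd (LinearMap.det (dualEnd ρbar A (C * A))) =
      LinearMap.det A * LinearMap.trace k ρbar.V C := by
  classical
  let e : Module.Basis (Fin 2) k ρbar.V := Module.finBasisOfFinrankEq k ρbar.V ρbar.finrank_eq
  rw [← LinearMap.det_toMatrix (Algebra.TensorProduct.basis (DualNumber k) e),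
    ← LinearMap.det_toMatrix e, LinearMap.trace_eq_matrix_trace k e, toMatrix_dualEnd,
    Matrix.det_fin_two, Matrix.det_fin_two, Matrix.trace_fin_two, LinearMap.toMatrix_mul]
  simp only [Matrix.add_apply, Matrix.smul_apply, Matrix.map_apply, TrivSqZeroExt.snd_sub,
    TrivSqZeroExt.snd_mul, smul_eq_mul, fst_entry, snd_entry, Matrix.mul_apply, Fin.sum_univ_two,
    MulOpposite.smul_eq_mul_unop, MulOpposite.unop_op]
  ring

/-- `tr (A + ε B) = tr A + ε tr B`. -/
theorem trace_dualEnd (A B : Module.End k ρbar.V) :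
    LinearMap.trace (DualNumber k) (DualNumber k ⊗[k] ρbar.V) (dualEnd ρbar A B) =
      algebraMap k (DualNumber k) (LinearMap.trace k ρbar.V A) +
        (DualNumber.eps : DualNumber k) * algebraMap k (DualNumber k) (LinearMap.trace k ρbar.V B) := by
  unfold dualEnd
  rw [map_add, map_smul, LinearMap.trace_baseChange, LinearMap.trace_baseChange, smul_eq_mul]

theorem det_rho_ne_zero (g : GQ) : LinearMap.det (ρbar.ρ g) ≠ 0 := by
  intro h
  have h1 : LinearMap.det (ρbar.ρ g) * LinearMap.det (ρbar.ρ g⁻¹) = 1 := by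
    rw [← map_mul, LiftCocycle.rho_mul_inv, map_one]
  rw [h, zero_mul] at h1
  exact zero_ne_one h1

variable {ρbar}

/-- **Unramified lifts**: the cocycle vanishes on inertia. -/
theorem c_eq_zero_of_isUnramifiedAt (c : LiftCocycle ρbar) {q : ℕ}
    (h : (stdLift c).IsUnramifiedAt q) (P : ValuationSubring (AlgebraicClosure ℚ))
    (hP : P.LiesOverPrime q) (σ : GQ) (hσ : σ ∈ P.inertiaSubgroupIn ℚ) :
    c.c σ = 0 ∧ ρbar.ρ σ = 1 := by
  have h1 : dualEnd ρbar (ρbar.ρ σ) (c.b σ) = dualEnd ρbar 1 0 := by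
    rw [dualEnd_one]
    exact h P hP σ hσ
  obtain ⟨h2, h3⟩ := dualEnd_injective ρbar h1
  exact ⟨by rw [c.c_eq_b_mul, h3, zero_mul], h2⟩

/-- **Unipotent lifts**: on inertia, `tr (c σ ∘ ρbar σ) = 0` (and `tr ρbar σ = 2`). -/
theorem trace_eq_zero_of_isUnipotentOnInertiaAt (c : LiftCocycle ρbar) {q : ℕ}
    (h : (stdLift c).IsUnipotentOnInertiaAt q) (P : ValuationSubring (AlgebraicClosure ℚ))
    (hP : P.LiesOverPrime q) (σ : GQ) (hσ : σ ∈ P.inertiaSubgroupIn ℚ) :
    LinearMap.trace k ρbar.V (c.c σ * ρbar.ρ σ) = 0 ∧ LinearMap.trace k ρbar.V (ρbar.ρ σ) = 2 := by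
  classical
  have h1 : LinearMap.charpoly (dualEnd ρbar (ρbar.ρ σ) (c.b σ)) = (Polynomial.X - 1) ^ 2 :=
    h P hP σ hσ
  let e : Module.Basis (Fin 2) k ρbar.V := Module.finBasisOfFinrankEq k ρbar.V ρbar.finrank_eq
  rw [← LinearMap.charpoly_toMatrix _ (Algebra.TensorProduct.basis (DualNumber k) e),
    Matrix.charpoly_fin_two, ← LinearMap.trace_eq_matrix_trace, LinearMap.det_toMatrix] at h1
  have e0 := congrArg (Polynomial.eval 0) h1
  have e1 := congrArg (Polynomial.eval 1) h1
  simp only [Polynomial.eval_add, Polynomial.eval_sub, Polynomial.eval_mul, Polynomial.eval_pow,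
    Polynomial.eval_X, Polynomial.eval_C, Polynomial.eval_one] at e0 e1
  have htr : LinearMap.trace (DualNumber k) (DualNumber k ⊗[k] ρbar.V)
      (dualEnd ρbar (ρbar.ρ σ) (c.b σ)) = 2 := by
    have hd : LinearMap.det (dualEnd ρbar (ρbar.ρ σ) (c.b σ)) = 1 := by
      simpa using e0
    rw [hd] at e1
    have : (1 : DualNumber k) ^ 2 - LinearMap.trace (DualNumber k) (DualNumber k ⊗[k] ρbar.V)
      (dualEnd ρbar (ρbar.ρ σ) (c.b σ)) * 1 + 1 = 0 := by simpa using e1
    linear_combination -this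
  rw [trace_dualEnd] at htr
  constructor
  · have := congrArg TrivSqZeroExt.snd htr
    rw [snd_entry] at this
    exact this
  · have := congrArg TrivSqZeroExt.fst htr
    rw [fst_entry] at this
    exact this

end DetTrace

/-! ## Cyclotomic determinant forces trace zero -/

section Cyclo

/-- Every `σ` acts on the `p`-th roots of unity of `ℚ̄` by some power. -/
theorem exists_pow_action (p : ℕ) [Fact p.Prime] (σ : GQ) :
    ∃ a : ℕ, ∀ μ : AlgebraicClosure ℚ, μ ^ p ^ 1 = 1 → σ μ = μ ^ a := by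
  have : NeZero p := ⟨(Fact.out : p.Prime).ne_zero⟩
  have : NeZero (p : AlgebraicClosure ℚ) := ⟨Nat.cast_ne_zero.mpr (NeZero.ne p)⟩
  have hn : Nat.card (rootsOfUnity p (AlgebraicClosure ℚ)) = p :=
    HasEnoughRootsOfUnity.natCard_rootsOfUnity (AlgebraicClosure ℚ) p
  refine ⟨((modularCyclotomicCharacter (AlgebraicClosure ℚ) hn
    (σ : AlgebraicClosure ℚ ≃+* AlgebraicClosure ℚ) : (ZMod p)ˣ) : ZMod p).val, fun μ hμ => ?_⟩
  rw [pow_one] at hμ
  have h := modularCyclotomicCharacter.spec (AlgebraicClosure ℚ) hn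
    (σ : AlgebraicClosure ℚ ≃+* AlgebraicClosure ℚ)
    (t := ((rootsOfUnity.mkOfPowEq μ hμ : rootsOfUnity p (AlgebraicClosure ℚ)) :
      (AlgebraicClosure ℚ)ˣ)) (rootsOfUnity.mkOfPowEq μ hμ).2
  rw [rootsOfUnity.coe_mkOfPowEq] at h
  exact h

variable {ρbar : ResidualGaloisRep k}

/-- **Cyclotomic determinant**: the cocycle of a lift with `DetIsCyclotomic` has trace zero. -/
theorem trace_eq_zero_of_detIsCyclotomic (p : ℕ) [Fact p.Prime] (hp : (p : k) = 0)
    (c : LiftCocycle ρbar) (h : (stdLift c).DetIsCyclotomic p) (g : GQ) :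
    LinearMap.trace k ρbar.V (c.c g) = 0 := by
  obtain ⟨a, ha⟩ := exists_pow_action p g
  have h1 := h.2 1 g a ha
  have hp' : (((p ^ 1 : ℕ) : DualNumber k)) = 0 := by
    rw [pow_one, ← map_natCast (algebraMap k (DualNumber k)), hp, map_zero]
  rw [hp', Ideal.span_singleton_eq_bot.mpr rfl, Ideal.mem_bot, sub_eq_zero] at h1
  have h2 : TrivSqZeroExt.snd (LinearMap.det (dualEnd ρbar (ρbar.ρ g) (c.c g * ρbar.ρ g))) = 0 := by
    have : LinearMap.det (dualEnd ρbar (ρbar.ρ g) (c.c g * ρbar.ρ g)) = (a : DualNumber k) := h1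
    rw [this, TrivSqZeroExt.snd_natCast]
  rw [snd_det_dualEnd] at h2
  exact (mul_eq_zero.mp h2).resolve_left (det_rho_ne_zero ρbar g)

end Cyclo

end Fermat.Agent.S56.helper6599
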