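/-
S56 node DICT (helper6599), parts (D0), (D1), (D2).

* (D0) `ad0 p ρbar : Rep (ZMod p) GQ` : the trace-zero endomorphisms of `ρbar.V` with the
  conjugation action, as an `𝔽_p`-representation (carrier
  `↥(LinearMap.ker (LinearMap.trace k ρbar.V))`, scalars restricted along `𝔽_p → k`);
  `ad0Val` (underlying endomorphism), `ad0Mk`; finite-dimensionality, open stabilisers,
  unramifiedness (the three fields of `helper2945.IsSMod`).
* (D1) `LiftCocycle.toCocycle`, `LiftCocycle.toClass` : the cocycle / class in `H¹(G_ℚ, ad0)`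
  of a trace-zero first-order deformation cocycle; equal classes give equivalent lifts.
* (D2) `LiftCocycle.isLevelConstantS₁` : the cocycle of a lift unramified outside `S` is
  `S`-level constant, so its class lies in the frozen `continuousH1S S (ad0 p ρbar)`.
-/
import Mathlib
import Fermat.Prelude.Def_GaloisRep_LocalConditions
import Fermat.Prelude.Def_GroupCohomology_ContinuousUnramified
import Fermat.Agent.S56.helper6599_StdLift

set_option autoImplicit false
set_option linter.style.haveILetI false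

noncomputable section

namespace Fermat.Agent.S56.helper6599

open groupCohomology

/-! ## (D0) The representation `ad0` -/

section Ad0

variable (p : ℕ) [Fact p.Prime] {k : Type} [Field k] [Algebra (ZMod p) k]
  (ρbar : ResidualGaloisRep k)

/-- The `𝔽_p`-module structure on the trace-zero endomorphisms: restriction of scalars along
`algebraMap (ZMod p) k`.  (Not an instance; activate it with `letI`.) -/
@[reducible] def ad0Module : Module (ZMod p) ↥(LinearMap.ker (LinearMap.trace k ρbar.V)) :=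
  Module.compHom _ (algebraMap (ZMod p) k)

theorem ad0Module_smul_def (a : ZMod p) (X : ↥(LinearMap.ker (LinearMap.trace k ρbar.V))) :
    letI := ad0Module p ρbar
    a • X = algebraMap (ZMod p) k a • X := rfl

theorem ad0Module_isScalarTower :
    letI := ad0Module p ρbar
    IsScalarTower (ZMod p) k ↥(LinearMap.ker (LinearMap.trace k ρbar.V)) := by
  letI := ad0Module p ρbar
  refine ⟨fun a b X => ?_⟩
  rw [ad0Module_smul_def, Algebra.smul_def, mul_smul]

theorem trace_conj (g : GQ) (X : Module.End k ρbar.V) :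
    LinearMap.trace k ρbar.V (ρbar.ρ g * X * ρbar.ρ g⁻¹) = LinearMap.trace k ρbar.V X := by
  rw [LinearMap.trace_mul_comm, ← mul_assoc, LiftCocycle.rho_inv_mul, one_mul]

/-- Conjugation on the trace-zero endomorphisms, as a `k`-linear map. -/
def ad0Conj (g : GQ) :
    ↥(LinearMap.ker (LinearMap.trace k ρbar.V)) →ₗ[k]
      ↥(LinearMap.ker (LinearMap.trace k ρbar.V)) where
  toFun X := ⟨ρbar.ρ g * X.1 * ρbar.ρ g⁻¹, by
    rw [LinearMap.mem_ker, trace_conj]; exact X.2⟩
  map_add' X Y := Subtype.ext (by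
    simp only [Submodule.coe_add, mul_add, add_mul])
  map_smul' a X := Subtype.ext (by
    simp only [Submodule.coe_smul, RingHom.id_apply, mul_smul_comm, smul_mul_assoc])

@[simp] theorem coe_ad0Conj (g : GQ) (X : ↥(LinearMap.ker (LinearMap.trace k ρbar.V))) :
    ((ad0Conj ρbar g X : ↥(LinearMap.ker (LinearMap.trace k ρbar.V))) : Module.End k ρbar.V)
      = ρbar.ρ g * X.1 * ρbar.ρ g⁻¹ := rfl

/-- The adjoint representation on trace-zero endomorphisms, over `𝔽_p`. -/
def ad0Rep :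
    @Representation (ZMod p) GQ ↥(LinearMap.ker (LinearMap.trace k ρbar.V)) _ _ _
      (ad0Module p ρbar) :=
  letI := ad0Module p ρbar
  { toFun := fun g =>
      { toFun := fun X => ad0Conj ρbar g X
        map_add' := fun X Y => map_add _ X Y
        map_smul' := fun a X => by
          rw [ad0Module_smul_def, map_smul]
          rfl }
    map_one' := by
      apply LinearMap.ext
      intro X
      apply Subtype.ext
      change ρbar.ρ 1 * X.1 * ρbar.ρ (1 : GQ)⁻¹ = X.1
      rw [inv_one, map_one, one_mul, mul_one]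
    map_mul' := fun g h => by
      apply LinearMap.ext
      intro X
      apply Subtype.ext
      change ρbar.ρ (g * h) * X.1 * ρbar.ρ (g * h)⁻¹
        = ρbar.ρ g * (ρbar.ρ h * X.1 * ρbar.ρ h⁻¹) * ρbar.ρ g⁻¹
      rw [mul_inv_rev, map_mul, map_mul]
      simp only [mul_assoc] }

theorem coe_ad0Rep (g : GQ) (X : ↥(LinearMap.ker (LinearMap.trace k ρbar.V))) :
    ((ad0Rep p ρbar g X : ↥(LinearMap.ker (LinearMap.trace k ρbar.V))) : Module.End k ρbar.V)
      = ρbar.ρ g * X.1 * ρbar.ρ g⁻¹ := rfl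

/-- **(D0)** `ad0 ρbar` as an object of `Rep (ZMod p) G_ℚ`: carrier
`↥(LinearMap.ker (LinearMap.trace k ρbar.V))` with the module structure `ad0Module p ρbar`,
action `ad0Rep p ρbar` (conjugation). -/
def ad0 : Rep.{0, 0, 0} (ZMod p) GQ :=
  @Rep.of (ZMod p) GQ _ _ ↥(LinearMap.ker (LinearMap.trace k ρbar.V)) _ (ad0Module p ρbar)
    (ad0Rep p ρbar)

theorem ad0_V : ((ad0 p ρbar : Rep.{0, 0, 0} (ZMod p) GQ) : Type)
    = ↥(LinearMap.ker (LinearMap.trace k ρbar.V)) := rfl

theorem ad0_eq_of :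
    ad0 p ρbar = @Rep.of (ZMod p) GQ _ _ ↥(LinearMap.ker (LinearMap.trace k ρbar.V)) _
      (ad0Module p ρbar) (ad0Rep p ρbar) := rfl

/-- The underlying endomorphism of an element of `ad0`. -/
def ad0Val : ad0 p ρbar →+ Module.End k ρbar.V where
  toFun X := (show ↥(LinearMap.ker (LinearMap.trace k ρbar.V)) from X).1
  map_zero' := rfl
  map_add' _ _ := rfl

/-- The element of `ad0` given by a trace-zero endomorphism. -/
def ad0Mk (Y : Module.End k ρbar.V) (hY : LinearMap.trace k ρbar.V Y = 0) : ad0 p ρbar :=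
  (show ↥(LinearMap.ker (LinearMap.trace k ρbar.V)) from ⟨Y, hY⟩)

@[simp] theorem ad0Val_ad0Mk (Y : Module.End k ρbar.V) (hY : LinearMap.trace k ρbar.V Y = 0) :
    ad0Val p ρbar (ad0Mk p ρbar Y hY) = Y := rfl

@[simp] theorem trace_ad0Val (X : ad0 p ρbar) :
    LinearMap.trace k ρbar.V (ad0Val p ρbar X) = 0 :=
  (show ↥(LinearMap.ker (LinearMap.trace k ρbar.V)) from X).2

theorem ad0Val_injective : Function.Injective (ad0Val p ρbar) :=
  fun _ _ h => Subtype.ext h

@[simp] theorem ad0Mk_ad0Val (X : ad0 p ρbar) :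
    ad0Mk p ρbar (ad0Val p ρbar X) (trace_ad0Val p ρbar X) = X := rfl

theorem ad0Val_smul (a : ZMod p) (X : ad0 p ρbar) :
    ad0Val p ρbar (a • X) = algebraMap (ZMod p) k a • ad0Val p ρbar X := rfl

/-- The action of `G_ℚ` on `ad0` is conjugation by `ρbar`. -/
theorem ad0Val_ρ (g : GQ) (X : ad0 p ρbar) :
    ad0Val p ρbar ((ad0 p ρbar).ρ g X) = ρbar.ρ g * ad0Val p ρbar X * ρbar.ρ g⁻¹ := rfl

theorem ad0_ext {X Y : ad0 p ρbar} (h : ad0Val p ρbar X = ad0Val p ρbar Y) : X = Y :=
  ad0Val_injective p ρbar h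

/-- `ad0` is finite-dimensional over `𝔽_p` when `k` is finite
(the field `finite` of `helper2945.IsSMod`). -/
theorem ad0_finite [Finite k] : Module.Finite (ZMod p) (ad0 p ρbar) := by
  letI := ad0Module p ρbar
  haveI := ad0Module_isScalarTower p ρbar
  haveI : Module.Finite (ZMod p) k := Module.Finite.of_finite
  exact Module.Finite.trans (R := ZMod p) k (↥(LinearMap.ker (LinearMap.trace k ρbar.V)))

/-- `ad0` has a finite level: a finite extension whose fixing subgroup acts trivially. -/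
theorem ad0_exists_level :
    ∃ F : IntermediateField ℚ (AlgebraicClosure ℚ), FiniteDimensional ℚ F ∧
      ∀ s ∈ F.fixingSubgroup, (ad0 p ρbar).ρ s = 1 := by
  obtain ⟨F, hF, h⟩ := ρbar.factorsThroughFiniteLevel
  refine ⟨F, hF, fun s hs => ?_⟩
  have h1 : ρbar.ρ s = 1 := h s ((IntermediateField.mem_fixingSubgroup_iff F s).1 hs)
  have h2 : ρbar.ρ s⁻¹ = 1 :=
    h s⁻¹ ((IntermediateField.mem_fixingSubgroup_iff F s⁻¹).1 (inv_mem hs))
  apply LinearMap.ext
  intro X
  apply ad0_ext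
  rw [ad0Val_ρ, h1, h2, one_mul, mul_one]
  rfl

/-- `ad0` has open stabilisers (the field `smooth` of `helper2945.IsSMod`). -/
theorem ad0_smooth (m : ad0 p ρbar) :
    ∃ F : IntermediateField ℚ (AlgebraicClosure ℚ), FiniteDimensional ℚ F ∧
      ∀ s ∈ F.fixingSubgroup, (ad0 p ρbar).ρ s m = m := by
  obtain ⟨F, hF, h⟩ := ad0_exists_level p ρbar
  exact ⟨F, hF, fun s hs => by rw [h s hs]; rfl⟩

/-- `ad0` is unramified where `ρbar` is. -/
theorem ad0_unram_at {q : ℕ} (hq : ρbar.IsUnramifiedAt q)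
    (A : ValuationSubring (AlgebraicClosure ℚ)) (hA : A.LiesOverPrime q) (g : GQ)
    (hg : g ∈ A.inertiaSubgroupIn ℚ) : (ad0 p ρbar).ρ g = 1 := by
  have h1 : ρbar.ρ g = 1 := hq A hA g hg
  have h2 : ρbar.ρ g⁻¹ = 1 := hq A hA g⁻¹ (inv_mem hg)
  apply LinearMap.ext
  intro X
  apply ad0_ext
  rw [ad0Val_ρ, h1, h2, one_mul, mul_one]
  rfl

/-- `ad0` is unramified outside `S` when `ρbar` is (the field `unram` of
`helper2945.IsSMod`). -/
theorem ad0_unram (S : Finset Nat.Primes)
    (hur : ∀ q : Nat.Primes, q ∉ S → ρbar.IsUnramifiedAt q)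
    (q : Nat.Primes) (hq : q ∉ S) (A : ValuationSubring (AlgebraicClosure ℚ))
    (hA : A.LiesOverPrime (q : ℕ)) (g : GQ) (hg : g ∈ A.inertiaSubgroupIn ℚ) :
    (ad0 p ρbar).ρ g = 1 :=
  ad0_unram_at p ρbar (hur q hq) A hA g hg

/-- Fixed points of `ad0`, elementwise: commuting with `ρbar g`. -/
theorem ad0_ρ_eq_self_iff (g : GQ) (X : ad0 p ρbar) :
    (ad0 p ρbar).ρ g X = X ↔ ρbar.ρ g * ad0Val p ρbar X = ad0Val p ρbar X * ρbar.ρ g := by
  constructor
  · intro h
    have h1 := congrArg (ad0Val p ρbar) h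
    rw [ad0Val_ρ] at h1
    calc ρbar.ρ g * ad0Val p ρbar X
        = ρbar.ρ g * ad0Val p ρbar X * (ρbar.ρ g⁻¹ * ρbar.ρ g) := by
          rw [LiftCocycle.rho_inv_mul, mul_one]
      _ = (ρbar.ρ g * ad0Val p ρbar X * ρbar.ρ g⁻¹) * ρbar.ρ g := by simp only [mul_assoc]
      _ = ad0Val p ρbar X * ρbar.ρ g := by rw [h1]
  · intro h
    apply ad0_ext
    rw [ad0Val_ρ, h, mul_assoc, LiftCocycle.rho_mul_inv, mul_one]

end Ad0

/-! ## (D1) The class of a first-order lift -/

section Classes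

variable (p : ℕ) [Fact p.Prime] {k : Type} [Field k] [Algebra (ZMod p) k]
  {ρbar : ResidualGaloisRep k}

/-- **(D1)** The 1-cocycle `G_ℚ → ad0 ρbar` of a trace-zero deformation cocycle. -/
def LiftCocycle.toCocycle (c : LiftCocycle ρbar)
    (htr : ∀ g, LinearMap.trace k ρbar.V (c.c g) = 0) : cocycles₁ (ad0 p ρbar) :=
  ⟨fun g => ad0Mk p ρbar (c.c g) (htr g),
    (mem_cocycles₁_iff (A := ad0 p ρbar) _).2 fun g h => ad0_ext p ρbar (by
      change c.c (g * h) = ρbar.ρ g * c.c h * ρbar.ρ g⁻¹ + c.c g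
      rw [c.map_mul' g h, add_comm])⟩

@[simp] theorem LiftCocycle.ad0Val_toCocycle (c : LiftCocycle ρbar)
    (htr : ∀ g, LinearMap.trace k ρbar.V (c.c g) = 0) (g : GQ) :
    ad0Val p ρbar (c.toCocycle p htr g) = c.c g := rfl

/-- **(D1)** The class in `H¹(G_ℚ, ad0 ρbar)` of a trace-zero deformation cocycle. -/
def LiftCocycle.toClass (c : LiftCocycle ρbar)
    (htr : ∀ g, LinearMap.trace k ρbar.V (c.c g) = 0) : H1 (ad0 p ρbar) :=
  (H1π (ad0 p ρbar)).hom (c.toCocycle p htr)

/-- Equal classes: the cocycles differ by a coboundary. -/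
theorem LiftCocycle.exists_of_toClass_eq (c c' : LiftCocycle ρbar)
    (htr : ∀ g, LinearMap.trace k ρbar.V (c.c g) = 0)
    (htr' : ∀ g, LinearMap.trace k ρbar.V (c'.c g) = 0)
    (h : c.toClass p htr = c'.toClass p htr') :
    ∃ X : Module.End k ρbar.V, LinearMap.trace k ρbar.V X = 0 ∧
      ∀ g, c'.c g = c.c g + (ρbar.ρ g * X * ρbar.ρ g⁻¹ - X) := by
  obtain ⟨m, hm⟩ := (H1π_eq_iff _ _).1 h
  refine ⟨-ad0Val p ρbar m, by rw [map_neg, trace_ad0Val, neg_zero], fun g => ?_⟩
  have h1 := congrArg (ad0Val p ρbar) (congrFun hm g)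
  have h2 : ρbar.ρ g * ad0Val p ρbar m * ρbar.ρ g⁻¹ - ad0Val p ρbar m = c.c g - c'.c g := h1
  have h3 : ρbar.ρ g * -ad0Val p ρbar m * ρbar.ρ g⁻¹ - -ad0Val p ρbar m
      = -(ρbar.ρ g * ad0Val p ρbar m * ρbar.ρ g⁻¹ - ad0Val p ρbar m) := by
    rw [mul_neg, neg_mul]; abel
  rw [h3, h2]
  abel

/-- **(D1), injectivity.** Trace-zero cocycles with the same class in `H¹(G_ℚ, ad0 ρbar)` have
equivalent standard lifts. -/
theorem stdLift_isEquiv_of_toClass_eq (c c' : LiftCocycle ρbar)
    (htr : ∀ g, LinearMap.trace k ρbar.V (c.c g) = 0)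
    (htr' : ∀ g, LinearMap.trace k ρbar.V (c'.c g) = 0)
    (h : c.toClass p htr = c'.toClass p htr') : (stdLift c).IsEquiv (stdLift c') := by
  obtain ⟨X, -, hX⟩ := c.exists_of_toClass_eq p c' htr htr' h
  exact stdLift_isEquiv_of_cohomologous c c' X hX

end Classes

/-! ## (D2) Level and support -/

section Level

variable {k : Type} [Field k] {ρbar : ResidualGaloisRep k}

/-- The subgroup on which a deformation cocycle and `ρbar` are both trivial. -/
def LiftCocycle.kerSubgroup (c : LiftCocycle ρbar) : Subgroup GQ where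
  carrier := {σ | c.c σ = 0 ∧ ρbar.ρ σ = 1}
  mul_mem' := by
    rintro a b ⟨ha, ha'⟩ ⟨hb, hb'⟩
    exact ⟨by rw [c.map_mul', ha, hb, mul_zero, zero_mul, add_zero],
      by rw [_root_.map_mul, ha', hb', one_mul]⟩
  one_mem' := ⟨c.map_one, _root_.map_one _⟩
  inv_mem' := by
    rintro a ⟨ha, ha'⟩
    have h1 : ρbar.ρ a⁻¹ = 1 := by
      have h := LiftCocycle.rho_inv_mul (ρbar := ρbar) a
      rwa [ha', mul_one] at h
    refine ⟨?_, h1⟩
    have h2 := c.map_mul' a a⁻¹
    rw [mul_inv_cancel, c.map_one, ha, zero_add, ha', h1, one_mul, mul_one] at h2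
    exact h2.symm

theorem LiftCocycle.mem_kerSubgroup (c : LiftCocycle ρbar) (σ : GQ) :
    σ ∈ c.kerSubgroup ↔ c.c σ = 0 ∧ ρbar.ρ σ = 1 := Iff.rfl

/-- A deformation cocycle is right-invariant under its kernel subgroup. -/
theorem LiftCocycle.c_mul_of_mem (c : LiftCocycle ρbar) (g s : GQ) (hs : s ∈ c.kerSubgroup) :
    c.c (g * s) = c.c g := by
  rw [c.map_mul', ((c.mem_kerSubgroup s).1 hs).1, mul_zero, zero_mul, add_zero]

/-- **Level field.** The cocycle of a lift unramified outside `S` vanishes (together with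
`ρbar - 1`) on the fixing subgroup of a finite extension unramified outside `S`. -/
theorem LiftCocycle.exists_level_field (c : LiftCocycle ρbar) (S : Finset Nat.Primes)
    (hur : ∀ q : Nat.Primes, q ∉ S → (stdLift c).IsUnramifiedAt q) :
    ∃ F : IntermediateField ℚ (AlgebraicClosure ℚ), F.IsUnramifiedOutside S ∧
      ∀ s ∈ F.fixingSubgroup, c.c s = 0 ∧ ρbar.ρ s = 1 := by
  haveI : IsAlgClosure ℚ (AlgebraicClosure ℚ) :=
    ⟨inferInstance, AlgebraicClosure.isAlgebraic ℚ⟩
  haveI : IsGalois ℚ (AlgebraicClosure ℚ) := inferInstance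
  obtain ⟨F₀, hF₀, h₀⟩ := c.level'
  obtain ⟨F₁, hF₁, h₁⟩ := ρbar.factorsThroughFiniteLevel
  haveI := hF₀
  haveI := hF₁
  set K : IntermediateField ℚ (AlgebraicClosure ℚ) := F₀ ⊔ F₁ with hK
  haveI : FiniteDimensional ℚ K := IntermediateField.finiteDimensional_sup F₀ F₁
  set N : Subgroup GQ := c.kerSubgroup with hN
  have hKN : K.fixingSubgroup ≤ N := by
    intro σ hσ
    have h := (IntermediateField.mem_fixingSubgroup_iff K σ).1 hσ
    exact (c.mem_kerSubgroup σ).2 ⟨h₀ σ fun x hx => h x ((le_sup_left : F₀ ≤ K) hx),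
      h₁ σ fun x hx => h x ((le_sup_right : F₁ ≤ K) hx)⟩
  have hopen : IsOpen (N : Set GQ) := Subgroup.isOpen_mono hKN K.fixingSubgroup_isOpen
  have hclosed : IsClosed (N : Set GQ) := Subgroup.isClosed_of_isOpen N hopen
  have hfix : (IntermediateField.fixedField N).fixingSubgroup = N :=
    InfiniteGalois.fixingSubgroup_fixedField ⟨N, hclosed⟩
  have hle : IntermediateField.fixedField N ≤ K := by
    intro x hx
    have h1 : x ∈ IntermediateField.fixedField K.fixingSubgroup := by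
      rw [IntermediateField.mem_fixedField_iff] at hx ⊢
      exact fun σ hσ => hx σ (hKN hσ)
    rwa [InfiniteGalois.fixedField_fixingSubgroup] at h1
  have hfin : FiniteDimensional ℚ (IntermediateField.fixedField N) :=
    FiniteDimensional.of_injective (IntermediateField.inclusion hle).toLinearMap
      (IntermediateField.inclusion_injective hle)
  refine ⟨IntermediateField.fixedField N, ⟨hfin, fun q hq A hA σ hσ => ?_⟩, fun s hs => ?_⟩
  · rw [hfix]
    exact (c.mem_kerSubgroup σ).2 (c_eq_zero_of_isUnramifiedAt c (hur q hq) A hA σ hσ)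
  · rw [hfix] at hs
    exact (c.mem_kerSubgroup s).1 hs

end Level

section Support

variable (p : ℕ) [Fact p.Prime] {k : Type} [Field k] [Algebra (ZMod p) k]
  {ρbar : ResidualGaloisRep k}

/-- **(D2)** The cocycle of a lift unramified outside `S` is `S`-level constant. -/
theorem LiftCocycle.isLevelConstantS₁ (c : LiftCocycle ρbar)
    (htr : ∀ g, LinearMap.trace k ρbar.V (c.c g) = 0) (S : Finset Nat.Primes)
    (hur : ∀ q : Nat.Primes, q ∉ S → (stdLift c).IsUnramifiedAt q) :
    IsLevelConstantS₁ S (c.toCocycle p htr : GQ → ad0 p ρbar) := by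
  obtain ⟨F, hF, h⟩ := c.exists_level_field S hur
  refine ⟨F, hF, fun g s hs => ad0_ext p ρbar ?_⟩
  exact c.c_mul_of_mem g s ((c.mem_kerSubgroup s).2 (h s hs))

/-- **(D2)** The `S`-level cocycle of a lift unramified outside `S`. -/
def LiftCocycle.toLevelCocycle (c : LiftCocycle ρbar)
    (htr : ∀ g, LinearMap.trace k ρbar.V (c.c g) = 0) (S : Finset Nat.Primes)
    (hur : ∀ q : Nat.Primes, q ∉ S → (stdLift c).IsUnramifiedAt q) :
    ↥(levelCocyclesS₁ S (ad0 p ρbar)) :=
  ⟨c.toCocycle p htr, c.isLevelConstantS₁ p htr S hur⟩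

@[simp] theorem LiftCocycle.ad0Val_toLevelCocycle (c : LiftCocycle ρbar)
    (htr : ∀ g, LinearMap.trace k ρbar.V (c.c g) = 0) (S : Finset Nat.Primes)
    (hur : ∀ q : Nat.Primes, q ∉ S → (stdLift c).IsUnramifiedAt q) (g : GQ) :
    ad0Val p ρbar ((c.toLevelCocycle p htr S hur).1.1 g) = c.c g := rfl

theorem LiftCocycle.coe_toLevelCocycle (c : LiftCocycle ρbar)
    (htr : ∀ g, LinearMap.trace k ρbar.V (c.c g) = 0) (S : Finset Nat.Primes)
    (hur : ∀ q : Nat.Primes, q ∉ S → (stdLift c).IsUnramifiedAt q) :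
    (c.toLevelCocycle p htr S hur).1 = c.toCocycle p htr := rfl

/-- **(D2)** The class of a lift unramified outside `S` lies in the frozen `H¹(G_S, ad0)`. -/
theorem LiftCocycle.toClass_mem_continuousH1S (c : LiftCocycle ρbar)
    (htr : ∀ g, LinearMap.trace k ρbar.V (c.c g) = 0) (S : Finset Nat.Primes)
    (hur : ∀ q : Nat.Primes, q ∉ S → (stdLift c).IsUnramifiedAt q) :
    c.toClass p htr ∈ continuousH1S S (ad0 p ρbar) :=
  (mem_continuousH1S_iff S (ad0 p ρbar) _).2
    ⟨c.toCocycle p htr, c.isLevelConstantS₁ p htr S hur, rfl⟩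

end Support

end Fermat.Agent.S56.helper6599
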