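/-
S56-AD0NUM on the DICT carrier (helper1848): the numbers consumed by the Greenberg–Wiles count
(`helper3550.selmer_count`), stated directly for the landed `helper6599.ad0 p ρbar`
(`Rep (ZMod p) G_ℚ` on the trace-zero endomorphisms of `ρbar.V`, any `[Algebra (ZMod p) k]`):

* `h0_ad0_dict`            : `h0 (ad0 p ρbar) = 0`;
* `h0_dualT_ad0_dict`      : `h0 (dualT (ad0 p ρbar)) = 0`;
* `dimMinus_dualT_ad0_dict`: `helper2906.dimMinus (dualT (ad0 p ρbar)) = f`;
* `finrank_invariants_res_ad0_dict_le` : the local `h0` of `ad0 p ρbar` at a Taylor–Wiles prime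
  is `≤ f`;
* `isSMod_ad0_dict`        : `ad0 p ρbar` is an `S`-module when `ρbar` is unramified outside `S`;
* `natCard_eq_pow_finrank_dict` : `Nat.card k = p ^ finrank (ZMod p) k`,

where `Nat.card k = p ^ f`; hypotheses = the frozen ones of S56.
-/
import Mathlib
import Fermat.Agent.S56.helper1848_Ad0Inst
import Fermat.Agent.S56.helper6599_Ad0

set_option autoImplicit false
set_option linter.style.haveILetI false

noncomputable section

namespace Fermat.Agent.S56.helper1848

open Module Polynomial ExtCitation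
open Fermat.Agent.S55.helper2945

variable {p : ℕ} [Fact p.Prime] {k : Type} [Field k] [Algebra (ZMod p) k] [Finite k]
  (ρbar : ResidualGaloisRep k)

/-- **`h0 (ad0) = 0`** on the DICT carrier. -/
theorem h0_ad0_dict (habs : ρbar.IsAbsolutelyIrreducible) (h2 : (2 : k) ≠ 0) :
    h0 (Fermat.Agent.S56.helper6599.ad0 p ρbar) = 0 := by
  letI := Fermat.Agent.S56.helper6599.ad0Module p ρbar
  exact h0_ad0 ρbar (Fermat.Agent.S56.helper6599.ad0Rep p ρbar) (fun _ _ => rfl) habs h2

/-- **`h0 (dualT ad0) = 0`** on the DICT carrier. -/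
theorem h0_dualT_ad0_dict (habs : ρbar.IsAbsolutelyIrreducible)
    (hTW : ∀ (K : Type) [Field K] [Algebra k K] (G : Subgroup GQ), G.index = 2 →
      ∀ V : Submodule K (ρbar.baseChange K).V,
        (∀ σ ∈ G, ∀ x ∈ V, (ρbar.baseChange K).ρ σ x ∈ V) → V = ⊥ ∨ V = ⊤)
    (h2 : (2 : k) ≠ 0) :
    h0 (dualT (Fermat.Agent.S56.helper6599.ad0 p ρbar)) = 0 := by
  letI := Fermat.Agent.S56.helper6599.ad0Module p ρbar
  exact h0_dualT_ad0 ρbar (Fermat.Agent.S56.helper6599.ad0Rep p ρbar) (fun _ _ => rfl) habs hTW h2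

/-- **`dimMinus (dualT ad0) = f`** on the DICT carrier, `Nat.card k = p ^ f`. -/
theorem dimMinus_dualT_ad0_dict (hp2 : p ≠ 2)
    (hdet : (GaloisRepAdic.ofResidualGaloisRep ρbar).DetIsCyclotomic p) (f : ℕ)
    (hf : Nat.card k = p ^ f) :
    Fermat.Agent.S56.helper2906.dimMinus (dualT (Fermat.Agent.S56.helper6599.ad0 p ρbar)) = f := by
  letI := Fermat.Agent.S56.helper6599.ad0Module p ρbar
  exact dimMinus_dualT_ad0 ρbar (Fermat.Agent.S56.helper6599.ad0Rep p ρbar) (fun _ _ => rfl)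
    hp2 hdet f hf

/-- **Local `h0` of `ad0` at a Taylor–Wiles prime is `≤ f`** on the DICT carrier (frozen TW
clause at `q`). -/
theorem finrank_invariants_res_ad0_dict_le (h2 : (2 : k) ≠ 0) (q : Nat.Primes)
    (hcl : ∀ P : ValuationSubring (AlgebraicClosure ℚ), P.LiesOverPrime (q : ℕ) →
      ∀ φ : GQ, P.IsFrobeniusAt φ (q : ℕ) →
        ∃ α β : k, α ≠ β ∧ LinearMap.charpoly (ρbar.ρ φ) = (X - C α) * (X - C β))
    (f : ℕ) (hf : Nat.card k = p ^ f) :
    finrank (ZMod p)
      (Representation.invariants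
        (Rep.res (primeLocalToGlobal q) (Fermat.Agent.S56.helper6599.ad0 p ρbar)).ρ) ≤ f := by
  letI := Fermat.Agent.S56.helper6599.ad0Module p ρbar
  exact finrank_invariants_res_ad0_le ρbar (Fermat.Agent.S56.helper6599.ad0Rep p ρbar)
    (fun _ _ => rfl) h2 q hcl f hf

/-- `ad0 p ρbar` is an `S`-module as soon as `ρbar` is unramified outside `S`. -/
theorem isSMod_ad0_dict (S : Finset Nat.Primes)
    (hur : ∀ q : Nat.Primes, q ∉ S → ρbar.IsUnramifiedAt q) :
    IsSMod S (Fermat.Agent.S56.helper6599.ad0 p ρbar) :=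
  ⟨Fermat.Agent.S56.helper6599.ad0_finite p ρbar,
    Fermat.Agent.S56.helper6599.ad0_smooth p ρbar,
    Fermat.Agent.S56.helper6599.ad0_unram p ρbar S hur⟩

omit [Finite k] in
/-- The cardinality of `k` in terms of its degree over `𝔽_p`. -/
theorem natCard_eq_pow_finrank_dict (p : ℕ) [Fact p.Prime] (k : Type) [Field k]
    [Algebra (ZMod p) k] [Finite k] : Nat.card k = p ^ finrank (ZMod p) k := by
  rw [Module.natCard_eq_pow_finrank (K := ZMod p) (V := k), Nat.card_zmod]

end Fermat.Agent.S56.helper1848
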