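/-
S56 (Taylor–Wiles primes), GLOBAL SPEC.  Author: helper3550.

The Selmer-group count of the Taylor–Wiles step on the frozen S55 carriers, hypothesis-passing
over

* `S55Inputs`                      : the S55 (Poitou–Tate squeeze) Props, all consequences of
                                     the S55 frontier (`helper3550_GlobalFrontier.lean`);
* `Stmt_TateLarge`                 : Tate's global Euler characteristic, one-sided and for all
                                     sufficiently large `S` (leaf of the TATE chain);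
* `Stmt_UnrBound`                  : the unramified local classes at a prime of good reduction
                                     have dimension at most `h⁰` (leaf of the LOCAL chain);
* `KillSupply Σ₀ N Good`           : the supply of Taylor–Wiles primes killing any finite
                                     dimensional space of global classes of `N = M'` (R4–R6).

Proved here (no further input):

* `resH1S_mem_unrCond`   : a global class of level `S` localises into the unramified classes at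
                           every prime outside `S`;
* `levelDescent`         : a class of level `S'` of a module unramified outside `Σ` which is
                           locally trivial at the primes of `S' \ Σ` is of level `Σ`;
* `dualSelmer_eq_bot`    : the dual Selmer group at level `S' ⊇ Σ` with the full condition at
                           the primes of `S' \ Σ` vanishes as soon as the classes of the dual
                           Selmer group of level `Σ` are detected at the primes of `S' \ Σ`;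
* `finrank_selmer_le`    : the numerical count (Greenberg–Wiles + Tate);
* `selmer_count`         : THE theorem consumed by the dictionary layer: there is `r` such that
                           for every level `n` there are `r` good primes `qv i` with
                           `dim Sel_{Σ₀ ∪ Q}(M, 𝓛) ≤ f * r`.

The Selmer groups, dual conditions and the archimedean term are the constants of
`helper2906_GreenbergWiles` / `helper2906_TateDef`.
-/
import Mathlib
import Fermat.Agent.S55.helper2906_GreenbergWiles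
import Fermat.Agent.S56.helper2906_TateDef
import Fermat.Agent.S55.helper8412_DualClosed
import Fermat.Agent.S55.helper4145_Decomp
import Fermat.Agent.Lib.helper2320_Minkowski

set_option autoImplicit false

namespace Fermat.Agent.S56.helper3550

open CategoryTheory Module groupCohomology ExtCitation
open scoped Pointwise
open Fermat.Agent.S55.helper2945 Fermat.Agent.S55.helper7860 Fermat.Agent.S55.helper15
open Fermat.Agent.S55.helper2906 Fermat.Agent.S56.helper2906

local notation "Qb" => AlgebraicClosure ℚ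
local notation "GQ" => (AlgebraicClosure ℚ ≃ₐ[ℚ] AlgebraicClosure ℚ)

variable {p : ℕ} [Fact p.Prime]

/-! ### Plain localisation of classes -/

/-- The localisation `H¹(G_ℚ, N) → H¹(ℚ_q, N)` on all classes (Mathlib's restriction map along
the frozen `primeLocalToGlobal q`); the underlying map of `helper7860.resH1S` and
`helper15.resTotal`. -/
noncomputable abbrev locAt (N : Rep.{0, 0, 0} (ZMod p) GQ) (q : Nat.Primes) :
    H1 N →ₗ[ZMod p] H1 (Rep.res (primeLocalToGlobal q) N) :=
  (groupCohomology.map (primeLocalToGlobal q) (𝟙 (Rep.res (primeLocalToGlobal q) N)) 1).hom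

lemma coe_resH1S_eq_locAt (S : Finset Nat.Primes) (N : Rep.{0, 0, 0} (ZMod p) GQ)
    (q : Nat.Primes) (x : continuousH1S S N) :
    (resH1S S (primeLocalToGlobal q) N x : H1 (Rep.res (primeLocalToGlobal q) N))
      = locAt N q x.1 := rfl

lemma coe_resTotal_eq_locAt (S : Finset Nat.Primes) (N : Rep.{0, 0, 0} (ZMod p) GQ)
    (x : continuousH1S S N) (q : ↥S) :
    (resTotal S N x q : H1 (Rep.res (primeLocalToGlobal q.1) N)) = locAt N q.1 x.1 := rfl

/-- The localisation of a class of level `S` only depends on the class. -/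
lemma resH1S_congr {S S' : Finset Nat.Primes} (N : Rep.{0, 0, 0} (ZMod p) GQ) (q : Nat.Primes)
    (x : continuousH1S S N) (x' : continuousH1S S' N) (h : x.1 = x'.1) :
    resH1S S (primeLocalToGlobal q) N x = resH1S S' (primeLocalToGlobal q) N x' := by
  apply Subtype.ext
  rw [coe_resH1S_eq_locAt, coe_resH1S_eq_locAt, h]

/-- A class of level `S` which is locally trivial at `q`: its level cocycles restricted to the
local group at `q` are coboundaries. -/
lemma exists_eq_sub_of_locAt_eq_zero {S : Finset Nat.Primes} (N : Rep.{0, 0, 0} (ZMod p) GQ)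
    (q : Nat.Primes) (a : levelCocyclesS₁ S N)
    (h : locAt N q ((H1π N).hom a.1) = 0) :
    ∃ m : N, ∀ τ : primeLocalGaloisGroup q,
      a.1.1 (primeLocalToGlobal q τ) = N.ρ (primeLocalToGlobal q τ) m - m := by
  have h1 : resH1S S (primeLocalToGlobal q) N (toContinuousH1S S N a) = 0 := by
    apply Subtype.ext
    rw [coe_resH1S_eq_locAt]
    exact h
  rw [resH1S_toContinuousH1S] at h1
  have h2 : (H1π (Rep.res (primeLocalToGlobal q) N)).hom
      (resLevelCocycle S (primeLocalToGlobal q) a).1 = 0 := by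
    have := congrArg Subtype.val h1
    rwa [coe_toContinuousH1] at this
  obtain ⟨m, hm⟩ := (H1π_eq_zero_iff _).1 h2
  refine ⟨m, fun τ => ?_⟩
  have h3 := congrFun hm τ
  rw [d₀₁_hom_apply] at h3
  exact h3.symm

/-! ### The unramified local condition -/

/-- Level cocycles of the local Galois group at `q` which vanish on the inertia group (of the
frozen place `primeLocalPlace q`). -/
noncomputable def unrCocycles (M : Rep.{0, 0, 0} (ZMod p) GQ) (q : Nat.Primes) :
    Submodule (ZMod p)
      (levelCocycles₁ (primeLocalToGlobal q) (Rep.res (primeLocalToGlobal q) M)) where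
  carrier := {c | ∀ τ : primeLocalGaloisGroup q,
    primeLocalToGlobal q τ ∈ (primeLocalPlace q).inertiaSubgroupIn ℚ → c.1.1 τ = 0}
  add_mem' := fun {a b} ha hb τ hτ => by
    show a.1.1 τ + b.1.1 τ = 0
    rw [ha τ hτ, hb τ hτ, add_zero]
  zero_mem' := fun _ _ => rfl
  smul_mem' := fun c a ha τ hτ => by
    show c • a.1.1 τ = 0
    rw [ha τ hτ, smul_zero]

/-- **The unramified local condition** `H¹_ur(ℚ_q, M) ≤ H¹(ℚ_q, M)`: the classes of the level
cocycles vanishing on inertia. -/
noncomputable def unrCond (M : Rep.{0, 0, 0} (ZMod p) GQ) (q : Nat.Primes) :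
    Submodule (ZMod p) (LocH1 M q) :=
  (unrCocycles M q).map
    (toContinuousH1 (primeLocalToGlobal q) (Rep.res (primeLocalToGlobal q) M))

lemma mem_unrCond (M : Rep.{0, 0, 0} (ZMod p) GQ) (q : Nat.Primes) (x : LocH1 M q) :
    x ∈ unrCond M q ↔
      ∃ c : levelCocycles₁ (primeLocalToGlobal q) (Rep.res (primeLocalToGlobal q) M),
        (∀ τ : primeLocalGaloisGroup q,
          primeLocalToGlobal q τ ∈ (primeLocalPlace q).inertiaSubgroupIn ℚ → c.1.1 τ = 0) ∧
        toContinuousH1 (primeLocalToGlobal q) (Rep.res (primeLocalToGlobal q) M) c = x :=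
  Iff.rfl

/-- A global class of level `S` localises into the unramified classes at every prime outside
`S`. -/
theorem resH1S_mem_unrCond {S : Finset Nat.Primes} (M : Rep.{0, 0, 0} (ZMod p) GQ)
    {q : Nat.Primes} (hq : q ∉ S) (x : continuousH1S S M) :
    resH1S S (primeLocalToGlobal q) M x ∈ unrCond M q := by
  obtain ⟨a, rfl⟩ := toContinuousH1S_surjective S M x
  rw [resH1S_toContinuousH1S]
  refine Submodule.mem_map_of_mem ?_
  intro τ hτ
  show a.1.1 (primeLocalToGlobal q τ) = 0
  obtain ⟨F, hF, h⟩ := a.2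
  have h1 := h 1 (primeLocalToGlobal q τ)
    (hF.2 q hq (primeLocalPlace q) (Fermat.Agent.S55.helper4145.primeLocalPlace_liesOverPrime q) hτ)
  rw [one_mul] at h1
  exact h1.trans (cocycles₁_map_one a.1)

/-! ### Level descent -/

/-- The kernel of a 1-cocycle, as a subgroup. -/
def cocycleKer {G : Type} [Group G] {N : Rep.{0, 0, 0} (ZMod p) G} (c : cocycles₁ N) :
    Subgroup G where
  carrier := {s | c s = 0}
  mul_mem' := fun {s t} hs ht => by
    show c (s * t) = 0
    rw [(mem_cocycles₁_iff c).1 c.2 s t, show c t = 0 from ht, show c s = 0 from hs, map_zero,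
      add_zero]
  one_mem' := cocycles₁_map_one c
  inv_mem' := fun {s} hs => by
    show c s⁻¹ = 0
    have h := (mem_cocycles₁_iff c).1 c.2 s⁻¹ s
    rw [inv_mul_cancel, cocycles₁_map_one, show c s = 0 from hs, map_zero, zero_add] at h
    exact h.symm

lemma mem_cocycleKer {G : Type} [Group G] {N : Rep.{0, 0, 0} (ZMod p) G} (c : cocycles₁ N)
    (s : G) : s ∈ cocycleKer c ↔ c s = 0 := Iff.rfl

/-- A cocycle is constant on the cosets of its kernel. -/
lemma cocycle_mul_of_mem_ker {G : Type} [Group G] {N : Rep.{0, 0, 0} (ZMod p) G}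
    (c : cocycles₁ N) (g : G) {s : G} (hs : s ∈ cocycleKer c) : c (g * s) = c g := by
  rw [(mem_cocycles₁_iff c).1 c.2 g s, (mem_cocycleKer c s).1 hs, map_zero, zero_add]

/-- **Level descent.** Let `N` be unramified outside `S`.  A class of level `S'` which is
locally trivial at every prime of `S'` outside `S` is of level `S`. -/
theorem levelDescent {S S' : Finset Nat.Primes} (N : Rep.{0, 0, 0} (ZMod p) GQ)
    (hunr : ∀ q : Nat.Primes, q ∉ S → ∀ A : ValuationSubring Qb,
      A.LiesOverPrime (q : ℕ) → ∀ g ∈ A.inertiaSubgroupIn ℚ, N.ρ g = 1)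
    (x : H1 N) (hx : x ∈ continuousH1S S' N)
    (hloc : ∀ q ∈ S', q ∉ S → locAt N q x = 0) :
    x ∈ continuousH1S S N := by
  obtain ⟨c, hcS, rfl⟩ := (mem_continuousH1S_iff S' N x).1 hx
  obtain ⟨F, hF, hc⟩ := id hcS
  have hFfd : FiniteDimensional ℚ F := hF.1
  have hle : F.fixingSubgroup ≤ cocycleKer c := by
    intro s hs
    have h1 := hc 1 s hs
    rw [one_mul] at h1
    show c s = 0
    have h2 : (c : GQ → N) s = (c : GQ → N) 1 := h1
    rw [h2]
    exact cocycles₁_map_one c
  have hfix : (IntermediateField.fixedField (cocycleKer c)).fixingSubgroup = cocycleKer c :=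
    Fermat.Agent.S55.helper4039.fixingSubgroup_fixedField_of_le hle
  have hKF : IntermediateField.fixedField (cocycleKer c) ≤ F :=
    Fermat.Agent.S55.helper4039.fixedField_le_of_le hle
  have hfd : FiniteDimensional ℚ (IntermediateField.fixedField (cocycleKer c)) :=
    FiniteDimensional.of_injective (IntermediateField.inclusion hKF).toLinearMap
      (IntermediateField.inclusion_injective hKF)
  refine (mem_continuousH1S_iff S N _).2
    ⟨c, ⟨IntermediateField.fixedField (cocycleKer c), ⟨hfd, fun q hq A hA σ hσ => ?_⟩,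
      fun g s hs => ?_⟩, rfl⟩
  · -- inertia at a prime outside `S` lies in the kernel of `c`
    rw [hfix, mem_cocycleKer]
    by_cases hqS : q ∈ S'
    · -- local triviality at `q`
      obtain ⟨m, hm⟩ := exists_eq_sub_of_locAt_eq_zero (S := S') N q ⟨c, hcS⟩ (hloc q hqS hq)
      have hA₀ := Fermat.Agent.S55.helper4145.primeLocalPlace_liesOverPrime q
      obtain ⟨g, rfl⟩ := Fermat.Agent.Lib.helper2320.exists_smul_eq_of_liesOverPrime q.2
        (primeLocalPlace q) A hA₀ hA
      -- `τ' = g⁻¹ σ g` is in the inertia group of the frozen place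
      have hτ' : g⁻¹ * σ * g ∈ (primeLocalPlace q).inertiaSubgroupIn ℚ := by
        have h1 := Fermat.Agent.Lib.helper2320.conj_mem_inertiaSubgroupIn
          (g • primeLocalPlace q) g⁻¹ σ hσ
        rwa [inv_inv, inv_smul_smul] at h1
      have hdec : g⁻¹ * σ * g ∈ (primeLocalPlace q).decompositionSubgroup ℚ := by
        obtain ⟨y, -, hy⟩ := hτ'
        rw [← hy]
        exact y.2
      obtain ⟨τ, hτ⟩ := Fermat.Agent.S55.helper4145.exists_primeLocalToGlobal_eq q hdec
      have hρ : N.ρ (g⁻¹ * σ * g) = 1 := hunr q hq (primeLocalPlace q) hA₀ _ hτ'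
      have hcτ : (c : GQ → N) (g⁻¹ * σ * g) = 0 := by
        have h1 := hm τ
        rw [hτ] at h1
        show (⟨c, hcS⟩ : levelCocyclesS₁ S' N).1.1 (g⁻¹ * σ * g) = 0
        rw [h1, hρ, Module.End.one_apply, sub_self]
      have hσ' : σ = g * ((g⁻¹ * σ * g) * g⁻¹) := by group
      have hcoc := (mem_cocycles₁_iff c).1 c.2
      rw [hσ', hcoc g, hcoc (g⁻¹ * σ * g) g⁻¹, hcτ, hρ, Module.End.one_apply, add_zero,
        ← hcoc g g⁻¹, mul_inv_cancel]
      exact cocycles₁_map_one c
    · exact hle (hF.2 q hqS A hA hσ)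
  · rw [hfix] at hs
    exact cocycle_mul_of_mem_ker c g hs

/-! ### The dual Selmer group with full conditions at auxiliary primes -/

lemma isSMod_mono {S S' : Finset Nat.Primes} (h : S ⊆ S') {M : Rep.{0, 0, 0} (ZMod p) GQ}
    (hM : IsSMod S M) : IsSMod S' M :=
  ⟨hM.finite, hM.smooth, fun q hq => hM.unram q (fun hqS => hq (h hqS))⟩

/-- The dual Selmer group of level `S` for the family of local conditions `𝓛` on `M` (the dual
conditions `helper2906.dualCond` at the primes of `S`), as a space of classes of `M'`. -/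
noncomputable def dualSelmerClasses {S : Finset Nat.Primes} {M : Rep.{0, 0, 0} (ZMod p) GQ}
    (hsm : IsSmoothS S M) (𝓛 : ∀ q : Nat.Primes, Submodule (ZMod p) (LocH1 M q)) :
    Submodule (ZMod p) (H1 (dualT M)) :=
  (selmer S (dualT M) (Submodule.pi Set.univ fun q : ↥S => dualCond hsm q (𝓛 q.1))).map
    (continuousH1S S (dualT M)).subtype

lemma dualSelmerClasses_le {S : Finset Nat.Primes} {M : Rep.{0, 0, 0} (ZMod p) GQ}
    (hsm : IsSmoothS S M) (𝓛 : ∀ q : Nat.Primes, Submodule (ZMod p) (LocH1 M q)) :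
    dualSelmerClasses hsm 𝓛 ≤ continuousH1S S (dualT M) := by
  rintro _ ⟨y, -, rfl⟩
  exact y.2

/-- **The dual Selmer group vanishes.**  Let `S ⊆ S'`, `M` an `S`-module and `𝓛` a family of
local conditions which is the full condition at the primes of `S' \ S`.  If every class of the
dual Selmer group of level `S` which is locally trivial at the primes of `S' \ S` vanishes, then
the dual Selmer group of level `S'` is zero.  (Local duality at the primes of `S' \ S`, level
descent.) -/
theorem dualSelmer_eq_bot (hLoc : Fermat.Agent.S55.helper665.Stmt_LocalL2) (hp2 : p ≠ 2)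
    {S S' : Finset Nat.Primes} (hSS' : S ⊆ S') (hpS : pPrime p ∈ S)
    {M : Rep.{0, 0, 0} (ZMod p) GQ} (hM : IsSMod S M)
    (𝓛 : ∀ q : Nat.Primes, Submodule (ZMod p) (LocH1 M q))
    (htop : ∀ q ∈ S', q ∉ S → 𝓛 q = ⊤)
    (hkill : ∀ x ∈ dualSelmerClasses (isSmoothS_of_isSMod hpS hM) 𝓛,
      (∀ q ∈ S', q ∉ S → locAt (dualT M) q x = 0) → x = 0) :
    selmer S' (dualT M) (Submodule.pi Set.univ fun q : ↥S' =>
      dualCond (isSmoothS_of_isSMod (hSS' hpS) (isSMod_mono hSS' hM)) q (𝓛 q.1)) = ⊥ := by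
  rw [eq_bot_iff]
  intro y hy
  rw [Submodule.mem_bot]
  have hMS' := isSMod_mono hSS' hM
  have hpS' := hSS' hpS
  have hy' : ∀ q : ↥S', resTotal S' (dualT M) y q
      ∈ dualCond (isSmoothS_of_isSMod hpS' hMS') q (𝓛 q.1) := fun q => hy q (Set.mem_univ q)
  -- local triviality at the primes outside `S`
  have hloc : ∀ q ∈ S', q ∉ S → locAt (dualT M) q y.1 = 0 := by
    intro q hqS' hqS
    have h1 := hy' ⟨q, hqS'⟩
    rw [htop q hqS' hqS, dualCond_top hLoc hp2 hpS' hMS' ⟨q, hqS'⟩, Submodule.mem_bot] at h1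
    exact congrArg Subtype.val h1
  have hM' : IsSMod S (dualT M) := Fermat.Agent.S55.helper8412.stmt_DualClosed hp2 S hpS M hM
  have hyS : y.1 ∈ continuousH1S S (dualT M) := levelDescent (dualT M) hM'.unram y.1 y.2 hloc
  have hmem : y.1 ∈ dualSelmerClasses (isSmoothS_of_isSMod hpS hM) 𝓛 := by
    refine ⟨⟨y.1, hyS⟩, ?_, rfl⟩
    intro q _
    have h1 := hy' ⟨q.1, hSS' q.2⟩
    have heq : resTotal S (dualT M) ⟨y.1, hyS⟩ q = resTotal S' (dualT M) y ⟨q.1, hSS' q.2⟩ :=
      resH1S_congr (dualT M) q.1 _ _ rfl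
    show resTotal S (dualT M) ⟨y.1, hyS⟩ q ∈ dualCond _ q (𝓛 q.1)
    rw [heq]
    exact h1
  exact Subtype.ext (hkill y.1 hmem hloc)

/-! ### The count -/

/-- The S55 (Poitou–Tate) inputs consumed by the count.  All of them are consequences of the
S55 frontier `helper2945.Frontier` (see `helper3550_GlobalFrontier.lean`). -/
structure S55Inputs : Prop where
  fin : Stmt_Fin
  stepA : Stmt_A
  stepB : Stmt_B
  stepC : Stmt_C
  l2num : Stmt_L2num
  stepE : Stmt_E
  recip : Stmt_R
  localL2 : Fermat.Agent.S55.helper665.Stmt_LocalL2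

/-- **The numerical count** (Greenberg–Wiles formula + Tate's inequality for `M'`): if the dual
Selmer group vanishes and `∑_q dim L_q ≤ π₀(M) + dim (M')^{c=-1} + d`, then
`dim Sel_L(M) ≤ d + h⁰(M)`. -/
theorem finrank_selmer_le (hFr : S55Inputs) (hp2 : p ≠ 2)
    (S : Finset Nat.Primes) (hpS : pPrime p ∈ S) (M : Rep.{0, 0, 0} (ZMod p) GQ)
    (hM : IsSMod S M) (Lq : ∀ q : ↥S, Submodule (ZMod p) (LocH1 M q.1))
    (hdual : selmer S (dualT M) (Submodule.pi Set.univ fun q =>
      dualCond (isSmoothS_of_isSMod hpS hM) q (Lq q)) = ⊥)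
    (hT : h0 (dualT M) + h2 S (dualT M) + dimMinus (dualT M) ≤ h1 S (dualT M))
    (d : ℕ) (hloc : ∑ q : ↥S, finrank (ZMod p) ↥(Lq q) ≤ pi0 S M + dimMinus (dualT M) + d) :
    finrank (ZMod p) ↥(selmer S M (Submodule.pi Set.univ Lq)) ≤ d + h0 M := by
  have h := greenbergWiles_pi hFr.fin hFr.stepA hFr.stepB hFr.stepC hFr.l2num
    hFr.stepE hFr.recip hFr.localL2 hp2 S hpS M hM Lq
  rw [hdual, finrank_bot] at h
  omega

/-! ### The leaf statements -/

/-- **Tate's global Euler characteristic, one-sided, for all sufficiently large `S`.**  For an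
`S₀`-module `N` there is a finite set `T` of primes such that
`h⁰(N) + h²(G_S, N) + dim N^{c=-1} ≤ h¹(G_S, N)` for every `S ⊇ S₀ ∪ T`. -/
def Stmt_TateLarge : Prop :=
  ∀ {p : ℕ} [Fact p.Prime], p ≠ 2 → ∀ (S₀ : Finset Nat.Primes), pPrime p ∈ S₀ →
    ∀ (N : Rep.{0, 0, 0} (ZMod p) GQ), IsSMod S₀ N →
      ∃ T : Finset Nat.Primes, ∀ S : Finset Nat.Primes, S₀ ⊆ S → T ⊆ S →
        h0 N + h2 S N + dimMinus N ≤ h1 S N

/-- The all-`S` form of Tate's inequality implies the large-`S` form. -/
theorem stmt_TateLarge_of_forall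
    (h : ∀ {p : ℕ} [Fact p.Prime], p ≠ 2 → ∀ (S : Finset Nat.Primes), pPrime p ∈ S →
      ∀ (N : Rep.{0, 0, 0} (ZMod p) GQ), IsSMod S N → h0 N + h2 S N + dimMinus N ≤ h1 S N) :
    Stmt_TateLarge :=
  fun hp2 _ hpS₀ N hN =>
    ⟨∅, fun S hS _ => h hp2 S (hS hpS₀) N (isSMod_mono hS hN)⟩

/-- **The unramified classes at a prime of good reduction**: `dim H¹_ur(ℚ_t, M) ≤ h⁰(ℚ_t, M)`
for an `S`-module `M` and a prime `t ∉ S`. -/
def Stmt_UnrBound : Prop :=
  ∀ {p : ℕ} [Fact p.Prime], p ≠ 2 → ∀ (S : Finset Nat.Primes), pPrime p ∈ S →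
    ∀ (M : Rep.{0, 0, 0} (ZMod p) GQ), IsSMod S M → ∀ t : Nat.Primes, t ∉ S →
      finrank (ZMod p) ↥(unrCond M t) ≤
        finrank (ZMod p) (Representation.invariants (Rep.res (primeLocalToGlobal t) M).ρ)

/-- **Supply of Taylor–Wiles primes** for the module `N` (`= M'`): every finite-dimensional
space `D0` of global classes of `N` of some level `S ⊇ S₀` is detected, for every `n`, at
`dim D0` distinct primes `qv i` which are `Good n`, outside any given finite set `Tav`:
a class of `D0` which is locally trivial at all the `qv i` is zero. -/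
def KillSupply (S₀ : Finset Nat.Primes) (N : Rep.{0, 0, 0} (ZMod p) GQ)
    (Good : ℕ → Nat.Primes → Prop) : Prop :=
  ∀ S : Finset Nat.Primes, S₀ ⊆ S → ∀ D0 : Submodule (ZMod p) (H1 N), D0 ≤ continuousH1S S N →
    ∀ (Tav : Finset Nat.Primes) (n : ℕ), ∃ qv : Fin (finrank (ZMod p) ↥D0) → Nat.Primes,
      Function.Injective qv ∧ (∀ i, qv i ∉ Tav ∧ Good n (qv i)) ∧
      ∀ x ∈ D0, (∀ i, locAt N (qv i) x = 0) → x = 0

/-! ### The Selmer count of the Taylor–Wiles step -/

/-- **Selmer count.**  Let `M` be an `S₀`-module with `h⁰(M) = 0` and `f ≤ dim (M')^{c=-1}`,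
`𝓛` a family of local conditions with `∑_{q ∈ S₀} dim 𝓛_q ≤ π₀(M) + f`, and `Good n` a class of
primes outside `S₀` with `dim H¹(ℚ_q, M) ≤ h⁰(ℚ_q, M) + f` which supplies Taylor–Wiles primes for
`M'`.  Then there is `r` such that for every `n` there are `r` distinct `Good n` primes `qv i`
(outside any given finite set) with `dim Sel_{S₀ ∪ Q}(M, 𝓛) ≤ f * r`, `Q = {qv i}`. -/
theorem selmer_count (hFr : S55Inputs) (hTate : Stmt_TateLarge) (hUnr : Stmt_UnrBound)
    (hp2 : p ≠ 2) (S₀ : Finset Nat.Primes) (hpS : pPrime p ∈ S₀)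
    (M : Rep.{0, 0, 0} (ZMod p) GQ) (hM : IsSMod S₀ M)
    (𝓛 : ∀ q : Nat.Primes, Submodule (ZMod p) (LocH1 M q))
    (f : ℕ) (h0M : h0 M = 0) (hminus : f ≤ dimMinus (dualT M))
    (hlocS : ∑ q ∈ S₀, finrank (ZMod p) ↥(𝓛 q) ≤ pi0 S₀ M + f)
    (Good : ℕ → Nat.Primes → Prop)
    (hGood : ∀ n q, Good n q → q ∉ S₀ →
      finrank (ZMod p) (LocH1 M q) ≤
        finrank (ZMod p) (Representation.invariants (Rep.res (primeLocalToGlobal q) M).ρ) + f)
    (hKill : KillSupply S₀ (dualT M) Good) (Tav : Finset Nat.Primes) :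
    ∃ r : ℕ, ∀ n : ℕ, ∃ qv : Fin r → Nat.Primes, Function.Injective qv ∧
      (∀ i, qv i ∉ Tav ∧ qv i ∉ S₀ ∧ Good n (qv i)) ∧
      finrank (ZMod p) ↥(selmer (S₀ ∪ Finset.univ.image qv) M
        (Submodule.pi Set.univ fun q => 𝓛 q.1)) ≤ f * r := by
  classical
  have hM' : IsSMod S₀ (dualT M) :=
    Fermat.Agent.S55.helper8412.stmt_DualClosed hp2 S₀ hpS M hM
  obtain ⟨T, hT⟩ := hTate hp2 S₀ hpS (dualT M) hM'
  -- the base set `S₁ = S₀ ∪ T`
  obtain ⟨S₁, hS₁⟩ : ∃ S₁ : Finset Nat.Primes, S₁ = S₀ ∪ (T \ S₀) := ⟨_, rfl⟩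
  have hS₀S₁ : S₀ ⊆ S₁ := by rw [hS₁]; exact Finset.subset_union_left
  have hTS₁ : T ⊆ S₁ := by
    intro t ht
    rw [hS₁, Finset.mem_union, Finset.mem_sdiff]
    by_cases h : t ∈ S₀
    · exact Or.inl h
    · exact Or.inr ⟨ht, h⟩
  have hpS₁ : pPrime p ∈ S₁ := hS₀S₁ hpS
  have hMS₁ : IsSMod S₁ M := isSMod_mono hS₀S₁ hM
  -- the extended family of local conditions
  obtain ⟨𝓛', h𝓛'0, h𝓛'T, h𝓛'top⟩ : ∃ 𝓛' : ∀ q : Nat.Primes, Submodule (ZMod p) (LocH1 M q),
      (∀ q, q ∈ S₀ → 𝓛' q = 𝓛 q) ∧ (∀ q, q ∉ S₀ → q ∈ T → 𝓛' q = unrCond M q) ∧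
      (∀ q, q ∉ S₀ → q ∉ T → 𝓛' q = ⊤) :=
    ⟨fun q => if q ∈ S₀ then 𝓛 q else if q ∈ T then unrCond M q else ⊤,
      fun q h => by simp only [if_pos h],
      fun q h h' => by simp only [if_neg h, if_pos h'],
      fun q h h' => by simp only [if_neg h, if_neg h']⟩
  -- the dual Selmer group of the base level
  obtain ⟨D0, hD0⟩ : ∃ D0 : Submodule (ZMod p) (H1 (dualT M)),
      D0 = dualSelmerClasses (isSmoothS_of_isSMod hpS₁ hMS₁) 𝓛' := ⟨_, rfl⟩
  have hD0le : D0 ≤ continuousH1S S₁ (dualT M) := by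
    rw [hD0]; exact dualSelmerClasses_le _ _
  refine ⟨finrank (ZMod p) ↥D0, fun n => ?_⟩
  obtain ⟨qv, hinj, hqv, hkill⟩ := hKill S₁ hS₀S₁ D0 hD0le (Tav ∪ S₁) n
  have hqvS₁ : ∀ i, qv i ∉ S₁ := fun i h => (hqv i).1 (Finset.mem_union_right _ h)
  refine ⟨qv, hinj, fun i => ⟨fun h => (hqv i).1 (Finset.mem_union_left _ h),
    fun h => hqvS₁ i (hS₀S₁ h), (hqv i).2⟩, ?_⟩
  obtain ⟨Q, hQ⟩ : ∃ Q : Finset Nat.Primes, Q = Finset.univ.image qv := ⟨_, rfl⟩
  rw [← hQ]
  have hmemQ : ∀ q, q ∈ Q ↔ ∃ i, qv i = q := by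
    intro q
    rw [hQ, Finset.mem_image]
    exact ⟨fun ⟨i, _, h⟩ => ⟨i, h⟩, fun ⟨i, h⟩ => ⟨i, Finset.mem_univ i, h⟩⟩
  have hdisj : Disjoint S₁ Q := by
    rw [Finset.disjoint_left]
    intro q hq1 hqQ
    obtain ⟨i, rfl⟩ := (hmemQ q).1 hqQ
    exact hqvS₁ i hq1
  have hcardQ : Q.card = finrank (ZMod p) ↥D0 := by
    rw [hQ, Finset.card_image_of_injective _ hinj, Finset.card_univ, Fintype.card_fin]
  -- the big set `S' = S₁ ∪ Q`
  have hS₁S' : S₁ ⊆ S₁ ∪ Q := Finset.subset_union_left
  have hpS' : pPrime p ∈ S₁ ∪ Q := hS₁S' hpS₁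
  have hMS' : IsSMod (S₁ ∪ Q) M := isSMod_mono hS₁S' hMS₁
  have hSS' : S₀ ∪ Q ⊆ S₁ ∪ Q := Finset.union_subset_union hS₀S₁ (Finset.Subset.refl _)
  -- step 1: `Sel_{S₀ ∪ Q}(𝓛)` embeds into `Sel_{S₁ ∪ Q}(𝓛')`
  have step1 : finrank (ZMod p) ↥(selmer (S₀ ∪ Q) M (Submodule.pi Set.univ fun q => 𝓛 q.1))
      ≤ finrank (ZMod p) ↥(selmer (S₁ ∪ Q) M (Submodule.pi Set.univ fun q => 𝓛' q.1)) := by
    have hfdS' : FiniteDimensional (ZMod p) ↥(continuousH1S (S₁ ∪ Q) M) :=
      (hFr.fin hp2 (S₁ ∪ Q) hpS' M hMS').1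
    have hmaps : ∀ x ∈ selmer (S₀ ∪ Q) M (Submodule.pi Set.univ fun q => 𝓛 q.1),
        Submodule.inclusion (continuousH1S_mono M hSS') x
          ∈ selmer (S₁ ∪ Q) M (Submodule.pi Set.univ fun q => 𝓛' q.1) := by
      intro x hx q _
      show resTotal (S₁ ∪ Q) M (Submodule.inclusion (continuousH1S_mono M hSS') x) q ∈ 𝓛' q.1
      by_cases hq0 : q.1 ∈ S₀
      · have h1 := hx ⟨q.1, Finset.mem_union_left _ hq0⟩ (Set.mem_univ _)
        have heq : resTotal (S₁ ∪ Q) M (Submodule.inclusion (continuousH1S_mono M hSS') x) q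
            = resTotal (S₀ ∪ Q) M x ⟨q.1, Finset.mem_union_left _ hq0⟩ :=
          resH1S_congr M q.1 _ _ rfl
        rw [h𝓛'0 q.1 hq0, heq]
        exact h1
      · by_cases hqT : q.1 ∈ T
        · have hqQ : q.1 ∉ Q := fun h => Finset.disjoint_left.1 hdisj (hTS₁ hqT) h
          have hq : q.1 ∉ S₀ ∪ Q := by
            rw [Finset.mem_union]
            rintro (h | h)
            · exact hq0 h
            · exact hqQ h
          have h1 := resH1S_mem_unrCond M hq x
          have heq : resTotal (S₁ ∪ Q) M (Submodule.inclusion (continuousH1S_mono M hSS') x) q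
              = resH1S (S₀ ∪ Q) (primeLocalToGlobal q.1) M x :=
            resH1S_congr M q.1 _ _ rfl
          rw [h𝓛'T q.1 hq0 hqT, heq]
          exact h1
        · rw [h𝓛'top q.1 hq0 hqT]
          exact Submodule.mem_top
    exact LinearMap.finrank_le_finrank_of_injective
      (f := (Submodule.inclusion (continuousH1S_mono M hSS')).restrict hmaps)
      (fun a b hab => by
        have h1 : Submodule.inclusion (continuousH1S_mono M hSS') a.1
            = Submodule.inclusion (continuousH1S_mono M hSS') b.1 := congrArg Subtype.val hab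
        exact Subtype.ext (Submodule.inclusion_injective _ h1))
  -- step 2: the count at `S₁ ∪ Q`
  have step2 : finrank (ZMod p) ↥(selmer (S₁ ∪ Q) M (Submodule.pi Set.univ fun q => 𝓛' q.1))
      ≤ f * finrank (ZMod p) ↥D0 + h0 M := by
    refine finrank_selmer_le hFr hp2 (S₁ ∪ Q) hpS' M hMS' (fun q => 𝓛' q.1) ?_
      (hT (S₁ ∪ Q) (hS₀S₁.trans hS₁S') (hTS₁.trans hS₁S')) (f * finrank (ZMod p) ↥D0) ?_
    · refine dualSelmer_eq_bot hFr.localL2 hp2 hS₁S' hpS₁ hMS₁ 𝓛' ?_ ?_
      · intro q hq hq1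
        exact h𝓛'top q (fun h => hq1 (hS₀S₁ h)) (fun h => hq1 (hTS₁ h))
      · intro x hx hloc
        rw [← hD0] at hx
        refine hkill x hx (fun i => hloc (qv i) ?_ (hqvS₁ i))
        exact Finset.mem_union_right _ ((hmemQ _).2 ⟨i, rfl⟩)
    · rw [Finset.sum_coe_sort (S₁ ∪ Q) (fun q => finrank (ZMod p) ↥(𝓛' q))]
      have hd1 : Disjoint S₀ (T \ S₀) := Finset.disjoint_sdiff
      have e1 : ∑ q ∈ S₀, finrank (ZMod p) ↥(𝓛' q) = ∑ q ∈ S₀, finrank (ZMod p) ↥(𝓛 q) :=
        Finset.sum_congr rfl (fun q hq => by rw [h𝓛'0 q hq])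
      have e2 : ∑ q ∈ T \ S₀, finrank (ZMod p) ↥(𝓛' q) ≤ ∑ q ∈ T \ S₀,
          finrank (ZMod p) (Representation.invariants (Rep.res (primeLocalToGlobal q) M).ρ) :=
        Finset.sum_le_sum (fun q hq => by
          obtain ⟨hqT, hq0⟩ := Finset.mem_sdiff.1 hq
          rw [h𝓛'T q hq0 hqT]
          exact hUnr hp2 S₀ hpS M hM q hq0)
      have e3 : ∑ q ∈ Q, finrank (ZMod p) ↥(𝓛' q) ≤ ∑ q ∈ Q,
          (finrank (ZMod p) (Representation.invariants (Rep.res (primeLocalToGlobal q) M).ρ)
            + f) :=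
        Finset.sum_le_sum (fun q hq => by
          obtain ⟨i, rfl⟩ := (hmemQ q).1 hq
          have hq0 : qv i ∉ S₀ := fun h => hqvS₁ i (hS₀S₁ h)
          have hqT : qv i ∉ T := fun h => hqvS₁ i (hTS₁ h)
          rw [h𝓛'top (qv i) hq0 hqT, finrank_top]
          exact hGood n (qv i) (hqv i).2 hq0)
      rw [Finset.sum_add_distrib, Finset.sum_const, smul_eq_mul, hcardQ] at e3
      have hpi : pi0 (S₁ ∪ Q) M = pi0 S₀ M
          + ∑ q ∈ T \ S₀,
            finrank (ZMod p) (Representation.invariants (Rep.res (primeLocalToGlobal q) M).ρ)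
          + ∑ q ∈ Q,
            finrank (ZMod p) (Representation.invariants (Rep.res (primeLocalToGlobal q) M).ρ) := by
        unfold pi0
        rw [Finset.sum_union hdisj, hS₁, Finset.sum_union hd1]
      rw [hpi, Finset.sum_union hdisj, hS₁, Finset.sum_union hd1, e1]
      have hmul : finrank (ZMod p) ↥D0 * f = f * finrank (ZMod p) ↥D0 := Nat.mul_comm _ _
      omega
  omega

end Fermat.Agent.S56.helper3550
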