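/-
S56, COUNT ASSEMBLY (node COUNT-ASM).  Author: helper2229.

The seam between the deformation side (TOP: `Stmt_CountSO`, `Stmt_CountFL` of
`helper2229_TopSpec`) and the cohomological side (DICT + GLOBAL) of S56, on the S55 carriers:

* `primesOf T` : the primes of a finite set of naturals, as a `Finset Nat.Primes`.
* `twCond Σ M L T` : the local conditions `L q` at the primes of `Σ` and no condition at the
  other primes of `T` (the Taylor–Wiles primes).
* `GlobalCount` : the output of the GLOBAL layer (Greenberg–Wiles count + Taylor–Wiles primes):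
  there is `r` such that for every `n` there are `r` Taylor–Wiles primes of level `n` with
  `dim_{𝔽_p} Sel_{Σ ∪ Q}(M, L) ≤ f * r`.
* `DictBound` : the output of the DICT layer: a bound `dim_{𝔽_p} Sel_{Σ ∪ Q}(M, L) ≤ f * r`
  gives the tangent bound `TanBound (cond (Smin ∪ Q)) ((#k) ^ r)`.
* `countGoal_of_seam` : `GlobalCount` + `DictBound` give the conclusion of `Stmt_CountSO`
  (resp. `Stmt_CountFL`) for the given data.
* `GoodTW`, `globalCount_of_selmer_count` : `GlobalCount` from helper3550's `selmer_count`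
  (GLOBAL-SPEC), i.e. from the S55 inputs, Tate's inequality, the unramified bound, the
  numerics of `M`, the local bounds on `Σ`, the local bound at the Taylor–Wiles primes and the
  supply of Taylor–Wiles primes.
-/
import Mathlib
import Fermat.Agent.S56.helper2229_TopSpec
import Fermat.Agent.S55.helper2906_GreenbergWiles
import Fermat.Agent.S56.helper3550_GlobalSpec

set_option autoImplicit false

namespace Fermat.Agent.S56.helper2229

open Polynomial IsLocalRing Module groupCohomology ExtCitation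
open Fermat.Agent.S55.helper2945 Fermat.Agent.S55.helper15 Fermat.Agent.S55.helper2906

attribute [local instance] Fermat.Agent.S53.helper413.dualAlgebra

/-! ### Finite sets of primes -/

/-- The primes of a finite set of natural numbers, as a finite set of `Nat.Primes`. -/
def primesOf (T : Finset ℕ) : Finset Nat.Primes := T.subtype Nat.Prime

@[simp] theorem mem_primesOf {T : Finset ℕ} {q : Nat.Primes} : q ∈ primesOf T ↔ (q : ℕ) ∈ T :=
  Finset.mem_subtype

theorem primesOf_mono {T T' : Finset ℕ} (h : T ⊆ T') : primesOf T ⊆ primesOf T' :=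
  fun _ hq => mem_primesOf.2 (h (mem_primesOf.1 hq))

theorem primesOf_union (T T' : Finset ℕ) : primesOf (T ∪ T') = primesOf T ∪ primesOf T' := by
  ext q
  simp [Finset.mem_union]

theorem primesOf_image_coe {r : ℕ} (qv : Fin r → Nat.Primes) :
    primesOf (Finset.univ.image fun i => (qv i : ℕ)) = Finset.univ.image qv := by
  ext q
  simp only [mem_primesOf, Finset.mem_image, Finset.mem_univ, true_and]
  constructor
  · rintro ⟨i, hi⟩
    exact ⟨i, Subtype.ext hi⟩
  · rintro ⟨i, rfl⟩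
    exact ⟨i, rfl⟩

theorem primesOf_union_image {r : ℕ} (Smin : Finset ℕ) (qv : Fin r → Nat.Primes) :
    primesOf (Smin ∪ Finset.univ.image fun i => (qv i : ℕ)) =
      primesOf Smin ∪ Finset.univ.image qv := by
  rw [primesOf_union, primesOf_image_coe]

theorem pPrime_mem_primesOf {p : ℕ} [Fact p.Prime] {T : Finset ℕ} (h : p ∈ T) :
    pPrime p ∈ primesOf T :=
  mem_primesOf.2 h

/-! ### The seam -/

section Seam

variable {p : ℕ} [Fact p.Prime]

/-- The local conditions of the count at a set `T` of primes: the given conditions `L q` at the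
primes of `Σ`, no condition at the other primes of `T` (the Taylor–Wiles primes). -/
noncomputable def twCond (Sg : Finset Nat.Primes)
    (M : Rep.{0, 0, 0} (ZMod p) (AlgebraicClosure ℚ ≃ₐ[ℚ] AlgebraicClosure ℚ))
    (L : ∀ q : Nat.Primes, Submodule (ZMod p) (LocH1 M q)) (T : Finset Nat.Primes) :
    Submodule (ZMod p) (∀ q : ↥T, LocH1 M q.1) :=
  Submodule.pi Set.univ fun q => if q.1 ∈ Sg then L q.1 else ⊤

/-- **GLOBAL side of the seam** (Greenberg–Wiles count + Taylor–Wiles primes).  There is `r`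
such that for every level `n` there are `r` distinct primes outside `S`, congruent to `1` modulo
`p ^ (n + 1)`, at which every Frobenius has two distinct eigenvalues in `k`, and for which the
Selmer group of `M` for the conditions `L` on `Σ` and no condition at the new primes has
`𝔽_p`-dimension at most `f * r`. -/
def GlobalCount (𝒪 : Type) [CommRing 𝒪] [IsLocalRing 𝒪] (p : ℕ) [Fact p.Prime]
    (ρbar : ResidualGaloisRep (ResidueField 𝒪)) (S : Finset ℕ) (Sg : Finset Nat.Primes)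
    (M : Rep.{0, 0, 0} (ZMod p) (AlgebraicClosure ℚ ≃ₐ[ℚ] AlgebraicClosure ℚ))
    (L : ∀ q : Nat.Primes, Submodule (ZMod p) (LocH1 M q)) (f : ℕ) : Prop :=
  ∃ r : ℕ, ∀ n : ℕ, ∃ qv : Fin r → Nat.Primes, Function.Injective qv ∧
    (∀ i, (qv i : ℕ) ∉ S ∧ p ^ (n + 1) ∣ (qv i : ℕ) - 1) ∧
    (∀ i, ∀ P : ValuationSubring (AlgebraicClosure ℚ), P.LiesOverPrime (qv i : ℕ) →
      ∀ φ : AlgebraicClosure ℚ ≃ₐ[ℚ] AlgebraicClosure ℚ, P.IsFrobeniusAt φ (qv i : ℕ) →
        ∃ α β : ResidueField 𝒪, α ≠ β ∧ LinearMap.charpoly (ρbar.ρ φ) = (X - C α) * (X - C β)) ∧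
    finrank (ZMod p) (selmer (Sg ∪ Finset.univ.image qv) M (twCond Sg M L _)) ≤ f * r

/-- **DICT side of the seam.**  For every family `qv` of `r` distinct primes outside `Smin`:
if the Selmer group of `M` for the conditions `L` on `Σ` and no condition at the `qv i` has
`𝔽_p`-dimension at most `f * r`, then the lifts of `ρbar` over `k[ε]` of type
`cond (Smin ∪ Q)` satisfy the tangent bound `(#k) ^ r`. -/
def DictBound (𝒪 : Type) [CommRing 𝒪] [IsLocalRing 𝒪] (p : ℕ) [Fact p.Prime]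
    (ρbar : ResidualGaloisRep (ResidueField 𝒪)) (Smin : Finset ℕ)
    (cond : Finset ℕ → ∀ ⦃A : Type⦄ [CommRing A] [IsLocalRing A] [Algebra 𝒪 A],
      GaloisRepAdic A → Prop)
    (Sg : Finset Nat.Primes)
    (M : Rep.{0, 0, 0} (ZMod p) (AlgebraicClosure ℚ ≃ₐ[ℚ] AlgebraicClosure ℚ))
    (L : ∀ q : Nat.Primes, Submodule (ZMod p) (LocH1 M q)) (f : ℕ) : Prop :=
  ∀ (r : ℕ) (qv : Fin r → Nat.Primes), Function.Injective qv → (∀ i, (qv i : ℕ) ∉ Smin) →
    finrank (ZMod p) (selmer (Sg ∪ Finset.univ.image qv) M (twCond Sg M L _)) ≤ f * r →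
    TanBound 𝒪 ρbar (cond (Smin ∪ Finset.univ.image fun i => (qv i : ℕ)))
      (Nat.card (ResidueField 𝒪) ^ r)

/-- **The seam.**  The GLOBAL count and the DICT bound, for the same module `M`, the same local
conditions `L` and the same `f`, give the conclusion of the count `Prop`s of the TOP SPEC. -/
theorem countGoal_of_seam {𝒪 : Type} [CommRing 𝒪] [IsLocalRing 𝒪]
    {ρbar : ResidualGaloisRep (ResidueField 𝒪)} {S Smin : Finset ℕ} (hSmin : Smin ⊆ S)
    {cond : Finset ℕ → ∀ ⦃A : Type⦄ [CommRing A] [IsLocalRing A] [Algebra 𝒪 A],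
      GaloisRepAdic A → Prop}
    {Sg : Finset Nat.Primes}
    {M : Rep.{0, 0, 0} (ZMod p) (AlgebraicClosure ℚ ≃ₐ[ℚ] AlgebraicClosure ℚ)}
    {L : ∀ q : Nat.Primes, Submodule (ZMod p) (LocH1 M q)} {f : ℕ}
    (hG : GlobalCount 𝒪 p ρbar S Sg M L f) (hD : DictBound 𝒪 p ρbar Smin cond Sg M L f) :
    ∃ r : ℕ, ∀ n : ℕ, ∃ qv : Fin r → ℕ, IsTWFamily 𝒪 p ρbar S n qv ∧
      TanBound 𝒪 ρbar (cond (Smin ∪ Finset.univ.image qv)) (Nat.card (ResidueField 𝒪) ^ r) := by
  obtain ⟨r, hr⟩ := hG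
  refine ⟨r, fun n => ?_⟩
  obtain ⟨qv, hinj, h1, h2, hsel⟩ := hr n
  refine ⟨fun i => (qv i : ℕ), ⟨fun i j hij => hinj (Subtype.ext hij), fun i => ⟨(qv i).2, h1 i⟩,
    h2⟩, ?_⟩
  exact hD r qv hinj (fun i hi => (h1 i).1 (hSmin hi)) hsel

end Seam

/-! ### `GlobalCount` from the GLOBAL SPEC -/

section Global

open Fermat.Agent.S56.helper3550 Fermat.Agent.S56.helper2906

variable {p : ℕ} [Fact p.Prime]

/-- The Taylor–Wiles clauses of the frozen statement at one prime `q` and level `n`: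
`q ≡ 1 mod p ^ (n + 1)` and every Frobenius at `q` has two distinct eigenvalues in `k`. -/
def GoodTW (𝒪 : Type) [CommRing 𝒪] [IsLocalRing 𝒪] (p : ℕ)
    (ρbar : ResidualGaloisRep (ResidueField 𝒪)) (n : ℕ) (q : Nat.Primes) : Prop :=
  p ^ (n + 1) ∣ (q : ℕ) - 1 ∧
  ∀ P : ValuationSubring (AlgebraicClosure ℚ), P.LiesOverPrime (q : ℕ) →
    ∀ φ : AlgebraicClosure ℚ ≃ₐ[ℚ] AlgebraicClosure ℚ, P.IsFrobeniusAt φ (q : ℕ) →
      ∃ α β : ResidueField 𝒪, α ≠ β ∧ LinearMap.charpoly (ρbar.ρ φ) = (X - C α) * (X - C β)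

/-- **`GlobalCount` from the GLOBAL SPEC** (`helper3550.selmer_count`). -/
theorem globalCount_of_selmer_count (hFr : S55Inputs) (hTate : Stmt_TateLarge)
    (hUnr : Stmt_UnrBound) (hp2 : p ≠ 2) {𝒪 : Type} [CommRing 𝒪] [IsLocalRing 𝒪]
    (ρbar : ResidualGaloisRep (ResidueField 𝒪)) (S : Finset ℕ)
    (Sg : Finset Nat.Primes) (hpS : pPrime p ∈ Sg)
    (M : Rep.{0, 0, 0} (ZMod p) (AlgebraicClosure ℚ ≃ₐ[ℚ] AlgebraicClosure ℚ))
    (hM : IsSMod Sg M) (L : ∀ q : Nat.Primes, Submodule (ZMod p) (LocH1 M q)) (f : ℕ)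
    (h0M : h0 M = 0) (hminus : f ≤ dimMinus (dualT M))
    (hlocS : ∑ q ∈ Sg, finrank (ZMod p) ↥(L q) ≤ pi0 Sg M + f)
    (hGood : ∀ n q, GoodTW 𝒪 p ρbar n q → q ∉ Sg →
      finrank (ZMod p) (LocH1 M q) ≤
        finrank (ZMod p) (Representation.invariants (Rep.res (primeLocalToGlobal q) M).ρ) + f)
    (hKill : KillSupply Sg (dualT M) (GoodTW 𝒪 p ρbar)) :
    GlobalCount 𝒪 p ρbar S Sg M L f := by
  have hlocS' : ∑ q ∈ Sg, finrank (ZMod p) ↥(if q ∈ Sg then L q else ⊤) ≤ pi0 Sg M + f := by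
    rw [Finset.sum_congr rfl (fun q hq => by rw [if_pos hq])]
    exact hlocS
  obtain ⟨r, hr⟩ := selmer_count hFr hTate hUnr hp2 Sg hpS M hM
    (fun q => if q ∈ Sg then L q else ⊤) f h0M hminus hlocS' (GoodTW 𝒪 p ρbar) hGood hKill
    (primesOf S)
  refine ⟨r, fun n => ?_⟩
  obtain ⟨qv, hinj, h1, hsel⟩ := hr n
  exact ⟨qv, hinj, fun i => ⟨fun h => (h1 i).1 (mem_primesOf.2 h), (h1 i).2.2.1⟩,
    fun i => (h1 i).2.2.2, hsel⟩

end Global

end Fermat.Agent.S56.helper2229
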