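/-
S56, leaf LOC-UNRBOUND (helper3915): the unramified local condition at a prime `t` where the
module is unramified has dimension at most `h⁰(ℚ_t, M)`.

`Qb := AlgebraicClosure ℚ`, `GQ := Qb ≃ₐ[ℚ] Qb`, `G_t := primeLocalGaloisGroup t`,
`r := primeLocalToGlobal t : G_t →* GQ`, `A := primeLocalPlace t`, `I := A.inertiaSubgroupIn ℚ`.

* `finrank_le_invariants_of_frobenius` : abstract core (Mathlib only).  A space `Z` of 1-cocycles
  of a finite-dimensional representation whose members are determined by their value at one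
  element `φ`, which contains the coboundaries, and such that `φ`-invariants are invariants:
  every subspace of `H¹` made of classes of cocycles of `Z` has dimension `≤ dim M^G`.
* `unrCocycles M t` : level cocycles `G_t → M` vanishing on `r ⁻¹ I`.
* `exists_frobenius_decomposition` : `G_t = ⟨φ⟩ · r⁻¹(I) · r⁻¹(Gal(ℚ̄/E))` for every finite level
  `E` and every lift `φ` of a Frobenius element at `A`.
* `finrank_unr_le` / `finrank_unr_le_locH1` : the bound for ANY subspace `U` of
  `H¹(G_t, M)` (resp. of the S55 carrier `helper15.LocH1 M t`) all of whose elements are classes of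
  level cocycles vanishing on inertia, for `M` finite-dimensional, smooth and unramified at `t`.
* `unrCond M t` and `finrank_unrCond_le` : the subspace of `LocH1 M t` of all such classes and the
  bound `finrank (unrCond M t) ≤ finrank (invariants (Rep.res (primeLocalToGlobal t) M).ρ)`.
-/
import Mathlib
import Fermat.Prelude.Def_GroupCohomology_ContinuousUnramified
import Fermat.Agent.Lib.helper54_Frobenius
import Fermat.Agent.S55.helper4145_Decomp
import Fermat.Agent.S55.helper15_StepC
import Fermat.Agent.S56.helper6024_TameInertia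

set_option autoImplicit false

namespace Fermat.Agent.S56.helper3915

open Module groupCohomology

/-! ### Abstract core -/

section Core

variable {k G : Type} [Field k] [Group G] (M : Rep.{0, 0, 0} k G)

/-- A 1-cocycle vanishing at `φ` vanishes at all powers of `φ`. -/
theorem cocycle_pow_eq_zero {c : G → M} (hc : c ∈ cocycles₁ M) (φ : G) (h : c φ = 0) (n : ℕ) :
    c (φ ^ n) = 0 := by
  induction n with
  | zero =>
    rw [pow_zero]
    exact cocycles₁_map_one (⟨c, hc⟩ : cocycles₁ M)
  | succ n ih =>
    rw [pow_succ, (mem_cocycles₁_iff c).1 hc, h, map_zero, ih, add_zero]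

/-- **Abstract unramified bound.**  Let `Z` be a space of 1-cocycles of a finite-dimensional
representation `M` such that a cocycle in `Z` is determined by its value at one element `φ`,
`Z` contains all coboundaries, and `φ`-invariant vectors are invariant.  Then every subspace of
`H¹` consisting of classes of cocycles in `Z` has dimension at most `dim M^G`. -/
theorem finrank_le_invariants_of_frobenius [FiniteDimensional k M]
    (φ : G) (Z : Submodule k (G → M)) (hZ : Z ≤ cocycles₁ M)
    (hdet : ∀ c ∈ Z, c φ = 0 → c = 0)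
    (hcob : ∀ m : M, (fun g => M.ρ g m - m) ∈ Z)
    (hinv : ∀ m : M, M.ρ φ m = m → ∀ g, M.ρ g m = m)
    (U : Submodule k (H1 M))
    (hU : ∀ x ∈ U, ∃ c : cocycles₁ M, (c : G → M) ∈ Z ∧ (H1π M).hom c = x) :
    finrank k U ≤ finrank k (Representation.invariants M.ρ) := by
  classical
  -- evaluation at `φ`
  let e : Z →ₗ[k] M := (LinearMap.proj φ : (G → M) →ₗ[k] M) ∘ₗ Z.subtype
  have he_apply : ∀ c : Z, e c = (c : G → M) φ := fun c => rfl
  have he : Function.Injective e :=
    (injective_iff_map_eq_zero e).2 fun c hc =>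
      Subtype.ext (hdet c.1 c.2 (by rw [← he_apply]; exact hc))
  have hZfin : FiniteDimensional k Z := FiniteDimensional.of_injective e he
  let T : M →ₗ[k] M := M.ρ φ - LinearMap.id
  let R : Submodule k M := LinearMap.range T
  let f : Z →ₗ[k] M ⧸ R := R.mkQ ∘ₗ e
  let g : Z →ₗ[k] H1 M := (H1π M).hom ∘ₗ Submodule.inclusion hZ
  have hker : LinearMap.ker f ≤ LinearMap.ker g := by
    intro c hc
    rw [LinearMap.mem_ker] at hc ⊢
    have h1 : e c ∈ R := by
      have : R.mkQ (e c) = 0 := hc
      rwa [Submodule.mkQ_apply, Submodule.Quotient.mk_eq_zero] at this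
    obtain ⟨m, hm⟩ := h1
    have hc'Z := hcob m
    have h2 : (c : G → M) - (fun g => M.ρ g m - m) = 0 := by
      refine hdet _ (Z.sub_mem c.2 hc'Z) ?_
      rw [Pi.sub_apply, ← he_apply, ← hm]
      simp [T]
    have h4 : (c : G → M) = fun g => M.ρ g m - m := sub_eq_zero.mp h2
    show (H1π M).hom (Submodule.inclusion hZ c) = 0
    rw [H1π_eq_zero_iff]
    refine ⟨m, ?_⟩
    funext x
    rw [d₀₁_hom_apply]
    exact (congrFun h4 x).symm
  have hUle : U ≤ LinearMap.range g := by
    intro x hx
    obtain ⟨c, hcZ, hcx⟩ := hU x hx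
    refine ⟨⟨c, hcZ⟩, ?_⟩
    rw [← hcx]
    rfl
  have h1 : finrank k U ≤ finrank k (LinearMap.range g) := Submodule.finrank_mono hUle
  have h2 := LinearMap.finrank_range_add_finrank_ker g
  have h3 := LinearMap.finrank_range_add_finrank_ker f
  have h4 : finrank k (LinearMap.ker f) ≤ finrank k (LinearMap.ker g) := Submodule.finrank_mono hker
  have h5 : finrank k (LinearMap.range f) ≤ finrank k (M ⧸ R) := Submodule.finrank_le _
  have h6 := Submodule.finrank_quotient_add_finrank R
  have h7 := LinearMap.finrank_range_add_finrank_ker T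
  have h8 : LinearMap.ker T ≤ Representation.invariants M.ρ := by
    intro m hm
    rw [LinearMap.mem_ker] at hm
    have h9 : M.ρ φ m = m := by
      have : M.ρ φ m - m = 0 := by simpa [T] using hm
      exact sub_eq_zero.mp this
    exact (Representation.mem_invariants _ _).2 (hinv m h9)
  have h10 : finrank k (LinearMap.ker T) ≤ finrank k (Representation.invariants M.ρ) :=
    Submodule.finrank_mono h8
  have h11 : finrank k R = finrank k (LinearMap.range T) := rfl
  omega

end Core

/-! ### The frozen carriers -/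

section Instance

open ExtCitation

local notation "Qb" => AlgebraicClosure ℚ
local notation "GQ" => (AlgebraicClosure ℚ ≃ₐ[ℚ] AlgebraicClosure ℚ)

/-- The inertia group (as a subgroup of the whole Galois group) lies in the decomposition group. -/
theorem mem_decompositionSubgroup_of_mem_inertiaSubgroupIn {A : ValuationSubring Qb} {σ : GQ}
    (h : σ ∈ A.inertiaSubgroupIn ℚ) : σ ∈ A.decompositionSubgroup ℚ := by
  obtain ⟨y, -, rfl⟩ := Subgroup.mem_map.1 h
  exact y.2

/-- **`D = ⟨Frob⟩ · I` modulo every finite level, on the local Galois group.**  For every lift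
`φG` of a Frobenius element at the frozen place `primeLocalPlace t`, every finite level `E` and
every `g` in the local Galois group at `t`: `g = φG ^ n * i * s` with `i` mapping into the inertia
group and `s` mapping into `Gal(ℚ̄/E)`. -/
theorem exists_frobenius_decomposition (t : Nat.Primes) (φG : primeLocalGaloisGroup t)
    (hφ : (primeLocalPlace t).IsFrobeniusAt (primeLocalToGlobal t φG) (t : ℕ))
    (E : IntermediateField ℚ Qb) [FiniteDimensional ℚ E] (g : primeLocalGaloisGroup t) :
    ∃ (n : ℕ) (i s : primeLocalGaloisGroup t),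
      primeLocalToGlobal t i ∈ (primeLocalPlace t).inertiaSubgroupIn ℚ ∧
      primeLocalToGlobal t s ∈ E.fixingSubgroup ∧ g = φG ^ n * i * s := by
  have hq : (t : ℕ).Prime := t.2
  have hAq : (primeLocalPlace t).LiesOverPrime (t : ℕ) :=
    Fermat.Agent.S55.helper4145.primeLocalPlace_liesOverPrime t
  have hgD : primeLocalToGlobal t g ∈ (primeLocalPlace t).decompositionSubgroup ℚ := by
    rw [← Fermat.Agent.S55.helper4145.primeLocalToGlobal_range t]
    exact ⟨g, rfl⟩
  obtain ⟨n, σ, hσ, hfix⟩ := Fermat.Agent.S56.helper6024.decomposition_elt hq (primeLocalPlace t)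
    hAq E (primeLocalToGlobal t φG) hφ (primeLocalToGlobal t g) hgD
  obtain ⟨i, hi⟩ := Fermat.Agent.S55.helper4145.exists_primeLocalToGlobal_eq t
    (mem_decompositionSubgroup_of_mem_inertiaSubgroupIn hσ)
  refine ⟨n, i, (φG ^ n * i)⁻¹ * g, by rw [hi]; exact hσ, ?_, by group⟩
  rw [IntermediateField.mem_fixingSubgroup_iff]
  intro x hx
  rw [map_mul, map_inv, map_mul, map_pow, hi, AlgEquiv.mul_apply, hfix x hx, ← AlgEquiv.mul_apply,
    inv_mul_cancel, AlgEquiv.one_apply]

variable {k : Type} [Field k] (M : Rep.{0, 0, 0} k GQ) (t : Nat.Primes)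

/-- The space of *unramified level cocycles* of the local Galois group at `t` with values in `M`:
1-cocycles which are level-constant and vanish on the preimage of the inertia group. -/
def unrCocycles :
    Submodule k (primeLocalGaloisGroup t → Rep.res (primeLocalToGlobal t) M) where
  carrier := {c | c ∈ cocycles₁ (Rep.res (primeLocalToGlobal t) M) ∧
    IsLevelConstant₁ (primeLocalToGlobal t) c ∧
    ∀ τ, primeLocalToGlobal t τ ∈ (primeLocalPlace t).inertiaSubgroupIn ℚ → c τ = 0}
  add_mem' := by
    rintro a b ⟨ha1, ha2, ha3⟩ ⟨hb1, hb2, hb3⟩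
    refine ⟨Submodule.add_mem _ ha1 hb1, ha2.add hb2, fun τ hτ => ?_⟩
    rw [Pi.add_apply, ha3 τ hτ, hb3 τ hτ, add_zero]
  zero_mem' := ⟨Submodule.zero_mem _, ⟨⊥, inferInstance, fun _ _ _ => rfl⟩, fun _ _ => rfl⟩
  smul_mem' := by
    rintro a c ⟨hc1, ⟨F, hF, hc2⟩, hc3⟩
    refine ⟨Submodule.smul_mem _ a hc1, ⟨F, hF, fun g s hs => ?_⟩, fun τ hτ => ?_⟩
    · rw [Pi.smul_apply, Pi.smul_apply, hc2 g s hs]
    · rw [Pi.smul_apply, hc3 τ hτ, smul_zero]

theorem mem_unrCocycles_iff (c : primeLocalGaloisGroup t → Rep.res (primeLocalToGlobal t) M) :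
    c ∈ unrCocycles M t ↔ c ∈ cocycles₁ (Rep.res (primeLocalToGlobal t) M) ∧
      IsLevelConstant₁ (primeLocalToGlobal t) c ∧
      ∀ τ, primeLocalToGlobal t τ ∈ (primeLocalPlace t).inertiaSubgroupIn ℚ → c τ = 0 :=
  Iff.rfl

/-- **The unramified bound on `H¹(G_t, M)`.**  `M` finite-dimensional, smooth, unramified at the
frozen place over `t`.  Every subspace `U` of `H¹(G_t, M)` all of whose elements are classes of
level cocycles vanishing on inertia has dimension at most `h⁰(ℚ_t, M)`. -/
theorem finrank_unr_le [FiniteDimensional k M]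
    (hsm : ∀ m : M, ∃ F : IntermediateField ℚ Qb, FiniteDimensional ℚ F ∧
      ∀ s ∈ F.fixingSubgroup, M.ρ s m = m)
    (hunr : ∀ g ∈ (primeLocalPlace t).inertiaSubgroupIn ℚ, M.ρ g = 1)
    (U : Submodule k (H1 (Rep.res (primeLocalToGlobal t) M)))
    (hU : ∀ x ∈ U, ∃ c : cocycles₁ (Rep.res (primeLocalToGlobal t) M),
      IsLevelConstant₁ (primeLocalToGlobal t) c ∧
      (∀ τ, primeLocalToGlobal t τ ∈ (primeLocalPlace t).inertiaSubgroupIn ℚ → c τ = 0) ∧
      (H1π (Rep.res (primeLocalToGlobal t) M)).hom c = x) :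
    finrank k U ≤
      finrank k (Representation.invariants (Rep.res (primeLocalToGlobal t) M).ρ) := by
  classical
  have hq : (t : ℕ).Prime := t.2
  have hAq : (primeLocalPlace t).LiesOverPrime (t : ℕ) :=
    Fermat.Agent.S55.helper4145.primeLocalPlace_liesOverPrime t
  obtain ⟨φ, hφ⟩ := Fermat.Agent.Lib.helper54.exists_isFrobeniusAt hq (primeLocalPlace t) hAq
  obtain ⟨φG, hφG⟩ := Fermat.Agent.S55.helper4145.exists_primeLocalToGlobal_eq t
    hφ.mem_decompositionSubgroup
  rw [← hφG] at hφ
  have hfd : FiniteDimensional k (Rep.res (primeLocalToGlobal t) M) := ‹FiniteDimensional k M›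
  have hρ : ∀ (g : primeLocalGaloisGroup t) (m : Rep.res (primeLocalToGlobal t) M),
      (Rep.res (primeLocalToGlobal t) M).ρ g m = M.ρ (primeLocalToGlobal t g) m := fun _ _ => rfl
  refine finrank_le_invariants_of_frobenius (Rep.res (primeLocalToGlobal t) M) φG
    (unrCocycles M t) (fun c hc => hc.1) ?_ ?_ ?_ U ?_
  · -- a cocycle of `Z` is determined by its value at the Frobenius lift
    rintro c ⟨hc1, ⟨F, hF, hc2⟩, hc3⟩ h0
    funext g
    obtain ⟨n, i, s, hi, hs, rfl⟩ := exists_frobenius_decomposition t φG hφ F g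
    rw [hc2 _ s hs, (mem_cocycles₁_iff c).1 hc1, hc3 i hi, map_zero, zero_add]
    exact cocycle_pow_eq_zero _ hc1 φG h0 n
  · -- coboundaries are unramified level cocycles
    intro m
    refine ⟨?_, ?_, ?_⟩
    · rw [mem_cocycles₁_iff]
      intro g h
      simp only [map_mul, Module.End.mul_apply, map_sub]
      abel
    · obtain ⟨F, hF, hFm⟩ := hsm m
      refine ⟨F, hF, fun g s hs => ?_⟩
      show (Rep.res (primeLocalToGlobal t) M).ρ (g * s) m - m
        = (Rep.res (primeLocalToGlobal t) M).ρ g m - m
      have h1 : (Rep.res (primeLocalToGlobal t) M).ρ s m = m := by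
        rw [hρ]; exact hFm _ hs
      rw [map_mul, Module.End.mul_apply, h1]
    · intro τ hτ
      show (Rep.res (primeLocalToGlobal t) M).ρ τ m - m = 0
      rw [hρ, hunr _ hτ, Module.End.one_apply, sub_self]
  · -- Frobenius-invariants are invariants
    intro m hm g
    obtain ⟨F, hF, hFm⟩ := hsm m
    obtain ⟨n, i, s, hi, hs, rfl⟩ := exists_frobenius_decomposition t φG hφ F g
    have h1 : (Rep.res (primeLocalToGlobal t) M).ρ s m = m := by
      rw [hρ]; exact hFm _ hs
    have h2 : (Rep.res (primeLocalToGlobal t) M).ρ i m = m := by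
      rw [hρ, hunr _ hi, Module.End.one_apply]
    have h3 : ∀ n : ℕ, ((Rep.res (primeLocalToGlobal t) M).ρ φG ^ n) m = m := by
      intro n
      induction n with
      | zero => rw [pow_zero, Module.End.one_apply]
      | succ n ih => rw [pow_succ, Module.End.mul_apply, hm, ih]
    rw [map_mul, map_mul, Module.End.mul_apply, Module.End.mul_apply, h1, h2, map_pow, h3]
  · intro x hx
    obtain ⟨c, h1, h2, h3⟩ := hU x hx
    exact ⟨c, ⟨c.2, h1, h2⟩, h3⟩

/-- **The unramified bound on the S55 carrier `LocH1 M t`.**  Same as `finrank_unr_le` for a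
subspace of `helper15.LocH1 M t` (continuous classes). -/
theorem finrank_unr_le_locH1 [FiniteDimensional k M]
    (hsm : ∀ m : M, ∃ F : IntermediateField ℚ Qb, FiniteDimensional ℚ F ∧
      ∀ s ∈ F.fixingSubgroup, M.ρ s m = m)
    (hunr : ∀ g ∈ (primeLocalPlace t).inertiaSubgroupIn ℚ, M.ρ g = 1)
    (U : Submodule k (Fermat.Agent.S55.helper15.LocH1 M t))
    (hU : ∀ x ∈ U, ∃ c : cocycles₁ (Rep.res (primeLocalToGlobal t) M),
      IsLevelConstant₁ (primeLocalToGlobal t) c ∧
      (∀ τ, primeLocalToGlobal t τ ∈ (primeLocalPlace t).inertiaSubgroupIn ℚ → c τ = 0) ∧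
      (H1π (Rep.res (primeLocalToGlobal t) M)).hom c = (x : H1 (Rep.res (primeLocalToGlobal t) M))) :
    finrank k U ≤
      finrank k (Representation.invariants (Rep.res (primeLocalToGlobal t) M).ρ) := by
  have hinj : Function.Injective
      (continuousH1 (primeLocalToGlobal t) (Rep.res (primeLocalToGlobal t) M)).subtype :=
    Submodule.injective_subtype _
  have h1 := (Submodule.equivMapOfInjective _ hinj U).finrank_eq
  rw [h1]
  refine finrank_unr_le M t hsm hunr _ ?_
  rintro _ ⟨x, hx, rfl⟩
  exact hU x hx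

/-- The unramified local condition at `t` on the S55 carrier: classes in `LocH1 M t` of level
cocycles vanishing on the inertia group (text of S56 chat #138, GLOBAL-SPEC). -/
noncomputable def unrCond : Submodule k (Fermat.Agent.S55.helper15.LocH1 M t) :=
  ((unrCocycles M t).comap (cocycles₁ (Rep.res (primeLocalToGlobal t) M)).subtype).map
      (H1π (Rep.res (primeLocalToGlobal t) M)).hom
    |>.comap (continuousH1 (primeLocalToGlobal t) (Rep.res (primeLocalToGlobal t) M)).subtype

theorem mem_unrCond_iff (x : Fermat.Agent.S55.helper15.LocH1 M t) :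
    x ∈ unrCond M t ↔ ∃ c : cocycles₁ (Rep.res (primeLocalToGlobal t) M),
      IsLevelConstant₁ (primeLocalToGlobal t) c ∧
      (∀ τ, primeLocalToGlobal t τ ∈ (primeLocalPlace t).inertiaSubgroupIn ℚ → c τ = 0) ∧
      (H1π (Rep.res (primeLocalToGlobal t) M)).hom c
        = (x : H1 (Rep.res (primeLocalToGlobal t) M)) := by
  constructor
  · rintro ⟨c, hc, hcx⟩
    exact ⟨c, hc.2.1, hc.2.2, hcx⟩
  · rintro ⟨c, h1, h2, h3⟩
    exact ⟨c, ⟨c.2, h1, h2⟩, h3⟩

/-- **`Stmt_UnrBound`.**  For `M` finite-dimensional, smooth and unramified at `t`: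
`finrank (unrCond M t) ≤ finrank (invariants (Rep.res (primeLocalToGlobal t) M).ρ)`. -/
theorem finrank_unrCond_le [FiniteDimensional k M]
    (hsm : ∀ m : M, ∃ F : IntermediateField ℚ Qb, FiniteDimensional ℚ F ∧
      ∀ s ∈ F.fixingSubgroup, M.ρ s m = m)
    (hunr : ∀ A : ValuationSubring Qb, A.LiesOverPrime (t : ℕ) →
      ∀ g ∈ A.inertiaSubgroupIn ℚ, M.ρ g = 1) :
    finrank k (unrCond M t) ≤
      finrank k (Representation.invariants (Rep.res (primeLocalToGlobal t) M).ρ) :=
  finrank_unr_le_locH1 M t hsm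
    (hunr _ (Fermat.Agent.S55.helper4145.primeLocalPlace_liesOverPrime t)) _
    (fun x hx => (mem_unrCond_iff M t x).1 hx)

end Instance

end Fermat.Agent.S56.helper3915
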