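/-
S56 (Taylor–Wiles primes), GLOBAL COUNT, closed form.  Author: helper3550.

S55 is closed on main (`helper4075_Closed`) and the unramified bound is proved
(`helper3915_UnrBound`), so the Selmer count `helper3550.selmer_count` of the GLOBAL SPEC only
depends on Tate's inequality and on the supply of Taylor–Wiles primes:

* `s55Inputs`          : `S55Inputs` (unconditional).
* `stmt_UnrBound`      : `Stmt_UnrBound` (unconditional; from `helper3915.finrank_unr_le_locH1`).
* `TWGood 𝒪 p ρbar n q` : the Taylor–Wiles clauses of the frozen statement S56 at the prime `q`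
                          for the level `n`: `p ^ (n + 1) ∣ q - 1` and every Frobenius at `q` has
                          two distinct eigenvalues in `k`.
* `selmer_count_tw`    : the Selmer count for the Taylor–Wiles primes, from `Stmt_TateLarge`,
                          the numerics of `M`, the local bounds and the supply `KillSupply`.
-/
import Mathlib
import Fermat.Prelude.Def_GaloisRep_Residual
import Fermat.Prelude.Def_EllipticCurve_FrobeniusTrace
import Fermat.Agent.S55.helper4075_Closed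
import Fermat.Agent.S56.helper3915_UnrBound
import Fermat.Agent.S56.helper3550_GlobalSpec

set_option autoImplicit false

namespace Fermat.Agent.S56.helper3550

open CategoryTheory Module groupCohomology ExtCitation Polynomial IsLocalRing
open Fermat.Agent.S55.helper2945 Fermat.Agent.S55.helper7860 Fermat.Agent.S55.helper15
open Fermat.Agent.S55.helper2906 Fermat.Agent.S56.helper2906

local notation "Qb" => AlgebraicClosure ℚ
local notation "GQ" => (AlgebraicClosure ℚ ≃ₐ[ℚ] AlgebraicClosure ℚ)

/-- The S55 inputs of the Selmer count (S55 is closed on main). -/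
theorem s55Inputs : S55Inputs where
  fin := Fermat.Agent.S55.helper4075.stmt_Fin
  stepA := Fermat.Agent.S55.helper4075.stmt_A
  stepB := Fermat.Agent.S55.helper4075.stmt_B
  stepC := Fermat.Agent.S55.helper4075.stmt_C
  l2num := Fermat.Agent.S55.helper4075.stmt_L2num
  stepE := Fermat.Agent.S55.helper4075.stmt_E
  recip := Fermat.Agent.S55.helper4075.stmt_R
  localL2 := Fermat.Agent.S55.helper4075.stmt_LocalL2

/-- **The unramified bound** (`helper3915`), for the unramified condition of the GLOBAL SPEC. -/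
theorem stmt_UnrBound : Stmt_UnrBound := by
  intro p _ _ S _ M hM t ht
  have hfin := hM.finite
  refine Fermat.Agent.S56.helper3915.finrank_unr_le_locH1 M t hM.smooth
    (hM.unram t ht _ (Fermat.Agent.S55.helper4145.primeLocalPlace_liesOverPrime t))
    (unrCond M t) ?_
  intro x hx
  obtain ⟨c, hc, rfl⟩ := (mem_unrCond M t x).1 hx
  exact ⟨c.1, c.2, hc, rfl⟩

/-- **The Taylor–Wiles clauses** of the frozen statement S56 at the prime `q` for the level `n`:
`q ≡ 1 mod p ^ (n + 1)` and every Frobenius at every place over `q` has two distinct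
eigenvalues in the residue field. -/
def TWGood (𝒪 : Type) [CommRing 𝒪] [IsLocalRing 𝒪] (p : ℕ)
    (ρbar : ResidualGaloisRep (ResidueField 𝒪)) (n : ℕ) (q : Nat.Primes) : Prop :=
  p ^ (n + 1) ∣ (q : ℕ) - 1 ∧
    ∀ P : ValuationSubring Qb, P.LiesOverPrime (q : ℕ) →
      ∀ φ : GQ, P.IsFrobeniusAt φ (q : ℕ) →
        ∃ α β : ResidueField 𝒪, α ≠ β ∧ LinearMap.charpoly (ρbar.ρ φ) = (X - C α) * (X - C β)

/-- **Selmer count for the Taylor–Wiles primes.**  Let `M` be an `S₀`-module with `h⁰(M) = 0`
and `f ≤ dim (M')^{c=-1}`, `𝓛` a family of local conditions with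
`∑_{q ∈ S₀} dim 𝓛_q ≤ π₀(M) + f`, such that `dim H¹(ℚ_q, M) ≤ h⁰(ℚ_q, M) + f` at the
Taylor–Wiles primes, and such that Taylor–Wiles primes are supplied for `M'`.  Then there is `r`
such that for every `n` there are `r` distinct Taylor–Wiles primes `qv i` of level `n` outside
`Tav` with `dim Sel_{S₀ ∪ Q}(M, 𝓛) ≤ f * r`. -/
theorem selmer_count_tw {𝒪 : Type} [CommRing 𝒪] [IsLocalRing 𝒪] {p : ℕ} [Fact p.Prime]
    (hTate : Stmt_TateLarge) (hp2 : p ≠ 2) (ρbar : ResidualGaloisRep (ResidueField 𝒪))
    (S₀ : Finset Nat.Primes) (hpS : pPrime p ∈ S₀)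
    (M : Rep.{0, 0, 0} (ZMod p) GQ) (hM : IsSMod S₀ M)
    (𝓛 : ∀ q : Nat.Primes, Submodule (ZMod p) (LocH1 M q))
    (f : ℕ) (h0M : h0 M = 0) (hminus : f ≤ dimMinus (dualT M))
    (hlocS : ∑ q ∈ S₀, finrank (ZMod p) ↥(𝓛 q) ≤ pi0 S₀ M + f)
    (hGood : ∀ n q, TWGood 𝒪 p ρbar n q → q ∉ S₀ →
      finrank (ZMod p) (LocH1 M q) ≤
        finrank (ZMod p) (Representation.invariants (Rep.res (primeLocalToGlobal q) M).ρ) + f)
    (hKill : KillSupply S₀ (dualT M) (TWGood 𝒪 p ρbar)) (Tav : Finset Nat.Primes) :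
    ∃ r : ℕ, ∀ n : ℕ, ∃ qv : Fin r → Nat.Primes, Function.Injective qv ∧
      (∀ i, qv i ∉ Tav ∧ qv i ∉ S₀ ∧ TWGood 𝒪 p ρbar n (qv i)) ∧
      finrank (ZMod p) ↥(selmer (S₀ ∪ Finset.univ.image qv) M
        (Submodule.pi Set.univ fun q => 𝓛 q.1)) ≤ f * r :=
  selmer_count s55Inputs hTate stmt_UnrBound hp2 S₀ hpS M hM 𝓛 f h0M hminus hlocS
    (TWGood 𝒪 p ρbar) hGood hKill Tav

end Fermat.Agent.S56.helper3550
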