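/-
S56 (Taylor–Wiles primes), GLOBAL side of the COUNT-ASM seam.  Author: helper3550.

`globalCount_of` : the `Prop` `helper2229.GlobalCount` (the GLOBAL input of
`helper2229.countGoal_of_seam`) from Tate's inequality `Stmt_TateLarge`, the numerics of `M`,
the local bounds and the supply `KillSupply` of Taylor–Wiles primes (`TWGood`).
-/
import Mathlib
import Fermat.Agent.S56.helper2229_CountAsm
import Fermat.Agent.S56.helper3550_GlobalCount

set_option autoImplicit false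

namespace Fermat.Agent.S56.helper3550

open CategoryTheory Module groupCohomology ExtCitation Polynomial IsLocalRing
open Fermat.Agent.S55.helper2945 Fermat.Agent.S55.helper7860 Fermat.Agent.S55.helper15
open Fermat.Agent.S55.helper2906 Fermat.Agent.S56.helper2906

local notation "GQ" => (AlgebraicClosure ℚ ≃ₐ[ℚ] AlgebraicClosure ℚ)

/-- **The GLOBAL side of the seam.**  For an `Sg`-module `M` with `h⁰(M) = 0`,
`f ≤ dim (M')^{c=-1}`, local conditions `L` with `∑_{q ∈ Sg} dim L_q ≤ π₀(M) + f`, the local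
bound `dim H¹(ℚ_q, M) ≤ h⁰(ℚ_q, M) + f` at the Taylor–Wiles primes and a supply of Taylor–Wiles
primes for `M'`: the count `helper2229.GlobalCount`. -/
theorem globalCount_of {𝒪 : Type} [CommRing 𝒪] [IsLocalRing 𝒪] {p : ℕ} [Fact p.Prime]
    (hTate : Stmt_TateLarge) (hp2 : p ≠ 2) (ρbar : ResidualGaloisRep (ResidueField 𝒪))
    (S : Finset ℕ) (Sg : Finset Nat.Primes) (hpS : pPrime p ∈ Sg)
    (M : Rep.{0, 0, 0} (ZMod p) GQ) (hM : IsSMod Sg M)
    (L : ∀ q : Nat.Primes, Submodule (ZMod p) (LocH1 M q))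
    (f : ℕ) (h0M : h0 M = 0) (hminus : f ≤ dimMinus (dualT M))
    (hlocS : ∑ q ∈ Sg, finrank (ZMod p) ↥(L q) ≤ pi0 Sg M + f)
    (hGood : ∀ n q, TWGood 𝒪 p ρbar n q → q ∉ Sg →
      finrank (ZMod p) (LocH1 M q) ≤
        finrank (ZMod p) (Representation.invariants (Rep.res (primeLocalToGlobal q) M).ρ) + f)
    (hKill : KillSupply Sg (dualT M) (TWGood 𝒪 p ρbar)) :
    Fermat.Agent.S56.helper2229.GlobalCount 𝒪 p ρbar S Sg M L f := by
  have hloc' : ∑ q ∈ Sg, finrank (ZMod p) ↥(if q ∈ Sg then L q else ⊤) ≤ pi0 Sg M + f := by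
    have h1 : ∑ q ∈ Sg, finrank (ZMod p) ↥(if q ∈ Sg then L q else ⊤)
        = ∑ q ∈ Sg, finrank (ZMod p) ↥(L q) :=
      Finset.sum_congr rfl (fun q hq => by rw [if_pos hq])
    rw [h1]
    exact hlocS
  obtain ⟨r, hr⟩ := selmer_count_tw hTate hp2 ρbar Sg hpS M hM
    (fun q => if q ∈ Sg then L q else ⊤) f h0M hminus hloc' hGood hKill
    (Fermat.Agent.S56.helper2229.primesOf S)
  refine ⟨r, fun n => ?_⟩
  obtain ⟨qv, hinj, hqv, hsel⟩ := hr n
  exact ⟨qv, hinj,
    fun i => ⟨fun h => (hqv i).1 (Fermat.Agent.S56.helper2229.mem_primesOf.2 h),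
      (hqv i).2.2.1⟩,
    fun i => (hqv i).2.2.2, hsel⟩

end Fermat.Agent.S56.helper3550
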