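import Mathlib

/-!
# `H¹(G, ad⁰ ⊗ det) = 0` for irreducible subgroups of `GL₂(k)`, without Dickson (helper2852)

Let `k` be a field of odd characteristic `p`, `G` a finite group and `R : G →* M₂(k)` an injective
representation without invariant line.  Let `M` be the trace-zero `2 × 2` matrices with the twisted
conjugation action `g • m = R g * m * adjugate (R g)` (this is `ad⁰ ⊗ det ≅ Sym²` of the standard
representation).  Then every `1`-cocycle `c : G → M` is a coboundary, provided that for `p = 5`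
some `g` has `det (R g) ∉ {1, -1}`.

The proof uses no classification of subgroups of `GL₂`: only the normal form of a cocycle on a
Sylow `p`-subgroup `P` (upper unitriangular in a suitable basis), one opposite unipotent element
`h₁`, and the relations "`g ^ s * h₁` has order prime to `p`", which give a cubic polynomial
identity in `s` with at least `p - 2` roots.
-/

set_option autoImplicit false

namespace Fermat.Agent.S56.helper2852

open Matrix

variable {k : Type*} [Field k]

/-- The twisted conjugation action `A • m = A * m * adjugate A` on `2 × 2` matrices. -/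
def act (A m : Matrix (Fin 2) (Fin 2) k) : Matrix (Fin 2) (Fin 2) k := A * m * A.adjugate

/-- Upper unitriangular matrix. -/
def uMat (x : k) : Matrix (Fin 2) (Fin 2) k := !![1, x; 0, 1]

/-- Lower unitriangular matrix. -/
def lMat (y : k) : Matrix (Fin 2) (Fin 2) k := !![1, 0; y, 1]

theorem act_one (m : Matrix (Fin 2) (Fin 2) k) : act 1 m = m := by
  simp [act]

theorem act_mul (A B m : Matrix (Fin 2) (Fin 2) k) : act (A * B) m = act A (act B m) := by
  simp only [act, Matrix.adjugate_mul_distrib, Matrix.mul_assoc]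

theorem act_add (A m n : Matrix (Fin 2) (Fin 2) k) : act A (m + n) = act A m + act A n := by
  simp [act, Matrix.mul_add, Matrix.add_mul]

theorem act_sub (A m n : Matrix (Fin 2) (Fin 2) k) : act A (m - n) = act A m - act A n := by
  simp [act, Matrix.mul_sub, Matrix.sub_mul]

theorem act_zero (A : Matrix (Fin 2) (Fin 2) k) : act A 0 = 0 := by
  simp [act]

theorem act_smul (A : Matrix (Fin 2) (Fin 2) k) (a : k) (m : Matrix (Fin 2) (Fin 2) k) :
    act A (a • m) = a • act A m := by
  simp [act]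

theorem act_sum {ι : Type*} (s : Finset ι) (A : Matrix (Fin 2) (Fin 2) k)
    (f : ι → Matrix (Fin 2) (Fin 2) k) : act A (∑ i ∈ s, f i) = ∑ i ∈ s, act A (f i) := by
  simp [act, Finset.mul_sum, Finset.sum_mul]

theorem trace_act (A m : Matrix (Fin 2) (Fin 2) k) : (act A m).trace = A.det * m.trace := by
  unfold act
  rw [Matrix.trace_mul_comm, ← Matrix.mul_assoc, Matrix.adjugate_mul, Matrix.smul_mul,
    Matrix.one_mul, Matrix.trace_smul, smul_eq_mul]

theorem uMat_mul (x y : k) : uMat x * uMat y = uMat (x + y) := by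
  ext i j; fin_cases i <;> fin_cases j <;> simp [uMat, Matrix.mul_apply, Fin.sum_univ_two, add_comm]

theorem uMat_zero : uMat (0 : k) = 1 := by
  ext i j; fin_cases i <;> fin_cases j <;> simp [uMat]

theorem uMat_injective : Function.Injective (uMat : k → Matrix (Fin 2) (Fin 2) k) := by
  intro x y h
  have := congrFun (congrFun h 0) 1
  simpa [uMat] using this

theorem lMat_injective : Function.Injective (lMat : k → Matrix (Fin 2) (Fin 2) k) := by
  intro x y h
  have := congrFun (congrFun h 1) 0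
  simpa [lMat] using this

theorem det_uMat (x : k) : (uMat x).det = 1 := by
  simp [uMat, Matrix.det_fin_two]

theorem det_lMat (y : k) : (lMat y).det = 1 := by
  simp [lMat, Matrix.det_fin_two]

/-- Entries of `act (uMat t) m`. -/
theorem act_uMat (t : k) (m : Matrix (Fin 2) (Fin 2) k) :
    act (uMat t) m = !![m 0 0 + t * m 1 0, m 0 1 + t * m 1 1 - t * m 0 0 - t ^ 2 * m 1 0;
      m 1 0, m 1 1 - t * m 1 0] := by
  obtain ⟨a, b, c, d, rfl⟩ : ∃ a b c d, m = !![a, b; c, d] := ⟨_, _, _, _, Matrix.eta_fin_two m⟩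
  simp only [act, uMat, Matrix.adjugate_fin_two_of, Matrix.mul_fin_two, Matrix.of_apply,
    Matrix.cons_val', Matrix.cons_val_zero, Matrix.cons_val_one, Matrix.cons_val_fin_one]
  ext i j
  fin_cases i <;> fin_cases j <;> simp <;> ring

/-- Entries of `act (lMat t) m`. -/
theorem act_lMat (t : k) (m : Matrix (Fin 2) (Fin 2) k) :
    act (lMat t) m = !![m 0 0 - t * m 0 1, m 0 1;
      m 1 0 + t * m 0 0 - t * m 1 1 - t ^ 2 * m 0 1, m 1 1 + t * m 0 1] := by
  obtain ⟨a, b, c, d, rfl⟩ : ∃ a b c d, m = !![a, b; c, d] := ⟨_, _, _, _, Matrix.eta_fin_two m⟩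
  simp only [act, lMat, Matrix.adjugate_fin_two_of, Matrix.mul_fin_two, Matrix.of_apply,
    Matrix.cons_val', Matrix.cons_val_zero, Matrix.cons_val_one, Matrix.cons_val_fin_one]
  ext i j
  fin_cases i <;> fin_cases j <;> simp <;> ring

theorem trace_fin_two' (m : Matrix (Fin 2) (Fin 2) k) : m.trace = m 0 0 + m 1 1 := by
  simp [Matrix.trace, Fin.sum_univ_two]


/-! ### Elementary facts on `2 × 2` matrices -/

/-- Cayley–Hamilton for `2 × 2` matrices. -/
theorem mul_self_fin_two (N : Matrix (Fin 2) (Fin 2) k) :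
    N * N = N.trace • N - N.det • (1 : Matrix (Fin 2) (Fin 2) k) := by
  obtain ⟨a, b, c, d, rfl⟩ : ∃ a b c d, N = !![a, b; c, d] := ⟨_, _, _, _, Matrix.eta_fin_two N⟩
  ext i j
  fin_cases i <;> fin_cases j <;>
    simp [Matrix.mul_apply, Fin.sum_univ_two, Matrix.det_fin_two, Matrix.trace] <;> ring

/-- A nilpotent `2 × 2` matrix has trace `0` and determinant `0`. -/
theorem trace_det_of_pow_eq_zero (N : Matrix (Fin 2) (Fin 2) k) (q : ℕ) (hN : N ^ q = 0) :
    N.trace = 0 ∧ N.det = 0 := by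
  have hdet : N.det = 0 := by
    have h := congrArg Matrix.det hN
    rw [Matrix.det_pow, Matrix.det_zero] at h
    exact eq_zero_of_pow_eq_zero h
  refine ⟨?_, hdet⟩
  have hsq : N * N = N.trace • N := by
    rw [mul_self_fin_two, hdet, zero_smul, sub_zero]
  have hpow : ∀ j : ℕ, N ^ (j + 1) = N.trace ^ j • N := by
    intro j
    induction j with
    | zero => simp
    | succ j ih =>
      rw [pow_succ, ih, Matrix.smul_mul, hsq, smul_smul, pow_succ]
  rcases Nat.eq_zero_or_pos q with hq | hq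
  · subst hq
    rw [pow_zero] at hN
    have := congrFun (congrFun hN 0) 0
    simp at this
  · obtain ⟨j, rfl⟩ : ∃ j, q = j + 1 := ⟨q - 1, by omega⟩
    rw [hpow j] at hN
    rcases smul_eq_zero.mp hN with h | h
    · exact eq_zero_of_pow_eq_zero h
    · rw [h]; simp

/-- Two vectors of `k²` with vanishing determinant, the first one nonzero, are proportional. -/
theorem exists_smul_of_det_eq_zero (a b : Fin 2 → k) (ha : a ≠ 0)
    (h : a 0 * b 1 - a 1 * b 0 = 0) : ∃ μ : k, b = μ • a := by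
  by_cases h0 : a 0 = 0
  · have h1 : a 1 ≠ 0 := by
      intro h1
      apply ha
      ext i
      fin_cases i <;> simp [h0, h1]
    refine ⟨b 1 / a 1, ?_⟩
    ext i
    fin_cases i
    · have hb0 : b 0 = 0 := by
        rw [h0, zero_mul, zero_sub, neg_eq_zero] at h
        exact (mul_eq_zero.mp h).resolve_left h1
      simp [h0, hb0]
    · simp [div_mul_cancel₀ _ h1]
  · refine ⟨b 0 / a 0, ?_⟩
    ext i
    fin_cases i
    · simp [div_mul_cancel₀ _ h0]
    · simp only [Fin.mk_one, Fin.isValue, Pi.smul_apply, smul_eq_mul]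
      field_simp
      linear_combination h

/-! ### Cocycles -/

section Cocycle

variable {G : Type*} [Group G] (R : G →* Matrix (Fin 2) (Fin 2) k)
  (c : G → Matrix (Fin 2) (Fin 2) k)

/-- The cocycle condition for the twisted conjugation action. -/
def IsCocycle : Prop := ∀ g h : G, c (g * h) = c g + act (R g) (c h)

variable {R c}

theorem IsCocycle.map_one (hc : IsCocycle R c) : c 1 = 0 := by
  have h := hc 1 1
  rw [mul_one, _root_.map_one, act_one] at h
  exact left_eq_add.mp h

theorem det_ne_zero (R : G →* Matrix (Fin 2) (Fin 2) k) (g : G) : (R g).det ≠ 0 := by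
  intro h
  have h1 : R g * R g⁻¹ = 1 := by rw [← map_mul, mul_inv_cancel, map_one]
  have h2 := congrArg Matrix.det h1
  rw [Matrix.det_mul, h, zero_mul, Matrix.det_one] at h2
  exact zero_ne_one h2

/-- For `w` of order prime to the characteristic and determinant `1`: `tr (c w * R w) = 0`. -/
theorem IsCocycle.trace_mul_eq_zero (hc : IsCocycle R c) (w : G) (hdet : (R w).det = 1)
    (n : ℕ) (hn : w ^ n = 1) (hnk : (n : k) ≠ 0) : (c w * R w).trace = 0 := by
  have key : ∀ j : ℕ, (c (w ^ j) * R w).trace = j * (c w * R w).trace := by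
    intro j
    induction j with
    | zero => simp [hc.map_one]
    | succ j ih =>
      rw [pow_succ, hc, Matrix.add_mul, Matrix.trace_add, ih]
      have hA : (R (w ^ j)).det = 1 := by rw [map_pow, Matrix.det_pow, hdet, one_pow]
      have hcomm : R w * R (w ^ j) = R (w ^ j) * R w := by
        rw [← map_mul, ← map_mul, ← pow_succ', ← pow_succ]
      have : (act (R (w ^ j)) (c w) * R w).trace = (c w * R w).trace := by
        unfold act
        rw [Matrix.mul_assoc, Matrix.mul_assoc, Matrix.trace_mul_comm, Matrix.mul_assoc,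
          Matrix.mul_assoc, hcomm, ← Matrix.mul_assoc (R (w ^ j)).adjugate, Matrix.adjugate_mul,
          hA, one_smul, Matrix.one_mul]
      rw [this]
      push_cast
      ring
  have h := key n
  rw [hn, hc.map_one, Matrix.zero_mul, Matrix.trace_zero] at h
  rcases mul_eq_zero.mp h.symm with h | h
  · exact absurd h hnk
  · exact h

end Cocycle


/-! ### Orders of the elements `u(x) * l(y)` -/

theorem uMat_mul_lMat (x y : k) : uMat x * lMat y = !![1 + x * y, x; y, 1] := by
  ext i j
  fin_cases i <;> fin_cases j <;> simp [uMat, lMat, Matrix.mul_apply, Fin.sum_univ_two]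

theorem trace_mul_fin_two (C W : Matrix (Fin 2) (Fin 2) k) :
    (C * W).trace = C 0 0 * W 0 0 + C 0 1 * W 1 0 + C 1 0 * W 0 1 + C 1 1 * W 1 1 := by
  simp [Matrix.trace, Matrix.mul_apply, Fin.sum_univ_two]
  ring

theorem pow_mem_span (W : Matrix (Fin 2) (Fin 2) k) (hW : W.det = 1) (n : ℕ) :
    ∃ a b : k, W ^ n = a • W + b • (1 : Matrix (Fin 2) (Fin 2) k) := by
  induction n with
  | zero => exact ⟨0, 1, by simp⟩
  | succ n ih =>
    obtain ⟨a, b, h⟩ := ih
    refine ⟨a * W.trace + b, -a, ?_⟩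
    rw [pow_succ, h, Matrix.add_mul, Matrix.smul_mul, Matrix.smul_mul, Matrix.one_mul,
      mul_self_fin_two, hW]
    simp only [one_smul, smul_sub, smul_smul, add_smul, neg_smul]
    abel

theorem sum_range_cast_two (s : ℕ) :
    2 * ∑ i ∈ Finset.range s, (i : k) = (s : k) * ((s : k) - 1) := by
  induction s with
  | zero => simp
  | succ s ih =>
    rw [Finset.sum_range_succ, mul_add, ih]
    push_cast
    ring

theorem sum_range_cast_sq_six (s : ℕ) :
    6 * ∑ i ∈ Finset.range s, (i : k) ^ 2 = ((s : k) - 1) * (s : k) * (2 * (s : k) - 1) := by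
  induction s with
  | zero => simp
  | succ s ih =>
    rw [Finset.sum_range_succ, mul_add, ih]
    push_cast
    ring

section Order

variable {G : Type*} [Group G] {R : G →* Matrix (Fin 2) (Fin 2) k}
  {c : G → Matrix (Fin 2) (Fin 2) k}

theorem two_ne_zero_of_charP (p : ℕ) [Fact p.Prime] [CharP k p] (hp2 : p ≠ 2) : (2 : k) ≠ 0 := by
  intro h
  have h' : ((2 : ℕ) : k) = 0 := by exact_mod_cast h
  rw [CharP.cast_eq_zero_iff k p] at h'
  exact hp2 ((Nat.prime_dvd_prime_iff_eq (Fact.out : p.Prime) Nat.prime_two).mp h')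

/-- `w` with `R w = u(x) * l(y)`, `x y ∉ {0, -4}`, has order prime to `p`. -/
theorem not_dvd_orderOf (p : ℕ) [Fact p.Prime] [CharP k p] (hp2 : p ≠ 2) [Finite G]
    (hR : Function.Injective R) (w : G) (x y : k) (hw : R w = uMat x * lMat y)
    (h0 : x * y ≠ 0) (h4 : x * y ≠ -4) : ¬ p ∣ orderOf w := by
  rintro ⟨n', hn'⟩
  have hpos : 0 < orderOf w := orderOf_pos w
  have hvp : (w ^ n') ^ p = 1 := by
    rw [← pow_mul, mul_comm, ← hn', pow_orderOf_eq_one]
  have hWdet : (R w).det = 1 := by rw [hw, Matrix.det_mul, det_uMat, det_lMat, one_mul]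
  obtain ⟨a, b, hab⟩ := pow_mem_span (R w) hWdet n'
  have hRv : R (w ^ n') = a • R w + b • (1 : Matrix (Fin 2) (Fin 2) k) := by
    rw [map_pow, hab]
  have hNp : (R (w ^ n') - 1) ^ p = 0 := by
    rw [sub_pow_char_of_commute p (Commute.one_right _), one_pow, ← map_pow, hvp, map_one, sub_self]
  obtain ⟨htr, hdet⟩ := trace_det_of_pow_eq_zero _ p hNp
  rw [hRv, hw, uMat_mul_lMat] at htr hdet
  have htr' : a * (2 + x * y) + 2 * (b - 1) = 0 := by
    have : a * (2 + x * y) + 2 * (b - 1) =
        (a • !![1 + x * y, x; y, 1] + b • (1 : Matrix (Fin 2) (Fin 2) k) - 1).trace := by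
      simp [Matrix.trace, Fin.sum_univ_two]
      ring
    rw [this, htr]
  have hdet' : (a * (1 + x * y) + (b - 1)) * (a + (b - 1)) - (a * x) * (a * y) = 0 := by
    have : (a * (1 + x * y) + (b - 1)) * (a + (b - 1)) - (a * x) * (a * y) =
        (a • !![1 + x * y, x; y, 1] + b • (1 : Matrix (Fin 2) (Fin 2) k) - 1).det := by
      simp [Matrix.det_fin_two]
      ring
    rw [this, hdet]
  have ha : a = 0 := by
    have h1 : a ^ 2 * ((x * y) * (x * y + 4)) = 0 := by
      linear_combination (a * (2 + x * y) + 2 * (b - 1)) * htr' - 4 * hdet'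
    have h4' : x * y + 4 ≠ 0 := fun h => h4 (by linear_combination h)
    rcases mul_eq_zero.mp h1 with h | h
    · exact eq_zero_of_pow_eq_zero h
    · exact absurd h (mul_ne_zero h0 h4')
  have h2 : (2 : k) ≠ 0 := two_ne_zero_of_charP p hp2
  have hb : b = 1 := by
    rw [ha, zero_mul, zero_add] at htr'
    have := (mul_eq_zero.mp htr').resolve_left h2
    linear_combination this
  have hv1 : w ^ n' = 1 := hR (by rw [hRv, ha, hb, zero_smul, zero_add, one_smul, map_one])
  have hdvd : orderOf w ∣ n' := orderOf_dvd_of_pow_eq_one hv1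
  rw [hn'] at hdvd hpos
  have hn'pos : 0 < n' := Nat.pos_of_mul_pos_left hpos
  have hle : p * n' ≤ n' := Nat.le_of_dvd hn'pos hdvd
  have hp1 : 1 < p := (Fact.out : p.Prime).one_lt
  nlinarith

/-- Power formulas for a cocycle on an element with `R g = u(x)`. -/
theorem IsCocycle.pow_uMat (hc : IsCocycle R c) (htr : ∀ g, (c g).trace = 0) (g : G) (x : k)
    (hg : R g = uMat x) (s : ℕ) :
    R (g ^ s) = uMat (s * x) ∧ (c (g ^ s)) 1 0 = s * (c g) 1 0 ∧
    (c (g ^ s)) 0 0 = s * (c g) 0 0 + x * (c g) 1 0 * (∑ i ∈ Finset.range s, (i : k)) ∧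
    (c (g ^ s)) 0 1 = s * (c g) 0 1 - 2 * x * (c g) 0 0 * (∑ i ∈ Finset.range s, (i : k))
      - x ^ 2 * (c g) 1 0 * (∑ i ∈ Finset.range s, (i : k) ^ 2) := by
  have h11 : (c g) 1 1 = -(c g) 0 0 := by
    have := htr g
    rw [trace_fin_two'] at this
    linear_combination this
  induction s with
  | zero =>
    simp [hc.map_one, uMat_zero]
  | succ s ih =>
    obtain ⟨ihR, ih10, ih00, ih01⟩ := ih
    have hR' : R (g ^ (s + 1)) = uMat (((s + 1 : ℕ) : k) * x) := by
      rw [pow_succ, map_mul, ihR, hg, uMat_mul]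
      congr 1
      push_cast
      ring
    have hcs : c (g ^ (s + 1)) = c (g ^ s) + act (uMat (s * x)) (c g) := by
      rw [pow_succ, hc, ihR]
    refine ⟨hR', ?_, ?_, ?_⟩
    · rw [hcs, act_uMat, Matrix.add_apply, ih10]
      simp
      ring
    · rw [hcs, act_uMat, Matrix.add_apply, ih00, Finset.sum_range_succ]
      simp
      ring
    · rw [hcs, act_uMat, Matrix.add_apply, ih01, Finset.sum_range_succ, Finset.sum_range_succ,
        h11]
      simp
      ring

/-- The basic constraint: for `R g = u(x)`, `R h = l(y)` and `s` with `s x y ∉ {0, -4}`. -/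
theorem IsCocycle.constraint (p : ℕ) [Fact p.Prime] [CharP k p] (hp2 : p ≠ 2) [Finite G]
    (hR : Function.Injective R) (hc : IsCocycle R c) (htr : ∀ g, (c g).trace = 0)
    (g h : G) (x y : k) (hg : R g = uMat x) (hh : R h = lMat y) (s : ℕ)
    (h0 : (s : k) * x * y ≠ 0) (h4 : (s : k) * x * y ≠ -4) :
    (c g) 1 0 * (s * x ^ 2 * y * (∑ i ∈ Finset.range s, (i : k))
        - x ^ 2 * y * (∑ i ∈ Finset.range s, (i : k) ^ 2) + (s : k) ^ 2 * x)
      + s * (x * y * (c g) 0 0 + y * (c g) 0 1 - x * y * (c h) 0 0 + x * (c h) 1 0)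
      + y * (c h) 0 1 = 0 := by
  obtain ⟨hRs, h10, h00, h01⟩ := hc.pow_uMat htr g x hg s
  have hRw : R (g ^ s * h) = uMat (s * x) * lMat y := by rw [map_mul, hRs, hh]
  have hord : ¬ p ∣ orderOf (g ^ s * h) :=
    not_dvd_orderOf p hp2 hR _ _ _ hRw h0 h4
  have hordk : ((orderOf (g ^ s * h) : ℕ) : k) ≠ 0 := by
    rwa [Ne, CharP.cast_eq_zero_iff k p]
  have hdet : (R (g ^ s * h)).det = 1 := by
    rw [hRw, Matrix.det_mul, det_uMat, det_lMat, one_mul]
  have hT := hc.trace_mul_eq_zero (g ^ s * h) hdet _ (pow_orderOf_eq_one _) hordk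
  have h11 : (c (g ^ s * h)) 1 1 = -(c (g ^ s * h)) 0 0 := by
    have := htr (g ^ s * h)
    rw [trace_fin_two'] at this
    linear_combination this
  have hh11 : (c h) 1 1 = -(c h) 0 0 := by
    have := htr h
    rw [trace_fin_two'] at this
    linear_combination this
  rw [trace_mul_fin_two, h11, hRw, uMat_mul_lMat] at hT
  have hcw : c (g ^ s * h) = c (g ^ s) + act (uMat (s * x)) (c h) := by rw [hc, hRs]
  have e00 : (c (g ^ s * h)) 0 0 = (c (g ^ s)) 0 0 + ((c h) 0 0 + s * x * (c h) 1 0) := by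
    rw [hcw, act_uMat, Matrix.add_apply]; simp
  have e01 : (c (g ^ s * h)) 0 1 = (c (g ^ s)) 0 1 +
      ((c h) 0 1 + s * x * (c h) 1 1 - s * x * (c h) 0 0 - (s * x) ^ 2 * (c h) 1 0) := by
    rw [hcw, act_uMat, Matrix.add_apply]; simp
  have e10 : (c (g ^ s * h)) 1 0 = (c (g ^ s)) 1 0 + (c h) 1 0 := by
    rw [hcw, act_uMat, Matrix.add_apply]; simp
  rw [e00, e01, e10, h00, h01, h10, hh11] at hT
  simp only [Matrix.of_apply, Matrix.cons_val', Matrix.cons_val_zero, Matrix.cons_val_one,
    Matrix.cons_val_fin_one] at hT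
  have hT1 := sum_range_cast_two (k := k) s
  linear_combination hT + x * y * (c g) 0 0 * hT1

end Order


/-! ### Root counting -/

open Polynomial in
theorem cubic_coeffs_zero (A B C D : k) (S : Finset k) (hS : 3 < S.card)
    (h : ∀ s ∈ S, A * s ^ 3 + B * s ^ 2 + C * s + D = 0) : A = 0 ∧ B = 0 ∧ C = 0 ∧ D = 0 := by
  have hP : (Polynomial.C A * X ^ 3 + Polynomial.C B * X ^ 2 + Polynomial.C C * X
      + Polynomial.C D : k[X]) = 0 := by
    apply Polynomial.eq_zero_of_natDegree_lt_card_of_eval_eq_zero' _ S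
    · intro s hs
      simpa using h s hs
    · exact lt_of_le_of_lt Polynomial.natDegree_cubic_le hS
  have h3 := congrArg (fun q : k[X] => q.coeff 3) hP
  have h2 := congrArg (fun q : k[X] => q.coeff 2) hP
  have h1 := congrArg (fun q : k[X] => q.coeff 1) hP
  have h0 := congrArg (fun q : k[X] => q.coeff 0) hP
  simp [Polynomial.coeff_X, Polynomial.coeff_C, Polynomial.coeff_X_pow] at h3 h2 h1 h0
  exact ⟨h3, h2, h1, h0⟩

theorem linear_coeffs_zero (C D : k) (S : Finset k) (hS : 1 < S.card)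
    (h : ∀ s ∈ S, C * s + D = 0) : C = 0 ∧ D = 0 := by
  obtain ⟨s, hs, s', hs', hne⟩ := Finset.one_lt_card.mp hS
  have h1 := h s hs
  have h2 := h s' hs'
  have hC : C = 0 := by
    have : C * (s - s') = 0 := by linear_combination h1 - h2
    exact (mul_eq_zero.mp this).resolve_right (sub_ne_zero.mpr hne)
  refine ⟨hC, ?_⟩
  rw [hC, zero_mul, zero_add] at h1
  exact h1

section Adm

variable (p : ℕ) [Fact p.Prime] [CharP k p]

/-- The admissible exponents: `1 ≤ s < p` with `s * z ≠ -4`. -/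
noncomputable def adm (z : k) : Finset ℕ := by
  classical exact (Finset.Ico 1 p).filter (fun s => (s : k) * z ≠ -4)

omit [Fact p.Prime] [CharP k p] in
theorem mem_adm {z : k} {s : ℕ} : s ∈ adm p z ↔ (1 ≤ s ∧ s < p) ∧ (s : k) * z ≠ -4 := by
  classical
  simp [adm]

omit [Fact p.Prime] in
theorem cast_ne_zero_of_mem_Ico {s : ℕ} (h1 : 1 ≤ s) (h2 : s < p) : (s : k) ≠ 0 := by
  rw [Ne, CharP.cast_eq_zero_iff k p]
  exact Nat.not_dvd_of_pos_of_lt h1 h2

theorem card_adm (z : k) (hz : z ≠ 0) : p - 2 ≤ (adm p z).card := by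
  classical
  have hsplit := Finset.card_filter_add_card_filter_not (s := Finset.Ico 1 p)
    (fun s : ℕ => (s : k) * z ≠ -4)
  have hbad : ((Finset.Ico 1 p).filter (fun s : ℕ => ¬ (s : k) * z ≠ -4)).card ≤ 1 := by
    rw [Finset.card_le_one]
    intro a ha b hb
    simp only [Finset.mem_filter, Finset.mem_Ico, not_not] at ha hb
    have hab : (a : k) = (b : k) := by
      have : ((a : k) - (b : k)) * z = 0 := by linear_combination ha.2 - hb.2
      exact sub_eq_zero.mp ((mul_eq_zero.mp this).resolve_right hz)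
    exact CharP.natCast_injOn_Iio k p (Set.mem_Iio.mpr ha.1.2) (Set.mem_Iio.mpr hb.1.2) hab
  have hcard : (Finset.Ico 1 p).card = p - 1 := Nat.card_Ico 1 p
  have hadm : adm p z = (Finset.Ico 1 p).filter (fun s : ℕ => (s : k) * z ≠ -4) := by
    unfold adm
    congr
  rw [hadm]
  omega

theorem card_image_adm [DecidableEq k] (z : k) :
    ((adm p z).image (Nat.cast : ℕ → k)).card = (adm p z).card := by
  apply Finset.card_image_of_injOn
  intro a ha b hb hab
  have ha' := (mem_adm p).mp (Finset.mem_coe.mp ha)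
  have hb' := (mem_adm p).mp (Finset.mem_coe.mp hb)
  exact CharP.natCast_injOn_Iio k p (Set.mem_Iio.mpr ha'.1.2) (Set.mem_Iio.mpr hb'.1.2) hab

end Adm

theorem lMat_mul (x y : k) : lMat x * lMat y = lMat (x + y) := by
  ext i j; fin_cases i <;> fin_cases j <;> simp [lMat, Matrix.mul_apply, Fin.sum_univ_two, add_comm]

theorem lMat_zero : lMat (0 : k) = 1 := by
  ext i j; fin_cases i <;> fin_cases j <;> simp [lMat]

/-- The `(1, 0)` entry of `act T m`. -/
theorem act_apply_one_zero (T m : Matrix (Fin 2) (Fin 2) k) :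
    (act T m) 1 0 = (T 1 0 * m 0 0 + T 1 1 * m 1 0) * T 1 1
      - (T 1 0 * m 0 1 + T 1 1 * m 1 1) * T 1 0 := by
  obtain ⟨a, b, c, d, rfl⟩ : ∃ a b c d, m = !![a, b; c, d] := ⟨_, _, _, _, Matrix.eta_fin_two m⟩
  obtain ⟨t, u, v, w, rfl⟩ : ∃ t u v w, T = !![t, u; v, w] := ⟨_, _, _, _, Matrix.eta_fin_two T⟩
  simp only [act, Matrix.adjugate_fin_two_of, Matrix.mul_fin_two, Matrix.of_apply,
    Matrix.cons_val', Matrix.cons_val_zero, Matrix.cons_val_one, Matrix.cons_val_fin_one]
  ring

theorem pow_four_eq_one_of_mem_Ico (h5 : (5 : k) = 0) (s : ℕ) (h1 : 1 ≤ s) (h2 : s < 5) :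
    (s : k) ^ 4 = 1 := by
  interval_cases s
  · norm_num
  · push_cast; linear_combination 3 * h5
  · push_cast; linear_combination 16 * h5
  · push_cast; linear_combination 51 * h5


/-! ### The core: a Sylow subgroup in standard position -/

section Core

variable {G : Type*} [Group G] {R : G →* Matrix (Fin 2) (Fin 2) k}
  {c : G → Matrix (Fin 2) (Fin 2) k}

theorem entry_one_one_of_trace (htr : ∀ g, (c g).trace = 0) (g : G) :
    (c g) 1 1 = -(c g) 0 0 := by
  have := htr g
  rw [trace_fin_two'] at this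
  linear_combination this

/-- Commutation relations for a cocycle on two upper unipotent elements. -/
theorem IsCocycle.comm_uMat (hR : Function.Injective R) (hc : IsCocycle R c)
    (htr : ∀ g, (c g).trace = 0) (g h : G) (x x' : k) (hg : R g = uMat x) (hh : R h = uMat x') :
    x * (c h) 1 0 = x' * (c g) 1 0 ∧
    2 * x * (c h) 0 0 + x ^ 2 * (c h) 1 0 = 2 * x' * (c g) 0 0 + x' ^ 2 * (c g) 1 0 := by
  have hcomm : g * h = h * g :=
    hR (by rw [map_mul, map_mul, hg, hh, uMat_mul, uMat_mul, add_comm])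
  have h1 := hc g h
  have h2 := hc h g
  rw [hcomm, h2, hg, hh, act_uMat, act_uMat] at h1
  have e00 := congrFun (congrFun h1 0) 0
  have e01 := congrFun (congrFun h1 0) 1
  have hg11 := entry_one_one_of_trace htr g
  have hh11 := entry_one_one_of_trace htr h
  simp only [Matrix.add_apply, Matrix.of_apply, Matrix.cons_val', Matrix.cons_val_zero,
    Matrix.cons_val_one, Matrix.cons_val_fin_one] at e00 e01
  rw [hg11, hh11] at e01
  constructor
  · linear_combination -e00
  · linear_combination e01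

theorem six_ne_zero_of_charP (p : ℕ) [Fact p.Prime] [CharP k p] (hp2 : p ≠ 2) (hp3 : p ≠ 3) :
    (6 : k) ≠ 0 := by
  intro h
  have h' : ((6 : ℕ) : k) = 0 := by exact_mod_cast h
  rw [CharP.cast_eq_zero_iff k p] at h'
  have hpp : p.Prime := Fact.out
  have h6 : (6 : ℕ) = 2 * 3 := by norm_num
  rw [h6] at h'
  rcases (Nat.Prime.dvd_mul hpp).mp h' with h | h
  · exact hp2 ((Nat.prime_dvd_prime_iff_eq hpp Nat.prime_two).mp h)
  · exact hp3 ((Nat.prime_dvd_prime_iff_eq hpp Nat.prime_three).mp h)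

/-- If there are more than three admissible exponents, the `(1,0)`-entry vanishes. -/
theorem IsCocycle.gamma_zero_of_card [Finite G] (p : ℕ) [Fact p.Prime] [CharP k p] (hp2 : p ≠ 2)
    (hp3 : p ≠ 3) (hR : Function.Injective R) (hc : IsCocycle R c) (htr : ∀ g, (c g).trace = 0)
    (g h : G) (x y : k) (hg : R g = uMat x) (hh : R h = lMat y) (hx0 : x ≠ 0) (hy0 : y ≠ 0)
    (hcard : 3 < (adm p (x * y)).card) : (c g) 1 0 = 0 := by
  classical
  have key := cubic_coeffs_zero ((c g) 1 0 * x ^ 2 * y) (6 * (c g) 1 0 * x)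
    (6 * (x * y * (c g) 0 0 + y * (c g) 0 1 - x * y * (c h) 0 0 + x * (c h) 1 0)
      - (c g) 1 0 * x ^ 2 * y) (6 * (y * (c h) 0 1))
    ((adm p (x * y)).image (Nat.cast : ℕ → k)) (by rw [card_image_adm]; exact hcard) (by
      intro s' hs'
      obtain ⟨s, hs, rfl⟩ := Finset.mem_image.mp hs'
      obtain ⟨⟨hs1, hs2⟩, hs4⟩ := (mem_adm p).mp hs
      have hs0 : (s : k) ≠ 0 := cast_ne_zero_of_mem_Ico p hs1 hs2
      have hE := hc.constraint p hp2 hR htr g h x y hg hh s
        (mul_ne_zero (mul_ne_zero hs0 hx0) hy0) (by rwa [mul_assoc])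
      have hT1 := sum_range_cast_two (k := k) s
      have hT2 := sum_range_cast_sq_six (k := k) s
      linear_combination 6 * hE - 3 * (s : k) * (c g) 1 0 * x ^ 2 * y * hT1
        + (c g) 1 0 * x ^ 2 * y * hT2)
  have h6 := six_ne_zero_of_charP (k := k) p hp2 hp3
  have hB := key.2.1
  rcases mul_eq_zero.mp hB with h' | h'
  · exact (mul_eq_zero.mp h').resolve_left h6
  · exact absurd h' hx0

/-- The exceptional case `p = 5`: all products `x y` lie in the prime field. -/
theorem IsCocycle.gamma_zero_exceptional (h5k : (5 : k) = 0) (hR : Function.Injective R)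
    (hc : IsCocycle R c) (htr : ∀ g, (c g).trace = 0) (P : Subgroup G)
    (hP : ∀ h ∈ P, ∃ x : k, R h = uMat x) (g₁ : G) (hg₁ : g₁ ∈ P) (x₁ : k)
    (hx₁ : R g₁ = uMat x₁) (hx₁0 : x₁ ≠ 0) (y : k) (hy0 : y ≠ 0)
    (hB : ∀ g ∈ P, ∀ x : k, R g = uMat x → x ≠ 0 →
      ∃ s : ℕ, 1 ≤ s ∧ s < 5 ∧ (s : k) * (x * y) = -4)
    (t : G) (ht : t ∈ Subgroup.normalizer (P : Set G)) (hd1 : (R t).det ≠ 1) (hd2 : (R t).det ≠ -1) :
    (c g₁) 1 0 = 0 := by
  by_contra hγ
  have hg' : t * g₁ * t⁻¹ ∈ P := (Subgroup.mem_normalizer_iff.mp ht g₁).mp hg₁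
  obtain ⟨x', hx'⟩ := hP _ hg'
  have hx'0 : x' ≠ 0 := by
    rintro rfl
    rw [uMat_zero] at hx'
    have h1 : t * g₁ * t⁻¹ = 1 := hR (by rw [hx', _root_.map_one])
    have h2 : g₁ = 1 := conj_eq_one_iff.mp h1
    rw [h2, _root_.map_one] at hx₁
    exact hx₁0 (uMat_injective (hx₁.symm.trans uMat_zero.symm))
  have hmul : t * g₁ * t⁻¹ * t = t * g₁ := by group
  have hrel : R t * uMat x₁ = uMat x' * R t := by
    rw [← hx₁, ← hx', ← map_mul, ← map_mul, hmul]
  have hc1 := hc t g₁
  have hc2 := hc (t * g₁ * t⁻¹) t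
  rw [hmul, hc1, hx', act_uMat] at hc2
  have e10 := congrFun (congrFun hc2 1) 0
  rw [Matrix.add_apply, Matrix.add_apply, act_apply_one_zero] at e10
  have hcomm := (hc.comm_uMat hR htr g₁ (t * g₁ * t⁻¹) x₁ x' hx₁ hx').1
  obtain ⟨s₁, hs₁1, hs₁2, hs₁⟩ := hB g₁ hg₁ x₁ hx₁ hx₁0
  obtain ⟨s', hs'1, hs'2, hs'⟩ := hB _ hg' x' hx' hx'0
  have hp₁ := pow_four_eq_one_of_mem_Ico h5k s₁ hs₁1 hs₁2
  have hp' := pow_four_eq_one_of_mem_Ico h5k s' hs'1 hs'2
  obtain ⟨t00, t01, t10, t11, hT⟩ : ∃ a b c d, R t = !![a, b; c, d] :=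
    ⟨_, _, _, _, Matrix.eta_fin_two _⟩
  rw [hT] at hrel e10 hd1 hd2
  have e11 := congrFun (congrFun hrel 1) 1
  have e01 := congrFun (congrFun hrel 0) 1
  simp only [uMat, Matrix.mul_fin_two, Matrix.of_apply, Matrix.cons_val', Matrix.cons_val_zero,
    Matrix.cons_val_one, Matrix.cons_val_fin_one, Matrix.det_fin_two] at e11 e01 e10 hd1 hd2
  have ht10 : t10 = 0 := by
    have : t10 * x₁ = 0 := by linear_combination e11
    exact (mul_eq_zero.mp this).resolve_right hx₁0
  subst ht10
  -- `γ' = t11² γ₁`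
  have hγ' : (c (t * g₁ * t⁻¹)) 1 0 = t11 ^ 2 * (c g₁) 1 0 := by linear_combination -e10
  rw [hγ'] at hcomm
  have hx'eq : x' = x₁ * t11 ^ 2 := by
    have : (x₁ * t11 ^ 2 - x') * (c g₁) 1 0 = 0 := by linear_combination hcomm
    have := (mul_eq_zero.mp this).resolve_right hγ
    linear_combination -this
  have ht00 : t00 = t11 ^ 3 := by
    have : (t00 - t11 ^ 3) * x₁ = 0 := by
      rw [hx'eq] at e01
      linear_combination e01
    have := (mul_eq_zero.mp this).resolve_right hx₁0
    linear_combination this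
  have hs : (s₁ : k) = s' * t11 ^ 2 := by
    have : ((s₁ : k) - s' * t11 ^ 2) * (x₁ * y) = 0 := by
      rw [hx'eq] at hs'
      linear_combination hs₁ - hs'
    have := (mul_eq_zero.mp this).resolve_right (mul_ne_zero hx₁0 hy0)
    linear_combination this
  have h8 : t11 ^ 8 = 1 := by
    have : (s₁ : k) ^ 4 = (s' : k) ^ 4 * t11 ^ 8 := by rw [hs]; ring
    rw [hp₁, hp', one_mul] at this
    exact this.symm
  have hdet : (t00 * t11 - t01 * 0 - 1) * (t00 * t11 - t01 * 0 + 1) = 0 := by
    rw [ht00]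
    linear_combination h8
  rcases mul_eq_zero.mp hdet with h | h
  · exact hd1 (by linear_combination h)
  · exact hd2 (by linear_combination h)

/-- Cube of a lower unipotent element: the `(1,0)` entry of the cocycle. -/
theorem IsCocycle.cube_lMat (hc : IsCocycle R c) (htr : ∀ g, (c g).trace = 0) (h : G) (y : k)
    (hh : R h = lMat y) :
    (c (h * h * h)) 1 0 = 3 * (c h) 1 0 + 6 * y * (c h) 0 0 - 5 * y ^ 2 * (c h) 0 1 := by
  have h11 := entry_one_one_of_trace htr h
  have e1 : c (h * h) = c h + act (lMat y) (c h) := by rw [hc, hh]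
  have e2 : c (h * h * h) = c (h * h) + act (lMat (y + y)) (c h) := by
    rw [hc, map_mul, hh, lMat_mul]
  rw [e2, e1, act_lMat, act_lMat]
  simp only [Matrix.add_apply, Matrix.of_apply, Matrix.cons_val', Matrix.cons_val_zero,
    Matrix.cons_val_one, Matrix.cons_val_fin_one]
  rw [h11]
  ring

/-- **Core theorem**: a subgroup `P` in standard position (upper unitriangular, nontrivial, with
one opposite lower unitriangular element in the group). -/
theorem IsCocycle.coboundary_on_unipotent [Finite G] (p : ℕ) [Fact p.Prime] [CharP k p]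
    (hp2 : p ≠ 2) (hR : Function.Injective R) (hc : IsCocycle R c) (htr : ∀ g, (c g).trace = 0)
    (P : Subgroup G) (hP : ∀ h ∈ P, ∃ x : k, R h = uMat x)
    (g₁ : G) (hg₁ : g₁ ∈ P) (x₁ : k) (hx₁ : R g₁ = uMat x₁) (hx₁0 : x₁ ≠ 0)
    (h₁ : G) (y : k) (hy : R h₁ = lMat y) (hy0 : y ≠ 0)
    (h5 : p = 5 → ∃ t ∈ Subgroup.normalizer (P : Set G), (R t).det ≠ 1 ∧ (R t).det ≠ -1) :
    ∃ m : Matrix (Fin 2) (Fin 2) k, m.trace = 0 ∧ ∀ h ∈ P, c h = act (R h) m - m := by
  classical
  have h2 : (2 : k) ≠ 0 := two_ne_zero_of_charP p hp2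
  have hpp : p.Prime := Fact.out
  have hp3le : 3 ≤ p := by
    have := hpp.two_le
    omega
  -- Step 1: the `(1,0)`-entry of `c g₁` vanishes.
  have hγ₁ : (c g₁) 1 0 = 0 := by
    by_cases hp3 : p = 3
    · -- `p = 3`: use `g₁ ^ 3 = 1`.
      have h3k : (3 : k) = 0 := by
        have := CharP.cast_eq_zero k p
        rw [hp3] at this
        exact_mod_cast this
      obtain ⟨hR3, -, -, h01⟩ := hc.pow_uMat htr g₁ x₁ hx₁ 3
      have hg3 : g₁ ^ 3 = 1 := hR (by
        rw [hR3, _root_.map_one]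
        have : ((3 : ℕ) : k) * x₁ = 0 := by push_cast; rw [h3k, zero_mul]
        rw [this, uMat_zero])
      rw [hg3, hc.map_one] at h01
      simp only [Finset.sum_range_succ, Finset.sum_range_zero, Matrix.zero_apply] at h01
      push_cast at h01
      have hx : x₁ ^ 2 * (c g₁) 1 0 = 0 := by
        have h2' : 2 * (x₁ ^ 2 * (c g₁) 1 0) = 0 := by
          linear_combination h01 + ((c g₁) 0 1 - 2 * x₁ * (c g₁) 0 0 - x₁ ^ 2 * (c g₁) 1 0) * h3k
        exact (mul_eq_zero.mp h2').resolve_left h2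
      exact (mul_eq_zero.mp hx).resolve_left (pow_ne_zero 2 hx₁0)
    · by_cases hA : ∃ g ∈ P, ∃ x : k, R g = uMat x ∧ x ≠ 0 ∧ 3 < (adm p (x * y)).card
      · obtain ⟨g, hg, x, hx, hx0, hcard⟩ := hA
        have hγg := hc.gamma_zero_of_card p hp2 hp3 hR htr g h₁ x y hx hy hx0 hy0 hcard
        have hcm := (hc.comm_uMat hR htr g g₁ x x₁ hx hx₁).1
        rw [hγg, mul_zero] at hcm
        exact (mul_eq_zero.mp hcm).resolve_left hx0
      · -- the exceptional case: necessarily `p = 5`.
        push Not at hA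
        have hp5 : p = 5 := by
          by_contra hp5
          have h7 : 7 ≤ p := by
            by_contra hlt
            push Not at hlt
            interval_cases p <;> simp_all (config := { decide := true })
          have hc1 := card_adm p (x₁ * y) (mul_ne_zero hx₁0 hy0)
          have hc2 := hA g₁ hg₁ x₁ hx₁ hx₁0
          omega
        have h5k : (5 : k) = 0 := by
          have := CharP.cast_eq_zero k p
          rw [hp5] at this
          exact_mod_cast this
        obtain ⟨t, ht, hd1, hd2⟩ := h5 hp5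
        have hB : ∀ g ∈ P, ∀ x : k, R g = uMat x → x ≠ 0 →
            ∃ s : ℕ, 1 ≤ s ∧ s < 5 ∧ (s : k) * (x * y) = -4 := by
          intro g hg x hx hx0
          by_contra hno
          push Not at hno
          have hall : adm p (x * y) = Finset.Ico 1 p := by
            ext s
            rw [mem_adm, Finset.mem_Ico]
            constructor
            · exact fun h => h.1
            · intro h
              exact ⟨h, hno s h.1 (by omega)⟩
          have hc2 := hA g hg x hx hx0
          rw [hall, Nat.card_Ico] at hc2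
          omega
        exact hc.gamma_zero_exceptional h5k hR htr P hP g₁ hg₁ x₁ hx₁ hx₁0 y hy0 hB t ht hd1 hd2
  -- Step 2: all `(1,0)`-entries on `P` vanish.
  have hγ : ∀ g ∈ P, (c g) 1 0 = 0 := by
    intro g hg
    obtain ⟨x, hx⟩ := hP g hg
    have hcm := (hc.comm_uMat hR htr g₁ g x₁ x hx₁ hx).1
    rw [hγ₁, mul_zero] at hcm
    exact (mul_eq_zero.mp hcm).resolve_left hx₁0
  -- Step 3: the `(0,1)`-entry of `c h₁` vanishes.
  have ha : (c h₁) 0 1 = 0 := by
    by_cases hp3 : p = 3
    · have h3k : (3 : k) = 0 := by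
        have := CharP.cast_eq_zero k p
        rw [hp3] at this
        exact_mod_cast this
      have hcube := hc.cube_lMat htr h₁ y hy
      have hh3 : h₁ * h₁ * h₁ = 1 := hR (by
        rw [map_mul, map_mul, hy, lMat_mul, lMat_mul, _root_.map_one]
        have : y + y + y = 0 := by linear_combination y * h3k
        rw [this, lMat_zero])
      rw [hh3, hc.map_one, Matrix.zero_apply] at hcube
      have hya : y ^ 2 * (c h₁) 0 1 = 0 := by
        linear_combination (-1 : k) * hcube
          - ((c h₁) 1 0 + 2 * y * (c h₁) 0 0 - 2 * y ^ 2 * (c h₁) 0 1) * h3k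
      exact (mul_eq_zero.mp hya).resolve_left (pow_ne_zero 2 hy0)
    · have hp5le : 5 ≤ p := by
        by_contra hlt
        push Not at hlt
        interval_cases p <;> simp_all (config := { decide := true })
      have key := linear_coeffs_zero
        (x₁ * y * (c g₁) 0 0 + y * (c g₁) 0 1 - x₁ * y * (c h₁) 0 0 + x₁ * (c h₁) 1 0)
        (y * (c h₁) 0 1) ((adm p (x₁ * y)).image (Nat.cast : ℕ → k)) (by
          rw [card_image_adm]
          have := card_adm p (x₁ * y) (mul_ne_zero hx₁0 hy0)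
          omega) (by
          intro s' hs'
          obtain ⟨s, hs, rfl⟩ := Finset.mem_image.mp hs'
          obtain ⟨⟨hs1, hs2⟩, hs4⟩ := (mem_adm p).mp hs
          have hs0 : (s : k) ≠ 0 := cast_ne_zero_of_mem_Ico p hs1 hs2
          have hE := hc.constraint p hp2 hR htr g₁ h₁ x₁ y hx₁ hy s
            (mul_ne_zero (mul_ne_zero hs0 hx₁0) hy0) (by rwa [mul_assoc])
          rw [hγ₁, zero_mul, zero_add] at hE
          linear_combination hE)
      exact (mul_eq_zero.mp key.2).resolve_left hy0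
  -- Step 4: the linear relation for every nontrivial element of `P`.
  have hlin : ∀ g ∈ P, ∀ x : k, R g = uMat x → x ≠ 0 →
      x * y * (c g) 0 0 + y * (c g) 0 1 - x * y * (c h₁) 0 0 + x * (c h₁) 1 0 = 0 := by
    intro g hg x hx hx0
    have hcard := card_adm p (x * y) (mul_ne_zero hx0 hy0)
    have hne : (adm p (x * y)).Nonempty := Finset.card_pos.mp (by omega)
    obtain ⟨s, hs⟩ := hne
    obtain ⟨⟨hs1, hs2⟩, hs4⟩ := (mem_adm p).mp hs
    have hs0 : (s : k) ≠ 0 := cast_ne_zero_of_mem_Ico p hs1 hs2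
    have hE := hc.constraint p hp2 hR htr g h₁ x y hx hy s
      (mul_ne_zero (mul_ne_zero hs0 hx0) hy0) (by rwa [mul_assoc])
    rw [hγ g hg, zero_mul, zero_add, ha, mul_zero, add_zero] at hE
    exact (mul_eq_zero.mp hE).resolve_left hs0
  -- Step 5: the `(0,0)`-entries are proportional to `x`.
  have hβ : ∀ g ∈ P, ∀ x : k, R g = uMat x → (c g) 0 0 = (c g₁) 0 0 / x₁ * x := by
    intro g hg x hx
    have hcm := (hc.comm_uMat hR htr g₁ g x₁ x hx₁ hx).2
    rw [hγ g hg, hγ₁, mul_zero, mul_zero, add_zero, add_zero] at hcm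
    field_simp
    have : 2 * (x₁ * (c g) 0 0 - x * (c g₁) 0 0) = 0 := by linear_combination hcm
    have := (mul_eq_zero.mp this).resolve_left h2
    linear_combination this
  -- Step 6: the coboundary.
  refine ⟨!![-((c h₁) 0 0 - (c h₁) 1 0 / y) / 2, 0; (c g₁) 0 0 / x₁,
    ((c h₁) 0 0 - (c h₁) 1 0 / y) / 2], ?_, ?_⟩
  · rw [trace_fin_two']
    simp only [Matrix.of_apply, Matrix.cons_val', Matrix.cons_val_zero, Matrix.cons_val_one,
      Matrix.cons_val_fin_one]
    ring
  · intro h hh
    obtain ⟨x, hx⟩ := hP h hh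
    by_cases hx0 : x = 0
    · subst hx0
      rw [uMat_zero] at hx
      have h1 : h = 1 := hR (by rw [hx, _root_.map_one])
      rw [h1, hc.map_one, _root_.map_one, act_one, sub_self]
    · have e10 := hγ h hh
      have e00 := hβ h hh x hx
      have e11 := entry_one_one_of_trace htr h
      have elin := hlin h hh x hx hx0
      have hd : (c h₁) 1 0 / y * y = (c h₁) 1 0 := div_mul_cancel₀ _ hy0
      have hα : (c h) 0 1 = x * ((c h₁) 0 0 - (c h₁) 1 0 / y) - (c g₁) 0 0 / x₁ * x ^ 2 := by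
        have hy' : y * ((c h) 0 1
            - (x * ((c h₁) 0 0 - (c h₁) 1 0 / y) - (c g₁) 0 0 / x₁ * x ^ 2)) = 0 := by
          rw [e00] at elin
          linear_combination elin + x * hd
        have := (mul_eq_zero.mp hy').resolve_left hy0
        linear_combination this
      rw [hx, act_uMat]
      ext i j
      fin_cases i <;> fin_cases j
      · simp only [Fin.zero_eta, Fin.isValue, Matrix.sub_apply, Matrix.of_apply,
          Matrix.cons_val', Matrix.cons_val_zero, Matrix.cons_val_one, Matrix.cons_val_fin_one]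
        rw [e00]
        ring
      · simp only [Fin.zero_eta, Fin.mk_one, Fin.isValue, Matrix.sub_apply, Matrix.of_apply,
          Matrix.cons_val', Matrix.cons_val_zero, Matrix.cons_val_one, Matrix.cons_val_fin_one]
        rw [hα]
        field_simp
        ring
      · simp only [Fin.zero_eta, Fin.mk_one, Fin.isValue, Matrix.sub_apply, Matrix.of_apply,
          Matrix.cons_val', Matrix.cons_val_zero, Matrix.cons_val_one, Matrix.cons_val_fin_one]
        rw [e10]
        ring
      · simp only [Fin.mk_one, Fin.isValue, Matrix.sub_apply, Matrix.of_apply,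
          Matrix.cons_val', Matrix.cons_val_zero, Matrix.cons_val_one, Matrix.cons_val_fin_one]
        rw [e11, e00]
        ring

end Core

/-! ### Averaging, change of basis, and the main theorem -/

theorem act_conj (B Bi A m : Matrix (Fin 2) (Fin 2) k) (h1 : B * Bi = 1) (h2 : Bi * B = 1) :
    act (Bi * A * B) (Bi * m * B) = Bi * act A m * B := by
  have hadj : B.det • Bi.adjugate = B := by
    have h3 : B.adjugate * Bi.adjugate = 1 := by
      rw [← Matrix.adjugate_mul_distrib, h2, Matrix.adjugate_one]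
    calc B.det • Bi.adjugate = (B * B.adjugate) * Bi.adjugate := by
          rw [Matrix.mul_adjugate, Matrix.smul_mul, Matrix.one_mul]
      _ = B := by rw [Matrix.mul_assoc, h3, Matrix.mul_one]
  unfold act
  rw [Matrix.adjugate_mul_distrib, Matrix.adjugate_mul_distrib]
  calc Bi * A * B * (Bi * m * B) * (B.adjugate * (A.adjugate * Bi.adjugate))
      = Bi * A * (B * Bi) * m * (B * B.adjugate) * A.adjugate * Bi.adjugate := by
        simp only [Matrix.mul_assoc]
    _ = Bi * A * m * A.adjugate * (B.det • Bi.adjugate) := by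
        rw [h1, Matrix.mul_adjugate]
        simp only [Matrix.mul_one, Matrix.mul_smul, Matrix.smul_mul, Matrix.mul_assoc]
    _ = Bi * (A * m * A.adjugate) * B := by
        rw [hadj]
        simp only [Matrix.mul_assoc]

theorem eq_uMat_of (A : Matrix (Fin 2) (Fin 2) k) (h1 : A *ᵥ ![1, 0] = ![1, 0])
    (hdet : A.det = 1) : A = uMat (A 0 1) := by
  have e0 := congrFun h1 0
  have e1 := congrFun h1 1
  simp [Matrix.mulVec, dotProduct, Fin.sum_univ_two] at e0 e1
  rw [Matrix.det_fin_two, e0, e1, mul_zero, sub_zero, one_mul] at hdet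
  ext i j
  fin_cases i <;> fin_cases j <;> simp [uMat, e0, e1, hdet]

theorem eq_lMat_of (A : Matrix (Fin 2) (Fin 2) k) (h1 : A *ᵥ ![0, 1] = ![0, 1])
    (hdet : A.det = 1) : A = lMat (A 1 0) := by
  have e0 := congrFun h1 0
  have e1 := congrFun h1 1
  simp [Matrix.mulVec, dotProduct, Fin.sum_univ_two] at e0 e1
  rw [Matrix.det_fin_two, e0, e1, zero_mul, sub_zero, mul_one] at hdet
  ext i j
  fin_cases i <;> fin_cases j <;> simp [lMat, e0, e1, hdet]

theorem det_eq_one_of_unipotent (A : Matrix (Fin 2) (Fin 2) k) (htr : (A - 1).trace = 0)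
    (hdet : (A - 1).det = 0) : A.det = 1 := by
  rw [trace_fin_two'] at htr
  rw [Matrix.det_fin_two] at hdet ⊢
  simp only [Matrix.sub_apply, Matrix.one_apply_eq, Matrix.one_apply_ne, ne_eq, zero_ne_one,
    not_false_eq_true, one_ne_zero, sub_zero] at htr hdet
  linear_combination hdet + htr

theorem mulVec_det_eq (N : Matrix (Fin 2) (Fin 2) k) (w u : Fin 2 → k) :
    (N *ᵥ w) 0 * (N *ᵥ u) 1 - (N *ᵥ w) 1 * (N *ᵥ u) 0 = N.det * (w 0 * u 1 - w 1 * u 0) := by
  simp [Matrix.mulVec, dotProduct, Fin.sum_univ_two, Matrix.det_fin_two]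
  ring

section Main

variable {G : Type*} [Group G] [Finite G] {R : G →* Matrix (Fin 2) (Fin 2) k}
  {c : G → Matrix (Fin 2) (Fin 2) k}

/-- Averaging: a cocycle which is a coboundary on a subgroup of index prime to the
characteristic is a coboundary. -/
theorem IsCocycle.coboundary_of_subgroup (hc : IsCocycle R c) (htr : ∀ g, (c g).trace = 0)
    (H : Subgroup G) (hidx : (H.index : k) ≠ 0) (m : Matrix (Fin 2) (Fin 2) k)
    (hmtr : m.trace = 0) (hm : ∀ h ∈ H, c h = act (R h) m - m) :
    ∃ m' : Matrix (Fin 2) (Fin 2) k, m'.trace = 0 ∧ ∀ g, c g = act (R g) m' - m' := by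
  classical
  have : Fintype (G ⧸ H) := Fintype.ofFinite _
  -- the corrected cocycle
  set c' : G → Matrix (Fin 2) (Fin 2) k := fun g => c g - (act (R g) m - m) with hc'def
  have hc' : ∀ g h, c' (g * h) = c' g + act (R g) (c' h) := by
    intro g h
    simp only [hc'def]
    rw [hc g h, map_mul, act_mul, act_sub, act_sub]
    abel
  have hc'H : ∀ h ∈ H, c' h = 0 := by
    intro h hh
    simp only [hc'def]
    rw [hm h hh, sub_self]
  have hc'tr : ∀ g, (c' g).trace = 0 := by
    intro g
    simp only [hc'def]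
    rw [Matrix.trace_sub, Matrix.trace_sub, trace_act, htr, hmtr, mul_zero, sub_zero, sub_zero]
  have hconst : ∀ a b : G, a⁻¹ * b ∈ H → c' b = c' a := by
    intro a b hab
    have : b = a * (a⁻¹ * b) := by group
    rw [this, hc', hc'H _ hab, act_zero, add_zero]
  set S : Matrix (Fin 2) (Fin 2) k := ∑ q : G ⧸ H, c' q.out with hS
  have hStr : S.trace = 0 := by
    rw [hS, Matrix.trace_sum]
    exact Finset.sum_eq_zero (fun q _ => hc'tr _)
  have hkey : ∀ x : G, S = (H.index : k) • c' x + act (R x) S := by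
    intro x
    have h1 : ∑ q : G ⧸ H, c' (x • q).out = S := by
      rw [hS]
      exact Equiv.sum_comp (MulAction.toPerm x : Equiv.Perm (G ⧸ H)) (fun q => c' q.out)
    have h2 : ∀ q : G ⧸ H, c' (x • q).out = c' x + act (R x) (c' q.out) := by
      intro q
      rw [← hc']
      apply hconst
      rw [← QuotientGroup.eq]
      rw [QuotientGroup.out_eq']
      have : (QuotientGroup.mk (x * q.out) : G ⧸ H) = x • (QuotientGroup.mk q.out : G ⧸ H) := rfl
      rw [this, QuotientGroup.out_eq']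
    calc S = ∑ q : G ⧸ H, c' (x • q).out := h1.symm
      _ = ∑ q : G ⧸ H, (c' x + act (R x) (c' q.out)) := Finset.sum_congr rfl (fun q _ => h2 q)
      _ = Fintype.card (G ⧸ H) • c' x + act (R x) S := by
          rw [Finset.sum_add_distrib, Finset.sum_const, Finset.card_univ, ← act_sum]
      _ = (H.index : k) • c' x + act (R x) S := by
          congr 1
          rw [← Nat.card_eq_fintype_card, ← Subgroup.index, Nat.cast_smul_eq_nsmul]
  refine ⟨m - (H.index : k)⁻¹ • S, ?_, ?_⟩
  · rw [Matrix.trace_sub, Matrix.trace_smul, hmtr, hStr, smul_zero, sub_zero]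
  · intro g
    have h1 := hkey g
    have h3 : c' g = (H.index : k)⁻¹ • (S - act (R g) S) := by
      have : (H.index : k) • c' g = S - act (R g) S := by
        rw [eq_sub_iff_add_eq]
        exact h1.symm
      rw [← this, smul_smul, inv_mul_cancel₀ hidx, one_smul]
    have h4 : c g = c' g + (act (R g) m - m) := by
      simp only [hc'def]
      abel
    rw [h4, h3, act_sub, act_smul, smul_sub]
    abel

/-- **Main theorem** (`H¹(G, ad⁰ ⊗ det) = 0`): every cocycle is a coboundary. -/
theorem exists_coboundary (p : ℕ) [Fact p.Prime] [CharP k p] (hp2 : p ≠ 2)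
    (hR : Function.Injective R)
    (hirr : ∀ v : Fin 2 → k, v ≠ 0 → ∃ g : G, ∀ a : k, R g *ᵥ v ≠ a • v)
    (h5 : p = 5 → ∃ g : G, (R g).det ≠ 1 ∧ (R g).det ≠ -1)
    (hc : IsCocycle R c) (htr : ∀ g, (c g).trace = 0) :
    ∃ m : Matrix (Fin 2) (Fin 2) k, m.trace = 0 ∧ ∀ g, c g = act (R g) m - m := by
  classical
  obtain ⟨P⟩ : Nonempty (Sylow p G) := inferInstance
  have hidx : (((P : Subgroup G).index : ℕ) : k) ≠ 0 := by
    rw [Ne, CharP.cast_eq_zero_iff k p]
    exact P.not_dvd_index
  suffices hsuff : ∃ m : Matrix (Fin 2) (Fin 2) k, m.trace = 0 ∧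
      ∀ h ∈ (P : Subgroup G), c h = act (R h) m - m by
    obtain ⟨m, hmtr, hm⟩ := hsuff
    exact hc.coboundary_of_subgroup htr (P : Subgroup G) hidx m hmtr hm
  by_cases hPtriv : (P : Subgroup G) = ⊥
  · refine ⟨0, Matrix.trace_zero _ _, ?_⟩
    intro h hh
    rw [hPtriv, Subgroup.mem_bot] at hh
    subst hh
    rw [hc.map_one, act_zero, sub_zero]
  -- unipotence of the elements of `P`
  have hunip : ∀ h ∈ (P : Subgroup G), (R h - 1).trace = 0 ∧ (R h - 1).det = 0 := by
    intro h hh
    obtain ⟨n, hn⟩ := P.isPGroup' ⟨h, hh⟩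
    have hn' : h ^ p ^ n = 1 := by
      have := congrArg Subtype.val hn
      simpa using this
    apply trace_det_of_pow_eq_zero _ (p ^ n)
    rw [sub_pow_char_pow_of_commute p n (Commute.one_right _), one_pow, ← map_pow, hn',
      map_one, sub_self]
  have hdetP : ∀ h ∈ (P : Subgroup G), (R h).det = 1 := fun h hh =>
    det_eq_one_of_unipotent _ (hunip h hh).1 (hunip h hh).2
  -- a central element of `P`
  have : Nontrivial (P : Subgroup G) := (Subgroup.nontrivial_iff_ne_bot _).mpr hPtriv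
  have := IsPGroup.center_nontrivial P.isPGroup'
  obtain ⟨⟨z, hz⟩, hz1⟩ := exists_ne (1 : Subgroup.center (P : Subgroup G))
  have hzne : (z : G) ≠ 1 := by
    intro h
    apply hz1
    ext
    simpa using h
  have hzP : (z : G) ∈ (P : Subgroup G) := z.2
  obtain ⟨hNtr, hNdet⟩ := hunip z hzP
  have hN0 : R (z : G) - 1 ≠ 0 := fun h => hzne (hR (by rw [map_one]; exact sub_eq_zero.mp h))
  have hNN : (R (z : G) - 1) * (R (z : G) - 1) = 0 := by
    rw [mul_self_fin_two, hNtr, hNdet, zero_smul, zero_smul, sub_zero]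
  obtain ⟨w₀, hw₀⟩ : ∃ w₀ : Fin 2 → k, (R (z : G) - 1) *ᵥ w₀ ≠ 0 := by
    by_contra hall
    push Not at hall
    apply hN0
    ext i j
    have := congrFun (hall (Pi.single j 1)) i
    simpa using this
  set v1 : Fin 2 → k := (R (z : G) - 1) *ᵥ w₀ with hv1
  have hNv1 : (R (z : G) - 1) *ᵥ v1 = 0 := by
    rw [hv1, Matrix.mulVec_mulVec, hNN, Matrix.zero_mulVec]
  -- every element of `P` fixes `v1`
  have hfix : ∀ h ∈ (P : Subgroup G), R h *ᵥ v1 = v1 := by
    intro h hh
    have hcomm : R h * (R (z : G) - 1) = (R (z : G) - 1) * R h := by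
      have hzc : h * (z : G) = (z : G) * h := by
        have := Subgroup.mem_center_iff.mp hz ⟨h, hh⟩
        exact congrArg Subtype.val this
      rw [Matrix.mul_sub, Matrix.sub_mul, Matrix.mul_one, Matrix.one_mul, ← map_mul, ← map_mul,
        hzc]
    have h1 : R h *ᵥ v1 = (R (z : G) - 1) *ᵥ (R h *ᵥ w₀) := by
      rw [hv1, Matrix.mulVec_mulVec, Matrix.mulVec_mulVec, hcomm]
    obtain ⟨μ, hμ⟩ := exists_smul_of_det_eq_zero v1 ((R (z : G) - 1) *ᵥ (R h *ᵥ w₀)) hw₀ (by
      rw [hv1, mulVec_det_eq, hNdet, zero_mul])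
    obtain ⟨htr', hdet'⟩ := hunip h hh
    have hsq : (R h - 1) * (R h - 1) = 0 := by
      rw [mul_self_fin_two, htr', hdet', zero_smul, zero_smul, sub_zero]
    have h2 : (R h - 1) *ᵥ v1 = (μ - 1) • v1 := by
      rw [Matrix.sub_mulVec, Matrix.one_mulVec, h1, hμ, sub_smul, one_smul]
    have h3 : (μ - 1) • ((μ - 1) • v1) = 0 := by
      have : ((R h - 1) * (R h - 1)) *ᵥ v1 = (μ - 1) • ((μ - 1) • v1) := by
        rw [← Matrix.mulVec_mulVec, h2, Matrix.mulVec_smul, h2]
      rw [hsq, Matrix.zero_mulVec] at this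
      exact this.symm
    have hμ1 : μ = 1 := by
      rcases smul_eq_zero.mp h3 with h | h
      · exact sub_eq_zero.mp h
      · rcases smul_eq_zero.mp h with h | h
        · exact sub_eq_zero.mp h
        · exact absurd h hw₀
    rw [h1, hμ, hμ1, one_smul]
  -- the second basis vector
  obtain ⟨g₀, hg₀⟩ := hirr v1 hw₀
  set v2 : Fin 2 → k := R g₀ *ᵥ v1 with hv2
  have hdetB : v1 0 * v2 1 - v1 1 * v2 0 ≠ 0 := by
    intro h
    obtain ⟨μ, hμ⟩ := exists_smul_of_det_eq_zero v1 v2 hw₀ h
    exact hg₀ μ hμ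
  set B : Matrix (Fin 2) (Fin 2) k := !![v1 0, v2 0; v1 1, v2 1] with hB
  have hBdet : B.det ≠ 0 := by
    rw [hB, Matrix.det_fin_two_of]
    intro h
    exact hdetB (by linear_combination h)
  have hBu : IsUnit B.det := isUnit_iff_ne_zero.mpr hBdet
  have h1 : B * B⁻¹ = 1 := Matrix.mul_nonsing_inv B hBu
  have h2 : B⁻¹ * B = 1 := Matrix.nonsing_inv_mul B hBu
  have hBe0 : B *ᵥ ![1, 0] = v1 := by
    ext i
    fin_cases i <;> simp [hB, Matrix.mulVec, dotProduct, Fin.sum_univ_two]
  have hBe1 : B *ᵥ ![0, 1] = v2 := by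
    ext i
    fin_cases i <;> simp [hB, Matrix.mulVec, dotProduct, Fin.sum_univ_two]
  have hBie0 : B⁻¹ *ᵥ v1 = ![1, 0] := by
    rw [← hBe0, Matrix.mulVec_mulVec, h2, Matrix.one_mulVec]
  have hBie1 : B⁻¹ *ᵥ v2 = ![0, 1] := by
    rw [← hBe1, Matrix.mulVec_mulVec, h2, Matrix.one_mulVec]
  -- the conjugated representation and cocycle
  let R' : G →* Matrix (Fin 2) (Fin 2) k :=
    { toFun := fun g => B⁻¹ * R g * B
      map_one' := by rw [map_one, Matrix.mul_one, h2]
      map_mul' := fun g h => by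
        rw [map_mul]
        calc B⁻¹ * (R g * R h) * B = B⁻¹ * R g * 1 * R h * B := by
              simp only [Matrix.mul_one, Matrix.mul_assoc]
          _ = B⁻¹ * R g * B * (B⁻¹ * R h * B) := by
              rw [← h1]; simp only [Matrix.mul_assoc] }
  have hR'apply : ∀ g, R' g = B⁻¹ * R g * B := fun g => rfl
  have hback : ∀ X : Matrix (Fin 2) (Fin 2) k, B * (B⁻¹ * X * B) * B⁻¹ = X := by
    intro X
    calc B * (B⁻¹ * X * B) * B⁻¹ = (B * B⁻¹) * X * (B * B⁻¹) := by
          simp only [Matrix.mul_assoc]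
      _ = X := by rw [h1, Matrix.one_mul, Matrix.mul_one]
  have hR' : Function.Injective R' := by
    intro g h hgh
    apply hR
    rw [hR'apply, hR'apply] at hgh
    rw [← hback (R g), hgh, hback]
  have hdet' : ∀ g, (R' g).det = (R g).det := by
    intro g
    rw [hR'apply, Matrix.det_mul, Matrix.det_mul, mul_comm, ← mul_assoc, ← Matrix.det_mul, h1,
      Matrix.det_one, one_mul]
  set c' : G → Matrix (Fin 2) (Fin 2) k := fun g => B⁻¹ * c g * B with hc'def
  have hc' : IsCocycle R' c' := by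
    intro g h
    simp only [hc'def]
    rw [hR'apply, act_conj B B⁻¹ _ _ h1 h2, hc g h, Matrix.mul_add, Matrix.add_mul]
  have htr' : ∀ g, (c' g).trace = 0 := by
    intro g
    simp only [hc'def]
    rw [Matrix.trace_mul_comm, ← Matrix.mul_assoc, h1, Matrix.one_mul, htr]
  -- standard position
  have hPu : ∀ h ∈ (P : Subgroup G), ∃ x : k, R' h = uMat x := by
    intro h hh
    refine ⟨(R' h) 0 1, eq_uMat_of _ ?_ ?_⟩
    · rw [hR'apply, ← Matrix.mulVec_mulVec, ← Matrix.mulVec_mulVec, hBe0, hfix h hh, hBie0]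
    · rw [hdet', hdetP h hh]
  obtain ⟨x₁, hx₁⟩ := hPu z hzP
  have hx₁0 : x₁ ≠ 0 := by
    rintro rfl
    rw [uMat_zero] at hx₁
    exact hzne (hR' (by rw [hx₁, map_one]))
  have hh₁v2 : R (g₀ * (z : G) * g₀⁻¹) *ᵥ v2 = v2 := by
    have hRz : R (z : G) *ᵥ v1 = v1 := hfix z hzP
    rw [hv2, Matrix.mulVec_mulVec, ← map_mul]
    have : g₀ * (z : G) * g₀⁻¹ * g₀ = g₀ * (z : G) := by group
    rw [this, map_mul, ← Matrix.mulVec_mulVec, hRz]
  have hh₁det : (R (g₀ * (z : G) * g₀⁻¹)).det = 1 := by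
    rw [map_mul, map_mul, Matrix.det_mul, Matrix.det_mul, hdetP z hzP, mul_one, ← Matrix.det_mul,
      ← map_mul, mul_inv_cancel, map_one, Matrix.det_one]
  have hy : R' (g₀ * (z : G) * g₀⁻¹) = lMat ((R' (g₀ * (z : G) * g₀⁻¹)) 1 0) := by
    apply eq_lMat_of
    · rw [hR'apply, ← Matrix.mulVec_mulVec, ← Matrix.mulVec_mulVec, hBe1, hh₁v2, hBie1]
    · rw [hdet', hh₁det]
  have hy0 : (R' (g₀ * (z : G) * g₀⁻¹)) 1 0 ≠ 0 := by
    intro h0
    rw [h0, lMat_zero] at hy
    have : g₀ * (z : G) * g₀⁻¹ = 1 := hR' (by rw [hy, map_one])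
    exact hzne (conj_eq_one_iff.mp this)
  -- the normalizer element for `p = 5`
  have h5' : p = 5 → ∃ t ∈ Subgroup.normalizer ((P : Subgroup G) : Set G),
      (R' t).det ≠ 1 ∧ (R' t).det ≠ -1 := by
    intro hp5
    obtain ⟨g, hg1, hg2⟩ := h5 hp5
    let Nk : Subgroup G := ((Matrix.detMonoidHom (n := Fin 2) (R := k)).comp R).ker
    have hPN : (P : Subgroup G) ≤ Nk := by
      intro h hh
      rw [MonoidHom.mem_ker]
      exact hdetP h hh
    have htop := Sylow.normalizer_sup_eq_top' P hPN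
    have hgmem : g ∈ (Subgroup.normalizer ((P : Subgroup G) : Set G) ⊔ Nk : Subgroup G) := by
      have hg := Subgroup.mem_top g
      rw [← htop] at hg
      exact hg
    rw [← SetLike.mem_coe, Subgroup.mul_normal] at hgmem
    obtain ⟨t, ht, n, hn, rfl⟩ := Set.mem_mul.mp hgmem
    have hn1 : (R n).det = 1 := MonoidHom.mem_ker.mp hn
    refine ⟨t, ht, ?_, ?_⟩
    · rw [hdet']
      rw [map_mul, Matrix.det_mul, hn1, mul_one] at hg1
      exact hg1
    · rw [hdet']
      rw [map_mul, Matrix.det_mul, hn1, mul_one] at hg2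
      exact hg2
  obtain ⟨m', hm'tr, hm'⟩ := hc'.coboundary_on_unipotent p hp2 hR' htr' (P : Subgroup G) hPu
    (z : G) hzP x₁ hx₁ hx₁0 (g₀ * (z : G) * g₀⁻¹) _ hy hy0 h5'
  refine ⟨B * m' * B⁻¹, ?_, ?_⟩
  · rw [Matrix.trace_mul_comm, ← Matrix.mul_assoc, h2, Matrix.one_mul, hm'tr]
  · intro h hh
    have e1 := hm' h hh
    have e2 : m' = B⁻¹ * (B * m' * B⁻¹) * B := by
      calc m' = (B⁻¹ * B) * m' * (B⁻¹ * B) := by rw [h2, Matrix.one_mul, Matrix.mul_one]
        _ = B⁻¹ * (B * m' * B⁻¹) * B := by simp only [Matrix.mul_assoc]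
    have e3 : act (R' h) m' = B⁻¹ * act (R h) (B * m' * B⁻¹) * B := by
      rw [hR'apply]
      conv_lhs => rw [e2]
      exact act_conj B B⁻¹ _ _ h1 h2
    have e4 : c h = B * c' h * B⁻¹ := by
      simp only [hc'def]
      exact (hback (c h)).symm
    rw [e4, e1, e3, Matrix.mul_sub, Matrix.sub_mul, hback]

/-- `GL₂` form of the main theorem, with the action and the cocycle condition spelled out
(no auxiliary definitions in the statement). -/
theorem exists_coboundary_GL (p : ℕ) [Fact p.Prime] [CharP k p] (hp2 : p ≠ 2)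
    (r : G →* GL (Fin 2) k) (hr : Function.Injective r)
    (hirr : ∀ v : Fin 2 → k, v ≠ 0 → ∃ g : G, ∀ a : k, (r g).1 *ᵥ v ≠ a • v)
    (h5 : p = 5 → ∃ g : G, (r g).1.det ≠ 1 ∧ (r g).1.det ≠ -1)
    (c : G → Matrix (Fin 2) (Fin 2) k) (htr : ∀ g, (c g).trace = 0)
    (hc : ∀ g h, c (g * h) = c g + (r g).1 * c h * (r g).1.adjugate) :
    ∃ m : Matrix (Fin 2) (Fin 2) k, m.trace = 0 ∧
      ∀ g, c g = (r g).1 * m * (r g).1.adjugate - m := by
  have hR : Function.Injective ((Units.coeHom (Matrix (Fin 2) (Fin 2) k)).comp r) :=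
    fun g h hgh => hr (Units.ext hgh)
  exact exists_coboundary (R := (Units.coeHom (Matrix (Fin 2) (Fin 2) k)).comp r) p hp2 hR
    hirr h5 hc htr

end Main

end Fermat.Agent.S56.helper2852
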