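/-
S56, module R5 (bridge): H^1 vanishing for ad0(1) of a residual Galois representation,
in the frozen vocabulary, hypothesis-passing on the abstract group-theoretic core
(`Stmt_H1Core`, owner helper2852, findings 3065).

Contents.
* `central_inflation` : abstract inflation step along a central kernel.
* `exists_galois_pow` : every exponent prime to `p` is realised on the `p`-th roots of unity
  by an automorphism of the algebraic closure of the rationals.
* `det_eq_natCast` : the determinant of the residual representation at such an automorphism.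
* `irreducible_of_abs` : a stable subspace of an absolutely irreducible residual representation
  is trivial.
* `twisted_invariants_eq_zero` : H^0 of ad0(1) vanishes.
* `h1_vanish` : a cocycle with values in ad0(1) vanishing on the intersection of the kernel of
  the representation with the fixer of the `p^(n+1)`-th roots of unity is a coboundary.
-/
import Mathlib
import Fermat.Prelude.Def_GaloisRep_Residual
import Fermat.Prelude.Def_GaloisRep_LocalConditions
import Fermat.Agent.S53.helper3173_Burnside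

set_option autoImplicit false

noncomputable section

namespace Fermat.Agent.S56.helper2902

open Polynomial Matrix
open scoped TensorProduct

local notation "GQ" => AlgebraicClosure ℚ ≃ₐ[ℚ] AlgebraicClosure ℚ

/-! ### Abstract inflation along a central kernel -/

section Abstract

variable {G M : Type*} [Group G] [AddCommGroup M]

/-- A cocycle sends `1` to `0`. -/
theorem cocycle_one (act : G → M → M) (h1 : ∀ m, act 1 m = m)
    (ψ : G → M) (hcoc : ∀ g h, ψ (g * h) = ψ g + act g (ψ h)) : ψ 1 = 0 := by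
  have h := hcoc 1 1
  rw [mul_one, h1] at h
  exact left_eq_add.mp h

/-- **Central inflation.**  Let `K` be a normal subgroup acting trivially on `M`, and `Hn` a
subgroup containing all commutators.  A cocycle vanishing on `K ⊓ Hn` takes `G`-invariant
values on `K`; if those values cannot be nonzero invariants, it vanishes on `K`. -/
theorem central_inflation (act : G → M → M) (h1 : ∀ m, act 1 m = m)
    (hadd : ∀ g m m', act g (m + m') = act g m + act g m')
    (K Hn : Subgroup G) [K.Normal] (hab : ∀ g h : G, g * h * g⁻¹ * h⁻¹ ∈ Hn)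
    (hK : ∀ z ∈ K, ∀ m, act z m = m)
    (ψ : G → M) (hcoc : ∀ g h, ψ (g * h) = ψ g + act g (ψ h))
    (hvan : ∀ z ∈ K, z ∈ Hn → ψ z = 0)
    (hinv : ∀ z ∈ K, (∀ g, act g (ψ z) = ψ z) → ψ z = 0) :
    ∀ z ∈ K, ψ z = 0 := by
  intro z hz
  refine hinv z hz fun g => ?_
  have hψ1 : ψ 1 = 0 := cocycle_one act h1 ψ hcoc
  -- the commutator `w = g z g⁻¹ z⁻¹` lies in `K ⊓ Hn`
  have hwK : g * z * g⁻¹ * z⁻¹ ∈ K :=
    K.mul_mem (Subgroup.Normal.conj_mem inferInstance z hz g) (K.inv_mem hz)
  have hw0 : ψ (g * z * g⁻¹ * z⁻¹) = 0 := hvan _ hwK (hab g z)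
  -- `ψ (g z g⁻¹) = ψ z`
  have e1 : ψ (g * z * g⁻¹) = ψ z := by
    have h := hcoc (g * z * g⁻¹ * z⁻¹) z
    rw [inv_mul_cancel_right, hw0, zero_add, hK _ hwK] at h
    exact h
  -- `ψ (g z g⁻¹) = g • ψ z`
  have e2 : ψ (g * z * g⁻¹) = act g (ψ z) := by
    have ha := hcoc g (z * g⁻¹)
    have hb := hcoc z g⁻¹
    have hc := hcoc g g⁻¹
    rw [mul_inv_cancel, hψ1] at hc
    rw [hK z hz] at hb
    rw [← mul_assoc] at ha
    rw [ha, hb, hadd, ← add_assoc, add_right_comm, ← hc, zero_add]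
  rw [← e2, e1]

end Abstract

/-! ### Roots of unity -/

section Cyclo

/-- Every exponent prime to `N` is realised on the `N`-th roots of unity by an automorphism of
the algebraic closure of `ℚ` (irreducibility of the cyclotomic polynomial). -/
theorem exists_galois_pow (N : ℕ) [NeZero N] (a : ℕ) (ha : a.Coprime N) :
    ∃ σ : GQ, ∀ μ : AlgebraicClosure ℚ, μ ^ N = 1 → σ μ = μ ^ a := by
  have : Algebra.IsAlgebraic ℚ (AlgebraicClosure ℚ) := AlgebraicClosure.isAlgebraic ℚ
  have : IsAlgClosure ℚ (AlgebraicClosure ℚ) := ⟨inferInstance, inferInstance⟩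
  have : Normal ℚ (AlgebraicClosure ℚ) := IsAlgClosure.normal ℚ (AlgebraicClosure ℚ)
  obtain ⟨ζ, hζ⟩ := HasEnoughRootsOfUnity.exists_primitiveRoot (AlgebraicClosure ℚ) N
  have hζa : IsPrimitiveRoot (ζ ^ a) N := hζ.pow_of_coprime a ha
  have hN : 0 < N := Nat.pos_of_ne_zero (NeZero.ne N)
  have hconj : IsConjRoot ℚ (ζ ^ a) ζ := by
    unfold IsConjRoot
    rw [← cyclotomic_eq_minpoly_rat hζa hN, ← cyclotomic_eq_minpoly_rat hζ hN]
  obtain ⟨σ, hσ⟩ := hconj.exists_algEquiv
  refine ⟨σ, fun μ hμ => ?_⟩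
  obtain ⟨i, -, rfl⟩ := hζ.eq_pow_of_pow_eq_one hμ
  rw [map_pow, hσ, ← pow_mul, ← pow_mul, mul_comm]

/-- The fixer of the `N`-th roots of unity. -/
def fixRoots (N : ℕ) : Subgroup GQ where
  carrier := {σ | ∀ μ : AlgebraicClosure ℚ, μ ^ N = 1 → σ μ = μ}
  mul_mem' := by
    intro σ τ hσ hτ μ hμ
    rw [AlgEquiv.mul_apply, hτ μ hμ, hσ μ hμ]
  one_mem' := fun μ _ => rfl
  inv_mem' := by
    intro σ hσ μ hμ
    have h := hσ μ hμ
    calc σ⁻¹ μ = σ⁻¹ (σ μ) := by rw [h]
      _ = (σ⁻¹ * σ) μ := rfl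
      _ = μ := by rw [inv_mul_cancel]; rfl

theorem mem_fixRoots {N : ℕ} {σ : GQ} :
    σ ∈ fixRoots N ↔ ∀ μ : AlgebraicClosure ℚ, μ ^ N = 1 → σ μ = μ := Iff.rfl

/-- The Galois group acts on the `N`-th roots of unity through an abelian quotient. -/
theorem commutator_mem_fixRoots (N : ℕ) [NeZero N] (g h : GQ) :
    g * h * g⁻¹ * h⁻¹ ∈ fixRoots N := by
  obtain ⟨ζ, hζ⟩ := HasEnoughRootsOfUnity.exists_primitiveRoot (AlgebraicClosure ℚ) N
  have hpow : ∀ σ : GQ, ∃ a : ℕ, σ ζ = ζ ^ a := by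
    intro σ
    have h1 : (σ ζ) ^ N = 1 := by rw [← map_pow, hζ.pow_eq_one, map_one]
    obtain ⟨a, -, ha⟩ := hζ.eq_pow_of_pow_eq_one h1
    exact ⟨a, ha.symm⟩
  obtain ⟨a, ha⟩ := hpow g
  obtain ⟨b, hb⟩ := hpow h
  -- `g h` and `h g` agree on all roots of unity
  have hcomm : ∀ ν : AlgebraicClosure ℚ, ν ^ N = 1 → g (h ν) = h (g ν) := by
    intro ν hν
    obtain ⟨i, -, rfl⟩ := hζ.eq_pow_of_pow_eq_one hν
    simp only [map_pow, ha, hb, ← pow_mul]
    congr 1
    ring
  intro μ hμ
  have hν : (g⁻¹ (h⁻¹ μ)) ^ N = 1 := by rw [← map_pow, ← map_pow, hμ, map_one, map_one]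
  have key := hcomm _ hν
  have e1 : h (g (g⁻¹ (h⁻¹ μ))) = μ := by
    have : h (g (g⁻¹ (h⁻¹ μ))) = (h * g * g⁻¹ * h⁻¹) μ := rfl
    rw [this, mul_inv_cancel_right, mul_inv_cancel]
    rfl
  calc (g * h * g⁻¹ * h⁻¹) μ = g (h (g⁻¹ (h⁻¹ μ))) := rfl
    _ = μ := by rw [key, e1]

end Cyclo

/-! ### The residual representation -/

section Residual

variable {k : Type} [Field k]

/-- The determinant of `ρbar` at an automorphism acting on `μ_p` through `a`. -/
theorem det_eq_natCast (p : ℕ) (ρbar : ResidualGaloisRep k)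
    (hdet : (GaloisRepAdic.ofResidualGaloisRep ρbar).DetIsCyclotomic p)
    (σ : GQ) (a : ℕ) (hσ : ∀ μ : AlgebraicClosure ℚ, μ ^ p = 1 → σ μ = μ ^ a) :
    LinearMap.det (ρbar.ρ σ) = (a : k) := by
  obtain ⟨hp, h⟩ := hdet
  have hp0 : (p : k) = 0 := by
    rw [IsLocalRing.maximalIdeal_eq_bot] at hp
    exact hp
  have h1 := h 1 σ a (by simpa using hσ)
  rw [pow_one, hp0, Ideal.span_singleton_eq_bot.mpr rfl, Ideal.mem_bot, sub_eq_zero] at h1
  exact h1

/-- The characteristic of the residue field. -/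
theorem charP_of_det (p : ℕ) [Fact p.Prime] (ρbar : ResidualGaloisRep k)
    (hdet : (GaloisRepAdic.ofResidualGaloisRep ρbar).DetIsCyclotomic p) : CharP k p := by
  obtain ⟨hp, -⟩ := hdet
  have hp0 : (p : k) = 0 := by
    rw [IsLocalRing.maximalIdeal_eq_bot] at hp
    exact hp
  have hdvd : ringChar k ∣ p := ringChar.dvd hp0
  rcases (Nat.dvd_prime (Fact.out : p.Prime)).mp hdvd with h | h
  · exact absurd h CharP.ringChar_ne_one
  · exact ringChar.of_eq h

theorem rho_inv_apply (ρbar : ResidualGaloisRep k) (σ : GQ) (x : ρbar.V) :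
    ρbar.ρ σ⁻¹ (ρbar.ρ σ x) = x := by
  have h : ρbar.ρ σ⁻¹ * ρbar.ρ σ = 1 := by rw [← map_mul, inv_mul_cancel, map_one]
  have h2 := congrArg (fun T : Module.End k ρbar.V => T x) h
  exact h2

theorem rho_apply_inv (ρbar : ResidualGaloisRep k) (σ : GQ) (x : ρbar.V) :
    ρbar.ρ σ (ρbar.ρ σ⁻¹ x) = x := by
  have h : ρbar.ρ σ * ρbar.ρ σ⁻¹ = 1 := by rw [← map_mul, mul_inv_cancel, map_one]
  have h2 := congrArg (fun T : Module.End k ρbar.V => T x) h
  exact h2

theorem det_rho_mul_inv (ρbar : ResidualGaloisRep k) (σ : GQ) :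
    LinearMap.det (ρbar.ρ σ) * LinearMap.det (ρbar.ρ σ⁻¹) = 1 := by
  rw [← map_mul, ← map_mul, mul_inv_cancel, map_one, map_one]

/-- A stable subspace of an absolutely irreducible residual representation is trivial. -/
theorem irreducible_of_abs (ρbar : ResidualGaloisRep k) (habs : ρbar.IsAbsolutelyIrreducible)
    (W : Submodule k ρbar.V) (hW : ∀ σ : GQ, ∀ x ∈ W, ρbar.ρ σ x ∈ W) : W = ⊥ ∨ W = ⊤ := by
  have hspan := Fermat.Agent.S53.helper3173.span_range_eq_top ρbar habs
  have hall : ∀ T : Module.End k ρbar.V, ∀ x ∈ W, T x ∈ W := by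
    intro T
    have hT : T ∈ Submodule.span k (Set.range ρbar.ρ) := by rw [hspan]; exact Submodule.mem_top
    induction hT using Submodule.span_induction with
    | mem x hx => obtain ⟨σ, rfl⟩ := hx; exact hW σ
    | zero => intro x _; simp
    | add S T _ _ hS hT => intro x hx; exact W.add_mem (hS x hx) (hT x hx)
    | smul a S _ hS => intro x hx; exact W.smul_mem a (hS x hx)
  by_cases hbot : W = ⊥
  · exact Or.inl hbot
  right
  obtain ⟨w, hwW, hw0⟩ := (Submodule.ne_bot_iff W).mp hbot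
  rw [eq_top_iff]
  intro v _
  obtain ⟨f, hf⟩ : ∃ f : Module.Dual k ρbar.V, f w ≠ 0 := by
    by_contra h
    push Not at h
    exact hw0 ((Module.forall_dual_apply_eq_zero_iff k w).mp h)
  have h := hall ((f w)⁻¹ • f.smulRight v) w hwW
  simpa [LinearMap.smulRight_apply, smul_smul, inv_mul_cancel₀ hf] using h

/-- The subgroup of automorphisms of determinant one. -/
def detOne (ρbar : ResidualGaloisRep k) : Subgroup GQ where
  carrier := {σ | LinearMap.det (ρbar.ρ σ) = 1}
  mul_mem' := by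
    intro σ τ hσ hτ
    show LinearMap.det (ρbar.ρ (σ * τ)) = 1
    rw [map_mul, map_mul, hσ, hτ, mul_one]
  one_mem' := by
    show LinearMap.det (ρbar.ρ 1) = 1
    rw [map_one, map_one]
  inv_mem' := by
    intro σ hσ
    show LinearMap.det (ρbar.ρ σ⁻¹) = 1
    have h := det_rho_mul_inv ρbar σ
    rw [hσ, one_mul] at h
    exact h

theorem mem_detOne {ρbar : ResidualGaloisRep k} {σ : GQ} :
    σ ∈ detOne ρbar ↔ LinearMap.det (ρbar.ρ σ) = 1 := Iff.rfl

/-- **H^0 of ad(1) vanishes.**  An endomorphism fixed by the twisted conjugation action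
`X ↦ det(ρ σ) • ρ σ X (ρ σ)⁻¹` of an absolutely irreducible residual representation with
cyclotomic determinant is zero (`p` odd; for `p = 3` the Taylor-Wiles hypothesis is used). -/
theorem twisted_invariants_eq_zero (p : ℕ) [Fact p.Prime] (hp2 : p ≠ 2)
    (ρbar : ResidualGaloisRep k) (habs : ρbar.IsAbsolutelyIrreducible)
    (hdet : (GaloisRepAdic.ofResidualGaloisRep ρbar).DetIsCyclotomic p)
    (hTW : ∀ (K : Type) [Field K] [Algebra k K] (G : Subgroup GQ), G.index = 2 →
      ∀ V : Submodule K (ρbar.baseChange K).V,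
        (∀ σ ∈ G, ∀ x ∈ V, (ρbar.baseChange K).ρ σ x ∈ V) → V = ⊥ ∨ V = ⊤)
    (X : Module.End k ρbar.V)
    (hX : ∀ σ : GQ, LinearMap.det (ρbar.ρ σ) • (ρbar.ρ σ * X * ρbar.ρ σ⁻¹) = X) : X = 0 := by
  have hp : p.Prime := Fact.out
  have : CharP k p := charP_of_det p ρbar hdet
  by_cases hker : LinearMap.ker X = ⊥
  swap
  · -- the kernel is a nonzero stable subspace
    have hst : ∀ σ : GQ, ∀ x ∈ LinearMap.ker X, ρbar.ρ σ x ∈ LinearMap.ker X := by
      intro σ x hx
      rw [LinearMap.mem_ker] at hx ⊢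
      have h := congrArg (fun T : Module.End k ρbar.V => T (ρbar.ρ σ x)) (hX σ)
      simp only [LinearMap.smul_apply, Module.End.mul_apply] at h
      rw [rho_inv_apply, hx, map_zero, smul_zero] at h
      exact h.symm
    rcases irreducible_of_abs ρbar habs _ hst with h | h
    · exact absurd h hker
    · exact LinearMap.ker_eq_top.mp h
  -- now `X` is injective, so `det X ≠ 0`, and `det (ρ σ) ^ 2 = 1` for all `σ`
  exfalso
  have hdX : LinearMap.det X ≠ 0 := by
    intro h0
    have := LinearMap.bot_lt_ker_of_det_eq_zero h0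
    rw [hker] at this
    exact lt_irrefl _ this
  have hsq : ∀ σ : GQ, LinearMap.det (ρbar.ρ σ) ^ 2 = 1 := by
    intro σ
    have h := congrArg LinearMap.det (hX σ)
    rw [LinearMap.det_smul, ρbar.finrank_eq, map_mul, map_mul, mul_right_comm _ (LinearMap.det X),
      det_rho_mul_inv, one_mul] at h
    exact mul_right_cancel₀ hdX (h.trans (one_mul _).symm)
  -- an automorphism with determinant `2`
  have : NeZero p := ⟨hp.ne_zero⟩
  have hcop : Nat.Coprime 2 p := (Nat.coprime_primes Nat.prime_two hp).mpr (Ne.symm hp2)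
  obtain ⟨σ₀, hσ₀⟩ := exists_galois_pow p 2 hcop
  have hd0 : LinearMap.det (ρbar.ρ σ₀) = ((2 : ℕ) : k) := det_eq_natCast p ρbar hdet σ₀ 2 hσ₀
  have h3 : ((3 : ℕ) : k) = 0 := by
    have h := hsq σ₀
    rw [hd0] at h
    push_cast at h ⊢
    linear_combination h
  have hp3 : p = 3 :=
    (Nat.prime_dvd_prime_iff_eq hp Nat.prime_three).mp ((CharP.cast_eq_zero_iff k p 3).mp h3)
  have h2k : (2 : k) ≠ 0 := by
    intro h
    have h' : ((2 : ℕ) : k) = 0 := by exact_mod_cast h
    have := (CharP.cast_eq_zero_iff k p 2).mp h'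
    exact hp2 ((Nat.prime_dvd_prime_iff_eq hp Nat.prime_two).mp this)
  have hdm1 : LinearMap.det (ρbar.ρ σ₀) = -1 := by
    rw [hd0]
    push_cast at h3 ⊢
    linear_combination h3
  -- the determinant-one subgroup has index two
  have hidx : (detOne ρbar).index = 2 := by
    rw [Subgroup.index_eq_two_iff]
    refine ⟨σ₀, fun b => ?_⟩
    have hb : LinearMap.det (ρbar.ρ (b * σ₀)) = - LinearMap.det (ρbar.ρ b) := by
      rw [map_mul, map_mul, hdm1, mul_neg_one]
    rcases sq_eq_one_iff.mp (hsq b) with h1 | h1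
    · right
      refine ⟨h1, fun h => ?_⟩
      rw [mem_detOne, hb, h1] at h
      apply h2k
      linear_combination -h
    · left
      refine ⟨?_, fun h => ?_⟩
      · rw [mem_detOne, hb, h1, neg_neg]
      · rw [mem_detOne, h1] at h
        apply h2k
        linear_combination -h
  -- apply the Taylor-Wiles hypothesis over the algebraic closure
  let K := AlgebraicClosure k
  let XK : Module.End K (ρbar.baseChange K).V := LinearMap.baseChange K X
  have : Nontrivial (ρbar.baseChange K).V :=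
    Module.nontrivial_of_finrank_pos (R := K) (by rw [(ρbar.baseChange K).finrank_eq]; norm_num)
  obtain ⟨lam, hlam⟩ := Module.End.exists_eigenvalue XK
  have hcommK : ∀ σ ∈ detOne ρbar, ∀ x,
      XK ((ρbar.baseChange K).ρ σ x) = (ρbar.baseChange K).ρ σ (XK x) := by
    intro σ hσ x
    have h := hX σ
    rw [mem_detOne.mp hσ, one_smul] at h
    have h2 : ρbar.ρ σ * X = X * ρbar.ρ σ := by
      conv_rhs => rw [← h]
      rw [mul_assoc, ← map_mul, inv_mul_cancel, map_one, mul_one]
    have h3 := congrArg (LinearMap.baseChange K) h2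
    rw [LinearMap.baseChange_mul, LinearMap.baseChange_mul] at h3
    exact (congrArg (fun T : Module.End K (K ⊗[k] ρbar.V) => T x) h3).symm
  have hE := hTW K (detOne ρbar) hidx (Module.End.eigenspace XK lam) (by
    intro σ hσ x hx
    rw [Module.End.mem_eigenspace_iff] at hx ⊢
    rw [hcommK σ hσ x, hx, map_smul])
  rcases hE with hE | hE
  · exact hlam hE
  have hall : ∀ x, XK x = lam • x := fun x =>
    Module.End.mem_eigenspace_iff.mp (hE ▸ Submodule.mem_top)
  have hanti : ∀ x,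
      XK ((ρbar.baseChange K).ρ σ₀ x) = - (ρbar.baseChange K).ρ σ₀ (XK x) := by
    intro x
    have h := hX σ₀
    rw [hdm1] at h
    have h2 : X * ρbar.ρ σ₀ = -(ρbar.ρ σ₀ * X) := by
      conv_lhs => rw [← h]
      rw [smul_mul_assoc, mul_assoc (ρbar.ρ σ₀ * X), ← map_mul, inv_mul_cancel, map_one, mul_one,
        neg_one_smul]
    have h3 := congrArg (LinearMap.baseChange K) h2
    rw [LinearMap.baseChange_mul, LinearMap.baseChange_neg, LinearMap.baseChange_mul] at h3
    exact congrArg (fun T : Module.End K (K ⊗[k] ρbar.V) => T x) h3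
  obtain ⟨y, hy⟩ := exists_ne (0 : (ρbar.baseChange K).V)
  have hy' : (ρbar.baseChange K).ρ σ₀ y ≠ 0 := by
    intro h0
    apply hy
    have := rho_inv_apply (ρbar.baseChange K) σ₀ y
    rw [h0, map_zero] at this
    exact this.symm
  have h2lam : (2 * lam) • (ρbar.baseChange K).ρ σ₀ y = 0 := by
    have h := hanti y
    rw [hall, hall, map_smul] at h
    rw [two_mul, add_smul]
    nth_rewrite 1 [h]
    rw [neg_add_cancel]
  have h2K : (2 : K) ≠ 0 := by
    intro h
    have h' : algebraMap k K 2 = 0 := by rw [map_ofNat]; exact h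
    exact h2k ((map_eq_zero (algebraMap k K)).mp h')
  have hlam0 : lam = 0 := by
    rcases smul_eq_zero.mp h2lam with h | h
    · rcases mul_eq_zero.mp h with h' | h'
      · exact absurd h' h2K
      · exact h'
    · exact absurd h hy'
  have hXK0 : XK = 0 := by
    apply LinearMap.ext
    intro x
    rw [hall, hlam0, zero_smul, LinearMap.zero_apply]
  have hdetK : LinearMap.det XK = algebraMap k K (LinearMap.det X) := LinearMap.det_baseChange X
  rw [hXK0, LinearMap.det_zero, (ρbar.baseChange K).finrank_eq] at hdetK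
  exact hdX ((map_eq_zero (algebraMap k K)).mp (by rw [← hdetK]; norm_num))

/-! ### Descent to the finite image and the abstract core -/

/-- The abstract group-theoretic core (owner helper2852, findings 3065): for a finite group
with a faithful two-dimensional representation without stable line over a field of odd
characteristic `p` (and, if `p = 5`, some determinant outside `{1, -1}`), every cocycle with
values in the trace-zero matrices, for the action `m ↦ g m adj(g)`, is a coboundary. -/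
def Stmt_H1Core : Prop :=
  ∀ (k : Type) [Field k] (p : ℕ) [Fact p.Prime] [CharP k p], p ≠ 2 →
  ∀ (G : Type) [Group G] [Finite G] (r : G →* GL (Fin 2) k), Function.Injective r →
    (∀ v : Fin 2 → k, v ≠ 0 → ∃ g : G, ∀ a : k, (r g).1 *ᵥ v ≠ a • v) →
    (p = 5 → ∃ g : G, (r g).1.det ≠ 1 ∧ (r g).1.det ≠ -1) →
    ∀ c : G → Matrix (Fin 2) (Fin 2) k, (∀ g, (c g).trace = 0) →
      (∀ g h, c (g * h) = c g + (r g).1 * c h * (r g).1.adjugate) →
      ∃ m : Matrix (Fin 2) (Fin 2) k, m.trace = 0 ∧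
        ∀ g, c g = (r g).1 * m * (r g).1.adjugate - m

/-- The matrices of `ρbar` in a basis, as a homomorphism to `GL₂(k)`. -/
def matRep (ρbar : ResidualGaloisRep k) (b : Module.Basis (Fin 2) k ρbar.V) :
    GQ →* GL (Fin 2) k :=
  MonoidHom.toHomUnits
    { toFun := fun σ => LinearMap.toMatrix b b (ρbar.ρ σ)
      map_one' := by rw [map_one]; exact LinearMap.toMatrix_one b
      map_mul' := fun σ τ => by rw [map_mul]; exact LinearMap.toMatrix_mul b _ _ }

theorem matRep_coe (ρbar : ResidualGaloisRep k) (b : Module.Basis (Fin 2) k ρbar.V) (σ : GQ) :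
    ((matRep ρbar b σ : GL (Fin 2) k) : Matrix (Fin 2) (Fin 2) k)
      = LinearMap.toMatrix b b (ρbar.ρ σ) := rfl

theorem matRep_eq_iff (ρbar : ResidualGaloisRep k) (b : Module.Basis (Fin 2) k ρbar.V)
    (σ τ : GQ) : matRep ρbar b σ = matRep ρbar b τ ↔ ρbar.ρ σ = ρbar.ρ τ := by
  rw [Units.ext_iff, matRep_coe, matRep_coe]
  exact (LinearMap.toMatrix b b).injective.eq_iff

/-- The adjugate of the matrix of `ρ σ`. -/
theorem adjugate_toMatrix (ρbar : ResidualGaloisRep k) (b : Module.Basis (Fin 2) k ρbar.V)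
    (σ : GQ) :
    (LinearMap.toMatrix b b (ρbar.ρ σ)).adjugate
      = LinearMap.det (ρbar.ρ σ) • LinearMap.toMatrix b b (ρbar.ρ σ⁻¹) := by
  have h1 : LinearMap.toMatrix b b (ρbar.ρ σ) * LinearMap.toMatrix b b (ρbar.ρ σ⁻¹) = 1 := by
    rw [← LinearMap.toMatrix_mul, ← map_mul, mul_inv_cancel, map_one, LinearMap.toMatrix_one]
  calc (LinearMap.toMatrix b b (ρbar.ρ σ)).adjugate
      = (LinearMap.toMatrix b b (ρbar.ρ σ)).adjugate
          * (LinearMap.toMatrix b b (ρbar.ρ σ) * LinearMap.toMatrix b b (ρbar.ρ σ⁻¹)) := by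
        rw [h1, mul_one]
    _ = LinearMap.det (ρbar.ρ σ) • LinearMap.toMatrix b b (ρbar.ρ σ⁻¹) := by
        rw [← mul_assoc, Matrix.adjugate_mul, LinearMap.det_toMatrix, smul_mul_assoc, one_mul]

/-- The twisted conjugation in matrix form. -/
theorem toMatrix_twist (ρbar : ResidualGaloisRep k) (b : Module.Basis (Fin 2) k ρbar.V)
    (σ : GQ) (Y : Module.End k ρbar.V) :
    LinearMap.toMatrix b b (LinearMap.det (ρbar.ρ σ) • (ρbar.ρ σ * Y * ρbar.ρ σ⁻¹))
      = LinearMap.toMatrix b b (ρbar.ρ σ) * LinearMap.toMatrix b b Y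
          * (LinearMap.toMatrix b b (ρbar.ρ σ)).adjugate := by
  rw [adjugate_toMatrix, map_smul, LinearMap.toMatrix_mul, LinearMap.toMatrix_mul,
    Matrix.mul_smul]

/-- No line of `k²` is stable under the matrices of an absolutely irreducible `ρbar`. -/
theorem no_stable_line (ρbar : ResidualGaloisRep k) (habs : ρbar.IsAbsolutelyIrreducible)
    (b : Module.Basis (Fin 2) k ρbar.V) (v : Fin 2 → k) (hv : v ≠ 0) :
    ∃ σ : GQ, ∀ a : k, LinearMap.toMatrix b b (ρbar.ρ σ) *ᵥ v ≠ a • v := by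
  by_contra hno
  push Not at hno
  set w : ρbar.V := b.equivFun.symm v with hw
  have hrepr : ⇑(b.repr w) = v := by
    have := b.equivFun.apply_symm_apply v
    rw [← hw] at this
    exact this
  have hw0 : w ≠ 0 := by
    intro h0
    apply hv
    rw [← hrepr, h0, map_zero]
    rfl
  have hst : ∀ σ : GQ, ∀ x ∈ Submodule.span k {w}, ρbar.ρ σ x ∈ Submodule.span k {w} := by
    intro σ x hx
    obtain ⟨c, rfl⟩ := Submodule.mem_span_singleton.mp hx
    obtain ⟨a, ha⟩ := hno σ
    have h1 : ρbar.ρ σ w = a • w := by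
      apply b.repr.injective
      apply DFunLike.coe_injective
      have h2 := LinearMap.toMatrix_mulVec_repr b b (ρbar.ρ σ) w
      rw [hrepr, ha] at h2
      rw [← h2, map_smul, Finsupp.coe_smul, hrepr]
    rw [map_smul, h1]
    exact Submodule.smul_mem _ _ (Submodule.smul_mem _ _ (Submodule.mem_span_singleton_self w))
  rcases irreducible_of_abs ρbar habs _ hst with h | h
  · exact hw0 ((Submodule.span_singleton_eq_bot).mp h)
  · have h1 : Module.finrank k (Submodule.span k {w}) = 1 := finrank_span_singleton hw0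
    rw [h, finrank_top, ρbar.finrank_eq] at h1
    norm_num at h1

/-- A cocycle with values in `ad0(1)` vanishing on the kernel of `ρbar` is a coboundary
(the abstract core applied to the image of `ρbar`). -/
theorem coboundary_of_vanish_ker [Finite k] (hcore : Stmt_H1Core) (p : ℕ) [Fact p.Prime]
    (hp2 : p ≠ 2) (ρbar : ResidualGaloisRep k) (habs : ρbar.IsAbsolutelyIrreducible)
    (hdet : (GaloisRepAdic.ofResidualGaloisRep ρbar).DetIsCyclotomic p)
    (ψ : GQ → Module.End k ρbar.V)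
    (htr : ∀ σ, LinearMap.trace k ρbar.V (ψ σ) = 0)
    (hcoc : ∀ σ τ, ψ (σ * τ)
      = ψ σ + LinearMap.det (ρbar.ρ σ) • (ρbar.ρ σ * ψ τ * ρbar.ρ σ⁻¹))
    (hvan : ∀ σ, ρbar.ρ σ = 1 → ψ σ = 0) :
    ∃ X : Module.End k ρbar.V, LinearMap.trace k ρbar.V X = 0 ∧
      ∀ σ, ψ σ = LinearMap.det (ρbar.ρ σ) • (ρbar.ρ σ * X * ρbar.ρ σ⁻¹) - X := by
  classical
  have hp : p.Prime := Fact.out
  have hchar : CharP k p := charP_of_det p ρbar hdet
  let b : Module.Basis (Fin 2) k ρbar.V := Module.finBasisOfFinrankEq k ρbar.V ρbar.finrank_eq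
  -- `ψ` is constant on the fibres of `ρbar`
  have hcongr : ∀ σ τ : GQ, ρbar.ρ σ = ρbar.ρ τ → ψ σ = ψ τ := by
    intro σ τ h
    have h1 : ρbar.ρ (τ⁻¹ * σ) = 1 := by
      rw [map_mul, h, ← map_mul, inv_mul_cancel, map_one]
    have h2 := hcoc τ (τ⁻¹ * σ)
    rw [mul_inv_cancel_left, hvan _ h1, mul_zero, zero_mul, smul_zero, add_zero] at h2
    exact h2
  let Γ : Subgroup (GL (Fin 2) k) := (matRep ρbar b).range
  have hpre : ∀ γ : Γ, ∃ σ : GQ, matRep ρbar b σ = γ.1 := fun γ => γ.2
  let pre : Γ → GQ := fun γ => Classical.choose (hpre γ)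
  have hpre_spec : ∀ γ : Γ, matRep ρbar b (pre γ) = γ.1 := fun γ => Classical.choose_spec (hpre γ)
  let c : Γ → Matrix (Fin 2) (Fin 2) k := fun γ => LinearMap.toMatrix b b (ψ (pre γ))
  have hc_eq : ∀ σ : GQ, ∀ γ : Γ, matRep ρbar b σ = γ.1 → c γ = LinearMap.toMatrix b b (ψ σ) := by
    intro σ γ h
    show LinearMap.toMatrix b b (ψ (pre γ)) = _
    rw [hcongr (pre γ) σ ((matRep_eq_iff ρbar b _ _).mp ((hpre_spec γ).trans h.symm))]
  unfold Stmt_H1Core at hcore
  obtain ⟨m, hm0, hm⟩ := hcore k p hp2 Γ Γ.subtype Subtype.coe_injective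
    (by
      intro v hv
      obtain ⟨σ, hσ⟩ := no_stable_line ρbar habs b v hv
      exact ⟨⟨matRep ρbar b σ, σ, rfl⟩, hσ⟩)
    (by
      intro hp5
      have : NeZero p := ⟨hp.ne_zero⟩
      have hcop : Nat.Coprime 2 p := (Nat.coprime_primes Nat.prime_two hp).mpr (Ne.symm hp2)
      obtain ⟨σ₀, hσ₀⟩ := exists_galois_pow p 2 hcop
      have hd0 : LinearMap.det (ρbar.ρ σ₀) = ((2 : ℕ) : k) :=
        det_eq_natCast p ρbar hdet σ₀ 2 hσ₀
      refine ⟨⟨matRep ρbar b σ₀, σ₀, rfl⟩, ?_, ?_⟩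
      · show (LinearMap.toMatrix b b (ρbar.ρ σ₀)).det ≠ 1
        rw [LinearMap.det_toMatrix, hd0]
        intro h
        have h1 : ((1 : ℕ) : k) = 0 := by
          push_cast at h ⊢
          linear_combination h
        have := (CharP.cast_eq_zero_iff k p 1).mp h1
        exact hp.one_lt.ne' (Nat.dvd_one.mp this)
      · show (LinearMap.toMatrix b b (ρbar.ρ σ₀)).det ≠ -1
        rw [LinearMap.det_toMatrix, hd0]
        intro h
        have h3 : ((3 : ℕ) : k) = 0 := by
          push_cast at h ⊢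
          linear_combination h
        have := (CharP.cast_eq_zero_iff k p 3).mp h3
        have := (Nat.prime_dvd_prime_iff_eq hp Nat.prime_three).mp this
        omega)
    c
    (by
      intro γ
      show (LinearMap.toMatrix b b (ψ (pre γ))).trace = 0
      rw [← LinearMap.trace_eq_matrix_trace k b, htr])
    (by
      intro γ γ'
      have h1 : matRep ρbar b (pre γ * pre γ') = (γ * γ').1 := by
        rw [map_mul, hpre_spec, hpre_spec]
        rfl
      rw [hc_eq _ _ h1, hcoc, map_add, toMatrix_twist]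
      show _ = LinearMap.toMatrix b b (ψ (pre γ)) + (γ.1 : Matrix (Fin 2) (Fin 2) k)
        * LinearMap.toMatrix b b (ψ (pre γ')) * (γ.1 : Matrix (Fin 2) (Fin 2) k).adjugate
      rw [← hpre_spec γ, matRep_coe])
  refine ⟨Matrix.toLin b b m, ?_, fun σ => ?_⟩
  · rw [LinearMap.trace_eq_matrix_trace k b, LinearMap.toMatrix_toLin, hm0]
  · apply (LinearMap.toMatrix b b).injective
    have h1 := hm ⟨matRep ρbar b σ, σ, rfl⟩
    rw [hc_eq σ ⟨matRep ρbar b σ, σ, rfl⟩ rfl] at h1
    rw [h1, map_sub, toMatrix_twist, LinearMap.toMatrix_toLin]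
    rfl

/-- The kernel of `ρbar` as a subgroup. -/
def kerRho (ρbar : ResidualGaloisRep k) : Subgroup GQ where
  carrier := {σ | ρbar.ρ σ = 1}
  mul_mem' := by
    intro σ τ hσ hτ
    show ρbar.ρ (σ * τ) = 1
    rw [map_mul, hσ, hτ, mul_one]
  one_mem' := map_one _
  inv_mem' := by
    intro σ hσ
    show ρbar.ρ σ⁻¹ = 1
    have h : ρbar.ρ σ⁻¹ * ρbar.ρ σ = 1 := by rw [← map_mul, inv_mul_cancel, map_one]
    rw [hσ, mul_one] at h
    exact h

theorem mem_kerRho {ρbar : ResidualGaloisRep k} {σ : GQ} :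
    σ ∈ kerRho ρbar ↔ ρbar.ρ σ = 1 := Iff.rfl

instance kerRho_normal (ρbar : ResidualGaloisRep k) : (kerRho ρbar).Normal where
  conj_mem := by
    intro z hz g
    show ρbar.ρ (g * z * g⁻¹) = 1
    rw [map_mul, map_mul, mem_kerRho.mp hz, mul_one, ← map_mul, mul_inv_cancel, map_one]

/-- **H^1 vanishing for `ad0(1)`, frozen vocabulary.**  Let `ρbar` be an absolutely irreducible
residual representation over a finite field of odd characteristic `p`, with cyclotomic
determinant and satisfying the Taylor-Wiles hypothesis.  A cocycle `ψ` on the absolute Galois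
group with values in the trace-zero endomorphisms, for the action
`X ↦ det(ρ σ) • ρ σ X (ρ σ)⁻¹`, which vanishes on the automorphisms in the kernel of `ρbar`
fixing the `p^(n+1)`-th roots of unity, is a coboundary. -/
theorem h1_vanish [Finite k] (hcore : Stmt_H1Core) (p : ℕ) [Fact p.Prime] (hp2 : p ≠ 2)
    (ρbar : ResidualGaloisRep k) (habs : ρbar.IsAbsolutelyIrreducible)
    (hdet : (GaloisRepAdic.ofResidualGaloisRep ρbar).DetIsCyclotomic p)
    (hTW : ∀ (K : Type) [Field K] [Algebra k K] (G : Subgroup GQ), G.index = 2 →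
      ∀ V : Submodule K (ρbar.baseChange K).V,
        (∀ σ ∈ G, ∀ x ∈ V, (ρbar.baseChange K).ρ σ x ∈ V) → V = ⊥ ∨ V = ⊤)
    (n : ℕ) (ψ : GQ → Module.End k ρbar.V)
    (htr : ∀ σ, LinearMap.trace k ρbar.V (ψ σ) = 0)
    (hcoc : ∀ σ τ, ψ (σ * τ)
      = ψ σ + LinearMap.det (ρbar.ρ σ) • (ρbar.ρ σ * ψ τ * ρbar.ρ σ⁻¹))
    (hvan : ∀ σ, ρbar.ρ σ = 1 →
      (∀ μ : AlgebraicClosure ℚ, μ ^ p ^ (n + 1) = 1 → σ μ = μ) → ψ σ = 0) :
    ∃ X : Module.End k ρbar.V, LinearMap.trace k ρbar.V X = 0 ∧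
      ∀ σ, ψ σ = LinearMap.det (ρbar.ρ σ) • (ρbar.ρ σ * X * ρbar.ρ σ⁻¹) - X := by
  have hp : p.Prime := Fact.out
  have : NeZero (p ^ (n + 1)) := ⟨pow_ne_zero _ hp.ne_zero⟩
  refine coboundary_of_vanish_ker hcore p hp2 ρbar habs hdet ψ htr hcoc ?_
  have key := central_inflation
    (fun (g : GQ) (m : Module.End k ρbar.V) =>
      LinearMap.det (ρbar.ρ g) • (ρbar.ρ g * m * ρbar.ρ g⁻¹))
    (by
      intro m
      show LinearMap.det (ρbar.ρ 1) • (ρbar.ρ 1 * m * ρbar.ρ 1⁻¹) = m
      rw [inv_one, map_one, map_one, one_smul, one_mul, mul_one])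
    (by
      intro g m m'
      show LinearMap.det (ρbar.ρ g) • (ρbar.ρ g * (m + m') * ρbar.ρ g⁻¹) = _
      rw [mul_add, add_mul, smul_add])
    (kerRho ρbar) (fixRoots (p ^ (n + 1)))
    (commutator_mem_fixRoots (p ^ (n + 1)))
    (by
      intro z hz m
      show LinearMap.det (ρbar.ρ z) • (ρbar.ρ z * m * ρbar.ρ z⁻¹) = m
      rw [mem_kerRho.mp hz, mem_kerRho.mp ((kerRho ρbar).inv_mem hz), map_one, one_smul,
        one_mul, mul_one])
    ψ hcoc
    (fun z hz hz' => hvan z hz hz')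
    (fun z _ hinv => twisted_invariants_eq_zero p hp2 ρbar habs hdet hTW (ψ z) hinv)
  exact fun σ hσ => key σ hσ

end Residual

end Fermat.Agent.S56.helper2902
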