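/-
S56, module R5 (final form): H^1 vanishing for ad0(1) of a residual Galois representation,
unconditional.  The abstract core `Stmt_H1Core` of `helper2902_H1Galois` is discharged by
`helper2852.exists_coboundary_GL` (findings 3065).
-/
import Fermat.Agent.S56.helper2902_H1Galois
import Fermat.Agent.S56.helper2852_H1Sym2

set_option autoImplicit false

namespace Fermat.Agent.S56.helper2902

open Polynomial

local notation "GQ" => AlgebraicClosure ℚ ≃ₐ[ℚ] AlgebraicClosure ℚ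

/-- The abstract core is a theorem. -/
theorem stmt_H1Core : Stmt_H1Core := fun _ _ p _ _ hp2 _ _ _ r hr hirr h5 c htr hc =>
  Fermat.Agent.S56.helper2852.exists_coboundary_GL p hp2 r hr hirr h5 c htr hc

variable {k : Type} [Field k]

/-- A cocycle with values in `ad0(1)` vanishing on the kernel of `ρbar` is a coboundary. -/
theorem coboundary_of_vanish_ker' [Finite k] (p : ℕ) [Fact p.Prime]
    (hp2 : p ≠ 2) (ρbar : ResidualGaloisRep k) (habs : ρbar.IsAbsolutelyIrreducible)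
    (hdet : (GaloisRepAdic.ofResidualGaloisRep ρbar).DetIsCyclotomic p)
    (ψ : GQ → Module.End k ρbar.V)
    (htr : ∀ σ, LinearMap.trace k ρbar.V (ψ σ) = 0)
    (hcoc : ∀ σ τ, ψ (σ * τ)
      = ψ σ + LinearMap.det (ρbar.ρ σ) • (ρbar.ρ σ * ψ τ * ρbar.ρ σ⁻¹))
    (hvan : ∀ σ, ρbar.ρ σ = 1 → ψ σ = 0) :
    ∃ X : Module.End k ρbar.V, LinearMap.trace k ρbar.V X = 0 ∧
      ∀ σ, ψ σ = LinearMap.det (ρbar.ρ σ) • (ρbar.ρ σ * X * ρbar.ρ σ⁻¹) - X :=
  coboundary_of_vanish_ker stmt_H1Core p hp2 ρbar habs hdet ψ htr hcoc hvan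

/-- **H^1 vanishing for `ad0(1)`, frozen vocabulary, unconditional.**  Under the hypotheses of
the frozen statement S56 (absolute irreducibility, cyclotomic determinant, the Taylor-Wiles
hypothesis, `p` odd), a cocycle on the absolute Galois group with values in the trace-zero
endomorphisms, for the action `X ↦ det(ρ σ) • ρ σ X (ρ σ)⁻¹`, which vanishes on the
automorphisms in the kernel of `ρbar` fixing the `p^(n+1)`-th roots of unity, is a
coboundary. -/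
theorem h1_vanish' [Finite k] (p : ℕ) [Fact p.Prime] (hp2 : p ≠ 2)
    (ρbar : ResidualGaloisRep k) (habs : ρbar.IsAbsolutelyIrreducible)
    (hdet : (GaloisRepAdic.ofResidualGaloisRep ρbar).DetIsCyclotomic p)
    (hTW : ∀ (K : Type) [Field K] [Algebra k K] (G : Subgroup GQ), G.index = 2 →
      ∀ V : Submodule K (ρbar.baseChange K).V,
        (∀ σ ∈ G, ∀ x ∈ V, (ρbar.baseChange K).ρ σ x ∈ V) → V = ⊥ ∨ V = ⊤)
    (n : ℕ) (ψ : GQ → Module.End k ρbar.V)
    (htr : ∀ σ, LinearMap.trace k ρbar.V (ψ σ) = 0)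
    (hcoc : ∀ σ τ, ψ (σ * τ)
      = ψ σ + LinearMap.det (ρbar.ρ σ) • (ρbar.ρ σ * ψ τ * ρbar.ρ σ⁻¹))
    (hvan : ∀ σ, ρbar.ρ σ = 1 →
      (∀ μ : AlgebraicClosure ℚ, μ ^ p ^ (n + 1) = 1 → σ μ = μ) → ψ σ = 0) :
    ∃ X : Module.End k ρbar.V, LinearMap.trace k ρbar.V X = 0 ∧
      ∀ σ, ψ σ = LinearMap.det (ρbar.ρ σ) • (ρbar.ρ σ * X * ρbar.ρ σ⁻¹) - X :=
  h1_vanish stmt_H1Core p hp2 ρbar habs hdet hTW n ψ htr hcoc hvan

/-- Contrapositive form used by the Taylor-Wiles prime selection: a cocycle which is not a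
coboundary is nonzero somewhere on the kernel of `ρbar` intersected with the fixer of the
`p^(n+1)`-th roots of unity. -/
theorem exists_ne_zero_of_not_coboundary [Finite k] (p : ℕ) [Fact p.Prime] (hp2 : p ≠ 2)
    (ρbar : ResidualGaloisRep k) (habs : ρbar.IsAbsolutelyIrreducible)
    (hdet : (GaloisRepAdic.ofResidualGaloisRep ρbar).DetIsCyclotomic p)
    (hTW : ∀ (K : Type) [Field K] [Algebra k K] (G : Subgroup GQ), G.index = 2 →
      ∀ V : Submodule K (ρbar.baseChange K).V,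
        (∀ σ ∈ G, ∀ x ∈ V, (ρbar.baseChange K).ρ σ x ∈ V) → V = ⊥ ∨ V = ⊤)
    (n : ℕ) (ψ : GQ → Module.End k ρbar.V)
    (htr : ∀ σ, LinearMap.trace k ρbar.V (ψ σ) = 0)
    (hcoc : ∀ σ τ, ψ (σ * τ)
      = ψ σ + LinearMap.det (ρbar.ρ σ) • (ρbar.ρ σ * ψ τ * ρbar.ρ σ⁻¹))
    (hnot : ¬ ∃ X : Module.End k ρbar.V, LinearMap.trace k ρbar.V X = 0 ∧
      ∀ σ, ψ σ = LinearMap.det (ρbar.ρ σ) • (ρbar.ρ σ * X * ρbar.ρ σ⁻¹) - X) :
    ∃ σ : GQ, ρbar.ρ σ = 1 ∧
      (∀ μ : AlgebraicClosure ℚ, μ ^ p ^ (n + 1) = 1 → σ μ = μ) ∧ ψ σ ≠ 0 := by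
  by_contra hno
  push Not at hno
  exact hnot (h1_vanish' p hp2 ρbar habs hdet hTW n ψ htr hcoc hno)

end Fermat.Agent.S56.helper2902
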