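import Mathlib

/-!
# S56 (Taylor–Wiles primes), step R6: abstract core (helper4859)

Mathlib-only.  Three independent bricks used by `helper4859_TWPrimes`:

* cocycle calculus on an abstract group (`IsCoc`, `TrivAt`): the property
  "`ψ g ∈ (g - 1) M`" is stable under powers, conjugation and translation by elements of
  a "level" subgroup; selection lemma `exists_not_trivAt_mul`;
* a `2 × 2` characteristic polynomial lemma (`exists_charpoly_of_pow`): if `B = A ^ m`,
  `A = B ^ n` and `A` has two distinct eigenvalues in `k`, so has `B`;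
* the linear algebra of killing a finite dimensional space by hyperplane-like conditions
  (`exists_injective_iInf_eq_bot`).
-/

set_option autoImplicit false

namespace Fermat.Agent.S56.helper4859

open Polynomial

/-! ## 1. Cocycles on an abstract group -/

section Cocycle

variable {G : Type*} [Group G] {M : Type*} [AddCommGroup M]

/-- `ψ` is a 1-cocycle for the action `act` of `G` on the abelian group `M`. -/
def IsCoc (act : G →* AddMonoid.End M) (ψ : G → M) : Prop :=
  ∀ g h, ψ (g * h) = ψ g + act g (ψ h)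

/-- `ψ g ∈ (g - 1) M`: the restriction of `ψ` to the cyclic group generated by `g` is a
coboundary. -/
def TrivAt (act : G →* AddMonoid.End M) (ψ : G → M) (g : G) : Prop :=
  ∃ m, ψ g = act g m - m

variable {act : G →* AddMonoid.End M} {ψ : G → M}

theorem act_mul_apply (act : G →* AddMonoid.End M) (g h : G) (m : M) :
    act (g * h) m = act g (act h m) := by
  rw [map_mul]; rfl

theorem act_one_apply (act : G →* AddMonoid.End M) (m : M) : act 1 m = m := by
  rw [map_one]; rfl

theorem act_inv_apply (act : G →* AddMonoid.End M) (g : G) (m : M) :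
    act g⁻¹ (act g m) = m := by
  rw [← act_mul_apply, inv_mul_cancel, act_one_apply]

theorem act_apply_inv (act : G →* AddMonoid.End M) (g : G) (m : M) :
    act g (act g⁻¹ m) = m := by
  rw [← act_mul_apply, mul_inv_cancel, act_one_apply]

theorem IsCoc.map_one (hψ : IsCoc act ψ) : ψ 1 = 0 := by
  have h := hψ 1 1
  rw [mul_one, act_one_apply] at h
  exact left_eq_add.mp h

theorem IsCoc.map_inv (hψ : IsCoc act ψ) (g : G) : ψ g⁻¹ = - act g⁻¹ (ψ g) := by
  have h := hψ g⁻¹ g
  rw [inv_mul_cancel, hψ.map_one] at h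
  exact eq_neg_of_add_eq_zero_left h.symm

theorem IsCoc.add {ψ' : G → M} (hψ : IsCoc act ψ) (hψ' : IsCoc act ψ') :
    IsCoc act (ψ + ψ') := by
  intro g h
  simp only [Pi.add_apply, hψ g h, hψ' g h, map_add]
  abel

/-- Same witness for all powers. -/
theorem pow_witness (hψ : IsCoc act ψ) {g : G} {m : M} (h : ψ g = act g m - m) (n : ℕ) :
    ψ (g ^ n) = act (g ^ n) m - m := by
  induction n with
  | zero => rw [pow_zero, hψ.map_one, act_one_apply, sub_self]
  | succ n ih =>
    rw [pow_succ', hψ g (g ^ n), ih, h, map_sub, ← act_mul_apply]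
    abel

theorem TrivAt.pow (hψ : IsCoc act ψ) {g : G} (h : TrivAt act ψ g) (n : ℕ) :
    TrivAt act ψ (g ^ n) := by
  obtain ⟨m, hm⟩ := h
  exact ⟨m, pow_witness hψ hm n⟩

theorem TrivAt.conj (hψ : IsCoc act ψ) {g : G} (h : TrivAt act ψ g) (t : G) :
    TrivAt act ψ (t * g * t⁻¹) := by
  obtain ⟨m, hm⟩ := h
  refine ⟨act t m - ψ t, ?_⟩
  rw [hψ (t * g) t⁻¹, hψ t g, hψ.map_inv, hm]
  simp only [act_mul_apply, map_sub, map_neg, act_inv_apply]
  abel

theorem trivAt_conj_iff (hψ : IsCoc act ψ) (g t : G) :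
    TrivAt act ψ (t * g * t⁻¹) ↔ TrivAt act ψ g := by
  refine ⟨fun h => ?_, fun h => h.conj hψ t⟩
  have h2 := h.conj hψ t⁻¹
  have e : t⁻¹ * (t * g * t⁻¹) * t⁻¹⁻¹ = g := by group
  rwa [e] at h2

/-- Translation by an element acting trivially on which the cocycle vanishes. -/
theorem trivAt_mul_right (hψ : IsCoc act ψ) {g u : G} (hu : act u = 1) (hψu : ψ u = 0) :
    TrivAt act ψ (g * u) ↔ TrivAt act ψ g := by
  have h1 : ψ (g * u) = ψ g := by rw [hψ, hψu, map_zero, add_zero]
  have h2 : act (g * u) = act g := by rw [map_mul, hu, mul_one]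
  simp only [TrivAt, h1, h2]

theorem TrivAt.add {ψ' : G → M} {g : G} (h : TrivAt act ψ g) (h' : TrivAt act ψ' g) :
    TrivAt act (ψ + ψ') g := by
  obtain ⟨m, hm⟩ := h
  obtain ⟨m', hm'⟩ := h'
  refine ⟨m + m', ?_⟩
  simp only [Pi.add_apply, hm, hm', map_add]
  abel

theorem trivAt_zero (g : G) : TrivAt act (0 : G → M) g := ⟨0, by simp⟩

theorem trivAt_coboundary (m : M) (g : G) : TrivAt act (fun g => act g m - m) g := ⟨m, rfl⟩

/-- If `ψ'` differs from `ψ` by a coboundary, triviality at `g` is the same for both. -/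
theorem trivAt_congr {ψ' : G → M} (m0 : M) (h : ∀ g, ψ' g = ψ g + (act g m0 - m0)) (g : G) :
    TrivAt act ψ' g ↔ TrivAt act ψ g := by
  constructor
  · rintro ⟨m, hm⟩
    refine ⟨m - m0, ?_⟩
    rw [h g] at hm
    rw [map_sub, eq_sub_of_add_eq hm]
    abel
  · rintro ⟨m, hm⟩
    refine ⟨m + m0, ?_⟩
    rw [h g, hm, map_add]
    abel

/-- A cocycle is additive on a subgroup acting trivially. -/
theorem IsCoc.map_mul_of_trivial (hψ : IsCoc act ψ) {a : G} (ha : act a = 1) (b : G) :
    ψ (a * b) = ψ a + ψ b := by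
  rw [hψ, ha]; rfl

/-- Conjugation formula on a normal subgroup acting trivially. -/
theorem IsCoc.map_conj_of_trivial (hψ : IsCoc act ψ) (g : G) {τ : G}
    (hτ : act (g * τ * g⁻¹) = 1) : ψ (g * τ * g⁻¹) = act g (ψ τ) := by
  have h1 : ψ (g * τ * g⁻¹ * g) = ψ (g * τ * g⁻¹) + ψ g := hψ.map_mul_of_trivial hτ g
  have e : g * τ * g⁻¹ * g = g * τ := by group
  rw [e, hψ g τ] at h1
  exact (add_right_cancel (h1.symm.trans (add_comm _ _))).symm ▸ rfl

/-- The image of a subgroup acting trivially is an additive subgroup. -/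
def imageAddSubgroup (hψ : IsCoc act ψ) (N : Subgroup G) (hN : ∀ τ ∈ N, act τ = 1) :
    AddSubgroup M where
  carrier := ψ '' N
  zero_mem' := ⟨1, N.one_mem, hψ.map_one⟩
  add_mem' := by
    rintro _ _ ⟨a, ha, rfl⟩ ⟨b, hb, rfl⟩
    exact ⟨a * b, N.mul_mem ha hb, hψ.map_mul_of_trivial (hN a ha) b⟩
  neg_mem' := by
    rintro _ ⟨a, ha, rfl⟩
    refine ⟨a⁻¹, N.inv_mem ha, ?_⟩
    rw [hψ.map_inv, hN _ (N.inv_mem ha)]; rfl

theorem mem_imageAddSubgroup (hψ : IsCoc act ψ) (N : Subgroup G) (hN : ∀ τ ∈ N, act τ = 1)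
    (w : M) : w ∈ imageAddSubgroup hψ N hN ↔ ∃ τ ∈ N, ψ τ = w := Iff.rfl

/-- The image of a normal subgroup acting trivially is stable under the action. -/
theorem act_mem_imageAddSubgroup (hψ : IsCoc act ψ) (N : Subgroup G) [N.Normal]
    (hN : ∀ τ ∈ N, act τ = 1) (g : G) {w : M} (hw : w ∈ imageAddSubgroup hψ N hN) :
    act g w ∈ imageAddSubgroup hψ N hN := by
  obtain ⟨τ, hτ, rfl⟩ := hw
  have hc : g * τ * g⁻¹ ∈ N := Subgroup.Normal.conj_mem inferInstance τ hτ g
  exact ⟨g * τ * g⁻¹, hc, hψ.map_conj_of_trivial g (hN _ hc)⟩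

/-- **Selection lemma.**  `N` acts trivially, and some value `ψ τ` (`τ ∈ N`) is not in
`(h - 1) M`.  Then `ψ` is not trivial at `τ * h` for a suitable `τ ∈ N`. -/
theorem exists_not_trivAt_mul (hψ : IsCoc act ψ) (N : Subgroup G) (hN : ∀ τ ∈ N, act τ = 1)
    (h : G) (hW : ∃ τ ∈ N, ¬ ∃ m, ψ τ = act h m - m) :
    ∃ τ ∈ N, ¬ TrivAt act ψ (τ * h) := by
  by_cases hh : TrivAt act ψ h
  · obtain ⟨m0, hm0⟩ := hh
    obtain ⟨τ, hτ, hτW⟩ := hW
    refine ⟨τ, hτ, ?_⟩
    rintro ⟨m, hm⟩
    apply hτW
    refine ⟨m - m0, ?_⟩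
    have h1 : ψ (τ * h) = ψ τ + ψ h := hψ.map_mul_of_trivial (hN τ hτ) h
    have h2 : act (τ * h) = act h := by rw [map_mul, hN τ hτ, one_mul]
    rw [h1, h2, hm0] at hm
    rw [map_sub, eq_sub_of_add_eq hm]
    abel
  · exact ⟨1, N.one_mem, by rwa [one_mul]⟩

end Cocycle

/-! ## 2. Two distinct eigenvalues, powers and conjugates -/

section Charpoly

variable {k : Type*} [Field k] {V : Type*} [AddCommGroup V] [Module k V]

omit [AddCommGroup V] [Module k V] in
/-- A monic quadratic polynomial with two distinct roots. -/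
theorem eq_mul_of_isRoot_of_natDegree_two {P : k[X]} (hP : P.Monic) (hdeg : P.natDegree = 2)
    {a b : k} (hab : a ≠ b) (ha : P.IsRoot a) (hb : P.IsRoot b) :
    P = (X - C a) * (X - C b) := by
  have h1 : (X - C a) ∣ P := dvd_iff_isRoot.mpr ha
  have h2 : (X - C b) ∣ P := dvd_iff_isRoot.mpr hb
  have hcop : IsCoprime (X - C a) (X - C b) :=
    Polynomial.isCoprime_X_sub_C_of_isUnit_sub (sub_ne_zero.mpr hab).isUnit
  have h3 : (X - C a) * (X - C b) ∣ P := hcop.mul_dvd h1 h2
  have hm : ((X - C a) * (X - C b)).Monic := (monic_X_sub_C a).mul (monic_X_sub_C b)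
  have hd : ((X - C a) * (X - C b)).natDegree = 2 := by
    rw [(monic_X_sub_C a).natDegree_mul (monic_X_sub_C b), natDegree_X_sub_C, natDegree_X_sub_C]
  exact Polynomial.eq_of_monic_of_dvd_of_natDegree_le hm hP h3 (by rw [hdeg, hd])

theorem pow_apply_of_apply_eq_smul (A : Module.End k V) {v : V} {a : k} (h : A v = a • v)
    (n : ℕ) : (A ^ n) v = a ^ n • v := by
  induction n with
  | zero => simp
  | succ n ih =>
    rw [pow_succ, Module.End.mul_apply, h, map_smul, ih, smul_smul, pow_succ, mul_comm]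

/-- If `B = A ^ m` and `A = B ^ n` and `A` has two distinct eigenvalues in `k` (`dim V = 2`),
then so has `B`. -/
theorem exists_charpoly_of_pow [Module.Finite k V] (hV : Module.finrank k V = 2)
    (A B : Module.End k V) (m n : ℕ)
    (hB : B = A ^ m) (hA : A = B ^ n) {α β : k} (hαβ : α ≠ β)
    (hchar : A.charpoly = (X - C α) * (X - C β)) :
    ∃ α' β' : k, α' ≠ β' ∧ B.charpoly = (X - C α') * (X - C β') := by
  have hrα : A.charpoly.IsRoot α := by rw [hchar]; simp
  have hrβ : A.charpoly.IsRoot β := by rw [hchar]; simp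
  obtain ⟨v, hv⟩ := ((Module.End.hasEigenvalue_iff_isRoot_charpoly A α).mpr hrα).exists_hasEigenvector
  obtain ⟨w, hw⟩ := ((Module.End.hasEigenvalue_iff_isRoot_charpoly A β).mpr hrβ).exists_hasEigenvector
  have hAv : A v = α • v := hv.apply_eq_smul
  have hAw : A w = β • w := hw.apply_eq_smul
  have hBv : B v = α ^ m • v := by rw [hB]; exact pow_apply_of_apply_eq_smul A hAv m
  have hBw : B w = β ^ m • w := by rw [hB]; exact pow_apply_of_apply_eq_smul A hAw m
  have hne : α ^ m ≠ β ^ m := by
    intro h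
    have h1 : A v = (α ^ m) ^ n • v := by
      conv_lhs => rw [hA]
      exact pow_apply_of_apply_eq_smul B hBv n
    have h2 : A w = (α ^ m) ^ n • w := by
      conv_lhs => rw [hA]
      exact pow_apply_of_apply_eq_smul B (h ▸ hBw) n
    have e1 : α = (α ^ m) ^ n := by
      have := hAv.symm.trans h1
      exact smul_left_injective k hv.2 this
    have e2 : β = (α ^ m) ^ n := by
      have := hAw.symm.trans h2
      exact smul_left_injective k hw.2 this
    exact hαβ (e1.trans e2.symm)
  refine ⟨α ^ m, β ^ m, hne, ?_⟩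
  have hBα : B.charpoly.IsRoot (α ^ m) :=
    (Module.End.hasEigenvalue_iff_isRoot_charpoly B _).mp
      (Module.End.hasEigenvalue_of_hasEigenvector ⟨Module.End.mem_eigenspace_iff.mpr hBv, hv.2⟩)
  have hBβ : B.charpoly.IsRoot (β ^ m) :=
    (Module.End.hasEigenvalue_iff_isRoot_charpoly B _).mp
      (Module.End.hasEigenvalue_of_hasEigenvector ⟨Module.End.mem_eigenspace_iff.mpr hBw, hw.2⟩)
  exact eq_mul_of_isRoot_of_natDegree_two (LinearMap.charpoly_monic B)
    (by rw [LinearMap.charpoly_natDegree, hV]) hne hBα hBβ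

/-- The characteristic polynomial is invariant under conjugation by a unit of `End`. -/
theorem charpoly_conj_of_mul_eq_one [Module.Finite k V] (A U U' : Module.End k V)
    (h1 : U * U' = 1) (h2 : U' * U = 1) : (U * A * U').charpoly = A.charpoly := by
  let e : V ≃ₗ[k] V := LinearEquiv.ofLinearMap U U' h1 h2
  have h : e.conj A = U * A * U' := by
    ext x
    simp [e, LinearEquiv.conj_apply, Module.End.mul_apply]
  rw [← h, LinearEquiv.charpoly_conj]

end Charpoly

/-! ## 3. Killing a finite dimensional space -/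

section Kill

variable {F : Type*} [Field F] {D : Type*} [AddCommGroup D] [Module F D] [FiniteDimensional F D]

/-- Let `K q` (`q : Q`) be subspaces of a finite dimensional space `D` such that every
nonzero vector lies outside `K q` for some `q` outside any given finite set.  Then there are
exactly `dim D` distinct indices, outside a given finite set, whose `K q` intersect in `0`. -/
theorem exists_injective_iInf_eq_bot {Q : Type*} (K : Q → Submodule F D)
    (h : ∀ x : D, x ≠ 0 → ∀ T : Finset Q, ∃ q, q ∉ T ∧ x ∉ K q) (T : Finset Q) :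
    ∃ qv : Fin (Module.finrank F D) → Q, Function.Injective qv ∧ (∀ i, qv i ∉ T) ∧
      ⨅ i, K (qv i) = ⊥ := by
  classical
  have key : ∀ j : ℕ, j ≤ Module.finrank F D → ∃ s : Finset Q, s.card = j ∧ Disjoint s T ∧
      Module.finrank F (↥(⨅ q ∈ s, K q)) + j ≤ Module.finrank F D := by
    intro j
    induction j with
    | zero =>
      intro _
      refine ⟨∅, rfl, Finset.disjoint_empty_left T, ?_⟩
      exact Submodule.finrank_le _
    | succ j ih =>
      intro hj
      obtain ⟨s, hs, hsT, hfin⟩ := ih (Nat.le_of_succ_le hj)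
      set I : Submodule F D := ⨅ q ∈ s, K q with hI
      by_cases hbot : I = ⊥
      · -- any fresh index will do
        have hpos : 0 < Module.finrank F D := lt_of_lt_of_le (Nat.succ_pos j) hj
        obtain ⟨x, hx⟩ : ∃ x : D, x ≠ 0 := by
          have : Nontrivial D := Module.finrank_pos_iff.mp hpos
          exact exists_ne 0
        obtain ⟨q, hq, -⟩ := h x hx (s ∪ T)
        have hqs : q ∉ s := fun hq' => hq (Finset.mem_union_left T hq')
        have hqT : q ∉ T := fun hq' => hq (Finset.mem_union_right s hq')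
        refine ⟨insert q s, by rw [Finset.card_insert_of_notMem hqs, hs], ?_, ?_⟩
        · rw [Finset.disjoint_insert_left]; exact ⟨hqT, hsT⟩
        · have e : (⨅ q' ∈ insert q s, K q') = ⊥ := by
            rw [Finset.iInf_insert, ← hI, hbot, inf_bot_eq]
          rw [e, finrank_bot]
          omega
      · obtain ⟨x, hxI, hx0⟩ := (Submodule.ne_bot_iff I).mp hbot
        obtain ⟨q, hq, hxq⟩ := h x hx0 (s ∪ T)
        have hqs : q ∉ s := fun hq' => hq (Finset.mem_union_left T hq')
        have hqT : q ∉ T := fun hq' => hq (Finset.mem_union_right s hq')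
        refine ⟨insert q s, by rw [Finset.card_insert_of_notMem hqs, hs], ?_, ?_⟩
        · rw [Finset.disjoint_insert_left]; exact ⟨hqT, hsT⟩
        · have e : (⨅ q' ∈ insert q s, K q') = K q ⊓ I := by
            rw [Finset.iInf_insert]
          have hlt : K q ⊓ I < I := by
            refine lt_of_le_of_ne inf_le_right ?_
            intro heq
            have : x ∈ K q ⊓ I := by rw [heq]; exact hxI
            exact hxq this.1
          have := Submodule.finrank_lt_finrank_of_lt hlt
          rw [e]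
          omega
  obtain ⟨s, hs, hsT, hfin⟩ := key (Module.finrank F D) le_rfl
  have hbot : (⨅ q ∈ s, K q) = ⊥ := by
    apply Submodule.finrank_eq_zero.mp
    omega
  let qv : Fin (Module.finrank F D) → Q := fun i => (s.equivFin.symm (Fin.cast hs.symm i)).1
  refine ⟨qv, ?_, ?_, ?_⟩
  · intro i i' hii
    have h1 : s.equivFin.symm (Fin.cast hs.symm i) = s.equivFin.symm (Fin.cast hs.symm i') :=
      Subtype.ext hii
    have h2 := s.equivFin.symm.injective h1
    exact Fin.cast_injective _ h2
  · intro i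
    exact Finset.disjoint_left.mp hsT (s.equivFin.symm (Fin.cast hs.symm i)).2
  · rw [eq_bot_iff, ← hbot]
    refine le_iInf₂ fun q hq => ?_
    have hi : qv (Fin.cast hs (s.equivFin ⟨q, hq⟩)) = q := by
      simp [qv]
    exact (iInf_le _ (Fin.cast hs (s.equivFin ⟨q, hq⟩))).trans (by rw [hi])

end Kill

end Fermat.Agent.S56.helper4859
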