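import Mathlib
import Fermat.Prelude.Def_GroupCohomology_ContinuousUnramified
import Fermat.Prelude.Def_GaloisRep_Residual
import Fermat.Agent.Lib.helper74_GenChebQbar
import Fermat.Agent.Lib.helper872_QbarPlaces
import Fermat.Agent.Lib.helper3858_ResidueQbar
import Fermat.Agent.S30.helper3994_CycloFrob
import Fermat.Agent.S56.helper4859_TWCore

/-!
# S56 (Taylor–Wiles primes), step R6: the Taylor–Wiles prime step (helper4859)

`M : Rep (ZMod p) GQ` is an arbitrary finite, smooth module unramified outside `S`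
(in the application: `ad⁰(ρ̄)(1)` in whatever model the dictionary fixes), `ρbar` a residual
representation.  All modular input enters as hypotheses.

* `ClassTrivAt M x s` : the class `x ∈ H¹(GQ, M)` restricts to `0` on the (pro)cyclic group
  generated by `s`, i.e. `c s ∈ (s - 1) M` for one (equivalently every) cocycle `c` of `x`;
* `exists_tw_prime` : one prime (generator-Chebotarev + conjugation/inertia invariance);
* `exists_tw_primes` : `dim D0` primes killing a finite dimensional space `D0` of classes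
  unramified outside `S`;
* `hgood_of` : the hypothesis `hgood` of `exists_tw_primes` from the `R4`-shape and
  `R5`-shape statements.
-/

set_option autoImplicit false

namespace Fermat.Agent.S56.helper4859

open Polynomial groupCohomology

local notation "Qb" => AlgebraicClosure ℚ
local notation "GQ" => (AlgebraicClosure ℚ ≃ₐ[ℚ] AlgebraicClosure ℚ)

variable {p : ℕ} [Fact p.Prime]

/-! ## 1. Triviality of a class at an element -/

section ClassTriv

variable (M : Rep.{0, 0, 0} (ZMod p) GQ)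

/-- The action of `GQ` on `M` by additive endomorphisms. -/
noncomputable def actOf : GQ →* AddMonoid.End M where
  toFun g := (M.ρ g).toAddMonoidHom
  map_one' := by ext m; rw [map_one]; rfl
  map_mul' g h := by ext m; rw [map_mul]; rfl

@[simp] theorem actOf_apply (g : GQ) (m : M) : actOf M g m = M.ρ g m := rfl

theorem isCoc_of_cocycle (c : cocycles₁ M) : IsCoc (actOf M) (c : GQ → M) := by
  intro g h
  rw [(mem_cocycles₁_iff (c : GQ → M)).1 c.2 g h, add_comm]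
  rfl

/-- The class `x` restricts to zero on the cyclic group generated by `s`. -/
def ClassTrivAt (x : H1 M) (s : GQ) : Prop :=
  ∃ c : cocycles₁ M, (H1π M).hom c = x ∧ ∃ m : M, c s = M.ρ s m - m

variable {M}

theorem classTrivAt_iff (c : cocycles₁ M) (s : GQ) :
    ClassTrivAt M ((H1π M).hom c) s ↔ TrivAt (actOf M) (c : GQ → M) s := by
  constructor
  · rintro ⟨c', hc', m, hm⟩
    have h1 : (c' : GQ → M) - (c : GQ → M) ∈ coboundaries₁ M := (H1π_eq_iff c' c).1 hc'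
    obtain ⟨m0, hm0⟩ := h1
    have h2 : c' s - c s = M.ρ s m0 - m0 := by
      have := congrFun hm0 s
      simpa [d₀₁_hom_apply] using this.symm
    refine ⟨m - m0, ?_⟩
    have h3 : c s = c' s - (M.ρ s m0 - m0) := by rw [← h2]; abel
    rw [h3, hm, actOf_apply, map_sub]
    abel
  · rintro ⟨m, hm⟩
    exact ⟨c, rfl, m, hm⟩

theorem classTrivAt_zero (s : GQ) : ClassTrivAt M (0 : H1 M) s :=
  ⟨0, map_zero _, 0, by rw [map_zero, sub_zero]; rfl⟩

theorem ClassTrivAt.add {x y : H1 M} {s : GQ} (hx : ClassTrivAt M x s)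
    (hy : ClassTrivAt M y s) : ClassTrivAt M (x + y) s := by
  obtain ⟨c, rfl, m, hm⟩ := hx
  obtain ⟨c', rfl, m', hm'⟩ := hy
  refine ⟨c + c', by rw [map_add], m + m', ?_⟩
  have : (c + c') s = c s + c' s := rfl
  rw [this, hm, hm', map_add]
  abel

theorem ClassTrivAt.smul {x : H1 M} {s : GQ} (a : ZMod p) (hx : ClassTrivAt M x s) :
    ClassTrivAt M (a • x) s := by
  obtain ⟨c, rfl, m, hm⟩ := hx
  refine ⟨a • c, by rw [map_smul], a • m, ?_⟩
  have : (a • c) s = a • c s := rfl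
  rw [this, hm, map_smul, smul_sub]

end ClassTriv

/-! ## 2. Frobenius elements over a prime: conjugacy up to inertia -/

section Frobenius

/-- Conjugation of Frobenius elements: if `A' = g(A)` and `φ` is a Frobenius element at `A'`,
then `g⁻¹ φ g` is a Frobenius element at `A`. -/
theorem isFrobeniusAt_conj {K L : Type*} [Field K] [Field L] [Algebra K L]
    {A A' : ValuationSubring L} {g φ : L ≃ₐ[K] L} {q : ℕ}
    (hg : ∀ x : L, x ∈ A' ↔ g⁻¹ x ∈ A) (hφ : A'.IsFrobeniusAt φ q) :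
    A.IsFrobeniusAt (g⁻¹ * φ * g) q := by
  have hg' : ∀ y : L, g y ∈ A' ↔ y ∈ A := by
    intro y
    rw [hg]
    simp
  have hn : ∀ y : L, g y ∈ A'.nonunits ↔ y ∈ A.nonunits := by
    intro y
    rw [ValuationSubring.mem_nonunits_iff_or, ValuationSubring.mem_nonunits_iff_or,
      ← map_inv₀, hg', map_eq_zero_iff g g.injective]
  have hdecφ := (Fermat.Agent.Lib.helper872.mem_decompositionSubgroup_iff A' φ).1
    hφ.mem_decompositionSubgroup
  have happ : ∀ x : L, (g⁻¹ * φ * g) x = g⁻¹ (φ (g x)) := fun _ => rfl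
  have hdec : g⁻¹ * φ * g ∈ A.decompositionSubgroup K := by
    rw [Fermat.Agent.Lib.helper872.mem_decompositionSubgroup_iff]
    intro x
    rw [happ, ← hg, hdecφ, hg']
  refine Fermat.Agent.Lib.helper3858.isFrobeniusAt_of_residue hdec ?_
  intro a ha
  rw [← map_pow, ← sub_eq_zero, ← map_sub, IsLocalRing.residue_eq_zero_iff]
  refine (ValuationSubring.coe_mem_nonunits_iff (A := A)).1 ?_
  show (g⁻¹ * φ * g) a - a ^ q ∈ A.nonunits
  rw [← hn, map_sub, map_pow, happ]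
  have e : g (g⁻¹ (φ (g a))) = φ (g a) := by simp
  rw [e]
  exact Fermat.Agent.Lib.helper3858.apply_sub_pow_mem_nonunits_of_isFrobeniusAt hφ
    ((hg' a).2 ha)

/-- Two Frobenius elements over the same prime `q` of `ℚ` are conjugate up to inertia. -/
theorem exists_conj_inertia {q : ℕ} (hq : q.Prime) {A P : ValuationSubring Qb} {τ φ : GQ}
    (hA : A.LiesOverPrime q) (hτ : A.IsFrobeniusAt τ q) (hP : P.LiesOverPrime q)
    (hφ : P.IsFrobeniusAt φ q) :
    ∃ g i : GQ, i ∈ A.inertiaSubgroupIn ℚ ∧ φ = g * (τ * i) * g⁻¹ := by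
  obtain ⟨g, hg⟩ := Fermat.Agent.Lib.helper872.conj_places hq A P hA hP
  have hφ' : A.IsFrobeniusAt (g⁻¹ * φ * g) q := isFrobeniusAt_conj hg hφ
  have : CharP (IsLocalRing.ResidueField A) q :=
    Fermat.Agent.Lib.helper3858.charP_residueField A hq hA
  have : Fact q.Prime := ⟨hq⟩
  have hinj : Function.Injective (fun x : IsLocalRing.ResidueField A => x ^ q) :=
    frobenius_inj (IsLocalRing.ResidueField A) q
  have hi := Fermat.Agent.Lib.helper3858.inv_mul_mem_inertiaSubgroupIn_of_isFrobeniusAt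
    hτ hφ' hinj
  refine ⟨g, τ⁻¹ * (g⁻¹ * φ * g), hi, ?_⟩
  group

end Frobenius

/-! ## 3. Finite levels -/

section Level

/-- A finite smooth module factors through a finite level. -/
theorem exists_level_of_smooth (M : Rep.{0, 0, 0} (ZMod p) GQ) [Module.Finite (ZMod p) M]
    (hsm : ∀ m : M, ∃ F : IntermediateField ℚ Qb, FiniteDimensional ℚ F ∧
      ∀ s ∈ F.fixingSubgroup, M.ρ s m = m) :
    ∃ F : IntermediateField ℚ Qb, FiniteDimensional ℚ F ∧
      ∀ s ∈ F.fixingSubgroup, M.ρ s = 1 := by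
  classical
  have : Finite M := Module.finite_of_finite (ZMod p)
  choose F hF1 hF2 using hsm
  have : ∀ m, FiniteDimensional ℚ (F m) := hF1
  refine ⟨⨆ m, F m, inferInstance, fun s hs => ?_⟩
  refine LinearMap.ext fun m => ?_
  exact hF2 m s (IntermediateField.fixingSubgroup_antitone (le_iSup F m) hs)

end Level

/-! ## 4. One Taylor–Wiles prime -/

section OnePrime

/-- A cocycle of level unramified outside `S` vanishes on inertia at `q ∉ S`. -/
theorem cocycle_inertia_eq_zero {R : Type} [CommRing R] (M : Rep.{0, 0, 0} R GQ)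
    {S : Finset Nat.Primes} (c : cocycles₁ M)
    (hc : IsLevelConstantS₁ S c) {q : ℕ} (hq : q.Prime) (hqS : (⟨q, hq⟩ : Nat.Primes) ∉ S)
    (A : ValuationSubring Qb) (hA : A.LiesOverPrime q) (g : GQ)
    (hg : g ∈ A.inertiaSubgroupIn ℚ) : c g = 0 := by
  obtain ⟨F, hF, hcF⟩ := hc
  have h1 := hcF 1 g (hF.2 ⟨q, hq⟩ hqS A hA hg)
  rw [one_mul] at h1
  rw [h1]
  exact cocycles₁_map_one c

variable (M : Rep.{0, 0, 0} (ZMod p) GQ)

/-- Triviality at a Frobenius element over a prime `q` at which `M` and the cocycle are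
unramified does not depend on the place over `q` nor on the Frobenius element. -/
theorem trivAt_frobenius_iff (c : cocycles₁ M) {q : ℕ} (hq : q.Prime)
    (hMq : ∀ A : ValuationSubring Qb, A.LiesOverPrime q →
      ∀ g ∈ A.inertiaSubgroupIn ℚ, M.ρ g = 1)
    (hcq : ∀ A : ValuationSubring Qb, A.LiesOverPrime q →
      ∀ g ∈ A.inertiaSubgroupIn ℚ, c g = 0)
    {A P : ValuationSubring Qb} {τ φ : GQ} (hA : A.LiesOverPrime q)
    (hτ : A.IsFrobeniusAt τ q) (hP : P.LiesOverPrime q) (hφ : P.IsFrobeniusAt φ q) :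
    TrivAt (actOf M) (c : GQ → M) φ ↔ TrivAt (actOf M) (c : GQ → M) τ := by
  obtain ⟨g, i, hi, rfl⟩ := exists_conj_inertia hq hA hτ hP hφ
  have hact : actOf M i = 1 := by
    ext m
    rw [actOf_apply, hMq A hA i hi]
    rfl
  rw [trivAt_conj_iff (isCoc_of_cocycle M c),
    trivAt_mul_right (isCoc_of_cocycle M c) hact (hcq A hA i hi)]

/-- **One Taylor–Wiles prime** (cocycle form).  `σ` fixes `μ_{p^(n+1)}`, `ρbar σ` has two
distinct eigenvalues in `k` and the level cocycle `c` is not trivial at `σ`.  Then there is a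
prime `q` outside any given finite set `T` with `q ≡ 1 mod p^(n+1)` such that for every place
`P` over `q` and every Frobenius element `φ` at `P`: `ρbar φ` has two distinct eigenvalues in
`k` and `c` is not trivial at `φ`. -/
theorem exists_tw_prime {k : Type} [Field k] (ρbar : ResidualGaloisRep k)
    [Module.Finite (ZMod p) M]
    (hsm : ∀ m : M, ∃ F : IntermediateField ℚ Qb, FiniteDimensional ℚ F ∧
      ∀ s ∈ F.fixingSubgroup, M.ρ s m = m)
    (S : Finset Nat.Primes)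
    (hur : ∀ q : Nat.Primes, q ∉ S → ∀ A : ValuationSubring Qb, A.LiesOverPrime (q : ℕ) →
      ∀ g ∈ A.inertiaSubgroupIn ℚ, M.ρ g = 1)
    (c : cocycles₁ M) (hc : IsLevelConstantS₁ S c) (n : ℕ) (σ : GQ)
    (hσζ : ∀ ζ : Qb, ζ ^ p ^ (n + 1) = 1 → σ ζ = ζ)
    (hσe : ∃ α β : k, α ≠ β ∧ LinearMap.charpoly (ρbar.ρ σ) = (X - C α) * (X - C β))
    (hσx : ¬ TrivAt (actOf M) (c : GQ → M) σ)
    (T : Finset ℕ)
    (hT : ∀ q : ℕ, q.Prime → q ∉ T →
      q ≠ p ∧ (∀ hq : q.Prime, (⟨q, hq⟩ : Nat.Primes) ∉ S) ∧ ρbar.IsUnramifiedAt q) :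
    ∃ q : ℕ, q.Prime ∧ q ∉ T ∧ p ^ (n + 1) ∣ q - 1 ∧
      ∀ (P : ValuationSubring Qb) (φ : GQ), P.LiesOverPrime q → P.IsFrobeniusAt φ q →
        (∃ α β : k, α ≠ β ∧ LinearMap.charpoly (ρbar.ρ φ) = (X - C α) * (X - C β)) ∧
          ¬ TrivAt (actOf M) (c : GQ → M) φ := by
  classical
  have hp : p.Prime := Fact.out
  have hcoc := isCoc_of_cocycle M c
  obtain ⟨Fc, hFc, hcF⟩ := hc
  obtain ⟨FM, hFMfin, hFM⟩ := exists_level_of_smooth M hsm
  obtain ⟨Lρ, hLρfin, hLρ⟩ := ρbar.factorsThroughFiniteLevel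
  have : NeZero (p : ℚ) := ⟨by exact_mod_cast hp.ne_zero⟩
  obtain ⟨ζ, hζ⟩ := HasEnoughRootsOfUnity.exists_primitiveRoot Qb (p ^ (n + 1))
  have hpn : 0 < p ^ (n + 1) := pow_pos hp.pos _
  have hζint : IsIntegral ℚ ζ := (hζ.isIntegral hpn).tower_top
  have := hFc.1
  have : FiniteDimensional ℚ (IntermediateField.adjoin ℚ {ζ}) :=
    IntermediateField.adjoin.finiteDimensional hζint
  let L : IntermediateField ℚ Qb := Fc ⊔ FM ⊔ Lρ ⊔ IntermediateField.adjoin ℚ {ζ}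
  have hLfin : FiniteDimensional ℚ L := by
    have h1 : FiniteDimensional ℚ (Fc ⊔ FM : IntermediateField ℚ Qb) :=
      IntermediateField.finiteDimensional_sup Fc FM
    have h2 : FiniteDimensional ℚ (Fc ⊔ FM ⊔ Lρ : IntermediateField ℚ Qb) :=
      IntermediateField.finiteDimensional_sup _ Lρ
    exact IntermediateField.finiteDimensional_sup _ _
  have hFcL : Fc ≤ L := le_sup_left.trans (le_sup_left.trans le_sup_left)
  have hFML : FM ≤ L := (le_sup_right : FM ≤ Fc ⊔ FM).trans (le_sup_left.trans le_sup_left)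
  have hLρL : Lρ ≤ L := (le_sup_right : Lρ ≤ Fc ⊔ FM ⊔ Lρ).trans le_sup_left
  have hζL : ζ ∈ L :=
    (le_sup_right : IntermediateField.adjoin ℚ {ζ} ≤ L)
      (IntermediateField.mem_adjoin_simple_self ℚ ζ)
  have hLc : ∀ w ∈ L.fixingSubgroup, (c : GQ → M) w = 0 := by
    intro w hw
    have h1 := hcF 1 w (IntermediateField.fixingSubgroup_antitone hFcL hw)
    rw [one_mul] at h1
    rw [h1]
    exact cocycles₁_map_one c
  have hLM : ∀ w ∈ L.fixingSubgroup, actOf M w = 1 := by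
    intro w hw
    ext m
    rw [actOf_apply, hFM w (IntermediateField.fixingSubgroup_antitone hFML hw)]
    rfl
  have hLρ' : ∀ w ∈ L.fixingSubgroup, ρbar.ρ w = 1 := fun w hw =>
    hLρ w ((IntermediateField.mem_fixingSubgroup_iff _ _).1
      (IntermediateField.fixingSubgroup_antitone hLρL hw))
  have hLζ : ∀ w ∈ L.fixingSubgroup, w ζ = ζ := fun w hw =>
    (IntermediateField.mem_fixingSubgroup_iff _ _).1 hw ζ hζL
  obtain ⟨ℓ, A, τ, a, b, hℓ, hℓT, hA, hτ, hab1, hab2⟩ :=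
    Fermat.Agent.Lib.helper74.exists_frobenius_pow_eq' L σ T
  obtain ⟨hℓp, hℓS, hℓρ⟩ := hT ℓ hℓ hℓT
  have hu : (σ ^ b)⁻¹ * τ ∈ L.fixingSubgroup := by
    rw [IntermediateField.mem_fixingSubgroup_iff]
    intro x hx
    show (σ ^ b)⁻¹ (τ x) = x
    rw [← hab2 x hx]
    exact (σ ^ b).symm_apply_apply x
  have hu' : (τ ^ a)⁻¹ * σ ∈ L.fixingSubgroup := by
    rw [IntermediateField.mem_fixingSubgroup_iff]
    intro x hx
    show (τ ^ a)⁻¹ (σ x) = x
    rw [← hab1 x hx]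
    exact (τ ^ a).symm_apply_apply x
  have eτ : τ = σ ^ b * ((σ ^ b)⁻¹ * τ) := by group
  have eσ : σ = τ ^ a * ((τ ^ a)⁻¹ * σ) := by group
  -- eigenvalues
  have hB : ρbar.ρ τ = ρbar.ρ σ ^ b := by
    conv_lhs => rw [eτ]
    rw [map_mul, hLρ' _ hu, mul_one, map_pow]
  have hA' : ρbar.ρ σ = ρbar.ρ τ ^ a := by
    conv_lhs => rw [eσ]
    rw [map_mul, hLρ' _ hu', mul_one, map_pow]
  obtain ⟨α, β, hαβ, hchar⟩ := hσe
  have hτe := exists_charpoly_of_pow ρbar.finrank_eq (ρbar.ρ σ) (ρbar.ρ τ) b a hB hA' hαβ hchar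
  -- the cocycle at `τ`
  have hτx : ¬ TrivAt (actOf M) (c : GQ → M) τ := by
    intro h
    apply hσx
    rw [eσ]
    exact (trivAt_mul_right hcoc (hLM _ hu') (hLc _ hu')).2 (h.pow hcoc a)
  -- the congruence
  have hσζ' : σ ζ = ζ := hσζ ζ hζ.pow_eq_one
  have hpow : ∀ j : ℕ, (σ ^ j) ζ = ζ := by
    intro j
    induction j with
    | zero => simp
    | succ j ih => rw [pow_succ, AlgEquiv.mul_apply, hσζ', ih]
  have hτζ : τ ζ = ζ := by
    rw [eτ, AlgEquiv.mul_apply, hLζ _ hu, hpow]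
  have hdvd : p ^ (n + 1) ∣ ℓ - 1 := by
    have hcop : Nat.Coprime ℓ (p ^ (n + 1)) :=
      Nat.Coprime.pow_right _ ((Nat.coprime_primes hℓ hp).2 hℓp)
    have h1 : τ ζ = ζ ^ ℓ :=
      Fermat.Agent.S30.helper3994.frobenius_apply_rootOfUnity hA hτ hcop hζ.pow_eq_one
    rw [hτζ] at h1
    have hζ0 : ζ ≠ 0 := hζ.ne_zero hpn.ne'
    have h2 : ζ ^ (ℓ - 1) = 1 := by
      have h3 : ζ ^ (ℓ - 1) * ζ = 1 * ζ := by
        rw [← pow_succ, Nat.sub_add_cancel hℓ.one_le, one_mul, ← h1]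
      exact mul_right_cancel₀ hζ0 h3
    exact hζ.dvd_of_pow_eq_one _ h2
  refine ⟨ℓ, hℓ, hℓT, hdvd, ?_⟩
  intro P φ hP hφ
  constructor
  · obtain ⟨g, i, hi, rfl⟩ := exists_conj_inertia hℓ hA hτ hP hφ
    obtain ⟨α', β', hne, hch⟩ := hτe
    refine ⟨α', β', hne, ?_⟩
    rw [← hch]
    have e : ρbar.ρ (g * (τ * i) * g⁻¹) = ρbar.ρ g * ρbar.ρ τ * ρbar.ρ g⁻¹ := by
      rw [map_mul, map_mul, map_mul, hℓρ A hA i hi, mul_one]
    rw [e]
    exact charpoly_conj_of_mul_eq_one _ _ _ (by rw [← map_mul, mul_inv_cancel, map_one])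
      (by rw [← map_mul, inv_mul_cancel, map_one])
  · rw [trivAt_frobenius_iff M c hℓ (hur ⟨ℓ, hℓ⟩ (hℓS hℓ))
      (fun A' hA' g hg => cocycle_inertia_eq_zero M c ⟨Fc, hFc, hcF⟩ hℓ (hℓS hℓ) A' hA' g hg)
      hA hτ hP hφ]
    exact hτx

end OnePrime

/-! ## 5. Killing a finite dimensional space of classes -/

section Kill

variable (M : Rep.{0, 0, 0} (ZMod p) GQ)

/-- The classes of `D0` which are trivial at every Frobenius element over `q`. -/
def frobTrivSub (D0 : Submodule (ZMod p) (H1 M)) (q : ℕ) : Submodule (ZMod p) D0 where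
  carrier := {x | ∀ (P : ValuationSubring Qb) (φ : GQ), P.LiesOverPrime q →
    P.IsFrobeniusAt φ q → ClassTrivAt M (x : H1 M) φ}
  add_mem' := fun hx hy P φ hP hφ => (hx P φ hP hφ).add (hy P φ hP hφ)
  zero_mem' := fun _ φ _ _ => classTrivAt_zero φ
  smul_mem' := fun a _ hx P φ hP hφ => (hx P φ hP hφ).smul a

/-- Class form of `trivAt_frobenius_iff`: for a class unramified outside `S`, a module
unramified outside `S` and a prime `q ∉ S`, triviality at a Frobenius element over `q` does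
not depend on the place nor on the Frobenius element. -/
theorem classTrivAt_frobenius_iff {S : Finset Nat.Primes}
    (hur : ∀ q : Nat.Primes, q ∉ S → ∀ A : ValuationSubring Qb, A.LiesOverPrime (q : ℕ) →
      ∀ g ∈ A.inertiaSubgroupIn ℚ, M.ρ g = 1)
    {x : H1 M} (hx : x ∈ continuousH1S S M) {q : ℕ} (hq : q.Prime)
    (hqS : (⟨q, hq⟩ : Nat.Primes) ∉ S) {A P : ValuationSubring Qb} {τ φ : GQ}
    (hA : A.LiesOverPrime q) (hτ : A.IsFrobeniusAt τ q) (hP : P.LiesOverPrime q)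
    (hφ : P.IsFrobeniusAt φ q) : ClassTrivAt M x φ ↔ ClassTrivAt M x τ := by
  obtain ⟨c, hc, rfl⟩ := (mem_continuousH1S_iff S M x).1 hx
  rw [classTrivAt_iff, classTrivAt_iff]
  exact trivAt_frobenius_iff M c hq (hur ⟨q, hq⟩ hqS)
    (fun A' hA' g hg => cocycle_inertia_eq_zero M c hc hq hqS A' hA' g hg) hA hτ hP hφ

/-- **Taylor–Wiles primes killing `D0`.**  `D0` is a finite dimensional space of classes
unramified outside `S`; every nonzero class of `D0` is nontrivial at some element `s` fixing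
`μ_{p^(n+1)}` with `ρbar s` having two distinct eigenvalues (`hgood`).  Then there are exactly
`dim D0` distinct primes `q_i ∉ T0`, `q_i ≡ 1 mod p^(n+1)`, with distinct Frobenius eigenvalues
at every place and every Frobenius element over `q_i`, such that a class of `D0` which is
trivial at ONE Frobenius element at ONE place over each `q_i` is zero. -/
theorem exists_tw_primes {k : Type} [Field k] (ρbar : ResidualGaloisRep k)
    [Module.Finite (ZMod p) M]
    (hsm : ∀ m : M, ∃ F : IntermediateField ℚ Qb, FiniteDimensional ℚ F ∧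
      ∀ s ∈ F.fixingSubgroup, M.ρ s m = m)
    (S : Finset Nat.Primes)
    (hur : ∀ q : Nat.Primes, q ∉ S → ∀ A : ValuationSubring Qb, A.LiesOverPrime (q : ℕ) →
      ∀ g ∈ A.inertiaSubgroupIn ℚ, M.ρ g = 1)
    (T0 : Finset ℕ)
    (hT0 : ∀ q : ℕ, q.Prime → q ∉ T0 →
      q ≠ p ∧ (∀ hq : q.Prime, (⟨q, hq⟩ : Nat.Primes) ∉ S) ∧ ρbar.IsUnramifiedAt q)
    (D0 : Submodule (ZMod p) (H1 M)) (hD0 : D0 ≤ continuousH1S S M)
    [Module.Finite (ZMod p) D0] (n : ℕ)
    (hgood : ∀ x ∈ D0, x ≠ 0 → ∃ s : GQ, (∀ ζ : Qb, ζ ^ p ^ (n + 1) = 1 → s ζ = ζ) ∧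
      (∃ α β : k, α ≠ β ∧ LinearMap.charpoly (ρbar.ρ s) = (X - C α) * (X - C β)) ∧
      ¬ ClassTrivAt M x s) :
    ∃ qv : Fin (Module.finrank (ZMod p) D0) → ℕ, Function.Injective qv ∧
      (∀ i, (qv i).Prime ∧ qv i ∉ T0 ∧ p ^ (n + 1) ∣ qv i - 1) ∧
      (∀ i, ∀ P : ValuationSubring Qb, P.LiesOverPrime (qv i) →
        ∀ φ : GQ, P.IsFrobeniusAt φ (qv i) →
          ∃ α β : k, α ≠ β ∧ LinearMap.charpoly (ρbar.ρ φ) = (X - C α) * (X - C β)) ∧
      ∀ x ∈ D0, (∀ i, ∃ (P : ValuationSubring Qb) (φ : GQ), P.LiesOverPrime (qv i) ∧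
        P.IsFrobeniusAt φ (qv i) ∧ ClassTrivAt M x φ) → x = 0 := by
  classical
  -- the index type of good primes
  let Good : ℕ → Prop := fun q => q.Prime ∧ q ∉ T0 ∧ p ^ (n + 1) ∣ q - 1 ∧
    ∀ P : ValuationSubring Qb, P.LiesOverPrime q → ∀ φ : GQ, P.IsFrobeniusAt φ q →
      ∃ α β : k, α ≠ β ∧ LinearMap.charpoly (ρbar.ρ φ) = (X - C α) * (X - C β)
  let K : {q : ℕ // Good q} → Submodule (ZMod p) D0 := fun q => frobTrivSub M D0 q.1
  have h : ∀ x : D0, x ≠ 0 → ∀ T : Finset {q : ℕ // Good q}, ∃ q, q ∉ T ∧ x ∉ K q := by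
    intro x hx0 T
    have hx0' : (x : H1 M) ≠ 0 := fun h => hx0 (Subtype.ext h)
    obtain ⟨s, hsζ, hse, hsx⟩ := hgood x x.2 hx0'
    obtain ⟨c, hc, hcx⟩ := (mem_continuousH1S_iff S M x).1 (hD0 x.2)
    have hsx' : ¬ TrivAt (actOf M) (c : GQ → M) s := by
      rw [← classTrivAt_iff, hcx]
      exact hsx
    obtain ⟨q, hq, hqT, hdvd, hall⟩ := exists_tw_prime M ρbar hsm S hur c hc n s hsζ hse hsx'
      (T0 ∪ T.image Subtype.val)
      (fun q hq hqT => hT0 q hq (fun h => hqT (Finset.mem_union_left _ h)))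
    have hqT0 : q ∉ T0 := fun h => hqT (Finset.mem_union_left _ h)
    have hgoodq : Good q := ⟨hq, hqT0, hdvd, fun P hP φ hφ => (hall P φ hP hφ).1⟩
    refine ⟨⟨q, hgoodq⟩, ?_, ?_⟩
    · intro hmem
      exact hqT (Finset.mem_union_right _ (Finset.mem_image.2 ⟨⟨q, hgoodq⟩, hmem, rfl⟩))
    · intro hxK
      obtain ⟨P, φ, hP, hφ⟩ := Fermat.Agent.Lib.helper54.exists_liesOverPrime_isFrobeniusAt hq
      have h1 : ClassTrivAt M (x : H1 M) φ := hxK P φ hP hφ
      rw [← hcx, classTrivAt_iff] at h1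
      exact (hall P φ hP hφ).2 h1
  obtain ⟨qv, hinj, -, hbot⟩ := exists_injective_iInf_eq_bot K h ∅
  refine ⟨fun i => (qv i).1, fun i j hij => hinj (Subtype.ext hij),
    fun i => ⟨(qv i).2.1, (qv i).2.2.1, (qv i).2.2.2.1⟩, fun i => (qv i).2.2.2.2, ?_⟩
  intro x hx hall
  have hmem : (⟨x, hx⟩ : D0) ∈ ⨅ i, K (qv i) := by
    rw [Submodule.mem_iInf]
    intro i P φ hP hφ
    obtain ⟨P', φ', hP', hφ', htriv⟩ := hall i
    have hq := (qv i).2.1
    have hqS := (hT0 _ hq (qv i).2.2.1).2.1 hq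
    exact (classTrivAt_frobenius_iff M hur (hD0 hx) hq hqS hP' hφ' hP hφ).2 htriv
  rw [hbot] at hmem
  exact congrArg Subtype.val ((Submodule.mem_bot _).1 hmem)

/-- **The good element** (`R4`-shape + `R5`-shape ⟹ `hgood`).  `N_n` is the group of `s` with
`ρbar s = 1` fixing `μ_{p^(n+1)}`; it acts trivially on `M` (`hker`).  `hR5`: a level cocycle
vanishing on `N_n` is a coboundary.  `hR4`: every nonzero stable subgroup `W` of `M` contains an
element outside `(h - 1) M` for some `h` fixing `μ_{p^(n+1)}` with `ρbar h` having two distinct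
eigenvalues.  Then every nonzero class unramified outside `S` is nontrivial at such an
element. -/
theorem exists_good_element {k : Type} [Field k] (ρbar : ResidualGaloisRep k)
    (S : Finset Nat.Primes) (n : ℕ)
    (hker : ∀ s : GQ, ρbar.ρ s = 1 → (∀ ζ : Qb, ζ ^ p = 1 → s ζ = ζ) → M.ρ s = 1)
    (hR5 : ∀ c : cocycles₁ M, IsLevelConstantS₁ S c →
      (∀ s : GQ, ρbar.ρ s = 1 → (∀ ζ : Qb, ζ ^ p ^ (n + 1) = 1 → s ζ = ζ) → c s = 0) →
      (H1π M).hom c = 0)
    (hR4 : ∀ W : AddSubgroup M, W ≠ ⊥ → (∀ (g : GQ), ∀ w ∈ W, M.ρ g w ∈ W) →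
      ∃ h : GQ, (∀ ζ : Qb, ζ ^ p ^ (n + 1) = 1 → h ζ = ζ) ∧
        (∃ α β : k, α ≠ β ∧ LinearMap.charpoly (ρbar.ρ h) = (X - C α) * (X - C β)) ∧
        ∃ w ∈ W, ∀ m : M, w ≠ M.ρ h m - m)
    (x : H1 M) (hx : x ∈ continuousH1S S M) (hx0 : x ≠ 0) :
    ∃ s : GQ, (∀ ζ : Qb, ζ ^ p ^ (n + 1) = 1 → s ζ = ζ) ∧
      (∃ α β : k, α ≠ β ∧ LinearMap.charpoly (ρbar.ρ s) = (X - C α) * (X - C β)) ∧
      ¬ ClassTrivAt M x s := by
  classical
  obtain ⟨c, hc, rfl⟩ := (mem_continuousH1S_iff S M x).1 hx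
  have hcoc := isCoc_of_cocycle M c
  let N : Subgroup GQ :=
    { carrier := {s | ρbar.ρ s = 1 ∧ ∀ ζ : Qb, ζ ^ p ^ (n + 1) = 1 → s ζ = ζ}
      mul_mem' := fun {a b} ha hb =>
        ⟨by rw [map_mul, ha.1, hb.1, mul_one],
          fun ζ hζ => by rw [AlgEquiv.mul_apply, hb.2 ζ hζ, ha.2 ζ hζ]⟩
      one_mem' := ⟨map_one _, fun _ _ => rfl⟩
      inv_mem' := fun {a} ha => by
        refine ⟨?_, fun ζ hζ => ?_⟩
        · have h1 : ρbar.ρ a⁻¹ * ρbar.ρ a = 1 := by rw [← map_mul, inv_mul_cancel, map_one]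
          rwa [ha.1, mul_one] at h1
        · apply a.injective
          rw [ha.2 ζ hζ]
          exact a.apply_symm_apply ζ }
  have hNnormal : N.Normal := by
    refine ⟨fun s hs g => ⟨?_, fun ζ hζ => ?_⟩⟩
    · rw [map_mul, map_mul, hs.1, mul_one, ← map_mul, mul_inv_cancel, map_one]
    · have h1 : (g⁻¹ ζ) ^ p ^ (n + 1) = 1 := by rw [← map_pow, hζ, map_one]
      show g (s (g⁻¹ ζ)) = ζ
      rw [hs.2 _ h1]
      exact g.apply_symm_apply ζ
  have hN : ∀ τ ∈ N, actOf M τ = 1 := by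
    intro τ hτ
    ext m
    rw [actOf_apply, hker τ hτ.1
      (fun ζ hζ => hτ.2 ζ (by rw [pow_succ', pow_mul, hζ, one_pow]))]
    rfl
  have hex : ∃ τ0 ∈ N, (c : GQ → M) τ0 ≠ 0 := by
    by_contra hcon
    push Not at hcon
    exact hx0 (hR5 c hc (fun s h1 h2 => hcon s ⟨h1, h2⟩))
  obtain ⟨τ0, hτ0, hcτ0⟩ := hex
  have hWne : imageAddSubgroup hcoc N hN ≠ ⊥ := by
    intro hbot
    have h1 : (c : GQ → M) τ0 ∈ imageAddSubgroup hcoc N hN := ⟨τ0, hτ0, rfl⟩
    rw [hbot, AddSubgroup.mem_bot] at h1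
    exact hcτ0 h1
  have hWst : ∀ (g : GQ), ∀ w ∈ imageAddSubgroup hcoc N hN,
      M.ρ g w ∈ imageAddSubgroup hcoc N hN :=
    fun g w hw => act_mem_imageAddSubgroup hcoc N hN g hw
  obtain ⟨h, hhζ, hhe, w, hw, hwn⟩ := hR4 _ hWne hWst
  obtain ⟨τ1, hτ1, rfl⟩ := hw
  obtain ⟨τ, hτ, hτh⟩ := exists_not_trivAt_mul hcoc N hN h
    ⟨τ1, hτ1, fun ⟨m, hm⟩ => hwn m hm⟩
  refine ⟨τ * h, fun ζ hζ => ?_, ?_, ?_⟩
  · rw [AlgEquiv.mul_apply, hhζ ζ hζ, hτ.2 ζ hζ]
  · have e : ρbar.ρ (τ * h) = ρbar.ρ h := by rw [map_mul, hτ.1, one_mul]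
    rw [e]
    exact hhe
  · rw [classTrivAt_iff]
    exact hτh

/-- **TW-R6, assembled**: `exists_tw_primes` with `hgood` discharged by the `R4`-shape and
`R5`-shape hypotheses (for all `n`).  The number of primes `r = dim D0` does not depend on
`n`. -/
theorem exists_tw_primes_of_R4_R5 {k : Type} [Field k] (ρbar : ResidualGaloisRep k)
    [Module.Finite (ZMod p) M]
    (hsm : ∀ m : M, ∃ F : IntermediateField ℚ Qb, FiniteDimensional ℚ F ∧
      ∀ s ∈ F.fixingSubgroup, M.ρ s m = m)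
    (S : Finset Nat.Primes)
    (hur : ∀ q : Nat.Primes, q ∉ S → ∀ A : ValuationSubring Qb, A.LiesOverPrime (q : ℕ) →
      ∀ g ∈ A.inertiaSubgroupIn ℚ, M.ρ g = 1)
    (T0 : Finset ℕ)
    (hT0 : ∀ q : ℕ, q.Prime → q ∉ T0 →
      q ≠ p ∧ (∀ hq : q.Prime, (⟨q, hq⟩ : Nat.Primes) ∉ S) ∧ ρbar.IsUnramifiedAt q)
    (D0 : Submodule (ZMod p) (H1 M)) (hD0 : D0 ≤ continuousH1S S M)
    [Module.Finite (ZMod p) D0]
    (hker : ∀ s : GQ, ρbar.ρ s = 1 → (∀ ζ : Qb, ζ ^ p = 1 → s ζ = ζ) → M.ρ s = 1)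
    (hR5 : ∀ n : ℕ, ∀ c : cocycles₁ M, IsLevelConstantS₁ S c →
      (∀ s : GQ, ρbar.ρ s = 1 → (∀ ζ : Qb, ζ ^ p ^ (n + 1) = 1 → s ζ = ζ) → c s = 0) →
      (H1π M).hom c = 0)
    (hR4 : ∀ n : ℕ, ∀ W : AddSubgroup M, W ≠ ⊥ → (∀ (g : GQ), ∀ w ∈ W, M.ρ g w ∈ W) →
      ∃ h : GQ, (∀ ζ : Qb, ζ ^ p ^ (n + 1) = 1 → h ζ = ζ) ∧
        (∃ α β : k, α ≠ β ∧ LinearMap.charpoly (ρbar.ρ h) = (X - C α) * (X - C β)) ∧
        ∃ w ∈ W, ∀ m : M, w ≠ M.ρ h m - m)
    (n : ℕ) :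
    ∃ qv : Fin (Module.finrank (ZMod p) D0) → ℕ, Function.Injective qv ∧
      (∀ i, (qv i).Prime ∧ qv i ∉ T0 ∧ p ^ (n + 1) ∣ qv i - 1) ∧
      (∀ i, ∀ P : ValuationSubring Qb, P.LiesOverPrime (qv i) →
        ∀ φ : GQ, P.IsFrobeniusAt φ (qv i) →
          ∃ α β : k, α ≠ β ∧ LinearMap.charpoly (ρbar.ρ φ) = (X - C α) * (X - C β)) ∧
      ∀ x ∈ D0, (∀ i, ∃ (P : ValuationSubring Qb) (φ : GQ), P.LiesOverPrime (qv i) ∧
        P.IsFrobeniusAt φ (qv i) ∧ ClassTrivAt M x φ) → x = 0 :=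
  exists_tw_primes M ρbar hsm S hur T0 hT0 D0 hD0 n
    (fun x hx hx0 => exists_good_element M ρbar S n hker (hR5 n) (hR4 n) x (hD0 hx) hx0)

end Kill

end Fermat.Agent.S56.helper4859
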