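/-
S56 brick R4 (the Taylor-Wiles element), matrix core. Mathlib only.
Owner: helper6827.
-/
import Mathlib

set_option autoImplicit false

namespace Fermat.Agent.S56.helper6827

open Polynomial Matrix

section TwoByTwo

variable {k : Type*} [Field k]

/-- A trace-zero `2 × 2` matrix squares to the scalar `-det`. -/
theorem mul_self_of_trace_zero (X : Matrix (Fin 2) (Fin 2) k) (h : X.trace = 0) :
    X * X = (-X.det) • (1 : Matrix (Fin 2) (Fin 2) k) := by
  obtain ⟨a, b, c, d, rfl⟩ : ∃ a b c d : k, X = !![a, b; c, d] :=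
    ⟨_, _, _, _, Matrix.eta_fin_two X⟩
  rw [Matrix.trace_fin_two_of] at h
  have hd : d = -a := by linear_combination h
  subst hd
  rw [Matrix.det_fin_two_of, Matrix.mul_fin_two, Matrix.one_fin_two, Matrix.smul_of,
    Matrix.smul_vec2]
  ext i j
  fin_cases i <;> fin_cases j <;> simp <;> ring

/-- The kernel of a nonzero `2 × 2` matrix with a nonzero kernel vector `v` is the line `k v`. -/
theorem ker_line (N : Matrix (Fin 2) (Fin 2) k) (hN : N ≠ 0) (v w : Fin 2 → k)
    (hv : N *ᵥ v = 0) (hv0 : v ≠ 0) (hw : N *ᵥ w = 0) : ∃ c : k, w = c • v := by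
  have e1 := congrFun hv 0
  have e2 := congrFun hv 1
  have f1 := congrFun hw 0
  have f2 := congrFun hw 1
  simp only [Matrix.mulVec, dotProduct, Fin.sum_univ_two, Pi.zero_apply] at e1 e2 f1 f2
  have hD : v 0 * w 1 - v 1 * w 0 = 0 := by
    by_contra hD
    apply hN
    have h00 : N 0 0 = 0 := by
      have : N 0 0 * (v 0 * w 1 - v 1 * w 0) = 0 := by linear_combination w 1 * e1 - v 1 * f1
      rcases mul_eq_zero.mp this with h | h
      · exact h
      · exact absurd h hD
    have h01 : N 0 1 = 0 := by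
      have : N 0 1 * (v 0 * w 1 - v 1 * w 0) = 0 := by linear_combination v 0 * f1 - w 0 * e1
      rcases mul_eq_zero.mp this with h | h
      · exact h
      · exact absurd h hD
    have h10 : N 1 0 = 0 := by
      have : N 1 0 * (v 0 * w 1 - v 1 * w 0) = 0 := by linear_combination w 1 * e2 - v 1 * f2
      rcases mul_eq_zero.mp this with h | h
      · exact h
      · exact absurd h hD
    have h11 : N 1 1 = 0 := by
      have : N 1 1 * (v 0 * w 1 - v 1 * w 0) = 0 := by linear_combination v 0 * f2 - w 0 * e2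
      rcases mul_eq_zero.mp this with h | h
      · exact h
      · exact absurd h hD
    ext i j
    fin_cases i <;> fin_cases j <;> simpa
  by_cases h0 : v 0 = 0
  · have h1 : v 1 ≠ 0 := by
      intro h1
      apply hv0
      ext i
      fin_cases i <;> simpa
    refine ⟨w 1 / v 1, ?_⟩
    ext i
    fin_cases i
    · simp only [Fin.zero_eta, Pi.smul_apply, smul_eq_mul]
      field_simp
      linear_combination -hD
    · simp only [Fin.mk_one, Pi.smul_apply, smul_eq_mul]
      field_simp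
  · refine ⟨w 0 / v 0, ?_⟩
    ext i
    fin_cases i
    · simp only [Fin.zero_eta, Pi.smul_apply, smul_eq_mul]
      field_simp
    · simp only [Fin.mk_one, Pi.smul_apply, smul_eq_mul]
      field_simp
      linear_combination hD

/-- For a singular `2 × 2` matrix `N`: `N M N = tr(N M) N`. -/
theorem mul_mul_self_of_det_zero (N M : Matrix (Fin 2) (Fin 2) k) (hN : N.det = 0) :
    N * M * N = (N * M).trace • N := by
  obtain ⟨a, b, c, d, rfl⟩ : ∃ a b c d : k, N = !![a, b; c, d] :=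
    ⟨_, _, _, _, Matrix.eta_fin_two N⟩
  obtain ⟨x, y, z, w, rfl⟩ : ∃ x y z w : k, M = !![x, y; z, w] :=
    ⟨_, _, _, _, Matrix.eta_fin_two M⟩
  rw [Matrix.det_fin_two_of] at hN
  rw [Matrix.mul_fin_two, Matrix.mul_fin_two, Matrix.trace_fin_two_of, Matrix.smul_of,
    Matrix.smul_vec2]
  ext i j
  fin_cases i <;> fin_cases j <;> simp
  · linear_combination (-w) * hN
  · linear_combination y * hN
  · linear_combination z * hN
  · linear_combination (-x) * hN

/-- Two commuting trace-zero `2 × 2` matrices are proportional (char `≠ 2`). -/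
theorem comm_trace_zero (h2 : (2 : k) ≠ 0) (A B : Matrix (Fin 2) (Fin 2) k)
    (hA : A.trace = 0) (hB : B.trace = 0) (hA0 : A ≠ 0) (hAB : A * B = B * A) :
    ∃ c : k, B = c • A := by
  obtain ⟨a, b, c, d, rfl⟩ : ∃ a b c d : k, A = !![a, b; c, d] :=
    ⟨_, _, _, _, Matrix.eta_fin_two A⟩
  obtain ⟨x, y, z, w, rfl⟩ : ∃ x y z w : k, B = !![x, y; z, w] :=
    ⟨_, _, _, _, Matrix.eta_fin_two B⟩
  rw [Matrix.trace_fin_two_of] at hA hB
  have hd : d = -a := by linear_combination hA
  have hw : w = -x := by linear_combination hB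
  subst hd hw
  rw [Matrix.mul_fin_two, Matrix.mul_fin_two] at hAB
  have e00 := congrFun (congrFun hAB 0) 0
  have e01 := congrFun (congrFun hAB 0) 1
  have e10 := congrFun (congrFun hAB 1) 0
  simp at e00 e01 e10
  have k1 : b * z = c * y := by linear_combination e00
  have k2 : a * y = b * x := by
    have : (2 : k) * (a * y - b * x) = 0 := by linear_combination e01
    rcases mul_eq_zero.mp this with h | h
    · exact absurd h h2
    · linear_combination h
  have k3 : c * x = a * z := by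
    have : (2 : k) * (c * x - a * z) = 0 := by linear_combination e10
    rcases mul_eq_zero.mp this with h | h
    · exact absurd h h2
    · linear_combination h
  by_cases ha : a = 0
  · by_cases hb : b = 0
    · have hc : c ≠ 0 := by
        intro hc
        apply hA0
        subst ha hb hc
        ext i j
        fin_cases i <;> fin_cases j <;> simp
      refine ⟨z / c, ?_⟩
      rw [Matrix.smul_of, Matrix.smul_vec2]
      subst ha hb
      have hx : x = 0 := by
        have : c * x = 0 := by linear_combination k3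
        rcases mul_eq_zero.mp this with h | h
        · exact absurd h hc
        · exact h
      have hy : y = 0 := by
        have : c * y = 0 := by linear_combination -k1
        rcases mul_eq_zero.mp this with h | h
        · exact absurd h hc
        · exact h
      subst hx hy
      ext i j
      fin_cases i <;> fin_cases j <;> simp <;> field_simp
    · refine ⟨y / b, ?_⟩
      rw [Matrix.smul_of, Matrix.smul_vec2]
      subst ha
      have hx : x = 0 := by
        have : b * x = 0 := by linear_combination -k2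
        rcases mul_eq_zero.mp this with h | h
        · exact absurd h hb
        · exact h
      subst hx
      ext i j
      fin_cases i <;> fin_cases j <;> simp <;> field_simp
      linear_combination k1
  · refine ⟨x / a, ?_⟩
    rw [Matrix.smul_of, Matrix.smul_vec2]
    ext i j
    fin_cases i <;> fin_cases j <;> simp <;> field_simp
    · linear_combination k2
    · linear_combination -k3

/-- `det (M - a)` for `2 × 2` matrices. -/
theorem det_sub_smul_one (M : Matrix (Fin 2) (Fin 2) k) (a : k) :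
    (M - a • (1 : Matrix (Fin 2) (Fin 2) k)).det = M.det - a * M.trace + a ^ 2 := by
  obtain ⟨x, y, z, w, rfl⟩ : ∃ x y z w : k, M = !![x, y; z, w] :=
    ⟨_, _, _, _, Matrix.eta_fin_two M⟩
  rw [Matrix.det_fin_two, Matrix.det_fin_two_of, Matrix.trace_fin_two_of]
  simp
  ring

/-- `tr (M²) = (tr M)² - 2 det M` for `2 × 2` matrices. -/
theorem trace_mul_self (M : Matrix (Fin 2) (Fin 2) k) :
    (M * M).trace = M.trace ^ 2 - 2 * M.det := by
  obtain ⟨x, y, z, w, rfl⟩ : ∃ x y z w : k, M = !![x, y; z, w] :=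
    ⟨_, _, _, _, Matrix.eta_fin_two M⟩
  rw [Matrix.mul_fin_two, Matrix.det_fin_two_of, Matrix.trace_fin_two_of, Matrix.trace_fin_two_of]
  ring

end TwoByTwo

section Rep

variable {k : Type*} [Field k] {Γ : Type*} [Group Γ] (ρ : Γ →* Matrix (Fin 2) (Fin 2) k)

theorem rho_mul_inv (g : Γ) : ρ g * ρ g⁻¹ = 1 := by rw [← map_mul, mul_inv_cancel, map_one]

theorem rho_inv_mul (g : Γ) : ρ g⁻¹ * ρ g = 1 := by rw [← map_mul, inv_mul_cancel, map_one]

theorem rho_ne_zero (g : Γ) : ρ g ≠ 0 := by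
  intro h
  have := rho_mul_inv ρ g
  rw [h, zero_mul] at this
  exact zero_ne_one this

theorem rho_det_ne_zero (g : Γ) : (ρ g).det ≠ 0 := by
  intro h
  have := congrArg Matrix.det (rho_mul_inv ρ g)
  rw [Matrix.det_mul, h, zero_mul, Matrix.det_one] at this
  exact zero_ne_one this

/-- No common eigenvector: the matrix form of irreducibility (over the ground field). -/
def NoLine : Prop := ∀ v : Fin 2 → k, v ≠ 0 → ¬ ∀ g, ∃ c : k, ρ g *ᵥ v = c • v

/-- No nonzero trace-zero matrix commuting or anticommuting with every `ρ g`: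
the matrix form of "not dihedral" (consequence of the frozen `hTW` + absolute irreducibility). -/
def NoDih : Prop := ∀ X : Matrix (Fin 2) (Fin 2) k, X ≠ 0 → X.trace = 0 →
    ¬ ∀ g, ρ g * X = X * ρ g ∨ ρ g * X = -(X * ρ g)

/-- (SL) There is no stable line in the trace-zero matrices. -/
theorem no_stable_line (hirr : NoLine ρ) (hdih : NoDih ρ) (X : Matrix (Fin 2) (Fin 2) k)
    (hX : X ≠ 0) (htr : X.trace = 0) : ¬ ∀ g, ∃ c : k, ρ g * X = c • (X * ρ g) := by
  intro hst
  have hsq := mul_self_of_trace_zero X htr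
  by_cases hdet : X.det = 0
  · rw [hdet, neg_zero, zero_smul] at hsq
    obtain ⟨j, hj⟩ : ∃ j, (fun i => X i j) ≠ 0 := by
      by_contra hcon
      push Not at hcon
      apply hX
      ext i j
      exact congrFun (hcon j) i
    have hvdef : (fun i => X i j) = X *ᵥ (Pi.single j 1) := by
      ext i
      simp
    have hXv : X *ᵥ (fun i => X i j) = 0 := by
      rw [hvdef, Matrix.mulVec_mulVec, hsq, Matrix.zero_mulVec]
    apply hirr _ hj
    intro g
    obtain ⟨c, hc⟩ := hst g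
    have hc0 : c ≠ 0 := by
      rintro rfl
      rw [zero_smul] at hc
      apply hX
      calc X = ρ g⁻¹ * (ρ g * X) := by rw [← mul_assoc, rho_inv_mul, one_mul]
        _ = 0 := by rw [hc, mul_zero]
    have h1 : X * ρ g = c⁻¹ • (ρ g * X) := by
      rw [hc, smul_smul, inv_mul_cancel₀ hc0, one_smul]
    have : X *ᵥ (ρ g *ᵥ (fun i => X i j)) = 0 := by
      rw [Matrix.mulVec_mulVec, h1, Matrix.smul_mulVec, ← Matrix.mulVec_mulVec, hXv,
        Matrix.mulVec_zero, smul_zero]
    exact ker_line X hX _ _ hXv hj this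
  · apply hdih X hX htr
    intro g
    obtain ⟨c, hc⟩ := hst g
    have key : ρ g * (X * X) = (c * c) • ((X * X) * ρ g) := by
      calc ρ g * (X * X) = (ρ g * X) * X := by rw [mul_assoc]
        _ = (c • (X * ρ g)) * X := by rw [hc]
        _ = c • (X * (ρ g * X)) := by rw [smul_mul_assoc, mul_assoc]
        _ = c • (X * (c • (X * ρ g))) := by rw [hc]
        _ = (c * c) • ((X * X) * ρ g) := by rw [mul_smul_comm, smul_smul, mul_assoc]
    rw [hsq] at key
    simp only [mul_smul_comm, mul_one, smul_mul_assoc, one_mul, smul_smul] at key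
    have hz : (-X.det) - c * c * (-X.det) = 0 := by
      by_contra hne
      apply rho_ne_zero ρ g
      have h3 : ((-X.det) - c * c * (-X.det)) • ρ g = 0 := by
        rw [sub_smul, ← key, sub_self]
      exact (smul_eq_zero.mp h3).resolve_left hne
    have hcc : c * c = 1 := by
      have h3 : X.det * (c * c - 1) = 0 := by linear_combination hz
      rcases mul_eq_zero.mp h3 with h | h
      · exact absurd h hdet
      · linear_combination h
    rcases mul_self_eq_one_iff.mp hcc with rfl | rfl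
    · left; rw [hc, one_smul]
    · right; rw [hc, neg_smul, one_smul]

/-- (A) A normal subgroup with abelian quotient contains an element whose image has
nonzero discriminant (distinct eigenvalues). -/
theorem exists_regular (h2 : (2 : k) ≠ 0) (hirr : NoLine ρ) (hdih : NoDih ρ)
    (H : Subgroup Γ) [H.Normal] (hc : ∀ g g' : Γ, g * g' * g⁻¹ * g'⁻¹ ∈ H) :
    ∃ h ∈ H, (ρ h).trace ^ 2 - 4 * (ρ h).det ≠ 0 := by
  have h4 : (4 : k) ≠ 0 := by
    have : (4 : k) = 2 * 2 := by norm_num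
    rw [this]
    exact mul_ne_zero h2 h2
  by_contra hall
  push Not at hall
  by_cases hsc : ∀ h ∈ H, ∃ c : k, ρ h = c • (1 : Matrix (Fin 2) (Fin 2) k)
  · -- `ρ H` is scalar: a non-scalar `ρ g` gives a stable line of trace-zero matrices
    obtain ⟨g, hg⟩ : ∃ g, ∀ c : k, ρ g ≠ c • (1 : Matrix (Fin 2) (Fin 2) k) := by
      by_contra hcon
      push Not at hcon
      apply hirr ![1, 0] (by
        intro h
        have := congrFun h 0
        simp at this)
      intro g
      obtain ⟨c, hc'⟩ := hcon g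
      exact ⟨c, by rw [hc', Matrix.smul_mulVec, Matrix.one_mulVec]⟩
    have httr : (ρ g - ((ρ g).trace / 2) • (1 : Matrix (Fin 2) (Fin 2) k)).trace = 0 := by
      rw [Matrix.trace_sub, Matrix.trace_smul, Matrix.trace_one, Fintype.card_fin]
      simp only [Nat.cast_ofNat, smul_eq_mul]
      field_simp
      ring
    have ht0 : ρ g - ((ρ g).trace / 2) • (1 : Matrix (Fin 2) (Fin 2) k) ≠ 0 := by
      intro h0
      exact hg _ (sub_eq_zero.mp h0)
    apply no_stable_line ρ hirr hdih _ ht0 httr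
    intro g'
    obtain ⟨c, hc'⟩ := hsc _ (hc g' g)
    have e1 : ρ g' * ρ g = c • (ρ g * ρ g') := by
      have h3 : ρ (g' * g * g'⁻¹ * g⁻¹) * (ρ g * ρ g') = ρ g' * ρ g := by
        rw [← map_mul, ← map_mul, ← map_mul]
        congr 1
        group
      rw [← h3, hc', smul_mul_assoc, one_mul]
    have e2 : c * (ρ g).trace = (ρ g).trace := by
      have h3 : (ρ g' * ρ g * ρ g'⁻¹).trace = (ρ g).trace := by
        rw [Matrix.trace_mul_comm, ← mul_assoc, rho_inv_mul, one_mul]
      rw [e1, smul_mul_assoc, mul_assoc, rho_mul_inv, mul_one, Matrix.trace_smul,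
        smul_eq_mul] at h3
      exact h3
    refine ⟨c, ?_⟩
    rw [mul_sub, sub_mul, smul_sub, e1, mul_smul_comm, mul_one, smul_mul_assoc, one_mul,
      smul_smul]
    have h5 : c * ((ρ g).trace / 2) = (ρ g).trace / 2 := by
      rw [← mul_div_assoc, e2]
    rw [h5]
  · push Not at hsc
    obtain ⟨h₀, hh₀, hns⟩ := hsc
    have hd0 := hall h₀ hh₀
    have hdet : (ρ h₀).det = ((ρ h₀).trace / 2) ^ 2 := by
      field_simp
      linear_combination -hd0
    have ha0 : (ρ h₀).trace / 2 ≠ 0 := by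
      intro h0
      rw [h0] at hdet
      apply rho_det_ne_zero ρ h₀
      rw [hdet]
      ring
    have hN0 : ρ h₀ - ((ρ h₀).trace / 2) • (1 : Matrix (Fin 2) (Fin 2) k) ≠ 0 :=
      fun h0 => hns _ (sub_eq_zero.mp h0)
    have hNtr : (ρ h₀ - ((ρ h₀).trace / 2) • (1 : Matrix (Fin 2) (Fin 2) k)).trace = 0 := by
      rw [Matrix.trace_sub, Matrix.trace_smul, Matrix.trace_one, Fintype.card_fin]
      simp only [Nat.cast_ofNat, smul_eq_mul]
      field_simp
      ring
    have hNdet : (ρ h₀ - ((ρ h₀).trace / 2) • (1 : Matrix (Fin 2) (Fin 2) k)).det = 0 := by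
      rw [det_sub_smul_one, hdet]
      field_simp
      ring
    have hNN := mul_self_of_trace_zero _ hNtr
    rw [hNdet, neg_zero, zero_smul] at hNN
    generalize hNdef : ρ h₀ - ((ρ h₀).trace / 2) • (1 : Matrix (Fin 2) (Fin 2) k) = N
      at hN0 hNtr hNdet hNN
    generalize hadef : (ρ h₀).trace / 2 = a at hdet ha0 hNdef
    have hρ : ρ h₀ = a • (1 : Matrix (Fin 2) (Fin 2) k) + N := by
      rw [← hNdef]; abel
    -- key: `tr (N * ρ h) = 0` for all `h ∈ H`
    have hτ : ∀ h ∈ H, (N * ρ h).trace = 0 := by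
      intro h hh
      have hM := hall h hh
      have E1 := hall (h₀ * h) (H.mul_mem hh₀ hh)
      have E2 := hall (h₀ * h₀ * h) (H.mul_mem (H.mul_mem hh₀ hh₀) hh)
      rw [map_mul, Matrix.det_mul, hdet] at E1
      rw [map_mul, map_mul, Matrix.det_mul, Matrix.det_mul, hdet] at E2
      have t1 : (ρ h₀ * ρ h).trace = a * (ρ h).trace + (N * ρ h).trace := by
        rw [hρ, add_mul, Matrix.trace_add, smul_mul_assoc, one_mul, Matrix.trace_smul,
          smul_eq_mul]
      have t2 : (ρ h₀ * ρ h₀ * ρ h).trace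
          = a ^ 2 * (ρ h).trace + 2 * a * (N * ρ h).trace := by
        have h3 : ρ h₀ * ρ h₀ = (a ^ 2) • (1 : Matrix (Fin 2) (Fin 2) k) + (2 * a) • N := by
          rw [hρ, add_mul, mul_add, mul_add, hNN, smul_mul_assoc, one_mul, mul_smul_comm,
            mul_one, smul_mul_assoc, one_mul, smul_smul, add_zero, two_mul, add_smul, sq]
          abel
        rw [h3, add_mul, Matrix.trace_add, smul_mul_assoc, one_mul, Matrix.trace_smul,
          smul_mul_assoc, Matrix.trace_smul, smul_eq_mul, smul_eq_mul]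
      rw [t1] at E1
      rw [t2] at E2
      have h5 : 2 * a ^ 2 * (N * ρ h).trace ^ 2 = 0 := by
        linear_combination E2 - 2 * a ^ 2 * E1 + a ^ 4 * hM
      have h6 : (N * ρ h).trace ^ 2 = 0 := by
        rcases mul_eq_zero.mp h5 with h | h
        · exact absurd h (mul_ne_zero h2 (pow_ne_zero 2 ha0))
        · exact h
      exact pow_eq_zero_iff (two_ne_zero) |>.mp h6
    -- a nonzero column `v` of `N`
    obtain ⟨j, hj⟩ : ∃ j, (fun i => N i j) ≠ 0 := by
      by_contra hcon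
      push Not at hcon
      apply hN0
      ext i j
      exact congrFun (hcon j) i
    have hvdef : (fun i => N i j) = N *ᵥ (Pi.single j 1) := by
      ext i
      simp
    have hNv : N *ᵥ (fun i => N i j) = 0 := by
      rw [hvdef, Matrix.mulVec_mulVec, hNN, Matrix.zero_mulVec]
    have hHv : ∀ h ∈ H, ∃ c : k, ρ h *ᵥ (fun i => N i j) = c • (fun i => N i j) := by
      intro h hh
      have h3 : N *ᵥ (ρ h *ᵥ (fun i => N i j)) = 0 := by
        rw [hvdef, Matrix.mulVec_mulVec, Matrix.mulVec_mulVec,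
          mul_mul_self_of_det_zero N (ρ h) hNdet, hτ h hh, zero_smul, Matrix.zero_mulVec]
      exact ker_line N hN0 _ _ hNv hj h3
    apply hirr _ hj
    intro g
    obtain ⟨c, hc'⟩ := hHv (g⁻¹ * h₀ * g) (by
      have := Subgroup.Normal.conj_mem (inferInstance : H.Normal) h₀ hh₀ g⁻¹
      rwa [inv_inv] at this)
    -- `u = ρ g v` is an eigenvector of `ρ h₀`
    have hu : ρ h₀ *ᵥ (ρ g *ᵥ (fun i => N i j)) = c • (ρ g *ᵥ (fun i => N i j)) := by
      have h3 : ρ g *ᵥ (ρ (g⁻¹ * h₀ * g) *ᵥ (fun i => N i j))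
          = ρ h₀ *ᵥ (ρ g *ᵥ (fun i => N i j)) := by
        rw [Matrix.mulVec_mulVec, Matrix.mulVec_mulVec, ← map_mul, ← map_mul]
        congr 2
        group
      rw [← h3, hc', Matrix.mulVec_smul]
    have hu0 : ρ g *ᵥ (fun i => N i j) ≠ 0 := by
      intro h0
      apply hj
      have h3 : ρ g⁻¹ *ᵥ (ρ g *ᵥ (fun i => N i j)) = (fun i => N i j) := by
        rw [Matrix.mulVec_mulVec, rho_inv_mul, Matrix.one_mulVec]
      rw [← h3, h0, Matrix.mulVec_zero]
    have hNu : N *ᵥ (ρ g *ᵥ (fun i => N i j)) = (c - a) • (ρ g *ᵥ (fun i => N i j)) := by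
      have h3 : ρ h₀ *ᵥ (ρ g *ᵥ (fun i => N i j))
          = a • (ρ g *ᵥ (fun i => N i j)) + N *ᵥ (ρ g *ᵥ (fun i => N i j)) := by
        rw [hρ, Matrix.add_mulVec, Matrix.smul_mulVec, Matrix.one_mulVec]
      rw [sub_smul, ← hu, h3, add_sub_cancel_left]
    have hca : c - a = 0 := by
      by_contra hne
      apply hu0
      have h3 : N *ᵥ (N *ᵥ (ρ g *ᵥ (fun i => N i j))) = 0 := by
        rw [Matrix.mulVec_mulVec, hNN, Matrix.zero_mulVec]
      rw [hNu, Matrix.mulVec_smul, hNu, smul_smul] at h3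
      exact (smul_eq_zero.mp h3).resolve_left (mul_ne_zero hne hne)
    rw [hca, zero_smul] at hNu
    exact ker_line N hN0 _ _ hNv hj hNu

/-- (B) The trace-zero matrices are an irreducible `Γ`-module: a nonzero stable subspace of
trace-zero matrices contains every trace-zero matrix. -/
theorem mem_of_stable (h2 : (2 : k) ≠ 0) (hirr : NoLine ρ) (hdih : NoDih ρ)
    (U : Submodule k (Matrix (Fin 2) (Fin 2) k)) (hU0 : U ≠ ⊥)
    (hUtr : ∀ X ∈ U, X.trace = 0) (hUst : ∀ g, ∀ X ∈ U, ρ g * X * ρ g⁻¹ ∈ U)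
    (Y : Matrix (Fin 2) (Fin 2) k) (hY : Y.trace = 0) : Y ∈ U := by
  obtain ⟨X₀, hX₀U, hX₀⟩ := Submodule.exists_mem_ne_zero_of_ne_bot hU0
  have hs1 := no_stable_line ρ hirr hdih X₀ hX₀ (hUtr X₀ hX₀U)
  push Not at hs1
  obtain ⟨g₁, hg₁⟩ := hs1
  have hX₁U : ρ g₁ * X₀ * ρ g₁⁻¹ ∈ U := hUst g₁ X₀ hX₀U
  have hnp : ∀ c : k, ρ g₁ * X₀ * ρ g₁⁻¹ ≠ c • X₀ := by
    intro c hcc
    apply hg₁ c
    calc ρ g₁ * X₀ = ρ g₁ * X₀ * ρ g₁⁻¹ * ρ g₁ := by rw [mul_assoc, rho_inv_mul, mul_one]
      _ = c • (X₀ * ρ g₁) := by rw [hcc, smul_mul_assoc]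
  generalize ρ g₁ * X₀ * ρ g₁⁻¹ = X₁ at hX₁U hnp
  have hC0 : X₀ * X₁ - X₁ * X₀ ≠ 0 := by
    intro h
    obtain ⟨c, hcc⟩ := comm_trace_zero h2 X₀ X₁ (hUtr X₀ hX₀U) (hUtr X₁ hX₁U) hX₀
      (sub_eq_zero.mp h)
    exact hnp c hcc
  have hCtr : (X₀ * X₁ - X₁ * X₀).trace = 0 := by
    rw [Matrix.trace_sub, Matrix.trace_mul_comm, sub_self]
  have hs2 := no_stable_line ρ hirr hdih _ hC0 hCtr
  push Not at hs2
  obtain ⟨g₂, hg₂⟩ := hs2
  -- some conjugate leaves the plane spanned by `X₀, X₁`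
  obtain ⟨Z, hZU, hZ⟩ : ∃ Z ∈ U, Z ∉ Submodule.span k {X₀, X₁} := by
    by_contra hcon
    push Not at hcon
    obtain ⟨α, β, hA⟩ := Submodule.mem_span_pair.mp (hcon _ (hUst g₂ X₀ hX₀U))
    obtain ⟨γ, δ, hB⟩ := Submodule.mem_span_pair.mp (hcon _ (hUst g₂ X₁ hX₁U))
    apply hg₂ (α * δ - β * γ)
    have h3 : ρ g₂ * (X₀ * X₁ - X₁ * X₀) * ρ g₂⁻¹
        = (ρ g₂ * X₀ * ρ g₂⁻¹) * (ρ g₂ * X₁ * ρ g₂⁻¹)
          - (ρ g₂ * X₁ * ρ g₂⁻¹) * (ρ g₂ * X₀ * ρ g₂⁻¹) := by
      have e1 : (ρ g₂ * X₀ * ρ g₂⁻¹) * (ρ g₂ * X₁ * ρ g₂⁻¹) = ρ g₂ * (X₀ * X₁) * ρ g₂⁻¹ := by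
        calc (ρ g₂ * X₀ * ρ g₂⁻¹) * (ρ g₂ * X₁ * ρ g₂⁻¹)
            = ρ g₂ * X₀ * (ρ g₂⁻¹ * ρ g₂) * X₁ * ρ g₂⁻¹ := by simp only [mul_assoc]
          _ = ρ g₂ * (X₀ * X₁) * ρ g₂⁻¹ := by rw [rho_inv_mul, mul_one]; simp only [mul_assoc]
      have e2 : (ρ g₂ * X₁ * ρ g₂⁻¹) * (ρ g₂ * X₀ * ρ g₂⁻¹) = ρ g₂ * (X₁ * X₀) * ρ g₂⁻¹ := by
        calc (ρ g₂ * X₁ * ρ g₂⁻¹) * (ρ g₂ * X₀ * ρ g₂⁻¹)
            = ρ g₂ * X₁ * (ρ g₂⁻¹ * ρ g₂) * X₀ * ρ g₂⁻¹ := by simp only [mul_assoc]
          _ = ρ g₂ * (X₁ * X₀) * ρ g₂⁻¹ := by rw [rho_inv_mul, mul_one]; simp only [mul_assoc]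
      rw [e1, e2, mul_sub, sub_mul]
    have h4 : ρ g₂ * (X₀ * X₁ - X₁ * X₀) * ρ g₂⁻¹
        = (α * δ - β * γ) • (X₀ * X₁ - X₁ * X₀) := by
      rw [h3, ← hA, ← hB]
      simp only [add_mul, mul_add, smul_mul_assoc, mul_smul_comm]
      module
    calc ρ g₂ * (X₀ * X₁ - X₁ * X₀)
        = ρ g₂ * (X₀ * X₁ - X₁ * X₀) * ρ g₂⁻¹ * ρ g₂ := by
          rw [mul_assoc, rho_inv_mul, mul_one]
      _ = (α * δ - β * γ) • ((X₀ * X₁ - X₁ * X₀) * ρ g₂) := by rw [h4, smul_mul_assoc]
  -- dimension count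
  have hlt1 : (⊥ : Submodule k (Matrix (Fin 2) (Fin 2) k)) < Submodule.span k {X₀} := by
    rw [bot_lt_iff_ne_bot]
    intro h
    apply hX₀
    have : X₀ ∈ Submodule.span k {X₀} := Submodule.mem_span_singleton_self X₀
    rw [h] at this
    exact (Submodule.mem_bot k).mp this
  have hlt2 : Submodule.span k {X₀} < Submodule.span k {X₀, X₁} := by
    refine lt_of_le_of_ne (Submodule.span_mono (by simp)) ?_
    intro h
    have h3 : X₁ ∈ Submodule.span k {X₀, X₁} := Submodule.subset_span (by simp)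
    rw [← h] at h3
    obtain ⟨c, hcc⟩ := Submodule.mem_span_singleton.mp h3
    exact hnp c hcc.symm
  have hle3 : Submodule.span k {X₀, X₁} ≤ U := by
    rw [Submodule.span_le]
    intro x hx
    rcases hx with rfl | rfl
    · exact hX₀U
    · exact hX₁U
  have hlt3 : Submodule.span k {X₀, X₁} < U := by
    refine lt_of_le_of_ne hle3 ?_
    intro h
    exact hZ (h ▸ hZU)
  have f1 := Submodule.finrank_lt_finrank_of_lt hlt1
  have f2 := Submodule.finrank_lt_finrank_of_lt hlt2
  have f3 := Submodule.finrank_lt_finrank_of_lt hlt3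
  rw [finrank_bot] at f1
  have hUle : U ≤ LinearMap.ker (Matrix.traceLinearMap (Fin 2) k k) := by
    intro x hx
    rw [LinearMap.mem_ker]
    exact hUtr x hx
  have hker_lt : LinearMap.ker (Matrix.traceLinearMap (Fin 2) k k) < ⊤ := by
    rw [lt_top_iff_ne_top]
    intro h
    have h3 : (1 : Matrix (Fin 2) (Fin 2) k) ∈ LinearMap.ker (Matrix.traceLinearMap (Fin 2) k k) := by
      rw [h]; trivial
    rw [LinearMap.mem_ker, Matrix.traceLinearMap_apply, Matrix.trace_one, Fintype.card_fin] at h3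
    exact h2 (by exact_mod_cast h3)
  have f4 := Submodule.finrank_lt_finrank_of_lt hker_lt
  rw [finrank_top, Module.finrank_matrix] at f4
  simp only [Fintype.card_fin, Module.finrank_self, mul_one] at f4
  have hUeq : U = LinearMap.ker (Matrix.traceLinearMap (Fin 2) k k) :=
    Submodule.eq_of_le_of_finrank_le hUle (by omega)
  rw [hUeq, LinearMap.mem_ker]
  exact hY

/-- Trace and determinant of a `2 × 2` matrix with split characteristic polynomial. -/
theorem trace_det_of_charpoly (M : Matrix (Fin 2) (Fin 2) k) (a b : k)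
    (hab : M.charpoly = (X - C a) * (X - C b)) : M.trace = a + b ∧ M.det = a * b := by
  have hcp := Matrix.charpoly_fin_two M
  have e0 := congrArg (Polynomial.eval 0) (hcp.symm.trans hab)
  have e1 := congrArg (Polynomial.eval 1) (hcp.symm.trans hab)
  simp only [Polynomial.eval_add, Polynomial.eval_sub, Polynomial.eval_mul, Polynomial.eval_pow,
    Polynomial.eval_X, Polynomial.eval_C] at e0 e1
  exact ⟨by linear_combination e0 - e1, by linear_combination e0⟩

/-- (C1) The Taylor-Wiles element, matrix form, trace version. `H` is a normal subgroup with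
abelian quotient (in the application: the kernel of a cyclotomic character), `W` a nonzero
additive subgroup of trace-zero matrices stable under conjugation by `ρ Γ`. There is `h ∈ H`
whose image has two distinct eigenvalues in `k`, and `w ∈ W` with `tr (w * ρ h) ≠ 0`. -/
theorem exists_regular_trace (h2 : (2 : k) ≠ 0)
    (hsplit : ∀ g, ∃ a b : k, (ρ g).charpoly = (X - C a) * (X - C b))
    (hirr : NoLine ρ) (hdih : NoDih ρ)
    (H : Subgroup Γ) [H.Normal] (hc : ∀ g g' : Γ, g * g' * g⁻¹ * g'⁻¹ ∈ H)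
    (W : AddSubgroup (Matrix (Fin 2) (Fin 2) k)) (hW0 : W ≠ ⊥)
    (hWtr : ∀ Y ∈ W, Y.trace = 0) (hWst : ∀ g, ∀ Y ∈ W, ρ g * Y * ρ g⁻¹ ∈ W) :
    ∃ h ∈ H, ∃ a b : k, a ≠ b ∧ (ρ h).charpoly = (X - C a) * (X - C b) ∧
      ∃ w ∈ W, (w * ρ h).trace ≠ 0 := by
  obtain ⟨h, hH, hdisc⟩ := exists_regular ρ h2 hirr hdih H hc
  obtain ⟨a, b, hab⟩ := hsplit h
  obtain ⟨htr, hdet⟩ := trace_det_of_charpoly (ρ h) a b hab
  have hne : a ≠ b := by
    rintro rfl
    apply hdisc
    rw [htr, hdet]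
    ring
  -- the `k`-span of `W`
  have hU0 : Submodule.span k (W : Set (Matrix (Fin 2) (Fin 2) k)) ≠ ⊥ := by
    obtain ⟨w, hw, hw0⟩ := (AddSubgroup.bot_or_exists_ne_zero W).resolve_left hW0
    intro hU
    apply hw0
    have h3 : w ∈ Submodule.span k (W : Set (Matrix (Fin 2) (Fin 2) k)) :=
      Submodule.subset_span hw
    rw [hU] at h3
    exact (Submodule.mem_bot k).mp h3
  have hUtr : ∀ Y ∈ Submodule.span k (W : Set (Matrix (Fin 2) (Fin 2) k)), Y.trace = 0 := by
    intro Y hY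
    induction hY using Submodule.span_induction with
    | mem x hx => exact hWtr x hx
    | zero => exact Matrix.trace_zero _ _
    | add x y _ _ hx hy => rw [Matrix.trace_add, hx, hy, add_zero]
    | smul c x _ hx => rw [Matrix.trace_smul, hx, smul_zero]
  have hUst : ∀ g, ∀ Y ∈ Submodule.span k (W : Set (Matrix (Fin 2) (Fin 2) k)),
      ρ g * Y * ρ g⁻¹ ∈ Submodule.span k (W : Set (Matrix (Fin 2) (Fin 2) k)) := by
    intro g Y hY
    induction hY using Submodule.span_induction with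
    | mem x hx => exact Submodule.subset_span (hWst g x hx)
    | zero => simp
    | add x y _ _ hx hy => rw [mul_add, add_mul]; exact Submodule.add_mem _ hx hy
    | smul c x _ hx => rw [mul_smul_comm, smul_mul_assoc]; exact Submodule.smul_mem _ c hx
  have htU : ρ h - ((a + b) / 2) • (1 : Matrix (Fin 2) (Fin 2) k)
      ∈ Submodule.span k (W : Set (Matrix (Fin 2) (Fin 2) k)) := by
    apply mem_of_stable ρ h2 hirr hdih _ hU0 hUtr hUst
    rw [Matrix.trace_sub, Matrix.trace_smul, Matrix.trace_one, Fintype.card_fin, htr]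
    simp only [Nat.cast_ofNat, smul_eq_mul]
    field_simp
    ring
  refine ⟨h, hH, a, b, hne, hab, ?_⟩
  by_contra hcon
  push Not at hcon
  have hall : ∀ Y ∈ Submodule.span k (W : Set (Matrix (Fin 2) (Fin 2) k)),
      (Y * ρ h).trace = 0 := by
    intro Y hY
    induction hY using Submodule.span_induction with
    | mem x hx => exact hcon x hx
    | zero => simp
    | add x y _ _ hx hy => rw [add_mul, Matrix.trace_add, hx, hy, add_zero]
    | smul c x _ hx => rw [smul_mul_assoc, Matrix.trace_smul, hx, smul_zero]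
  have h3 := hall _ htU
  rw [sub_mul, Matrix.trace_sub, smul_mul_assoc, one_mul, Matrix.trace_smul, trace_mul_self,
    htr, hdet, smul_eq_mul] at h3
  have h5 : (2 : k) * ((a + b) / 2) = a + b := by field_simp
  have h6 : (a - b) ^ 2 = 0 := by linear_combination 2 * h3 + (a + b) * h5
  exact hne (sub_eq_zero.mp (pow_eq_zero_iff two_ne_zero |>.mp h6))

/-- `tr ((h Y h⁻¹ - Y) h) = 0`: an element `w` with `tr (w * ρ h) ≠ 0` is not in `(h - 1) M`. -/
theorem trace_conj_sub_mul (h : Γ) (Y : Matrix (Fin 2) (Fin 2) k) :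
    ((ρ h * Y * ρ h⁻¹ - Y) * ρ h).trace = 0 := by
  rw [sub_mul, Matrix.trace_sub, mul_assoc, rho_inv_mul, mul_one, Matrix.trace_mul_comm, sub_self]

/-- (C2) From `tr (w * ρ h) ≠ 0` to a nonzero element of `W` commuting with `ρ h`
(average over the cyclic group generated by `h`; `k` finite). -/
theorem exists_fixed_of_trace [Finite k] (h : Γ) (a b : k) (hne : a ≠ b)
    (hab : (ρ h).charpoly = (X - C a) * (X - C b))
    (W : AddSubgroup (Matrix (Fin 2) (Fin 2) k))
    (hWst : ∀ g, ∀ Y ∈ W, ρ g * Y * ρ g⁻¹ ∈ W)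
    (w : Matrix (Fin 2) (Fin 2) k) (hwW : w ∈ W) (hw : (w * ρ h).trace ≠ 0) :
    ∃ w' ∈ W, w' ≠ 0 ∧ ρ h * w' = w' * ρ h := by
  cases nonempty_fintype k
  obtain ⟨-, hdet⟩ := trace_det_of_charpoly (ρ h) a b hab
  have hab0 : a * b ≠ 0 := hdet ▸ rho_det_ne_zero ρ h
  have ha : a ≠ 0 := left_ne_zero_of_mul hab0
  have hb : b ≠ 0 := right_ne_zero_of_mul hab0
  have ham : a ^ (Fintype.card k - 1) = 1 := FiniteField.pow_card_sub_one_eq_one a ha
  have hbm : b ^ (Fintype.card k - 1) = 1 := FiniteField.pow_card_sub_one_eq_one b hb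
  have hdvd : (X - C a) * (X - C b) ∣ (X ^ (Fintype.card k - 1) - 1 : k[X]) := by
    apply IsCoprime.mul_dvd
    · exact Polynomial.isCoprime_X_sub_C_of_isUnit_sub (sub_ne_zero.mpr hne).isUnit
    · rw [Polynomial.dvd_iff_isRoot]; simp [ham]
    · rw [Polynomial.dvd_iff_isRoot]; simp [hbm]
  have hpow : ρ (h ^ (Fintype.card k - 1)) = 1 := by
    obtain ⟨Q, hQ⟩ := hdvd
    have h3 := congrArg (Polynomial.aeval (ρ h)) hQ
    rw [← hab, map_mul, Matrix.aeval_self_charpoly, zero_mul] at h3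
    simp only [map_sub, map_pow, Polynomial.aeval_X, map_one] at h3
    rw [map_pow]
    exact sub_eq_zero.mp h3
  have hm0 : ((Fintype.card k - 1 : ℕ) : k) ≠ 0 := by
    have hq : ((Fintype.card k : ℕ) : k) = 0 := FiniteField.cast_card_eq_zero k
    have h1 : 1 ≤ Fintype.card k := Fintype.card_pos
    rw [Nat.cast_sub h1, hq]
    simp
  generalize Fintype.card k - 1 = m at hpow hm0
  have hinv : ρ (h ^ m)⁻¹ = 1 := by
    have h3 := rho_inv_mul ρ (h ^ m)
    rwa [hpow, mul_one] at h3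
  have hcomm : ∀ i : ℕ, (h ^ i)⁻¹ * h * h ^ i = h := by
    intro i
    rw [mul_assoc, ← pow_succ', pow_succ, ← mul_assoc, inv_mul_cancel, one_mul]
  refine ⟨∑ i ∈ Finset.range m, ρ (h ^ i) * w * ρ (h ^ i)⁻¹, ?_, ?_, ?_⟩
  · exact AddSubgroup.sum_mem _ (fun i _ => hWst (h ^ i) w hwW)
  · intro hS
    have h3 : ((∑ i ∈ Finset.range m, ρ (h ^ i) * w * ρ (h ^ i)⁻¹) * ρ h).trace
        = m * (w * ρ h).trace := by
      rw [Finset.sum_mul, Matrix.trace_sum]
      have h4 : ∀ i ∈ Finset.range m, (ρ (h ^ i) * w * ρ (h ^ i)⁻¹ * ρ h).trace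
          = (w * ρ h).trace := by
        intro i _
        have h5 : ρ (h ^ i) * w * ρ (h ^ i)⁻¹ * ρ h = ρ (h ^ i) * (w * ρ (h ^ i)⁻¹ * ρ h) := by
          simp only [mul_assoc]
        rw [h5, Matrix.trace_mul_comm]
        have h6 : w * ρ (h ^ i)⁻¹ * ρ h * ρ (h ^ i) = w * ρ ((h ^ i)⁻¹ * h * h ^ i) := by
          rw [map_mul, map_mul]; simp only [mul_assoc]
        rw [h6, hcomm]
      rw [Finset.sum_congr rfl h4, Finset.sum_const, Finset.card_range, nsmul_eq_mul]
    rw [hS, zero_mul, Matrix.trace_zero] at h3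
    exact (mul_ne_zero hm0 hw) h3.symm
  · have hterm : ∀ i : ℕ, ρ h * (ρ (h ^ i) * w * ρ (h ^ i)⁻¹) * ρ h⁻¹
        = ρ (h ^ (i + 1)) * w * ρ (h ^ (i + 1))⁻¹ := by
      intro i
      rw [pow_succ', _root_.mul_inv_rev, map_mul, map_mul]
      simp only [mul_assoc]
    have key : ρ h * (∑ i ∈ Finset.range m, ρ (h ^ i) * w * ρ (h ^ i)⁻¹) * ρ h⁻¹
        = ∑ i ∈ Finset.range m, ρ (h ^ i) * w * ρ (h ^ i)⁻¹ := by
      rw [Finset.mul_sum, Finset.sum_mul]
      simp only [hterm]
      have e1 := Finset.sum_range_succ (fun i => ρ (h ^ i) * w * ρ (h ^ i)⁻¹) m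
      have e2 := Finset.sum_range_succ' (fun i => ρ (h ^ i) * w * ρ (h ^ i)⁻¹) m
      rw [e1] at e2
      simp only [pow_zero, inv_one, map_one, one_mul, mul_one, hpow, hinv] at e2
      exact (add_right_cancel e2).symm
    calc ρ h * (∑ i ∈ Finset.range m, ρ (h ^ i) * w * ρ (h ^ i)⁻¹)
        = ρ h * (∑ i ∈ Finset.range m, ρ (h ^ i) * w * ρ (h ^ i)⁻¹) * ρ h⁻¹ * ρ h := by
          rw [mul_assoc, rho_inv_mul, mul_one]
      _ = (∑ i ∈ Finset.range m, ρ (h ^ i) * w * ρ (h ^ i)⁻¹) * ρ h := by rw [key]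

end Rep

end Fermat.Agent.S56.helper6827
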