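/-
S56 brick R4 (the Taylor-Wiles element), frozen vocabulary.
Owner: helper6827.  Uses the matrix core `helper6827_TWElement`.
-/
import Fermat.Agent.S56.helper6827_TWElement
import Fermat.Prelude.Def_GaloisRep_Residual

set_option autoImplicit false

namespace Fermat.Agent.S56.helper6827

open Polynomial Matrix TensorProduct

section Gal

variable {k : Type} [Field k] (ρbar : ResidualGaloisRep k)

/-- A basis of the underlying space of `ρbar`. -/
noncomputable def matBasis : Module.Basis (Fin 2) k ρbar.V :=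
  Module.finBasisOfFinrankEq k ρbar.V ρbar.finrank_eq

/-- The matrix form of `ρbar` in the basis `matBasis`. -/
noncomputable def matRep :
    (AlgebraicClosure ℚ ≃ₐ[ℚ] AlgebraicClosure ℚ) →* Matrix (Fin 2) (Fin 2) k where
  toFun g := LinearMap.toMatrixAlgEquiv (matBasis ρbar) (ρbar.ρ g)
  map_one' := by rw [map_one, map_one]
  map_mul' g h := by rw [map_mul, map_mul]

theorem matRep_apply (g : AlgebraicClosure ℚ ≃ₐ[ℚ] AlgebraicClosure ℚ) :
    matRep ρbar g = LinearMap.toMatrixAlgEquiv (matBasis ρbar) (ρbar.ρ g) := rfl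

theorem toMatrixAlgEquiv_eq (f : Module.End k ρbar.V) :
    LinearMap.toMatrixAlgEquiv (matBasis ρbar) f
      = LinearMap.toMatrix (matBasis ρbar) (matBasis ρbar) f := rfl

theorem matRep_charpoly (g : AlgebraicClosure ℚ ≃ₐ[ℚ] AlgebraicClosure ℚ) :
    (matRep ρbar g).charpoly = LinearMap.charpoly (ρbar.ρ g) := by
  rw [matRep_apply, toMatrixAlgEquiv_eq, LinearMap.charpoly_toMatrix]

theorem trace_toMatrixAlgEquiv (f : Module.End k ρbar.V) :
    (LinearMap.toMatrixAlgEquiv (matBasis ρbar) f).trace = LinearMap.trace k ρbar.V f := by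
  rw [toMatrixAlgEquiv_eq, ← LinearMap.trace_eq_matrix_trace k (matBasis ρbar)]

/-- `x ↦ 1 ⊗ x` is injective (coordinates in a basis). -/
theorem one_tmul_eq_zero {K : Type} [Field K] [Algebra k K] (x : ρbar.V)
    (h : (1 : K) ⊗ₜ[k] x = 0) : x = 0 := by
  apply (matBasis ρbar).repr.injective
  ext i
  have h1 := congrArg (fun y => ((matBasis ρbar).baseChange K).repr y i) h
  simp only [Module.Basis.baseChange_repr_tmul, map_zero, Finsupp.zero_apply] at h1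
  rw [Algebra.smul_def, mul_one] at h1
  have h2 : algebraMap k K ((matBasis ρbar).repr x i) = algebraMap k K 0 := by
    rw [h1, map_zero]
  simpa using (algebraMap k K).injective h2

/-- Absolute irreducibility gives "no common eigenvector" for the matrix form. -/
theorem noLine_of_absIrred (habs : ρbar.IsAbsolutelyIrreducible) : NoLine (matRep ρbar) := by
  intro v hv hst
  have hx0 : (matBasis ρbar).equivFun.symm v ≠ 0 := by
    intro h
    apply hv
    have h1 := congrArg (matBasis ρbar).equivFun h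
    rwa [LinearEquiv.apply_symm_apply, map_zero] at h1
  have hfx : ∀ g, ∃ c : k, ρbar.ρ g ((matBasis ρbar).equivFun.symm v)
      = c • (matBasis ρbar).equivFun.symm v := by
    intro g
    obtain ⟨c, hc⟩ := hst g
    refine ⟨c, ?_⟩
    apply (matBasis ρbar).equivFun.injective
    have h1 := LinearMap.toMatrix_mulVec_repr (matBasis ρbar) (matBasis ρbar) (ρbar.ρ g)
      ((matBasis ρbar).equivFun.symm v)
    have h2 : ((matBasis ρbar).repr ((matBasis ρbar).equivFun.symm v) : Fin 2 → k) = v := by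
      rw [← Module.Basis.equivFun_apply, LinearEquiv.apply_symm_apply]
    rw [h2] at h1
    rw [Module.Basis.equivFun_apply, ← h1, map_smul, LinearEquiv.apply_symm_apply]
    exact hc
  generalize (matBasis ρbar).equivFun.symm v = x at hx0 hfx
  -- the line spanned by `1 ⊗ x` over the algebraic closure
  have hy0 : (1 : AlgebraicClosure k) ⊗ₜ[k] x ≠ 0 := fun h => hx0 (one_tmul_eq_zero ρbar x h)
  rcases habs (Submodule.span (AlgebraicClosure k) {(1 : AlgebraicClosure k) ⊗ₜ[k] x}) (by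
    intro σ z hz
    obtain ⟨a, rfl⟩ := Submodule.mem_span_singleton.mp hz
    obtain ⟨c, hc⟩ := hfx σ
    have h1 : (ρbar.baseChange (AlgebraicClosure k)).ρ σ
        (a • ((1 : AlgebraicClosure k) ⊗ₜ[k] x))
        = (a * algebraMap k (AlgebraicClosure k) c) • ((1 : AlgebraicClosure k) ⊗ₜ[k] x) := by
      show (ρbar.ρ σ).baseChange (AlgebraicClosure k) (a • ((1 : AlgebraicClosure k) ⊗ₜ[k] x)) = _
      rw [map_smul, LinearMap.baseChange_tmul, hc, TensorProduct.tmul_smul, mul_smul,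
        algebraMap_smul]
    rw [h1]
    exact Submodule.smul_mem _ _ (Submodule.mem_span_singleton_self _)) with h | h
  · apply hy0
    have h1 : (1 : AlgebraicClosure k) ⊗ₜ[k] x
        ∈ Submodule.span (AlgebraicClosure k) {(1 : AlgebraicClosure k) ⊗ₜ[k] x} :=
      Submodule.mem_span_singleton_self _
    rw [h] at h1
    exact (Submodule.mem_bot _).mp h1
  · have h1 := finrank_span_singleton (K := AlgebraicClosure k) hy0
    have h2 : Module.finrank (AlgebraicClosure k) (ρbar.baseChange (AlgebraicClosure k)).V = 2 :=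
      (ρbar.baseChange (AlgebraicClosure k)).finrank_eq
    rw [h, finrank_top] at h1
    have h3 : (2 : ℕ) = 1 := h2.symm.trans h1
    omega

theorem rhoEnd_mul_inv (g : AlgebraicClosure ℚ ≃ₐ[ℚ] AlgebraicClosure ℚ) :
    ρbar.ρ g * ρbar.ρ g⁻¹ = 1 := by rw [← map_mul, mul_inv_cancel, map_one]

theorem rhoEnd_inv_mul (g : AlgebraicClosure ℚ ≃ₐ[ℚ] AlgebraicClosure ℚ) :
    ρbar.ρ g⁻¹ * ρbar.ρ g = 1 := by rw [← map_mul, inv_mul_cancel, map_one]

/-- The frozen `hTW` (irreducibility on every index-two subgroup, over every extension field)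
together with absolute irreducibility excludes the dihedral case: no nonzero trace-zero
endomorphism commutes or anticommutes with every `ρbar σ`. -/
theorem noDih_of_TW (h2 : (2 : k) ≠ 0) (habs : ρbar.IsAbsolutelyIrreducible)
    (hTW : ∀ (K : Type) [Field K] [Algebra k K]
      (G : Subgroup (AlgebraicClosure ℚ ≃ₐ[ℚ] AlgebraicClosure ℚ)), G.index = 2 →
      ∀ V : Submodule K (ρbar.baseChange K).V,
        (∀ σ ∈ G, ∀ x ∈ V, (ρbar.baseChange K).ρ σ x ∈ V) → V = ⊥ ∨ V = ⊤) :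
    NoDih (matRep ρbar) := by
  intro X hX htr hall
  obtain ⟨Xe, rfl⟩ : ∃ Xe : Module.End k ρbar.V,
      LinearMap.toMatrixAlgEquiv (matBasis ρbar) Xe = X :=
    ⟨(LinearMap.toMatrixAlgEquiv (matBasis ρbar)).symm X, AlgEquiv.apply_symm_apply _ _⟩
  have hXe0 : Xe ≠ 0 := by
    intro h
    apply hX
    rw [h, map_zero]
  have hcomm : ∀ g, ρbar.ρ g * Xe = Xe * ρbar.ρ g ∨ ρbar.ρ g * Xe = -(Xe * ρbar.ρ g) := by
    intro g
    rcases hall g with h | h
    · left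
      apply (LinearMap.toMatrixAlgEquiv (matBasis ρbar)).injective
      rw [map_mul, map_mul]
      exact h
    · right
      apply (LinearMap.toMatrixAlgEquiv (matBasis ρbar)).injective
      rw [map_mul, map_neg, map_mul]
      exact h
  have hXtr : LinearMap.trace k ρbar.V Xe = 0 := by
    rw [← trace_toMatrixAlgEquiv]
    exact htr
  have h2K : (2 : AlgebraicClosure k) ≠ 0 := by
    intro h
    apply h2
    apply (algebraMap k (AlgebraicClosure k)).injective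
    rw [map_ofNat, map_zero]
    exact h
  have hfr : Module.finrank (AlgebraicClosure k) (AlgebraicClosure k ⊗[k] ρbar.V) = 2 :=
    (ρbar.baseChange (AlgebraicClosure k)).finrank_eq
  have : Nontrivial (AlgebraicClosure k ⊗[k] ρbar.V) :=
    Module.nontrivial_of_finrank_pos (R := AlgebraicClosure k) (by rw [hfr]; norm_num)
  obtain ⟨μ, hμ⟩ := Module.End.exists_eigenvalue (Xe.baseChange (AlgebraicClosure k))
  have hE0 : Module.End.eigenspace (Xe.baseChange (AlgebraicClosure k)) μ ≠ ⊥ := hμ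
  have hEtop : Module.End.eigenspace (Xe.baseChange (AlgebraicClosure k)) μ ≠ ⊤ := by
    intro htop
    have hall' : ∀ y, Xe.baseChange (AlgebraicClosure k) y = μ • y := by
      intro y
      have h1 : y ∈ Module.End.eigenspace (Xe.baseChange (AlgebraicClosure k)) μ := by
        rw [htop]; trivial
      exact Module.End.mem_eigenspace_iff.mp h1
    have hXK : Xe.baseChange (AlgebraicClosure k)
        = μ • (1 : Module.End (AlgebraicClosure k) (AlgebraicClosure k ⊗[k] ρbar.V)) := by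
      apply LinearMap.ext
      intro y
      rw [hall' y]
      rfl
    have htrK : LinearMap.trace (AlgebraicClosure k) _ (Xe.baseChange (AlgebraicClosure k)) = 0 := by
      rw [LinearMap.trace_baseChange, hXtr, map_zero]
    rw [hXK, map_smul, LinearMap.trace_one, smul_eq_mul] at htrK
    rw [hfr] at htrK
    have hμ0 : μ = 0 := by
      rcases mul_eq_zero.mp htrK with h | h
      · exact h
      · exact absurd (by exact_mod_cast h) h2K
    apply hXe0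
    apply LinearMap.ext
    intro x
    have h1 := hall' ((1 : AlgebraicClosure k) ⊗ₜ[k] x)
    rw [hμ0, zero_smul, LinearMap.baseChange_tmul] at h1
    rw [one_tmul_eq_zero ρbar (Xe x) h1]
    rfl
  have hstab : ∀ g, ρbar.ρ g * Xe = Xe * ρbar.ρ g →
      ∀ y ∈ Module.End.eigenspace (Xe.baseChange (AlgebraicClosure k)) μ,
      (ρbar.baseChange (AlgebraicClosure k)).ρ g y
        ∈ Module.End.eigenspace (Xe.baseChange (AlgebraicClosure k)) μ := by
    intro g hg y hy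
    show (ρbar.ρ g).baseChange (AlgebraicClosure k) y ∈ _
    rw [Module.End.mem_eigenspace_iff] at hy ⊢
    have h1 : (Xe * ρbar.ρ g).baseChange (AlgebraicClosure k)
        = (ρbar.ρ g * Xe).baseChange (AlgebraicClosure k) := by rw [hg]
    rw [LinearMap.baseChange_mul, LinearMap.baseChange_mul] at h1
    have h3 := congrArg (fun f => f y) h1
    simp only [Module.End.mul_apply] at h3
    rw [h3, hy, map_smul]
  by_cases hallc : ∀ g, ρbar.ρ g * Xe = Xe * ρbar.ρ g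
  · rcases habs (Module.End.eigenspace (Xe.baseChange (AlgebraicClosure k)) μ)
      (fun σ y hy => hstab σ (hallc σ) y hy) with h | h
    · exact hE0 h
    · exact hEtop h
  · push Not at hallc
    obtain ⟨a, ha⟩ := hallc
    have haanti : ρbar.ρ a * Xe = -(Xe * ρbar.ρ a) := (hcomm a).resolve_left ha
    have hidx : (⟨⟨⟨{g | ρbar.ρ g * Xe = Xe * ρbar.ρ g}, by
        intro g h hg hh
        show ρbar.ρ (g * h) * Xe = Xe * ρbar.ρ (g * h)
        rw [map_mul, mul_assoc, (hh : ρbar.ρ h * Xe = Xe * ρbar.ρ h), ← mul_assoc,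
          (hg : ρbar.ρ g * Xe = Xe * ρbar.ρ g), mul_assoc]⟩, by
        show ρbar.ρ 1 * Xe = Xe * ρbar.ρ 1
        rw [map_one, one_mul, mul_one]⟩, by
        intro g hg
        show ρbar.ρ g⁻¹ * Xe = Xe * ρbar.ρ g⁻¹
        calc ρbar.ρ g⁻¹ * Xe = ρbar.ρ g⁻¹ * (Xe * ρbar.ρ g) * ρbar.ρ g⁻¹ := by
              rw [mul_assoc, mul_assoc, rhoEnd_mul_inv, mul_one]
          _ = ρbar.ρ g⁻¹ * (ρbar.ρ g * Xe) * ρbar.ρ g⁻¹ := by
              rw [(hg : ρbar.ρ g * Xe = Xe * ρbar.ρ g)]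
          _ = Xe * ρbar.ρ g⁻¹ := by rw [← mul_assoc, rhoEnd_inv_mul, one_mul]⟩ :
        Subgroup (AlgebraicClosure ℚ ≃ₐ[ℚ] AlgebraicClosure ℚ)).index = 2 := by
      rw [Subgroup.index_eq_two_iff]
      refine ⟨a, fun g => ?_⟩
      by_cases hg : ρbar.ρ g * Xe = Xe * ρbar.ρ g
      · right
        refine ⟨hg, ?_⟩
        intro hga
        have hga' : ρbar.ρ (g * a) * Xe = Xe * ρbar.ρ (g * a) := hga
        have h1 : ρbar.ρ (g * a) * Xe = -(Xe * ρbar.ρ (g * a)) := by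
          rw [map_mul, mul_assoc, haanti, mul_neg, ← mul_assoc, hg, mul_assoc]
        rw [hga'] at h1
        have h3 : (2 : k) • (Xe * ρbar.ρ (g * a)) = 0 := by
          rw [two_smul]
          nth_rewrite 1 [h1]
          rw [neg_add_cancel]
        have h4 : Xe * ρbar.ρ (g * a) = 0 := (smul_eq_zero.mp h3).resolve_left h2
        apply hXe0
        calc Xe = Xe * ρbar.ρ (g * a) * ρbar.ρ (g * a)⁻¹ := by
              rw [mul_assoc, rhoEnd_mul_inv, mul_one]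
          _ = 0 := by rw [h4, zero_mul]
      · left
        have hganti : ρbar.ρ g * Xe = -(Xe * ρbar.ρ g) := (hcomm g).resolve_left hg
        refine ⟨?_, hg⟩
        show ρbar.ρ (g * a) * Xe = Xe * ρbar.ρ (g * a)
        rw [map_mul, mul_assoc, haanti, mul_neg, ← mul_assoc, hganti, neg_mul, neg_neg, mul_assoc]
    rcases hTW (AlgebraicClosure k) _ hidx
      (Module.End.eigenspace (Xe.baseChange (AlgebraicClosure k)) μ)
      (fun σ hσ y hy => hstab σ hσ y hy) with h | h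
    · exact hE0 h
    · exact hEtop h

/-- Transport of an additive subgroup of endomorphisms to matrices. -/
noncomputable def matSub (W : AddSubgroup (Module.End k ρbar.V)) :
    AddSubgroup (Matrix (Fin 2) (Fin 2) k) :=
  W.map (AddMonoidHomClass.toAddMonoidHom (LinearMap.toMatrixAlgEquiv (matBasis ρbar)))

theorem mem_matSub (W : AddSubgroup (Module.End k ρbar.V)) (Y : Matrix (Fin 2) (Fin 2) k) :
    Y ∈ matSub ρbar W ↔ ∃ w ∈ W, LinearMap.toMatrixAlgEquiv (matBasis ρbar) w = Y :=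
  AddSubgroup.mem_map

theorem matSub_stable (W : AddSubgroup (Module.End k ρbar.V))
    (hWst : ∀ σ, ∀ w ∈ W, ρbar.ρ σ * w * ρbar.ρ σ⁻¹ ∈ W) :
    ∀ g, ∀ Y ∈ matSub ρbar W, matRep ρbar g * Y * matRep ρbar g⁻¹ ∈ matSub ρbar W := by
  intro g Y hY
  obtain ⟨w, hw, rfl⟩ := (mem_matSub ρbar W Y).mp hY
  refine (mem_matSub ρbar W _).mpr ⟨ρbar.ρ g * w * ρbar.ρ g⁻¹, hWst g w hw, ?_⟩
  rw [map_mul, map_mul]
  rfl

/-- **R4, trace form (frozen vocabulary).** `H` a normal subgroup of `G_ℚ` containing all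
commutators, `W` a nonzero additive subgroup of trace-zero endomorphisms stable under
conjugation by `ρbar`. Then some `σ ∈ H` has two distinct eigenvalues in `k` and some `w ∈ W`
has `tr (w ∘ ρbar σ) ≠ 0`. -/
theorem exists_twElement_trace (h2 : (2 : k) ≠ 0) (habs : ρbar.IsAbsolutelyIrreducible)
    (hsplit : ∀ σ : AlgebraicClosure ℚ ≃ₐ[ℚ] AlgebraicClosure ℚ,
      ∃ α β : k, LinearMap.charpoly (ρbar.ρ σ) = (X - C α) * (X - C β))
    (hTW : ∀ (K : Type) [Field K] [Algebra k K]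
      (G : Subgroup (AlgebraicClosure ℚ ≃ₐ[ℚ] AlgebraicClosure ℚ)), G.index = 2 →
      ∀ V : Submodule K (ρbar.baseChange K).V,
        (∀ σ ∈ G, ∀ x ∈ V, (ρbar.baseChange K).ρ σ x ∈ V) → V = ⊥ ∨ V = ⊤)
    (H : Subgroup (AlgebraicClosure ℚ ≃ₐ[ℚ] AlgebraicClosure ℚ)) [H.Normal]
    (hc : ∀ g g' : AlgebraicClosure ℚ ≃ₐ[ℚ] AlgebraicClosure ℚ, g * g' * g⁻¹ * g'⁻¹ ∈ H)
    (W : AddSubgroup (Module.End k ρbar.V)) (hW0 : W ≠ ⊥)
    (hWtr : ∀ w ∈ W, LinearMap.trace k ρbar.V w = 0)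
    (hWst : ∀ σ, ∀ w ∈ W, ρbar.ρ σ * w * ρbar.ρ σ⁻¹ ∈ W) :
    ∃ σ ∈ H, (∃ α β : k, α ≠ β ∧ LinearMap.charpoly (ρbar.ρ σ) = (X - C α) * (X - C β)) ∧
      ∃ w ∈ W, LinearMap.trace k ρbar.V (w * ρbar.ρ σ) ≠ 0 := by
  have hsplit' : ∀ g, ∃ a b : k, (matRep ρbar g).charpoly = (X - C a) * (X - C b) := by
    intro g
    obtain ⟨a, b, h⟩ := hsplit g
    exact ⟨a, b, by rw [matRep_charpoly, h]⟩
  obtain ⟨h, hH, a, b, hne, hab, w', hw'W, hw'⟩ := exists_regular_trace (matRep ρbar) h2 hsplit'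
    (noLine_of_absIrred ρbar habs) (noDih_of_TW ρbar h2 habs hTW) H hc (matSub ρbar W)
    (by
      obtain ⟨w, hw, hw0⟩ := (AddSubgroup.bot_or_exists_ne_zero W).resolve_left hW0
      intro hbot
      have h1 : LinearMap.toMatrixAlgEquiv (matBasis ρbar) w ∈ matSub ρbar W :=
        (mem_matSub ρbar W _).mpr ⟨w, hw, rfl⟩
      rw [hbot, AddSubgroup.mem_bot] at h1
      exact hw0 ((map_eq_zero_iff _ (LinearMap.toMatrixAlgEquiv (matBasis ρbar)).injective).mp h1))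
    (by
      intro Y hY
      obtain ⟨w, hw, rfl⟩ := (mem_matSub ρbar W Y).mp hY
      rw [trace_toMatrixAlgEquiv]
      exact hWtr w hw)
    (matSub_stable ρbar W hWst)
  obtain ⟨w, hw, rfl⟩ := (mem_matSub ρbar W w').mp hw'W
  refine ⟨h, hH, ⟨a, b, hne, by rw [← matRep_charpoly, hab]⟩, w, hw, ?_⟩
  have h1 : (LinearMap.toMatrixAlgEquiv (matBasis ρbar) w * matRep ρbar h).trace
      = LinearMap.trace k ρbar.V (w * ρbar.ρ h) := by
    rw [matRep_apply, ← map_mul, trace_toMatrixAlgEquiv]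
  rw [← h1]
  exact hw'

/-- **R4, `(σ - 1)`-form.** Same hypotheses; the element `w ∈ W` is not of the form
`ρbar σ ∘ Y ∘ (ρbar σ)⁻¹ - Y`, i.e. `W ⊄ (σ - 1) ad` (for `σ ∈ H` inside the kernel of the
cyclotomic character the twisted action on `ad⁰(1)` is plain conjugation). -/
theorem exists_twElement_not_range (h2 : (2 : k) ≠ 0) (habs : ρbar.IsAbsolutelyIrreducible)
    (hsplit : ∀ σ : AlgebraicClosure ℚ ≃ₐ[ℚ] AlgebraicClosure ℚ,
      ∃ α β : k, LinearMap.charpoly (ρbar.ρ σ) = (X - C α) * (X - C β))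
    (hTW : ∀ (K : Type) [Field K] [Algebra k K]
      (G : Subgroup (AlgebraicClosure ℚ ≃ₐ[ℚ] AlgebraicClosure ℚ)), G.index = 2 →
      ∀ V : Submodule K (ρbar.baseChange K).V,
        (∀ σ ∈ G, ∀ x ∈ V, (ρbar.baseChange K).ρ σ x ∈ V) → V = ⊥ ∨ V = ⊤)
    (H : Subgroup (AlgebraicClosure ℚ ≃ₐ[ℚ] AlgebraicClosure ℚ)) [H.Normal]
    (hc : ∀ g g' : AlgebraicClosure ℚ ≃ₐ[ℚ] AlgebraicClosure ℚ, g * g' * g⁻¹ * g'⁻¹ ∈ H)
    (W : AddSubgroup (Module.End k ρbar.V)) (hW0 : W ≠ ⊥)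
    (hWtr : ∀ w ∈ W, LinearMap.trace k ρbar.V w = 0)
    (hWst : ∀ σ, ∀ w ∈ W, ρbar.ρ σ * w * ρbar.ρ σ⁻¹ ∈ W) :
    ∃ σ ∈ H, (∃ α β : k, α ≠ β ∧ LinearMap.charpoly (ρbar.ρ σ) = (X - C α) * (X - C β)) ∧
      ∃ w ∈ W, ∀ Y : Module.End k ρbar.V, w ≠ ρbar.ρ σ * Y * ρbar.ρ σ⁻¹ - Y := by
  obtain ⟨σ, hσ, hab, w, hw, htr⟩ :=
    exists_twElement_trace ρbar h2 habs hsplit hTW H hc W hW0 hWtr hWst
  refine ⟨σ, hσ, hab, w, hw, fun Y hY => htr ?_⟩
  rw [hY, sub_mul, map_sub, mul_assoc, rhoEnd_inv_mul, mul_one, LinearMap.trace_mul_comm,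
    sub_self]

/-- **R4, fixed-vector form** (`k` finite). Same hypotheses; some nonzero `w ∈ W` commutes
with `ρbar σ`. -/
theorem exists_twElement_fixed [Finite k] (h2 : (2 : k) ≠ 0)
    (habs : ρbar.IsAbsolutelyIrreducible)
    (hsplit : ∀ σ : AlgebraicClosure ℚ ≃ₐ[ℚ] AlgebraicClosure ℚ,
      ∃ α β : k, LinearMap.charpoly (ρbar.ρ σ) = (X - C α) * (X - C β))
    (hTW : ∀ (K : Type) [Field K] [Algebra k K]
      (G : Subgroup (AlgebraicClosure ℚ ≃ₐ[ℚ] AlgebraicClosure ℚ)), G.index = 2 →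
      ∀ V : Submodule K (ρbar.baseChange K).V,
        (∀ σ ∈ G, ∀ x ∈ V, (ρbar.baseChange K).ρ σ x ∈ V) → V = ⊥ ∨ V = ⊤)
    (H : Subgroup (AlgebraicClosure ℚ ≃ₐ[ℚ] AlgebraicClosure ℚ)) [H.Normal]
    (hc : ∀ g g' : AlgebraicClosure ℚ ≃ₐ[ℚ] AlgebraicClosure ℚ, g * g' * g⁻¹ * g'⁻¹ ∈ H)
    (W : AddSubgroup (Module.End k ρbar.V)) (hW0 : W ≠ ⊥)
    (hWtr : ∀ w ∈ W, LinearMap.trace k ρbar.V w = 0)
    (hWst : ∀ σ, ∀ w ∈ W, ρbar.ρ σ * w * ρbar.ρ σ⁻¹ ∈ W) :
    ∃ σ ∈ H, (∃ α β : k, α ≠ β ∧ LinearMap.charpoly (ρbar.ρ σ) = (X - C α) * (X - C β)) ∧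
      ∃ w ∈ W, w ≠ 0 ∧ ρbar.ρ σ * w = w * ρbar.ρ σ := by
  obtain ⟨σ, hσ, ⟨a, b, hne, hab⟩, w, hw, htr⟩ :=
    exists_twElement_trace ρbar h2 habs hsplit hTW H hc W hW0 hWtr hWst
  have h1 : (LinearMap.toMatrixAlgEquiv (matBasis ρbar) w * matRep ρbar σ).trace ≠ 0 := by
    rw [matRep_apply, ← map_mul, trace_toMatrixAlgEquiv]
    exact htr
  obtain ⟨w', hw'W, hw'0, hw'c⟩ := exists_fixed_of_trace (matRep ρbar) σ a b hne
    (by rw [matRep_charpoly, hab]) (matSub ρbar W) (matSub_stable ρbar W hWst) _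
    ((mem_matSub ρbar W _).mpr ⟨w, hw, rfl⟩) h1
  obtain ⟨w₁, hw₁, rfl⟩ := (mem_matSub ρbar W w').mp hw'W
  refine ⟨σ, hσ, ⟨a, b, hne, hab⟩, w₁, hw₁, ?_, ?_⟩
  · intro h0
    apply hw'0
    rw [h0, map_zero]
  · apply (LinearMap.toMatrixAlgEquiv (matBasis ρbar)).injective
    rw [map_mul, map_mul]
    exact hw'c

end Gal

section Roots

/-- Two automorphisms commute on the `N`-th roots of unity. -/
theorem comm_on_roots (N : ℕ) [NeZero N]
    (σ τ : AlgebraicClosure ℚ ≃ₐ[ℚ] AlgebraicClosure ℚ) (ζ : AlgebraicClosure ℚ)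
    (hζ : ζ ^ N = 1) : σ (τ ζ) = τ (σ ζ) := by
  have hζ0 : ζ ≠ 0 := by
    rintro rfl
    rw [zero_pow (NeZero.ne N)] at hζ
    exact zero_ne_one hζ
  have hu : Units.mk0 ζ hζ0 ∈ rootsOfUnity N (AlgebraicClosure ℚ) := by
    rw [mem_rootsOfUnity']
    exact hζ
  obtain ⟨a, ha⟩ := MonoidHom.map_cyclic (restrictRootsOfUnity σ N)
  obtain ⟨b, hb⟩ := MonoidHom.map_cyclic (restrictRootsOfUnity τ N)
  have h1 : restrictRootsOfUnity σ N (restrictRootsOfUnity τ N ⟨Units.mk0 ζ hζ0, hu⟩)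
      = restrictRootsOfUnity τ N (restrictRootsOfUnity σ N ⟨Units.mk0 ζ hζ0, hu⟩) := by
    rw [ha, hb, ha, hb, ← _root_.zpow_mul, ← _root_.zpow_mul, mul_comm]
  have h2 := congrArg
    (fun z : rootsOfUnity N (AlgebraicClosure ℚ) => ((z : (AlgebraicClosure ℚ)ˣ) : AlgebraicClosure ℚ))
    h1
  simpa using h2

/-- The subgroup of `G_ℚ` fixing every `N`-th root of unity. -/
def fixRoots (N : ℕ) : Subgroup (AlgebraicClosure ℚ ≃ₐ[ℚ] AlgebraicClosure ℚ) where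
  carrier := {σ | ∀ ζ : AlgebraicClosure ℚ, ζ ^ N = 1 → σ ζ = ζ}
  mul_mem' := by
    intro a b ha hb ζ hζ
    show a (b ζ) = ζ
    rw [hb ζ hζ, ha ζ hζ]
  one_mem' := fun ζ _ => rfl
  inv_mem' := by
    intro a ha ζ hζ
    show a.symm ζ = ζ
    rw [AlgEquiv.symm_apply_eq]
    exact (ha ζ hζ).symm

theorem mem_fixRoots (N : ℕ) (σ : AlgebraicClosure ℚ ≃ₐ[ℚ] AlgebraicClosure ℚ) :
    σ ∈ fixRoots N ↔ ∀ ζ : AlgebraicClosure ℚ, ζ ^ N = 1 → σ ζ = ζ := Iff.rfl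

instance fixRoots_normal (N : ℕ) : (fixRoots N).Normal := by
  constructor
  intro σ hσ g ζ hζ
  show g (σ (g⁻¹ ζ)) = ζ
  have h1 : (g⁻¹ ζ) ^ N = 1 := by rw [← map_pow, hζ, map_one]
  rw [hσ _ h1]
  show g (g.symm ζ) = ζ
  exact g.apply_symm_apply ζ

theorem commutator_mem_fixRoots (N : ℕ) [NeZero N]
    (g g' : AlgebraicClosure ℚ ≃ₐ[ℚ] AlgebraicClosure ℚ) :
    g * g' * g⁻¹ * g'⁻¹ ∈ fixRoots N := by
  intro ζ hζ
  show g (g' (g⁻¹ (g'⁻¹ ζ))) = ζ
  have h1 : (g⁻¹ (g'⁻¹ ζ)) ^ N = 1 := by rw [← map_pow, ← map_pow, hζ, map_one, map_one]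
  rw [comm_on_roots N g g' _ h1]
  show g' (g (g.symm (g'.symm ζ))) = ζ
  rw [g.apply_symm_apply, g'.apply_symm_apply]

/-- **R4 for the cyclotomic tower (frozen vocabulary), `(σ - 1)`-form**: for every `N ≠ 0`
(in S56: `N = p ^ (n + 1)`) there is `σ` fixing every `N`-th root of unity such that
`ρbar σ` has two distinct eigenvalues in `k` and `W ⊄ (σ - 1) ad`. -/
theorem exists_twElement_roots {k : Type} [Field k] (ρbar : ResidualGaloisRep k)
    (h2 : (2 : k) ≠ 0) (habs : ρbar.IsAbsolutelyIrreducible)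
    (hsplit : ∀ σ : AlgebraicClosure ℚ ≃ₐ[ℚ] AlgebraicClosure ℚ,
      ∃ α β : k, LinearMap.charpoly (ρbar.ρ σ) = (X - C α) * (X - C β))
    (hTW : ∀ (K : Type) [Field K] [Algebra k K]
      (G : Subgroup (AlgebraicClosure ℚ ≃ₐ[ℚ] AlgebraicClosure ℚ)), G.index = 2 →
      ∀ V : Submodule K (ρbar.baseChange K).V,
        (∀ σ ∈ G, ∀ x ∈ V, (ρbar.baseChange K).ρ σ x ∈ V) → V = ⊥ ∨ V = ⊤)
    (N : ℕ) (hN : N ≠ 0)
    (W : AddSubgroup (Module.End k ρbar.V)) (hW0 : W ≠ ⊥)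
    (hWtr : ∀ w ∈ W, LinearMap.trace k ρbar.V w = 0)
    (hWst : ∀ σ, ∀ w ∈ W, ρbar.ρ σ * w * ρbar.ρ σ⁻¹ ∈ W) :
    ∃ σ : AlgebraicClosure ℚ ≃ₐ[ℚ] AlgebraicClosure ℚ,
      (∀ ζ : AlgebraicClosure ℚ, ζ ^ N = 1 → σ ζ = ζ) ∧
      (∃ α β : k, α ≠ β ∧ LinearMap.charpoly (ρbar.ρ σ) = (X - C α) * (X - C β)) ∧
      ∃ w ∈ W, LinearMap.trace k ρbar.V (w * ρbar.ρ σ) ≠ 0 ∧
        ∀ Y : Module.End k ρbar.V, w ≠ ρbar.ρ σ * Y * ρbar.ρ σ⁻¹ - Y := by
  have : NeZero N := ⟨hN⟩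
  obtain ⟨σ, hσ, hab, w, hw, htr⟩ := exists_twElement_trace ρbar h2 habs hsplit hTW
    (fixRoots N) (commutator_mem_fixRoots N) W hW0 hWtr hWst
  refine ⟨σ, hσ, hab, w, hw, htr, fun Y hY => htr ?_⟩
  rw [hY, sub_mul, map_sub, mul_assoc, rhoEnd_inv_mul, mul_one, LinearMap.trace_mul_comm,
    sub_self]

/-- **R4 in the `hC` shape consumed by `helper8200.exists_tw_element_dualTwist`** (verbatim
binder order): for `N = p ^ (n + 1)`. -/
theorem tw_element_hC {k : Type} [Field k] (ρbar : ResidualGaloisRep k)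
    (h2 : (2 : k) ≠ 0) (habs : ρbar.IsAbsolutelyIrreducible)
    (hsplit : ∀ σ : AlgebraicClosure ℚ ≃ₐ[ℚ] AlgebraicClosure ℚ,
      ∃ α β : k, LinearMap.charpoly (ρbar.ρ σ) = (X - C α) * (X - C β))
    (hTW : ∀ (K : Type) [Field K] [Algebra k K]
      (G : Subgroup (AlgebraicClosure ℚ ≃ₐ[ℚ] AlgebraicClosure ℚ)), G.index = 2 →
      ∀ V : Submodule K (ρbar.baseChange K).V,
        (∀ σ ∈ G, ∀ x ∈ V, (ρbar.baseChange K).ρ σ x ∈ V) → V = ⊥ ∨ V = ⊤)
    (p : ℕ) (hp : p ≠ 0) (n : ℕ) :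
    ∀ W : AddSubgroup (Module.End k ρbar.V), (∀ w ∈ W, LinearMap.trace k ρbar.V w = 0) →
      W ≠ ⊥ → (∀ g, ∀ w ∈ W, ρbar.ρ g * w * ρbar.ρ g⁻¹ ∈ W) →
      ∃ h : AlgebraicClosure ℚ ≃ₐ[ℚ] AlgebraicClosure ℚ,
        (∀ μ : AlgebraicClosure ℚ, μ ^ p ^ (n + 1) = 1 → h μ = μ) ∧
        (∃ α β : k, α ≠ β ∧ LinearMap.charpoly (ρbar.ρ h) = (X - C α) * (X - C β)) ∧
        ∃ w ∈ W, ∀ x : Module.End k ρbar.V, LinearMap.trace k ρbar.V x = 0 →
          w ≠ ρbar.ρ h * x * ρbar.ρ h⁻¹ - x := by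
  intro W hWtr hW0 hWst
  obtain ⟨σ, hσ, hab, w, hw, -, hnr⟩ := exists_twElement_roots ρbar h2 habs hsplit hTW
    (p ^ (n + 1)) (pow_ne_zero _ hp) W hW0 hWtr hWst
  exact ⟨σ, hσ, hab, w, hw, fun x _ => hnr x⟩

end Roots

end Fermat.Agent.S56.helper6827
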