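/-
S56 brick R4 on the S55 carrier `dualT (ad⁰) = (Rep.of A).dualTwist (cycloChar p)`:
the `hR4` hypothesis of `helper4859.exists_good_element`, unconditional.
Owner: helper6827.  Composition of `helper6827.tw_element_hC` (TW-R4) with
`helper8200.exists_tw_element_dualTwist` (ADDUAL).
-/
import Fermat.Agent.S56.helper6827_TWElementGal
import Fermat.Agent.S56.helper8200_TraceDual

set_option autoImplicit false

namespace Fermat.Agent.S56.helper6827

open Polynomial

/-- **R4 on `dualT (ad⁰)`.** For any model `A` of the conjugation action on the trace-zero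
endomorphisms, every nonzero stable additive subgroup `W` of
`(Rep.of A).dualTwist (cycloChar p)` has an element outside `(h - 1) M` for some `h` fixing
the `p ^ (n + 1)`-th roots of unity with `ρbar h` regular semisimple (eigenvalues in `k`). -/
theorem exists_tw_element_dualTwist_uncond {k : Type} [Field k] [Finite k] (p : ℕ)
    [Fact p.Prime] [Algebra (ZMod p) k] (ρbar : ResidualGaloisRep k)
    [Module (ZMod p) ↥(helper8200.End0 k ρbar.V)] (hp2 : (2 : k) ≠ 0)
    (habs : ρbar.IsAbsolutelyIrreducible)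
    (hsplit : ∀ σ : AlgebraicClosure ℚ ≃ₐ[ℚ] AlgebraicClosure ℚ,
      ∃ α β : k, LinearMap.charpoly (ρbar.ρ σ) = (X - C α) * (X - C β))
    (hTW : ∀ (K : Type) [Field K] [Algebra k K]
      (G : Subgroup (AlgebraicClosure ℚ ≃ₐ[ℚ] AlgebraicClosure ℚ)), G.index = 2 →
      ∀ V : Submodule K (ρbar.baseChange K).V,
        (∀ σ ∈ G, ∀ x ∈ V, (ρbar.baseChange K).ρ σ x ∈ V) → V = ⊥ ∨ V = ⊤)
    (A : Representation (ZMod p) (AlgebraicClosure ℚ ≃ₐ[ℚ] AlgebraicClosure ℚ)
      ↥(helper8200.End0 k ρbar.V))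
    (hA : ∀ (g : AlgebraicClosure ℚ ≃ₐ[ℚ] AlgebraicClosure ℚ) (Y : ↥(helper8200.End0 k ρbar.V)),
      ((A g Y : ↥(helper8200.End0 k ρbar.V)) : Module.End k ρbar.V) = ρbar.ρ g * Y * ρbar.ρ g⁻¹)
    (n : ℕ)
    (W : AddSubgroup ((Rep.of A).dualTwist (ExtCitation.cycloChar p))) (hW : W ≠ ⊥)
    (hst : ∀ g, ∀ w ∈ W, ((Rep.of A).dualTwist (ExtCitation.cycloChar p)).ρ g w ∈ W) :
    ∃ h : AlgebraicClosure ℚ ≃ₐ[ℚ] AlgebraicClosure ℚ,
      (∀ μ : AlgebraicClosure ℚ, μ ^ p ^ (n + 1) = 1 → h μ = μ) ∧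
      (∃ α β : k, α ≠ β ∧ LinearMap.charpoly (ρbar.ρ h) = (X - C α) * (X - C β)) ∧
      ∃ w ∈ W, ∀ m : ((Rep.of A).dualTwist (ExtCitation.cycloChar p)),
        w ≠ ((Rep.of A).dualTwist (ExtCitation.cycloChar p)).ρ h m - m :=
  helper8200.exists_tw_element_dualTwist p ρbar hp2 A hA n
    (tw_element_hC ρbar hp2 habs hsplit hTW p (Fact.out (p := p.Prime)).ne_zero n) W hW hst

end Fermat.Agent.S56.helper6827
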