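/-
S56 (Taylor–Wiles primes), layer 5 assembled: the KILL supply (helper4859).

For `N = dualT (ad⁰ ρbar) = (Rep.of A).dualTwist (cycloChar p)` (any model `A` of the conjugation
action on the trace-zero endomorphisms), every finite dimensional space `D0` of classes of level
`S` is killed by `dim D0` Taylor–Wiles primes of any depth, outside any finite set of primes.

Inputs (all compiled, no hypothesis left except the frozen ones of S56):
* TW-R4  `helper6827.exists_tw_element_dualTwist_uncond`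
* TW-R5  `helper2852.exists_coboundary_GL` (core) through `helper2902.h1_vanish'` (TW-R5B)
* ADDUAL `helper8200.h1π_dualTwist_eq_zero`
* TW-R6  `helper4859.exists_tw_primes_of_R4_R5`
* the local adapter `exists_frobenius_classTrivAt_of_res_eq_zero` (this file).

Main statements:
* `exists_frobenius_classTrivAt_of_res_eq_zero` : a class whose restriction along
  `primeLocalToGlobal q` vanishes is trivial at a Frobenius element of `primeLocalPlace q`;
* `finite_dualTwist`, `smooth_dualTwist`, `unram_dualTwist` : `N` is a finite smooth module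
  unramified outside any `S` containing `p` and the ramification of `ρbar`;
* `exists_kill_primes` : the KILL supply.
-/
import Mathlib
import Fermat.Agent.S56.helper4859_TWPrimes
import Fermat.Agent.S56.helper6827_TWElementDual
import Fermat.Agent.S56.helper2902_H1Final
import Fermat.Agent.S55.helper4145_Decomp
import Fermat.Agent.Lib.helper54_Frobenius

set_option autoImplicit false

namespace Fermat.Agent.S56.helper4859

open Polynomial groupCohomology ExtCitation CategoryTheory

local notation "Qb" => AlgebraicClosure ℚ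
local notation "GQ" => (AlgebraicClosure ℚ ≃ₐ[ℚ] AlgebraicClosure ℚ)

section Adapter

variable {p : ℕ} [Fact p.Prime]

theorem exists_frobenius_classTrivAt_of_res_eq_zero (M : Rep.{0, 0, 0} (ZMod p) GQ)
    (q : Nat.Primes) (x : H1 M)
    (hx : (groupCohomology.map (primeLocalToGlobal q)
      (𝟙 (Rep.res (primeLocalToGlobal q) M)) 1).hom x = 0) :
    ∃ (P : ValuationSubring Qb) (φ : GQ), P.LiesOverPrime (q : ℕ) ∧
      P.IsFrobeniusAt φ (q : ℕ) ∧ ClassTrivAt M x φ := by
  have hP := Fermat.Agent.S55.helper4145.primeLocalPlace_liesOverPrime q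
  obtain ⟨φ, hφ⟩ := Fermat.Agent.Lib.helper54.exists_isFrobeniusAt q.2 (primeLocalPlace q) hP
  obtain ⟨τ, hτ⟩ := Fermat.Agent.S55.helper4145.exists_primeLocalToGlobal_eq q
    hφ.mem_decompositionSubgroup
  refine ⟨primeLocalPlace q, φ, hP, hφ, ?_⟩
  induction x using H1_induction_on with
  | h c =>
    have h1 : (H1π (Rep.res (primeLocalToGlobal q) M)).hom
        (mapCocycles₁ (primeLocalToGlobal q) (𝟙 (Rep.res (primeLocalToGlobal q) M)) c) = 0 := by
      rw [← hx]
      exact (H1π_comp_map_apply (primeLocalToGlobal q)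
        (𝟙 (Rep.res (primeLocalToGlobal q) M)) c).symm
    rw [H1π_eq_zero_iff] at h1
    obtain ⟨m, hm⟩ := h1
    rw [classTrivAt_iff]
    refine ⟨m, ?_⟩
    have h2 := congrFun hm τ
    have h3 : (mapCocycles₁ (primeLocalToGlobal q) (𝟙 (Rep.res (primeLocalToGlobal q) M)) c) τ
        = c (primeLocalToGlobal q τ) := rfl
    rw [← hτ]
    show c (primeLocalToGlobal q τ) = M.ρ (primeLocalToGlobal q τ) m - m
    rw [← h3, ← h2]
    rfl

end Adapter


section Assembly

variable {k : Type} [Field k] [Finite k] (p : ℕ) [Fact p.Prime] [Algebra (ZMod p) k]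
variable (ρbar : ResidualGaloisRep k) [Module (ZMod p) ↥(helper8200.End0 k ρbar.V)]

omit [Finite k] [Fact p.Prime] [Algebra (ZMod p) k] [Module (ZMod p) ↥(helper8200.End0 k ρbar.V)] in
theorem rho_inv_eq_one {s : GQ} (h : ρbar.ρ s = 1) : ρbar.ρ s⁻¹ = 1 := by
  have h1 : ρbar.ρ s⁻¹ * ρbar.ρ s = 1 := by rw [← map_mul, inv_mul_cancel, map_one]
  rwa [h, mul_one] at h1

/-- The twisted dual of `ad⁰` is trivial on the elements of the kernel of `ρbar` on which the
cyclotomic character is trivial. -/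
theorem dualTwist_ρ_eq_one_of_cycloChar
    (A : Representation (ZMod p) GQ ↥(helper8200.End0 k ρbar.V))
    (hA : ∀ (g : GQ) (Y : ↥(helper8200.End0 k ρbar.V)),
      ((A g Y : ↥(helper8200.End0 k ρbar.V)) : Module.End k ρbar.V) = ρbar.ρ g * Y * ρbar.ρ g⁻¹)
    (s : GQ) (hs : ρbar.ρ s = 1) (hχ : cycloChar p s = 1) :
    ((Rep.of A).dualTwist (cycloChar p)).ρ s = 1 := by
  have hAs : A s⁻¹ = 1 := by
    refine LinearMap.ext fun Y => Subtype.ext ?_
    rw [hA, inv_inv, hs, rho_inv_eq_one ρbar hs, one_mul, mul_one]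
    rfl
  refine LinearMap.ext fun f => ?_
  rw [Rep.dualTwist_ρ_apply, hχ]
  show ((1 : (ZMod p)ˣ) : ZMod p) • (f ∘ₗ A s⁻¹) = f
  rw [hAs, Units.val_one, one_smul]
  rfl

/-- A finite level on which the mod `p` cyclotomic character is trivial. -/
theorem exists_level_cycloChar :
    ∃ F : IntermediateField ℚ Qb, FiniteDimensional ℚ F ∧
      ∀ s ∈ F.fixingSubgroup, cycloChar p s = 1 := by
  have hp : p.Prime := Fact.out
  have : NeZero p := ⟨hp.ne_zero⟩
  obtain ⟨ζ, hζ⟩ := HasEnoughRootsOfUnity.exists_primitiveRoot Qb p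
  refine ⟨IntermediateField.adjoin ℚ {ζ},
    IntermediateField.adjoin.finiteDimensional (hζ.isIntegral hp.pos).tower_top, fun s hs => ?_⟩
  have hfix : s ζ = ζ := by
    have := (IntermediateField.mem_fixingSubgroup_iff _ _).1 hs ζ
      (IntermediateField.mem_adjoin_simple_self ℚ ζ)
    exact this
  refine helper8200.cycloChar_eq_one_of_fixes p s 0 fun μ hμ => ?_
  rw [zero_add, pow_one] at hμ
  obtain ⟨i, -, rfl⟩ := hζ.eq_pow_of_pow_eq_one hμ
  rw [map_pow, hfix]

/-- The twisted dual of `ad⁰` is a finite module. -/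
theorem finite_dualTwist (A : Representation (ZMod p) GQ ↥(helper8200.End0 k ρbar.V)) :
    Module.Finite (ZMod p) ((Rep.of A).dualTwist (cycloChar p)) := by
  have h1 : Finite ↥(helper8200.End0 k ρbar.V) := helper8200.finite_End0 (k := k) (V := ρbar.V)
  have h2 : Module.Finite (ZMod p) ↥(helper8200.End0 k ρbar.V) := Module.Finite.of_finite
  show Module.Finite (ZMod p) (Module.Dual (ZMod p) ↥(helper8200.End0 k ρbar.V))
  infer_instance

/-- The twisted dual of `ad⁰` is smooth. -/
theorem smooth_dualTwist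
    (A : Representation (ZMod p) GQ ↥(helper8200.End0 k ρbar.V))
    (hA : ∀ (g : GQ) (Y : ↥(helper8200.End0 k ρbar.V)),
      ((A g Y : ↥(helper8200.End0 k ρbar.V)) : Module.End k ρbar.V) = ρbar.ρ g * Y * ρbar.ρ g⁻¹) :
    ∃ F : IntermediateField ℚ Qb, FiniteDimensional ℚ F ∧
      ∀ s ∈ F.fixingSubgroup, ((Rep.of A).dualTwist (cycloChar p)).ρ s = 1 := by
  obtain ⟨L, hL, hL1⟩ := ρbar.factorsThroughFiniteLevel
  obtain ⟨F, hF, hF1⟩ := exists_level_cycloChar p
  refine ⟨L ⊔ F, IntermediateField.finiteDimensional_sup L F, fun s hs => ?_⟩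
  have hsL : ρbar.ρ s = 1 := hL1 s fun x hx =>
    (IntermediateField.mem_fixingSubgroup_iff _ _).1 hs x
      ((le_sup_left : L ≤ L ⊔ F) hx)
  have hsF : s ∈ F.fixingSubgroup := (IntermediateField.mem_fixingSubgroup_iff _ _).2 fun x hx =>
    (IntermediateField.mem_fixingSubgroup_iff _ _).1 hs x ((le_sup_right : F ≤ L ⊔ F) hx)
  exact dualTwist_ρ_eq_one_of_cycloChar p ρbar A hA s hsL (hF1 s hsF)

/-- The twisted dual of `ad⁰` is unramified outside a set of primes containing `p` and the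
ramification of `ρbar`. -/
theorem unram_dualTwist
    (A : Representation (ZMod p) GQ ↥(helper8200.End0 k ρbar.V))
    (hA : ∀ (g : GQ) (Y : ↥(helper8200.End0 k ρbar.V)),
      ((A g Y : ↥(helper8200.End0 k ρbar.V)) : Module.End k ρbar.V) = ρbar.ρ g * Y * ρbar.ρ g⁻¹)
    (S : Finset Nat.Primes) (hpS : pPrime p ∈ S)
    (hρS : ∀ q : Nat.Primes, q ∉ S → ρbar.IsUnramifiedAt (q : ℕ))
    (q : Nat.Primes) (hq : q ∉ S) (B : ValuationSubring Qb) (hB : B.LiesOverPrime (q : ℕ))
    (g : GQ) (hg : g ∈ B.inertiaSubgroupIn ℚ) :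
    ((Rep.of A).dualTwist (cycloChar p)).ρ g = 1 := by
  have hqp : (q : ℕ) ≠ p := by
    intro h
    apply hq
    have : q = pPrime p := Subtype.ext h
    rw [this]
    exact hpS
  exact dualTwist_ρ_eq_one_of_cycloChar p ρbar A hA g (hρS q hq B hB g hg)
    (Fermat.Agent.S30.helper3994.cycloChar_inertia p q.2 hqp hB hg)

/-- **KILL supply** (layer 5 of S56, assembled): for `N = dualT (ad⁰ ρbar)`, every finite
dimensional space `D0` of classes of level `S` is killed by `dim D0` Taylor–Wiles primes of any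
depth `n`, avoiding any finite set of primes: a class of `D0` whose restrictions to the
decomposition groups at these primes all vanish is zero. -/
theorem exists_kill_primes (hp2 : p ≠ 2) (habs : ρbar.IsAbsolutelyIrreducible)
    (hdet : (GaloisRepAdic.ofResidualGaloisRep ρbar).DetIsCyclotomic p)
    (hsplit : ∀ σ : GQ, ∃ α β : k, LinearMap.charpoly (ρbar.ρ σ) = (X - C α) * (X - C β))
    (hTW : ∀ (K : Type) [Field K] [Algebra k K] (G : Subgroup GQ), G.index = 2 →
      ∀ V : Submodule K (ρbar.baseChange K).V,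
        (∀ σ ∈ G, ∀ x ∈ V, (ρbar.baseChange K).ρ σ x ∈ V) → V = ⊥ ∨ V = ⊤)
    (A : Representation (ZMod p) GQ ↥(helper8200.End0 k ρbar.V))
    (hA : ∀ (g : GQ) (Y : ↥(helper8200.End0 k ρbar.V)),
      ((A g Y : ↥(helper8200.End0 k ρbar.V)) : Module.End k ρbar.V) = ρbar.ρ g * Y * ρbar.ρ g⁻¹)
    (S : Finset Nat.Primes) (hpS : pPrime p ∈ S)
    (hρS : ∀ q : Nat.Primes, q ∉ S → ρbar.IsUnramifiedAt (q : ℕ))
    (D0 : Submodule (ZMod p) (H1 ((Rep.of A).dualTwist (cycloChar p))))
    (hD0 : D0 ≤ continuousH1S S ((Rep.of A).dualTwist (cycloChar p)))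
    [Module.Finite (ZMod p) D0] (Tav : Finset Nat.Primes) (n : ℕ) :
    ∃ qv : Fin (Module.finrank (ZMod p) D0) → Nat.Primes, Function.Injective qv ∧
      (∀ i, qv i ∉ Tav ∧ qv i ∉ S ∧ p ^ (n + 1) ∣ (qv i : ℕ) - 1 ∧
        ∀ P : ValuationSubring Qb, P.LiesOverPrime (qv i : ℕ) →
          ∀ φ : GQ, P.IsFrobeniusAt φ (qv i : ℕ) →
            ∃ α β : k, α ≠ β ∧ LinearMap.charpoly (ρbar.ρ φ) = (X - C α) * (X - C β)) ∧
      ∀ x ∈ D0, (∀ i, (groupCohomology.map (primeLocalToGlobal (qv i))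
        (𝟙 (Rep.res (primeLocalToGlobal (qv i)) ((Rep.of A).dualTwist (cycloChar p)))) 1).hom x
          = 0) → x = 0 := by
  classical
  have hchar : CharP k p := helper2902.charP_of_det p ρbar hdet
  have h2k : (2 : k) ≠ 0 := helper2852.two_ne_zero_of_charP p hp2
  have hfin := finite_dualTwist p ρbar A
  obtain ⟨F, hF, hF1⟩ := smooth_dualTwist p ρbar A hA
  set T0 : Finset ℕ := S.image (fun q : Nat.Primes => (q : ℕ)) ∪
    Tav.image (fun q : Nat.Primes => (q : ℕ)) with hT0def
  have hT0 : ∀ q : ℕ, q.Prime → q ∉ T0 →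
      q ≠ p ∧ (∀ hq : q.Prime, (⟨q, hq⟩ : Nat.Primes) ∉ S) ∧ ρbar.IsUnramifiedAt q := by
    intro q hq hqT
    have hqS : ∀ hq : q.Prime, (⟨q, hq⟩ : Nat.Primes) ∉ S := by
      intro hq' hmem
      apply hqT
      rw [hT0def, Finset.mem_union]
      exact Or.inl (Finset.mem_image.2 ⟨⟨q, hq'⟩, hmem, rfl⟩)
    refine ⟨?_, hqS, hρS ⟨q, hq⟩ (hqS hq)⟩
    intro h
    apply hqT
    rw [hT0def, Finset.mem_union]
    exact Or.inl (Finset.mem_image.2 ⟨pPrime p, hpS, h.symm⟩)
  obtain ⟨qv, hinj, hqv, hfrob, hkill⟩ := exists_tw_primes_of_R4_R5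
    ((Rep.of A).dualTwist (cycloChar p)) ρbar
    (fun m => ⟨F, hF, fun s hs => by rw [hF1 s hs]; rfl⟩)
    S (unram_dualTwist p ρbar A hA S hpS hρS) T0 hT0 D0 hD0
    (fun s hs hμ => dualTwist_ρ_eq_one_of_cycloChar p ρbar A hA s hs
      (helper8200.cycloChar_eq_one_of_fixes p s 0 (by simpa using hμ)))
    (fun n c _ hvan => helper8200.h1π_dualTwist_eq_zero p ρbar h2k hdet A hA n
      (helper2902.h1_vanish' p hp2 ρbar habs hdet hTW n) c hvan)
    (fun n W hW hst => helper6827.exists_tw_element_dualTwist_uncond p ρbar h2k habs hsplit hTW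
      A hA n W hW hst)
    n
  refine ⟨fun i => ⟨qv i, (hqv i).1⟩, fun i j hij => hinj (congrArg Subtype.val hij),
    fun i => ⟨?_, ?_, (hqv i).2.2, hfrob i⟩, fun x hx hloc => hkill x hx fun i => ?_⟩
  · intro hmem
    apply (hqv i).2.1
    rw [hT0def, Finset.mem_union]
    exact Or.inr (Finset.mem_image.2 ⟨_, hmem, rfl⟩)
  · intro hmem
    apply (hqv i).2.1
    rw [hT0def, Finset.mem_union]
    exact Or.inl (Finset.mem_image.2 ⟨_, hmem, rfl⟩)
  · exact exists_frobenius_classTrivAt_of_res_eq_zero _ ⟨qv i, (hqv i).1⟩ x (hloc i)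

end Assembly

end Fermat.Agent.S56.helper4859
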