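/-
S56 (Taylor–Wiles primes), layer 5 delivered to the global count (helper4859):
`helper3550.KillSupply S₀ (dualT ad⁰) Good` in the exact shape consumed by
`helper3550.selmer_count`, for `ad⁰ = Rep.of A` (any model `A` of the conjugation action of
`ρbar` on the trace-zero endomorphisms) and
`Good n q := p ^ (n + 1) ∣ q - 1 ∧ (frozen eigenvalue clause of S56 at q)`.

* `isSMod_dualTwist` : `dualT ad⁰` is an `S`-module for every `S` containing `p` and the
  ramification of `ρbar`;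
* `isSMod_ad0`       : the same for `ad⁰`;
* `TWGood`           : the predicate `Good`;
* `killSupply_of_finite` : the supply, from finiteness of the `H¹(G_S, dualT ad⁰)`;
* `killSupply`       : the supply, from the S55 finiteness statement `Stmt_Fin`.
-/
import Mathlib
import Fermat.Agent.S56.helper4859_KillAsm
import Fermat.Agent.S56.helper3550_GlobalSpec

set_option autoImplicit false

namespace Fermat.Agent.S56.helper4859

open Polynomial groupCohomology ExtCitation CategoryTheory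
open Fermat.Agent.S55.helper2945

local notation "Qb" => AlgebraicClosure ℚ
local notation "GQ" => (AlgebraicClosure ℚ ≃ₐ[ℚ] AlgebraicClosure ℚ)

section Supply

variable {k : Type} [Field k] [Finite k] (p : ℕ) [Fact p.Prime] [Algebra (ZMod p) k]
variable (ρbar : ResidualGaloisRep k) [Module (ZMod p) ↥(helper8200.End0 k ρbar.V)]

/-- The Taylor–Wiles condition on a prime `q` at depth `n`: `q ≡ 1 mod p ^ (n + 1)` and the
frozen eigenvalue clause of S56. -/
def TWGood (n : ℕ) (q : Nat.Primes) : Prop :=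
  p ^ (n + 1) ∣ (q : ℕ) - 1 ∧
    ∀ P : ValuationSubring Qb, P.LiesOverPrime (q : ℕ) →
      ∀ φ : GQ, P.IsFrobeniusAt φ (q : ℕ) →
        ∃ α β : k, α ≠ β ∧ LinearMap.charpoly (ρbar.ρ φ) = (X - C α) * (X - C β)

/-- `dualT ad⁰` is an `S`-module. -/
theorem isSMod_dualTwist
    (A : Representation (ZMod p) GQ ↥(helper8200.End0 k ρbar.V))
    (hA : ∀ (g : GQ) (Y : ↥(helper8200.End0 k ρbar.V)),
      ((A g Y : ↥(helper8200.End0 k ρbar.V)) : Module.End k ρbar.V) = ρbar.ρ g * Y * ρbar.ρ g⁻¹)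
    (S : Finset Nat.Primes) (hpS : pPrime p ∈ S)
    (hρS : ∀ q : Nat.Primes, q ∉ S → ρbar.IsUnramifiedAt (q : ℕ)) :
    IsSMod S (dualT (Rep.of A)) := by
  obtain ⟨F, hF, hF1⟩ := smooth_dualTwist p ρbar A hA
  exact
    { finite := finite_dualTwist p ρbar A
      smooth := fun m => ⟨F, hF, fun s hs => by rw [hF1 s hs]; rfl⟩
      unram := unram_dualTwist p ρbar A hA S hpS hρS }

/-- `ad⁰` is an `S`-module. -/
theorem isSMod_ad0
    (A : Representation (ZMod p) GQ ↥(helper8200.End0 k ρbar.V))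
    (hA : ∀ (g : GQ) (Y : ↥(helper8200.End0 k ρbar.V)),
      ((A g Y : ↥(helper8200.End0 k ρbar.V)) : Module.End k ρbar.V) = ρbar.ρ g * Y * ρbar.ρ g⁻¹)
    (S : Finset Nat.Primes)
    (hρS : ∀ q : Nat.Primes, q ∉ S → ρbar.IsUnramifiedAt (q : ℕ)) :
    IsSMod S (Rep.of A) := by
  have h1 : ∀ s : GQ, ρbar.ρ s = 1 → (Rep.of A).ρ s = 1 := by
    intro s hs
    refine LinearMap.ext fun Y => Subtype.ext ?_
    show ((A s Y : ↥(helper8200.End0 k ρbar.V)) : Module.End k ρbar.V) = Y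
    rw [hA, hs, rho_inv_eq_one ρbar hs, one_mul, mul_one]
  obtain ⟨L, hL, hL1⟩ := ρbar.factorsThroughFiniteLevel
  have hfin : Finite ↥(helper8200.End0 k ρbar.V) :=
    helper8200.finite_End0 (k := k) (V := ρbar.V)
  exact
    { finite := by
        show Module.Finite (ZMod p) ↥(helper8200.End0 k ρbar.V)
        exact Module.Finite.of_finite
      smooth := fun m => ⟨L, hL, fun s hs => by
        rw [h1 s (hL1 s fun x hx => (IntermediateField.mem_fixingSubgroup_iff _ _).1 hs x hx)]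
        rfl⟩
      unram := fun q hq B hB g hg => h1 g (hρS q hq B hB g hg) }

/-- **KILL supply**, from finiteness of the groups `H¹(G_S, dualT ad⁰)`. -/
theorem killSupply_of_finite (hp2 : p ≠ 2) (habs : ρbar.IsAbsolutelyIrreducible)
    (hdet : (GaloisRepAdic.ofResidualGaloisRep ρbar).DetIsCyclotomic p)
    (hsplit : ∀ σ : GQ, ∃ α β : k, LinearMap.charpoly (ρbar.ρ σ) = (X - C α) * (X - C β))
    (hTW : ∀ (K : Type) [Field K] [Algebra k K] (G : Subgroup GQ), G.index = 2 →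
      ∀ V : Submodule K (ρbar.baseChange K).V,
        (∀ σ ∈ G, ∀ x ∈ V, (ρbar.baseChange K).ρ σ x ∈ V) → V = ⊥ ∨ V = ⊤)
    (A : Representation (ZMod p) GQ ↥(helper8200.End0 k ρbar.V))
    (hA : ∀ (g : GQ) (Y : ↥(helper8200.End0 k ρbar.V)),
      ((A g Y : ↥(helper8200.End0 k ρbar.V)) : Module.End k ρbar.V) = ρbar.ρ g * Y * ρbar.ρ g⁻¹)
    (S₀ : Finset Nat.Primes) (hpS : pPrime p ∈ S₀)
    (hρS : ∀ q : Nat.Primes, q ∉ S₀ → ρbar.IsUnramifiedAt (q : ℕ))
    (hfin : ∀ S : Finset Nat.Primes, S₀ ⊆ S →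
      Module.Finite (ZMod p) (continuousH1S S (dualT (Rep.of A)))) :
    helper3550.KillSupply S₀ (dualT (Rep.of A)) (TWGood p ρbar) := by
  intro S hS D0 hD0 Tav n
  have hfinS := hfin S hS
  have hD0fin : Module.Finite (ZMod p) D0 := Submodule.finiteDimensional_of_le hD0
  obtain ⟨qv, hinj, hqv, hkill⟩ := exists_kill_primes p ρbar hp2 habs hdet hsplit hTW A hA S
    (hS hpS) (fun q hq => hρS q fun h => hq (hS h)) D0 hD0 Tav n
  exact ⟨qv, hinj, fun i => ⟨(hqv i).1, (hqv i).2.2.1, (hqv i).2.2.2⟩, hkill⟩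

/-- **KILL supply**, from the S55 finiteness statement. -/
theorem killSupply (hFin : Stmt_Fin) (hp2 : p ≠ 2) (habs : ρbar.IsAbsolutelyIrreducible)
    (hdet : (GaloisRepAdic.ofResidualGaloisRep ρbar).DetIsCyclotomic p)
    (hsplit : ∀ σ : GQ, ∃ α β : k, LinearMap.charpoly (ρbar.ρ σ) = (X - C α) * (X - C β))
    (hTW : ∀ (K : Type) [Field K] [Algebra k K] (G : Subgroup GQ), G.index = 2 →
      ∀ V : Submodule K (ρbar.baseChange K).V,
        (∀ σ ∈ G, ∀ x ∈ V, (ρbar.baseChange K).ρ σ x ∈ V) → V = ⊥ ∨ V = ⊤)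
    (A : Representation (ZMod p) GQ ↥(helper8200.End0 k ρbar.V))
    (hA : ∀ (g : GQ) (Y : ↥(helper8200.End0 k ρbar.V)),
      ((A g Y : ↥(helper8200.End0 k ρbar.V)) : Module.End k ρbar.V) = ρbar.ρ g * Y * ρbar.ρ g⁻¹)
    (S₀ : Finset Nat.Primes) (hpS : pPrime p ∈ S₀)
    (hρS : ∀ q : Nat.Primes, q ∉ S₀ → ρbar.IsUnramifiedAt (q : ℕ)) :
    helper3550.KillSupply S₀ (dualT (Rep.of A)) (TWGood p ρbar) :=
  killSupply_of_finite p ρbar hp2 habs hdet hsplit hTW A hA S₀ hpS hρS fun S hS =>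
    (hFin hp2 S (hS hpS) (dualT (Rep.of A))
      (isSMod_dualTwist p ρbar A hA S (hS hpS) fun q hq => hρS q fun h => hq (hS h))).1

end Supply

end Fermat.Agent.S56.helper4859
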