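/-
S56 (Taylor–Wiles primes), layer 5 on the dictionary carrier (helper4859):
the KILL supply `helper3550.KillSupply S₀ (dualT (helper6599.ad0 p ρbar)) (TWGood p ρbar)`,
i.e. the hypothesis `hKill` of `helper3550.selmer_count` for `M := helper6599.ad0 p ρbar`.

* `killSupply_ad0`         : for any `S₀` containing `p` and the ramification of `ρbar`;
* `isUnramifiedAt_of_hmin` : the frozen hypothesis `hmin` of S56 gives "unramified outside
  the primes of `Smin`";
* `killSupply_ad0_of_hmin` : for `S₀ := Smin.subtype Nat.Prime` under the frozen hypotheses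
  `hpSmin`, `hmin` of S56.
-/
import Mathlib
import Fermat.Agent.S56.helper4859_KillSupply
import Fermat.Agent.S56.helper6599_Ad0

set_option autoImplicit false

namespace Fermat.Agent.S56.helper4859

open Polynomial groupCohomology ExtCitation CategoryTheory
open Fermat.Agent.S55.helper2945

local notation "Qb" => AlgebraicClosure ℚ
local notation "GQ" => (AlgebraicClosure ℚ ≃ₐ[ℚ] AlgebraicClosure ℚ)

section Ad0

variable {k : Type} [Field k] [Finite k] (p : ℕ) [Fact p.Prime] [Algebra (ZMod p) k]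
variable (ρbar : ResidualGaloisRep k)

/-- **KILL supply on the dictionary carrier** `ad0 p ρbar` of `helper6599`. -/
theorem killSupply_ad0 (hFin : Stmt_Fin) (hp2 : p ≠ 2) (habs : ρbar.IsAbsolutelyIrreducible)
    (hdet : (GaloisRepAdic.ofResidualGaloisRep ρbar).DetIsCyclotomic p)
    (hsplit : ∀ σ : GQ, ∃ α β : k, LinearMap.charpoly (ρbar.ρ σ) = (X - C α) * (X - C β))
    (hTW : ∀ (K : Type) [Field K] [Algebra k K] (G : Subgroup GQ), G.index = 2 →
      ∀ V : Submodule K (ρbar.baseChange K).V,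
        (∀ σ ∈ G, ∀ x ∈ V, (ρbar.baseChange K).ρ σ x ∈ V) → V = ⊥ ∨ V = ⊤)
    (S₀ : Finset Nat.Primes) (hpS : pPrime p ∈ S₀)
    (hρS : ∀ q : Nat.Primes, q ∉ S₀ → ρbar.IsUnramifiedAt (q : ℕ)) :
    helper3550.KillSupply S₀ (dualT (helper6599.ad0 p ρbar)) (TWGood p ρbar) :=
  @killSupply k _ _ p _ _ ρbar (helper6599.ad0Module p ρbar) hFin hp2 habs hdet hsplit hTW
    (helper6599.ad0Rep p ρbar) (fun _ _ => rfl) S₀ hpS hρS

omit [Finite k] [Algebra (ZMod p) k] in
/-- The frozen hypothesis `hmin` of S56: `ρbar` is unramified outside the primes of `Smin`. -/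
theorem isUnramifiedAt_of_hmin (Smin : Finset ℕ) (hpSmin : p ∈ Smin)
    (hmin : ∀ q : ℕ, q.Prime → q ≠ p → (q ∈ Smin ↔ ¬ ρbar.IsUnramifiedAt q))
    (q : Nat.Primes) (hq : q ∉ Smin.subtype Nat.Prime) : ρbar.IsUnramifiedAt (q : ℕ) := by
  have hq' : (q : ℕ) ∉ Smin := fun h => hq (Finset.mem_subtype.2 h)
  have hqp : (q : ℕ) ≠ p := fun h => hq' (h ▸ hpSmin)
  by_contra hram
  exact hq' ((hmin q q.2 hqp).2 hram)

/-- **KILL supply under the frozen hypotheses of S56**, at the base set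
`Smin.subtype Nat.Prime` (`= helper2229.primesOf Smin`). -/
theorem killSupply_ad0_of_hmin (hFin : Stmt_Fin) (hp2 : p ≠ 2)
    (habs : ρbar.IsAbsolutelyIrreducible)
    (hdet : (GaloisRepAdic.ofResidualGaloisRep ρbar).DetIsCyclotomic p)
    (hsplit : ∀ σ : GQ, ∃ α β : k, LinearMap.charpoly (ρbar.ρ σ) = (X - C α) * (X - C β))
    (hTW : ∀ (K : Type) [Field K] [Algebra k K] (G : Subgroup GQ), G.index = 2 →
      ∀ V : Submodule K (ρbar.baseChange K).V,
        (∀ σ ∈ G, ∀ x ∈ V, (ρbar.baseChange K).ρ σ x ∈ V) → V = ⊥ ∨ V = ⊤)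
    (Smin : Finset ℕ) (hpSmin : p ∈ Smin)
    (hmin : ∀ q : ℕ, q.Prime → q ≠ p → (q ∈ Smin ↔ ¬ ρbar.IsUnramifiedAt q)) :
    helper3550.KillSupply (Smin.subtype Nat.Prime) (dualT (helper6599.ad0 p ρbar))
      (TWGood p ρbar) :=
  killSupply_ad0 p ρbar hFin hp2 habs hdet hsplit hTW (Smin.subtype Nat.Prime)
    (Finset.mem_subtype.2 hpSmin) (isUnramifiedAt_of_hmin p ρbar Smin hpSmin hmin)

end Ad0

end Fermat.Agent.S56.helper4859
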