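import Mathlib
import Fermat.Prelude.Def_GaloisRep_LocalConditions
import Fermat.Prelude.Def_GaloisRep_StrictOrdinary
import Fermat.Prelude.Def_GaloisRep_Flat

/-!
# S56, TOP wiring, part "STABILITY" (helper7539)

The five frozen local clauses (`DetIsCyclotomic`, `IsUnramifiedAt`, `IsUnipotentOnInertiaAt`,
`IsStrictOrdinaryAt`, `IsFlatAt`) are stable under `GaloisRepAdic.baseChangeAlong` (the last one
along SURJECTIVE maps) and invariant under `GaloisRepAdic.IsEquiv`.  Packaged for the two frozen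
conditions of S56.  Imports: Mathlib + frozen definition modules only.
-/

set_option autoImplicit false

open scoped TensorProduct

namespace Fermat.Agent.S56.helper7539

open IsLocalRing

set_option linter.unusedSectionVars false
set_option linter.style.haveILetI false

section BaseChange

variable {A B : Type} [CommRing A] [IsLocalRing A] [CommRing B] [IsLocalRing B]

theorem natCast_mem_maximalIdeal_of_isLocalHom (φ : A →+* B) (hφ : IsLocalHom φ) {p : ℕ}
    (h : (p : A) ∈ maximalIdeal A) : (p : B) ∈ maximalIdeal B := by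
  have h1 : φ (p : A) ∈ maximalIdeal B := (haveI := hφ; map_nonunit φ (p : A) h)
  rwa [map_natCast] at h1

theorem map_mem_span_natCast (φ : A →+* B) {x : A} {m : ℕ}
    (h : x ∈ Ideal.span {((m : ℕ) : A)}) : φ x ∈ Ideal.span {((m : ℕ) : B)} := by
  obtain ⟨c, rfl⟩ := Ideal.mem_span_singleton'.mp h
  rw [map_mul, map_natCast]
  exact Ideal.mem_span_singleton'.mpr ⟨φ c, rfl⟩

/-- `DetIsCyclotomic` passes along every local homomorphism. -/
theorem detIsCyclotomic_baseChangeAlong (φ : A →+* B) (hφ : IsLocalHom φ)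
    {ρ : GaloisRepAdic A} {p : ℕ} (h : ρ.DetIsCyclotomic p) :
    (ρ.baseChangeAlong φ hφ).DetIsCyclotomic p := by
  let _ : Algebra A B := φ.toAlgebra
  refine ⟨natCast_mem_maximalIdeal_of_isLocalHom φ hφ h.1, fun n σ a ha => ?_⟩
  have h1 := map_mem_span_natCast φ (h.2 n σ a ha)
  have h2 : LinearMap.det ((ρ.baseChangeAlong φ hφ).ρ σ) = φ (LinearMap.det (ρ.ρ σ)) := by
    show LinearMap.det ((ρ.ρ σ).baseChange B) = _
    rw [LinearMap.det_baseChange]
    rfl
  rw [h2]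
  rwa [map_sub, map_natCast] at h1

/-- `IsUnramifiedAt` passes along every local homomorphism. -/
theorem isUnramifiedAt_baseChangeAlong (φ : A →+* B) (hφ : IsLocalHom φ)
    {ρ : GaloisRepAdic A} {q : ℕ} (h : ρ.IsUnramifiedAt q) :
    (ρ.baseChangeAlong φ hφ).IsUnramifiedAt q := by
  let _ : Algebra A B := φ.toAlgebra
  intro P hP σ hσ
  show (ρ.ρ σ).baseChange B = 1
  rw [h P hP σ hσ, LinearMap.baseChange_one]

/-- `IsUnipotentOnInertiaAt` passes along every local homomorphism. -/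
theorem isUnipotentOnInertiaAt_baseChangeAlong (φ : A →+* B) (hφ : IsLocalHom φ)
    {ρ : GaloisRepAdic A} {q : ℕ} (h : ρ.IsUnipotentOnInertiaAt q) :
    (ρ.baseChangeAlong φ hφ).IsUnipotentOnInertiaAt q := by
  let _ : Algebra A B := φ.toAlgebra
  intro P hP σ hσ
  show LinearMap.charpoly ((ρ.ρ σ).baseChange B) = _
  rw [LinearMap.charpoly_baseChange, h P hP σ hσ]
  simp

/-- the `B`-action on a base change, on pure tensors. -/
theorem algebraMap_smul_tmul (φ : A →+* B) {V : Type} [AddCommGroup V] [Module A V]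
    (a : A) (c : B) (w : V) :
    letI : Algebra A B := φ.toAlgebra
    φ a • (c ⊗ₜ[A] w) = c ⊗ₜ[A] (a • w) := by
  letI : Algebra A B := φ.toAlgebra
  rw [TensorProduct.tmul_smul, TensorProduct.smul_tmul', TensorProduct.smul_tmul', smul_eq_mul]
  rfl

/-- `IsStrictOrdinaryAt` passes along every local homomorphism. -/
theorem isStrictOrdinaryAt_baseChangeAlong (φ : A →+* B) (hφ : IsLocalHom φ)
    {ρ : GaloisRepAdic A} {p : ℕ} (h : ρ.IsStrictOrdinaryAt p) :
    (ρ.baseChangeAlong φ hφ).IsStrictOrdinaryAt p := by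
  letI : Algebra A B := φ.toAlgebra
  refine ⟨natCast_mem_maximalIdeal_of_isLocalHom φ hφ h.1, fun P hP => ?_⟩
  obtain ⟨L, ⟨b, hL⟩, hD, hI, hxz⟩ := h.2 P hP
  have hb0 : b 0 ∈ L := hL ▸ Submodule.mem_span_singleton_self _
  have key : ∀ w ∈ L, ∀ c : B, c ⊗ₜ[A] w ∈ Submodule.span B {(1 : B) ⊗ₜ[A] (b 0)} := by
    intro w hw c
    rw [hL] at hw
    obtain ⟨a, rfl⟩ := Submodule.mem_span_singleton.mp hw
    have h1 : c ⊗ₜ[A] (a • b 0) = (c * φ a) • ((1 : B) ⊗ₜ[A] (b 0)) := by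
      rw [mul_smul, algebraMap_smul_tmul φ a 1 (b 0), TensorProduct.smul_tmul', smul_eq_mul,
        mul_one]
    rw [h1]
    exact Submodule.smul_mem _ _ (Submodule.mem_span_singleton_self _)
  have hD' : ∀ σ ∈ P.decompositionSubgroup ℚ, ∀ v ∈ Submodule.span B {(1 : B) ⊗ₜ[A] (b 0)},
      (ρ.ρ σ).baseChange B v ∈ Submodule.span B {(1 : B) ⊗ₜ[A] (b 0)} := by
    intro σ hσ v hv
    obtain ⟨c, rfl⟩ := Submodule.mem_span_singleton.mp hv
    rw [map_smul, LinearMap.baseChange_tmul]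
    exact Submodule.smul_mem _ _ (key _ (hD σ hσ _ hb0) 1)
  have hI' : ∀ σ ∈ P.inertiaSubgroupIn ℚ, ∀ v : B ⊗[A] ρ.V,
      (ρ.ρ σ).baseChange B v - v ∈ Submodule.span B {(1 : B) ⊗ₜ[A] (b 0)} := by
    intro σ hσ v
    induction v using TensorProduct.induction_on with
    | zero => simp
    | tmul c w =>
      rw [LinearMap.baseChange_tmul, ← TensorProduct.tmul_sub]
      exact key _ (hI σ hσ w) c
    | add x y hx hy =>
      rw [map_add, add_sub_add_comm]
      exact Submodule.add_mem _ hx hy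
  have hxz' : ∀ σ ∈ P.decompositionSubgroup ℚ, ∃ x z : B,
      (∀ w ∈ Submodule.span B {(1 : B) ⊗ₜ[A] (b 0)}, (ρ.ρ σ).baseChange B w = x • w) ∧
      (∀ v : B ⊗[A] ρ.V,
        (ρ.ρ σ).baseChange B v - z • v ∈ Submodule.span B {(1 : B) ⊗ₜ[A] (b 0)}) ∧
      ∀ (n a : ℕ), (∀ μ : AlgebraicClosure ℚ, μ ^ p ^ n = 1 → σ μ = μ ^ a) →
        x - (a : B) * z ∈ Ideal.span {((p ^ n : ℕ) : B)} := by
    intro σ hσ
    obtain ⟨x, z, h1, h2, h3⟩ := hxz σ hσ
    refine ⟨φ x, φ z, ?_, ?_, ?_⟩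
    · intro w hw
      obtain ⟨c, rfl⟩ := Submodule.mem_span_singleton.mp hw
      rw [map_smul, LinearMap.baseChange_tmul, h1 _ hb0, ← algebraMap_smul_tmul φ x 1 (b 0),
        smul_comm]
    · intro v
      induction v using TensorProduct.induction_on with
      | zero => simp
      | tmul c w =>
        rw [LinearMap.baseChange_tmul, algebraMap_smul_tmul φ z c w, ← TensorProduct.tmul_sub]
        exact key _ (h2 w) c
      | add x y hx hy =>
        rw [map_add, smul_add, add_sub_add_comm]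
        exact Submodule.add_mem _ hx hy
    · intro n a ha
      have h4 := map_mem_span_natCast φ (h3 n a ha)
      rwa [map_sub, map_mul, map_natCast] at h4
  have hb' : Submodule.span B {(1 : B) ⊗ₜ[A] (b 0)} = Submodule.span B {(b.baseChange B) 0} := by
    rw [Module.Basis.baseChange_apply]
  exact ⟨Submodule.span B {(1 : B) ⊗ₜ[A] (b 0)}, ⟨b.baseChange B, hb'⟩, hD', hI', hxz'⟩

end BaseChange

end Fermat.Agent.S56.helper7539

namespace Fermat.Agent.S56.helper7539

open IsLocalRing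

set_option linter.unusedSectionVars false
set_option linter.style.haveILetI false

section LevelMap

/-- membership in `I • ⊤` of a free module, in coordinates. -/
theorem mem_smul_top_iff_repr {R V ι : Type*} [CommRing R] [AddCommGroup V] [Module R V]
    [Finite ι] (b : Module.Basis ι R V) (I : Ideal R) (v : V) :
    v ∈ I • (⊤ : Submodule R V) ↔ ∀ i, b.repr v i ∈ I := by
  constructor
  · intro hv
    refine Submodule.smul_induction_on hv ?_ ?_
    · intro a ha w _ i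
      rw [map_smul, Finsupp.smul_apply, smul_eq_mul]
      exact I.mul_mem_right _ ha
    · intro x y hx hy i
      rw [map_add, Finsupp.add_apply]
      exact I.add_mem (hx i) (hy i)
  · intro h
    cases nonempty_fintype ι
    rw [← b.sum_repr v]
    exact Submodule.sum_mem _ fun i _ => Submodule.smul_mem_smul (h i) Submodule.mem_top

variable (A : Type) {B : Type} [CommRing A] [CommRing B] [Algebra A B]
variable (V : Type) [AddCommGroup V] [Module A V]

variable (B) in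
/-- `v ↦ 1 ⊗ v`, semilinear over `algebraMap A B`. -/
noncomputable def tmulOne : V →ₛₗ[algebraMap A B] B ⊗[A] V where
  toFun v := (1 : B) ⊗ₜ[A] v
  map_add' x y := TensorProduct.tmul_add _ _ _
  map_smul' a v := by
    show (1 : B) ⊗ₜ[A] (a • v) = algebraMap A B a • ((1 : B) ⊗ₜ[A] v)
    rw [TensorProduct.tmul_smul, algebraMap_smul]

theorem tmulOne_apply (v : V) : tmulOne A B V v = (1 : B) ⊗ₜ[A] v := rfl

theorem tmulOne_surjective (hsurj : Function.Surjective (algebraMap A B)) :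
    Function.Surjective (tmulOne A B V) := by
  intro y
  induction y using TensorProduct.induction_on with
  | zero => exact ⟨0, map_zero _⟩
  | tmul c w =>
    obtain ⟨a, rfl⟩ := hsurj c
    refine ⟨a • w, ?_⟩
    rw [map_smulₛₗ, tmulOne_apply, TensorProduct.smul_tmul', smul_eq_mul, mul_one]
  | add x y hx hy =>
    obtain ⟨x', rfl⟩ := hx
    obtain ⟨y', rfl⟩ := hy
    exact ⟨x' + y', map_add _ _ _⟩

theorem tmulOne_mem_smul_top (J : Ideal B) {v : V}
    (hv : v ∈ (J.comap (algebraMap A B)) • (⊤ : Submodule A V)) :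
    tmulOne A B V v ∈ J • (⊤ : Submodule B (B ⊗[A] V)) := by
  refine Submodule.smul_induction_on hv ?_ ?_
  · intro a ha w _
    rw [map_smulₛₗ]
    exact Submodule.smul_mem_smul ha Submodule.mem_top
  · intro x y hx hy
    rw [map_add]
    exact Submodule.add_mem _ hx hy

theorem mem_smul_top_of_tmulOne_mem [Module.Free A V] [Module.Finite A V] (J : Ideal B) {v : V}
    (hv : tmulOne A B V v ∈ J • (⊤ : Submodule B (B ⊗[A] V))) :
    v ∈ (J.comap (algebraMap A B)) • (⊤ : Submodule A V) := by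
  rw [mem_smul_top_iff_repr (Module.Free.chooseBasis A V)]
  intro i
  have h1 := (mem_smul_top_iff_repr ((Module.Free.chooseBasis A V).baseChange B) J _).mp hv i
  rw [tmulOne_apply, Module.Basis.baseChange_repr_tmul, Algebra.smul_def, mul_one] at h1
  exact h1

/-- The comparison `V ⧸ φ⁻¹(J) V → (B ⊗ V) ⧸ J (B ⊗ V)` of the level quotients. -/
noncomputable def levelMap (J : Ideal B) :
    (V ⧸ ((J.comap (algebraMap A B)) • (⊤ : Submodule A V))) →ₛₗ[algebraMap A B]
      ((B ⊗[A] V) ⧸ (J • (⊤ : Submodule B (B ⊗[A] V)))) :=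
  Submodule.mapQ _ _ (tmulOne A B V) (fun _ hv => tmulOne_mem_smul_top A V J hv)

theorem levelMap_mk (J : Ideal B) (v : V) :
    levelMap A V J (Submodule.Quotient.mk v) = Submodule.Quotient.mk ((1 : B) ⊗ₜ[A] v) := rfl

theorem levelMap_bijective [Module.Free A V] [Module.Finite A V] (J : Ideal B)
    (hsurj : Function.Surjective (algebraMap A B)) :
    Function.Bijective (levelMap A V J) := by
  constructor
  · rw [injective_iff_map_eq_zero]
    intro x hx
    obtain ⟨v, rfl⟩ := Submodule.Quotient.mk_surjective _ x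
    rw [levelMap_mk, Submodule.Quotient.mk_eq_zero] at hx
    rw [Submodule.Quotient.mk_eq_zero]
    exact mem_smul_top_of_tmulOne_mem A V J hx
  · intro y
    obtain ⟨w, rfl⟩ := Submodule.Quotient.mk_surjective _ y
    obtain ⟨v, rfl⟩ := tmulOne_surjective A V hsurj w
    exact ⟨Submodule.Quotient.mk v, rfl⟩

theorem levelMap_mapQ (J : Ideal B) (f : V →ₗ[A] V)
    (h1 : (J.comap (algebraMap A B)) • (⊤ : Submodule A V) ≤
      ((J.comap (algebraMap A B)) • (⊤ : Submodule A V)).comap f)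
    (h2 : J • (⊤ : Submodule B (B ⊗[A] V)) ≤
      (J • (⊤ : Submodule B (B ⊗[A] V))).comap (f.baseChange B))
    (x : V ⧸ ((J.comap (algebraMap A B)) • (⊤ : Submodule A V))) :
    levelMap A V J (Submodule.mapQ _ _ f h1 x) =
      Submodule.mapQ _ _ (f.baseChange B) h2 (levelMap A V J x) := by
  obtain ⟨v, rfl⟩ := Submodule.Quotient.mk_surjective _ x
  rfl

end LevelMap

section FlatBaseChange

variable {A B : Type} [CommRing A] [IsLocalRing A] [CommRing B] [IsLocalRing B]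

/-- `IsFlatAt` passes along every SURJECTIVE (local) homomorphism: the level quotient of the base
change at `J` is the level quotient of `ρ` at `φ⁻¹(J)`, Galois-equivariantly, so the same Hopf
algebra works. -/
theorem isFlatAt_baseChangeAlong (φ : A →+* B) (hφ : IsLocalHom φ)
    (hsurj : Function.Surjective φ) {ρ : GaloisRepAdic A} {p : ℕ} (h : ρ.IsFlatAt p) :
    (ρ.baseChangeAlong φ hφ).IsFlatAt p := by
  letI : Algebra A B := φ.toAlgebra
  obtain ⟨hfin, hI⟩ := h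
  refine ⟨?_, fun J hJ => ?_⟩
  · haveI := hφ
    refine Finite.of_surjective (IsLocalRing.ResidueField.map φ) fun y => ?_
    obtain ⟨b, rfl⟩ := IsLocalRing.residue_surjective y
    obtain ⟨a, rfl⟩ := hsurj b
    exact ⟨IsLocalRing.residue A a, IsLocalRing.ResidueField.map_residue φ a⟩
  · haveI : Finite (A ⧸ J.comap (algebraMap A B)) :=
      Finite.of_injective (Ideal.quotientMap J (algebraMap A B) le_rfl)
        Ideal.quotientMap_injective
    obtain ⟨H, i1, i2, hfinH, hflat, hcocomm, e, hadd, hequiv⟩ :=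
      hI (J.comap (algebraMap A B)) this
    let Ψ : (ρ.V ⧸ ((J.comap (algebraMap A B)) • (⊤ : Submodule A ρ.V))) ≃
        ((B ⊗[A] ρ.V) ⧸ (J • (⊤ : Submodule B (B ⊗[A] ρ.V)))) :=
      Equiv.ofBijective _ (levelMap_bijective A ρ.V J hsurj)
    refine ⟨H, i1, i2, hfinH, hflat, hcocomm, e.trans Ψ, ?_, ?_⟩
    · intro f g
      show levelMap A ρ.V J (e (f * g)) = levelMap A ρ.V J (e f) + levelMap A ρ.V J (e g)
      rw [hadd, map_add]
    · intro σ f g hfg
      show levelMap A ρ.V J (e g) = _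
      rw [hequiv σ f g hfg]
      exact levelMap_mapQ A ρ.V J (ρ.ρ σ) _ _ _

end FlatBaseChange

end Fermat.Agent.S56.helper7539

namespace Fermat.Agent.S56.helper7539

open IsLocalRing

set_option linter.unusedSectionVars false
set_option linter.style.haveILetI false

section Packaged

variable {𝒪 : Type} [CommRing 𝒪]
variable {A B : Type} [CommRing A] [IsLocalRing A] [CommRing B] [IsLocalRing B]
variable [Algebra 𝒪 A] [Algebra 𝒪 B]

/-- the frozen `strictOrdinaryCondition` passes along every local homomorphism. -/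
theorem strictOrdinaryCondition_baseChangeAlong (φ : A →+* B) (hφ : IsLocalHom φ)
    {ρ : GaloisRepAdic A} {p : ℕ} {S : Finset ℕ}
    (h : GaloisRep.strictOrdinaryCondition 𝒪 p S ρ) :
    GaloisRep.strictOrdinaryCondition 𝒪 p S (ρ.baseChangeAlong φ hφ) :=
  ⟨detIsCyclotomic_baseChangeAlong φ hφ h.1, isStrictOrdinaryAt_baseChangeAlong φ hφ h.2.1,
    fun q hq hqS => isUnramifiedAt_baseChangeAlong φ hφ (h.2.2 q hq hqS)⟩

/-- the frozen `flatCondition` passes along every surjective local homomorphism. -/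
theorem flatCondition_baseChangeAlong (φ : A →+* B) (hφ : IsLocalHom φ)
    (hsurj : Function.Surjective φ) {ρ : GaloisRepAdic A} {p : ℕ} {S : Finset ℕ}
    (h : GaloisRep.flatCondition 𝒪 p S ρ) :
    GaloisRep.flatCondition 𝒪 p S (ρ.baseChangeAlong φ hφ) :=
  ⟨detIsCyclotomic_baseChangeAlong φ hφ h.1, isFlatAt_baseChangeAlong φ hφ hsurj h.2.1,
    fun q hq hqS => isUnramifiedAt_baseChangeAlong φ hφ (h.2.2 q hq hqS)⟩

/-- the deformation condition of the FIRST half of the frozen S56 (literally the predicate under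
`DeformationRingData` there, at a fixed ring) passes along every local homomorphism. -/
theorem strictHalf_baseChangeAlong (φ : A →+* B) (hφ : IsLocalHom φ)
    {ρ : GaloisRepAdic A} {p : ℕ} {S Smin : Finset ℕ}
    (h : GaloisRep.strictOrdinaryCondition 𝒪 p S ρ ∧
      ∀ q ∈ Smin, q.Prime → q ≠ p → ρ.IsUnipotentOnInertiaAt q) :
    GaloisRep.strictOrdinaryCondition 𝒪 p S (ρ.baseChangeAlong φ hφ) ∧
      ∀ q ∈ Smin, q.Prime → q ≠ p → (ρ.baseChangeAlong φ hφ).IsUnipotentOnInertiaAt q :=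
  ⟨strictOrdinaryCondition_baseChangeAlong φ hφ h.1,
    fun q hq hq' hqp => isUnipotentOnInertiaAt_baseChangeAlong φ hφ (h.2 q hq hq' hqp)⟩

/-- the deformation condition of the SECOND half of the frozen S56 passes along every surjective
local homomorphism. -/
theorem flatHalf_baseChangeAlong (φ : A →+* B) (hφ : IsLocalHom φ)
    (hsurj : Function.Surjective φ) {ρ : GaloisRepAdic A} {p : ℕ} {S Smin : Finset ℕ}
    (h : GaloisRep.flatCondition 𝒪 p S ρ ∧
      ∀ q ∈ Smin, q.Prime → q ≠ p → ρ.IsUnipotentOnInertiaAt q) :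
    GaloisRep.flatCondition 𝒪 p S (ρ.baseChangeAlong φ hφ) ∧
      ∀ q ∈ Smin, q.Prime → q ≠ p → (ρ.baseChangeAlong φ hφ).IsUnipotentOnInertiaAt q :=
  ⟨flatCondition_baseChangeAlong φ hφ hsurj h.1,
    fun q hq hq' hqp => isUnipotentOnInertiaAt_baseChangeAlong φ hφ (h.2 q hq hq' hqp)⟩

end Packaged

section EquivInvariance

variable {A : Type} [CommRing A] [IsLocalRing A]

theorem equiv_ρ_eq_conj {ρ₁ ρ₂ : GaloisRepAdic A} (E : GaloisRepAdic.Equiv ρ₁ ρ₂)
    (σ : AlgebraicClosure ℚ ≃ₐ[ℚ] AlgebraicClosure ℚ) :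
    ρ₂.ρ σ = E.toLinearEquiv.conj (ρ₁.ρ σ) := by
  refine LinearMap.ext fun y => ?_
  rw [LinearEquiv.conj_apply_apply, E.map_apply, LinearEquiv.apply_symm_apply]

theorem equiv_symm_map_apply {ρ₁ ρ₂ : GaloisRepAdic A} (E : GaloisRepAdic.Equiv ρ₁ ρ₂)
    (σ : AlgebraicClosure ℚ ≃ₐ[ℚ] AlgebraicClosure ℚ) (y : ρ₂.V) :
    E.toLinearEquiv.symm (ρ₂.ρ σ y) = ρ₁.ρ σ (E.toLinearEquiv.symm y) :=
  E.symm.map_apply σ y

theorem detIsCyclotomic_of_equiv {ρ₁ ρ₂ : GaloisRepAdic A} (E : GaloisRepAdic.Equiv ρ₁ ρ₂)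
    {p : ℕ} (h : ρ₁.DetIsCyclotomic p) : ρ₂.DetIsCyclotomic p := by
  refine ⟨h.1, fun n σ a ha => ?_⟩
  have h1 : LinearMap.det (ρ₂.ρ σ) = LinearMap.det (ρ₁.ρ σ) := by
    rw [equiv_ρ_eq_conj E σ, LinearEquiv.conj_apply, LinearMap.comp_assoc, LinearMap.det_conj]
  rw [h1]
  exact h.2 n σ a ha

theorem isUnramifiedAt_of_equiv {ρ₁ ρ₂ : GaloisRepAdic A} (E : GaloisRepAdic.Equiv ρ₁ ρ₂)
    {q : ℕ} (h : ρ₁.IsUnramifiedAt q) : ρ₂.IsUnramifiedAt q := by
  intro P hP σ hσ
  rw [equiv_ρ_eq_conj E σ, h P hP σ hσ]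
  refine LinearMap.ext fun y => ?_
  rw [LinearEquiv.conj_apply_apply, Module.End.one_apply, LinearEquiv.apply_symm_apply,
    Module.End.one_apply]

theorem isUnipotentOnInertiaAt_of_equiv {ρ₁ ρ₂ : GaloisRepAdic A}
    (E : GaloisRepAdic.Equiv ρ₁ ρ₂) {q : ℕ} (h : ρ₁.IsUnipotentOnInertiaAt q) :
    ρ₂.IsUnipotentOnInertiaAt q := by
  intro P hP σ hσ
  rw [equiv_ρ_eq_conj E σ, LinearEquiv.charpoly_conj]
  exact h P hP σ hσ

theorem isStrictOrdinaryAt_of_equiv {ρ₁ ρ₂ : GaloisRepAdic A} (E : GaloisRepAdic.Equiv ρ₁ ρ₂)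
    {p : ℕ} (h : ρ₁.IsStrictOrdinaryAt p) : ρ₂.IsStrictOrdinaryAt p := by
  refine ⟨h.1, fun P hP => ?_⟩
  obtain ⟨L, ⟨b, hL⟩, hD, hI, hxz⟩ := h.2 P hP
  have hmem : ∀ y : ρ₂.V, y ∈ L.map (E.toLinearEquiv : ρ₁.V →ₗ[A] ρ₂.V) ↔
      E.toLinearEquiv.symm y ∈ L := by
    intro y
    constructor
    · rintro ⟨w, hw, rfl⟩
      rw [LinearEquiv.coe_coe, LinearEquiv.symm_apply_apply]
      exact hw
    · intro hy
      exact ⟨_, hy, by rw [LinearEquiv.coe_coe, LinearEquiv.apply_symm_apply]⟩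
  refine ⟨L.map (E.toLinearEquiv : ρ₁.V →ₗ[A] ρ₂.V), ⟨b.map E.toLinearEquiv, ?_⟩, ?_, ?_, ?_⟩
  · rw [hL, Submodule.map_span, Set.image_singleton, Module.Basis.map_apply]
    rfl
  · intro σ hσ v hv
    rw [hmem] at hv ⊢
    rw [equiv_symm_map_apply]
    exact hD σ hσ _ hv
  · intro σ hσ v
    rw [hmem, map_sub, equiv_symm_map_apply]
    exact hI σ hσ _
  · intro σ hσ
    obtain ⟨x, z, h1, h2, h3⟩ := hxz σ hσ
    refine ⟨x, z, ?_, ?_, h3⟩
    · intro w hw
      rw [hmem] at hw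
      apply E.toLinearEquiv.symm.injective
      rw [equiv_symm_map_apply, h1 _ hw, map_smul]
    · intro v
      rw [hmem, map_sub, equiv_symm_map_apply, map_smul]
      exact h2 _

theorem isFlatAt_of_equiv {ρ₁ ρ₂ : GaloisRepAdic A} (E : GaloisRepAdic.Equiv ρ₁ ρ₂)
    {p : ℕ} (h : ρ₁.IsFlatAt p) : ρ₂.IsFlatAt p := by
  obtain ⟨hfin, hI⟩ := h
  refine ⟨hfin, fun I hIfin => ?_⟩
  obtain ⟨H, i1, i2, hfinH, hflat, hcocomm, e, hadd, hequiv⟩ := hI I hIfin
  have hmap : (I • (⊤ : Submodule A ρ₁.V)).map (E.toLinearEquiv : ρ₁.V →ₗ[A] ρ₂.V) =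
      I • (⊤ : Submodule A ρ₂.V) := by
    rw [Submodule.map_smul'', Submodule.map_top, LinearEquiv.range]
  let Ψ : (ρ₁.V ⧸ (I • (⊤ : Submodule A ρ₁.V))) ≃ₗ[A] (ρ₂.V ⧸ (I • (⊤ : Submodule A ρ₂.V))) :=
    Submodule.Quotient.equiv _ _ E.toLinearEquiv hmap
  refine ⟨H, i1, i2, hfinH, hflat, hcocomm, e.trans Ψ.toEquiv, ?_, ?_⟩
  · intro f g
    show Ψ (e (f * g)) = Ψ (e f) + Ψ (e g)
    rw [hadd, map_add]
  · intro σ f g hfg
    show Ψ (e g) = ρ₂.levelAction I σ (Ψ (e f))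
    rw [hequiv σ f g hfg]
    obtain ⟨v, hv⟩ := Submodule.Quotient.mk_surjective _ (e f)
    rw [← hv]
    show Submodule.Quotient.mk (E.toLinearEquiv (ρ₁.ρ σ v)) =
      Submodule.Quotient.mk (ρ₂.ρ σ (E.toLinearEquiv v))
    rw [E.map_apply]

variable {𝒪 : Type} [CommRing 𝒪] [Algebra 𝒪 A]

/-- the FIRST-half condition of the frozen S56 is invariant under `IsEquiv`. -/
theorem strictHalf_of_isEquiv {ρ₁ ρ₂ : GaloisRepAdic A} (hE : ρ₁.IsEquiv ρ₂)
    {p : ℕ} {S Smin : Finset ℕ}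
    (h : GaloisRep.strictOrdinaryCondition 𝒪 p S ρ₁ ∧
      ∀ q ∈ Smin, q.Prime → q ≠ p → ρ₁.IsUnipotentOnInertiaAt q) :
    GaloisRep.strictOrdinaryCondition 𝒪 p S ρ₂ ∧
      ∀ q ∈ Smin, q.Prime → q ≠ p → ρ₂.IsUnipotentOnInertiaAt q := by
  obtain ⟨E⟩ := hE
  exact ⟨⟨detIsCyclotomic_of_equiv E h.1.1, isStrictOrdinaryAt_of_equiv E h.1.2.1,
    fun q hq hqS => isUnramifiedAt_of_equiv E (h.1.2.2 q hq hqS)⟩,
    fun q hq hq' hqp => isUnipotentOnInertiaAt_of_equiv E (h.2 q hq hq' hqp)⟩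

/-- the SECOND-half condition of the frozen S56 is invariant under `IsEquiv`. -/
theorem flatHalf_of_isEquiv {ρ₁ ρ₂ : GaloisRepAdic A} (hE : ρ₁.IsEquiv ρ₂)
    {p : ℕ} {S Smin : Finset ℕ}
    (h : GaloisRep.flatCondition 𝒪 p S ρ₁ ∧
      ∀ q ∈ Smin, q.Prime → q ≠ p → ρ₁.IsUnipotentOnInertiaAt q) :
    GaloisRep.flatCondition 𝒪 p S ρ₂ ∧
      ∀ q ∈ Smin, q.Prime → q ≠ p → ρ₂.IsUnipotentOnInertiaAt q := by
  obtain ⟨E⟩ := hE
  exact ⟨⟨detIsCyclotomic_of_equiv E h.1.1, isFlatAt_of_equiv E h.1.2.1,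
    fun q hq hqS => isUnramifiedAt_of_equiv E (h.1.2.2 q hq hqS)⟩,
    fun q hq hq' hqp => isUnipotentOnInertiaAt_of_equiv E (h.2 q hq hq' hqp)⟩

end EquivInvariance

end Fermat.Agent.S56.helper7539
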