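/-
S56 node DICT (helper6599), part (D3): the translation

  `finrank_{𝔽_p} Sel_S(ad0 ρbar, L) ≤ f * r`  ⟹  `TanBound 𝒪 ρbar 𝒟 ((#k) ^ r)`

for a deformation condition `𝒟` on `k[ε]`-lifts which is stable under `IsEquiv`, forces the
cyclotomic determinant and unramifiedness outside `S`, and whose lifts (in the cocycle normal
form `stdLift c` of `helper6599_StdLift`) have local classes in `L`.

* `isSMod_ad0`          : `ad0 p ρbar` satisfies the hypotheses `helper2945.IsSMod S` of the S55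
                          carriers.
* `selmerClass`         : the class of an admissible cocycle, as an element of the Selmer group.
* `tanBound_of_selmer`  : the translation, general `𝒟`.
* `tanBound_condSO_of_selmer`, `tanBound_condFL_of_selmer` : the two frozen conditions.
-/
import Mathlib
import Fermat.Agent.S56.helper2229_TopSpec
import Fermat.Agent.S56.helper7539_Stable
import Fermat.Agent.S55.helper2906_GreenbergWiles
import Fermat.Agent.S56.helper6599_Ad0

set_option autoImplicit false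
set_option linter.style.haveILetI false

noncomputable section

namespace Fermat.Agent.S56.helper6599

open groupCohomology IsLocalRing
open Fermat.Agent.S55

attribute [local instance] Fermat.Agent.S53.helper413.dualAlgebra

/-! ### `ad0` on the S55 carriers -/

section SMod

variable (p : ℕ) [Fact p.Prime] {k : Type} [Field k] [Algebra (ZMod p) k]
  (ρbar : ResidualGaloisRep k)

/-- `ad0 ρbar` satisfies the standing hypotheses of the S55 carriers. -/
theorem isSMod_ad0 [Finite k] (S : Finset Nat.Primes)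
    (hur : ∀ q : Nat.Primes, q ∉ S → ρbar.IsUnramifiedAt q) :
    helper2945.IsSMod S (ad0 p ρbar) :=
  ⟨ad0_finite p ρbar, ad0_smooth p ρbar, ad0_unram p ρbar S hur⟩

/-- The residue characteristic is `p`. -/
theorem natCast_eq_zero_of_algebra : (p : k) = 0 := by
  rw [← map_natCast (algebraMap (ZMod p) k), ZMod.natCast_self, map_zero]

variable {ρbar}

/-- The class of a trace-zero cocycle unramified outside `S`, in the frozen `H¹(G_S, ad0)`. -/
def LiftCocycle.toClassS (c : LiftCocycle ρbar)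
    (htr : ∀ g, LinearMap.trace k ρbar.V (c.c g) = 0) (S : Finset Nat.Primes)
    (hur : ∀ q : Nat.Primes, q ∉ S → (stdLift c).IsUnramifiedAt q) :
    ↥(continuousH1S S (ad0 p ρbar)) :=
  helper7860.toContinuousH1S S (ad0 p ρbar) (c.toLevelCocycle p htr S hur)

theorem LiftCocycle.coe_toClassS (c : LiftCocycle ρbar)
    (htr : ∀ g, LinearMap.trace k ρbar.V (c.c g) = 0) (S : Finset Nat.Primes)
    (hur : ∀ q : Nat.Primes, q ∉ S → (stdLift c).IsUnramifiedAt q) :
    ((c.toClassS p htr S hur : ↥(continuousH1S S (ad0 p ρbar))) : H1 (ad0 p ρbar))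
      = c.toClass p htr := rfl

/-- Equal classes in `H¹(G_S, ad0)` give equivalent standard lifts. -/
theorem stdLift_isEquiv_of_toClassS_eq (c c' : LiftCocycle ρbar)
    (htr : ∀ g, LinearMap.trace k ρbar.V (c.c g) = 0)
    (htr' : ∀ g, LinearMap.trace k ρbar.V (c'.c g) = 0) (S : Finset Nat.Primes)
    (hur : ∀ q : Nat.Primes, q ∉ S → (stdLift c).IsUnramifiedAt q)
    (hur' : ∀ q : Nat.Primes, q ∉ S → (stdLift c').IsUnramifiedAt q)
    (h : c.toClassS p htr S hur = c'.toClassS p htr' S hur') :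
    (stdLift c).IsEquiv (stdLift c') :=
  stdLift_isEquiv_of_toClass_eq p c c' htr htr' (congrArg Subtype.val h)

end SMod

/-! ### The translation -/

section Translation

variable {𝒪 : Type} [CommRing 𝒪] [IsLocalRing 𝒪] (p : ℕ) [Fact p.Prime]
  [Algebra (ZMod p) (ResidueField 𝒪)]
  (ρbar : ResidualGaloisRep (ResidueField 𝒪))

theorem isEquiv_symm' {A : Type} [CommRing A] [IsLocalRing A] {ρ₁ ρ₂ : GaloisRepAdic A}
    (h : ρ₁.IsEquiv ρ₂) : ρ₂.IsEquiv ρ₁ := by
  obtain ⟨e⟩ := h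
  exact ⟨e.symm⟩

theorem isEquiv_trans' {A : Type} [CommRing A] [IsLocalRing A] {ρ₁ ρ₂ ρ₃ : GaloisRepAdic A}
    (h : ρ₁.IsEquiv ρ₂) (h' : ρ₂.IsEquiv ρ₃) : ρ₁.IsEquiv ρ₃ := by
  obtain ⟨e⟩ := h
  obtain ⟨e'⟩ := h'
  exact ⟨e.trans e'⟩

/-- Every lift with the residual clause of `TanBound` is equivalent to a standard lift. -/
theorem exists_isEquiv_stdLift_of_residual
    (ρ : GaloisRepAdic (DualNumber (ResidueField 𝒪)))
    (hres : ρ.residual.IsEquiv (ρbar.baseChangeAlong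
      (IsLocalRing.ResidueField.map (algebraMap 𝒪 (DualNumber (ResidueField 𝒪)))))) :
    ∃ c : LiftCocycle ρbar, ρ.IsEquiv (stdLift c) := by
  refine exists_isEquiv_stdLift ρbar _ (fun a => ?_) ρ hres
  rw [← Fermat.Agent.S53.helper413.dual_residue_comp_eq_map]
  rfl

/-- **(D3) DICT.**  Let `𝒟` be a condition on lifts over `k[ε]` which is invariant under
equivalence, forces `DetIsCyclotomic p` and unramifiedness outside `S`, and such that the
localisations of the class of every cocycle `c` with `𝒟 (stdLift c)` lie in `L`.  If the Selmer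
group `Sel_S(ad0 ρbar, L)` (S55 carrier `helper2906.selmer`) is finite-dimensional of
`𝔽_p`-dimension at most `f * r`, `#k = p ^ f`, then the lifts of type `𝒟` satisfy the tangent
bound `(#k) ^ r`. -/
theorem tanBound_of_selmer
    (𝒟 : ∀ ⦃A : Type⦄ [CommRing A] [IsLocalRing A] [Algebra 𝒪 A], GaloisRepAdic A → Prop)
    (S : Finset Nat.Primes)
    (L : Submodule (ZMod p) (∀ q : ↥S, helper15.LocH1 (ad0 p ρbar) q.1))
    (hequiv : ∀ ρ ρ' : GaloisRepAdic (DualNumber (ResidueField 𝒪)),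
      ρ.IsEquiv ρ' → 𝒟 ρ → 𝒟 ρ')
    (hdet : ∀ ρ : GaloisRepAdic (DualNumber (ResidueField 𝒪)), 𝒟 ρ → ρ.DetIsCyclotomic p)
    (hur : ∀ ρ : GaloisRepAdic (DualNumber (ResidueField 𝒪)), 𝒟 ρ →
      ∀ q : Nat.Primes, q ∉ S → ρ.IsUnramifiedAt q)
    (hloc : ∀ (c : LiftCocycle ρbar)
      (htr : ∀ g, LinearMap.trace (ResidueField 𝒪) ρbar.V (c.c g) = 0)
      (hu : ∀ q : Nat.Primes, q ∉ S → (stdLift c).IsUnramifiedAt q), 𝒟 (stdLift c) →
      helper15.resTotal S (ad0 p ρbar) (c.toClassS p htr S hu) ∈ L)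
    [FiniteDimensional (ZMod p) ↥(helper2906.selmer S (ad0 p ρbar) L)]
    {f r : ℕ} (hk : Nat.card (ResidueField 𝒪) = p ^ f)
    (hsel : Module.finrank (ZMod p) ↥(helper2906.selmer S (ad0 p ρbar) L) ≤ f * r) :
    helper2229.TanBound 𝒪 ρbar 𝒟 (Nat.card (ResidueField 𝒪) ^ r) := by
  classical
  have hp : (p : ResidueField 𝒪) = 0 := natCast_eq_zero_of_algebra p
  -- the data attached to a lift
  have key : ∀ ρ : GaloisRepAdic (DualNumber (ResidueField 𝒪)), 𝒟 ρ →
      ρ.residual.IsEquiv (ρbar.baseChangeAlong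
        (IsLocalRing.ResidueField.map (algebraMap 𝒪 (DualNumber (ResidueField 𝒪))))) →
      ∃ (c : LiftCocycle ρbar) (htr : ∀ g, LinearMap.trace (ResidueField 𝒪) ρbar.V (c.c g) = 0)
        (hu : ∀ q : Nat.Primes, q ∉ S → (stdLift c).IsUnramifiedAt q),
        ρ.IsEquiv (stdLift c) ∧
          helper15.resTotal S (ad0 p ρbar) (c.toClassS p htr S hu) ∈ L := by
    intro ρ h₁ h₂
    obtain ⟨c, hc⟩ := exists_isEquiv_stdLift_of_residual ρbar ρ h₂
    have h𝒟 : 𝒟 (stdLift c) := hequiv ρ _ hc h₁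
    have htr : ∀ g, LinearMap.trace (ResidueField 𝒪) ρbar.V (c.c g) = 0 :=
      trace_eq_zero_of_detIsCyclotomic p hp c (hdet _ h𝒟)
    exact ⟨c, htr, hur _ h𝒟, hc, hloc c htr (hur _ h𝒟) h𝒟⟩
  choose cc chtr chu cequiv cmem using key
  refine helper2229.TanBound.of_class_finrank
    (W := ↥(helper2906.selmer S (ad0 p ρbar) L))
    (fun ρ h₁ h₂ => ⟨(cc ρ h₁ h₂).toClassS p (chtr ρ h₁ h₂) S (chu ρ h₁ h₂), cmem ρ h₁ h₂⟩)
    ?_ hk hsel
  intro ρ ρ' h₁ h₁' h₂ h₂' h
  have h' : (cc ρ h₁ h₂).toClassS p (chtr ρ h₁ h₂) S (chu ρ h₁ h₂)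
      = (cc ρ' h₁' h₂').toClassS p (chtr ρ' h₁' h₂') S (chu ρ' h₁' h₂') :=
    congrArg Subtype.val h
  exact isEquiv_trans' (cequiv ρ h₁ h₂)
    (isEquiv_trans' (stdLift_isEquiv_of_toClassS_eq p _ _ _ _ S _ _ h')
      (isEquiv_symm' (cequiv ρ' h₁' h₂')))

/-- Per-prime form of the local hypothesis: `L = Π_q L_q`. -/
theorem tanBound_of_selmer_pi
    (𝒟 : ∀ ⦃A : Type⦄ [CommRing A] [IsLocalRing A] [Algebra 𝒪 A], GaloisRepAdic A → Prop)
    (S : Finset Nat.Primes)
    (Lq : ∀ q : ↥S, Submodule (ZMod p) (helper15.LocH1 (ad0 p ρbar) q.1))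
    (hequiv : ∀ ρ ρ' : GaloisRepAdic (DualNumber (ResidueField 𝒪)),
      ρ.IsEquiv ρ' → 𝒟 ρ → 𝒟 ρ')
    (hdet : ∀ ρ : GaloisRepAdic (DualNumber (ResidueField 𝒪)), 𝒟 ρ → ρ.DetIsCyclotomic p)
    (hur : ∀ ρ : GaloisRepAdic (DualNumber (ResidueField 𝒪)), 𝒟 ρ →
      ∀ q : Nat.Primes, q ∉ S → ρ.IsUnramifiedAt q)
    (hloc : ∀ (c : LiftCocycle ρbar)
      (htr : ∀ g, LinearMap.trace (ResidueField 𝒪) ρbar.V (c.c g) = 0)
      (hu : ∀ q : Nat.Primes, q ∉ S → (stdLift c).IsUnramifiedAt q), 𝒟 (stdLift c) →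
      ∀ q : ↥S, helper15.resTotal S (ad0 p ρbar) (c.toClassS p htr S hu) q ∈ Lq q)
    [FiniteDimensional (ZMod p)
      ↥(helper2906.selmer S (ad0 p ρbar) (Submodule.pi Set.univ Lq))]
    {f r : ℕ} (hk : Nat.card (ResidueField 𝒪) = p ^ f)
    (hsel : Module.finrank (ZMod p)
      ↥(helper2906.selmer S (ad0 p ρbar) (Submodule.pi Set.univ Lq)) ≤ f * r) :
    helper2229.TanBound 𝒪 ρbar 𝒟 (Nat.card (ResidueField 𝒪) ^ r) :=
  tanBound_of_selmer p ρbar 𝒟 S (Submodule.pi Set.univ Lq) hequiv hdet hur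
    (fun c htr hu h𝒟 => (Submodule.mem_pi).2 fun q _ => hloc c htr hu h𝒟 q) hk hsel

/-- **(D3), strict-ordinary type.**  `T` is the ramification set of the frozen condition
(`Smin ∪ Q` as a `Finset ℕ`), `S` any `Finset Nat.Primes` containing its primes. -/
theorem tanBound_condSO_of_selmer (Smin T : Finset ℕ) (S : Finset Nat.Primes)
    (hST : ∀ q : Nat.Primes, q ∉ S → (q : ℕ) ∉ T)
    (L : Submodule (ZMod p) (∀ q : ↥S, helper15.LocH1 (ad0 p ρbar) q.1))
    (hloc : ∀ (c : LiftCocycle ρbar)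
      (htr : ∀ g, LinearMap.trace (ResidueField 𝒪) ρbar.V (c.c g) = 0)
      (hu : ∀ q : Nat.Primes, q ∉ S → (stdLift c).IsUnramifiedAt q),
      helper2229.condSO 𝒪 p Smin T (stdLift c) →
      helper15.resTotal S (ad0 p ρbar) (c.toClassS p htr S hu) ∈ L)
    [FiniteDimensional (ZMod p) ↥(helper2906.selmer S (ad0 p ρbar) L)]
    {f r : ℕ} (hk : Nat.card (ResidueField 𝒪) = p ^ f)
    (hsel : Module.finrank (ZMod p) ↥(helper2906.selmer S (ad0 p ρbar) L) ≤ f * r) :
    helper2229.TanBound 𝒪 ρbar (helper2229.condSO 𝒪 p Smin T)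
      (Nat.card (ResidueField 𝒪) ^ r) :=
  tanBound_of_selmer p ρbar (helper2229.condSO 𝒪 p Smin T) S L
    (fun _ _ hE h => Fermat.Agent.S56.helper7539.strictHalf_of_isEquiv hE h)
    (fun _ h => h.1.1)
    (fun _ h q hq => h.1.2.2 q q.2 (hST q hq))
    hloc hk hsel

/-- **(D3), flat type.** -/
theorem tanBound_condFL_of_selmer (Smin T : Finset ℕ) (S : Finset Nat.Primes)
    (hST : ∀ q : Nat.Primes, q ∉ S → (q : ℕ) ∉ T)
    (L : Submodule (ZMod p) (∀ q : ↥S, helper15.LocH1 (ad0 p ρbar) q.1))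
    (hloc : ∀ (c : LiftCocycle ρbar)
      (htr : ∀ g, LinearMap.trace (ResidueField 𝒪) ρbar.V (c.c g) = 0)
      (hu : ∀ q : Nat.Primes, q ∉ S → (stdLift c).IsUnramifiedAt q),
      helper2229.condFL 𝒪 p Smin T (stdLift c) →
      helper15.resTotal S (ad0 p ρbar) (c.toClassS p htr S hu) ∈ L)
    [FiniteDimensional (ZMod p) ↥(helper2906.selmer S (ad0 p ρbar) L)]
    {f r : ℕ} (hk : Nat.card (ResidueField 𝒪) = p ^ f)
    (hsel : Module.finrank (ZMod p) ↥(helper2906.selmer S (ad0 p ρbar) L) ≤ f * r) :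
    helper2229.TanBound 𝒪 ρbar (helper2229.condFL 𝒪 p Smin T)
      (Nat.card (ResidueField 𝒪) ^ r) :=
  tanBound_of_selmer p ρbar (helper2229.condFL 𝒪 p Smin T) S L
    (fun _ _ hE h => Fermat.Agent.S56.helper7539.flatHalf_of_isEquiv hE h)
    (fun _ h => h.1.1)
    (fun _ h q hq => h.1.2.2 q q.2 (hST q hq))
    hloc hk hsel

end Translation

/-! ### The `𝔽_p`-algebra structure of the residue field in the frozen setting -/

section FrozenAlgebra

theorem charP_residueField_of_mem (𝒪 : Type) [CommRing 𝒪] [IsLocalRing 𝒪] (p : ℕ)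
    [Fact p.Prime] (hp𝒪 : (p : 𝒪) ∈ maximalIdeal 𝒪) : CharP (ResidueField 𝒪) p := by
  refine (CharP.charP_iff_prime_eq_zero (Fact.out : p.Prime)).2 ?_
  have h := (residue_eq_zero_iff (p : 𝒪)).2 hp𝒪
  rwa [map_natCast] at h

/-- The `𝔽_p`-algebra structure on the residue field of `𝒪` given by the frozen hypothesis
`(p : 𝒪) ∈ maximalIdeal 𝒪` (`ZMod.algebra`).  Not an instance: use
`letI := zmodAlgebra 𝒪 p hp𝒪`. -/
@[reducible] def zmodAlgebra (𝒪 : Type) [CommRing 𝒪] [IsLocalRing 𝒪] (p : ℕ) [Fact p.Prime]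
    (hp𝒪 : (p : 𝒪) ∈ maximalIdeal 𝒪) : Algebra (ZMod p) (ResidueField 𝒪) :=
  haveI : CharP (ResidueField 𝒪) p := charP_residueField_of_mem 𝒪 p hp𝒪
  ZMod.algebra (ResidueField 𝒪) p

/-- `#k = p ^ [k : 𝔽_p]`. -/
theorem natCard_eq_pow_finrank (p : ℕ) [Fact p.Prime] (k : Type) [Field k] [Finite k]
    [Algebra (ZMod p) k] : Nat.card k = p ^ Module.finrank (ZMod p) k := by
  rw [Module.natCard_eq_pow_finrank (K := ZMod p) (V := k), Nat.card_zmod]

end FrozenAlgebra

/-! ### Index sets: `Finset ℕ` versus `Finset Nat.Primes` -/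

section Index

/-- The primes of a `Finset ℕ`, as a `Finset Nat.Primes`. -/
def primesOf (T : Finset ℕ) : Finset Nat.Primes :=
  (T.subtype Nat.Prime : Finset {q : ℕ // q.Prime})

theorem mem_primesOf (T : Finset ℕ) (q : Nat.Primes) : q ∈ primesOf T ↔ (q : ℕ) ∈ T :=
  Finset.mem_subtype

theorem not_mem_of_not_mem_primesOf (T : Finset ℕ) (q : Nat.Primes) (hq : q ∉ primesOf T) :
    (q : ℕ) ∉ T := fun h => hq ((mem_primesOf T q).2 h)

theorem primesOf_union (T T' : Finset ℕ) : primesOf (T ∪ T') = primesOf T ∪ primesOf T' := by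
  ext q
  simp only [mem_primesOf, Finset.mem_union]

/-- `primesOf` of the image of a family of primes. -/
theorem primesOf_image {r : ℕ} (qv : Fin r → ℕ) (hqv : ∀ i, (qv i).Prime) :
    primesOf (Finset.univ.image qv)
      = Finset.univ.image (fun i => (⟨qv i, hqv i⟩ : Nat.Primes)) := by
  apply Finset.ext
  intro q
  rw [mem_primesOf]
  constructor
  · intro h
    obtain ⟨i, -, hi⟩ := Finset.mem_image.1 h
    exact Finset.mem_image.2 ⟨i, Finset.mem_univ _, Subtype.ext hi⟩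
  · intro h
    obtain ⟨i, -, hi⟩ := Finset.mem_image.1 h
    exact Finset.mem_image.2 ⟨i, Finset.mem_univ _, congrArg Subtype.val hi⟩

end Index

end Fermat.Agent.S56.helper6599
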