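/-
S56 / LOC-TW, abstract core (helper6606).  Mathlib only.

The local `H¹` bound at an unramified prime `q ≠ p`:  for a group `G`, a finite-dimensional
representation `M` over a field `k`, a subgroup `I` acting trivially, an element `φ`, and cocycles
that are constant on the cosets of the subgroups `N` of a directed family, the three tame facts
(`TameAt`, stated in their weakest "cocycle" form) give
`dim (level classes in H¹) ≤ dim ker (φ - 1) + dim ker (φ - q)`.
-/
import Mathlib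

set_option autoImplicit false

namespace Fermat.Agent.S56.helper6606

open groupCohomology Module

universe u

section Linear

variable {k : Type u} [Field k]

/-- If `ker g ≤ ker f` then the range of `f` is no bigger than the target of `g`. -/
lemma rank_range_le_of_ker_le {V W W' : Type u} [AddCommGroup V] [Module k V]
    [AddCommGroup W] [Module k W] [AddCommGroup W'] [Module k W']
    (f : V →ₗ[k] W) (g : V →ₗ[k] W') (h : LinearMap.ker g ≤ LinearMap.ker f) :
    Module.rank k (LinearMap.range f) ≤ Module.rank k W' := by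
  have h1 : LinearMap.range ((LinearMap.ker g).liftQ f h) = LinearMap.range f :=
    Submodule.range_liftQ _ _ _
  rw [← h1]
  calc Module.rank k (LinearMap.range ((LinearMap.ker g).liftQ f h))
      ≤ Module.rank k (V ⧸ LinearMap.ker g) := rank_range_le _
    _ = Module.rank k (LinearMap.range g) := (LinearMap.quotKerEquivRange g).rank_eq
    _ ≤ Module.rank k W' := Submodule.rank_le _

/-- The linear-algebra core: a submodule `Z` whose elements are detected, modulo `ker π`, by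
`(a c mod R, b c) ∈ (E ⧸ R) × K`. -/
lemma rank_map_le_of_detect {V W E : Type u} [AddCommGroup V] [Module k V]
    [AddCommGroup W] [Module k W] [AddCommGroup E] [Module k E] [FiniteDimensional k E]
    (π : V →ₗ[k] W) (Z : Submodule k V) (a b : V →ₗ[k] E) (R K : Submodule k E)
    (hb : ∀ c ∈ Z, b c ∈ K) (h : ∀ c ∈ Z, a c ∈ R → b c = 0 → π c = 0) :
    Module.rank k (Z.map π) ≤ ((finrank k (E ⧸ R) + finrank k K : ℕ) : Cardinal.{u}) := by
  let Ψ : Z →ₗ[k] (E ⧸ R) × K :=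
    (R.mkQ.comp (a.comp Z.subtype)).prod ((b.comp Z.subtype).codRestrict K fun c => hb c.1 c.2)
  have hker : LinearMap.ker Ψ ≤ LinearMap.ker (π.comp Z.subtype) := by
    intro c hc
    rw [LinearMap.mem_ker] at hc ⊢
    have hc1 : R.mkQ (a c.1) = 0 := congrArg Prod.fst hc
    have hc2 : b c.1 = 0 := congrArg (fun x : (E ⧸ R) × K => (x.2 : E)) hc
    rw [Submodule.mkQ_apply, Submodule.Quotient.mk_eq_zero] at hc1
    exact h c.1 c.2 hc1 hc2
  have hrange : Z.map π = LinearMap.range (π.comp Z.subtype) := by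
    rw [LinearMap.range_comp, Submodule.range_subtype]
  rw [hrange]
  refine (rank_range_le_of_ker_le (π.comp Z.subtype) Ψ hker).trans ?_
  rw [rank_prod', ← finrank_eq_rank, ← finrank_eq_rank, ← Nat.cast_add]

/-- A submodule all of whose finite subsets lie in submodules of rank `≤ n` has rank `≤ n`. -/
lemma rank_le_of_finset_le {V : Type u} [AddCommGroup V] [Module k V] (W : Submodule k V) (n : ℕ)
    (h : ∀ s : Finset V, (↑s ⊆ (W : Set V)) →
      ∃ W' : Submodule k V, (↑s ⊆ (W' : Set V)) ∧ Module.rank k W' ≤ (n : Cardinal.{u})) :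
    Module.rank k W ≤ (n : Cardinal.{u}) := by
  classical
  apply rank_le
  intro s hli
  obtain ⟨W', hsW', hW'⟩ := h (s.image Subtype.val) (by
    intro x hx
    rw [Finset.coe_image] at hx
    obtain ⟨y, _, rfl⟩ := hx
    exact y.2)
  have hmem : ∀ i : s, (i.1 : V) ∈ W' := fun i =>
    hsW' (by rw [Finset.coe_image]; exact ⟨i.1, i.2, rfl⟩)
  have hli1 : LinearIndependent k (fun i : s => ((i : W) : V)) :=
    hli.map' W.subtype (Submodule.ker_subtype W)
  have hli2 : LinearIndependent k (fun i : s => (⟨(i.1 : V), hmem i⟩ : W')) :=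
    LinearIndependent.of_comp W'.subtype hli1
  have hcard := hli2.cardinal_le_rank
  rw [Cardinal.mk_coe_finset] at hcard
  exact_mod_cast hcard.trans hW'

end Linear

section Core

variable {k G : Type u} [Field k] [Group G] (M : Rep.{u, u, u} k G)

/-- The 1-cocycles that are constant on the left cosets `g N`. -/
def levelZ (N : Subgroup G) : Submodule k (cocycles₁ M) where
  carrier := {c | ∀ g : G, ∀ u ∈ N, c.1 (g * u) = c.1 g}
  add_mem' := by
    intro a b ha hb g u hu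
    simp only [Submodule.coe_add, Pi.add_apply, ha g u hu, hb g u hu]
  zero_mem' := fun _ _ _ => rfl
  smul_mem' := by
    intro r a ha g u hu
    simp only [Submodule.coe_smul, Pi.smul_apply, ha g u hu]

lemma mem_levelZ {N : Subgroup G} {c : cocycles₁ M} :
    c ∈ levelZ M N ↔ ∀ g : G, ∀ u ∈ N, c.1 (g * u) = c.1 g := Iff.rfl

lemma levelZ_anti {N N' : Subgroup G} (h : N' ≤ N) : levelZ M N ≤ levelZ M N' :=
  fun _ hc g u hu => hc g u (h hu)

/-- The coboundary of `m`, as a cocycle. -/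
def dZ (m : M) : cocycles₁ M := ⟨(d₀₁ M).hom m, d₀₁_apply_mem_cocycles₁ m⟩

lemma dZ_apply (m : M) (g : G) : (dZ M m).1 g = M.ρ g m - m := d₀₁_hom_apply M m g

lemma dZ_mem_levelZ {N : Subgroup G} (hN : ∀ u ∈ N, M.ρ u = 1) (m : M) :
    dZ M m ∈ levelZ M N := by
  intro g u hu
  rw [dZ_apply, dZ_apply, map_mul, hN u hu, mul_one]

lemma H1π_dZ (m : M) : (H1π M).hom (dZ M m) = 0 :=
  (H1π_eq_zero_iff _).2 ⟨m, rfl⟩

lemma coc_mul (c : cocycles₁ M) (g h : G) : c.1 (g * h) = M.ρ g (c.1 h) + c.1 g :=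
  (mem_cocycles₁_iff c.1).1 c.2 g h

lemma coc_one (c : cocycles₁ M) : c.1 1 = 0 := cocycles₁_map_one c

/-- The three tame facts at the level `N`, in cocycle form. -/
structure TameAt (I : Subgroup G) (φ : G) (q : ℕ) (N : Subgroup G) : Prop where
  gen : ∃ s ∈ I, ∀ σ ∈ I, ∃ n : ℕ, ∀ c ∈ levelZ M N, c.1 σ = n • c.1 s
  frob : ∀ σ ∈ I, ∀ c ∈ levelZ M N, c.1 (φ * σ * φ⁻¹) = q • c.1 σ
  dec : ∀ τ : G, ∃ n : ℕ, ∃ σ ∈ I, ∀ c ∈ levelZ M N, c.1 τ = c.1 (φ ^ n * σ)

variable {M}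

lemma coc_pow_eq_zero (c : cocycles₁ M) {φ : G} (h : c.1 φ = 0) (n : ℕ) : c.1 (φ ^ n) = 0 := by
  induction n with
  | zero => rw [pow_zero]; exact coc_one M c
  | succ n ih => rw [pow_succ, coc_mul, h, map_zero, ih, add_zero]

/-- Conjugation formula on a subgroup acting trivially. -/
lemma coc_conj (c : cocycles₁ M) {I : Subgroup G} (hI : ∀ σ ∈ I, M.ρ σ = 1) (φ : G) {σ : G}
    (hσ : σ ∈ I) : c.1 (φ * σ * φ⁻¹) = M.ρ φ (c.1 σ) := by
  have h1 : c.1 (φ * φ⁻¹) = 0 := by rw [mul_inv_cancel]; exact coc_one M c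
  rw [coc_mul] at h1
  rw [mul_assoc, coc_mul, coc_mul, hI σ hσ, map_add]
  simp only [Module.End.one_apply]
  rw [add_right_comm, h1, zero_add]

/-- With the tame facts, the invariants are the fixed points of `φ`. -/
lemma invariants_eq_ker {I : Subgroup G} (hI : ∀ σ ∈ I, M.ρ σ = 1) {φ : G} {q : ℕ}
    {N : Subgroup G} (hN : ∀ u ∈ N, M.ρ u = 1) (T : TameAt M I φ q N) :
    Representation.invariants M.ρ = LinearMap.ker (M.ρ φ - 1) := by
  ext m
  constructor
  · intro hm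
    rw [LinearMap.mem_ker, LinearMap.sub_apply, Module.End.one_apply, sub_eq_zero]
    exact hm φ
  · intro hm τ
    rw [LinearMap.mem_ker, LinearMap.sub_apply, Module.End.one_apply, sub_eq_zero] at hm
    have h3 : ∀ n : ℕ, M.ρ (φ ^ n) m = m := by
      intro n
      rw [map_pow]
      induction n with
      | zero => simp
      | succ n ih => rw [pow_succ, Module.End.mul_apply, hm, ih]
    obtain ⟨n, σ, hσ, h⟩ := T.dec τ
    have h2 := h (dZ M m) (dZ_mem_levelZ M hN m)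
    rw [dZ_apply, dZ_apply, map_mul, hI σ hσ, mul_one, h3, sub_self, sub_eq_zero] at h2
    exact h2

/-- On a subgroup acting trivially a cocycle is additive. -/
lemma coc_mul_of_mem (c : cocycles₁ M) {I : Subgroup G} (hI : ∀ σ ∈ I, M.ρ σ = 1) {a : G}
    (ha : a ∈ I) (b : G) : c.1 (a * b) = c.1 a + c.1 b := by
  rw [coc_mul, hI a ha, Module.End.one_apply, add_comm]

lemma coc_pow_of_mem (c : cocycles₁ M) {I : Subgroup G} (hI : ∀ σ ∈ I, M.ρ σ = 1) {a : G}
    (ha : a ∈ I) (n : ℕ) : c.1 (a ^ n) = n • c.1 a := by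
  induction n with
  | zero => rw [pow_zero, zero_smul]; exact coc_one M c
  | succ n ih => rw [pow_succ, coc_mul_of_mem c hI (I.pow_mem ha n), ih, succ_nsmul]

lemma coc_eq_of_mem_levelZ {N : Subgroup G} {c : cocycles₁ M} (hc : c ∈ levelZ M N) {a b : G}
    (h : a⁻¹ * b ∈ N) : c.1 b = c.1 a := by
  have := hc a _ h
  rwa [mul_inv_cancel_left] at this

/-- The three tame facts at the level `N`, in element form: inertia modulo `N` is generated by
one element up to a part of `q`-power order, Frobenius conjugation is the `q`-th power up to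
such a part, and every element is a power of Frobenius times an inertia element. -/
structure TameElt (I : Subgroup G) (φ : G) (q : ℕ) (N : Subgroup G) : Prop where
  gen : ∃ s ∈ I, ∀ σ ∈ I, ∃ (n : ℕ) (w : G) (m : ℕ),
    w ∈ I ∧ (s ^ n * w)⁻¹ * σ ∈ N ∧ w ^ (q ^ m) ∈ N
  frob : ∀ σ ∈ I, ∃ (w : G) (m : ℕ),
    w ∈ I ∧ (σ ^ q * w)⁻¹ * (φ * σ * φ⁻¹) ∈ N ∧ w ^ (q ^ m) ∈ N
  dec : ∀ τ : G, ∃ (n : ℕ) (σ : G), σ ∈ I ∧ (φ ^ n * σ)⁻¹ * τ ∈ N

/-- A cocycle of level `N` kills the elements of `I` of `q`-power order modulo `N`, when `q` is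
invertible in `k`. -/
lemma coc_eq_zero_of_pow_mem {I : Subgroup G} (hI : ∀ σ ∈ I, M.ρ σ = 1) {q : ℕ}
    (hq : (q : k) ≠ 0) {N : Subgroup G} {c : cocycles₁ M} (hc : c ∈ levelZ M N) {w : G}
    (hw : w ∈ I) {m : ℕ} (hwm : w ^ (q ^ m) ∈ N) : c.1 w = 0 := by
  have h1 : c.1 (w ^ (q ^ m)) = 0 := by
    have := hc 1 _ hwm
    rw [one_mul] at this
    rw [this]; exact coc_one M c
  rw [coc_pow_of_mem c hI hw, ← Nat.cast_smul_eq_nsmul k, Nat.cast_pow] at h1
  exact (smul_eq_zero.1 h1).resolve_left (pow_ne_zero m hq)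

/-- The element form of the tame facts implies the cocycle form. -/
theorem TameElt.tameAt {I : Subgroup G} (hI : ∀ σ ∈ I, M.ρ σ = 1) {φ : G} {q : ℕ}
    (hq : (q : k) ≠ 0) {N : Subgroup G} (T : TameElt I φ q N) : TameAt M I φ q N := by
  obtain ⟨s, hs, hgen⟩ := T.gen
  refine ⟨⟨s, hs, fun σ hσ => ?_⟩, fun σ hσ c hc => ?_, fun τ => ?_⟩
  · obtain ⟨n, w, m, hw, h1, h2⟩ := hgen σ hσ
    refine ⟨n, fun c hc => ?_⟩
    rw [coc_eq_of_mem_levelZ hc h1, coc_mul_of_mem c hI (I.pow_mem hs n),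
      coc_pow_of_mem c hI hs, coc_eq_zero_of_pow_mem hI hq hc hw h2, add_zero]
  · obtain ⟨w, m, hw, h1, h2⟩ := T.frob σ hσ
    rw [coc_eq_of_mem_levelZ hc h1, coc_mul_of_mem c hI (I.pow_mem hσ q),
      coc_pow_of_mem c hI hσ, coc_eq_zero_of_pow_mem hI hq hc hw h2, add_zero]
  · obtain ⟨n, σ, hσ, h1⟩ := T.dec τ
    exact ⟨n, σ, hσ, fun c hc => coc_eq_of_mem_levelZ hc h1⟩

variable (M)

/-- The bound at a single level. -/
theorem rank_levelZ_le [FiniteDimensional k M] {I : Subgroup G} (hI : ∀ σ ∈ I, M.ρ σ = 1)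
    {φ : G} {q : ℕ} {N : Subgroup G} (hN : ∀ u ∈ N, M.ρ u = 1) (T : TameAt M I φ q N) :
    Module.rank k ((levelZ M N).map (H1π M).hom) ≤
      ((finrank k (LinearMap.ker (M.ρ φ - 1)) +
        finrank k (LinearMap.ker (M.ρ φ - (q : k) • (1 : Module.End k M))) : ℕ) : Cardinal.{u}) := by
  classical
  obtain ⟨s, hs, hgen⟩ := T.gen
  have key := rank_map_le_of_detect (k := k) (V := cocycles₁ M) (W := H1 M) (E := M)
    (H1π M).hom (levelZ M N)
    ((LinearMap.proj φ : (G → M) →ₗ[k] M).comp (cocycles₁ M).subtype)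
    ((LinearMap.proj s : (G → M) →ₗ[k] M).comp (cocycles₁ M).subtype)
    (LinearMap.range (M.ρ φ - 1)) (LinearMap.ker (M.ρ φ - (q : k) • (1 : Module.End k M)))
    (by
      intro c hc
      show c.1 s ∈ _
      rw [LinearMap.mem_ker, LinearMap.sub_apply, LinearMap.smul_apply,
        Module.End.one_apply, sub_eq_zero, ← coc_conj c hI φ hs, T.frob s hs c hc,
        Nat.cast_smul_eq_nsmul])
    (by
      intro c hc hc1 hc2
      obtain ⟨m, hm⟩ := hc1
      rw [LinearMap.sub_apply, Module.End.one_apply] at hm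
      have hm' : M.ρ φ m - m = c.1 φ := hm
      have hc2' : c.1 s = 0 := hc2
      -- `c' = c - d m` vanishes at `φ` and at `s`, hence everywhere
      have hc'mem : c - dZ M m ∈ levelZ M N := (levelZ M N).sub_mem hc (dZ_mem_levelZ M hN m)
      have hc'φ : (c - dZ M m).1 φ = 0 := by
        simp only [Submodule.coe_sub, Pi.sub_apply, dZ_apply]
        rw [hm']; exact sub_self _
      have hc's : (c - dZ M m).1 s = 0 := by
        simp only [Submodule.coe_sub, Pi.sub_apply, dZ_apply]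
        rw [hc2', hI s hs]; simp
      have hzero : c - dZ M m = 0 := by
        apply Subtype.ext
        funext τ
        obtain ⟨n, σ, hσ, h⟩ := T.dec τ
        obtain ⟨n', h'⟩ := hgen σ hσ
        rw [h _ hc'mem, coc_mul, h' _ hc'mem, hc's, smul_zero, map_zero, zero_add,
          coc_pow_eq_zero _ hc'φ]
        rfl
      have hcd : c = dZ M m := sub_eq_zero.1 hzero
      rw [hcd]; exact H1π_dZ M m)
  refine key.trans ?_
  rw [Nat.cast_le]
  have h1 := LinearMap.finrank_range_add_finrank_ker (M.ρ φ - 1)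
  have h2 := Submodule.finrank_quotient_add_finrank (LinearMap.range (M.ρ φ - 1))
  omega

/-- The bound for a directed family of levels. -/
theorem rank_map_le_of_levels [FiniteDimensional k M] {I : Subgroup G} (hI : ∀ σ ∈ I, M.ρ σ = 1)
    {φ : G} {q : ℕ} (Z : Submodule k (cocycles₁ M)) (𝒩 : Set (Subgroup G))
    (hne : 𝒩.Nonempty)
    (hZ : ∀ c ∈ Z, ∃ N ∈ 𝒩, c ∈ levelZ M N)
    (hdir : ∀ N₁ ∈ 𝒩, ∀ N₂ ∈ 𝒩, ∃ N ∈ 𝒩, N ≤ N₁ ∧ N ≤ N₂)
    (hgood : ∀ N ∈ 𝒩, ∃ N' ∈ 𝒩, N' ≤ N ∧ (∀ u ∈ N', M.ρ u = 1) ∧ TameAt M I φ q N') :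
    Module.rank k (Z.map (H1π M).hom) ≤
      ((finrank k (LinearMap.ker (M.ρ φ - 1)) +
        finrank k (LinearMap.ker (M.ρ φ - (q : k) • (1 : Module.End k M))) : ℕ) : Cardinal.{u}) := by
  classical
  apply rank_le_of_finset_le
  intro s hs
  have hcommon : ∀ t : Finset (H1 M), (↑t ⊆ ((Z.map (H1π M).hom : Submodule k (H1 M)) : Set (H1 M))) →
      ∃ N ∈ 𝒩, (↑t ⊆ (((levelZ M N).map (H1π M).hom : Submodule k (H1 M)) : Set (H1 M))) := by
    intro t
    induction t using Finset.induction_on with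
    | empty =>
      intro _
      obtain ⟨N, hN⟩ := hne
      exact ⟨N, hN, by simp⟩
    | insert x t _ ih =>
      intro ht
      rw [Finset.coe_insert, Set.insert_subset_iff] at ht
      obtain ⟨N₁, hN₁, h₁⟩ := ih ht.2
      obtain ⟨c, hc, hcx⟩ := ht.1
      obtain ⟨N₂, hN₂, h₂⟩ := hZ c hc
      obtain ⟨N, hN, hle₁, hle₂⟩ := hdir N₁ hN₁ N₂ hN₂
      refine ⟨N, hN, ?_⟩
      rw [Finset.coe_insert, Set.insert_subset_iff]
      refine ⟨⟨c, levelZ_anti M hle₂ h₂, hcx⟩, fun y hy => ?_⟩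
      exact Submodule.map_mono (levelZ_anti M hle₁) (h₁ hy)
  obtain ⟨N, hN, hsN⟩ := hcommon s hs
  obtain ⟨N', _, hle, hN'triv, T⟩ := hgood N hN
  exact ⟨(levelZ M N').map (H1π M).hom,
    fun y hy => Submodule.map_mono (levelZ_anti M hle) (hsN hy), rank_levelZ_le M hI hN'triv T⟩

/-- Finite-dimensionality and the `finrank` bound for a directed family of levels. -/
theorem finrank_map_le_of_levels [FiniteDimensional k M] {I : Subgroup G}
    (hI : ∀ σ ∈ I, M.ρ σ = 1)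
    {φ : G} {q : ℕ} (Z : Submodule k (cocycles₁ M)) (𝒩 : Set (Subgroup G))
    (hne : 𝒩.Nonempty)
    (hZ : ∀ c ∈ Z, ∃ N ∈ 𝒩, c ∈ levelZ M N)
    (hdir : ∀ N₁ ∈ 𝒩, ∀ N₂ ∈ 𝒩, ∃ N ∈ 𝒩, N ≤ N₁ ∧ N ≤ N₂)
    (hgood : ∀ N ∈ 𝒩, ∃ N' ∈ 𝒩, N' ≤ N ∧ (∀ u ∈ N', M.ρ u = 1) ∧ TameAt M I φ q N') :
    finrank k (Z.map (H1π M).hom) ≤
      finrank k (LinearMap.ker (M.ρ φ - 1)) +
        finrank k (LinearMap.ker (M.ρ φ - (q : k) • (1 : Module.End k M))) :=
  Module.finrank_le_of_rank_le (rank_map_le_of_levels M hI Z 𝒩 hne hZ hdir hgood)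

/-- The Taylor–Wiles shape: if `q = 1` in `k`, the level classes have dimension at most twice
that of the invariants. -/
theorem finrank_map_le_two_mul [FiniteDimensional k M] {I : Subgroup G}
    (hI : ∀ σ ∈ I, M.ρ σ = 1)
    {φ : G} {q : ℕ} (hq : (q : k) = 1) (Z : Submodule k (cocycles₁ M)) (𝒩 : Set (Subgroup G))
    (hne : 𝒩.Nonempty)
    (hZ : ∀ c ∈ Z, ∃ N ∈ 𝒩, c ∈ levelZ M N)
    (hdir : ∀ N₁ ∈ 𝒩, ∀ N₂ ∈ 𝒩, ∃ N ∈ 𝒩, N ≤ N₁ ∧ N ≤ N₂)
    (hgood : ∀ N ∈ 𝒩, ∃ N' ∈ 𝒩, N' ≤ N ∧ (∀ u ∈ N', M.ρ u = 1) ∧ TameAt M I φ q N') :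
    finrank k (Z.map (H1π M).hom) ≤ 2 * finrank k (Representation.invariants M.ρ) := by
  have h := finrank_map_le_of_levels M hI Z 𝒩 hne hZ hdir hgood
  obtain ⟨N₀, hN₀⟩ := hne
  obtain ⟨N', _, _, hN'triv, T⟩ := hgood N₀ hN₀
  rw [hq, one_smul, ← invariants_eq_ker hI hN'triv T] at h
  omega

end Core

end Fermat.Agent.S56.helper6606
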