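/-
S56 / LOC-TW (helper6606): the local `H¹` bound at the Taylor–Wiles primes on the frozen carrier
`continuousH1 (primeLocalToGlobal q) (Rep.res (primeLocalToGlobal q) M)` (= S55 `LocH1 M q`).

For `q ≠ p`, `M` a finite-dimensional smooth `𝔽_p`-representation of `Gal(ℚ̄/ℚ)` unramified at
`q`, and a Frobenius `φ` at the frozen place over `q`:
  `finrank H¹(ℚ_q, M) ≤ finrank H⁰(ℚ_q, M) + finrank ker (φ - q)`,
and `≤ 2 * finrank H⁰(ℚ_q, M)` when `p ∣ q - 1`.

The arithmetic input is the tame inertia brick `TameBrick` (element form).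
-/
import Mathlib
import Fermat.Prelude.Def_GroupCohomology_ContinuousUnramified
import Fermat.Prelude.Def_EllipticCurve_FrobeniusTrace
import Fermat.Agent.S55.helper1930_LocalRange
import Fermat.Agent.S55.helper4727_Places
import Fermat.Agent.Lib.helper54_Frobenius
import Fermat.Agent.S56.helper6606_TWLocalCore

set_option autoImplicit false

namespace Fermat.Agent.S56.helper6606

open groupCohomology ExtCitation Module

/-- The tame inertia brick at the place `A` over `q`, in element form, at every finite level `E`: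
inertia is generated by one element up to a part of `q`-power order, Frobenius conjugation is
the `q`-th power up to such a part, and the decomposition group is `⟨Frob⟩ · I`. -/
def TameBrick (q : ℕ) (A : ValuationSubring (AlgebraicClosure ℚ)) : Prop :=
  ∀ E : IntermediateField ℚ (AlgebraicClosure ℚ), FiniteDimensional ℚ E →
    (∃ s ∈ A.inertiaSubgroupIn ℚ, ∀ σ ∈ A.inertiaSubgroupIn ℚ,
      ∃ (n : ℕ) (w : AlgebraicClosure ℚ ≃ₐ[ℚ] AlgebraicClosure ℚ) (m : ℕ),
        w ∈ A.inertiaSubgroupIn ℚ ∧ (∀ x ∈ E, σ x = (s ^ n * w) x) ∧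
          ∀ x ∈ E, (w ^ (q ^ m)) x = x) ∧
    (∀ φ : AlgebraicClosure ℚ ≃ₐ[ℚ] AlgebraicClosure ℚ, A.IsFrobeniusAt φ q →
      ∀ σ ∈ A.inertiaSubgroupIn ℚ,
        ∃ (w : AlgebraicClosure ℚ ≃ₐ[ℚ] AlgebraicClosure ℚ) (m : ℕ),
          w ∈ A.inertiaSubgroupIn ℚ ∧ (∀ x ∈ E, (φ * σ * φ⁻¹) x = (σ ^ q * w) x) ∧
            ∀ x ∈ E, (w ^ (q ^ m)) x = x) ∧
    (∀ φ : AlgebraicClosure ℚ ≃ₐ[ℚ] AlgebraicClosure ℚ, A.IsFrobeniusAt φ q →
      ∀ τ ∈ A.decompositionSubgroup ℚ,
        ∃ (n : ℕ) (σ : AlgebraicClosure ℚ ≃ₐ[ℚ] AlgebraicClosure ℚ),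
          σ ∈ A.inertiaSubgroupIn ℚ ∧ ∀ x ∈ E, τ x = (φ ^ n * σ) x)

section Glue

variable (q : Nat.Primes)

lemma range_primeLocalToGlobal :
    (primeLocalToGlobal q).range = (primeLocalPlace q).decompositionSubgroup ℚ := by
  have : Fact (q : ℕ).Prime := ⟨q.2⟩
  exact Fermat.Agent.S55.helper1930.range_localGaloisToGlobal (q : ℕ)

lemma primeLocalPlace_liesOverPrime : (primeLocalPlace q).LiesOverPrime (q : ℕ) := by
  have : Fact (q : ℕ).Prime := ⟨q.2⟩
  exact Fermat.Agent.S55.helper4727.padicPlace_liesOverPrime (q : ℕ)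

lemma mem_decomposition_of_mem_inertia {A : ValuationSubring (AlgebraicClosure ℚ)}
    {σ : AlgebraicClosure ℚ ≃ₐ[ℚ] AlgebraicClosure ℚ} (h : σ ∈ A.inertiaSubgroupIn ℚ) :
    σ ∈ A.decompositionSubgroup ℚ := by
  obtain ⟨x, _, rfl⟩ := h
  exact x.2

lemma exists_local_of_mem_decomposition {σ : AlgebraicClosure ℚ ≃ₐ[ℚ] AlgebraicClosure ℚ}
    (h : σ ∈ (primeLocalPlace q).decompositionSubgroup ℚ) :
    ∃ g : primeLocalGaloisGroup q, primeLocalToGlobal q g = σ := by
  rw [← range_primeLocalToGlobal] at h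
  exact h

/-- The level subgroup of the local Galois group cut out by a number field. -/
noncomputable def levelSub (F : IntermediateField ℚ (AlgebraicClosure ℚ)) :
    Subgroup (primeLocalGaloisGroup q) :=
  F.fixingSubgroup.comap (primeLocalToGlobal q)

lemma mem_levelSub {F : IntermediateField ℚ (AlgebraicClosure ℚ)} {g : primeLocalGaloisGroup q} :
    g ∈ levelSub q F ↔ ∀ x ∈ F, primeLocalToGlobal q g x = x := by
  rw [levelSub, Subgroup.mem_comap, IntermediateField.mem_fixingSubgroup_iff]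

/-- The local inertia group: the preimage of the inertia group of the frozen place. -/
noncomputable def inertiaLoc : Subgroup (primeLocalGaloisGroup q) :=
  ((primeLocalPlace q).inertiaSubgroupIn ℚ).comap (primeLocalToGlobal q)

/-- The brick, transported to the local Galois group. -/
theorem tameElt_of_brick (hT : TameBrick (q : ℕ) (primeLocalPlace q))
    {φ : primeLocalGaloisGroup q}
    (hφ : (primeLocalPlace q).IsFrobeniusAt (primeLocalToGlobal q φ) (q : ℕ))
    (F : IntermediateField ℚ (AlgebraicClosure ℚ)) [FiniteDimensional ℚ F] :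
    TameElt (inertiaLoc q) φ (q : ℕ) (levelSub q F) := by
  obtain ⟨⟨s, hs, hgen⟩, hfrob, hdec⟩ := hT F inferInstance
  obtain ⟨s₀, rfl⟩ := exists_local_of_mem_decomposition q (mem_decomposition_of_mem_inertia hs)
  refine ⟨⟨s₀, hs, fun σ hσ => ?_⟩, fun σ hσ => ?_, fun τ => ?_⟩
  · obtain ⟨n, w, m, hw, h1, h2⟩ := hgen _ hσ
    obtain ⟨w₀, rfl⟩ := exists_local_of_mem_decomposition q (mem_decomposition_of_mem_inertia hw)
    refine ⟨n, w₀, m, hw, ?_, ?_⟩
    · rw [mem_levelSub]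
      intro x hx
      rw [map_mul, map_inv, map_mul, map_pow, AlgEquiv.mul_apply, h1 x hx]
      exact AlgEquiv.symm_apply_apply _ x
    · rw [mem_levelSub]
      intro x hx
      rw [map_pow]
      exact h2 x hx
  · obtain ⟨w, m, hw, h1, h2⟩ := hfrob _ hφ _ hσ
    obtain ⟨w₀, rfl⟩ := exists_local_of_mem_decomposition q (mem_decomposition_of_mem_inertia hw)
    refine ⟨w₀, m, hw, ?_, ?_⟩
    · rw [mem_levelSub]
      intro x hx
      rw [map_mul, map_inv, map_mul, map_pow, AlgEquiv.mul_apply]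
      have h1' := h1 x hx
      rw [← map_inv, ← map_mul, ← map_mul] at h1'
      rw [h1']
      exact AlgEquiv.symm_apply_apply _ x
    · rw [mem_levelSub]
      intro x hx
      rw [map_pow]
      exact h2 x hx
  · have hτ : primeLocalToGlobal q τ ∈ (primeLocalPlace q).decompositionSubgroup ℚ := by
      rw [← range_primeLocalToGlobal]
      exact ⟨τ, rfl⟩
    obtain ⟨n, σ, hσ, h1⟩ := hdec _ hφ _ hτ
    obtain ⟨σ₀, rfl⟩ := exists_local_of_mem_decomposition q (mem_decomposition_of_mem_inertia hσ)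
    refine ⟨n, σ₀, hσ, ?_⟩
    rw [mem_levelSub]
    intro x hx
    rw [map_mul, map_inv, map_mul, map_pow, AlgEquiv.mul_apply, h1 x hx]
    exact AlgEquiv.symm_apply_apply _ x

end Glue

section Main

variable {p : ℕ} [Fact p.Prime]

/-- A finite-dimensional smooth representation is trivialised by a number field. -/
lemma exists_trivialising
    (M : Rep.{0, 0, 0} (ZMod p) (AlgebraicClosure ℚ ≃ₐ[ℚ] AlgebraicClosure ℚ))
    [FiniteDimensional (ZMod p) M]
    (hsm : ∀ m : M, ∃ F : IntermediateField ℚ (AlgebraicClosure ℚ), FiniteDimensional ℚ F ∧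
      ∀ s ∈ F.fixingSubgroup, M.ρ s m = m) :
    ∃ F : IntermediateField ℚ (AlgebraicClosure ℚ), FiniteDimensional ℚ F ∧
      ∀ s ∈ F.fixingSubgroup, M.ρ s = 1 := by
  classical
  choose F hF hfix using hsm
  let b := Module.finBasis (ZMod p) M
  have : ∀ i, FiniteDimensional ℚ (F (b i)) := fun i => hF (b i)
  refine ⟨⨆ i, F (b i), inferInstance, fun s hs => ?_⟩
  apply b.ext
  intro i
  rw [Module.End.one_apply]
  exact hfix (b i) s (IntermediateField.fixingSubgroup_antitone (le_iSup (fun i => F (b i)) i) hs)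

lemma natCast_ne_zero_of_ne (q : Nat.Primes) (hqp : (q : ℕ) ≠ p) : (((q : ℕ) : ℕ) : ZMod p) ≠ 0 := by
  rw [Ne, ZMod.natCast_eq_zero_iff]
  intro hdvd
  exact hqp ((Nat.prime_dvd_prime_iff_eq (Fact.out : p.Prime) q.2).1 hdvd).symm

section Levels

variable (q : Nat.Primes)
  (M : Rep.{0, 0, 0} (ZMod p) (AlgebraicClosure ℚ ≃ₐ[ℚ] AlgebraicClosure ℚ))

/-- The directed family of levels of the local Galois group. -/
def levelFamily : Set (Subgroup (primeLocalGaloisGroup q)) :=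
  {N | ∃ F : IntermediateField ℚ (AlgebraicClosure ℚ), FiniteDimensional ℚ F ∧ N = levelSub q F}

lemma levelFamily_nonempty : (levelFamily q).Nonempty :=
  ⟨levelSub q ⊥, ⊥, inferInstance, rfl⟩

lemma levelFamily_directed : ∀ N₁ ∈ levelFamily q, ∀ N₂ ∈ levelFamily q,
    ∃ N ∈ levelFamily q, N ≤ N₁ ∧ N ≤ N₂ := by
  rintro _ ⟨F₁, hF₁, rfl⟩ _ ⟨F₂, hF₂, rfl⟩
  have := hF₁; have := hF₂
  exact ⟨levelSub q (F₁ ⊔ F₂), ⟨F₁ ⊔ F₂, inferInstance, rfl⟩,
    Subgroup.comap_mono (IntermediateField.fixingSubgroup_antitone le_sup_left),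
    Subgroup.comap_mono (IntermediateField.fixingSubgroup_antitone le_sup_right)⟩

lemma levelCocycles_le_levelFamily :
    ∀ c ∈ levelCocycles₁ (primeLocalToGlobal q) (Rep.res (primeLocalToGlobal q) M),
      ∃ N ∈ levelFamily q, c ∈ levelZ (Rep.res (primeLocalToGlobal q) M) N := by
  intro c hc
  obtain ⟨F, hF, h⟩ := (mem_levelCocycles₁_iff _ _ c).1 hc
  exact ⟨levelSub q F, ⟨F, hF, rfl⟩, fun g u hu => h g u hu⟩

lemma inertiaLoc_trivial
    (hur : ∀ A : ValuationSubring (AlgebraicClosure ℚ), A.LiesOverPrime (q : ℕ) →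
      ∀ g ∈ A.inertiaSubgroupIn ℚ, M.ρ g = 1) :
    ∀ σ ∈ inertiaLoc q, (Rep.res (primeLocalToGlobal q) M).ρ σ = 1 := fun _ hσ =>
  hur (primeLocalPlace q) (primeLocalPlace_liesOverPrime q) _ hσ

/-- Every level is refined by a level acting trivially at which the tame facts hold. -/
lemma levelFamily_good (hqp : (q : ℕ) ≠ p) (hT : TameBrick (q : ℕ) (primeLocalPlace q))
    [FiniteDimensional (ZMod p) M]
    (hsm : ∀ m : M, ∃ F : IntermediateField ℚ (AlgebraicClosure ℚ), FiniteDimensional ℚ F ∧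
      ∀ s ∈ F.fixingSubgroup, M.ρ s m = m)
    (hur : ∀ A : ValuationSubring (AlgebraicClosure ℚ), A.LiesOverPrime (q : ℕ) →
      ∀ g ∈ A.inertiaSubgroupIn ℚ, M.ρ g = 1)
    {φ : primeLocalGaloisGroup q}
    (hφ : (primeLocalPlace q).IsFrobeniusAt (primeLocalToGlobal q φ) (q : ℕ)) :
    ∀ N ∈ levelFamily q, ∃ N' ∈ levelFamily q, N' ≤ N ∧
      (∀ u ∈ N', (Rep.res (primeLocalToGlobal q) M).ρ u = 1) ∧
      TameAt (Rep.res (primeLocalToGlobal q) M) (inertiaLoc q) φ (q : ℕ) N' := by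
  obtain ⟨F₀, hF₀, hF₀triv⟩ := exists_trivialising M hsm
  rintro _ ⟨F, hF, rfl⟩
  have := hF; have := hF₀
  refine ⟨levelSub q (F ⊔ F₀), ⟨F ⊔ F₀, inferInstance, rfl⟩,
    Subgroup.comap_mono (IntermediateField.fixingSubgroup_antitone le_sup_left), ?_, ?_⟩
  · intro u hu
    exact hF₀triv _ (IntermediateField.fixingSubgroup_antitone le_sup_right hu)
  · exact (tameElt_of_brick q hT hφ (F ⊔ F₀)).tameAt (inertiaLoc_trivial q M hur)
      (natCast_ne_zero_of_ne q hqp)

end Levels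

/-- **Local `H¹` bound at an unramified prime `q ≠ p`** on the frozen carrier: for a Frobenius
`φ`, `dim H¹(ℚ_q, M) ≤ dim ker (φ - 1) + dim ker (φ - q)`. -/
theorem finrank_locH1_le_of_brick (q : Nat.Primes) (hqp : (q : ℕ) ≠ p)
    (hT : TameBrick (q : ℕ) (primeLocalPlace q))
    (M : Rep.{0, 0, 0} (ZMod p) (AlgebraicClosure ℚ ≃ₐ[ℚ] AlgebraicClosure ℚ))
    [FiniteDimensional (ZMod p) M]
    (hsm : ∀ m : M, ∃ F : IntermediateField ℚ (AlgebraicClosure ℚ), FiniteDimensional ℚ F ∧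
      ∀ s ∈ F.fixingSubgroup, M.ρ s m = m)
    (hur : ∀ A : ValuationSubring (AlgebraicClosure ℚ), A.LiesOverPrime (q : ℕ) →
      ∀ g ∈ A.inertiaSubgroupIn ℚ, M.ρ g = 1)
    (φ : primeLocalGaloisGroup q)
    (hφ : (primeLocalPlace q).IsFrobeniusAt (primeLocalToGlobal q φ) (q : ℕ)) :
    finrank (ZMod p) (continuousH1 (primeLocalToGlobal q) (Rep.res (primeLocalToGlobal q) M)) ≤
      finrank (ZMod p) (LinearMap.ker (M.ρ (primeLocalToGlobal q φ) - 1)) +
        finrank (ZMod p) (LinearMap.ker (M.ρ (primeLocalToGlobal q φ) -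
          ((q : ℕ) : ZMod p) • (1 : Module.End (ZMod p) M))) := by
  have : FiniteDimensional (ZMod p) (Rep.res (primeLocalToGlobal q) M) :=
    inferInstanceAs (FiniteDimensional (ZMod p) M)
  exact finrank_map_le_of_levels (Rep.res (primeLocalToGlobal q) M) (inertiaLoc_trivial q M hur)
    (φ := φ) (q := (q : ℕ))
    (levelCocycles₁ (primeLocalToGlobal q) (Rep.res (primeLocalToGlobal q) M))
    (levelFamily q) (levelFamily_nonempty q) (levelCocycles_le_levelFamily q M)
    (levelFamily_directed q) (levelFamily_good q M hqp hT hsm hur hφ)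

/-- **The Taylor–Wiles local bound** on the frozen carrier: for `q ≡ 1 mod p`, `q ≠ p`, and `M`
unramified at `q`, `dim H¹(ℚ_q, M) ≤ 2 * dim H⁰(ℚ_q, M)`. -/
theorem finrank_locH1_le_two_mul_of_brick (q : Nat.Primes) (hqp : (q : ℕ) ≠ p)
    (hq1 : p ∣ (q : ℕ) - 1) (hT : TameBrick (q : ℕ) (primeLocalPlace q))
    (M : Rep.{0, 0, 0} (ZMod p) (AlgebraicClosure ℚ ≃ₐ[ℚ] AlgebraicClosure ℚ))
    [FiniteDimensional (ZMod p) M]
    (hsm : ∀ m : M, ∃ F : IntermediateField ℚ (AlgebraicClosure ℚ), FiniteDimensional ℚ F ∧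
      ∀ s ∈ F.fixingSubgroup, M.ρ s m = m)
    (hur : ∀ A : ValuationSubring (AlgebraicClosure ℚ), A.LiesOverPrime (q : ℕ) →
      ∀ g ∈ A.inertiaSubgroupIn ℚ, M.ρ g = 1) :
    finrank (ZMod p) (continuousH1 (primeLocalToGlobal q) (Rep.res (primeLocalToGlobal q) M)) ≤
      2 * finrank (ZMod p)
        (Representation.invariants (Rep.res (primeLocalToGlobal q) M).ρ) := by
  have : FiniteDimensional (ZMod p) (Rep.res (primeLocalToGlobal q) M) :=
    inferInstanceAs (FiniteDimensional (ZMod p) M)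
  obtain ⟨φg, hφg⟩ := Fermat.Agent.Lib.helper54.exists_isFrobeniusAt q.2 (primeLocalPlace q)
    (primeLocalPlace_liesOverPrime q)
  obtain ⟨φ, rfl⟩ := exists_local_of_mem_decomposition q hφg.mem_decompositionSubgroup
  have hq : (((q : ℕ) : ℕ) : ZMod p) = 1 := by
    have h1 : (((q : ℕ) - 1 : ℕ) : ZMod p) = 0 := (ZMod.natCast_eq_zero_iff _ _).2 hq1
    have h2 : (q : ℕ) = ((q : ℕ) - 1) + 1 := (Nat.succ_pred_eq_of_pos q.2.pos).symm
    rw [h2, Nat.cast_add, h1, zero_add, Nat.cast_one]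
  exact finrank_map_le_two_mul (Rep.res (primeLocalToGlobal q) M) (inertiaLoc_trivial q M hur)
    (φ := φ) (q := (q : ℕ)) hq
    (levelCocycles₁ (primeLocalToGlobal q) (Rep.res (primeLocalToGlobal q) M))
    (levelFamily q) (levelFamily_nonempty q) (levelCocycles_le_levelFamily q M)
    (levelFamily_directed q) (levelFamily_good q M hqp hT hsm hur hφg)

end Main

end Fermat.Agent.S56.helper6606
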