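/-
S56 / LOC-TW (helper6606), unconditional form: the local `H¹` bound at the Taylor–Wiles primes
on the frozen carrier, with the tame inertia brick supplied by `S56/helper6024_TameInertia`.
-/
import Mathlib
import Fermat.Agent.S56.helper6606_TWLocal
import Fermat.Agent.S56.helper6024_TameInertia

set_option autoImplicit false

namespace Fermat.Agent.S56.helper6606

open groupCohomology ExtCitation Module

/-- The tame inertia brick holds at every place over a prime `q`. -/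
theorem tameBrick {q : ℕ} (hq : q.Prime) (A : ValuationSubring (AlgebraicClosure ℚ))
    (hA : A.LiesOverPrime q) : TameBrick q A := by
  intro E hE
  have := hE
  refine ⟨?_, ?_, ?_⟩
  · obtain ⟨s, hs, h⟩ := Fermat.Agent.S56.helper6024.tame_cyclic_elt hq A hA E
    refine ⟨s, hs, fun σ hσ => ?_⟩
    obtain ⟨n, w, m, hw, h1, h2⟩ := h σ hσ
    exact ⟨n, w, m, hw, fun x _ => by rw [h1], h2⟩
  · intro φ hφ σ hσ
    obtain ⟨w, m, hw, h1, h2⟩ :=
      Fermat.Agent.S56.helper6024.tame_frobenius_elt hq A hA E φ hφ σ hσ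
    exact ⟨w, m, hw, fun x _ => by rw [h1], h2⟩
  · intro φ hφ τ hτ
    exact Fermat.Agent.S56.helper6024.decomposition_elt hq A hA E φ hφ τ hτ

variable {p : ℕ} [Fact p.Prime]

/-- **Local `H¹` bound at an unramified prime `q ≠ p`** on the frozen carrier
(`= helper15.LocH1 M q`): for a Frobenius `φ` at the frozen place over `q`,
`dim H¹(ℚ_q, M) ≤ dim ker (φ - 1) + dim ker (φ - q)`. -/
theorem finrank_locH1_le (q : Nat.Primes) (hqp : (q : ℕ) ≠ p)
    (M : Rep.{0, 0, 0} (ZMod p) (AlgebraicClosure ℚ ≃ₐ[ℚ] AlgebraicClosure ℚ))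
    [FiniteDimensional (ZMod p) M]
    (hsm : ∀ m : M, ∃ F : IntermediateField ℚ (AlgebraicClosure ℚ), FiniteDimensional ℚ F ∧
      ∀ s ∈ F.fixingSubgroup, M.ρ s m = m)
    (hur : ∀ A : ValuationSubring (AlgebraicClosure ℚ), A.LiesOverPrime (q : ℕ) →
      ∀ g ∈ A.inertiaSubgroupIn ℚ, M.ρ g = 1)
    (φ : primeLocalGaloisGroup q)
    (hφ : (primeLocalPlace q).IsFrobeniusAt (primeLocalToGlobal q φ) (q : ℕ)) :
    finrank (ZMod p) (continuousH1 (primeLocalToGlobal q) (Rep.res (primeLocalToGlobal q) M)) ≤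
      finrank (ZMod p) (LinearMap.ker (M.ρ (primeLocalToGlobal q φ) - 1)) +
        finrank (ZMod p) (LinearMap.ker (M.ρ (primeLocalToGlobal q φ) -
          ((q : ℕ) : ZMod p) • (1 : Module.End (ZMod p) M))) :=
  finrank_locH1_le_of_brick q hqp (tameBrick q.2 _ (primeLocalPlace_liesOverPrime q)) M hsm hur
    φ hφ

/-- **The Taylor–Wiles local bound** on the frozen carrier (`= helper15.LocH1 M q`): for
`q ≡ 1 mod p`, `q ≠ p`, and `M` finite-dimensional, smooth and unramified at `q`,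
`dim H¹(ℚ_q, M) ≤ 2 * dim H⁰(ℚ_q, M)`. -/
theorem finrank_locH1_le_two_mul (q : Nat.Primes) (hqp : (q : ℕ) ≠ p)
    (hq1 : p ∣ (q : ℕ) - 1)
    (M : Rep.{0, 0, 0} (ZMod p) (AlgebraicClosure ℚ ≃ₐ[ℚ] AlgebraicClosure ℚ))
    [FiniteDimensional (ZMod p) M]
    (hsm : ∀ m : M, ∃ F : IntermediateField ℚ (AlgebraicClosure ℚ), FiniteDimensional ℚ F ∧
      ∀ s ∈ F.fixingSubgroup, M.ρ s m = m)
    (hur : ∀ A : ValuationSubring (AlgebraicClosure ℚ), A.LiesOverPrime (q : ℕ) →
      ∀ g ∈ A.inertiaSubgroupIn ℚ, M.ρ g = 1) :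
    finrank (ZMod p) (continuousH1 (primeLocalToGlobal q) (Rep.res (primeLocalToGlobal q) M)) ≤
      2 * finrank (ZMod p)
        (Representation.invariants (Rep.res (primeLocalToGlobal q) M).ρ) :=
  finrank_locH1_le_two_mul_of_brick q hqp hq1
    (tameBrick q.2 _ (primeLocalPlace_liesOverPrime q)) M hsm hur

/-- The shape consumed by the Selmer count at a Taylor–Wiles prime: if `h⁰(ℚ_q, M) ≤ f` then
`dim H¹(ℚ_q, M) ≤ h⁰(ℚ_q, M) + f`. -/
theorem finrank_locH1_le_add (q : Nat.Primes) (hqp : (q : ℕ) ≠ p)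
    (hq1 : p ∣ (q : ℕ) - 1)
    (M : Rep.{0, 0, 0} (ZMod p) (AlgebraicClosure ℚ ≃ₐ[ℚ] AlgebraicClosure ℚ))
    [FiniteDimensional (ZMod p) M]
    (hsm : ∀ m : M, ∃ F : IntermediateField ℚ (AlgebraicClosure ℚ), FiniteDimensional ℚ F ∧
      ∀ s ∈ F.fixingSubgroup, M.ρ s m = m)
    (hur : ∀ A : ValuationSubring (AlgebraicClosure ℚ), A.LiesOverPrime (q : ℕ) →
      ∀ g ∈ A.inertiaSubgroupIn ℚ, M.ρ g = 1)
    (f : ℕ)
    (hf : finrank (ZMod p)
      (Representation.invariants (Rep.res (primeLocalToGlobal q) M).ρ) ≤ f) :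
    finrank (ZMod p) (continuousH1 (primeLocalToGlobal q) (Rep.res (primeLocalToGlobal q) M)) ≤
      finrank (ZMod p)
        (Representation.invariants (Rep.res (primeLocalToGlobal q) M).ρ) + f := by
  have h := finrank_locH1_le_two_mul q hqp hq1 M hsm hur
  omega

end Fermat.Agent.S56.helper6606
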