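/-
S56, COUNT ASSEMBLY, final form (node COUNT-ASM).  Author: helper2229.

The two counts `Stmt_CountSO`, `Stmt_CountFL` of the TOP SPEC (`helper2229_TopSpec`) from

* Tate's inequality `helper3550.Stmt_TateLarge` (the TATE chain), and
* three LOCAL leaves in the vocabulary of the dictionary (`helper6599`: `LiftCocycle ρbar`,
  `stdLift c`, `ad0 p ρbar`) and of the local carrier (`helper6044`: `locZ1`, `locClass`):
  `Stmt_LocUnip` (primes `q ≠ p` of `Smin`), `Stmt_LocSO`, `Stmt_LocFL` (the prime `p`).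

Everything else is on main and is used here:

* GLOBAL : `helper3550.globalCount_of` (Greenberg–Wiles count, S55 closed, unramified bound);
* KILL   : `helper4859.killSupply_ad0_of_hmin` (supply of Taylor–Wiles primes);
* AD0NUM : `helper1848.h0_ad0_dict`, `dimMinus_dualT_ad0_dict`,
           `finrank_invariants_res_ad0_dict_le`, `isSMod_ad0_dict`;
* LOC-TW : `helper6606.finrank_locH1_le_add`;
* DICT   : `helper6599.tanBound_condSO_of_selmer`, `tanBound_condFL_of_selmer`;
* SEAM   : `helper6044.resTotal_eq_locClass`, `countGoal_of_seam`.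

Main statements:

* `LocLeaf p ρbar q P e` : the shape of a local leaf: a subspace `L ≤ H¹(ℚ_q, ad0)` of
  `𝔽_p`-dimension at most `h⁰(ℚ_q, ad0) + e` containing the local class of every lift cocycle `c`
  with `P (stdLift c)`.
* `Stmt_LocUnip`, `Stmt_LocSO`, `Stmt_LocFL` : the three leaves.
* `stmt_CountSO_of`, `stmt_CountFL_of` : the counts.
* `result_of_leaves` : the literal frozen statement S56 from `Stmt_TateLarge` and the leaves.
-/
import Mathlib
import Fermat.Agent.S56.helper2229_Top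
import Fermat.Agent.S56.helper2229_CountAsm
import Fermat.Agent.S56.helper3550_GlobalSeam
import Fermat.Agent.S56.helper4859_KillAd0
import Fermat.Agent.S56.helper1848_Ad0Dict
import Fermat.Agent.S56.helper6606_TWLocalFinal
import Fermat.Agent.S56.helper6599_Dict
import Fermat.Agent.S56.helper6044_LocCarrier

set_option autoImplicit false
set_option linter.style.haveILetI false

namespace Fermat.Agent.S56.helper2229

open Polynomial IsLocalRing Module groupCohomology ExtCitation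
open Fermat.Agent.S55.helper2945 Fermat.Agent.S55.helper15 Fermat.Agent.S55.helper2906
open Fermat.Agent.S56.helper6599

attribute [local instance] Fermat.Agent.S53.helper413.dualAlgebra

local notation "GQ" => (AlgebraicClosure ℚ ≃ₐ[ℚ] AlgebraicClosure ℚ)

/-! ### The shape of the local leaves -/

/-- **Local leaf.**  There is a subspace `L` of the local carrier `H¹(ℚ_q, ad0 ρbar)` of
`𝔽_p`-dimension at most `h⁰(ℚ_q, ad0 ρbar) + e` which contains the class of (any level cocycle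
`z` on the decomposition group at `q` representing the restriction of) every lift cocycle `c`
whose standard lift `stdLift c` over `k[ε]` satisfies `P`. -/
def LocLeaf (p : ℕ) [Fact p.Prime] {k : Type} [Field k] [Algebra (ZMod p) k]
    (ρbar : ResidualGaloisRep k) (q : Nat.Primes)
    (P : GaloisRepAdic (DualNumber k) → Prop) (e : ℕ) : Prop :=
  ∃ L : Submodule (ZMod p) (LocH1 (ad0 p ρbar) q),
    finrank (ZMod p) ↥L ≤
      finrank (ZMod p)
        ↥(Representation.invariants (Rep.res (primeLocalToGlobal q) (ad0 p ρbar)).ρ) + e ∧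
    ∀ (c : LiftCocycle ρbar) (z : ↥(helper6044.locZ1 (ad0 p ρbar) q)),
      (∀ d : ↥(helper6044.decomp q), ad0Val p ρbar (z.1 d) = c.c (d : GQ)) →
      P (stdLift c) → helper6044.locClass (ad0 p ρbar) q z ∈ L

/-- A local leaf for a weaker condition and a larger bound. -/
theorem LocLeaf.mono {p : ℕ} [Fact p.Prime] {k : Type} [Field k] [Algebra (ZMod p) k]
    {ρbar : ResidualGaloisRep k} {q : Nat.Primes}
    {P P' : GaloisRepAdic (DualNumber k) → Prop} {e e' : ℕ}
    (h : LocLeaf p ρbar q P e) (hP : ∀ c : LiftCocycle ρbar, P' (stdLift c) → P (stdLift c))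
    (he : e ≤ e') : LocLeaf p ρbar q P' e' := by
  obtain ⟨L, h1, h2⟩ := h
  exact ⟨L, h1.trans (Nat.add_le_add_left he _), fun c z hz hc => h2 c z hz (hP c hc)⟩

/-- **Local leaf at the primes `q ≠ p` of `Smin`**: the lifts with cyclotomic determinant which
are unipotent on inertia at a prime `q ≠ p` where `ρbar` is ramified have their local classes in
a space of dimension at most `h⁰(ℚ_q, ad0)`. -/
def Stmt_LocUnip : Prop :=
  ∀ (p : ℕ) [Fact p.Prime] {k : Type} [Field k] [Finite k] [Algebra (ZMod p) k]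
    (ρbar : ResidualGaloisRep k), p ≠ 2 → ρbar.IsAbsolutelyIrreducible →
    (GaloisRepAdic.ofResidualGaloisRep ρbar).DetIsCyclotomic p →
    (∀ σ : GQ, ∃ α β : k, LinearMap.charpoly (ρbar.ρ σ) = (X - C α) * (X - C β)) →
    ∀ q : Nat.Primes, (q : ℕ) ≠ p → ¬ ρbar.IsUnramifiedAt (q : ℕ) →
      LocLeaf p ρbar q
        (fun ρ => ρ.DetIsCyclotomic p ∧ ρ.IsUnipotentOnInertiaAt (q : ℕ)) 0

/-- **Local leaf at `p`, strict-ordinary type**: the strict-ordinary lifts with cyclotomic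
determinant have their local classes at `p` in a space of dimension at most
`h⁰(ℚ_p, ad0) + [k : 𝔽_p]`. -/
def Stmt_LocSO : Prop :=
  ∀ (p : ℕ) [Fact p.Prime] {k : Type} [Field k] [Finite k] [Algebra (ZMod p) k]
    (ρbar : ResidualGaloisRep k), p ≠ 2 → ρbar.IsAbsolutelyIrreducible →
    (GaloisRepAdic.ofResidualGaloisRep ρbar).DetIsCyclotomic p →
    (∀ σ : GQ, ∃ α β : k, LinearMap.charpoly (ρbar.ρ σ) = (X - C α) * (X - C β)) →
      LocLeaf p ρbar (pPrime p)
        (fun ρ => ρ.DetIsCyclotomic p ∧ ρ.IsStrictOrdinaryAt p) (finrank (ZMod p) k)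

/-- **Local leaf at `p`, flat type**: the flat lifts with cyclotomic determinant have their
local classes at `p` in a space of dimension at most `h⁰(ℚ_p, ad0) + [k : 𝔽_p]`. -/
def Stmt_LocFL : Prop :=
  ∀ (p : ℕ) [Fact p.Prime] {k : Type} [Field k] [Finite k] [Algebra (ZMod p) k]
    (ρbar : ResidualGaloisRep k), p ≠ 2 → ρbar.IsAbsolutelyIrreducible →
    (GaloisRepAdic.ofResidualGaloisRep ρbar).DetIsCyclotomic p →
    (∀ σ : GQ, ∃ α β : k, LinearMap.charpoly (ρbar.ρ σ) = (X - C α) * (X - C β)) →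
      LocLeaf p ρbar (pPrime p)
        (fun ρ => ρ.DetIsCyclotomic p ∧ ρ.IsFlatAt p) (finrank (ZMod p) k)

/-! ### The two sides of the seam for `ad0 p ρbar` -/

section Assembly

variable {𝒪 : Type} [CommRing 𝒪] [IsLocalRing 𝒪] [Finite (ResidueField 𝒪)]
  (p : ℕ) [Fact p.Prime] [Algebra (ZMod p) (ResidueField 𝒪)]
  (ρbar : ResidualGaloisRep (ResidueField 𝒪))

omit [Finite (ResidueField 𝒪)] in
/-- The residue field has odd characteristic. -/
theorem two_ne_zero_residueField (hp2 : p ≠ 2) : (2 : ResidueField 𝒪) ≠ 0 := by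
  have hp0 : (p : ResidueField 𝒪) = 0 := natCast_eq_zero_of_algebra p
  intro h
  obtain ⟨m, hm⟩ := (Fact.out : p.Prime).eq_two_or_odd'.resolve_left hp2
  have h1 : (p : ResidueField 𝒪) = 1 := by
    rw [hm]
    push_cast
    rw [h, zero_mul, zero_add]
  rw [hp0] at h1
  exact zero_ne_one h1

/-- **GLOBAL side of the seam for `ad0 p ρbar`**: under the frozen hypotheses and Tate's
inequality, for local conditions `L` with `dim L_q ≤ h⁰(ℚ_q, ad0)` at the primes `q ≠ p` of
`Smin` and `dim L_p ≤ h⁰(ℚ_p, ad0) + [k : 𝔽_p]`. -/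
theorem globalCount_ad0 (hTate : helper3550.Stmt_TateLarge) {S Smin : Finset ℕ}
    (hyp : FrozenHyp 𝒪 p ρbar S Smin)
    (L : ∀ q : Nat.Primes, Submodule (ZMod p) (LocH1 (ad0 p ρbar) q))
    (hL : ∀ q ∈ primesOf Smin, finrank (ZMod p) ↥(L q) ≤
      finrank (ZMod p)
        ↥(Representation.invariants (Rep.res (primeLocalToGlobal q) (ad0 p ρbar)).ρ) +
        (if q = pPrime p then finrank (ZMod p) (ResidueField 𝒪) else 0)) :
    GlobalCount 𝒪 p ρbar S (primesOf Smin) (ad0 p ρbar) L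
      (finrank (ZMod p) (ResidueField 𝒪)) := by
  classical
  have h2 : (2 : ResidueField 𝒪) ≠ 0 := two_ne_zero_residueField p hyp.hp2
  have hk : Nat.card (ResidueField 𝒪) = p ^ finrank (ZMod p) (ResidueField 𝒪) :=
    helper1848.natCard_eq_pow_finrank_dict p (ResidueField 𝒪)
  have hur : ∀ q : Nat.Primes, q ∉ primesOf Smin → ρbar.IsUnramifiedAt (q : ℕ) :=
    helper4859.isUnramifiedAt_of_hmin p ρbar Smin hyp.hpSmin hyp.hmin
  have hpS : pPrime p ∈ primesOf Smin := pPrime_mem_primesOf hyp.hpSmin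
  have hM : IsSMod (primesOf Smin) (ad0 p ρbar) :=
    helper1848.isSMod_ad0_dict ρbar (primesOf Smin) hur
  refine helper3550.globalCount_of hTate hyp.hp2 ρbar S (primesOf Smin) hpS (ad0 p ρbar) hM L
    (finrank (ZMod p) (ResidueField 𝒪)) (helper1848.h0_ad0_dict ρbar hyp.habs h2)
    (le_of_eq (helper1848.dimMinus_dualT_ad0_dict ρbar hyp.hp2 hyp.hdet _ hk).symm) ?_ ?_ ?_
  · -- the local bounds on `Smin`
    refine (Finset.sum_le_sum hL).trans (le_of_eq ?_)
    rw [Finset.sum_add_distrib, Finset.sum_ite_eq' (primesOf Smin) (pPrime p), if_pos hpS]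
    rfl
  · -- the local bound at the Taylor–Wiles primes
    intro n q hq hqS
    have hqp : (q : ℕ) ≠ p := by
      intro h
      apply hqS
      have : q = pPrime p := Subtype.ext h
      rw [this]
      exact hpS
    have hq1 : p ∣ (q : ℕ) - 1 := dvd_trans (dvd_pow_self p (Nat.succ_ne_zero n)) hq.1
    have hfin := hM.finite
    exact helper6606.finrank_locH1_le_add q hqp hq1 (ad0 p ρbar) hM.smooth (hM.unram q hqS)
      (finrank (ZMod p) (ResidueField 𝒪))
      (helper1848.finrank_invariants_res_ad0_dict_le ρbar h2 q hq.2 _ hk)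
  · -- the supply of Taylor–Wiles primes
    exact helper4859.killSupply_ad0_of_hmin p ρbar Fermat.Agent.S55.helper4075.stmt_Fin
      hyp.hp2 hyp.habs hyp.hdet hyp.hsplit hyp.hTW Smin hyp.hpSmin hyp.hmin

omit [Finite (ResidueField 𝒪)] in
/-- The localisations of the class of a lift cocycle lie in `twCond` as soon as its local
classes at the primes of `Sg` lie in the given conditions. -/
theorem resTotal_mem_twCond (Sg T : Finset Nat.Primes)
    (L : ∀ q : Nat.Primes, Submodule (ZMod p) (LocH1 (ad0 p ρbar) q))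
    (c : LiftCocycle ρbar)
    (htr : ∀ g, LinearMap.trace (ResidueField 𝒪) ρbar.V (c.c g) = 0)
    (hu : ∀ q : Nat.Primes, q ∉ T → (stdLift c).IsUnramifiedAt q)
    (h : ∀ q ∈ Sg, ∀ z : ↥(helper6044.locZ1 (ad0 p ρbar) q),
      (∀ d : ↥(helper6044.decomp q), ad0Val p ρbar (z.1 d) = c.c (d : GQ)) →
      helper6044.locClass (ad0 p ρbar) q z ∈ L q) :
    resTotal T (ad0 p ρbar) (c.toClassS p htr T hu) ∈ twCond Sg (ad0 p ρbar) L T := by
  classical
  rw [twCond, Submodule.mem_pi]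
  intro q _
  by_cases hq : q.1 ∈ Sg
  · rw [if_pos hq]
    have h1 : resTotal T (ad0 p ρbar) (c.toClassS p htr T hu) q
        = helper6044.locClass (ad0 p ρbar) q.1
          (helper6044.restrictD (ad0 p ρbar) q.1 T (c.toLevelCocycle p htr T hu)) :=
      helper6044.resTotal_eq_locClass (ad0 p ρbar) T (c.toLevelCocycle p htr T hu) q
    rw [h1]
    exact h q.1 hq _ (fun d => rfl)
  · rw [if_neg hq]
    exact Submodule.mem_top

/-- **DICT side of the seam, strict-ordinary type**, for local conditions `L` containing the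
local classes of the strict-ordinary lifts at `p` and of the lifts unipotent on inertia at the
primes `q ≠ p` of `Smin`. -/
theorem dictBound_condSO {S Smin : Finset ℕ} (hyp : FrozenHyp 𝒪 p ρbar S Smin)
    (L : ∀ q : Nat.Primes, Submodule (ZMod p) (LocH1 (ad0 p ρbar) q))
    (hLp : ∀ (c : LiftCocycle ρbar) (z : ↥(helper6044.locZ1 (ad0 p ρbar) (pPrime p))),
      (∀ d : ↥(helper6044.decomp (pPrime p)), ad0Val p ρbar (z.1 d) = c.c (d : GQ)) →
      ((stdLift c).DetIsCyclotomic p ∧ (stdLift c).IsStrictOrdinaryAt p) →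
      helper6044.locClass (ad0 p ρbar) (pPrime p) z ∈ L (pPrime p))
    (hLq : ∀ q ∈ primesOf Smin, q ≠ pPrime p →
      ∀ (c : LiftCocycle ρbar) (z : ↥(helper6044.locZ1 (ad0 p ρbar) q)),
      (∀ d : ↥(helper6044.decomp q), ad0Val p ρbar (z.1 d) = c.c (d : GQ)) →
      ((stdLift c).DetIsCyclotomic p ∧ (stdLift c).IsUnipotentOnInertiaAt (q : ℕ)) →
      helper6044.locClass (ad0 p ρbar) q z ∈ L q) :
    DictBound 𝒪 p ρbar Smin (condSO 𝒪 p Smin) (primesOf Smin) (ad0 p ρbar) L
      (finrank (ZMod p) (ResidueField 𝒪)) := by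
  classical
  intro r qv hinj hqv hsel
  have hk : Nat.card (ResidueField 𝒪) = p ^ finrank (ZMod p) (ResidueField 𝒪) :=
    helper1848.natCard_eq_pow_finrank_dict p (ResidueField 𝒪)
  have hur : ∀ q : Nat.Primes, q ∉ primesOf Smin → ρbar.IsUnramifiedAt (q : ℕ) :=
    helper4859.isUnramifiedAt_of_hmin p ρbar Smin hyp.hpSmin hyp.hmin
  have hM : IsSMod (primesOf Smin ∪ Finset.univ.image qv) (ad0 p ρbar) :=
    helper1848.isSMod_ad0_dict ρbar _ (fun q hq => hur q fun h => hq (Finset.mem_union_left _ h))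
  have hpT : pPrime p ∈ primesOf Smin ∪ Finset.univ.image qv :=
    Finset.mem_union_left _ (pPrime_mem_primesOf hyp.hpSmin)
  have hfinH1 : Module.Finite (ZMod p)
      ↥(continuousH1S (primesOf Smin ∪ Finset.univ.image qv) (ad0 p ρbar)) :=
    (Fermat.Agent.S55.helper4075.stmt_Fin hyp.hp2 _ hpT (ad0 p ρbar) hM).1
  refine tanBound_condSO_of_selmer p ρbar Smin (Smin ∪ Finset.univ.image fun i => (qv i : ℕ))
    (primesOf Smin ∪ Finset.univ.image qv) ?_
    (twCond (primesOf Smin) (ad0 p ρbar) L (primesOf Smin ∪ Finset.univ.image qv)) ?_ hk hsel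
  · intro q hq hmem
    apply hq
    rcases Finset.mem_union.1 hmem with h | h
    · exact Finset.mem_union_left _ (mem_primesOf.2 h)
    · obtain ⟨i, -, hi⟩ := Finset.mem_image.1 h
      exact Finset.mem_union_right _ (Finset.mem_image.2 ⟨i, Finset.mem_univ _, Subtype.ext hi⟩)
  · intro c htr hu hc
    refine resTotal_mem_twCond p ρbar _ _ L c htr hu (fun q hq z hz => ?_)
    by_cases hqp : q = pPrime p
    · subst hqp
      exact hLp c z hz ⟨hc.1.1, hc.1.2.1⟩
    · exact hLq q hq hqp c z hz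
        ⟨hc.1.1, hc.2 (q : ℕ) (mem_primesOf.1 hq) q.2 fun h => hqp (Subtype.ext h)⟩

/-- **DICT side of the seam, flat type**, for local conditions `L` containing the local classes
of the flat lifts at `p` and of the lifts unipotent on inertia at the primes `q ≠ p` of
`Smin`. -/
theorem dictBound_condFL {S Smin : Finset ℕ} (hyp : FrozenHyp 𝒪 p ρbar S Smin)
    (L : ∀ q : Nat.Primes, Submodule (ZMod p) (LocH1 (ad0 p ρbar) q))
    (hLp : ∀ (c : LiftCocycle ρbar) (z : ↥(helper6044.locZ1 (ad0 p ρbar) (pPrime p))),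
      (∀ d : ↥(helper6044.decomp (pPrime p)), ad0Val p ρbar (z.1 d) = c.c (d : GQ)) →
      ((stdLift c).DetIsCyclotomic p ∧ (stdLift c).IsFlatAt p) →
      helper6044.locClass (ad0 p ρbar) (pPrime p) z ∈ L (pPrime p))
    (hLq : ∀ q ∈ primesOf Smin, q ≠ pPrime p →
      ∀ (c : LiftCocycle ρbar) (z : ↥(helper6044.locZ1 (ad0 p ρbar) q)),
      (∀ d : ↥(helper6044.decomp q), ad0Val p ρbar (z.1 d) = c.c (d : GQ)) →
      ((stdLift c).DetIsCyclotomic p ∧ (stdLift c).IsUnipotentOnInertiaAt (q : ℕ)) →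
      helper6044.locClass (ad0 p ρbar) q z ∈ L q) :
    DictBound 𝒪 p ρbar Smin (condFL 𝒪 p Smin) (primesOf Smin) (ad0 p ρbar) L
      (finrank (ZMod p) (ResidueField 𝒪)) := by
  classical
  intro r qv hinj hqv hsel
  have hk : Nat.card (ResidueField 𝒪) = p ^ finrank (ZMod p) (ResidueField 𝒪) :=
    helper1848.natCard_eq_pow_finrank_dict p (ResidueField 𝒪)
  have hur : ∀ q : Nat.Primes, q ∉ primesOf Smin → ρbar.IsUnramifiedAt (q : ℕ) :=
    helper4859.isUnramifiedAt_of_hmin p ρbar Smin hyp.hpSmin hyp.hmin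
  have hM : IsSMod (primesOf Smin ∪ Finset.univ.image qv) (ad0 p ρbar) :=
    helper1848.isSMod_ad0_dict ρbar _ (fun q hq => hur q fun h => hq (Finset.mem_union_left _ h))
  have hpT : pPrime p ∈ primesOf Smin ∪ Finset.univ.image qv :=
    Finset.mem_union_left _ (pPrime_mem_primesOf hyp.hpSmin)
  have hfinH1 : Module.Finite (ZMod p)
      ↥(continuousH1S (primesOf Smin ∪ Finset.univ.image qv) (ad0 p ρbar)) :=
    (Fermat.Agent.S55.helper4075.stmt_Fin hyp.hp2 _ hpT (ad0 p ρbar) hM).1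
  refine tanBound_condFL_of_selmer p ρbar Smin (Smin ∪ Finset.univ.image fun i => (qv i : ℕ))
    (primesOf Smin ∪ Finset.univ.image qv) ?_
    (twCond (primesOf Smin) (ad0 p ρbar) L (primesOf Smin ∪ Finset.univ.image qv)) ?_ hk hsel
  · intro q hq hmem
    apply hq
    rcases Finset.mem_union.1 hmem with h | h
    · exact Finset.mem_union_left _ (mem_primesOf.2 h)
    · obtain ⟨i, -, hi⟩ := Finset.mem_image.1 h
      exact Finset.mem_union_right _ (Finset.mem_image.2 ⟨i, Finset.mem_univ _, Subtype.ext hi⟩)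
  · intro c htr hu hc
    refine resTotal_mem_twCond p ρbar _ _ L c htr hu (fun q hq z hz => ?_)
    by_cases hqp : q = pPrime p
    · subst hqp
      exact hLp c z hz ⟨hc.1.1, hc.1.2.1⟩
    · exact hLq q hq hqp c z hz
        ⟨hc.1.1, hc.2 (q : ℕ) (mem_primesOf.1 hq) q.2 fun h => hqp (Subtype.ext h)⟩

end Assembly

/-! ### The counts -/

/-- **Count, strict-ordinary half**, from Tate's inequality and the local leaves. -/
theorem stmt_CountSO_of (hTate : helper3550.Stmt_TateLarge) (hUnip : Stmt_LocUnip)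
    (hSO : Stmt_LocSO) : Stmt_CountSO := by
  intro 𝒪 _ _ _ _ _ p _ ρbar S Smin hyp
  classical
  letI : Algebra (ZMod p) (ResidueField 𝒪) := zmodAlgebra 𝒪 p hyp.hp𝒪
  have key : ∀ q : Nat.Primes, ∃ L : Submodule (ZMod p) (LocH1 (ad0 p ρbar) q),
      (q ∈ primesOf Smin → finrank (ZMod p) ↥L ≤
        finrank (ZMod p)
          ↥(Representation.invariants (Rep.res (primeLocalToGlobal q) (ad0 p ρbar)).ρ) +
          (if q = pPrime p then finrank (ZMod p) (ResidueField 𝒪) else 0)) ∧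
      (q = pPrime p → ∀ (c : LiftCocycle ρbar) (z : ↥(helper6044.locZ1 (ad0 p ρbar) q)),
        (∀ d : ↥(helper6044.decomp q), ad0Val p ρbar (z.1 d) = c.c (d : GQ)) →
        ((stdLift c).DetIsCyclotomic p ∧ (stdLift c).IsStrictOrdinaryAt p) →
        helper6044.locClass (ad0 p ρbar) q z ∈ L) ∧
      (q ∈ primesOf Smin → q ≠ pPrime p →
        ∀ (c : LiftCocycle ρbar) (z : ↥(helper6044.locZ1 (ad0 p ρbar) q)),
        (∀ d : ↥(helper6044.decomp q), ad0Val p ρbar (z.1 d) = c.c (d : GQ)) →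
        ((stdLift c).DetIsCyclotomic p ∧ (stdLift c).IsUnipotentOnInertiaAt (q : ℕ)) →
        helper6044.locClass (ad0 p ρbar) q z ∈ L) := by
    intro q
    by_cases hqp : q = pPrime p
    · subst hqp
      obtain ⟨L, h1, h2⟩ := hSO p ρbar hyp.hp2 hyp.habs hyp.hdet hyp.hsplit
      exact ⟨L, fun _ => by rw [if_pos rfl]; exact h1, fun _ => h2, fun _ h => absurd rfl h⟩
    · by_cases hq : q ∈ primesOf Smin
      · have hqp' : (q : ℕ) ≠ p := fun h => hqp (Subtype.ext h)
        obtain ⟨L, h1, h2⟩ := hUnip p ρbar hyp.hp2 hyp.habs hyp.hdet hyp.hsplit q hqp'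
          ((hyp.hmin q q.2 hqp').1 (mem_primesOf.1 hq))
        exact ⟨L, fun _ => by rw [if_neg hqp]; exact h1, fun h => absurd h hqp, fun _ _ => h2⟩
      · exact ⟨⊤, fun h => absurd h hq, fun h => absurd h hqp, fun h => absurd h hq⟩
  choose L hL1 hL2 hL3 using key
  exact countGoal_of_seam hyp.hSmin (globalCount_ad0 p ρbar hTate hyp L hL1)
    (dictBound_condSO p ρbar hyp L (hL2 _ rfl) hL3)

/-- **Count, flat half**, from Tate's inequality and the local leaves. -/
theorem stmt_CountFL_of (hTate : helper3550.Stmt_TateLarge) (hUnip : Stmt_LocUnip)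
    (hFL : Stmt_LocFL) : Stmt_CountFL := by
  intro 𝒪 _ _ _ _ _ p _ ρbar S Smin hyp
  classical
  letI : Algebra (ZMod p) (ResidueField 𝒪) := zmodAlgebra 𝒪 p hyp.hp𝒪
  have key : ∀ q : Nat.Primes, ∃ L : Submodule (ZMod p) (LocH1 (ad0 p ρbar) q),
      (q ∈ primesOf Smin → finrank (ZMod p) ↥L ≤
        finrank (ZMod p)
          ↥(Representation.invariants (Rep.res (primeLocalToGlobal q) (ad0 p ρbar)).ρ) +
          (if q = pPrime p then finrank (ZMod p) (ResidueField 𝒪) else 0)) ∧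
      (q = pPrime p → ∀ (c : LiftCocycle ρbar) (z : ↥(helper6044.locZ1 (ad0 p ρbar) q)),
        (∀ d : ↥(helper6044.decomp q), ad0Val p ρbar (z.1 d) = c.c (d : GQ)) →
        ((stdLift c).DetIsCyclotomic p ∧ (stdLift c).IsFlatAt p) →
        helper6044.locClass (ad0 p ρbar) q z ∈ L) ∧
      (q ∈ primesOf Smin → q ≠ pPrime p →
        ∀ (c : LiftCocycle ρbar) (z : ↥(helper6044.locZ1 (ad0 p ρbar) q)),
        (∀ d : ↥(helper6044.decomp q), ad0Val p ρbar (z.1 d) = c.c (d : GQ)) →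
        ((stdLift c).DetIsCyclotomic p ∧ (stdLift c).IsUnipotentOnInertiaAt (q : ℕ)) →
        helper6044.locClass (ad0 p ρbar) q z ∈ L) := by
    intro q
    by_cases hqp : q = pPrime p
    · subst hqp
      obtain ⟨L, h1, h2⟩ := hFL p ρbar hyp.hp2 hyp.habs hyp.hdet hyp.hsplit
      exact ⟨L, fun _ => by rw [if_pos rfl]; exact h1, fun _ => h2, fun _ h => absurd rfl h⟩
    · by_cases hq : q ∈ primesOf Smin
      · have hqp' : (q : ℕ) ≠ p := fun h => hqp (Subtype.ext h)
        obtain ⟨L, h1, h2⟩ := hUnip p ρbar hyp.hp2 hyp.habs hyp.hdet hyp.hsplit q hqp'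
          ((hyp.hmin q q.2 hqp').1 (mem_primesOf.1 hq))
        exact ⟨L, fun _ => by rw [if_neg hqp]; exact h1, fun h => absurd h hqp, fun _ _ => h2⟩
      · exact ⟨⊤, fun h => absurd h hq, fun h => absurd h hqp, fun h => absurd h hq⟩
  choose L hL1 hL2 hL3 using key
  exact countGoal_of_seam hyp.hSmin (globalCount_ad0 p ρbar hTate hyp L hL1)
    (dictBound_condFL p ρbar hyp L (hL2 _ rfl) hL3)

/-- **S56 from Tate's inequality and the three local leaves**: the literal frozen statement. -/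
theorem result_of_leaves (hTate : helper3550.Stmt_TateLarge) (hUnip : Stmt_LocUnip)
    (hSO : Stmt_LocSO) (hFL : Stmt_LocFL)
    {𝒪 : Type} [CommRing 𝒪] [IsDomain 𝒪] [IsDiscreteValuationRing 𝒪]
    [IsAdicComplete (maximalIdeal 𝒪) 𝒪] [Finite (ResidueField 𝒪)]
    (p : ℕ) [Fact p.Prime] (hp2 : p ≠ 2) (hp𝒪 : (p : 𝒪) ∈ maximalIdeal 𝒪)
    (ρbar : ResidualGaloisRep (ResidueField 𝒪))
    (habs : ρbar.IsAbsolutelyIrreducible)
    (hdet : (GaloisRepAdic.ofResidualGaloisRep ρbar).DetIsCyclotomic p)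
    (hsplit : ∀ σ : AlgebraicClosure ℚ ≃ₐ[ℚ] AlgebraicClosure ℚ,
      ∃ α β : ResidueField 𝒪, LinearMap.charpoly (ρbar.ρ σ) = (X - C α) * (X - C β))
    (hTW : ∀ (K : Type) [Field K] [Algebra (ResidueField 𝒪) K]
      (G : Subgroup (AlgebraicClosure ℚ ≃ₐ[ℚ] AlgebraicClosure ℚ)), G.index = 2 →
      ∀ V : Submodule K (ρbar.baseChange K).V,
        (∀ σ ∈ G, ∀ x ∈ V, (ρbar.baseChange K).ρ σ x ∈ V) → V = ⊥ ∨ V = ⊤)
    (S Smin : Finset ℕ) (hpSmin : p ∈ Smin) (hSmin : Smin ⊆ S) (hS : ∀ q ∈ S, q.Prime)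
    (hmin : ∀ q : ℕ, q.Prime → q ≠ p → (q ∈ Smin ↔ ¬ ρbar.IsUnramifiedAt q)) :
    (∃ r : ℕ, ∀ n : ℕ, ∃ qv : Fin r → ℕ, Function.Injective qv ∧
      (∀ i, (qv i).Prime ∧ qv i ∉ S ∧ p ^ (n + 1) ∣ qv i - 1) ∧
      (∀ i, ∀ P : ValuationSubring (AlgebraicClosure ℚ), P.LiesOverPrime (qv i) →
        ∀ φ : AlgebraicClosure ℚ ≃ₐ[ℚ] AlgebraicClosure ℚ, P.IsFrobeniusAt φ (qv i) →
          ∃ α β : ResidueField 𝒪, α ≠ β ∧ LinearMap.charpoly (ρbar.ρ φ) = (X - C α) * (X - C β)) ∧
      ∀ DQ : GaloisRep.DeformationRingData 𝒪 ρbar (fun _A _ _ _ ρ =>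
          GaloisRep.strictOrdinaryCondition 𝒪 p (Smin ∪ Finset.univ.image qv) ρ ∧
            ∀ q ∈ Smin, q.Prime → q ≠ p → ρ.IsUnipotentOnInertiaAt q),
        ∃ γ : MvPowerSeries (Fin r) 𝒪 →ₐ[𝒪] DQ.R, Function.Surjective γ) ∧
    (∃ r : ℕ, ∀ n : ℕ, ∃ qv : Fin r → ℕ, Function.Injective qv ∧
      (∀ i, (qv i).Prime ∧ qv i ∉ S ∧ p ^ (n + 1) ∣ qv i - 1) ∧
      (∀ i, ∀ P : ValuationSubring (AlgebraicClosure ℚ), P.LiesOverPrime (qv i) →
        ∀ φ : AlgebraicClosure ℚ ≃ₐ[ℚ] AlgebraicClosure ℚ, P.IsFrobeniusAt φ (qv i) →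
          ∃ α β : ResidueField 𝒪, α ≠ β ∧ LinearMap.charpoly (ρbar.ρ φ) = (X - C α) * (X - C β)) ∧
      ∀ DQ : GaloisRep.DeformationRingData 𝒪 ρbar (fun _A _ _ _ ρ =>
          GaloisRep.flatCondition 𝒪 p (Smin ∪ Finset.univ.image qv) ρ ∧
            ∀ q ∈ Smin, q.Prime → q ≠ p → ρ.IsUnipotentOnInertiaAt q),
        ∃ γ : MvPowerSeries (Fin r) 𝒪 →ₐ[𝒪] DQ.R, Function.Surjective γ) :=
  result_of_counts (stmt_CountSO_of hTate hUnip hSO) (stmt_CountFL_of hTate hUnip hFL)
    p hp2 hp𝒪 ρbar habs hdet hsplit hTW S Smin hpSmin hSmin hS hmin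

end Fermat.Agent.S56.helper2229
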