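/-
S56, leaf LOC-R2 (seat helper1962), CLOSED: the strict-ordinary local leaf at `p` of the count
assembly, `helper2229.Stmt_LocSO`.

For every odd prime `p`, finite field `k` of characteristic `p` and `ρbar : ResidualGaloisRep k`
there is a subspace `L = strictLp p ρbar` of the frozen local carrier `H¹(ℚ_p, ad0 ρbar)` with
`dim_{𝔽_p} L ≤ h⁰(ℚ_p, ad0 ρbar) + [k : 𝔽_p]` containing the local class of every first-order
lift with cyclotomic determinant which is strictly ordinary at `p`.
(The hypotheses `IsAbsolutelyIrreducible`, `DetIsCyclotomic`, split characteristic polynomials of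
the leaf are not used.)
-/
import Mathlib
import Fermat.Agent.S56.helper2229_Count
import Fermat.Agent.S56.helper1962_StrictLocal

set_option autoImplicit false

namespace Fermat.Agent.S56.helper1962

open Module ExtCitation
open Fermat.Agent.S56.helper6599

/-- **LOC-R2: the strict-ordinary local leaf at `p`.** -/
theorem stmt_LocSO : Fermat.Agent.S56.helper2229.Stmt_LocSO := by
  intro p _ k _ _ _ ρbar hp2 _ _ _
  have hcard : Nat.card k = p ^ finrank (ZMod p) k := by
    rw [Module.natCard_eq_pow_finrank (K := ZMod p) (V := k), Nat.card_zmod]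
  exact ⟨strictLp p ρbar, finrank_strictLp_le p ρbar hp2 hcard,
    fun c z hz hc => locClass_mem_strictLp p hp2 c z hz hc.1 hc.2⟩

end Fermat.Agent.S56.helper1962
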