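/-
S56 (Taylor–Wiles primes), FLAT-LOCAL: the captain's Spec (helper6366).

This file fixes the ONE statement that the flat chain (tracks A and B) has to deliver and that
the count assembly consumes, in the vocabulary of the dictionary layer
(`Fermat.Agent.S56.helper6599`: `LiftCocycle ρbar`, `stdLift c`):

* `decP p` : the decomposition group of the fixed place `padicPlace p` of `ℚ̄` over `p`
  (`= ExtCitation.primeLocalPlace (pPrime p)`, the place of the S55 local carrier).
* `B1 p ρbar` : the `k`-space of coboundaries `σ ↦ ρbar σ X ρbar σ⁻¹ - X` on `decP p`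
  (`X : End_k V`); it has dimension at most `3`.
* `FlatTangentAt p ρbar` : there is a FINITE-DIMENSIONAL `k`-subspace `LL` of the functions
  `decP p → End_k V`, of dimension at most `4`, containing `B1` and the restriction to `decP p`
  of the cocycle of EVERY flat lift with cyclotomic determinant.
  (`4 = (3 - h⁰) + (1 + h⁰)`: this is the `h⁰`-free form of "the flat classes lie in a
  `k`-subspace of `H¹(D_p, ad⁰)` of dimension at most `1 + h⁰(D_p, ad⁰)`".)
* `LocalHyp`, `HasStableLine`, `Stmt_FlatIrr`, `Stmt_FlatRed`, `Stmt_FlatTangent` and the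
  trivial case split `stmt_FlatTangent_of`.
* small generic tools for the assemblers: `flatTangentAt_of_sup`, `flatTangentAt_of_forall_not`.
-/
import Mathlib
import Fermat.Prelude.Def_GaloisRep_Flat
import Fermat.Prelude.Def_GaloisRep_CompletionBridge
import Fermat.Agent.S56.helper6599_StdLift

set_option autoImplicit false

noncomputable section

namespace Fermat.Agent.S56.helper6366

open Polynomial
open Fermat.Agent.S56.helper6599

/-- The decomposition group of the fixed place `padicPlace p` of `ℚ̄` above `p`. -/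
abbrev decP (p : ℕ) [Fact p.Prime] : Subgroup GQ := (padicPlace p).decompositionSubgroup ℚ

variable {k : Type} [Field k]

/-- The coboundary `σ ↦ ρbar σ X ρbar σ⁻¹ - X` on the decomposition group, as a `k`-linear map
in `X`. -/
def cobD (p : ℕ) [Fact p.Prime] (ρbar : ResidualGaloisRep k) :
    Module.End k ρbar.V →ₗ[k] (↥(decP p) → Module.End k ρbar.V) where
  toFun X := fun σ => ρbar.ρ (σ : GQ) * X * ρbar.ρ (σ : GQ)⁻¹ - X
  map_add' X Y := by
    funext σ
    simp only [Pi.add_apply, mul_add, add_mul]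
    abel
  map_smul' a X := by
    funext σ
    simp only [Pi.smul_apply, RingHom.id_apply, mul_smul_comm, smul_mul_assoc, smul_sub]

@[simp] theorem cobD_apply (p : ℕ) [Fact p.Prime] (ρbar : ResidualGaloisRep k)
    (X : Module.End k ρbar.V) (σ : ↥(decP p)) :
    cobD p ρbar X σ = ρbar.ρ (σ : GQ) * X * ρbar.ρ (σ : GQ)⁻¹ - X := rfl

/-- The coboundaries on the decomposition group. -/
def B1 (p : ℕ) [Fact p.Prime] (ρbar : ResidualGaloisRep k) :
    Submodule k (↥(decP p) → Module.End k ρbar.V) :=
  LinearMap.range (cobD p ρbar)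

instance (p : ℕ) [Fact p.Prime] (ρbar : ResidualGaloisRep k) : Module.Finite k ↥(B1 p ρbar) :=
  Module.Finite.range (cobD p ρbar)

theorem finrank_End (ρbar : ResidualGaloisRep k) : Module.finrank k (Module.End k ρbar.V) = 4 := by
  have h := Module.finrank_linearMap k k ρbar.V ρbar.V
  rw [ρbar.finrank_eq] at h
  exact h

theorem cobD_one (p : ℕ) [Fact p.Prime] (ρbar : ResidualGaloisRep k) : cobD p ρbar 1 = 0 := by
  funext σ
  rw [cobD_apply, mul_one, ← map_mul, mul_inv_cancel, map_one, sub_self]
  rfl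

/-- The coboundaries have dimension at most `3` (the scalars give `0`). -/
theorem finrank_B1_le (p : ℕ) [Fact p.Prime] (ρbar : ResidualGaloisRep k) :
    Module.finrank k ↥(B1 p ρbar) ≤ 3 := by
  have h := LinearMap.finrank_range_add_finrank_ker (cobD p ρbar)
  rw [finrank_End] at h
  have hV : Nontrivial ρbar.V := Module.nontrivial_of_finrank_pos (R := k) (by
    rw [ρbar.finrank_eq]; norm_num)
  have h1 : (1 : Module.End k ρbar.V) ∈ LinearMap.ker (cobD p ρbar) := cobD_one p ρbar
  have h2 : 0 < Module.finrank k ↥(LinearMap.ker (cobD p ρbar)) := by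
    rw [Module.finrank_pos_iff_exists_ne_zero]
    exact ⟨⟨1, h1⟩, fun h => one_ne_zero (congrArg Subtype.val h)⟩
  unfold B1
  omega

/-- **The flat tangent bound at `p`** (cocycle form on the decomposition group of
`padicPlace p`). -/
def FlatTangentAt (p : ℕ) [Fact p.Prime] (ρbar : ResidualGaloisRep k) : Prop :=
  ∃ LL : Submodule k (↥(decP p) → Module.End k ρbar.V),
    Module.Finite k ↥LL ∧ Module.finrank k ↥LL ≤ 4 ∧ B1 p ρbar ≤ LL ∧
    ∀ c : LiftCocycle ρbar, (stdLift c).IsFlatAt p → (stdLift c).DetIsCyclotomic p →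
      (fun σ : ↥(decP p) => c.c (σ : GQ)) ∈ LL

/-- Assembler's tool: a finite-dimensional `E` with `dim (B1 ⊔ E) ≤ 4` such that every flat
cocycle lies in `B1 ⊔ E`. -/
theorem flatTangentAt_of_sup (p : ℕ) [Fact p.Prime] (ρbar : ResidualGaloisRep k)
    (E : Submodule k (↥(decP p) → Module.End k ρbar.V)) [Module.Finite k ↥E]
    (hE : Module.finrank k ↥(B1 p ρbar ⊔ E) ≤ 4)
    (h : ∀ c : LiftCocycle ρbar, (stdLift c).IsFlatAt p → (stdLift c).DetIsCyclotomic p →
      (fun σ : ↥(decP p) => c.c (σ : GQ)) ∈ B1 p ρbar ⊔ E) :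
    FlatTangentAt p ρbar :=
  ⟨B1 p ρbar ⊔ E, inferInstance, hE, le_sup_left, h⟩

/-- Assembler's tool: a `k`-line (or `0`) `E` such that every flat cocycle lies in `B1 ⊔ E`
(the shape of the irreducible case). -/
theorem flatTangentAt_of_sup_line (p : ℕ) [Fact p.Prime] (ρbar : ResidualGaloisRep k)
    (E : Submodule k (↥(decP p) → Module.End k ρbar.V)) [Module.Finite k ↥E]
    (hE : Module.finrank k ↥E ≤ 1)
    (h : ∀ c : LiftCocycle ρbar, (stdLift c).IsFlatAt p → (stdLift c).DetIsCyclotomic p →
      (fun σ : ↥(decP p) => c.c (σ : GQ)) ∈ B1 p ρbar ⊔ E) :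
    FlatTangentAt p ρbar := by
  refine flatTangentAt_of_sup p ρbar E ?_ h
  have h1 := Submodule.finrank_add_le_finrank_add_finrank (B1 p ρbar) E
  have h2 := finrank_B1_le p ρbar
  omega

/-- If no lift is flat (e.g. `ρbar` itself is not flat at `p`), the bound holds with
`LL = B1`. -/
theorem flatTangentAt_of_forall_not (p : ℕ) [Fact p.Prime] (ρbar : ResidualGaloisRep k)
    (h : ∀ c : LiftCocycle ρbar, (stdLift c).DetIsCyclotomic p → ¬ (stdLift c).IsFlatAt p) :
    FlatTangentAt p ρbar :=
  ⟨B1 p ρbar, inferInstance, (finrank_B1_le p ρbar).trans (by norm_num), le_rfl,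
    fun c hc hd => absurd hc (h c hd)⟩

/-- The hypotheses of the frozen statement S56 that the flat chain may use (`k` finite of
characteristic `p`, `p` odd, `det ρbar` cyclotomic, eigenvalues in `k`). -/
structure LocalHyp (p : ℕ) [Fact p.Prime] (ρbar : ResidualGaloisRep k) : Prop where
  odd : p ≠ 2
  fin : Finite k
  det : (GaloisRepAdic.ofResidualGaloisRep ρbar).DetIsCyclotomic p
  split : ∀ σ : GQ, ∃ α β : k, LinearMap.charpoly (ρbar.ρ σ) = (X - C α) * (X - C β)

/-- `ρbar` restricted to the decomposition group at `p` is reducible. -/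
def HasStableLine (p : ℕ) [Fact p.Prime] (ρbar : ResidualGaloisRep k) : Prop :=
  ∃ L : Submodule k ρbar.V, Module.finrank k ↥L = 1 ∧
    ∀ σ ∈ decP p, ∀ x ∈ L, ρbar.ρ σ x ∈ L

/-- FLAT-LOCAL, irreducible case (`ρbar|D_p` has no stable line). -/
def Stmt_FlatIrr : Prop :=
  ∀ (p : ℕ) [Fact p.Prime] (k : Type) [Field k] (ρbar : ResidualGaloisRep k),
    LocalHyp p ρbar → ¬ HasStableLine p ρbar → FlatTangentAt p ρbar

/-- FLAT-LOCAL, reducible case (`ρbar|D_p` has a stable line). -/
def Stmt_FlatRed : Prop :=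
  ∀ (p : ℕ) [Fact p.Prime] (k : Type) [Field k] (ρbar : ResidualGaloisRep k),
    LocalHyp p ρbar → HasStableLine p ρbar → FlatTangentAt p ρbar

/-- FLAT-LOCAL: the statement consumed by the count assembly. -/
def Stmt_FlatTangent : Prop :=
  ∀ (p : ℕ) [Fact p.Prime] (k : Type) [Field k] (ρbar : ResidualGaloisRep k),
    LocalHyp p ρbar → FlatTangentAt p ρbar

theorem stmt_FlatTangent_of (hI : Stmt_FlatIrr) (hR : Stmt_FlatRed) : Stmt_FlatTangent := by
  intro p _ k _ ρbar h
  by_cases hL : HasStableLine p ρbar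
  · exact hR p k ρbar h hL
  · exact hI p k ρbar h hL

end Fermat.Agent.S56.helper6366
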