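/-
S56, COUNT ASSEMBLY: generic adapters for the local leaves (node COUNT-ASM).  Author: helper2229.

The local leaves `LocLeaf p ρbar q P e` of `helper2229_Count` are statements about a subspace of
the S55 local carrier `H¹(ℚ_q, ad0 ρbar)`.  The local owners work with spaces of FUNCTIONS on the
decomposition group `helper6044.decomp q` of the frozen place over `q`.  This file converts:

* `locLeaf_of_Z`  (**𝔽_p-function-space form**): a finite-dimensional `𝔽_p`-space
  `locB1 ≤ Z ≤ locZ1` of functions `decomp q → ad0 p ρbar` with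
  `dim Z ≤ dim ad0 + e` containing the restrictions of the cocycles of type `P`;
* `locLeaf_of_LL` (**k-function-space form**, the shape of the captain's
  `helper6366.FlatTangentAt`): a finite-dimensional `k`-space `LL` of functions
  `decomp q → End_k V` with `dim_k LL ≤ 3 + e'`, containing the coboundaries of the trace-zero
  endomorphisms and the restrictions of the cocycles of type `P`; it gives
  `LocLeaf p ρbar q P (e' * [k : 𝔽_p])`;
* `stmt_LocFL_of` : `helper6366.Stmt_FlatTangent → Stmt_LocFL`.
-/
import Mathlib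
import Fermat.Agent.S56.helper2229_Count
import Fermat.Agent.S56.helper6366_FlatSpec

set_option autoImplicit false
set_option linter.style.haveILetI false

namespace Fermat.Agent.S56.helper2229

open Polynomial IsLocalRing Module groupCohomology ExtCitation
open Fermat.Agent.S55.helper2945 Fermat.Agent.S55.helper15
open Fermat.Agent.S56.helper6599

local notation "GQ" => (AlgebraicClosure ℚ ≃ₐ[ℚ] AlgebraicClosure ℚ)

section Adapters

variable (p : ℕ) [Fact p.Prime] {k : Type} [Field k] [Algebra (ZMod p) k]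
  (ρbar : ResidualGaloisRep k) (q : Nat.Primes)

/-- A field which is an `𝔽_p`-algebra, `p` odd, has `2 ≠ 0`. -/
theorem two_ne_zero_of_algebra (hp2 : p ≠ 2) : (2 : k) ≠ 0 := by
  have hp0 : (p : k) = 0 := natCast_eq_zero_of_algebra p
  intro h
  obtain ⟨m, hm⟩ := (Fact.out : p.Prime).eq_two_or_odd'.resolve_left hp2
  have h1 : (p : k) = 1 := by
    rw [hm]
    push_cast
    rw [h, zero_mul, zero_add]
  rw [hp0] at h1
  exact zero_ne_one h1

/-- **𝔽_p-function-space form of a local leaf.**  A finite-dimensional `𝔽_p`-space `Z` of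
functions on the decomposition group at `q` with values in `ad0 p ρbar`, between the coboundaries
and the level cocycles, of dimension at most `dim ad0 + e`, containing the restriction of every
lift cocycle of type `P`. -/
theorem locLeaf_of_Z [Finite k] (P : GaloisRepAdic (DualNumber k) → Prop) (e : ℕ)
    (Z : Submodule (ZMod p) (↥(helper6044.decomp q) → ad0 p ρbar))
    [FiniteDimensional (ZMod p) ↥Z]
    (hB : helper6044.locB1 (ad0 p ρbar) q ≤ Z) (hZ : Z ≤ helper6044.locZ1 (ad0 p ρbar) q)
    (hdim : finrank (ZMod p) ↥Z ≤ finrank (ZMod p) (ad0 p ρbar) + e)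
    (hmem : ∀ (c : LiftCocycle ρbar) (z : ↥(helper6044.locZ1 (ad0 p ρbar) q)),
      (∀ d : ↥(helper6044.decomp q), ad0Val p ρbar (z.1 d) = c.c (d : GQ)) →
      P (stdLift c) → z.1 ∈ Z) :
    LocLeaf p ρbar q P e := by
  haveI : FiniteDimensional (ZMod p) (ad0 p ρbar) := ad0_finite p ρbar
  refine ⟨helper6044.locSub (ad0 p ρbar) q Z, ?_,
    fun c z hz hP => helper6044.locClass_mem_locSub z (hmem c z hz hP)⟩
  have h3 := helper6044.finrank_locB1_add (ad0 p ρbar) q
  exact helper6044.finrank_locSub_le hB hZ (by omega)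

omit [Fact p.Prime] [Algebra (ZMod p) k] in
/-- The trace-zero endomorphisms of a 2-dimensional space form a 3-dimensional space (odd
characteristic). -/
theorem finrank_ker_trace (h2 : (2 : k) ≠ 0) :
    finrank k ↥(LinearMap.ker (LinearMap.trace k ρbar.V)) = 3 := by
  have h := LinearMap.finrank_range_add_finrank_ker (LinearMap.trace k ρbar.V)
  have h4 : finrank k (Module.End k ρbar.V) = 4 := helper6366.finrank_End ρbar
  have hr : LinearMap.range (LinearMap.trace k ρbar.V) = ⊤ := by
    rw [LinearMap.range_eq_top]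
    intro a
    refine ⟨(a / 2) • (1 : Module.End k ρbar.V), ?_⟩
    rw [map_smul, LinearMap.trace_one, ρbar.finrank_eq, smul_eq_mul]
    push_cast
    field_simp
  rw [hr, finrank_top, finrank_self, h4] at h
  omega

/-- `ad0 p ρbar` has `𝔽_p`-dimension `3 [k : 𝔽_p]` (odd characteristic). -/
theorem finrank_ad0 [Finite k] (h2 : (2 : k) ≠ 0) :
    finrank (ZMod p) (ad0 p ρbar) = 3 * finrank (ZMod p) k := by
  have hk : Nat.card k = p ^ finrank (ZMod p) k := natCard_eq_pow_finrank p k
  haveI : FiniteDimensional (ZMod p) (ad0 p ρbar) := ad0_finite p ρbar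
  have h1 : Nat.card (ad0 p ρbar) = p ^ finrank (ZMod p) (ad0 p ρbar) := by
    rw [Module.natCard_eq_pow_finrank (K := ZMod p) (V := ad0 p ρbar), Nat.card_zmod]
  have h4 : Nat.card ↥(LinearMap.ker (LinearMap.trace k ρbar.V)) = Nat.card k ^ 3 := by
    rw [Module.natCard_eq_pow_finrank (K := k)
      (V := ↥(LinearMap.ker (LinearMap.trace k ρbar.V))), finrank_ker_trace ρbar h2]
  have h5 : Nat.card (ad0 p ρbar) = Nat.card ↥(LinearMap.ker (LinearMap.trace k ρbar.V)) := rfl
  rw [h5, h4, hk, ← pow_mul] at h1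
  have h6 := Nat.pow_right_injective (Fact.out : p.Prime).two_le h1
  omega

/-- **k-function-space form of a local leaf** (the shape of `helper6366.FlatTangentAt`).
A finite-dimensional `k`-space `LL` of functions on the decomposition group at `q` with values
in `End_k V`, of dimension at most `3 + e'`, containing the coboundaries of the trace-zero
endomorphisms and the restriction of every lift cocycle of type `P`. -/
theorem locLeaf_of_LL [Finite k] (h2 : (2 : k) ≠ 0)
    (P : GaloisRepAdic (DualNumber k) → Prop) (e' : ℕ)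
    (LL : Submodule k (↥(helper6044.decomp q) → Module.End k ρbar.V)) [Module.Finite k ↥LL]
    (hdim : finrank k ↥LL ≤ 3 + e')
    (hB : ∀ X : Module.End k ρbar.V, LinearMap.trace k ρbar.V X = 0 →
      (fun σ : ↥(helper6044.decomp q) => ρbar.ρ (σ : GQ) * X * ρbar.ρ (σ : GQ)⁻¹ - X) ∈ LL)
    (hmem : ∀ c : LiftCocycle ρbar, P (stdLift c) →
      (fun σ : ↥(helper6044.decomp q) => c.c (σ : GQ)) ∈ LL) :
    LocLeaf p ρbar q P (e' * finrank (ZMod p) k) := by
  classical
  -- the `𝔽_p`-space of level cocycles with values in `LL`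
  let Z : Submodule (ZMod p) (↥(helper6044.decomp q) → ad0 p ρbar) :=
    { carrier := {z | z ∈ helper6044.locZ1 (ad0 p ρbar) q ∧
        (fun d => ad0Val p ρbar (z d)) ∈ LL}
      add_mem' := by
        rintro z z' ⟨h1, h2⟩ ⟨h1', h2'⟩
        refine ⟨Submodule.add_mem _ h1 h1', ?_⟩
        have h : (fun d => ad0Val p ρbar ((z + z') d))
            = (fun d => ad0Val p ρbar (z d)) + (fun d => ad0Val p ρbar (z' d)) := by
          funext d
          rw [Pi.add_apply, Pi.add_apply, map_add]
        rw [h]
        exact Submodule.add_mem _ h2 h2'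
      zero_mem' := by
        refine ⟨Submodule.zero_mem _, ?_⟩
        have h : (fun d => ad0Val p ρbar ((0 : ↥(helper6044.decomp q) → ad0 p ρbar) d))
            = 0 := by
          funext d
          rw [Pi.zero_apply, Pi.zero_apply, map_zero]
        rw [h]
        exact Submodule.zero_mem _
      smul_mem' := by
        rintro a z ⟨h1, h2⟩
        refine ⟨Submodule.smul_mem _ a h1, ?_⟩
        have h : (fun d => ad0Val p ρbar ((a • z) d))
            = algebraMap (ZMod p) k a • (fun d => ad0Val p ρbar (z d)) := by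
          funext d
          rw [Pi.smul_apply, Pi.smul_apply, ad0Val_smul]
        rw [h]
        exact Submodule.smul_mem _ _ h2 }
  have hZ : Z ≤ helper6044.locZ1 (ad0 p ρbar) q := fun z hz => hz.1
  have hBZ : helper6044.locB1 (ad0 p ρbar) q ≤ Z := by
    rintro _ ⟨m, rfl⟩
    refine ⟨helper6044.locB1_le_locZ1 q (ad0_smooth p ρbar) ⟨m, rfl⟩, ?_⟩
    exact hB (ad0Val p ρbar m) (trace_ad0Val p ρbar m)
  -- the injection `Z → LL`
  let ι : ↥Z → ↥LL := fun z => ⟨fun d => ad0Val p ρbar (z.1 d), z.2.2⟩
  have hι : Function.Injective ι := by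
    intro z z' h
    apply Subtype.ext
    funext d
    exact ad0Val_injective p ρbar (congrFun (congrArg Subtype.val h) d)
  haveI : Finite ↥LL := Module.finite_of_finite k
  haveI : Finite ↥Z := Finite.of_injective ι hι
  haveI : FiniteDimensional (ZMod p) ↥Z := Module.Finite.of_finite
  have hcard : Nat.card ↥Z ≤ Nat.card ↥LL := Nat.card_le_card_of_injective ι hι
  have hk : Nat.card k = p ^ finrank (ZMod p) k := natCard_eq_pow_finrank p k
  rw [Module.natCard_eq_pow_finrank (K := ZMod p) (V := ↥Z), Nat.card_zmod,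
    Module.natCard_eq_pow_finrank (K := k) (V := ↥LL), hk, ← pow_mul] at hcard
  have hle : finrank (ZMod p) ↥Z ≤ finrank (ZMod p) k * finrank k ↥LL :=
    (Nat.pow_le_pow_iff_right (Fact.out : p.Prime).one_lt).1 hcard
  refine locLeaf_of_Z p ρbar q P _ Z hBZ hZ ?_ (fun c z hz hP => ⟨z.2, ?_⟩)
  · rw [finrank_ad0 p ρbar h2]
    calc finrank (ZMod p) ↥Z ≤ finrank (ZMod p) k * finrank k ↥LL := hle
      _ ≤ finrank (ZMod p) k * (3 + e') := Nat.mul_le_mul_left _ hdim
      _ = 3 * finrank (ZMod p) k + e' * finrank (ZMod p) k := by ring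
  · have h' : (fun d => ad0Val p ρbar (z.1 d))
        = fun σ : ↥(helper6044.decomp q) => c.c (σ : GQ) := funext hz
    rw [h']
    exact hmem c hP

end Adapters

/-- **The flat leaf from the captain's FLAT SPEC.** -/
theorem stmt_LocFL_of (h : helper6366.Stmt_FlatTangent) : Stmt_LocFL := by
  intro p _ k _ _ _ ρbar hp2 _ hdet hsplit
  obtain ⟨LL, hfin, hdim, hB, hmem⟩ := h p k ρbar ⟨hp2, inferInstance, hdet, hsplit⟩
  have h2 : (2 : k) ≠ 0 := two_ne_zero_of_algebra p hp2
  -- `helper6366.decP p` is `helper6044.decomp (pPrime p)` (the same place of `ℚ̄` over `p`)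
  obtain ⟨LL', hLL'⟩ : ∃ LL' : Submodule k
      (↥(helper6044.decomp (pPrime p)) → Module.End k ρbar.V), LL' = LL := ⟨LL, rfl⟩
  have hfin' : Module.Finite k ↥LL' := by rw [hLL']; exact hfin
  have hdim' : finrank k ↥LL' ≤ 3 + 1 := by rw [hLL']; exact hdim.trans (by norm_num)
  have key := locLeaf_of_LL p ρbar (pPrime p) h2
    (fun ρ => ρ.DetIsCyclotomic p ∧ ρ.IsFlatAt p) 1 LL' hdim'
    (fun X _ => by rw [hLL']; exact hB ⟨X, rfl⟩)
    (fun c hc => by rw [hLL']; exact hmem c hc.2 hc.1)
  rwa [one_mul] at key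

end Fermat.Agent.S56.helper2229
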