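import Mathlib

/-!
# S56 / R1 (helper245): the tame local count, abstract core

`D` a group (decomposition group), `I` a normal subgroup (inertia), `φ : D` (a Frobenius),
`ρ : Representation k D M` over a field `k`, `M` finite dimensional.

Cocycles `c : D → M` (`IsCoc`) satisfying the local condition

  `(loc)`  `c σ ∈ range (ρ σ - 1)` for every `σ ∈ I` with `ρ σ ≠ 1`

form, modulo coboundaries, a space of dimension at most `dim M^D`, as soon as `I` acts
nontrivially on `M` and the pair (`ρ`, cocycles) sees `I` as a cyclic group and `D` as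
generated by `I` and `φ`.  The statement is given in the carrier-free *dependence form*: any
family of more than `dim M^D` such cocycles has a nontrivial linear combination which is a
coboundary.

* `exists_dependence_of_joint` : joint form, no levels and no characteristic: the hypotheses
  `(cyc)` and `(gen)` are stated for the values of `ρ` and of the cocycles.
* `exists_dependence` : level form, `char k = p`: a directed family `Lev` of subgroups acting
  trivially on `M`; at every level `D = ⟨φ⟩ I U` and `I` is, modulo `U`, generated by one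
  element and elements of order prime to `p`; `I` acts on `M` through a group of exponent `p`.

This is the local count `dim L_q ≤ h⁰(D_q, ad⁰ ρ̄)` at the primes `q ≠ p` of `Smin` needed for the
Taylor–Wiles numerics (unipotent-on-inertia deformations are unramified up to coboundary).
-/

set_option autoImplicit false

namespace Fermat.Agent.S56.helper245

open Module

section Core

variable {D : Type*} [Group D] {k : Type*} [Field k] {M : Type*} [AddCommGroup M] [Module k M]

/-- `c : D → M` is a 1-cocycle for the representation `ρ`. -/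
def IsCoc (ρ : Representation k D M) (c : D → M) : Prop :=
  ∀ g h : D, c (g * h) = c g + ρ g (c h)

/-- `c : D → M` is right invariant under the subgroup `U`. -/
def IsRInv (U : Subgroup D) (c : D → M) : Prop :=
  ∀ (g u : D), u ∈ U → c (g * u) = c g

theorem IsCoc.map_one {ρ : Representation k D M} {c : D → M} (hc : IsCoc ρ c) : c 1 = 0 := by
  have h := hc 1 1
  rw [mul_one, _root_.map_one, Module.End.one_apply] at h
  have h2 : c 1 + c 1 = c 1 + 0 := by rw [add_zero]; exact h.symm
  exact add_left_cancel h2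

theorem IsRInv.apply_mem {U : Subgroup D} {ρ : Representation k D M} {c : D → M}
    (hcU : IsRInv U c) (hc : IsCoc ρ c) {u : D} (hu : u ∈ U) : c u = 0 := by
  have h := hcU 1 u hu
  rw [one_mul] at h
  rw [h]
  exact hc.map_one

omit [AddCommGroup M] in
theorem IsRInv.mono {U V : Subgroup D} {c : D → M} (hcU : IsRInv U c) (h : V ≤ U) :
    IsRInv V c := fun g u hu => hcU g u (h hu)

/-- The coboundary of `m`. -/
def cob (ρ : Representation k D M) (m : M) : D → M := fun g => ρ g m - m

theorem isCoc_cob (ρ : Representation k D M) (m : M) : IsCoc ρ (cob ρ m) := by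
  intro g h
  simp only [cob, map_mul, Module.End.mul_apply, map_sub]
  abel

theorem isRInv_cob (ρ : Representation k D M) (m : M) {U : Subgroup D}
    (hU : ∀ u ∈ U, ρ u = 1) : IsRInv U (cob ρ m) := by
  intro g u hu
  simp only [cob, map_mul, hU u hu, mul_one]

theorem IsCoc.sub {ρ : Representation k D M} {c c' : D → M} (hc : IsCoc ρ c)
    (hc' : IsCoc ρ c') : IsCoc ρ (fun g => c g - c' g) := by
  intro g h
  simp only [hc g h, hc' g h, map_sub]
  abel

theorem IsRInv.sub {U : Subgroup D} {c c' : D → M} (hc : IsRInv U c)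
    (hc' : IsRInv U c') : IsRInv U (fun g => c g - c' g) := by
  intro g u hu
  simp only [hc g u hu, hc' g u hu]

theorem isCoc_sum {ρ : Representation k D M} {ι : Type*} (s : Finset ι) (a : ι → k)
    (c : ι → D → M) (hc : ∀ i, IsCoc ρ (c i)) :
    IsCoc ρ (fun g => ∑ i ∈ s, a i • c i g) := by
  intro g h
  simp only [hc _ g h, smul_add, Finset.sum_add_distrib, map_sum, map_smul]

theorem isRInv_sum {U : Subgroup D} {ι : Type*} (s : Finset ι) (a : ι → k)
    (c : ι → D → M) (hc : ∀ i, IsRInv U (c i)) :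
    IsRInv U (fun g => ∑ i ∈ s, a i • c i g) := by
  intro g u hu
  simp only [hc _ g u hu]

theorem IsCoc.apply_pow_eq_zero {ρ : Representation k D M} {c : D → M} (hc : IsCoc ρ c)
    {s : D} (hs : c s = 0) (j : ℕ) : c (s ^ j) = 0 := by
  induction j with
  | zero => rw [pow_zero]; exact hc.map_one
  | succ j ih => rw [pow_succ, hc, ih, hs, map_zero, add_zero]

theorem IsCoc.apply_pow_of_trivial {ρ : Representation k D M} {c : D → M} (hc : IsCoc ρ c)
    {x : D} (hx : ρ x = 1) (n : ℕ) : c (x ^ n) = n • c x := by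
  induction n with
  | zero => rw [pow_zero, zero_smul]; exact hc.map_one
  | succ n ih => rw [pow_succ', hc, ih, hx, Module.End.one_apply, succ_nsmul, add_comm]

/-- The value at `φ` of a cocycle vanishing on the normal subgroup `I` is
`I`-invariant. -/
theorem apply_mem_of_vanish (ρ : Representation k D M) (I : Subgroup D) [I.Normal]
    (c : D → M) (hc : IsCoc ρ c) (hcI : ∀ σ ∈ I, c σ = 0) (φ : D) :
    ∀ σ ∈ I, ρ σ (c φ) = c φ := by
  intro σ hσ
  have h1 := hc σ φ
  rw [hcI σ hσ, zero_add] at h1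
  have hconj : φ⁻¹ * σ * φ ∈ I := by
    have := Subgroup.Normal.conj_mem (inferInstance : I.Normal) σ hσ φ⁻¹
    rwa [inv_inv] at this
  have h2 := hc φ (φ⁻¹ * σ * φ)
  rw [hcI _ hconj, map_zero, add_zero] at h2
  have h3 : φ * (φ⁻¹ * σ * φ) = σ * φ := by group
  rw [h3] at h2
  rw [← h1, h2]

/-- The `I`-invariants of `M`. -/
def invOn (ρ : Representation k D M) (I : Subgroup D) : Submodule k M where
  carrier := {m | ∀ σ ∈ I, ρ σ m = m}
  add_mem' := fun {a b} ha hb σ hσ => by rw [map_add, ha σ hσ, hb σ hσ]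
  zero_mem' := fun σ _ => map_zero _
  smul_mem' := fun r a ha σ hσ => by rw [map_smul, ha σ hσ]

theorem mem_invOn {ρ : Representation k D M} {I : Subgroup D} {m : M} :
    m ∈ invOn ρ I ↔ ∀ σ ∈ I, ρ σ m = m := Iff.rfl

theorem map_mem_invOn (ρ : Representation k D M) (I : Subgroup D) [I.Normal] (φ : D)
    {m : M} (hm : m ∈ invOn ρ I) : ρ φ m ∈ invOn ρ I := by
  intro σ hσ
  have hconj : φ⁻¹ * σ * φ ∈ I := by
    have := Subgroup.Normal.conj_mem (inferInstance : I.Normal) σ hσ φ⁻¹
    rwa [inv_inv] at this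
  have h3 : σ * φ = φ * (φ⁻¹ * σ * φ) := by group
  rw [← Module.End.mul_apply, ← map_mul, h3, map_mul, Module.End.mul_apply, hm _ hconj]

/-- The endomorphism `ρ φ - 1` of the `I`-invariants. -/
def frobSub (ρ : Representation k D M) (I : Subgroup D) [I.Normal] (φ : D) :
    invOn ρ I →ₗ[k] invOn ρ I :=
  LinearMap.restrict (ρ φ - 1) (p := invOn ρ I) (q := invOn ρ I) (fun m hm => by
    rw [LinearMap.sub_apply, Module.End.one_apply]
    exact Submodule.sub_mem _ (map_mem_invOn ρ I φ hm) hm)

theorem frobSub_apply (ρ : Representation k D M) (I : Subgroup D) [I.Normal] (φ : D)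
    (m : invOn ρ I) : (frobSub ρ I φ m : M) = ρ φ (m : M) - m := rfl

theorem finrank_ker_frobSub_le (ρ : Representation k D M) [FiniteDimensional k M]
    (I : Subgroup D) [I.Normal] (φ : D)
    (hgen : ∀ g : D, ∃ n : ℕ, ∃ σ ∈ I, ρ g = ρ (φ ^ n * σ)) :
    finrank k (LinearMap.ker (frobSub ρ I φ)) ≤ finrank k ρ.invariants := by
  have hle : (LinearMap.ker (frobSub ρ I φ)).map (invOn ρ I).subtype ≤ ρ.invariants := by
    rintro _ ⟨m, hm, rfl⟩
    rw [SetLike.mem_coe, LinearMap.mem_ker] at hm
    have hφ : ρ φ (m : M) = m := by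
      have := congrArg Subtype.val hm
      rw [frobSub_apply, Submodule.coe_zero, sub_eq_zero] at this
      exact this
    rw [Representation.mem_invariants]
    intro g
    obtain ⟨j, i, hi, hg⟩ := hgen g
    rw [hg, map_mul, map_pow, Module.End.mul_apply, Submodule.subtype_apply, m.2 i hi]
    have hpow : ∀ j : ℕ, (ρ φ ^ j) (m : M) = m := by
      intro j
      induction j with
      | zero => rw [pow_zero, Module.End.one_apply]
      | succ j ih => rw [pow_succ, Module.End.mul_apply, hφ, ih]
    exact hpow j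
  calc finrank k (LinearMap.ker (frobSub ρ I φ))
      = finrank k ((LinearMap.ker (frobSub ρ I φ)).map (invOn ρ I).subtype) :=
        (LinearEquiv.finrank_eq (Submodule.equivMapOfInjective _
          (Submodule.injective_subtype _) _))
    _ ≤ finrank k ρ.invariants := Submodule.finrank_mono hle

/-- **The tame local count, joint form (no levels, no characteristic).**

`I` normal in `D`, acting nontrivially on `M`.  A finite family of cocycles `c i` with the local
condition `(loc)`, such that *jointly* for `ρ` and all the `c i`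

* `(cyc)` there is `s ∈ I` with: every `σ ∈ I` behaves like a power `s ^ n`;
* `(gen)` every `g : D` behaves like some `φ ^ n * σ`, `σ ∈ I`.

If the family has more than `dim M^D` members, a nontrivial linear combination is a
coboundary. -/
theorem exists_dependence_of_joint (ρ : Representation k D M) [FiniteDimensional k M]
    (I : Subgroup D) [I.Normal] (φ : D) (hnt : ∃ σ ∈ I, ρ σ ≠ 1)
    {ι : Type*} [Fintype ι] (c : ι → D → M) (hc : ∀ i, IsCoc ρ (c i))
    (hloc : ∀ i, ∀ σ ∈ I, ρ σ ≠ 1 → ∃ m, c i σ = ρ σ m - m)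
    (hcyc : ∃ s ∈ I, ∀ σ ∈ I, ∃ n : ℕ, ρ σ = ρ (s ^ n) ∧ ∀ i, c i σ = c i (s ^ n))
    (hgen : ∀ g : D, ∃ n : ℕ, ∃ σ ∈ I, ρ g = ρ (φ ^ n * σ) ∧ ∀ i, c i g = c i (φ ^ n * σ))
    (hcard : finrank k ρ.invariants < Fintype.card ι) :
    ∃ a : ι → k, a ≠ 0 ∧ ∃ m : M, ∀ g, ∑ i, a i • c i g = ρ g m - m := by
  classical
  obtain ⟨s, hsI, hs⟩ := hcyc
  have hρs : ρ s ≠ 1 := by
    intro h
    obtain ⟨σ₀, hσ₀I, hσ₀⟩ := hnt
    obtain ⟨n, hn, -⟩ := hs σ₀ hσ₀I
    apply hσ₀
    rw [hn, map_pow, h, one_pow]
  -- Step 1: correct every member by a coboundary so that it vanishes on `I`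
  have h1 : ∀ i, ∃ m : M, c i s = ρ s m - m := fun i => hloc i s hsI hρs
  choose m hm using h1
  obtain ⟨c', hc'def⟩ : ∃ c' : ι → D → M, ∀ i g, c' i g = c i g - cob ρ (m i) g :=
    ⟨_, fun _ _ => rfl⟩
  have hc' : ∀ i, IsCoc ρ (c' i) := by
    intro i g h
    have := ((hc i).sub (isCoc_cob ρ (m i))) g h
    rw [hc'def, hc'def, hc'def]
    exact this
  have hc's : ∀ i, c' i s = 0 := by
    intro i
    rw [hc'def]
    show c i s - (ρ s (m i) - m i) = 0
    rw [hm, sub_self]
  have hc'I : ∀ i, ∀ σ ∈ I, c' i σ = 0 := by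
    intro i σ hσ
    obtain ⟨n, hρn, hcn⟩ := hs σ hσ
    have h0 := (hc' i).apply_pow_eq_zero (hc's i) n
    rw [hc'def] at h0 ⊢
    show c i σ - (ρ σ (m i) - m i) = 0
    rw [hρn, hcn i]
    exact h0
  -- their values at φ, in the I-invariants
  let w : ι → invOn ρ I := fun i =>
    ⟨c' i φ, apply_mem_of_vanish ρ I (c' i) (hc' i) (hc'I i) φ⟩
  -- dimension count
  have hfin : finrank k (invOn ρ I ⧸ LinearMap.range (frobSub ρ I φ)) ≤
      finrank k ρ.invariants := by
    have e1 := Submodule.finrank_quotient_add_finrank (LinearMap.range (frobSub ρ I φ))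
    have e2 := LinearMap.finrank_range_add_finrank_ker (frobSub ρ I φ)
    have e3 := finrank_ker_frobSub_le ρ I φ (fun g => by
      obtain ⟨n, σ, hσ, hg, -⟩ := hgen g
      exact ⟨n, σ, hσ, hg⟩)
    omega
  have hdep : ¬ LinearIndependent k
      (fun i => (LinearMap.range (frobSub ρ I φ)).mkQ (w i)) := by
    intro hli
    have := hli.fintype_card_le_finrank
    omega
  rw [Fintype.not_linearIndependent_iff] at hdep
  obtain ⟨a, ha, i₁, hi₁⟩ := hdep
  refine ⟨a, fun h0 => hi₁ (by rw [h0]; rfl), ?_⟩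
  have hmem : ∑ i, a i • w i ∈ LinearMap.range (frobSub ρ I φ) := by
    rw [← Submodule.Quotient.mk_eq_zero, ← Submodule.mkQ_apply, map_sum]
    simpa only [map_smul] using ha
  obtain ⟨m', hm'⟩ := hmem
  -- the combination of corrected cocycles minus the coboundary of m' vanishes
  obtain ⟨c'', hc''def⟩ : ∃ c'' : D → M, ∀ g, c'' g = (∑ i, a i • c' i g) - cob ρ (m' : M) g :=
    ⟨_, fun _ => rfl⟩
  have hcoc : IsCoc ρ c'' := by
    intro g h
    have := ((isCoc_sum Finset.univ a c' hc').sub (isCoc_cob ρ (m' : M))) g h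
    rw [hc''def, hc''def, hc''def]
    exact this
  have hvI : ∀ σ ∈ I, c'' σ = 0 := by
    intro σ hσ
    rw [hc''def]
    show (∑ i, a i • c' i σ) - (ρ σ (m' : M) - m') = 0
    rw [m'.2 σ hσ, sub_self, sub_zero]
    exact Finset.sum_eq_zero fun i _ => by rw [hc'I i σ hσ, smul_zero]
  have hvφ : c'' φ = 0 := by
    rw [hc''def]
    show (∑ i, a i • c' i φ) - (ρ φ (m' : M) - m') = 0
    have := congrArg Subtype.val hm'
    rw [frobSub_apply] at this
    rw [this, sub_eq_zero]
    simp [w]
  have hexp : ∀ g, c'' g = (∑ i, a i • (c i g - (ρ g (m i) - m i))) - (ρ g (m' : M) - m') := by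
    intro g
    rw [hc''def]
    simp only [hc'def, cob]
  have hzero : ∀ g, c'' g = 0 := by
    intro g
    obtain ⟨n, σ, hσ, hρg, hcg⟩ := hgen g
    have e1 : c'' g = c'' (φ ^ n * σ) := by
      rw [hexp, hexp, hρg]
      simp only [hcg]
    rw [e1, hcoc, hvI σ hσ, map_zero, add_zero, hcoc.apply_pow_eq_zero hvφ]
  refine ⟨(m' : M) + ∑ i, a i • m i, fun g => ?_⟩
  have hg := hzero g
  rw [hexp, sub_eq_zero] at hg
  have hsplit : ∑ i, a i • c i g =
      (∑ i, a i • (c i g - (ρ g (m i) - m i))) + ∑ i, a i • (ρ g (m i) - m i) := by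
    rw [← Finset.sum_add_distrib]
    refine Finset.sum_congr rfl fun i _ => ?_
    rw [← smul_add, sub_add_cancel]
  rw [hsplit, hg]
  simp only [map_add, map_sum, map_smul, smul_sub, Finset.sum_sub_distrib]
  abel

/-- **The tame local count, level form.**  `Lev` a directed family of subgroups acting trivially
on `M` (`char k = p`) such that at every level `D = ⟨φ⟩ I U` and `I` is, modulo `U`, generated
by one element and elements of order prime to `p`; `I` acts on `M` through a nontrivial group of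
exponent `p`.  More than `dim M^D` level cocycles satisfying the local condition have a nontrivial
linear combination which is a coboundary. -/
theorem exists_dependence (ρ : Representation k D M) [FiniteDimensional k M]
    (p : ℕ) [Fact p.Prime] [CharP k p]
    (I : Subgroup D) [I.Normal] (φ : D) (Lev : Set (Subgroup D))
    (hLevρ : ∀ U ∈ Lev, ∀ u ∈ U, ρ u = 1)
    (hLevdir : ∀ U ∈ Lev, ∀ V ∈ Lev, ∃ W ∈ Lev, W ≤ U ⊓ V)
    (hgen : ∀ U ∈ Lev, ∀ g : D, ∃ j : ℕ, ∃ i ∈ I, ∃ u ∈ U, g = φ ^ j * i * u)
    (htame : ∀ U ∈ Lev, ∃ s ∈ I, ∀ σ ∈ I, ∃ x ∈ I, ∃ j n : ℕ,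
      ¬ p ∣ n ∧ x ^ n ∈ U ∧ σ = x * s ^ j)
    (hunip : ∀ σ ∈ I, ρ σ ^ p = 1) (hnt : ∃ σ ∈ I, ρ σ ≠ 1)
    {ι : Type*} [Fintype ι] (c : ι → D → M)
    (hc : ∀ i, IsCoc ρ (c i)) (hcLev : ∀ i, ∃ U ∈ Lev, IsRInv U (c i))
    (hloc : ∀ i, ∀ σ ∈ I, ρ σ ≠ 1 → ∃ m, c i σ = ρ σ m - m)
    (hcard : finrank k ρ.invariants < Fintype.card ι) :
    ∃ a : ι → k, a ≠ 0 ∧ ∃ m : M, ∀ g, ∑ i, a i • c i g = ρ g m - m := by
  classical
  -- a common level
  have hne : Nonempty ι := by
    rcases isEmpty_or_nonempty ι with h | h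
    · rw [Fintype.card_eq_zero] at hcard; exact absurd hcard (Nat.not_lt_zero _)
    · exact h
  obtain ⟨i₀⟩ := hne
  have hcommon : ∀ s : Finset ι, ∃ U ∈ Lev, ∀ i ∈ s, IsRInv U (c i) := by
    intro s
    induction s using Finset.induction_on with
    | empty =>
      obtain ⟨U, hU, -⟩ := hcLev i₀
      exact ⟨U, hU, fun i hi => absurd hi (Finset.notMem_empty i)⟩
    | insert a s _ ih =>
      obtain ⟨U, hU, hUs⟩ := ih
      obtain ⟨V, hV, hVa⟩ := hcLev a
      obtain ⟨W, hW, hWle⟩ := hLevdir U hU V hV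
      refine ⟨W, hW, fun i hi => ?_⟩
      rcases Finset.mem_insert.mp hi with rfl | hi
      · exact hVa.mono (hWle.trans inf_le_right)
      · exact (hUs i hi).mono (hWle.trans inf_le_left)
  obtain ⟨U, hULev, hcU⟩ := hcommon Finset.univ
  have hcU' : ∀ i, IsRInv U (c i) := fun i => hcU i (Finset.mem_univ i)
  have hU := hLevρ U hULev
  refine exists_dependence_of_joint ρ I φ hnt c hc hloc ?_ ?_ hcard
  · obtain ⟨s, hsI, hs⟩ := htame U hULev
    refine ⟨s, hsI, fun σ hσ => ?_⟩
    obtain ⟨x, hx, j, n, hn, hxn, rfl⟩ := hs σ hσ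
    have hρx : ρ x = 1 := by
      have h1 : ρ x ^ n = 1 := by rw [← map_pow]; exact hU _ hxn
      have h2 := hunip x hx
      have h3 : ρ x ^ Nat.gcd n p = 1 := pow_gcd_eq_one.mpr ⟨h1, h2⟩
      have hcop : Nat.gcd n p = 1 := by
        have := (Nat.Prime.coprime_iff_not_dvd (Fact.out : p.Prime)).mpr hn
        exact Nat.Coprime.symm this
      rwa [hcop, pow_one] at h3
    refine ⟨j, by rw [map_mul, hρx, one_mul], fun i => ?_⟩
    have hx0 : c i x = 0 := by
      have h1 := (hc i).apply_pow_of_trivial hρx n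
      rw [(hcU' i).apply_mem (hc i) hxn] at h1
      have h2 : (n : k) • c i x = 0 := by
        rw [Nat.cast_smul_eq_nsmul]; exact h1.symm
      have hn0 : (n : k) ≠ 0 := by
        rw [Ne, CharP.cast_eq_zero_iff k p]; exact hn
      exact (smul_eq_zero.mp h2).resolve_left hn0
    rw [hc i, hx0, zero_add, hρx, Module.End.one_apply]
  · intro g
    obtain ⟨j, i, hi, u, hu, rfl⟩ := hgen U hULev g
    refine ⟨j, i, hi, by rw [map_mul, hU u hu, mul_one], fun i' => ?_⟩
    rw [hcU' i' _ u hu]

end Core

section Affine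

variable {D : Type*} [Group D] {k : Type*} [Field k] {M : Type*} [AddCommGroup M] [Module k M]

/-- The affine transformations `(m, f) ↦ (ρ g m, ρ g ∘ f + c · g)` of `M × (ι → M)` attached to a
family of cocycles: a monoid hom remembering exactly `ρ g` and all the `c i g`. -/
def affMonoidHom (ρ : Representation k D M) {ι : Type*} (c : ι → D → M)
    (hc : ∀ i, IsCoc ρ (c i)) : D →* Function.End (M × (ι → M)) where
  toFun g := fun x => (ρ g x.1, fun i => ρ g (x.2 i) + c i g)
  map_one' := by
    funext x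
    refine Prod.ext ?_ ?_
    · show ρ 1 x.1 = x.1
      rw [_root_.map_one, Module.End.one_apply]
    · funext i
      show ρ 1 (x.2 i) + c i 1 = x.2 i
      rw [_root_.map_one, Module.End.one_apply, (hc i).map_one, add_zero]
  map_mul' g h := by
    funext x
    refine Prod.ext ?_ ?_
    · show ρ (g * h) x.1 = ρ g (ρ h x.1)
      rw [map_mul, Module.End.mul_apply]
    · funext i
      show ρ (g * h) (x.2 i) + c i (g * h) = ρ g (ρ h (x.2 i) + c i h) + c i g
      rw [map_mul, Module.End.mul_apply, hc i g h, map_add]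
      abel

/-- The group-valued version of `affMonoidHom`. -/
def affHom (ρ : Representation k D M) {ι : Type*} (c : ι → D → M)
    (hc : ∀ i, IsCoc ρ (c i)) : D →* (Function.End (M × (ι → M)))ˣ :=
  (affMonoidHom ρ c hc).toHomUnits

theorem affHom_eq_iff (ρ : Representation k D M) {ι : Type*} (c : ι → D → M)
    (hc : ∀ i, IsCoc ρ (c i)) (g g' : D) :
    affHom ρ c hc g = affHom ρ c hc g' ↔ ρ g = ρ g' ∧ ∀ i, c i g = c i g' := by
  constructor
  · intro h
    have h1 : affMonoidHom ρ c hc g = affMonoidHom ρ c hc g' := by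
      have := congrArg Units.val h
      exact this
    have h2 : ∀ x : M × (ι → M), (ρ g x.1, fun i => ρ g (x.2 i) + c i g) =
        (ρ g' x.1, fun i => ρ g' (x.2 i) + c i g') := fun x => congrFun h1 x
    refine ⟨LinearMap.ext fun m => ?_, fun i => ?_⟩
    · exact congrArg Prod.fst (h2 (m, 0))
    · have := congrFun (congrArg Prod.snd (h2 (0, 0))) i
      simpa using this
  · rintro ⟨h1, h2⟩
    apply Units.ext
    show affMonoidHom ρ c hc g = affMonoidHom ρ c hc g'
    funext x
    show (ρ g x.1, fun i => ρ g (x.2 i) + c i g) = (ρ g' x.1, fun i => ρ g' (x.2 i) + c i g')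
    rw [h1]
    simp only [h2]

theorem affHom_eq_one_iff (ρ : Representation k D M) {ι : Type*} (c : ι → D → M)
    (hc : ∀ i, IsCoc ρ (c i)) (g : D) :
    affHom ρ c hc g = 1 ↔ ρ g = 1 ∧ ∀ i, c i g = 0 := by
  rw [← _root_.map_one (affHom ρ c hc), affHom_eq_iff, _root_.map_one]
  simp only [(hc _).map_one]

/-- In characteristic `p`, an element acting on `M` with `p`-power-trivial action has
`affHom`-image of order dividing `p ^ 2`. -/
theorem affHom_pow_sq_eq_one (ρ : Representation k D M) (p : ℕ) [CharP k p] {ι : Type*}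
    (c : ι → D → M) (hc : ∀ i, IsCoc ρ (c i)) {σ : D} (hσ : ρ σ ^ p = 1) :
    affHom ρ c hc σ ^ (p ^ 2) = 1 := by
  rw [← map_pow, affHom_eq_one_iff]
  have h1 : ρ (σ ^ p) = 1 := by rw [map_pow, hσ]
  refine ⟨by rw [pow_two, pow_mul, map_pow, h1, one_pow], fun i => ?_⟩
  rw [pow_two, pow_mul, (hc i).apply_pow_of_trivial h1, ← Nat.cast_smul_eq_nsmul k,
    CharP.cast_eq_zero, zero_smul]

end Affine

section LinAlg

open Polynomial Matrix

variable {k : Type*} [Field k] {V : Type*} [AddCommGroup V] [Module k V]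

/-- A nontrivial unipotent endomorphism of a plane is `!![1, 1; 0, 1]` in a suitable basis. -/
theorem exists_algEquiv_unipotent (hV : finrank k V = 2) (u : Module.End k V)
    (hu : (u - 1) ^ 2 = 0) (hu1 : u ≠ 1) :
    ∃ T : Module.End k V ≃ₐ[k] Matrix (Fin 2) (Fin 2) k, T u = !![1, 1; 0, 1] ∧
      ∀ f : Module.End k V, LinearMap.trace k V f = Matrix.trace (T f) := by
  classical
  have hfin : FiniteDimensional k V := Module.finite_of_finrank_eq_succ hV
  obtain ⟨e₂, he₂⟩ : ∃ e₂, (u - 1) e₂ ≠ 0 := by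
    by_contra h
    push Not at h
    apply hu1
    ext e
    have := h e
    rw [LinearMap.sub_apply, Module.End.one_apply, sub_eq_zero] at this
    rw [this, Module.End.one_apply]
  obtain ⟨e₁, he₁⟩ : ∃ e₁, e₁ = (u - 1) e₂ := ⟨_, rfl⟩
  have he₁0 : e₁ ≠ 0 := he₁ ▸ he₂
  have hNe₁ : (u - 1) e₁ = 0 := by
    have := congrArg (fun f : Module.End k V => f e₂) hu
    rw [he₁]
    simpa [pow_two, Module.End.mul_apply] using this
  have hli : LinearIndependent k ![e₁, e₂] := by
    rw [LinearIndependent.pair_iff]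
    intro a b hab
    have h1 := congrArg (fun w => (u - 1 : Module.End k V) w) hab
    rw [map_add, map_smul, map_smul, hNe₁, smul_zero, zero_add, map_zero, ← he₁] at h1
    have hb : b = 0 := (smul_eq_zero.mp h1).resolve_right he₁0
    rw [hb, zero_smul, add_zero] at hab
    exact ⟨(smul_eq_zero.mp hab).resolve_right he₁0, hb⟩
  let b : Basis (Fin 2) k V :=
    basisOfLinearIndependentOfCardEqFinrank hli (by rw [Fintype.card_fin, hV])
  have hb0 : b 0 = e₁ := by simp [b]
  have hb1 : b 1 = e₂ := by simp [b]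
  have hue₁ : u (b 0) = b 0 := by
    have := hNe₁
    rw [LinearMap.sub_apply, Module.End.one_apply, sub_eq_zero] at this
    rw [hb0]; exact this
  have hue₂ : u (b 1) = b 0 + b 1 := by
    rw [hb0, hb1, he₁, LinearMap.sub_apply, Module.End.one_apply]; abel
  refine ⟨LinearMap.toMatrixAlgEquiv b, ?_, fun f => LinearMap.trace_eq_matrix_trace k b f⟩
  ext i j
  rw [LinearMap.toMatrixAlgEquiv_apply]
  fin_cases i <;> fin_cases j <;> simp [hue₁, hue₂]

set_option linter.unnecessarySeqFocus false in
/-- **Lemma C1.**  `V` of dimension 2 over a field in which `2 ≠ 0`, `u` a nontrivial unipotent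
endomorphism with inverse `v`.  A trace-zero endomorphism `x` with `tr (x u) = 0` is of the form
`u m u⁻¹ - m` with `m` of trace zero. -/
theorem exists_trace_zero_conj_sub (hV : finrank k V = 2) (h2 : (2 : k) ≠ 0)
    (u v : Module.End k V) (huv : u * v = 1) (hu : (u - 1) ^ 2 = 0) (hu1 : u ≠ 1)
    (x : Module.End k V) (hx : LinearMap.trace k V x = 0)
    (hxu : LinearMap.trace k V (x * u) = 0) :
    ∃ m : Module.End k V, LinearMap.trace k V m = 0 ∧ x = u * m * v - m := by
  obtain ⟨T, hU, htr⟩ := exists_algEquiv_unipotent hV u hu hu1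
  have hW : T v = !![1, -1; 0, 1] := by
    have h1 : T u * T v = 1 := by rw [← map_mul, huv, map_one]
    have h2' : (!![1, -1; 0, 1] : Matrix (Fin 2) (Fin 2) k) * T u = 1 := by
      rw [hU]
      ext i j
      fin_cases i <;> fin_cases j <;> simp
    calc T v = (!![1, -1; 0, 1] * T u) * T v := by rw [h2', one_mul]
      _ = !![1, -1; 0, 1] := by rw [mul_assoc, h1, mul_one]
  have hx' : T x 0 0 + T x 1 1 = 0 := by
    have := hx
    rw [htr, Matrix.trace_fin_two] at this
    exact this
  have hxu' : T x 1 0 = 0 := by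
    have := hxu
    rw [htr, map_mul, hU, Matrix.trace_fin_two] at this
    simp [Matrix.mul_apply, Fin.sum_univ_two] at this
    linear_combination this - hx'
  obtain ⟨a, ha⟩ : ∃ a, a = T x 0 0 := ⟨_, rfl⟩
  obtain ⟨c, hc⟩ : ∃ c, c = T x 0 1 := ⟨_, rfl⟩
  have hx11 : T x 1 1 = -a := by rw [ha]; linear_combination hx'
  let Mm : Matrix (Fin 2) (Fin 2) k := !![-(a + c) / 2, 0; a, (a + c) / 2]
  have hkey : T x = T u * Mm * T v - Mm := by
    rw [hU, hW]
    ext i j
    fin_cases i <;> fin_cases j <;>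
      simp [Mm, ← ha, ← hc, hxu', hx11] <;> field_simp <;> ring
  refine ⟨T.symm Mm, ?_, ?_⟩
  · rw [htr, AlgEquiv.apply_symm_apply, Matrix.trace_fin_two]
    simp [Mm]
    ring
  · apply T.injective
    rw [hkey, map_sub, map_mul, map_mul, AlgEquiv.apply_symm_apply]

/-- A nontrivial unipotent endomorphism of a plane (`2 ≠ 0`) does not commute with all
trace-zero endomorphisms. -/
theorem exists_trace_zero_not_commute (hV : finrank k V = 2) (h2 : (2 : k) ≠ 0)
    (u : Module.End k V) (hu : (u - 1) ^ 2 = 0) (hu1 : u ≠ 1) :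
    ∃ y : Module.End k V, LinearMap.trace k V y = 0 ∧ u * y ≠ y * u := by
  obtain ⟨T, hU, htr⟩ := exists_algEquiv_unipotent hV u hu hu1
  refine ⟨T.symm !![1, 0; 0, -1], ?_, fun h => ?_⟩
  · rw [htr, AlgEquiv.apply_symm_apply, Matrix.trace_fin_two]
    simp
  · have h' := congrArg T h
    rw [map_mul, map_mul, AlgEquiv.apply_symm_apply, hU] at h'
    have h01 := congrFun (congrFun h' 0) 1
    simp at h01
    apply h2
    linear_combination -h01

/-- A unipotent endomorphism has order dividing `p` in characteristic `p`. -/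
theorem pow_char_eq_one_of_sub_one_sq (p : ℕ) [CharP k p] (u : Module.End k V)
    (hu : (u - 1) ^ 2 = 0) : u ^ p = 1 := by
  have key : ∀ n : ℕ, u ^ n = 1 + (n : k) • (u - 1) := by
    intro n
    induction n with
    | zero => simp
    | succ n ih =>
      have hsq : (u - 1) * (u - 1) = 0 := by rw [← pow_two]; exact hu
      have hu' : u = 1 + (u - 1) := by abel
      calc u ^ (n + 1) = (1 + (n : k) • (u - 1)) * (1 + (u - 1)) := by rw [pow_succ, ih, ← hu']
        _ = 1 + ((n : k) + 1) • (u - 1) + (n : k) • ((u - 1) * (u - 1)) := by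
          rw [mul_add, mul_one, add_mul, one_mul, smul_mul_assoc, add_smul, one_smul]
          abel
        _ = 1 + ((n + 1 : ℕ) : k) • (u - 1) := by
          rw [hsq, smul_zero, add_zero, Nat.cast_add, Nat.cast_one]
  rw [key p, CharP.cast_eq_zero, zero_smul, add_zero]

/-- Cayley–Hamilton for a unipotent characteristic polynomial. -/
theorem sub_one_sq_eq_zero_of_charpoly {R : Type*} [CommRing R] {W : Type*} [AddCommGroup W]
    [Module R W] [Module.Free R W] [Module.Finite R W] (u : Module.End R W)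
    (hu : LinearMap.charpoly u = (X - 1) ^ 2) : (u - 1) ^ 2 = 0 := by
  have h := LinearMap.aeval_self_charpoly u
  rw [hu] at h
  simpa using h

end LinAlg

section Ad

variable {D : Type*} [Group D] {k : Type*} [Field k] {V : Type*} [AddCommGroup V] [Module k V]
  {k' : Type*} [Field k'] {M : Type*} [AddCommGroup M] [Module k' M]

/-- `(M, ρM, j)` is a model of the adjoint representation of `r : D →* End_k V` containing the
trace-zero part: `j : M → End_k V` is an injective, subtraction-preserving map whose image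
contains the trace-zero endomorphisms, intertwining `ρM g` with conjugation by `r g`.
(`M` may be a module over a smaller field, e.g. the prime field.) -/
structure IsAdModel (r : D →* Module.End k V) (ρM : Representation k' D M)
    (j : M → Module.End k V) : Prop where
  inj : Function.Injective j
  map_sub : ∀ m m', j (m - m') = j m - j m'
  surj : ∀ y : Module.End k V, LinearMap.trace k V y = 0 → ∃ m, j m = y
  equiv : ∀ g m, j (ρM g m) = r g * j m * r g⁻¹

/-- Restriction of a model along a group homomorphism. -/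
theorem IsAdModel.comp {r : D →* Module.End k V} {ρM : Representation k' D M}
    {j : M → Module.End k V} (h : IsAdModel r ρM j) {D' : Type*} [Group D'] (f : D' →* D) :
    IsAdModel (r.comp f) (ρM.comp f) j where
  inj := h.inj
  map_sub := h.map_sub
  surj := h.surj
  equiv g m := by
    show j (ρM (f g) m) = r (f g) * j m * r (f g⁻¹)
    rw [map_inv]
    exact h.equiv (f g) m

theorem IsAdModel.eq_one {r : D →* Module.End k V} {ρM : Representation k' D M}
    {j : M → Module.End k V} (h : IsAdModel r ρM j) {g : D} (hg : r g = 1) : ρM g = 1 := by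
  ext m
  apply h.inj
  rw [h.equiv, map_inv_eq_one_of_eq_one hg, hg, one_mul, mul_one, Module.End.one_apply]
where
  map_inv_eq_one_of_eq_one {g : D} (hg : r g = 1) : r g⁻¹ = 1 := by
    have h1 : r g⁻¹ * r g = 1 := by rw [← map_mul, inv_mul_cancel, _root_.map_one]
    rwa [hg, mul_one] at h1

theorem IsAdModel.pow_eq_one {r : D →* Module.End k V} {ρM : Representation k' D M}
    {j : M → Module.End k V} (h : IsAdModel r ρM j) {g : D} {n : ℕ} (hg : r g ^ n = 1) :
    ρM g ^ n = 1 := by
  rw [← map_pow]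
  exact h.eq_one (by rw [map_pow, hg])

theorem IsAdModel.ne_one {r : D →* Module.End k V} {ρM : Representation k' D M}
    {j : M → Module.End k V} (h : IsAdModel r ρM j) (hV : finrank k V = 2) (h2 : (2 : k) ≠ 0)
    {g : D} (hu : (r g - 1) ^ 2 = 0) (hg : r g ≠ 1) : ρM g ≠ 1 := by
  intro h1
  obtain ⟨y, hy, hne⟩ := exists_trace_zero_not_commute hV h2 (r g) hu hg
  obtain ⟨m, rfl⟩ := h.surj y hy
  apply hne
  have e := h.equiv g m
  rw [h1, Module.End.one_apply] at e
  have hinv : r g⁻¹ * r g = 1 := by rw [← map_mul, inv_mul_cancel, _root_.map_one]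
  calc r g * j m = r g * j m * (r g⁻¹ * r g) := by rw [hinv, mul_one]
    _ = (r g * j m * r g⁻¹) * r g := by simp only [mul_assoc]
    _ = j m * r g := by rw [← e]

/-- **The local condition from the trace condition.**  For `σ` acting unipotently on the plane
`V` and nontrivially on the adjoint model `M`, an element `x : M` with `tr x = 0` and
`tr (x ∘ r σ) = 0` lies in the range of `ρM σ - 1`. -/
theorem IsAdModel.exists_eq_sub {r : D →* Module.End k V} {ρM : Representation k' D M}
    {j : M → Module.End k V} (h : IsAdModel r ρM j) (hV : finrank k V = 2) (h2 : (2 : k) ≠ 0)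
    {σ : D} (hu : (r σ - 1) ^ 2 = 0) (hσ : ρM σ ≠ 1) (x : M)
    (hx0 : LinearMap.trace k V (j x) = 0)
    (hx : LinearMap.trace k V (j x * r σ) = 0) : ∃ m, x = ρM σ m - m := by
  have hr1 : r σ ≠ 1 := fun h1 => hσ (h.eq_one h1)
  have huv : r σ * r σ⁻¹ = 1 := by rw [← map_mul, mul_inv_cancel, _root_.map_one]
  obtain ⟨m₀, hm₀, hxm⟩ := exists_trace_zero_conj_sub hV h2 (r σ) (r σ⁻¹) huv hu hr1 (j x)
    hx0 hx
  obtain ⟨m, rfl⟩ := h.surj m₀ hm₀
  refine ⟨m, h.inj ?_⟩
  rw [h.map_sub, h.equiv, hxm]

end Ad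

end Fermat.Agent.S56.helper245
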