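import Mathlib
import Fermat.Prelude.Def_GaloisRep_LocalConditions
import Fermat.Agent.Lib.helper954_QbarPlaces
import Fermat.Agent.S56.helper245_TameCore

/-!
# S56 / LOC-R1a (helper245): the tame local count on a decomposition group of `G_ℚ`

`A` a valuation subring of `Qb = AlgebraicClosure ℚ` over the prime `q`, `D = A.decompositionSubgroup ℚ`,
`I = A.inertiaSubgroup ℚ` (Mathlib's subgroup of `D`).  `ρ : Representation k D M`, `char k = p ≠ q`,
smooth, with inertia acting through a nontrivial group of exponent `p`.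

* `StmtCyc q A`, `StmtGen q A` : the two tame-structure inputs (LOC-R1b), as `Prop`s:
  inertia is cyclic in every finite-level prime-to-`q` quotient of `D`, and `D = ⟨φ⟩ I` at every
  finite level.
* `tame_dependence` : more than `dim M^D` level cocycles with the local condition `(loc)` have a
  nontrivial linear combination which is a coboundary.
* `tameZ A ρ` : the `k`-subspace of functions `D → M` consisting of the level cocycles with
  `(loc)`; `finite_tameZ`, `finrank_tameZ_le : finrank k (tameZ A ρ) ≤ finrank k M`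
  (equivalently: the image of `tameZ` in `H¹(D, M)` has dimension at most `dim M^D`).
-/

set_option autoImplicit false

namespace Fermat.Agent.S56.helper245

open Module

local notation "Qb" => AlgebraicClosure ℚ
local notation "GQ" => (AlgebraicClosure ℚ ≃ₐ[ℚ] AlgebraicClosure ℚ)

universe u

/-- **(T1), cyclicity of tame inertia.**  For every group hom `Ψ` on the decomposition group
which is trivial on the elements fixing a finite extension `E` and which maps inertia to elements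
of order prime to `q`, the image of inertia is cyclic. -/
def StmtCyc (q : ℕ) (A : ValuationSubring Qb) : Prop :=
  ∀ {H : Type u} [Group H] (Ψ : ↥(A.decompositionSubgroup ℚ) →* H)
    (E : IntermediateField ℚ Qb), FiniteDimensional ℚ E →
    (∀ t : ↥(A.decompositionSubgroup ℚ), (∀ x ∈ E, (t : GQ) x = x) → Ψ t = 1) →
    (∀ σ ∈ A.inertiaSubgroup ℚ, ∃ n : ℕ, n.Coprime q ∧ Ψ σ ^ n = 1) →
    ∃ s ∈ A.inertiaSubgroup ℚ, ∀ σ ∈ A.inertiaSubgroup ℚ, ∃ n : ℕ, Ψ σ = Ψ s ^ n

/-- **(T3), `D = ⟨Frob⟩ I` at finite level.**  For every group hom `Ψ` on the decomposition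
group which is trivial on the elements fixing a finite extension `E`, and every Frobenius `φ`:
`Ψ D = ⟨Ψ φ⟩ Ψ I`. -/
def StmtGen (q : ℕ) (A : ValuationSubring Qb) : Prop :=
  ∀ {H : Type u} [Group H] (Ψ : ↥(A.decompositionSubgroup ℚ) →* H)
    (E : IntermediateField ℚ Qb), FiniteDimensional ℚ E →
    (∀ t : ↥(A.decompositionSubgroup ℚ), (∀ x ∈ E, (t : GQ) x = x) → Ψ t = 1) →
    ∀ φ : ↥(A.decompositionSubgroup ℚ), A.IsFrobeniusAt (φ : GQ) q →
    ∀ τ : ↥(A.decompositionSubgroup ℚ), ∃ n : ℕ, ∃ σ ∈ A.inertiaSubgroup ℚ,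
      Ψ τ = Ψ φ ^ n * Ψ σ

/-- A function on the decomposition group is of *finite level* if it is right invariant under
the elements fixing some finite extension of `ℚ`. -/
def IsLevel (A : ValuationSubring Qb) {M : Type*} (c : ↥(A.decompositionSubgroup ℚ) → M) : Prop :=
  ∃ E : IntermediateField ℚ Qb, FiniteDimensional ℚ E ∧
    ∀ g t : ↥(A.decompositionSubgroup ℚ), (∀ x ∈ E, (t : GQ) x = x) → c (g * t) = c g

theorem inertiaSubgroup_normal (A : ValuationSubring Qb) : (A.inertiaSubgroup ℚ).Normal := by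
  unfold ValuationSubring.inertiaSubgroup
  infer_instance

section Dep

variable {k : Type u} [Field k] {M : Type u} [AddCommGroup M] [Module k M]

/-- **The tame local count on a decomposition group, dependence form.** -/
theorem tame_dependence {q : ℕ} (A : ValuationSubring Qb)
    (hCyc : StmtCyc.{u} q A) (hGen : StmtGen.{u} q A)
    (φ : ↥(A.decompositionSubgroup ℚ)) (hφ : A.IsFrobeniusAt (φ : GQ) q)
    (p : ℕ) [Fact p.Prime] (hq : q.Prime) (hpq : p ≠ q) [CharP k p] [FiniteDimensional k M]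
    (ρ : Representation k ↥(A.decompositionSubgroup ℚ) M)
    (hρ : ∃ E : IntermediateField ℚ Qb, FiniteDimensional ℚ E ∧
      ∀ t : ↥(A.decompositionSubgroup ℚ), (∀ x ∈ E, (t : GQ) x = x) → ρ t = 1)
    (hunip : ∀ σ ∈ A.inertiaSubgroup ℚ, ρ σ ^ p = 1)
    (hnt : ∃ σ ∈ A.inertiaSubgroup ℚ, ρ σ ≠ 1)
    {ι : Type u} [Fintype ι] (c : ι → ↥(A.decompositionSubgroup ℚ) → M)
    (hc : ∀ i, IsCoc ρ (c i)) (hcLev : ∀ i, IsLevel A (c i))
    (hloc : ∀ i, ∀ σ ∈ A.inertiaSubgroup ℚ, ρ σ ≠ 1 → ∃ m, c i σ = ρ σ m - m)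
    (hcard : finrank k ρ.invariants < Fintype.card ι) :
    ∃ a : ι → k, a ≠ 0 ∧ ∃ m : M, ∀ g, ∑ i, a i • c i g = ρ g m - m := by
  classical
  have := inertiaSubgroup_normal A
  -- a common level
  obtain ⟨Eρ, hEρfin, hEρ⟩ := hρ
  choose Ec hEcfin hEc using hcLev
  let E : IntermediateField ℚ Qb := Eρ ⊔ ⨆ i, Ec i
  have : FiniteDimensional ℚ Eρ := hEρfin
  have : ∀ i, FiniteDimensional ℚ (Ec i) := hEcfin
  have hEfin : FiniteDimensional ℚ E := by
    have : FiniteDimensional ℚ ↥(⨆ i, Ec i) := IntermediateField.finiteDimensional_iSup_of_finite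
    exact IntermediateField.finiteDimensional_sup _ _
  have hEρle : Eρ ≤ E := le_sup_left
  have hEcle : ∀ i, Ec i ≤ E := fun i => (le_iSup Ec i).trans le_sup_right
  -- the affine hom
  have hΨ1 : ∀ t : ↥(A.decompositionSubgroup ℚ), (∀ x ∈ E, (t : GQ) x = x) →
      affHom ρ c hc t = 1 := by
    intro t ht
    rw [affHom_eq_one_iff]
    refine ⟨hEρ t fun x hx => ht x (hEρle hx), fun i => ?_⟩
    have h := hEc i 1 t fun x hx => ht x (hEcle i hx)
    rw [one_mul] at h
    rw [h]
    exact (hc i).map_one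
  have hcop : ∀ σ ∈ A.inertiaSubgroup ℚ, ∃ n : ℕ, n.Coprime q ∧ affHom ρ c hc σ ^ n = 1 := by
    intro σ hσ
    refine ⟨p ^ 2, ?_, affHom_pow_sq_eq_one ρ p c hc (hunip σ hσ)⟩
    exact Nat.Coprime.pow_left 2
      ((Nat.coprime_primes (Fact.out : p.Prime) hq).mpr hpq)
  refine exists_dependence_of_joint ρ (A.inertiaSubgroup ℚ) φ hnt c hc hloc ?_ ?_ hcard
  · obtain ⟨s, hs, hs'⟩ := hCyc (affHom ρ c hc) E hEfin hΨ1 hcop
    refine ⟨s, hs, fun σ hσ => ?_⟩
    obtain ⟨n, hn⟩ := hs' σ hσ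
    rw [← map_pow, affHom_eq_iff] at hn
    exact ⟨n, hn⟩
  · intro g
    obtain ⟨n, σ, hσ, hn⟩ := hGen (affHom ρ c hc) E hEfin hΨ1 φ hφ g
    rw [← map_pow, ← map_mul, affHom_eq_iff] at hn
    exact ⟨n, σ, hσ, hn⟩

end Dep

section Sub

variable {k : Type u} [Field k] {M : Type u} [AddCommGroup M] [Module k M]

theorem IsLevel.add {A : ValuationSubring Qb} {c c' : ↥(A.decompositionSubgroup ℚ) → M}
    (h : IsLevel A c) (h' : IsLevel A c') : IsLevel A (c + c') := by
  obtain ⟨E, hE, hc⟩ := h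
  obtain ⟨E', hE', hc'⟩ := h'
  refine ⟨E ⊔ E', IntermediateField.finiteDimensional_sup _ _, fun g t ht => ?_⟩
  rw [Pi.add_apply, Pi.add_apply, hc g t fun x hx => ht x ((le_sup_left : E ≤ E ⊔ E') hx),
    hc' g t fun x hx => ht x ((le_sup_right : E' ≤ E ⊔ E') hx)]

theorem IsLevel.smul {A : ValuationSubring Qb} {c : ↥(A.decompositionSubgroup ℚ) → M}
    (h : IsLevel A c) (r : k) : IsLevel A (r • c) := by
  obtain ⟨E, hE, hc⟩ := h
  exact ⟨E, hE, fun g t ht => by rw [Pi.smul_apply, Pi.smul_apply, hc g t ht]⟩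

/-- The coboundary map `m ↦ (g ↦ ρ g m - m)`, as a linear map. -/
def cobLin {D : Type*} [Group D] (ρ : Representation k D M) : M →ₗ[k] (D → M) where
  toFun m := cob ρ m
  map_add' m m' := by
    funext g
    simp only [cob, map_add, Pi.add_apply]
    abel
  map_smul' r m := by
    funext g
    simp only [cob, map_smul, Pi.smul_apply, RingHom.id_apply, smul_sub]

theorem cobLin_apply {D : Type*} [Group D] (ρ : Representation k D M) (m : M) (g : D) :
    cobLin ρ m g = ρ g m - m := rfl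

theorem ker_cobLin {D : Type*} [Group D] (ρ : Representation k D M) :
    LinearMap.ker (cobLin ρ) = ρ.invariants := by
  ext m
  rw [LinearMap.mem_ker, Representation.mem_invariants]
  constructor
  · intro h g
    have := congrFun h g
    rw [cobLin_apply, Pi.zero_apply, sub_eq_zero] at this
    exact this
  · intro h
    funext g
    rw [cobLin_apply, Pi.zero_apply, h g, sub_self]

/-- The `k`-subspace of functions `D → M`: level cocycles satisfying the local condition
`(loc)`: `c σ ∈ range (ρ σ - 1)` for every inertia element `σ` acting nontrivially. -/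
def tameZ (A : ValuationSubring Qb) (ρ : Representation k ↥(A.decompositionSubgroup ℚ) M) :
    Submodule k (↥(A.decompositionSubgroup ℚ) → M) where
  carrier := {c | IsCoc ρ c ∧ IsLevel A c ∧
    ∀ σ ∈ A.inertiaSubgroup ℚ, ρ σ ≠ 1 → ∃ m, c σ = ρ σ m - m}
  add_mem' := by
    rintro c c' ⟨h1, h2, h3⟩ ⟨h1', h2', h3'⟩
    refine ⟨fun g h => ?_, h2.add h2', fun σ hσ hρ => ?_⟩
    · simp only [Pi.add_apply, h1 g h, h1' g h, map_add]
      abel
    · obtain ⟨m, hm⟩ := h3 σ hσ hρ
      obtain ⟨m', hm'⟩ := h3' σ hσ hρ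
      refine ⟨m + m', ?_⟩
      rw [Pi.add_apply, hm, hm', map_add]
      abel
  zero_mem' := by
    refine ⟨fun g h => ?_, ⟨⊥, inferInstance, fun g t _ => rfl⟩, fun σ _ _ => ⟨0, ?_⟩⟩
    · simp only [Pi.zero_apply, map_zero, add_zero]
    · rw [Pi.zero_apply, map_zero, sub_zero]
  smul_mem' := by
    rintro r c ⟨h1, h2, h3⟩
    refine ⟨fun g h => ?_, h2.smul r, fun σ hσ hρ => ?_⟩
    · simp only [Pi.smul_apply, h1 g h, smul_add, map_smul]
    · obtain ⟨m, hm⟩ := h3 σ hσ hρ
      refine ⟨r • m, ?_⟩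
      rw [Pi.smul_apply, hm, map_smul, smul_sub]

theorem mem_tameZ {A : ValuationSubring Qb} {ρ : Representation k ↥(A.decompositionSubgroup ℚ) M}
    {c : ↥(A.decompositionSubgroup ℚ) → M} :
    c ∈ tameZ A ρ ↔ IsCoc ρ c ∧ IsLevel A c ∧
      ∀ σ ∈ A.inertiaSubgroup ℚ, ρ σ ≠ 1 → ∃ m, c σ = ρ σ m - m := Iff.rfl

/-- Coboundaries of a smooth representation lie in `tameZ`. -/
theorem range_cobLin_le_tameZ (A : ValuationSubring Qb)
    (ρ : Representation k ↥(A.decompositionSubgroup ℚ) M)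
    (hρ : ∃ E : IntermediateField ℚ Qb, FiniteDimensional ℚ E ∧
      ∀ t : ↥(A.decompositionSubgroup ℚ), (∀ x ∈ E, (t : GQ) x = x) → ρ t = 1) :
    LinearMap.range (cobLin ρ) ≤ tameZ A ρ := by
  rintro _ ⟨m, rfl⟩
  obtain ⟨E, hE, hρE⟩ := hρ
  refine ⟨isCoc_cob ρ m, ⟨E, hE, fun g t ht => ?_⟩, fun σ _ _ => ⟨m, rfl⟩⟩
  rw [cobLin_apply, cobLin_apply, map_mul, hρE t ht, mul_one]

/-- **The tame local count, subspace form.**  The space of level cocycles with the local
condition `(loc)` is finite dimensional, of dimension at most `dim M`; equivalently its image in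
`H¹(D, M)` has dimension at most `dim M^D`. -/
theorem finite_tameZ_and_finrank_le {q : ℕ} (A : ValuationSubring Qb)
    (hCyc : StmtCyc.{u} q A) (hGen : StmtGen.{u} q A)
    (φ : ↥(A.decompositionSubgroup ℚ)) (hφ : A.IsFrobeniusAt (φ : GQ) q)
    (p : ℕ) [Fact p.Prime] (hq : q.Prime) (hpq : p ≠ q) [CharP k p] [FiniteDimensional k M]
    (ρ : Representation k ↥(A.decompositionSubgroup ℚ) M)
    (hρ : ∃ E : IntermediateField ℚ Qb, FiniteDimensional ℚ E ∧
      ∀ t : ↥(A.decompositionSubgroup ℚ), (∀ x ∈ E, (t : GQ) x = x) → ρ t = 1)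
    (hunip : ∀ σ ∈ A.inertiaSubgroup ℚ, ρ σ ^ p = 1)
    (hnt : ∃ σ ∈ A.inertiaSubgroup ℚ, ρ σ ≠ 1) :
    Module.Finite k ↥(tameZ A ρ) ∧ finrank k ↥(tameZ A ρ) ≤ finrank k M := by
  classical
  -- the coboundaries inside tameZ
  let B : Submodule k ↥(tameZ A ρ) := (LinearMap.range (cobLin ρ)).comap (tameZ A ρ).subtype
  have hBle := range_cobLin_le_tameZ A ρ hρ
  -- B is finite dimensional, isomorphic to the range of cobLin
  have hBfin : Module.Finite k ↥(LinearMap.range (cobLin ρ)) := inferInstance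
  let eB : ↥B ≃ₗ[k] ↥(LinearMap.range (cobLin ρ)) :=
    Submodule.comapSubtypeEquivOfLe hBle
  have hBfin' : Module.Finite k ↥B := Module.Finite.equiv eB.symm
  have hBrank : finrank k ↥B + finrank k ρ.invariants = finrank k M := by
    rw [eB.finrank_eq, ← ker_cobLin]
    exact LinearMap.finrank_range_add_finrank_ker (cobLin ρ)
  -- the quotient has rank at most `dim M^D`
  have hQrank : Module.rank k (↥(tameZ A ρ) ⧸ B) ≤ (finrank k ρ.invariants : ℕ) := by
    apply rank_le
    intro s hs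
    by_contra hlt
    rw [not_le] at hlt
    -- lift the family
    have hsurj := Submodule.mkQ_surjective B
    choose lift hlift using hsurj
    have hdep := tame_dependence A hCyc hGen φ hφ p hq hpq ρ hρ hunip hnt
      (ι := ↥s) (fun i => (lift (i : ↥(tameZ A ρ) ⧸ B) : ↥(A.decompositionSubgroup ℚ) → M))
      (fun i => (lift i.1).2.1) (fun i => (lift i.1).2.2.1) (fun i => (lift i.1).2.2.2)
      (by rw [Fintype.card_coe]; exact hlt)
    obtain ⟨a, ha, m, hm⟩ := hdep
    have hmem : ∑ i : ↥s, a i • lift (i : ↥(tameZ A ρ) ⧸ B) ∈ B := by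
      show (tameZ A ρ).subtype (∑ i : ↥s, a i • lift (i : ↥(tameZ A ρ) ⧸ B)) ∈
        LinearMap.range (cobLin ρ)
      refine ⟨m, ?_⟩
      funext g
      rw [cobLin_apply, ← hm g, map_sum]
      simp only [map_smul, Submodule.subtype_apply, Finset.sum_apply, Pi.smul_apply]
    have hzero : ∑ i : ↥s, a i • (i : ↥(tameZ A ρ) ⧸ B) = 0 := by
      have h0 : B.mkQ (∑ i : ↥s, a i • lift (i : ↥(tameZ A ρ) ⧸ B)) = 0 := by
        rw [Submodule.mkQ_apply, Submodule.Quotient.mk_eq_zero]
        exact hmem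
      rw [map_sum] at h0
      simpa only [map_smul, hlift] using h0
    rw [Fintype.linearIndependent_iff] at hs
    exact ha (funext fun i => hs a hzero i)
  have hQfin : Module.Finite k (↥(tameZ A ρ) ⧸ B) := by
    rw [← Module.rank_lt_aleph0_iff]
    exact lt_of_le_of_lt hQrank Cardinal.natCast_lt_aleph0
  have hfin : Module.Finite k ↥(tameZ A ρ) := Module.Finite.of_submodule_quotient B
  refine ⟨hfin, ?_⟩
  have hQle : finrank k (↥(tameZ A ρ) ⧸ B) ≤ finrank k ρ.invariants := by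
    have := hQrank
    rw [← finrank_eq_rank, Nat.cast_le] at this
    exact this
  have hsum := Submodule.finrank_quotient_add_finrank B
  omega

end Sub

section Residual

open Polynomial

variable {k : Type} [Field k] {k' : Type} [Field k'] {M : Type} [AddCommGroup M] [Module k' M]

/-- The restriction of a residual representation to a decomposition group. -/
noncomputable def resD (A : ValuationSubring Qb) (ρbar : ResidualGaloisRep k) :
    ↥(A.decompositionSubgroup ℚ) →* Module.End k ρbar.V :=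
  ρbar.ρ.comp (A.decompositionSubgroup ℚ).subtype

theorem resD_apply (A : ValuationSubring Qb) (ρbar : ResidualGaloisRep k)
    (g : ↥(A.decompositionSubgroup ℚ)) : resD A ρbar g = ρbar.ρ (g : GQ) := rfl

/-- A residual representation ramified at `q` is ramified at every place over `q`. -/
theorem exists_inertia_ne_one {q : ℕ} (hq : q.Prime) (A : ValuationSubring Qb)
    (hA : A.LiesOverPrime q) (ρbar : ResidualGaloisRep k) (hram : ¬ ρbar.IsUnramifiedAt q) :
    ∃ σ ∈ A.inertiaSubgroup ℚ, ρbar.ρ (σ : GQ) ≠ 1 := by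
  by_contra hcon
  push Not at hcon
  apply hram
  intro A' hA' σ hσ
  have hle : A.inertiaSubgroupIn ℚ ≤ ρbar.ρ.ker := by
    rintro _ ⟨σ₀, hσ₀, rfl⟩
    exact MonoidHom.mem_ker.mpr (hcon σ₀ hσ₀)
  exact MonoidHom.mem_ker.mp
    (Fermat.Agent.Lib.helper954.inertia_le_of_normal ρbar.ρ.ker hq A A' hA hA' hle hσ)

/-- **LOC-R1a, residual form.**  `ρbar` a residual representation in odd characteristic `p`,
ramified at `q ≠ p` and unipotent on the inertia group of the place `A` over `q`;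
`(M, ρM, j)` any model (over a field `k'` of characteristic `p`, e.g. `ZMod p`) of the
trace-zero adjoint representation of `ρbar` restricted to the decomposition group of `A`.
Then the space `tameZ A ρM` of level cocycles with the local condition is finite dimensional of
dimension at most `dim M` (so its image in `H¹` has dimension at most `dim M^D`), and it contains
every level cocycle `c` with `tr (c σ) = 0` and `tr (c σ ∘ ρbar σ) = 0` on inertia (the cocycles
of the unipotent-on-inertia lifts to the dual numbers). -/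
theorem tame_local_bound {p q : ℕ} [Fact p.Prime] (hp2 : p ≠ 2) (hq : q.Prime) (hpq : p ≠ q)
    (A : ValuationSubring Qb) (hA : A.LiesOverPrime q)
    (hCyc : StmtCyc.{0} q A) (hGen : StmtGen.{0} q A)
    [CharP k p] [CharP k' p] (ρbar : ResidualGaloisRep k)
    (hram : ¬ ρbar.IsUnramifiedAt q)
    (hunip : ∀ σ ∈ A.inertiaSubgroupIn ℚ, LinearMap.charpoly (ρbar.ρ σ) = (X - 1) ^ 2)
    [FiniteDimensional k' M] (ρM : Representation k' ↥(A.decompositionSubgroup ℚ) M)
    (j : M → Module.End k ρbar.V) (hj : IsAdModel (resD A ρbar) ρM j) :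
    Module.Finite k' ↥(tameZ A ρM) ∧ finrank k' ↥(tameZ A ρM) ≤ finrank k' M ∧
    ∀ c : ↥(A.decompositionSubgroup ℚ) → M, IsCoc ρM c → IsLevel A c →
      (∀ σ ∈ A.inertiaSubgroup ℚ, LinearMap.trace k ρbar.V (j (c σ)) = 0 ∧
        LinearMap.trace k ρbar.V (j (c σ) * ρbar.ρ (σ : GQ)) = 0) → c ∈ tameZ A ρM := by
  have hp : p.Prime := Fact.out
  have h2 : (2 : k) ≠ 0 := by
    have h := CharP.cast_eq_zero_iff k p 2
    rw [Nat.cast_ofNat] at h
    rw [Ne, h]
    intro hdvd
    exact hp2 ((Nat.prime_dvd_prime_iff_eq hp Nat.prime_two).mp hdvd)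
  have hV : finrank k ρbar.V = 2 := ρbar.finrank_eq
  have hsq : ∀ σ ∈ A.inertiaSubgroup ℚ, (resD A ρbar σ - 1) ^ 2 = 0 := fun σ hσ =>
    sub_one_sq_eq_zero_of_charpoly _ (hunip (σ : GQ) ⟨σ, hσ, rfl⟩)
  have hρlev : ∃ E : IntermediateField ℚ Qb, FiniteDimensional ℚ E ∧
      ∀ t : ↥(A.decompositionSubgroup ℚ), (∀ x ∈ E, (t : GQ) x = x) → ρM t = 1 := by
    obtain ⟨L, hL, hL'⟩ := ρbar.factorsThroughFiniteLevel
    exact ⟨L, hL, fun t ht => hj.eq_one (hL' (t : GQ) ht)⟩
  have hunipM : ∀ σ ∈ A.inertiaSubgroup ℚ, ρM σ ^ p = 1 := fun σ hσ =>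
    hj.pow_eq_one (pow_char_eq_one_of_sub_one_sq p _ (hsq σ hσ))
  have hnt : ∃ σ ∈ A.inertiaSubgroup ℚ, ρM σ ≠ 1 := by
    obtain ⟨σ, hσ, hne⟩ := exists_inertia_ne_one hq A hA ρbar hram
    exact ⟨σ, hσ, hj.ne_one hV h2 (hsq σ hσ) hne⟩
  obtain ⟨φ, hφ⟩ := Fermat.Agent.Lib.helper54.exists_isFrobeniusAt hq A hA
  have hmain := finite_tameZ_and_finrank_le A hCyc hGen
    ⟨φ, hφ.mem_decompositionSubgroup⟩ hφ p hq hpq ρM hρlev hunipM hnt
  refine ⟨hmain.1, hmain.2, fun c hc hlev htr => ⟨hc, hlev, fun σ hσ hρσ => ?_⟩⟩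
  exact hj.exists_eq_sub hV h2 (hsq σ hσ) hρσ (c σ) (htr σ hσ).1 (htr σ hσ).2

end Residual

end Fermat.Agent.S56.helper245
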