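import Mathlib
import Fermat.Agent.S56.helper245_TameLocal
import Fermat.Agent.S56.helper6024_TameInertia
import Fermat.Agent.S56.helper6044_LocCarrier

/-!
# S56 / LOC-R1 (helper245): the local condition at the primes `q ≠ p` of `Smin`, final form

Unconditional assembly of LOC-R1a (`helper245_TameCore`, `helper245_TameLocal`) with
LOC-R1b (`helper6024_TameInertia`: tame inertia is cyclic, `D = ⟨Frob⟩ I`) on the S55 local
carrier (`helper6044_LocCarrier`).

* `stmtCyc`, `stmtGen` : the two tame-structure `Prop`s of `helper245_TameLocal`, proved.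
* `tameZq M q` : the subspace of functions on the decomposition group of the frozen place over
  `q` (level cocycles with the local condition); `tameL M q := locSub M q (tameZq M q)` the
  corresponding subspace of `helper15.LocH1 M q`.
* `finrank_tameL_le` : `finrank (tameL M q) ≤ h⁰(ℚ_q, M)` for every model `(M, j)` of the
  adjoint representation of a residual representation which is ramified and unipotent on
  inertia at `q ≠ p` (`p` odd).
* `resTotal_mem_tameL` : the localisation at `q` of the class of a global level cocycle `a`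
  with `tr (a σ) = 0 = tr (a σ ∘ ρbar σ)` on inertia at `q` lies in `tameL M q`.
* matrix forms (`tameLoc`, `finrank_tameLoc_le`, `resTotal_mem_tameLoc_of_lift`) for a model
  `j : M → M₂(k)` in a basis of `ρbar.V` and lifts `r : G_ℚ →* M₂(k[ε])`; `tameLoc` is `⊥` when
  `ρbar` is not unipotent on inertia at `q` (then there are no unipotent lifts at all), so the
  bound holds without any unipotency hypothesis.
-/

set_option autoImplicit false

namespace Fermat.Agent.S56.helper245

open Module Polynomial ExtCitation groupCohomology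
open Fermat.Agent.S55 Fermat.Agent.S56.helper6044

local notation "Qb" => AlgebraicClosure ℚ

universe u

/-! ### The tame structure inputs -/

/-- **(T1)** on the decomposition group, from the element form of `helper6024`. -/
theorem stmtCyc {q : ℕ} (hq : q.Prime) (A : ValuationSubring Qb) (hA : A.LiesOverPrime q) :
    StmtCyc.{u} q A := by
  intro H _ Ψ E hEfin hΨ hcop
  have := hEfin
  obtain ⟨s, hs, hs'⟩ := Fermat.Agent.S56.helper6024.tame_cyclic_elt hq A hA E
  obtain ⟨s₀, hs₀, rfl⟩ := hs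
  refine ⟨s₀, hs₀, fun σ hσ => ?_⟩
  obtain ⟨n, w, m, hw, hσeq, hwfix⟩ := hs' (σ : GQ) ⟨σ, hσ, rfl⟩
  obtain ⟨w₀, hw₀, rfl⟩ := hw
  have hσ' : σ = s₀ ^ n * w₀ := Subtype.ext hσeq
  have hw1 : Ψ w₀ ^ (q ^ m) = 1 := by
    rw [← map_pow]
    exact hΨ _ fun x hx => hwfix x hx
  obtain ⟨N, hN, hN1⟩ := hcop w₀ hw₀
  have hw2 : Ψ w₀ = 1 := Fermat.Agent.S56.helper6024.eq_one_of_pow_eq_one_of_coprime hw1 hN hN1
  exact ⟨n, by rw [hσ', map_mul, map_pow, hw2, mul_one]⟩

/-- **(T3)** on the decomposition group, from the element form of `helper6024`. -/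
theorem stmtGen {q : ℕ} (hq : q.Prime) (A : ValuationSubring Qb) (hA : A.LiesOverPrime q) :
    StmtGen.{u} q A := by
  intro H _ Ψ E hEfin hΨ φ hφ τ
  have := hEfin
  obtain ⟨n, σ, hσ, hτσ⟩ :=
    Fermat.Agent.S56.helper6024.decomposition_elt hq A hA E (φ : GQ) hφ (τ : GQ) τ.2
  obtain ⟨σ₀, hσ₀, rfl⟩ := hσ
  refine ⟨n, σ₀, hσ₀, ?_⟩
  have h1 : Ψ ((φ ^ n * σ₀)⁻¹ * τ) = 1 := by
    apply hΨ
    intro x hx
    show ((φ : GQ) ^ n * (σ₀ : GQ))⁻¹ ((τ : GQ) x) = x
    rw [hτσ x hx]
    exact AlgEquiv.symm_apply_apply _ x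
  rw [map_mul, map_inv, inv_mul_eq_one] at h1
  rw [← h1, map_mul, map_pow]

/-! ### The local condition on the S55 carrier -/

section Carrier

variable {k' : Type} [Field k'] (M : Rep.{0, 0, 0} k' GQ) (q : Nat.Primes)

/-- The restriction of `M` to the decomposition group of the frozen place over `q`. -/
noncomputable def resRep : Representation k' ↥(decomp q) M := M.ρ.comp (decomp q).subtype

theorem resRep_apply (g : ↥(decomp q)) : resRep M q g = M.ρ (g : GQ) := rfl

/-- Level cocycles on the decomposition group at `q` with the local condition `(loc)`. -/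
noncomputable def tameZq : Submodule k' (↥(decomp q) → M) :=
  tameZ (primeLocalPlace q) (resRep M q)

/-- The tame local condition inside the S55 local carrier. -/
noncomputable def tameL : Submodule k' (helper15.LocH1 M q) := locSub M q (tameZq M q)

theorem isLevel_iff_isLevD (c : ↥(decomp q) → M) :
    IsLevel (primeLocalPlace q) c ↔ IsLevD q c := by
  constructor
  · rintro ⟨E, hE, h⟩
    exact ⟨E, hE, fun g s hs =>
      h g s fun x hx => (IntermediateField.mem_fixingSubgroup_iff E (s : GQ)).1 hs x hx⟩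
  · rintro ⟨E, hE, h⟩
    exact ⟨E, hE, fun g s hs =>
      h g s ((IntermediateField.mem_fixingSubgroup_iff E (s : GQ)).2 hs)⟩

theorem mem_tameZq_iff (c : ↥(decomp q) → M) :
    c ∈ tameZq M q ↔ c ∈ locZ1 M q ∧
      ∀ σ ∈ (primeLocalPlace q).inertiaSubgroup ℚ, M.ρ (σ : GQ) ≠ 1 →
        ∃ m : M, c σ = M.ρ (σ : GQ) m - m := by
  show (IsCoc (resRep M q) c ∧ IsLevel (primeLocalPlace q) c ∧ _) ↔ _
  rw [mem_locZ1_iff, isLevel_iff_isLevD]
  constructor
  · rintro ⟨h1, h2, h3⟩
    exact ⟨⟨h1, h2⟩, h3⟩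
  · rintro ⟨⟨h1, h2⟩, h3⟩
    exact ⟨h1, h2, h3⟩

theorem tameZq_le_locZ1 : tameZq M q ≤ locZ1 M q := fun c hc => ((mem_tameZq_iff M q c).1 hc).1

theorem locB1_le_tameZq
    (hM : ∃ E : IntermediateField ℚ Qb, FiniteDimensional ℚ E ∧
      ∀ t : GQ, (∀ x ∈ E, t x = x) → M.ρ t = 1) :
    locB1 M q ≤ tameZq M q := by
  rintro _ ⟨m, rfl⟩
  obtain ⟨E, hE, hME⟩ := hM
  exact range_cobLin_le_tameZ (primeLocalPlace q) (resRep M q)
    ⟨E, hE, fun t ht => hME (t : GQ) ht⟩ ⟨m, rfl⟩

end Carrier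

/-! ### Endomorphism models -/

section EndModel

variable {p : ℕ} [Fact p.Prime] {k : Type} [Field k] [CharP k p] {k' : Type} [Field k']
  [CharP k' p]

/-- **LOC-R1, bound.**  `finrank L_q ≤ h⁰(ℚ_q, M)` at a prime `q ≠ p` where `ρbar` is ramified
and unipotent on inertia. -/
theorem finrank_tameL_le (hp2 : p ≠ 2) (q : Nat.Primes) (hpq : p ≠ (q : ℕ))
    (ρbar : ResidualGaloisRep k) (hram : ¬ ρbar.IsUnramifiedAt (q : ℕ))
    (hunip : ∀ σ ∈ (primeLocalPlace q).inertiaSubgroupIn ℚ,
      LinearMap.charpoly (ρbar.ρ σ) = (X - 1) ^ 2)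
    (M : Rep.{0, 0, 0} k' GQ) [FiniteDimensional k' M]
    (j : M → Module.End k ρbar.V) (hj : IsAdModel ρbar.ρ M.ρ j) :
    finrank k' ↥(tameL M q) ≤
      finrank k' ↥(Representation.invariants (Rep.res (primeLocalToGlobal q) M).ρ) := by
  have hA := helper4145.primeLocalPlace_liesOverPrime q
  have hmain := tame_local_bound hp2 q.2 hpq (primeLocalPlace q) hA
    (stmtCyc q.2 _ hA) (stmtGen q.2 _ hA) ρbar hram hunip (resRep M q) j
    (hj.comp (decomp q).subtype)
  have hfin : FiniteDimensional k' ↥(tameZq M q) := hmain.1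
  have hle : finrank k' ↥(tameZq M q) ≤ finrank k' M := hmain.2.1
  have hM : ∃ E : IntermediateField ℚ Qb, FiniteDimensional ℚ E ∧
      ∀ t : GQ, (∀ x ∈ E, t x = x) → M.ρ t = 1 := by
    obtain ⟨L, hL, hL'⟩ := ρbar.factorsThroughFiniteLevel
    exact ⟨L, hL, fun t ht => hj.eq_one (hL' t ht)⟩
  have hadd := finrank_locSub_add (locB1_le_tameZq M q hM) (tameZq_le_locZ1 M q)
  show finrank k' ↥(locSub M q (tameZq M q)) ≤ _
  omega

omit [CharP k' p] in
/-- **LOC-R1, membership.**  The localisation at `q` of the class of a global level cocycle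
`a` whose values on inertia at `q` satisfy `tr (a σ) = 0` and `tr (a σ ∘ ρbar σ) = 0` lies in
`tameL M q`. -/
theorem resTotal_mem_tameL (hp2 : p ≠ 2)
    (ρbar : ResidualGaloisRep k) (M : Rep.{0, 0, 0} k' GQ)
    (j : M → Module.End k ρbar.V) (hj : IsAdModel ρbar.ρ M.ρ j)
    (S : Finset Nat.Primes) (a : ↥(levelCocyclesS₁ S M)) (q : ↥S)
    (hunip : ∀ σ ∈ (primeLocalPlace q.1).inertiaSubgroupIn ℚ,
      LinearMap.charpoly (ρbar.ρ σ) = (X - 1) ^ 2)
    (htr : ∀ σ ∈ (primeLocalPlace q.1).inertiaSubgroupIn ℚ,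
      LinearMap.trace k ρbar.V (j (a.1.1 σ)) = 0 ∧
        LinearMap.trace k ρbar.V (j (a.1.1 σ) * ρbar.ρ σ) = 0) :
    helper15.resTotal S M (helper7860.toContinuousH1S S M a) q ∈ tameL M q.1 := by
  have hp : p.Prime := Fact.out
  have h2 : (2 : k) ≠ 0 := by
    have h := CharP.cast_eq_zero_iff k p 2
    rw [Nat.cast_ofNat] at h
    rw [Ne, h]
    intro hdvd
    exact hp2 ((Nat.prime_dvd_prime_iff_eq hp Nat.prime_two).mp hdvd)
  refine resTotal_mem_locSub M S a q (tameZq M q.1) ?_
  rw [mem_tameZq_iff]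
  refine ⟨(restrictD M q.1 S a).2, fun σ hσ hρσ => ?_⟩
  have hσI : (σ : GQ) ∈ (primeLocalPlace q.1).inertiaSubgroupIn ℚ := ⟨σ, hσ, rfl⟩
  have hsq : (ρbar.ρ (σ : GQ) - 1) ^ 2 = 0 :=
    sub_one_sq_eq_zero_of_charpoly _ (hunip (σ : GQ) hσI)
  exact hj.exists_eq_sub ρbar.finrank_eq h2 hsq hρσ (a.1.1 (σ : GQ)) (htr _ hσI).1 (htr _ hσI).2

end EndModel

/-! ### Matrix models and lifts to the dual numbers -/

section MatModel

/-- From a matrix model (in a basis `b`) to an endomorphism model. -/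
theorem isAdModel_of_matrix {k : Type*} [Field k] {k' : Type*} [Field k'] {G : Type*} [Group G]
    {V : Type*} [AddCommGroup V] [Module k V] (b : Basis (Fin 2) k V)
    (r : G →* Module.End k V) {M : Type*} [AddCommGroup M] [Module k' M]
    (ρM : Representation k' G M) (j : M → Matrix (Fin 2) (Fin 2) k)
    (hj_inj : Function.Injective j) (hj_sub : ∀ m m', j (m - m') = j m - j m')
    (hj_range : ∀ X : Matrix (Fin 2) (Fin 2) k, X.trace = 0 → ∃ m, j m = X)
    (hj_equiv : ∀ g m, j (ρM g m) =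
      LinearMap.toMatrix b b (r g) * j m * LinearMap.toMatrix b b (r g⁻¹)) :
    IsAdModel r ρM (fun m => (LinearMap.toMatrix b b).symm (j m)) where
  inj m m' h := hj_inj ((LinearMap.toMatrix b b).symm.injective h)
  map_sub m m' := by
    show (LinearMap.toMatrix b b).symm (j (m - m')) = _
    rw [hj_sub, map_sub]
  surj y hy := by
    have hy' : (LinearMap.toMatrix b b y).trace = 0 := by
      rw [← LinearMap.trace_eq_matrix_trace k b y]
      exact hy
    obtain ⟨m, hm⟩ := hj_range _ hy'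
    refine ⟨m, ?_⟩
    show (LinearMap.toMatrix b b).symm (j m) = y
    rw [hm, LinearEquiv.symm_apply_apply]
  equiv g m := by
    show (LinearMap.toMatrix b b).symm (j (ρM g m)) =
      r g * (LinearMap.toMatrix b b).symm (j m) * r g⁻¹
    apply (LinearMap.toMatrix b b).injective
    rw [LinearEquiv.apply_symm_apply, hj_equiv, LinearMap.toMatrix_mul, LinearMap.toMatrix_mul,
      LinearEquiv.apply_symm_apply]

/-- Constant parts of matrices over the dual numbers multiply. -/
theorem map_fst_mul {k : Type*} [CommRing k] (P Q : Matrix (Fin 2) (Fin 2) (DualNumber k)) :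
    (P * Q).map TrivSqZeroExt.fst = P.map TrivSqZeroExt.fst * Q.map TrivSqZeroExt.fst := by
  ext i j
  simp [Matrix.mul_apply]

/-- A unipotent matrix over the dual numbers: the `ε`-part has trace zero and the constant part
is unipotent. -/
theorem trace_snd_eq_zero_of_charpoly {k : Type*} [Field k]
    (P : Matrix (Fin 2) (Fin 2) (DualNumber k)) (hP : P.charpoly = (X - 1) ^ 2) :
    (P.map TrivSqZeroExt.snd).trace = 0 ∧
      (P.map TrivSqZeroExt.fst).charpoly = (X - 1) ^ 2 := by
  constructor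
  · have h1 : P.trace = 2 := by
      rw [Matrix.trace_eq_neg_charpoly_nextCoeff, hP]
      have hmonic : (X - 1 : (DualNumber k)[X]).Monic := by
        have := monic_X_sub_C (1 : DualNumber k)
        rwa [map_one] at this
      rw [hmonic.nextCoeff_pow]
      have hnc : (X - 1 : (DualNumber k)[X]).nextCoeff = -1 := by
        have := nextCoeff_X_sub_C (1 : DualNumber k)
        rwa [map_one] at this
      rw [hnc]
      simp
    rw [Matrix.trace_fin_two] at h1 ⊢
    have h2 := congrArg TrivSqZeroExt.snd h1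
    have h3 : TrivSqZeroExt.snd (2 : DualNumber k) = 0 := by
      have h4 : (2 : DualNumber k) = ((2 : ℕ) : DualNumber k) := by norm_num
      rw [h4, TrivSqZeroExt.snd_natCast]
    rw [TrivSqZeroExt.snd_add, h3] at h2
    simpa using h2
  · have h1 := Matrix.charpoly_map P (TrivSqZeroExt.fstHom k k k).toRingHom
    have h2 : P.map (TrivSqZeroExt.fstHom k k k).toRingHom = P.map TrivSqZeroExt.fst := rfl
    rw [h2, hP] at h1
    rw [h1]
    simp

variable {p : ℕ} [Fact p.Prime] {k : Type} [Field k] [CharP k p] {k' : Type} [Field k']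
  [CharP k' p]

/-- **The local condition at `q ≠ p`, total form**: `tameL M q` if `ρbar` is unipotent on the
inertia group of the frozen place over `q`, and `⊥` otherwise (in which case `ρbar` has no
lift which is unipotent on inertia at `q`). -/
noncomputable def tameLoc (ρbar : ResidualGaloisRep k) (M : Rep.{0, 0, 0} k' GQ)
    (q : Nat.Primes) : Submodule k' (helper15.LocH1 M q) :=
  open Classical in
  if ∀ σ ∈ (primeLocalPlace q).inertiaSubgroupIn ℚ,
      LinearMap.charpoly (ρbar.ρ σ) = (X - 1) ^ 2 then tameL M q else ⊥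

theorem tameLoc_of_unip {ρbar : ResidualGaloisRep k} (M : Rep.{0, 0, 0} k' GQ) {q : Nat.Primes}
    (h : ∀ σ ∈ (primeLocalPlace q).inertiaSubgroupIn ℚ,
      LinearMap.charpoly (ρbar.ρ σ) = (X - 1) ^ 2) : tameLoc ρbar M q = tameL M q :=
  if_pos h

theorem tameLoc_of_not_unip {ρbar : ResidualGaloisRep k} (M : Rep.{0, 0, 0} k' GQ)
    {q : Nat.Primes}
    (h : ¬ ∀ σ ∈ (primeLocalPlace q).inertiaSubgroupIn ℚ,
      LinearMap.charpoly (ρbar.ρ σ) = (X - 1) ^ 2) : tameLoc ρbar M q = ⊥ :=
  if_neg h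

/-- **LOC-R1, bound, total form** (endomorphism model). -/
theorem finrank_tameLoc_le (hp2 : p ≠ 2) (q : Nat.Primes) (hpq : p ≠ (q : ℕ))
    (ρbar : ResidualGaloisRep k) (hram : ¬ ρbar.IsUnramifiedAt (q : ℕ))
    (M : Rep.{0, 0, 0} k' GQ) [FiniteDimensional k' M]
    (j : M → Module.End k ρbar.V) (hj : IsAdModel ρbar.ρ M.ρ j) :
    finrank k' ↥(tameLoc ρbar M q) ≤
      finrank k' ↥(Representation.invariants (Rep.res (primeLocalToGlobal q) M).ρ) := by
  by_cases h : ∀ σ ∈ (primeLocalPlace q).inertiaSubgroupIn ℚ,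
      LinearMap.charpoly (ρbar.ρ σ) = (X - 1) ^ 2
  · rw [tameLoc_of_unip M h]
    exact finrank_tameL_le hp2 q hpq ρbar hram h M j hj
  · rw [tameLoc_of_not_unip M h, finrank_bot]
    exact Nat.zero_le _

/-- **LOC-R1, bound, total form** (matrix model in a basis `b` of `ρbar.V`). -/
theorem finrank_tameLoc_le_of_matrix (hp2 : p ≠ 2) (q : Nat.Primes) (hpq : p ≠ (q : ℕ))
    (ρbar : ResidualGaloisRep k) (hram : ¬ ρbar.IsUnramifiedAt (q : ℕ))
    (b : Basis (Fin 2) k ρbar.V)
    (M : Rep.{0, 0, 0} k' GQ) [FiniteDimensional k' M]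
    (j : M → Matrix (Fin 2) (Fin 2) k)
    (hj_inj : Function.Injective j) (hj_sub : ∀ m m', j (m - m') = j m - j m')
    (hj_range : ∀ X : Matrix (Fin 2) (Fin 2) k, X.trace = 0 → ∃ m, j m = X)
    (hj_equiv : ∀ (g : GQ) (m : M), j (M.ρ g m) =
      LinearMap.toMatrix b b (ρbar.ρ g) * j m * LinearMap.toMatrix b b (ρbar.ρ g⁻¹)) :
    finrank k' ↥(tameLoc ρbar M q) ≤
      finrank k' ↥(Representation.invariants (Rep.res (primeLocalToGlobal q) M).ρ) :=
  finrank_tameLoc_le hp2 q hpq ρbar hram M _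
    (isAdModel_of_matrix b ρbar.ρ M.ρ j hj_inj hj_sub hj_range hj_equiv)

omit [CharP k' p] in
/-- **LOC-R1, membership, total form** (matrix model, lifts to the dual numbers).
Let `ρ` be a representation over `k[ε]` which is unipotent on inertia at `q`, with matrices
`r σ` in some basis (`e`), whose constant parts are the matrices of `ρbar` in the basis `b`.
If `a` is a global level cocycle with `j (a σ) = ε-part (r σ) * constant part (r σ⁻¹)` (the
cocycle of the lift, of trace zero), then the localisation of its class at `q` lies in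
`tameLoc ρbar M q`. -/
theorem resTotal_mem_tameLoc_of_lift (hp2 : p ≠ 2)
    (ρbar : ResidualGaloisRep k) (b : Basis (Fin 2) k ρbar.V)
    (M : Rep.{0, 0, 0} k' GQ) (j : M → Matrix (Fin 2) (Fin 2) k)
    (hj_inj : Function.Injective j) (hj_sub : ∀ m m', j (m - m') = j m - j m')
    (hj_range : ∀ X : Matrix (Fin 2) (Fin 2) k, X.trace = 0 → ∃ m, j m = X)
    (hj_equiv : ∀ (g : GQ) (m : M), j (M.ρ g m) =
      LinearMap.toMatrix b b (ρbar.ρ g) * j m * LinearMap.toMatrix b b (ρbar.ρ g⁻¹))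
    (S : Finset Nat.Primes) (a : ↥(levelCocyclesS₁ S M)) (q : ↥S)
    (ρ : GaloisRepAdic (DualNumber k)) (hρ : ρ.IsUnipotentOnInertiaAt (q.1 : ℕ))
    (r : GQ →* Matrix (Fin 2) (Fin 2) (DualNumber k))
    (e : ρ.V ≃ₗ[DualNumber k] (Fin 2 → DualNumber k))
    (he : ∀ (σ : GQ) (x : ρ.V), e (ρ.ρ σ x) = (r σ).mulVec (e x))
    (hfst : ∀ σ, (r σ).map TrivSqZeroExt.fst = LinearMap.toMatrix b b (ρbar.ρ σ))
    (ha : ∀ σ, j (a.1.1 σ) = (r σ).map TrivSqZeroExt.snd * (r σ⁻¹).map TrivSqZeroExt.fst)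
    (ha0 : ∀ σ, (j (a.1.1 σ)).trace = 0) :
    helper15.resTotal S M (helper7860.toContinuousH1S S M a) q ∈ tameLoc ρbar M q.1 := by
  have hA := helper4145.primeLocalPlace_liesOverPrime q.1
  -- the matrices `r σ` are unipotent on inertia
  have hr : ∀ σ ∈ (primeLocalPlace q.1).inertiaSubgroupIn ℚ,
      (r σ).charpoly = (X - 1) ^ 2 := by
    intro σ hσ
    have h1 : (Matrix.toLin' (r σ) : (Fin 2 → DualNumber k) →ₗ[DualNumber k] _) =
        e.conj (ρ.ρ σ) := by
      apply LinearMap.ext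
      intro x
      rw [LinearEquiv.conj_apply_apply, he, LinearEquiv.apply_symm_apply, Matrix.toLin'_apply]
    rw [← Matrix.charpoly_toLin', h1, LinearEquiv.charpoly_conj]
    exact hρ _ hA σ hσ
  have hunip : ∀ σ ∈ (primeLocalPlace q.1).inertiaSubgroupIn ℚ,
      LinearMap.charpoly (ρbar.ρ σ) = (X - 1) ^ 2 := by
    intro σ hσ
    rw [← LinearMap.charpoly_toMatrix (ρbar.ρ σ) b, ← hfst]
    exact (trace_snd_eq_zero_of_charpoly (r σ) (hr σ hσ)).2
  rw [tameLoc_of_unip M hunip]
  refine resTotal_mem_tameL hp2 ρbar M _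
    (isAdModel_of_matrix b ρbar.ρ M.ρ j hj_inj hj_sub hj_range hj_equiv) S a q hunip ?_
  intro σ hσ
  constructor
  · show LinearMap.trace k ρbar.V ((LinearMap.toMatrix b b).symm (j (a.1.1 σ))) = 0
    rw [LinearMap.trace_eq_matrix_trace k b, LinearEquiv.apply_symm_apply]
    exact ha0 σ
  · show LinearMap.trace k ρbar.V ((LinearMap.toMatrix b b).symm (j (a.1.1 σ)) * ρbar.ρ σ) = 0
    rw [LinearMap.trace_eq_matrix_trace k b, LinearMap.toMatrix_mul,
      LinearEquiv.apply_symm_apply, ha σ, ← hfst, Matrix.mul_assoc, ← map_fst_mul, ← map_mul,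
      inv_mul_cancel, map_one]
    have h1 : (1 : Matrix (Fin 2) (Fin 2) (DualNumber k)).map TrivSqZeroExt.fst = 1 := by
      ext i j
      simp [Matrix.one_apply]
      split_ifs <;> simp
    rw [h1, Matrix.mul_one]
    exact (trace_snd_eq_zero_of_charpoly (r σ) (hr σ hσ)).1

/-- The residue field of a local ring in which `p` is not a unit has characteristic `p`
(convenience for the assembly: the instance `CharP k p` needed above). -/
theorem charP_residueField {𝒪 : Type*} [CommRing 𝒪] [IsLocalRing 𝒪] (p : ℕ) [Fact p.Prime]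
    (hp𝒪 : (p : 𝒪) ∈ IsLocalRing.maximalIdeal 𝒪) : CharP (IsLocalRing.ResidueField 𝒪) p := by
  rw [CharP.charP_iff_prime_eq_zero (Fact.out : p.Prime),
    ← map_natCast (IsLocalRing.residue 𝒪), IsLocalRing.residue_eq_zero_iff]
  exact hp𝒪

end MatModel

end Fermat.Agent.S56.helper245
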