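import Mathlib
import Fermat.Agent.S56.helper245_TameFinal
import Fermat.Agent.S56.helper6599_Dict

/-!
# S56 / LOC-R1 (helper245): the local condition at `q ≠ p` of `Smin` in the DICT vocabulary

Instantiation of `helper245_TameFinal` at the landed dictionary `helper6599` (`ad0 p ρbar`,
`LiftCocycle`, `stdLift`, `toClassS`):

* `isAdModel_ad0` : `(ad0 p ρbar, ad0Val)` is an adjoint model in the sense of `IsAdModel`.
* `finrank_tameLoc_ad0_le` : `finrank (tameLoc ρbar (ad0 p ρbar) q) ≤ h⁰(ℚ_q, ad0)` for `q ≠ p`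
  at which `ρbar` is ramified (`p` odd) — the `q`-term of the local sum of the Greenberg–Wiles
  count.
* `resTotal_toClassS_mem_tameLoc` : for every cocycle `c` whose standard lift is unipotent on
  inertia at `q`, the localisation at `q` of its class lies in `tameLoc ρbar (ad0 p ρbar) q`
  — the `q`-component of the hypothesis `hloc` of `helper6599.tanBound_of_selmer_pi`.
-/

set_option autoImplicit false

namespace Fermat.Agent.S56.helper245

open Module Polynomial ExtCitation groupCohomology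
open Fermat.Agent.S55 Fermat.Agent.S56.helper6044 Fermat.Agent.S56.helper6599

section Dict

variable (p : ℕ) [Fact p.Prime] {k : Type} [Field k] [Algebra (ZMod p) k]
  (ρbar : ResidualGaloisRep k)

/-- `ad0` with its underlying-endomorphism map is an adjoint model. -/
theorem isAdModel_ad0 : IsAdModel ρbar.ρ (ad0 p ρbar).ρ (ad0Val p ρbar) where
  inj := ad0Val_injective p ρbar
  map_sub m m' := map_sub (ad0Val p ρbar) m m'
  surj y hy := ⟨ad0Mk p ρbar y hy, ad0Val_ad0Mk p ρbar y hy⟩
  equiv g m := ad0Val_ρ p ρbar g m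

/-- The characteristic of `k` is `p`. -/
theorem charP_of_algebra : CharP k p :=
  (CharP.charP_iff_prime_eq_zero (Fact.out : p.Prime)).2 (natCast_eq_zero_of_algebra p)

/-- **LOC-R1 bound at `ad0`.** -/
theorem finrank_tameLoc_ad0_le [Finite k] (hp2 : p ≠ 2) (q : Nat.Primes) (hpq : p ≠ (q : ℕ))
    (hram : ¬ ρbar.IsUnramifiedAt (q : ℕ)) :
    finrank (ZMod p) ↥(tameLoc ρbar (ad0 p ρbar) q) ≤
      finrank (ZMod p)
        ↥(Representation.invariants (Rep.res (primeLocalToGlobal q) (ad0 p ρbar)).ρ) := by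
  have : CharP k p := charP_of_algebra p
  have : FiniteDimensional (ZMod p) (ad0 p ρbar) := ad0_finite p ρbar
  exact finrank_tameLoc_le hp2 q hpq ρbar hram (ad0 p ρbar) (ad0Val p ρbar) (isAdModel_ad0 p ρbar)

variable {ρbar}

/-- The residual representation of a standard lift which is unipotent on inertia is unipotent
on inertia. -/
theorem charpoly_of_stdLift_isUnipotentOnInertiaAt (c : LiftCocycle ρbar) {q : ℕ}
    (h : (stdLift c).IsUnipotentOnInertiaAt q) (P : ValuationSubring (AlgebraicClosure ℚ))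
    (hP : P.LiesOverPrime q) (σ : AlgebraicClosure ℚ ≃ₐ[ℚ] AlgebraicClosure ℚ)
    (hσ : σ ∈ P.inertiaSubgroupIn ℚ) :
    LinearMap.charpoly (ρbar.ρ σ) = (X - 1) ^ 2 := by
  classical
  have h1 : LinearMap.charpoly (dualEnd ρbar (ρbar.ρ σ) (c.b σ)) = (X - 1) ^ 2 := h P hP σ hσ
  let e : Module.Basis (Fin 2) k ρbar.V := Module.finBasisOfFinrankEq k ρbar.V ρbar.finrank_eq
  rw [← LinearMap.charpoly_toMatrix _ (Algebra.TensorProduct.basis (DualNumber k) e),
    toMatrix_dualEnd] at h1
  have h2 := (trace_snd_eq_zero_of_charpoly _ h1).2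
  have h3 : ((LinearMap.toMatrix e e (ρbar.ρ σ)).map (algebraMap k (DualNumber k)) +
      (DualNumber.eps : DualNumber k) •
        (LinearMap.toMatrix e e (c.b σ)).map (algebraMap k (DualNumber k))).map
          TrivSqZeroExt.fst = LinearMap.toMatrix e e (ρbar.ρ σ) := by
    ext i j
    simp only [Matrix.map_apply, Matrix.add_apply, Matrix.smul_apply, smul_eq_mul, fst_entry]
  rw [h3, LinearMap.charpoly_toMatrix] at h2
  exact h2

/-- **LOC-R1 membership in the DICT vocabulary**: the `q`-component of the hypothesis `hloc` of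
`helper6599.tanBound_of_selmer_pi` for `Lq q := tameLoc ρbar (ad0 p ρbar) q`. -/
theorem resTotal_toClassS_mem_tameLoc (hp2 : p ≠ 2) (c : LiftCocycle ρbar)
    (htr : ∀ g, LinearMap.trace k ρbar.V (c.c g) = 0) (S : Finset Nat.Primes)
    (hu : ∀ q : Nat.Primes, q ∉ S → (stdLift c).IsUnramifiedAt q) (q : ↥S)
    (h : (stdLift c).IsUnipotentOnInertiaAt (q.1 : ℕ)) :
    helper15.resTotal S (ad0 p ρbar) (c.toClassS p htr S hu) q ∈
      tameLoc ρbar (ad0 p ρbar) q.1 := by
  have : CharP k p := charP_of_algebra p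
  have hA := helper4145.primeLocalPlace_liesOverPrime q.1
  have hunip : ∀ σ ∈ (primeLocalPlace q.1).inertiaSubgroupIn ℚ,
      LinearMap.charpoly (ρbar.ρ σ) = (X - 1) ^ 2 := fun σ hσ =>
    charpoly_of_stdLift_isUnipotentOnInertiaAt c h _ hA σ hσ
  rw [tameLoc_of_unip _ hunip]
  refine resTotal_mem_tameL hp2 ρbar (ad0 p ρbar) (ad0Val p ρbar) (isAdModel_ad0 p ρbar) S
    (c.toLevelCocycle p htr S hu) q hunip fun σ hσ => ⟨?_, ?_⟩
  · exact trace_ad0Val p ρbar _
  · rw [LiftCocycle.ad0Val_toLevelCocycle]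
    exact (trace_eq_zero_of_isUnipotentOnInertiaAt c h _ hA σ hσ).1

end Dict

end Fermat.Agent.S56.helper245
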