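import Mathlib
import Fermat.Agent.S56.helper245_TameDict
import Fermat.Agent.S56.helper2229_Count

/-!
# S56 / LOC-R1 (helper245): the leaf `Stmt_LocUnip` of the count assembly

`stmt_LocUnip : helper2229.Stmt_LocUnip` — the local leaf of `helper2229_Count` at the primes
`q ≠ p` where `ρbar` is ramified: the subspace `L := tameLoc ρbar (ad0 p ρbar) q` of
`H¹(ℚ_q, ad0 ρbar)` has `𝔽_p`-dimension at most `h⁰(ℚ_q, ad0 ρbar)` and contains the local class
of every lift which is unipotent on inertia at `q`.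
-/

set_option autoImplicit false

namespace Fermat.Agent.S56.helper245

open Module Polynomial ExtCitation groupCohomology
open Fermat.Agent.S55 Fermat.Agent.S56.helper6044 Fermat.Agent.S56.helper6599

/-- Local membership, cocycle form on the decomposition group: a level cocycle `z` on the
decomposition group at `q` representing the restriction of a lift cocycle `c` whose standard
lift is unipotent on inertia at `q` has its class in `tameLoc ρbar (ad0 p ρbar) q`. -/
theorem locClass_mem_tameLoc_of_stdLift (p : ℕ) [Fact p.Prime] {k : Type} [Field k]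
    [Algebra (ZMod p) k] {ρbar : ResidualGaloisRep k} (hp2 : p ≠ 2) (q : Nat.Primes)
    (c : LiftCocycle ρbar) (z : ↥(locZ1 (ad0 p ρbar) q))
    (hz : ∀ d : ↥(decomp q), ad0Val p ρbar (z.1 d) =
      c.c (d : AlgebraicClosure ℚ ≃ₐ[ℚ] AlgebraicClosure ℚ))
    (h : (stdLift c).IsUnipotentOnInertiaAt (q : ℕ)) :
    locClass (ad0 p ρbar) q z ∈ tameLoc ρbar (ad0 p ρbar) q := by
  have hchar : CharP k p := charP_of_algebra p
  have hp : p.Prime := Fact.out
  have h2 : (2 : k) ≠ 0 := by
    have h := CharP.cast_eq_zero_iff k p 2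
    rw [Nat.cast_ofNat] at h
    rw [Ne, h]
    intro hdvd
    exact hp2 ((Nat.prime_dvd_prime_iff_eq hp Nat.prime_two).mp hdvd)
  have hA := helper4145.primeLocalPlace_liesOverPrime q
  have hunip : ∀ σ ∈ (primeLocalPlace q).inertiaSubgroupIn ℚ,
      LinearMap.charpoly (ρbar.ρ σ) = (X - 1) ^ 2 := fun σ hσ =>
    charpoly_of_stdLift_isUnipotentOnInertiaAt c h _ hA σ hσ
  rw [tameLoc_of_unip _ hunip]
  refine locClass_mem_locSub z ?_
  rw [mem_tameZq_iff]
  refine ⟨z.2, fun σ hσ hρσ => ?_⟩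
  have hσI : (σ : AlgebraicClosure ℚ ≃ₐ[ℚ] AlgebraicClosure ℚ) ∈
      (primeLocalPlace q).inertiaSubgroupIn ℚ := ⟨σ, hσ, rfl⟩
  have hsq : (ρbar.ρ (σ : AlgebraicClosure ℚ ≃ₐ[ℚ] AlgebraicClosure ℚ) - 1) ^ 2 = 0 :=
    sub_one_sq_eq_zero_of_charpoly _ (hunip _ hσI)
  refine (isAdModel_ad0 p ρbar).exists_eq_sub ρbar.finrank_eq h2 hsq hρσ (z.1 σ)
    (trace_ad0Val p ρbar _) ?_
  rw [hz σ]
  exact (trace_eq_zero_of_isUnipotentOnInertiaAt c h _ hA _ hσI).1

/-- **The local leaf of the count assembly at the primes `q ≠ p` of `Smin`.** -/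
theorem stmt_LocUnip : Fermat.Agent.S56.helper2229.Stmt_LocUnip := by
  intro p _ k _ _ _ ρbar hp2 _ _ _ q hqp hram
  refine ⟨tameLoc ρbar (ad0 p ρbar) q, ?_, fun c z hz hP => ?_⟩
  · rw [add_zero]
    exact finrank_tameLoc_ad0_le p ρbar hp2 q (Ne.symm hqp) hram
  · exact locClass_mem_tameLoc_of_stdLift p hp2 q c z hz hP.2

end Fermat.Agent.S56.helper245
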