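/-
S56 (Taylor–Wiles primes), Tate chain, leaf TATE-T1-C2, CLOSED form.  Author: helper5075.

The leaf `helper9859.Stmt_IndNonneg` of `helper9859_TateCycSpec` (the `(C2)` of the T1 squeeze)
is a theorem: S55 is closed on main (`helper4075.theFrontier`), and
`helper5075.tateDef_indRep` gives `tateDef S (coind_F 𝔽_p) = 0` for every `S`-field `F ∋ ζ_p`.

* `Closed.tateDef_indRep`    : `tateDef S (indRep p F) = 0` (unconditional).
* `Closed.tateDef_add_dualT` : `tateDef M + tateDef M' = π₀ + π₂ + dim M - π₁` (unconditional).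
* `stmt_IndNonneg`           : `helper9859.Stmt_IndNonneg`.
-/
import Mathlib
import Fermat.Agent.S56.helper5075_TateInd
import Fermat.Agent.S56.helper9859_TateCycSpec

set_option autoImplicit false

namespace Fermat.Agent.S56.helper5075

open CategoryTheory Module ExtCitation
open Fermat.Agent.S55 Fermat.Agent.S55.helper2945 Fermat.Agent.S56.helper2906

namespace Closed

variable {p : ℕ} [Fact p.Prime]

/-- **Tate's global Euler characteristic formula for `coind_F 𝔽_p`**, `F` an `S`-field
containing `ζ_p` (unconditional). -/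
theorem tateDef_indRep (S : Finset Nat.Primes)
    (F : IntermediateField ℚ (AlgebraicClosure ℚ)) (hF : helper3071.IsSFieldZeta S p F) :
    tateDef S (helper3071.indRep p F) = 0 := by
  obtain ⟨q, hqS, hqp⟩ := hF.mem
  have hq : q = pPrime p := Subtype.ext hqp
  rw [hq] at hqS
  exact Fermat.Agent.S56.helper5075.tateDef_indRep helper4075.theFrontier hF.odd S hqS F
    hF.unram hF.zeta

/-- `tateDef M + tateDef M' = π₀ + π₂ + dim M - π₁` (unconditional). -/
theorem tateDef_add_dualT (hp2 : p ≠ 2) (S : Finset Nat.Primes)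
    (hpS : pPrime p ∈ S) (M : Rep.{0, 0, 0} (ZMod p) GQ) (hM : IsSMod S M) :
    tateDef S M + tateDef S (dualT M) =
      (pi0 S M : ℤ) + pi2 S M + finrank (ZMod p) M - pi1 S M :=
  Fermat.Agent.S56.helper5075.tateDef_add_dualT helper4075.theFrontier hp2 S hpS M hM

end Closed

/-- **The leaf (C2) of `helper9859_TateCycSpec` is a theorem.** -/
theorem stmt_IndNonneg : helper9859.Stmt_IndNonneg :=
  fun S _ _ F hF => (Closed.tateDef_indRep S F hF).ge

end Fermat.Agent.S56.helper5075
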