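/-
S56, COUNT ASSEMBLY: the closing file of the chain (node COUNT-ASM).  Author: helper2229.

Everything which is a theorem on main is plugged into `result_of_leaves`:

* `helper245.stmt_LocUnip`  (LOC-R1),  `helper1962.stmt_LocSO`  (LOC-R2);
* `helper3887.stmt_TateLarge_of_leaves` with `helper1127.stmt_H0`, `stmt_H0Dual`, `stmt_Pi2`,
  `stmt_Minus` and `helper5075.stmt_IndNonneg`  (TATE chain);
* `stmt_LocFL_of` with `helper6366.stmt_FlatTangent_of`  (FLAT seam).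

`result_of_H1_flat` : the literal frozen statement S56 from the THREE leaves which are still
open: `helper9859.Stmt_H1` (the arithmetic heart of Tate's formula for cyclotomic-type modules),
`helper6366.Stmt_FlatIrr` and `helper6366.Stmt_FlatRed` (the flat tangent bound at `p`).
-/
import Mathlib
import Fermat.Agent.S56.helper2229_LocAdapter
import Fermat.Agent.S56.helper245_LocUnip
import Fermat.Agent.S56.helper1962_LocSO
import Fermat.Agent.S56.helper3887_TateSeam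
import Fermat.Agent.S56.helper1127_OpNum
import Fermat.Agent.S56.helper5075_TateIndClosed

set_option autoImplicit false

namespace Fermat.Agent.S56.helper2229

open Polynomial IsLocalRing

/-- **Tate's inequality from its arithmetic heart** `(H1)`. -/
theorem stmt_TateLarge_of_H1 (hH1 : helper9859.Stmt_H1) : helper3550.Stmt_TateLarge :=
  helper3887.stmt_TateLarge_of_leaves helper1127.stmt_H0 helper1127.stmt_H0Dual
    helper1127.stmt_Pi2 helper1127.stmt_Minus hH1 helper5075.stmt_IndNonneg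

/-- **S56 from the three open leaves**: `(H1)` of the TATE chain and the two cases of the flat
tangent bound. -/
theorem result_of_H1_flat (hH1 : helper9859.Stmt_H1) (hI : helper6366.Stmt_FlatIrr)
    (hR : helper6366.Stmt_FlatRed)
    {𝒪 : Type} [CommRing 𝒪] [IsDomain 𝒪] [IsDiscreteValuationRing 𝒪]
    [IsAdicComplete (maximalIdeal 𝒪) 𝒪] [Finite (ResidueField 𝒪)]
    (p : ℕ) [Fact p.Prime] (hp2 : p ≠ 2) (hp𝒪 : (p : 𝒪) ∈ maximalIdeal 𝒪)
    (ρbar : ResidualGaloisRep (ResidueField 𝒪))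
    (habs : ρbar.IsAbsolutelyIrreducible)
    (hdet : (GaloisRepAdic.ofResidualGaloisRep ρbar).DetIsCyclotomic p)
    (hsplit : ∀ σ : AlgebraicClosure ℚ ≃ₐ[ℚ] AlgebraicClosure ℚ,
      ∃ α β : ResidueField 𝒪, LinearMap.charpoly (ρbar.ρ σ) = (X - C α) * (X - C β))
    (hTW : ∀ (K : Type) [Field K] [Algebra (ResidueField 𝒪) K]
      (G : Subgroup (AlgebraicClosure ℚ ≃ₐ[ℚ] AlgebraicClosure ℚ)), G.index = 2 →
      ∀ V : Submodule K (ρbar.baseChange K).V,
        (∀ σ ∈ G, ∀ x ∈ V, (ρbar.baseChange K).ρ σ x ∈ V) → V = ⊥ ∨ V = ⊤)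
    (S Smin : Finset ℕ) (hpSmin : p ∈ Smin) (hSmin : Smin ⊆ S) (hS : ∀ q ∈ S, q.Prime)
    (hmin : ∀ q : ℕ, q.Prime → q ≠ p → (q ∈ Smin ↔ ¬ ρbar.IsUnramifiedAt q)) :
    (∃ r : ℕ, ∀ n : ℕ, ∃ qv : Fin r → ℕ, Function.Injective qv ∧
      (∀ i, (qv i).Prime ∧ qv i ∉ S ∧ p ^ (n + 1) ∣ qv i - 1) ∧
      (∀ i, ∀ P : ValuationSubring (AlgebraicClosure ℚ), P.LiesOverPrime (qv i) →
        ∀ φ : AlgebraicClosure ℚ ≃ₐ[ℚ] AlgebraicClosure ℚ, P.IsFrobeniusAt φ (qv i) →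
          ∃ α β : ResidueField 𝒪, α ≠ β ∧ LinearMap.charpoly (ρbar.ρ φ) = (X - C α) * (X - C β)) ∧
      ∀ DQ : GaloisRep.DeformationRingData 𝒪 ρbar (fun _A _ _ _ ρ =>
          GaloisRep.strictOrdinaryCondition 𝒪 p (Smin ∪ Finset.univ.image qv) ρ ∧
            ∀ q ∈ Smin, q.Prime → q ≠ p → ρ.IsUnipotentOnInertiaAt q),
        ∃ γ : MvPowerSeries (Fin r) 𝒪 →ₐ[𝒪] DQ.R, Function.Surjective γ) ∧
    (∃ r : ℕ, ∀ n : ℕ, ∃ qv : Fin r → ℕ, Function.Injective qv ∧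
      (∀ i, (qv i).Prime ∧ qv i ∉ S ∧ p ^ (n + 1) ∣ qv i - 1) ∧
      (∀ i, ∀ P : ValuationSubring (AlgebraicClosure ℚ), P.LiesOverPrime (qv i) →
        ∀ φ : AlgebraicClosure ℚ ≃ₐ[ℚ] AlgebraicClosure ℚ, P.IsFrobeniusAt φ (qv i) →
          ∃ α β : ResidueField 𝒪, α ≠ β ∧ LinearMap.charpoly (ρbar.ρ φ) = (X - C α) * (X - C β)) ∧
      ∀ DQ : GaloisRep.DeformationRingData 𝒪 ρbar (fun _A _ _ _ ρ =>
          GaloisRep.flatCondition 𝒪 p (Smin ∪ Finset.univ.image qv) ρ ∧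
            ∀ q ∈ Smin, q.Prime → q ≠ p → ρ.IsUnipotentOnInertiaAt q),
        ∃ γ : MvPowerSeries (Fin r) 𝒪 →ₐ[𝒪] DQ.R, Function.Surjective γ) :=
  result_of_leaves (stmt_TateLarge_of_H1 hH1) helper245.stmt_LocUnip helper1962.stmt_LocSO
    (stmt_LocFL_of (helper6366.stmt_FlatTangent_of hI hR))
    p hp2 hp𝒪 ρbar habs hdet hsplit hTW S Smin hpSmin hSmin hS hmin

end Fermat.Agent.S56.helper2229
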