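import Mathlib

/-!
# S56, TATE-T3-GLUE (helper3887): the junction between T1 and T2

Mathlib only.  `G` is any group, `U` a normal subgroup of finite index, `C_U` the class of
finite-dimensional `ZMod p`-representations of `G` on which `U` acts trivially, and
`E : Rep (ZMod p) G → ℤ` a function which is additive on short exact sequences in `C_U`.

* (G0) `Rep.coind H.subtype` is exact and maps the class `C_{U ∩ H}` of `H` into `C_U`
  (`U ≤ H ≤ G`), so `W ↦ E (Rep.coind H.subtype W)` is additive.
* (G1) restriction along a surjection commutes with coinduction.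
* (G2) the `(G, U)`-form of modular Artin induction from its finite-group form for `G ⧸ U`.
* (G3) characters suffice: vanishing on the coinduced character modules `k'(ψ)` implies
  vanishing on every coinduced module, when `H / U` is cyclic of order prime to `p`.
* (G4) the combination.
-/

set_option autoImplicit false

namespace Fermat.Agent.S56.helper3887

open CategoryTheory

noncomputable section

section Basic

variable {k : Type} [Field k] {G : Type} [Group G]

/-- The class `C_U`: finite-dimensional representations on which `U` acts trivially. -/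
def IsTrivOn (U : Subgroup G) (A : Rep.{0} k G) : Prop :=
  FiniteDimensional k A ∧ ∀ u ∈ U, ∀ a : A, A.ρ u a = a

/-- Additivity of `E` on the short exact sequences of the class `C_U`. -/
def SesAdd (U : Subgroup G) (E : Rep.{0} k G → ℤ) : Prop :=
  ∀ (A B C : Rep.{0} k G) (f : A ⟶ B) (g : B ⟶ C),
    IsTrivOn U A → IsTrivOn U B → IsTrivOn U C →
    Function.Injective f.hom → Function.Exact f.hom g.hom → Function.Surjective g.hom →
    E B = E A + E C

/-- The zero representation. -/
abbrev zeroRep (k : Type) [Field k] (G : Type) [Group G] : Rep.{0} k G :=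
  Rep.of (Representation.trivial k G PUnit)

lemma isTrivOn_zeroRep (U : Subgroup G) : IsTrivOn U (zeroRep k G) :=
  ⟨inferInstanceAs (FiniteDimensional k PUnit), fun _ _ _ => rfl⟩

lemma E_zeroRep {U : Subgroup G} {E : Rep.{0} k G → ℤ} (hE : SesAdd U E) :
    E (zeroRep k G) = 0 := by
  have h := hE (zeroRep k G) (zeroRep k G) (zeroRep k G) (𝟙 _) (𝟙 _)
    (isTrivOn_zeroRep U) (isTrivOn_zeroRep U) (isTrivOn_zeroRep U)
    (fun _ _ _ => Subsingleton.elim _ _)
    (fun y => ⟨fun _ => ⟨y, Subsingleton.elim _ _⟩, fun _ => Subsingleton.elim _ _⟩)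
    (fun y => ⟨y, Subsingleton.elim _ _⟩)
  omega

/-- The zero morphism to the zero representation. -/
def toZeroRep (A : Rep.{0} k G) : A ⟶ zeroRep k G :=
  Rep.ofHom ⟨0, fun g => by ext⟩

/-- `E` is invariant under bijective morphisms in the class. -/
lemma E_eq_of_bijective {U : Subgroup G} {E : Rep.{0} k G → ℤ} (hE : SesAdd U E)
    {A B : Rep.{0} k G} (hA : IsTrivOn U A) (hB : IsTrivOn U B) (f : A ⟶ B)
    (hf : Function.Bijective f.hom) : E B = E A := by
  have h := hE A B (zeroRep k G) f (toZeroRep B) hA hB (isTrivOn_zeroRep U) hf.1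
    (fun y => ⟨fun _ => hf.2 y, fun _ => rfl⟩)
    (fun y => ⟨0, Subsingleton.elim _ _⟩)
  rw [h, E_zeroRep hE, add_zero]

/-- `E` vanishes on subsingleton representations. -/
lemma E_eq_zero_of_subsingleton {U : Subgroup G} {E : Rep.{0} k G → ℤ} (hE : SesAdd U E)
    {A : Rep.{0} k G} (hA : IsTrivOn U A) [Subsingleton A] : E A = 0 := by
  have h := E_eq_of_bijective hE hA (isTrivOn_zeroRep U) (toZeroRep A)
    ⟨fun _ _ _ => Subsingleton.elim _ _, fun y => ⟨0, Subsingleton.elim _ _⟩⟩
  rw [← h, E_zeroRep hE]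

end Basic

/-! ### (G0) coinduction is exact and preserves the class -/

section Coind

variable {k : Type} [Field k] {G : Type} [Group G] (H : Subgroup G)

lemma coindMap_injective {W W' : Rep.{0} k ↥H} (f : W ⟶ W')
    (hf : Function.Injective f.hom) :
    Function.Injective (Rep.coindMap H.subtype f).hom := by
  intro x y hxy
  apply Subtype.ext
  funext g
  apply hf
  exact congrArg (fun z : Rep.coind H.subtype W' => z.1 g) hxy

lemma coindMap_exact {W₁ W₂ W₃ : Rep.{0} k ↥H} (f : W₁ ⟶ W₂) (g : W₂ ⟶ W₃)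
    (hf : Function.Injective f.hom) (hfg : Function.Exact f.hom g.hom) :
    Function.Exact (Rep.coindMap H.subtype f).hom (Rep.coindMap H.subtype g).hom := by
  intro y
  constructor
  · intro hy
    have hpt : ∀ x : G, ∃ w : W₁, f.hom w = y.1 x := fun x =>
      (hfg (y.1 x)).1 (congrArg (fun z : Rep.coind H.subtype W₃ => z.1 x) hy)
    choose w hw using hpt
    refine ⟨⟨w, ?_⟩, ?_⟩
    · intro h x
      apply hf
      rw [hw, Rep.hom_comm_apply, hw]
      exact y.2 h x
    · apply Subtype.ext
      funext x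
      exact hw x
  · rintro ⟨x, rfl⟩
    apply Subtype.ext
    funext a
    exact (hfg _).2 ⟨x.1 a, rfl⟩

lemma coindMap_surjective {W W' : Rep.{0} k ↥H} (g : W ⟶ W')
    (hg : Function.Surjective g.hom) :
    Function.Surjective (Rep.coindMap H.subtype g).hom := by
  have h1 : Epi g := (Rep.epi_iff_surjective g).2 hg
  have h2 : Epi ((Rep.coindFunctor k H.subtype).map g) := inferInstance
  exact (Rep.epi_iff_surjective _).1 h2

/-- Evaluation at coset representatives. -/
def coindEval (W : Rep.{0} k ↥H) :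
    Rep.coind H.subtype W →ₗ[k] (Quotient (QuotientGroup.rightRel H) → W) where
  toFun x q := x.1 (Quotient.out q)
  map_add' _ _ := rfl
  map_smul' _ _ := rfl

lemma coindEval_injective (W : Rep.{0} k ↥H) : Function.Injective (coindEval H W) := by
  intro x y hxy
  apply Subtype.ext
  funext g
  have hrel : (QuotientGroup.rightRel H) (Quotient.out (Quotient.mk (QuotientGroup.rightRel H) g)) g :=
    Quotient.mk_out (s := QuotientGroup.rightRel H) g
  rw [QuotientGroup.rightRel_apply] at hrel
  set r := Quotient.out (Quotient.mk (QuotientGroup.rightRel H) g) with hr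
  have hg : g = H.subtype ⟨g * r⁻¹, hrel⟩ * r := by simp
  have hx := x.2 ⟨g * r⁻¹, hrel⟩ r
  have hy := y.2 ⟨g * r⁻¹, hrel⟩ r
  have hxy' : x.1 r = y.1 r := congrFun hxy (Quotient.mk (QuotientGroup.rightRel H) g)
  rw [hg, hx, hy, hxy']

lemma coind_finiteDimensional [H.FiniteIndex] (W : Rep.{0} k ↥H) [FiniteDimensional k W] :
    FiniteDimensional k (Rep.coind H.subtype W) := by
  have : Finite (Quotient (QuotientGroup.rightRel H)) :=
    Finite.of_equiv _ (QuotientGroup.quotientRightRelEquivQuotientLeftRel H).symm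
  exact Module.Finite.of_injective (coindEval H W) (coindEval_injective H W)

lemma coind_isTrivOn (U : Subgroup G) [U.Normal] [H.FiniteIndex] (hUH : U ≤ H)
    {W : Rep.{0} k ↥H} (hW : IsTrivOn (U.subgroupOf H) W) :
    IsTrivOn U (Rep.coind H.subtype W) := by
  have := hW.1
  refine ⟨coind_finiteDimensional H W, fun u hu x => ?_⟩
  apply Subtype.ext
  funext g
  have hmem : g * u * g⁻¹ ∈ U := ‹U.Normal›.conj_mem u hu g
  have h1 := x.2 ⟨g * u * g⁻¹, hUH hmem⟩ g
  have h2 : H.subtype ⟨g * u * g⁻¹, hUH hmem⟩ * g = g * u := by simp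
  rw [h2] at h1
  have h3 := hW.2 ⟨g * u * g⁻¹, hUH hmem⟩ (Subgroup.mem_subgroupOf.2 hmem) (x.1 g)
  show x.1 (g * u) = x.1 g
  rw [h1, h3]

/-- `W ↦ E (coind W)` is additive on the class of `H`. -/
lemma sesAdd_coind (U : Subgroup G) [U.Normal] [H.FiniteIndex] (hUH : U ≤ H)
    {E : Rep.{0} k G → ℤ} (hE : SesAdd U E) :
    SesAdd (U.subgroupOf H) (fun W : Rep.{0} k ↥H => E (Rep.coind H.subtype W)) := by
  intro A B C f g hA hB hC hf hfg hg
  exact hE _ _ _ (Rep.coindMap H.subtype f) (Rep.coindMap H.subtype g)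
    (coind_isTrivOn H U hUH hA) (coind_isTrivOn H U hUH hB) (coind_isTrivOn H U hUH hC)
    (coindMap_injective H f hf) (coindMap_exact H f g hf hfg) (coindMap_surjective H g hg)

end Coind

/-! ### (G3) characters suffice -/

section CharSpan

/-- A linear endomorphism of finite order `n` of a nonzero space over a field containing a
primitive `n`-th root of unity has an eigenvector. -/
lemma exists_eigenvector {k' V : Type} [Field k'] [AddCommGroup V] [Module k' V] [Nontrivial V]
    (T : Module.End k' V) (n : ℕ) (hn : 0 < n) (hT : T ^ n = 1) (ζ : k')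
    (hζ : IsPrimitiveRoot ζ n) : ∃ (μ : k') (v : V), v ≠ 0 ∧ T v = μ • v := by
  classical
  have hprod := congrArg (Polynomial.aeval T) (Polynomial.X_pow_sub_one_eq_prod hn hζ)
  simp only [map_sub, map_pow, Polynomial.aeval_X, map_one] at hprod
  rw [hT, sub_self] at hprod
  by_contra hne
  simp only [not_exists, not_and] at hne
  have hinj : ∀ μ : k', Function.Injective (T - algebraMap k' (Module.End k' V) μ) := by
    intro μ
    rw [← LinearMap.ker_eq_bot, Submodule.eq_bot_iff]
    intro v hv
    by_contra hv0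
    apply hne μ v hv0
    have h0 : T v - μ • v = 0 := by
      simpa [Module.algebraMap_end_apply] using hv
    exact sub_eq_zero.1 h0
  have hall : ∀ s : Finset k', Function.Injective
      (Polynomial.aeval T (∏ μ ∈ s, (Polynomial.X - Polynomial.C μ))) := by
    intro s
    induction s using Finset.induction_on with
    | empty =>
      rw [Finset.prod_empty, map_one]
      exact fun _ _ h => h
    | insert a s ha ih =>
      rw [Finset.prod_insert ha, map_mul]
      have h1 : Function.Injective (Polynomial.aeval T (Polynomial.X - Polynomial.C a)) := by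
        have h2 : Polynomial.aeval T (Polynomial.X - Polynomial.C a)
            = T - algebraMap k' (Module.End k' V) a := by
          rw [map_sub, Polynomial.aeval_X, Polynomial.aeval_C]
        rw [h2]
        exact hinj a
      exact h1.comp ih
  have hall' := hall (Polynomial.nthRootsFinset n (1 : k'))
  rw [← hprod] at hall'
  obtain ⟨x, y, hxy⟩ := exists_pair_ne V
  exact hxy (hall' rfl)

variable {p : ℕ} [Fact p.Prime]

/-- Restriction of scalars to `ZMod p` of a `k'`-linear representation. -/
def resScal {k' H V : Type} [Field k'] [Algebra (ZMod p) k'] [Group H] [AddCommGroup V]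
    [Module k' V] [Module (ZMod p) V] [IsScalarTower (ZMod p) k' V]
    (ρ : Representation k' H V) : Representation (ZMod p) H V where
  toFun h := (ρ h).restrictScalars (ZMod p)
  map_one' := by ext; simp
  map_mul' a b := by ext; simp

@[simp] lemma resScal_apply {k' H V : Type} [Field k'] [Algebra (ZMod p) k'] [Group H]
    [AddCommGroup V] [Module k' V] [Module (ZMod p) V] [IsScalarTower (ZMod p) k' V]
    (ρ : Representation k' H V) (h : H) (v : V) : resScal (p := p) ρ h v = ρ h v := rfl

/-- **Devissage of `k'`-linear representations into characters.** -/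
theorem key {H : Type} [Group H] (N : Subgroup H) {e : Rep.{0} (ZMod p) H → ℤ}
    (he : SesAdd N e) (h₀ : H) (n : ℕ) (hn : 0 < n) (hpow : h₀ ^ n ∈ N)
    (hgen : ∀ h : H, ∃ i : ℕ, h * h₀ ^ i ∈ N)
    (k' : Type) [Field k'] [Algebra (ZMod p) k'] [FiniteDimensional (ZMod p) k']
    (ζ : k') (hζ : IsPrimitiveRoot ζ n)
    (hchar : ∀ ψ : H →* k'ˣ, (∀ h ∈ N, ψ h = 1) →
      ∀ σ : Representation (ZMod p) H k', (∀ h x, σ h x = (ψ h : k') * x) →
        e (Rep.of σ) = 0) :
    ∀ (d : ℕ) (V : Type) [AddCommGroup V] [Module k' V] [Module (ZMod p) V]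
      [IsScalarTower (ZMod p) k' V] [FiniteDimensional k' V] (ρ : Representation k' H V),
      (∀ h ∈ N, ρ h = 1) → Module.finrank k' V = d →
      e (Rep.of (resScal (p := p) ρ)) = 0 := by
  intro d
  induction d with
  | zero =>
    intro V _ _ _ _ _ ρ hN hd
    have hss : Subsingleton V := Module.finrank_zero_iff.1 hd
    have hfd : FiniteDimensional (ZMod p) V := Module.Finite.trans k' V
    have htriv : IsTrivOn N (Rep.of (resScal (p := p) ρ)) :=
      ⟨hfd, fun u _ a => Subsingleton.elim _ _⟩
    have hss' : Subsingleton (Rep.of (resScal (p := p) ρ)) := hss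
    exact E_eq_zero_of_subsingleton he htriv
  | succ d ih =>
    intro V _ _ _ _ _ ρ hN hd
    have hnt : Nontrivial V := Module.nontrivial_of_finrank_pos (R := k') (by omega)
    have hTn : (ρ h₀) ^ n = 1 := by
      rw [← map_pow]
      exact hN _ hpow
    obtain ⟨μ, v, hv0, hv⟩ := exists_eigenvector (ρ h₀) n hn hTn ζ hζ
    have hpowv : ∀ i : ℕ, (ρ h₀ ^ i) v = μ ^ i • v := by
      intro i
      induction i with
      | zero => simp
      | succ i ihi =>
        rw [pow_succ, Module.End.mul_apply, hv, map_smul, ihi, smul_smul, pow_succ, mul_comm]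
    have hinjv : Function.Injective (fun a : k' => a • v) := smul_left_injective k' hv0
    have hμ0 : μ ≠ 0 := by
      intro h0
      have h1 := hpowv n
      rw [hTn, h0, zero_pow hn.ne', zero_smul] at h1
      exact hv0 h1
    have hstab : ∀ h : H, ∃ c : k', ρ h v = c • v := by
      intro h
      obtain ⟨i, hi⟩ := hgen h
      have h1 : ρ (h * h₀ ^ i) v = v := by
        rw [hN _ hi]
        rfl
      rw [map_mul, Module.End.mul_apply, map_pow, hpowv, map_smul] at h1
      refine ⟨(μ ^ i)⁻¹, ?_⟩
      rw [← h1, smul_smul, inv_mul_cancel₀ (pow_ne_zero i hμ0), one_smul, h1]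
    choose c hc using hstab
    have hc1 : c 1 = 1 := by
      apply hinjv
      show c 1 • v = (1 : k') • v
      rw [← hc, map_one, one_smul]
      rfl
    have hcmul : ∀ a b : H, c (a * b) = c a * c b := by
      intro a b
      apply hinjv
      show c (a * b) • v = (c a * c b) • v
      rw [← hc, map_mul, Module.End.mul_apply, hc b, map_smul, hc a, smul_smul, mul_comm]
    let ψ₁ : H →* k' := { toFun := c, map_one' := hc1, map_mul' := hcmul }
    have hcN : ∀ h ∈ N, c h = 1 := by
      intro h hh
      apply hinjv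
      show c h • v = (1 : k') • v
      rw [← hc, hN h hh, one_smul]
      rfl
    let σ : Representation (ZMod p) H k' :=
      { toFun := fun h => LinearMap.mulLeft (ZMod p) (c h)
        map_one' := by
          ext x
          simp [hc1]
        map_mul' := fun a b => by
          ext x
          simp [hcmul] }
    have hσ0 : e (Rep.of σ) = 0 := by
      refine hchar ψ₁.toHomUnits ?_ σ ?_
      · intro h hh
        apply Units.ext
        rw [MonoidHom.coe_toHomUnits]
        exact hcN h hh
      · intro h x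
        rw [MonoidHom.coe_toHomUnits]
        rfl
    -- the eigenline and the quotient
    let L : Submodule k' V := Submodule.span k' {v}
    have hL : ∀ h : H, L ≤ L.comap (ρ h) := by
      intro h x hx
      obtain ⟨a, rfl⟩ := Submodule.mem_span_singleton.1 hx
      show ρ h (a • v) ∈ L
      rw [map_smul, hc, smul_smul]
      exact Submodule.mem_span_singleton.2 ⟨_, rfl⟩
    let ρQ : Representation k' H (V ⧸ L) := ρ.quotient L hL
    let ι : Rep.of σ ⟶ Rep.of (resScal (p := p) ρ) :=
      Rep.ofHom ⟨(LinearMap.toSpanSingleton k' V v).restrictScalars (ZMod p), fun h => by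
        ext x
        show (c h * x) • v = ρ h (x • v)
        rw [map_smul, hc, smul_smul, mul_comm]⟩
    let q : Rep.of (resScal (p := p) ρ) ⟶ Rep.of (resScal (p := p) ρQ) :=
      Rep.ofHom ⟨L.mkQ.restrictScalars (ZMod p), fun h => by
        ext x
        rfl⟩
    have hfdV : FiniteDimensional (ZMod p) V := Module.Finite.trans k' V
    have hfdQ : FiniteDimensional (ZMod p) (V ⧸ L) := Module.Finite.trans k' (V ⧸ L)
    have hQN : ∀ h ∈ N, ρQ h = 1 := by
      intro h hh
      ext x
      show L.mkQ (ρ h x) = L.mkQ x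
      rw [hN h hh]
      rfl
    have htσ : IsTrivOn N (Rep.of σ) :=
      ⟨inferInstanceAs (FiniteDimensional (ZMod p) k'), fun u hu a => by
        show c u * a = a
        rw [hcN u hu, one_mul]⟩
    have htV : IsTrivOn N (Rep.of (resScal (p := p) ρ)) :=
      ⟨hfdV, fun u hu a => by
        show ρ u a = a
        rw [hN u hu]
        rfl⟩
    have htQ : IsTrivOn N (Rep.of (resScal (p := p) ρQ)) :=
      ⟨hfdQ, fun u hu a => by
        show ρQ u a = a
        rw [hQN u hu]
        rfl⟩
    have hιinj : Function.Injective ι.hom := fun a b hab => hinjv hab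
    have hexact : Function.Exact ι.hom q.hom := by
      intro y
      show L.mkQ y = 0 ↔ y ∈ Set.range fun a : k' => a • v
      rw [Submodule.mkQ_apply, Submodule.Quotient.mk_eq_zero]
      exact Submodule.mem_span_singleton
    have hqsurj : Function.Surjective q.hom := L.mkQ_surjective
    have hdQ : Module.finrank k' (V ⧸ L) = d := by
      have h1 := Submodule.finrank_quotient_add_finrank L
      have h2 : Module.finrank k' L = 1 := finrank_span_singleton hv0
      omega
    have hQ0 := ih (V ⧸ L) ρQ hQN hdQ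
    have hadd := he _ _ _ ι q htσ htV htQ hιinj hexact hqsurj
    rw [hadd, hσ0, hQ0, add_zero]

/-- The coordinatewise representation on `ι → W`. -/
def piRep {k H : Type} [Field k] [Group H] (W : Rep.{0} k H) (ι : Type) :
    Representation k H (ι → W) where
  toFun h := (W.ρ h).compLeft ι
  map_one' := by
    ext f i
    simp
  map_mul' a b := by
    ext f i
    simp

@[simp] lemma piRep_apply {k H : Type} [Field k] [Group H] (W : Rep.{0} k H) (ι : Type)
    (h : H) (f : ι → W) (i : ι) : piRep W ι h f i = W.ρ h (f i) := rfl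

lemma isTrivOn_piRep {k H : Type} [Field k] [Group H] (N : Subgroup H) {W : Rep.{0} k H}
    (hW : IsTrivOn N W) (ι : Type) [Finite ι] : IsTrivOn N (Rep.of (piRep W ι)) := by
  have := hW.1
  refine ⟨inferInstanceAs (FiniteDimensional k (ι → W)), fun u hu f => ?_⟩
  funext i
  exact hW.2 u hu (f i)

lemma E_piRep {k H : Type} [Field k] [Group H] (N : Subgroup H) {e : Rep.{0} k H → ℤ}
    (he : SesAdd N e) {W : Rep.{0} k H} (hW : IsTrivOn N W) (d : ℕ) :
    e (Rep.of (piRep W (Fin d))) = d * e W := by
  induction d with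
  | zero =>
    have hss : Subsingleton (Rep.of (piRep W (Fin 0))) :=
      inferInstanceAs (Subsingleton (Fin 0 → W))
    rw [E_eq_zero_of_subsingleton he (isTrivOn_piRep N hW (Fin 0))]
    simp
  | succ d ih =>
    let ι₁ : W ⟶ Rep.of (piRep W (Fin (d + 1))) :=
      Rep.ofHom ⟨LinearMap.single k (fun _ : Fin (d + 1) => (W : Type)) 0, fun h => by
        ext a i
        refine Fin.cases ?_ (fun j => ?_) i
        · simp
        · simp⟩
    let q₁ : Rep.of (piRep W (Fin (d + 1))) ⟶ Rep.of (piRep W (Fin d)) :=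
      Rep.ofHom ⟨LinearMap.funLeft k W Fin.succ, fun h => by
        ext f i
        rfl⟩
    have hinj : Function.Injective ι₁.hom := by
      intro a b hab
      have h0 : (Pi.single 0 a : Fin (d + 1) → W) 0 = (Pi.single 0 b : Fin (d + 1) → W) 0 :=
        congrFun hab 0
      simpa using h0
    have hexact : Function.Exact ι₁.hom q₁.hom := by
      intro f
      constructor
      · intro hf
        refine ⟨f 0, ?_⟩
        funext i
        refine Fin.cases ?_ (fun j => ?_) i
        · show (Pi.single 0 (f 0) : Fin (d + 1) → W) 0 = f 0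
          simp
        · show (Pi.single 0 (f 0) : Fin (d + 1) → W) j.succ = f j.succ
          rw [Pi.single_eq_of_ne (Fin.succ_ne_zero j)]
          exact (congrFun hf j).symm
      · rintro ⟨a, rfl⟩
        funext j
        show (Pi.single 0 a : Fin (d + 1) → W) j.succ = 0
        rw [Pi.single_eq_of_ne (Fin.succ_ne_zero j)]
    have hsurj : Function.Surjective q₁.hom := by
      intro g
      refine ⟨Fin.cons 0 g, ?_⟩
      funext j
      show (Fin.cons 0 g : Fin (d + 1) → W) j.succ = g j
      simp
    have h := he _ _ _ ι₁ q₁ hW (isTrivOn_piRep N hW (Fin (d + 1)))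
      (isTrivOn_piRep N hW (Fin d)) hinj hexact hsurj
    rw [h, ih]
    push_cast
    ring

open scoped TensorProduct in
/-- The base change `k' ⊗ W`, a `k'`-linear representation. -/
def baseRep {H : Type} [Group H] (k' : Type) [Field k'] [Algebra (ZMod p) k']
    (W : Rep.{0} (ZMod p) H) : Representation k' H (k' ⊗[ZMod p] W) where
  toFun h := (W.ρ h).baseChange k'
  map_one' := by
    ext x
    simp
  map_mul' a b := by
    ext x
    simp

open scoped TensorProduct in
/-- **(G3), abstract form: characters suffice.**  `H` a group, `N` a subgroup, `e` additive on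
the finite-dimensional `ZMod p`-representations of `H` trivial on `N`; `H` is generated modulo
`N` by `h₀` with `h₀ ^ n ∈ N`; `k'` a finite-dimensional `ZMod p`-algebra which is a field with
a primitive `n`-th root of unity.  If `e` vanishes on the character modules `k'(ψ)`, it
vanishes on the whole class. -/
theorem charSpan {H : Type} [Group H] (N : Subgroup H) {e : Rep.{0} (ZMod p) H → ℤ}
    (he : SesAdd N e) (h₀ : H) (n : ℕ) (hn : 0 < n) (hpow : h₀ ^ n ∈ N)
    (hgen : ∀ h : H, ∃ i : ℕ, h * h₀ ^ i ∈ N)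
    (k' : Type) [Field k'] [Algebra (ZMod p) k'] [FiniteDimensional (ZMod p) k']
    (ζ : k') (hζ : IsPrimitiveRoot ζ n)
    (hchar : ∀ ψ : H →* k'ˣ, (∀ h ∈ N, ψ h = 1) →
      ∀ σ : Representation (ZMod p) H k', (∀ h x, σ h x = (ψ h : k') * x) →
        e (Rep.of σ) = 0)
    (W : Rep.{0} (ZMod p) H) (hW : IsTrivOn N W) : e W = 0 := by
  classical
  have hWfd := hW.1
  have hd : 0 < Module.finrank (ZMod p) k' := Module.finrank_pos
  let b := Module.finBasis (ZMod p) k'
  have hWN : ∀ h ∈ N, W.ρ h = 1 := fun h hh => LinearMap.ext fun a => hW.2 h hh a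
  have hρ'N : ∀ h ∈ N, baseRep k' W h = 1 := by
    intro h hh
    show (W.ρ h).baseChange k' = 1
    rw [hWN h hh]
    ext x
    simp
  have h0 := key N he h₀ n hn hpow hgen k' ζ hζ hchar _ (k' ⊗[ZMod p] W) (baseRep k' W)
    hρ'N rfl
  let Φ : (k' ⊗[ZMod p] W) ≃ₗ[ZMod p] (Fin (Module.finrank (ZMod p) k') → W) :=
    (TensorProduct.comm (ZMod p) k' W) ≪≫ₗ (LinearEquiv.lTensor W b.equivFun) ≪≫ₗ
      (TensorProduct.piScalarRight (ZMod p) (ZMod p) W (Fin (Module.finrank (ZMod p) k')))
  have hΦ : ∀ (a : k') (w : W), Φ (a ⊗ₜ[ZMod p] w) = fun i => b.repr a i • w := by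
    intro a w
    simp [Φ]
  let Ψ : Rep.of (resScal (p := p) (baseRep k' W))
      ⟶ Rep.of (piRep W (Fin (Module.finrank (ZMod p) k'))) :=
    Rep.ofHom ⟨Φ.toLinearMap, fun h => by
      apply TensorProduct.ext'
      intro a w
      show Φ (a ⊗ₜ[ZMod p] (W.ρ h w)) = fun i => W.ρ h (Φ (a ⊗ₜ[ZMod p] w) i)
      rw [hΦ, hΦ]
      funext i
      simp⟩
  have hbij : Function.Bijective Ψ.hom := Φ.bijective
  have htriv : IsTrivOn N (Rep.of (resScal (p := p) (baseRep k' W))) :=
    ⟨inferInstanceAs (FiniteDimensional (ZMod p) (k' ⊗[ZMod p] W)), fun u hu a => by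
      show baseRep k' W u a = a
      rw [hρ'N u hu]
      rfl⟩
  have h1 := E_eq_of_bijective he htriv (isTrivOn_piRep N hW _) Ψ hbij
  rw [E_piRep N he hW, h0] at h1
  have hd' : ((Module.finrank (ZMod p) k' : ℕ) : ℤ) ≠ 0 := by exact_mod_cast hd.ne'
  exact (mul_eq_zero.1 h1).resolve_left hd'

end CharSpan

/-! ### (G1) restriction along a surjection commutes with coinduction -/

section InflCoind

variable {k : Type} [Field k] {G Γ : Type} [Group G] [Group Γ] (π : G →* Γ) (D : Subgroup Γ)
  (N : Rep.{0} k ↥D)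

/-- Composition with `π`, from `coind_D^Γ N` to `coind_{π⁻¹ D}^G (res N)`. -/
def inflCoindLin : Rep.coind D.subtype N →ₗ[k]
    Rep.coind (D.comap π).subtype (Rep.res (π.subgroupComap D) N) where
  toFun x := ⟨fun g => x.1 (π g), fun d g => by
    have h := x.2 (π.subgroupComap D d) (π g)
    show x.1 (π (((D.comap π).subtype d) * g)) = N.ρ (π.subgroupComap D d) (x.1 (π g))
    rw [map_mul]
    exact h⟩
  map_add' _ _ := rfl
  map_smul' _ _ := rfl

lemma inflCoindLin_apply (x : Rep.coind D.subtype N) (g : G) :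
    (inflCoindLin π D N x).1 g = x.1 (π g) := rfl

/-- **(G1)** the comparison morphism `res π (coind D N) ⟶ coind (π⁻¹ D) (res N)`. -/
def inflCoind : Rep.res π (Rep.coind D.subtype N) ⟶
    Rep.coind (D.comap π).subtype (Rep.res (π.subgroupComap D) N) :=
  Rep.ofHom ⟨inflCoindLin π D N, fun g => by
    ext x g'
    show x.1 (π g' * π g) = x.1 (π (g' * g))
    rw [map_mul]⟩

lemma inflCoind_hom_apply (x : Rep.coind D.subtype N) (g : G) :
    ((inflCoind π D N).hom x).1 g = x.1 (π g) := rfl

lemma inflCoind_bijective (hπ : Function.Surjective π) :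
    Function.Bijective (inflCoind π D N).hom := by
  constructor
  · intro x y hxy
    apply Subtype.ext
    funext γ
    obtain ⟨g, rfl⟩ := hπ γ
    exact congrArg (fun z : Rep.coind (D.comap π).subtype (Rep.res (π.subgroupComap D) N) =>
      z.1 g) hxy
  · intro y
    -- `y` factors through `π`
    have hfac : ∀ g g' : G, π g = π g' → y.1 g' = y.1 g := by
      intro g g' hgg'
      have hmem : g' * g⁻¹ ∈ D.comap π := by
        show π (g' * g⁻¹) ∈ D
        rw [map_mul, map_inv, hgg', mul_inv_cancel]
        exact D.one_mem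
      have h1 := y.2 ⟨g' * g⁻¹, hmem⟩ g
      have h2 : (D.comap π).subtype ⟨g' * g⁻¹, hmem⟩ * g = g' := by simp
      rw [h2] at h1
      rw [h1]
      have h3 : π.subgroupComap D ⟨g' * g⁻¹, hmem⟩ = 1 := by
        apply Subtype.ext
        show π (g' * g⁻¹) = 1
        rw [map_mul, map_inv, hgg', mul_inv_cancel]
      show N.ρ (π.subgroupComap D ⟨g' * g⁻¹, hmem⟩) (y.1 g) = y.1 g
      rw [h3, map_one]
      rfl
    choose s hs using hπ
    refine ⟨⟨fun γ => y.1 (s γ), fun d γ => ?_⟩, ?_⟩
    · have hd : s (d : Γ) ∈ D.comap π := by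
        show π (s (d : Γ)) ∈ D
        rw [hs]
        exact d.2
      have h1 := y.2 ⟨s (d : Γ), hd⟩ (s γ)
      have h2 : π (s (D.subtype d * γ)) = π ((D.comap π).subtype ⟨s (d : Γ), hd⟩ * s γ) := by
        rw [hs, map_mul]
        show (d : Γ) * γ = π (s (d : Γ)) * π (s γ)
        rw [hs, hs]
      show y.1 (s (D.subtype d * γ)) = N.ρ d (y.1 (s γ))
      rw [hfac _ _ h2.symm, h1]
      have h3 : π.subgroupComap D ⟨s (d : Γ), hd⟩ = d := Subtype.ext (hs _)
      show N.ρ (π.subgroupComap D ⟨s (d : Γ), hd⟩) (y.1 (s γ)) = N.ρ d (y.1 (s γ))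
      rw [h3]
    · apply Subtype.ext
      funext g
      show y.1 (s (π g)) = y.1 g
      exact hfac g (s (π g)) (hs (π g)).symm

end InflCoind

/-! ### (G2) the `(G, U)`-form of modular Artin induction -/

section Main

/-- **The finite-group form of T2** (modular Artin induction) for the group `Γ`: an additive
function on the finite-dimensional `ZMod p`-representations of `Γ` which vanishes on the
modules coinduced from cyclic subgroups of order prime to `p` vanishes identically. -/
def Stmt_T2 (p : ℕ) [Fact p.Prime] (Γ : Type) [Group Γ] : Prop :=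
  ∀ f : Rep.{0} (ZMod p) Γ → ℤ,
    (∀ (A B C : Rep.{0} (ZMod p) Γ) (i : A ⟶ B) (q : B ⟶ C),
      FiniteDimensional (ZMod p) A → FiniteDimensional (ZMod p) B →
      FiniteDimensional (ZMod p) C →
      Function.Injective i.hom → Function.Exact i.hom q.hom → Function.Surjective q.hom →
      f B = f A + f C) →
    (∀ D : Subgroup Γ, IsCyclic D → (Nat.card D).Coprime p →
      ∀ N : Rep.{0} (ZMod p) ↥D, FiniteDimensional (ZMod p) N →
        f (Rep.coind D.subtype N) = 0) →
    ∀ M : Rep.{0} (ZMod p) Γ, FiniteDimensional (ZMod p) M → f M = 0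

variable {p : ℕ} [Fact p.Prime] {G : Type} [Group G]

lemma isTrivOn_res_mk (U : Subgroup G) [U.Normal] (A : Rep.{0} (ZMod p) (G ⧸ U))
    (hA : FiniteDimensional (ZMod p) A) :
    IsTrivOn U (Rep.res (QuotientGroup.mk' U) A) :=
  ⟨hA, fun u hu a => by
    show A.ρ (QuotientGroup.mk' U u) a = a
    have h1 : QuotientGroup.mk' U u = 1 := (QuotientGroup.eq_one_iff u).2 hu
    rw [h1, map_one]
    rfl⟩

/-- **(G2)** The `(G, U)`-form of T2: `E` additive on `C_U`, vanishing on the modules coinduced
from the subgroups `H ⊇ U` with `H / U` cyclic of order prime to `p` (generated by `h₀`, of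
order `n`), vanishes on `C_U`. -/
theorem eq_zero_of_T2 (U : Subgroup G) [U.Normal] [U.FiniteIndex] (hT2 : Stmt_T2 p (G ⧸ U))
    {E : Rep.{0} (ZMod p) G → ℤ} (hE : SesAdd U E)
    (hind : ∀ (H : Subgroup G) (h₀ : G) (n : ℕ), U ≤ H → h₀ ∈ H → 0 < n → ¬ p ∣ n →
      h₀ ^ n ∈ U → (∀ h ∈ H, ∃ i : ℕ, h * h₀ ^ i ∈ U) → (U.subgroupOf H).index = n →
      ∀ W : Rep.{0} (ZMod p) ↥H, IsTrivOn (U.subgroupOf H) W →
        E (Rep.coind H.subtype W) = 0)
    (M : Rep.{0} (ZMod p) G) (hM : IsTrivOn U M) : E M = 0 := by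
  classical
  set π : G →* G ⧸ U := QuotientGroup.mk' U with hπ
  have hπsurj : Function.Surjective π := QuotientGroup.mk'_surjective U
  have hker : ∀ g : G, π g = 1 ↔ g ∈ U := fun g => QuotientGroup.eq_one_iff g
  have hfinΓ : Finite (G ⧸ U) := inferInstance
  let f : Rep.{0} (ZMod p) (G ⧸ U) → ℤ := fun A => E (Rep.res π A)
  have hf_add : ∀ (A B C : Rep.{0} (ZMod p) (G ⧸ U)) (i : A ⟶ B) (q : B ⟶ C),
      FiniteDimensional (ZMod p) A → FiniteDimensional (ZMod p) B →
      FiniteDimensional (ZMod p) C →
      Function.Injective i.hom → Function.Exact i.hom q.hom → Function.Surjective q.hom →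
      f B = f A + f C := by
    intro A B C i q hA hB hC hi hex hq
    exact hE _ _ _ (Rep.resMap π i) (Rep.resMap π q) (isTrivOn_res_mk U A hA)
      (isTrivOn_res_mk U B hB) (isTrivOn_res_mk U C hC) hi hex hq
  have hf_van : ∀ D : Subgroup (G ⧸ U), IsCyclic D → (Nat.card D).Coprime p →
      ∀ N : Rep.{0} (ZMod p) ↥D, FiniteDimensional (ZMod p) N →
        f (Rep.coind D.subtype N) = 0 := by
    intro D hcyc hcop N hN
    let H : Subgroup G := D.comap π
    have hUH : U ≤ H := fun u hu => by
      show π u ∈ D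
      rw [(hker u).2 hu]
      exact D.one_mem
    have hHfi : H.FiniteIndex := Subgroup.finiteIndex_of_le hUH
    obtain ⟨g, hg⟩ := hcyc.exists_generator
    obtain ⟨h₀, hh₀⟩ := hπsurj (g : G ⧸ U)
    have hfinD : Finite D := inferInstance
    have hn0 : 0 < Nat.card D := Nat.card_pos
    have hpn : ¬ p ∣ Nat.card D :=
      (Nat.Prime.coprime_iff_not_dvd (Fact.out : p.Prime)).1 hcop.symm
    have hh₀H : h₀ ∈ H := by
      show π h₀ ∈ D
      rw [hh₀]
      exact g.2
    have hpowU : h₀ ^ Nat.card D ∈ U := by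
      rw [← hker, map_pow, hh₀]
      have h1 : g ^ Nat.card D = 1 := pow_card_eq_one'
      have h2 : ((g ^ Nat.card D : D) : G ⧸ U) = ((1 : D) : G ⧸ U) := congrArg Subtype.val h1
      rw [Subgroup.coe_pow, Subgroup.coe_one] at h2
      exact h2
    have hgen : ∀ h ∈ H, ∃ i : ℕ, h * h₀ ^ i ∈ U := by
      intro h hh
      have hx : (⟨π h, hh⟩ : D)⁻¹ ∈ Submonoid.powers g :=
        (isOfFinOrder_of_finite g).mem_powers_iff_mem_zpowers.2 (hg _)
      obtain ⟨i, hi⟩ := hx
      refine ⟨i, ?_⟩
      rw [← hker, map_mul, map_pow, hh₀]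
      have h2 : ((g ^ i : D) : G ⧸ U) = (((⟨π h, hh⟩ : D)⁻¹ : D) : G ⧸ U) :=
        congrArg Subtype.val hi
      have h3 : (g : G ⧸ U) ^ i = (π h)⁻¹ := by simpa using h2
      rw [h3, mul_inv_cancel]
    have hidx : (U.subgroupOf H).index = Nat.card D := by
      have hkerS : (π.subgroupComap D).ker = U.subgroupOf H := by
        ext x
        rw [MonoidHom.mem_ker, Subgroup.mem_subgroupOf, ← hker]
        constructor
        · intro h
          exact congrArg Subtype.val h
        · intro h
          exact Subtype.ext h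
      rw [← hkerS, Subgroup.index_ker,
        MonoidHom.range_eq_top.2 (π.subgroupComap_surjective_of_surjective D hπsurj)]
      simp
    let W : Rep.{0} (ZMod p) ↥H := Rep.res (π.subgroupComap D) N
    have hW : IsTrivOn (U.subgroupOf H) W := ⟨hN, fun u hu a => by
      show N.ρ (π.subgroupComap D u) a = a
      have h1 : π.subgroupComap D u = 1 :=
        Subtype.ext ((hker _).2 (Subgroup.mem_subgroupOf.1 hu))
      rw [h1, map_one]
      rfl⟩
    have h0 := hind H h₀ (Nat.card D) hUH hh₀H hn0 hpn hpowU hgen hidx W hW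
    have hDfi : D.FiniteIndex := inferInstance
    have hfdc : FiniteDimensional (ZMod p) (Rep.coind D.subtype N) :=
      coind_finiteDimensional D N
    have h1 := E_eq_of_bijective hE (isTrivOn_res_mk U _ hfdc) (coind_isTrivOn H U hUH hW)
      (inflCoind π D N) (inflCoind_bijective π D N hπsurj)
    show E (Rep.res π (Rep.coind D.subtype N)) = 0
    rw [← h1]
    exact h0
  have hMtriv : Representation.IsTrivial (M.ρ.comp U.subtype) :=
    ⟨fun u => LinearMap.ext fun a => hM.2 u u.2 a⟩
  have hfd : FiniteDimensional (ZMod p) (M.ofQuotient U) := hM.1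
  exact hT2 f hf_add hf_van (M.ofQuotient U) hfd

/-- **(G4) = (G2) + (G3).**  `E` additive on `C_U`; for every `H ⊇ U` with `H / U` cyclic of
order `n` prime to `p` there is a finite-dimensional field extension `k'` of `ZMod p` with a
primitive `n`-th root of unity such that `E` vanishes on the modules coinduced from the
characters `k'(ψ)` of `H / U`.  Then (given T2 for `G ⧸ U`) `E` vanishes on `C_U`. -/
theorem eq_zero_of_T2_of_characters (U : Subgroup G) [U.Normal] [U.FiniteIndex]
    (hT2 : Stmt_T2 p (G ⧸ U)) {E : Rep.{0} (ZMod p) G → ℤ} (hE : SesAdd U E)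
    (hchar : ∀ (H : Subgroup G) (h₀ : G) (n : ℕ), U ≤ H → h₀ ∈ H → 0 < n → ¬ p ∣ n →
      h₀ ^ n ∈ U → (∀ h ∈ H, ∃ i : ℕ, h * h₀ ^ i ∈ U) → (U.subgroupOf H).index = n →
      ∃ (k' : Type) (_ : Field k') (_ : Algebra (ZMod p) k')
        (_ : FiniteDimensional (ZMod p) k') (ζ : k'), IsPrimitiveRoot ζ n ∧
        ∀ ψ : ↥H →* k'ˣ, (∀ h : ↥H, (h : G) ∈ U → ψ h = 1) →
          ∀ σ : Representation (ZMod p) ↥H k', (∀ h x, σ h x = (ψ h : k') * x) →
            E (Rep.coind H.subtype (Rep.of σ)) = 0)
    (M : Rep.{0} (ZMod p) G) (hM : IsTrivOn U M) : E M = 0 := by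
  refine eq_zero_of_T2 U hT2 hE ?_ M hM
  intro H h₀ n hUH hh₀ hn0 hpn hpow hgen hidx W hW
  obtain ⟨k', _, _, _, ζ, hζ, hc⟩ := hchar H h₀ n hUH hh₀ hn0 hpn hpow hgen hidx
  have hHfi : H.FiniteIndex := Subgroup.finiteIndex_of_le hUH
  have he := sesAdd_coind H U hUH hE
  refine charSpan (U.subgroupOf H) he ⟨h₀, hh₀⟩ n hn0 ?_ ?_ k' ζ hζ ?_ W hW
  · rw [Subgroup.mem_subgroupOf]
    exact hpow
  · intro h
    obtain ⟨i, hi⟩ := hgen h h.2
    refine ⟨i, ?_⟩
    rw [Subgroup.mem_subgroupOf]
    exact hi
  · intro ψ hψ σ hσ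
    exact hc ψ (fun h hh => hψ h (Subgroup.mem_subgroupOf.2 hh)) σ hσ

end Main

end

end Fermat.Agent.S56.helper3887
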