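import Mathlib
import Fermat.Agent.S56.helper3887_TateGlue

/-!
# S56, TATE-T3-GLUE (helper3887), part 2: the operator form of the junction

Mathlib only.  `G` any group, `U` a normal subgroup of finite index, `σ : G`,
`P := coind_U^G 𝔽_p` and `L` the left translation `(L f)(g) = f (σ⁻¹ g)` on `P`.

* (G5) `opSpan_coind`: if `E` vanishes on (some model of) `ker φ(L)` for every irreducible
  `φ ∣ X ^ n - 1`, then `E (coind_H^G W) = 0` for every `H = ⟨σ⟩ U` and every
  finite-dimensional `W` trivial on `U`.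
* (G6) `eq_zero_of_T2_of_operators`: the combination with the `(G, U)`-form of T2.

No characters, no roots of unity.
-/

set_option autoImplicit false

namespace Fermat.Agent.S56.helper3887

open CategoryTheory Polynomial

noncomputable section

section OperatorAlgebra

variable {p : ℕ} [Fact p.Prime]

/-- Intertwining maps commute with polynomials in the operators. -/
lemma aeval_intertwine {V V' : Type} [AddCommGroup V] [Module (ZMod p) V] [AddCommGroup V']
    [Module (ZMod p) V'] (θ : V →ₗ[ZMod p] V') (T : Module.End (ZMod p) V)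
    (T' : Module.End (ZMod p) V') (h : ∀ v, θ (T v) = T' (θ v)) (q : (ZMod p)[X]) (v : V) :
    θ (aeval T q v) = aeval T' q (θ v) := by
  induction q using Polynomial.induction_on generalizing v with
  | C a =>
    rw [aeval_C, aeval_C, Module.algebraMap_end_apply, Module.algebraMap_end_apply, map_smul]
  | add q r hq hr =>
    rw [map_add, map_add, LinearMap.add_apply, LinearMap.add_apply, map_add, hq, hr]
  | monomial n a ih =>
    have h1 : ∀ S : Module.End (ZMod p) V, aeval S (C a * X ^ (n + 1))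
        = aeval S (C a * X ^ n) * S := by
      intro S
      rw [pow_succ, ← mul_assoc, map_mul, aeval_X]
    have h2 : ∀ S : Module.End (ZMod p) V', aeval S (C a * X ^ (n + 1))
        = aeval S (C a * X ^ n) * S := by
      intro S
      rw [pow_succ, ← mul_assoc, map_mul, aeval_X]
    rw [h1, h2, Module.End.mul_apply, Module.End.mul_apply, ih, h]

/-- A nonzero polynomial killing an operator of a nonzero space has an irreducible factor with
nonzero kernel. -/
lemma exists_irreducible_ker_ne_bot {V : Type} [AddCommGroup V] [Module (ZMod p) V]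
    [Nontrivial V] (T : Module.End (ZMod p) V) (q : (ZMod p)[X]) (hq0 : q ≠ 0)
    (hq : aeval T q = 0) :
    ∃ phi : (ZMod p)[X], Irreducible phi ∧ phi ∣ q ∧ LinearMap.ker (aeval T phi) ≠ ⊥ := by
  refine UniqueFactorizationMonoid.induction_on_prime
    (P := fun q : (ZMod p)[X] => q ≠ 0 → aeval T q = 0 →
      ∃ phi : (ZMod p)[X], Irreducible phi ∧ phi ∣ q ∧ LinearMap.ker (aeval T phi) ≠ ⊥)
    q ?_ ?_ ?_ hq0 hq
  · intro h
    exact absurd rfl h
  · intro u hu _ hu0
    exfalso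
    have h1 : IsUnit (aeval T u) := hu.map (aeval T)
    rw [hu0] at h1
    obtain ⟨w, hw⟩ := h1
    have h2 : (1 : Module.End (ZMod p) V) = 0 := by
      have h3 := w.mul_inv
      rw [hw, zero_mul] at h3
      exact h3.symm
    obtain ⟨x, y, hxy⟩ := exists_pair_ne V
    have hx : x = 0 := by
      have := congrArg (fun f : Module.End (ZMod p) V => f x) h2
      simpa using this
    have hy : y = 0 := by
      have := congrArg (fun f : Module.End (ZMod p) V => f y) h2
      simpa using this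
    exact hxy (hx.trans hy.symm)
  · intro r a hr ha ih har0 har
    by_cases hk : LinearMap.ker (aeval T a) = ⊥
    · have hr' : aeval T r = 0 := by
        apply LinearMap.ext
        intro v
        have h1 : aeval T a (aeval T r v) = 0 := by
          have h2 := congrArg (fun f : Module.End (ZMod p) V => f v) har
          rw [map_mul] at h2
          exact h2
        exact (LinearMap.ker_eq_bot'.1 hk) _ h1
      obtain ⟨phi, h1, h2, h3⟩ := ih hr hr'
      exact ⟨phi, h1, h2.mul_left a, h3⟩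
    · exact ⟨a, ha.irreducible, dvd_mul_right a r, hk⟩

/-- Modulo `N`, every element acts as a power of `h₀⁻¹`. -/
lemma rho_eq_pow {H V : Type} [Group H] [AddCommGroup V] [Module (ZMod p) V] (N : Subgroup H)
    (ρ : Representation (ZMod p) H V) (hN : ∀ h ∈ N, ρ h = 1) (h h₀ : H) (i : ℕ)
    (hi : h * h₀ ^ i ∈ N) : ρ h = ρ h₀⁻¹ ^ i := by
  have h1 : ρ (h * h₀ ^ i) = 1 := hN _ hi
  have h2 : (h * h₀ ^ i) * h₀⁻¹ ^ i = h := by
    rw [mul_assoc, inv_pow, mul_inv_cancel, mul_one]
  calc ρ h = ρ ((h * h₀ ^ i) * h₀⁻¹ ^ i) := by rw [h2]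
    _ = ρ (h * h₀ ^ i) * ρ (h₀⁻¹ ^ i) := map_mul _ _ _
    _ = ρ h₀⁻¹ ^ i := by rw [h1, one_mul, map_pow]


/-- **Scalar comparison.**  Two finite-dimensional vector spaces over a field `F ⊇ 𝔽_p` on which
`H` acts through the same scalars: if `e` vanishes on the second one (nonzero), it vanishes on
the first one. -/
theorem e_eq_zero_of_scalar {H : Type} [Group H] (N : Subgroup H)
    {e : Rep.{0} (ZMod p) H → ℤ} (he : SesAdd N e) (F : Type) [Field F] [Algebra (ZMod p) F]
    (c : H → F) (V₁ V₂ : Type)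
    [AddCommGroup V₁] [Module F V₁] [Module (ZMod p) V₁] [IsScalarTower (ZMod p) F V₁]
    [AddCommGroup V₂] [Module F V₂] [Module (ZMod p) V₂] [IsScalarTower (ZMod p) F V₂]
    [FiniteDimensional (ZMod p) V₁] [FiniteDimensional (ZMod p) V₂] [Nontrivial V₂]
    (ρ₁ : Representation (ZMod p) H V₁) (ρ₂ : Representation (ZMod p) H V₂)
    (h₁ : ∀ h v, ρ₁ h v = c h • v) (h₂ : ∀ h v, ρ₂ h v = c h • v)
    (t₁ : ∀ h ∈ N, ρ₁ h = 1) (t₂ : ∀ h ∈ N, ρ₂ h = 1)
    (h0 : e (Rep.of ρ₂) = 0) : e (Rep.of ρ₁) = 0 := by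
  have : FiniteDimensional F V₁ := Module.Finite.of_restrictScalars_finite (ZMod p) F V₁
  have : FiniteDimensional F V₂ := Module.Finite.of_restrictScalars_finite (ZMod p) F V₂
  set a := Module.finrank F V₁ with ha
  set b := Module.finrank F V₂ with hb
  have hb0 : 0 < b := Module.finrank_pos
  have hfin : Module.finrank F (Fin b → V₁) = Module.finrank F (Fin a → V₂) := by
    rw [Module.finrank_pi_fintype, Module.finrank_pi_fintype]
    simp only [Finset.sum_const, Finset.card_univ, Fintype.card_fin, smul_eq_mul]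
    rw [← ha, ← hb, mul_comm]
  let φ : (Fin b → V₁) ≃ₗ[F] (Fin a → V₂) := LinearEquiv.ofFinrankEq _ _ hfin
  have ht₁ : IsTrivOn N (Rep.of ρ₁) :=
    ⟨inferInstanceAs (FiniteDimensional (ZMod p) V₁), fun u hu x => by
      show ρ₁ u x = x
      rw [t₁ u hu]
      rfl⟩
  have ht₂ : IsTrivOn N (Rep.of ρ₂) :=
    ⟨inferInstanceAs (FiniteDimensional (ZMod p) V₂), fun u hu x => by
      show ρ₂ u x = x
      rw [t₂ u hu]
      rfl⟩
  let Φ : Rep.of (piRep (Rep.of ρ₁) (Fin b)) ⟶ Rep.of (piRep (Rep.of ρ₂) (Fin a)) :=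
    Rep.ofHom ⟨φ.toLinearMap.restrictScalars (ZMod p), fun h => by
      refine LinearMap.ext fun f => ?_
      show φ (fun i => ρ₁ h (f i)) = fun j => ρ₂ h (φ f j)
      have e1 : (fun i => ρ₁ h (f i)) = c h • f := by
        funext i
        rw [h₁]
        rfl
      rw [e1, map_smul]
      funext j
      rw [h₂]
      rfl⟩
  have hΦ : Function.Bijective Φ.hom := φ.bijective
  have hEq := E_eq_of_bijective he (isTrivOn_piRep N ht₁ (Fin b)) (isTrivOn_piRep N ht₂ (Fin a))
    Φ hΦ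
  rw [E_piRep N he ht₂, E_piRep N he ht₁, h0, mul_zero] at hEq
  have hb' : (b : ℤ) ≠ 0 := by exact_mod_cast hb0.ne'
  exact (mul_eq_zero.1 hEq.symm).resolve_left hb'

/-- **Comparison of two modules killed by the same irreducible polynomial.**  `H` acts on both
through the powers `T₁ ^ i h`, `T₂ ^ i h` of operators killed by the irreducible `phi`; if `e`
vanishes on the second one (nonzero), it vanishes on the first one. -/
theorem e_eq_zero_of_aeval {H : Type} [Group H] (N : Subgroup H)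
    {e : Rep.{0} (ZMod p) H → ℤ} (he : SesAdd N e) (phi : (ZMod p)[X]) (hphi : Irreducible phi)
    (i : H → ℕ) (V₁ V₂ : Type)
    [AddCommGroup V₁] [Module (ZMod p) V₁] [FiniteDimensional (ZMod p) V₁]
    [AddCommGroup V₂] [Module (ZMod p) V₂] [FiniteDimensional (ZMod p) V₂] [Nontrivial V₂]
    (ρ₁ : Representation (ZMod p) H V₁) (ρ₂ : Representation (ZMod p) H V₂)
    (T₁ : Module.End (ZMod p) V₁) (T₂ : Module.End (ZMod p) V₂)
    (hT₁ : aeval T₁ phi = 0) (hT₂ : aeval T₂ phi = 0)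
    (h₁ : ∀ h, ρ₁ h = T₁ ^ i h) (h₂ : ∀ h, ρ₂ h = T₂ ^ i h)
    (t₁ : ∀ h ∈ N, ρ₁ h = 1) (t₂ : ∀ h ∈ N, ρ₂ h = 1)
    (h0 : e (Rep.of ρ₂) = 0) : e (Rep.of ρ₁) = 0 := by
  have : Fact (Irreducible phi) := ⟨hphi⟩
  have hk₁ : ∀ g ∈ (Ideal.span {phi} : Ideal (ZMod p)[X]),
      (aeval T₁ : (ZMod p)[X] →ₐ[ZMod p] Module.End (ZMod p) V₁).toRingHom g = 0 := by
    intro g hg
    obtain ⟨y, rfl⟩ := Ideal.mem_span_singleton.1 hg
    show aeval T₁ (phi * y) = 0
    rw [map_mul, hT₁, zero_mul]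
  have hk₂ : ∀ g ∈ (Ideal.span {phi} : Ideal (ZMod p)[X]),
      (aeval T₂ : (ZMod p)[X] →ₐ[ZMod p] Module.End (ZMod p) V₂).toRingHom g = 0 := by
    intro g hg
    obtain ⟨y, rfl⟩ := Ideal.mem_span_singleton.1 hg
    show aeval T₂ (phi * y) = 0
    rw [map_mul, hT₂, zero_mul]
  let φ₁ : AdjoinRoot phi →+* Module.End (ZMod p) V₁ :=
    Ideal.Quotient.lift (Ideal.span {phi}) _ hk₁
  let φ₂ : AdjoinRoot phi →+* Module.End (ZMod p) V₂ :=
    Ideal.Quotient.lift (Ideal.span {phi}) _ hk₂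
  have hφ₁ : ∀ g : (ZMod p)[X], φ₁ (AdjoinRoot.mk phi g) = aeval T₁ g := fun g => rfl
  have hφ₂ : ∀ g : (ZMod p)[X], φ₂ (AdjoinRoot.mk phi g) = aeval T₂ g := fun g => rfl
  have hr₁ : φ₁ (AdjoinRoot.root phi) = T₁ := by
    rw [← AdjoinRoot.mk_X, hφ₁, aeval_X]
  have hr₂ : φ₂ (AdjoinRoot.root phi) = T₂ := by
    rw [← AdjoinRoot.mk_X, hφ₂, aeval_X]
  have ha₁ : ∀ c : ZMod p, φ₁ (algebraMap (ZMod p) (AdjoinRoot phi) c)
      = algebraMap (ZMod p) (Module.End (ZMod p) V₁) c := by
    intro c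
    rw [AdjoinRoot.algebraMap_eq, ← AdjoinRoot.mk_C, hφ₁, aeval_C]
  have ha₂ : ∀ c : ZMod p, φ₂ (algebraMap (ZMod p) (AdjoinRoot phi) c)
      = algebraMap (ZMod p) (Module.End (ZMod p) V₂) c := by
    intro c
    rw [AdjoinRoot.algebraMap_eq, ← AdjoinRoot.mk_C, hφ₂, aeval_C]
  let m₁ : Module (AdjoinRoot phi) V₁ := Module.compHom V₁ φ₁
  let m₂ : Module (AdjoinRoot phi) V₂ := Module.compHom V₂ φ₂
  have hs₁ : ∀ (x : AdjoinRoot phi) (v : V₁), x • v = φ₁ x v := fun _ _ => rfl
  have hs₂ : ∀ (x : AdjoinRoot phi) (v : V₂), x • v = φ₂ x v := fun _ _ => rfl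
  have : IsScalarTower (ZMod p) (AdjoinRoot phi) V₁ := ⟨fun c x v => by
    rw [hs₁, hs₁, Algebra.smul_def, map_mul, ha₁, Module.End.mul_apply,
      Module.algebraMap_end_apply]⟩
  have : IsScalarTower (ZMod p) (AdjoinRoot phi) V₂ := ⟨fun c x v => by
    rw [hs₂, hs₂, Algebra.smul_def, map_mul, ha₂, Module.End.mul_apply,
      Module.algebraMap_end_apply]⟩
  refine e_eq_zero_of_scalar N he (AdjoinRoot phi) (fun h => AdjoinRoot.root phi ^ i h)
    V₁ V₂ ρ₁ ρ₂ ?_ ?_ t₁ t₂ h0
  · intro h v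
    rw [hs₁, map_pow, hr₁, h₁]
  · intro h v
    rw [hs₂, map_pow, hr₂, h₂]


/-- The kernel of a polynomial in `ρ h₀⁻¹` is stable under the group, when the group acts
through powers of `ρ h₀⁻¹`. -/
lemma ker_aeval_le_comap {H V : Type} [Group H] [AddCommGroup V] [Module (ZMod p) V]
    (N : Subgroup H) (ρ : Representation (ZMod p) H V) (hN : ∀ h ∈ N, ρ h = 1) (h₀ : H)
    (hgen : ∀ h : H, ∃ i : ℕ, h * h₀ ^ i ∈ N) (phi : (ZMod p)[X]) (h : H) :
    LinearMap.ker (aeval (ρ h₀⁻¹) phi) ≤ (LinearMap.ker (aeval (ρ h₀⁻¹) phi)).comap (ρ h) := by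
  intro x hx
  obtain ⟨i, hi⟩ := hgen h
  rw [Submodule.mem_comap, LinearMap.mem_ker, rho_eq_pow N ρ hN h h₀ i hi]
  have h1 : aeval (ρ h₀⁻¹) phi ((ρ h₀⁻¹ ^ i) x) = (ρ h₀⁻¹ ^ i) (aeval (ρ h₀⁻¹) phi x) := by
    have h2 : aeval (ρ h₀⁻¹) phi * ρ h₀⁻¹ ^ i = ρ h₀⁻¹ ^ i * aeval (ρ h₀⁻¹) phi := by
      have h3 : ρ h₀⁻¹ ^ i = aeval (ρ h₀⁻¹) (X ^ i : (ZMod p)[X]) := by
        rw [map_pow, aeval_X]
      rw [h3, ← map_mul, ← map_mul, mul_comm]
    exact congrArg (fun f : Module.End (ZMod p) V => f x) h2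
  rw [h1, LinearMap.mem_ker.1 hx, map_zero]

/-- **(G5), abstract form: operators suffice.**  `H` a group, `N` a subgroup, `e` additive on
the finite-dimensional `ZMod p`-representations of `H` trivial on `N`; `H` is generated modulo
`N` by `h₀` with `h₀ ^ n ∈ N`; `R` a module of the class into which every nonzero element of
every module of the class maps nontrivially (e.g. the regular module of `H / N`).  If `e`
vanishes on the kernels of `φ(ρ_R h₀⁻¹)` for the irreducible `φ ∣ X ^ n - 1`, it vanishes on the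
whole class. -/
theorem opSpan {H : Type} [Group H] (N : Subgroup H) {e : Rep.{0} (ZMod p) H → ℤ}
    (he : SesAdd N e) (h₀ : H) (n : ℕ) (hn : 0 < n) (hpow : h₀ ^ n ∈ N)
    (hgen : ∀ h : H, ∃ i : ℕ, h * h₀ ^ i ∈ N)
    (R : Rep.{0} (ZMod p) H) (hR : IsTrivOn N R)
    (hreg : ∀ W : Rep.{0} (ZMod p) H, IsTrivOn N W → ∀ w : W, w ≠ 0 →
      ∃ θ : W ⟶ R, θ.hom w ≠ 0)
    (hker : ∀ phi : (ZMod p)[X], Irreducible phi → phi ∣ X ^ n - 1 →
      ∀ hK : ∀ h : H, LinearMap.ker (aeval (R.ρ h₀⁻¹) phi)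
          ≤ (LinearMap.ker (aeval (R.ρ h₀⁻¹) phi)).comap (R.ρ h),
        e (Rep.of (R.ρ.subrepresentation _ hK)) = 0) :
    ∀ (d : ℕ) (W : Rep.{0} (ZMod p) H), IsTrivOn N W → Module.finrank (ZMod p) W ≤ d →
      e W = 0 := by
  classical
  have hRfd := hR.1
  have hRN : ∀ h ∈ N, R.ρ h = 1 := fun h hh => LinearMap.ext fun a => hR.2 h hh a
  choose idx hidx using hgen
  intro d
  induction d with
  | zero =>
    intro W hW hd
    have hWfd := hW.1
    have hss : Subsingleton W := Module.finrank_zero_iff.1 (Nat.le_zero.1 hd)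
    exact E_eq_zero_of_subsingleton he hW
  | succ d ih =>
    intro W hW hd
    have hWfd := hW.1
    by_cases hss : Subsingleton W
    · exact E_eq_zero_of_subsingleton he hW
    have hnt : Nontrivial W := not_subsingleton_iff_nontrivial.1 hss
    have hWN : ∀ h ∈ N, W.ρ h = 1 := fun h hh => LinearMap.ext fun a => hW.2 h hh a
    set T : Module.End (ZMod p) W := W.ρ h₀⁻¹ with hT
    have hTn : aeval T (X ^ n - 1 : (ZMod p)[X]) = 0 := by
      rw [map_sub, map_pow, aeval_X, map_one, hT, ← map_pow, inv_pow,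
        hWN _ (N.inv_mem hpow), sub_self]
    have hq0 : (X ^ n - 1 : (ZMod p)[X]) ≠ 0 := (monic_X_pow_sub_C (1 : ZMod p) hn.ne').ne_zero
    obtain ⟨phi, hphi, hdvd, hkne⟩ := exists_irreducible_ker_ne_bot T _ hq0 hTn
    -- the kernel, a subrepresentation
    set K : Submodule (ZMod p) W := LinearMap.ker (aeval T phi) with hKdef
    have hK : ∀ h : H, K ≤ K.comap (W.ρ h) :=
      fun h => ker_aeval_le_comap N W.ρ hWN h₀ (fun h => ⟨idx h, hidx h⟩) phi h
    let ρK : Representation (ZMod p) H K := W.ρ.subrepresentation K hK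
    let ρQ : Representation (ZMod p) H (W ⧸ K) := W.ρ.quotient K hK
    have hρK : ∀ (h : H) (x : K), ((ρK h x : K) : W) = W.ρ h x := fun _ _ => rfl
    let ι : Rep.of ρK ⟶ W := Rep.ofHom ⟨K.subtype, fun h => by
      refine LinearMap.ext fun x => ?_
      rfl⟩
    let q : W ⟶ Rep.of ρQ := Rep.ofHom ⟨K.mkQ, fun h => by
      refine LinearMap.ext fun x => ?_
      rfl⟩
    have htK : IsTrivOn N (Rep.of ρK) :=
      ⟨inferInstanceAs (FiniteDimensional (ZMod p) K), fun u hu a => by
        apply Subtype.ext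
        show W.ρ u (a : W) = a
        exact hW.2 u hu a⟩
    have htQ : IsTrivOn N (Rep.of ρQ) :=
      ⟨inferInstanceAs (FiniteDimensional (ZMod p) (W ⧸ K)), fun u hu a => by
        induction a using Submodule.Quotient.induction_on with
        | _ x =>
          show K.mkQ (W.ρ u x) = K.mkQ x
          rw [hW.2 u hu x]⟩
    have hιinj : Function.Injective ι.hom := K.subtype_injective
    have hexact : Function.Exact ι.hom q.hom := by
      intro y
      show K.mkQ y = 0 ↔ y ∈ Set.range K.subtype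
      rw [Submodule.mkQ_apply, Submodule.Quotient.mk_eq_zero]
      constructor
      · intro hy
        exact ⟨⟨y, hy⟩, rfl⟩
      · rintro ⟨z, rfl⟩
        exact z.2
    have hqsurj : Function.Surjective q.hom := K.mkQ_surjective
    have hadd := he _ _ _ ι q htK hW htQ hιinj hexact hqsurj
    -- the quotient has smaller dimension
    have hKpos : 0 < Module.finrank (ZMod p) K := by
      rw [Module.finrank_pos_iff]
      exact Submodule.nontrivial_iff_ne_bot.2 hkne
    have hdQ : Module.finrank (ZMod p) (W ⧸ K) ≤ d := by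
      have h1 := Submodule.finrank_quotient_add_finrank K
      omega
    have hQ0 : e (Rep.of ρQ) = 0 := ih (Rep.of ρQ) htQ hdQ
    -- the kernel: comparison with the kernel in `R`
    obtain ⟨x, hxK, hx0⟩ := (Submodule.ne_bot_iff K).1 hkne
    obtain ⟨θ, hθ⟩ := hreg W hW x hx0
    set K₂ : Submodule (ZMod p) R := LinearMap.ker (aeval (R.ρ h₀⁻¹) phi) with hK₂def
    have hK₂ : ∀ h : H, K₂ ≤ K₂.comap (R.ρ h) :=
      fun h => ker_aeval_le_comap N R.ρ hRN h₀ (fun h => ⟨idx h, hidx h⟩) phi h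
    let ρK₂ : Representation (ZMod p) H K₂ := R.ρ.subrepresentation K₂ hK₂
    have hθK : θ.hom x ∈ K₂ := by
      rw [hK₂def, LinearMap.mem_ker]
      have h1 := aeval_intertwine (p := p) θ.hom.toLinearMap T (R.ρ h₀⁻¹)
        (fun v => Rep.hom_comm_apply θ h₀⁻¹ v) phi x
      have h2 : aeval T phi x = 0 := hxK
      rw [h2, map_zero] at h1
      exact h1.symm
    have hnt₂ : Nontrivial K₂ :=
      Submodule.nontrivial_iff_ne_bot.2 ((Submodule.ne_bot_iff K₂).2 ⟨θ.hom x, hθK, hθ⟩)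
    have h0 : e (Rep.of ρK₂) = 0 := hker phi hphi hdvd hK₂
    have hK0 : e (Rep.of ρK) = 0 := by
      refine e_eq_zero_of_aeval N he phi hphi idx K K₂ ρK ρK₂ (ρK h₀⁻¹) (ρK₂ h₀⁻¹) ?_ ?_ ?_ ?_
        ?_ ?_ h0
      · refine LinearMap.ext fun y => ?_
        apply Subtype.ext
        have h1 := aeval_intertwine (p := p) K.subtype (ρK h₀⁻¹) T (fun v => rfl) phi y
        rw [LinearMap.zero_apply, Submodule.coe_zero]
        exact h1.trans y.2
      · refine LinearMap.ext fun y => ?_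
        apply Subtype.ext
        have h1 := aeval_intertwine (p := p) K₂.subtype (ρK₂ h₀⁻¹) (R.ρ h₀⁻¹) (fun v => rfl)
          phi y
        rw [LinearMap.zero_apply, Submodule.coe_zero]
        exact h1.trans y.2
      · intro h
        exact rho_eq_pow N ρK (fun u hu => LinearMap.ext fun a => htK.2 u hu a) h h₀ (idx h)
          (hidx h)
      · intro h
        exact rho_eq_pow N ρK₂ (fun u hu => LinearMap.ext fun a => Subtype.ext
          (hR.2 u hu a)) h h₀ (idx h) (hidx h)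
      · exact fun u hu => LinearMap.ext fun a => htK.2 u hu a
      · exact fun u hu => LinearMap.ext fun a => Subtype.ext (hR.2 u hu a)
    rw [hadd, hK0, hQ0, add_zero]

end OperatorAlgebra

/-! ### The regular module and transitivity of coinduction -/

section Regular

variable (p : ℕ) [Fact p.Prime] {H : Type} [Group H] (N : Subgroup H)

/-- The regular module of `H / N`: `coind_N^H 𝔽_p`, the functions `f : H → 𝔽_p` with
`f (n * h) = f h` for `n ∈ N`, acted on by right translation. -/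
abbrev regRep : Rep.{0} (ZMod p) H :=
  Rep.coind N.subtype (Rep.trivial (ZMod p) ↥N (ZMod p))

variable {p}

lemma regRep_inv (f : regRep p N) (u : H) (hu : u ∈ N) (h : H) : f.1 (u * h) = f.1 h :=
  f.2 ⟨u, hu⟩ h

lemma regRep_ρ_apply (f : regRep p N) (g h : H) : ((regRep p N).ρ g f).1 h = f.1 (h * g) := rfl

lemma isTrivOn_trivial : IsTrivOn (N.subgroupOf N) (Rep.trivial (ZMod p) ↥N (ZMod p)) :=
  ⟨inferInstanceAs (FiniteDimensional (ZMod p) (ZMod p)), fun _ _ _ => rfl⟩

lemma isTrivOn_regRep [N.Normal] [N.FiniteIndex] : IsTrivOn N (regRep p N) :=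
  coind_isTrivOn N N le_rfl (isTrivOn_trivial N)

/-- Every nonzero element of a module trivial on `N` is detected by a morphism to the regular
module (a matrix coefficient). -/
lemma exists_hom_regRep_ne_zero (W : Rep.{0} (ZMod p) H) (hW : IsTrivOn N W) (w : W)
    (hw : w ≠ 0) : ∃ θ : W ⟶ regRep p N, θ.hom w ≠ 0 := by
  have hex : ∃ l : Module.Dual (ZMod p) W, l w ≠ 0 := by
    by_contra hne
    simp only [not_exists, not_not] at hne
    exact hw ((Module.forall_dual_apply_eq_zero_iff (ZMod p) w).1 hne)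
  obtain ⟨l, hl⟩ := hex
  let θlin : W →ₗ[ZMod p] regRep p N :=
    { toFun := fun v => ⟨fun h => l (W.ρ h v), fun u h => by
        show l (W.ρ (N.subtype u * h) v) = l (W.ρ h v)
        rw [map_mul, Module.End.mul_apply]
        exact congrArg l (hW.2 u u.2 _)⟩
      map_add' := fun v v' => by
        apply Subtype.ext
        funext h
        show l (W.ρ h (v + v')) = l (W.ρ h v) + l (W.ρ h v')
        rw [map_add, map_add]
      map_smul' := fun c v => by
        apply Subtype.ext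
        funext h
        show l (W.ρ h (c • v)) = c • l (W.ρ h v)
        rw [map_smul, map_smul] }
  refine ⟨Rep.ofHom ⟨θlin, fun g => ?_⟩, ?_⟩
  · refine LinearMap.ext fun v => ?_
    apply Subtype.ext
    funext h
    show l (W.ρ h (W.ρ g v)) = l (W.ρ (h * g) v)
    rw [map_mul, Module.End.mul_apply]
  · intro h0
    apply hl
    have h1 : (θlin w).1 1 = 0 := by
      have h2 : θlin w = 0 := h0
      rw [h2]
      rfl
    have h3 : (θlin w).1 1 = l (W.ρ 1 w) := rfl
    rw [h3, map_one] at h1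
    exact h1

end Regular

section Transitivity

variable {p : ℕ} [Fact p.Prime] {G : Type} [Group G] (U : Subgroup G) (H : Subgroup G)

/-- Evaluation `f ↦ (h ↦ f (h * g))`, from `coind_U^G 𝔽_p` to `coind_{U ∩ H}^H 𝔽_p`. -/
def evLin (g : G) : regRep p U →ₗ[ZMod p] regRep p (U.subgroupOf H) where
  toFun f := ⟨fun h => f.1 ((h : G) * g), fun u h => by
    show f.1 ((((U.subgroupOf H).subtype u * h : ↥H) : G) * g) = f.1 ((h : G) * g)
    have h1 : ((((U.subgroupOf H).subtype u * h : ↥H) : G) * g)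
        = ((u : ↥H) : G) * ((h : G) * g) := by
      rw [Subgroup.coe_mul, mul_assoc]
      rfl
    rw [h1]
    exact regRep_inv U f _ (Subgroup.mem_subgroupOf.1 u.2) _⟩
  map_add' _ _ := rfl
  map_smul' _ _ := rfl

lemma evLin_apply (g : G) (f : regRep p U) (h : ↥H) :
    (evLin U H g f).1 h = f.1 ((h : G) * g) := rfl

lemma evLin_apply_one (g : G) (f : regRep p U) : (evLin U H g f).1 1 = f.1 g := by
  rw [evLin_apply, Subgroup.coe_one, one_mul]

end Transitivity

/-! ### (G5) operators suffice -/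

section OperatorSpan

variable {p : ℕ} [Fact p.Prime] {G : Type} [Group G]

lemma comm_mem_of_gen (U : Subgroup G) [U.Normal] (σ h : G) (i : ℕ) (hi : h * σ ^ i ∈ U) :
    σ⁻¹ * h * σ * h⁻¹ ∈ U := by
  have h1 : σ⁻¹ * h * σ * h⁻¹ = (σ⁻¹ * (h * σ ^ i) * σ⁻¹⁻¹) * (h * σ ^ i)⁻¹ := by
    group
  rw [h1]
  exact U.mul_mem (‹U.Normal›.conj_mem _ hi σ⁻¹) (U.inv_mem hi)

/-- Under the evaluation maps, the left translation by `σ⁻¹` on `coind_U^G 𝔽_p` becomes the
action of `σ⁻¹` on the regular module of `H / U`. -/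
lemma evLin_L (U : Subgroup G) [U.Normal] (H : Subgroup G) (σ : G) (hσ : σ ∈ H)
    (hgen : ∀ h ∈ H, ∃ i : ℕ, h * σ ^ i ∈ U)
    (L : regRep p U →ₗ[ZMod p] regRep p U)
    (hL : ∀ (f : regRep p U) (g : G), (L f).1 g = f.1 (σ⁻¹ * g)) (g : G) (f : regRep p U) :
    evLin U H g (L f)
      = (regRep p (U.subgroupOf H)).ρ (⟨σ, hσ⟩ : ↥H)⁻¹ (evLin U H g f) := by
  apply Subtype.ext
  funext h
  rw [evLin_apply, hL, regRep_ρ_apply, evLin_apply]
  obtain ⟨i, hi⟩ := hgen h h.2
  have hc := comm_mem_of_gen U σ h i hi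
  have h1 : σ⁻¹ * ((h : G) * g)
      = (σ⁻¹ * (h : G) * σ * (h : G)⁻¹) * (((h * (⟨σ, hσ⟩ : ↥H)⁻¹ : ↥H) : G) * g) := by
    rw [Subgroup.coe_mul, Subgroup.coe_inv]
    show σ⁻¹ * ((h : G) * g) = (σ⁻¹ * (h : G) * σ * (h : G)⁻¹) * (((h : G) * σ⁻¹) * g)
    group
  rw [h1]
  exact regRep_inv U f _ hc _

set_option maxHeartbeats 800000 in
/-- **(G5) Operators suffice.**  `U` normal of finite index in `G`, `σ : G`, `L` the left
translation by `σ⁻¹` on `P = coind_U^G 𝔽_p`.  If `E` (additive on the class `C_U`) vanishes on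
some model of `ker φ(L)` for every irreducible `φ ∣ X ^ n - 1`, then `E (coind_H^G W) = 0` for
every `H = ⟨σ⟩ U` (`σ ^ n ∈ U`) and every finite-dimensional `W` trivial on `U`. -/
theorem opSpan_coind (U : Subgroup G) [U.Normal] [U.FiniteIndex]
    {E : Rep.{0} (ZMod p) G → ℤ} (hE : SesAdd U E)
    (H : Subgroup G) (hUH : U ≤ H) (σ : G) (hσ : σ ∈ H) (n : ℕ) (hn : 0 < n)
    (hpow : σ ^ n ∈ U) (hgen : ∀ h ∈ H, ∃ i : ℕ, h * σ ^ i ∈ U)
    (L : regRep p U →ₗ[ZMod p] regRep p U)
    (hL : ∀ (f : regRep p U) (g : G), (L f).1 g = f.1 (σ⁻¹ * g))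
    (hkap : ∀ phi : (ZMod p)[X], Irreducible phi → phi ∣ X ^ n - 1 →
      ∃ (Q : Rep.{0} (ZMod p) G) (ι : Q ⟶ regRep p U), Function.Injective ι.hom ∧
        (∀ f : regRep p U, f ∈ Set.range ι.hom ↔ aeval L phi f = 0) ∧ E Q = 0)
    (W : Rep.{0} (ZMod p) ↥H) (hW : IsTrivOn (U.subgroupOf H) W) :
    E (Rep.coind H.subtype W) = 0 := by
  have hHfi : H.FiniteIndex := Subgroup.finiteIndex_of_le hUH
  have he := sesAdd_coind H U hUH hE
  have hP : IsTrivOn U (regRep p U) := isTrivOn_regRep U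
  have hR : IsTrivOn (U.subgroupOf H) (regRep p (U.subgroupOf H)) := isTrivOn_regRep _
  refine opSpan (U.subgroupOf H) he ⟨σ, hσ⟩ n hn ?_ ?_ (regRep p (U.subgroupOf H)) hR
    (fun W hW w hw => exists_hom_regRep_ne_zero _ W hW w hw) ?_ _ W hW le_rfl
  · rw [Subgroup.mem_subgroupOf]
    exact hpow
  · intro h
    obtain ⟨i, hi⟩ := hgen h h.2
    exact ⟨i, Subgroup.mem_subgroupOf.2 hi⟩
  · intro phi hphi hdvd hK
    obtain ⟨Q, ι, hιinj, hrange, hQ0⟩ := hkap phi hphi hdvd
    have hint : ∀ (g : G) (f : regRep p U), evLin U H g (aeval L phi f)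
        = aeval ((regRep p (U.subgroupOf H)).ρ (⟨σ, hσ⟩ : ↥H)⁻¹) phi (evLin U H g f) :=
      fun g f => aeval_intertwine (evLin U H g) L _
        (fun v => evLin_L U H σ hσ hgen L hL g v) phi f
    have hmem : ∀ (q : Q) (g : G), evLin U H g (ι.hom q)
        ∈ LinearMap.ker (aeval ((regRep p (U.subgroupOf H)).ρ (⟨σ, hσ⟩ : ↥H)⁻¹) phi) := by
      intro q g
      rw [LinearMap.mem_ker, ← hint, (hrange (ι.hom q)).1 ⟨q, rfl⟩, map_zero]
    let Ψlin : Q →ₗ[ZMod p] Rep.coind H.subtype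
        (Rep.of ((regRep p (U.subgroupOf H)).ρ.subrepresentation _ hK)) :=
      { toFun := fun q => ⟨fun g => ⟨evLin U H g (ι.hom q), hmem q g⟩, fun h g => by
          apply Subtype.ext
          apply Subtype.ext
          funext h'
          show (ι.hom q).1 ((h' : G) * (H.subtype h * g))
            = (ι.hom q).1 (((h' * h : ↥H) : G) * g)
          rw [Subgroup.coe_mul, mul_assoc]
          rfl⟩
        map_add' := fun q q' => by
          apply Subtype.ext
          funext g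
          apply Subtype.ext
          show evLin U H g (ι.hom (q + q')) = evLin U H g (ι.hom q) + evLin U H g (ι.hom q')
          rw [map_add, map_add]
        map_smul' := fun c q => by
          apply Subtype.ext
          funext g
          apply Subtype.ext
          show evLin U H g (ι.hom (c • q)) = c • evLin U H g (ι.hom q)
          rw [map_smul, map_smul] }
    let Ψ : Q ⟶ Rep.coind H.subtype
        (Rep.of ((regRep p (U.subgroupOf H)).ρ.subrepresentation _ hK)) :=
      Rep.ofHom ⟨Ψlin, fun g' => by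
        refine LinearMap.ext fun q => ?_
        apply Subtype.ext
        funext g
        apply Subtype.ext
        apply Subtype.ext
        funext h
        show (ι.hom (Q.ρ g' q)).1 ((h : G) * g) = (ι.hom q).1 ((h : G) * (g * g'))
        rw [Rep.hom_comm_apply ι g' q, regRep_ρ_apply, mul_assoc]⟩
    have hΨinj : Function.Injective Ψ.hom := by
      intro q q' hqq
      apply hιinj
      apply Subtype.ext
      funext g
      have h1 : (Ψlin q).1 g = (Ψlin q').1 g :=
        congrArg (fun z : Rep.coind H.subtype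
          (Rep.of ((regRep p (U.subgroupOf H)).ρ.subrepresentation _ hK)) => z.1 g) hqq
      have h2 : evLin U H g (ι.hom q) = evLin U H g (ι.hom q') := congrArg Subtype.val h1
      have h3 : (evLin U H g (ι.hom q)).1 1 = (evLin U H g (ι.hom q')).1 1 := by rw [h2]
      rw [evLin_apply_one, evLin_apply_one] at h3
      exact h3
    have hΨsurj : Function.Surjective Ψ.hom := by
      intro x
      have hx2 : ∀ (h : ↥H) (g : G), ((x.1 ((h : G) * g)).1 : regRep p (U.subgroupOf H))
          = (regRep p (U.subgroupOf H)).ρ h (x.1 g).1 :=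
        fun h g => congrArg Subtype.val (x.2 h g)
      let f : regRep p U := ⟨fun g => ((x.1 g).1 : regRep p (U.subgroupOf H)).1 1, fun u g => by
        show ((x.1 (U.subtype u * g)).1 : regRep p (U.subgroupOf H)).1 1
          = ((x.1 g).1 : regRep p (U.subgroupOf H)).1 1
        have h2 := hx2 ⟨u, hUH u.2⟩ g
        have h2' : ((x.1 (U.subtype u * g)).1 : regRep p (U.subgroupOf H))
            = (regRep p (U.subgroupOf H)).ρ ⟨u, hUH u.2⟩ (x.1 g).1 := h2
        rw [h2', regRep_ρ_apply, one_mul]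
        have h3 := regRep_inv (U.subgroupOf H) ((x.1 g).1 : regRep p (U.subgroupOf H))
          ⟨u, hUH u.2⟩ (Subgroup.mem_subgroupOf.2 u.2) 1
        rw [mul_one] at h3
        exact h3⟩
      have hev : ∀ g, evLin U H g f = ((x.1 g).1 : regRep p (U.subgroupOf H)) := by
        intro g
        apply Subtype.ext
        funext h
        show ((x.1 ((h : G) * g)).1 : regRep p (U.subgroupOf H)).1 1
          = ((x.1 g).1 : regRep p (U.subgroupOf H)).1 h
        rw [hx2 h g, regRep_ρ_apply, one_mul]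
      have hf0 : aeval L phi f = 0 := by
        apply Subtype.ext
        funext g
        have h1 := hint g f
        rw [hev g] at h1
        have h2 : aeval ((regRep p (U.subgroupOf H)).ρ (⟨σ, hσ⟩ : ↥H)⁻¹) phi
            ((x.1 g).1 : regRep p (U.subgroupOf H)) = 0 := (x.1 g).2
        rw [h2] at h1
        have h3 : (evLin U H g (aeval L phi f)).1 1 = 0 := by
          rw [h1]
          rfl
        rw [evLin_apply_one] at h3
        exact h3
      obtain ⟨q, hq⟩ := (hrange f).2 hf0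
      refine ⟨q, ?_⟩
      apply Subtype.ext
      funext g
      apply Subtype.ext
      exact (congrArg (evLin U H g) hq).trans (hev g)
    have hPfd : FiniteDimensional (ZMod p) (regRep p U) := hP.1
    have hRfd : FiniteDimensional (ZMod p) (regRep p (U.subgroupOf H)) := hR.1
    have hQt : IsTrivOn U Q :=
      ⟨Module.Finite.of_injective ι.hom.toLinearMap hιinj, fun u hu a => hιinj (by
        rw [Rep.hom_comm_apply, hP.2 u hu])⟩
    have htK : IsTrivOn (U.subgroupOf H)
        (Rep.of ((regRep p (U.subgroupOf H)).ρ.subrepresentation _ hK)) :=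
      ⟨Module.Finite.of_injective (Submodule.subtype _) (Submodule.subtype_injective _),
        fun u hu a => by
          apply Subtype.ext
          show (regRep p (U.subgroupOf H)).ρ u a.1 = a.1
          exact hR.2 u hu a.1⟩
    have hfin := E_eq_of_bijective hE hQt (coind_isTrivOn H U hUH htK) Ψ ⟨hΨinj, hΨsurj⟩
    rw [hfin, hQ0]

/-- The left translation by `σ⁻¹` on `coind_U^G 𝔽_p` (`U` normal). -/
def leftTr (U : Subgroup G) [U.Normal] (σ : G) : regRep p U →ₗ[ZMod p] regRep p U where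
  toFun f := ⟨fun g => f.1 (σ⁻¹ * g), fun u g => by
    show f.1 (σ⁻¹ * (U.subtype u * g)) = f.1 (σ⁻¹ * g)
    have h1 : σ⁻¹ * (U.subtype u * g) = (σ⁻¹ * (u : G) * σ⁻¹⁻¹) * (σ⁻¹ * g) := by
      show σ⁻¹ * ((u : G) * g) = (σ⁻¹ * (u : G) * σ⁻¹⁻¹) * (σ⁻¹ * g)
      group
    rw [h1]
    exact regRep_inv U f _ (‹U.Normal›.conj_mem _ u.2 σ⁻¹) _⟩
  map_add' _ _ := rfl
  map_smul' _ _ := rfl

lemma leftTr_apply (U : Subgroup G) [U.Normal] (σ : G) (f : regRep p U) (g : G) :
    (leftTr U σ f).1 g = f.1 (σ⁻¹ * g) := rfl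

/-- **(G6) = (G2) + (G5).**  `E` additive on `C_U`; for every `σ : G` and `n` prime to `p` with
`σ ^ n ∈ U`, `E` vanishes on (some model of) the kernel of `φ(L_σ)` on `coind_U^G 𝔽_p`, for every
irreducible `φ ∣ X ^ n - 1` (`L_σ` the left translation by `σ⁻¹`).  Then (given T2 for `G ⧸ U`)
`E` vanishes on `C_U`. -/
theorem eq_zero_of_T2_of_operators (U : Subgroup G) [U.Normal] [U.FiniteIndex]
    (hT2 : Stmt_T2 p (G ⧸ U)) {E : Rep.{0} (ZMod p) G → ℤ} (hE : SesAdd U E)
    (hop : ∀ (σ : G) (n : ℕ), 0 < n → ¬ p ∣ n → σ ^ n ∈ U →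
      ∃ L : regRep p U →ₗ[ZMod p] regRep p U,
        (∀ (f : regRep p U) (g : G), (L f).1 g = f.1 (σ⁻¹ * g)) ∧
        ∀ phi : (ZMod p)[X], Irreducible phi → phi ∣ X ^ n - 1 →
          ∃ (Q : Rep.{0} (ZMod p) G) (ι : Q ⟶ regRep p U), Function.Injective ι.hom ∧
            (∀ f : regRep p U, f ∈ Set.range ι.hom ↔ aeval L phi f = 0) ∧ E Q = 0)
    (M : Rep.{0} (ZMod p) G) (hM : IsTrivOn U M) : E M = 0 := by
  refine eq_zero_of_T2 U hT2 hE ?_ M hM
  intro H h₀ n hUH hh₀ hn0 hpn hpow hgen _ W hW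
  obtain ⟨L, hL, hkap⟩ := hop h₀ n hn0 hpn hpow
  exact opSpan_coind U hE H hUH h₀ hh₀ n hn0 hpow hgen L hL hkap W hW

end OperatorSpan

end

end Fermat.Agent.S56.helper3887
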