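/-
S56 (Taylor–Wiles primes), global chain, brick T2 (modular Artin induction without Brauer
characters).  Author: helper5699.

Part 1: additive invariants of finite-dimensional `k[G]`-modules.

`IsAddInv f` says that `f : Rep k G → ℤ` is invariant under isomorphism and additive on short
exact sequences of finite-dimensional representations.  This file only contains the definition and
its unbundled forms (for `Rep.of ρ`), so that no Grothendieck group object is ever needed: two
modules "have the same class in `K₀`" when every additive invariant takes the same value on them.
-/
import Mathlib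

set_option autoImplicit false

namespace Fermat.Agent.S56.helper5699

open CategoryTheory

/-- An additive invariant of finite-dimensional `k[G]`-modules: a function on `Rep k G` which is
invariant under isomorphism and additive on short exact sequences (only finite-dimensional
modules are ever tested). -/
structure IsAddInv {k G : Type} [Field k] [Group G] (f : Rep.{0, 0, 0} k G → ℤ) : Prop where
  iso : ∀ {A B : Rep.{0, 0, 0} k G}, Module.Finite k A → Nonempty (A ≅ B) → f A = f B
  exact : ∀ {A B C : Rep.{0, 0, 0} k G}, Module.Finite k B → ∀ (i : A ⟶ B) (q : B ⟶ C),
    Function.Injective i.hom → Function.Surjective q.hom → Function.Exact i.hom q.hom →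
      f B = f A + f C

section Unbundled

variable {k G : Type} [Field k] [Group G] {f : Rep.{0, 0, 0} k G → ℤ}
variable {A B C : Type} [AddCommGroup A] [Module k A] [AddCommGroup B] [Module k B]
  [AddCommGroup C] [Module k C]
variable {ρA : Representation k G A} {ρB : Representation k G B} {ρC : Representation k G C}

/-- Invariance under an equivalence of (unbundled) representations. -/
theorem IsAddInv.of_equiv (hf : IsAddInv f) [Module.Finite k A] (e : ρA.Equiv ρB) :
    f (Rep.of ρA) = f (Rep.of ρB) :=
  hf.iso (A := Rep.of ρA) (B := Rep.of ρB) ‹Module.Finite k A› ⟨Rep.mkIso e⟩

/-- Additivity on a short exact sequence of (unbundled) representations. -/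
theorem IsAddInv.of_exact (hf : IsAddInv f) [Module.Finite k B] (i : ρA.IntertwiningMap ρB)
    (q : ρB.IntertwiningMap ρC) (hi : Function.Injective i) (hq : Function.Surjective q)
    (hex : Function.Exact i q) :
    f (Rep.of ρB) = f (Rep.of ρA) + f (Rep.of ρC) :=
  hf.exact (A := Rep.of ρA) (B := Rep.of ρB) (C := Rep.of ρC) ‹Module.Finite k B›
    (Rep.ofHom i) (Rep.ofHom q) hi hq hex

/-- An equivalence of representations from a bijective intertwining map. -/
noncomputable def equivOfBijective (i : ρA.IntertwiningMap ρB) (hi : Function.Bijective i) :
    ρA.Equiv ρB :=
  Representation.Equiv.mk (LinearEquiv.ofBijective i.toLinearMap hi) (fun g => by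
    have := i.isIntertwining' g
    ext x
    exact congrArg (fun l : A →ₗ[k] B => l x) this)

/-- Invariance under a bijective intertwining map. -/
theorem IsAddInv.of_bijective (hf : IsAddInv f) [Module.Finite k A] (i : ρA.IntertwiningMap ρB)
    (hi : Function.Bijective i) : f (Rep.of ρA) = f (Rep.of ρB) :=
  hf.of_equiv (equivOfBijective i hi)

end Unbundled

end Fermat.Agent.S56.helper5699
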