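/-
S56 (Taylor–Wiles primes), global chain, brick T2 (modular Artin induction without Brauer
characters).  Author: helper5699.

Part 3: over a field of characteristic zero, two finite-dimensional representations of a finite
group with the same character are equivalent (`exists_equiv_of_character_eq`).  The proof splits
off a subrepresentation of minimal dimension on both sides (Maschke) and uses the character
formula for the dimension of the space of intertwining maps.  Mathlib only.
-/
import Mathlib

set_option autoImplicit false

namespace Fermat.Agent.S56.helper5699

open Module Representation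

section

variable {k G : Type} [Field k] [Group G]
variable {V W V' W' : Type} [AddCommGroup V] [Module k V] [AddCommGroup W] [Module k W]
  [AddCommGroup V'] [Module k V'] [AddCommGroup W'] [Module k W']

/-- Product of two equivalences of representations. -/
noncomputable def equivProdCongr {ρ : Representation k G V} {σ : Representation k G W}
    {ρ' : Representation k G V'} {σ' : Representation k G W'} (e : ρ.Equiv σ) (e' : ρ'.Equiv σ') :
    (ρ.prod ρ').Equiv (σ.prod σ') :=
  Representation.Equiv.mk (LinearEquiv.prodCongr e.toLinearEquiv e'.toLinearEquiv) (fun g => by
    apply LinearMap.ext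
    rintro ⟨v, v'⟩
    have h1 : e (ρ g v) = σ g (e v) := by
      have := e.toIntertwiningMap.isIntertwining' g
      exact congrArg (fun l : V →ₗ[k] W => l v) this
    have h2 : e' (ρ' g v') = σ' g (e' v') := by
      have := e'.toIntertwiningMap.isIntertwining' g
      exact congrArg (fun l : V' →ₗ[k] W' => l v') this
    exact Prod.ext h1 h2)

/-- The character of a product is the sum of the characters. -/
theorem character_prod [FiniteDimensional k V] [FiniteDimensional k W]
    (ρ : Representation k G V) (σ : Representation k G W) (g : G) :
    (ρ.prod σ).character g = ρ.character g + σ.character g := by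
  unfold Representation.character
  show LinearMap.trace k (V × W) ((ρ g).prodMap (σ g)) = _
  rw [LinearMap.trace_prodMap']

/-- A subrepresentation and a complementary subrepresentation give a product decomposition. -/
noncomputable def equivOfIsCompl {ρ : Representation k G V} (S S' : Subrepresentation ρ)
    (h : IsCompl S.toSubmodule S'.toSubmodule) :
    (S.toRepresentation.prod S'.toRepresentation).Equiv ρ :=
  Representation.Equiv.mk (Submodule.prodEquivOfIsCompl S.toSubmodule S'.toSubmodule h)
    (fun g => by
      apply LinearMap.ext
      rintro ⟨s, s'⟩
      show ((ρ g s : V) + (ρ g s' : V)) = ρ g ((s : V) + (s' : V))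
      rw [map_add])

end

section Finite

variable {k G : Type} [Field k] [CharZero k] [Group G] [Fintype G]
variable {V W T : Type} [AddCommGroup V] [Module k V] [AddCommGroup W] [Module k W]
  [AddCommGroup T] [Module k T]

instance neZero_card_of_charZero : NeZero (Nat.card G : k) :=
  ⟨Nat.cast_ne_zero.2 Nat.card_pos.ne'⟩

/-- Maschke: every subrepresentation has a complementary subrepresentation. -/
theorem exists_isCompl_toSubmodule {ρ : Representation k G V} (S : Subrepresentation ρ) :
    ∃ S' : Subrepresentation ρ, IsCompl S.toSubmodule S'.toSubmodule := by
  obtain ⟨S', hS'⟩ := exists_isCompl S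
  refine ⟨S', ?_, ?_⟩
  · rw [disjoint_iff]
    have := hS'.1.eq_bot
    exact congrArg Subrepresentation.toSubmodule this
  · rw [codisjoint_iff]
    have := hS'.2.eq_top
    exact congrArg Subrepresentation.toSubmodule this

/-- Representations with the same character receive the same number of intertwining maps. -/
theorem finrank_intertwiningMap_eq_of_character_eq [FiniteDimensional k V]
    [FiniteDimensional k W] [FiniteDimensional k T] {ρ : Representation k G V}
    {σ : Representation k G W} (τ : Representation k G T) (h : ρ.character = σ.character) :
    finrank k (IntertwiningMap τ ρ) = finrank k (IntertwiningMap τ σ) := by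
  have hinv : Invertible (Nat.card G : k) := invertibleOfNonzero (NeZero.ne _)
  have h1 := card_inv_mul_sum_char_mul_char_eq_finrank τ ρ
  have h2 := card_inv_mul_sum_char_mul_char_eq_finrank τ σ
  rw [h] at h1
  exact Nat.cast_injective (R := k) (h1.symm.trans h2)

/-- The inclusion of a subrepresentation as an intertwining map. -/
def subrepIncl {ρ : Representation k G V} (S : Subrepresentation ρ) :
    IntertwiningMap S.toRepresentation ρ where
  toLinearMap := S.toSubmodule.subtype
  isIntertwining' g := by
    apply LinearMap.ext
    intro x
    rfl

/-- The range of an intertwining map as a subrepresentation. -/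
def rangeSubrep {τ : Representation k G T} {σ : Representation k G W}
    (j : IntertwiningMap τ σ) : Subrepresentation σ where
  toSubmodule := LinearMap.range j.toLinearMap
  apply_mem_toSubmodule g v hv := by
    obtain ⟨t, rfl⟩ := hv
    refine ⟨τ g t, ?_⟩
    have := j.isIntertwining' g
    exact congrArg (fun l : T →ₗ[k] W => l t) this

/-- The kernel of an intertwining map out of a subrepresentation, as a subrepresentation of the
ambient representation. -/
def kerSubrep {ρ : Representation k G V} (S : Subrepresentation ρ) {σ : Representation k G W}
    (j : IntertwiningMap S.toRepresentation σ) : Subrepresentation ρ where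
  toSubmodule := (LinearMap.ker j.toLinearMap).map S.toSubmodule.subtype
  apply_mem_toSubmodule g v hv := by
    obtain ⟨x, hx, rfl⟩ := hv
    refine ⟨S.toRepresentation g x, ?_, rfl⟩
    have := j.isIntertwining' g
    have h2 : j.toLinearMap (S.toRepresentation g x) = σ g (j.toLinearMap x) :=
      congrArg (fun l : ↥S.toSubmodule →ₗ[k] W => l x) this
    have hx' : j.toLinearMap x = 0 := hx
    show j.toLinearMap (S.toRepresentation g x) = 0
    rw [h2, hx', map_zero]

/-- An injective intertwining map is an equivalence onto its range. -/
noncomputable def equivRange {τ : Representation k G T} {σ : Representation k G W}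
    (j : IntertwiningMap τ σ) (hj : Function.Injective j.toLinearMap) :
    τ.Equiv (rangeSubrep j).toRepresentation :=
  Representation.Equiv.mk (LinearEquiv.ofInjective j.toLinearMap hj) (fun g => by
    apply LinearMap.ext
    intro t
    apply Subtype.ext
    have := j.isIntertwining' g
    exact congrArg (fun l : T →ₗ[k] W => l t) this)

/-- **Characters determine representations** (finite group, characteristic zero). -/
theorem exists_equiv_of_character_eq :
    ∀ (n : ℕ) {V W : Type} [AddCommGroup V] [Module k V] [FiniteDimensional k V]
      [AddCommGroup W] [Module k W] [FiniteDimensional k W]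
      (ρ : Representation k G V) (σ : Representation k G W),
      finrank k V = n → ρ.character = σ.character → Nonempty (ρ.Equiv σ) := by
  intro n
  induction n using Nat.strong_induction_on with
  | _ n ih =>
    intro V W _ _ _ _ _ _ ρ σ hn hχ
    have hdim : finrank k V = finrank k W := by
      have h1 := congrFun hχ 1
      rw [char_one, char_one] at h1
      exact Nat.cast_injective (R := k) h1
    rcases Nat.eq_zero_or_pos n with h0 | hpos
    · -- both spaces are zero
      have hV : Subsingleton V := by
        rw [← Module.finrank_zero_iff (R := k)]; omega
      refine ⟨Representation.Equiv.mk (LinearEquiv.ofFinrankEq V W hdim) (fun g => ?_)⟩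
      apply LinearMap.ext
      intro v
      rw [Subsingleton.elim v 0]
      simp
    · -- split off a subrepresentation of minimal dimension
      have hVnt : Nontrivial V := by
        rw [← Module.finrank_pos_iff (R := k)]; omega
      have hex : ∃ d, ∃ S : Subrepresentation ρ, S.toSubmodule ≠ ⊥ ∧
          finrank k S.toSubmodule = d :=
        ⟨_, ⊤, by
          show (⊤ : Submodule k V) ≠ ⊥
          exact top_ne_bot, rfl⟩
      classical
      obtain ⟨S, hSne, hSd⟩ := Nat.find_spec hex
      have hSmin : ∀ S₀ : Subrepresentation ρ, S₀.toSubmodule ≠ ⊥ →
          finrank k S.toSubmodule ≤ finrank k S₀.toSubmodule := by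
        intro S₀ hS₀
        rw [hSd]
        exact Nat.find_min' hex ⟨S₀, hS₀, rfl⟩
      obtain ⟨S', hS'⟩ := exists_isCompl_toSubmodule S
      -- a nonzero intertwining map from `S` to `σ`
      have hcount := finrank_intertwiningMap_eq_of_character_eq S.toRepresentation hχ
      have hpos1 : 0 < finrank k (IntertwiningMap S.toRepresentation ρ) := by
        rw [Module.finrank_pos_iff_exists_ne_zero]
        refine ⟨subrepIncl S, fun h0 => hSne ?_⟩
        rw [Submodule.eq_bot_iff]
        intro x hx
        have := congrArg (fun j : IntertwiningMap S.toRepresentation ρ => j.toLinearMap ⟨x, hx⟩) h0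
        exact this
      rw [hcount, Module.finrank_pos_iff_exists_ne_zero] at hpos1
      obtain ⟨j, hj⟩ := hpos1
      have hjinj : Function.Injective j.toLinearMap := by
        rw [← LinearMap.ker_eq_bot]
        by_contra hker
        have hK : (kerSubrep S j).toSubmodule ≠ ⊥ := by
          intro hbot
          apply hker
          rw [Submodule.eq_bot_iff]
          intro x hx
          have hx' : (x : V) ∈ (kerSubrep S j).toSubmodule := ⟨x, hx, rfl⟩
          rw [hbot, Submodule.mem_bot] at hx'
          exact Subtype.ext hx'
        have hle : (kerSubrep S j).toSubmodule ≤ S.toSubmodule := by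
          rintro _ ⟨x, -, rfl⟩
          exact x.2
        have heq : (kerSubrep S j).toSubmodule = S.toSubmodule :=
          Submodule.eq_of_le_of_finrank_le hle (hSmin _ hK)
        apply hj
        apply IntertwiningMap.ext
        apply LinearMap.ext
        intro x
        have hx : (x : V) ∈ (kerSubrep S j).toSubmodule := by rw [heq]; exact x.2
        obtain ⟨y, hy, hyx⟩ := hx
        have : y = x := Subtype.ext hyx
        rw [← this]
        exact hy
      obtain ⟨T', hT'⟩ := exists_isCompl_toSubmodule (rangeSubrep j)
      have e₁ := equivOfIsCompl S S' hS'
      have e₂ := equivRange j hjinj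
      have e₃ := equivOfIsCompl (rangeSubrep j) T' hT'
      -- characters of the complements agree
      have hχ' : S'.toRepresentation.character = T'.toRepresentation.character := by
        funext g
        have h1 := congrFun (char_iso e₁) g
        have h3 := congrFun (char_iso e₃) g
        have h2 := congrFun (char_iso e₂) g
        rw [character_prod] at h1 h3
        have h4 := congrFun hχ g
        rw [← h1, ← h3, h2] at h4
        exact add_left_cancel h4
      have hlt : finrank k S'.toSubmodule < n := by
        have h1 := e₁.toLinearEquiv.finrank_eq
        rw [Module.finrank_prod] at h1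
        have h2 : 0 < finrank k S.toSubmodule := by
          rw [Module.finrank_pos_iff_exists_ne_zero]
          obtain ⟨x, hx, hx0⟩ := (Submodule.ne_bot_iff _).1 hSne
          exact ⟨⟨x, hx⟩, fun h => hx0 (congrArg Subtype.val h)⟩
        omega
      obtain ⟨e₄⟩ := ih _ hlt S'.toRepresentation T'.toRepresentation rfl hχ'
      exact ⟨e₁.symm.trans ((equivProdCongr e₂ e₄).trans e₃)⟩

end Finite

end Fermat.Agent.S56.helper5699
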