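/-
S56 (Taylor–Wiles primes), global chain, brick T2 (modular Artin induction without Brauer
characters).  Author: helper5699.

Part 2: the LATTICE LEMMA in subquotient form.

For a `ℤ[G]`-module `V` (a `Representation ℤ G V`) and `G`-stable subgroups `A`, `B` we form the
`𝔽_p[G]`-module `SQ ρ p A B = A / ((B + pA) ∩ A)`.  For `B = ⊥` this is `A / pA`.  Main result
(`IsAddInv.sq_eq_of_le`): if `V` is finitely generated and `p`-torsion-free, `L₂ ≤ L₁` are
`G`-stable and `N • L₁ ≤ L₂` for some `N ≥ 1`, then every additive invariant takes the same value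
on `L₁ / pL₁` and `L₂ / pL₂`.
-/
import Mathlib
import Fermat.Agent.S56.helper5699_AddInv

set_option autoImplicit false

namespace Fermat.Agent.S56.helper5699

open CategoryTheory

section SQ

variable {G : Type} [Group G] {V : Type} [AddCommGroup V] (ρ : Representation ℤ G V) (p : ℕ)

/-- The submodule `(B + pA) ∩ A` of `A`. -/
def sqKer (A B : Subrepresentation ρ) : Submodule ℤ ↥A.toSubmodule where
  carrier := {x | ∃ b ∈ B.toSubmodule, ∃ a ∈ A.toSubmodule, (x : V) = b + p • a}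
  add_mem' := by
    rintro x y ⟨b, hb, a, ha, h⟩ ⟨b', hb', a', ha', h'⟩
    refine ⟨b + b', add_mem hb hb', a + a', add_mem ha ha', ?_⟩
    rw [Submodule.coe_add, h, h', smul_add]
    abel
  zero_mem' := ⟨0, zero_mem _, 0, zero_mem _, by simp⟩
  smul_mem' := by
    rintro c x ⟨b, hb, a, ha, h⟩
    refine ⟨c • b, Submodule.smul_mem _ c hb, c • a, Submodule.smul_mem _ c ha, ?_⟩
    rw [Submodule.coe_smul, h, smul_add, smul_comm]

lemma mem_sqKer_iff {A B : Subrepresentation ρ} (x : ↥A.toSubmodule) :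
    x ∈ sqKer ρ p A B ↔ ∃ b ∈ B.toSubmodule, ∃ a ∈ A.toSubmodule, (x : V) = b + p • a := Iff.rfl

/-- The subquotient `A / ((B + pA) ∩ A)`. -/
abbrev SQ (A B : Subrepresentation ρ) : Type := ↥A.toSubmodule ⧸ sqKer ρ p A B

variable {ρ p}

/-- The class of an element of `A`. -/
def sqMk {A : Subrepresentation ρ} (B : Subrepresentation ρ) (a : V) (ha : a ∈ A.toSubmodule) :
    SQ ρ p A B :=
  Submodule.Quotient.mk ⟨a, ha⟩

lemma sqMk_eq_zero_iff {A B : Subrepresentation ρ} (a : V) (ha : a ∈ A.toSubmodule) :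
    (sqMk B a ha : SQ ρ p A B) = 0 ↔
      ∃ b ∈ B.toSubmodule, ∃ a' ∈ A.toSubmodule, a = b + p • a' :=
  Submodule.Quotient.mk_eq_zero _

lemma sqMk_surjective {A B : Subrepresentation ρ} (x : SQ ρ p A B) :
    ∃ (a : V) (ha : a ∈ A.toSubmodule), sqMk B a ha = x := by
  obtain ⟨⟨a, ha⟩, rfl⟩ := Submodule.Quotient.mk_surjective _ x
  exact ⟨a, ha, rfl⟩

lemma sqMk_add {A B : Subrepresentation ρ} (a a' : V) (ha : a ∈ A.toSubmodule)
    (ha' : a' ∈ A.toSubmodule) :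
    (sqMk B (a + a') (add_mem ha ha') : SQ ρ p A B) = sqMk B a ha + sqMk B a' ha' := rfl

lemma nsmul_sq_eq_zero {A B : Subrepresentation ρ} (x : SQ ρ p A B) : p • x = 0 := by
  obtain ⟨a, ha, rfl⟩ := sqMk_surjective x
  have h : (p • sqMk B a ha : SQ ρ p A B) = sqMk B (p • a) (Submodule.smul_of_tower_mem _ p ha) :=
    rfl
  rw [h, sqMk_eq_zero_iff]
  exact ⟨0, zero_mem _, a, ha, by simp⟩

variable (ρ p) in
/-- `A / ((B + pA) ∩ A)` is an `𝔽_p`-vector space. -/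
instance sqModule (A B : Subrepresentation ρ) : Module (ZMod p) (SQ ρ p A B) :=
  AddCommGroup.zmodModule nsmul_sq_eq_zero

/-- The action of `g` on `A / ((B + pA) ∩ A)` as a `ℤ`-linear map. -/
def sqActInt (A B : Subrepresentation ρ) (g : G) : SQ ρ p A B →ₗ[ℤ] SQ ρ p A B :=
  Submodule.mapQ _ _ ((ρ g).restrict (fun x hx => A.apply_mem_toSubmodule g hx)) (by
    rintro x ⟨b, hb, a, ha, h⟩
    refine ⟨ρ g b, B.apply_mem_toSubmodule g hb, ρ g a, A.apply_mem_toSubmodule g ha, ?_⟩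
    show ρ g (x : V) = _
    rw [h, map_add, map_nsmul])

lemma sqActInt_mk (A B : Subrepresentation ρ) (g : G) (a : V) (ha : a ∈ A.toSubmodule) :
    sqActInt A B g (sqMk B a ha : SQ ρ p A B) = sqMk B (ρ g a) (A.apply_mem_toSubmodule g ha) :=
  rfl

variable (ρ p) in
/-- The representation of `G` on the `𝔽_p`-vector space `A / ((B + pA) ∩ A)`. -/
def sqRep (A B : Subrepresentation ρ) : Representation (ZMod p) G (SQ ρ p A B) where
  toFun g := AddMonoidHom.toZModLinearMap p (sqActInt A B g).toAddMonoidHom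
  map_one' := by
    apply LinearMap.ext
    intro x
    obtain ⟨a, ha, rfl⟩ := sqMk_surjective x
    show sqActInt A B 1 (sqMk B a ha) = sqMk B a ha
    rw [sqActInt_mk]
    simp
  map_mul' g h := by
    apply LinearMap.ext
    intro x
    obtain ⟨a, ha, rfl⟩ := sqMk_surjective x
    show sqActInt A B (g * h) (sqMk B a ha) = sqActInt A B g (sqActInt A B h (sqMk B a ha))
    rw [sqActInt_mk, sqActInt_mk, sqActInt_mk]
    simp

@[simp] lemma sqRep_mk (A B : Subrepresentation ρ) (g : G) (a : V) (ha : a ∈ A.toSubmodule) :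
    sqRep ρ p A B g (sqMk B a ha) = sqMk B (ρ g a) (A.apply_mem_toSubmodule g ha) := rfl

section Map

variable {V' : Type} [AddCommGroup V'] {ρ' : Representation ℤ G V'}
  {A B : Subrepresentation ρ} {A' B' : Subrepresentation ρ'}

/-- An equivariant additive map `φ : V → V'` with `φ A ⊆ A'` and `φ B ⊆ B' + pA'` induces an
intertwining map between the subquotients. -/
def sqMap (φ : V →ₗ[ℤ] V') (hφ : ∀ g v, φ (ρ g v) = ρ' g (φ v))
    (hA : ∀ v ∈ A.toSubmodule, φ v ∈ A'.toSubmodule)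
    (hB : ∀ v ∈ B.toSubmodule, ∃ b' ∈ B'.toSubmodule, ∃ a' ∈ A'.toSubmodule, φ v = b' + p • a') :
    (sqRep ρ p A B).IntertwiningMap (sqRep ρ' p A' B') where
  toLinearMap := AddMonoidHom.toZModLinearMap p
    (Submodule.mapQ (sqKer ρ p A B) (sqKer ρ' p A' B') (φ.restrict hA) (by
      rintro x ⟨b, hb, a, ha, h⟩
      obtain ⟨b', hb', a', ha', h'⟩ := hB b hb
      refine ⟨b', hb', a' + φ a, add_mem ha' (hA a ha), ?_⟩
      show φ (x : V) = _
      rw [h, map_add, h', map_nsmul, smul_add]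
      abel)).toAddMonoidHom
  isIntertwining' g := by
    apply LinearMap.ext
    intro x
    obtain ⟨a, ha, rfl⟩ := sqMk_surjective x
    show sqMk B' (φ (ρ g a)) _ = sqMk B' (ρ' g (φ a)) _
    congr 1
    exact hφ g a

@[simp] lemma sqMap_mk (φ : V →ₗ[ℤ] V') (hφ : ∀ g v, φ (ρ g v) = ρ' g (φ v))
    (hA : ∀ v ∈ A.toSubmodule, φ v ∈ A'.toSubmodule)
    (hB : ∀ v ∈ B.toSubmodule, ∃ b' ∈ B'.toSubmodule, ∃ a' ∈ A'.toSubmodule, φ v = b' + p • a')
    (a : V) (ha : a ∈ A.toSubmodule) :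
    sqMap (p := p) φ hφ hA hB (sqMk B a ha) = sqMk B' (φ a) (hA a ha) := rfl

end Map

section Lift

variable {M : Type} [AddCommGroup M] [Module (ZMod p) M] {σ : Representation (ZMod p) G M}
  {A B : Subrepresentation ρ}

/-- An equivariant additive map `ψ : V → M` into an `𝔽_p[G]`-module killing `B` induces an
intertwining map on `A / ((B + pA) ∩ A)`. -/
def sqLift (ψ : V →ₗ[ℤ] M) (hψ : ∀ g v, ψ (ρ g v) = σ g (ψ v))
    (hB : ∀ v ∈ B.toSubmodule, ψ v = 0) : (sqRep ρ p A B).IntertwiningMap σ where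
  toLinearMap := AddMonoidHom.toZModLinearMap p
    (Submodule.liftQ (sqKer ρ p A B) (ψ ∘ₗ A.toSubmodule.subtype) (by
      rintro x ⟨b, hb, a, ha, h⟩
      show ψ (x : V) = 0
      rw [h, map_add, hB b hb, map_nsmul, zero_add, ← Nat.cast_smul_eq_nsmul (ZMod p),
        ZMod.natCast_self, zero_smul])).toAddMonoidHom
  isIntertwining' g := by
    apply LinearMap.ext
    intro x
    obtain ⟨a, ha, rfl⟩ := sqMk_surjective x
    exact hψ g a

@[simp] lemma sqLift_mk (ψ : V →ₗ[ℤ] M) (hψ : ∀ g v, ψ (ρ g v) = σ g (ψ v))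
    (hB : ∀ v ∈ B.toSubmodule, ψ v = 0) (a : V) (ha : a ∈ A.toSubmodule) :
    sqLift (p := p) (σ := σ) ψ hψ hB (sqMk B a ha) = ψ a := rfl

end Lift

/-- The subquotients of a finitely generated `ℤ[G]`-module are finite-dimensional. -/
instance sq_finite [Module.Finite ℤ V] (A B : Subrepresentation ρ) :
    Module.Finite (ZMod p) (SQ ρ p A B) := by
  have h1 : Module.Finite ℤ ↥A.toSubmodule := Module.IsNoetherian.finite ℤ _
  have h2 : Module.Finite ℤ (SQ ρ p A B) := Module.Finite.quotient ℤ _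
  exact Module.Finite.of_restrictScalars_finite ℤ (ZMod p) (SQ ρ p A B)

/-- The image of multiplication by `N`. -/
def nMul (N : ℕ) (A : Subrepresentation ρ) : Subrepresentation ρ where
  toSubmodule := A.toSubmodule.map ((N : ℤ) • (LinearMap.id : V →ₗ[ℤ] V))
  apply_mem_toSubmodule g v hv := by
    obtain ⟨a, ha, rfl⟩ := hv
    exact ⟨ρ g a, A.apply_mem_toSubmodule g ha, by simp⟩

lemma mem_nMul_iff {N : ℕ} {A : Subrepresentation ρ} {v : V} :
    v ∈ (nMul N A).toSubmodule ↔ ∃ a ∈ A.toSubmodule, N • a = v := by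
  constructor
  · rintro ⟨a, ha, rfl⟩
    exact ⟨a, ha, by simp⟩
  · rintro ⟨a, ha, rfl⟩
    exact ⟨a, ha, by simp⟩

lemma nsmul_mem_nMul {N : ℕ} {A : Subrepresentation ρ} {a : V} (ha : a ∈ A.toSubmodule) :
    N • a ∈ (nMul N A).toSubmodule :=
  mem_nMul_iff.2 ⟨a, ha, rfl⟩

section Additive

variable {f : Rep.{0, 0, 0} (ZMod p) G → ℤ} [Fact p.Prime] [Module.Finite ℤ V]

/-- The three-term relation: for `B ≤ A` and `D ⊆ pA` with `B ∩ pA ⊆ D + pB`, the sequence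
`0 → B/(D + pB) → A/pA → A/(B + pA) → 0` is exact. -/
theorem IsAddInv.sq_exact3 (hf : IsAddInv f) (A B D : Subrepresentation ρ)
    (hBA : ∀ v ∈ B.toSubmodule, v ∈ A.toSubmodule)
    (hD : ∀ d ∈ D.toSubmodule, ∃ a ∈ A.toSubmodule, d = p • a)
    (hinj : ∀ b ∈ B.toSubmodule, ∀ a ∈ A.toSubmodule, b = p • a →
      ∃ d ∈ D.toSubmodule, ∃ b' ∈ B.toSubmodule, b = d + p • b') :
    f (Rep.of (sqRep ρ p A ⊥)) = f (Rep.of (sqRep ρ p B D)) + f (Rep.of (sqRep ρ p A B)) := by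
  let i : (sqRep ρ p B D).IntertwiningMap (sqRep ρ p A ⊥) :=
    sqMap LinearMap.id (fun _ _ => rfl) hBA (fun v hv => by
      obtain ⟨a, ha, h⟩ := hD v hv
      exact ⟨0, zero_mem _, a, ha, by simpa using h⟩)
  let q : (sqRep ρ p A ⊥).IntertwiningMap (sqRep ρ p A B) :=
    sqMap LinearMap.id (fun _ _ => rfl) (fun v hv => hv) (fun v hv => by
      have hv0 : v = 0 := hv
      exact ⟨0, zero_mem _, 0, zero_mem _, by simp [hv0]⟩)
  refine hf.of_exact i q ?_ ?_ ?_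
  · rw [injective_iff_map_eq_zero]
    intro x hx
    obtain ⟨b, hb, rfl⟩ := sqMk_surjective x
    have hx' : (sqMk ⊥ b (hBA b hb) : SQ ρ p A ⊥) = 0 := hx
    rw [sqMk_eq_zero_iff] at hx'
    obtain ⟨z, hz, a, ha, h⟩ := hx'
    have hz0 : z = 0 := hz
    rw [hz0, zero_add] at h
    rw [sqMk_eq_zero_iff]
    exact hinj b hb a ha h
  · intro y
    obtain ⟨a, ha, rfl⟩ := sqMk_surjective y
    exact ⟨sqMk ⊥ a ha, rfl⟩
  · intro y
    constructor
    · intro hy
      obtain ⟨a, ha, rfl⟩ := sqMk_surjective y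
      have hy' : (sqMk B a ha : SQ ρ p A B) = 0 := hy
      rw [sqMk_eq_zero_iff] at hy'
      obtain ⟨b, hb, a', ha', h⟩ := hy'
      refine ⟨sqMk D b hb, ?_⟩
      show (sqMk ⊥ b (hBA b hb) : SQ ρ p A ⊥) = sqMk ⊥ a ha
      have hsub : (sqMk ⊥ a ha : SQ ρ p A ⊥) - sqMk ⊥ b (hBA b hb) = 0 := by
        have : (sqMk ⊥ a ha : SQ ρ p A ⊥) - sqMk ⊥ b (hBA b hb) =
            sqMk ⊥ (a - b) (sub_mem ha (hBA b hb)) := rfl
        rw [this, sqMk_eq_zero_iff]
        exact ⟨0, zero_mem _, a', ha', by rw [h]; abel⟩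
      exact (sub_eq_zero.1 hsub).symm
    · rintro ⟨x, rfl⟩
      obtain ⟨b, hb, rfl⟩ := sqMk_surjective x
      show (sqMk B b (hBA b hb) : SQ ρ p A B) = 0
      rw [sqMk_eq_zero_iff]
      exact ⟨b, hb, 0, zero_mem _, by simp⟩

/-- Multiplication by `p` identifies `A/(B + pA)` with `pA/(pB + p²A)` when `V` has no
`p`-torsion. -/
theorem IsAddInv.sq_pMul (hf : IsAddInv f) (htf : ∀ v : V, p • v = 0 → v = 0)
    (A B : Subrepresentation ρ) :
    f (Rep.of (sqRep ρ p A B)) = f (Rep.of (sqRep ρ p (nMul p A) (nMul p B))) := by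
  let i : (sqRep ρ p A B).IntertwiningMap (sqRep ρ p (nMul p A) (nMul p B)) :=
    sqMap ((p : ℤ) • LinearMap.id) (fun g v => by simp)
      (fun v hv => by simpa using nsmul_mem_nMul (N := p) hv)
      (fun v hv => ⟨p • v, nsmul_mem_nMul hv, 0, zero_mem _, by simp⟩)
  refine hf.of_bijective i ⟨?_, ?_⟩
  · rw [injective_iff_map_eq_zero]
    intro x hx
    obtain ⟨a, ha, rfl⟩ := sqMk_surjective x
    have hx' : (sqMk (nMul p B) (((p : ℤ) • LinearMap.id : V →ₗ[ℤ] V) a)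
        (by simpa using nsmul_mem_nMul (N := p) ha) : SQ ρ p (nMul p A) (nMul p B)) = 0 := hx
    rw [sqMk_eq_zero_iff] at hx'
    obtain ⟨b, hb, a', ha', h⟩ := hx'
    obtain ⟨b₀, hb₀, rfl⟩ := mem_nMul_iff.1 hb
    obtain ⟨a₀, ha₀, rfl⟩ := mem_nMul_iff.1 ha'
    rw [sqMk_eq_zero_iff]
    refine ⟨b₀, hb₀, a₀, ha₀, ?_⟩
    have h2 : p • (a - (b₀ + p • a₀)) = 0 := by
      have h3 : p • a = p • b₀ + p • p • a₀ := by simpa using h
      rw [smul_sub, smul_add, h3, sub_self]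
    exact sub_eq_zero.1 (htf _ h2)
  · intro y
    obtain ⟨v, hv, rfl⟩ := sqMk_surjective y
    obtain ⟨a, ha, rfl⟩ := mem_nMul_iff.1 hv
    refine ⟨sqMk B a ha, ?_⟩
    show sqMk (nMul p B) (((p : ℤ) • LinearMap.id : V →ₗ[ℤ] V) a) _ = _
    congr 1
    simp

/-- **Lattice step at `p`.** If `pL ≤ L' ≤ L` then `L/pL` and `L'/pL'` have the same additive
invariants. -/
theorem IsAddInv.sq_step_p (hf : IsAddInv f) (htf : ∀ v : V, p • v = 0 → v = 0)
    (L L' : Subrepresentation ρ) (hle : ∀ v ∈ L'.toSubmodule, v ∈ L.toSubmodule)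
    (hp : ∀ v ∈ L.toSubmodule, p • v ∈ L'.toSubmodule) :
    f (Rep.of (sqRep ρ p L ⊥)) = f (Rep.of (sqRep ρ p L' ⊥)) := by
  have h1 := hf.sq_exact3 (ρ := ρ) L L' (nMul p L) hle
    (fun d hd => by
      obtain ⟨a, ha, rfl⟩ := mem_nMul_iff.1 hd
      exact ⟨a, ha, rfl⟩)
    (fun b _ a ha h => ⟨b, mem_nMul_iff.2 ⟨a, ha, h.symm⟩, 0, zero_mem _, by simp⟩)
  have h2 := hf.sq_exact3 (ρ := ρ) L' (nMul p L) (nMul p L')
    (fun v hv => by
      obtain ⟨a, ha, rfl⟩ := mem_nMul_iff.1 hv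
      exact hp a ha)
    (fun d hd => by
      obtain ⟨a, ha, rfl⟩ := mem_nMul_iff.1 hd
      exact ⟨a, ha, rfl⟩)
    (fun b _ a ha h => ⟨b, mem_nMul_iff.2 ⟨a, ha, h.symm⟩, 0, zero_mem _, by simp⟩)
  have h3 := hf.sq_pMul (ρ := ρ) htf L L'
  omega

/-- **Lattice step prime to `p`.** If `ℓL ≤ L' ≤ L` with `ℓ` prime to `p`, then `L'/pL' ≅ L/pL`. -/
theorem IsAddInv.sq_step_coprime (hf : IsAddInv f) (L L' : Subrepresentation ρ)
    (hle : ∀ v ∈ L'.toSubmodule, v ∈ L.toSubmodule) (ℓ : ℕ) (hℓ : Nat.Coprime ℓ p)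
    (hℓL : ∀ v ∈ L.toSubmodule, ℓ • v ∈ L'.toSubmodule) :
    f (Rep.of (sqRep ρ p L ⊥)) = f (Rep.of (sqRep ρ p L' ⊥)) := by
  obtain ⟨u, w, huw⟩ : ∃ u w : ℤ, u * ℓ + w * p = 1 := (Nat.isCoprime_iff_coprime.2 hℓ)
  have key : ∀ v : V, v = u • (ℓ • v) + p • (w • v) := by
    intro v
    have h1 : (u * (ℓ : ℤ) + w * (p : ℤ)) • v = v := by rw [huw, one_smul]
    rw [add_smul, mul_smul, mul_smul, natCast_zsmul, natCast_zsmul, smul_comm w p v] at h1
    exact h1.symm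
  let i : (sqRep ρ p L' ⊥).IntertwiningMap (sqRep ρ p L ⊥) :=
    sqMap LinearMap.id (fun _ _ => rfl) hle (fun v hv => by
      have hv0 : v = 0 := hv
      exact ⟨0, zero_mem _, 0, zero_mem _, by simp [hv0]⟩)
  refine (hf.of_bijective i ⟨?_, ?_⟩).symm
  · rw [injective_iff_map_eq_zero]
    intro x hx
    obtain ⟨b, hb, rfl⟩ := sqMk_surjective x
    have hx' : (sqMk ⊥ b (hle b hb) : SQ ρ p L ⊥) = 0 := hx
    rw [sqMk_eq_zero_iff] at hx'
    obtain ⟨z, hz, a, ha, h⟩ := hx'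
    have hz0 : z = 0 := hz
    rw [hz0, zero_add] at h
    rw [sqMk_eq_zero_iff]
    refine ⟨0, zero_mem _, a, ?_, by rw [zero_add, h]⟩
    have ha' := key a
    rw [smul_comm p w a, ← h] at ha'
    rw [ha']
    exact add_mem (Submodule.smul_mem _ u (hℓL a ha)) (Submodule.smul_mem _ w hb)
  · intro y
    obtain ⟨a, ha, rfl⟩ := sqMk_surjective y
    refine ⟨sqMk ⊥ (u • (ℓ • a)) (Submodule.smul_mem _ u (hℓL a ha)), ?_⟩
    show (sqMk ⊥ (u • (ℓ • a)) _ : SQ ρ p L ⊥) = sqMk ⊥ a ha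
    have hsub : (sqMk ⊥ a ha : SQ ρ p L ⊥) -
        sqMk ⊥ (u • (ℓ • a)) (hle _ (Submodule.smul_mem _ u (hℓL a ha))) = 0 := by
      have : (sqMk ⊥ a ha : SQ ρ p L ⊥) -
          sqMk ⊥ (u • (ℓ • a)) (hle _ (Submodule.smul_mem _ u (hℓL a ha))) =
          sqMk ⊥ (a - u • (ℓ • a))
            (sub_mem ha (hle _ (Submodule.smul_mem _ u (hℓL a ha)))) := rfl
      rw [this, sqMk_eq_zero_iff]
      refine ⟨0, zero_mem _, w • a, Submodule.smul_mem _ w ha, ?_⟩
      have ha' := key a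
      rw [zero_add]
      exact sub_eq_of_eq_add' ha'
    exact (sub_eq_zero.1 hsub).symm

/-- Lattice lemma for `p`-power index. -/
theorem IsAddInv.sq_eq_of_pow (hf : IsAddInv f) (htf : ∀ v : V, p • v = 0 → v = 0) (n : ℕ) :
    ∀ (L L' : Subrepresentation ρ), (∀ v ∈ L'.toSubmodule, v ∈ L.toSubmodule) →
      (∀ v ∈ L.toSubmodule, p ^ n • v ∈ L'.toSubmodule) →
      f (Rep.of (sqRep ρ p L ⊥)) = f (Rep.of (sqRep ρ p L' ⊥)) := by
  induction n with
  | zero =>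
    intro L L' hle hp
    exact hf.sq_step_coprime L L' hle 1 (Nat.coprime_one_left p) (fun v hv => by simpa using hp v hv)
  | succ n ih =>
    intro L L' hle hp
    have hL'' : ∀ v ∈ (L' ⊔ nMul (p ^ n) L).toSubmodule, v ∈ L.toSubmodule := by
      intro v hv
      obtain ⟨x, hx, y, hy, rfl⟩ := Submodule.mem_sup.1 hv
      obtain ⟨a, ha, rfl⟩ := mem_nMul_iff.1 hy
      exact add_mem (hle x hx) (Submodule.smul_of_tower_mem _ _ ha)
    have h1 := ih L (L' ⊔ nMul (p ^ n) L) hL''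
      (fun v hv => Submodule.mem_sup_right (nsmul_mem_nMul hv))
    have h2 := hf.sq_step_p htf (L' ⊔ nMul (p ^ n) L) L'
      (fun v hv => Submodule.mem_sup_left hv)
      (fun v hv => by
        obtain ⟨x, hx, y, hy, rfl⟩ := Submodule.mem_sup.1 hv
        obtain ⟨a, ha, rfl⟩ := mem_nMul_iff.1 hy
        rw [smul_add]
        refine add_mem (Submodule.smul_of_tower_mem _ _ hx) ?_
        have := hp a ha
        rwa [pow_succ, mul_comm, mul_smul] at this)
    rw [h1, h2]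

/-- **Lattice lemma.** Let `V` be a finitely generated `ℤ[G]`-module without `p`-torsion and
`L₂ ≤ L₁` two `G`-stable subgroups with `N • L₁ ≤ L₂` for some `N ≠ 0`.  Then `L₁/pL₁` and
`L₂/pL₂` have the same additive invariants. -/
theorem IsAddInv.sq_eq_of_le (hf : IsAddInv f) (htf : ∀ v : V, p • v = 0 → v = 0)
    (L₁ L₂ : Subrepresentation ρ) (hle : ∀ v ∈ L₂.toSubmodule, v ∈ L₁.toSubmodule)
    (N : ℕ) (hN : N ≠ 0) (hNL : ∀ v ∈ L₁.toSubmodule, N • v ∈ L₂.toSubmodule) :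
    f (Rep.of (sqRep ρ p L₁ ⊥)) = f (Rep.of (sqRep ρ p L₂ ⊥)) := by
  have hp : p.Prime := Fact.out
  obtain ⟨n, m, hm, rfl⟩ := Nat.exists_eq_pow_mul_and_not_dvd hN p hp.ne_one
  have hcop : Nat.Coprime m p := (Nat.coprime_comm).1 ((Nat.Prime.coprime_iff_not_dvd hp).2 hm)
  have hΛ : ∀ v ∈ (L₂ ⊔ nMul (p ^ n) L₁).toSubmodule, v ∈ L₁.toSubmodule := by
    intro v hv
    obtain ⟨x, hx, y, hy, rfl⟩ := Submodule.mem_sup.1 hv
    obtain ⟨a, ha, rfl⟩ := mem_nMul_iff.1 hy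
    exact add_mem (hle x hx) (Submodule.smul_of_tower_mem _ _ ha)
  have h1 := hf.sq_eq_of_pow htf n L₁ (L₂ ⊔ nMul (p ^ n) L₁) hΛ
    (fun v hv => Submodule.mem_sup_right (nsmul_mem_nMul hv))
  have h2 := hf.sq_step_coprime (L₂ ⊔ nMul (p ^ n) L₁) L₂
    (fun v hv => Submodule.mem_sup_left hv) m hcop
    (fun v hv => by
      obtain ⟨x, hx, y, hy, rfl⟩ := Submodule.mem_sup.1 hv
      obtain ⟨a, ha, rfl⟩ := mem_nMul_iff.1 hy
      rw [smul_add]
      refine add_mem (Submodule.smul_of_tower_mem _ _ hx) ?_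
      have := hNL a ha
      rwa [mul_comm, mul_smul] at this)
  rw [h1, h2]

end Additive

end SQ

end Fermat.Agent.S56.helper5699
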