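/-
S56 (Taylor–Wiles primes), global chain, brick T2 (modular Artin induction without Brauer
characters).  Author: helper5699.

Part 4: permutation modules.  For a `G`-set `X` and a representation `ρ` of `G` on `M`,
`funRep X ρ` is the representation on `X → M` with `(g • φ) x = ρ g (φ (g⁻¹ • x))`
(`= k[X] ⊗ M`, and `= coind_D^G Res_D M` for `X = G/D`).  Main results:

* `exists_equiv_permRep_of_fixCount_eq` : finite `G`-sets with the same numbers of fixed points
  have equivalent rational permutation representations;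
* `IsAddInv.funRep_eq_of_fixCount_eq` (PERM): for such `X`, `Y`, every additive invariant of
  `𝔽_p[G]`-modules takes the same value on `funRep X ρ` and `funRep Y ρ`.
-/
import Mathlib
import Fermat.Agent.S56.helper5699_AddInv
import Fermat.Agent.S56.helper5699_Lattice
import Fermat.Agent.S56.helper5699_CharIso

set_option autoImplicit false

namespace Fermat.Agent.S56.helper5699

open Module Representation

section Defs

variable {R G : Type} [CommRing R] [Group G] (X : Type) [MulAction G X]
  {M : Type} [AddCommGroup M] [Module R M]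

/-- The representation on `X → M` with `(g • φ) x = ρ g (φ (g⁻¹ • x))`. -/
def funRep (ρ : Representation R G M) : Representation R G (X → M) where
  toFun g := (LinearMap.compLeft (ρ g) X) ∘ₗ (LinearMap.funLeft R M (fun x : X => g⁻¹ • x))
  map_one' := by
    apply LinearMap.ext
    intro φ
    funext x
    simp
  map_mul' g h := by
    apply LinearMap.ext
    intro φ
    funext x
    simp [mul_smul]

@[simp] lemma funRep_apply (ρ : Representation R G M) (g : G) (φ : X → M) (x : X) :
    funRep X ρ g φ x = ρ g (φ (g⁻¹ • x)) := rfl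

variable (R) in
/-- The permutation representation on `X → R`: `(g • φ) x = φ (g⁻¹ • x)`. -/
def permRep : Representation R G (X → R) := funRep X (Representation.trivial R G R)

@[simp] lemma permRep_apply (g : G) (φ : X → R) (x : X) :
    permRep R X g φ x = φ (g⁻¹ • x) := rfl

/-- The number of fixed points of `g` on `X`. -/
noncomputable def fixCount (g : G) : ℕ := Nat.card (MulAction.fixedBy X g)

end Defs

section Character

variable {k G : Type} [Field k] [Group G] (X : Type) [MulAction G X] [Fintype X]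

/-- The character of a permutation representation counts fixed points. -/
theorem character_permRep (g : G) : (permRep k X).character g = (fixCount X g : k) := by
  classical
  unfold Representation.character
  rw [LinearMap.trace_eq_matrix_trace k (Pi.basisFun k X), Matrix.trace]
  simp only [Matrix.diag_apply, LinearMap.toMatrix_apply, Pi.basisFun_repr, Pi.basisFun_apply,
    permRep_apply, Pi.single_apply]
  rw [Finset.sum_boole]
  congr 1
  unfold fixCount
  rw [Nat.card_eq_fintype_card, ← Fintype.card_subtype]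
  apply Fintype.card_congr
  refine Equiv.subtypeEquivRight (fun x => ?_)
  rw [MulAction.mem_fixedBy, inv_smul_eq_iff, eq_comm]

end Character

section Rational

variable {G : Type} [Group G] [Finite G] (X Y : Type) [MulAction G X] [MulAction G Y]
  [Fintype X] [Fintype Y]

/-- Finite `G`-sets with the same numbers of fixed points have equivalent rational permutation
representations. -/
theorem exists_equiv_permRep_of_fixCount_eq (h : ∀ g : G, fixCount X g = fixCount Y g) :
    Nonempty ((permRep ℚ X : Representation ℚ G (X → ℚ)).Equiv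
      (permRep ℚ Y : Representation ℚ G (Y → ℚ))) := by
  have : Fintype G := Fintype.ofFinite G
  refine exists_equiv_of_character_eq _ (permRep ℚ X : Representation ℚ G (X → ℚ))
    (permRep ℚ Y : Representation ℚ G (Y → ℚ)) rfl ?_
  funext g
  rw [character_permRep, character_permRep, h g]

end Rational

section Integral

variable (X Y : Type) [Fintype X] [Fintype Y]

/-- A rational matrix becomes integral after multiplication by a nonzero natural number. -/
theorem exists_int_model (e : (X → ℚ) →ₗ[ℚ] (Y → ℚ)) :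
    ∃ (d : ℕ) (a : (X → ℤ) →ₗ[ℤ] (Y → ℤ)), d ≠ 0 ∧
      ∀ (φ : X → ℤ) (y : Y), ((a φ y : ℤ) : ℚ) = d * e (fun x => (φ x : ℚ)) y := by
  classical
  set D : ℕ := ∏ x : X, ∏ y : Y, (e (Pi.single x 1) y).den with hD
  have hD0 : D ≠ 0 := by
    rw [hD]
    exact Finset.prod_ne_zero_iff.2 fun x _ => Finset.prod_ne_zero_iff.2 fun y _ => Rat.den_nz _
  have hint : ∀ (x : X) (y : Y), ∃ n : ℤ, (D : ℚ) * e (Pi.single x 1) y = n := by
    intro x y
    have hdvd : (e (Pi.single x 1) y).den ∣ D :=
      (Finset.dvd_prod_of_mem _ (Finset.mem_univ y)).trans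
        (Finset.dvd_prod_of_mem (fun x => ∏ y : Y, (e (Pi.single x 1) y).den) (Finset.mem_univ x))
    obtain ⟨c, hc⟩ := hdvd
    refine ⟨c * (e (Pi.single x 1) y).num, ?_⟩
    rw [hc]
    push_cast
    rw [← Rat.mul_den_eq_num]
    ring
  choose n hn using hint
  refine ⟨D, Matrix.mulVecLin (Matrix.of fun y x => n x y), hD0, fun φ y => ?_⟩
  have h1 : (fun x => (φ x : ℚ)) = ∑ x : X, (φ x : ℚ) • (Pi.single x 1 : X → ℚ) := by
    funext x'
    simp [Finset.sum_apply, Pi.single_apply]
  rw [h1, map_sum, Finset.sum_apply, Finset.mul_sum]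
  simp only [Matrix.mulVecLin_apply, Matrix.mulVec, dotProduct, Matrix.of_apply]
  push_cast
  refine Finset.sum_congr rfl fun x _ => ?_
  rw [map_smul, Pi.smul_apply, smul_eq_mul, ← hn x y]
  ring

end Integral

section IntegralEquivariant

variable {G : Type} [Group G] [Finite G] (X Y : Type) [MulAction G X] [MulAction G Y]
  [Fintype X] [Fintype Y]

/-- Finite `G`-sets with the same numbers of fixed points: there is an injective `G`-map
`ℤ[X] → ℤ[Y]` whose image contains `N • ℤ[Y]` for some `N ≠ 0`. -/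
theorem exists_int_equivariant (h : ∀ g : G, fixCount X g = fixCount Y g) :
    ∃ (N : ℕ) (a : (X → ℤ) →ₗ[ℤ] (Y → ℤ)), N ≠ 0 ∧ Function.Injective a ∧
      (∀ (g : G) (φ : X → ℤ), a (permRep ℤ X g φ) = permRep ℤ Y g (a φ)) ∧
      ∀ ψ : Y → ℤ, ∃ φ : X → ℤ, a φ = N • ψ := by
  obtain ⟨e⟩ := exists_equiv_permRep_of_fixCount_eq (G := G) X Y h
  obtain ⟨d, a, hd, ha₀⟩ := exists_int_model X Y e.toLinearMap
  obtain ⟨d', b, hd', hb₀⟩ := exists_int_model Y X e.symm.toLinearMap
  have ha : ∀ (φ : X → ℤ) (y : Y), ((a φ y : ℤ) : ℚ) = d * e (fun x => (φ x : ℚ)) y := ha₀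
  have hb : ∀ (ψ : Y → ℤ) (x : X), ((b ψ x : ℤ) : ℚ) = d' * e.symm (fun y => (ψ y : ℚ)) x := hb₀
  clear ha₀ hb₀
  have he : ∀ (g : G) (v : X → ℚ), e (permRep ℚ X g v) = permRep ℚ Y g (e v) := by
    intro g v
    have := e.toIntertwiningMap.isIntertwining' g
    exact congrArg (fun l : (X → ℚ) →ₗ[ℚ] (Y → ℚ) => l v) this
  refine ⟨d * d', a, mul_ne_zero hd hd', ?_, ?_, ?_⟩
  · rw [injective_iff_map_eq_zero]
    intro φ hφ
    have h1 : e (fun x => (φ x : ℚ)) = 0 := by
      funext y
      have := ha φ y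
      rw [hφ] at this
      have hd0 : (d : ℚ) ≠ 0 := Nat.cast_ne_zero.2 hd
      simpa [hd0] using this.symm
    have h2 : (fun x => (φ x : ℚ)) = 0 := by
      have := congrArg e.symm h1
      simpa using this
    funext x
    have := congrFun h2 x
    simpa using this
  · intro g φ
    funext y
    apply Int.cast_injective (α := ℚ)
    rw [ha, permRep_apply, ha]
    have h1 : (fun x => ((permRep ℤ X g φ x : ℤ) : ℚ)) = permRep ℚ X g (fun x => (φ x : ℚ)) := rfl
    rw [h1]
    have h2 := congrFun (he g (fun x => (φ x : ℚ))) y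
    rw [permRep_apply] at h2
    show (d : ℚ) * e (permRep ℚ X g fun x => (φ x : ℚ)) y = _
    rw [h2]
  · intro ψ
    refine ⟨b ψ, ?_⟩
    funext y
    apply Int.cast_injective (α := ℚ)
    rw [ha]
    have h1 : (fun x => ((b ψ x : ℤ) : ℚ)) = (d' : ℚ) • e.symm (fun y => (ψ y : ℚ)) := by
      funext x
      rw [hb]
      rfl
    rw [h1, map_smul]
    have h2 : e (e.symm (fun y => (ψ y : ℚ))) = fun y => (ψ y : ℚ) := e.apply_symm_apply _
    rw [h2]
    simp
    ring

end IntegralEquivariant

section Perm0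

variable {G : Type} [Group G] {p : ℕ} [Fact p.Prime] {f : Rep.{0, 0, 0} (ZMod p) G → ℤ}

/-- Reduction mod `p` of integer-valued functions. -/
def redFun (p : ℕ) (X : Type) : (X → ℤ) →ₗ[ℤ] (X → ZMod p) :=
  (Int.castAddHom (ZMod p)).toIntLinearMap.compLeft X

@[simp] lemma redFun_apply (X : Type) (φ : X → ℤ) (x : X) : redFun p X φ x = (φ x : ZMod p) := rfl

/-- `ℤ[X] / p ℤ[X]` is the permutation module `𝔽_p[X]`. -/
theorem IsAddInv.sq_top_eq_permRep (hf : IsAddInv f) (X : Type) [MulAction G X] [Fintype X] :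
    f (Rep.of (sqRep (permRep ℤ X : Representation ℤ G (X → ℤ)) p ⊤ ⊥)) =
      f (Rep.of (permRep (ZMod p) X : Representation (ZMod p) G (X → ZMod p))) := by
  have hp : p.Prime := Fact.out
  let i : (sqRep (permRep ℤ X : Representation ℤ G (X → ℤ)) p ⊤ ⊥).IntertwiningMap
      (permRep (ZMod p) X : Representation (ZMod p) G (X → ZMod p)) :=
    sqLift (redFun p X) (fun g v => rfl) (fun v hv => by
      have hv0 : v = 0 := hv
      rw [hv0, map_zero])
  refine hf.of_bijective i ⟨?_, ?_⟩
  · rw [injective_iff_map_eq_zero]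
    intro x hx
    obtain ⟨φ, hφ, rfl⟩ := sqMk_surjective x
    have hx' : redFun p X φ = 0 := hx
    rw [sqMk_eq_zero_iff]
    refine ⟨0, zero_mem _, fun x => φ x / p, trivial, ?_⟩
    funext x
    have h1 : ((φ x : ℤ) : ZMod p) = 0 := congrFun hx' x
    have h2 : (p : ℤ) ∣ φ x := (ZMod.intCast_zmod_eq_zero_iff_dvd (φ x) p).1 h1
    simp only [Pi.add_apply, Pi.zero_apply, zero_add, nsmul_eq_mul]
    exact (Int.mul_ediv_cancel' h2).symm
  · intro F
    refine ⟨sqMk ⊥ (fun x => ((F x).val : ℤ)) trivial, ?_⟩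
    funext x
    show (((F x).val : ℤ) : ZMod p) = F x
    have : NeZero p := ⟨hp.ne_zero⟩
    simp

variable [Finite G]

/-- **Permutation modules with the same fixed-point counts have the same additive invariants
mod `p`.** -/
theorem IsAddInv.permRep_eq_of_fixCount_eq (hf : IsAddInv f) (X Y : Type) [MulAction G X]
    [MulAction G Y] [Fintype X] [Fintype Y] (h : ∀ g : G, fixCount X g = fixCount Y g) :
    f (Rep.of (permRep (ZMod p) X : Representation (ZMod p) G (X → ZMod p))) =
      f (Rep.of (permRep (ZMod p) Y : Representation (ZMod p) G (Y → ZMod p))) := by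
  have hp : p.Prime := Fact.out
  obtain ⟨N, a, hN, hinj, heq, hsurj⟩ := exists_int_equivariant (G := G) X Y h
  obtain ⟨L₂, hL₂⟩ : ∃ L₂ : Subrepresentation (permRep ℤ Y : Representation ℤ G (Y → ℤ)),
      ∀ v, v ∈ L₂.toSubmodule ↔ ∃ φ, a φ = v :=
    ⟨{ toSubmodule := LinearMap.range a
       apply_mem_toSubmodule := fun g v hv => by
        obtain ⟨φ, rfl⟩ := hv
        exact ⟨permRep ℤ X g φ, heq g φ⟩ }, fun v => Iff.rfl⟩
  have htf : ∀ v : Y → ℤ, p • v = 0 → v = 0 := by
    intro v hv
    funext y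
    have := congrFun hv y
    simpa [hp.ne_zero] using this
  have h1 := hf.sq_eq_of_le (ρ := (permRep ℤ Y : Representation ℤ G (Y → ℤ))) htf ⊤ L₂
    (fun _ _ => trivial) N hN (fun v _ => (hL₂ _).2 (hsurj v))
  let i : (sqRep (permRep ℤ X : Representation ℤ G (X → ℤ)) p ⊤ ⊥).IntertwiningMap
      (sqRep (permRep ℤ Y : Representation ℤ G (Y → ℤ)) p L₂ ⊥) :=
    sqMap a heq (fun v _ => (hL₂ _).2 ⟨v, rfl⟩) (fun v hv => by
      have hv0 : v = 0 := hv
      exact ⟨0, zero_mem _, 0, zero_mem _, by simp [hv0]⟩)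
  have h2 : f (Rep.of (sqRep (permRep ℤ X : Representation ℤ G (X → ℤ)) p ⊤ ⊥)) =
      f (Rep.of (sqRep (permRep ℤ Y : Representation ℤ G (Y → ℤ)) p L₂ ⊥)) := by
    refine hf.of_bijective i ⟨?_, ?_⟩
    · rw [injective_iff_map_eq_zero]
      intro x hx
      obtain ⟨φ, hφ, rfl⟩ := sqMk_surjective x
      have hx' : (sqMk ⊥ (a φ) ((hL₂ _).2 ⟨φ, rfl⟩) :
          SQ (permRep ℤ Y : Representation ℤ G (Y → ℤ)) p L₂ ⊥) = 0 := hx
      rw [sqMk_eq_zero_iff] at hx'
      obtain ⟨z, hz, w, hw, h'⟩ := hx'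
      obtain ⟨φ', rfl⟩ := (hL₂ _).1 hw
      have hz0 : z = 0 := hz
      rw [hz0, zero_add, ← map_nsmul] at h'
      rw [sqMk_eq_zero_iff]
      exact ⟨0, zero_mem _, φ', trivial, by rw [zero_add]; exact hinj h'⟩
    · intro y
      obtain ⟨v, hv, rfl⟩ := sqMk_surjective y
      obtain ⟨φ, rfl⟩ := (hL₂ _).1 hv
      exact ⟨sqMk ⊥ φ trivial, rfl⟩
  rw [← hf.sq_top_eq_permRep X, ← hf.sq_top_eq_permRep Y, h2, h1]

end Perm0

end Fermat.Agent.S56.helper5699
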