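/-
S56 (Taylor–Wiles primes), global chain, brick T2 (modular Artin induction without Brauer
characters).  Author: helper5699.

Part 5: the twist by a coefficient module.

* `isAddInv_of_exact` : additivity on short exact sequences alone implies invariance under
  isomorphism.
* `IsAddInv.homInv` : if `f` is an additive invariant and `σ` a finite-dimensional
  representation on `M`, then `A ↦ f (Hom_k(A, M))` is an additive invariant.
* `IsAddInv.funRep_eq_of_fixCount_eq` (PERM): finite `G`-sets `X`, `Y` with the same numbers of
  fixed points satisfy `f (X → M) = f (Y → M)` for every additive invariant `f` of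
  `𝔽_p[G]`-modules and every finite-dimensional `M`.
-/
import Mathlib
import Fermat.Agent.S56.helper5699_Perm

set_option autoImplicit false

namespace Fermat.Agent.S56.helper5699

open CategoryTheory Module Representation

section OfExact

variable {k G : Type} [Field k] [Group G]

/-- Additivity on short exact sequences implies invariance under isomorphism. -/
theorem isAddInv_of_exact (f : Rep.{0, 0, 0} k G → ℤ)
    (hex : ∀ {A B C : Rep.{0, 0, 0} k G}, Module.Finite k B → ∀ (i : A ⟶ B) (q : B ⟶ C),
      Function.Injective i.hom → Function.Surjective q.hom → Function.Exact i.hom q.hom →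
        f B = f A + f C) : IsAddInv f := by
  refine ⟨?_, hex⟩
  -- the zero object
  let Z : Rep.{0, 0, 0} k G := Rep.of (Representation.trivial k G PUnit)
  have hZfin : Module.Finite k Z := inferInstanceAs (Module.Finite k PUnit)
  have hZ : f Z = 0 := by
    have h := hex (A := Z) (B := Z) (C := Z) hZfin (𝟙 Z) (𝟙 Z)
      (fun x y _ => Subsingleton.elim (α := PUnit) x y)
      (fun y => ⟨y, Subsingleton.elim (α := PUnit) _ _⟩)
      (fun y => ⟨fun _ => ⟨y, Subsingleton.elim (α := PUnit) _ _⟩,
        fun _ => Subsingleton.elim (α := PUnit) _ _⟩)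
    omega
  intro A B hA ⟨e⟩
  have hB : Module.Finite k B := Module.Finite.equiv (Representation.equivOfIso e).toLinearEquiv
  let q : B ⟶ Z := Rep.ofHom (ρ := B.ρ) (σ := Representation.trivial k G PUnit)
    ⟨0, fun g => by
      apply LinearMap.ext
      intro x
      rfl⟩
  have h := hex (A := A) (B := B) (C := Z) hB e.hom q
    (fun x y hxy => (Representation.equivOfIso e).injective hxy)
    (fun y => ⟨0, Subsingleton.elim (α := PUnit) _ _⟩)
    (fun y => ⟨fun _ => (Representation.equivOfIso e).surjective y,
      fun _ => Subsingleton.elim (α := PUnit) _ _⟩)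
  rw [h, hZ, add_zero]

end OfExact

section Twist

variable {k G : Type} [Field k] [Group G] {M : Type} [AddCommGroup M] [Module k M]
  (σ : Representation k G M)

/-- The invariant `A ↦ f (Hom_k(A, M))`. -/
noncomputable def homInv (f : Rep.{0, 0, 0} k G → ℤ) : Rep.{0, 0, 0} k G → ℤ :=
  fun A => f (Rep.of (Representation.linHom A.ρ σ))

/-- Precomposition with an intertwining map, as an intertwining map of the `Hom` representations. -/
def precompHom {A B : Rep.{0, 0, 0} k G} (u : A ⟶ B) :
    (Representation.linHom B.ρ σ).IntertwiningMap (Representation.linHom A.ρ σ) where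
  toLinearMap := LinearMap.lcomp k M u.hom.toLinearMap
  isIntertwining' g := by
    apply LinearMap.ext
    intro φ
    apply LinearMap.ext
    intro a
    show σ g (φ (B.ρ g⁻¹ (u.hom a))) = σ g (φ (u.hom (A.ρ g⁻¹ a)))
    rw [Rep.hom_comm_apply]

@[simp] lemma precompHom_apply {A B : Rep.{0, 0, 0} k G} (u : A ⟶ B) (φ : B →ₗ[k] M) (a : A) :
    precompHom σ u φ a = φ (u.hom a) := rfl

/-- `A ↦ f (Hom_k(A, M))` is an additive invariant when `f` is. -/
theorem IsAddInv.homInv [Module.Finite k M] {f : Rep.{0, 0, 0} k G → ℤ} (hf : IsAddInv f) :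
    IsAddInv (homInv σ f) := by
  apply isAddInv_of_exact
  intro A B C hB i q hi hq hex
  have hfin : Module.Finite k (B →ₗ[k] M) := inferInstance
  have h := hf.of_exact (precompHom σ q) (precompHom σ i) ?_ ?_ ?_
  · show f (Rep.of (Representation.linHom B.ρ σ)) =
      f (Rep.of (Representation.linHom A.ρ σ)) + f (Rep.of (Representation.linHom C.ρ σ))
    rw [h, add_comm]
  · -- `q*` is injective
    intro φ ψ hφψ
    apply LinearMap.ext
    intro c
    obtain ⟨b, rfl⟩ := hq c
    exact congrArg (fun l : B →ₗ[k] M => l b) hφψ
  · -- `i*` is surjective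
    intro ψ
    obtain ⟨r, hr⟩ := LinearMap.exists_leftInverse_of_injective i.hom.toLinearMap
      (LinearMap.ker_eq_bot.2 hi)
    refine ⟨ψ ∘ₗ r, ?_⟩
    apply LinearMap.ext
    intro a
    show ψ (r (i.hom a)) = ψ a
    have := congrArg (fun l : A →ₗ[k] A => l a) hr
    exact congrArg ψ this
  · -- exactness in the middle
    intro φ
    constructor
    · intro hφ
      obtain ⟨s, hs⟩ := LinearMap.exists_rightInverse_of_surjective q.hom.toLinearMap
        (LinearMap.range_eq_top.2 hq)
      refine ⟨φ ∘ₗ s, ?_⟩
      apply LinearMap.ext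
      intro b
      show φ (s (q.hom b)) = φ b
      have h1 : q.hom (s (q.hom b) - b) = 0 := by
        have := congrArg (fun l : C →ₗ[k] C => l (q.hom b)) hs
        rw [map_sub]
        exact sub_eq_zero.2 this
      obtain ⟨a, ha⟩ := (hex _).1 h1
      have h2 : φ (i.hom a) = 0 := congrArg (fun l : A →ₗ[k] M => l a) hφ
      have h3 : φ (s (q.hom b) - b) = 0 := by rw [← ha]; exact h2
      rw [map_sub] at h3
      exact sub_eq_zero.1 h3
    · rintro ⟨χ, rfl⟩
      apply LinearMap.ext
      intro a
      show χ (q.hom (i.hom a)) = 0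
      have : q.hom (i.hom a) = 0 := (hex _).2 ⟨a, rfl⟩
      rw [this, map_zero]

end Twist

section EvalEquiv

variable {k G : Type} [Field k] [Group G] {M : Type} [AddCommGroup M] [Module k M]
  (σ : Representation k G M) (X : Type) [MulAction G X] [Fintype X] [DecidableEq X]

/-- `Hom_k(k[X], M) → (X → M)`, `φ ↦ (x ↦ φ (δ_x))`, as an intertwining map. -/
def evalHom :
    (Representation.linHom (permRep k X : Representation k G (X → k)) σ).IntertwiningMap
      (funRep X σ) where
  toLinearMap := LinearMap.pi fun x => LinearMap.applyₗ (Pi.single x (1 : k))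
  isIntertwining' g := by
    apply LinearMap.ext
    intro φ
    funext x
    show σ g (φ (permRep k X g⁻¹ (Pi.single x 1))) = σ g (φ (Pi.single (g⁻¹ • x) 1))
    congr 2
    funext y
    rw [permRep_apply, inv_inv, Pi.single_apply, Pi.single_apply]
    simp only [eq_inv_smul_iff]

omit [Fintype X] in
lemma evalHom_apply (φ : (X → k) →ₗ[k] M) (x : X) :
    evalHom σ X φ x = φ (Pi.single x 1) := rfl

theorem evalHom_bijective : Function.Bijective (evalHom (k := k) σ X) := by
  constructor
  · rw [injective_iff_map_eq_zero]
    intro φ hφ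
    apply (Pi.basisFun k X).ext
    intro x
    have := congrFun hφ x
    rw [evalHom_apply] at this
    simpa using this
  · intro F
    refine ⟨(Pi.basisFun k X).constr k F, ?_⟩
    funext x
    rw [evalHom_apply]
    simp

end EvalEquiv

section PermTwist

variable {G : Type} [Group G] [Finite G] {p : ℕ} [Fact p.Prime]
  {f : Rep.{0, 0, 0} (ZMod p) G → ℤ}
  {M : Type} [AddCommGroup M] [Module (ZMod p) M] [Module.Finite (ZMod p) M]

/-- **(PERM)** Finite `G`-sets with the same numbers of fixed points: every additive invariant
of `𝔽_p[G]`-modules takes the same value on `X → M` and `Y → M`, for every finite-dimensional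
`𝔽_p[G]`-module `M`. -/
theorem IsAddInv.funRep_eq_of_fixCount_eq (hf : IsAddInv f) (σ : Representation (ZMod p) G M)
    (X Y : Type) [MulAction G X] [MulAction G Y] [Fintype X] [Fintype Y]
    (h : ∀ g : G, fixCount X g = fixCount Y g) :
    f (Rep.of (funRep X σ)) = f (Rep.of (funRep Y σ)) := by
  classical
  have h1 := (hf.homInv σ).permRep_eq_of_fixCount_eq X Y h
  have hX : f (Rep.of (Representation.linHom
      (permRep (ZMod p) X : Representation (ZMod p) G (X → ZMod p)) σ)) =
      f (Rep.of (funRep X σ)) :=
    hf.of_bijective (evalHom σ X) (evalHom_bijective σ X)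
  have hY : f (Rep.of (Representation.linHom
      (permRep (ZMod p) Y : Representation (ZMod p) G (Y → ZMod p)) σ)) =
      f (Rep.of (funRep Y σ)) :=
    hf.of_bijective (evalHom σ Y) (evalHom_bijective σ Y)
  rw [← hX, ← hY]
  exact h1

end PermTwist

end Fermat.Agent.S56.helper5699
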