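/-
S56 / T2 (helper6337): MODULAR ARTIN INDUCTION, interface file.

* `funRep ρ X` : the representation of `G` on `X → V`, `(g • φ) x = ρ g (φ (g⁻¹ • x))`
  (`= V ⊗ k[X]`; for `X = G ⧸ D` it is the module induced from `Res_D V`).
* `IsAddFun f` : `f` is additive on short exact sequences of finite-dimensional representations
  (function carrier; no Grothendieck group object).
* `Stmt_Perm p G` : the middle statement -- finite `G`-sets with the same number of fixed points
  for every `g : G` have the same value `f (X → V)`, for every additive `f` and every `V`.
-/
import Mathlib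

set_option autoImplicit false

namespace Fermat.Agent.S56.helper6337

/-- Functions `X → V` on a `G`-set with the diagonal action `(g • φ) x = ρ g (φ (g⁻¹ • x))`. -/
def funRep {k G : Type} [CommRing k] [Group G] {V : Type} [AddCommGroup V] [Module k V]
    (ρ : Representation k G V) (X : Type) [MulAction G X] : Representation k G (X → V) where
  toFun g :=
    { toFun := fun φ x => ρ g (φ (g⁻¹ • x))
      map_add' := fun φ ψ => funext fun x => by simp
      map_smul' := fun c φ => funext fun x => by simp }
  map_one' := LinearMap.ext fun φ => funext fun x => by simp
  map_mul' g g' := LinearMap.ext fun φ => funext fun x => by simp [mul_smul]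

@[simp]
lemma funRep_apply {k G : Type} [CommRing k] [Group G] {V : Type} [AddCommGroup V] [Module k V]
    (ρ : Representation k G V) (X : Type) [MulAction G X] (g : G) (φ : X → V) (x : X) :
    funRep ρ X g φ x = ρ g (φ (g⁻¹ • x)) := rfl

/-- `f` is additive on short exact sequences of finite-dimensional representations. -/
structure IsAddFun {k G : Type} [CommRing k] [Group G]
    (f : ∀ (V : Type) [AddCommGroup V] [Module k V], Representation k G V → ℤ) : Prop where
  exact : ∀ (A B C : Type) [AddCommGroup A] [Module k A] [AddCommGroup B] [Module k B]
    [AddCommGroup C] [Module k C] [Module.Finite k A] [Module.Finite k B] [Module.Finite k C]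
    (ρA : Representation k G A) (ρB : Representation k G B) (ρC : Representation k G C)
    (i : A →ₗ[k] B) (q : B →ₗ[k] C),
    (∀ g a, i (ρA g a) = ρB g (i a)) → (∀ g b, q (ρB g b) = ρC g (q b)) →
    Function.Injective i → Function.Surjective q → Function.Exact i q →
    f B ρB = f A ρA + f C ρC

/-- **(PERM)** Finite `G`-sets with the same fixed-point counts give the same value of every
additive function on the twisted function modules. -/
def Stmt_Perm (p : ℕ) (G : Type) [Group G] : Prop :=
  ∀ (f : ∀ (V : Type) [AddCommGroup V] [Module (ZMod p) V], Representation (ZMod p) G V → ℤ),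
    IsAddFun f →
    ∀ (X Y : Type) [Finite X] [Finite Y] [MulAction G X] [MulAction G Y],
      (∀ g : G, Nat.card (MulAction.fixedBy X g) = Nat.card (MulAction.fixedBy Y g)) →
      ∀ (V : Type) [AddCommGroup V] [Module (ZMod p) V] [Module.Finite (ZMod p) V]
        (ρ : Representation (ZMod p) G V),
        f (X → V) (funRep ρ X) = f (Y → V) (funRep ρ Y)

end Fermat.Agent.S56.helper6337
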