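/-
S56 (Taylor–Wiles primes), global chain, brick T2 (modular Artin induction without Brauer
characters).  Author: helper5699.

Part 6: the statement `helper6337.Stmt_Perm p G` of the T2 interface file
(`helper6337_ArtinSpec`), VERBATIM: for a finite group `G`, finite `G`-sets with the same numbers
of fixed points give the same value of every additive function on the twisted function modules
`X → V`.  Proof: lattice lemma (`helper5699_Lattice`) + characters determine rational
representations (`helper5699_CharIso`) + permutation modules (`helper5699_Perm`) + twist
(`helper5699_PermTwist`).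
-/
import Mathlib
import Fermat.Agent.S56.helper6337_ArtinSpec
import Fermat.Agent.S56.helper5699_PermTwist

set_option autoImplicit false

namespace Fermat.Agent.S56.helper5699

open CategoryTheory Module Representation

section Adapter

variable {k G : Type} [Field k] [Group G]

/-- The function-carrier form of an additive function gives an additive invariant on `Rep`. -/
theorem isAddInv_of_isAddFun
    (f : ∀ (V : Type) [AddCommGroup V] [Module k V], Representation k G V → ℤ)
    (hf : helper6337.IsAddFun f) :
    IsAddInv (fun A : Rep.{0, 0, 0} k G => f A.V A.ρ) := by
  apply isAddInv_of_exact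
  intro A B C hB i q hi hq hex
  have hA : Module.Finite k A := Module.Finite.of_injective i.hom.toLinearMap hi
  have hC : Module.Finite k C := Module.Finite.of_surjective q.hom.toLinearMap hq
  exact hf.exact A B C A.ρ B.ρ C.ρ i.hom.toLinearMap q.hom.toLinearMap
    (fun g a => Rep.hom_comm_apply i g a) (fun g b => Rep.hom_comm_apply q g b) hi hq hex

/-- The two models of the function module coincide. -/
theorem funRep_eq {V : Type} [AddCommGroup V] [Module k V] (ρ : Representation k G V)
    (X : Type) [MulAction G X] : helper6337.funRep ρ X = funRep X ρ := by
  apply MonoidHom.ext
  intro g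
  apply LinearMap.ext
  intro φ
  funext x
  rfl

end Adapter

/-- **(PERM)**, verbatim in the vocabulary of `helper6337_ArtinSpec`. -/
theorem stmt_Perm (p : ℕ) [Fact p.Prime] (G : Type) [Group G] [Finite G] :
    helper6337.Stmt_Perm p G := by
  intro f hf X Y _ _ _ _ h V _ _ _ ρ
  have : Fintype X := Fintype.ofFinite X
  have : Fintype Y := Fintype.ofFinite Y
  have h1 := (isAddInv_of_isAddFun f hf).funRep_eq_of_fixCount_eq ρ X Y h
  rw [funRep_eq, funRep_eq]
  exact h1

end Fermat.Agent.S56.helper5699
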