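/-
S56 / T2 (helper6337): MODULAR ARTIN INDUCTION, consumer end.

From `Stmt_Perm p G` (helper6337_ArtinSpec) we prove: an additive function on finite-dimensional
`ZMod p`-representations of a finite group `G` which vanishes on the modules `G ⧸ D → V`
(`D` cyclic of order prime to `p`, `V` any representation of `G`) vanishes identically.
-/
import Fermat.Agent.S56.helper6337_ArtinSpec

set_option autoImplicit false
set_option linter.unusedSectionVars false

namespace Fermat.Agent.S56.helper6337

/-! ### Basic consequences of additivity -/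

section Basic

variable {k G : Type} [CommRing k] [Group G]
  {f : ∀ (V : Type) [AddCommGroup V] [Module k V], Representation k G V → ℤ}

/-- An additive function vanishes on zero modules. -/
lemma IsAddFun.zero (hf : IsAddFun f) (V : Type) [AddCommGroup V] [Module k V] [Subsingleton V]
    (ρ : Representation k G V) : f V ρ = 0 := by
  have h := hf.exact V V V ρ ρ ρ 0 0 (fun g a => by simp) (fun g b => by simp)
    (fun a b _ => Subsingleton.elim a b) (fun c => ⟨0, Subsingleton.elim _ _⟩)
    (fun b => ⟨fun _ => ⟨0, Subsingleton.elim _ _⟩, fun _ => Subsingleton.elim _ _⟩)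
  linarith

/-- An additive function is invariant under equivariant linear equivalences. -/
lemma IsAddFun.iso (hf : IsAddFun f) {V W : Type} [AddCommGroup V] [Module k V]
    [AddCommGroup W] [Module k W] [Module.Finite k V] [Module.Finite k W]
    (ρ : Representation k G V) (σ : Representation k G W)
    (e : V ≃ₗ[k] W) (he : ∀ g v, e (ρ g v) = σ g (e v)) : f V ρ = f W σ := by
  have h := hf.exact V W PUnit ρ σ 1 e.toLinearMap 0 (fun g a => he g a)
    (fun g b => by simp) e.injective (fun c => ⟨0, Subsingleton.elim _ _⟩)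
    (fun b => ⟨fun _ => ⟨e.symm b, by simp⟩, fun _ => Subsingleton.elim _ _⟩)
  have h0 := hf.zero PUnit (1 : Representation k G PUnit)
  linarith

/-- Additivity over binary disjoint unions of `G`-sets. -/
lemma IsAddFun.sum (hf : IsAddFun f) {V : Type} [AddCommGroup V] [Module k V] [Module.Finite k V]
    (ρ : Representation k G V) (X Y : Type) [Finite X] [Finite Y] [MulAction G X]
    [MulAction G Y] :
    f (X ⊕ Y → V) (funRep ρ (X ⊕ Y)) = f (X → V) (funRep ρ X) + f (Y → V) (funRep ρ Y) := by
  let i : (X → V) →ₗ[k] (X ⊕ Y → V) :=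
    { toFun := fun φ => Sum.elim φ 0
      map_add' := fun φ ψ => by ext (x | y) <;> simp
      map_smul' := fun c φ => by ext (x | y) <;> simp }
  let q : (X ⊕ Y → V) →ₗ[k] (Y → V) := LinearMap.funLeft k V Sum.inr
  refine hf.exact (X → V) (X ⊕ Y → V) (Y → V) _ _ _ i q ?_ ?_ ?_ ?_ ?_
  · intro g φ
    ext (x | y) <;> simp [i]
  · intro g φ
    ext y
    simp [q, LinearMap.funLeft]
  · intro φ ψ h
    ext x
    have := congrFun h (Sum.inl x)
    simpa [i] using this
  · intro ψ
    refine ⟨Sum.elim 0 ψ, ?_⟩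
    ext y
    simp [q, LinearMap.funLeft]
  · intro φ
    constructor
    · intro h
      refine ⟨fun x => φ (Sum.inl x), ?_⟩
      ext (x | y)
      · simp [i]
      · have := congrFun h y
        simp [q, LinearMap.funLeft] at this
        simp [i, this]
    · rintro ⟨ψ, rfl⟩
      ext y
      simp [q, LinearMap.funLeft, i]

/-- The module of functions on a one-point set is the module itself. -/
lemma IsAddFun.punit (hf : IsAddFun f) {V : Type} [AddCommGroup V] [Module k V]
    [Module.Finite k V] (ρ : Representation k G V) :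
    f (PUnit.{1} → V) (funRep ρ PUnit.{1}) = f V ρ := by
  refine hf.iso _ _ (LinearEquiv.funUnique PUnit.{1} k V) ?_
  intro g φ
  simp

end Basic

/-! ### Marks and realised class functions -/

section Marks

variable (G : Type) [Group G]

/-- The number of fixed points of `g` on `X` (the mark), as an integer. -/
noncomputable def mark (X : Type) [MulAction G X] (g : G) : ℤ :=
  (Nat.card (MulAction.fixedBy X g) : ℤ)

lemma mark_sum (X Y : Type) [Finite X] [Finite Y] [MulAction G X] [MulAction G Y] (g : G) :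
    mark G (X ⊕ Y) g = mark G X g + mark G Y g := by
  unfold mark
  have e : MulAction.fixedBy (X ⊕ Y) g ≃ MulAction.fixedBy X g ⊕ MulAction.fixedBy Y g :=
    (Equiv.subtypeSum (p := fun z : X ⊕ Y => g • z = z)).trans
      (Equiv.sumCongr
        (Equiv.subtypeEquivRight fun x => by simp)
        (Equiv.subtypeEquivRight fun y => by simp))
  rw [Nat.card_congr e, Nat.card_sum]
  push_cast
  rfl

lemma mark_punit (g : G) : mark G PUnit.{1} g = 1 := by
  unfold mark
  have : MulAction.fixedBy PUnit.{1} g = Set.univ := by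
    ext x
    simp
  rw [this]
  simp

end Marks

section Real

variable {p : ℕ} {G : Type} [Group G]
  {f : ∀ (V : Type) [AddCommGroup V] [Module (ZMod p) V], Representation (ZMod p) G V → ℤ}
  {V : Type} [AddCommGroup V] [Module (ZMod p) V] [Module.Finite (ZMod p) V]

/-- The class function `m` is the difference of the marks of two finite `G`-sets `Y`, `X`, and
`v` is the difference of the values of `f` on the function modules. -/
def Real (f : ∀ (V : Type) [AddCommGroup V] [Module (ZMod p) V],
    Representation (ZMod p) G V → ℤ) (ρ : Representation (ZMod p) G V) (m : G → ℤ) (v : ℤ) :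
    Prop :=
  ∃ (X Y : Type) (_ : Finite X) (_ : Finite Y) (_ : MulAction G X) (_ : MulAction G Y),
    (∀ g, m g = mark G Y g - mark G X g) ∧
      v = f (Y → V) (funRep ρ Y) - f (X → V) (funRep ρ X)

lemma Real.zero (ρ : Representation (ZMod p) G V) : Real f ρ 0 0 :=
  ⟨PUnit.{1}, PUnit.{1}, inferInstance, inferInstance, inferInstance, inferInstance,
    fun g => by simp, by simp⟩

lemma Real.of_set (ρ : Representation (ZMod p) G V) (hf : IsAddFun f) (Y : Type) [Finite Y]
    [MulAction G Y] : Real f ρ (mark G Y) (f (Y → V) (funRep ρ Y)) := by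
  refine ⟨PUnit.{1} ⊕ Y, (PUnit.{1} ⊕ Y) ⊕ Y, inferInstance, inferInstance, inferInstance,
    inferInstance, fun g => ?_, ?_⟩
  · rw [mark_sum G (PUnit.{1} ⊕ Y) Y g]
    ring
  · rw [hf.sum ρ (PUnit.{1} ⊕ Y) Y]
    ring

lemma Real.add {ρ : Representation (ZMod p) G V} (hf : IsAddFun f) {m m' : G → ℤ} {v v' : ℤ}
    (h : Real f ρ m v) (h' : Real f ρ m' v') : Real f ρ (m + m') (v + v') := by
  obtain ⟨X, Y, _, _, _, _, hm, hv⟩ := h
  obtain ⟨X', Y', _, _, _, _, hm', hv'⟩ := h'
  refine ⟨X ⊕ X', Y ⊕ Y', inferInstance, inferInstance, inferInstance, inferInstance,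
    fun g => ?_, ?_⟩
  · rw [mark_sum, mark_sum, Pi.add_apply, hm g, hm' g]
    ring
  · rw [hf.sum ρ X X', hf.sum ρ Y Y', hv, hv']
    ring

lemma Real.neg {ρ : Representation (ZMod p) G V} {m : G → ℤ} {v : ℤ}
    (h : Real f ρ m v) : Real f ρ (-m) (-v) := by
  obtain ⟨X, Y, _, _, _, _, hm, hv⟩ := h
  refine ⟨Y, X, inferInstance, inferInstance, inferInstance, inferInstance, fun g => ?_, ?_⟩
  · rw [Pi.neg_apply, hm g]
    ring
  · rw [hv]
    ring

lemma Real.sub {ρ : Representation (ZMod p) G V} (hf : IsAddFun f) {m m' : G → ℤ} {v v' : ℤ}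
    (h : Real f ρ m v) (h' : Real f ρ m' v') : Real f ρ (m - m') (v - v') := by
  rw [sub_eq_add_neg, sub_eq_add_neg]
  exact h.add hf h'.neg

lemma Real.nsmul {ρ : Representation (ZMod p) G V} (hf : IsAddFun f) {m : G → ℤ} {v : ℤ}
    (h : Real f ρ m v) (n : ℕ) : Real f ρ (n • m) (n • v) := by
  induction n with
  | zero => simpa using Real.zero ρ
  | succ n ih =>
    rw [succ_nsmul, succ_nsmul]
    exact ih.add hf h

lemma Real.finset_sum {ρ : Representation (ZMod p) G V} (hf : IsAddFun f) {ι : Type*}
    (s : Finset ι) (m : ι → G → ℤ) (h : ∀ i ∈ s, Real f ρ (m i) 0) :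
    Real f ρ (∑ i ∈ s, m i) 0 := by
  classical
  induction s using Finset.induction_on with
  | empty => simpa using Real.zero ρ
  | insert a s ha ih =>
    rw [Finset.sum_insert ha]
    have h1 := h a (Finset.mem_insert_self a s)
    have h2 := ih fun i hi => h i (Finset.mem_insert_of_mem hi)
    simpa using h1.add hf h2

/-- The value is determined by the class function (this is where `Stmt_Perm` enters). -/
lemma Real.unique {ρ : Representation (ZMod p) G V} (hperm : Stmt_Perm p G) (hf : IsAddFun f)
    {m : G → ℤ} {v v' : ℤ} (h : Real f ρ m v) (h' : Real f ρ m v') : v = v' := by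
  obtain ⟨X, Y, _, _, _, _, hm, hv⟩ := h
  obtain ⟨X', Y', _, _, _, _, hm', hv'⟩ := h'
  have key : f (Y ⊕ X' → V) (funRep ρ (Y ⊕ X')) = f (Y' ⊕ X → V) (funRep ρ (Y' ⊕ X)) := by
    refine hperm f hf (Y ⊕ X') (Y' ⊕ X) (fun g => ?_) V ρ
    have h1 := mark_sum G Y X' g
    have h2 := mark_sum G Y' X g
    have h3 := hm g
    have h4 := hm' g
    have h5 : mark G (Y ⊕ X') g = mark G (Y' ⊕ X) g := by
      rw [h1, h2]
      linarith
    unfold mark at h5
    exact_mod_cast h5
  rw [hf.sum ρ Y X', hf.sum ρ Y' X] at key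
  rw [hv, hv']
  linarith

end Real

/-! ### Artin's identity, Möbius-free -/

section Artin

variable {G : Type} [Group G] [Finite G]

/-- `phi C g` is the number of `y` with `⟨y⁻¹ g y⟩ = C`. -/
noncomputable def phi (C : Subgroup G) (g : G) : ℤ :=
  (Nat.card {y : G // Subgroup.zpowers (y⁻¹ * g * y) = C} : ℤ)

lemma phi_eq_zero_of_not_isCyclic (C : Subgroup G) (hC : ¬ IsCyclic C) (g : G) :
    phi C g = 0 := by
  unfold phi
  have : IsEmpty {y : G // Subgroup.zpowers (y⁻¹ * g * y) = C} := by
    refine ⟨fun y => hC ?_⟩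
    rw [← y.2]
    infer_instance
  simp

/-- Every `y` contributes to exactly one `phi C g`. -/
lemma sum_phi [Fintype (Subgroup G)] (g : G) :
    ∑ C : Subgroup G, phi C g = (Nat.card G : ℤ) := by
  classical
  let _ : Fintype G := Fintype.ofFinite G
  unfold phi
  have h := Finset.card_eq_sum_card_fiberwise (f := fun y : G => Subgroup.zpowers (y⁻¹ * g * y))
    (s := (Finset.univ : Finset G)) (t := (Finset.univ : Finset (Subgroup G)))
    (fun _ _ => Finset.mem_coe.mpr (Finset.mem_univ _))
  rw [Nat.card_eq_fintype_card, ← Finset.card_univ, h]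
  push_cast
  refine Finset.sum_congr rfl fun C _ => ?_
  rw [Nat.card_eq_fintype_card, Fintype.card_subtype]

open scoped Classical in
/-- `|C| · mark (G ⧸ C) = ∑_{D ≤ C} phi D`. -/
lemma card_mul_mark [Fintype (Subgroup G)] (C : Subgroup G) (g : G) :
    (Nat.card C : ℤ) * mark G (G ⧸ C) g
      = ∑ D ∈ (Finset.univ : Finset (Subgroup G)).filter (· ≤ C), phi D g := by
  classical
  let _ : Fintype G := Fintype.ofFinite G
  -- the preimage of the fixed points
  have hpre : (QuotientGroup.mk ⁻¹' (MulAction.fixedBy (G ⧸ C) g) : Set G)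
      = {y : G | y⁻¹ * g * y ∈ C} := by
    ext y
    simp only [Set.mem_preimage, MulAction.mem_fixedBy, Set.mem_ofPred_eq]
    rw [MulAction.Quotient.smul_mk, QuotientGroup.eq, smul_eq_mul, ← inv_mem_iff (H := C)]
    simp [mul_assoc]
  have hcard : Nat.card {y : G // y⁻¹ * g * y ∈ C}
      = Nat.card C * Nat.card (MulAction.fixedBy (G ⧸ C) g) := by
    rw [← Nat.card_prod]
    refine Nat.card_congr ?_
    exact (Equiv.setCongr hpre).symm.trans
      (QuotientGroup.preimageMkEquivSubgroupProdSet C (MulAction.fixedBy (G ⧸ C) g))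
  unfold mark phi
  rw [← Nat.cast_mul, ← hcard]
  have h := Finset.card_eq_sum_card_fiberwise (f := fun y : G => Subgroup.zpowers (y⁻¹ * g * y))
    (s := (Finset.univ : Finset G).filter (fun y => y⁻¹ * g * y ∈ C))
    (t := (Finset.univ : Finset (Subgroup G)).filter (· ≤ C))
    (fun y hy => by
      simp only [Finset.coe_filter, Finset.mem_univ, true_and, Set.mem_ofPred_eq] at hy ⊢
      exact Subgroup.zpowers_le.mpr hy)
  rw [Nat.card_eq_fintype_card, Fintype.card_subtype, h]
  push_cast
  refine Finset.sum_congr rfl fun D hD => ?_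
  rw [Nat.card_eq_fintype_card, Fintype.card_subtype]
  congr 2
  ext y
  simp only [Finset.mem_filter, Finset.mem_univ, true_and, and_iff_right_iff_imp]
  intro hy
  have hD' : D ≤ C := (Finset.mem_filter.mp hD).2
  exact hD' (hy ▸ Subgroup.mem_zpowers _)

end Artin

/-! ### The induction theorem for all cyclic subgroups -/

section MainCyclic

variable {p : ℕ} {G : Type} [Group G] [Finite G]
  {f : ∀ (V : Type) [AddCommGroup V] [Module (ZMod p) V], Representation (ZMod p) G V → ℤ}
  {V : Type} [AddCommGroup V] [Module (ZMod p) V] [Module.Finite (ZMod p) V]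

/-- If `f` vanishes on `G ⧸ D → V` for every cyclic `D`, every `phi C` is realised with value
`0` (well-founded induction on `C`). -/
lemma real_phi (hf : IsAddFun f) (ρ : Representation (ZMod p) G V)
    (hcyc : ∀ D : Subgroup G, IsCyclic D → f (G ⧸ D → V) (funRep ρ (G ⧸ D)) = 0)
    (C : Subgroup G) : Real f ρ (phi C) 0 := by
  classical
  let _ : Fintype (Subgroup G) := Fintype.ofFinite _
  induction C using WellFoundedLT.induction with
  | ind C ih =>
    by_cases hC : IsCyclic C
    · have h1 : Real f ρ (Nat.card C • mark G (G ⧸ C)) 0 := by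
        have h := (Real.of_set ρ hf (G ⧸ C)).nsmul hf (Nat.card C)
        rw [hcyc C hC] at h
        simpa using h
      have h2 : Real f ρ (∑ D ∈ (Finset.univ : Finset (Subgroup G)).filter (· < C), phi D) 0 :=
        Real.finset_sum hf _ _ (fun D hD => ih D (Finset.mem_filter.mp hD).2)
      have h3 : phi C = Nat.card C • mark G (G ⧸ C)
          - ∑ D ∈ (Finset.univ : Finset (Subgroup G)).filter (· < C), phi D := by
        funext g
        have h := card_mul_mark C g
        have hins : (Finset.univ : Finset (Subgroup G)).filter (· ≤ C)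
            = insert C ((Finset.univ : Finset (Subgroup G)).filter (· < C)) := by
          ext D
          simp only [Finset.mem_filter, Finset.mem_univ, true_and, Finset.mem_insert]
          exact le_iff_eq_or_lt
        have hnot : C ∉ (Finset.univ : Finset (Subgroup G)).filter (· < C) := by
          simp
        rw [hins, Finset.sum_insert hnot] at h
        rw [Pi.sub_apply, Pi.smul_apply, Finset.sum_apply, nsmul_eq_mul, h]
        ring
      rw [h3]
      simpa using h1.sub hf h2
    · have h0 : phi C = 0 := funext (phi_eq_zero_of_not_isCyclic C hC)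
      rw [h0]
      exact Real.zero ρ

/-- **Artin induction, all cyclic subgroups.** -/
theorem eq_zero_of_vanish_on_all_cyclic (hperm : Stmt_Perm p G) (hf : IsAddFun f)
    (ρ : Representation (ZMod p) G V)
    (hcyc : ∀ D : Subgroup G, IsCyclic D → f (G ⧸ D → V) (funRep ρ (G ⧸ D)) = 0) :
    f V ρ = 0 := by
  classical
  let _ : Fintype (Subgroup G) := Fintype.ofFinite _
  have h1 : Real f ρ (∑ C : Subgroup G, phi C) 0 :=
    Real.finset_sum hf _ _ (fun C _ => real_phi hf ρ hcyc C)
  have h2 : (∑ C : Subgroup G, phi C) = Nat.card G • mark G PUnit.{1} := by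
    funext g
    simp [Finset.sum_apply, sum_phi, mark_punit]
  have h3 : Real f ρ (Nat.card G • mark G PUnit.{1}) (Nat.card G • f V ρ) := by
    have h := (Real.of_set ρ hf PUnit.{1}).nsmul hf (Nat.card G)
    rwa [hf.punit ρ] at h
  rw [h2] at h1
  have h4 := Real.unique hperm hf h1 h3
  have hG : Nat.card G ≠ 0 := Nat.card_pos.ne'
  have h5 : (Nat.card G : ℤ) * f V ρ = 0 := by
    rw [← nsmul_eq_mul]
    exact h4.symm
  rcases mul_eq_zero.mp h5 with h | h
  · exact absurd (by exact_mod_cast h) hG
  · exact h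

end MainCyclic

/-! ### Free actions of `ℤ/p`: coordinate and primitive -/

section FreeAction

/-- A fixed-point-free permutation of prime order `p` has a coordinate `u : Y → ZMod p`
with `u (τ y) = u y + 1`. -/
lemma exists_coordinate {Y : Type} {p : ℕ} [Fact p.Prime] (τ : Equiv.Perm Y)
    (hp : ∀ y, (τ ^ p) y = y) (hfree : ∀ y, τ y ≠ y) :
    ∃ u : Y → ZMod p, ∀ y, u (τ y) = u y + 1 := by
  classical
  have hτp : τ ^ (p : ℤ) = 1 := by
    rw [zpow_natCast]
    exact Equiv.ext hp
  -- stabiliser exponents are multiples of `p`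
  have hdvd : ∀ (r : Y) (m : ℤ), (τ ^ m) r = r → (p : ℤ) ∣ m := by
    intro r m hm
    by_contra hnd
    have hcop : IsCoprime m (p : ℤ) := by
      have hp' : Prime (p : ℤ) := Nat.prime_iff_prime_int.mp (Fact.out : p.Prime)
      exact (hp'.coprime_iff_not_dvd.mpr hnd).symm
    obtain ⟨a, b, hab⟩ := hcop
    have h1 : (τ ^ (a * m + b * (p : ℤ))) r = r := by
      rw [zpow_add, mul_comm a m, mul_comm b (p : ℤ), zpow_mul, zpow_mul, hτp, one_zpow, mul_one]
      exact Equiv.Perm.zpow_apply_eq_self_of_apply_eq_self hm a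
    rw [hab, zpow_one] at h1
    exact hfree r h1
  let s : Setoid Y :=
    { r := fun y y' => ∃ n : ℤ, (τ ^ n) y = y'
      iseqv :=
        { refl := fun y => ⟨0, by simp⟩
          symm := by
            rintro y y' ⟨n, rfl⟩
            exact ⟨-n, by simp⟩
          trans := by
            rintro y y' y'' ⟨n, rfl⟩ ⟨m, rfl⟩
            exact ⟨m + n, by rw [zpow_add, Equiv.Perm.mul_apply]⟩ } }
  let rep : Y → Y := fun y => (Quotient.mk s y).out
  have hrep : ∀ y, ∃ n : ℤ, (τ ^ n) (rep y) = y := fun y => Quotient.exact (Quotient.out_eq (Quotient.mk s y))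
  have hrepτ : ∀ y, rep (τ y) = rep y := by
    intro y
    have : Quotient.mk s (τ y) = Quotient.mk s y := Quotient.sound ⟨-1, by simp⟩
    simp only [rep, this]
  choose n hn using hrep
  refine ⟨fun y => ((n y : ℤ) : ZMod p), fun y => ?_⟩
  have h1 : (τ ^ (n (τ y))) (rep y) = (τ ^ (1 + n y)) (rep y) := by
    have h := hn (τ y)
    rw [hrepτ y] at h
    rw [h, zpow_add, zpow_one, Equiv.Perm.mul_apply, hn y]
  have h2 : (τ ^ (n (τ y) - (1 + n y))) (rep y) = rep y := by
    rw [sub_eq_neg_add, zpow_add, Equiv.Perm.mul_apply, h1, zpow_neg]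
    exact Equiv.symm_apply_apply _ _
  have h3 := hdvd (rep y) _ h2
  have h4 := (ZMod.intCast_eq_intCast_iff_dvd_sub (1 + n y) (n (τ y)) p).mpr h3
  show ((n (τ y) : ℤ) : ZMod p) = ((n y : ℤ) : ZMod p) + 1
  rw [← h4]
  push_cast
  ring

/-- On a set with a fixed-point-free permutation `τ` of prime order `p`, a function whose sums
over the `τ`-orbits vanish is of the form `h ∘ τ - h`. -/
lemma exists_primitive {Y V : Type} [AddCommGroup V] {p : ℕ} [Fact p.Prime] (τ : Equiv.Perm Y)
    (hp : ∀ y, (τ ^ p) y = y) (hfree : ∀ y, τ y ≠ y) (x : Y → V)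
    (hx : ∀ y, ∑ j ∈ Finset.range p, x ((τ ^ j) y) = 0) :
    ∃ h : Y → V, ∀ y, h (τ y) - h y = x y := by
  obtain ⟨u, hu⟩ := exists_coordinate τ hp hfree
  have hp1 : Fact (1 < p) := ⟨(Fact.out : p.Prime).one_lt⟩
  refine ⟨fun y => -∑ i ∈ Finset.range (p - (u y).val), x ((τ ^ i) y), fun y => ?_⟩
  have hlt : (u y).val < p := ZMod.val_lt _
  have hval : (u (τ y)).val = ((u y).val + 1) % p := by
    rw [hu y, ZMod.val_add, ZMod.val_one]
  by_cases hcase : (u y).val + 1 < p
  · rw [Nat.mod_eq_of_lt hcase] at hval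
    obtain ⟨m, hm⟩ : ∃ m, p - (u y).val = m + 1 := ⟨p - (u y).val - 1, by omega⟩
    have hm' : p - (u (τ y)).val = m := by omega
    simp only [hm, hm']
    rw [Finset.sum_range_succ']
    have : ∀ i, x ((τ ^ i) (τ y)) = x ((τ ^ (i + 1)) y) := by
      intro i
      rw [pow_succ, Equiv.Perm.mul_apply]
    simp only [this]
    simp
  · have hj : (u y).val + 1 = p := by omega
    rw [hj, Nat.mod_self] at hval
    have h1 : p - (u y).val = 1 := by omega
    simp only [hval, h1, Nat.sub_zero, hx (τ y)]
    simp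

end FreeAction

/-! ### The nilpotent filtration -/

section Nilpotent

variable {k G : Type} [Field k] [Group G]
  {f : ∀ (V : Type) [AddCommGroup V] [Module k V], Representation k G V → ℤ}
  {W : Type} [AddCommGroup W] [Module k W] [Module.Finite k W]

/-- The kernels of the powers of an equivariant endomorphism are stable. -/
lemma ker_pow_le_comap (σ : Representation k G W) (N : W →ₗ[k] W)
    (hN : ∀ g w, N (σ g w) = σ g (N w)) (i : ℕ) (g : G) :
    LinearMap.ker (N ^ i) ≤ (LinearMap.ker (N ^ i)).comap (σ g) := by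
  intro w hw
  have hcomm : ∀ i : ℕ, ∀ w, (N ^ i) (σ g w) = σ g ((N ^ i) w) := by
    intro i
    induction i with
    | zero => intro w; simp
    | succ i ih =>
      intro w
      rw [pow_succ, Module.End.mul_apply, hN, ih, Module.End.mul_apply]
  simp only [Submodule.mem_comap, LinearMap.mem_ker] at hw ⊢
  rw [hcomm, hw, map_zero]

/-- **Nilpotent filtration.** If `N` is an equivariant endomorphism of `W` with `N ^ n = 0` and
`ker (N ^ (n - 1)) ≤ range N`, then `f W = n • f (ker N)`. -/
theorem nilpotent_filtration (hf : IsAddFun f) (σ : Representation k G W) (N : W →ₗ[k] W)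
    (hN : ∀ g w, N (σ g w) = σ g (N w)) (n : ℕ) (hn : 0 < n) (hNn : N ^ n = 0)
    (hprim : ∀ x, (N ^ (n - 1)) x = 0 → ∃ h, N h = x) :
    f W σ = n • f (LinearMap.ker (N ^ 1))
      (σ.subrepresentation (LinearMap.ker (N ^ 1)) (ker_pow_le_comap σ N hN 1)) := by
  -- notation
  let K : ℕ → Submodule k W := fun i => LinearMap.ker (N ^ i)
  let σK : ∀ i, Representation k G (K i) := fun i =>
    σ.subrepresentation (K i) (ker_pow_le_comap σ N hN i)
  have hstep : ∀ i, i + 1 ≤ n → f (K (i + 1)) (σK (i + 1)) = f (K 1) (σK 1) + f (K i) (σK i) := by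
    intro i hi
    have hle : K 1 ≤ K (i + 1) := by
      intro w hw
      simp only [K, LinearMap.mem_ker, pow_one] at hw ⊢
      rw [pow_succ, Module.End.mul_apply, hw, map_zero]
    have hmaps : ∀ x ∈ K (i + 1), N x ∈ K i := by
      intro x hx
      simp only [K, LinearMap.mem_ker] at hx ⊢
      rw [← Module.End.mul_apply, ← pow_succ]
      exact hx
    refine hf.exact (K 1) (K (i + 1)) (K i) (σK 1) (σK (i + 1)) (σK i)
      (Submodule.inclusion hle) (N.restrict hmaps) ?_ ?_ ?_ ?_ ?_
    · intro g a
      rfl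
    · intro g b
      apply Subtype.ext
      simp [σK, hN]
    · exact Submodule.inclusion_injective hle
    · intro c
      have hc : (N ^ (n - 1)) (c : W) = 0 := by
        have h1 : (N ^ i) (c : W) = 0 := c.2
        have h2 : n - 1 = (n - 1 - i) + i := by omega
        rw [h2, pow_add, Module.End.mul_apply, h1, map_zero]
      obtain ⟨h, hh⟩ := hprim c hc
      have hmem : h ∈ K (i + 1) := by
        simp only [K, LinearMap.mem_ker]
        rw [pow_succ, Module.End.mul_apply, hh]
        exact c.2
      exact ⟨⟨h, hmem⟩, Subtype.ext hh⟩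
    · intro b
      constructor
      · intro hb
        have hb' : N (b : W) = 0 := congrArg Subtype.val hb
        have hmem : (b : W) ∈ K 1 := by
          simp only [K, LinearMap.mem_ker, pow_one]
          exact hb'
        exact ⟨⟨b, hmem⟩, Subtype.ext rfl⟩
      · rintro ⟨a, rfl⟩
        apply Subtype.ext
        have ha : N (a : W) = 0 := by
          have := a.2
          simpa only [K, LinearMap.mem_ker, pow_one] using this
        simp [ha]
  have hind : ∀ i, i ≤ n → f (K i) (σK i) = i • f (K 1) (σK 1) := by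
    intro i
    induction i with
    | zero =>
      intro _
      have : Subsingleton (K 0) := by
        have h0 : K 0 = ⊥ := by
          simp only [K, pow_zero]
          exact LinearMap.ker_id
        rw [h0]
        infer_instance
      rw [hf.zero (K 0) (σK 0)]
      simp
    | succ i ih =>
      intro hi
      rw [hstep i hi, ih (by omega), succ_nsmul]
      ring
  have htop : K n = ⊤ := by
    simp only [K, hNn]
    exact LinearMap.ker_zero
  have hW : f W σ = f (K n) (σK n) := by
    refine (hf.iso (σK n) σ ((LinearEquiv.ofEq _ _ htop).trans Submodule.topEquiv) ?_).symm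
    intro g v
    rfl
  rw [hW, hind n le_rfl]

end Nilpotent

/-! ### The `p`-step on `G`-sets -/

open Polynomial in
/-- `(X - 1) ^ (p - 1) = 1 + X + ⋯ + X ^ (p - 1)` over `ZMod p`. -/
lemma X_sub_one_pow_pred (p : ℕ) [Fact p.Prime] :
    ((X : (ZMod p)[X]) - 1) ^ (p - 1) = ∑ j ∈ Finset.range p, (X : (ZMod p)[X]) ^ j := by
  have hp : 0 < p := (Fact.out : p.Prime).pos
  have hne : (X : (ZMod p)[X]) - 1 ≠ 0 := by
    have := Polynomial.X_sub_C_ne_zero (1 : ZMod p)
    simpa using this
  apply mul_right_cancel₀ hne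
  rw [← pow_succ, Nat.sub_add_cancel hp, sub_pow_char, one_pow, geom_sum_mul]

section PStep

variable {p : ℕ} [Fact p.Prime] {V : Type} [AddCommGroup V] [Module (ZMod p) V]

lemma funLeft_pow {Y : Type} (τ : Equiv.Perm Y) (j : ℕ) :
    (LinearMap.funLeft (ZMod p) V τ) ^ j = LinearMap.funLeft (ZMod p) V (τ ^ j : Equiv.Perm Y) := by
  induction j with
  | zero =>
    ext φ y
    simp [LinearMap.funLeft]
  | succ j ih =>
    ext φ y
    rw [pow_succ, Module.End.mul_apply, ih, pow_succ']
    simp [LinearMap.funLeft]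

lemma funLeft_sub_one_pow {Y : Type} (τ : Equiv.Perm Y) (hτp : ∀ y, (τ ^ p) y = y) :
    (LinearMap.funLeft (ZMod p) V τ - 1) ^ p = 0 := by
  have h := congrArg (Polynomial.aeval (LinearMap.funLeft (ZMod p) V τ))
    (sub_pow_char (Polynomial.X : Polynomial (ZMod p)) 1 (p := p))
  simp only [map_sub, map_pow, Polynomial.aeval_X, map_one, one_pow] at h
  rw [h, funLeft_pow, sub_eq_zero]
  ext φ y
  simp [LinearMap.funLeft, hτp]

lemma funLeft_sub_one_pow_pred {Y : Type} (τ : Equiv.Perm Y) :
    (LinearMap.funLeft (ZMod p) V τ - 1) ^ (p - 1)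
      = ∑ j ∈ Finset.range p, LinearMap.funLeft (ZMod p) V (τ ^ j : Equiv.Perm Y) := by
  have h := congrArg (Polynomial.aeval (LinearMap.funLeft (ZMod p) V τ)) (X_sub_one_pow_pred p)
  simp only [map_sub, map_pow, Polynomial.aeval_X, map_one, map_sum] at h
  rw [h]
  exact Finset.sum_congr rfl fun j _ => funLeft_pow τ j

end PStep

section PStep2

variable {p : ℕ} [Fact p.Prime] {G : Type} [Group G]
  {f : ∀ (V : Type) [AddCommGroup V] [Module (ZMod p) V], Representation (ZMod p) G V → ℤ}
  {V : Type} [AddCommGroup V] [Module (ZMod p) V] [Module.Finite (ZMod p) V]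

/-- **The `p`-step.** If `τ` is a `G`-equivariant fixed-point-free permutation of order `p` of
the finite `G`-set `Y` and `π : Y → Z` is the quotient by `τ`, then
`f (Y → V) = p • f (Z → V)`. -/
theorem free_step (hf : IsAddFun f) (ρ : Representation (ZMod p) G V)
    (Y Z : Type) [Finite Y] [Finite Z] [MulAction G Y] [MulAction G Z]
    (τ : Equiv.Perm Y) (π : Y → Z)
    (hτG : ∀ (g : G) y, τ (g • y) = g • τ y) (hτp : ∀ y, (τ ^ p) y = y)
    (hfree : ∀ y, τ y ≠ y)
    (hπG : ∀ (g : G) y, π (g • y) = g • π y) (hπsurj : Function.Surjective π)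
    (hπτ : ∀ y, π (τ y) = π y) (hfib : ∀ y y', π y = π y' → ∃ j : ℕ, (τ ^ j) y = y') :
    f (Y → V) (funRep ρ Y) = p • f (Z → V) (funRep ρ Z) := by
  have hN : ∀ g w, (LinearMap.funLeft (ZMod p) V τ - 1) (funRep ρ Y g w)
      = funRep ρ Y g ((LinearMap.funLeft (ZMod p) V τ - 1) w) := by
    intro g w
    ext y
    simp [LinearMap.funLeft, hτG]
  have hNp : (LinearMap.funLeft (ZMod p) V τ - 1) ^ p = 0 := funLeft_sub_one_pow τ hτp
  have hprim : ∀ x, ((LinearMap.funLeft (ZMod p) V τ - 1) ^ (p - 1)) x = 0 →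
      ∃ h, (LinearMap.funLeft (ZMod p) V τ - 1) h = x := by
    intro x hx
    rw [funLeft_sub_one_pow_pred] at hx
    have hx' : ∀ y, ∑ j ∈ Finset.range p, x ((τ ^ j) y) = 0 := by
      intro y
      have := congrFun hx y
      simpa [LinearMap.funLeft, Finset.sum_apply] using this
    obtain ⟨h, hh⟩ := exists_primitive τ hτp hfree x hx'
    refine ⟨h, ?_⟩
    ext y
    simp [LinearMap.funLeft, hh y]
  rw [nilpotent_filtration hf (funRep ρ Y) _ hN p (Fact.out : p.Prime).pos hNp hprim]
  congr 1
  symm
  have hmem : ∀ ψ : Z → V, LinearMap.funLeft (ZMod p) V π ψ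
      ∈ LinearMap.ker ((LinearMap.funLeft (ZMod p) V τ - 1) ^ 1) := by
    intro ψ
    rw [pow_one, LinearMap.mem_ker]
    ext y
    simp [LinearMap.funLeft, hπτ]
  have hbij : Function.Bijective ((LinearMap.funLeft (ZMod p) V π).codRestrict _ hmem) := by
    constructor
    · intro ψ ψ' h
      have h' : LinearMap.funLeft (ZMod p) V π ψ = LinearMap.funLeft (ZMod p) V π ψ' :=
        congrArg Subtype.val h
      ext z
      obtain ⟨y, rfl⟩ := hπsurj z
      exact congrFun h' y
    · rintro ⟨φ, hφ⟩
      rw [pow_one, LinearMap.mem_ker] at hφ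
      have h1 : ∀ y, φ (τ y) = φ y := by
        intro y
        have := congrFun hφ y
        simp only [LinearMap.sub_apply, Pi.sub_apply, Pi.zero_apply] at this
        have h2 : (LinearMap.funLeft (ZMod p) V τ φ) y = φ (τ y) := rfl
        rw [h2] at this
        simpa [sub_eq_zero] using this
      have h2 : ∀ (j : ℕ) y, φ ((τ ^ j) y) = φ y := by
        intro j
        induction j with
        | zero => intro y; simp
        | succ j ih =>
          intro y
          rw [pow_succ', Equiv.Perm.mul_apply, h1, ih]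
      refine ⟨fun z => φ (Function.surjInv hπsurj z), Subtype.ext ?_⟩
      ext y
      obtain ⟨j, hj⟩ := hfib (Function.surjInv hπsurj (π y)) y (Function.surjInv_eq hπsurj (π y))
      show φ (Function.surjInv hπsurj (π y)) = φ y
      exact ((congrArg φ hj.symm).trans (h2 j _)).symm
  refine hf.iso (funRep ρ Z) _ (LinearEquiv.ofBijective _ hbij) ?_
  intro g ψ
  apply Subtype.ext
  ext y
  show ρ g (ψ (g⁻¹ • π y)) = ρ g (ψ (π (g⁻¹ • y)))
  rw [hπG]

end PStep2

/-! ### Cyclic subgroups: removal of the `p`-part -/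

section Cyclic

variable {G : Type} [Group G]

/-- Elements of `⟨d ^ n⟩` commute with `d`. -/
lemma conj_mem_zpowers_pow (d : G) (n : ℕ) {c : G} (hc : c ∈ Subgroup.zpowers (d ^ n)) :
    d⁻¹ * c * d = c := by
  obtain ⟨k, rfl⟩ := Subgroup.mem_zpowers_iff.mp hc
  have h : Commute d ((d ^ n) ^ k) := ((Commute.refl d).pow_right n).zpow_right k
  rw [mul_assoc, ← h.eq, inv_mul_cancel_left]

/-- Right multiplication by `d` on `G ⧸ ⟨d ^ n⟩`. -/
def rmulFun (d : G) (n : ℕ) (e : G) (he : e ∈ Subgroup.zpowers d) :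
    G ⧸ Subgroup.zpowers (d ^ n) → G ⧸ Subgroup.zpowers (d ^ n) :=
  Quotient.map' (fun a => a * e) (by
    intro a b hab
    rw [QuotientGroup.leftRel_apply] at hab ⊢
    obtain ⟨k, rfl⟩ := Subgroup.mem_zpowers_iff.mp he
    obtain ⟨l, hl⟩ := Subgroup.mem_zpowers_iff.mp hab
    have h : Commute (d ^ k) ((d ^ n) ^ l) :=
      (((Commute.refl d).pow_right n).zpow_right l).zpow_left k
    have : (a * d ^ k)⁻¹ * (b * d ^ k) = a⁻¹ * b := by
      rw [mul_inv_rev, mul_assoc, ← mul_assoc a⁻¹, ← hl, ← h.eq, inv_mul_cancel_left]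
    rw [this]
    exact hab)

lemma rmulFun_mk (d : G) (n : ℕ) (e : G) (he : e ∈ Subgroup.zpowers d) (a : G) :
    rmulFun d n e he (a : G ⧸ Subgroup.zpowers (d ^ n)) = ((a * e : G) : G ⧸ Subgroup.zpowers (d ^ n)) :=
  rfl

/-- Right multiplication by `d` on `G ⧸ ⟨d ^ n⟩`, as a permutation. -/
def rmul (d : G) (n : ℕ) : Equiv.Perm (G ⧸ Subgroup.zpowers (d ^ n)) where
  toFun := rmulFun d n d (Subgroup.mem_zpowers d)
  invFun := rmulFun d n d⁻¹ (inv_mem (Subgroup.mem_zpowers d))
  left_inv := by
    intro x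
    induction x using QuotientGroup.induction_on with
    | H a => rw [rmulFun_mk, rmulFun_mk, mul_inv_cancel_right]
  right_inv := by
    intro x
    induction x using QuotientGroup.induction_on with
    | H a => rw [rmulFun_mk, rmulFun_mk, inv_mul_cancel_right]

lemma rmul_mk (d : G) (n : ℕ) (a : G) :
    rmul d n (a : G ⧸ Subgroup.zpowers (d ^ n)) = ((a * d : G) : G ⧸ Subgroup.zpowers (d ^ n)) :=
  rfl

lemma rmul_pow_mk (d : G) (n : ℕ) (j : ℕ) (a : G) :
    (rmul d n ^ j) (a : G ⧸ Subgroup.zpowers (d ^ n))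
      = ((a * d ^ j : G) : G ⧸ Subgroup.zpowers (d ^ n)) := by
  induction j generalizing a with
  | zero => simp
  | succ j ih =>
    rw [pow_succ, Equiv.Perm.mul_apply, rmul_mk, ih, pow_succ', mul_assoc]

/-- The projection `G ⧸ ⟨d ^ n⟩ → G ⧸ ⟨d⟩`. -/
def projPow (d : G) (n : ℕ) : G ⧸ Subgroup.zpowers (d ^ n) → G ⧸ Subgroup.zpowers d :=
  Quotient.map' id (by
    intro a b hab
    rw [QuotientGroup.leftRel_apply] at hab ⊢
    exact (Subgroup.zpowers_le.mpr (Subgroup.pow_mem _ (Subgroup.mem_zpowers d) n)) hab)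

lemma projPow_mk (d : G) (n : ℕ) (a : G) :
    projPow d n (a : G ⧸ Subgroup.zpowers (d ^ n)) = (a : G ⧸ Subgroup.zpowers d) := rfl

end Cyclic

section CyclicStep

variable {p : ℕ} [Fact p.Prime] {G : Type} [Group G] [Finite G]
  {f : ∀ (V : Type) [AddCommGroup V] [Module (ZMod p) V], Representation (ZMod p) G V → ℤ}
  {V : Type} [AddCommGroup V] [Module (ZMod p) V] [Module.Finite (ZMod p) V]

/-- **The `p`-step for cyclic subgroups**: if `p ∣ |⟨d⟩|` then
`f (G ⧸ ⟨d ^ p⟩ → V) = p • f (G ⧸ ⟨d⟩ → V)`. -/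
theorem cyclic_step (hf : IsAddFun f) (ρ : Representation (ZMod p) G V) (d : G)
    (hd : p ∣ orderOf d) :
    f (G ⧸ Subgroup.zpowers (d ^ p) → V) (funRep ρ (G ⧸ Subgroup.zpowers (d ^ p)))
      = p • f (G ⧸ Subgroup.zpowers d → V) (funRep ρ (G ⧸ Subgroup.zpowers d)) := by
  refine free_step hf ρ (G ⧸ Subgroup.zpowers (d ^ p)) (G ⧸ Subgroup.zpowers d) (rmul d p)
    (projPow d p) ?_ ?_ ?_ ?_ ?_ ?_ ?_
  · intro g y
    induction y using QuotientGroup.induction_on with
    | H a =>
      rw [MulAction.Quotient.smul_mk, rmul_mk, rmul_mk, MulAction.Quotient.smul_mk, smul_eq_mul,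
        smul_eq_mul, mul_assoc]
  · intro y
    induction y using QuotientGroup.induction_on with
    | H a =>
      rw [rmul_pow_mk, QuotientGroup.eq, mul_inv_rev, inv_mul_cancel_right]
      exact inv_mem (Subgroup.mem_zpowers _)
  · intro y
    induction y using QuotientGroup.induction_on with
    | H a =>
      rw [rmul_mk]
      intro h
      rw [QuotientGroup.eq, mul_inv_rev, inv_mul_cancel_right] at h
      have h' : d ∈ Subgroup.zpowers (d ^ p) := by
        have := inv_mem h
        simpa using this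
      obtain ⟨k, hk⟩ := Subgroup.mem_zpowers_iff.mp h'
      have h1 : d ^ ((p : ℤ) * k - 1) = 1 := by
        rw [zpow_sub, zpow_mul, zpow_natCast, hk, zpow_one, mul_inv_cancel]
      have h2 : (orderOf d : ℤ) ∣ (p : ℤ) * k - 1 := orderOf_dvd_iff_zpow_eq_one.mpr h1
      have h3 : (p : ℤ) ∣ (p : ℤ) * k - 1 := (Int.natCast_dvd_natCast.mpr hd).trans h2
      have h4 : (p : ℤ) ∣ 1 := by
        have := dvd_sub (dvd_mul_right (p : ℤ) k) h3
        simpa using this
      have h5 : p ∣ 1 := by exact_mod_cast h4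
      exact (Fact.out : p.Prime).one_lt.ne' (Nat.dvd_one.mp h5)
  · intro g y
    induction y using QuotientGroup.induction_on with
    | H a =>
      rw [MulAction.Quotient.smul_mk, projPow_mk, projPow_mk, MulAction.Quotient.smul_mk]
  · intro z
    induction z using QuotientGroup.induction_on with
    | H a => exact ⟨(a : G ⧸ Subgroup.zpowers (d ^ p)), rfl⟩
  · intro y
    induction y using QuotientGroup.induction_on with
    | H a =>
      rw [rmul_mk, projPow_mk, projPow_mk, QuotientGroup.eq, mul_inv_rev, inv_mul_cancel_right]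
      exact inv_mem (Subgroup.mem_zpowers d)
  · intro y y' h
    induction y using QuotientGroup.induction_on with
    | H a =>
      induction y' using QuotientGroup.induction_on with
      | H b =>
        rw [projPow_mk, projPow_mk, QuotientGroup.eq] at h
        obtain ⟨j, hj⟩ := (mem_powers_iff_mem_zpowers.mpr h)
        refine ⟨j, ?_⟩
        rw [rmul_pow_mk]
        have hj' : d ^ j = a⁻¹ * b := hj
        rw [hj', mul_inv_cancel_left]

end CyclicStep

/-! ### The main theorem (function form) -/

section Final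

variable {p : ℕ} [Fact p.Prime] {G : Type} [Group G] [Finite G]
  {f : ∀ (V : Type) [AddCommGroup V] [Module (ZMod p) V], Representation (ZMod p) G V → ℤ}

/-- Every cyclic subgroup is generated (inside `G`) by one element. -/
lemma exists_zpowers_eq (D : Subgroup G) (hD : IsCyclic D) : ∃ d : G, Subgroup.zpowers d = D := by
  obtain ⟨g, hg⟩ := IsCyclic.exists_generator (α := D)
  refine ⟨(g : G), ?_⟩
  ext x
  constructor
  · intro hx
    obtain ⟨k, rfl⟩ := Subgroup.mem_zpowers_iff.mp hx
    exact D.zpow_mem g.2 k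
  · intro hx
    obtain ⟨k, hk⟩ := Subgroup.mem_zpowers_iff.mp (hg ⟨x, hx⟩)
    refine Subgroup.mem_zpowers_iff.mpr ⟨k, ?_⟩
    have := congrArg Subtype.val hk
    simpa using this

/-- Vanishing on the cyclic subgroups of order prime to `p` implies vanishing on all cyclic
subgroups. -/
theorem vanish_on_all_cyclic (hf : IsAddFun f) {V : Type} [AddCommGroup V] [Module (ZMod p) V]
    [Module.Finite (ZMod p) V] (ρ : Representation (ZMod p) G V)
    (hvan : ∀ D : Subgroup G, IsCyclic D → (Nat.card D).Coprime p →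
      f (G ⧸ D → V) (funRep ρ (G ⧸ D)) = 0) :
    ∀ D : Subgroup G, IsCyclic D → f (G ⧸ D → V) (funRep ρ (G ⧸ D)) = 0 := by
  intro D
  induction hn : Nat.card D using Nat.strong_induction_on generalizing D with
  | _ n ih =>
    intro hD
    by_cases hp : p ∣ Nat.card D
    · obtain ⟨d, rfl⟩ := exists_zpowers_eq D hD
      rw [Nat.card_zpowers] at hp hn
      have hstep := cyclic_step hf ρ d hp
      have hlt : Nat.card (Subgroup.zpowers (d ^ p)) < n := by
        rw [Nat.card_zpowers, orderOf_pow' d (Fact.out : p.Prime).ne_zero,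
          Nat.gcd_eq_right hp, ← hn]
        exact Nat.div_lt_self (orderOf_pos d) (Fact.out : p.Prime).one_lt
      have h0 := ih _ hlt (Subgroup.zpowers (d ^ p)) rfl inferInstance
      rw [h0] at hstep
      have hp0 : (p : ℤ) ≠ 0 := by exact_mod_cast (Fact.out : p.Prime).ne_zero
      have h1 : (p : ℤ) * f (G ⧸ Subgroup.zpowers d → V) (funRep ρ (G ⧸ Subgroup.zpowers d)) = 0 := by
        rw [← nsmul_eq_mul]
        exact hstep.symm
      exact (mul_eq_zero.mp h1).resolve_left hp0
    · exact hvan D hD (((Fact.out : p.Prime).coprime_iff_not_dvd).mpr hp).symm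

/-- **Modular Artin induction (function form), from `Stmt_Perm`.**  An additive function on
finite-dimensional `ZMod p`-representations of the finite group `G` which vanishes on the modules
`G ⧸ D → V` (`= V ⊗ 𝔽_p[G/D] = Ind_D^G Res_D V`) for all cyclic subgroups `D` of order prime to
`p` vanishes identically. -/
theorem eq_zero_of_vanish_on_cyclic (hperm : Stmt_Perm p G) (hf : IsAddFun f)
    (hvan : ∀ D : Subgroup G, IsCyclic D → (Nat.card D).Coprime p →
      ∀ (V : Type) [AddCommGroup V] [Module (ZMod p) V] [Module.Finite (ZMod p) V]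
        (ρ : Representation (ZMod p) G V), f (G ⧸ D → V) (funRep ρ (G ⧸ D)) = 0)
    (V : Type) [AddCommGroup V] [Module (ZMod p) V] [Module.Finite (ZMod p) V]
    (ρ : Representation (ZMod p) G V) : f V ρ = 0 :=
  eq_zero_of_vanish_on_all_cyclic hperm hf ρ
    (vanish_on_all_cyclic hf ρ fun D hD hc => hvan D hD hc V ρ)

end Final

end Fermat.Agent.S56.helper6337
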