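/-
S56 (Taylor–Wiles primes), global chain, brick T2 (modular Artin induction without Brauer
characters).  Author: helper6337.

Part 3: the `Rep` / `Rep.coind` form of the consumer end (`helper6337_ArtinInduction`), and the
CLOSED theorems `artin_induction` (function carrier) and `artin_induction_rep` (`Rep` carrier),
obtained by feeding `helper5699.stmt_Perm` into `eq_zero_of_vanish_on_cyclic`.

  Let `G` be a finite group, `p` a prime (`p ∣ |G|` allowed) and `F` an integer-valued function
  on finite `𝔽_p[G]`-modules, additive on short exact sequences.  If `F` vanishes on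
  `coind_D^G N` for every cyclic subgroup `D ≤ G` of order prime to `p` and every finite
  `𝔽_p[D]`-module `N`, then `F = 0`.
-/
import Fermat.Agent.S56.helper6337_ArtinInduction
import Fermat.Agent.S56.helper5699_StmtPerm
set_option autoImplicit false


namespace Fermat.Agent.S56.helper6337

section RepForm

variable {p : ℕ} {G : Type} [Group G]

/-- The function carrier of a function on `Rep`. -/
def funOfRep (F : Rep.{0, 0, 0} (ZMod p) G → ℤ) :
    ∀ (V : Type) [AddCommGroup V] [Module (ZMod p) V], Representation (ZMod p) G V → ℤ :=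
  fun _ _ _ ρ => F (Rep.of ρ)

lemma isAddFun_funOfRep (F : Rep.{0, 0, 0} (ZMod p) G → ℤ)
    (hex : ∀ A B C : Rep.{0, 0, 0} (ZMod p) G, Module.Finite (ZMod p) A →
      Module.Finite (ZMod p) B → Module.Finite (ZMod p) C → ∀ (i : A ⟶ B) (q : B ⟶ C),
      Function.Injective i.hom → Function.Surjective q.hom → Function.Exact i.hom q.hom →
      F B = F A + F C) : IsAddFun (funOfRep F) := by
  refine ⟨fun A B C _ _ _ _ _ _ hA hB hC ρA ρB ρC i q hi hq hinj hsurj hex' => ?_⟩
  exact hex (Rep.of ρA) (Rep.of ρB) (Rep.of ρC) hA hB hC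
    (Rep.ofHom (i.intertwiningMap_of_isIntertwiningMap ρA ρB hi))
    (Rep.ofHom (q.intertwiningMap_of_isIntertwiningMap ρB ρC hq)) hinj hsurj hex'

variable {V : Type} [AddCommGroup V] [Module (ZMod p) V]

/-- The map `(G ⧸ D → V) → coind_D^G (Res_D V)`, `φ ↦ (g ↦ ρ g (φ (g⁻¹ D)))`. -/
def toCoind (ρ : Representation (ZMod p) G V) (D : Subgroup G) :
    (G ⧸ D → V) →ₗ[ZMod p] Representation.coindV D.subtype (ρ.comp D.subtype) where
  toFun φ := ⟨fun g => ρ g (φ ((g⁻¹ : G) : G ⧸ D)), by
    intro d g
    have h1 : (((D.subtype d * g)⁻¹ : G) : G ⧸ D) = ((g⁻¹ : G) : G ⧸ D) := by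
      rw [mul_inv_rev]
      exact QuotientGroup.mk_mul_of_mem _ (inv_mem d.2)
    simp only [h1, map_mul]
    rfl⟩
  map_add' φ ψ := by
    apply Subtype.ext
    funext g
    simp
  map_smul' c φ := by
    apply Subtype.ext
    funext g
    simp

lemma toCoind_apply (ρ : Representation (ZMod p) G V) (D : Subgroup G) (φ : G ⧸ D → V) (g : G) :
    (toCoind ρ D φ).1 g = ρ g (φ ((g⁻¹ : G) : G ⧸ D)) := rfl

lemma toCoind_bijective (ρ : Representation (ZMod p) G V) (D : Subgroup G) :
    Function.Bijective (toCoind ρ D) := by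
  constructor
  · intro φ ψ h
    funext x
    induction x using QuotientGroup.induction_on with
    | H a =>
      have h1 := congrFun (congrArg Subtype.val h) a⁻¹
      rw [toCoind_apply, toCoind_apply, inv_inv] at h1
      have h2 := congrArg (ρ a) h1
      simpa [← Module.End.mul_apply, ← map_mul] using h2
  · rintro ⟨f, hf⟩
    refine ⟨fun x => ρ x.out (f (x.out)⁻¹), Subtype.ext ?_⟩
    funext g
    rw [toCoind_apply]
    obtain ⟨d, hd⟩ := QuotientGroup.mk_out_eq_mul D g⁻¹
    show ρ g (ρ ((g⁻¹ : G) : G ⧸ D).out (f (((g⁻¹ : G) : G ⧸ D).out)⁻¹)) = f g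
    rw [hd, ← Module.End.mul_apply, ← map_mul, mul_inv_cancel_left, mul_inv_rev, inv_inv]
    have h3 := hf d⁻¹ g
    simp only [Subgroup.coe_subtype, Subgroup.coe_inv] at h3
    rw [h3]
    show ρ (d : G) (ρ ((d⁻¹ : D) : G) (f g)) = f g
    rw [← Module.End.mul_apply, ← map_mul]
    simp

lemma toCoind_equivariant (ρ : Representation (ZMod p) G V) (D : Subgroup G) (h : G)
    (φ : G ⧸ D → V) :
    toCoind ρ D (funRep ρ (G ⧸ D) h φ)
      = Representation.coind D.subtype (ρ.comp D.subtype) h (toCoind ρ D φ) := by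
  apply Subtype.ext
  funext g
  show ρ g (ρ h (φ (h⁻¹ • ((g⁻¹ : G) : G ⧸ D)))) = ρ (g * h) (φ (((g * h)⁻¹ : G) : G ⧸ D))
  rw [MulAction.Quotient.smul_mk, smul_eq_mul, ← mul_inv_rev, map_mul, Module.End.mul_apply]

/-- **Modular Artin induction, `Rep` form.**  Let `F` be an integer-valued function on
`𝔽_p[G]`-modules (objects of `Rep (ZMod p) G`), additive on short exact sequences of finite
modules.  Assume `Stmt_Perm p G` and that `F` vanishes on `coind_D^G N` for every cyclic
subgroup `D ≤ G` of order prime to `p` and every finite `𝔽_p[D]`-module `N`.  Then `F` vanishes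
on every finite `𝔽_p[G]`-module. -/
theorem eq_zero_of_vanish_on_cyclic_rep [Fact p.Prime] [Finite G]
    (hperm : Stmt_Perm p G) (F : Rep.{0, 0, 0} (ZMod p) G → ℤ)
    (hex : ∀ A B C : Rep.{0, 0, 0} (ZMod p) G, Module.Finite (ZMod p) A →
      Module.Finite (ZMod p) B → Module.Finite (ZMod p) C → ∀ (i : A ⟶ B) (q : B ⟶ C),
      Function.Injective i.hom → Function.Surjective q.hom → Function.Exact i.hom q.hom →
      F B = F A + F C)
    (hvan : ∀ D : Subgroup G, IsCyclic D → (Nat.card D).Coprime p →
      ∀ N : Rep.{0, 0, 0} (ZMod p) ↥D, Module.Finite (ZMod p) N →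
        F (Rep.coind D.subtype N) = 0)
    (M : Rep.{0, 0, 0} (ZMod p) G) (hM : Module.Finite (ZMod p) M) : F M = 0 := by
  have hadd : IsAddFun (funOfRep F) := isAddFun_funOfRep F hex
  have key := eq_zero_of_vanish_on_cyclic (p := p) (G := G) (f := funOfRep F) hperm hadd
    (by
      intro D hD hc W _ _ hW ρ
      have h1 := hvan D hD hc (Rep.of (ρ.comp D.subtype)) hW
      rw [hadd.iso (funRep ρ (G ⧸ D)) (Representation.coind D.subtype (ρ.comp D.subtype))
        (LinearEquiv.ofBijective (toCoind ρ D) (toCoind_bijective ρ D))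
        (fun h φ => toCoind_equivariant ρ D h φ)]
      exact h1) M M.ρ
  exact key

/-- **Modular Artin induction (T2), closed form, function carrier.**  An additive function on
finite `𝔽_p[G]`-modules which vanishes on the twisted function modules `(G ⧸ D → V)` for all
cyclic `D ≤ G` of order prime to `p` vanishes identically. -/
theorem artin_induction [Fact p.Prime] [Finite G]
    {f : ∀ (V : Type) [AddCommGroup V] [Module (ZMod p) V], Representation (ZMod p) G V → ℤ}
    (hf : IsAddFun f)
    (hvan : ∀ D : Subgroup G, IsCyclic D → (Nat.card D).Coprime p →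
      ∀ (V : Type) [AddCommGroup V] [Module (ZMod p) V] [Module.Finite (ZMod p) V]
        (ρ : Representation (ZMod p) G V), f (G ⧸ D → V) (funRep ρ (G ⧸ D)) = 0)
    (V : Type) [AddCommGroup V] [Module (ZMod p) V] [Module.Finite (ZMod p) V]
    (ρ : Representation (ZMod p) G V) : f V ρ = 0 :=
  eq_zero_of_vanish_on_cyclic (helper5699.stmt_Perm p G) hf hvan V ρ

/-- **Modular Artin induction (T2), closed form, `Rep` carrier.**  An integer-valued function
on `Rep (ZMod p) G`, additive on short exact sequences of finite modules, which vanishes on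
`Rep.coind D.subtype N` for all cyclic `D ≤ G` of order prime to `p` and all finite `N`,
vanishes on every finite module. -/
theorem artin_induction_rep [Fact p.Prime] [Finite G]
    (F : Rep.{0, 0, 0} (ZMod p) G → ℤ)
    (hex : ∀ A B C : Rep.{0, 0, 0} (ZMod p) G, Module.Finite (ZMod p) A →
      Module.Finite (ZMod p) B → Module.Finite (ZMod p) C → ∀ (i : A ⟶ B) (q : B ⟶ C),
      Function.Injective i.hom → Function.Surjective q.hom → Function.Exact i.hom q.hom →
      F B = F A + F C)
    (hvan : ∀ D : Subgroup G, IsCyclic D → (Nat.card D).Coprime p →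
      ∀ N : Rep.{0, 0, 0} (ZMod p) ↥D, Module.Finite (ZMod p) N →
        F (Rep.coind D.subtype N) = 0)
    (M : Rep.{0, 0, 0} (ZMod p) G) (hM : Module.Finite (ZMod p) M) : F M = 0 :=
  eq_zero_of_vanish_on_cyclic_rep (helper5699.stmt_Perm p G) F hex hvan M hM

end RepForm

end Fermat.Agent.S56.helper6337
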