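import Mathlib
import Fermat.Agent.S56.helper3887_TateOp
import Fermat.Agent.S56.helper6337_ArtinRep
import Fermat.Agent.S56.helper2906_GlobalClosed
import Fermat.Agent.S56.helper9859_TateCycSpec
import Fermat.Agent.S56.helper3550_GlobalSpec

/-!
# S56, TATE-T3-GLUE (helper3887), part 3: the assembly of Tate's Euler characteristic formula

`tateDef S M = 0` for every finite-dimensional `G_ℚ`-module trivialised by a Galois field `K`
unramified outside `S`, from

* T2 (modular Artin induction, `helper6337.artin_induction_rep`, on main, unconditional),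
* the additivity of `tateDef S` (`helper2906.Closed.tateDef_add_of_field`, unconditional),
* the T1 core in operator form: `tateDef S` vanishes on the kernels of `φ(λ_σ)` on
  `indRep p K = coind_{G_K}^{G_ℚ} 𝔽_p`, for the irreducible `φ ∣ X ^ n - 1` (`Stmt_T1Core`).

And the seam of the TATE chain: `helper9859.Stmt_TateCyc` (the target of TATE-T1) together with
`Ш²_S(coind_K 𝔽_p) = 0` for all large `S` implies `helper3550.Stmt_TateLarge` (the Tate leaf
consumed by the global count of S56).
-/

set_option autoImplicit false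

namespace Fermat.Agent.S56.helper3887

open CategoryTheory Polynomial ExtCitation
open Fermat.Agent.S55 Fermat.Agent.S55.helper2945 Fermat.Agent.S56.helper2906

noncomputable section

/-- **T2 in the shape of the glue** (`helper6337.artin_induction_rep`). -/
theorem stmt_T2 (p : ℕ) [Fact p.Prime] (Γ : Type) [Group Γ] [Finite Γ] : Stmt_T2 p Γ :=
  fun f hex hvan M hM => Fermat.Agent.S56.helper6337.artin_induction_rep f
    (fun A B C hA hB hC i q hi hq he => hex A B C i q hA hB hC hi he hq) hvan M hM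

variable {p : ℕ} [Fact p.Prime]

/-- Tate's defect is additive on the class of the finite-dimensional modules trivialised by
`G_K`, `K` unramified outside `S`. -/
theorem sesAdd_tateDef (hp2 : p ≠ 2) {S : Finset Nat.Primes} (hpS : pPrime p ∈ S)
    {K : IntermediateField ℚ (AlgebraicClosure ℚ)} (hK : K.IsUnramifiedOutside S) :
    SesAdd K.fixingSubgroup (tateDef (p := p) S) := by
  intro A B C f g hA hB hC hf hfg hg
  have := hA.1
  have := hB.1
  have := hC.1
  exact Closed.tateDef_add_of_field hp2 hpS hK A B C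
    (fun s hs => LinearMap.ext fun a => hA.2 s hs a)
    (fun s hs => LinearMap.ext fun a => hB.2 s hs a)
    (fun s hs => LinearMap.ext fun a => hC.2 s hs a) f g hf hg hfg

/-- **The T1 core, operator form**, for one pair `(S, K)`: for every `σ : G_ℚ` and `n` prime to
`p` with `σ ^ n ∈ G_K`, Tate's defect vanishes on (some model of) the kernel of `φ(λ_σ)` on
`coind_{G_K}^{G_ℚ} 𝔽_p` (`= helper3071.indRep p K`), for every irreducible `φ ∣ X ^ n - 1`;
`λ_σ` is the left translation `(λ_σ f)(g) = f (σ⁻¹ g)`. -/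
def Stmt_T1Core (p : ℕ) [Fact p.Prime] (S : Finset Nat.Primes)
    (K : IntermediateField ℚ (AlgebraicClosure ℚ)) : Prop :=
  ∀ (σ : GQ) (n : ℕ), 0 < n → ¬ p ∣ n → σ ^ n ∈ K.fixingSubgroup →
    ∃ L : regRep p K.fixingSubgroup →ₗ[ZMod p] regRep p K.fixingSubgroup,
      (∀ (f : regRep p K.fixingSubgroup) (g : GQ), (L f).1 g = f.1 (σ⁻¹ * g)) ∧
      ∀ phi : (ZMod p)[X], Irreducible phi → phi ∣ X ^ n - 1 →
        ∃ (Q : Rep.{0} (ZMod p) GQ) (ι : Q ⟶ regRep p K.fixingSubgroup),
          Function.Injective ι.hom ∧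
          (∀ f : regRep p K.fixingSubgroup, f ∈ Set.range ι.hom ↔ aeval L phi f = 0) ∧
          tateDef S Q = 0

/-- **Tate's global Euler characteristic formula** on the modules trivialised by `K`, from the
T1 core. -/
theorem tateDef_eq_zero_of_core (hp2 : p ≠ 2) {S : Finset Nat.Primes} (hpS : pPrime p ∈ S)
    {K : IntermediateField ℚ (AlgebraicClosure ℚ)} (hK : K.IsUnramifiedOutside S)
    [K.fixingSubgroup.Normal] [K.fixingSubgroup.FiniteIndex] (hcore : Stmt_T1Core p S K)
    (M : Rep.{0} (ZMod p) GQ) [FiniteDimensional (ZMod p) M]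
    (hM : ∀ s ∈ K.fixingSubgroup, M.ρ s = 1) : tateDef S M = 0 :=
  eq_zero_of_T2_of_operators K.fixingSubgroup (stmt_T2 p _) (sesAdd_tateDef hp2 hpS hK) hcore M
    ⟨inferInstance, fun u hu a => by rw [hM u hu]; rfl⟩

/-- The target of TATE-T1 (`helper9859.Stmt_TateCyc`) gives the T1 core for every Galois
`S`-field `K ∋ ζ_p` with `Ш²_S(coind_K 𝔽_p) = 0`. -/
theorem stmt_T1Core_of_cyc (hCyc : helper9859.Stmt_TateCyc) (hp2 : p ≠ 2)
    {S : Finset Nat.Primes} (hpS : pPrime p ∈ S)
    {K : IntermediateField ℚ (AlgebraicClosure ℚ)} [K.fixingSubgroup.Normal]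
    (hK : K.IsUnramifiedOutside S) (hζ : helper3071.HasZeta p K)
    (hsha : groupCohomology.sha₂ S (helper3071.indRep p K) = ⊥) : Stmt_T1Core p S K := by
  intro σ n hn hpn hpow
  have hcd : helper9859.CycData S p K σ n := ⟨hp2, hpS, hK, hζ, hn, hpow, hpn⟩
  refine ⟨(helper9859.lam p K σ).hom.toLinearMap, fun f g => rfl, fun phi _ hdvd =>
    ⟨helper9859.kap p K σ phi,
      helper9859.kerIncl (helper3071.indRep p K) (helper9859.lam p K σ) phi,
      helper9859.kerIncl_injective _ _ phi, ?_, hCyc S p K σ n hcd hsha phi hdvd⟩⟩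
  intro f
  constructor
  · rintro ⟨x, rfl⟩
    exact (helper9859.mem_kerSub _ _ phi _).1 x.2
  · intro hf
    exact ⟨⟨f, (helper9859.mem_kerSub _ _ phi f).2 hf⟩, rfl⟩

/-- **The seam of the TATE chain.**  The target of TATE-T1 (`helper9859.Stmt_TateCyc`) and the
vanishing of `Ш²_S(coind_F 𝔽_p)` for all large `S` imply Tate's inequality for all large `S`
(`helper3550.Stmt_TateLarge`), with equality. -/
theorem stmt_TateLarge_of_cyc (hCyc : helper9859.Stmt_TateCyc)
    (hSha : ∀ (F : IntermediateField ℚ (AlgebraicClosure ℚ)) [FiniteDimensional ℚ F],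
      ∃ T : Finset Nat.Primes, ∀ (S : Finset Nat.Primes) (p : ℕ), T ⊆ S →
        helper3071.IsSFieldZeta S p F → groupCohomology.sha₂ S (helper3071.indRep p F) = ⊥) :
    Fermat.Agent.S56.helper3550.Stmt_TateLarge := by
  intro p _ hp2 S₀ hpS₀ N hN
  have := hN.finite
  obtain ⟨K, hK, -, hKn, hKfi, hKN, -, hKζ⟩ :=
    helper4039.exists_galois_sfield_trivializing_rep p hpS₀ N hN.smooth hN.unram
  have := hK.1
  obtain ⟨T, hT⟩ := hSha K
  refine ⟨T, fun S hS hTS => ?_⟩
  have hKS : K.IsUnramifiedOutside S := hK.mono hS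
  have hZ := helper1127.isSFieldZeta_of_roots S K hp2 (hS hpS₀) hKS hKζ
  have hcore : Stmt_T1Core p S K :=
    stmt_T1Core_of_cyc hCyc hp2 (hS hpS₀) hKS hZ.zeta (hT S p hTS hZ)
  have h0 := tateDef_eq_zero_of_core hp2 (hS hpS₀) hKS hcore N hKN
  exact (tateDef_nonpos_iff S N).1 h0.le

end

end Fermat.Agent.S56.helper3887
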