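/-
S56 / global chain, brick CLS-KILL (seat helper4153).

Enlarging `S` kills the `S`-class group: for a number field `F ⊂ ℚ̄` there is a finite set `T` of
rational primes such that for every finite set `S ⊇ T` of rational primes the invertible
fractional ideals of `𝓞 F` are generated by the principal ones and those supported on the primes
over `S`; hence `clSRank (𝓞 F) F (SF F S) p = 0` for every `p`.

Mathlib + the S55 vocabulary of `helper9292` only.
-/
import Mathlib
import Fermat.Agent.S55.helper9292_SelmerDict

set_option autoImplicit false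

namespace Fermat.Agent.S56.helper4153

open IsDedekindDomain FractionalIdeal
open scoped nonZeroDivisors NumberField
open Fermat.Agent.S55.helper9292 Fermat.Agent.Lib.helper54

noncomputable section

section Abstract

variable {R : Type*} [CommRing R] [IsDedekindDomain R] {K : Type*} [Field K] [Algebra R K]
  [IsFractionRing R K]

/-- `suppSub` is monotone in the set of places. -/
theorem suppSub_mono {S S' : Set (HeightOneSpectrum R)} (h : S ⊆ S') :
    suppSub (R := R) (K := K) S ≤ suppSub S' :=
  fun _ hJ v hv => hJ v (fun hvS => hv (h hvS))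

/-- The support of an invertible fractional ideal is finite. -/
theorem finite_support_count (J : (FractionalIdeal R⁰ K)ˣ) :
    {v : HeightOneSpectrum R | count K v (J : FractionalIdeal R⁰ K) ≠ 0}.Finite := by
  have h := finite_factors (J : FractionalIdeal R⁰ K)
  rw [Filter.eventually_cofinite] at h
  exact h

/-- **Finitely many primes generate the class group.**  If the class group of the Dedekind
domain `R` is finite, there is a finite set `T` of primes such that every invertible fractional
ideal is a principal ideal times an ideal supported on `T`. -/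
theorem exists_finite_range_sup_suppSub_eq_top [Finite (ClassGroup R)] :
    ∃ T : Set (HeightOneSpectrum R), T.Finite ∧
      (toPrincipalIdeal R K).range ⊔ suppSub (R := R) (K := K) T = ⊤ := by
  classical
  have hfin : Finite ((FractionalIdeal R⁰ K)ˣ ⧸ (toPrincipalIdeal R K).range) :=
    Finite.of_equiv _ (ClassGroup.equiv (R := R) K).toEquiv
  choose rep hrep using
    (QuotientGroup.mk_surjective (s := (toPrincipalIdeal R K).range))
  refine ⟨⋃ c : (FractionalIdeal R⁰ K)ˣ ⧸ (toPrincipalIdeal R K).range,
      {v | count K v (rep c : FractionalIdeal R⁰ K) ≠ 0},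
    Set.finite_iUnion fun c => finite_support_count (rep c), ?_⟩
  rw [eq_top_iff]
  intro J _
  have h1 : (QuotientGroup.mk (rep (QuotientGroup.mk J)) :
      (FractionalIdeal R⁰ K)ˣ ⧸ (toPrincipalIdeal R K).range) = QuotientGroup.mk J := hrep _
  have h2 : (rep (QuotientGroup.mk J))⁻¹ * J ∈ (toPrincipalIdeal R K).range :=
    QuotientGroup.eq.mp h1
  have h3 : J = ((rep (QuotientGroup.mk J))⁻¹ * J) * rep (QuotientGroup.mk J) := by
    rw [mul_comm, mul_inv_cancel_left]
  rw [h3]
  refine Subgroup.mul_mem _ (Subgroup.mem_sup_left h2) (Subgroup.mem_sup_right ?_)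
  intro v hv
  by_contra hne
  exact hv (Set.mem_iUnion.mpr ⟨QuotientGroup.mk J, hne⟩)

/-- If principal ideals and ideals supported on `S` generate everything, then `#(Cl_S / p) = 1`. -/
theorem clSModCard_eq_one_of_sup_eq_top {S : Set (HeightOneSpectrum R)}
    (h : (toPrincipalIdeal R K).range ⊔ suppSub (R := R) (K := K) S = ⊤) (p : ℕ) :
    clSModCard R K S p = 1 := by
  rw [clSModCard, h, top_sup_eq, Subgroup.index_top]

/-- If principal ideals and ideals supported on `S` generate everything, then `rk_p Cl_S = 0`. -/
theorem clSRank_eq_zero_of_sup_eq_top {S : Set (HeightOneSpectrum R)}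
    (h : (toPrincipalIdeal R K).range ⊔ suppSub (R := R) (K := K) S = ⊤) (p : ℕ) :
    clSRank R K S p = 0 := by
  rw [clSRank, clSModCard_eq_one_of_sup_eq_top h, Nat.log_one_right]

end Abstract

section NumberField

attribute [local instance] numberField_intermediate

local notation "Qb" => AlgebraicClosure ℚ

variable (F : IntermediateField ℚ Qb) [FiniteDimensional ℚ F]

/-- Every prime of `𝓞 F` lies over a rational prime. -/
theorem exists_prime_natCast_mem (v : HeightOneSpectrum (𝓞 F)) :
    ∃ q : Nat.Primes, (((q : Nat.Primes) : ℕ) : 𝓞 F) ∈ v.asIdeal := by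
  have := v.isPrime
  obtain ⟨ℓ, A, hℓ, hA, hP⟩ := exists_valuationSubring_primeOL_eq F v.asIdeal v.ne_bot
  refine ⟨⟨ℓ, hℓ⟩, ?_⟩
  rw [← hP]
  exact natCast_mem_primeOL F A hA

/-- **Enlarging `S` kills the `S`-class group (generation form).**  There is a finite set `T` of
rational primes such that for every `S ⊇ T` the invertible fractional ideals of `𝓞 F` are
generated by the principal ones and those supported on the primes over `S`. -/
theorem exists_finset_range_sup_suppSub_eq_top :
    ∃ T : Finset Nat.Primes, ∀ S : Finset Nat.Primes, T ⊆ S →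
      (toPrincipalIdeal (𝓞 F) F).range ⊔
        suppSub (R := 𝓞 F) (K := F) (SF F S : Set (HeightOneSpectrum (𝓞 F))) = ⊤ := by
  classical
  obtain ⟨T₀, hT₀fin, hT₀⟩ := exists_finite_range_sup_suppSub_eq_top (R := 𝓞 F) (K := F)
  choose q hq using exists_prime_natCast_mem F
  refine ⟨hT₀fin.toFinset.image q, fun S hS => ?_⟩
  rw [eq_top_iff, ← hT₀]
  refine sup_le_sup_left (suppSub_mono fun v hv => ?_) _
  rw [Finset.mem_coe, mem_SF]
  exact ⟨q v, hS (Finset.mem_image.mpr ⟨v, hT₀fin.mem_toFinset.mpr hv, rfl⟩), hq v⟩

/-- **Enlarging `S` kills the `S`-class group (rank form).**  There is a finite set `T` of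
rational primes such that `rk_p Cl_S(F) = 0` for every finite `S ⊇ T` and every `p`. -/
theorem exists_finset_clSRank_eq_zero :
    ∃ T : Finset Nat.Primes, ∀ S : Finset Nat.Primes, T ⊆ S → ∀ p : ℕ,
      clSRank (𝓞 F) F (SF F S : Set (HeightOneSpectrum (𝓞 F))) p = 0 := by
  obtain ⟨T, hT⟩ := exists_finset_range_sup_suppSub_eq_top F
  exact ⟨T, fun S hS p => clSRank_eq_zero_of_sup_eq_top (hT S hS) p⟩

/-- Variant: the set `T` can be taken to contain any prescribed finite set `T₀`. -/
theorem exists_finset_ge_clSRank_eq_zero (T₀ : Finset Nat.Primes) :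
    ∃ T : Finset Nat.Primes, T₀ ⊆ T ∧ ∀ S : Finset Nat.Primes, T ⊆ S → ∀ p : ℕ,
      clSRank (𝓞 F) F (SF F S : Set (HeightOneSpectrum (𝓞 F))) p = 0 := by
  classical
  obtain ⟨T, hT⟩ := exists_finset_clSRank_eq_zero F
  exact ⟨T₀ ∪ T, Finset.subset_union_left,
    fun S hS p => hT S (Finset.union_subset_right hS) p⟩

end NumberField

end

end Fermat.Agent.S56.helper4153
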