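/-
S56 / global chain, brick SHA2-KILL (seat helper4153).

Consequences of `helper4153.exists_finset_clSRank_eq_zero` on the S55 carriers:

* `finrank_fieldSha2_eq_zero` : if `rk_p Cl_S(F) = 0` then `Ш²_S(F, 𝔽_p) = 0` (from the
  NON-equivariant S55 bound `helper1919.finrank_fieldSha2_le_of`).
* `a2_indRep_eq_zero` : then `a₂(S, coind_F 𝔽_p) = 0` on the frozen carrier (Shapiro `Sh2`).
* `a2_le_of_retract`, `a2_eq_zero_of_retract` : `a₂` of a `G_ℚ`-retract.
* `exists_finset_a2_indRep_eq_zero` : for a number field `F ∋ μ_p` there is a finite set `T` of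
  primes with `a₂(S, coind_F 𝔽_p) = 0` for every admissible `S ⊇ T`.

So for every direct summand `X` of a sum of copies of `coind_K 𝔽_p` (e.g. the modules induced
from characters of `Gal(K/F)`, `p ∤ [K:F]`) one has `Ш²_S(X) = 0` as soon as `S` is large: no
equivariant Hasse principle is needed for Tate's Euler characteristic formula.
-/
import Mathlib
import Fermat.Agent.S56.helper4153_ClSKill
import Fermat.Agent.S55.helper1919_Sha2Bound
import Fermat.Agent.S55.helper2945_SoftSpec
import Fermat.Agent.S55.helper9763_IsoTransport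

set_option autoImplicit false

namespace Fermat.Agent.S56.helper4153

open CategoryTheory groupCohomology ExtCitation IsDedekindDomain
open scoped NumberField
open Fermat.Agent.S55 Fermat.Agent.S55.helper3071 Fermat.Agent.S55.helper9292
  Fermat.Agent.Lib.helper54

attribute [local instance] numberField_intermediate

local notation "Qb" => AlgebraicClosure ℚ

noncomputable section

section Field

variable {S : Finset Nat.Primes} {p : ℕ} {F : IntermediateField ℚ Qb}

/-- If `rk_p Cl_S(F) = 0` then `Ш²_S(F, 𝔽_p)` is zero-dimensional (and finite). -/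
theorem finrank_fieldSha2_eq_zero [FiniteDimensional ℚ F] (hGH : helper1919.Stmt_GH)
    (h : IsSFieldZeta S p F)
    (hcl : clSRank (𝓞 F) F (SF F S : Set (HeightOneSpectrum (𝓞 F))) p = 0) :
    Module.finrank (ZMod p) ↥(fieldSha2 S p F) = 0 :=
  Nat.le_zero.mp (hcl ▸ helper1919.finrank_fieldSha2_le_of hGH h)

/-- If `rk_p Cl_S(F) = 0` then `Ш²_S(F, 𝔽_p) = 0`. -/
theorem fieldSha2_eq_bot [FiniteDimensional ℚ F] (hGH : helper1919.Stmt_GH)
    (h : IsSFieldZeta S p F)
    (hcl : clSRank (𝓞 F) F (SF F S : Set (HeightOneSpectrum (𝓞 F))) p = 0) :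
    fieldSha2 S p F = ⊥ := by
  have : Fact p.Prime := ⟨h.prime⟩
  have : Module.Finite (ZMod p) ↥(fieldSha2 S p F) := helper1919.finite_fieldSha2_of hGH h
  exact Submodule.finrank_eq_zero.mp (finrank_fieldSha2_eq_zero hGH h hcl)

/-- If `rk_p Cl_S(F) = 0` then `Ш²_S(coind_F 𝔽_p) = 0` on the frozen carrier. -/
theorem sha₂_indRep_eq_bot [FiniteDimensional ℚ F] (hGH : helper1919.Stmt_GH)
    (hSh : Sh2 S p F) (h : IsSFieldZeta S p F)
    (hcl : clSRank (𝓞 F) F (SF F S : Set (HeightOneSpectrum (𝓞 F))) p = 0) :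
    sha₂ S (indRep p F) = ⊥ := by
  obtain ⟨Φ, hΦ⟩ := hSh
  rw [eq_bot_iff]
  intro x hx
  have h1 : Φ x ∈ fieldSha2 S p F := hΦ x hx
  rw [fieldSha2_eq_bot hGH h hcl, Submodule.mem_bot] at h1
  rw [Submodule.mem_bot]
  exact Φ.map_eq_zero_iff.mp h1

/-- If `rk_p Cl_S(F) = 0` then `a₂(S, coind_F 𝔽_p) = 0`. -/
theorem a2_indRep_eq_zero [Fact p.Prime] [FiniteDimensional ℚ F] (hGH : helper1919.Stmt_GH)
    (hSh : Sh2 S p F) (h : IsSFieldZeta S p F)
    (hcl : clSRank (𝓞 F) F (SF F S : Set (HeightOneSpectrum (𝓞 F))) p = 0) :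
    helper2945.a2 S (indRep p F) = 0 := by
  unfold helper2945.a2
  rw [sha₂_indRep_eq_bot hGH hSh h hcl]
  exact finrank_bot _ _

end Field

section Retract

variable {p : ℕ} [Fact p.Prime] (S : Finset Nat.Primes)
  {X Y : Rep.{0, 0, 0} (ZMod p) helper2945.GQ}

/-- `Ш²_S` of a retract embeds: if `i ≫ r = 𝟙 X` and `Ш²_S(Y) = 0` then `Ш²_S(X) = 0`. -/
theorem sha₂_eq_bot_of_retract (i : X ⟶ Y) (r : Y ⟶ X) (hir : i ≫ r = 𝟙 X)
    (hY : sha₂ S Y = ⊥) : sha₂ S X = ⊥ := by
  rw [eq_bot_iff]
  intro x hx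
  have h1 : helper9763.continuousH2SMap S i x ∈ sha₂ S Y :=
    helper9763.continuousH2SMap_mem_sha₂ S i hx
  rw [hY, Submodule.mem_bot] at h1
  have h2 : helper9763.continuousH2SMap S r (helper9763.continuousH2SMap S i x) = x := by
    rw [← helper9763.continuousH2SMap_comp, hir, helper9763.continuousH2SMap_id]
  rw [Submodule.mem_bot, ← h2, h1, map_zero]

/-- `a₂` of a retract of a module with `a₂ = 0` (and finite `Ш²`) vanishes. -/
theorem a2_eq_zero_of_retract (i : X ⟶ Y) (r : Y ⟶ X) (hir : i ≫ r = 𝟙 X)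
    (hY : sha₂ S Y = ⊥) : helper2945.a2 S X = 0 := by
  unfold helper2945.a2
  rw [sha₂_eq_bot_of_retract S i r hir hY]
  exact finrank_bot _ _

/-- `a₂` is monotone along retracts (finite-dimensional target). -/
theorem a2_le_of_retract (i : X ⟶ Y) (r : Y ⟶ X) (hir : i ≫ r = 𝟙 X)
    [Module.Finite (ZMod p) ↥(sha₂ S Y)] : helper2945.a2 S X ≤ helper2945.a2 S Y := by
  unfold helper2945.a2
  let f : ↥(sha₂ S X) →ₗ[ZMod p] ↥(sha₂ S Y) :=
    (helper9763.continuousH2SMap S i).restrict
      fun x hx => helper9763.continuousH2SMap_mem_sha₂ S i hx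
  have hf : Function.Injective f := by
    intro a b hab
    have h1 : helper9763.continuousH2SMap S i (a : continuousH2S S X) =
        helper9763.continuousH2SMap S i (b : continuousH2S S X) := congrArg Subtype.val hab
    have h2 := congrArg (helper9763.continuousH2SMap S r) h1
    rw [← helper9763.continuousH2SMap_comp, ← helper9763.continuousH2SMap_comp, hir,
      helper9763.continuousH2SMap_id, helper9763.continuousH2SMap_id] at h2
    exact Subtype.ext h2
  exact LinearMap.finrank_le_finrank_of_injective hf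

end Retract

section Exists

/-- **Enlarging `S` kills `Ш²` of the induced modules.**  For a number field `F ⊂ ℚ̄` there is a
finite set `T` of rational primes such that for every `S ⊇ T` for which `F` is an admissible
`S`-field containing `μ_p`, `Ш²_S(coind_F 𝔽_p) = 0`. -/
theorem exists_finset_sha₂_indRep_eq_bot (hGH : helper1919.Stmt_GH) (hSh : Stmt_Shapiro)
    (F : IntermediateField ℚ Qb) [FiniteDimensional ℚ F] :
    ∃ T : Finset Nat.Primes, ∀ (S : Finset Nat.Primes) (p : ℕ), T ⊆ S → IsSFieldZeta S p F →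
      sha₂ S (indRep p F) = ⊥ := by
  obtain ⟨T, hT⟩ := exists_finset_clSRank_eq_zero F
  refine ⟨T, fun S p hS h => ?_⟩
  exact sha₂_indRep_eq_bot hGH (hSh S p F h.prime h.unram).2 h (hT S hS p)

end Exists

end

end Fermat.Agent.S56.helper4153
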