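import Mathlib
import Fermat.Agent.S56.helper3887_TateAssembly
import Fermat.Agent.S56.helper4153_Sha2Kill

/-!
# S56, TATE-T3-GLUE (helper3887): the closed seam of the TATE chain

`helper9859.Stmt_TateCyc` (target of TATE-T1) implies `helper3550.Stmt_TateLarge` (the Tate leaf
of the global count), with no further hypothesis: modular Artin induction (T2), the junction
(`helper3887_TateOp`), additivity of Tate's defect and the class-group kill of `Ш²` for large `S`
(`helper4153.exists_finset_sha₂_indRep_eq_bot`) are theorems.
-/

set_option autoImplicit false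

namespace Fermat.Agent.S56.helper3887

open Fermat.Agent.S55

/-- **The TATE chain, closed seam**: the target of TATE-T1 implies Tate's inequality for all
large `S`. -/
theorem stmt_TateLarge_of_tateCyc (hCyc : helper9859.Stmt_TateCyc) :
    Fermat.Agent.S56.helper3550.Stmt_TateLarge :=
  stmt_TateLarge_of_cyc hCyc (fun F _ =>
    Fermat.Agent.S56.helper4153.exists_finset_sha₂_indRep_eq_bot
      helper4075.stmt_GH helper62.stmt_Shapiro F)

/-- The TATE chain from the six leaves of `helper9859_TateCycSpec`. -/
theorem stmt_TateLarge_of_leaves (hH0 : helper9859.Stmt_H0) (hH0D : helper9859.Stmt_H0Dual)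
    (hPi2 : helper9859.Stmt_Pi2) (hMin : helper9859.Stmt_Minus) (hH1 : helper9859.Stmt_H1)
    (hInd : helper9859.Stmt_IndNonneg) : Fermat.Agent.S56.helper3550.Stmt_TateLarge :=
  stmt_TateLarge_of_tateCyc (helper9859.stmt_TateCyc_of hH0 hH0D hPi2 hMin hH1 hInd)

end Fermat.Agent.S56.helper3887
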