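/-
S56 (Taylor–Wiles primes), global chain, node TATE-T1 (helper9859): CLOSING FILE of the Tate
layer.

* `stmt_TateCyc : Stmt_TateCyc` — Tate's global Euler characteristic formula for the kernels
  `kap φ = ker φ(lam)` on `indRep p K` (operator form, large `S`), the target of
  `helper9859_TateCycSpec`.  Leaves:
  - `Stmt_H0`, `Stmt_H0Dual`, `Stmt_Pi2`, `Stmt_Minus` : `helper1127_OpNum` (operator-form Mackey);
  - `Stmt_H1`                                          : `helper55_H1Asm` (equivariant Kummer
    theory `helper7860`, Dirichlet–Herbrand `helper4029` / `helper7407`, places `helper4713`);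
  - `Stmt_IndNonneg`                                   : `helper5075_TateIndClosed`.
* `stmt_TateLarge : helper3550.Stmt_TateLarge` — Tate's inequality
  `h⁰(N) + h²(G_S, N) + dim N^{c = -1} ≤ h¹(G_S, N)` for every `S`-module `N` and all
  sufficiently large `S` (through the seam `helper3887_TateSeam`: modular Artin induction,
  junction, additivity of `tateDef`, class-kill).
-/
import Mathlib
import Fermat.Agent.S56.helper9859_TateCycSpec
import Fermat.Agent.S56.helper5075_TateIndClosed
import Fermat.Agent.S56.helper1127_OpNum
import Fermat.Agent.S56.helper55_H1Asm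
import Fermat.Agent.S56.helper3887_TateSeam

set_option autoImplicit false

namespace Fermat.Agent.S56.helper9859

/-- The target of T1 from the arithmetic heart `Stmt_H1` alone. -/
theorem stmt_TateCyc_of_H1 (hH1 : Stmt_H1) : Stmt_TateCyc :=
  stmt_TateCyc_of Fermat.Agent.S56.helper1127.stmt_H0 Fermat.Agent.S56.helper1127.stmt_H0Dual
    Fermat.Agent.S56.helper1127.stmt_Pi2 Fermat.Agent.S56.helper1127.stmt_Minus hH1
    Fermat.Agent.S56.helper5075.stmt_IndNonneg

/-- **Tate's global Euler characteristic formula for the cyclic kernels** (T1, closed). -/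
theorem stmt_TateCyc : Stmt_TateCyc :=
  stmt_TateCyc_of_H1 Fermat.Agent.S56.helper55.stmt_H1

/-- **Tate's inequality for all sufficiently large `S`** (the Tate leaf of the S56 count,
closed). -/
theorem stmt_TateLarge : Fermat.Agent.S56.helper3550.Stmt_TateLarge :=
  Fermat.Agent.S56.helper3887.stmt_TateLarge_of_tateCyc stmt_TateCyc

end Fermat.Agent.S56.helper9859
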