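/-
S56, COUNT ASSEMBLY: the closing file of the chain, state after the TATE chain closed
(node COUNT-ASM).  Author: helper2229.

* `stmt_CountSO : Stmt_CountSO` — the strict-ordinary count is a THEOREM (Tate's inequality
  `helper9859.stmt_TateLarge`, LOC-R1 `helper245.stmt_LocUnip`, LOC-R2 `helper1962.stmt_LocSO`).
* `stmt_CountFL_of_flat` : the flat count from the two cases of the flat tangent bound.
* `result_of_flat` : the literal frozen statement S56 from the TWO leaves which are still open: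
  `helper6366.Stmt_FlatIrr` and `helper6366.Stmt_FlatRed`.
-/
import Mathlib
import Fermat.Agent.S56.helper2229_Closing
import Fermat.Agent.S56.helper9859_TateCyc

set_option autoImplicit false

namespace Fermat.Agent.S56.helper2229

open Polynomial IsLocalRing

/-- **The strict-ordinary count** (closed). -/
theorem stmt_CountSO : Stmt_CountSO :=
  stmt_CountSO_of helper9859.stmt_TateLarge helper245.stmt_LocUnip helper1962.stmt_LocSO

/-- **The flat count** from the two cases of the flat tangent bound at `p`. -/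
theorem stmt_CountFL_of_flat (hI : helper6366.Stmt_FlatIrr) (hR : helper6366.Stmt_FlatRed) :
    Stmt_CountFL :=
  stmt_CountFL_of helper9859.stmt_TateLarge helper245.stmt_LocUnip
    (stmt_LocFL_of (helper6366.stmt_FlatTangent_of hI hR))

/-- **S56 from the two open leaves**: the two cases of the flat tangent bound at `p`. -/
theorem result_of_flat (hI : helper6366.Stmt_FlatIrr) (hR : helper6366.Stmt_FlatRed)
    {𝒪 : Type} [CommRing 𝒪] [IsDomain 𝒪] [IsDiscreteValuationRing 𝒪]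
    [IsAdicComplete (maximalIdeal 𝒪) 𝒪] [Finite (ResidueField 𝒪)]
    (p : ℕ) [Fact p.Prime] (hp2 : p ≠ 2) (hp𝒪 : (p : 𝒪) ∈ maximalIdeal 𝒪)
    (ρbar : ResidualGaloisRep (ResidueField 𝒪))
    (habs : ρbar.IsAbsolutelyIrreducible)
    (hdet : (GaloisRepAdic.ofResidualGaloisRep ρbar).DetIsCyclotomic p)
    (hsplit : ∀ σ : AlgebraicClosure ℚ ≃ₐ[ℚ] AlgebraicClosure ℚ,
      ∃ α β : ResidueField 𝒪, LinearMap.charpoly (ρbar.ρ σ) = (X - C α) * (X - C β))
    (hTW : ∀ (K : Type) [Field K] [Algebra (ResidueField 𝒪) K]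
      (G : Subgroup (AlgebraicClosure ℚ ≃ₐ[ℚ] AlgebraicClosure ℚ)), G.index = 2 →
      ∀ V : Submodule K (ρbar.baseChange K).V,
        (∀ σ ∈ G, ∀ x ∈ V, (ρbar.baseChange K).ρ σ x ∈ V) → V = ⊥ ∨ V = ⊤)
    (S Smin : Finset ℕ) (hpSmin : p ∈ Smin) (hSmin : Smin ⊆ S) (hS : ∀ q ∈ S, q.Prime)
    (hmin : ∀ q : ℕ, q.Prime → q ≠ p → (q ∈ Smin ↔ ¬ ρbar.IsUnramifiedAt q)) :
    (∃ r : ℕ, ∀ n : ℕ, ∃ qv : Fin r → ℕ, Function.Injective qv ∧
      (∀ i, (qv i).Prime ∧ qv i ∉ S ∧ p ^ (n + 1) ∣ qv i - 1) ∧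
      (∀ i, ∀ P : ValuationSubring (AlgebraicClosure ℚ), P.LiesOverPrime (qv i) →
        ∀ φ : AlgebraicClosure ℚ ≃ₐ[ℚ] AlgebraicClosure ℚ, P.IsFrobeniusAt φ (qv i) →
          ∃ α β : ResidueField 𝒪, α ≠ β ∧ LinearMap.charpoly (ρbar.ρ φ) = (X - C α) * (X - C β)) ∧
      ∀ DQ : GaloisRep.DeformationRingData 𝒪 ρbar (fun _A _ _ _ ρ =>
          GaloisRep.strictOrdinaryCondition 𝒪 p (Smin ∪ Finset.univ.image qv) ρ ∧
            ∀ q ∈ Smin, q.Prime → q ≠ p → ρ.IsUnipotentOnInertiaAt q),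
        ∃ γ : MvPowerSeries (Fin r) 𝒪 →ₐ[𝒪] DQ.R, Function.Surjective γ) ∧
    (∃ r : ℕ, ∀ n : ℕ, ∃ qv : Fin r → ℕ, Function.Injective qv ∧
      (∀ i, (qv i).Prime ∧ qv i ∉ S ∧ p ^ (n + 1) ∣ qv i - 1) ∧
      (∀ i, ∀ P : ValuationSubring (AlgebraicClosure ℚ), P.LiesOverPrime (qv i) →
        ∀ φ : AlgebraicClosure ℚ ≃ₐ[ℚ] AlgebraicClosure ℚ, P.IsFrobeniusAt φ (qv i) →
          ∃ α β : ResidueField 𝒪, α ≠ β ∧ LinearMap.charpoly (ρbar.ρ φ) = (X - C α) * (X - C β)) ∧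
      ∀ DQ : GaloisRep.DeformationRingData 𝒪 ρbar (fun _A _ _ _ ρ =>
          GaloisRep.flatCondition 𝒪 p (Smin ∪ Finset.univ.image qv) ρ ∧
            ∀ q ∈ Smin, q.Prime → q ≠ p → ρ.IsUnipotentOnInertiaAt q),
        ∃ γ : MvPowerSeries (Fin r) 𝒪 →ₐ[𝒪] DQ.R, Function.Surjective γ) :=
  result_of_counts stmt_CountSO (stmt_CountFL_of_flat hI hR)
    p hp2 hp𝒪 ρbar habs hdet hsplit hTW S Smin hpSmin hSmin hS hmin

end Fermat.Agent.S56.helper2229
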