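/-
S56, FLAT-KUMDICT (helper164): the Kummer dictionary in the frozen vocabulary.

`Qb := AlgebraicClosure ℚ`, `GQ := Qb ≃ₐ[ℚ] Qb`.  Everything is stated for plain functions on `GQ`
with hypotheses on an ARBITRARY subgroup `H ≤ GQ` (decomposition groups, their intersections with
kernels, inertia, ...): no completion, no finite-index or closedness hypothesis on `H`.

* `hilbert90_on`        : level Hilbert 90 on `H` for cocycles with values in `Qbˣ` (element form).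
* `exists_kummerGen`    : every level `ω`-twisted cocycle `χ : H → ZMod p` (`g ζ = ζ ^ ω g` on `H`;
                          `ω = 1`: characters) has a Kummer generator `y`: `g y = ζ ^ χ g * y`.
* `IsKummerGen.*`       : radicand `y ^ p` is `H`-fixed, uniqueness up to `H`-fixed elements,
                          additivity, conjugation equivariance, coboundary criterion.
* `exists_kummerFun`    : converse: a `p`-th root of an `H`-fixed element defines a level cocycle.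
* `exists_kummerFamily` : family form for cocycles with values in a `ZMod p`-module.

The input is the abstract Poincaré-series Hilbert 90 `helper814.exists_smul_eq_of_cocycle` (S55).
-/
import Mathlib
import Fermat.Agent.S55.helper814_LB2

set_option autoImplicit false

namespace Fermat.Agent.S56.helper164

open IntermediateField

/-- `ℚ̄`. -/
abbrev Qb := AlgebraicClosure ℚ

/-- `Gal(ℚ̄/ℚ)`. -/
abbrev GQ := Qb ≃ₐ[ℚ] Qb

/-! ### Level functions on a subgroup -/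

/-- `c` is *level on `H`*: it is right-invariant under `H ∩ Gal(ℚ̄/F)` for some finite `F/ℚ`. -/
def IsLevelOn {X : Type*} (H : Subgroup GQ) (c : GQ → X) : Prop :=
  ∃ F : IntermediateField ℚ Qb, FiniteDimensional ℚ F ∧
    ∀ g ∈ H, ∀ s ∈ H, s ∈ F.fixingSubgroup → c (g * s) = c g

lemma IsLevelOn.comp {X Y : Type*} {H : Subgroup GQ} {c : GQ → X} (hc : IsLevelOn H c)
    (φ : X → Y) : IsLevelOn H (fun g => φ (c g)) := by
  obtain ⟨F, hF, h⟩ := hc
  exact ⟨F, hF, fun g hg s hs hsF => by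
    show φ (c (g * s)) = φ (c g)
    rw [h g hg s hs hsF]⟩

lemma IsLevelOn.mono {X : Type*} {H H' : Subgroup GQ} (hH : H' ≤ H) {c : GQ → X}
    (hc : IsLevelOn H c) : IsLevelOn H' c := by
  obtain ⟨F, hF, h⟩ := hc
  exact ⟨F, hF, fun g hg s hs hsF => h g (hH hg) s (hH hs) hsF⟩

lemma IsLevelOn.map₂ {X Y Z : Type*} {H : Subgroup GQ} {c : GQ → X} {d : GQ → Y}
    (hc : IsLevelOn H c) (hd : IsLevelOn H d) (φ : X → Y → Z) :
    IsLevelOn H (fun g => φ (c g) (d g)) := by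
  obtain ⟨F, hF, h⟩ := hc
  obtain ⟨F', hF', h'⟩ := hd
  have := hF
  have := hF'
  refine ⟨F ⊔ F', IntermediateField.finiteDimensional_sup F F', fun g hg s hs hsF => ?_⟩
  show φ (c (g * s)) (d (g * s)) = φ (c g) (d g)
  rw [h g hg s hs (IntermediateField.fixingSubgroup_antitone le_sup_left hsF),
    h' g hg s hs (IntermediateField.fixingSubgroup_antitone le_sup_right hsF)]

/-- A function which is globally right-invariant under `Gal(ℚ̄/F)` is level on every subgroup. -/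
lemma isLevelOn_of_forall {X : Type*} (H : Subgroup GQ) {c : GQ → X}
    (F : IntermediateField ℚ Qb) [FiniteDimensional ℚ F]
    (h : ∀ g s : GQ, (∀ x ∈ F, s x = x) → c (g * s) = c g) : IsLevelOn H c :=
  ⟨F, inferInstance, fun g _ s _ hsF =>
    h g s (fun x hx => (IntermediateField.mem_fixingSubgroup_iff F s).1 hsF x hx)⟩

/-- The orbit map of an element of `ℚ̄` is level. -/
lemma isLevelOn_apply (H : Subgroup GQ) (y : Qb) : IsLevelOn H (fun g : GQ => g y) := by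
  have hint : IsIntegral ℚ y := (AlgebraicClosure.isAlgebraic ℚ).isIntegral.isIntegral y
  have hfd : FiniteDimensional ℚ (IntermediateField.adjoin ℚ {y}) :=
    IntermediateField.adjoin.finiteDimensional hint
  refine ⟨_, hfd, fun g _ s _ hsF => ?_⟩
  have hs' : s y = y :=
    (IntermediateField.mem_fixingSubgroup_iff _ _).1 hsF _
      (IntermediateField.mem_adjoin_simple_self ℚ _)
  show (g * s) y = g y
  rw [AlgEquiv.mul_apply, hs']

/-! ### Hilbert 90 on a subgroup -/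

/-- **Level Hilbert 90 on an arbitrary subgroup of `Gal(ℚ̄/ℚ)`.**  A nowhere vanishing level
`1`-cocycle `c` on `H` with values in `ℚ̄` is a coboundary: `c g = g γ / γ` on `H`. -/
theorem hilbert90_on (H : Subgroup GQ) (c : GQ → Qb) (hc0 : ∀ g ∈ H, c g ≠ 0)
    (hc : ∀ g ∈ H, ∀ h ∈ H, c (g * h) = c g * g (c h)) (hl : IsLevelOn H c) :
    ∃ γ : Qb, γ ≠ 0 ∧ ∀ g ∈ H, g γ = c g * γ := by
  obtain ⟨F, hF, hcF⟩ := hl
  have := hF
  have hfi := Fermat.Agent.S55.helper814.finiteIndex_fixingSubgroup F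
  have hfi' : (F.fixingSubgroup.subgroupOf H).FiniteIndex := inferInstance
  obtain ⟨γ, hγ0, hγ⟩ := Fermat.Agent.S55.helper814.exists_smul_eq_of_cocycle (G := H) (Ω := Qb)
    (F.fixingSubgroup.subgroupOf H)
    (fun g hg => Subgroup.mem_subgroupOf.2 (Fermat.Agent.S55.helper814.closed_fixingSubgroup F g
      (fun x hx => hg x (fun s hs => hx s (Subgroup.mem_subgroupOf.1 hs)))))
    (fun g => c g) (fun g => hc0 g g.2)
    (fun g h => hc g g.2 h h.2)
    (fun g s hs => hcF g g.2 s s.2 (Subgroup.mem_subgroupOf.1 hs))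
  refine ⟨γ⁻¹, inv_ne_zero hγ0, fun g hg => ?_⟩
  have h1 : c g * g γ = γ := hγ ⟨g, hg⟩
  have hgγ : g γ ≠ 0 := by
    rw [Ne, map_eq_zero_iff g g.injective]
    exact hγ0
  rw [map_inv₀]
  field_simp
  linear_combination (-1 : Qb) * h1

/-! ### Powers of a root of unity indexed by `ZMod p` -/

section Exp

variable {p : ℕ} [Fact p.Prime] {ζ : Qb}

lemma zpowv_add (hζ : IsPrimitiveRoot ζ p) (a b : ZMod p) :
    ζ ^ (a + b).val = ζ ^ a.val * ζ ^ b.val :=
  Fermat.Agent.S55.helper814.pow_val_add hζ.pow_eq_one a b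

lemma zpowv_mul (hζ : IsPrimitiveRoot ζ p) (a b : ZMod p) :
    ζ ^ (a * b).val = (ζ ^ a.val) ^ b.val :=
  Fermat.Agent.S55.helper814.pow_val_mul hζ.pow_eq_one a b

lemma zpowv_zero : ζ ^ (0 : ZMod p).val = 1 := by
  rw [ZMod.val_zero, pow_zero]

lemma zpowv_ne_zero (hζ : IsPrimitiveRoot ζ p) (a : ZMod p) : ζ ^ a.val ≠ 0 :=
  pow_ne_zero _ (hζ.ne_zero (Fact.out : p.Prime).ne_zero)

lemma zpowv_injective (hζ : IsPrimitiveRoot ζ p) :
    Function.Injective (fun a : ZMod p => ζ ^ a.val) := by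
  intro a b hab
  have h := hζ.pow_inj (ZMod.val_lt a) (ZMod.val_lt b) hab
  exact ZMod.val_injective p h

lemma zpowv_neg (hζ : IsPrimitiveRoot ζ p) (a : ZMod p) :
    ζ ^ (-a).val = (ζ ^ a.val)⁻¹ := by
  have h := zpowv_add hζ a (-a)
  rw [add_neg_cancel, zpowv_zero] at h
  exact eq_inv_of_mul_eq_one_right h.symm

/-- Every `p`-th root of unity is `ζ ^ a`. -/
lemma exists_zpowv_eq (hζ : IsPrimitiveRoot ζ p) {x : Qb} (hx : x ^ p = 1) :
    ∃ a : ZMod p, x = ζ ^ a.val := by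
  have hp : 0 < p := (Fact.out : p.Prime).pos
  have : NeZero p := ⟨hp.ne'⟩
  obtain ⟨i, hi, rfl⟩ := hζ.eq_pow_of_pow_eq_one hx
  exact ⟨(i : ZMod p), by rw [ZMod.val_natCast, Nat.mod_eq_of_lt hi]⟩

end Exp

/-! ### Kummer generators -/

section Kummer

variable {p : ℕ} [Fact p.Prime] {H : Subgroup GQ} {ζ : Qb}

/-- `y` is a *Kummer generator* of `χ` on `H`: `y ≠ 0` and `g y = ζ ^ χ g * y` for `g ∈ H`. -/
def IsKummerGen (H : Subgroup GQ) (ζ : Qb) (χ : GQ → ZMod p) (y : Qb) : Prop :=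
  y ≠ 0 ∧ ∀ g ∈ H, g y = ζ ^ (χ g).val * y

/-- **Kummer theory on a subgroup.**  `ω` describes the action of `H` on `ζ`; every level
`ω`-twisted `1`-cocycle `χ : H → ZMod p` has a Kummer generator.  For `ω = 1` on `H` these are
the level characters of `H`. -/
theorem exists_kummerGen (hζ : IsPrimitiveRoot ζ p) (ω χ : GQ → ZMod p)
    (hω : ∀ g ∈ H, g ζ = ζ ^ (ω g).val)
    (hχ : ∀ g ∈ H, ∀ h ∈ H, χ (g * h) = χ g + ω g * χ h) (hl : IsLevelOn H χ) :
    ∃ y : Qb, IsKummerGen H ζ χ y := by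
  obtain ⟨γ, hγ0, hγ⟩ := hilbert90_on H (fun g => ζ ^ (χ g).val)
    (fun g _ => zpowv_ne_zero hζ _)
    (fun g hg h hh => by
      show ζ ^ (χ (g * h)).val = ζ ^ (χ g).val * g (ζ ^ (χ h).val)
      rw [hχ g hg h hh, zpowv_add hζ, zpowv_mul hζ, map_pow, hω g hg])
    (hl.comp fun a : ZMod p => ζ ^ a.val)
  exact ⟨γ, hγ0, hγ⟩

namespace IsKummerGen

variable {χ χ' : GQ → ZMod p} {y y' : Qb}

lemma ne_zero (h : IsKummerGen H ζ χ y) : y ≠ 0 := h.1

lemma apply_eq (h : IsKummerGen H ζ χ y) {g : GQ} (hg : g ∈ H) : g y = ζ ^ (χ g).val * y :=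
  h.2 g hg

/-- The radicand `y ^ p` is fixed by `H`. -/
lemma pow_fixed (hζ : IsPrimitiveRoot ζ p) (h : IsKummerGen H ζ χ y) {g : GQ} (hg : g ∈ H) :
    g (y ^ p) = y ^ p := by
  rw [map_pow, h.2 g hg, mul_pow, ← pow_mul, mul_comm (χ g).val p, pow_mul, hζ.pow_eq_one, one_pow,
    one_mul]

lemma congr (h : IsKummerGen H ζ χ y) (hχ : ∀ g ∈ H, χ g = χ' g) : IsKummerGen H ζ χ' y :=
  ⟨h.1, fun g hg => by rw [← hχ g hg]; exact h.2 g hg⟩

lemma mono {H' : Subgroup GQ} (hH : H' ≤ H) (h : IsKummerGen H ζ χ y) : IsKummerGen H' ζ χ y :=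
  ⟨h.1, fun g hg => h.2 g (hH hg)⟩

lemma mul (hζ : IsPrimitiveRoot ζ p) (h : IsKummerGen H ζ χ y) (h' : IsKummerGen H ζ χ' y') :
    IsKummerGen H ζ (fun g => χ g + χ' g) (y * y') :=
  ⟨mul_ne_zero h.1 h'.1, fun g hg => by
    rw [map_mul, h.2 g hg, h'.2 g hg, zpowv_add hζ]; ring⟩

lemma inv (hζ : IsPrimitiveRoot ζ p) (h : IsKummerGen H ζ χ y) :
    IsKummerGen H ζ (fun g => -χ g) y⁻¹ :=
  ⟨inv_ne_zero h.1, fun g hg => by
    rw [map_inv₀, h.2 g hg, zpowv_neg hζ, mul_inv]⟩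

lemma div (hζ : IsPrimitiveRoot ζ p) (h : IsKummerGen H ζ χ y) (h' : IsKummerGen H ζ χ' y') :
    IsKummerGen H ζ (fun g => χ g - χ' g) (y / y') := by
  have := h.mul hζ (h'.inv hζ)
  simpa only [div_eq_mul_inv, sub_eq_add_neg] using this

lemma one : IsKummerGen H ζ (fun _ => (0 : ZMod p)) 1 :=
  ⟨one_ne_zero, fun g _ => by rw [map_one, zpowv_zero, one_mul]⟩

lemma pow (hζ : IsPrimitiveRoot ζ p) (h : IsKummerGen H ζ χ y) (n : ℕ) :
    IsKummerGen H ζ (fun g => (n : ZMod p) * χ g) (y ^ n) := by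
  induction n with
  | zero =>
    simp only [Nat.cast_zero, zero_mul, pow_zero]
    exact one
  | succ n ih =>
    have := ih.mul hζ h
    rw [pow_succ]
    refine this.congr fun g _ => ?_
    push_cast
    ring

lemma zpow (hζ : IsPrimitiveRoot ζ p) (h : IsKummerGen H ζ χ y) (n : ℤ) :
    IsKummerGen H ζ (fun g => (n : ZMod p) * χ g) (y ^ n) := by
  obtain ⟨m, rfl | rfl⟩ := Int.eq_nat_or_neg n
  · rw [zpow_natCast]
    exact (h.pow hζ m).congr fun g _ => by push_cast; ring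
  · rw [zpow_neg, zpow_natCast]
    exact ((h.pow hζ m).inv hζ).congr fun g _ => by push_cast; ring

/-- Scalar multiples: `y ^ a.val` is a Kummer generator of `a • χ`. -/
lemma smul (hζ : IsPrimitiveRoot ζ p) (h : IsKummerGen H ζ χ y) (a : ZMod p) :
    IsKummerGen H ζ (fun g => a * χ g) (y ^ a.val) :=
  (h.pow hζ a.val).congr fun g _ => by rw [ZMod.natCast_zmod_val]

/-- Multiplying a Kummer generator by an `H`-fixed element. -/
lemma mul_fixed (h : IsKummerGen H ζ χ y) {w : Qb} (hw0 : w ≠ 0) (hw : ∀ g ∈ H, g w = w) :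
    IsKummerGen H ζ χ (y * w) :=
  ⟨mul_ne_zero h.1 hw0, fun g hg => by rw [map_mul, h.2 g hg, hw g hg, mul_assoc]⟩

/-- **Uniqueness**: two Kummer generators of the same cocycle differ by an `H`-fixed element. -/
lemma div_fixed (h : IsKummerGen H ζ χ y) (h' : IsKummerGen H ζ χ y') {g : GQ} (hg : g ∈ H) :
    g (y' / y) = y' / y := by
  have h0 : ζ ^ (χ g).val * y ≠ 0 := by
    rw [← h.2 g hg, Ne, map_eq_zero_iff g g.injective]
    exact h.1
  have hz : ζ ^ (χ g).val ≠ 0 := left_ne_zero_of_mul h0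
  rw [map_div₀, h.2 g hg, h'.2 g hg, mul_div_mul_left _ _ hz]

/-- A generator of the zero cocycle is `H`-fixed. -/
lemma fixed_of_zero (h : IsKummerGen H ζ χ y) {g : GQ} (hg : g ∈ H) (h0 : χ g = 0) :
    g y = y := by
  rw [h.2 g hg, h0, zpowv_zero, one_mul]

/-- An `H`-fixed nonzero element is a generator of the zero cocycle. -/
lemma of_fixed {w : Qb} (hw0 : w ≠ 0) (hw : ∀ g ∈ H, g w = w) :
    IsKummerGen H ζ (fun _ => (0 : ZMod p)) w :=
  ⟨hw0, fun g hg => by rw [hw g hg, zpowv_zero, one_mul]⟩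

/-- The cocycle is determined by the generator. -/
lemma eq_of_gen (hζ : IsPrimitiveRoot ζ p) (h : IsKummerGen H ζ χ y) (h' : IsKummerGen H ζ χ' y)
    {g : GQ} (hg : g ∈ H) : χ g = χ' g := by
  have e := (h.2 g hg).symm.trans (h'.2 g hg)
  exact zpowv_injective hζ (mul_right_cancel₀ h.1 e)

/-- **Conjugation equivariance.**  If `g₀` normalises `H` (in the sense `g₀⁻¹ H g₀ ⊆ H`) and
`g₀ ζ = ζ ^ a`, then `g₀ y` is a Kummer generator of `a • χ^{g₀}`, `χ^{g₀} h = χ (g₀⁻¹ h g₀)`. -/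
lemma conj (hζ : IsPrimitiveRoot ζ p) (h : IsKummerGen H ζ χ y) (g₀ : GQ)
    (hn : ∀ k ∈ H, g₀⁻¹ * k * g₀ ∈ H) (a : ZMod p) (ha : g₀ ζ = ζ ^ a.val) :
    IsKummerGen H ζ (fun k => a * χ (g₀⁻¹ * k * g₀)) (g₀ y) := by
  refine ⟨by rw [Ne, map_eq_zero_iff g₀ g₀.injective]; exact h.1, fun k hk => ?_⟩
  have e : k (g₀ y) = g₀ ((g₀⁻¹ * k * g₀) y) := by
    simp only [AlgEquiv.mul_apply]
    rw [show g₀ (g₀⁻¹ (k (g₀ y))) = k (g₀ y) from g₀.apply_symm_apply _]
  rw [e, h.2 _ (hn k hk), map_mul, map_pow, ha, zpowv_mul hζ]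

/-- **Coboundary criterion.**  The radicand of `χ` is the `p`-th power of an `H`-fixed element
iff `χ` is an `ω`-coboundary: `χ g = (ω g - 1) * t` on `H`. -/
lemma radicand_pow_iff (hζ : IsPrimitiveRoot ζ p) (ω : GQ → ZMod p)
    (hω : ∀ g ∈ H, g ζ = ζ ^ (ω g).val) (h : IsKummerGen H ζ χ y) :
    (∃ w : Qb, (∀ g ∈ H, g w = w) ∧ y ^ p = w ^ p) ↔
      ∃ t : ZMod p, ∀ g ∈ H, χ g = (ω g - 1) * t := by
  constructor
  · rintro ⟨w, hw, hyw⟩
    have hw0 : w ≠ 0 := by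
      rintro rfl
      rw [zero_pow (Fact.out : p.Prime).ne_zero] at hyw
      exact h.1 (pow_eq_zero_iff (Fact.out : p.Prime).ne_zero |>.1 hyw)
    have h1 : (y / w) ^ p = 1 := by rw [div_pow, hyw, div_self (pow_ne_zero _ hw0)]
    obtain ⟨t, ht⟩ := exists_zpowv_eq hζ h1
    have hy : y = ζ ^ t.val * w := by rw [← ht, div_mul_cancel₀ _ hw0]
    refine ⟨t, fun g hg => ?_⟩
    have e1 : g y = ζ ^ (ω g * t).val * w := by
      rw [hy, map_mul, map_pow, hω g hg, hw g hg, zpowv_mul hζ]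
    have e2 : ζ ^ (χ g).val * (ζ ^ t.val * w) = ζ ^ (ω g * t).val * w := by
      rw [← hy, ← h.2 g hg, e1]
    have e3 : ζ ^ (χ g + t).val = ζ ^ (ω g * t).val := by
      rw [zpowv_add hζ]
      exact mul_right_cancel₀ hw0 (by rw [mul_assoc]; exact e2)
    have e4 : χ g + t = ω g * t := zpowv_injective hζ e3
    linear_combination e4
  · rintro ⟨t, ht⟩
    refine ⟨ζ ^ (-t).val * y, fun g hg => ?_, ?_⟩
    · rw [map_mul, map_pow, hω g hg, h.2 g hg, ← zpowv_mul hζ, ← mul_assoc, ← zpowv_add hζ,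
        ht g hg]
      congr 2
      ring_nf
    · rw [mul_pow, ← pow_mul, mul_comm (-t).val p, pow_mul, hζ.pow_eq_one, one_pow, one_mul]

end IsKummerGen

/-- **Converse.**  A nonzero `y` whose `p`-th power is `H`-fixed is a Kummer generator of a level
`ω`-cocycle on `H`. -/
theorem exists_kummerFun (hζ : IsPrimitiveRoot ζ p) (ω : GQ → ZMod p)
    (hω : ∀ g ∈ H, g ζ = ζ ^ (ω g).val) {y : Qb} (hy0 : y ≠ 0)
    (hy : ∀ g ∈ H, g (y ^ p) = y ^ p) :
    ∃ χ : GQ → ZMod p, IsKummerGen H ζ χ y ∧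
      (∀ g ∈ H, ∀ h ∈ H, χ (g * h) = χ g + ω g * χ h) ∧ IsLevelOn H χ := by
  classical
  have h1 : ∀ g ∈ H, (g y / y) ^ p = 1 := fun g hg => by
    rw [div_pow, ← map_pow, hy g hg, div_self (pow_ne_zero _ hy0)]
  have hex : ∀ g : GQ, ∃ a : ZMod p, g ∈ H → g y / y = ζ ^ a.val := fun g => by
    by_cases hg : g ∈ H
    · obtain ⟨a, ha⟩ := exists_zpowv_eq hζ (h1 g hg)
      exact ⟨a, fun _ => ha⟩
    · exact ⟨0, fun h => absurd h hg⟩
  choose χ hχ using hex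
  have hgen : IsKummerGen H ζ χ y :=
    ⟨hy0, fun g hg => by rw [← hχ g hg, div_mul_cancel₀ _ hy0]⟩
  refine ⟨χ, hgen, fun g hg h hh => ?_, ?_⟩
  · have e1 : (g * h) y = ζ ^ (χ g + ω g * χ h).val * y := by
      rw [AlgEquiv.mul_apply, hgen.2 h hh, map_mul, map_pow, hω g hg, hgen.2 g hg,
        zpowv_add hζ, zpowv_mul hζ]
      ring
    have e2 := (hgen.2 (g * h) (H.mul_mem hg hh)).symm.trans e1
    exact zpowv_injective hζ (mul_right_cancel₀ hy0 e2)
  · obtain ⟨F, hF, hFy⟩ := isLevelOn_apply H y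
    refine ⟨F, hF, fun g hg s hs hsF => ?_⟩
    have e1 : (g * s) y = g y := hFy g hg s hs hsF
    have e2 : ζ ^ (χ (g * s)).val * y = ζ ^ (χ g).val * y := by
      rw [← hgen.2 (g * s) (H.mul_mem hg hs), ← hgen.2 g hg, e1]
    exact zpowv_injective hζ (mul_right_cancel₀ hy0 e2)

/-! ### Family form: cocycles with values in a `ZMod p`-module -/

/-- **Family form.**  `M` a `ZMod p`-module on which `H` acts by the scalars `ω`; `c : H → M` a
level cocycle, `c (g h) = c g + ω g • c h`.  Then there is a family of radicand roots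
`a : Module.Dual (ZMod p) M → ℚ̄` with `a λ` a Kummer generator of `λ ∘ c`. -/
theorem exists_kummerFamily (hζ : IsPrimitiveRoot ζ p) (ω : GQ → ZMod p)
    (hω : ∀ g ∈ H, g ζ = ζ ^ (ω g).val) {M : Type*} [AddCommGroup M] [Module (ZMod p) M]
    (c : GQ → M) (hc : ∀ g ∈ H, ∀ h ∈ H, c (g * h) = c g + ω g • c h) (hl : IsLevelOn H c) :
    ∃ a : Module.Dual (ZMod p) M → Qb, ∀ lam : Module.Dual (ZMod p) M,
      IsKummerGen H ζ (fun g => lam (c g)) (a lam) := by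
  have hex : ∀ lam : Module.Dual (ZMod p) M, ∃ y : Qb, IsKummerGen H ζ (fun g => lam (c g)) y :=
    fun lam => exists_kummerGen hζ ω (fun g => lam (c g)) hω
      (fun g hg h hh => by
        show lam (c (g * h)) = lam (c g) + ω g * lam (c h)
        rw [hc g hg h hh, map_add, map_smul, smul_eq_mul])
      (hl.comp lam)
  choose a ha using hex
  exact ⟨a, ha⟩

/-- Additivity of a Kummer family modulo `H`-fixed elements. -/
theorem kummerFamily_add (hζ : IsPrimitiveRoot ζ p) {M : Type*} [AddCommGroup M]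
    [Module (ZMod p) M] (c : GQ → M) (a : Module.Dual (ZMod p) M → Qb)
    (ha : ∀ lam : Module.Dual (ZMod p) M, IsKummerGen H ζ (fun g => lam (c g)) (a lam))
    (lam lam' : Module.Dual (ZMod p) M) {g : GQ} (hg : g ∈ H) :
    g (a (lam + lam') / (a lam * a lam')) = a (lam + lam') / (a lam * a lam') := by
  have h1 : IsKummerGen H ζ (fun g => (lam + lam') (c g)) (a lam * a lam') :=
    ((ha lam).mul hζ (ha lam')).congr fun g _ => by
      rw [LinearMap.add_apply]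
  exact h1.div_fixed (ha (lam + lam')) hg

/-- Scalar compatibility of a Kummer family modulo `H`-fixed elements. -/
theorem kummerFamily_smul (hζ : IsPrimitiveRoot ζ p) {M : Type*} [AddCommGroup M]
    [Module (ZMod p) M] (c : GQ → M) (a : Module.Dual (ZMod p) M → Qb)
    (ha : ∀ lam : Module.Dual (ZMod p) M, IsKummerGen H ζ (fun g => lam (c g)) (a lam))
    (n : ℕ) (lam : Module.Dual (ZMod p) M) {g : GQ} (hg : g ∈ H) :
    g (a ((n : ZMod p) • lam) / a lam ^ n) = a ((n : ZMod p) • lam) / a lam ^ n := by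
  have h1 : IsKummerGen H ζ (fun g => ((n : ZMod p) • lam) (c g)) (a lam ^ n) :=
    ((ha lam).pow hζ n).congr fun g _ => by
      rw [LinearMap.smul_apply, smul_eq_mul]
  exact h1.div_fixed (ha ((n : ZMod p) • lam)) hg

/-- Conjugation equivariance of a Kummer family: if `g₀` normalises `H`, `g₀ ζ = ζ ^ b` and
`lam (c (g₀⁻¹ k g₀)) = lam' (c k)` on `H`, then `g₀ (a lam)` and `a lam' ^ b` differ by an
`H`-fixed element. -/
theorem kummerFamily_conj (hζ : IsPrimitiveRoot ζ p) {M : Type*} [AddCommGroup M]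
    [Module (ZMod p) M] (c : GQ → M) (a : Module.Dual (ZMod p) M → Qb)
    (ha : ∀ lam : Module.Dual (ZMod p) M, IsKummerGen H ζ (fun g => lam (c g)) (a lam))
    (g₀ : GQ) (hn : ∀ k ∈ H, g₀⁻¹ * k * g₀ ∈ H) (b : ℕ) (hb : g₀ ζ = ζ ^ b)
    (lam lam' : Module.Dual (ZMod p) M) (hlam : ∀ k ∈ H, lam (c (g₀⁻¹ * k * g₀)) = lam' (c k))
    {g : GQ} (hg : g ∈ H) :
    g (g₀ (a lam) / a lam' ^ b) = g₀ (a lam) / a lam' ^ b := by
  have hb' : g₀ ζ = ζ ^ ((b : ZMod p)).val := by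
    rw [hb, ZMod.val_natCast]
    exact pow_eq_pow_mod b hζ.pow_eq_one
  have h1 : IsKummerGen H ζ (fun k => (b : ZMod p) * lam' (c k)) (g₀ (a lam)) :=
    ((ha lam).conj hζ g₀ hn (b : ZMod p) hb').congr fun k hk => by
      show (b : ZMod p) * lam (c (g₀⁻¹ * k * g₀)) = (b : ZMod p) * lam' (c k)
      rw [hlam k hk]
  have h2 : IsKummerGen H ζ (fun k => (b : ZMod p) * lam' (c k)) (a lam' ^ b) :=
    (ha lam').pow hζ b
  exact h2.div_fixed h1 hg

/-! ### Radicands in the fixed field -/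

/-- The fixed field of `H`, as an intermediate field of `ℚ̄/ℚ`. -/
noncomputable abbrev fixedK (H : Subgroup GQ) : IntermediateField ℚ Qb :=
  IntermediateField.fixedField H

lemma mem_fixedK {x : Qb} : x ∈ fixedK H ↔ ∀ g ∈ H, g x = x :=
  IntermediateField.mem_fixedField_iff H x

/-- Restriction to the fixed field of `H` of an element `g₀` with `g₀⁻¹ H g₀ ⊆ H`. -/
noncomputable def fixedRestrict (H : Subgroup GQ) (g₀ : GQ) (hn : ∀ k ∈ H, g₀⁻¹ * k * g₀ ∈ H) :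
    fixedK H →+* fixedK H where
  toFun x := ⟨g₀ x, mem_fixedK.2 fun k hk => by
    have h1 : (g₀⁻¹ * k * g₀) (x : Qb) = x := mem_fixedK.1 x.2 _ (hn k hk)
    have h2 : g₀ ((g₀⁻¹ * k * g₀) (x : Qb)) = k (g₀ x) := by
      simp only [AlgEquiv.mul_apply]
      exact g₀.apply_symm_apply _
    rw [← h2, h1]⟩
  map_one' := Subtype.ext (map_one g₀)
  map_mul' x y := Subtype.ext (map_mul g₀ _ _)
  map_zero' := Subtype.ext (map_zero g₀)
  map_add' x y := Subtype.ext (map_add g₀ _ _)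

@[simp] lemma coe_fixedRestrict (g₀ : GQ) (hn : ∀ k ∈ H, g₀⁻¹ * k * g₀ ∈ H) (x : fixedK H) :
    ((fixedRestrict H g₀ hn x : fixedK H) : Qb) = g₀ (x : Qb) := rfl

/-- `u`, an element of the fixed field of `H`, is a *radicand* of `χ`: `u = y ^ p` for a Kummer
generator `y` of `χ` on `H`. -/
def IsRadicand (H : Subgroup GQ) (ζ : Qb) (χ : GQ → ZMod p) (u : fixedK H) : Prop :=
  ∃ y : Qb, y ^ p = (u : Qb) ∧ IsKummerGen H ζ χ y

/-- Every level `ω`-cocycle on `H` has a radicand in the fixed field of `H`. -/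
theorem exists_isRadicand (hζ : IsPrimitiveRoot ζ p) (ω χ : GQ → ZMod p)
    (hω : ∀ g ∈ H, g ζ = ζ ^ (ω g).val)
    (hχ : ∀ g ∈ H, ∀ h ∈ H, χ (g * h) = χ g + ω g * χ h) (hl : IsLevelOn H χ) :
    ∃ u : fixedK H, IsRadicand H ζ χ u := by
  obtain ⟨y, hy⟩ := exists_kummerGen hζ ω χ hω hχ hl
  exact ⟨⟨y ^ p, mem_fixedK.2 fun g hg => hy.pow_fixed hζ hg⟩, y, rfl, hy⟩

namespace IsRadicand

variable {χ χ' : GQ → ZMod p} {u u' : fixedK H}

lemma ne_zero (h : IsRadicand H ζ χ u) : u ≠ 0 := by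
  obtain ⟨y, hy, hg⟩ := h
  rintro rfl
  rw [ZeroMemClass.coe_zero] at hy
  exact hg.1 ((pow_eq_zero_iff (Fact.out : p.Prime).ne_zero).1 hy)

lemma congr (h : IsRadicand H ζ χ u) (hχ : ∀ g ∈ H, χ g = χ' g) : IsRadicand H ζ χ' u := by
  obtain ⟨y, hy, hg⟩ := h
  exact ⟨y, hy, hg.congr hχ⟩

lemma mul (hζ : IsPrimitiveRoot ζ p) (h : IsRadicand H ζ χ u) (h' : IsRadicand H ζ χ' u') :
    IsRadicand H ζ (fun g => χ g + χ' g) (u * u') := by
  obtain ⟨y, hy, hg⟩ := h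
  obtain ⟨y', hy', hg'⟩ := h'
  exact ⟨y * y', by rw [mul_pow, hy, hy', MulMemClass.coe_mul], hg.mul hζ hg'⟩

lemma one : IsRadicand H ζ (fun _ => (0 : ZMod p)) 1 :=
  ⟨1, by rw [one_pow, OneMemClass.coe_one], IsKummerGen.one⟩

lemma pow (hζ : IsPrimitiveRoot ζ p) (h : IsRadicand H ζ χ u) (n : ℕ) :
    IsRadicand H ζ (fun g => (n : ZMod p) * χ g) (u ^ n) := by
  obtain ⟨y, hy, hg⟩ := h
  exact ⟨y ^ n, by rw [← pow_mul, mul_comm, pow_mul, hy, SubmonoidClass.coe_pow], hg.pow hζ n⟩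

lemma smul (hζ : IsPrimitiveRoot ζ p) (h : IsRadicand H ζ χ u) (a : ZMod p) :
    IsRadicand H ζ (fun g => a * χ g) (u ^ a.val) :=
  (h.pow hζ a.val).congr fun g _ => by rw [ZMod.natCast_zmod_val]

lemma inv (hζ : IsPrimitiveRoot ζ p) (h : IsRadicand H ζ χ u) :
    IsRadicand H ζ (fun g => -χ g) u⁻¹ := by
  obtain ⟨y, hy, hg⟩ := h
  exact ⟨y⁻¹, by rw [inv_pow, hy]; rfl, hg.inv hζ⟩

/-- **Uniqueness**: two radicands of the same cocycle differ by the `p`-th power of a nonzero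
element of the fixed field. -/
lemma eq_mul_pow (h : IsRadicand H ζ χ u) (h' : IsRadicand H ζ χ u') :
    ∃ w : fixedK H, w ≠ 0 ∧ u' = u * w ^ p := by
  obtain ⟨y, hy, hg⟩ := h
  obtain ⟨y', hy', hg'⟩ := h'
  refine ⟨⟨y' / y, mem_fixedK.2 fun g hg0 => hg.div_fixed hg' hg0⟩, ?_, ?_⟩
  · intro h0
    have h1 : y' / y = 0 := congrArg Subtype.val h0
    exact div_ne_zero hg'.1 hg.1 h1
  · apply Subtype.ext
    rw [MulMemClass.coe_mul, SubmonoidClass.coe_pow, ← hy, ← hy', div_pow,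
      mul_div_cancel₀ _ (pow_ne_zero _ hg.1)]

/-- **Additivity** modulo `p`-th powers. -/
lemma add_eq (hζ : IsPrimitiveRoot ζ p) (h : IsRadicand H ζ χ u) (h' : IsRadicand H ζ χ' u')
    {χ'' : GQ → ZMod p} {u'' : fixedK H} (h'' : IsRadicand H ζ χ'' u'')
    (hχ : ∀ g ∈ H, χ'' g = χ g + χ' g) :
    ∃ w : fixedK H, w ≠ 0 ∧ u'' = u * u' * w ^ p :=
  (h.mul hζ h').eq_mul_pow (h''.congr hχ)

/-- **Conjugation equivariance**: if `g₀⁻¹ H g₀ ⊆ H` and `g₀ ζ = ζ ^ a`, then `g₀ u` is a radicand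
of `a • χ^{g₀}`. -/
lemma conj (hζ : IsPrimitiveRoot ζ p) (h : IsRadicand H ζ χ u) (g₀ : GQ)
    (hn : ∀ k ∈ H, g₀⁻¹ * k * g₀ ∈ H) (a : ZMod p) (ha : g₀ ζ = ζ ^ a.val) :
    IsRadicand H ζ (fun k => a * χ (g₀⁻¹ * k * g₀)) (fixedRestrict H g₀ hn u) := by
  obtain ⟨y, hy, hg⟩ := h
  exact ⟨g₀ y, by rw [← map_pow, hy, coe_fixedRestrict], hg.conj hζ g₀ hn a ha⟩

/-- Conjugation equivariance, in the consumer shape: `g₀ u = u' * w ^ p`. -/
lemma conj_eq (hζ : IsPrimitiveRoot ζ p) (h : IsRadicand H ζ χ u) (h' : IsRadicand H ζ χ' u')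
    (g₀ : GQ) (hn : ∀ k ∈ H, g₀⁻¹ * k * g₀ ∈ H) (a : ZMod p) (ha : g₀ ζ = ζ ^ a.val)
    (hχ : ∀ k ∈ H, a * χ (g₀⁻¹ * k * g₀) = χ' k) :
    ∃ w : fixedK H, w ≠ 0 ∧ fixedRestrict H g₀ hn u = u' * w ^ p :=
  h'.eq_mul_pow ((h.conj hζ g₀ hn a ha).congr hχ)

/-- **Coboundary criterion**: the radicand is a `p`-th power in the fixed field iff the cocycle
is an `ω`-coboundary. -/
lemma isPow_iff (hζ : IsPrimitiveRoot ζ p) (ω : GQ → ZMod p)
    (hω : ∀ g ∈ H, g ζ = ζ ^ (ω g).val) (h : IsRadicand H ζ χ u) :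
    (∃ w : fixedK H, u = w ^ p) ↔ ∃ t : ZMod p, ∀ g ∈ H, χ g = (ω g - 1) * t := by
  obtain ⟨y, hy, hg⟩ := h
  rw [← hg.radicand_pow_iff hζ ω hω]
  constructor
  · rintro ⟨w, rfl⟩
    exact ⟨w, mem_fixedK.1 w.2, by rw [hy, SubmonoidClass.coe_pow]⟩
  · rintro ⟨w, hw, hyw⟩
    exact ⟨⟨w, mem_fixedK.2 hw⟩, Subtype.ext (by rw [← hy, hyw, SubmonoidClass.coe_pow])⟩

/-- Coboundary criterion when `H` fixes `ζ`: the radicand is a `p`-th power in the fixed field
iff the character vanishes on `H`. -/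
lemma isPow_iff_of_fixed (hζ : IsPrimitiveRoot ζ p) (hH : ∀ g ∈ H, g ζ = ζ)
    (h : IsRadicand H ζ χ u) : (∃ w : fixedK H, u = w ^ p) ↔ ∀ g ∈ H, χ g = 0 := by
  rw [h.isPow_iff hζ (fun _ => 1) (fun g hg => by rw [hH g hg, ZMod.val_one, pow_one])]
  constructor
  · rintro ⟨t, ht⟩ g hg
    rw [ht g hg, sub_self, zero_mul]
  · intro h0
    exact ⟨0, fun g hg => by rw [h0 g hg, mul_zero]⟩

end IsRadicand

/-- **Converse**: every nonzero element of the fixed field of `H` is the radicand of a level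
`ω`-cocycle on `H`. -/
theorem exists_cocycle_of_radicand (hζ : IsPrimitiveRoot ζ p) (ω : GQ → ZMod p)
    (hω : ∀ g ∈ H, g ζ = ζ ^ (ω g).val) (u : fixedK H) (hu : u ≠ 0) :
    ∃ χ : GQ → ZMod p, IsRadicand H ζ χ u ∧
      (∀ g ∈ H, ∀ h ∈ H, χ (g * h) = χ g + ω g * χ h) ∧ IsLevelOn H χ := by
  obtain ⟨y, hy⟩ := IsAlgClosed.exists_pow_nat_eq (u : Qb) (Fact.out : p.Prime).pos
  have hy0 : y ≠ 0 := by
    rintro rfl
    rw [zero_pow (Fact.out : p.Prime).ne_zero] at hy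
    exact hu (Subtype.ext hy.symm)
  obtain ⟨χ, hgen, hcoc, hlev⟩ := exists_kummerFun hζ ω hω hy0
    (fun g hg => by rw [hy]; exact mem_fixedK.1 u.2 g hg)
  exact ⟨χ, ⟨y, hy, hgen⟩, hcoc, hlev⟩

/-- **Radicand family** (one index): radicands for a family of level `ω`-cocycles. -/
theorem exists_radicandFamily (hζ : IsPrimitiveRoot ζ p) (ω : GQ → ZMod p)
    (hω : ∀ g ∈ H, g ζ = ζ ^ (ω g).val) {ι : Type*} (B : ι → GQ → ZMod p)
    (hB : ∀ i, ∀ g ∈ H, ∀ h ∈ H, B i (g * h) = B i g + ω g * B i h)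
    (hl : ∀ i, IsLevelOn H (B i)) :
    ∃ a : ι → fixedK H, ∀ i, IsRadicand H ζ (B i) (a i) := by
  have hex : ∀ i, ∃ u : fixedK H, IsRadicand H ζ (B i) u :=
    fun i => exists_isRadicand hζ ω (B i) hω (hB i) (hl i)
  choose a ha using hex
  exact ⟨a, ha⟩

/-- **Radicand family, bi-additive form** (`H` fixes `ζ`, so the cocycles are characters).
`B h l : H → ZMod p` a family of level characters, additive in `h` and in `l`.  Then there are
radicands `a h l` in the fixed field `K` of `H`, additive in both variables modulo `Kˣᵖ`,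
equivariant under every `g₀` normalising `H`, and `a h l ∈ Kˣᵖ` iff `B h l = 0` on `H`. -/
theorem exists_radicandFamily₂ (hζ : IsPrimitiveRoot ζ p) (hH : ∀ g ∈ H, g ζ = ζ)
    {A Λ : Type*} [AddCommGroup A] [AddCommGroup Λ] (B : A → Λ → GQ → ZMod p)
    (hhom : ∀ h l, ∀ g ∈ H, ∀ g' ∈ H, B h l (g * g') = B h l g + B h l g')
    (hlev : ∀ h l, IsLevelOn H (B h l))
    (haddA : ∀ h h' l, ∀ g ∈ H, B (h + h') l g = B h l g + B h' l g)
    (haddΛ : ∀ h l l', ∀ g ∈ H, B h (l + l') g = B h l g + B h l' g) :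
    ∃ a : A → Λ → fixedK H,
      (∀ h l, IsRadicand H ζ (B h l) (a h l)) ∧
      (∀ h l, a h l ≠ 0) ∧
      (∀ h h' l, ∃ w : fixedK H, w ≠ 0 ∧ a (h + h') l = a h l * a h' l * w ^ p) ∧
      (∀ h l l', ∃ w : fixedK H, w ≠ 0 ∧ a h (l + l') = a h l * a h l' * w ^ p) ∧
      (∀ h l, (∃ w : fixedK H, a h l = w ^ p) ↔ ∀ g ∈ H, B h l g = 0) ∧
      (∀ (g₀ : GQ) (hn : ∀ k ∈ H, g₀⁻¹ * k * g₀ ∈ H) (b : ZMod p), g₀ ζ = ζ ^ b.val →
        ∀ h l l', (∀ k ∈ H, b * B h l (g₀⁻¹ * k * g₀) = B h l' k) →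
          ∃ w : fixedK H, w ≠ 0 ∧ fixedRestrict H g₀ hn (a h l) = a h l' * w ^ p) := by
  have hω : ∀ g ∈ H, g ζ = ζ ^ ((fun _ : GQ => (1 : ZMod p)) g).val := fun g hg => by
    rw [hH g hg, ZMod.val_one, pow_one]
  obtain ⟨a, ha⟩ := exists_radicandFamily (H := H) hζ (fun _ => 1) hω
    (fun i : A × Λ => B i.1 i.2)
    (fun i g hg g' hg' => by rw [hhom i.1 i.2 g hg g' hg', one_mul]) (fun i => hlev i.1 i.2)
  refine ⟨fun h l => a (h, l), fun h l => ha (h, l), fun h l => (ha (h, l)).ne_zero,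
    fun h h' l => ?_, fun h l l' => ?_, fun h l => ?_, fun g₀ hn b hb h l l' hB => ?_⟩
  · exact (ha (h, l)).add_eq hζ (ha (h', l)) (ha (h + h', l)) (haddA h h' l)
  · exact (ha (h, l)).add_eq hζ (ha (h, l')) (ha (h, l + l')) (haddΛ h l l')
  · exact (ha (h, l)).isPow_iff_of_fixed hζ hH
  · exact (ha (h, l)).conj_eq hζ (ha (h, l')) g₀ hn b hb hB

end Kummer

end Fermat.Agent.S56.helper164
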