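/-
S56, FLAT-KUMDICT, second file (helper164): the Kummer dictionary at a place over `p`.

`A` a valuation subring of `ℚ̄` over `p`, `D := A.decompositionSubgroup ℚ`,
`I := A.inertiaSubgroupIn ℚ`, `H` a subgroup of `Gal(ℚ̄/ℚ)`, `K := fixedK H`.

* `valK A H`                       : the valuation of `A` on `K`; invariance under `D`, the
                                     Frobenius and inertia congruences for `fixedRestrict`.
* `IsRadicand.unramified_of_top`   : a radicand of top level has an unramified Kummer character.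
* `commutator_mem_inertia`         : `[D, D] ⊆ I`.
* `conj_eq_of_unramified`          : unramified characters of a subgroup normalised by `D` are
                                     invariant under conjugation by `D`.
* `exists_radicandFamily_cocycle`  : the radicand family of a family of cocycles on `D` with
                                     values in a module on which `N ⊴ D` acts trivially, with its
                                     equivariance under `D`.
-/
import Mathlib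
import Fermat.Agent.S56.helper164_KummerDict
import Fermat.Agent.S56.helper4188_UnitLevel
import Fermat.Agent.Lib.helper3858_ResidueQbar
import Fermat.Agent.S05.helper4205_Inertia

set_option autoImplicit false

namespace Fermat.Agent.S56.helper164

open IsLocalRing

/-! ### Cocycles with values in a module: conjugation and radicand families -/

section Cocycle

variable {p : ℕ} [Fact p.Prime] {ζ : Qb}

/-- Extension by zero of a function on a subgroup (adapter from subtype carriers). -/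
noncomputable def extendZero {X : Type*} [Zero X] (D : Subgroup GQ) (c : ↥D → X) : GQ → X :=
  fun g => by
    classical
    exact if h : g ∈ D then c ⟨g, h⟩ else 0

lemma extendZero_apply {X : Type*} [Zero X] {D : Subgroup GQ} (c : ↥D → X) {g : GQ} (hg : g ∈ D) :
    extendZero D c g = c ⟨g, hg⟩ := by
  unfold extendZero
  rw [dif_pos hg]

lemma extendZero_coe {X : Type*} [Zero X] {D : Subgroup GQ} (c : ↥D → X) (g : ↥D) :
    extendZero D c (g : GQ) = c g :=
  extendZero_apply c g.2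

/-- A level function on the subtype `↥D` (in the shape of `helper6044.IsLevD`) extends by zero to
a function which is level on `D`. -/
lemma isLevelOn_extendZero {X : Type*} [Zero X] {D : Subgroup GQ} (c : ↥D → X)
    (hc : ∃ F : IntermediateField ℚ Qb, FiniteDimensional ℚ F ∧
      ∀ g s : ↥D, (s : GQ) ∈ F.fixingSubgroup → c (g * s) = c g) :
    IsLevelOn D (extendZero D c) := by
  obtain ⟨F, hF, h⟩ := hc
  refine ⟨F, hF, fun g hg s hs hsF => ?_⟩
  rw [extendZero_apply c (D.mul_mem hg hs), extendZero_apply c hg]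
  exact h ⟨g, hg⟩ ⟨s, hs⟩ hsF

variable {M : Type*} [AddCommGroup M]

/-- A cocycle vanishes at `1`. -/
lemma cocycle_one {D : Subgroup GQ} (r : GQ → M →+ M) (c : GQ → M)
    (hc : ∀ g ∈ D, ∀ h ∈ D, c (g * h) = c g + r g (c h)) (hr1 : ∀ x, r 1 x = x) : c 1 = 0 := by
  have h := hc 1 D.one_mem 1 D.one_mem
  rw [mul_one, hr1] at h
  exact left_eq_add.1 h

/-- **Conjugation formula.**  If `N ≤ D` acts trivially on `M`, then for a cocycle `c` on `D`:
`c (g⁻¹ k g) = g⁻¹ • c k` for `g ∈ D`, `k ∈ N`. -/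
lemma cocycle_conj {D N : Subgroup GQ} (hND : N ≤ D) (r : GQ → M →+ M) (c : GQ → M)
    (hc : ∀ g ∈ D, ∀ h ∈ D, c (g * h) = c g + r g (c h)) (hrN : ∀ k ∈ N, ∀ x, r k x = x)
    {g : GQ} (hg : g ∈ D) {k : GQ} (hk : k ∈ N) : c (g⁻¹ * k * g) = r g⁻¹ (c k) := by
  have hg' : g⁻¹ ∈ D := D.inv_mem hg
  have hkD : k ∈ D := hND hk
  have h1 : c 1 = 0 := cocycle_one r c hc (hrN 1 N.one_mem)
  have h2 : c (g⁻¹ * g) = c g⁻¹ + r g⁻¹ (c g) := hc _ hg' _ hg
  rw [inv_mul_cancel, h1] at h2
  have h3 : c (g⁻¹ * k * g) = c g⁻¹ + r g⁻¹ (c (k * g)) := by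
    rw [mul_assoc]
    exact hc _ hg' _ (D.mul_mem hkD hg)
  have h4 : c (k * g) = c k + c g := by rw [hc k hkD g hg, hrN k hk]
  rw [h3, h4, map_add, add_comm (r g⁻¹ (c k)), ← add_assoc, ← h2, zero_add]

/-- The restriction of a cocycle to a subgroup acting trivially is additive. -/
lemma cocycle_add_of_trivial {D N : Subgroup GQ} (hND : N ≤ D) (r : GQ → M →+ M) (c : GQ → M)
    (hc : ∀ g ∈ D, ∀ h ∈ D, c (g * h) = c g + r g (c h)) (hrN : ∀ k ∈ N, ∀ x, r k x = x)
    {k k' : GQ} (hk : k ∈ N) (hk' : k' ∈ N) : c (k * k') = c k + c k' := by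
  rw [hc k (hND hk) k' (hND hk'), hrN k hk]

/-- **Radicand family of a family of cocycles (module form).**  `D` a subgroup, `N ≤ D`
normalised by `D`, fixing `ζ` and acting trivially on `M` (`r` is the action, only additivity
is used); `c z` (`z` in an additive group `Z`) level cocycles on `D`, additive in `z` on `N`.
Then there are radicands `a z lam` in the fixed field `K` of `N`, for `lam : M →+ ZMod p`,
additive in `z` and `lam` modulo `Kˣᵖ`, with `a z lam ∈ Kˣᵖ` iff `lam ∘ c z` vanishes on `N`, and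
equivariant: `g₀ (a z lam) = a z (ω g₀ • lam ∘ g₀⁻¹)` modulo `Kˣᵖ` for `g₀ ∈ D`. -/
theorem exists_radicandFamily_cocycle (hζ : IsPrimitiveRoot ζ p) {D N : Subgroup GQ}
    (hND : N ≤ D) (hnorm : ∀ g ∈ D, ∀ k ∈ N, g⁻¹ * k * g ∈ N)
    (ω : GQ → ZMod p) (hω : ∀ g ∈ D, g ζ = ζ ^ (ω g).val) (hNζ : ∀ k ∈ N, k ζ = ζ)
    (r : GQ → M →+ M) (hrN : ∀ k ∈ N, ∀ x, r k x = x)
    {Z : Type*} [AddCommGroup Z] (c : Z → GQ → M)
    (hc : ∀ z, ∀ g ∈ D, ∀ h ∈ D, c z (g * h) = c z g + r g (c z h))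
    (hl : ∀ z, IsLevelOn D (c z))
    (hadd : ∀ z z', ∀ k ∈ N, c (z + z') k = c z k + c z' k) :
    ∃ a : Z → (M →+ ZMod p) → fixedK N,
      (∀ z lam, IsRadicand N ζ (fun g => lam (c z g)) (a z lam)) ∧
      (∀ z lam, a z lam ≠ 0) ∧
      (∀ z z' lam, ∃ w : fixedK N, w ≠ 0 ∧ a (z + z') lam = a z lam * a z' lam * w ^ p) ∧
      (∀ z lam lam', ∃ w : fixedK N, w ≠ 0 ∧ a z (lam + lam') = a z lam * a z lam' * w ^ p) ∧
      (∀ z lam, (∃ w : fixedK N, a z lam = w ^ p) ↔ ∀ k ∈ N, lam (c z k) = 0) ∧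
      (∀ (g₀ : GQ) (hg₀ : g₀ ∈ D) (z : Z) (lam lam' : M →+ ZMod p),
        (∀ x, lam' x = ω g₀ * lam (r g₀⁻¹ x)) →
          ∃ w : fixedK N, w ≠ 0 ∧
            fixedRestrict N g₀ (hnorm g₀ hg₀) (a z lam) = a z lam' * w ^ p) := by
  obtain ⟨a, ha, ha0, haZ, haL, hapow, haconj⟩ :=
    exists_radicandFamily₂ (H := N) hζ hNζ (A := Z) (Λ := M →+ ZMod p)
      (fun z lam g => lam (c z g))
      (fun z lam g hg g' hg' => by
        show lam (c z (g * g')) = lam (c z g) + lam (c z g')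
        rw [cocycle_add_of_trivial hND r (c z) (hc z) hrN hg hg', map_add])
      (fun z lam => ((hl z).mono hND).comp lam)
      (fun z z' lam g hg => by
        show lam (c (z + z') g) = lam (c z g) + lam (c z' g)
        rw [hadd z z' g hg, map_add])
      (fun z lam lam' g _ => by
        show (lam + lam') (c z g) = lam (c z g) + lam' (c z g)
        rw [AddMonoidHom.add_apply])
  refine ⟨a, ha, ha0, haZ, haL, hapow, fun g₀ hg₀ z lam lam' hlam => ?_⟩
  refine haconj g₀ (hnorm g₀ hg₀) (ω g₀) (hω g₀ hg₀) z lam lam' fun k hk => ?_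
  show ω g₀ * lam (c z (g₀⁻¹ * k * g₀)) = lam' (c z k)
  rw [cocycle_conj hND r (c z) (hc z) hrN hg₀ hk, hlam]

/-- Additive functionals `M →+ ZMod p` separate the points of a `ZMod p`-module. -/
lemma eq_zero_of_forall_addHom [Module (ZMod p) M] (x : M)
    (h : ∀ lam : M →+ ZMod p, lam x = 0) : x = 0 :=
  (Module.forall_dual_apply_eq_zero_iff (ZMod p) x).1 fun f => h f.toAddMonoidHom

end Cocycle

/-! ### The valuation on the fixed field -/

section Local

variable {p : ℕ} [Fact p.Prime] (A : ValuationSubring Qb)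

/-- The valuation of `A` restricted to the fixed field of `H`. -/
noncomputable def valK (H : Subgroup GQ) : Valuation (fixedK H) A.ValueGroup :=
  A.valuation.comap (algebraMap (fixedK H) Qb)

lemma valK_apply (H : Subgroup GQ) (x : fixedK H) : valK A H x = A.valuation (x : Qb) := rfl

/-- Elements of the decomposition group preserve the valuation of the fixed field. -/
lemma valK_fixedRestrict {H : Subgroup GQ} {g₀ : GQ} (hg₀ : g₀ ∈ A.decompositionSubgroup ℚ)
    (hn : ∀ k ∈ H, g₀⁻¹ * k * g₀ ∈ H) (x : fixedK H) :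
    valK A H (fixedRestrict H g₀ hn x) = valK A H x := by
  haveI : Algebra.IsAlgebraic ℚ Qb := AlgebraicClosure.isAlgebraic ℚ
  exact Fermat.Agent.S05.helper4205.valuation_apply_of_mem_decomposition hg₀ (x : Qb)

/-- A Frobenius element acts as the `p`-th power on the residues of the fixed field. -/
lemma valK_frobenius {H : Subgroup GQ} {φ : GQ} (hφ : A.IsFrobeniusAt φ p)
    (hn : ∀ k ∈ H, φ⁻¹ * k * φ ∈ H) (x : fixedK H) (hx : valK A H x ≤ 1) :
    valK A H (fixedRestrict H φ hn x - x ^ p) < 1 := by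
  have hxA : (x : Qb) ∈ A := (A.valuation_le_one_iff _).1 hx
  exact A.mem_nonunits_iff.1
    (Fermat.Agent.Lib.helper3858.apply_sub_pow_mem_nonunits_of_isFrobeniusAt hφ hxA)

/-- Inertia acts trivially on the residues of the fixed field. -/
lemma valK_inertia {H : Subgroup GQ} {σ : GQ} (hσ : σ ∈ A.inertiaSubgroupIn ℚ)
    (hn : ∀ k ∈ H, σ⁻¹ * k * σ ∈ H) (x : fixedK H) (hx : valK A H x ≤ 1) :
    valK A H (fixedRestrict H σ hn x - x) < 1 := by
  have hxA : (x : Qb) ∈ A := (A.valuation_le_one_iff _).1 hx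
  exact A.mem_nonunits_iff.1 (Fermat.Agent.S05.helper4205.apply_sub_mem_nonunits hσ hxA)

/-- `p`-th roots of unity are congruent to `1` at a place over `p`. -/
lemma valuation_root_sub_one_lt_one (hA : A.LiesOverPrime p) {ξ : Qb} (hξ : ξ ^ p = 1) :
    A.valuation (ξ - 1) < 1 := by
  have hp : p.Prime := Fact.out
  haveI : CharP (ResidueField A) p := Fermat.Agent.Lib.helper3858.charP_residueField A hp hA
  have hξA : ξ ∈ A := by
    rw [← A.valuation_le_one_iff]
    have h1 : A.valuation ξ ^ p = 1 := by rw [← map_pow, hξ, map_one]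
    exact le_of_eq ((pow_eq_one_iff_of_nonneg zero_le hp.ne_zero).1 h1)
  have h2 : (residue A ⟨ξ, hξA⟩ - 1) ^ p = 0 := by
    rw [sub_pow_char, one_pow, ← map_pow]
    have : (⟨ξ, hξA⟩ : A) ^ p = 1 := Subtype.ext hξ
    rw [this, map_one, sub_self]
  have h3 : residue A (⟨ξ, hξA⟩ - 1) = 0 := by
    rw [map_sub, map_one]
    exact pow_eq_zero_iff hp.ne_zero |>.1 h2
  rw [residue_eq_zero_iff, A.valuation_lt_one_iff] at h3
  exact h3

/-! ### Top level implies unramified -/

/-- **Top level ⟹ unramified.**  If a radicand `u` of `χ` on `H` is congruent to `1` modulo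
`(ζ - 1) ^ p` up to a `p`-th power of the fixed field, then `χ` vanishes on `H ∩ I`. -/
theorem IsRadicand.unramified_of_top (hA : A.LiesOverPrime p) {H : Subgroup GQ} {ζ : Qb}
    (hζ : IsPrimitiveRoot ζ p) (hH : ∀ g ∈ H, g ζ = ζ) {χ : GQ → ZMod p} {u : fixedK H}
    (h : IsRadicand H ζ χ u)
    (htop : ∃ w : fixedK H, w ≠ 0 ∧ valK A H (u * w ^ p - 1) ≤ A.valuation (ζ - 1) ^ p)
    {σ : GQ} (hσH : σ ∈ H) (hσI : σ ∈ A.inertiaSubgroupIn ℚ) : χ σ = 0 := by
  have hp : p.Prime := Fact.out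
  obtain ⟨y, hy, hg⟩ := h
  obtain ⟨w, hw0, hw⟩ := htop
  have hw0' : (w : Qb) ≠ 0 := fun h0 => hw0 (Subtype.ext h0)
  have hlam := valuation_root_sub_one_lt_one A hA hζ.pow_eq_one
  have hσw : σ (w : Qb) = w := mem_fixedK.1 w.2 σ hσH
  have hσu : σ (u : Qb) = u := mem_fixedK.1 u.2 σ hσH
  have e1 : (y * (w : Qb)) ^ p = (u : Qb) * (w : Qb) ^ p := by rw [mul_pow, hy]
  have hz : A.valuation ((y * (w : Qb)) ^ p - 1) ≤ A.valuation (ζ - 1) ^ p := by
    rw [e1]
    exact hw
  have hfix : (σ : Qb →+* Qb) (y * (w : Qb)) = y * (w : Qb) :=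
    Fermat.Agent.S56.helper4188.fixed_of_top_level A.valuation hp hζ hlam hz (σ : Qb →+* Qb)
      (hH σ hσH)
      (by
        show σ ((y * (w : Qb)) ^ p) = (y * (w : Qb)) ^ p
        rw [e1, map_mul, map_pow, hσu, hσw])
      (fun x hx => A.mem_nonunits_iff.1
        (Fermat.Agent.S05.helper4205.apply_sub_mem_nonunits hσI ((A.valuation_le_one_iff _).1 hx)))
  have hfix' : σ (y * (w : Qb)) = y * (w : Qb) := hfix
  rw [map_mul, hσw] at hfix'
  have hσy : σ y = y := mul_right_cancel₀ hw0' hfix'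
  have e := hg.2 σ hσH
  rw [hσy] at e
  have e2 : ζ ^ (χ σ).val = ζ ^ (0 : ZMod p).val := by
    rw [zpowv_zero]
    exact (mul_right_cancel₀ hg.1 (by rw [one_mul]; exact e)).symm
  exact zpowv_injective hζ e2

/-- Top level ⟹ unramified, in the `LevelGE` vocabulary of `helper4188_UnitLevel`. -/
theorem IsRadicand.unramified_of_levelGE (hA : A.LiesOverPrime p) {H : Subgroup GQ} {ζ : Qb}
    (hζ : IsPrimitiveRoot ζ p) (hH : ∀ g ∈ H, g ζ = ζ) {χ : GQ → ZMod p} {u : fixedK H}
    (h : IsRadicand H ζ χ u) {π : fixedK H} {m : ℕ}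
    (hlev : Fermat.Agent.S56.helper4188.LevelGE (valK A H) π p m u)
    (hm : valK A H π ^ m ≤ A.valuation (ζ - 1) ^ p)
    {σ : GQ} (hσH : σ ∈ H) (hσI : σ ∈ A.inertiaSubgroupIn ℚ) : χ σ = 0 := by
  obtain ⟨w, hw0, hw⟩ := hlev
  exact h.unramified_of_top A hA hζ hH ⟨w, hw0, hw.trans hm⟩ hσH hσI

/-! ### `D / I` is abelian -/

/-- Every element of the decomposition group acts on each residue as a power of the Frobenius. -/
theorem exists_smul_residue_eq_pow (hA : A.LiesOverPrime p) {τ : GQ}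
    (hτ : τ ∈ A.decompositionSubgroup ℚ) (x : ResidueField A) :
    ∃ n : ℕ, (⟨τ, hτ⟩ : A.decompositionSubgroup ℚ) • x = x ^ (p ^ n) := by
  classical
  have hp : p.Prime := Fact.out
  haveI : Algebra.IsAlgebraic ℚ Qb := AlgebraicClosure.isAlgebraic ℚ
  haveI : CharP (ResidueField A) p := Fermat.Agent.Lib.helper3858.charP_residueField A hp hA
  letI : Algebra (ZMod p) (ResidueField A) := ZMod.algebra _ p
  haveI : Algebra.IsAlgebraic (ZMod p) (ResidueField A) :=
    Fermat.Agent.Lib.helper3858.isAlgebraic_residueField A hp hA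
  let k₀ : IntermediateField (ZMod p) (ResidueField A) := IntermediateField.adjoin (ZMod p) {x}
  haveI : FiniteDimensional (ZMod p) k₀ :=
    IntermediateField.adjoin.finiteDimensional (Algebra.IsIntegral.isIntegral x)
  haveI : Finite k₀ := Module.finite_of_finite (ZMod p)
  let τr : ResidueField A ≃+* ResidueField A :=
    MulSemiringAction.toRingAut (A.decompositionSubgroup ℚ) (ResidueField A) ⟨τ, hτ⟩
  let τa : ResidueField A ≃ₐ[ZMod p] ResidueField A := AlgEquiv.ofRingEquiv (f := τr) (by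
    intro c
    obtain ⟨m, rfl⟩ := ZMod.natCast_zmod_surjective c
    rw [map_natCast, map_natCast])
  obtain ⟨i, hi⟩ := (FiniteField.bijective_frobeniusAlgEquivOfAlgebraic_pow (ZMod p) k₀).2
    (τa.restrictNormal k₀)
  refine ⟨i.1, ?_⟩
  have hmem : x ∈ k₀ := IntermediateField.mem_adjoin_simple_self _ x
  have h1 := AlgEquiv.restrictNormal_commutes τa k₀ ⟨x, hmem⟩
  rw [← hi] at h1
  have h3 : (FiniteField.frobeniusAlgEquivOfAlgebraic (ZMod p) k₀ ^ i.1)
      (⟨x, hmem⟩ : k₀) = (⟨x, hmem⟩ : k₀) ^ (p ^ i.1) := by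
    rw [AlgEquiv.coe_pow, FiniteField.coe_frobeniusAlgEquivOfAlgebraic_iterate, ZMod.card]
  have h4 : τa x = algebraMap k₀ (ResidueField A)
      ((FiniteField.frobeniusAlgEquivOfAlgebraic (ZMod p) k₀ ^ i.1) ⟨x, hmem⟩) := h1.symm
  show τa x = x ^ (p ^ i.1)
  rw [h4, h3]
  rfl

/-- **`[D, D] ⊆ I`**: commutators of the decomposition group lie in the inertia group. -/
theorem commutator_mem_inertia (hA : A.LiesOverPrime p) {g k : GQ}
    (hg : g ∈ A.decompositionSubgroup ℚ) (hk : k ∈ A.decompositionSubgroup ℚ) :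
    g * k * g⁻¹ * k⁻¹ ∈ A.inertiaSubgroupIn ℚ := by
  have hcomm : ∀ x : ResidueField A,
      (⟨g, hg⟩ : A.decompositionSubgroup ℚ) • ((⟨k, hk⟩ : A.decompositionSubgroup ℚ) • x) =
        (⟨k, hk⟩ : A.decompositionSubgroup ℚ) • ((⟨g, hg⟩ : A.decompositionSubgroup ℚ) • x) := by
    intro x
    obtain ⟨i, hi⟩ := exists_smul_residue_eq_pow A hA hg x
    obtain ⟨j, hj⟩ := exists_smul_residue_eq_pow A hA hk x
    rw [hj, hi, smul_pow', smul_pow', hi, hj, ← pow_mul, ← pow_mul, mul_comm]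
  set dg : A.decompositionSubgroup ℚ := ⟨g, hg⟩ with hdg
  set dk : A.decompositionSubgroup ℚ := ⟨k, hk⟩ with hdk
  have hmemD : g * k * g⁻¹ * k⁻¹ ∈ A.decompositionSubgroup ℚ :=
    (dg * dk * dg⁻¹ * dk⁻¹).2
  rw [Fermat.Agent.S05.helper4205.mem_inertiaSubgroupIn_iff]
  refine ⟨hmemD, ?_⟩
  have hd : (⟨g * k * g⁻¹ * k⁻¹, hmemD⟩ : A.decompositionSubgroup ℚ) = dg * dk * dg⁻¹ * dk⁻¹ :=
    Subtype.ext rfl
  rw [hd]
  show MulSemiringAction.toRingAut (A.decompositionSubgroup ℚ) (ResidueField A)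
    (dg * dk * dg⁻¹ * dk⁻¹) = 1
  apply RingEquiv.ext
  intro x
  show (dg * dk * dg⁻¹ * dk⁻¹) • x = x
  have hx : x = dk • (dg • (dg⁻¹ • (dk⁻¹ • x))) := by
    rw [smul_inv_smul, smul_inv_smul]
  rw [mul_smul, mul_smul, mul_smul, hcomm]
  exact hx.symm

/-! ### Unramified characters are conjugation invariant -/

/-- **Unramified ⟹ conjugation invariant.**  `N` a subgroup of the decomposition group,
`χ` additive on `N` and vanishing on `N ∩ I`.  Then `χ (g⁻¹ k g) = χ k` for every `g` in the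
decomposition group normalising `N` and every `k ∈ N`. -/
theorem conj_eq_of_unramified (hA : A.LiesOverPrime p) {N : Subgroup GQ}
    (hND : N ≤ A.decompositionSubgroup ℚ) {X : Type*} [AddCommGroup X] (χ : GQ → X)
    (hχ : ∀ g ∈ N, ∀ h ∈ N, χ (g * h) = χ g + χ h)
    (hunr : ∀ σ ∈ N, σ ∈ A.inertiaSubgroupIn ℚ → χ σ = 0)
    {g : GQ} (hg : g ∈ A.decompositionSubgroup ℚ) (hn : ∀ k ∈ N, g⁻¹ * k * g ∈ N)
    {k : GQ} (hk : k ∈ N) : χ (g⁻¹ * k * g) = χ k := by
  have hc : g⁻¹ * k * g * k⁻¹ ∈ A.inertiaSubgroupIn ℚ := by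
    have h := commutator_mem_inertia A hA (inv_mem hg) (hND hk)
    rwa [inv_inv] at h
  have hcN : g⁻¹ * k * g * k⁻¹ ∈ N := N.mul_mem (hn k hk) (N.inv_mem hk)
  have h0 := hunr _ hcN hc
  have e : g⁻¹ * k * g = (g⁻¹ * k * g * k⁻¹) * k := by group
  rw [e, hχ _ hcN _ hk, h0, zero_add]

/-- Radicand form: the radicand of an unramified character is, modulo `p`-th powers, an
eigenvector of every element of the decomposition group normalising `N`:
`g₀ u = u ^ b * w ^ p` where `g₀ ζ = ζ ^ b`. -/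
theorem IsRadicand.conj_eq_of_unramified (hA : A.LiesOverPrime p) {N : Subgroup GQ} {ζ : Qb}
    (hζ : IsPrimitiveRoot ζ p) (hND : N ≤ A.decompositionSubgroup ℚ) {χ : GQ → ZMod p}
    {u : fixedK N} (h : IsRadicand N ζ χ u)
    (hχ : ∀ g ∈ N, ∀ h ∈ N, χ (g * h) = χ g + χ h)
    (hunr : ∀ σ ∈ N, σ ∈ A.inertiaSubgroupIn ℚ → χ σ = 0)
    {g₀ : GQ} (hg₀ : g₀ ∈ A.decompositionSubgroup ℚ) (hn : ∀ k ∈ N, g₀⁻¹ * k * g₀ ∈ N)
    (b : ZMod p) (hb : g₀ ζ = ζ ^ b.val) :
    ∃ w : fixedK N, w ≠ 0 ∧ fixedRestrict N g₀ hn u = u ^ b.val * w ^ p :=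
  h.conj_eq hζ (h.smul hζ b) g₀ hn b hb fun k hk => by
    show b * χ (g₀⁻¹ * k * g₀) = b * χ k
    rw [Fermat.Agent.S56.helper164.conj_eq_of_unramified A hA hND χ hχ hunr hg₀ hn hk]

end Local

end Fermat.Agent.S56.helper164
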