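/-
S56 FLAT-LOCAL, module N2-COUNT core (helper4188): the level count for families of Kummer
generators over a tame field, on top of the LEVEL module `helper4188_UnitLevel`.  Mathlib only.

Carrier: a field `K` with a valuation `v`, a uniformizer `π` (`IsUnif v π`), a primitive `p`-th
root of unity `ζ`, a tame endomorphism `t` (`t π = π * c`), a Frobenius-type endomorphism `φ`,
and families `U : Λ → K` of Kummer generators indexed by an abelian group `Λ` (the dual of the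
coefficient module), with `t (U ν) ≡ U (τ ν) ^ j` and `φ (U ν) ≡ U (φΛ ν) ^ jφ` modulo `p`-th
powers.
-/
import Mathlib
import Fermat.Agent.S56.helper4188_UnitLevel

set_option autoImplicit false

namespace Fermat.Agent.S56.helper4188

open Finset

variable {K : Type*} [Field K] {Γ₀ : Type*} [LinearOrderedCommGroupWithZero Γ₀]

/-! ### Equality modulo `p`-th powers -/

/-- `u` and `u'` differ by a nonzero `p`-th power. -/
def PEq (p : ℕ) (u u' : K) : Prop := ∃ x : K, x ≠ 0 ∧ u = u' * x ^ p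

namespace PEq

variable {p : ℕ} {u u' u'' w w' : K}

theorem refl (u : K) : PEq p u u := ⟨1, one_ne_zero, by simp⟩

theorem symm (h : PEq p u u') : PEq p u' u := by
  obtain ⟨x, hx, rfl⟩ := h
  exact ⟨x⁻¹, inv_ne_zero hx, by
    rw [inv_pow, mul_assoc, mul_inv_cancel₀ (pow_ne_zero p hx), mul_one]⟩

theorem trans (h : PEq p u u') (h' : PEq p u' u'') : PEq p u u'' := by
  obtain ⟨x, hx, rfl⟩ := h
  obtain ⟨y, hy, rfl⟩ := h'
  exact ⟨y * x, mul_ne_zero hy hx, by rw [mul_pow, mul_assoc]⟩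

theorem mul (h : PEq p u u') (h' : PEq p w w') : PEq p (u * w) (u' * w') := by
  obtain ⟨x, hx, rfl⟩ := h
  obtain ⟨y, hy, rfl⟩ := h'
  exact ⟨x * y, mul_ne_zero hx hy, by rw [mul_pow]; ring⟩

theorem pow (h : PEq p u u') (n : ℕ) : PEq p (u ^ n) (u' ^ n) := by
  obtain ⟨x, hx, rfl⟩ := h
  exact ⟨x ^ n, pow_ne_zero n hx, by rw [mul_pow, ← pow_mul, ← pow_mul, mul_comm p n]⟩

theorem inv (h : PEq p u u') : PEq p u⁻¹ u'⁻¹ := by
  obtain ⟨x, hx, rfl⟩ := h
  exact ⟨x⁻¹, inv_ne_zero hx, by rw [mul_inv, inv_pow]⟩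

theorem zpow (h : PEq p u u') (n : ℤ) : PEq p (u ^ n) (u' ^ n) := by
  obtain ⟨x, hx, rfl⟩ := h
  refine ⟨x ^ n, zpow_ne_zero n hx, ?_⟩
  rw [mul_zpow, ← zpow_natCast (x ^ n) p, ← zpow_mul, ← zpow_natCast x p, ← zpow_mul, mul_comm n]

theorem map (g : K →+* K) (h : PEq p u u') : PEq p (g u) (g u') := by
  obtain ⟨x, hx, rfl⟩ := h
  exact ⟨g x, (map_ne_zero g).2 hx, by rw [map_mul, map_pow]⟩

theorem pow_self {x : K} (hx : x ≠ 0) : PEq p (x ^ p) 1 := ⟨x, hx, by rw [one_mul]⟩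

theorem ne_zero (h : PEq p u u') (hu' : u' ≠ 0) : u ≠ 0 := by
  obtain ⟨x, hx, rfl⟩ := h
  exact mul_ne_zero hu' (pow_ne_zero p hx)

/-- Cancelling an exponent prime to `p`. -/
theorem of_zpow_coprime (hu : u ≠ 0) (hu' : u' ≠ 0) {n : ℤ} (hn : IsCoprime n (p : ℤ))
    (h : PEq p (u ^ n) (u' ^ n)) : PEq p u u' := by
  obtain ⟨a, b, hab⟩ := hn
  have e : ∀ w : K, w ≠ 0 → PEq p w ((w ^ n) ^ a) := by
    intro w hw
    refine ⟨w ^ b, zpow_ne_zero b hw, ?_⟩
    rw [← zpow_mul, ← zpow_natCast (w ^ b) p, ← zpow_mul, ← zpow_add₀ hw]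
    have e1 : n * a + b * (p : ℤ) = 1 := by rw [← hab]; ring
    rw [e1, zpow_one]
  exact (e u hu).trans ((h.zpow a).trans (e u' hu').symm)

/-- Cancelling a natural exponent prime to `p`. -/
theorem of_pow_coprime (hu : u ≠ 0) (hu' : u' ≠ 0) {n : ℕ} (hn : Nat.Coprime n p)
    (h : PEq p (u ^ n) (u' ^ n)) : PEq p u u' := by
  apply of_zpow_coprime hu hu' (n := (n : ℤ)) (Nat.isCoprime_iff_coprime.2 hn)
  rwa [zpow_natCast, zpow_natCast]

/-- Cancelling a common nonzero factor. -/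
theorem of_mul_right (hw : w ≠ 0) (h : PEq p (u * w) (u' * w)) : PEq p u u' := by
  obtain ⟨x, hx, h⟩ := h
  refine ⟨x, hx, ?_⟩
  apply mul_right_cancel₀ hw
  rw [h]; ring

end PEq

section Transfer

variable {v : Valuation K Γ₀} {π : K} {p m : ℕ} {u u' a : K}

theorem Lead.peq (h : Lead v π p m u a) (hu : PEq p u' u) : Lead v π p m u' a := by
  obtain ⟨ha, w, hw, h⟩ := h
  obtain ⟨x, hx, rfl⟩ := hu
  refine ⟨ha, x⁻¹ * w, mul_ne_zero (inv_ne_zero hx) hw, ?_⟩
  have e : u * x ^ p * (x⁻¹ * w) ^ p = u * w ^ p := by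
    rw [mul_pow, inv_pow]; field_simp
  rw [e]; exact h

theorem LevelGE.peq (h : LevelGE v π p m u) (hu : PEq p u' u) : LevelGE v π p m u' := by
  obtain ⟨x, hx, rfl⟩ := hu
  exact h.mul_pow_self hx

end Transfer

/-! ### Integers and the residue characteristic -/

theorem val_natCast_le_one (v : Valuation K Γ₀) (n : ℕ) : v (n : K) ≤ 1 := by
  induction n with
  | zero => rw [Nat.cast_zero, v.map_zero]; exact zero_le
  | succ n ih => rw [Nat.cast_succ]; exact v.map_add_le ih (le_of_eq v.map_one)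

theorem val_intCast_le_one (v : Valuation K Γ₀) (n : ℤ) : v (n : K) ≤ 1 := by
  cases n with
  | ofNat n => simpa using val_natCast_le_one v n
  | negSucc n =>
    rw [Int.cast_negSucc, v.map_neg]; exact val_natCast_le_one v (n + 1)

theorem val_prime_lt_one (v : Valuation K Γ₀) {p : ℕ} (hp : p.Prime) {ζ : K}
    (hζ : IsPrimitiveRoot ζ p) (hlam : v (ζ - 1) < 1) : v (p : K) < 1 := by
  have hsum : ∑ i ∈ range p, ζ ^ i = 0 := hζ.geom_sum_eq_zero hp.one_lt
  have e : (p : K) = -∑ i ∈ range p, (ζ ^ i - 1) := by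
    rw [Finset.sum_sub_distrib, hsum]; simp
  rw [e, v.map_neg]
  refine lt_of_le_of_lt ?_ hlam
  apply v.map_sum_le
  intro i _
  exact val_pow_sub_one_le v (val_eq_one_of_pow_eq_one v hp.ne_zero hζ.pow_eq_one) i

theorem not_dvd_of_val_natCast_eq_one (v : Valuation K Γ₀) {p : ℕ} (hpv : v (p : K) < 1) {n : ℕ}
    (h : v (n : K) = 1) : ¬ p ∣ n := by
  rintro ⟨k, rfl⟩
  rw [Nat.cast_mul, v.map_mul] at h
  have h2 : v (p : K) * v (k : K) < 1 :=
    calc v (p : K) * v (k : K) ≤ v (p : K) * 1 := by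
          gcongr
          exact val_natCast_le_one v k
      _ = v (p : K) := mul_one _
      _ < 1 := hpv
  exact absurd h (ne_of_lt h2)

theorem not_dvd_of_val_intCast_eq_one (v : Valuation K Γ₀) {p : ℕ} (hpv : v (p : K) < 1) {n : ℤ}
    (h : v (n : K) = 1) : ¬ (p : ℤ) ∣ n := by
  rintro ⟨k, rfl⟩
  rw [Int.cast_mul, v.map_mul, Int.cast_natCast] at h
  have h2 : v (p : K) * v (k : K) < 1 :=
    calc v (p : K) * v (k : K) ≤ v (p : K) * 1 := by
          gcongr
          exact val_intCast_le_one v k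
      _ = v (p : K) := mul_one _
      _ < 1 := hpv
  exact absurd h (ne_of_lt h2)

/-- **The cyclotomic character of a tame endomorphism**: if `v (ζ - 1) = v π ^ e₁`,
`t π = π * c` and `t ζ = ζ ^ j`, then `j ≡ c ^ e₁` in the residue field. -/
theorem val_natCast_sub_pow_lt (v : Valuation K Γ₀) {p : ℕ} (hp : p.Prime) {ζ π : K}
    (hζ : IsPrimitiveRoot ζ p) (hπ : IsUnif v π) {e₁ : ℕ} (hlam : v (ζ - 1) = v π ^ e₁)
    (hlam1 : v (ζ - 1) < 1) (t : K →+* K) (ht : ∀ x, v (t x) = v x)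
    (htame : ∀ x, v x ≤ 1 → v (t x - x) < 1) {c : K} (hc : t π = π * c) {j : ℕ}
    (hj : t ζ = ζ ^ j) : v ((j : K) - c ^ e₁) < 1 := by
  have hπe : π ^ e₁ ≠ 0 := pow_ne_zero e₁ hπ.ne_zero
  have hvc : v c = 1 := by
    have h1 := ht π
    rw [hc, v.map_mul] at h1
    have h2 : v π * v c = v π * 1 := by rw [h1, mul_one]
    exact mul_left_cancel₀ hπ.val_ne_zero h2
  obtain ⟨η, hη⟩ : ∃ η : K, η = (ζ - 1) / π ^ e₁ := ⟨_, rfl⟩
  have hvη : v η = 1 := by
    rw [hη, v.map_div, v.map_pow, hlam]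
    exact div_self (pow_ne_zero e₁ hπ.val_ne_zero)
  have e : ζ - 1 = η * π ^ e₁ := by rw [hη]; field_simp
  have h1 : t η * c ^ e₁ = η * ∑ i ∈ range j, ζ ^ i := by
    have h2 : t (ζ - 1) = ζ ^ j - 1 := by rw [map_sub, map_one, hj]
    have h3 : t (ζ - 1) = t η * (π ^ e₁ * c ^ e₁) := by
      rw [e, map_mul, map_pow, hc, mul_pow]
    have h4 : ζ ^ j - 1 = η * π ^ e₁ * ∑ i ∈ range j, ζ ^ i := by
      rw [← e, mul_geom_sum]
    apply mul_right_cancel₀ hπe
    linear_combination -h3 + h2 + h4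
  have h5 : ((j : K) - c ^ e₁) * η =
      (t η - η) * c ^ e₁ - η * ∑ i ∈ range j, (ζ ^ i - 1) := by
    rw [Finset.sum_sub_distrib]
    simp only [Finset.sum_const, Finset.card_range, nsmul_eq_mul, mul_one]
    linear_combination -h1
  have h6 : v (((j : K) - c ^ e₁) * η) < 1 := by
    rw [h5]
    apply v.map_sub_lt
    · rw [v.map_mul, v.map_pow, hvc, one_pow, mul_one]
      exact htame η (le_of_eq hvη)
    · rw [v.map_mul, hvη, one_mul]
      refine lt_of_le_of_lt ?_ hlam1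
      apply v.map_sum_le
      intro i _
      exact val_pow_sub_one_le v (val_eq_one_of_pow_eq_one v hp.ne_zero hζ.pow_eq_one) i
  rwa [v.map_mul, hvη, mul_one] at h6

/-! ### Families of Kummer generators -/

section Family

variable {Λ : Type*} [AddCommGroup Λ]

/-- A family `U : Λ → K` of Kummer generators, additive modulo `p`-th powers and equivariant
for a ring endomorphism `t` of `K`: `t (U ν) ≡ U (τ ν) ^ j` modulo `p`-th powers. -/
structure IsFamily (p : ℕ) (t : K →+* K) (τ : Λ →+ Λ) (j : ℕ) (U : Λ → K) : Prop where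
  ne_zero : ∀ ν, U ν ≠ 0
  add : ∀ ν ν', PEq p (U (ν + ν')) (U ν * U ν')
  equiv : ∀ ν, PEq p (t (U ν)) (U (τ ν) ^ j)

namespace IsFamily

variable {p j : ℕ} {t : K →+* K} {τ : Λ →+ Λ} {U U' : Λ → K}

theorem zero (hU : IsFamily p t τ j U) : PEq p (U 0) 1 := by
  have h := hU.add 0 0
  rw [add_zero] at h
  have h2 : PEq p (1 * U 0) (U 0 * U 0) := by rwa [one_mul]
  exact (PEq.of_mul_right (hU.ne_zero 0) h2).symm

theorem nsmul (hU : IsFamily p t τ j U) (n : ℕ) (ν : Λ) : PEq p (U (n • ν)) (U ν ^ n) := by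
  induction n with
  | zero => rw [zero_smul, pow_zero]; exact hU.zero
  | succ n ih =>
    rw [succ_nsmul, pow_succ]
    exact (hU.add _ _).trans (ih.mul (PEq.refl _))

theorem neg (hU : IsFamily p t τ j U) (ν : Λ) : PEq p (U (-ν)) (U ν)⁻¹ := by
  have h := hU.add (-ν) ν
  rw [neg_add_cancel] at h
  have h2 : PEq p (U (-ν) * U ν) ((U ν)⁻¹ * U ν) := by
    rw [inv_mul_cancel₀ (hU.ne_zero ν)]
    exact h.symm.trans hU.zero
  exact PEq.of_mul_right (hU.ne_zero ν) h2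

theorem zsmul (hU : IsFamily p t τ j U) (n : ℤ) (ν : Λ) : PEq p (U (n • ν)) (U ν ^ n) := by
  cases n with
  | ofNat n =>
    rw [Int.ofNat_eq_natCast, natCast_zsmul, zpow_natCast]; exact hU.nsmul n ν
  | negSucc n =>
    rw [negSucc_zsmul, zpow_negSucc]
    exact (hU.neg _).trans (hU.nsmul (n + 1) ν).inv

theorem one (p j : ℕ) (t : K →+* K) (τ : Λ →+ Λ) : IsFamily p t τ j (fun _ : Λ => (1 : K)) where
  ne_zero _ := one_ne_zero
  add _ _ := by rw [mul_one]; exact PEq.refl _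
  equiv _ := by rw [map_one, one_pow]; exact PEq.refl _

theorem mul (hU : IsFamily p t τ j U) (hU' : IsFamily p t τ j U') :
    IsFamily p t τ j (fun ν => U ν * U' ν) where
  ne_zero ν := mul_ne_zero (hU.ne_zero ν) (hU'.ne_zero ν)
  add ν ν' := by
    have h := (hU.add ν ν').mul (hU'.add ν ν')
    have e : U ν * U ν' * (U' ν * U' ν') = U ν * U' ν * (U ν' * U' ν') := by ring
    rwa [e] at h
  equiv ν := by
    have h := (hU.equiv ν).mul (hU'.equiv ν)
    rwa [← map_mul, ← mul_pow] at h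

theorem pow (hU : IsFamily p t τ j U) (n : ℕ) : IsFamily p t τ j (fun ν => U ν ^ n) where
  ne_zero ν := pow_ne_zero n (hU.ne_zero ν)
  add ν ν' := by
    have h := (hU.add ν ν').pow n
    rwa [mul_pow] at h
  equiv ν := by
    have h := (hU.equiv ν).pow n
    rwa [← map_pow, pow_right_comm] at h

theorem prod {ι : Type*} (s : Finset ι) {V : ι → Λ → K} (n : ι → ℕ)
    (hV : ∀ i ∈ s, IsFamily p t τ j (V i)) :
    IsFamily p t τ j (fun ν => ∏ i ∈ s, V i ν ^ n i) := by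
  classical
  induction s using Finset.induction_on with
  | empty => simpa using IsFamily.one p j t τ
  | insert a s ha ih =>
    have h1 := (hV a (Finset.mem_insert_self a s)).pow (n a)
    have h2 := ih (fun i hi => hV i (Finset.mem_insert_of_mem hi))
    have h3 := h1.mul h2
    have e : (fun ν => ∏ i ∈ insert a s, V i ν ^ n i) =
        fun ν => V a ν ^ n a * ∏ i ∈ s, V i ν ^ n i := by
      funext ν; rw [Finset.prod_insert ha]
    rw [e]; exact h3

/-- The three-term relation: if `τ ∘ τ + 1 = τ₀ • τ` then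
`t (t u) * u ^ (j ^ 2) ≡ t u ^ (τ₀ * j)` for `u = U ν`. -/
theorem three_term (hU : IsFamily p t τ j U) {τ₀ : ℕ} (hτ : ∀ ν, τ (τ ν) + ν = τ₀ • τ ν)
    (ν : Λ) : PEq p (t (t (U ν)) ^ 1 * U ν ^ (j ^ 2)) (t (U ν) ^ (τ₀ * j)) := by
  have h1 := hU.equiv ν
  have h2 := hU.equiv (τ ν)
  have h3 : PEq p (t (t (U ν))) (U (τ (τ ν)) ^ (j ^ 2)) := by
    have h := h1.map t
    rw [map_pow] at h
    have h4 := h2.pow j
    rw [← pow_mul, ← sq] at h4
    exact h.trans h4
  have h5 : PEq p (U (τ (τ ν)) * U ν) (U (τ ν) ^ τ₀) := by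
    have h := (hU.add (τ (τ ν)) ν).symm
    rw [hτ] at h
    exact h.trans (hU.nsmul τ₀ (τ ν))
  have h6 : PEq p (t (t (U ν)) ^ 1 * U ν ^ (j ^ 2)) ((U (τ (τ ν)) * U ν) ^ (j ^ 2)) := by
    rw [pow_one, mul_pow]; exact h3.mul (PEq.refl _)
  have h7 := h5.pow (j ^ 2)
  have h8 : (U (τ ν) ^ τ₀) ^ (j ^ 2) = (U (τ ν) ^ j) ^ (τ₀ * j) := by
    rw [← pow_mul, ← pow_mul]; ring_nf
  have h9 := (h1.pow (τ₀ * j)).symm
  rw [h8] at h7
  exact h6.trans (h7.trans h9)

end IsFamily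

/-! ### Climbing the levels -/

section Climb

variable {v : Valuation K Γ₀} {π ζ c : K} {p j τ₀ : ℕ} {t : K →+* K} {τ : Λ →+ Λ} {U : Λ → K}

/-- One step: below the top level, at a level `m` which is divisible by `p` or not admissible
for the three-term eigen-constraint, level `≥ m` implies level `≥ m + 1`. -/
theorem IsFamily.levelGE_succ (hp : p.Prime) (hζ : IsPrimitiveRoot ζ p) (hπ : IsUnif v π)
    (hperf : ∀ a : K, v a ≤ 1 → ∃ b : K, v (a - b ^ p) < 1)
    (ht : ∀ x, v (t x) = v x) (htame : ∀ x, v x ≤ 1 → v (t x - x) < 1) (hc : t π = π * c)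
    (hU : IsFamily p t τ j U) (hτ : ∀ ν, τ (τ ν) + ν = τ₀ • τ ν)
    {m : ℕ} (hm0 : 0 < m) (htop : v (ζ - 1) ^ p < v π ^ m)
    (hadm : ¬ p ∣ m → ¬ v ((c ^ m) ^ 2 + (j : K) ^ 2 - (τ₀ : K) * (j : K) * c ^ m) < 1)
    {ν : Λ} (h : LevelGE v π p m (U ν)) : LevelGE v π p (m + 1) (U ν) := by
  by_cases hpm : p ∣ m
  · exact h.succ_of_dvd hp hζ hπ hperf hm0 hpm htop
  · apply h.succ_of_lead hp hζ hπ hpm htop
    intro a ha
    by_contra hva
    have hva1 : v a = 1 := le_antisymm ha.1 (not_lt.1 hva)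
    obtain ⟨x, hx, hrel⟩ := hU.three_term hτ ν
    have h3 := ha.eigen_three hp hζ hπ hpm htop t ht htame hc hva1 hx hrel
    apply hadm hpm
    have e : (c ^ m) ^ 2 + (j : K) ^ 2 - (τ₀ : K) * (j : K) * c ^ m =
        ((1 : ℕ) : K) * (c ^ m) ^ 2 + ((j ^ 2 : ℕ) : K) - ((τ₀ * j : ℕ) : K) * c ^ m := by
      push_cast; ring
    rw [e]; exact h3

/-- Climbing from level `m₁` to level `m₂` through non-admissible levels. -/
theorem IsFamily.levelGE_of_le (hp : p.Prime) (hζ : IsPrimitiveRoot ζ p) (hπ : IsUnif v π)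
    (hperf : ∀ a : K, v a ≤ 1 → ∃ b : K, v (a - b ^ p) < 1)
    (ht : ∀ x, v (t x) = v x) (htame : ∀ x, v x ≤ 1 → v (t x - x) < 1) (hc : t π = π * c)
    (hU : IsFamily p t τ j U) (hτ : ∀ ν, τ (τ ν) + ν = τ₀ • τ ν)
    {m₁ m₂ : ℕ} (hm₁ : 0 < m₁) (h12 : m₁ ≤ m₂)
    (htop : ∀ m, m₁ ≤ m → m < m₂ → v (ζ - 1) ^ p < v π ^ m)
    (hadm : ∀ m, m₁ ≤ m → m < m₂ → ¬ p ∣ m →
      ¬ v ((c ^ m) ^ 2 + (j : K) ^ 2 - (τ₀ : K) * (j : K) * c ^ m) < 1)
    {ν : Λ} (h : LevelGE v π p m₁ (U ν)) : LevelGE v π p m₂ (U ν) := by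
  induction m₂, h12 using Nat.le_induction with
  | base => exact h
  | succ n hn ih =>
    have h1 := ih (fun m h1 h2 => htop m h1 (Nat.lt_succ_of_lt h2))
      (fun m h1 h2 => hadm m h1 (Nat.lt_succ_of_lt h2))
    exact hU.levelGE_succ hp hζ hπ hperf ht htame hc hτ (lt_of_lt_of_le hm₁ hn)
      (htop n hn (Nat.lt_succ_self n)) (hadm n hn (Nat.lt_succ_self n)) h1

end Climb

/-! ### At the top level -/

section Top

variable {v : Valuation K Γ₀} {π ζ c : K} {p j τ₀ : ℕ} {t : K →+* K} {τ : Λ →+ Λ} {U : Λ → K}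

/-- At or above the top level, two elements with congruent leading coefficients differ by a
`p`-th power (`hHens`: the units above the top level are `p`-th powers). -/
theorem peq_of_lead_top (hp : p.Prime) (hπ : IsUnif v π)
    (hHens : ∀ u : K, v (u - 1) < v (ζ - 1) ^ p → ∃ x : K, x ^ p = u) {N : ℕ} (hN0 : 0 < N)
    (hN : v π ^ N ≤ v (ζ - 1) ^ p) {u₁ u₂ a₁ a₂ : K} (h₁ : Lead v π p N u₁ a₁)
    (h₂ : Lead v π p N u₂ a₂) (h : v (a₁ - a₂) < 1) : PEq p u₁ u₂ := by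
  obtain ⟨-, w₁, hw₁, h₁⟩ := h₁
  obtain ⟨ha₂, w₂, hw₂, h₂⟩ := h₂
  have hpos : 0 < v π ^ N := pow_pos hπ.val_pos N
  have hlt1 : v π ^ N < 1 := pow_lt_one₀ zero_le hπ.lt_one hN0.ne'
  have hY : v (u₂ * w₂ ^ p) = 1 := by
    have e : u₂ * w₂ ^ p = 1 + ((u₂ * w₂ ^ p - 1 - a₂ * π ^ N) + a₂ * π ^ N) := by ring
    rw [e]
    apply v.map_one_add_of_lt
    apply v.map_add_lt (lt_trans h₂ hlt1)
    rw [v.map_mul, v.map_pow]
    exact lt_of_le_of_lt (mul_le_of_le_one_left' ha₂) hlt1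
  have hY0 : u₂ * w₂ ^ p ≠ 0 := by
    intro h0; rw [h0, v.map_zero] at hY; exact zero_ne_one hY
  have hXY : v (u₁ * w₁ ^ p - u₂ * w₂ ^ p) < v π ^ N := by
    have e : u₁ * w₁ ^ p - u₂ * w₂ ^ p =
        ((u₁ * w₁ ^ p - 1 - a₁ * π ^ N) - (u₂ * w₂ ^ p - 1 - a₂ * π ^ N)) +
          (a₁ - a₂) * π ^ N := by ring
    rw [e]
    apply v.map_add_lt (v.map_sub_lt h₁ h₂)
    rw [v.map_mul, v.map_pow]
    calc v (a₁ - a₂) * v π ^ N < 1 * v π ^ N := mul_lt_mul_of_pos_right h hpos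
      _ = v π ^ N := one_mul _
  have hq : v (u₁ * w₁ ^ p / (u₂ * w₂ ^ p) - 1) < v (ζ - 1) ^ p := by
    have e : u₁ * w₁ ^ p / (u₂ * w₂ ^ p) - 1 =
        (u₁ * w₁ ^ p - u₂ * w₂ ^ p) / (u₂ * w₂ ^ p) := by
      rw [sub_div, div_self hY0]
    rw [e, v.map_div, hY, div_one]
    exact lt_of_lt_of_le hXY hN
  obtain ⟨x, hx⟩ := hHens _ hq
  have hu₁ : u₁ ≠ 0 := by
    rintro rfl
    rw [zero_mul, zero_sub, v.map_neg, hY] at hXY
    exact absurd hXY (not_lt.2 hlt1.le)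
  have hx0 : x ≠ 0 := by
    rintro rfl
    rw [zero_pow hp.ne_zero] at hx
    have h3 : u₁ * w₁ ^ p = 0 := by
      have := hx.symm
      rw [div_eq_zero_iff] at this
      rcases this with h3 | h3
      · exact h3
      · exact absurd h3 hY0
    exact mul_ne_zero hu₁ (pow_ne_zero p hw₁) h3
  refine ⟨w₂ * x / w₁, div_ne_zero (mul_ne_zero hw₂ hx0) hw₁, ?_⟩
  have hw₁p : w₁ ^ p ≠ 0 := pow_ne_zero p hw₁
  have h4 : u₁ * w₁ ^ p = x ^ p * (u₂ * w₂ ^ p) := by
    rw [hx, div_mul_cancel₀ _ hY0]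
  rw [div_pow, mul_pow, eq_comm, mul_div_assoc', div_eq_iff hw₁p]
  linear_combination -h4

/-- **Top level ⟹ `p`-th powers.**  If all members of a family have top level, the tame
endomorphism acts on top-level classes through `j` (`c ^ N ≡ j`), and `τ - 1` is invertible
(`τ₀ - 2` is a unit), then all members are `p`-th powers. -/
theorem IsFamily.peq_one_of_top (hp : p.Prime) (hπ : IsUnif v π)
    (hHens : ∀ u : K, v (u - 1) < v (ζ - 1) ^ p → ∃ x : K, x ^ p = u)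
    (ht : ∀ x, v (t x) = v x) (htame : ∀ x, v x ≤ 1 → v (t x - x) < 1) (hc : t π = π * c)
    (hU : IsFamily p t τ j U) (hτ : ∀ ν, τ (τ ν) + ν = τ₀ • τ ν)
    {N : ℕ} (hN0 : 0 < N) (hN : v π ^ N ≤ v (ζ - 1) ^ p)
    (hcN : v (c ^ N - (j : K)) < 1) (hj1 : v (j : K) = 1) (hτ₀ : v ((τ₀ : K) - 2) = 1)
    (hpv : v (p : K) < 1) (hlev : ∀ ν, LevelGE v π p N (U ν)) (ν : Λ) : PEq p (U ν) 1 := by
  have hjp : Nat.Coprime j p :=
    ((Nat.Prime.coprime_iff_not_dvd hp).2 (not_dvd_of_val_natCast_eq_one v hpv hj1)).symm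
  -- the tame endomorphism acts through `j` on each member
  have step1 : ∀ ν, PEq p (t (U ν)) (U ν ^ j) := by
    intro ν
    obtain ⟨a, ha⟩ := (hlev ν).exists_lead hπ
    have L1 := ha.map_tame hπ t ht htame hc
    have L2 := ha.pow hπ hN0 j
    apply peq_of_lead_top hp hπ hHens hN0 hN L1 L2
    have e : c ^ N * a - (j : K) * a = (c ^ N - (j : K)) * a := by ring
    rw [e, v.map_mul]
    calc v (c ^ N - (j : K)) * v a ≤ v (c ^ N - (j : K)) * 1 := by
          gcongr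
          exact ha.1
      _ = v (c ^ N - (j : K)) := mul_one _
      _ < 1 := hcN
  have step3 : ∀ ν, PEq p (U (τ ν)) (U ν) := by
    intro ν
    exact PEq.of_pow_coprime (hU.ne_zero _) (hU.ne_zero _) hjp
      ((hU.equiv ν).symm.trans (step1 ν))
  have step4 : ∀ ν, PEq p (U (τ ν - ν)) 1 := by
    intro ν
    have h := hU.add (τ ν - ν) ν
    rw [sub_add_cancel] at h
    have h2 : PEq p (U (τ ν - ν) * U ν) (1 * U ν) := by
      rw [one_mul]; exact h.symm.trans (step3 ν)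
    exact PEq.of_mul_right (hU.ne_zero ν) h2
  -- `(τ - 1) (τ - (τ₀ - 1)) = τ₀ - 2`
  have h5 := step4 (τ ν - ((τ₀ : ℤ) - 1) • ν)
  have e5 : τ (τ ν - ((τ₀ : ℤ) - 1) • ν) - (τ ν - ((τ₀ : ℤ) - 1) • ν) = ((τ₀ : ℤ) - 2) • ν := by
    have h' : τ (τ ν) = (τ₀ : ℤ) • τ ν - ν := by
      rw [natCast_zsmul, ← hτ ν]; abel
    rw [map_sub, map_zsmul, h']
    module
  rw [e5] at h5
  have h6 : PEq p (U ν ^ ((τ₀ : ℤ) - 2)) (1 ^ ((τ₀ : ℤ) - 2)) := by
    rw [one_zpow]; exact (hU.zsmul _ ν).symm.trans h5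
  have hcop : IsCoprime ((τ₀ : ℤ) - 2) (p : ℤ) := by
    have hnd : ¬ (p : ℤ) ∣ ((τ₀ : ℤ) - 2) := by
      apply not_dvd_of_val_intCast_eq_one v hpv
      push_cast
      exact hτ₀
    exact ((Nat.prime_iff_prime_int.1 hp).irreducible.coprime_iff_not_dvd.2 hnd).symm
  exact PEq.of_zpow_coprime (hU.ne_zero ν) one_ne_zero hcop h6

end Top

/-! ### Leading coefficients of a family at an admissible level -/

section LeadM

variable {v : Valuation K Γ₀} {π ζ c : K} {p j : ℕ} {t : K →+* K} {τ : Λ →+ Λ} {U : Λ → K}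

theorem val_eq_one_of_map_unif (hπ : IsUnif v π) (ht : ∀ x, v (t x) = v x) (hc : t π = π * c) :
    v c = 1 := by
  have h1 := ht π
  rw [hc, v.map_mul] at h1
  have h2 : v π * v c = v π * 1 := by rw [h1, mul_one]
  exact mul_left_cancel₀ hπ.val_ne_zero h2

/-- Additivity of leading coefficients along a family. -/
theorem IsFamily.lead_add (hπ : IsUnif v π) (hU : IsFamily p t τ j U) {M : ℕ} (hM : 0 < M)
    {ν ν' : Λ} {a a' : K} (h : Lead v π p M (U ν) a) (h' : Lead v π p M (U ν') a') :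
    Lead v π p M (U (ν + ν')) (a + a') :=
  (h.mul hπ hM h').peq (hU.add ν ν')

/-- Tame equivariance of leading coefficients: `j * a (τ ν) ≡ c ^ M * a ν`. -/
theorem IsFamily.lead_tame (hp : p.Prime) (hζ : IsPrimitiveRoot ζ p) (hπ : IsUnif v π)
    (ht : ∀ x, v (t x) = v x) (htame : ∀ x, v x ≤ 1 → v (t x - x) < 1) (hc : t π = π * c)
    (hU : IsFamily p t τ j U) {M : ℕ} (hM : ¬ p ∣ M) (hlt : v (ζ - 1) ^ p < v π ^ M)
    {ν : Λ} {a a' : K} (h : Lead v π p M (U ν) a) (h' : Lead v π p M (U (τ ν)) a') :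
    v (c ^ M * a - (j : K) * a') < 1 := by
  have hM0 : 0 < M := Nat.pos_of_ne_zero (by rintro rfl; exact hM (dvd_zero p))
  have L1 := h.map_tame hπ t ht htame hc
  have L2 := (h'.pow hπ hM0 j).peq (hU.equiv ν)
  exact L1.unique hp hζ hπ hM hlt L2

/-- Frobenius equivariance of leading coefficients: `jφ * a (φΛ ν) ≡ cφ ^ M * a ν ^ p`, for an
endomorphism `φ` inducing the `p`-power map on the residue field. -/
theorem IsFamily.lead_frob (hp : p.Prime) (hζ : IsPrimitiveRoot ζ p) (hπ : IsUnif v π)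
    {φ : K →+* K} (hφv : ∀ x, v (φ x) = v x) (hφ : ∀ x, v x ≤ 1 → v (φ x - x ^ p) < 1)
    {cφ : K} (hcφ : φ π = π * cφ) {φΛ : Λ →+ Λ} {jφ : ℕ} (hU : IsFamily p φ φΛ jφ U) {M : ℕ}
    (hM : ¬ p ∣ M) (hlt : v (ζ - 1) ^ p < v π ^ M) {ν : Λ} {a a' : K}
    (h : Lead v π p M (U ν) a) (h' : Lead v π p M (U (φΛ ν)) a') :
    v (cφ ^ M * a ^ p - (jφ : K) * a') < 1 := by
  have hM0 : 0 < M := Nat.pos_of_ne_zero (by rintro rfl; exact hM (dvd_zero p))
  have hvc : v cφ = 1 := val_eq_one_of_map_unif hπ hφv hcφ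
  have L1 := h.map hπ φ hφv hcφ
  have L2 := (h'.pow hπ hM0 jφ).peq (hU.equiv ν)
  have h3 := L1.unique hp hζ hπ hM hlt L2
  have e : cφ ^ M * a ^ p - (jφ : K) * a' =
      (cφ ^ M * φ a - (jφ : K) * a') - cφ ^ M * (φ a - a ^ p) := by ring
  rw [e]
  apply v.map_sub_lt h3
  rw [v.map_mul, v.map_pow, hvc, one_pow, one_mul]
  exact hφ a h.1

end LeadM

end Family

/-! ### The residue field -/

section Residue

variable (v : Valuation K Γ₀)

/-- The residue field of `v`. -/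
abbrev ResField : Type _ := IsLocalRing.ResidueField v.valuationSubring

/-- The residue map, extended by zero outside the valuation ring. -/
noncomputable def res (x : K) : ResField v :=
  if h : v x ≤ 1 then IsLocalRing.residue v.valuationSubring ⟨x, h⟩ else 0

variable {v}

theorem res_of_le {x : K} (h : v x ≤ 1) :
    res v x = IsLocalRing.residue v.valuationSubring ⟨x, h⟩ := dif_pos h

theorem res_eq_zero_iff {x : K} (h : v x ≤ 1) : res v x = 0 ↔ v x < 1 := by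
  rw [res_of_le h, IsLocalRing.residue_eq_zero_iff, ValuationSubring.valuation_lt_one_iff]
  exact ((Valuation.isEquiv_valuation_valuationSubring v).lt_one_iff_lt_one).symm

theorem res_add {x y : K} (hx : v x ≤ 1) (hy : v y ≤ 1) : res v (x + y) = res v x + res v y := by
  rw [res_of_le hx, res_of_le hy, res_of_le (v.map_add_le hx hy), ← map_add]; rfl

theorem res_mul {x y : K} (hx : v x ≤ 1) (hy : v y ≤ 1) : res v (x * y) = res v x * res v y := by
  have hxy : v (x * y) ≤ 1 := by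
    rw [v.map_mul]; exact mul_le_one' hx hy
  rw [res_of_le hx, res_of_le hy, res_of_le hxy, ← map_mul]; rfl

theorem res_one : res v (1 : K) = 1 := by
  rw [res_of_le (le_of_eq v.map_one), ← map_one (IsLocalRing.residue v.valuationSubring)]; rfl

theorem res_zero : res v (0 : K) = 0 := by
  rw [res_eq_zero_iff (by rw [v.map_zero]; exact zero_le), v.map_zero]; exact zero_lt_one

theorem res_neg {x : K} (hx : v x ≤ 1) : res v (-x) = -res v x := by
  have hx' : v (-x) ≤ 1 := by rwa [v.map_neg]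
  rw [res_of_le hx, res_of_le hx', ← map_neg]; rfl

theorem res_sub {x y : K} (hx : v x ≤ 1) (hy : v y ≤ 1) : res v (x - y) = res v x - res v y := by
  have hy' : v (-y) ≤ 1 := by rwa [v.map_neg]
  rw [sub_eq_add_neg, res_add hx hy', res_neg hy, sub_eq_add_neg]

theorem res_eq_res_iff {x y : K} (hx : v x ≤ 1) (hy : v y ≤ 1) :
    res v x = res v y ↔ v (x - y) < 1 := by
  rw [← res_eq_zero_iff (v.map_sub_le hx hy), res_sub hx hy, sub_eq_zero]

theorem res_pow {x : K} (hx : v x ≤ 1) (n : ℕ) : res v (x ^ n) = res v x ^ n := by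
  induction n with
  | zero => rw [pow_zero, pow_zero]; exact res_one
  | succ n ih =>
    have hxn : v (x ^ n) ≤ 1 := by rw [v.map_pow]; exact pow_le_one' hx n
    rw [pow_succ, pow_succ, res_mul hxn hx, ih]

theorem res_natCast (n : ℕ) : res v (n : K) = (n : ResField v) := by
  induction n with
  | zero => rw [Nat.cast_zero, Nat.cast_zero]; exact res_zero
  | succ n ih =>
    rw [Nat.cast_succ, Nat.cast_succ, res_add (val_natCast_le_one v n) (le_of_eq v.map_one), ih,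
      res_one]

theorem res_sum {ι : Type*} (s : Finset ι) (f : ι → K) (hf : ∀ i ∈ s, v (f i) ≤ 1) :
    res v (∑ i ∈ s, f i) = ∑ i ∈ s, res v (f i) := by
  classical
  induction s using Finset.induction_on with
  | empty => simpa using res_zero (v := v)
  | insert a s ha ih =>
    have h1 : v (f a) ≤ 1 := hf a (Finset.mem_insert_self a s)
    have h2 : ∀ i ∈ s, v (f i) ≤ 1 := fun i hi => hf i (Finset.mem_insert_of_mem hi)
    rw [Finset.sum_insert ha, Finset.sum_insert ha, res_add h1 (v.map_sum_le h2), ih h2]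

theorem charP_resField {p : ℕ} (hp : p.Prime) (hpv : v (p : K) < 1) : CharP (ResField v) p := by
  rw [CharP.charP_iff_prime_eq_zero hp, ← res_natCast (v := v) p,
    res_eq_zero_iff (val_natCast_le_one v p)]
  exact hpv

end Residue

/-! ### Semilinear algebra over a field of characteristic `p` -/

section Semilinear

variable {𝕜 : Type*} [Field 𝕜]

theorem exists_natCast_of_pow_eq_self (p : ℕ) [Fact p.Prime] [CharP 𝕜 p] {x : 𝕜}
    (h : x ^ p = x) : ∃ n : ℕ, (n : 𝕜) = x := by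
  have h1 : x ∈ (⊥ : Subfield 𝕜) := (Subfield.mem_bot_iff_pow_eq_self 𝕜 p).2 h
  obtain ⟨z, hz⟩ := (mem_bot_iff_intCast p 𝕜).1 h1
  have hp0 : (p : ℤ) ≠ 0 := by exact_mod_cast (Fact.out : p.Prime).ne_zero
  refine ⟨(z % p).toNat, ?_⟩
  have h2 : ((z % p).toNat : ℤ) = z % p := Int.toNat_of_nonneg (Int.emod_nonneg z hp0)
  have h3 : (((z % p).toNat : ℤ) : 𝕜) = (z : 𝕜) := by
    rw [h2, Int.emod_def]
    push_cast
    rw [CharP.cast_eq_zero 𝕜 p]; ring
  rw [← hz, ← h3, Int.cast_natCast]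

/-- **Descent of a linear relation to the prime field.**  Let `a i : Λ → 𝕜` be functions with
`a i (φΛ ν) = γ * a i ν ^ p` (`φΛ` surjective, `γ ≠ 0`).  Any nontrivial `𝕜`-linear relation
between the `a i` yields a nontrivial relation with coefficients in the prime field. -/
theorem exists_natCast_relation (p : ℕ) [Fact p.Prime] [CharP 𝕜 p] {Λ : Type*} {ι : Type*}
    [Fintype ι] (φΛ : Λ → Λ) (hφΛ : Function.Surjective φΛ) {γ : 𝕜} (a : ι → Λ → 𝕜)
    (ha : ∀ i ν, a i (φΛ ν) = γ * a i ν ^ p) (l : ι → 𝕜) (hl : ∃ i, l i ≠ 0)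
    (hrel : ∀ ν, ∑ i, l i * a i ν = 0) :
    ∃ n : ι → ℕ, (∃ i, (n i : 𝕜) ≠ 0) ∧ ∀ ν, ∑ i, (n i : 𝕜) * a i ν = 0 := by
  classical
  have hp0 : p ≠ 0 := (Fact.out : p.Prime).ne_zero
  suffices H : ∀ (s : ℕ) (l : ι → 𝕜), (Finset.univ.filter (fun i => l i ≠ 0)).card = s →
      (∃ i, l i ≠ 0) → (∀ ν, ∑ i, l i * a i ν = 0) →
      ∃ n : ι → ℕ, (∃ i, (n i : 𝕜) ≠ 0) ∧ ∀ ν, ∑ i, (n i : 𝕜) * a i ν = 0 from
    H _ l rfl hl hrel
  intro s
  induction s using Nat.strong_induction_on with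
  | _ s ih =>
    intro l hs hl hrel
    obtain ⟨i₀, hi₀⟩ := hl
    have hμrel : ∀ ν, ∑ i, (l i / l i₀) * a i ν = 0 := by
      intro ν
      have e : ∑ i, (l i / l i₀) * a i ν = (∑ i, l i * a i ν) / l i₀ := by
        rw [Finset.sum_div]
        apply Finset.sum_congr rfl
        intro i _; ring
      rw [e, hrel, zero_div]
    have hμ'rel : ∀ ν, ∑ i, ((l i / l i₀) ^ p - l i / l i₀) * a i ν = 0 := by
      intro ν
      obtain ⟨ν', rfl⟩ := hφΛ ν
      have h1 : ∑ i, (l i / l i₀) ^ p * a i (φΛ ν') = 0 := by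
        have e : ∑ i, (l i / l i₀) ^ p * a i (φΛ ν') =
            γ * (∑ i, (l i / l i₀) * a i ν') ^ p := by
          rw [sum_pow_char p, Finset.mul_sum]
          apply Finset.sum_congr rfl
          intro i _
          rw [ha, mul_pow]; ring
        rw [e, hμrel, zero_pow hp0, mul_zero]
      simp only [sub_mul, Finset.sum_sub_distrib, h1, hμrel, sub_zero]
    by_cases hall : ∀ i, (l i / l i₀) ^ p - l i / l i₀ = 0
    · choose n hn using fun i => exists_natCast_of_pow_eq_self p (sub_eq_zero.1 (hall i))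
      refine ⟨n, ⟨i₀, ?_⟩, fun ν => ?_⟩
      · rw [hn, div_self hi₀]; exact one_ne_zero
      · simp only [hn]; exact hμrel ν
    · obtain ⟨i₁, hi₁⟩ := not_forall.1 hall
      have hlt : (Finset.univ.filter
          (fun i => (l i / l i₀) ^ p - l i / l i₀ ≠ 0)).card < s := by
        rw [← hs]
        apply Finset.card_lt_card
        rw [Finset.ssubset_iff_of_subset]
        · refine ⟨i₀, by simp [hi₀], ?_⟩
          simp [div_self hi₀]
        · intro i hi
          simp only [Finset.mem_filter, Finset.mem_univ, true_and] at hi ⊢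
          intro h0
          apply hi
          rw [h0, zero_div, zero_pow hp0, sub_zero]
      exact ih _ hlt _ rfl ⟨i₁, hi₁⟩ hμ'rel

/-- **Initial relation.**  Additive maps `a i : Λ → 𝕜` which are `τ`-equivariant
(`a i (τ ν) = χ * a i ν`), on a group `Λ` generated by `g k`, `τ (g k)` (`k : κ`), are
`𝕜`-linearly dependent as soon as there are more than `card κ` of them. -/
theorem exists_relation_of_card_lt {Λ : Type*} [AddCommGroup Λ] (τ : Λ → Λ) {χ : 𝕜}
    {ι : Type*} [Fintype ι] (a : ι → Λ → 𝕜) (hadd : ∀ i ν ν', a i (ν + ν') = a i ν + a i ν')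
    (ha : ∀ i ν, a i (τ ν) = χ * a i ν) {κ : Type*} [Fintype κ] (g : κ → Λ)
    (hgen : AddSubgroup.closure (Set.range g ∪ Set.range (fun k => τ (g k))) = ⊤)
    (hcard : Fintype.card κ < Fintype.card ι) :
    ∃ l : ι → 𝕜, (∃ i, l i ≠ 0) ∧ ∀ ν, ∑ i, l i * a i ν = 0 := by
  classical
  have hnot : ¬ LinearIndependent 𝕜 (fun (i : ι) (k : κ) => a i (g k)) := by
    intro hli
    have h1 := hli.fintype_card_le_finrank
    rw [Module.finrank_fintype_fun_eq_card] at h1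
    exact absurd hcard (not_lt.2 h1)
  obtain ⟨l, hl, hl0⟩ := Fintype.not_linearIndependent_iff.1 hnot
  refine ⟨l, hl0, ?_⟩
  have hg : ∀ k, ∑ i, l i * a i (g k) = 0 := by
    intro k
    have h1 := congrFun hl k
    simpa [Finset.sum_apply, Pi.smul_apply, smul_eq_mul] using h1
  let A : ι → Λ →+ 𝕜 := fun i => AddMonoidHom.mk' (a i) (hadd i)
  have hA : ∀ i ν, A i ν = a i ν := fun i ν => rfl
  intro ν
  have hν : ν ∈ AddSubgroup.closure (Set.range g ∪ Set.range (fun k => τ (g k))) := by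
    rw [hgen]; exact AddSubgroup.mem_top ν
  induction hν using AddSubgroup.closure_induction with
  | mem x hx =>
    rcases hx with ⟨k, rfl⟩ | ⟨k, rfl⟩
    · exact hg k
    · have e : ∑ i, l i * a i (τ (g k)) = χ * ∑ i, l i * a i (g k) := by
        rw [Finset.mul_sum]
        apply Finset.sum_congr rfl
        intro i _
        rw [ha]; ring
      rw [e, hg, mul_zero]
  | zero =>
    have e : ∀ i, a i 0 = 0 := fun i => by rw [← hA, map_zero]
    simp [e]
  | add x y _ _ hx hy =>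
    have e : ∑ i, l i * a i (x + y) = ∑ i, l i * a i x + ∑ i, l i * a i y := by
      rw [← Finset.sum_add_distrib]
      apply Finset.sum_congr rfl
      intro i _
      rw [hadd]; ring
    rw [e, hx, hy, add_zero]
  | neg x _ hx =>
    have e : ∑ i, l i * a i (-x) = -∑ i, l i * a i x := by
      rw [← Finset.sum_neg_distrib]
      apply Finset.sum_congr rfl
      intro i _
      rw [← hA, map_neg, hA]; ring
    rw [e, hx, neg_zero]

end Semilinear

/-! ### The count -/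

section Count

variable {Λ : Type*} [AddCommGroup Λ]
variable {v : Valuation K Γ₀} {π ζ c cφ : K} {p j jφ τ₀ : ℕ} {t φ : K →+* K} {τ φΛ : Λ →+ Λ}

theorem Lead.prod_pow (hπ : IsUnif v π) {M : ℕ} (hM : 0 < M) {ι : Type*} (s : Finset ι)
    (u a : ι → K) (n : ι → ℕ) (h : ∀ i ∈ s, Lead v π p M (u i) (a i)) :
    Lead v π p M (∏ i ∈ s, u i ^ n i) (∑ i ∈ s, (n i : K) * a i) := by
  classical
  induction s using Finset.induction_on with
  | empty => simpa using lead_one (p := p) (m := M) hπ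
  | insert b s hb ih =>
    rw [Finset.prod_insert hb, Finset.sum_insert hb]
    exact ((h b (Finset.mem_insert_self b s)).pow hπ hM (n b)).mul hπ hM
      (ih (fun i hi => h i (Finset.mem_insert_of_mem hi)))

/-- **The level count, abstract form.**  `N` is the top level, `M < N` the only admissible
level in `[m₀, N)`; `t` is a tame endomorphism, `φ` a Frobenius endomorphism; `Λ` is generated
by `g k`, `τ (g k)` (`k : κ`).  Given more than `card κ` families of Kummer generators of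
level `≥ m₀`, some combination with exponents not all divisible by `p` consists of `p`-th
powers. -/
theorem exists_dependence_of_single_level
    (hp : p.Prime) (hζ : IsPrimitiveRoot ζ p) (hπ : IsUnif v π) (hlam1 : v (ζ - 1) < 1)
    (hperf : ∀ a : K, v a ≤ 1 → ∃ b : K, v (a - b ^ p) < 1)
    (hHens : ∀ u : K, v (u - 1) < v (ζ - 1) ^ p → ∃ x : K, x ^ p = u)
    (ht : ∀ x, v (t x) = v x) (htame : ∀ x, v x ≤ 1 → v (t x - x) < 1) (hc : t π = π * c)
    (hτ : ∀ ν, τ (τ ν) + ν = τ₀ • τ ν) (hj1 : v (j : K) = 1) (hτ₀ : v ((τ₀ : K) - 2) = 1)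
    (hφv : ∀ x, v (φ x) = v x) (hφ : ∀ x, v x ≤ 1 → v (φ x - x ^ p) < 1) (hcφ : φ π = π * cφ)
    (hφΛ : Function.Surjective φΛ) (hjφ : v (jφ : K) = 1)
    {m₀ M N : ℕ} (hm₀ : 0 < m₀) (hm₀M : m₀ ≤ M) (hMN : M < N) (hpM : ¬ p ∣ M)
    (hN : v (ζ - 1) ^ p = v π ^ N) (hcN : v (c ^ N - (j : K)) < 1)
    (hadm : ∀ m, m₀ ≤ m → m < N → m ≠ M → ¬ p ∣ m →
      ¬ v ((c ^ m) ^ 2 + (j : K) ^ 2 - (τ₀ : K) * (j : K) * c ^ m) < 1)
    {ι : Type*} [Fintype ι] (U : ι → Λ → K)
    (hUt : ∀ i, IsFamily p t τ j (U i)) (hUφ : ∀ i, IsFamily p φ φΛ jφ (U i))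
    (hlev : ∀ i ν, LevelGE v π p m₀ (U i ν))
    {κ : Type*} [Fintype κ] (g : κ → Λ)
    (hgen : AddSubgroup.closure (Set.range g ∪ Set.range (fun k => τ (g k))) = ⊤)
    (hcard : Fintype.card κ < Fintype.card ι) :
    ∃ n : ι → ℕ, (∃ i, ¬ p ∣ n i) ∧ ∀ ν, PEq p (∏ i, U i ν ^ n i) 1 := by
  classical
  have hpv : v (p : K) < 1 := val_prime_lt_one v hp hζ hlam1
  have : Fact p.Prime := ⟨hp⟩
  have : CharP (ResField v) p := charP_resField hp hpv
  have hM0 : 0 < M := lt_of_lt_of_le hm₀ hm₀M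
  have hbelow : ∀ m, m < N → v (ζ - 1) ^ p < v π ^ m := fun m hm => by
    rw [hN]; exact pow_lt_pow_right_of_lt_one₀ hπ.val_pos hπ.lt_one hm
  have hltM : v (ζ - 1) ^ p < v π ^ M := hbelow M hMN
  have hvc : v c = 1 := val_eq_one_of_map_unif hπ ht hc
  have hvcφ : v cφ = 1 := val_eq_one_of_map_unif hπ hφv hcφ
  -- Step 1: all members have level `≥ M`
  have hlevM : ∀ i ν, LevelGE v π p M (U i ν) := fun i ν =>
    (hUt i).levelGE_of_le hp hζ hπ hperf ht htame hc hτ hm₀ hm₀M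
      (fun m _ h2 => hbelow m (lt_trans h2 hMN))
      (fun m h1 h2 hpm => hadm m h1 (lt_trans h2 hMN) (ne_of_lt h2) hpm) (hlev i ν)
  -- Step 2: leading coefficients at level `M` and their residues
  choose a ha using fun i ν => (hlevM i ν).exists_lead hπ
  have hāadd : ∀ i ν ν', res v (a i (ν + ν')) = res v (a i ν) + res v (a i ν') := by
    intro i ν ν'
    have L := (hUt i).lead_add hπ hM0 (ha i ν) (ha i ν')
    have h := (ha i (ν + ν')).unique hp hζ hπ hpM hltM L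
    rw [← res_add (ha i ν).1 (ha i ν').1,
      res_eq_res_iff (ha i _).1 (v.map_add_le (ha i ν).1 (ha i ν').1)]
    exact h
  have hjres : res v (j : K) ≠ 0 := by
    rw [Ne, res_eq_zero_iff (le_of_eq hj1), hj1]; exact lt_irrefl 1
  have hjφres : res v (jφ : K) ≠ 0 := by
    rw [Ne, res_eq_zero_iff (le_of_eq hjφ), hjφ]; exact lt_irrefl 1
  have hātame : ∀ i ν, res v (a i (τ ν)) = (res v c ^ M / res v (j : K)) * res v (a i ν) := by
    intro i ν
    have h := (hUt i).lead_tame hp hζ hπ ht htame hc hpM hltM (ha i ν) (ha i (τ ν))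
    have hcM : v (c ^ M) ≤ 1 := by rw [v.map_pow, hvc, one_pow]
    have h1 : v (c ^ M * a i ν) ≤ 1 := by
      rw [v.map_mul]; exact mul_le_one' hcM (ha i ν).1
    have h2 : v ((j : K) * a i (τ ν)) ≤ 1 := by
      rw [v.map_mul]; exact mul_le_one' (le_of_eq hj1) (ha i (τ ν)).1
    have h3 := (res_eq_res_iff h1 h2).2 h
    rw [res_mul hcM (ha i ν).1, res_mul (le_of_eq hj1) (ha i (τ ν)).1,
      res_pow (le_of_eq hvc)] at h3
    rw [div_mul_eq_mul_div, eq_div_iff hjres, h3, mul_comm]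
  have hāfrob : ∀ i ν, res v (a i (φΛ ν)) =
      (res v cφ ^ M / res v (jφ : K)) * res v (a i ν) ^ p := by
    intro i ν
    have h := (hUφ i).lead_frob hp hζ hπ hφv hφ hcφ hpM hltM (ha i ν) (ha i (φΛ ν))
    have hcM : v (cφ ^ M) ≤ 1 := by rw [v.map_pow, hvcφ, one_pow]
    have hap : v (a i ν ^ p) ≤ 1 := by rw [v.map_pow]; exact pow_le_one' (ha i ν).1 p
    have h1 : v (cφ ^ M * a i ν ^ p) ≤ 1 := by
      rw [v.map_mul]; exact mul_le_one' hcM hap
    have h2 : v ((jφ : K) * a i (φΛ ν)) ≤ 1 := by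
      rw [v.map_mul]; exact mul_le_one' (le_of_eq hjφ) (ha i (φΛ ν)).1
    have h3 := (res_eq_res_iff h1 h2).2 h
    rw [res_mul hcM hap, res_mul (le_of_eq hjφ) (ha i (φΛ ν)).1,
      res_pow (le_of_eq hvcφ), res_pow (ha i ν).1] at h3
    rw [div_mul_eq_mul_div, eq_div_iff hjφres, h3, mul_comm]
  -- Step 3: a relation with coefficients in the prime field
  obtain ⟨l, hl0, hlrel⟩ := exists_relation_of_card_lt (τ := τ)
    (fun i ν => res v (a i ν)) hāadd hātame g hgen hcard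
  obtain ⟨n, ⟨i₀, hi₀⟩, hnrel⟩ := exists_natCast_relation p φΛ hφΛ
    (fun i ν => res v (a i ν)) hāfrob l hl0 hlrel
  refine ⟨n, ⟨i₀, ?_⟩, ?_⟩
  · intro hdvd
    exact hi₀ ((CharP.cast_eq_zero_iff (ResField v) p (n i₀)).2 hdvd)
  · -- Step 4: the combination has level `> M`, hence top level, hence is a `p`-th power
    have hV : IsFamily p t τ j (fun ν => ∏ i, U i ν ^ n i) :=
      IsFamily.prod Finset.univ n (fun i _ => hUt i)
    have hLead : ∀ ν, Lead v π p M (∏ i, U i ν ^ n i) (∑ i, (n i : K) * a i ν) := fun ν =>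
      Lead.prod_pow hπ hM0 Finset.univ (fun i => U i ν) (fun i => a i ν) n (fun i _ => ha i ν)
    have hsmall : ∀ ν, v (∑ i, (n i : K) * a i ν) < 1 := by
      intro ν
      have hle : ∀ i ∈ (Finset.univ : Finset ι), v ((n i : K) * a i ν) ≤ 1 := fun i _ => by
        rw [v.map_mul]; exact mul_le_one' (val_natCast_le_one v (n i)) (ha i ν).1
      rw [← res_eq_zero_iff (v.map_sum_le hle), res_sum _ _ hle, ← hnrel ν]
      apply Finset.sum_congr rfl
      intro i _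
      rw [res_mul (val_natCast_le_one v (n i)) (ha i ν).1, res_natCast]
    have hlevM1 : ∀ ν, LevelGE v π p (M + 1) (∏ i, U i ν ^ n i) := fun ν =>
      ((hLead ν).val_lt_one_iff hp hζ hπ hpM hltM).1 (hsmall ν)
    have hlevN : ∀ ν, LevelGE v π p N (∏ i, U i ν ^ n i) := fun ν =>
      hV.levelGE_of_le hp hζ hπ hperf ht htame hc hτ (Nat.succ_pos M) (Nat.succ_le_of_lt hMN)
        (fun m _ h2 => hbelow m h2)
        (fun m h1 h2 hpm => hadm m (le_trans hm₀M (Nat.le_of_succ_le h1)) h2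
          (fun h => by omega) hpm) (hlevM1 ν)
    exact hV.peq_one_of_top hp hπ hHens ht htame hc hτ (lt_trans hM0 hMN) (le_of_eq hN.symm)
      hcN hj1 hτ₀ hpv hlevN

end Count

/-! ### The niveau 2 case: ramification index `p ^ 2 - 1` -/

section N2

variable {Λ : Type*} [AddCommGroup Λ]
variable {v : Valuation K Γ₀} {π ζ c cφ : K} {p j jφ τ₀ : ℕ} {t φ : K →+* K} {τ φΛ : Λ →+ Λ}

/-- Integers prime to the residue characteristic are units. -/
theorem val_natCast_eq_one_of_not_dvd (v : Valuation K Γ₀) {p : ℕ} (hp : p.Prime)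
    (hpv : v (p : K) < 1) {n : ℕ} (hn : ¬ p ∣ n) : v (n : K) = 1 := by
  by_contra hne
  have hlt : v (n : K) < 1 := lt_of_le_of_ne (val_natCast_le_one v n) hne
  have hcop : IsCoprime (n : ℤ) (p : ℤ) :=
    Nat.isCoprime_iff_coprime.2 ((Nat.Prime.coprime_iff_not_dvd hp).2 hn).symm
  obtain ⟨a, b, hab⟩ := hcop
  have h1 : (1 : K) = (a : K) * (n : K) + (b : K) * (p : K) := by
    have := congrArg (Int.cast : ℤ → K) hab
    push_cast at this
    exact this.symm
  have h2 : v (1 : K) < 1 := by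
    rw [h1]
    apply v.map_add_lt
    · rw [v.map_mul]
      calc v (a : K) * v (n : K) ≤ 1 * v (n : K) := by
            gcongr
            exact val_intCast_le_one v a
        _ = v (n : K) := one_mul _
        _ < 1 := hlt
    · rw [v.map_mul]
      calc v (b : K) * v (p : K) ≤ 1 * v (p : K) := by
            gcongr
            exact val_intCast_le_one v b
        _ = v (p : K) := one_mul _
        _ < 1 := hpv
  rw [v.map_one] at h2
  exact lt_irrefl 1 h2

/-- A root of unity of order prime to the residue characteristic which is `≡ 1` is `1`. -/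
theorem eq_one_of_val_sub_one_lt (v : Valuation K Γ₀) {p : ℕ} (hp : p.Prime)
    (hpv : v (p : K) < 1) {n : ℕ} (hn : ¬ p ∣ n) {ξ : K} (hξ : ξ ^ n = 1)
    (h : v (ξ - 1) < 1) : ξ = 1 := by
  by_contra hne
  have hn0 : n ≠ 0 := by rintro rfl; exact hn (dvd_zero p)
  have hvξ : v ξ = 1 := val_eq_one_of_pow_eq_one v hn0 hξ
  have hsum : ∑ i ∈ range n, ξ ^ i = 0 := by
    have h1 := mul_geom_sum ξ n
    rw [hξ, sub_self] at h1
    rcases mul_eq_zero.1 h1 with h2 | h2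
    · exact absurd (sub_eq_zero.1 h2) hne
    · exact h2
  have e : (n : K) = -∑ i ∈ range n, (ξ ^ i - 1) := by
    rw [Finset.sum_sub_distrib, hsum]; simp
  have h3 : v (n : K) < 1 := by
    rw [e, v.map_neg]
    refine lt_of_le_of_lt ?_ h
    apply v.map_sum_le
    intro i _
    exact val_pow_sub_one_le v hvξ i
  rw [val_natCast_eq_one_of_not_dvd v hp hpv hn] at h3
  exact lt_irrefl 1 h3

/-- For a primitive `n`-th root of unity `c` with `p ∤ n`: `c ^ k ≡ 1` iff `n ∣ k`. -/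
theorem val_pow_sub_one_lt_iff_dvd (v : Valuation K Γ₀) {p : ℕ} (hp : p.Prime)
    (hpv : v (p : K) < 1) {n : ℕ} (hn : ¬ p ∣ n) {c : K} (hc : IsPrimitiveRoot c n) (k : ℕ) :
    v (c ^ k - 1) < 1 ↔ n ∣ k := by
  constructor
  · intro h
    apply hc.dvd_of_pow_eq_one
    apply eq_one_of_val_sub_one_lt v hp hpv hn _ h
    rw [← pow_mul, mul_comm, pow_mul, hc.pow_eq_one, one_pow]
  · rintro ⟨d, rfl⟩
    rw [pow_mul, hc.pow_eq_one, one_pow, sub_self, v.map_zero]
    exact zero_lt_one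

/-- The arithmetic of the niveau 2 case: with `c` of exact order `p ^ 2 - 1` in the residue
field, `j ≡ c ^ (p + 1)` and `τ₀ ≡ c ^ (p - 1) + c ^ (p ^ 2 - p)`, the only admissible level
in `(2, p ^ 2 + p)` not divisible by `p` is `p ^ 2 + 1`. -/
theorem not_adm_n2 (hp : p.Prime) (hvc : v c = 1)
    (hcord : ∀ k : ℕ, v (c ^ k - 1) < 1 ↔ (p ^ 2 - 1) ∣ k)
    (hj : v ((j : K) - c ^ (p + 1)) < 1)
    (hτ₀ : v ((τ₀ : K) - c ^ (p - 1) - c ^ (p ^ 2 - p)) < 1)
    {m : ℕ} (hm1 : 2 < m) (hm2 : m < (p + 1) * p) (hm3 : m ≠ p ^ 2 + 1) (hm4 : ¬ p ∣ m) :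
    ¬ v ((c ^ m) ^ 2 + (j : K) ^ 2 - (τ₀ : K) * (j : K) * c ^ m) < 1 := by
  intro hQ
  have hp2 : 2 ≤ p := hp.two_le
  have hpP : p ≤ p ^ 2 := Nat.le_self_pow (by norm_num) p
  have hNP : (p + 1) * p = p ^ 2 + p := by ring
  have hcp : ∀ k : ℕ, v (c ^ k) = 1 := fun k => by rw [v.map_pow, hvc, one_pow]
  have hvj : v (j : K) ≤ 1 := val_natCast_le_one v j
  have hone : v (c ^ (p ^ 2 - 1) - 1) < 1 := (hcord _).2 dvd_rfl
  -- exponent identities
  have e1 : c ^ (p - 1) * c ^ (p + 1) = c ^ (2 * p) := by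
    rw [← pow_add]; congr 1; omega
  have e2 : c ^ (p ^ 2 - p) * c ^ (p + 1) = c ^ (p ^ 2 + 1) := by
    rw [← pow_add]; congr 1; omega
  have e3 : c ^ (2 * p) * c ^ (p ^ 2 + 1) = c ^ (2 * p + 2) * c ^ (p ^ 2 - 1) := by
    rw [← pow_add, ← pow_add]; congr 1; omega
  -- the quadratic factors modulo the maximal ideal
  have hP : v ((c ^ m - c ^ (2 * p)) * (c ^ m - c ^ (p ^ 2 + 1))) < 1 := by
    have e : (c ^ m - c ^ (2 * p)) * (c ^ m - c ^ (p ^ 2 + 1)) =
        ((c ^ m) ^ 2 + (j : K) ^ 2 - (τ₀ : K) * (j : K) * c ^ m)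
          + ((τ₀ : K) - c ^ (p - 1) - c ^ (p ^ 2 - p)) * ((j : K) * c ^ m)
          + ((j : K) - c ^ (p + 1)) * ((c ^ (p - 1) + c ^ (p ^ 2 - p)) * c ^ m
              - ((j : K) + c ^ (p + 1)))
          + c ^ (2 * p + 2) * (c ^ (p ^ 2 - 1) - 1) := by
      have e4 : c ^ (2 * p + 2) = c ^ (p + 1) * c ^ (p + 1) := by
        rw [← pow_add]; congr 1; omega
      linear_combination (c ^ m) * e1 + (c ^ m) * e2 + e3 - c ^ (p ^ 2 - 1) * e4 + e4
    rw [e]
    apply v.map_add_lt (v.map_add_lt (v.map_add_lt hQ _) _)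
    · rw [v.map_mul, hcp, one_mul]; exact hone
    · rw [v.map_mul, v.map_mul, hcp, mul_one]
      calc v ((τ₀ : K) - c ^ (p - 1) - c ^ (p ^ 2 - p)) * v (j : K)
          ≤ v ((τ₀ : K) - c ^ (p - 1) - c ^ (p ^ 2 - p)) * 1 := by gcongr
        _ = v ((τ₀ : K) - c ^ (p - 1) - c ^ (p ^ 2 - p)) := mul_one _
        _ < 1 := hτ₀
    · rw [v.map_mul]
      have hle : v ((c ^ (p - 1) + c ^ (p ^ 2 - p)) * c ^ m - ((j : K) + c ^ (p + 1))) ≤ 1 := by
        apply v.map_sub_le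
        · rw [v.map_mul, hcp, mul_one]
          exact v.map_add_le (le_of_eq (hcp _)) (le_of_eq (hcp _))
        · exact v.map_add_le hvj (le_of_eq (hcp _))
      calc v ((j : K) - c ^ (p + 1)) * v ((c ^ (p - 1) + c ^ (p ^ 2 - p)) * c ^ m
            - ((j : K) + c ^ (p + 1)))
          ≤ v ((j : K) - c ^ (p + 1)) * 1 := by gcongr
        _ = v ((j : K) - c ^ (p + 1)) := mul_one _
        _ < 1 := hj
  -- one of the two factors is small
  have hor : v (c ^ m - c ^ (2 * p)) < 1 ∨ v (c ^ m - c ^ (p ^ 2 + 1)) < 1 := by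
    by_contra hcon
    have hA : v (c ^ m - c ^ (2 * p)) = 1 :=
      le_antisymm (v.map_sub_le (le_of_eq (hcp _)) (le_of_eq (hcp _)))
        (not_lt.1 (fun h => hcon (Or.inl h)))
    have hB : v (c ^ m - c ^ (p ^ 2 + 1)) = 1 :=
      le_antisymm (v.map_sub_le (le_of_eq (hcp _)) (le_of_eq (hcp _)))
        (not_lt.1 (fun h => hcon (Or.inr h)))
    rw [v.map_mul, hA, hB, mul_one] at hP
    exact lt_irrefl 1 hP
  -- a congruence `c ^ (k + d) ≡ c ^ k` forces `p ^ 2 - 1 ∣ d`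
  have hdiv : ∀ k d : ℕ, v (c ^ (k + d) - c ^ k) < 1 → (p ^ 2 - 1) ∣ d := by
    intro k d h
    have e : c ^ (k + d) - c ^ k = c ^ k * (c ^ d - 1) := by rw [pow_add]; ring
    rw [e, v.map_mul, hcp, one_mul] at h
    exact (hcord d).1 h
  have hm2p : m ≠ 2 * p := by
    rintro rfl; exact hm4 (dvd_mul_left p 2)
  have hP4 : 4 ≤ p ^ 2 := by nlinarith
  have hP2p : 2 * p ≤ p ^ 2 := by nlinarith
  rcases hor with h | h
  · rcases le_or_gt m (2 * p) with hle | hgt
    · have h1 := hdiv m (2 * p - m) (by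
        have : m + (2 * p - m) = 2 * p := by omega
        rw [this, v.map_sub_swap]; exact h)
      have h2 := Nat.le_of_dvd (by omega) h1
      omega
    · have h1 := hdiv (2 * p) (m - 2 * p) (by
        have : 2 * p + (m - 2 * p) = m := by omega
        rw [this]; exact h)
      have h2 := Nat.le_of_dvd (by omega) h1
      omega
  · rcases le_or_gt m (p ^ 2 + 1) with hle | hgt
    · have h1 := hdiv m (p ^ 2 + 1 - m) (by
        have : m + (p ^ 2 + 1 - m) = p ^ 2 + 1 := by omega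
        rw [this, v.map_sub_swap]; exact h)
      have h2 := Nat.le_of_dvd (by omega) h1
      omega
    · have h1 := hdiv (p ^ 2 + 1) (m - (p ^ 2 + 1)) (by
        have : p ^ 2 + 1 + (m - (p ^ 2 + 1)) = m := by omega
        rw [this]; exact h)
      have h2 := Nat.le_of_dvd (by omega) h1
      omega

/-- **N2 level count.**  `K` a tame field with `v (ζ - 1) = v π ^ (p + 1)` (ramification
index `p ^ 2 - 1`), `t` a tame endomorphism with `t π = π * c`, `c` of exact order `p ^ 2 - 1`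
in the residue field, `φ` a Frobenius endomorphism.  Families `U i : Λ → K` of Kummer
generators of level `≥ m₀ > 2` (e.g. `m₀ = p + 1` or `m₀ = p ^ 2 - 1`), equivariant for
`t` (`j ≡ c ^ (p + 1)`, `τ ∘ τ + 1 = τ₀ • τ`, `τ₀ ≡ c ^ (p - 1) + c ^ (p ^ 2 - p)`) and for
`φ`.  If `Λ` is generated by `g k`, `τ (g k)` (`k : κ`) and there are more than `card κ`
families, some combination with exponents not all divisible by `p` consists of `p`-th powers. -/
theorem exists_dependence_n2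
    (hp : p.Prime) (hζ : IsPrimitiveRoot ζ p) (hπ : IsUnif v π)
    (hlam : v (ζ - 1) = v π ^ (p + 1))
    (hperf : ∀ a : K, v a ≤ 1 → ∃ b : K, v (a - b ^ p) < 1)
    (hHens : ∀ u : K, v (u - 1) < v (ζ - 1) ^ p → ∃ x : K, x ^ p = u)
    (ht : ∀ x, v (t x) = v x) (htame : ∀ x, v x ≤ 1 → v (t x - x) < 1) (hc : t π = π * c)
    (hcord : ∀ k : ℕ, v (c ^ k - 1) < 1 ↔ (p ^ 2 - 1) ∣ k)
    (hj : v ((j : K) - c ^ (p + 1)) < 1)
    (hτ : ∀ ν, τ (τ ν) + ν = τ₀ • τ ν)
    (hτ₀ : v ((τ₀ : K) - c ^ (p - 1) - c ^ (p ^ 2 - p)) < 1)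
    (hφv : ∀ x, v (φ x) = v x) (hφ : ∀ x, v x ≤ 1 → v (φ x - x ^ p) < 1) (hcφ : φ π = π * cφ)
    (hφΛ : Function.Surjective φΛ) (hjφ : v (jφ : K) = 1)
    {m₀ : ℕ} (hm₀ : 2 < m₀) (hm₀' : m₀ ≤ p ^ 2 + 1)
    {ι : Type*} [Fintype ι] (U : ι → Λ → K)
    (hUt : ∀ i, IsFamily p t τ j (U i)) (hUφ : ∀ i, IsFamily p φ φΛ jφ (U i))
    (hlev : ∀ i ν, LevelGE v π p m₀ (U i ν))
    {κ : Type*} [Fintype κ] (g : κ → Λ)
    (hgen : AddSubgroup.closure (Set.range g ∪ Set.range (fun k => τ (g k))) = ⊤)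
    (hcard : Fintype.card κ < Fintype.card ι) :
    ∃ n : ι → ℕ, (∃ i, ¬ p ∣ n i) ∧ ∀ ν, PEq p (∏ i, U i ν ^ n i) 1 := by
  have hp2 : 2 ≤ p := hp.two_le
  have hpP : p ≤ p ^ 2 := Nat.le_self_pow (by norm_num) p
  have hP2p : 2 * p ≤ p ^ 2 := by nlinarith
  have hNP : (p + 1) * p = p ^ 2 + p := by ring
  have hvc : v c = 1 := val_eq_one_of_map_unif hπ ht hc
  have hcp : ∀ k : ℕ, v (c ^ k) = 1 := fun k => by rw [v.map_pow, hvc, one_pow]
  have hlam1 : v (ζ - 1) < 1 := by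
    rw [hlam]; exact pow_lt_one₀ zero_le hπ.lt_one (Nat.succ_ne_zero p)
  have hone : v (c ^ (p ^ 2 - 1) - 1) < 1 := (hcord _).2 dvd_rfl
  have hj1 : v (j : K) = 1 := by
    have e : (j : K) = c ^ (p + 1) + ((j : K) - c ^ (p + 1)) := by ring
    rw [e, v.map_add_eq_of_lt_left (by rw [hcp]; exact hj), hcp]
  -- `τ₀ - 2` is a unit
  have hτ₀2 : v ((τ₀ : K) - 2) = 1 := by
    have hx1 : v (c ^ (p - 1) - 1) = 1 := by
      refine le_antisymm (v.map_sub_le (le_of_eq (hcp _)) (le_of_eq v.map_one)) (not_lt.1 ?_)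
      intro h
      have h1 := (hcord _).1 h
      have h2 := Nat.le_of_dvd (by omega) h1
      omega
    have e1 : c ^ (p - 1) * c ^ (p ^ 2 - p) = c ^ (p ^ 2 - 1) := by
      rw [← pow_add]; congr 1; omega
    have e : c ^ (p - 1) * ((τ₀ : K) - 2) = (c ^ (p - 1) - 1) ^ 2 +
        (c ^ (p - 1) * ((τ₀ : K) - c ^ (p - 1) - c ^ (p ^ 2 - p)) + (c ^ (p ^ 2 - 1) - 1)) := by
      linear_combination e1
    have h3 : v (c ^ (p - 1) * ((τ₀ : K) - 2)) = 1 := by
      rw [e, v.map_add_eq_of_lt_left]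
      · rw [v.map_pow, hx1, one_pow]
      · rw [v.map_pow, hx1, one_pow]
        apply v.map_add_lt _ hone
        rw [v.map_mul, hcp, one_mul]; exact hτ₀
    rwa [v.map_mul, hcp, one_mul] at h3
  have hN : v (ζ - 1) ^ p = v π ^ ((p + 1) * p) := by rw [hlam, ← pow_mul]
  have hcN : v (c ^ ((p + 1) * p) - (j : K)) < 1 := by
    have e1 : c ^ ((p + 1) * p) = c ^ (p + 1) * c ^ (p ^ 2 - 1) := by
      rw [← pow_add]; congr 1; omega
    have e : c ^ ((p + 1) * p) - (j : K) =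
        c ^ (p + 1) * (c ^ (p ^ 2 - 1) - 1) - ((j : K) - c ^ (p + 1)) := by
      rw [e1]; ring
    rw [e]
    apply v.map_sub_lt _ hj
    rw [v.map_mul, hcp, one_mul]; exact hone
  have hpM : ¬ p ∣ p ^ 2 + 1 := by
    intro h
    have h1 : p ∣ 1 := (Nat.dvd_add_right (dvd_pow_self p (by norm_num))).1 h
    have := Nat.le_of_dvd one_pos h1
    omega
  exact exists_dependence_of_single_level hp hζ hπ hlam1 hperf hHens ht htame hc hτ hj1 hτ₀2
    hφv hφ hcφ hφΛ hjφ (by omega) hm₀' (by omega) hpM hN hcN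
    (fun m h1 h2 h3 h4 => not_adm_n2 hp hvc hcord hj hτ₀ (by omega) h2 h3 h4)
    U hUt hUφ hlev g hgen hcard

end N2

/-! ### General tame type: arbitrary ramification index `(p - 1) * E`, arbitrary `τ₀` -/

section Tame

variable {Λ : Type*} [AddCommGroup Λ]
variable {v : Valuation K Γ₀} {π ζ c cφ : K} {p j jφ τ₀ E : ℕ} {t φ : K →+* K} {τ φΛ : Λ →+ Λ}

/-- Climbing for a single element on which the tame endomorphism acts through `j`
(`t u ≡ u ^ j`): levels `m` with `c ^ m ≢ j` are never exact. -/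
theorem levelGE_of_eigen (hp : p.Prime) (hζ : IsPrimitiveRoot ζ p) (hπ : IsUnif v π)
    (hperf : ∀ a : K, v a ≤ 1 → ∃ b : K, v (a - b ^ p) < 1)
    (ht : ∀ x, v (t x) = v x) (htame : ∀ x, v x ≤ 1 → v (t x - x) < 1) (hc : t π = π * c)
    {u : K} (hu : PEq p (t u) (u ^ j)) {m₁ m₂ : ℕ} (hm₁ : 0 < m₁) (h12 : m₁ ≤ m₂)
    (htop : ∀ m, m₁ ≤ m → m < m₂ → v (ζ - 1) ^ p < v π ^ m)
    (hadm : ∀ m, m₁ ≤ m → m < m₂ → ¬ p ∣ m → ¬ v (c ^ m - (j : K)) < 1)
    (h : LevelGE v π p m₁ u) : LevelGE v π p m₂ u := by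
  induction m₂, h12 using Nat.le_induction with
  | base => exact h
  | succ n hn ih =>
    have h1 := ih (fun m h1 h2 => htop m h1 (Nat.lt_succ_of_lt h2))
      (fun m h1 h2 => hadm m h1 (Nat.lt_succ_of_lt h2))
    have hn0 : 0 < n := lt_of_lt_of_le hm₁ hn
    have htopn := htop n hn (Nat.lt_succ_self n)
    by_cases hpn : p ∣ n
    · exact h1.succ_of_dvd hp hζ hπ hperf hn0 hpn htopn
    · apply h1.succ_of_lead hp hζ hπ hpn htopn
      intro a ha
      by_contra hva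
      have hva1 : v a = 1 := le_antisymm ha.1 (not_lt.1 hva)
      obtain ⟨x, hx, hrel⟩ := hu
      exact hadm n hn (Nat.lt_succ_self n) hpn
        (ha.eigen hp hζ hπ hpn htopn t ht htame hc hva1 hx hrel)

/-- In a tame field with `v (ζ - 1) = v π ^ E` and `c` of exact order `(p - 1) * E`
(`p ≥ 3`), an element of level `≥ (p - 1) * E` on which `t` acts through `j ≡ c ^ E`
(a radicand attached to a `t`-invariant functional) has top level. -/
theorem levelGE_top_of_invariant (hp : p.Prime) (hp3 : 3 ≤ p) (hζ : IsPrimitiveRoot ζ p)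
    (hπ : IsUnif v π) (hE : 0 < E) (hlam : v (ζ - 1) = v π ^ E)
    (hperf : ∀ a : K, v a ≤ 1 → ∃ b : K, v (a - b ^ p) < 1)
    (ht : ∀ x, v (t x) = v x) (htame : ∀ x, v x ≤ 1 → v (t x - x) < 1) (hc : t π = π * c)
    (hcord : ∀ k : ℕ, v (c ^ k - 1) < 1 ↔ ((p - 1) * E) ∣ k)
    (hj : v ((j : K) - c ^ E) < 1) {u : K} (hu : PEq p (t u) (u ^ j))
    (h : LevelGE v π p ((p - 1) * E) u) : LevelGE v π p (p * E) u := by
  have hvc : v c = 1 := val_eq_one_of_map_unif hπ ht hc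
  have hcp : ∀ k : ℕ, v (c ^ k) = 1 := fun k => by rw [v.map_pow, hvc, one_pow]
  obtain ⟨e, he⟩ : ∃ e : ℕ, e = (p - 1) * E := ⟨_, rfl⟩
  have h2E : 2 * E ≤ e := by
    rw [he]; exact Nat.mul_le_mul_right E (by omega)
  have hpE : p * E = e + E := by
    have : p = (p - 1) + 1 := by omega
    rw [he]; nth_rewrite 1 [this]; ring
  rw [← he] at h hcord
  have hN : v (ζ - 1) ^ p = v π ^ (p * E) := by rw [hlam, ← pow_mul, mul_comm]
  apply levelGE_of_eigen hp hζ hπ hperf ht htame hc hu (by omega) (by omega) _ _ h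
  · intro m _ h2
    rw [hN]; exact pow_lt_pow_right_of_lt_one₀ hπ.val_pos hπ.lt_one h2
  · intro m h1 h2 _ hlt
    have h3 : v (c ^ (E + (m - E)) - c ^ E) < 1 := by
      have e1 : E + (m - E) = m := by omega
      have e2 : c ^ m - c ^ E = (c ^ m - (j : K)) + ((j : K) - c ^ E) := by ring
      rw [e1, e2]; exact v.map_add_lt hlt hj
    have e3 : c ^ (E + (m - E)) - c ^ E = c ^ E * (c ^ (m - E) - 1) := by rw [pow_add]; ring
    rw [e3, v.map_mul, hcp, one_mul] at h3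
    have h4 := (hcord _).1 h3
    have h5 := Nat.le_of_dvd (by omega) h4
    omega

/-- Two distinct levels in the window `[(p - 1) * E, p * E)` cannot both be admissible for
the three-term eigen-constraint (`p ≥ 3`, `c` of exact order `(p - 1) * E`, `j ≡ c ^ E`). -/
theorem adm_unique (hp3 : 3 ≤ p) (hvc : v c = 1)
    (hcord : ∀ k : ℕ, v (c ^ k - 1) < 1 ↔ ((p - 1) * E) ∣ k)
    (hj : v ((j : K) - c ^ E) < 1) {m m' : ℕ} (hm : (p - 1) * E ≤ m) (hmm : m < m')
    (hm' : m' < p * E)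
    (h : v ((c ^ m) ^ 2 + (j : K) ^ 2 - (τ₀ : K) * (j : K) * c ^ m) < 1)
    (h' : v ((c ^ m') ^ 2 + (j : K) ^ 2 - (τ₀ : K) * (j : K) * c ^ m') < 1) : False := by
  have hcp : ∀ k : ℕ, v (c ^ k) = 1 := fun k => by rw [v.map_pow, hvc, one_pow]
  have hvj : v (j : K) ≤ 1 := val_natCast_le_one v j
  obtain ⟨e, he⟩ : ∃ e : ℕ, e = (p - 1) * E := ⟨_, rfl⟩
  have h2E : 2 * E ≤ e := by
    rw [he]; exact Nat.mul_le_mul_right E (by omega)
  have hpE : p * E = e + E := by
    have : p = (p - 1) + 1 := by omega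
    rw [he]; nth_rewrite 1 [this]; ring
  rw [← he] at hm hcord
  -- the two values are distinct in the residue field
  have hdiff : v (c ^ m' - c ^ m) = 1 := by
    have e1 : c ^ m' - c ^ m = c ^ m * (c ^ (m' - m) - 1) := by
      rw [mul_sub, ← pow_add, mul_one]; congr 2; omega
    rw [e1, v.map_mul, hcp, one_mul]
    refine le_antisymm (v.map_sub_le (le_of_eq (hcp _)) (le_of_eq v.map_one)) (not_lt.1 ?_)
    intro hlt
    have h4 := (hcord _).1 hlt
    have h5 := Nat.le_of_dvd (by omega) h4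
    omega
  -- hence their sum is `τ₀ * j` and their product is `j ^ 2`
  have hsum : v (c ^ m' + c ^ m - (τ₀ : K) * (j : K)) < 1 := by
    have e1 : (c ^ m' - c ^ m) * (c ^ m' + c ^ m - (τ₀ : K) * (j : K)) =
        ((c ^ m') ^ 2 + (j : K) ^ 2 - (τ₀ : K) * (j : K) * c ^ m') -
          ((c ^ m) ^ 2 + (j : K) ^ 2 - (τ₀ : K) * (j : K) * c ^ m) := by ring
    have h3 : v ((c ^ m' - c ^ m) * (c ^ m' + c ^ m - (τ₀ : K) * (j : K))) < 1 := by
      rw [e1]; exact v.map_sub_lt h' h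
    rwa [v.map_mul, hdiff, one_mul] at h3
  have hprod : v (c ^ m * c ^ m' - (j : K) ^ 2) < 1 := by
    have e1 : c ^ m * c ^ m' - (j : K) ^ 2 =
        c ^ m * (c ^ m' + c ^ m - (τ₀ : K) * (j : K)) -
          ((c ^ m) ^ 2 + (j : K) ^ 2 - (τ₀ : K) * (j : K) * c ^ m) := by ring
    rw [e1]
    apply v.map_sub_lt _ h
    rw [v.map_mul, hcp, one_mul]; exact hsum
  have hjj : v ((j : K) ^ 2 - c ^ (2 * E)) < 1 := by
    have e1 : (j : K) ^ 2 - c ^ (2 * E) = ((j : K) - c ^ E) * ((j : K) + c ^ E) := by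
      rw [two_mul, pow_add]; ring
    rw [e1, v.map_mul]
    calc v ((j : K) - c ^ E) * v ((j : K) + c ^ E) ≤ v ((j : K) - c ^ E) * 1 := by
          gcongr
          exact v.map_add_le hvj (le_of_eq (hcp _))
      _ = v ((j : K) - c ^ E) := mul_one _
      _ < 1 := hj
  have h6 : v (c ^ (2 * E + (m + m' - 2 * E)) - c ^ (2 * E)) < 1 := by
    have e1 : 2 * E + (m + m' - 2 * E) = m + m' := by omega
    have e2 : c ^ (m + m') - c ^ (2 * E) =
        (c ^ m * c ^ m' - (j : K) ^ 2) + ((j : K) ^ 2 - c ^ (2 * E)) := by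
      rw [pow_add]; ring
    rw [e1, e2]; exact v.map_add_lt hprod hjj
  have e3 : c ^ (2 * E + (m + m' - 2 * E)) - c ^ (2 * E) =
      c ^ (2 * E) * (c ^ (m + m' - 2 * E) - 1) := by rw [pow_add]; ring
  rw [e3, v.map_mul, hcp, one_mul] at h6
  obtain ⟨q, hq⟩ := (hcord _).1 h6
  rcases q with _ | _ | q
  · omega
  · omega
  · have h7 : e * 2 ≤ e * (q + 1 + 1) := Nat.mul_le_mul_left e (by omega)
    omega

/-- **No admissible level ⟹ `p`-th powers.**  In a tame field (`v (ζ - 1) = v π ^ E`, `c`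
of exact order `(p - 1) * E`, `j ≡ c ^ E`), if no level of the window `[(p - 1) * E, p * E)`
is admissible for the three-term eigen-constraint, every member of a family of level
`≥ (p - 1) * E` is a `p`-th power.  (No Frobenius, no generators.) -/
theorem IsFamily.peq_one_of_not_adm {U : Λ → K}
    (hp : p.Prime) (hp3 : 3 ≤ p) (hζ : IsPrimitiveRoot ζ p) (hπ : IsUnif v π)
    (hE : 0 < E) (hlam : v (ζ - 1) = v π ^ E)
    (hperf : ∀ a : K, v a ≤ 1 → ∃ b : K, v (a - b ^ p) < 1)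
    (hHens : ∀ u : K, v (u - 1) < v (ζ - 1) ^ p → ∃ x : K, x ^ p = u)
    (ht : ∀ x, v (t x) = v x) (htame : ∀ x, v x ≤ 1 → v (t x - x) < 1) (hc : t π = π * c)
    (hcord : ∀ k : ℕ, v (c ^ k - 1) < 1 ↔ ((p - 1) * E) ∣ k)
    (hj : v ((j : K) - c ^ E) < 1)
    (hτ : ∀ ν, τ (τ ν) + ν = τ₀ • τ ν) (hτ₀ : v ((τ₀ : K) - 2) = 1)
    (hU : IsFamily p t τ j U) (hlev : ∀ ν, LevelGE v π p ((p - 1) * E) (U ν))
    (hna : ∀ m, (p - 1) * E ≤ m → m < p * E → ¬ p ∣ m →
      ¬ v ((c ^ m) ^ 2 + (j : K) ^ 2 - (τ₀ : K) * (j : K) * c ^ m) < 1) (ν : Λ) :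
    PEq p (U ν) 1 := by
  have hvc : v c = 1 := val_eq_one_of_map_unif hπ ht hc
  have hcp : ∀ k : ℕ, v (c ^ k) = 1 := fun k => by rw [v.map_pow, hvc, one_pow]
  have hlam1 : v (ζ - 1) < 1 := by
    rw [hlam]; exact pow_lt_one₀ zero_le hπ.lt_one hE.ne'
  have hpv : v (p : K) < 1 := val_prime_lt_one v hp hζ hlam1
  have he0 : 0 < (p - 1) * E := Nat.mul_pos (by omega) hE
  have hpE : p * E = (p - 1) * E + E := by
    have : p = (p - 1) + 1 := by omega
    nth_rewrite 1 [this]; ring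
  have hj1 : v (j : K) = 1 := by
    have e : (j : K) = c ^ E + ((j : K) - c ^ E) := by ring
    rw [e, v.map_add_eq_of_lt_left (by rw [hcp]; exact hj), hcp]
  have hN : v (ζ - 1) ^ p = v π ^ (p * E) := by rw [hlam, ← pow_mul, mul_comm]
  have hcN : v (c ^ (p * E) - (j : K)) < 1 := by
    have e : c ^ (p * E) - (j : K) =
        c ^ E * (c ^ ((p - 1) * E) - 1) - ((j : K) - c ^ E) := by
      rw [hpE, pow_add]; ring
    rw [e]
    apply v.map_sub_lt _ hj
    rw [v.map_mul, hcp, one_mul]; exact (hcord _).2 dvd_rfl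
  have hlevN : ∀ ν, LevelGE v π p (p * E) (U ν) := fun ν =>
    hU.levelGE_of_le hp hζ hπ hperf ht htame hc hτ he0 (by omega)
      (fun m _ h2 => by
        rw [hN]; exact pow_lt_pow_right_of_lt_one₀ hπ.val_pos hπ.lt_one h2)
      hna (hlev ν)
  exact hU.peq_one_of_top hp hπ hHens ht htame hc hτ (by omega) (le_of_eq hN.symm)
    hcN hj1 hτ₀ hpv hlevN ν

/-- **The scalar type `τ = -1`** (`τ₀ ≡ -2`, i.e. the two eigenvalues of `τ` coincide and
equal `-1`; `p ≥ 5`): no level of the window is admissible, so every member of a family of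
level `≥ (p - 1) * E` is a `p`-th power. -/
theorem IsFamily.peq_one_of_neg_two {U : Λ → K}
    (hp : p.Prime) (hp5 : 5 ≤ p) (hζ : IsPrimitiveRoot ζ p) (hπ : IsUnif v π)
    (hE : 0 < E) (hlam : v (ζ - 1) = v π ^ E)
    (hperf : ∀ a : K, v a ≤ 1 → ∃ b : K, v (a - b ^ p) < 1)
    (hHens : ∀ u : K, v (u - 1) < v (ζ - 1) ^ p → ∃ x : K, x ^ p = u)
    (ht : ∀ x, v (t x) = v x) (htame : ∀ x, v x ≤ 1 → v (t x - x) < 1) (hc : t π = π * c)
    (hcord : ∀ k : ℕ, v (c ^ k - 1) < 1 ↔ ((p - 1) * E) ∣ k)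
    (hj : v ((j : K) - c ^ E) < 1)
    (hτ : ∀ ν, τ (τ ν) + ν = τ₀ • τ ν) (hτ₀ : v ((τ₀ : K) + 2) < 1)
    (hU : IsFamily p t τ j U) (hlev : ∀ ν, LevelGE v π p ((p - 1) * E) (U ν)) (ν : Λ) :
    PEq p (U ν) 1 := by
  have hvc : v c = 1 := val_eq_one_of_map_unif hπ ht hc
  have hcp : ∀ k : ℕ, v (c ^ k) = 1 := fun k => by rw [v.map_pow, hvc, one_pow]
  have hvj : v (j : K) ≤ 1 := val_natCast_le_one v j
  have hlam1 : v (ζ - 1) < 1 := by
    rw [hlam]; exact pow_lt_one₀ zero_le hπ.lt_one hE.ne'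
  have hpv : v (p : K) < 1 := val_prime_lt_one v hp hζ hlam1
  -- `p - 1 = 2 * q`
  obtain ⟨q, hq⟩ : ∃ q, p - 1 = 2 * q := by
    rcases hp.eq_two_or_odd with h2 | hodd
    · omega
    · exact ⟨(p - 1) / 2, by omega⟩
  have hq2 : 2 ≤ q := by omega
  obtain ⟨e, he⟩ : ∃ e : ℕ, e = (p - 1) * E := ⟨_, rfl⟩
  have heq : e = 2 * (q * E) := by rw [he, hq]; ring
  have hqE : 2 * E ≤ q * E := Nat.mul_le_mul_right E hq2
  have hpE : p * E = e + E := by
    have : p = (p - 1) + 1 := by omega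
    rw [he]; nth_rewrite 1 [this]; ring
  -- `2` is a unit, hence `τ₀ - 2` is a unit
  have h2 : v (2 : K) = 1 := by
    have := val_natCast_eq_one_of_not_dvd v hp hpv (n := 2) (by
      intro h; have := Nat.le_of_dvd (by norm_num) h; omega)
    simpa using this
  have h4 : v (4 : K) = 1 := by
    have e4 : (4 : K) = 2 * 2 := by norm_num
    rw [e4, v.map_mul, h2, one_mul]
  have hτ₀2 : v ((τ₀ : K) - 2) = 1 := by
    have e1 : (τ₀ : K) - 2 = -4 + ((τ₀ : K) + 2) := by ring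
    rw [e1, v.map_add_eq_of_lt_left (by rw [v.map_neg, h4]; exact hτ₀), v.map_neg, h4]
  -- `c ^ (q * E) ≡ -1`
  have hneg : v (c ^ (q * E) + 1) < 1 := by
    have h1 : v (c ^ (q * E) - 1) = 1 := by
      refine le_antisymm (v.map_sub_le (le_of_eq (hcp _)) (le_of_eq v.map_one)) (not_lt.1 ?_)
      intro hlt
      have h3 := (hcord _).1 hlt
      rw [← he] at h3
      have h5 := Nat.le_of_dvd (by omega) h3
      omega
    have h3 : v ((c ^ (q * E) - 1) * (c ^ (q * E) + 1)) < 1 := by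
      have e1 : (c ^ (q * E) - 1) * (c ^ (q * E) + 1) = c ^ ((p - 1) * E) - 1 := by
        rw [← he, heq, two_mul, pow_add]; ring
      rw [e1]; exact (hcord _).2 dvd_rfl
    rwa [v.map_mul, h1, one_mul] at h3
  apply hU.peq_one_of_not_adm hp (by omega) hζ hπ hE hlam hperf hHens ht htame hc hcord hj hτ hτ₀2
    hlev
  intro m hm1 hm2 _ hadm
  rw [← he] at hm1 hcord
  -- `(c ^ m + j) ^ 2` is small
  have hsq : v ((c ^ m + (j : K)) * (c ^ m + (j : K))) < 1 := by
    have e1 : (c ^ m + (j : K)) * (c ^ m + (j : K)) =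
        ((c ^ m) ^ 2 + (j : K) ^ 2 - (τ₀ : K) * (j : K) * c ^ m) +
          ((τ₀ : K) + 2) * ((j : K) * c ^ m) := by ring
    rw [e1]
    apply v.map_add_lt hadm
    rw [v.map_mul, v.map_mul, hcp, mul_one]
    calc v ((τ₀ : K) + 2) * v (j : K) ≤ v ((τ₀ : K) + 2) * 1 := by gcongr
      _ = v ((τ₀ : K) + 2) := mul_one _
      _ < 1 := hτ₀
  have hlin : v (c ^ m + (j : K)) < 1 := by
    by_contra hcon
    have h1 : v (c ^ m + (j : K)) = 1 :=
      le_antisymm (v.map_add_le (le_of_eq (hcp _)) hvj) (not_lt.1 hcon)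
    rw [v.map_mul, h1, one_mul] at hsq
    exact lt_irrefl 1 hsq
  -- hence `c ^ m ≡ c ^ (E + q * E)`
  have h6 : v (c ^ ((E + q * E) + (m - (E + q * E))) - c ^ (E + q * E)) < 1 := by
    have e1 : (E + q * E) + (m - (E + q * E)) = m := by omega
    have e2 : c ^ m - c ^ (E + q * E) =
        (c ^ m + (j : K)) - ((j : K) - c ^ E) - c ^ E * (c ^ (q * E) + 1) := by
      rw [pow_add]; ring
    rw [e1, e2]
    apply v.map_sub_lt (v.map_sub_lt hlin hj)
    rw [v.map_mul, hcp, one_mul]; exact hneg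
  have e3 : c ^ ((E + q * E) + (m - (E + q * E))) - c ^ (E + q * E) =
      c ^ (E + q * E) * (c ^ (m - (E + q * E)) - 1) := by rw [pow_add]; ring
  rw [e3, v.map_mul, hcp, one_mul] at h6
  have h7 := (hcord _).1 h6
  have h8 := Nat.le_of_dvd (by omega) h7
  omega

/-- **Level count for an arbitrary tame type** (track B form).  `K` a tame field with
`v (ζ - 1) = v π ^ E`, `t` a tame endomorphism with `c = t π / π` of exact order
`(p - 1) * E` in the residue field, `j ≡ c ^ E`, `φ` a Frobenius endomorphism; `p ≥ 3`.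
Families `U i : Λ → K` of Kummer generators of level `≥ (p - 1) * E` (the Fontaine bound),
equivariant for `t` (with `τ ∘ τ + 1 = τ₀ • τ`, `τ₀ - 2` a unit: no further condition on the
type) and for `φ`.  If `Λ` is generated by `g k`, `τ (g k)` (`k : κ`) and there are more than
`card κ` families, some combination with exponents not all divisible by `p` consists of
`p`-th powers. -/
theorem exists_dependence_tame
    (hp : p.Prime) (hp3 : 3 ≤ p) (hζ : IsPrimitiveRoot ζ p) (hπ : IsUnif v π)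
    (hE : 0 < E) (hlam : v (ζ - 1) = v π ^ E)
    (hperf : ∀ a : K, v a ≤ 1 → ∃ b : K, v (a - b ^ p) < 1)
    (hHens : ∀ u : K, v (u - 1) < v (ζ - 1) ^ p → ∃ x : K, x ^ p = u)
    (ht : ∀ x, v (t x) = v x) (htame : ∀ x, v x ≤ 1 → v (t x - x) < 1) (hc : t π = π * c)
    (hcord : ∀ k : ℕ, v (c ^ k - 1) < 1 ↔ ((p - 1) * E) ∣ k)
    (hj : v ((j : K) - c ^ E) < 1)
    (hτ : ∀ ν, τ (τ ν) + ν = τ₀ • τ ν) (hτ₀ : v ((τ₀ : K) - 2) = 1)
    (hφv : ∀ x, v (φ x) = v x) (hφ : ∀ x, v x ≤ 1 → v (φ x - x ^ p) < 1) (hcφ : φ π = π * cφ)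
    (hφΛ : Function.Surjective φΛ) (hjφ : v (jφ : K) = 1)
    {ι : Type*} [Fintype ι] (U : ι → Λ → K)
    (hUt : ∀ i, IsFamily p t τ j (U i)) (hUφ : ∀ i, IsFamily p φ φΛ jφ (U i))
    (hlev : ∀ i ν, LevelGE v π p ((p - 1) * E) (U i ν))
    {κ : Type*} [Fintype κ] (g : κ → Λ)
    (hgen : AddSubgroup.closure (Set.range g ∪ Set.range (fun k => τ (g k))) = ⊤)
    (hcard : Fintype.card κ < Fintype.card ι) :
    ∃ n : ι → ℕ, (∃ i, ¬ p ∣ n i) ∧ ∀ ν, PEq p (∏ i, U i ν ^ n i) 1 := by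
  classical
  have hvc : v c = 1 := val_eq_one_of_map_unif hπ ht hc
  have hcp : ∀ k : ℕ, v (c ^ k) = 1 := fun k => by rw [v.map_pow, hvc, one_pow]
  have hlam1 : v (ζ - 1) < 1 := by
    rw [hlam]; exact pow_lt_one₀ zero_le hπ.lt_one hE.ne'
  have hpv : v (p : K) < 1 := val_prime_lt_one v hp hζ hlam1
  have he0 : 0 < (p - 1) * E := Nat.mul_pos (by omega) hE
  have h2E : 2 * E ≤ (p - 1) * E := Nat.mul_le_mul_right E (by omega)
  have hpE : p * E = (p - 1) * E + E := by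
    have : p = (p - 1) + 1 := by omega
    nth_rewrite 1 [this]; ring
  have hj1 : v (j : K) = 1 := by
    have e : (j : K) = c ^ E + ((j : K) - c ^ E) := by ring
    rw [e, v.map_add_eq_of_lt_left (by rw [hcp]; exact hj), hcp]
  have hN : v (ζ - 1) ^ p = v π ^ (p * E) := by rw [hlam, ← pow_mul, mul_comm]
  have hcN : v (c ^ (p * E) - (j : K)) < 1 := by
    have e : c ^ (p * E) - (j : K) =
        c ^ E * (c ^ ((p - 1) * E) - 1) - ((j : K) - c ^ E) := by
      rw [hpE, pow_add]; ring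
    rw [e]
    apply v.map_sub_lt _ hj
    rw [v.map_mul, hcp, one_mul]; exact (hcord _).2 dvd_rfl
  by_cases hex : ∃ M, (p - 1) * E ≤ M ∧ M < p * E ∧ ¬ p ∣ M ∧
      v ((c ^ M) ^ 2 + (j : K) ^ 2 - (τ₀ : K) * (j : K) * c ^ M) < 1
  · obtain ⟨M, hM1, hM2, hM3, hM4⟩ := hex
    refine exists_dependence_of_single_level hp hζ hπ hlam1 hperf hHens ht htame hc hτ hj1 hτ₀
      hφv hφ hcφ hφΛ hjφ he0 hM1 hM2 hM3 hN hcN ?_ U hUt hUφ hlev g hgen hcard
    intro m h1 h2 h3 _ h5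
    rcases lt_or_gt_of_ne h3 with h6 | h6
    · exact adm_unique hp3 hvc hcord hj h1 h6 hM2 h5 hM4
    · exact adm_unique hp3 hvc hcord hj hM1 h6 h2 hM4 h5
  · -- no admissible level: every family consists of `p`-th powers
    have hall : ∀ i ν, PEq p (U i ν) 1 := fun i =>
      (hUt i).peq_one_of_not_adm hp hp3 hζ hπ hE hlam hperf hHens ht htame hc hcord hj hτ hτ₀
        (hlev i) (fun m h1 h2 hpm hadm => hex ⟨m, h1, h2, hpm, hadm⟩)
    have hι : 0 < Fintype.card ι := lt_of_le_of_lt (Nat.zero_le _) hcard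
    obtain ⟨i₀⟩ := Fintype.card_pos_iff.1 hι
    refine ⟨fun i => if i = i₀ then 1 else 0, ⟨i₀, ?_⟩, fun ν => ?_⟩
    · show ¬ p ∣ (if i₀ = i₀ then 1 else 0)
      rw [if_pos rfl]
      intro h
      have := Nat.le_of_dvd one_pos h
      omega
    · have e : ∏ i, U i ν ^ (if i = i₀ then 1 else 0) = U i₀ ν := by
        rw [Finset.prod_eq_single i₀]
        · rw [if_pos rfl, pow_one]
        · intro b _ hb
          rw [if_neg hb, pow_zero]
        · intro h
          exact absurd (Finset.mem_univ i₀) h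
      rw [e]; exact hall i₀ ν

end Tame

/-! ### Generators from a cyclic vector -/

section Generators

/-- **The generation hypothesis of the count, from a cyclic vector.**  If `Λ` is a module over
a finite extension `k` of `𝔽_p`, `τ` is `k`-linear and `ν₀`, `τ ν₀` span `Λ` over `k` (e.g.
`Λ` of dimension 2 and `ν₀` not an eigenvector), then `Λ` is generated as a group by
`g i`, `τ (g i)` for the `[k : 𝔽_p]` elements `g i = b i • ν₀` (`b` a basis of `k`). -/
theorem closure_eq_top_of_cyclic {p : ℕ} [Fact p.Prime] {k : Type*} [Field k]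
    [Algebra (ZMod p) k] {n : ℕ} (b : Module.Basis (Fin n) (ZMod p) k)
    {Λ : Type*} [AddCommGroup Λ] [Module k Λ] (τ : Λ →ₗ[k] Λ) (ν₀ : Λ)
    (hν₀ : Submodule.span k {ν₀, τ ν₀} = ⊤) :
    AddSubgroup.closure (Set.range (fun i => b i • ν₀) ∪
      Set.range (fun i => τ (b i • ν₀))) = ⊤ := by
  classical
  set S : Set Λ := Set.range (fun i => b i • ν₀) ∪ Set.range (fun i => τ (b i • ν₀)) with hS
  have hcast : ∀ z : ZMod p, algebraMap (ZMod p) k z = ((z.val : ℕ) : k) := by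
    intro z
    conv_lhs => rw [← ZMod.natCast_zmod_val z]
    rw [map_natCast]
  have hx : ∀ x : k, x = ∑ i, (((b.repr x i).val : ℕ) : k) * b i := by
    intro x
    conv_lhs => rw [← b.sum_repr x]
    apply Finset.sum_congr rfl
    intro i _
    rw [Algebra.smul_def, hcast]
  have h1 : ∀ x : k, x • ν₀ ∈ AddSubgroup.closure S := by
    intro x
    have e : x • ν₀ = ∑ i, (b.repr x i).val • (b i • ν₀) := by
      conv_lhs => rw [hx x]
      rw [Finset.sum_smul]
      apply Finset.sum_congr rfl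
      intro i _
      rw [mul_smul, Nat.cast_smul_eq_nsmul]
    rw [e]
    apply AddSubgroup.sum_mem
    intro i _
    apply AddSubgroup.nsmul_mem
    exact AddSubgroup.subset_closure (Or.inl ⟨i, rfl⟩)
  have h2 : ∀ y : k, y • τ ν₀ ∈ AddSubgroup.closure S := by
    intro y
    have e : y • τ ν₀ = ∑ i, (b.repr y i).val • τ (b i • ν₀) := by
      conv_lhs => rw [hx y]
      rw [Finset.sum_smul]
      apply Finset.sum_congr rfl
      intro i _
      rw [mul_smul, Nat.cast_smul_eq_nsmul, map_smul]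
    rw [e]
    apply AddSubgroup.sum_mem
    intro i _
    apply AddSubgroup.nsmul_mem
    exact AddSubgroup.subset_closure (Or.inr ⟨i, rfl⟩)
  rw [eq_top_iff]
  intro ν _
  have hν : ν ∈ Submodule.span k {ν₀, τ ν₀} := by rw [hν₀]; exact Submodule.mem_top
  obtain ⟨x, y, rfl⟩ := Submodule.mem_span_pair.1 hν
  exact AddSubgroup.add_mem _ (h1 x) (h2 y)

end Generators

end Fermat.Agent.S56.helper4188
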