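/-
S56 node FLAT-N2-ASM (helper2999): the abstract assembly of the irreducible (niveau 2) flat
tangent bound at `p`, in the frozen Galois vocabulary (`Qb = AlgebraicClosure ℚ`,
`GQ = Gal(ℚ̄/ℚ)`, `A` a valuation subring of `ℚ̄` over `p`, `D`/`I` its decomposition / inertia
group).

Inputs (hypothesis passing):
* Kummer dictionary `helper164_KummerDict` and the level count `helper4188_N2Level`;
* TAMEK0 data on the fixed field of `J = I ⊓ N` (`TameData`);
* the type data of the adjoint action (functionals `pair w`, `τ`, `φW`, `τ₀`);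
* the Fontaine bound in Kummer form for a cocycle (`FBOn`, the conclusion of the captain's
  junction `helper6366.Stmt_FB`).

Output: `TameData.exists_dependence` — among `f + 1` level cocycles (`#k = p ^ f`) with values
in a subgroup `S` separated by the functionals, whose radicands over `J` satisfy the Fontaine
condition, some combination with natural coefficients, not all divisible by `p`, vanishes on
`J` (the hypothesis `hdep` of `helper6022.flatTangentAt_of_dependence`).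
-/
import Mathlib
import Fermat.Agent.S05.helper4205_Inertia
import Fermat.Agent.Lib.helper3858_ResidueQbar
import Fermat.Agent.Lib.helper54_Frobenius
import Fermat.Agent.S56.helper4188_N2Level
import Fermat.Agent.S56.helper164_KummerDict

set_option autoImplicit false

namespace Fermat.Agent.S56.helper2999

open Fermat.Agent.S56.helper164 Fermat.Agent.S56.helper4188
open Module

attribute [local instance] Fermat.Agent.Lib.helper54.isAlgebraic_Qbar

/-! ### The Fontaine condition `u ≡ 1 mod p` up to `p`-th powers -/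

section FB

variable {K : Type*} [Field K] {Γ₀ : Type*} [LinearOrderedCommGroupWithZero Γ₀]

/-- `u ≡ 1` modulo `p`, up to a nonzero `p`-th power. -/
def IsFB (v : Valuation K Γ₀) (p : ℕ) (u : K) : Prop :=
  ∃ x : K, x ≠ 0 ∧ v (u * x ^ p - 1) ≤ v (p : K)

theorem isFB_iff_levelGE {v : Valuation K Γ₀} {p m : ℕ} {π : K} (hπ : v π ^ m = v (p : K))
    (u : K) : IsFB v p u ↔ LevelGE v π p m u := by
  unfold IsFB LevelGE
  rw [hπ]

theorem IsFB.mul {v : Valuation K Γ₀} {p : ℕ} {u u' : K} (h : IsFB v p u) (h' : IsFB v p u') :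
    IsFB v p (u * u') := by
  obtain ⟨x, hx, h⟩ := h
  obtain ⟨x', hx', h'⟩ := h'
  refine ⟨x * x', mul_ne_zero hx hx', ?_⟩
  have hp1 : v (p : K) ≤ 1 := val_natCast_le_one v p
  have e : u * u' * (x * x') ^ p - 1 =
      (u * x ^ p - 1) + (u' * x' ^ p - 1) + (u * x ^ p - 1) * (u' * x' ^ p - 1) := by ring
  rw [e]
  refine v.map_add_le (v.map_add_le h h') ?_
  rw [v.map_mul]
  calc v (u * x ^ p - 1) * v (u' * x' ^ p - 1) ≤ v (p : K) * 1 := mul_le_mul' h (h'.trans hp1)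
    _ = v (p : K) := mul_one _

theorem IsFB.one (v : Valuation K Γ₀) (p : ℕ) : IsFB v p (1 : K) :=
  ⟨1, one_ne_zero, by simp⟩

theorem IsFB.mul_pow {v : Valuation K Γ₀} {p : ℕ} {u : K} (h : IsFB v p u) {w : K}
    (hw : w ≠ 0) : IsFB v p (u * w ^ p) := by
  obtain ⟨x, hx, h⟩ := h
  refine ⟨x / w, div_ne_zero hx hw, ?_⟩
  have e : u * w ^ p * (x / w) ^ p = u * x ^ p := by
    rw [div_pow]; field_simp
  rw [e]; exact h

theorem IsFB.pow {v : Valuation K Γ₀} {p : ℕ} {u : K} (h : IsFB v p u) (n : ℕ) :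
    IsFB v p (u ^ n) := by
  induction n with
  | zero => simpa using IsFB.one v p
  | succ n ih => rw [pow_succ]; exact ih.mul h

theorem isFB_pow_self (v : Valuation K Γ₀) (p : ℕ) {w : K} (hw : w ≠ 0) : IsFB v p (w ^ p) := by
  simpa using (IsFB.one v p).mul_pow hw

end FB

/-! ### The valuation on a fixed field; top level implies trivial on inertia -/

section Local

variable {p : ℕ} [Fact p.Prime] (A : ValuationSubring Qb)

/-- The valuation of `A` on the fixed field of `J`. -/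
noncomputable abbrev valK (J : Subgroup GQ) : Valuation (fixedK J) A.ValueGroup :=
  A.valuation.comap (algebraMap (fixedK J) Qb)

theorem valK_apply (J : Subgroup GQ) (x : fixedK J) : valK A J x = A.valuation (x : Qb) := rfl

/-- **Top level ⟹ unramified.**  If the radicand `u` of `χ` on `J ≤ I` is `≡ 1` modulo
`(ζ - 1) ^ p` up to a `p`-th power of the fixed field, then `χ` vanishes on `J`. -/
theorem radicand_top_vanish {J : Subgroup GQ} (hJI : J ≤ A.inertiaSubgroupIn ℚ) {ζ : Qb}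
    (hζ : IsPrimitiveRoot ζ p) (hJζ : ∀ g ∈ J, g ζ = ζ) (hlam : A.valuation (ζ - 1) < 1)
    {χ : GQ → ZMod p} {u : fixedK J} (hu : IsRadicand J ζ χ u) (w : fixedK J) (hw : w ≠ 0)
    (h : A.valuation ((u : Qb) * (w : Qb) ^ p - 1) ≤ A.valuation (ζ - 1) ^ p) :
    ∀ g ∈ J, χ g = 0 := by
  obtain ⟨y, hy, hg⟩ := hu
  intro σ hσ
  have hp := (Fact.out : p.Prime)
  have hw0 : (w : Qb) ≠ 0 := fun h0 => hw (Subtype.ext h0)
  have hz : A.valuation ((y * (w : Qb)) ^ p - 1) ≤ A.valuation (ζ - 1) ^ p := by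
    rw [mul_pow, hy]; exact h
  have hσI := hJI hσ
  have hfixw : σ (w : Qb) = w := mem_fixedK.1 w.2 σ hσ
  have hfixu : σ (u : Qb) = u := mem_fixedK.1 u.2 σ hσ
  have hfix : (σ : Qb →+* Qb) (y * (w : Qb)) = y * (w : Qb) := by
    refine fixed_of_top_level A.valuation hp hζ hlam hz (σ : Qb →+* Qb) (hJζ σ hσ) ?_ ?_
    · show σ ((y * (w : Qb)) ^ p) = (y * (w : Qb)) ^ p
      rw [mul_pow, hy, map_mul, map_pow, hfixu, hfixw]
    · intro x hx
      have hxA : x ∈ A := (ValuationSubring.valuation_le_one_iff A x).1 hx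
      have := Fermat.Agent.S05.helper4205.apply_sub_mem_nonunits hσI hxA
      exact (ValuationSubring.mem_nonunits_iff (A := A)).1 this
  have hσy : σ y = y := by
    have h1 : σ y * (w : Qb) = y * (w : Qb) := by
      have h2 : σ (y * (w : Qb)) = y * (w : Qb) := hfix
      rwa [map_mul, hfixw] at h2
    exact mul_right_cancel₀ hw0 h1
  have h3 := hg.apply_eq hσ
  rw [hσy] at h3
  have h4 : ζ ^ (χ σ).val = ζ ^ (0 : ZMod p).val := by
    rw [zpowv_zero]
    have h5 : (ζ ^ (χ σ).val - 1) * y = 0 := by rw [sub_mul, one_mul, ← h3, sub_self]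
    rcases mul_eq_zero.1 h5 with h6 | h6
    · exact sub_eq_zero.1 h6
    · exact absurd h6 hg.1
  exact zpowv_injective hζ h4

end Local

/-! ### Level cocycles on a subgroup and their radicands -/

section Coc

variable {p : ℕ} [Fact p.Prime] {k : Type} [Field k] {Mod : Type} [AddCommGroup Mod]
  [Module k Mod]

open Classical in
/-- Extension by zero to `GQ` of a function on a subgroup. -/
noncomputable def ext0 (D : Subgroup GQ) : (↥D → Mod) →+ (GQ → Mod) where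
  toFun c g := if h : g ∈ D then c ⟨g, h⟩ else 0
  map_zero' := by funext g; by_cases h : g ∈ D <;> simp [h]
  map_add' c c' := by funext g; by_cases h : g ∈ D <;> simp [h]

theorem ext0_of_mem (D : Subgroup GQ) (c : ↥D → Mod) {g : GQ} (hg : g ∈ D) :
    ext0 D c g = c ⟨g, hg⟩ := dif_pos hg

theorem ext0_smul (D : Subgroup GQ) (a : k) (c : ↥D → Mod) (g : GQ) :
    ext0 D (a • c) g = a • ext0 D c g := by
  by_cases h : g ∈ D
  · rw [ext0_of_mem D _ h, ext0_of_mem D _ h, Pi.smul_apply]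
  · simp [ext0, h]

/-- Level `1`-cocycles on the subgroup `D` with values in `Mod`. -/
structure IsCoc (D : Subgroup GQ) (ρ : GQ →* (Mod →ₗ[k] Mod)) (c : ↥D → Mod) : Prop where
  coc : ∀ g h : ↥D, c (g * h) = c g + ρ (g : GQ) (c h)
  level : ∃ F : IntermediateField ℚ Qb, FiniteDimensional ℚ F ∧
    ∀ g s : ↥D, (s : GQ) ∈ F.fixingSubgroup → c (g * s) = c g

namespace IsCoc

variable {D : Subgroup GQ} {ρ : GQ →* (Mod →ₗ[k] Mod)} {c c' : ↥D → Mod}

theorem zero : IsCoc D ρ (0 : ↥D → Mod) :=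
  ⟨fun g h => by simp, ⊥, inferInstance, fun _ _ _ => rfl⟩

theorem add (hc : IsCoc D ρ c) (hc' : IsCoc D ρ c') : IsCoc D ρ (c + c') := by
  obtain ⟨F, hF, h⟩ := hc.level
  obtain ⟨F', hF', h'⟩ := hc'.level
  have := hF
  have := hF'
  refine ⟨fun g h => ?_, F ⊔ F', IntermediateField.finiteDimensional_sup F F', fun g s hs => ?_⟩
  · simp only [Pi.add_apply, hc.coc g h, hc'.coc g h, map_add]
    abel
  · simp only [Pi.add_apply,
      h g s (IntermediateField.fixingSubgroup_antitone le_sup_left hs),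
      h' g s (IntermediateField.fixingSubgroup_antitone le_sup_right hs)]

theorem smul (hc : IsCoc D ρ c) (a : k) : IsCoc D ρ (a • c) := by
  obtain ⟨F, hF, h⟩ := hc.level
  refine ⟨fun g h => ?_, F, hF, fun g s hs => ?_⟩
  · simp only [Pi.smul_apply, hc.coc g h, smul_add, map_smul]
  · simp only [Pi.smul_apply, h g s hs]

theorem nsmul (hc : IsCoc D ρ c) (n : ℕ) : IsCoc D ρ (n • c) := by
  rw [← Nat.cast_smul_eq_nsmul k]
  exact hc.smul _

theorem sum {ι : Type*} (s : Finset ι) {x : ι → ↥D → Mod} (hx : ∀ i ∈ s, IsCoc D ρ (x i)) :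
    IsCoc D ρ (∑ i ∈ s, x i) := by
  classical
  induction s using Finset.induction_on with
  | empty => simpa using (zero : IsCoc D ρ (0 : ↥D → Mod))
  | insert a s ha ih =>
    rw [Finset.sum_insert ha]
    exact (hx a (Finset.mem_insert_self a s)).add
      (ih fun i hi => hx i (Finset.mem_insert_of_mem hi))

theorem map_one (hc : IsCoc D ρ c) : c 1 = 0 := by
  have h := hc.coc 1 1
  rw [mul_one, Subgroup.coe_one, _root_.map_one, Module.End.one_apply] at h
  simpa using h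

theorem ext0_mul (hc : IsCoc D ρ c) {g h : GQ} (hg : g ∈ D) (hh : h ∈ D) :
    ext0 D c (g * h) = ext0 D c g + ρ g (ext0 D c h) := by
  rw [ext0_of_mem D c (D.mul_mem hg hh), ext0_of_mem D c hg, ext0_of_mem D c hh]
  exact hc.coc ⟨g, hg⟩ ⟨h, hh⟩

theorem ext0_one (hc : IsCoc D ρ c) : ext0 D c 1 = 0 := by
  rw [ext0_of_mem D c D.one_mem]
  exact hc.map_one

/-- Conjugation: `c (g⁻¹ x g) = g⁻¹ • c x` when `x` acts trivially. -/
theorem ext0_conj (hc : IsCoc D ρ c) {g x : GQ} (hg : g ∈ D) (hx : x ∈ D) (hρx : ρ x = 1) :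
    ext0 D c (g⁻¹ * x * g) = ρ g⁻¹ (ext0 D c x) := by
  have hg' : g⁻¹ ∈ D := D.inv_mem hg
  have h1 : ext0 D c (g⁻¹ * g) = ext0 D c g⁻¹ + ρ g⁻¹ (ext0 D c g) := hc.ext0_mul hg' hg
  rw [inv_mul_cancel, hc.ext0_one] at h1
  rw [mul_assoc, hc.ext0_mul hg' (D.mul_mem hx hg), hc.ext0_mul hx hg, hρx,
    Module.End.one_apply, map_add, ← add_assoc, add_right_comm, ← h1, zero_add]

theorem isLevelOn (hc : IsCoc D ρ c) {H : Subgroup GQ} (hHD : H ≤ D) {X : Type*}
    (lam : Mod → X) : IsLevelOn H (fun g => lam (ext0 D c g)) := by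
  obtain ⟨F, hF, h⟩ := hc.level
  refine ⟨F, hF, fun g hg s hs hsF => ?_⟩
  show lam (ext0 D c (g * s)) = lam (ext0 D c g)
  rw [ext0_of_mem D c (D.mul_mem (hHD hg) (hHD hs)), ext0_of_mem D c (hHD hg)]
  exact congrArg lam (h ⟨g, hHD hg⟩ ⟨s, hHD hs⟩ hsF)

/-- Additivity on a subgroup acting trivially. -/
theorem ext0_mul_of_triv (hc : IsCoc D ρ c) {H : Subgroup GQ} (hHD : H ≤ D)
    (hHtriv : ∀ h ∈ H, ρ h = 1) {g h : GQ} (hg : g ∈ H) (hh : h ∈ H) :
    ext0 D c (g * h) = ext0 D c g + ext0 D c h := by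
  rw [hc.ext0_mul (hHD hg) (hHD hh), hHtriv g hg, Module.End.one_apply]

/-- Kummer generators on a subgroup acting trivially and fixing `ζ`. -/
theorem exists_kummerGen (hc : IsCoc D ρ c) {H : Subgroup GQ} (hHD : H ≤ D)
    (hHtriv : ∀ h ∈ H, ρ h = 1) {ζ : Qb} (hζ : IsPrimitiveRoot ζ p) (hHζ : ∀ g ∈ H, g ζ = ζ)
    (lam : Mod →+ ZMod p) :
    ∃ y : Qb, IsKummerGen H ζ (fun g => lam (ext0 D c g)) y := by
  refine helper164.exists_kummerGen hζ (fun _ => 1) _ (fun g hg => ?_) (fun g hg h hh => ?_)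
    (hc.isLevelOn hHD lam)
  · rw [hHζ g hg, ZMod.val_one, pow_one]
  · show lam (ext0 D c (g * h)) = lam (ext0 D c g) + 1 * lam (ext0 D c h)
    rw [hc.ext0_mul_of_triv hHD hHtriv hg hh, map_add, one_mul]

/-- Radicands on a subgroup acting trivially and fixing `ζ`. -/
theorem exists_radicand (hc : IsCoc D ρ c) {H : Subgroup GQ} (hHD : H ≤ D)
    (hHtriv : ∀ h ∈ H, ρ h = 1) {ζ : Qb} (hζ : IsPrimitiveRoot ζ p) (hHζ : ∀ g ∈ H, g ζ = ζ)
    (lam : Mod →+ ZMod p) :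
    ∃ u : fixedK H, IsRadicand H ζ (fun g => lam (ext0 D c g)) u := by
  obtain ⟨y, hy⟩ := hc.exists_kummerGen hHD hHtriv hζ hHζ lam
  exact ⟨⟨y ^ p, mem_fixedK.2 fun g hg => hy.pow_fixed hζ hg⟩, y, rfl, hy⟩

end IsCoc

/-- All radicands over `J` of the cocycle `c` satisfy the Fontaine condition. -/
def RadFB (A : ValuationSubring Qb) (D J : Subgroup GQ) (ζ : Qb) (c : ↥D → Mod) : Prop :=
  ∀ (lam : Mod →+ ZMod p) (u : fixedK J),
    IsRadicand J ζ (fun g => lam (ext0 D c g)) u → IsFB (valK A J) p u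

/-- The Fontaine bound for the cocycle `c`, Kummer form over `N` (the conclusion of the
junction `Stmt_FB`). -/
def FBOn (A : ValuationSubring Qb) (p : ℕ) (D N : Subgroup GQ) (c : ↥D → Mod) : Prop :=
  ∀ y : Qb, y ≠ 0 → (∀ τ ∈ N, τ (y ^ p) = y ^ p) →
    (∀ τ : ↥D, (τ : GQ) ∈ N → c τ = 0 → (τ : GQ) y = y) →
    ∃ w : Qb, w ≠ 0 ∧ (∀ τ ∈ N, τ w = w) ∧
      A.valuation (y ^ p * w ^ p - 1) ≤ A.valuation (p : Qb)

variable (A : ValuationSubring Qb) {D J : Subgroup GQ} {ρ : GQ →* (Mod →ₗ[k] Mod)} {ζ : Qb}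

/-- A radicand which is a `p`-th power satisfies the Fontaine condition. -/
theorem isFB_of_vanish (hζ : IsPrimitiveRoot ζ p) (hJζ : ∀ g ∈ J, g ζ = ζ)
    {χ : GQ → ZMod p} {u : fixedK J} (hu : IsRadicand J ζ χ u) (h0 : ∀ g ∈ J, χ g = 0) :
    IsFB (valK A J) p u := by
  obtain ⟨w, rfl⟩ := (hu.isPow_iff_of_fixed hζ hJζ).2 h0
  have hw : w ≠ 0 := by
    rintro rfl
    exact hu.ne_zero (zero_pow (Fact.out : p.Prime).ne_zero)
  exact isFB_pow_self _ p hw

variable {A}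

theorem RadFB.add {c c' : ↥D → Mod} (hc : IsCoc D ρ c) (hc' : IsCoc D ρ c') (hJD : J ≤ D)
    (hJtriv : ∀ h ∈ J, ρ h = 1) (hζ : IsPrimitiveRoot ζ p) (hJζ : ∀ g ∈ J, g ζ = ζ)
    (h : RadFB (p := p) A D J ζ c) (h' : RadFB (p := p) A D J ζ c') :
    RadFB (p := p) A D J ζ (c + c') := by
  intro lam u hu
  obtain ⟨u₁, hu₁⟩ := hc.exists_radicand hJD hJtriv hζ hJζ lam
  obtain ⟨u₂, hu₂⟩ := hc'.exists_radicand hJD hJtriv hζ hJζ lam
  obtain ⟨w, hw, rfl⟩ := hu₁.add_eq hζ hu₂ hu (fun g _ => by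
    show lam (ext0 D (c + c') g) = lam (ext0 D c g) + lam (ext0 D c' g)
    rw [map_add, Pi.add_apply, map_add])
  exact ((h lam u₁ hu₁).mul (h' lam u₂ hu₂)).mul_pow hw

theorem RadFB.smul {c : ↥D → Mod} (h : RadFB (p := p) A D J ζ c) (a : k) :
    RadFB (p := p) A D J ζ (a • c) := by
  intro lam u hu
  let lam' : Mod →+ ZMod p := lam.comp (DistribSMul.toAddMonoidHom Mod a)
  refine h lam' u (hu.congr fun g _ => ?_)
  show lam (ext0 D (a • c) g) = lam (a • ext0 D c g)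
  rw [ext0_smul]

theorem radFB_of_vanish {c : ↥D → Mod} (hζ : IsPrimitiveRoot ζ p) (hJζ : ∀ g ∈ J, g ζ = ζ)
    (h0 : ∀ g ∈ J, ext0 D c g = 0) : RadFB (p := p) A D J ζ c := by
  intro lam u hu
  exact isFB_of_vanish A hζ hJζ hu (fun g hg => by rw [h0 g hg, map_zero])

/-- The Fontaine bound in Kummer form over `N` gives the Fontaine condition for all radicands
over `J ≤ N`. -/
theorem radFB_of_fbOn {N : Subgroup GQ} {c : ↥D → Mod} (hc : IsCoc D ρ c) (hND : N ≤ D)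
    (hNtriv : ∀ h ∈ N, ρ h = 1) (hζ : IsPrimitiveRoot ζ p) (hNζ : ∀ g ∈ N, g ζ = ζ)
    (hJN : J ≤ N) (h : FBOn A p D N c) : RadFB (p := p) A D J ζ c := by
  intro lam u hu
  obtain ⟨y, hy⟩ := hc.exists_kummerGen hND hNtriv hζ hNζ lam
  obtain ⟨w, hw0, hwN, hval⟩ := h y hy.1 (fun τ hτ => hy.pow_fixed hζ hτ) (fun τ hτN hτ0 => by
    apply hy.fixed_of_zero hτN
    show lam (ext0 D c (τ : GQ)) = 0
    rw [ext0_of_mem D c τ.2, hτ0, map_zero])
  let uN : fixedK J := ⟨y ^ p, mem_fixedK.2 fun g hg => hy.pow_fixed hζ (hJN hg)⟩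
  let wJ : fixedK J := ⟨w, mem_fixedK.2 fun g hg => hwN g (hJN hg)⟩
  have huN : IsRadicand J ζ (fun g => lam (ext0 D c g)) uN := ⟨y, rfl, hy.mono hJN⟩
  have hwJ : wJ ≠ 0 := fun h0 => hw0 (congrArg Subtype.val h0)
  have hFB : IsFB (valK A J) p uN := by
    refine ⟨wJ, hwJ, ?_⟩
    rw [valK_apply, valK_apply]
    exact hval
  obtain ⟨w', hw', rfl⟩ := huN.eq_mul_pow hu
  exact hFB.mul_pow hw'

end Coc

/-! ### TAMEK0 data -/

section Tame

variable {K : Type*} [Field K] {Γ₀ : Type*} [LinearOrderedCommGroupWithZero Γ₀]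

/-- `v p = v (ζ - 1) ^ (p - 1)` for a primitive `p`-th root of unity `ζ`. -/
theorem val_prime_eq (v : Valuation K Γ₀) {p : ℕ} (hp : p.Prime) {ζ : K}
    (hζ : IsPrimitiveRoot ζ p) : v (p : K) = v (ζ - 1) ^ (p - 1) := by
  have hp1 : p - 1 + 1 = p := Nat.sub_add_cancel hp.one_le
  have hζ' : IsPrimitiveRoot ζ (p - 1 + 1) := by rw [hp1]; exact hζ
  have h := hζ'.prod_one_sub_pow_eq_order
  have e : (p : K) = ∏ k ∈ Finset.range (p - 1), (1 - ζ ^ (k + 1)) := by
    rw [h]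
    have : ((p - 1 : ℕ) : K) + 1 = ((p - 1 + 1 : ℕ) : K) := by push_cast; ring
    rw [this, hp1]
  rw [e, map_prod]
  rw [Finset.prod_congr rfl (g := fun _ => v (ζ - 1))]
  · rw [Finset.prod_const, Finset.card_range]
  · intro i hi
    rw [Finset.mem_range] at hi
    rw [v.map_sub_swap]
    apply val_root_sub_one_eq v hp hζ
    · rw [← pow_mul, mul_comm, pow_mul, hζ.pow_eq_one, one_pow]
    · exact hζ.pow_ne_one_of_pos_of_lt (Nat.succ_ne_zero i) (by omega)

end Tame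

/-- **TAMEK0 data** for the fixed field of `J` (elementwise in `ℚ̄`): `π` is a uniformiser,
`v (ζ - 1) = v π ^ E`, the residue field is perfect, and the tame character of `s` at `π` has
exact order `(p - 1) * E`. -/
structure TameData (p : ℕ) (A : ValuationSubring Qb) (J : Subgroup GQ) (ζ : Qb) (s : GQ)
    (E : ℕ) (π : Qb) : Prop where
  pos : 0 < E
  fixed : ∀ σ ∈ J, σ π = π
  ne_zero : π ≠ 0
  lt_one : A.valuation π < 1
  discrete : ∀ x : Qb, (∀ σ ∈ J, σ x = x) → x ≠ 0 → ∃ n : ℤ, A.valuation x = A.valuation π ^ n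
  lam : A.valuation (ζ - 1) = A.valuation π ^ E
  perf : ∀ a : Qb, (∀ σ ∈ J, σ a = a) → A.valuation a ≤ 1 →
    ∃ b : Qb, (∀ σ ∈ J, σ b = b) ∧ A.valuation (a - b ^ p) < 1
  cord : ∀ n : ℕ, A.valuation ((s π / π) ^ n - 1) < 1 ↔ (p - 1) * E ∣ n

namespace TameData

variable {p : ℕ} {A : ValuationSubring Qb} {J : Subgroup GQ} {ζ : Qb} {s : GQ}
  {E : ℕ} {π : Qb} (T : TameData p A J ζ s E π)

/-- The uniformiser, in the fixed field. -/
noncomputable def πK : fixedK J := ⟨π, mem_fixedK.2 T.fixed⟩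

@[simp] theorem coe_πK : ((T.πK : fixedK J) : Qb) = π := rfl

theorem πK_ne_zero : T.πK ≠ 0 := fun h => T.ne_zero (congrArg Subtype.val h)

theorem isUnif : IsUnif (valK A J) T.πK where
  lt_one := T.lt_one
  ne_zero := T.πK_ne_zero
  exists_zpow := fun x hx => T.discrete x (mem_fixedK.1 x.2) (fun h => hx (Subtype.ext h))

/-- The root of unity, in the fixed field. -/
noncomputable def ζK (_T : TameData p A J ζ s E π) (hJζ : ∀ g ∈ J, g ζ = ζ) : fixedK J :=
  ⟨ζ, mem_fixedK.2 hJζ⟩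

@[simp] theorem coe_ζK (hJζ : ∀ g ∈ J, g ζ = ζ) : ((T.ζK hJζ : fixedK J) : Qb) = ζ := rfl

theorem isPrimitiveRoot_ζK (hζ : IsPrimitiveRoot ζ p) (hJζ : ∀ g ∈ J, g ζ = ζ) :
    IsPrimitiveRoot (T.ζK hJζ) p :=
  IsPrimitiveRoot.of_map_of_injective (f := algebraMap (fixedK J) Qb) (by exact hζ)
    (algebraMap (fixedK J) Qb).injective

theorem lamK (hJζ : ∀ g ∈ J, g ζ = ζ) :
    valK A J (T.ζK hJζ - 1) = valK A J T.πK ^ E := T.lam

theorem lamK_lt_one (hJζ : ∀ g ∈ J, g ζ = ζ) : valK A J (T.ζK hJζ - 1) < 1 := by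
  rw [T.lamK hJζ]
  exact pow_lt_one₀ zero_le T.lt_one T.pos.ne'

theorem lam_lt_one (T : TameData p A J ζ s E π) : A.valuation (ζ - 1) < 1 := by
  rw [T.lam]
  exact pow_lt_one₀ zero_le T.lt_one T.pos.ne'

theorem perfK (T : TameData p A J ζ s E π) :
    ∀ a : fixedK J, valK A J a ≤ 1 → ∃ b : fixedK J, valK A J (a - b ^ p) < 1 := by
  intro a ha
  obtain ⟨b, hb, h⟩ := T.perf a (mem_fixedK.1 a.2) ha
  exact ⟨⟨b, mem_fixedK.2 hb⟩, h⟩

theorem val_pow_eq [Fact p.Prime] (hζ : IsPrimitiveRoot ζ p) (hJζ : ∀ g ∈ J, g ζ = ζ) :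
    valK A J T.πK ^ ((p - 1) * E) = valK A J (p : fixedK J) := by
  rw [val_prime_eq (valK A J) (Fact.out : p.Prime) (T.isPrimitiveRoot_ζK hζ hJζ), T.lamK hJζ,
    ← pow_mul, mul_comm]

theorem val_top_eq (hJζ : ∀ g ∈ J, g ζ = ζ) :
    valK A J T.πK ^ (p * E) = valK A J (T.ζK hJζ - 1) ^ p := by
  rw [T.lamK hJζ, ← pow_mul, mul_comm]

/-- Units above the top level are `p`-th powers in the fixed field. -/
theorem hensK [Fact p.Prime] (hζ : IsPrimitiveRoot ζ p) (hJζ : ∀ g ∈ J, g ζ = ζ)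
    (hJD : J ≤ A.decompositionSubgroup ℚ) :
    ∀ u : fixedK J, valK A J (u - 1) < valK A J (T.ζK hJζ - 1) ^ p →
      ∃ x : fixedK J, x ^ p = u := by
  intro u hu
  obtain ⟨z, hz⟩ := IsAlgClosed.exists_pow_nat_eq (u : Qb) (Fact.out : p.Prime).pos
  have hz' : A.valuation (z ^ p - 1) < A.valuation (ζ - 1) ^ p := by rw [hz]; exact hu
  obtain ⟨z', hz'p, -, hfix⟩ :=
    exists_fixed_root_above_top A.valuation (Fact.out : p.Prime) hζ hz'
  refine ⟨⟨z', mem_fixedK.2 fun g hg => ?_⟩, Subtype.ext (by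
    show z' ^ p = (u : Qb)
    rw [hz'p, hz])⟩
  exact hfix (g : Qb →+* Qb)
    (fun x => Fermat.Agent.S05.helper4205.valuation_apply_of_mem_decomposition (hJD hg) x)
    (by
      show g (z ^ p) = z ^ p
      rw [hz]; exact mem_fixedK.1 u.2 g hg)

section Endo

variable (g₀ : GQ) (hn : ∀ x ∈ J, g₀⁻¹ * x * g₀ ∈ J)

theorem val_restrict (_T : TameData p A J ζ s E π) (hg₀ : g₀ ∈ A.decompositionSubgroup ℚ)
    (x : fixedK J) : valK A J (fixedRestrict J g₀ hn x) = valK A J x :=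
  Fermat.Agent.S05.helper4205.valuation_apply_of_mem_decomposition hg₀ (x : Qb)

theorem val_restrict_sub_lt (_T : TameData p A J ζ s E π) (hg₀ : g₀ ∈ A.inertiaSubgroupIn ℚ)
    (x : fixedK J) (hx : valK A J x ≤ 1) : valK A J (fixedRestrict J g₀ hn x - x) < 1 := by
  have hxA : (x : Qb) ∈ A := (ValuationSubring.valuation_le_one_iff A _).1 hx
  have := Fermat.Agent.S05.helper4205.apply_sub_mem_nonunits hg₀ hxA
  exact (ValuationSubring.mem_nonunits_iff (A := A)).1 this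

theorem val_frob_sub_lt (_T : TameData p A J ζ s E π) (hg₀ : A.IsFrobeniusAt g₀ p)
    (x : fixedK J) (hx : valK A J x ≤ 1) : valK A J (fixedRestrict J g₀ hn x - x ^ p) < 1 := by
  have hxA : (x : Qb) ∈ A := (ValuationSubring.valuation_le_one_iff A _).1 hx
  have := Fermat.Agent.Lib.helper3858.apply_sub_pow_mem_nonunits_of_isFrobeniusAt hg₀ hxA
  exact (ValuationSubring.mem_nonunits_iff (A := A)).1 this

/-- The multiplier of an endomorphism at the uniformiser. -/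
noncomputable def mult : fixedK J := fixedRestrict J g₀ hn T.πK / T.πK

theorem restrict_πK : fixedRestrict J g₀ hn T.πK = T.πK * T.mult g₀ hn := by
  unfold mult
  rw [mul_div_cancel₀ _ T.πK_ne_zero]

end Endo

theorem cordK (hsn : ∀ x ∈ J, s⁻¹ * x * s ∈ J) :
    ∀ n : ℕ, valK A J (T.mult s hsn ^ n - 1) < 1 ↔ (p - 1) * E ∣ n := fun n => T.cord n

/-- The cyclotomic exponent of a tame element agrees with the `E`-th power of its tame
multiplier. -/
theorem hjK [Fact p.Prime] (hζ : IsPrimitiveRoot ζ p) (hJζ : ∀ g ∈ J, g ζ = ζ)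
    (hsI : s ∈ A.inertiaSubgroupIn ℚ) (hsn : ∀ x ∈ J, s⁻¹ * x * s ∈ J) {b : ZMod p}
    (hb : s ζ = ζ ^ b.val) :
    valK A J (((b.val : ℕ) : fixedK J) - T.mult s hsn ^ E) < 1 :=
  val_natCast_sub_pow_lt (valK A J) (Fact.out : p.Prime) (T.isPrimitiveRoot_ζK hζ hJζ) T.isUnif
    (T.lamK hJζ) (T.lamK_lt_one hJζ) (fixedRestrict J s hsn)
    (T.val_restrict s hsn
      (Fermat.Agent.S05.helper4205.mem_decomposition_of_mem_inertiaSubgroupIn hsI))
    (T.val_restrict_sub_lt s hsn hsI) (T.restrict_πK s hsn)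
    (Subtype.ext (by
      show s ζ = ((T.ζK hJζ ^ b.val : fixedK J) : Qb)
      rw [hb]; rfl))

end TameData

/-! ### The invariant line: top level -/

section Dep

variable {p : ℕ} [Fact p.Prime] {k : Type} [Field k] {Mod : Type} [AddCommGroup Mod]
  [Module k Mod] {A : ValuationSubring Qb} {D J : Subgroup GQ}
  {ρ : GQ →* (Mod →ₗ[k] Mod)} {ζ : Qb} {s : GQ} {E : ℕ} {π : Qb}

/-- **The invariant functionals.**  A functional invariant under the tame generator `s` kills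
the values on `J` of every level cocycle whose radicands satisfy the Fontaine condition. -/
theorem TameData.vanish_of_invariant (T : TameData p A J ζ s E π) (hp3 : 3 ≤ p)
    (hζ : IsPrimitiveRoot ζ p) (hJζ : ∀ g ∈ J, g ζ = ζ)
    (hJI : J ≤ A.inertiaSubgroupIn ℚ) (hJD : J ≤ D) (hJtriv : ∀ h ∈ J, ρ h = 1)
    (hsI : s ∈ A.inertiaSubgroupIn ℚ) (hsD : s ∈ D) (hsn : ∀ x ∈ J, s⁻¹ * x * s ∈ J)
    {c : ↥D → Mod} (hc : IsCoc D ρ c) (hFB : RadFB (p := p) A D J ζ c)
    (lam : Mod →+ ZMod p) (hlam : ∀ m, lam (ρ s⁻¹ m) = lam m) :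
    ∀ g ∈ J, lam (ext0 D c g) = 0 := by
  have hp := (Fact.out : p.Prime)
  obtain ⟨u, hu⟩ := hc.exists_radicand hJD hJtriv hζ hJζ lam
  have hlev : LevelGE (valK A J) T.πK p ((p - 1) * E) u :=
    (isFB_iff_levelGE (T.val_pow_eq hζ hJζ) u).1 (hFB lam u hu)
  obtain ⟨b, hb⟩ := exists_zpowv_eq hζ (x := s ζ) (by rw [← map_pow, hζ.pow_eq_one, map_one])
  have hsA := Fermat.Agent.S05.helper4205.mem_decomposition_of_mem_inertiaSubgroupIn hsI
  have hPE : PEq p (fixedRestrict J s hsn u) (u ^ b.val) := by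
    obtain ⟨w, hw, hw'⟩ := hu.conj_eq hζ (hu.smul hζ b) s hsn b hb (fun k hk => by
      show b * lam (ext0 D c (s⁻¹ * k * s)) = b * lam (ext0 D c k)
      rw [hc.ext0_conj hsD (hJD hk) (hJtriv k hk), hlam])
    exact ⟨w, hw, hw'⟩
  obtain ⟨w, hw, hval⟩ := levelGE_top_of_invariant hp hp3 (T.isPrimitiveRoot_ζK hζ hJζ) T.isUnif
    T.pos (T.lamK hJζ) T.perfK (T.val_restrict s hsn hsA) (T.val_restrict_sub_lt s hsn hsI)
    (T.restrict_πK s hsn) (T.cordK hsn) (T.hjK hζ hJζ hsI hsn hb) hPE hlev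
  rw [T.val_top_eq hJζ] at hval
  exact radicand_top_vanish A hJI hζ hJζ T.lam_lt_one hu w hw hval

/-- Integers prime to the residue characteristic are units. -/
theorem val_intCast_eq_one_of_not_dvd {K : Type*} [Field K] {Γ₀ : Type*}
    [LinearOrderedCommGroupWithZero Γ₀] (v : Valuation K Γ₀) {q : ℕ} (hq : q.Prime)
    (hqv : v (q : K) < 1) {n : ℤ} (hn : ¬ (q : ℤ) ∣ n) : v (n : K) = 1 := by
  have h1 : ¬ q ∣ n.natAbs := fun h => hn (Int.natCast_dvd.2 h)
  have h2 := val_natCast_eq_one_of_not_dvd v hq hqv h1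
  rcases Int.natAbs_eq n with h | h
  · rw [h, Int.cast_natCast]; exact h2
  · rw [h, Int.cast_neg, Int.cast_natCast, v.map_neg]; exact h2

/-- The radicands of the functionals `pair ν` form a family, equivariant for every element of
`D` normalising `J`. -/
theorem isFamily_of_radicands (hζ : IsPrimitiveRoot ζ p) (hJD : J ≤ D)
    (hJtriv : ∀ h ∈ J, ρ h = 1) {c : ↥D → Mod} (hc : IsCoc D ρ c) {W : Type*} [AddCommGroup W]
    (pair : W →+ (Mod →+ ZMod p)) (U : W → fixedK J)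
    (hU : ∀ ν, IsRadicand J ζ (fun g => pair ν (ext0 D c g)) (U ν))
    {g₀ : GQ} (hg₀ : g₀ ∈ D) (hn : ∀ x ∈ J, g₀⁻¹ * x * g₀ ∈ J) {b : ZMod p}
    (hb : g₀ ζ = ζ ^ b.val) (σW : W →+ W) (hσW : ∀ w m, pair (σW w) m = pair w (ρ g₀⁻¹ m)) :
    IsFamily p (fixedRestrict J g₀ hn) σW b.val U where
  ne_zero ν := (hU ν).ne_zero
  add ν ν' := by
    obtain ⟨w, hw, h⟩ := (hU ν).add_eq hζ (hU ν') (hU (ν + ν')) (fun g _ => by
      show pair (ν + ν') (ext0 D c g) = pair ν (ext0 D c g) + pair ν' (ext0 D c g)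
      rw [map_add, AddMonoidHom.add_apply])
    exact ⟨w, hw, h⟩
  equiv ν := by
    obtain ⟨w, hw, h⟩ := (hU ν).conj_eq hζ ((hU (σW ν)).smul hζ b) g₀ hn b hb (fun k hk => by
      show b * pair ν (ext0 D c (g₀⁻¹ * k * g₀)) = b * pair (σW ν) (ext0 D c k)
      rw [hc.ext0_conj hg₀ (hJD hk) (hJtriv k hk), hσW])
    exact ⟨w, hw, h⟩

/-- Radicands of a combination with natural coefficients. -/
theorem isRadicand_prod_pow (hζ : IsPrimitiveRoot ζ p) {ι : Type*} (t : Finset ι)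
    (x : ι → ↥D → Mod) (lam : Mod →+ ZMod p) (U : ι → fixedK J)
    (hU : ∀ i ∈ t, IsRadicand J ζ (fun g => lam (ext0 D (x i) g)) (U i)) (n : ι → ℕ) :
    IsRadicand J ζ (fun g => lam (ext0 D (∑ i ∈ t, n i • x i) g)) (∏ i ∈ t, U i ^ n i) := by
  classical
  induction t using Finset.induction_on with
  | empty =>
    rw [Finset.sum_empty, Finset.prod_empty]
    exact IsRadicand.one.congr (fun g _ => by simp)
  | insert a t ha ih =>
    rw [Finset.sum_insert ha, Finset.prod_insert ha]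
    refine (((hU a (Finset.mem_insert_self a t)).pow hζ (n a)).mul hζ
      (ih fun i hi => hU i (Finset.mem_insert_of_mem hi))).congr (fun g _ => ?_)
    show (n a : ZMod p) * lam (ext0 D (x a) g) + lam (ext0 D (∑ i ∈ t, n i • x i) g) =
      lam (ext0 D (n a • x a + ∑ i ∈ t, n i • x i) g)
    rw [map_add, Pi.add_apply, map_add, map_nsmul, Pi.smul_apply, map_nsmul, nsmul_eq_mul]

theorem RadFB.nsmul {c : ↥D → Mod} (h : RadFB (p := p) A D J ζ c) (n : ℕ) :
    RadFB (p := p) A D J ζ (n • c) := by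
  intro lam u hu
  refine h (lam.comp (nsmulAddMonoidHom (α := Mod) n)) u (hu.congr fun g _ => ?_)
  show lam (ext0 D (n • c) g) = lam (n • ext0 D c g)
  rw [map_nsmul, Pi.smul_apply]

theorem RadFB.sum (hJD : J ≤ D) (hJtriv : ∀ h ∈ J, ρ h = 1) (hζ : IsPrimitiveRoot ζ p)
    (hJζ : ∀ g ∈ J, g ζ = ζ) {ι : Type*} (t : Finset ι) {x : ι → ↥D → Mod}
    (hx : ∀ i ∈ t, IsCoc D ρ (x i)) (h : ∀ i ∈ t, RadFB (p := p) A D J ζ (x i)) :
    RadFB (p := p) A D J ζ (∑ i ∈ t, x i) := by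
  classical
  induction t using Finset.induction_on with
  | empty =>
    rw [Finset.sum_empty]
    exact radFB_of_vanish hζ hJζ (fun g _ => by simp)
  | insert a t ha ih =>
    rw [Finset.sum_insert ha]
    exact RadFB.add (hx a (Finset.mem_insert_self a t))
      (IsCoc.sum t fun i hi => hx i (Finset.mem_insert_of_mem hi)) hJD hJtriv hζ hJζ
      (h a (Finset.mem_insert_self a t))
      (ih (fun i hi => hx i (Finset.mem_insert_of_mem hi))
        (fun i hi => h i (Finset.mem_insert_of_mem hi)))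

/-- **The dependence.**  Among `f + 1` level cocycles (`#k = p ^ f`) with values in `S` whose
radicands over `J` satisfy the Fontaine condition, some combination with natural coefficients,
not all divisible by `p`, vanishes on `J`. -/
theorem TameData.exists_dependence (T : TameData p A J ζ s E π) (hp3 : 3 ≤ p)
    (hζ : IsPrimitiveRoot ζ p) (hJζ : ∀ g ∈ J, g ζ = ζ)
    (hJI : J ≤ A.inertiaSubgroupIn ℚ) (hJD : J ≤ D) (hDA : D ≤ A.decompositionSubgroup ℚ)
    (hJtriv : ∀ h ∈ J, ρ h = 1)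
    (hsI : s ∈ A.inertiaSubgroupIn ℚ) (hsD : s ∈ D)
    (hnorm : ∀ g ∈ D, ∀ x ∈ J, g⁻¹ * x * g ∈ J)
    [Algebra (ZMod p) k] {f : ℕ} (bk : Basis (Fin f) (ZMod p) k)
    {W : Type} [AddCommGroup W] [Module k W] (pair : W →+ (Mod →+ ZMod p))
    (τ : W →ₗ[k] W) (hτpair : ∀ w m, pair (τ w) m = pair w (ρ s⁻¹ m))
    {τ₀ : ℕ} (hτ : ∀ ν, τ (τ ν) + ν = τ₀ • τ ν) (hτ₀ : ¬ (p : ℤ) ∣ (τ₀ : ℤ) - 2)
    (hcase : (∃ ν₀, Submodule.span k {ν₀, τ ν₀} = ⊤) ∨ ((p : ℤ) ∣ (τ₀ : ℤ) + 2 ∧ 5 ≤ p))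
    {φ : GQ} (hφ : A.IsFrobeniusAt φ p) (hφD : φ ∈ D) (φW : W →+ W)
    (hφW : Function.Surjective φW) (hφpair : ∀ w m, pair (φW w) m = pair w (ρ φ⁻¹ m))
    (S : AddSubgroup Mod)
    (hsep : ∀ m ∈ S, (∀ ν, pair ν m = 0) →
      (∀ lam : Mod →+ ZMod p, (∀ m', lam (ρ s⁻¹ m') = lam m') → lam m = 0) → m = 0)
    (x : Fin (f + 1) → ↥D → Mod) (hx : ∀ i, IsCoc D ρ (x i)) (hxS : ∀ i g, x i g ∈ S)
    (hxFB : ∀ i, RadFB (p := p) A D J ζ (x i)) :
    ∃ n : Fin (f + 1) → ℕ, (∃ i, ¬ p ∣ n i) ∧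
      ∀ g : ↥D, (g : GQ) ∈ J → ∑ i, n i • x i g = 0 := by
  classical
  have hp := (Fact.out : p.Prime)
  have hsn := hnorm s hsD
  have hφn := hnorm φ hφD
  have hsA := hDA hsD
  have hφA := hDA hφD
  have hζK := T.isPrimitiveRoot_ζK hζ hJζ
  have hpv : valK A J (p : fixedK J) < 1 :=
    val_prime_lt_one (valK A J) hp hζK (T.lamK_lt_one hJζ)
  -- radicand families
  have hex : ∀ i ν, ∃ u : fixedK J, IsRadicand J ζ (fun g => pair ν (ext0 D (x i) g)) u :=
    fun i ν => (hx i).exists_radicand hJD hJtriv hζ hJζ (pair ν)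
  choose U hU using hex
  obtain ⟨b, hb⟩ := exists_zpowv_eq hζ (x := s ζ) (by rw [← map_pow, hζ.pow_eq_one, map_one])
  obtain ⟨bφ, hbφ⟩ := exists_zpowv_eq hζ (x := φ ζ)
    (by rw [← map_pow, hζ.pow_eq_one, map_one])
  have hUt : ∀ i, IsFamily p (fixedRestrict J s hsn) τ.toAddMonoidHom b.val (U i) := fun i =>
    isFamily_of_radicands hζ hJD hJtriv (hx i) pair (U i) (hU i) hsD hsn hb τ.toAddMonoidHom
      hτpair
  have hUφ : ∀ i, IsFamily p (fixedRestrict J φ hφn) φW bφ.val (U i) := fun i =>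
    isFamily_of_radicands hζ hJD hJtriv (hx i) pair (U i) (hU i) hφD hφn hbφ φW hφpair
  have hlev : ∀ i ν, LevelGE (valK A J) T.πK p ((p - 1) * E) (U i ν) := fun i ν =>
    (isFB_iff_levelGE (T.val_pow_eq hζ hJζ) _).1 (hxFB i (pair ν) (U i ν) (hU i ν))
  have hτ' : ∀ ν, τ.toAddMonoidHom (τ.toAddMonoidHom ν) + ν = τ₀ • τ.toAddMonoidHom ν := hτ
  -- the dependence modulo `p`-th powers
  have hdep : ∃ n : Fin (f + 1) → ℕ, (∃ i, ¬ p ∣ n i) ∧ ∀ ν, PEq p (∏ i, U i ν ^ n i) 1 := by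
    rcases hcase with ⟨ν₀, hν₀⟩ | ⟨hneg, hp5⟩
    · have hτ₀v : valK A J ((τ₀ : fixedK J) - 2) = 1 := by
        have h1 := val_intCast_eq_one_of_not_dvd (valK A J) hp hpv hτ₀
        have e : (((τ₀ : ℤ) - 2 : ℤ) : fixedK J) = (τ₀ : fixedK J) - 2 := by push_cast; ring
        rwa [e] at h1
      have hbφ0 : ¬ p ∣ bφ.val := by
        intro hdvd
        have hlt : bφ.val < p := ZMod.val_lt bφ
        have h0 : bφ.val = 0 := Nat.eq_zero_of_dvd_of_lt hdvd hlt
        rw [h0, pow_zero] at hbφ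
        have h1 : φ ζ = φ 1 := by rw [hbφ, map_one]
        exact hζ.ne_one hp.one_lt (φ.injective h1)
      have hgen : AddSubgroup.closure (Set.range (fun i => bk i • ν₀) ∪
          Set.range (fun i => τ.toAddMonoidHom (bk i • ν₀))) = ⊤ :=
        closure_eq_top_of_cyclic bk τ ν₀ hν₀
      exact exists_dependence_tame hp hp3 hζK T.isUnif T.pos (T.lamK hJζ) T.perfK
        (T.hensK hζ hJζ (hJD.trans hDA)) (T.val_restrict s hsn hsA)
        (T.val_restrict_sub_lt s hsn hsI) (T.restrict_πK s hsn) (T.cordK hsn)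
        (T.hjK hζ hJζ hsI hsn hb) hτ' hτ₀v (T.val_restrict φ hφn hφA)
        (T.val_frob_sub_lt φ hφn hφ) (T.restrict_πK φ hφn) hφW
        (val_natCast_eq_one_of_not_dvd (valK A J) hp hpv hbφ0) U hUt hUφ hlev
        (fun i => bk i • ν₀) hgen (by simp)
    · have hτ₀v : valK A J ((τ₀ : fixedK J) + 2) < 1 := by
        obtain ⟨m, hm⟩ := hneg
        have e : (τ₀ : fixedK J) + 2 = (p : fixedK J) * (m : fixedK J) := by
          have := congrArg (Int.cast : ℤ → fixedK J) hm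
          push_cast at this
          exact this
        rw [e, map_mul]
        calc valK A J (p : fixedK J) * valK A J (m : fixedK J)
            ≤ valK A J (p : fixedK J) * 1 := mul_le_mul' le_rfl (val_intCast_le_one _ m)
          _ = valK A J (p : fixedK J) := mul_one _
          _ < 1 := hpv
      have hall : ∀ i ν, PEq p (U i ν) 1 := fun i ν =>
        (hUt i).peq_one_of_neg_two hp hp5 hζK T.isUnif T.pos (T.lamK hJζ) T.perfK
          (T.hensK hζ hJζ (hJD.trans hDA)) (T.val_restrict s hsn hsA)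
          (T.val_restrict_sub_lt s hsn hsI) (T.restrict_πK s hsn) (T.cordK hsn)
          (T.hjK hζ hJζ hsI hsn hb) hτ' hτ₀v (hlev i) ν
      refine ⟨fun i => if i = 0 then 1 else 0, ⟨0, ?_⟩, fun ν => ?_⟩
      · show ¬ p ∣ (if (0 : Fin (f + 1)) = 0 then 1 else 0)
        rw [if_pos rfl]
        intro h
        have := Nat.le_of_dvd one_pos h
        omega
      · have e : ∏ i, U i ν ^ (if i = 0 then 1 else 0) = U 0 ν := by
          rw [Finset.prod_eq_single 0]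
          · rw [if_pos rfl, pow_one]
          · intro b _ hb
            rw [if_neg hb, pow_zero]
          · intro h
            exact absurd (Finset.mem_univ _) h
        rw [e]; exact hall 0 ν
  obtain ⟨n, hn, hpe⟩ := hdep
  refine ⟨n, hn, fun g hg => ?_⟩
  obtain ⟨c', hc'⟩ : ∃ c' : ↥D → Mod, c' = ∑ i, n i • x i := ⟨_, rfl⟩
  have hc'coc : IsCoc D ρ c' := by
    rw [hc']; exact IsCoc.sum _ fun i _ => (hx i).nsmul (n i)
  have hc'FB : RadFB (p := p) A D J ζ c' := by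
    rw [hc']
    exact RadFB.sum hJD hJtriv hζ hJζ _ (fun i _ => (hx i).nsmul (n i))
      (fun i _ => (hxFB i).nsmul (n i))
  have hval : c' g = ∑ i, n i • x i g := by
    rw [hc', Finset.sum_apply]; rfl
  rw [← hval]
  have hmem : c' g ∈ S := by
    rw [hval]; exact S.sum_mem fun i _ => S.nsmul_mem (hxS i g) (n i)
  refine hsep _ hmem (fun ν => ?_) (fun lam hlam => ?_)
  · have hrad := isRadicand_prod_pow hζ Finset.univ x (pair ν) (fun i => U i ν)
      (fun i _ => hU i ν) n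
    rw [← hc'] at hrad
    obtain ⟨w, hw, hw'⟩ := hpe ν
    have h0 := (hrad.isPow_iff_of_fixed hζ hJζ).1 ⟨w, by rw [hw', one_mul]⟩ g hg
    rwa [ext0_of_mem D _ g.2] at h0
  · have h0 := T.vanish_of_invariant hp3 hζ hJζ hJI hJD hJtriv hsI hsD hsn hc'coc hc'FB lam
      hlam g hg
    rwa [ext0_of_mem D _ g.2] at h0

end Dep

end Fermat.Agent.S56.helper2999
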