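/-
S56 node FLAT-N2-ASM (helper2999): the adjoint instance of the abstract dependence
`helper2999_N2Asm` for a residual representation with a niveau-two frame
(`helper778.N2Frame`): functionals on `End V` in the frame basis, their transformation under
the tame generator and under Frobenius, and the resulting dependence among `f + 1` trace-zero
level cocycles satisfying the Fontaine condition.
-/
import Mathlib
import Fermat.Agent.S56.helper2999_N2Asm
import Fermat.Agent.S56.helper778_LocalType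
import Fermat.Agent.S56.helper4753_TameField

set_option autoImplicit false

namespace Fermat.Agent.S56.helper2999

open Fermat.Agent.S56.helper164 Fermat.Agent.S56.helper4188
open Module

section Ad

variable {k : Type} [Field k] {V : Type} [AddCommGroup V] [Module k V]

/-- The adjoint action on endomorphisms. -/
noncomputable def adRep (ρ : GQ →* Module.End k V) :
    GQ →* (Module.End k V →ₗ[k] Module.End k V) where
  toFun g := (LinearMap.mulLeft k (ρ g)).comp (LinearMap.mulRight k (ρ g⁻¹))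
  map_one' := by
    apply LinearMap.ext
    intro X
    simp
  map_mul' g h := by
    apply LinearMap.ext
    intro X
    simp [mul_assoc]

theorem adRep_apply (ρ : GQ →* Module.End k V) (g : GQ) (X : Module.End k V) :
    adRep ρ g X = ρ g * X * ρ g⁻¹ := by
  show ρ g * (X * ρ g⁻¹) = ρ g * X * ρ g⁻¹
  rw [mul_assoc]

theorem adRep_eq_one_of (ρ : GQ →* Module.End k V) {g : GQ} (hg : ρ g = 1) :
    adRep ρ g = 1 := by
  apply LinearMap.ext
  intro X
  have h1 : ρ g⁻¹ = 1 := by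
    have h2 := map_mul ρ g⁻¹ g
    rw [inv_mul_cancel, map_one, hg, mul_one] at h2
    exact h2.symm
  rw [adRep_apply, hg, h1, one_mul, mul_one]
  rfl

variable {p : ℕ}

/-- The functionals `X ↦ T (a₁ X₀₁ + a₂ X₁₀)` in the frame basis. -/
noncomputable def pairW (T : k →+ ZMod p) (b : Basis (Fin 2) k V) :
    (k × k) →+ (Module.End k V →+ ZMod p) where
  toFun w :=
    { toFun := fun X => T (w.1 * LinearMap.toMatrix b b X 0 1 + w.2 * LinearMap.toMatrix b b X 1 0)
      map_zero' := by simp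
      map_add' := fun X Y => by
        rw [← map_add]
        congr 1
        simp only [map_add, Matrix.add_apply]
        ring }
  map_zero' := by
    apply AddMonoidHom.ext
    intro X
    simp
  map_add' w w' := by
    apply AddMonoidHom.ext
    intro X
    show T ((w + w').1 * LinearMap.toMatrix b b X 0 1 + (w + w').2 * LinearMap.toMatrix b b X 1 0) =
      T (w.1 * LinearMap.toMatrix b b X 0 1 + w.2 * LinearMap.toMatrix b b X 1 0) +
        T (w'.1 * LinearMap.toMatrix b b X 0 1 + w'.2 * LinearMap.toMatrix b b X 1 0)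
    rw [← map_add]
    congr 1
    simp only [Prod.fst_add, Prod.snd_add]
    ring

theorem pairW_apply (T : k →+ ZMod p) (b : Basis (Fin 2) k V) (w : k × k)
    (X : Module.End k V) :
    pairW T b w X =
      T (w.1 * LinearMap.toMatrix b b X 0 1 + w.2 * LinearMap.toMatrix b b X 1 0) := rfl

/-- The functionals `X ↦ T (a X₀₀)` in the frame basis. -/
noncomputable def lamD (T : k →+ ZMod p) (b : Basis (Fin 2) k V) (a : k) :
    Module.End k V →+ ZMod p where
  toFun X := T (a * LinearMap.toMatrix b b X 0 0)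
  map_zero' := by simp
  map_add' X Y := by
    rw [← map_add]
    congr 1
    simp only [map_add, Matrix.add_apply]
    ring

theorem lamD_apply (T : k →+ ZMod p) (b : Basis (Fin 2) k V) (a : k) (X : Module.End k V) :
    lamD T b a X = T (a * LinearMap.toMatrix b b X 0 0) := rfl

/-- The diagonal transformation of the functionals. -/
noncomputable def tauW (ξ η : k) : (k × k) →ₗ[k] (k × k) :=
  LinearMap.prodMap (η • LinearMap.id) (ξ • LinearMap.id)

theorem tauW_apply (ξ η : k) (w : k × k) : tauW ξ η w = (η * w.1, ξ * w.2) := by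
  simp [tauW]

/-- The antidiagonal transformation of the functionals. -/
noncomputable def phiW (u v : k) : (k × k) →+ (k × k) where
  toFun w := (u * w.2, v * w.1)
  map_zero' := by simp
  map_add' w w' := by
    simp only [Prod.fst_add, Prod.snd_add, mul_add, Prod.mk_add_mk]

theorem phiW_apply (u v : k) (w : k × k) : phiW u v w = (u * w.2, v * w.1) := rfl

end Ad

section Frame

open Fermat.Agent.S56.helper778

variable {p : ℕ} {k : Type} [Field k] {V : Type} [AddCommGroup V] [Module k V]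
  {A : ValuationSubring Qb} {ρ : GQ →* Module.End k V} {s : GQ} {b : Basis (Fin 2) k V}
  {α β : k}

/-- Conjugation by the inverse of the tame generator, in matrix entries. -/
theorem frame_conj_gen_inv (h : N2Frame p A ρ s b α β) (hp0 : p ≠ 0) (X : Module.End k V) :
    LinearMap.toMatrix b b (ρ s⁻¹ * X * ρ s) 0 0 = LinearMap.toMatrix b b X 0 0 ∧
    LinearMap.toMatrix b b (ρ s⁻¹ * X * ρ s) 0 1 = β * α⁻¹ * LinearMap.toMatrix b b X 0 1 ∧
    LinearMap.toMatrix b b (ρ s⁻¹ * X * ρ s) 1 0 = α * β⁻¹ * LinearMap.toMatrix b b X 1 0 := by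
  have hα := h.fst_ne_zero hp0
  have hβ := h.snd_ne_zero hp0
  have h1 := h.toMatrix_conj_gen hp0 (ρ s⁻¹ * X * ρ s)
  have h2 : ρ s * (ρ s⁻¹ * X * ρ s) * ρ s⁻¹ = X := by
    have e1 : ρ s * ρ s⁻¹ = 1 := by rw [← map_mul, mul_inv_cancel, map_one]
    calc ρ s * (ρ s⁻¹ * X * ρ s) * ρ s⁻¹ = (ρ s * ρ s⁻¹) * X * (ρ s * ρ s⁻¹) := by
          simp only [mul_assoc]
      _ = X := by rw [e1, one_mul, mul_one]
  rw [h2] at h1
  have e00 := congrFun (congrFun h1 0) 0
  have e01 := congrFun (congrFun h1 0) 1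
  have e10 := congrFun (congrFun h1 1) 0
  simp only [Matrix.of_apply, Matrix.cons_val', Matrix.cons_val_zero, Matrix.cons_val_one,
    Matrix.cons_val_fin_one] at e00 e01 e10
  refine ⟨e00.symm, ?_, ?_⟩
  · rw [e01]; field_simp
  · rw [e10]; field_simp

/-- Conjugation by the inverse of a Frobenius element, in matrix entries. -/
theorem frame_conj_frob_inv (h : N2Frame p A ρ s b α β) {φ : GQ} (hφ : A.IsFrobeniusAt φ p) :
    ∃ c d : k, c ≠ 0 ∧ d ≠ 0 ∧ ∀ X : Module.End k V,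
      LinearMap.toMatrix b b (ρ φ⁻¹ * X * ρ φ) 0 1 = d * c⁻¹ * LinearMap.toMatrix b b X 1 0 ∧
      LinearMap.toMatrix b b (ρ φ⁻¹ * X * ρ φ) 1 0 = c * d⁻¹ * LinearMap.toMatrix b b X 0 1 := by
  obtain ⟨c, d, hc, hd, -, -, hX⟩ := h.toMatrix_conj_frob hφ
  refine ⟨c, d, hc, hd, fun X => ?_⟩
  have h1 := hX (ρ φ⁻¹ * X * ρ φ)
  have h2 : ρ φ * (ρ φ⁻¹ * X * ρ φ) * ρ φ⁻¹ = X := by
    have e1 : ρ φ * ρ φ⁻¹ = 1 := by rw [← map_mul, mul_inv_cancel, map_one]
    calc ρ φ * (ρ φ⁻¹ * X * ρ φ) * ρ φ⁻¹ = (ρ φ * ρ φ⁻¹) * X * (ρ φ * ρ φ⁻¹) := by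
          simp only [mul_assoc]
      _ = X := by rw [e1, one_mul, mul_one]
  rw [h2] at h1
  have e01 := congrFun (congrFun h1 0) 1
  have e10 := congrFun (congrFun h1 1) 0
  simp only [Matrix.of_apply, Matrix.cons_val', Matrix.cons_val_zero, Matrix.cons_val_one,
    Matrix.cons_val_fin_one] at e01 e10
  constructor
  · rw [e10]; field_simp
  · rw [e01]; field_simp

/-- **The dependence for a niveau-two frame.**  Among `f + 1` trace-zero level cocycles of the
adjoint representation on the decomposition group whose radicands over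
`J = I ⊓ ker ρ` satisfy the Fontaine condition, some combination with natural coefficients,
not all divisible by `p`, vanishes on `J`. -/
theorem exists_dependence_of_frame [Fact p.Prime] [CharP k p] [Algebra (ZMod p) k]
    (hA : A.LiesOverPrime p)
    (h : N2Frame p A ρ s b α β) (hp2 : p ≠ 2)
    (hdetI : ∃ σ ∈ A.inertiaSubgroupIn ℚ, LinearMap.det (ρ σ) ≠ 1)
    {ζ : Qb} (hζ : IsPrimitiveRoot ζ p) (hζfix : ∀ τ : GQ, ρ τ = 1 → τ ζ = ζ)
    {E : ℕ} {π : Qb} (T : TameData p A (A.inertiaSubgroupIn ℚ ⊓ ρ.ker) ζ s E π)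
    {f : ℕ} (bk : Basis (Fin f) (ZMod p) k)
    (x : Fin (f + 1) → ↥(A.decompositionSubgroup ℚ) → Module.End k V)
    (hx : ∀ i, IsCoc (A.decompositionSubgroup ℚ) (adRep ρ) (x i))
    (hxtr : ∀ i g, LinearMap.trace k V (x i g) = 0)
    (hxFB : ∀ i, RadFB (p := p) A (A.decompositionSubgroup ℚ)
      (A.inertiaSubgroupIn ℚ ⊓ ρ.ker) ζ (x i)) :
    ∃ n : Fin (f + 1) → ℕ, (∃ i, ¬ p ∣ n i) ∧
      ∀ g : ↥(A.decompositionSubgroup ℚ), (g : GQ) ∈ A.inertiaSubgroupIn ℚ ⊓ ρ.ker →
        ∑ i, n i • x i g = 0 := by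
  classical
  have hp := (Fact.out : p.Prime)
  have hp0 := hp.ne_zero
  have hp3 : 3 ≤ p := by have := hp.two_le; omega
  have hα := h.fst_ne_zero hp0
  have hβ := h.snd_ne_zero hp0
  have hξη : α * β⁻¹ * (β * α⁻¹) = 1 := by field_simp
  obtain ⟨τ₀, hτ₀k, -, hτ₀⟩ := h.exists_nat_trace hp
  obtain ⟨φ, hφ⟩ := Fermat.Agent.Lib.helper54.exists_isFrobeniusAt hp A hA
  obtain ⟨c, d, hc, hd, hφX⟩ := frame_conj_frob_inv h hφ
  -- a nonzero additive functional on `k`
  obtain ⟨i₀, hi₀⟩ : ∃ i, bk.repr 1 i ≠ 0 := by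
    by_contra hcon
    have h0 : bk.repr 1 = 0 := Finsupp.ext fun i => by
      by_contra hi
      exact hcon ⟨i, hi⟩
    exact one_ne_zero (bk.repr.map_eq_zero_iff.1 h0)
  obtain ⟨Tr, hTrdef⟩ : ∃ Tr : k →+ ZMod p, Tr = (bk.coord i₀).toAddMonoidHom := ⟨_, rfl⟩
  have hTr : ∀ y : k, (∀ a : k, Tr (a * y) = 0) → y = 0 := by
    intro y hy
    by_contra hy0
    apply hi₀
    have h1 := hy y⁻¹
    rw [inv_mul_cancel₀ hy0, hTrdef] at h1
    exact h1
  have hJmem : ∀ σ, σ ∈ A.inertiaSubgroupIn ℚ ⊓ ρ.ker ↔ σ ∈ A.inertiaSubgroupIn ℚ ∧ ρ σ = 1 :=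
    fun σ => by rw [Subgroup.mem_inf, MonoidHom.mem_ker]
  have hJI : A.inertiaSubgroupIn ℚ ⊓ ρ.ker ≤ A.inertiaSubgroupIn ℚ := inf_le_left
  have hID : ∀ σ, σ ∈ A.inertiaSubgroupIn ℚ → σ ∈ A.decompositionSubgroup ℚ := fun σ hσ =>
    Fermat.Agent.S05.helper4205.mem_decomposition_of_mem_inertiaSubgroupIn hσ
  have hJD : A.inertiaSubgroupIn ℚ ⊓ ρ.ker ≤ A.decompositionSubgroup ℚ :=
    fun σ hσ => hID σ (hJI hσ)
  have hJζ : ∀ g ∈ A.inertiaSubgroupIn ℚ ⊓ ρ.ker, g ζ = ζ :=
    fun g hg => hζfix g ((hJmem g).1 hg).2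
  have hJtriv : ∀ g ∈ A.inertiaSubgroupIn ℚ ⊓ ρ.ker, adRep ρ g = 1 :=
    fun g hg => adRep_eq_one_of ρ ((hJmem g).1 hg).2
  have hnorm : ∀ g ∈ A.decompositionSubgroup ℚ, ∀ x ∈ A.inertiaSubgroupIn ℚ ⊓ ρ.ker,
      g⁻¹ * x * g ∈ A.inertiaSubgroupIn ℚ ⊓ ρ.ker :=
    fun g hg => Fermat.Agent.S56.helper4753.conj_mem_of_hom ρ hJmem hg
  -- the tame generator on functionals
  have hτpair : ∀ (w : k × k) (m : Module.End k V),
      pairW Tr b (tauW (α * β⁻¹) (β * α⁻¹) w) m = pairW Tr b w (adRep ρ s⁻¹ m) := by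
    intro w m
    obtain ⟨-, e01, e10⟩ := frame_conj_gen_inv h hp0 m
    rw [pairW_apply, pairW_apply, adRep_apply, inv_inv, e01, e10, tauW_apply]
    congr 1
    ring
  have hτ : ∀ ν : k × k, tauW (α * β⁻¹) (β * α⁻¹) (tauW (α * β⁻¹) (β * α⁻¹) ν) + ν =
      τ₀ • tauW (α * β⁻¹) (β * α⁻¹) ν := by
    intro ν
    rw [tauW_apply, tauW_apply]
    refine Prod.ext ?_ ?_
    · show β * α⁻¹ * (β * α⁻¹ * ν.1) + ν.1 = τ₀ • (β * α⁻¹ * ν.1)
      rw [nsmul_eq_mul, hτ₀k]
      linear_combination (-ν.1) * hξη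
    · show α * β⁻¹ * (α * β⁻¹ * ν.2) + ν.2 = τ₀ • (α * β⁻¹ * ν.2)
      rw [nsmul_eq_mul, hτ₀k]
      linear_combination (-ν.2) * hξη
  have hcase : (∃ ν₀ : k × k, Submodule.span k {ν₀, tauW (α * β⁻¹) (β * α⁻¹) ν₀} = ⊤) ∨
      ((p : ℤ) ∣ (τ₀ : ℤ) + 2 ∧ 5 ≤ p) := by
    by_cases hneg : α * β⁻¹ = -1
    · right
      refine ⟨(h.dvd_add_two_iff hp0 hτ₀k).2 hneg, ?_⟩
      have h3 : p ≠ 3 := fun h3 => h.ratio_ne_neg_one_of_three h3 hdetI hneg
      have h4 : p ≠ 4 := fun h4 => by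
        rw [h4] at hp
        exact absurd hp (by norm_num)
      omega
    · left
      have hne : α * β⁻¹ - β * α⁻¹ ≠ 0 := by
        intro h0
        have h1 : α * β⁻¹ = β * α⁻¹ := sub_eq_zero.1 h0
        have h3 : α * β⁻¹ * (α * β⁻¹) = 1 := by
          nth_rewrite 2 [h1]; exact hξη
        have h2 : (α * β⁻¹ - 1) * (α * β⁻¹ + 1) = 0 := by linear_combination h3
        rcases mul_eq_zero.1 h2 with h4 | h4
        · exact h.ratio_ne_one hp0 (sub_eq_zero.1 h4)
        · exact hneg (eq_neg_of_add_eq_zero_left h4)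
      refine ⟨(1, 1), ?_⟩
      rw [eq_top_iff]
      rintro ⟨x₁, x₂⟩ -
      rw [tauW_apply]
      refine Submodule.mem_span_pair.2
        ⟨x₁ - (x₂ - x₁) / (α * β⁻¹ - β * α⁻¹) * (β * α⁻¹),
          (x₂ - x₁) / (α * β⁻¹ - β * α⁻¹), Prod.ext ?_ ?_⟩
      · simp only [Prod.smul_mk, Prod.mk_add_mk, smul_eq_mul, mul_one]
        ring
      · simp only [Prod.smul_mk, Prod.mk_add_mk, smul_eq_mul, mul_one]
        have e : (x₂ - x₁) / (α * β⁻¹ - β * α⁻¹) * (α * β⁻¹ - β * α⁻¹) = x₂ - x₁ :=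
          div_mul_cancel₀ _ hne
        linear_combination e
  -- Frobenius on functionals
  have hφpair : ∀ (w : k × k) (m : Module.End k V),
      pairW Tr b (phiW (c * d⁻¹) (d * c⁻¹) w) m = pairW Tr b w (adRep ρ φ⁻¹ m) := by
    intro w m
    obtain ⟨e01, e10⟩ := hφX m
    rw [pairW_apply, pairW_apply, adRep_apply, inv_inv, e01, e10, phiW_apply]
    congr 1
    ring
  have hφW : Function.Surjective (phiW (c * d⁻¹) (d * c⁻¹)) := by
    rintro ⟨x₁, x₂⟩
    refine ⟨(c * d⁻¹ * x₂, d * c⁻¹ * x₁), ?_⟩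
    rw [phiW_apply]
    refine Prod.ext ?_ ?_
    · show c * d⁻¹ * (d * c⁻¹ * x₁) = x₁
      field_simp
    · show d * c⁻¹ * (c * d⁻¹ * x₂) = x₂
      field_simp
  -- separation on trace-zero endomorphisms
  have hsep : ∀ m ∈ (LinearMap.trace k V).toAddMonoidHom.ker, (∀ ν, pairW Tr b ν m = 0) →
      (∀ lam : Module.End k V →+ ZMod p, (∀ m', lam (adRep ρ s⁻¹ m') = lam m') → lam m = 0) →
      m = 0 := by
    intro m hm hpair hinv
    have htr : LinearMap.trace k V m = 0 := AddMonoidHom.mem_ker.1 hm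
    have h01 : LinearMap.toMatrix b b m 0 1 = 0 := hTr _ (fun a => by
      have h1 := hpair (a, 0)
      rw [pairW_apply] at h1
      simpa using h1)
    have h10 : LinearMap.toMatrix b b m 1 0 = 0 := hTr _ (fun a => by
      have h1 := hpair (0, a)
      rw [pairW_apply] at h1
      simpa using h1)
    have h00 : LinearMap.toMatrix b b m 0 0 = 0 := hTr _ (fun a => by
      have h1 := hinv (lamD Tr b a) (fun m' => by
        rw [lamD_apply, lamD_apply, adRep_apply, inv_inv, (frame_conj_gen_inv h hp0 m').1])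
      rwa [lamD_apply] at h1)
    have h11 : LinearMap.toMatrix b b m 1 1 = 0 := by
      rw [LinearMap.trace_eq_matrix_trace k b m, Matrix.trace_fin_two, h00, zero_add] at htr
      exact htr
    have hM : LinearMap.toMatrix b b m = 0 := by
      ext i j
      fin_cases i <;> fin_cases j
      · exact h00
      · exact h01
      · exact h10
      · exact h11
    exact (LinearMap.toMatrix b b).map_eq_zero_iff.1 hM
  exact T.exists_dependence hp3 hζ hJζ hJI hJD le_rfl hJtriv h.mem (hID s h.mem) hnorm bk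
    (pairW Tr b) (tauW (α * β⁻¹) (β * α⁻¹)) hτpair hτ hτ₀ hcase hφ hφ.mem_decompositionSubgroup
    (phiW (c * d⁻¹) (d * c⁻¹)) hφW hφpair (LinearMap.trace k V).toAddMonoidHom.ker hsep x hx
    (fun i g => AddMonoidHom.mem_ker.2 (hxtr i g)) hxFB

end Frame

end Fermat.Agent.S56.helper2999
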