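/-
S56, FLAT-TAMEK0 (helper4753), fifth file: the level count of `helper4188_N2Level`
(`exists_dependence_tame`) instantiated on the fixed field of a tame subgroup, with every
field-side hypothesis discharged.

`P` a valuation subring of `ℚ̄` over `p`, `I` its inertia group, `J ≤ I` a tame subgroup
(`IsTameSub p P J`), `K := fixSub J` with the valuation `vK P J`.

* `IsTameSub.pow_mem_iff_of_generates` : an element `t` of `I` generating `I` modulo `J` has
                                          order exactly `[I : J]` modulo `J`.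
* `IsTameSub.exists_dependence`        : the count.  Inputs: any generator `t` of `I` modulo
                                          `J`, any Frobenius element `φ` normalising `J`,
                                          families of Kummer generators `U i : Λ → K`
                                          equivariant for `t` and `φ`, each of level `≥ v p`
                                          (the Fontaine bound, in the shape
                                          `v (u * w ^ p - 1) ≤ v p`).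
-/
import Mathlib
import Fermat.Agent.S56.helper4753_TameAdapt
import Fermat.Agent.S56.helper4188_N2Level

set_option autoImplicit false

namespace Fermat.Agent.S56.helper4753

open Fermat.Agent.Lib.helper54 Fermat.Agent.Lib.helper2489
open Fermat.Agent.S56.helper4188

attribute [local instance] isAlgebraic_Qbar isAlgClosure_Qbar isGalois_Qbar isIntegral_Qbar

local notation "Qb" => AlgebraicClosure ℚ
local notation "GQ" => (AlgebraicClosure ℚ ≃ₐ[ℚ] AlgebraicClosure ℚ)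

variable {p : ℕ} {P : ValuationSubring Qb} {J : Subgroup GQ}

/-- An element `t` of the inertia group generating it modulo the tame subgroup `J` has order
exactly `[I : J]` modulo `J`. -/
theorem IsTameSub.pow_mem_iff_of_generates (h : IsTameSub p P J) {t : GQ}
    (ht : t ∈ P.inertiaSubgroupIn ℚ)
    (hgen : ∀ σ ∈ P.inertiaSubgroupIn ℚ, ∃ n : ℕ, σ⁻¹ * t ^ n ∈ J) (k : ℕ) :
    t ^ k ∈ J ↔ J.relIndex (P.inertiaSubgroupIn ℚ) ∣ k := by
  have := h.finite_range
  have hpow : ∀ m : ℕ, ((⟨t, ht⟩ : ↥(P.inertiaSubgroupIn ℚ)) ^ m).1 = t ^ m := fun m =>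
    Subgroup.coe_pow _ _ _
  have hg : ∀ x : h.resMonoidHom.range,
      x ∈ Subgroup.zpowers (⟨h.resMonoidHom ⟨t, ht⟩, ⟨_, rfl⟩⟩ : h.resMonoidHom.range) := by
    rintro ⟨x, σ, rfl⟩
    obtain ⟨n, hn⟩ := hgen σ.1 σ.2
    have hmem : (σ⁻¹ * ⟨t, ht⟩ ^ n : ↥(P.inertiaSubgroupIn ℚ)).1 ∈ J := by
      rw [Subgroup.coe_mul, Subgroup.coe_inv, hpow]
      exact hn
    have h1 := h.resMonoidHom_eq_one_of_mem hmem
    rw [map_mul, map_inv, inv_mul_eq_one, map_pow] at h1
    rw [← mem_powers_iff_mem_zpowers]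
    refine (Submonoid.mem_powers_iff _ _).2 ⟨n, ?_⟩
    apply Subtype.ext
    rw [SubmonoidClass.coe_pow]
    exact h1.symm
  rw [← h.card_range, ← orderOf_eq_card_of_forall_mem_zpowers hg, orderOf_dvd_iff_pow_eq_one]
  constructor
  · intro hk
    apply Subtype.ext
    rw [SubmonoidClass.coe_pow]
    change h.resMonoidHom ⟨t, ht⟩ ^ k = 1
    rw [← map_pow]
    refine h.resMonoidHom_eq_one_of_mem ?_
    rw [hpow]
    exact hk
  · intro hk
    have h3 := congrArg Subtype.val hk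
    rw [SubmonoidClass.coe_pow] at h3
    change h.resMonoidHom ⟨t, ht⟩ ^ k = 1 at h3
    rw [← map_pow] at h3
    have h4 := h.mem_of_resMonoidHom_eq_one h3
    rw [hpow] at h4
    exact h4

/-- **The level count on the fixed field of a tame subgroup.**  `J ≤ I` tame at `p ≥ 3`,
`K = fixSub J ∋ ζ_p`; `t ∈ I` generates `I` modulo `J`, `t ζ = ζ ^ j`; `φ` a Frobenius element
normalising `J`.  Families `U i : Λ → K` of Kummer generators, equivariant for `t` (through
`τ`, `τ ∘ τ + 1 = τ₀ • τ`, `τ₀ ≢ 2 mod p`) and for `φ` (through a surjective `φΛ`, exponent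
`jφ` prime to `p`), each of level `≥ v p` modulo `p`-th powers.  If `Λ` is generated by
`g k`, `τ (g k)` (`k : κ`) and there are more than `card κ` families, then some combination
with exponents not all divisible by `p` consists of `p`-th powers of `K`. -/
theorem IsTameSub.exists_dependence (h : IsTameSub p P J) (hp : p.Prime) (hp3 : 3 ≤ p)
    (hP : P.LiesOverPrime p) {ζ : fixSub J} (hζ : IsPrimitiveRoot ζ p)
    {t : GQ} (ht : t ∈ P.inertiaSubgroupIn ℚ)
    (hgen : ∀ σ ∈ P.inertiaSubgroupIn ℚ, ∃ n : ℕ, σ⁻¹ * t ^ n ∈ J)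
    {j : ℕ} (hj : t (ζ : Qb) = (ζ : Qb) ^ j)
    {φ : GQ} (hφ : P.IsFrobeniusAt φ p) (hφJ : ∀ τ ∈ J, φ⁻¹ * τ * φ ∈ J)
    {Λ : Type*} [AddCommGroup Λ] {τ φΛ : Λ →+ Λ} {τ₀ jφ : ℕ}
    (hτ : ∀ ν, τ (τ ν) + ν = τ₀ • τ ν) (hτ₀ : ¬ (p : ℤ) ∣ (τ₀ : ℤ) - 2)
    (hφΛ : Function.Surjective φΛ) (hjφ : ¬ p ∣ jφ)
    {ι : Type*} [Fintype ι] (U : ι → Λ → fixSub J)
    (hUt : ∀ i, IsFamily p (resHom J t (h.conj t ht)) τ j (U i))
    (hUφ : ∀ i, IsFamily p (resHom J φ hφJ) φΛ jφ (U i))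
    (hlev : ∀ i ν, ∃ w : fixSub J, w ≠ 0 ∧
      vK P J (U i ν * w ^ p - 1) ≤ vK P J (p : fixSub J))
    {κ : Type*} [Fintype κ] (g : κ → Λ)
    (hgenΛ : AddSubgroup.closure (Set.range g ∪ Set.range (fun k => τ (g k))) = ⊤)
    (hcard : Fintype.card κ < Fintype.card ι) :
    ∃ n : ι → ℕ, (∃ i, ¬ p ∣ n i) ∧ ∀ ν, PEq p (∏ i, U i ν ^ n i) 1 := by
  obtain ⟨π, hπ0, hπ1, hunif⟩ := h.exists_unif hp hP
  have hπ : IsUnif (vK P J) π := ⟨hπ1, hπ0, hunif⟩
  have he := h.vK_unif_pow hp hP hπ0 hπ1 hunif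
  obtain ⟨E, hE, heE, hlam⟩ :=
    exists_val_primitiveRoot_sub_one_eq (vK P J) hp hπ h.relIndex_pos he hζ
  have hlam1 : vK P J (ζ - 1) < 1 := by
    rw [hlam]
    exact pow_lt_one₀ zero_le hπ1 hE.ne'
  have hord := h.pow_mem_iff_of_generates ht hgen
  have htD := Fermat.Agent.S05.helper4205.mem_decomposition_of_mem_inertiaSubgroupIn ht
  have hτ₀' : vK P J ((τ₀ : fixSub J) - 2) = 1 := by
    have h1 := Fermat.Agent.S05.helper4205.valuation_intCast_eq_one hp hP hτ₀
    rw [vK_apply]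
    push_cast at h1 ⊢
    exact h1
  have hjφ' : vK P J (jφ : fixSub J) = 1 := by
    have h1 := Fermat.Agent.S05.helper4205.valuation_natCast_eq_one (L := Qb) hp hP hjφ
    rw [vK_apply]
    push_cast
    exact h1
  refine exists_dependence_tame (v := vK P J) (π := π) (ζ := ζ)
    (c := tcoef J t (h.conj t ht) π) (cφ := tcoef J φ hφJ π) (E := E)
    (t := resHom J t (h.conj t ht)) (φ := resHom J φ hφJ) (τ := τ) (φΛ := φΛ) (j := j)
    (jφ := jφ) (τ₀ := τ₀) hp hp3 hζ hπ hE hlam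
    (fun a ha => exists_pow_sub_lt P J hp hP a ha)
    (fun u hu => exists_pow_eq_of_vK_sub_one_lt P J hp
      (h.le.trans (fun σ hσ =>
        Fermat.Agent.S05.helper4205.mem_decomposition_of_mem_inertiaSubgroupIn hσ)) hζ u hu)
    (fun x => vK_resHom P J htD _ x)
    (fun x hx => vK_resHom_sub_lt P J ht _ x hx)
    (resHom_eq_mul_tcoef J t _ hπ0)
    (fun k => by
      rw [← heE]
      exact h.vK_tcoef_generator_pow_sub_one_lt_iff hp hP hπ0 hunif ht hord k)
    (h.vK_natCast_sub_tcoef_pow_lt hp hζ hπ0 hlam hlam1 ht hj)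
    hτ hτ₀'
    (fun x => vK_resHom P J hφ.mem_decompositionSubgroup hφJ x)
    (fun x hx => vK_resHom_frob P J hφ hφJ x hx)
    (resHom_eq_mul_tcoef J φ hφJ hπ0)
    hφΛ hjφ' U hUt hUφ
    (fun i ν => by
      obtain ⟨w, hw, hle⟩ := hlev i ν
      refine ⟨w, hw, ?_⟩
      rw [← heE, he]
      exact hle)
    g hgenΛ hcard

/-! ### Appended: the package for a given generator, the scalar type, invariant radicands -/

/-- The tame package at a *given* generator `t` of `I` modulo `J`. -/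
theorem IsTameSub.exists_unif_of_generates (h : IsTameSub p P J) (hp : p.Prime)
    (hP : P.LiesOverPrime p) {ζ : fixSub J} (hζ : IsPrimitiveRoot ζ p)
    {t : GQ} (ht : t ∈ P.inertiaSubgroupIn ℚ)
    (hgen : ∀ σ ∈ P.inertiaSubgroupIn ℚ, ∃ n : ℕ, σ⁻¹ * t ^ n ∈ J)
    {j : ℕ} (hj : t (ζ : Qb) = (ζ : Qb) ^ j) :
    ∃ (π : fixSub J) (E : ℕ), IsUnif (vK P J) π ∧ 0 < E ∧
      vK P J (ζ - 1) = vK P J π ^ E ∧
      vK P J π ^ ((p - 1) * E) = vK P J (p : fixSub J) ∧
      (∀ k : ℕ, vK P J (tcoef J t (h.conj t ht) π ^ k - 1) < 1 ↔ ((p - 1) * E) ∣ k) ∧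
      vK P J ((j : fixSub J) - tcoef J t (h.conj t ht) π ^ E) < 1 := by
  obtain ⟨π, hπ0, hπ1, hunif⟩ := h.exists_unif hp hP
  have hπ : IsUnif (vK P J) π := ⟨hπ1, hπ0, hunif⟩
  have he := h.vK_unif_pow hp hP hπ0 hπ1 hunif
  obtain ⟨E, hE, heE, hlam⟩ :=
    exists_val_primitiveRoot_sub_one_eq (vK P J) hp hπ h.relIndex_pos he hζ
  have hlam1 : vK P J (ζ - 1) < 1 := by
    rw [hlam]
    exact pow_lt_one₀ zero_le hπ1 hE.ne'
  have hord := h.pow_mem_iff_of_generates ht hgen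
  refine ⟨π, E, hπ, hE, hlam, ?_, ?_, ?_⟩
  · rw [← heE]; exact he
  · intro k
    rw [← heE]
    exact h.vK_tcoef_generator_pow_sub_one_lt_iff hp hP hπ0 hunif ht hord k
  · exact h.vK_natCast_sub_tcoef_pow_lt hp hζ hπ0 hlam hlam1 ht hj

/-- **The scalar type `τ = -1`** (`τ₀ ≡ -2 mod p`, `p ≥ 5`) on the fixed field of a tame
subgroup: every member of a family of level `≥ v p`, equivariant for a generator `t` of `I`
modulo `J`, is a `p`-th power.  (`helper4188.IsFamily.peq_one_of_neg_two` with the field side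
discharged.) -/
theorem IsTameSub.peq_one_of_neg_two (h : IsTameSub p P J) (hp : p.Prime) (hp5 : 5 ≤ p)
    (hP : P.LiesOverPrime p) {ζ : fixSub J} (hζ : IsPrimitiveRoot ζ p)
    {t : GQ} (ht : t ∈ P.inertiaSubgroupIn ℚ)
    (hgen : ∀ σ ∈ P.inertiaSubgroupIn ℚ, ∃ n : ℕ, σ⁻¹ * t ^ n ∈ J)
    {j : ℕ} (hj : t (ζ : Qb) = (ζ : Qb) ^ j)
    {Λ : Type*} [AddCommGroup Λ] {τ : Λ →+ Λ} {τ₀ : ℕ}
    (hτ : ∀ ν, τ (τ ν) + ν = τ₀ • τ ν) (hτ₀ : (p : ℤ) ∣ (τ₀ : ℤ) + 2)
    {U : Λ → fixSub J} (hU : IsFamily p (resHom J t (h.conj t ht)) τ j U)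
    (hlev : ∀ ν, ∃ w : fixSub J, w ≠ 0 ∧
      vK P J (U ν * w ^ p - 1) ≤ vK P J (p : fixSub J)) (ν : Λ) :
    PEq p (U ν) 1 := by
  obtain ⟨π, E, hπ, hE, hlam, he, hcord, hjc⟩ := h.exists_unif_of_generates hp hP hζ ht hgen hj
  have htD := Fermat.Agent.S05.helper4205.mem_decomposition_of_mem_inertiaSubgroupIn ht
  have hτ₀' : vK P J ((τ₀ : fixSub J) + 2) < 1 := by
    have h1 : (((τ₀ : ℤ) + 2 : ℤ) : Qb) ∈ P.nonunits :=
      (Fermat.Agent.S05.helper4205.intCast_mem_nonunits_iff hp hP _).2 hτ₀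
    have h2 := (ValuationSubring.mem_nonunits_iff P).1 h1
    rw [vK_apply]
    push_cast at h2 ⊢
    exact h2
  exact IsFamily.peq_one_of_neg_two (v := vK P J) (π := π) (ζ := ζ)
    (c := tcoef J t (h.conj t ht) π) (E := E) (t := resHom J t (h.conj t ht)) (τ := τ)
    (j := j) (τ₀ := τ₀) hp hp5 hζ hπ hE hlam
    (fun a ha => exists_pow_sub_lt P J hp hP a ha)
    (fun u hu => exists_pow_eq_of_vK_sub_one_lt P J hp
      (h.le.trans (fun σ hσ =>
        Fermat.Agent.S05.helper4205.mem_decomposition_of_mem_inertiaSubgroupIn hσ)) hζ u hu)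
    (fun x => vK_resHom P J htD _ x)
    (fun x hx => vK_resHom_sub_lt P J ht _ x hx)
    (resHom_eq_mul_tcoef J t _ hπ.ne_zero) hcord hjc hτ hτ₀' hU
    (fun ν => by
      obtain ⟨w, hw, hle⟩ := hlev ν
      refine ⟨w, hw, ?_⟩
      rw [he]
      exact hle) ν

/-- **Invariant radicands have top level**: on the fixed field of a tame subgroup (`p ≥ 3`),
an element `u` of level `≥ v p` on which a generator `t` of `I` modulo `J` acts through `j`
(`t u ≡ u ^ j` modulo `p`-th powers, `t ζ = ζ ^ j`) is `≡ 1` modulo `(ζ - 1) ^ p` up to a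
`p`-th power.  (`helper4188.levelGE_top_of_invariant` with the field side discharged; the
conclusion is the hypothesis `htop` of `helper164.IsRadicand.unramified_of_top`.) -/
theorem IsTameSub.top_level_of_invariant (h : IsTameSub p P J) (hp : p.Prime) (hp3 : 3 ≤ p)
    (hP : P.LiesOverPrime p) {ζ : fixSub J} (hζ : IsPrimitiveRoot ζ p)
    {t : GQ} (ht : t ∈ P.inertiaSubgroupIn ℚ)
    (hgen : ∀ σ ∈ P.inertiaSubgroupIn ℚ, ∃ n : ℕ, σ⁻¹ * t ^ n ∈ J)
    {j : ℕ} (hj : t (ζ : Qb) = (ζ : Qb) ^ j)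
    {u : fixSub J} (hu : PEq p (resHom J t (h.conj t ht) u) (u ^ j))
    (hlev : ∃ w : fixSub J, w ≠ 0 ∧ vK P J (u * w ^ p - 1) ≤ vK P J (p : fixSub J)) :
    ∃ w : fixSub J, w ≠ 0 ∧
      vK P J (u * w ^ p - 1) ≤ P.valuation ((ζ : Qb) - 1) ^ p := by
  obtain ⟨π, E, hπ, hE, hlam, he, hcord, hjc⟩ := h.exists_unif_of_generates hp hP hζ ht hgen hj
  have htD := Fermat.Agent.S05.helper4205.mem_decomposition_of_mem_inertiaSubgroupIn ht
  have h1 : LevelGE (vK P J) π p (p * E) u :=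
    levelGE_top_of_invariant (v := vK P J) (π := π) (ζ := ζ)
      (c := tcoef J t (h.conj t ht) π) (E := E) (t := resHom J t (h.conj t ht)) (j := j)
      hp hp3 hζ hπ hE hlam
      (fun a ha => exists_pow_sub_lt P J hp hP a ha)
      (fun x => vK_resHom P J htD _ x)
      (fun x hx => vK_resHom_sub_lt P J ht _ x hx)
      (resHom_eq_mul_tcoef J t _ hπ.ne_zero) hcord hjc hu
      (by
        obtain ⟨w, hw, hle⟩ := hlev
        refine ⟨w, hw, ?_⟩
        rw [he]
        exact hle)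
  obtain ⟨w, hw, hle⟩ := h1
  refine ⟨w, hw, ?_⟩
  have h2 : vK P J π ^ (p * E) = P.valuation ((ζ : Qb) - 1) ^ p := by
    have h3 : vK P J (ζ - 1) = P.valuation ((ζ : Qb) - 1) := rfl
    rw [← h3, hlam, ← pow_mul, mul_comm]
  rw [← h2]
  exact hle

end Fermat.Agent.S56.helper4753
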