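/-
S56, FLAT-TAMEK0 (helper4753), sixth file: the tame package and the level count on the
carrier of the Kummer dictionary (`helper164`): `K := helper164.fixedK J`,
`v := helper164.valK P J`, restricted automorphisms `helper164.fixedRestrict J σ _`.

The carrier `fixSub J`, `vK P J`, `resHom J σ _` of `helper4753_TameField` is definitionally
the same (`coe_fixSub_eq`, `resHom_eq_fixedRestrict`, `vK_eq_valK`); the statements below are
the ones of `helper4753_TameField` / `TameAdapt` / `TameDep` restated on `fixedK`.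

* `exists_pow_sub_lt_fixedK`        : `hperf` on `fixedK J`.
* `exists_pow_eq_fixedK`            : `hHens` on `fixedK J` (`J ≤ D`).
* `IsTameSub.exists_tame_package_fixedK` : uniformizer, `E`, tame generator `t`, its tame
                                      coefficient `c` with `hcord`, `hj`.
* `IsTameSub.exists_dependence_fixedK`   : the level count `helper4188.exists_dependence_tame`
                                      with every field-side hypothesis discharged.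
-/
import Mathlib
import Fermat.Agent.S56.helper4753_TameDep
import Fermat.Agent.S56.helper164_KummerLocal

set_option autoImplicit false

namespace Fermat.Agent.S56.helper4753

open Fermat.Agent.Lib.helper54 Fermat.Agent.Lib.helper2489
open Fermat.Agent.S56.helper4188
open Fermat.Agent.S56.helper164 (fixedK fixedRestrict valK)

attribute [local instance] isAlgebraic_Qbar isAlgClosure_Qbar isGalois_Qbar isIntegral_Qbar

local notation "Qb" => AlgebraicClosure ℚ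
local notation "GQ" => (AlgebraicClosure ℚ ≃ₐ[ℚ] AlgebraicClosure ℚ)

/-- The two carriers of the fixed field are the same type. -/
theorem coe_fixSub_eq (J : Subgroup GQ) : (↥(fixSub J) : Type) = ↥(fixedK J) := rfl

/-- The two restricted automorphisms agree. -/
theorem resHom_eq_fixedRestrict (J : Subgroup GQ) (σ : GQ) (hσ : ∀ τ ∈ J, σ⁻¹ * τ * σ ∈ J) :
    (resHom J σ hσ : fixSub J →+* fixSub J) = fixedRestrict J σ hσ := rfl

/-- The two valuations agree. -/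
theorem vK_eq_valK (P : ValuationSubring Qb) (J : Subgroup GQ) :
    (vK P J : Valuation (fixSub J) P.ValueGroup) = valK P J := rfl

variable {p : ℕ} {P : ValuationSubring Qb} {J : Subgroup GQ}

/-- `hperf` on `fixedK J`: every residue class is a `p`-th power. -/
theorem exists_pow_sub_lt_fixedK (hp : p.Prime) (hP : P.LiesOverPrime p) (a : fixedK J)
    (ha : valK P J a ≤ 1) : ∃ b : fixedK J, valK P J (a - b ^ p) < 1 :=
  exists_pow_sub_lt P J hp hP a ha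

/-- `hHens` on `fixedK J`, `J ≤ D`: `v (u - 1) < v (ζ - 1) ^ p` implies `u` is a `p`-th power. -/
theorem exists_pow_eq_fixedK (hp : p.Prime) (hJD : J ≤ P.decompositionSubgroup ℚ)
    {ζ : fixedK J} (hζ : IsPrimitiveRoot ζ p) (u : fixedK J)
    (hu : valK P J (u - 1) < valK P J (ζ - 1) ^ p) : ∃ x : fixedK J, x ^ p = u :=
  exists_pow_eq_of_vK_sub_one_lt P J hp hJD hζ u hu

/-- **The tame package on `fixedK J`**: a uniformizer `π`, `E` with `v (ζ - 1) = v π ^ E`,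
`[I : J] = (p - 1) * E`, a generator `t` of `I` modulo `J` and its tame coefficient
`c = t π / π`, of exact order `(p - 1) * E` in the residue field, with `c ^ E ≡ j` whenever
`t ζ = ζ ^ j`. -/
theorem IsTameSub.exists_tame_package_fixedK (h : IsTameSub p P J) (hp : p.Prime)
    (hP : P.LiesOverPrime p) {ζ : fixedK J} (hζ : IsPrimitiveRoot ζ p) :
    ∃ (π : fixedK J) (E : ℕ) (t : GQ) (ht : t ∈ P.inertiaSubgroupIn ℚ) (c : fixedK J),
      IsUnif (valK P J) π ∧ 0 < E ∧ valK P J (ζ - 1) = valK P J π ^ E ∧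
      J.relIndex (P.inertiaSubgroupIn ℚ) = (p - 1) * E ∧
      valK P J π ^ ((p - 1) * E) = valK P J (p : fixedK J) ∧
      (∀ σ ∈ P.inertiaSubgroupIn ℚ, ∃ n : ℕ, σ⁻¹ * t ^ n ∈ J) ∧
      (∀ k : ℕ, t ^ k ∈ J ↔ ((p - 1) * E) ∣ k) ∧
      fixedRestrict J t (h.conj t ht) π = π * c ∧
      (∀ k : ℕ, valK P J (c ^ k - 1) < 1 ↔ ((p - 1) * E) ∣ k) ∧
      (∀ j : ℕ, t (ζ : Qb) = (ζ : Qb) ^ j → valK P J ((j : fixedK J) - c ^ E) < 1) := by
  obtain ⟨π, E, t, ht, h1, h2, h3, h4, h5, h6, h7, h8, h9⟩ :=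
    h.exists_tame_package hp hP (ζ := ζ) hζ
  exact ⟨π, E, t, ht, tcoef J t (h.conj t ht) π, h1, h2, h3, h4, h5, h6, h7,
    resHom_eq_mul_tcoef J t _ h1.ne_zero, h8, h9⟩

/-- **The level count on `fixedK J`** (`IsTameSub.exists_dependence` on the carrier of the
Kummer dictionary). -/
theorem IsTameSub.exists_dependence_fixedK (h : IsTameSub p P J) (hp : p.Prime) (hp3 : 3 ≤ p)
    (hP : P.LiesOverPrime p) {ζ : fixedK J} (hζ : IsPrimitiveRoot ζ p)
    {t : GQ} (ht : t ∈ P.inertiaSubgroupIn ℚ)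
    (hgen : ∀ σ ∈ P.inertiaSubgroupIn ℚ, ∃ n : ℕ, σ⁻¹ * t ^ n ∈ J)
    {j : ℕ} (hj : t (ζ : Qb) = (ζ : Qb) ^ j)
    {φ : GQ} (hφ : P.IsFrobeniusAt φ p) (hφJ : ∀ τ ∈ J, φ⁻¹ * τ * φ ∈ J)
    {Λ : Type*} [AddCommGroup Λ] {τ φΛ : Λ →+ Λ} {τ₀ jφ : ℕ}
    (hτ : ∀ ν, τ (τ ν) + ν = τ₀ • τ ν) (hτ₀ : ¬ (p : ℤ) ∣ (τ₀ : ℤ) - 2)
    (hφΛ : Function.Surjective φΛ) (hjφ : ¬ p ∣ jφ)
    {ι : Type*} [Fintype ι] (U : ι → Λ → fixedK J)
    (hUt : ∀ i, IsFamily p (fixedRestrict J t (h.conj t ht)) τ j (U i))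
    (hUφ : ∀ i, IsFamily p (fixedRestrict J φ hφJ) φΛ jφ (U i))
    (hlev : ∀ i ν, ∃ w : fixedK J, w ≠ 0 ∧
      valK P J (U i ν * w ^ p - 1) ≤ valK P J (p : fixedK J))
    {κ : Type*} [Fintype κ] (g : κ → Λ)
    (hgenΛ : AddSubgroup.closure (Set.range g ∪ Set.range (fun k => τ (g k))) = ⊤)
    (hcard : Fintype.card κ < Fintype.card ι) :
    ∃ n : ι → ℕ, (∃ i, ¬ p ∣ n i) ∧ ∀ ν, PEq p (∏ i, U i ν ^ n i) 1 :=
  h.exists_dependence hp hp3 hP (ζ := ζ) hζ ht hgen hj hφ hφJ hτ hτ₀ hφΛ hjφ U hUt hUφ hlev g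
    hgenΛ hcard

/-! ### Appended: the package at a given generator, the scalar type, invariant radicands -/

/-- The tame package on `fixedK J` at a *given* generator `t` of `I` modulo `J`. -/
theorem IsTameSub.exists_unif_of_generates_fixedK (h : IsTameSub p P J) (hp : p.Prime)
    (hP : P.LiesOverPrime p) {ζ : fixedK J} (hζ : IsPrimitiveRoot ζ p)
    {t : GQ} (ht : t ∈ P.inertiaSubgroupIn ℚ)
    (hgen : ∀ σ ∈ P.inertiaSubgroupIn ℚ, ∃ n : ℕ, σ⁻¹ * t ^ n ∈ J)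
    {j : ℕ} (hj : t (ζ : Qb) = (ζ : Qb) ^ j) :
    ∃ (π : fixedK J) (E : ℕ) (c : fixedK J), IsUnif (valK P J) π ∧ 0 < E ∧
      valK P J (ζ - 1) = valK P J π ^ E ∧
      valK P J π ^ ((p - 1) * E) = valK P J (p : fixedK J) ∧
      fixedRestrict J t (h.conj t ht) π = π * c ∧
      (∀ k : ℕ, valK P J (c ^ k - 1) < 1 ↔ ((p - 1) * E) ∣ k) ∧
      valK P J ((j : fixedK J) - c ^ E) < 1 := by
  obtain ⟨π, E, h1, h2, h3, h4, h5, h6⟩ :=
    h.exists_unif_of_generates hp hP (ζ := ζ) hζ ht hgen hj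
  exact ⟨π, E, tcoef J t (h.conj t ht) π, h1, h2, h3, h4,
    resHom_eq_mul_tcoef J t _ h1.ne_zero, h5, h6⟩

/-- The scalar type `τ = -1` on `fixedK J` (`IsTameSub.peq_one_of_neg_two`). -/
theorem IsTameSub.peq_one_of_neg_two_fixedK (h : IsTameSub p P J) (hp : p.Prime) (hp5 : 5 ≤ p)
    (hP : P.LiesOverPrime p) {ζ : fixedK J} (hζ : IsPrimitiveRoot ζ p)
    {t : GQ} (ht : t ∈ P.inertiaSubgroupIn ℚ)
    (hgen : ∀ σ ∈ P.inertiaSubgroupIn ℚ, ∃ n : ℕ, σ⁻¹ * t ^ n ∈ J)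
    {j : ℕ} (hj : t (ζ : Qb) = (ζ : Qb) ^ j)
    {Λ : Type*} [AddCommGroup Λ] {τ : Λ →+ Λ} {τ₀ : ℕ}
    (hτ : ∀ ν, τ (τ ν) + ν = τ₀ • τ ν) (hτ₀ : (p : ℤ) ∣ (τ₀ : ℤ) + 2)
    {U : Λ → fixedK J} (hU : IsFamily p (fixedRestrict J t (h.conj t ht)) τ j U)
    (hlev : ∀ ν, ∃ w : fixedK J, w ≠ 0 ∧
      valK P J (U ν * w ^ p - 1) ≤ valK P J (p : fixedK J)) (ν : Λ) :
    PEq p (U ν) 1 :=
  h.peq_one_of_neg_two hp hp5 hP (ζ := ζ) hζ ht hgen hj hτ hτ₀ (U := U) hU hlev ν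

/-- Invariant radicands have top level, on `fixedK J`; the conclusion is the hypothesis `htop`
of `helper164.IsRadicand.unramified_of_top` verbatim. -/
theorem IsTameSub.top_level_of_invariant_fixedK (h : IsTameSub p P J) (hp : p.Prime)
    (hp3 : 3 ≤ p) (hP : P.LiesOverPrime p) {ζ : fixedK J} (hζ : IsPrimitiveRoot ζ p)
    {t : GQ} (ht : t ∈ P.inertiaSubgroupIn ℚ)
    (hgen : ∀ σ ∈ P.inertiaSubgroupIn ℚ, ∃ n : ℕ, σ⁻¹ * t ^ n ∈ J)
    {j : ℕ} (hj : t (ζ : Qb) = (ζ : Qb) ^ j)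
    {u : fixedK J} (hu : PEq p (fixedRestrict J t (h.conj t ht) u) (u ^ j))
    (hlev : ∃ w : fixedK J, w ≠ 0 ∧ valK P J (u * w ^ p - 1) ≤ valK P J (p : fixedK J)) :
    ∃ w : fixedK J, w ≠ 0 ∧
      valK P J (u * w ^ p - 1) ≤ P.valuation ((ζ : Qb) - 1) ^ p :=
  h.top_level_of_invariant hp hp3 hP (ζ := ζ) hζ ht hgen hj (u := u) hu hlev

end Fermat.Agent.S56.helper4753
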