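/-
S56, FLAT-LOCAL, irreducible case at `p` (node FLAT-N2-ASM, backup copy).  Author: helper6022.

Frozen-vocabulary wrapper of the abstract end-game `helper6022_N2Core`: the conclusion
`helper6366.FlatTangentAt p ρbar` of the captain's `Stmt_FlatIrr`, from

* `hcomm`  : commutators of the decomposition group at `padicPlace p` lie in the inertia group;
* `hexp`   : a uniform exponent prime to `p` for `ρbar` on the decomposition group;
* a `k`-space `Z` of trace-zero cocycles on the decomposition group containing the cocycle of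
  every flat lift with cyclotomic determinant (`hflat`), in which any `f + 1` elements
  (`#k = p ^ f`) have a combination with natural coefficients, not all divisible by `p`, vanishing
  on `inertia ∩ ker ρbar` (`hdep`: the Kummer / level count).

Proved here, from the hypotheses of `Stmt_FlatIrr` only: `k` has characteristic `p`
(`charP_of_localHyp`) and the commutant of `ρbar(D_p)` is `k` (`commutant_eq_scalar`).
-/
import Mathlib
import Fermat.Agent.S56.helper6366_FlatSpec
import Fermat.Agent.S56.helper6022_N2Core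

set_option autoImplicit false
set_option linter.style.haveILetI false

noncomputable section

namespace Fermat.Agent.S56.helper6022

open Polynomial Module
open Fermat.Agent.S56.helper6599 Fermat.Agent.S56.helper6366

variable {k : Type} [Field k]

/-- `k` has characteristic `p` (from the cyclotomic determinant clause). -/
theorem charP_of_localHyp (p : ℕ) [Fact p.Prime] (ρbar : ResidualGaloisRep k)
    (h : LocalHyp p ρbar) : CharP k p := by
  refine (CharP.charP_iff_prime_eq_zero (Fact.out : p.Prime)).2 ?_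
  have h1 := h.det.1
  rw [IsLocalRing.maximalIdeal_eq_bot] at h1
  exact h1

/-- A proper nonzero subspace of a plane is a line. -/
theorem finrank_eq_one_of_ne {V : Type*} [AddCommGroup V] [Module k V]
    (hV : Module.finrank k V = 2) (W : Submodule k V) (h0 : W ≠ ⊥) (h1 : W ≠ ⊤) :
    Module.finrank k ↥W = 1 := by
  haveI : Module.Finite k V := Module.finite_of_finrank_pos (by rw [hV]; norm_num)
  have h2 : Module.finrank k ↥W < 2 := by
    rw [← hV]
    exact Submodule.finrank_lt h1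
  have h3 : Module.finrank k ↥W ≠ 0 := fun h => h0 (Submodule.finrank_eq_zero.1 h)
  omega

/-- **The commutant of `ρbar(D_p)` is `k`**, if `ρbar` has no stable line on `D_p` and every
`ρbar σ` has its eigenvalues in `k`. -/
theorem commutant_eq_scalar (p : ℕ) [Fact p.Prime] (ρbar : ResidualGaloisRep k)
    (hsplit : ∀ σ : GQ, ∃ α β : k, LinearMap.charpoly (ρbar.ρ σ) = (X - C α) * (X - C β))
    (hirr : ¬ HasStableLine p ρbar) (Y : Module.End k ρbar.V)
    (hY : ∀ g ∈ decP p, ρbar.ρ g * Y = Y * ρbar.ρ g) : ∃ a : k, Y = a • 1 := by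
  classical
  have hV := ρbar.finrank_eq
  -- an eigenvalue of `Y` in `k`
  have hex : ∃ (x : k) (v : ρbar.V), v ≠ 0 ∧ Y v = x • v := by
    by_cases hsc : ∀ σ ∈ decP p, ∃ a : k, ρbar.ρ σ = a • 1
    · -- every line is stable
      exfalso
      obtain ⟨v, hv⟩ : ∃ v : ρbar.V, v ≠ 0 := by
        have : 0 < Module.finrank k ρbar.V := by rw [hV]; norm_num
        exact Module.finrank_pos_iff_exists_ne_zero.1 this
      refine hirr ⟨Submodule.span k {v}, finrank_span_singleton hv, fun σ hσ x hx => ?_⟩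
      obtain ⟨a, ha⟩ := hsc σ hσ
      rw [ha]
      exact Submodule.smul_mem _ a hx
    · obtain ⟨σ, hσ, hns⟩ : ∃ σ ∈ decP p, ∀ a : k, ρbar.ρ σ ≠ a • 1 := by
        by_contra hcon
        exact hsc fun σ hσ => by
          by_contra h'
          exact hcon ⟨σ, hσ, fun a ha => h' ⟨a, ha⟩⟩
      obtain ⟨α, β, hαβ⟩ := hsplit σ
      have hroot : (LinearMap.charpoly (ρbar.ρ σ)).IsRoot α := by
        rw [hαβ, IsRoot.def, eval_mul, eval_sub, eval_X, eval_C, sub_self, zero_mul]
      have hev : (ρbar.ρ σ).HasEigenvalue α :=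
        (Module.End.hasEigenvalue_iff_isRoot_charpoly _ _).2 hroot
      set E : Submodule k ρbar.V := Module.End.eigenspace (ρbar.ρ σ) α with hE
      have hE0 : E ≠ ⊥ := hev
      have hE1 : E ≠ ⊤ := by
        intro h
        apply hns α
        apply LinearMap.ext
        intro v
        have hv : v ∈ E := by rw [h]; exact Submodule.mem_top
        rw [hE, Module.End.mem_eigenspace_iff] at hv
        rw [hv]
        rfl
      have hfr : Module.finrank k ↥E = 1 := finrank_eq_one_of_ne hV E hE0 hE1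
      obtain ⟨v, hvE, hv0⟩ := Submodule.exists_mem_ne_zero_of_ne_bot hE0
      have hYv : Y v ∈ E := by
        rw [hE, Module.End.mem_eigenspace_iff] at hvE ⊢
        have h1 : ρbar.ρ σ (Y v) = Y (ρbar.ρ σ v) := by
          have := congrArg (fun T : Module.End k ρbar.V => T v) (hY σ hσ)
          simpa using this
        rw [h1, hvE, map_smul]
      -- `E` is a line spanned by `v`
      have hspan : ∀ w ∈ E, ∃ x : k, w = x • v := by
        intro w hw
        have h1 := (finrank_eq_one_iff_of_nonzero' (⟨v, hvE⟩ : ↥E)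
          (fun h => hv0 (congrArg Subtype.val h))).1 hfr ⟨w, hw⟩
        obtain ⟨x, hx⟩ := h1
        exact ⟨x, (congrArg Subtype.val hx).symm⟩
      obtain ⟨x, hx⟩ := hspan _ hYv
      exact ⟨x, v, hv0, hx⟩
  obtain ⟨x, v, hv0, hxv⟩ := hex
  set W : Submodule k ρbar.V := LinearMap.ker (Y - x • (1 : Module.End k ρbar.V)) with hW
  have hmemW : ∀ w : ρbar.V, w ∈ W ↔ Y w = x • w := by
    intro w
    rw [hW, LinearMap.mem_ker, LinearMap.sub_apply, LinearMap.smul_apply, Module.End.one_apply,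
      sub_eq_zero]
  have hW0 : W ≠ ⊥ := fun h => hv0 ((Submodule.eq_bot_iff W).1 h v ((hmemW v).2 hxv))
  by_cases hW1 : W = ⊤
  · refine ⟨x, LinearMap.ext fun w => ?_⟩
    have hw : w ∈ W := by rw [hW1]; exact Submodule.mem_top
    rw [(hmemW w).1 hw]
    rfl
  · exfalso
    refine hirr ⟨W, finrank_eq_one_of_ne hV W hW0 hW1, fun σ hσ w hw => ?_⟩
    rw [hmemW] at hw ⊢
    have h1 : Y (ρbar.ρ σ w) = ρbar.ρ σ (Y w) := by
      have := congrArg (fun T : Module.End k ρbar.V => T w) (hY σ hσ)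
      simpa using this.symm
    rw [h1, hw, map_smul]

/-- The coboundaries of the FLAT SPEC are the range of the abstract coboundary map. -/
theorem B1_eq_range_cobOn (p : ℕ) [Fact p.Prime] (ρbar : ResidualGaloisRep k) :
    B1 p ρbar = LinearMap.range (cobOn ρbar.ρ (decP p)) := rfl

/-- The image of a subgroup under a representation with a uniform exponent prime to `p` on a
finite space has order prime to `p`. -/
theorem finite_quotient_ker {V : Type*} [AddCommGroup V] [Module k V] [Finite k]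
    [Module.Finite k V] {G : Type*} [Group G] (ρ : G →* Module.End k V) (D : Subgroup G) :
    Finite (↥D ⧸ (ρ.comp D.subtype).ker) := by
  haveI : Finite V := Module.finite_of_finite k
  haveI : Finite (Module.End k V) := Finite.of_injective (fun T : Module.End k V => (T : V → V))
    DFunLike.coe_injective
  refine Finite.of_injective
    (fun q : ↥D ⧸ (ρ.comp D.subtype).ker => ρ ((Quotient.out q : ↥D) : G)) ?_
  intro q q' h
  have h1 : (Quotient.out q)⁻¹ * Quotient.out q' ∈ (ρ.comp D.subtype).ker := by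
    rw [MonoidHom.mem_ker]
    show ρ (((Quotient.out q)⁻¹ * Quotient.out q' : ↥D) : G) = 1
    rw [Subgroup.coe_mul, Subgroup.coe_inv, map_mul]
    have h2 : ρ ((Quotient.out q' : ↥D) : G) = ρ ((Quotient.out q : ↥D) : G) := h.symm
    rw [h2, rho_inv_mul_rho]
  have h3 : ((Quotient.out q : ↥D) : ↥D ⧸ (ρ.comp D.subtype).ker) = (Quotient.out q' : ↥D) :=
    QuotientGroup.eq.2 h1
  rwa [QuotientGroup.out_eq', QuotientGroup.out_eq'] at h3

theorem natCard_quotient_ker_ne_zero {p : ℕ} [Fact p.Prime] [CharP k p]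
    {V : Type*} [AddCommGroup V] [Module k V]
    {G : Type*} [Group G] (ρ : G →* Module.End k V) (D : Subgroup G)
    [Finite (↥D ⧸ (ρ.comp D.subtype).ker)]
    {e : ℕ} (he : e.Coprime p) (hexp : ∀ τ ∈ D, ρ τ ^ e = 1) :
    (Nat.card (↥D ⧸ (ρ.comp D.subtype).ker) : k) ≠ 0 := by
  have hp : p.Prime := Fact.out
  intro h
  have hdvd : p ∣ Nat.card (↥D ⧸ (ρ.comp D.subtype).ker) := (CharP.cast_eq_zero_iff k p _).1 h
  obtain ⟨x, hx⟩ := exists_prime_orderOf_dvd_card' p hdvd
  have hxe : x ^ e = 1 := by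
    induction x using QuotientGroup.induction_on with
    | H σ =>
      rw [← QuotientGroup.mk_pow, QuotientGroup.eq_one_iff, MonoidHom.mem_ker]
      show ρ ((σ ^ e : ↥D) : G) = 1
      rw [Subgroup.coe_pow, map_pow]
      exact hexp _ σ.2
  have h1 : p ∣ e := hx ▸ orderOf_dvd_of_pow_eq_one hxe
  have h2 : p ∣ Nat.gcd e p := Nat.dvd_gcd h1 dvd_rfl
  rw [he] at h2
  exact hp.one_lt.ne' (Nat.dvd_one.1 h2)

/-- **FLAT-N2, reduction to the level count.**  The conclusion of `Stmt_FlatIrr`, from a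
`k`-space `Z` of trace-zero cocycles on `D_p` containing the cocycles of the flat lifts, in
which any `f + 1` elements are `𝔽_p`-dependent on `inertia ∩ ker ρbar`. -/
theorem flatTangentAt_of_dependence (p : ℕ) [Fact p.Prime] (ρbar : ResidualGaloisRep k)
    (h : LocalHyp p ρbar) (hirr : ¬ HasStableLine p ρbar)
    (hcomm : ∀ g ∈ decP p, ∀ n ∈ decP p,
      g * n * g⁻¹ * n⁻¹ ∈ (padicPlace p).inertiaSubgroupIn ℚ)
    {e : ℕ} (he : e.Coprime p) (hexp : ∀ τ ∈ decP p, ρbar.ρ τ ^ e = 1)
    {f : ℕ} (hf : Nat.card k = p ^ f)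
    (Z : Submodule k (↥(decP p) → Module.End k ρbar.V))
    (hcoc : ∀ c ∈ Z, ∀ σ τ : ↥(decP p),
      c (σ * τ) = c σ + ρbar.ρ (σ : GQ) * c τ * ρbar.ρ (σ : GQ)⁻¹)
    (htr : ∀ c ∈ Z, ∀ σ, LinearMap.trace k ρbar.V (c σ) = 0)
    (hflat : ∀ c : LiftCocycle ρbar, (stdLift c).IsFlatAt p → (stdLift c).DetIsCyclotomic p →
      (fun σ : ↥(decP p) => c.c (σ : GQ)) ∈ Z)
    (hdep : ∀ c : Fin (f + 1) → ↥(decP p) → Module.End k ρbar.V, (∀ i, c i ∈ Z) →
      ∃ n : Fin (f + 1) → ℕ, (∃ i, ¬ p ∣ n i) ∧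
        ∀ σ : ↥(decP p), (σ : GQ) ∈ (padicPlace p).inertiaSubgroupIn ℚ →
          ρbar.ρ (σ : GQ) = 1 → ∑ i, n i • c i σ = 0) :
    FlatTangentAt p ρbar := by
  classical
  have hp : p.Prime := Fact.out
  haveI : CharP k p := charP_of_localHyp p ρbar h
  haveI : Finite k := h.fin
  have h2 : (2 : k) ≠ 0 := by
    intro h0
    have h1 : ((2 : ℕ) : k) = 0 := by exact_mod_cast h0
    have h3 : p ∣ 2 := (CharP.cast_eq_zero_iff k p 2).1 h1
    exact h.odd ((Nat.prime_dvd_prime_iff_eq hp Nat.prime_two).1 h3)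
  haveI := finite_quotient_ker ρbar.ρ (decP p)
  have hcard := natCard_quotient_ker_ne_zero (k := k) ρbar.ρ (decP p) he hexp
  -- the subgroup `J = inertia ∩ ker ρbar`
  let J : Subgroup GQ := (padicPlace p).inertiaSubgroupIn ℚ ⊓ ρbar.ρ.ker
  have hJρ : ∀ σ ∈ J, ρbar.ρ σ = 1 := fun σ hσ => MonoidHom.mem_ker.1 hσ.2
  have hcommJ : ∀ g n : ↥(decP p), ρbar.ρ (n : GQ) = 1 →
      ((g : GQ) * n * (g : GQ)⁻¹ * (n : GQ)⁻¹) ∈ J := by
    intro g n hn
    refine ⟨hcomm g g.2 n n.2, MonoidHom.mem_ker.2 ?_⟩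
    rw [map_mul, map_mul, map_mul, hn, mul_one, rho_mul_rho_inv, one_mul]
    have h1 := rho_inv_mul_rho ρbar.ρ (n : GQ)
    rwa [hn, mul_one] at h1
  have hdep' : ∀ c : Fin (f + 1) → ↥(decP p) → Module.End k ρbar.V, (∀ i, c i ∈ Z) →
      ∃ n : Fin (f + 1) → ℕ, (∃ i, ¬ p ∣ n i) ∧
        ∀ σ : ↥(decP p), (σ : GQ) ∈ J → ∑ i, n i • c i σ = 0 := by
    intro c hc
    obtain ⟨n, hn, hJ⟩ := hdep c hc
    exact ⟨n, hn, fun σ hσ => hJ σ hσ.1 (hJρ _ hσ)⟩
  obtain ⟨hfin, hrank⟩ := finrank_range_cobOn_sup_le (p := p) ρbar.ρ (decP p) ρbar.finrank_eq h2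
    hcard J hJρ hcommJ (commutant_eq_scalar p ρbar h.split hirr) hf Z hcoc htr hdep'
  refine ⟨B1 p ρbar ⊔ Z, hfin, ?_, le_sup_left, fun c hc hd => ?_⟩
  · have h3 : Module.finrank k ↥(LinearMap.range (cobOn ρbar.ρ (decP p))) ≤ 3 :=
      finrank_B1_le p ρbar
    exact hrank.trans (Nat.add_le_add_right h3 1)
  · exact Submodule.mem_sup_right (hflat c hc hd)

end Fermat.Agent.S56.helper6022
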