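/-
S56, FLAT-LOCAL: the junctions of the flat chain, in the frozen vocabulary (captain's Spec,
part 2; helper6366).

* `hasFunModel_of_isFlatAt` : ENTRY.  A flat deformation over a finite ring `A` gives a function
  model (`helper1304.HasFunModel`) of the whole module `ρ.V` with its `G_ℚ`-action.
* `Stmt_FB` : junction (J-FB) = Fontaine's bound in KUMMER form.  Let `(M, act)` be a
  `G_ℚ`-module killed by `p` with a function model over `ℤ_(p)`, `N` a normal subgroup of the
  decomposition group `D = decP p` of index prime to `p` fixing a primitive `p`-th root of unity,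
  `F = ℚ̄^N`.  If `y ≠ 0`, `y ^ p ∈ F`, and `y` is fixed by every element of `N` acting trivially
  on `M`, then `y ^ p` is congruent to `1` modulo `p`, up to a `p`-th power of `F`:
  `∃ w ∈ F, w ≠ 0 ∧ v (y ^ p * w ^ p - 1) ≤ v p` for the valuation `v` of `padicPlace p`.
  (For a uniformiser `π` of `F`, `v π ^ e = v p`, this is `LevelGE v π p e (y ^ p)`.)
-/
import Mathlib
import Fermat.Agent.S32.helper1304_HopfClose
import Fermat.Agent.S56.helper6366_FlatSpec

set_option autoImplicit false

noncomputable section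

namespace Fermat.Agent.S56.helper6366

open Fermat.Agent.S56.helper6599
open Fermat.Agent.S32

/-- ENTRY of the flat chain: a flat representation over a FINITE local ring has a function model
on the whole of `ρ.V` (level `I = ⊥`). -/
theorem hasFunModel_of_isFlatAt (p : ℕ) [Fact p.Prime] {A : Type} [CommRing A] [IsLocalRing A]
    [Finite A] (ρ : GaloisRepAdic A) (h : ρ.IsFlatAt p) :
    helper1304.HasFunModel p ρ.V (fun σ x => ρ.ρ σ x) := by
  have h0 : Finite (A ⧸ (⊥ : Ideal A)) := Finite.of_surjective _ Ideal.Quotient.mk_surjective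
  have h1 := helper1304.hasFunModel_of_hasFlatModel p (((helper1304.isFlatAt_iff p ρ).1 h).2 ⊥ h0)
  have hbot : ((⊥ : Ideal A) • (⊤ : Submodule A ρ.V)) = ⊥ := Submodule.bot_smul _
  have hinj : Function.Injective
      ((Submodule.mkQ ((⊥ : Ideal A) • (⊤ : Submodule A ρ.V))).toAddMonoidHom) := by
    intro x y hxy
    have h2 : x - y ∈ ((⊥ : Ideal A) • (⊤ : Submodule A ρ.V)) :=
      (Submodule.Quotient.eq _).1 hxy
    rw [hbot, Submodule.mem_bot, sub_eq_zero] at h2
    exact h2
  exact h1.of_injective p _ hinj (fun σ x => rfl)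

/-- **(J-FB)** Fontaine's bound, Kummer form, frozen vocabulary.

`(M, act)`: a `G_ℚ`-module killed by `p` with a function model over `ℤ_(p)` (e.g. `M = ρ'.V`
for a flat lift `ρ'` over `k[ε]`, by `hasFunModel_of_isFlatAt`).
`N`: a normal subgroup of `D = decP p` of index prime to `p` (so `F = ℚ̄^N` is tame at `p`),
fixing a primitive `p`-th root of unity and containing the kernel of the action of `D` on `M`
(so `F` lies in the field of the points of `M`).
`y ≠ 0` with `y ^ p ∈ F`, fixed by the kernel of the action of `D` on `M`.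
Conclusion: `y ^ p ≡ 1 mod p` up to a `p`-th power of `F`. -/
def Stmt_FB : Prop :=
  ∀ (p : ℕ) [Fact p.Prime], p ≠ 2 →
    ∀ (M : Type) [AddCommGroup M] (act : GQ → M → M),
      helper1304.HasFunModel p M act → (∀ m : M, p • m = 0) →
      ∀ N : Subgroup GQ, N ≤ decP p → (N.subgroupOf (decP p)).Normal →
        ¬ p ∣ N.relIndex (decP p) →
        (∃ ζ : AlgebraicClosure ℚ, IsPrimitiveRoot ζ p ∧ ∀ τ ∈ N, τ ζ = ζ) →
        (∀ τ ∈ decP p, (∀ m : M, act τ m = m) → τ ∈ N) →
        ∀ y : AlgebraicClosure ℚ, y ≠ 0 → (∀ τ ∈ N, τ (y ^ p) = y ^ p) →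
          (∀ τ ∈ decP p, (∀ m : M, act τ m = m) → τ y = y) →
          ∃ w : AlgebraicClosure ℚ, w ≠ 0 ∧ (∀ τ ∈ N, τ w = w) ∧
            (padicPlace p).valuation (y ^ p * w ^ p - 1) ≤
              (padicPlace p).valuation (p : AlgebraicClosure ℚ)

end Fermat.Agent.S56.helper6366
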