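import Mathlib
import Fermat.Prelude.Def_FLTPrelim_Ramification
import Fermat.Prelude.Def_GaloisRep_Residual
import Fermat.Agent.S56.helper6024_TameInertia

/-!
# Wild inertia acts trivially on a locally irreducible residual representation (helper778)

`Qb := AlgebraicClosure ℚ`, `GQ := Qb ≃ₐ[ℚ] Qb`, `A` a valuation subring of `Qb` over the prime
`p`, `D := A.decompositionSubgroup ℚ`, `I := A.inertiaSubgroupIn ℚ`.

Let `ρ : GQ →* Module.End k V` factor through a finite level, `k` a field of characteristic `p`,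
`V` finite, and assume that `V` has no proper nonzero `D`-stable `k`-submodule.  Then

* `wild_trivial`   : every `τ ∈ I` whose tame character (at the uniformiser of the level of `ρ`)
                     is trivial has `ρ τ = 1`;
* `inertia_coprime`: every `σ ∈ I` has `ρ σ ^ n = 1` for some `n` prime to `p`.

The second statement is verbatim the hypothesis `hcop` of `helper6024.tame_cyclic`,
`helper6024.tame_frobenius` at the residual characteristic (`q = p`), so for a locally
irreducible `ρ` the image of inertia is cyclic of order prime to `p` and Frobenius acts on it by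
the `p`-th power (`inertia_cyclic`, `inertia_frobenius`).

Proof: the kernel `K` of a tame character of level `E` is normal in `D` and acts on `E` through
elements of `p`-power order (`helper6024.exists_tame_level`), so `ρ(K)` is a `p`-group; a
`p`-group acting on a nonzero finite module of characteristic `p` has a nonzero fixed vector; the
fixed space of `K` is `D`-stable, hence everything.  Finally the tame character has finite image
in the units of a field of characteristic `p`, hence of order prime to `p`.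
-/

set_option autoImplicit false

namespace Fermat.Agent.S56.helper778

open IsLocalRing
open scoped Pointwise
open Fermat.Agent.S56.helper6024
open Fermat.Agent.Lib.helper54 Fermat.Agent.Lib.helper2489

attribute [local instance] isAlgebraic_Qbar isAlgClosure_Qbar isGalois_Qbar isIntegral_Qbar

local notation "Qb" => AlgebraicClosure ℚ
local notation "GQ" => (AlgebraicClosure ℚ ≃ₐ[ℚ] AlgebraicClosure ℚ)

/-! ## Units of finite order in characteristic `p` -/

/-- In a field of characteristic `p`, a unit of finite order has order prime to `p`. -/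
theorem orderOf_coprime_of_charP {F : Type*} [Field F] {p : ℕ} (hp : p.Prime) [CharP F p]
    (u : Fˣ) (hu : IsOfFinOrder u) : (orderOf u).Coprime p := by
  have : ExpChar F p := ExpChar.prime hp
  rw [Nat.coprime_comm, hp.coprime_iff_not_dvd]
  rintro ⟨m, hm⟩
  have h1 : (u : F) ^ (p ^ 1 * m) = 1 := by
    rw [pow_one, ← hm, ← Units.val_pow_eq_pow_val, pow_orderOf_eq_one, Units.val_one]
  rw [ExpChar.pow_prime_pow_mul_eq_one_iff] at h1
  have h2 : u ^ m = 1 := Units.ext (by rw [Units.val_pow_eq_pow_val, h1, Units.val_one])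
  have h3 := orderOf_dvd_of_pow_eq_one h2
  have hpos := hu.orderOf_pos
  rw [hm] at h3 hpos
  have hm0 : 0 < m := Nat.pos_of_mul_pos_left hpos
  have h4 := Nat.le_of_dvd hm0 h3
  nlinarith [hp.two_le]

/-! ## The kernel of a tame character is normal in the decomposition group -/

section conj

variable {A : ValuationSubring Qb}

/-- The multiplier of an inertia element with trivial multiplier at `π` is trivial at every
element of the same valuation. -/
theorem mult_eq_one_of_valuation_eq {τ : GQ} (hτ : τ ∈ A.inertiaSubgroupIn ℚ) {π x : Qb}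
    (hπ : π ≠ 0) (hx : x ≠ 0) (hv : A.valuation x = A.valuation π) (h : mult A τ π = 1) :
    mult A τ x = 1 := by
  have hτD := Fermat.Agent.S05.helper4205.mem_decomposition_of_mem_inertiaSubgroupIn hτ
  have hu : A.valuation (x / π) = 1 := by
    rw [map_div₀, hv]
    exact div_self ((map_ne_zero _).mpr hπ)
  have hxx : x = π * (x / π) := by field_simp
  have hu0 : x / π ≠ 0 := div_ne_zero hx hπ
  rw [hxx, mult_mul_right hτD hπ hu0, mult_of_unit hτ hu, mul_one, h]

/-- Conjugation by the decomposition group preserves the kernel of the multiplier at `π`. -/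
theorem mult_conj_eq_one {g τ : GQ} (hg : g ∈ A.decompositionSubgroup ℚ)
    (hτ : τ ∈ A.inertiaSubgroupIn ℚ) {π : Qb} (hπ : π ≠ 0) (h : mult A τ π = 1) :
    mult A (g * τ * g⁻¹) π = 1 := by
  have hτD := Fermat.Agent.S05.helper4205.mem_decomposition_of_mem_inertiaSubgroupIn hτ
  have hg' : g⁻¹ ∈ A.decompositionSubgroup ℚ := inv_mem hg
  set x' : Qb := g⁻¹ π with hx'
  have hx'0 : x' ≠ 0 := (map_ne_zero _).mpr hπ
  have hgx' : g x' = π := by
    rw [hx', ← AlgEquiv.mul_apply, mul_inv_cancel, AlgEquiv.one_apply]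
  have hv : A.valuation x' = A.valuation π :=
    Fermat.Agent.S05.helper4205.valuation_apply_of_mem_decomposition hg' π
  have h1 : mult A τ x' = 1 := mult_eq_one_of_valuation_eq hτ hπ hx'0 hv h
  have hw : τ x' / x' ∈ A := mem_of_valuation_eq_one A (valuation_apply_div hτD hx'0)
  have hgw : g (τ x' / x') ∈ A := Fermat.Agent.S05.helper4205.apply_mem_of_mem_decomposition hg hw
  have h2 : (g * τ * g⁻¹) π / π = g (τ x' / x') := by
    rw [AlgEquiv.mul_apply, AlgEquiv.mul_apply, map_div₀, hgx']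
  unfold mult at h1 ⊢
  rw [h2, res_eq_one_iff A hgw]
  rw [res_eq_one_iff A hw] at h1
  have h3 : g (τ x' / x') - 1 = g (τ x' / x' - 1) := by rw [map_sub, map_one]
  rw [h3]
  exact (Fermat.Agent.S05.helper4205.apply_mem_nonunits_iff_of_mem_decomposition hg).mpr h1

end conj

/-! ## A `p`-group of linear maps has a nonzero fixed vector -/

/-- If a set `T` of endomorphisms of a nonzero finite module of characteristic `p` is closed
under products and all its members are killed by a `p`-power exponent, then `T` has a common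
nonzero fixed vector. -/
theorem exists_ne_zero_fixed {p : ℕ} (hp : p.Prime) {k : Type*} [Field k] [CharP k p]
    {V : Type*} [AddCommGroup V] [Module k V] [Finite V] [Nontrivial V]
    (T : Subgroup (Module.End k V)ˣ)
    (hT : ∀ g ∈ T, ∃ m : ℕ, g ^ (p ^ m) = 1) :
    ∃ v : V, v ≠ 0 ∧ ∀ g ∈ T, (g : Module.End k V) v = v := by
  have : Fact p.Prime := ⟨hp⟩
  have hG : IsPGroup p T := by
    intro g
    obtain ⟨m, hm⟩ := hT g.1 g.2
    exact ⟨m, Subtype.ext (by simpa using hm)⟩
  have hdvd : p ∣ Nat.card V := by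
    obtain ⟨v, hv⟩ := exists_ne (0 : V)
    have h1 : p • v = 0 := by
      have h2 : (p : k) • v = 0 := by rw [CharP.cast_eq_zero k p, zero_smul]
      rwa [Nat.cast_smul_eq_nsmul] at h2
    have h3 : addOrderOf v ∣ p := addOrderOf_dvd_of_nsmul_eq_zero h1
    have h4 : addOrderOf v = p := by
      rcases (Nat.dvd_prime hp).mp h3 with h | h
      · exact absurd (AddMonoid.addOrderOf_eq_one_iff.mp h) hv
      · exact h
    rw [← h4]
    exact addOrderOf_dvd_natCard v
  have h0 : (0 : V) ∈ MulAction.fixedPoints T V := by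
    intro g
    change ((g : (Module.End k V)ˣ) : Module.End k V) (0 : V) = 0
    exact map_zero _
  obtain ⟨b, hb, hne⟩ := hG.exists_fixed_point_of_prime_dvd_card_of_fixed_point V hdvd h0
  refine ⟨b, fun h => hne h.symm, fun g hg => ?_⟩
  exact hb ⟨g, hg⟩

/-! ## Wild inertia acts trivially -/

section main

variable {p : ℕ} (hp : p.Prime) (A : ValuationSubring Qb) (hA : A.LiesOverPrime p)
variable {k : Type} [Field k] [CharP k p] {V : Type} [AddCommGroup V] [Module k V] [Finite V]
variable (ρ : GQ →* Module.End k V)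

include hp hA in
/-- **Wild inertia acts trivially.**  If `ρ` factors through a finite level and `V` has no proper
nonzero submodule stable under the decomposition group at `A`, there is a tame character of
the inertia group at `A` whose kernel acts trivially on `V`. -/
theorem wild_trivial (hρ : GaloisFactorsThroughFiniteLevel ρ)
    (hirr : ∀ W : Submodule k V,
      (∀ σ ∈ A.decompositionSubgroup ℚ, ∀ x ∈ W, ρ σ x ∈ W) → W = ⊥ ∨ W = ⊤) :
    ∃ (π : Qb) (hπ : π ≠ 0), ∀ τ : ↥(A.inertiaSubgroupIn ℚ),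
      tameChar A π hπ τ = 1 → ρ (τ : GQ) = 1 := by
  obtain ⟨E, hEfd, hE⟩ := hρ
  obtain ⟨π, hπ, hker⟩ := exists_tame_level hp A hA E
  refine ⟨π, hπ, ?_⟩
  rcases subsingleton_or_nontrivial V with hsub | hnt
  · intro τ _
    exact LinearMap.ext fun v => Subsingleton.elim _ _
  -- the kernel of the tame character, as a subgroup of `GQ`
  let K : Subgroup GQ := ((tameChar (K := ℚ) A π hπ).ker).map (A.inertiaSubgroupIn ℚ).subtype
  have hKmem : ∀ τ : GQ, τ ∈ K ↔ ∃ h : τ ∈ A.inertiaSubgroupIn ℚ, tameChar A π hπ ⟨τ, h⟩ = 1 := by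
    intro τ
    constructor
    · rintro ⟨t, ht, rfl⟩
      exact ⟨t.2, ht⟩
    · rintro ⟨h, ht⟩
      exact ⟨⟨τ, h⟩, ht, rfl⟩
  have hKpow : ∀ τ ∈ K, ∃ m : ℕ, ρ τ ^ (p ^ m) = 1 := by
    intro τ hτ
    obtain ⟨h, ht⟩ := (hKmem τ).mp hτ
    obtain ⟨m, hm⟩ := hker ⟨τ, h⟩ ht
    refine ⟨m, ?_⟩
    rw [← map_pow]
    exact hE _ hm
  have hKconj : ∀ g ∈ A.decompositionSubgroup ℚ, ∀ τ ∈ K, g * τ * g⁻¹ ∈ K := by
    intro g hg τ hτ
    obtain ⟨h, ht⟩ := (hKmem τ).mp hτ
    rw [hKmem]
    refine ⟨conj_mem_inertiaSubgroupIn hg h, ?_⟩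
    apply Units.ext
    rw [coe_tameChar, Units.val_one]
    have h1 : mult A τ π = 1 := by
      have := congrArg (fun u : (ResidueField A)ˣ => (u : ResidueField A)) ht
      exact this
    exact mult_conj_eq_one hg h hπ h1
  -- the image of `K` is a `p`-group of units of `End V`
  let T : Subgroup (Module.End k V)ˣ := K.map ρ.toHomUnits
  have hT : ∀ g ∈ T, ∃ m : ℕ, g ^ (p ^ m) = 1 := by
    rintro _ ⟨τ, hτ, rfl⟩
    obtain ⟨m, hm⟩ := hKpow τ hτ
    refine ⟨m, Units.ext ?_⟩
    rw [Units.val_pow_eq_pow_val, MonoidHom.coe_toHomUnits, hm, Units.val_one]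
  obtain ⟨v, hv0, hv⟩ := exists_ne_zero_fixed hp T hT
  -- the fixed space of `K`
  let W : Submodule k V :=
    { carrier := {w | ∀ τ ∈ K, ρ τ w = w}
      add_mem' := fun {a b} ha hb τ hτ => by rw [map_add, ha τ hτ, hb τ hτ]
      zero_mem' := fun τ _ => map_zero _
      smul_mem' := fun c {a} ha τ hτ => by rw [map_smul, ha τ hτ] }
  have hWmem : ∀ w : V, w ∈ W ↔ ∀ τ ∈ K, ρ τ w = w := fun w => Iff.rfl
  have hvW : v ∈ W := by
    rw [hWmem]
    intro τ hτ
    have := hv (ρ.toHomUnits τ) ⟨τ, hτ, rfl⟩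
    rwa [MonoidHom.coe_toHomUnits] at this
  have hWstab : ∀ σ ∈ A.decompositionSubgroup ℚ, ∀ x ∈ W, ρ σ x ∈ W := by
    intro σ hσ x hx
    rw [hWmem] at hx ⊢
    intro τ hτ
    have h1 : σ⁻¹ * τ * σ ∈ K := by
      have := hKconj σ⁻¹ (inv_mem hσ) τ hτ
      rwa [inv_inv] at this
    have h2 : τ * σ = σ * (σ⁻¹ * τ * σ) := by group
    calc ρ τ (ρ σ x) = ρ (τ * σ) x := by rw [map_mul]; rfl
      _ = ρ (σ * (σ⁻¹ * τ * σ)) x := by rw [h2]
      _ = ρ σ (ρ (σ⁻¹ * τ * σ) x) := by rw [map_mul]; rfl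
      _ = ρ σ x := by rw [hx _ h1]
  have hWtop : W = ⊤ := by
    rcases hirr W hWstab with h | h
    · exfalso
      rw [h, Submodule.mem_bot] at hvW
      exact hv0 hvW
    · exact h
  intro τ ht
  have hτK : (τ : GQ) ∈ K := (hKmem _).mpr ⟨τ.2, ht⟩
  refine LinearMap.ext fun w => ?_
  have hw : w ∈ W := by rw [hWtop]; exact Submodule.mem_top
  exact (hWmem w).mp hw _ hτK

include hp hA in
/-- **The image of inertia has order prime to `p`.**  If `ρ` factors through a finite level and
`V` has no proper nonzero submodule stable under the decomposition group at `A` (a place over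
the characteristic `p` of `k`), then every element of the inertia group at `A` acts through an
element of order prime to `p`.  This is the hypothesis `hcop` of `helper6024.tame_cyclic` and
`helper6024.tame_frobenius`. -/
theorem inertia_coprime (hρ : GaloisFactorsThroughFiniteLevel ρ)
    (hirr : ∀ W : Submodule k V,
      (∀ σ ∈ A.decompositionSubgroup ℚ, ∀ x ∈ W, ρ σ x ∈ W) → W = ⊥ ∨ W = ⊤) :
    ∀ σ ∈ A.inertiaSubgroupIn ℚ, ∃ n : ℕ, n.Coprime p ∧ ρ σ ^ n = 1 := by
  obtain ⟨π, hπ, hwild⟩ := wild_trivial hp A hA ρ hρ hirr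
  intro σ hσ
  have : CharP (ResidueField A) p := Fermat.Agent.Lib.helper3858.charP_residueField A hp hA
  have hfin : (Set.range (tameChar (K := ℚ) A π hπ)).Finite := finite_range_tameChar π hπ
  have hfo : IsOfFinOrder (tameChar A π hπ ⟨σ, hσ⟩) := by
    rw [isOfFinOrder_iff_pow_eq_one]
    have : Finite (tameChar (K := ℚ) A π hπ).range := hfin.to_subtype
    obtain ⟨n, hn, hpow⟩ := (isOfFinOrder_of_finite
      (⟨tameChar A π hπ ⟨σ, hσ⟩, ⟨_, rfl⟩⟩ : (tameChar (K := ℚ) A π hπ).range)).exists_pow_eq_one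
    refine ⟨n, hn, ?_⟩
    have := congrArg (fun u : (tameChar (K := ℚ) A π hπ).range => (u : (ResidueField A)ˣ)) hpow
    simpa using this
  refine ⟨orderOf (tameChar A π hπ ⟨σ, hσ⟩), orderOf_coprime_of_charP hp _ hfo, ?_⟩
  have h1 : tameChar A π hπ (⟨σ, hσ⟩ ^ orderOf (tameChar A π hπ ⟨σ, hσ⟩)) = 1 := by
    rw [map_pow, pow_orderOf_eq_one]
  have h2 := hwild _ h1
  rw [← map_pow]
  simpa using h2

include hp hA in
/-- For a locally irreducible `ρ` the image of inertia is cyclic. -/
theorem inertia_cyclic (hρ : GaloisFactorsThroughFiniteLevel ρ)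
    (hirr : ∀ W : Submodule k V,
      (∀ σ ∈ A.decompositionSubgroup ℚ, ∀ x ∈ W, ρ σ x ∈ W) → W = ⊥ ∨ W = ⊤) :
    ∃ s ∈ A.inertiaSubgroupIn ℚ, ∀ σ ∈ A.inertiaSubgroupIn ℚ, ∃ n : ℕ, ρ σ = ρ s ^ n :=
  tame_cyclic hp A hA ρ hρ (inertia_coprime hp A hA ρ hρ hirr)

include hp hA in
/-- For a locally irreducible `ρ` Frobenius acts on the image of inertia by the `p`-th power. -/
theorem inertia_frobenius (hρ : GaloisFactorsThroughFiniteLevel ρ)
    (hirr : ∀ W : Submodule k V,
      (∀ σ ∈ A.decompositionSubgroup ℚ, ∀ x ∈ W, ρ σ x ∈ W) → W = ⊥ ∨ W = ⊤)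
    (φ : GQ) (hφ : A.IsFrobeniusAt φ p) (σ : GQ) (hσ : σ ∈ A.inertiaSubgroupIn ℚ) :
    ρ (φ * σ * φ⁻¹) = ρ σ ^ p :=
  tame_frobenius hp A hA ρ hρ (inertia_coprime hp A hA ρ hρ hirr) φ hφ σ hσ

end main

/-! ## The frozen carrier: residual representations -/

section residual

variable {p : ℕ} (hp : p.Prime) (A : ValuationSubring Qb) (hA : A.LiesOverPrime p)
variable {k : Type} [Field k] [Finite k] [CharP k p] (ρbar : ResidualGaloisRep k)

omit [Finite k] in
/-- A two-dimensional representation without a stable line has no proper nonzero stable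
submodule. -/
theorem irreducible_of_no_stable_line (S : Set GQ)
    (hline : ∀ v : ρbar.V, v ≠ 0 → ∃ σ ∈ S, ρbar.ρ σ v ∉ Submodule.span k {v})
    (W : Submodule k ρbar.V) (hW : ∀ σ ∈ S, ∀ x ∈ W, ρbar.ρ σ x ∈ W) : W = ⊥ ∨ W = ⊤ := by
  by_contra hcon
  rw [not_or] at hcon
  obtain ⟨hbot, htop⟩ := hcon
  have h1 : Module.finrank k W < 2 := by
    have := Submodule.finrank_lt htop
    rwa [ρbar.finrank_eq] at this
  have h2 : Module.finrank k W ≠ 0 := fun h => hbot (Submodule.finrank_eq_zero.mp h)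
  have h3 : Module.finrank k W = 1 := by omega
  obtain ⟨v, hv0, hv⟩ := finrank_eq_one_iff'.mp h3
  have hv0' : (v : ρbar.V) ≠ 0 := fun h => hv0 (Subtype.ext h)
  obtain ⟨σ, hσ, hσv⟩ := hline (v : ρbar.V) hv0'
  apply hσv
  obtain ⟨c, hc⟩ := hv ⟨ρbar.ρ σ v, hW σ hσ v v.2⟩
  rw [Submodule.mem_span_singleton]
  exact ⟨c, congrArg Subtype.val hc⟩

include hp hA in
/-- **Frozen carrier.**  A residual representation over a finite field of characteristic `p`
which is irreducible on the decomposition group at a place `A` over `p`: every element of the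
inertia group at `A` acts through an element of order prime to `p`. -/
theorem residual_inertia_coprime
    (hirr : ∀ W : Submodule k ρbar.V,
      (∀ σ ∈ A.decompositionSubgroup ℚ, ∀ x ∈ W, ρbar.ρ σ x ∈ W) → W = ⊥ ∨ W = ⊤) :
    ∀ σ ∈ A.inertiaSubgroupIn ℚ, ∃ n : ℕ, n.Coprime p ∧ ρbar.ρ σ ^ n = 1 := by
  have : Finite ρbar.V := Module.finite_of_finite k
  exact inertia_coprime hp A hA ρbar.ρ ρbar.factorsThroughFiniteLevel hirr

include hp hA in
/-- **Frozen carrier, line form.**  If no `k`-line of `ρbar.V` is stable under the decomposition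
group at `A`, the inertia group at `A` acts through elements of order prime to `p`. -/
theorem residual_inertia_coprime_of_no_stable_line
    (hline : ∀ v : ρbar.V, v ≠ 0 →
      ∃ σ ∈ A.decompositionSubgroup ℚ, ρbar.ρ σ v ∉ Submodule.span k {v}) :
    ∀ σ ∈ A.inertiaSubgroupIn ℚ, ∃ n : ℕ, n.Coprime p ∧ ρbar.ρ σ ^ n = 1 :=
  residual_inertia_coprime hp A hA ρbar
    (irreducible_of_no_stable_line ρbar (A.decompositionSubgroup ℚ : Set GQ) hline)

include hp hA in
/-- **Frozen carrier.**  The image of inertia is cyclic, generated by `ρbar.ρ s`. -/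
theorem residual_inertia_cyclic
    (hirr : ∀ W : Submodule k ρbar.V,
      (∀ σ ∈ A.decompositionSubgroup ℚ, ∀ x ∈ W, ρbar.ρ σ x ∈ W) → W = ⊥ ∨ W = ⊤) :
    ∃ s ∈ A.inertiaSubgroupIn ℚ, ∀ σ ∈ A.inertiaSubgroupIn ℚ, ∃ n : ℕ,
      ρbar.ρ σ = ρbar.ρ s ^ n :=
  tame_cyclic hp A hA ρbar.ρ ρbar.factorsThroughFiniteLevel
    (residual_inertia_coprime hp A hA ρbar hirr)

include hp hA in
/-- **Frozen carrier.**  Frobenius acts on the image of inertia by the `p`-th power. -/
theorem residual_inertia_frobenius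
    (hirr : ∀ W : Submodule k ρbar.V,
      (∀ σ ∈ A.decompositionSubgroup ℚ, ∀ x ∈ W, ρbar.ρ σ x ∈ W) → W = ⊥ ∨ W = ⊤)
    (φ : GQ) (hφ : A.IsFrobeniusAt φ p) (σ : GQ) (hσ : σ ∈ A.inertiaSubgroupIn ℚ) :
    ρbar.ρ (φ * σ * φ⁻¹) = ρbar.ρ σ ^ p :=
  tame_frobenius hp A hA ρbar.ρ ρbar.factorsThroughFiniteLevel
    (residual_inertia_coprime hp A hA ρbar hirr) φ hφ σ hσ

end residual

end Fermat.Agent.S56.helper778
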