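import Mathlib
import Fermat.Agent.S56.helper778_WildInertia

/-!
# The local type of a residual representation irreducible at `p` (helper778)

`Qb := AlgebraicClosure ℚ`, `GQ := Qb ≃ₐ[ℚ] Qb`, `A` a valuation subring of `Qb` over the prime
`p`, `D := A.decompositionSubgroup ℚ`, `I := A.inertiaSubgroupIn ℚ`.

Let `ρ : GQ →* Module.End k V` factor through a finite level, `k` a field of characteristic `p`,
`V` of dimension two, without a `D`-stable line, and with characteristic polynomials split over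
`k` on `D`.  Then (`exists_n2Frame`) there are `s ∈ I`, a basis `b` of `V` and `α β : k` with

* `ρ s = diag(α, β)` in `b`, `α ≠ β`, `α ^ p = β`, `β ^ p = α`, and `ρ(I) = ⟨ρ s⟩`;
* every Frobenius element at `A` is antidiagonal in `b`;
* every element of `D` is diagonal or antidiagonal in `b`.

Consequences (`N2Frame.*`): a uniform exponent `2 (#k - 1)` prime to `p` on `ρ(D)`, the
commutant of `ρ(D)` is the scalars, and the structure of the adjoint action on trace-zero
endomorphisms (an inertia-invariant line spanned by `frameH b`, flipped by Frobenius, and a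
plane on which `Ad (ρ s)` satisfies `X ^ 2 - τ₀ X + 1` with `τ₀` an integer, `τ₀ ≢ 2 mod p`).
-/

set_option autoImplicit false

namespace Fermat.Agent.S56.helper778

open Polynomial
open Fermat.Agent.S56.helper6024
open Fermat.Agent.Lib.helper54 Fermat.Agent.Lib.helper2489

local notation "Qb" => AlgebraicClosure ℚ
local notation "GQ" => (AlgebraicClosure ℚ ≃ₐ[ℚ] AlgebraicClosure ℚ)

/-! ## Linear algebra in dimension two -/

section core

variable {k : Type*} [Field k] {V : Type*} [AddCommGroup V] [Module k V]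

/-- Powers of an endomorphism act on an eigenvector through powers of the eigenvalue. -/
theorem pow_apply_eigen {S : Module.End k V} {v : V} {a : k} (h : S v = a • v) (m : ℕ) :
    (S ^ m) v = a ^ m • v := by
  induction m with
  | zero => simp
  | succ m ih => rw [pow_succ, Module.End.mul_apply, h, map_smul, ih, smul_smul, pow_succ, mul_comm]

/-- Coordinates in a basis indexed by `Fin 2` are unique. -/
theorem coeff_eq_of_basis (b : Module.Basis (Fin 2) k V) {x y x' y' : k}
    (h : x • b 0 + y • b 1 = x' • b 0 + y' • b 1) : x = x' ∧ y = y' := by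
  have h0 := congrArg (fun u => b.repr u 0) h
  have h1 := congrArg (fun u => b.repr u 1) h
  simp only [map_add, map_smul, Module.Basis.repr_self, Finsupp.coe_add, Finsupp.coe_smul,
    Pi.add_apply, Pi.smul_apply, Finsupp.single_apply, smul_eq_mul] at h0 h1
  constructor
  · simpa using h0
  · simpa using h1

/-- Every vector is a combination of the two basis vectors. -/
theorem exists_coeff_of_basis (b : Module.Basis (Fin 2) k V) (u : V) :
    ∃ x y : k, u = x • b 0 + y • b 1 :=
  ⟨b.repr u 0, b.repr u 1, by rw [← Fin.sum_univ_two (fun i => b.repr u i • b i), b.sum_repr]⟩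

/-- A unipotent-up-to-scalar endomorphism of finite order prime to the characteristic is a
scalar. -/
theorem eq_smul_one_of_sq_eq_zero_of_pow_eq_one {S : Module.End k V} {α : k} {n : ℕ}
    (hN : (S - α • (1 : Module.End k V)) * (S - α • (1 : Module.End k V)) = 0)
    (hn : (n : k) ≠ 0) (hS : S ^ n = 1) : S = α • (1 : Module.End k V) := by
  refine LinearMap.ext fun v => ?_
  set w : V := S v - α • v with hw
  have hSw : S w = α • w := by
    have := congrArg (fun f : Module.End k V => f v) hN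
    simp only [Module.End.mul_apply, LinearMap.sub_apply, LinearMap.smul_apply,
      Module.End.one_apply, LinearMap.zero_apply] at this
    rw [← hw] at this
    exact sub_eq_zero.mp this
  have hSv : S v = α • v + w := by rw [hw]; abel
  have hpow : ∀ m : ℕ, (S ^ (m + 1)) v = α ^ (m + 1) • v + ((m + 1 : ℕ) : k) • α ^ m • w := by
    intro m
    induction m with
    | zero => simp [hSv]
    | succ m ih =>
      rw [pow_succ', Module.End.mul_apply, ih, map_add, map_smul, map_smul, map_smul, hSv, hSw]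
      simp only [smul_add, smul_smul]
      push_cast
      rw [add_assoc, ← add_smul]
      congr 1
      · congr 1
        ring
      · congr 1
        ring
  have hn0 : n ≠ 0 := by
    rintro rfl
    exact hn (by simp)
  obtain ⟨m, rfl⟩ := Nat.exists_eq_succ_of_ne_zero hn0
  have h1 := hpow m
  rw [hS, Module.End.one_apply] at h1
  have h2 := pow_apply_eigen hSw (m + 1)
  rw [hS, Module.End.one_apply] at h2
  have hw0 : w = 0 := by
    by_contra hw0
    have hα : α ^ (m + 1) = 1 := by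
      have : (α ^ (m + 1) - 1) • w = 0 := by rw [sub_smul, one_smul, ← h2, sub_self]
      rcases smul_eq_zero.mp this with h | h
      · exact sub_eq_zero.mp h
      · exact absurd h hw0
    have hα0 : α ≠ 0 := by
      rintro rfl
      simp at hα
    rw [hα, one_smul] at h1
    have h3 : ((m + 1 : ℕ) : k) • α ^ m • w = 0 := by
      have := h1
      nth_rewrite 1 [← add_zero v] at this
      exact (add_left_cancel this).symm
    rcases smul_eq_zero.mp h3 with h | h
    · exact hn h
    · rcases smul_eq_zero.mp h with h | h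
      · exact pow_ne_zero _ hα0 h
      · exact hw0 h
  simp only [LinearMap.smul_apply, Module.End.one_apply]
  rw [hSv, hw0, add_zero]

variable [Module.Finite k V]

/-- Cayley–Hamilton for a split characteristic polynomial of degree two. -/
theorem mul_eq_zero_of_charpoly {S : Module.End k V} {α β : k}
    (h : S.charpoly = (X - C α) * (X - C β)) :
    (S - α • (1 : Module.End k V)) * (S - β • (1 : Module.End k V)) = 0 := by
  have := LinearMap.aeval_self_charpoly S
  rw [h] at this
  simpa [Algebra.algebraMap_eq_smul_one] using this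

/-- A root of the characteristic polynomial has an eigenvector. -/
theorem exists_eigenvector_of_charpoly {S : Module.End k V} {α β : k}
    (h : S.charpoly = (X - C α) * (X - C β)) : ∃ v : V, v ≠ 0 ∧ S v = α • v := by
  have hroot : (LinearMap.charpoly S).IsRoot α := by
    rw [h]
    simp
  obtain ⟨v, hv⟩ := ((Module.End.hasEigenvalue_iff_isRoot_charpoly S α).mpr
    hroot).exists_hasEigenvector
  exact ⟨v, hv.2, hv.apply_eq_smul⟩

/-- The same for the second root. -/
theorem exists_eigenvector_of_charpoly' {S : Module.End k V} {α β : k}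
    (h : S.charpoly = (X - C α) * (X - C β)) : ∃ v : V, v ≠ 0 ∧ S v = β • v :=
  exists_eigenvector_of_charpoly (α := β) (β := α) (by rw [h, mul_comm])

end core

/-! ## The eigenframe of a tame generator -/

section frame

variable {k : Type*} [Field k] {V : Type*} [AddCommGroup V] [Module k V]

/-- Two eigenvectors for distinct eigenvalues form a basis in dimension two. -/
theorem exists_eigenbasis (hV : Module.finrank k V = 2) {S : Module.End k V} {α β : k}
    (hαβ : α ≠ β) {e₁ e₂ : V} (h1 : e₁ ≠ 0) (h2 : e₂ ≠ 0) (hS1 : S e₁ = α • e₁)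
    (hS2 : S e₂ = β • e₂) : ∃ b : Module.Basis (Fin 2) k V, b 0 = e₁ ∧ b 1 = e₂ := by
  have hli : LinearIndependent k ![e₁, e₂] := by
    rw [LinearIndependent.pair_iff]
    intro x y hxy
    have h3 := congrArg S hxy
    rw [map_add, map_smul, map_smul, hS1, hS2, map_zero] at h3
    have h4 : (y * (β - α)) • e₂ = 0 := by
      have h5 : α • (x • e₁ + y • e₂) = 0 := by rw [hxy, smul_zero]
      have h6 : (y * (β - α)) • e₂ = (x • α • e₁ + y • β • e₂) - α • (x • e₁ + y • e₂) := by
        simp only [smul_add, smul_smul, mul_sub, sub_smul]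
        rw [mul_comm α x, mul_comm α y]
        abel
      rw [h6, h3, h5, sub_zero]
    have hy : y = 0 := by
      rcases smul_eq_zero.mp h4 with h | h
      · rcases mul_eq_zero.mp h with h | h
        · exact h
        · exact absurd (sub_eq_zero.mp h).symm hαβ
      · exact absurd h h2
    rw [hy, zero_smul, add_zero] at hxy
    rcases smul_eq_zero.mp hxy with h | h
    · exact ⟨h, hy⟩
    · exact absurd h h1
  refine ⟨basisOfLinearIndependentOfCardEqFinrank hli (by simp [hV]), ?_, ?_⟩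
  · rw [coe_basisOfLinearIndependentOfCardEqFinrank]; rfl
  · rw [coe_basisOfLinearIndependentOfCardEqFinrank]; rfl

/-- **The niveau-two frame, linear algebra.**  `S` of finite order prime to `p` with split
characteristic polynomial, `Φ` injective with an eigenvalue and `Φ S = S ^ p Φ`, and no common
stable line: then the two eigenvalues of `S` are distinct and exchanged by the `p`-th power,
and `S` is diagonal in a basis. -/
theorem exists_frame_core [Module.Finite k V] {p : ℕ} [CharP k p] (hp : p.Prime)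
    (hV : Module.finrank k V = 2) {S Φ : Module.End k V} {n : ℕ} (hn : n.Coprime p) (hSn : S ^ n = 1)
    {α β : k} (hS : S.charpoly = (X - C α) * (X - C β))
    {γ δ : k} (hΦ : Φ.charpoly = (X - C γ) * (X - C δ))
    (hΦinj : Function.Injective Φ) (hconj : Φ * S = S ^ p * Φ)
    (hline : ∀ v : V, v ≠ 0 → S v ∈ Submodule.span k {v} → Φ v ∈ Submodule.span k {v} → False) :
    α ≠ β ∧ α ^ p = β ∧ β ^ p = α ∧
      ∃ b : Module.Basis (Fin 2) k V, S (b 0) = α • b 0 ∧ S (b 1) = β • b 1 := by
  have hexp : ExpChar k p := ExpChar.prime hp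
  have hfrob : ∀ x y : k, x ^ p = y ^ p → x = y := fun x y h => frobenius_inj k p h
  have hnk : (n : k) ≠ 0 := by
    intro h
    have h1 : p ∣ n := (CharP.cast_eq_zero_iff k p n).mp h
    exact hp.one_lt.ne' (Nat.Coprime.eq_one_of_dvd hn.symm h1)
  have hαβ : α ≠ β := by
    rintro rfl
    have hsc : S = α • (1 : Module.End k V) :=
      eq_smul_one_of_sq_eq_zero_of_pow_eq_one (mul_eq_zero_of_charpoly hS) hnk hSn
    obtain ⟨v, hv0, hv⟩ := exists_eigenvector_of_charpoly hΦ
    refine hline v hv0 ?_ ?_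
    · rw [hsc, LinearMap.smul_apply, Module.End.one_apply]
      exact Submodule.smul_mem _ _ (Submodule.mem_span_singleton_self v)
    · rw [hv]
      exact Submodule.smul_mem _ _ (Submodule.mem_span_singleton_self v)
  obtain ⟨e₁, h1, hS1⟩ := exists_eigenvector_of_charpoly hS
  obtain ⟨e₂, h2, hS2⟩ := exists_eigenvector_of_charpoly' hS
  obtain ⟨b, hb0, hb1⟩ := exists_eigenbasis hV hαβ h1 h2 hS1 hS2
  rw [← hb0] at hS1
  rw [← hb1] at hS2
  obtain ⟨a, c, hΦ0⟩ := exists_coeff_of_basis b (Φ (b 0))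
  obtain ⟨c', d, hΦ1⟩ := exists_coeff_of_basis b (Φ (b 1))
  have key0 : α * a = a * α ^ p ∧ α * c = c * β ^ p := by
    have h := congrArg (fun f : Module.End k V => f (b 0)) hconj
    simp only [Module.End.mul_apply] at h
    rw [hS1, map_smul, hΦ0, map_add, map_smul, map_smul, pow_apply_eigen hS1,
      pow_apply_eigen hS2, smul_add, smul_smul, smul_smul, smul_smul, smul_smul] at h
    exact coeff_eq_of_basis b h
  have key1 : β * c' = c' * α ^ p ∧ β * d = d * β ^ p := by
    have h := congrArg (fun f : Module.End k V => f (b 1)) hconj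
    simp only [Module.End.mul_apply] at h
    rw [hS2, map_smul, hΦ1, map_add, map_smul, map_smul, pow_apply_eigen hS1,
      pow_apply_eigen hS2, smul_add, smul_smul, smul_smul, smul_smul, smul_smul] at h
    exact coeff_eq_of_basis b h
  have hb0ne : b 0 ≠ 0 := b.ne_zero 0
  have hb1ne : b 1 ≠ 0 := b.ne_zero 1
  have ha : a = 0 := by
    by_contra ha
    have hαp : α ^ p = α := mul_left_cancel₀ ha (by rw [← key0.1, mul_comm])
    have hc : c = 0 := by
      by_contra hc
      have hβp : β ^ p = α := mul_left_cancel₀ hc (by rw [← key0.2, mul_comm])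
      exact hαβ (hfrob α β (by rw [hαp, hβp]))
    refine hline (b 0) hb0ne ?_ ?_
    · rw [hS1]
      exact Submodule.smul_mem _ _ (Submodule.mem_span_singleton_self _)
    · rw [hΦ0, hc, zero_smul, add_zero]
      exact Submodule.smul_mem _ _ (Submodule.mem_span_singleton_self _)
  have hd : d = 0 := by
    by_contra hd
    have hβp : β ^ p = β := mul_left_cancel₀ hd (by rw [← key1.2, mul_comm])
    have hc' : c' = 0 := by
      by_contra hc'
      have hαp : α ^ p = β := mul_left_cancel₀ hc' (by rw [← key1.1, mul_comm])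
      exact hαβ (hfrob α β (by rw [hαp, hβp]))
    refine hline (b 1) hb1ne ?_ ?_
    · rw [hS2]
      exact Submodule.smul_mem _ _ (Submodule.mem_span_singleton_self _)
    · rw [hΦ1, hc', zero_smul, zero_add]
      exact Submodule.smul_mem _ _ (Submodule.mem_span_singleton_self _)
  have hc : c ≠ 0 := by
    rintro rfl
    rw [ha, zero_smul, zero_smul, add_zero] at hΦ0
    exact hb0ne (hΦinj (by rw [hΦ0, map_zero]))
  have hc' : c' ≠ 0 := by
    rintro rfl
    rw [hd, zero_smul, zero_smul, add_zero] at hΦ1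
    exact hb1ne (hΦinj (by rw [hΦ1, map_zero]))
  have hβp : β ^ p = α := mul_left_cancel₀ hc (by rw [← key0.2, mul_comm])
  have hαp : α ^ p = β := mul_left_cancel₀ hc' (by rw [← key1.1, mul_comm])
  exact ⟨hαβ, hαp, hβp, b, hS1, hS2⟩

/-- In a niveau-two frame every injective `Φ` with `Φ S = S ^ p Φ` is antidiagonal. -/
theorem antidiag_of_conj {p : ℕ} {S Φ : Module.End k V} {b : Module.Basis (Fin 2) k V}
    {α β : k} (hαβ : α ≠ β) (hαp : α ^ p = β) (hβp : β ^ p = α)
    (hS1 : S (b 0) = α • b 0) (hS2 : S (b 1) = β • b 1)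
    (hΦinj : Function.Injective Φ) (hconj : Φ * S = S ^ p * Φ) :
    ∃ c d : k, c ≠ 0 ∧ d ≠ 0 ∧ Φ (b 0) = c • b 1 ∧ Φ (b 1) = d • b 0 := by
  obtain ⟨a, c, hΦ0⟩ := exists_coeff_of_basis b (Φ (b 0))
  obtain ⟨c', d, hΦ1⟩ := exists_coeff_of_basis b (Φ (b 1))
  have key0 : α * a = a * α ^ p ∧ α * c = c * β ^ p := by
    have h := congrArg (fun f : Module.End k V => f (b 0)) hconj
    simp only [Module.End.mul_apply] at h
    rw [hS1, map_smul, hΦ0, map_add, map_smul, map_smul, pow_apply_eigen hS1,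
      pow_apply_eigen hS2, smul_add, smul_smul, smul_smul, smul_smul, smul_smul] at h
    exact coeff_eq_of_basis b h
  have key1 : β * c' = c' * α ^ p ∧ β * d = d * β ^ p := by
    have h := congrArg (fun f : Module.End k V => f (b 1)) hconj
    simp only [Module.End.mul_apply] at h
    rw [hS2, map_smul, hΦ1, map_add, map_smul, map_smul, pow_apply_eigen hS1,
      pow_apply_eigen hS2, smul_add, smul_smul, smul_smul, smul_smul, smul_smul] at h
    exact coeff_eq_of_basis b h
  have hb0ne : b 0 ≠ 0 := b.ne_zero 0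
  have hb1ne : b 1 ≠ 0 := b.ne_zero 1
  have ha : a = 0 := by
    by_contra ha
    have h1 : α ^ p = α := mul_left_cancel₀ ha (by rw [← key0.1, mul_comm])
    exact hαβ (by rw [← h1, hαp])
  have hd : d = 0 := by
    by_contra hd
    have h1 : β ^ p = β := mul_left_cancel₀ hd (by rw [← key1.2, mul_comm])
    exact hαβ (by rw [← h1, hβp])
  rw [ha, zero_smul, zero_add] at hΦ0
  rw [hd, zero_smul, add_zero] at hΦ1
  refine ⟨c, c', ?_, ?_, hΦ0, hΦ1⟩
  · rintro rfl
    rw [zero_smul] at hΦ0
    exact hb0ne (hΦinj (by rw [hΦ0, map_zero]))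
  · rintro rfl
    rw [zero_smul] at hΦ1
    exact hb1ne (hΦinj (by rw [hΦ1, map_zero]))

end frame

/-! ## Diagonal and antidiagonal endomorphisms -/

section mono

variable {k : Type*} [Field k] {V : Type*} [AddCommGroup V] [Module k V]

/-- `X` is diagonal or antidiagonal in the basis `b`, with nonzero entries. -/
def IsMono (b : Module.Basis (Fin 2) k V) (X : Module.End k V) : Prop :=
  (∃ a d : k, a ≠ 0 ∧ d ≠ 0 ∧ X (b 0) = a • b 0 ∧ X (b 1) = d • b 1) ∨
  (∃ c d : k, c ≠ 0 ∧ d ≠ 0 ∧ X (b 0) = c • b 1 ∧ X (b 1) = d • b 0)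

theorem IsMono.one (b : Module.Basis (Fin 2) k V) : IsMono b (1 : Module.End k V) :=
  Or.inl ⟨1, 1, one_ne_zero, one_ne_zero, by simp, by simp⟩

theorem IsMono.mul {b : Module.Basis (Fin 2) k V} {X Y : Module.End k V} (hX : IsMono b X)
    (hY : IsMono b Y) : IsMono b (X * Y) := by
  rcases hX with ⟨a, d, ha, hd, h0, h1⟩ | ⟨a, d, ha, hd, h0, h1⟩ <;>
  rcases hY with ⟨a', d', ha', hd', h0', h1'⟩ | ⟨a', d', ha', hd', h0', h1'⟩
  · exact Or.inl ⟨a' * a, d' * d, mul_ne_zero ha' ha, mul_ne_zero hd' hd,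
      by rw [Module.End.mul_apply, h0', map_smul, h0, smul_smul],
      by rw [Module.End.mul_apply, h1', map_smul, h1, smul_smul]⟩
  · exact Or.inr ⟨a' * d, d' * a, mul_ne_zero ha' hd, mul_ne_zero hd' ha,
      by rw [Module.End.mul_apply, h0', map_smul, h1, smul_smul],
      by rw [Module.End.mul_apply, h1', map_smul, h0, smul_smul]⟩
  · exact Or.inr ⟨a' * a, d' * d, mul_ne_zero ha' ha, mul_ne_zero hd' hd,
      by rw [Module.End.mul_apply, h0', map_smul, h0, smul_smul],
      by rw [Module.End.mul_apply, h1', map_smul, h1, smul_smul]⟩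
  · exact Or.inl ⟨a' * d, d' * a, mul_ne_zero ha' hd, mul_ne_zero hd' ha,
      by rw [Module.End.mul_apply, h0', map_smul, h1, smul_smul],
      by rw [Module.End.mul_apply, h1', map_smul, h0, smul_smul]⟩

theorem IsMono.pow {b : Module.Basis (Fin 2) k V} {X : Module.End k V} (hX : IsMono b X)
    (m : ℕ) : IsMono b (X ^ m) := by
  induction m with
  | zero => rw [pow_zero]; exact IsMono.one b
  | succ m ih => rw [pow_succ]; exact ih.mul hX

/-- A diagonal endomorphism whose entries are `m`-th roots of unity has `m`-th power one. -/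
theorem pow_eq_one_of_diag {b : Module.Basis (Fin 2) k V} {X : Module.End k V} {a d : k}
    (h0 : X (b 0) = a • b 0) (h1 : X (b 1) = d • b 1) {m : ℕ} (ha : a ^ m = 1)
    (hd : d ^ m = 1) : X ^ m = 1 := by
  refine b.ext fun i => ?_
  fin_cases i
  · simpa [ha] using pow_apply_eigen h0 m
  · simpa [hd] using pow_apply_eigen h1 m

/-- **Uniform exponent.**  Over a finite field `k`, a diagonal or antidiagonal endomorphism
has order dividing `2 (#k - 1)`. -/
theorem IsMono.pow_eq_one [Finite k] {b : Module.Basis (Fin 2) k V} {X : Module.End k V}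
    (hX : IsMono b X) : X ^ (2 * (Nat.card k - 1)) = 1 := by
  have : Fintype k := Fintype.ofFinite k
  have hq : ∀ a : k, a ≠ 0 → a ^ (Nat.card k - 1) = 1 := fun a ha => by
    rw [Nat.card_eq_fintype_card]
    exact FiniteField.pow_card_sub_one_eq_one a ha
  rcases hX with ⟨a, d, ha, hd, h0, h1⟩ | ⟨c, d, hc, hd, h0, h1⟩
  · refine pow_eq_one_of_diag h0 h1 ?_ ?_
    · rw [mul_comm, pow_mul, hq a ha, one_pow]
    · rw [mul_comm, pow_mul, hq d hd, one_pow]
  · rw [pow_mul]
    have h0' : (X ^ 2) (b 0) = (c * d) • b 0 := by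
      rw [pow_two, Module.End.mul_apply, h0, map_smul, h1, smul_smul]
    have h1' : (X ^ 2) (b 1) = (c * d) • b 1 := by
      rw [pow_two, Module.End.mul_apply, h1, map_smul, h0, smul_smul, mul_comm]
    exact pow_eq_one_of_diag h0' h1' (hq _ (mul_ne_zero hc hd)) (hq _ (mul_ne_zero hc hd))

/-- The uniform exponent is prime to the characteristic when `p` is odd. -/
theorem coprime_two_mul_card_sub_one [Finite k] {p : ℕ} [CharP k p] (hp : p.Prime)
    (hp2 : p ≠ 2) : (2 * (Nat.card k - 1)).Coprime p := by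
  have : Fintype k := Fintype.ofFinite k
  obtain ⟨f, -, hf⟩ := FiniteField.card k p
  rw [Nat.card_eq_fintype_card, hf]
  refine Nat.Coprime.mul_left ?_ ?_
  · exact (Nat.coprime_primes Nat.prime_two hp).mpr (Ne.symm hp2)
  · refine ((Nat.Prime.coprime_iff_not_dvd hp).mpr fun h => ?_).symm
    have h1 : p ∣ p ^ (f : ℕ) := dvd_pow_self p f.pos.ne'
    have h2 : 1 ≤ p ^ (f : ℕ) := Nat.one_le_pow _ _ hp.pos
    have h3 : p ∣ p ^ (f : ℕ) - (p ^ (f : ℕ) - 1) := Nat.dvd_sub h1 h
    have h4 : p ^ (f : ℕ) - (p ^ (f : ℕ) - 1) = 1 := by omega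
    rw [h4] at h3
    exact hp.one_lt.ne' (Nat.dvd_one.mp h3)

end mono

/-! ## The niveau-two frame of a Galois representation -/

section galois

variable {k : Type} [Field k] {V : Type} [AddCommGroup V] [Module k V]

/-- **Niveau-two frame** of `ρ` at the place `A` over `p`: a generator `s` of the image of
inertia, diagonal in the basis `b` with distinct eigenvalues `α`, `β` exchanged by the `p`-th
power; Frobenius elements are antidiagonal; the decomposition group acts through diagonal and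
antidiagonal endomorphisms. -/
structure N2Frame (p : ℕ) (A : ValuationSubring Qb) (ρ : GQ →* Module.End k V) (s : GQ)
    (b : Module.Basis (Fin 2) k V) (α β : k) : Prop where
  mem : s ∈ A.inertiaSubgroupIn ℚ
  ne : α ≠ β
  pow_fst : α ^ p = β
  pow_snd : β ^ p = α
  apply_zero : ρ s (b 0) = α • b 0
  apply_one : ρ s (b 1) = β • b 1
  gen : ∀ σ ∈ A.inertiaSubgroupIn ℚ, ∃ n : ℕ, ρ σ = ρ s ^ n
  frob : ∀ φ : GQ, A.IsFrobeniusAt φ p →
    ∃ c d : k, c ≠ 0 ∧ d ≠ 0 ∧ ρ φ (b 0) = c • b 1 ∧ ρ φ (b 1) = d • b 0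
  dec : ∀ τ ∈ A.decompositionSubgroup ℚ, IsMono b (ρ τ)

/-- The values of a representation are injective endomorphisms. -/
theorem injective_apply (ρ : GQ →* Module.End k V) (g : GQ) : Function.Injective (ρ g) := by
  have h : ∀ x : V, ρ g⁻¹ (ρ g x) = x := fun x => by
    rw [← Module.End.mul_apply, ← map_mul, inv_mul_cancel, map_one, Module.End.one_apply]
  exact Function.LeftInverse.injective h

/-- The inertia group lies in the decomposition group. -/
theorem mem_decomposition_of_mem_inertia {A : ValuationSubring Qb} {σ : GQ}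
    (hσ : σ ∈ A.inertiaSubgroupIn ℚ) : σ ∈ A.decompositionSubgroup ℚ := by
  obtain ⟨t, -, rfl⟩ := hσ
  exact t.2

variable {p : ℕ} (hp : p.Prime) (A : ValuationSubring Qb) (hA : A.LiesOverPrime p)
variable [CharP k p] [Finite V] [Module.Finite k V] (ρ : GQ →* Module.End k V)

include hp hA in
/-- **Existence of the niveau-two frame.**  A two-dimensional representation over a field of
characteristic `p`, factoring through a finite level, irreducible on the decomposition group
at `A` (a place over `p`) and with split characteristic polynomials on it, has a niveau-two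
frame at `A`. -/
theorem exists_n2Frame (hρ : GaloisFactorsThroughFiniteLevel ρ)
    (hV : Module.finrank k V = 2)
    (hirr : ∀ W : Submodule k V,
      (∀ σ ∈ A.decompositionSubgroup ℚ, ∀ x ∈ W, ρ σ x ∈ W) → W = ⊥ ∨ W = ⊤)
    (hsplit : ∀ σ ∈ A.decompositionSubgroup ℚ, ∃ α β : k,
      LinearMap.charpoly (ρ σ) = (X - C α) * (X - C β)) :
    ∃ (s : GQ) (b : Module.Basis (Fin 2) k V) (α β : k), N2Frame p A ρ s b α β := by
  obtain ⟨s, hs, hgen⟩ := inertia_cyclic hp A hA ρ hρ hirr
  obtain ⟨n, hn, hsn⟩ := inertia_coprime hp A hA ρ hρ hirr s hs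
  obtain ⟨φ, hφ⟩ := exists_isFrobeniusAt hp A hA
  have hφD : φ ∈ A.decompositionSubgroup ℚ := hφ.mem_decompositionSubgroup
  have hsD : s ∈ A.decompositionSubgroup ℚ := mem_decomposition_of_mem_inertia hs
  obtain ⟨α, β, hS⟩ := hsplit s hsD
  obtain ⟨γ, δ, hΦ⟩ := hsplit φ hφD
  have hconj : ∀ ψ : GQ, A.IsFrobeniusAt ψ p → ρ ψ * ρ s = ρ s ^ p * ρ ψ := by
    intro ψ hψ
    rw [← inertia_frobenius hp A hA ρ hρ hirr ψ hψ s hs, ← map_mul, ← map_mul]
    congr 1
    group
  have hline : ∀ v : V, v ≠ 0 → ρ s v ∈ Submodule.span k {v} →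
      ρ φ v ∈ Submodule.span k {v} → False := by
    intro v hv0 h1 h2
    obtain ⟨a, ha⟩ := Submodule.mem_span_singleton.mp h1
    obtain ⟨c, hc⟩ := Submodule.mem_span_singleton.mp h2
    have hstab : ∀ σ ∈ A.decompositionSubgroup ℚ, ∀ x ∈ Submodule.span k {v},
        ρ σ x ∈ Submodule.span k {v} := by
      intro τ hτ x hx
      obtain ⟨r, rfl⟩ := Submodule.mem_span_singleton.mp hx
      obtain ⟨m, σ, hσ, hτσ⟩ := decomposition_eq hp A hA ρ hρ φ hφ τ hτ
      obtain ⟨j, hj⟩ := hgen σ hσ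
      rw [hτσ, hj, map_pow, Module.End.mul_apply, map_smul, pow_apply_eigen ha.symm,
        map_smul, map_smul, pow_apply_eigen hc.symm]
      exact Submodule.smul_mem _ _ (Submodule.smul_mem _ _ (Submodule.smul_mem _ _
        (Submodule.mem_span_singleton_self v)))
    rcases hirr _ hstab with h | h
    · have : v ∈ (⊥ : Submodule k V) := h ▸ Submodule.mem_span_singleton_self v
      exact hv0 ((Submodule.mem_bot k).mp this)
    · have h3 := finrank_span_singleton (K := k) hv0
      rw [h, finrank_top, hV] at h3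
      exact absurd h3 (by norm_num)
  obtain ⟨hαβ, hαp, hβp, b, hS1, hS2⟩ := exists_frame_core hp hV hn hsn hS hΦ
    (injective_apply ρ φ) (hconj φ hφ) hline
  have hα0 : α ≠ 0 := by
    rintro rfl
    rw [zero_pow hp.ne_zero] at hαp
    exact hαβ hαp
  have hβ0 : β ≠ 0 := by
    rintro rfl
    rw [zero_pow hp.ne_zero] at hβp
    exact hαβ hβp.symm
  have hfrob : ∀ ψ : GQ, A.IsFrobeniusAt ψ p →
      ∃ c d : k, c ≠ 0 ∧ d ≠ 0 ∧ ρ ψ (b 0) = c • b 1 ∧ ρ ψ (b 1) = d • b 0 := fun ψ hψ =>
    antidiag_of_conj hαβ hαp hβp hS1 hS2 (injective_apply ρ ψ) (hconj ψ hψ)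
  refine ⟨s, b, α, β, hs, hαβ, hαp, hβp, hS1, hS2, hgen, hfrob, ?_⟩
  intro τ hτ
  obtain ⟨m, σ, hσ, hτσ⟩ := decomposition_eq hp A hA ρ hρ φ hφ τ hτ
  obtain ⟨j, hj⟩ := hgen σ hσ
  rw [hτσ, hj, map_pow]
  have hSmono : IsMono b (ρ s) := Or.inl ⟨α, β, hα0, hβ0, hS1, hS2⟩
  have hΦmono : IsMono b (ρ φ) := Or.inr (hfrob φ hφ)
  exact (hΦmono.pow m).mul (hSmono.pow j)

end galois

/-! ## Matrices of diagonal and antidiagonal endomorphisms -/

section matrix

variable {k : Type*} [Field k] {V : Type*} [AddCommGroup V] [Module k V]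

theorem toMatrix_of_diag (b : Module.Basis (Fin 2) k V) {X : Module.End k V} {a d : k}
    (h0 : X (b 0) = a • b 0) (h1 : X (b 1) = d • b 1) :
    LinearMap.toMatrix b b X = !![a, 0; 0, d] := by
  ext i j
  fin_cases i <;> fin_cases j <;> simp [LinearMap.toMatrix_apply, h0, h1]

theorem toMatrix_of_antidiag (b : Module.Basis (Fin 2) k V) {X : Module.End k V} {c d : k}
    (h0 : X (b 0) = c • b 1) (h1 : X (b 1) = d • b 0) :
    LinearMap.toMatrix b b X = !![0, d; c, 0] := by
  ext i j
  fin_cases i <;> fin_cases j <;> simp [LinearMap.toMatrix_apply, h0, h1]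

/-- The inverse of a diagonal endomorphism is diagonal. -/
theorem inv_of_diag (b : Module.Basis (Fin 2) k V) {Y Y' : Module.End k V} {a d : k}
    (ha : a ≠ 0) (hd : d ≠ 0) (h0 : Y (b 0) = a • b 0) (h1 : Y (b 1) = d • b 1)
    (hinv : Y' * Y = 1) : Y' (b 0) = a⁻¹ • b 0 ∧ Y' (b 1) = d⁻¹ • b 1 := by
  have e0 : Y' (Y (b 0)) = b 0 := by rw [← Module.End.mul_apply, hinv, Module.End.one_apply]
  have e1 : Y' (Y (b 1)) = b 1 := by rw [← Module.End.mul_apply, hinv, Module.End.one_apply]
  rw [h0, map_smul] at e0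
  rw [h1, map_smul] at e1
  constructor
  · calc Y' (b 0) = a⁻¹ • (a • Y' (b 0)) := by rw [smul_smul, inv_mul_cancel₀ ha, one_smul]
      _ = a⁻¹ • b 0 := by rw [e0]
  · calc Y' (b 1) = d⁻¹ • (d • Y' (b 1)) := by rw [smul_smul, inv_mul_cancel₀ hd, one_smul]
      _ = d⁻¹ • b 1 := by rw [e1]

/-- The inverse of an antidiagonal endomorphism is antidiagonal. -/
theorem inv_of_antidiag (b : Module.Basis (Fin 2) k V) {Y Y' : Module.End k V} {c d : k}
    (hc : c ≠ 0) (hd : d ≠ 0) (h0 : Y (b 0) = c • b 1) (h1 : Y (b 1) = d • b 0)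
    (hinv : Y' * Y = 1) : Y' (b 0) = d⁻¹ • b 1 ∧ Y' (b 1) = c⁻¹ • b 0 := by
  have e0 : Y' (Y (b 0)) = b 0 := by rw [← Module.End.mul_apply, hinv, Module.End.one_apply]
  have e1 : Y' (Y (b 1)) = b 1 := by rw [← Module.End.mul_apply, hinv, Module.End.one_apply]
  rw [h0, map_smul] at e0
  rw [h1, map_smul] at e1
  constructor
  · calc Y' (b 0) = d⁻¹ • (d • Y' (b 0)) := by rw [smul_smul, inv_mul_cancel₀ hd, one_smul]
      _ = d⁻¹ • b 1 := by rw [e1]
  · calc Y' (b 1) = c⁻¹ • (c • Y' (b 1)) := by rw [smul_smul, inv_mul_cancel₀ hc, one_smul]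
      _ = c⁻¹ • b 0 := by rw [e0]

/-- Conjugation by a diagonal endomorphism, in matrix entries. -/
theorem toMatrix_conj_diag (b : Module.Basis (Fin 2) k V) {Y Y' : Module.End k V}
    (X : Module.End k V) {a d : k} (ha : a ≠ 0) (hd : d ≠ 0) (h0 : Y (b 0) = a • b 0)
    (h1 : Y (b 1) = d • b 1) (hinv : Y' * Y = 1) :
    LinearMap.toMatrix b b (Y * X * Y') =
      !![LinearMap.toMatrix b b X 0 0, a * d⁻¹ * LinearMap.toMatrix b b X 0 1;
         d * a⁻¹ * LinearMap.toMatrix b b X 1 0, LinearMap.toMatrix b b X 1 1] := by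
  obtain ⟨g0, g1⟩ := inv_of_diag b ha hd h0 h1 hinv
  rw [LinearMap.toMatrix_mul, LinearMap.toMatrix_mul, toMatrix_of_diag b h0 h1,
    toMatrix_of_diag b g0 g1]
  generalize LinearMap.toMatrix b b X = M
  obtain ⟨m00, m01, m10, m11, rfl⟩ : ∃ m00 m01 m10 m11 : k, M = !![m00, m01; m10, m11] :=
    ⟨_, _, _, _, Matrix.eta_fin_two M⟩
  rw [Matrix.mul_fin_two, Matrix.mul_fin_two]
  ext i j
  fin_cases i <;> fin_cases j <;> simp <;> field_simp

/-- Conjugation by an antidiagonal endomorphism, in matrix entries. -/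
theorem toMatrix_conj_antidiag (b : Module.Basis (Fin 2) k V) {Y Y' : Module.End k V}
    (X : Module.End k V) {c d : k} (hc : c ≠ 0) (hd : d ≠ 0) (h0 : Y (b 0) = c • b 1)
    (h1 : Y (b 1) = d • b 0) (hinv : Y' * Y = 1) :
    LinearMap.toMatrix b b (Y * X * Y') =
      !![LinearMap.toMatrix b b X 1 1, d * c⁻¹ * LinearMap.toMatrix b b X 1 0;
         c * d⁻¹ * LinearMap.toMatrix b b X 0 1, LinearMap.toMatrix b b X 0 0] := by
  obtain ⟨g0, g1⟩ := inv_of_antidiag b hc hd h0 h1 hinv
  rw [LinearMap.toMatrix_mul, LinearMap.toMatrix_mul, toMatrix_of_antidiag b h0 h1,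
    toMatrix_of_antidiag b g0 g1]
  generalize LinearMap.toMatrix b b X = M
  obtain ⟨m00, m01, m10, m11, rfl⟩ : ∃ m00 m01 m10 m11 : k, M = !![m00, m01; m10, m11] :=
    ⟨_, _, _, _, Matrix.eta_fin_two M⟩
  rw [Matrix.mul_fin_two, Matrix.mul_fin_two]
  ext i j
  fin_cases i <;> fin_cases j <;> simp <;> field_simp

/-- The endomorphism `diag(1, -1)` in a basis indexed by `Fin 2`. -/
noncomputable def frameH (b : Module.Basis (Fin 2) k V) : Module.End k V :=
  b.constr k ![b 0, -b 1]

@[simp] theorem frameH_apply_zero (b : Module.Basis (Fin 2) k V) : frameH b (b 0) = b 0 := by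
  simp [frameH]

@[simp] theorem frameH_apply_one (b : Module.Basis (Fin 2) k V) : frameH b (b 1) = -b 1 := by
  simp [frameH]

theorem toMatrix_frameH (b : Module.Basis (Fin 2) k V) :
    LinearMap.toMatrix b b (frameH b) = !![1, 0; 0, -1] :=
  toMatrix_of_diag b (by simp) (by simp)

theorem trace_frameH (b : Module.Basis (Fin 2) k V) : LinearMap.trace k V (frameH b) = 0 := by
  rw [LinearMap.trace_eq_matrix_trace k b, toMatrix_frameH, Matrix.trace_fin_two]
  simp

theorem frameH_ne_zero (b : Module.Basis (Fin 2) k V) : frameH b ≠ 0 := by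
  intro h
  have h1 := frameH_apply_zero b
  rw [h, LinearMap.zero_apply] at h1
  exact b.ne_zero 0 h1.symm

/-- A diagonal endomorphism commutes with `frameH`. -/
theorem conj_frameH_of_diag (b : Module.Basis (Fin 2) k V) {Y Y' : Module.End k V} {a d : k}
    (h0 : Y (b 0) = a • b 0) (h1 : Y (b 1) = d • b 1) (hinv : Y * Y' = 1) :
    Y * frameH b * Y' = frameH b := by
  have hc : Y * frameH b = frameH b * Y := by
    refine b.ext fun i => ?_
    fin_cases i
    · simp [Module.End.mul_apply, h0]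
    · simp [Module.End.mul_apply, h1]
  rw [hc, mul_assoc, hinv, mul_one]

/-- An antidiagonal endomorphism anticommutes with `frameH`. -/
theorem conj_frameH_of_antidiag (b : Module.Basis (Fin 2) k V) {Y Y' : Module.End k V}
    {c d : k} (h0 : Y (b 0) = c • b 1) (h1 : Y (b 1) = d • b 0) (hinv : Y * Y' = 1) :
    Y * frameH b * Y' = -frameH b := by
  have hc : Y * frameH b = -frameH b * Y := by
    refine b.ext fun i => ?_
    fin_cases i
    · simp [Module.End.mul_apply, h0]
    · simp [Module.End.mul_apply, h1]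
  rw [hc, mul_assoc, hinv, mul_one]

/-- An endomorphism commuting with `diag(α, β)`, `α ≠ β`, is diagonal. -/
theorem diag_of_commute (b : Module.Basis (Fin 2) k V) {S X : Module.End k V} {α β : k}
    (hαβ : α ≠ β) (h0 : S (b 0) = α • b 0) (h1 : S (b 1) = β • b 1) (hX : X * S = S * X) :
    ∃ x y : k, X (b 0) = x • b 0 ∧ X (b 1) = y • b 1 := by
  obtain ⟨x, z, hx⟩ := exists_coeff_of_basis b (X (b 0))
  obtain ⟨w, y, hy⟩ := exists_coeff_of_basis b (X (b 1))
  have e0 := congrArg (fun f : Module.End k V => f (b 0)) hX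
  have e1 := congrArg (fun f : Module.End k V => f (b 1)) hX
  simp only [Module.End.mul_apply] at e0 e1
  rw [h0, map_smul, hx, map_add, map_smul, map_smul, h0, h1, smul_add, smul_smul, smul_smul,
    smul_smul, smul_smul] at e0
  rw [h1, map_smul, hy, map_add, map_smul, map_smul, h0, h1, smul_add, smul_smul, smul_smul,
    smul_smul, smul_smul] at e1
  obtain ⟨-, e0'⟩ := coeff_eq_of_basis b e0
  obtain ⟨e1', -⟩ := coeff_eq_of_basis b e1
  have hz : z = 0 := by
    have : (α - β) * z = 0 := by rw [sub_mul, e0', mul_comm]; ring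
    rcases mul_eq_zero.mp this with h | h
    · exact absurd (sub_eq_zero.mp h) hαβ
    · exact h
  have hw : w = 0 := by
    have : (β - α) * w = 0 := by rw [sub_mul, e1', mul_comm]; ring
    rcases mul_eq_zero.mp this with h | h
    · exact absurd (sub_eq_zero.mp h).symm hαβ
    · exact h
  refine ⟨x, y, ?_, ?_⟩
  · rw [hx, hz, zero_smul, add_zero]
  · rw [hy, hw, zero_smul, zero_add]

end matrix

/-! ## Consequences of a niveau-two frame -/

namespace N2Frame

variable {p : ℕ} {A : ValuationSubring Qb} {k : Type} [Field k] {V : Type} [AddCommGroup V]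
  [Module k V] {ρ : GQ →* Module.End k V} {s : GQ} {b : Module.Basis (Fin 2) k V} {α β : k}

theorem fst_ne_zero (h : N2Frame p A ρ s b α β) (hp0 : p ≠ 0) : α ≠ 0 := by
  rintro rfl
  have h1 := h.pow_fst
  rw [zero_pow hp0] at h1
  exact h.ne h1

theorem snd_ne_zero (h : N2Frame p A ρ s b α β) (hp0 : p ≠ 0) : β ≠ 0 := by
  rintro rfl
  have h1 := h.pow_snd
  rw [zero_pow hp0] at h1
  exact h.ne h1.symm

/-- The eigenvalues lie in the field with `p ^ 2` elements. -/
theorem pow_sq (h : N2Frame p A ρ s b α β) : α ^ (p ^ 2) = α := by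
  rw [pow_two, pow_mul, h.pow_fst, h.pow_snd]

/-- `ξ := α / β ≠ 1`. -/
theorem ratio_ne_one (h : N2Frame p A ρ s b α β) (hp0 : p ≠ 0) : α * β⁻¹ ≠ 1 := by
  intro e
  have hβ := h.snd_ne_zero hp0
  exact h.ne (by field_simp at e; exact e)

/-- `ξ ^ p = ξ⁻¹`. -/
theorem ratio_pow (h : N2Frame p A ρ s b α β) : (α * β⁻¹) ^ p = β * α⁻¹ := by
  rw [mul_pow, inv_pow, h.pow_fst, h.pow_snd]

/-- `ξ ^ (p + 1) = 1`. -/
theorem ratio_pow_succ (h : N2Frame p A ρ s b α β) (hp0 : p ≠ 0) : (α * β⁻¹) ^ (p + 1) = 1 := by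
  have hα := h.fst_ne_zero hp0
  have hβ := h.snd_ne_zero hp0
  rw [pow_succ, h.ratio_pow]
  field_simp

theorem isMono_gen (h : N2Frame p A ρ s b α β) (hp0 : p ≠ 0) : IsMono b (ρ s) :=
  Or.inl ⟨α, β, h.fst_ne_zero hp0, h.snd_ne_zero hp0, h.apply_zero, h.apply_one⟩

/-- Every inertia element is a power of `ρ s`, hence diagonal. -/
theorem inertia_apply (h : N2Frame p A ρ s b α β) {σ : GQ} (hσ : σ ∈ A.inertiaSubgroupIn ℚ) :
    ∃ n : ℕ, ρ σ = ρ s ^ n ∧ ρ σ (b 0) = α ^ n • b 0 ∧ ρ σ (b 1) = β ^ n • b 1 := by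
  obtain ⟨n, hn⟩ := h.gen σ hσ
  exact ⟨n, hn, by rw [hn, pow_apply_eigen h.apply_zero],
    by rw [hn, pow_apply_eigen h.apply_one]⟩

/-- **Uniform exponent on the decomposition group.** -/
theorem pow_eq_one [Finite k] (h : N2Frame p A ρ s b α β) {τ : GQ}
    (hτ : τ ∈ A.decompositionSubgroup ℚ) : ρ τ ^ (2 * (Nat.card k - 1)) = 1 :=
  (h.dec τ hτ).pow_eq_one

/-- **The image of the decomposition group has order prime to `p`** (uniform exponent form). -/
theorem exists_coprime_exponent [Finite k] [CharP k p] (hp : p.Prime) (hp2 : p ≠ 2)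
    (h : N2Frame p A ρ s b α β) :
    ∃ n : ℕ, n.Coprime p ∧ ∀ τ ∈ A.decompositionSubgroup ℚ, ρ τ ^ n = 1 :=
  ⟨_, coprime_two_mul_card_sub_one hp hp2, fun _ hτ => h.pow_eq_one hτ⟩

/-- **The commutant is the scalars**: an endomorphism commuting with the tame generator and
one Frobenius element is a scalar. -/
theorem eq_smul_one_of_commute (h : N2Frame p A ρ s b α β) {φ : GQ}
    (hφ : A.IsFrobeniusAt φ p) {X : Module.End k V} (hs : X * ρ s = ρ s * X)
    (hφX : X * ρ φ = ρ φ * X) : ∃ c : k, X = c • (1 : Module.End k V) := by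
  obtain ⟨x, y, hx, hy⟩ := diag_of_commute b h.ne h.apply_zero h.apply_one hs
  obtain ⟨c, d, hc, hd, h0, h1⟩ := h.frob φ hφ
  have e := congrArg (fun f : Module.End k V => f (b 0)) hφX
  simp only [Module.End.mul_apply] at e
  rw [h0, map_smul, hy, hx, map_smul, h0, smul_smul, smul_smul] at e
  have e' : c * y = x * c := smul_left_injective k (b.ne_zero 1) e
  have hxy : y = x := mul_left_cancel₀ hc (by rw [e', mul_comm])
  refine ⟨x, b.ext fun i => ?_⟩
  fin_cases i
  · simpa using hx
  · simpa [hxy] using hy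

/-- **The commutant of the decomposition group is the scalars.** -/
theorem eq_smul_one_of_commute_dec (hp : p.Prime) (hA : A.LiesOverPrime p)
    (h : N2Frame p A ρ s b α β) {X : Module.End k V}
    (hX : ∀ τ ∈ A.decompositionSubgroup ℚ, X * ρ τ = ρ τ * X) :
    ∃ c : k, X = c • (1 : Module.End k V) := by
  obtain ⟨φ, hφ⟩ := exists_isFrobeniusAt hp A hA
  exact h.eq_smul_one_of_commute hφ (hX s (mem_decomposition_of_mem_inertia h.mem))
    (hX φ hφ.mem_decompositionSubgroup)

/-- A trace-zero endomorphism commuting with the decomposition group vanishes (`p` odd):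
`H⁰(D, ad⁰) = 0`. -/
theorem eq_zero_of_commute_of_trace (h : N2Frame p A ρ s b α β) (h2 : (2 : k) ≠ 0) {φ : GQ}
    (hφ : A.IsFrobeniusAt φ p) {X : Module.End k V} (hs : X * ρ s = ρ s * X)
    (hφX : X * ρ φ = ρ φ * X) (htr : LinearMap.trace k V X = 0) : X = 0 := by
  obtain ⟨c, rfl⟩ := h.eq_smul_one_of_commute hφ hs hφX
  rw [LinearMap.trace_eq_matrix_trace k b,
    toMatrix_of_diag b (a := c) (d := c) (by simp) (by simp), Matrix.trace_fin_two] at htr
  have hc : c * 2 = 0 := by
    rw [mul_two]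
    simpa using htr
  rcases mul_eq_zero.mp hc with h3 | h3
  · rw [h3, zero_smul]
  · exact absurd h3 h2

/-- The trace `ξ + ξ⁻¹` of `Ad (ρ s)` on the antidiagonal plane is an integer mod `p`,
different from `2`. -/
theorem exists_nat_trace [CharP k p] (hp : p.Prime) (h : N2Frame p A ρ s b α β) :
    ∃ τ₀ : ℕ, (τ₀ : k) = α * β⁻¹ + β * α⁻¹ ∧ (τ₀ : k) ≠ 2 ∧ ¬ (p : ℤ) ∣ (τ₀ : ℤ) - 2 := by
  have hfact : Fact p.Prime := ⟨hp⟩
  have hα := h.fst_ne_zero hp.ne_zero
  have hβ := h.snd_ne_zero hp.ne_zero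
  have hxp : (α * β⁻¹ + β * α⁻¹) ^ p = α * β⁻¹ + β * α⁻¹ := by
    rw [add_pow_char, mul_pow, mul_pow, inv_pow, inv_pow, h.pow_fst, h.pow_snd, add_comm]
  obtain ⟨n, hn⟩ := (mem_bot_iff_intCast p k).mp ((Subfield.mem_bot_iff_pow_eq_self k p).mpr hxp)
  have hp0 : (p : ℤ) ≠ 0 := by exact_mod_cast hp.ne_zero
  have hnn : 0 ≤ n % (p : ℤ) := Int.emod_nonneg n hp0
  have hcast : (((n % (p : ℤ)).toNat : ℕ) : k) = (n : k) := by
    have h1 : (((n % (p : ℤ)).toNat : ℕ) : ℤ) = n % (p : ℤ) := Int.toNat_of_nonneg hnn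
    have h2 : (((n % (p : ℤ)).toNat : ℕ) : k) = ((n % (p : ℤ) : ℤ) : k) := by
      rw [← Int.cast_natCast, h1]
    rw [h2, Int.emod_def]
    push_cast
    rw [CharP.cast_eq_zero k p, zero_mul, sub_zero]
  have hne2 : α * β⁻¹ + β * α⁻¹ ≠ 2 := by
    intro e
    have h3 : (α - β) ^ 2 = 0 := by
      field_simp at e
      linear_combination e
    exact h.ne (sub_eq_zero.mp ((pow_eq_zero_iff two_ne_zero).mp h3))
  refine ⟨(n % (p : ℤ)).toNat, by rw [hcast, hn], by rw [hcast, hn]; exact hne2, fun hdvd => ?_⟩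
  have h4 : (((((n % (p : ℤ)).toNat : ℕ) : ℤ) - 2 : ℤ) : k) = 0 :=
    (CharP.intCast_eq_zero_iff k p _).mpr hdvd
  push_cast at h4
  rw [hcast, hn] at h4
  exact hne2 (sub_eq_zero.mp h4)

/-- `ξ + ξ⁻¹ = -2` exactly when `ξ = -1`. -/
theorem trace_eq_neg_two_iff (h : N2Frame p A ρ s b α β) (hp0 : p ≠ 0) :
    α * β⁻¹ + β * α⁻¹ = -2 ↔ α * β⁻¹ = -1 := by
  have hα := h.fst_ne_zero hp0
  have hβ := h.snd_ne_zero hp0
  constructor
  · intro e
    have h3 : (α + β) ^ 2 = 0 := by
      field_simp at e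
      linear_combination e
    have h4 : α = -β := eq_neg_of_add_eq_zero_left ((pow_eq_zero_iff two_ne_zero).mp h3)
    rw [h4]
    field_simp
  · intro e
    have h4 : α = -β := by
      field_simp at e
      exact e
    rw [h4]
    field_simp
    ring

/-- `ξ + ξ⁻¹ ≠ 2`. -/
theorem trace_ne_two (h : N2Frame p A ρ s b α β) (hp0 : p ≠ 0) : α * β⁻¹ + β * α⁻¹ ≠ 2 := by
  have hα := h.fst_ne_zero hp0
  have hβ := h.snd_ne_zero hp0
  intro e
  have h3 : (α - β) ^ 2 = 0 := by
    field_simp at e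
    linear_combination e
  exact h.ne (sub_eq_zero.mp ((pow_eq_zero_iff two_ne_zero).mp h3))

/-- Any natural number lifting `ξ + ξ⁻¹` is not congruent to `2` modulo `p`. -/
theorem not_dvd_sub_two [CharP k p] (h : N2Frame p A ρ s b α β) (hp0 : p ≠ 0) {τ₀ : ℕ}
    (hτ₀ : (τ₀ : k) = α * β⁻¹ + β * α⁻¹) : ¬ (p : ℤ) ∣ (τ₀ : ℤ) - 2 := by
  intro hdvd
  have h4 : (((τ₀ : ℤ) - 2 : ℤ) : k) = 0 := (CharP.intCast_eq_zero_iff k p _).mpr hdvd
  push_cast at h4
  rw [hτ₀] at h4
  exact h.trace_ne_two hp0 (sub_eq_zero.mp h4)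

/-- A natural number lifting `ξ + ξ⁻¹` is congruent to `-2` modulo `p` exactly when
`ξ = -1` (the scalar type). -/
theorem dvd_add_two_iff [CharP k p] (h : N2Frame p A ρ s b α β) (hp0 : p ≠ 0) {τ₀ : ℕ}
    (hτ₀ : (τ₀ : k) = α * β⁻¹ + β * α⁻¹) : (p : ℤ) ∣ (τ₀ : ℤ) + 2 ↔ α * β⁻¹ = -1 := by
  rw [← h.trace_eq_neg_two_iff hp0, ← hτ₀, ← CharP.intCast_eq_zero_iff k p]
  push_cast
  exact add_eq_zero_iff_eq_neg

/-- The frame can be anchored at any generator of the image of inertia. -/
theorem of_generator (h : N2Frame p A ρ s b α β) {t : GQ} (ht : t ∈ A.inertiaSubgroupIn ℚ)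
    (hgen : ∀ σ ∈ A.inertiaSubgroupIn ℚ, ∃ n : ℕ, ρ σ = ρ t ^ n) :
    ∃ α' β' : k, N2Frame p A ρ t b α' β' := by
  obtain ⟨n, -, h0, h1⟩ := h.inertia_apply ht
  obtain ⟨m, hm⟩ := hgen s h.mem
  refine ⟨α ^ n, β ^ n, ht, ?_, ?_, ?_, h0, h1, hgen, h.frob, h.dec⟩
  · intro e
    have e0 : α • b 0 = ((α ^ n) ^ m) • b 0 := by
      rw [← h.apply_zero, hm, pow_apply_eigen h0]
    have e1 : β • b 1 = ((β ^ n) ^ m) • b 1 := by
      rw [← h.apply_one, hm, pow_apply_eigen h1]
    have e0' : α = (α ^ n) ^ m := smul_left_injective k (b.ne_zero 0) e0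
    have e1' : β = (β ^ n) ^ m := smul_left_injective k (b.ne_zero 1) e1
    exact h.ne (by rw [e0', e1', e])
  · rw [← pow_mul, mul_comm, pow_mul, h.pow_fst]
  · rw [← pow_mul, mul_comm, pow_mul, h.pow_snd]

/-! ### The adjoint action -/

/-- Conjugation by the tame generator, in matrix entries. -/
theorem toMatrix_conj_gen (h : N2Frame p A ρ s b α β) (hp0 : p ≠ 0) (X : Module.End k V) :
    LinearMap.toMatrix b b (ρ s * X * ρ s⁻¹) =
      !![LinearMap.toMatrix b b X 0 0, α * β⁻¹ * LinearMap.toMatrix b b X 0 1;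
         β * α⁻¹ * LinearMap.toMatrix b b X 1 0, LinearMap.toMatrix b b X 1 1] :=
  toMatrix_conj_diag b X (h.fst_ne_zero hp0) (h.snd_ne_zero hp0) h.apply_zero h.apply_one
    (by rw [← map_mul, inv_mul_cancel, map_one])

/-- Conjugation by a Frobenius element, in matrix entries. -/
theorem toMatrix_conj_frob (h : N2Frame p A ρ s b α β) {φ : GQ} (hφ : A.IsFrobeniusAt φ p) :
    ∃ c d : k, c ≠ 0 ∧ d ≠ 0 ∧ ρ φ (b 0) = c • b 1 ∧ ρ φ (b 1) = d • b 0 ∧
      ∀ X : Module.End k V, LinearMap.toMatrix b b (ρ φ * X * ρ φ⁻¹) =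
        !![LinearMap.toMatrix b b X 1 1, d * c⁻¹ * LinearMap.toMatrix b b X 1 0;
           c * d⁻¹ * LinearMap.toMatrix b b X 0 1, LinearMap.toMatrix b b X 0 0] := by
  obtain ⟨c, d, hc, hd, h0, h1⟩ := h.frob φ hφ
  exact ⟨c, d, hc, hd, h0, h1, fun X => toMatrix_conj_antidiag b X hc hd h0 h1
    (by rw [← map_mul, inv_mul_cancel, map_one])⟩

/-- The line spanned by `frameH b` is fixed by inertia. -/
theorem conj_frameH_inertia (h : N2Frame p A ρ s b α β) {σ : GQ}
    (hσ : σ ∈ A.inertiaSubgroupIn ℚ) : ρ σ * frameH b * ρ σ⁻¹ = frameH b := by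
  obtain ⟨n, -, h0, h1⟩ := h.inertia_apply hσ
  exact conj_frameH_of_diag b h0 h1 (by rw [← map_mul, mul_inv_cancel, map_one])

/-- Frobenius elements act by `-1` on the inertia-invariant line. -/
theorem conj_frameH_frob (h : N2Frame p A ρ s b α β) {φ : GQ} (hφ : A.IsFrobeniusAt φ p) :
    ρ φ * frameH b * ρ φ⁻¹ = -frameH b := by
  obtain ⟨c, d, -, -, h0, h1⟩ := h.frob φ hφ
  exact conj_frameH_of_antidiag b h0 h1 (by rw [← map_mul, mul_inv_cancel, map_one])

/-- The decomposition group acts on the inertia-invariant line through a sign. -/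
theorem conj_frameH_dec (h : N2Frame p A ρ s b α β) {τ : GQ}
    (hτ : τ ∈ A.decompositionSubgroup ℚ) :
    ρ τ * frameH b * ρ τ⁻¹ = frameH b ∨ ρ τ * frameH b * ρ τ⁻¹ = -frameH b := by
  have hinv : ρ τ * ρ τ⁻¹ = 1 := by rw [← map_mul, mul_inv_cancel, map_one]
  rcases h.dec τ hτ with ⟨a, d, -, -, h0, h1⟩ | ⟨c, d, -, -, h0, h1⟩
  · exact Or.inl (conj_frameH_of_diag b h0 h1 hinv)
  · exact Or.inr (conj_frameH_of_antidiag b h0 h1 hinv)

/-- The inertia invariants of the trace-zero endomorphisms are the line spanned by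
`frameH b`. -/
theorem eq_smul_frameH_of_commute (h : N2Frame p A ρ s b α β) {X : Module.End k V}
    (hs : X * ρ s = ρ s * X) (htr : LinearMap.trace k V X = 0) : ∃ c : k, X = c • frameH b := by
  obtain ⟨x, y, hx, hy⟩ := diag_of_commute b h.ne h.apply_zero h.apply_one hs
  rw [LinearMap.trace_eq_matrix_trace k b, toMatrix_of_diag b hx hy, Matrix.trace_fin_two] at htr
  have hxy : y = -x := by
    have : x + y = 0 := by simpa using htr
    exact eq_neg_of_add_eq_zero_right this
  refine ⟨x, b.ext fun i => ?_⟩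
  fin_cases i
  · simpa using hx
  · simpa [hxy] using hy

/-- **The three-term relation.**  On trace-zero endomorphisms, `T := Ad (ρ s)` satisfies
`T² + 1 = τ₀ T` modulo the inertia-invariant line. -/
theorem three_term (h : N2Frame p A ρ s b α β) (hp0 : p ≠ 0) {τ₀ : ℕ}
    (hτ₀ : (τ₀ : k) = α * β⁻¹ + β * α⁻¹) (X : Module.End k V)
    (hX : LinearMap.trace k V X = 0) :
    ∃ c : k, ρ s * (ρ s * X * ρ s⁻¹) * ρ s⁻¹ + X = τ₀ • (ρ s * X * ρ s⁻¹) + c • frameH b := by
  have hα := h.fst_ne_zero hp0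
  have hβ := h.snd_ne_zero hp0
  refine ⟨(2 - (τ₀ : k)) * LinearMap.toMatrix b b X 0 0, ?_⟩
  apply (LinearMap.toMatrix b b).injective
  rw [← Nat.cast_smul_eq_nsmul k τ₀, map_add, map_add, map_smul, map_smul, toMatrix_frameH,
    h.toMatrix_conj_gen hp0, h.toMatrix_conj_gen hp0, hτ₀]
  rw [LinearMap.trace_eq_matrix_trace k b, Matrix.trace_fin_two] at hX
  generalize LinearMap.toMatrix b b X = M at hX ⊢
  have h11 : M 1 1 = -M 0 0 := eq_neg_of_add_eq_zero_right hX
  ext i j
  fin_cases i <;> fin_cases j <;> simp [h11] <;> field_simp <;> ring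

/-- The determinant of the tame generator. -/
theorem det_gen (h : N2Frame p A ρ s b α β) : LinearMap.det (ρ s) = α * β := by
  rw [← LinearMap.det_toMatrix b, toMatrix_of_diag b h.apply_zero h.apply_one,
    Matrix.det_fin_two]
  simp

/-- At `p = 3`, the exceptional type `ξ = -1` has `det = 1` on inertia. -/
theorem det_gen_eq_one_of_three (h : N2Frame p A ρ s b α β) (hp3 : p = 3)
    (hneg : α * β⁻¹ = -1) : LinearMap.det (ρ s) = 1 := by
  have hp0 : p ≠ 0 := by rw [hp3]; norm_num
  have hα := h.fst_ne_zero hp0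
  have hβ := h.snd_ne_zero hp0
  have h1 : α = -β := by
    field_simp at hneg
    exact hneg
  have h2 : α ^ 3 = β := hp3 ▸ h.pow_fst
  have h3 : α ^ 2 = -1 := by
    have h4 : α * α ^ 2 = α * (-1) := by
      rw [mul_neg_one, ← pow_succ', h2, h1, neg_neg]
    exact mul_left_cancel₀ hα h4
  rw [h.det_gen]
  have h5 : β = -α := by rw [h1, neg_neg]
  rw [h5, mul_neg, ← pow_two, h3, neg_neg]

/-- At `p = 3`, if inertia does not act with determinant one, then `ξ ≠ -1`. -/
theorem ratio_ne_neg_one_of_three (h : N2Frame p A ρ s b α β) (hp3 : p = 3)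
    (hdet : ∃ σ ∈ A.inertiaSubgroupIn ℚ, LinearMap.det (ρ σ) ≠ 1) : α * β⁻¹ ≠ -1 := by
  intro hneg
  obtain ⟨σ, hσ, hσdet⟩ := hdet
  obtain ⟨n, hn, -, -⟩ := h.inertia_apply hσ
  apply hσdet
  rw [hn, map_pow, h.det_gen_eq_one_of_three hp3 hneg, one_pow]

end N2Frame

/-! ## The frozen carrier -/

section residual

variable {p : ℕ} (hp : p.Prime) (A : ValuationSubring Qb) (hA : A.LiesOverPrime p)
variable {k : Type} [Field k] [Finite k] [CharP k p] (ρbar : ResidualGaloisRep k)

include hp hA in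
/-- **Frozen carrier.**  A residual representation over a finite field of characteristic `p`,
irreducible on the decomposition group at a place `A` over `p` and with split characteristic
polynomials, has a niveau-two frame at `A`. -/
theorem exists_residual_n2Frame
    (hirr : ∀ W : Submodule k ρbar.V,
      (∀ σ ∈ A.decompositionSubgroup ℚ, ∀ x ∈ W, ρbar.ρ σ x ∈ W) → W = ⊥ ∨ W = ⊤)
    (hsplit : ∀ σ : GQ, ∃ α β : k, LinearMap.charpoly (ρbar.ρ σ) = (X - C α) * (X - C β)) :
    ∃ (s : GQ) (b : Module.Basis (Fin 2) k ρbar.V) (α β : k), N2Frame p A ρbar.ρ s b α β := by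
  have : Finite ρbar.V := Module.finite_of_finite k
  exact exists_n2Frame hp A hA ρbar.ρ ρbar.factorsThroughFiniteLevel ρbar.finrank_eq hirr
    (fun σ _ => hsplit σ)

include hp hA in
/-- **Frozen carrier, line form.** -/
theorem exists_residual_n2Frame_of_no_stable_line
    (hline : ∀ v : ρbar.V, v ≠ 0 →
      ∃ σ ∈ A.decompositionSubgroup ℚ, ρbar.ρ σ v ∉ Submodule.span k {v})
    (hsplit : ∀ σ : GQ, ∃ α β : k, LinearMap.charpoly (ρbar.ρ σ) = (X - C α) * (X - C β)) :
    ∃ (s : GQ) (b : Module.Basis (Fin 2) k ρbar.V) (α β : k), N2Frame p A ρbar.ρ s b α β :=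
  exists_residual_n2Frame hp A hA ρbar
    (irreducible_of_no_stable_line ρbar (A.decompositionSubgroup ℚ : Set GQ) hline) hsplit

include hp hA in
/-- **Frozen carrier: the image of the decomposition group has order prime to `p`.**  For `p`
odd, a residual representation irreducible on the decomposition group at `A` with split
characteristic polynomials satisfies `ρbar τ ^ n = 1` on the whole decomposition group, for the
uniform exponent `n = 2 (#k - 1)`, prime to `p`. -/
theorem residual_decomposition_coprime (hp2 : p ≠ 2)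
    (hirr : ∀ W : Submodule k ρbar.V,
      (∀ σ ∈ A.decompositionSubgroup ℚ, ∀ x ∈ W, ρbar.ρ σ x ∈ W) → W = ⊥ ∨ W = ⊤)
    (hsplit : ∀ σ : GQ, ∃ α β : k, LinearMap.charpoly (ρbar.ρ σ) = (X - C α) * (X - C β)) :
    (2 * (Nat.card k - 1)).Coprime p ∧
      ∀ τ ∈ A.decompositionSubgroup ℚ, ρbar.ρ τ ^ (2 * (Nat.card k - 1)) = 1 := by
  obtain ⟨s, b, α, β, h⟩ := exists_residual_n2Frame hp A hA ρbar hirr hsplit
  exact ⟨coprime_two_mul_card_sub_one hp hp2, fun τ hτ => h.pow_eq_one hτ⟩

include hp hA in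
/-- **Frozen carrier, element form**: every element of the decomposition group at `A` acts
through an element of order prime to `p`. -/
theorem residual_decomposition_coprime_elt (hp2 : p ≠ 2)
    (hirr : ∀ W : Submodule k ρbar.V,
      (∀ σ ∈ A.decompositionSubgroup ℚ, ∀ x ∈ W, ρbar.ρ σ x ∈ W) → W = ⊥ ∨ W = ⊤)
    (hsplit : ∀ σ : GQ, ∃ α β : k, LinearMap.charpoly (ρbar.ρ σ) = (X - C α) * (X - C β)) :
    ∀ τ ∈ A.decompositionSubgroup ℚ, ∃ n : ℕ, n.Coprime p ∧ ρbar.ρ τ ^ n = 1 := by
  obtain ⟨hc, h⟩ := residual_decomposition_coprime hp A hA ρbar hp2 hirr hsplit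
  exact fun τ hτ => ⟨_, hc, h τ hτ⟩

end residual

end Fermat.Agent.S56.helper778
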