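/-
S56, FLAT-LOCAL, node FLAT-N2-FB (helper6366): the level input of the irreducible-at-`p`
end-game (N2-ASM, helper2999 #461 (B)) from the junction `Stmt_FB`.

* `charP_of_localHyp` : under `LocalHyp p ρbar` the field `k` has characteristic `p`.
* `det_eq_natCast` : `det ρbar σ = a` when `σ` acts on `μ_p` by `μ ↦ μ ^ a`.
* `exists_zeta_fixed` : a primitive `p`-th root of unity fixed by the kernel of `ρbar`.
* `exists_inertia_det_ne_one` : an inertia element at `padicPlace p` with `det ρbar σ ≠ 1`.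
* `not_hasStableLine_iff_irr` : `¬ HasStableLine` in submodule form.
* `not_dvd_relIndex_ker` : `p ∤ [D : D ∩ ker ρbar]` when `ρbar|D` has no stable line.
* `fb_of_flat` : for a flat lift `stdLift c` with cyclotomic determinant of a `ρbar` with no
  stable line on `D = decP p`: a Kummer generator `y` (`y ^ p` fixed by `D ∩ ker ρbar`, `y` fixed
  by the elements of `D ∩ ker ρbar` on which `c` vanishes) has `y ^ p ≡ 1 mod p` up to a `p`-th
  power fixed by `D ∩ ker ρbar`.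
-/
import Mathlib
import Fermat.Agent.S55.helper4145_Decomp
import Fermat.Agent.S56.helper6366_FlatJunction
import Fermat.Agent.S56.helper778_LocalType
import Fermat.Agent.S56.helper4753_TameAdapt

set_option autoImplicit false
set_option linter.style.haveILetI false

noncomputable section

namespace Fermat.Agent.S56.helper6366

open Polynomial
open Fermat.Agent.S56.helper6599
open Fermat.Agent.S32

local notation "Qb" => AlgebraicClosure ℚ

variable {p : ℕ} [Fact p.Prime] {k : Type} [Field k] {ρbar : ResidualGaloisRep k}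

/-- Under the local hypotheses, `p = 0` in `k`. -/
theorem natCast_eq_zero_of_localHyp (h : LocalHyp p ρbar) : (p : k) = 0 := by
  have h1 := h.det.1
  rwa [IsLocalRing.maximalIdeal_eq_bot, Ideal.mem_bot] at h1

/-- Under the local hypotheses, `k` has characteristic `p`. -/
theorem charP_of_localHyp (h : LocalHyp p ρbar) : CharP k p := by
  have h0 := natCast_eq_zero_of_localHyp h
  obtain ⟨q, hq⟩ := CharP.exists k
  have hdvd : q ∣ p := (CharP.cast_eq_zero_iff k q p).1 h0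
  have hq1 : q ≠ 1 := fun h1 => by
    rw [h1] at hq
    exact CharP.false_of_nontrivial_of_char_one (R := k)
  have : q = p := ((Nat.dvd_prime (Fact.out : p.Prime)).1 hdvd).resolve_left hq1
  rwa [this] at hq

/-- `det ρbar σ = a` when `σ` acts on the `p`-th roots of unity by `μ ↦ μ ^ a`. -/
theorem det_eq_natCast (h : LocalHyp p ρbar) (σ : GQ) (a : ℕ)
    (ha : ∀ μ : Qb, μ ^ p ^ 1 = 1 → σ μ = μ ^ a) : LinearMap.det (ρbar.ρ σ) = (a : k) := by
  have h1 := h.det.2 1 σ a ha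
  have hp' : (((p ^ 1 : ℕ) : k)) = 0 := by
    rw [pow_one]; exact natCast_eq_zero_of_localHyp h
  rw [hp', Ideal.span_singleton_eq_bot.mpr rfl, Ideal.mem_bot, sub_eq_zero] at h1
  exact h1

/-- A primitive `p`-th root of unity of `ℚ̄`. -/
theorem exists_primitiveRoot_Qb (p : ℕ) [Fact p.Prime] : ∃ ζ : Qb, IsPrimitiveRoot ζ p := by
  have : NeZero (p : Qb) := ⟨Nat.cast_ne_zero.mpr (Fact.out : p.Prime).ne_zero⟩
  exact HasEnoughRootsOfUnity.exists_primitiveRoot Qb p

theorem pow_eq_pow_of_modEq {ζ : Qb} {n a b : ℕ} (hζ : ζ ^ n = 1) (h : a ≡ b [MOD n]) :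
    ζ ^ a = ζ ^ b := by
  have key : ∀ m : ℕ, ζ ^ m = ζ ^ (m % n) := fun m => by
    conv_lhs => rw [← Nat.mod_add_div m n, pow_add, pow_mul, hζ, one_pow, mul_one]
  rw [key a, key b, h]

/-- **The kernel of `ρbar` fixes `μ_p`** (determinant = cyclotomic character). -/
theorem exists_zeta_fixed (h : LocalHyp p ρbar) :
    ∃ ζ : Qb, IsPrimitiveRoot ζ p ∧ ∀ τ : GQ, ρbar.ρ τ = 1 → τ ζ = ζ := by
  obtain ⟨ζ, hζ⟩ := exists_primitiveRoot_Qb p
  refine ⟨ζ, hζ, fun τ hτ => ?_⟩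
  haveI := charP_of_localHyp h
  obtain ⟨a, ha⟩ := exists_pow_action p τ
  have h1 := det_eq_natCast h τ a ha
  rw [hτ, map_one] at h1
  have hζp : ζ ^ p ^ 1 = 1 := by rw [pow_one]; exact hζ.pow_eq_one
  rw [ha ζ hζp]
  -- `a ≡ 1 mod p`
  have h2 : ((a : ℕ) : k) = ((1 : ℕ) : k) := by rw [← h1, Nat.cast_one]
  have h3 : a ≡ 1 [MOD p] := (CharP.natCast_eq_natCast k p).1 h2
  have h4 : ζ ^ a = ζ ^ 1 := pow_eq_pow_of_modEq hζ.pow_eq_one h3
  rw [h4, pow_one]

/-- **Inertia at `p` has non-trivial determinant** (`p` odd). -/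
theorem exists_inertia_det_ne_one (h : LocalHyp p ρbar) :
    ∃ σ ∈ (padicPlace p).inertiaSubgroupIn ℚ, LinearMap.det (ρbar.ρ σ) ≠ 1 := by
  haveI := charP_of_localHyp h
  have hp : p.Prime := Fact.out
  obtain ⟨ζ, hζ⟩ := exists_primitiveRoot_Qb p
  have hP : (padicPlace p).LiesOverPrime p := Fermat.Agent.S55.helper4145.padicPlace_liesOverPrime p
  -- `ζ ^ 2` is a primitive `p`-th root of unity different from `ζ`
  have h2p : Nat.Coprime 2 p := by
    rw [Nat.coprime_comm, Nat.Prime.coprime_iff_not_dvd hp]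
    intro hd
    exact h.odd ((Nat.prime_dvd_prime_iff_eq hp Nat.prime_two).1 hd)
  have hζ2 : IsPrimitiveRoot (ζ ^ 2) p := hζ.pow_of_coprime 2 h2p
  obtain ⟨σ, hσ, hσζ⟩ :=
    Fermat.Agent.S56.helper4753.exists_inertia_apply_eq hp hP hζ hζ2
  refine ⟨σ, hσ, fun hdet => ?_⟩
  obtain ⟨a, ha⟩ := exists_pow_action p σ
  have h1 := det_eq_natCast h σ a ha
  rw [hdet] at h1
  have h2 : ((a : ℕ) : k) = ((1 : ℕ) : k) := by rw [← h1, Nat.cast_one]
  have h3 : a ≡ 1 [MOD p] := (CharP.natCast_eq_natCast k p).1 h2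
  have hζp : ζ ^ p ^ 1 = 1 := by rw [pow_one]; exact hζ.pow_eq_one
  have h4 : σ ζ = ζ := by
    have h4' : ζ ^ a = ζ ^ 1 := pow_eq_pow_of_modEq hζ.pow_eq_one h3
    rw [ha ζ hζp, h4', pow_one]
  rw [h4] at hσζ
  -- `ζ = ζ ^ 2` forces `ζ = 1`
  have h5 : ζ * (ζ - 1) = 0 := by
    have : ζ * (ζ - 1) = ζ ^ 2 - ζ := by ring
    rw [this, ← hσζ, sub_self]
  rcases mul_eq_zero.1 h5 with h6 | h6
  · exact hζ.ne_zero hp.ne_zero h6
  · exact hζ.ne_one hp.one_lt (sub_eq_zero.1 h6)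

/-- `ρbar|D` has no stable line: submodule form. -/
theorem irr_of_not_hasStableLine (hirr : ¬ HasStableLine p ρbar) :
    ∀ W : Submodule k ρbar.V,
      (∀ σ ∈ (padicPlace p).decompositionSubgroup ℚ, ∀ x ∈ W, ρbar.ρ σ x ∈ W) → W = ⊥ ∨ W = ⊤ := by
  intro W hW
  by_contra hne
  rw [not_or] at hne
  apply hirr
  refine ⟨W, ?_, hW⟩
  have h1 : Module.finrank k ↥W ≤ 2 := by
    have := Submodule.finrank_le W
    rwa [ρbar.finrank_eq] at this
  have h2 : Module.finrank k ↥W ≠ 0 := fun h0 =>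
    hne.1 (Submodule.finrank_eq_zero.1 h0)
  have h3 : Module.finrank k ↥W ≠ 2 := fun h2' =>
    hne.2 (Submodule.eq_top_of_finrank_eq (by rw [h2', ρbar.finrank_eq]))
  omega

/-- The image of `D` under `ρbar`, as a subgroup of the units: the unit-valued restriction. -/
def rhoD (p : ℕ) [Fact p.Prime] (ρbar : ResidualGaloisRep k) :
    ↥(decP p) →* (Module.End k ρbar.V)ˣ :=
  (ρbar.ρ.comp (decP p).subtype).toHomUnits

theorem rhoD_ker (p : ℕ) [Fact p.Prime] (ρbar : ResidualGaloisRep k) :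
    (rhoD p ρbar).ker = (decP p ⊓ ρbar.ρ.ker).subgroupOf (decP p) := by
  ext τ
  rw [MonoidHom.mem_ker, Subgroup.mem_subgroupOf, Subgroup.mem_inf, MonoidHom.mem_ker]
  constructor
  · intro hτ
    refine ⟨τ.2, ?_⟩
    have := congrArg Units.val hτ
    exact this
  · intro hτ
    apply Units.ext
    exact hτ.2

/-- **The image of the decomposition group has order prime to `p`** when `ρbar|D` has no stable
line. -/
theorem not_dvd_relIndex_ker (h : LocalHyp p ρbar) (hirr : ¬ HasStableLine p ρbar) :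
    ¬ p ∣ (decP p ⊓ ρbar.ρ.ker).relIndex (decP p) := by
  haveI := charP_of_localHyp h
  haveI := h.fin
  have hp : p.Prime := Fact.out
  have hP : (padicPlace p).LiesOverPrime p := Fermat.Agent.S55.helper4145.padicPlace_liesOverPrime p
  obtain ⟨hcop, hpow⟩ := Fermat.Agent.S56.helper778.residual_decomposition_coprime hp
    (padicPlace p) hP ρbar h.odd (irr_of_not_hasStableLine hirr) h.split
  haveI : Finite ρbar.V := Module.finite_of_finite k
  haveI : Finite (Module.End k ρbar.V) := Module.finite_of_finite k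
  rw [Subgroup.relIndex, ← rhoD_ker, Subgroup.index_ker]
  intro hdvd
  haveI : Fintype ↥(rhoD p ρbar).range := Fintype.ofFinite _
  rw [Nat.card_eq_fintype_card] at hdvd
  obtain ⟨g, hg⟩ := exists_prime_orderOf_dvd_card p hdvd
  obtain ⟨τ, hτ⟩ := g.2
  have h1 : g ^ (2 * (Nat.card k - 1)) = 1 := by
    apply Subtype.ext
    rw [Subgroup.coe_pow, ← hτ, Subgroup.coe_one]
    apply Units.ext
    rw [Units.val_pow_eq_pow_val, Units.val_one]
    exact hpow τ.1 τ.2
  have h2 : p ∣ 2 * (Nat.card k - 1) := by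
    rw [← hg]
    exact orderOf_dvd_of_pow_eq_one h1
  have h3 : p ∣ Nat.gcd (2 * (Nat.card k - 1)) p := Nat.dvd_gcd h2 dvd_rfl
  rw [hcop] at h3
  exact hp.one_lt.ne' (Nat.dvd_one.1 h3)

/-- An element acting trivially on the standard lift is in the kernel of `ρbar` and kills the
cocycle. -/
theorem rho_eq_one_of_stdLift_trivial (c : LiftCocycle ρbar) (τ : GQ)
    (hτ : ∀ m : (stdLift c).V, (stdLift c).ρ τ m = m) : ρbar.ρ τ = 1 ∧ c.c τ = 0 := by
  have h1 : dualEnd ρbar (ρbar.ρ τ) (c.b τ) = dualEnd ρbar 1 0 := by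
    rw [dualEnd_one]
    exact LinearMap.ext hτ
  obtain ⟨hA, hB⟩ := dualEnd_injective ρbar h1
  refine ⟨hA, ?_⟩
  rw [c.c_eq_b_mul, hB, zero_mul]

/-- **(B) of N2-ASM: the level input from `Stmt_FB`.** -/
theorem fb_of_flat (hFB : Stmt_FB) (p : ℕ) [Fact p.Prime] (k : Type) [Field k]
    (ρbar : ResidualGaloisRep k) (h : LocalHyp p ρbar) (hirr : ¬ HasStableLine p ρbar)
    (c : LiftCocycle ρbar) (hfl : (stdLift c).IsFlatAt p)
    (_hdet : (stdLift c).DetIsCyclotomic p) (y : Qb) (hy : y ≠ 0)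
    (hyp : ∀ τ ∈ decP p, ρbar.ρ τ = 1 → τ (y ^ p) = y ^ p)
    (hy0 : ∀ τ ∈ decP p, ρbar.ρ τ = 1 → c.c τ = 0 → τ y = y) :
    ∃ w : Qb, w ≠ 0 ∧ (∀ τ ∈ decP p, ρbar.ρ τ = 1 → τ w = w) ∧
      (padicPlace p).valuation (y ^ p * w ^ p - 1) ≤ (padicPlace p).valuation (p : Qb) := by
  haveI := h.fin
  haveI : Finite (DualNumber k) := inferInstanceAs (Finite (k × k))
  have hfun := hasFunModel_of_isFlatAt p (stdLift c) hfl
  have hkill : ∀ m : (stdLift c).V, p • m = 0 := by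
    intro m
    have h1 : ((p : ℕ) : DualNumber k) = 0 := by
      rw [← map_natCast (algebraMap k (DualNumber k)), natCast_eq_zero_of_localHyp h, map_zero]
    rw [← Nat.cast_smul_eq_nsmul (DualNumber k), h1, zero_smul]
  obtain ⟨ζ, hζ, hζfix⟩ := exists_zeta_fixed h
  have hnormal : ((decP p ⊓ ρbar.ρ.ker).subgroupOf (decP p)).Normal := by
    rw [Subgroup.inf_subgroupOf_left]
    infer_instance
  obtain ⟨w, hw0, hwN, hval⟩ := hFB p h.odd (stdLift c).V (fun σ x => (stdLift c).ρ σ x) hfun hkill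
    (decP p ⊓ ρbar.ρ.ker) inf_le_left hnormal (not_dvd_relIndex_ker h hirr)
    ⟨ζ, hζ, fun τ hτ => hζfix τ (MonoidHom.mem_ker.1 hτ.2)⟩
    (fun τ hτD hτ => ⟨hτD, MonoidHom.mem_ker.2 (rho_eq_one_of_stdLift_trivial c τ hτ).1⟩)
    y hy (fun τ hτ => hyp τ hτ.1 (MonoidHom.mem_ker.1 hτ.2))
    (fun τ hτD hτ => hy0 τ hτD (rho_eq_one_of_stdLift_trivial c τ hτ).1
      (rho_eq_one_of_stdLift_trivial c τ hτ).2)
  exact ⟨w, hw0, fun τ hτD hτ => hwN τ ⟨hτD, MonoidHom.mem_ker.2 hτ⟩, hval⟩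

end Fermat.Agent.S56.helper6366
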