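/-
S56 node FLAT-N2-ASM (helper2999): the irreducible (niveau two) case of the flat tangent bound
at `p`, `Stmt_FlatIrr` of the captain's Spec (`helper6366_FlatSpec`).

Chain: `helper6022.flatTangentAt_of_dependence` (inflation-restriction, `dim ≤ dim B¹ + 1`)
applied to the `k`-space `Z` of trace-zero level cocycles on the decomposition group whose
radicands over `J = I ⊓ ker ρbar` satisfy the Fontaine condition;
* `hflat` : the Fontaine bound `helper6366.fb_of_flat` (from the junction `Stmt_FB`);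
* `hdep`  : `exists_dependence_of_frame` (`helper2999_N2Inst`), with the niveau-two frame of
  `helper778_LocalType` anchored at the tame generator of the TAMEK0 package
  `helper4753_TameK`.
-/
import Mathlib
import Fermat.Agent.S55.helper4727_Places
import Fermat.Agent.S56.helper2999_N2Inst
import Fermat.Agent.S56.helper4753_TameK
import Fermat.Agent.S56.helper164_KummerLocal
import Fermat.Agent.S56.helper6366_FlatFB
import Fermat.Agent.S56.helper6022_N2Pre
import Fermat.Agent.S56.helper3657_StmtFBClosed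

set_option autoImplicit false

namespace Fermat.Agent.S56.helper2999

open Fermat.Agent.S56.helper164 Fermat.Agent.S56.helper4188
open Fermat.Agent.S56.helper6599 (LiftCocycle stdLift trace_eq_zero_of_detIsCyclotomic)
open Fermat.Agent.S56.helper6366
open Module

/-- **TAMEK0**, in the shape of `TameData`: for a tame subgroup `J` of inertia fixing `ζ`
there are a generator `s` of `I` modulo `J`, a uniformiser `π` of the fixed field of `J` and
`E` with `v (ζ - 1) = v π ^ E`, the tame character of `s` at `π` having exact order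
`(p - 1) * E`. -/
theorem exists_tameData {p : ℕ} [Fact p.Prime] {A : ValuationSubring Qb}
    (hA : A.LiesOverPrime p) {J : Subgroup GQ} (hT : helper4753.IsTameSub p A J) {ζ : Qb}
    (hζ : IsPrimitiveRoot ζ p) (hJζ : ∀ σ ∈ J, σ ζ = ζ) :
    ∃ (s : GQ) (E : ℕ) (π : Qb), s ∈ A.inertiaSubgroupIn ℚ ∧
      (∀ σ ∈ A.inertiaSubgroupIn ℚ, ∃ n : ℕ, σ⁻¹ * s ^ n ∈ J) ∧ TameData p A J ζ s E π := by
  have hp := (Fact.out : p.Prime)
  obtain ⟨ζK, hζK⟩ : ∃ ζK : fixedK J, (ζK : Qb) = ζ := ⟨⟨ζ, mem_fixedK.2 hJζ⟩, rfl⟩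
  have hζKp : IsPrimitiveRoot ζK p :=
    IsPrimitiveRoot.of_map_of_injective (f := algebraMap (fixedK J) Qb)
      (by rw [IntermediateField.algebraMap_apply, hζK]; exact hζ)
      (algebraMap (fixedK J) Qb).injective
  obtain ⟨π, E, t, ht, c, hπ, hE, hlam, -, -, hgen, -, hc, hcord, -⟩ :=
    hT.exists_tame_package_fixedK hp hA hζKp
  have hπ0 : (π : Qb) ≠ 0 := fun h0 => hπ.ne_zero (Subtype.ext h0)
  refine ⟨t, E, (π : Qb), ht, hgen, ?_⟩
  exact
    { pos := hE
      fixed := mem_fixedK.1 π.2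
      ne_zero := hπ0
      lt_one := hπ.lt_one
      discrete := fun x hx hx0 =>
        hπ.exists_zpow ⟨x, mem_fixedK.2 hx⟩ (fun h0 => hx0 (congrArg Subtype.val h0))
      lam := by rw [← hζK]; exact hlam
      perf := fun a ha ha1 => by
        obtain ⟨b, hb⟩ := helper4753.exists_pow_sub_lt_fixedK hp hA
          (⟨a, mem_fixedK.2 ha⟩ : fixedK J) ha1
        exact ⟨b, mem_fixedK.1 b.2, hb⟩
      cord := fun n => by
        have e : t (π : Qb) / (π : Qb) = (c : Qb) := by
          have h1 : t (π : Qb) = (π : Qb) * (c : Qb) := congrArg Subtype.val hc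
          rw [h1, mul_div_cancel_left₀ _ hπ0]
        rw [e]
        exact hcord n }

/-- **FLAT-N2** from the Fontaine bound: the flat tangent bound at `p` when `ρbar` has no
stable line on the decomposition group. -/
theorem flatTangentAt_of_fb (hFB : Stmt_FB) (p : ℕ) [Fact p.Prime] (k : Type) [Field k]
    (ρbar : ResidualGaloisRep k) (h : LocalHyp p ρbar) (hirr : ¬ HasStableLine p ρbar) :
    FlatTangentAt p ρbar := by
  classical
  have hp : p.Prime := Fact.out
  have : CharP k p := charP_of_localHyp h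
  have : Finite k := h.fin
  let _ : Algebra (ZMod p) k := ZMod.algebra k p
  have hA : (padicPlace p).LiesOverPrime p :=
    Fermat.Agent.S55.helper4727.padicPlace_liesOverPrime p
  have hirrW := irr_of_not_hasStableLine hirr
  obtain ⟨hcop, hexp⟩ := Fermat.Agent.S56.helper778.residual_decomposition_coprime hp
    (padicPlace p) hA ρbar h.odd hirrW h.split
  obtain ⟨s₀, b, α₀, β₀, hfr₀⟩ := Fermat.Agent.S56.helper778.exists_residual_n2Frame hp
    (padicPlace p) hA ρbar hirrW h.split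
  obtain ⟨ζ, hζ, hζfix⟩ := exists_zeta_fixed h
  have hdetI := exists_inertia_det_ne_one h
  have hID : ∀ σ, σ ∈ (padicPlace p).inertiaSubgroupIn ℚ → σ ∈ decP p := fun σ hσ =>
    Fermat.Agent.S05.helper4205.mem_decomposition_of_mem_inertiaSubgroupIn hσ
  -- the subgroup `J = I ⊓ ker ρbar`
  have hJmem : ∀ σ, σ ∈ (padicPlace p).inertiaSubgroupIn ℚ ⊓ ρbar.ρ.ker ↔
      σ ∈ (padicPlace p).inertiaSubgroupIn ℚ ∧ ρbar.ρ σ = 1 :=
    fun σ => by rw [Subgroup.mem_inf, MonoidHom.mem_ker]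
  have hJD : (padicPlace p).inertiaSubgroupIn ℚ ⊓ ρbar.ρ.ker ≤ decP p :=
    fun σ hσ => hID σ ((hJmem σ).1 hσ).1
  have hJζ : ∀ g ∈ (padicPlace p).inertiaSubgroupIn ℚ ⊓ ρbar.ρ.ker, g ζ = ζ :=
    fun g hg => hζfix g ((hJmem g).1 hg).2
  have hJtriv : ∀ g ∈ (padicPlace p).inertiaSubgroupIn ℚ ⊓ ρbar.ρ.ker, adRep ρbar.ρ g = 1 :=
    fun g hg => adRep_eq_one_of ρbar.ρ ((hJmem g).1 hg).2
  have hTame : helper4753.IsTameSub p (padicPlace p)
      ((padicPlace p).inertiaSubgroupIn ℚ ⊓ ρbar.ρ.ker) :=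
    helper4753.IsTameSub.of_hom ρbar.ρ ρbar.factorsThroughFiniteLevel
      (fun σ hσ => ⟨_, hcop, hexp σ (hID σ hσ)⟩) hJmem
  obtain ⟨s, E, π, hsI, hgen, T⟩ := exists_tameData hA hTame hζ hJζ
  -- the frame, anchored at the tame generator
  obtain ⟨α, β, hfr⟩ := hfr₀.of_generator hsI (fun σ hσ => by
    obtain ⟨n, hn⟩ := hgen σ hσ
    refine ⟨n, ?_⟩
    have h1 := ((hJmem _).1 hn).2
    rw [map_mul, map_pow] at h1
    calc ρbar.ρ σ = ρbar.ρ σ * (ρbar.ρ σ⁻¹ * ρbar.ρ s ^ n) := by rw [h1, mul_one]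
      _ = ρbar.ρ s ^ n := by rw [← mul_assoc, ← map_mul, mul_inv_cancel, map_one, one_mul])
  have hcard : Nat.card k = p ^ Module.finrank (ZMod p) k := by
    rw [Module.natCard_eq_pow_finrank (K := ZMod p), Nat.card_zmod]
  -- the space of level cocycles satisfying the Fontaine condition
  let Z : Submodule k (↥(decP p) → Module.End k ρbar.V) :=
    { carrier := {c | IsCoc (decP p) (adRep ρbar.ρ) c ∧
        (∀ g, LinearMap.trace k ρbar.V (c g) = 0) ∧
        RadFB (p := p) (padicPlace p) (decP p)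
          ((padicPlace p).inertiaSubgroupIn ℚ ⊓ ρbar.ρ.ker) ζ c}
      add_mem' := fun {c c'} hc hc' => ⟨hc.1.add hc'.1,
        fun g => by rw [Pi.add_apply, map_add, hc.2.1 g, hc'.2.1 g, add_zero],
        RadFB.add hc.1 hc'.1 hJD hJtriv hζ hJζ hc.2.2 hc'.2.2⟩
      zero_mem' := ⟨IsCoc.zero, fun g => by simp,
        radFB_of_vanish hζ hJζ (fun g _ => by simp)⟩
      smul_mem' := fun a c hc => ⟨hc.1.smul a,
        fun g => by rw [Pi.smul_apply, map_smul, hc.2.1 g, smul_zero], hc.2.2.smul a⟩ }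
  refine Fermat.Agent.S56.helper6022.flatTangentAt_of_dependence p ρbar h hirr
    (fun g hg n hn => commutator_mem_inertia (padicPlace p) hA hg hn) hcop hexp hcard Z
    (fun c hc σ τ => by rw [hc.1.coc σ τ, adRep_apply]) (fun c hc => hc.2.1) ?_ ?_
  · -- flat cocycles lie in `Z`
    intro c hfl hdet
    have hcoc : IsCoc (decP p) (adRep ρbar.ρ) (fun σ : ↥(decP p) => c.c (σ : GQ)) := by
      refine ⟨fun g h => ?_, ?_⟩
      · rw [adRep_apply]
        exact c.map_mul' g h
      · obtain ⟨F, hF, hF0⟩ := c.level'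
        refine ⟨F, hF, fun g s hs => ?_⟩
        have h0 : c.c (s : GQ) = 0 :=
          hF0 s (fun x hx => (IntermediateField.mem_fixingSubgroup_iff F (s : GQ)).1 hs x hx)
        show c.c ((g : GQ) * (s : GQ)) = c.c (g : GQ)
        rw [c.map_mul', h0, mul_zero, zero_mul, add_zero]
    refine ⟨hcoc, fun g => trace_eq_zero_of_detIsCyclotomic p (CharP.cast_eq_zero k p) c hdet g,
      ?_⟩
    refine radFB_of_fbOn (N := decP p ⊓ ρbar.ρ.ker) hcoc inf_le_left
      (fun g hg => adRep_eq_one_of ρbar.ρ (MonoidHom.mem_ker.1 hg.2)) hζ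
      (fun g hg => hζfix g (MonoidHom.mem_ker.1 hg.2))
      (fun σ hσ => ⟨hID σ ((hJmem σ).1 hσ).1, hσ.2⟩) ?_
    intro y hy hyN hy0
    obtain ⟨w, hw0, hwfix, hval⟩ := fb_of_flat hFB p k ρbar h hirr c hfl hdet y hy
      (fun τ hτD hτ1 => hyN τ ⟨hτD, MonoidHom.mem_ker.2 hτ1⟩)
      (fun τ hτD hτ1 hc0 => hy0 ⟨τ, hτD⟩ ⟨hτD, MonoidHom.mem_ker.2 hτ1⟩ hc0)
    exact ⟨w, hw0, fun τ hτ => hwfix τ hτ.1 (MonoidHom.mem_ker.1 hτ.2), hval⟩
  · -- the dependence
    intro c hc
    obtain ⟨n, hn, hvan⟩ := exists_dependence_of_frame hA hfr h.odd hdetI hζ hζfix T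
      (Module.finBasis (ZMod p) k) c (fun i => (hc i).1) (fun i => (hc i).2.1)
      (fun i => (hc i).2.2)
    exact ⟨n, hn, fun σ hσI hσ1 => hvan σ ⟨hσI, MonoidHom.mem_ker.2 hσ1⟩⟩

/-- **FLAT-N2**: `Stmt_FlatIrr` from the Fontaine bound `Stmt_FB`. -/
theorem stmt_FlatIrr_of (hFB : Stmt_FB) : Stmt_FlatIrr :=
  fun p _ k _ ρbar h hirr => flatTangentAt_of_fb hFB p k ρbar h hirr

/-- **FLAT-N2**: the irreducible case of the flat tangent bound at `p`. -/
theorem stmt_FlatIrr : Stmt_FlatIrr :=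
  stmt_FlatIrr_of Fermat.Agent.S56.helper3657.stmt_FB

end Fermat.Agent.S56.helper2999
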