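/-
S56, FLAT chain, reducible case: the TAME TYPE of an inertia eigenvector in a flat module
("Raynaud rank one", point-side design).  Author: helper2444.  Node FLAT-REDEIG-PT.
-/
import Mathlib
import Fermat.Agent.S32.helper1304_HopfClose
import Fermat.Agent.S58.helper6024_Unram
import Fermat.Agent.S05.helper4205_Inertia

set_option autoImplicit false

namespace Fermat.Agent.S56.helper2444

open GaloisRep
open Fermat.Agent.S32.helper1304
open Fermat.Agent.S05.helper4205

local notation "Qb" => AlgebraicClosure ℚ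
local notation "Gal" => (AlgebraicClosure ℚ ≃ₐ[ℚ] AlgebraicClosure ℚ)

/-! ## Integrality of values -/

/-- An element integral over a ring whose image lies in a valuation subring lies in it. -/
theorem mem_valSubring_of_isIntegral {R : Type*} [CommRing R] {K : Type*} [Field K]
    [Algebra R K] (W : ValuationSubring K) (hR : ∀ r : R, algebraMap R K r ∈ W) {x : K}
    (hx : IsIntegral R x) : x ∈ W := by
  obtain ⟨g, hg, hgx⟩ := hx
  let φ : R →+* W := (algebraMap R K).codRestrict W.toSubring hR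
  have hint : IsIntegral W x := by
    refine ⟨g.map φ, hg.map φ, ?_⟩
    rw [Polynomial.eval₂_map]
    have hcomp : (algebraMap W K).comp φ = algebraMap R K := by
      ext r
      rfl
    rw [hcomp]
    exact hgx
  obtain ⟨y, hy⟩ := (IsIntegrallyClosed.isIntegral_iff (R := W) (K := K)).mp hint
  rw [← hy]
  exact y.2

variable {p : ℕ} [Fact p.Prime] {A : ValuationSubring Qb}

/-- `ℤ_(p)` lies in every valuation subring of `ℚ̄` over `p`. -/
theorem algebraMap_R_mem (hA : A.LiesOverPrime p) (r : ratLocalizedAt p) :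
    algebraMap (ratLocalizedAt p) Qb r ∈ A := by
  have hp : p.Prime := Fact.out
  rw [algebraMap_R_Qb_apply]
  have hcop : (r : ℚ).den.Coprime p := r.2
  have hden : ¬ p ∣ (r : ℚ).den := fun hd =>
    hp.one_lt.ne' (Nat.Coprime.eq_one_of_dvd hcop.symm hd)
  have e : algebraMap ℚ Qb (r : ℚ) = ((r : ℚ).num : Qb) / (((r : ℚ).den : ℕ) : Qb) := by
    rw [eq_ratCast]
    conv_lhs => rw [← Rat.num_div_den (r : ℚ)]
    push_cast
    rfl
  rw [← ValuationSubring.valuation_le_one_iff, e, map_div₀, valuation_natCast_eq_one hp hA hden,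
    div_one]
  exact (ValuationSubring.valuation_le_one_iff A _).2 (vs_intCast_mem A _)


/-! ## Function models: values, translation and difference operators -/

section Model

variable {M : Type} [AddCommGroup M] {act : Gal → M → M}
  {H : Subalgebra (ratLocalizedAt p) (M → Qb)}

/-- The values of the functions of a function model lie in every valuation subring over `p`. -/
theorem value_mem (hH : IsFunModel p act H) (hA : A.LiesOverPrime p) {φ : M → Qb} (hφ : φ ∈ H)
    (m : M) : φ m ∈ A := by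
  have h1 : IsIntegral (ratLocalizedAt p) φ :=
    IsIntegral.of_mem_of_fg H ((finite_iff_fg p H).mp hH.fin) φ hφ
  have h2 : IsIntegral (ratLocalizedAt p)
      (Pi.evalAlgHom (ratLocalizedAt p) (fun _ : M => Qb) m φ) := h1.map _
  exact mem_valSubring_of_isIntegral A (algebraMap_R_mem hA) h2

/-- Translation by `x` on functions. -/
noncomputable def shift (x : M) : Module.End Qb (M → Qb) where
  toFun f := fun u => f (u + x)
  map_add' _ _ := rfl
  map_smul' _ _ := rfl

theorem shift_apply (x : M) (f : M → Qb) (u : M) : shift x f u = f (u + x) := rfl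

theorem shift_pow_apply (x : M) (j : ℕ) (f : M → Qb) (u : M) :
    ((shift x) ^ j) f u = f (u + j • x) := by
  induction j generalizing f u with
  | zero => simp
  | succ j ih =>
    rw [pow_succ, Module.End.mul_apply, ih, shift_apply, succ_nsmul, add_assoc]

/-- The difference operator `f ↦ f(· + x) - f`. -/
noncomputable def diff (x : M) : Module.End Qb (M → Qb) := shift x - 1

theorem diff_apply (x : M) (f : M → Qb) (u : M) : diff x f u = f (u + x) - f u := rfl

theorem shift_pow_eq_sum (x : M) (n : ℕ) :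
    (shift x) ^ n = ∑ m ∈ Finset.range (n + 1),
      (diff x) ^ m * ((n.choose m : ℕ) : Module.End Qb (M → Qb)) := by
  have h : shift x = diff x + 1 := by simp [diff]
  rw [h, (Commute.one_right (diff x)).add_pow]
  simp

/-- Newton's forward difference formula. -/
theorem apply_add_nsmul (x : M) (n : ℕ) (f : M → Qb) (u : M) :
    f (u + n • x) = ∑ m ∈ Finset.range (n + 1), ((n.choose m : ℕ) : Qb) * ((diff x) ^ m) f u := by
  rw [← shift_pow_apply x n f u, shift_pow_eq_sum, LinearMap.sum_apply, Finset.sum_apply]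
  refine Finset.sum_congr rfl fun m _ => ?_
  rw [Module.End.mul_apply, Module.End.natCast_apply, map_nsmul, Pi.smul_apply, nsmul_eq_mul]


/-- Newton's formula at `u = 0`, with the terms of order `0` and `1` on the left. -/
theorem apply_succ_nsmul_sub (x : M) (n : ℕ) (f : M → Qb) :
    f ((n + 1) • x) - f 0 - ((n + 1 : ℕ) : Qb) * (f x - f 0) =
      ∑ m ∈ Finset.range n, (((n + 1).choose (m + 2) : ℕ) : Qb) * ((diff x) ^ (m + 2)) f 0 := by
  have h := apply_add_nsmul x (n + 1) f 0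
  rw [zero_add, Finset.sum_range_succ', Finset.sum_range_succ'] at h
  rw [h]
  simp only [Nat.choose_zero_right, Nat.cast_one, pow_zero, Module.End.one_apply, one_mul,
    zero_add, Nat.choose_one_right, pow_one, diff_apply]
  ring

/-- Functions of depth at least `j`: the additive span of the `c • a` with `a ∈ H` and
`v c ≤ t ^ j`. -/
noncomputable def depthSub (A : ValuationSubring Qb) (H : Subalgebra (ratLocalizedAt p) (M → Qb))
    (t : A.ValueGroup) (j : ℕ) : AddSubgroup (M → Qb) :=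
  AddSubgroup.closure {f | ∃ c : Qb, ∃ a ∈ H, A.valuation c ≤ t ^ j ∧ f = c • a}

theorem val_le_of_mem_depthSub (hH : IsFunModel p act H) (hA : A.LiesOverPrime p)
    {t : A.ValueGroup} {j : ℕ} {f : M → Qb} (hf : f ∈ depthSub A H t j) (u : M) :
    A.valuation (f u) ≤ t ^ j := by
  induction hf using AddSubgroup.closure_induction with
  | mem f hf =>
    obtain ⟨c, a, ha, hc, rfl⟩ := hf
    rw [Pi.smul_apply, smul_eq_mul, map_mul]
    calc A.valuation c * A.valuation (a u) ≤ t ^ j * 1 :=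
          mul_le_mul' hc ((ValuationSubring.valuation_le_one_iff A _).2 (value_mem hH hA ha u))
      _ = t ^ j := mul_one _
  | zero => rw [Pi.zero_apply, map_zero]; exact zero_le
  | add f g _ _ hf hg =>
    rw [Pi.add_apply]
    exact (A.valuation.map_add _ _).trans (max_le hf hg)
  | neg f _ hf => rw [Pi.neg_apply, Valuation.map_neg]; exact hf

omit [Fact (Nat.Prime p)] in
theorem diff_mem_depthSub (hH : IsFunModel p act H) {t : A.ValueGroup} {x : M}
    (ht : ∀ φ ∈ H, A.valuation (φ x - φ 0) ≤ t) {j : ℕ} {f : M → Qb}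
    (hf : f ∈ depthSub A H t j) : diff x f ∈ depthSub A H t (j + 1) := by
  induction hf using AddSubgroup.closure_induction with
  | mem f hf =>
    obtain ⟨c, a, ha, hc, rfl⟩ := hf
    obtain ⟨n, a', b', ha', hb', hab⟩ := hH.comul a ha
    have key : diff x (c • a) = ∑ i, (c * (b' i x - b' i 0)) • a' i := by
      funext u
      have h0 : a u = ∑ i, a' i u * b' i 0 := by rw [← hab u 0, add_zero]
      rw [diff_apply, Pi.smul_apply, Pi.smul_apply, Finset.sum_apply, smul_eq_mul, smul_eq_mul,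
        ← mul_sub, hab u x, h0, ← Finset.sum_sub_distrib, Finset.mul_sum]
      refine Finset.sum_congr rfl fun i _ => ?_
      rw [Pi.smul_apply, smul_eq_mul]
      ring
    rw [key]
    refine AddSubgroup.sum_mem _ fun i _ => AddSubgroup.subset_closure ⟨_, a' i, ha' i, ?_, rfl⟩
    rw [map_mul, pow_succ]
    exact mul_le_mul' hc (ht _ (hb' i))
  | zero => rw [map_zero]; exact AddSubgroup.zero_mem _
  | add f g _ _ hf hg => rw [map_add]; exact AddSubgroup.add_mem _ hf hg
  | neg f _ hf => rw [map_neg]; exact AddSubgroup.neg_mem _ hf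

omit [Fact (Nat.Prime p)] in
theorem diff_pow_mem_depthSub (hH : IsFunModel p act H) {t : A.ValueGroup} {x : M}
    (ht : ∀ φ ∈ H, A.valuation (φ x - φ 0) ≤ t) {φ : M → Qb} (hφ : φ ∈ H) (j : ℕ) :
    ((diff x) ^ j) φ ∈ depthSub A H t j := by
  induction j with
  | zero => exact AddSubgroup.subset_closure ⟨1, φ, hφ, by simp, by simp⟩
  | succ j ih =>
    rw [pow_succ', Module.End.mul_apply]
    exact diff_mem_depthSub hH ht ih

/-- The `j`-th difference of a function of the model has values of valuation at most `t ^ j`,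
`t` a bound for the depth of `x`. -/
theorem val_diff_pow_le (hH : IsFunModel p act H) (hA : A.LiesOverPrime p) {t : A.ValueGroup}
    {x : M} (ht : ∀ φ ∈ H, A.valuation (φ x - φ 0) ≤ t) {φ : M → Qb} (hφ : φ ∈ H) (j : ℕ)
    (u : M) : A.valuation (((diff x) ^ j) φ u) ≤ t ^ j :=
  val_le_of_mem_depthSub hH hA (diff_pow_mem_depthSub hH ht hφ j) u

/-- Second order Taylor estimate: `φ (n • x) - φ 0 ≡ n (φ x - φ 0)` modulo depth two. -/
theorem val_nsmul_sub_le (hH : IsFunModel p act H) (hA : A.LiesOverPrime p) {t : A.ValueGroup}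
    (ht1 : t ≤ 1) {x : M} (ht : ∀ φ ∈ H, A.valuation (φ x - φ 0) ≤ t) {φ : M → Qb} (hφ : φ ∈ H)
    (n : ℕ) : A.valuation (φ (n • x) - φ 0 - (n : Qb) * (φ x - φ 0)) ≤ t ^ 2 := by
  cases n with
  | zero => simp
  | succ n =>
    rw [apply_succ_nsmul_sub]
    apply Valuation.map_sum_le
    intro m _
    rw [map_mul]
    calc A.valuation (((n + 1).choose (m + 2) : ℕ) : Qb) *
          A.valuation (((diff x) ^ (m + 2)) φ 0) ≤ 1 * t ^ (m + 2) :=
          mul_le_mul' ((ValuationSubring.valuation_le_one_iff A _).2 (vs_natCast_mem A _))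
            (val_diff_pow_le hH hA ht hφ _ _)
      _ = t ^ (m + 2) := one_mul _
      _ ≤ t ^ 2 := pow_le_pow_right_of_le_one' ht1 (by omega)

/-- Rigidity of a point of order `p`. -/
theorem val_p_mul_le (hH : IsFunModel p act H) (hA : A.LiesOverPrime p) {t : A.ValueGroup}
    (ht1 : t ≤ 1) {x : M} (hx : p • x = 0) (ht : ∀ φ ∈ H, A.valuation (φ x - φ 0) ≤ t)
    {φ : M → Qb} (hφ : φ ∈ H) :
    A.valuation (p : Qb) * A.valuation (φ x - φ 0) ≤
      max (A.valuation (p : Qb) * t ^ 2) (t ^ p) := by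
  have hp : p.Prime := Fact.out
  obtain ⟨n, rfl⟩ : ∃ n, p = n + 1 := ⟨p - 1, (Nat.sub_add_cancel hp.pos).symm⟩
  have h := apply_succ_nsmul_sub x n φ
  rw [hx, sub_self, zero_sub] at h
  rw [← map_mul, ← Valuation.map_neg, h]
  apply Valuation.map_sum_le
  intro m hm
  rw [Finset.mem_range] at hm
  rw [map_mul]
  by_cases hmn : m + 2 = n + 1
  · rw [hmn, Nat.choose_self, Nat.cast_one, map_one, one_mul]
    exact le_max_of_le_right (val_diff_pow_le hH hA ht hφ _ _)
  · have hdvd : (n + 1) ∣ (n + 1).choose (m + 2) := hp.dvd_choose_self (by omega) (by omega)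
    obtain ⟨c, hc⟩ := hdvd
    refine le_max_of_le_left ?_
    rw [hc, Nat.cast_mul, map_mul, mul_assoc]
    refine mul_le_mul' le_rfl ?_
    calc A.valuation (c : Qb) * A.valuation (((diff x) ^ (m + 2)) φ 0) ≤ 1 * t ^ (m + 2) :=
          mul_le_mul' ((ValuationSubring.valuation_le_one_iff A _).2 (vs_natCast_mem A _))
            (val_diff_pow_le hH hA ht hφ _ _)
      _ = t ^ (m + 2) := one_mul _
      _ ≤ t ^ 2 := pow_le_pow_right_of_le_one' ht1 (by omega)

/-- `v(p) ≤ t ^ (p - 1)` for the exact depth `t < 1` of a point of order `p`. -/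
theorem val_p_le_pow (hH : IsFunModel p act H) (hA : A.LiesOverPrime p) {t : A.ValueGroup}
    (ht0 : t ≠ 0) (ht1 : t < 1) {x : M} (hx : p • x = 0)
    (ht : ∀ φ ∈ H, A.valuation (φ x - φ 0) ≤ t) {φ₀ : M → Qb} (hφ₀ : φ₀ ∈ H)
    (h0 : A.valuation (φ₀ x - φ₀ 0) = t) : A.valuation (p : Qb) ≤ t ^ (p - 1) := by
  have hp : p.Prime := Fact.out
  have hpos : 0 < t := zero_lt_iff.mpr ht0
  have hvp : 0 < A.valuation (p : Qb) := Fermat.Agent.S58.helper6024.valuation_natCast_pos A hp
  have h := val_p_mul_le hH hA ht1.le hx ht hφ₀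
  rw [h0] at h
  rcases le_max_iff.mp h with h | h
  · exfalso
    have h1 : t ≤ t ^ 2 := le_of_mul_le_mul_left h hvp
    rw [pow_two] at h1
    exact absurd h1 (not_le.mpr (mul_lt_of_lt_one_right hpos ht1))
  · have h2 : t ^ p = t ^ (p - 1) * t := by rw [← pow_succ, Nat.sub_add_cancel hp.pos]
    rw [h2] at h
    exact le_of_mul_le_mul_right h hpos

/-- The depth of a point is attained. -/
theorem exists_depth (hH : IsFunModel p act H) (hA : A.LiesOverPrime p) (x : M) :
    ∃ t : A.ValueGroup, (∀ φ ∈ H, A.valuation (φ x - φ 0) ≤ t) ∧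
      ∃ φ₀ ∈ H, A.valuation (φ₀ x - φ₀ 0) = t := by
  classical
  obtain ⟨s, hs⟩ := (finite_iff_fg p H).mp hH.fin
  have hs1 : (insert (1 : M → Qb) s).Nonempty := Finset.insert_nonempty _ _
  obtain ⟨φ₀, hφ₀s, hmax⟩ := Finset.exists_max_image (insert (1 : M → Qb) s)
    (fun φ => A.valuation (φ x - φ 0)) hs1
  have hsH : ∀ φ ∈ s, φ ∈ H := fun φ hφ => by
    have h1 : φ ∈ Submodule.span (ratLocalizedAt p) (s : Set (M → Qb)) := Submodule.subset_span hφ
    rw [hs] at h1
    exact h1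
  have hφ₀ : φ₀ ∈ H := by
    rcases Finset.mem_insert.mp hφ₀s with h | h
    · rw [h]; exact H.one_mem
    · exact hsH φ₀ h
  have key : ∀ φ ∈ Submodule.span (ratLocalizedAt p) (s : Set (M → Qb)),
      A.valuation (φ x - φ 0) ≤ A.valuation (φ₀ x - φ₀ 0) := by
    intro φ hφ
    induction hφ using Submodule.span_induction with
    | mem φ hφs => exact hmax φ (Finset.mem_insert_of_mem hφs)
    | zero => simp
    | add φ ψ _ _ h1 h2 =>
      have e : (φ + ψ) x - (φ + ψ) 0 = (φ x - φ 0) + (ψ x - ψ 0) := by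
        simp only [Pi.add_apply]; ring
      rw [e]
      exact (A.valuation.map_add _ _).trans (max_le h1 h2)
    | smul r φ _ h1 =>
      have e : (r • φ) x - (r • φ) 0 = algebraMap (ratLocalizedAt p) Qb r * (φ x - φ 0) := by
        simp only [Pi.smul_apply, Algebra.smul_def]; ring
      rw [e, map_mul]
      calc A.valuation (algebraMap (ratLocalizedAt p) Qb r) * A.valuation (φ x - φ 0)
            ≤ 1 * A.valuation (φ₀ x - φ₀ 0) :=
            mul_le_mul' ((ValuationSubring.valuation_le_one_iff A _).2 (algebraMap_R_mem hA r)) h1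
        _ = A.valuation (φ₀ x - φ₀ 0) := one_mul _
  refine ⟨A.valuation (φ₀ x - φ₀ 0), fun φ hφ => key φ ?_, φ₀, hφ₀, rfl⟩
  rw [hs]
  exact hφ

/-- `(R2)`: inertia moves every point by a point of depth `< 1`. -/
theorem val_apply_act_sub_lt (hH : IsFunModel p act H) (hA : A.LiesOverPrime p) {σ : Gal}
    (hσ : σ ∈ A.inertiaSubgroupIn ℚ) {φ : M → Qb} (hφ : φ ∈ H) (m : M) :
    A.valuation (φ (act σ m - m) - φ 0) < 1 := by
  obtain ⟨n, a, b, ha, hb, hab⟩ := hH.comul φ hφ
  have h1 : φ (act σ m - m) = ∑ i, σ (a i m) * b i (-m) := by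
    rw [sub_eq_add_neg, hab]
    exact Finset.sum_congr rfl fun i _ => by rw [hH.eqv (a i) (ha i)]
  have h2 : φ 0 = ∑ i, a i m * b i (-m) := by rw [← hab, add_neg_cancel]
  rw [h1, h2, ← Finset.sum_sub_distrib]
  apply Valuation.map_sum_lt _ one_ne_zero
  intro i _
  rw [← sub_mul, map_mul]
  have h3 : A.valuation (σ (a i m) - a i m) < 1 :=
    (A.mem_nonunits_iff).mp (apply_sub_mem_nonunits hσ (value_mem hH hA (ha i) m))
  have h4 : A.valuation (b i (-m)) ≤ 1 :=
    (ValuationSubring.valuation_le_one_iff A _).2 (value_mem hH hA (hb i) _)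
  calc A.valuation (σ (a i m) - a i m) * A.valuation (b i (-m))
        ≤ A.valuation (σ (a i m) - a i m) * 1 := mul_le_mul' le_rfl h4
    _ = A.valuation (σ (a i m) - a i m) := mul_one _
    _ < 1 := h3

end Model

/-! ## The valuation of `ζ - 1` -/

section Zeta

variable {ζ : Qb}

omit [Fact (Nat.Prime p)] in
theorem val_eq_one_of_pow_eq_one (A : ValuationSubring Qb) {y : Qb} {m : ℕ} (hm : m ≠ 0)
    (hy : y ^ m = 1) : A.valuation y = 1 := by
  have h : A.valuation y ^ m = 1 := by rw [← map_pow, hy, map_one]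
  exact (pow_eq_one_iff_left hm).mp h

omit [Fact (Nat.Prime p)] in
theorem val_pow_sub_one_le (A : ValuationSubring Qb) {y : Qb} {m : ℕ} (hm : m ≠ 0)
    (hy : y ^ m = 1) (c : ℕ) : A.valuation (y ^ c - 1) ≤ A.valuation (y - 1) := by
  rw [← geom_sum_mul, map_mul]
  have h1 : A.valuation (∑ i ∈ Finset.range c, y ^ i) ≤ 1 := by
    apply Valuation.map_sum_le
    intro i _
    rw [map_pow, val_eq_one_of_pow_eq_one A hm hy, one_pow]
  exact mul_le_of_le_one_left' h1

omit [Fact (Nat.Prime p)] in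
theorem val_pow_sub_one_sub_le (A : ValuationSubring Qb) {y : Qb} {m : ℕ} (hm : m ≠ 0)
    (hy : y ^ m = 1) (w : ℕ) :
    A.valuation (y ^ w - 1 - (w : Qb) * (y - 1)) ≤ A.valuation (y - 1) ^ 2 := by
  have e : y ^ w - 1 - (w : Qb) * (y - 1) = (∑ i ∈ Finset.range w, (y ^ i - 1)) * (y - 1) := by
    rw [Finset.sum_sub_distrib, Finset.sum_const, Finset.card_range, nsmul_eq_mul, mul_one,
      sub_mul, geom_sum_mul]
  rw [e, map_mul, pow_two]
  exact mul_le_mul' (Valuation.map_sum_le _ fun i _ => val_pow_sub_one_le A hm hy i) le_rfl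

theorem val_pow_sub_one_eq (A : ValuationSubring Qb) (hζ : IsPrimitiveRoot ζ p) {c : ℕ}
    (hc : ¬ p ∣ c) : A.valuation (ζ ^ c - 1) = A.valuation (ζ - 1) := by
  have hp : p.Prime := Fact.out
  refine le_antisymm (val_pow_sub_one_le A hp.ne_zero hζ.pow_eq_one c) ?_
  obtain ⟨c', -, hc'⟩ := Nat.exists_mul_mod_eq_one_of_coprime
    ((Nat.Prime.coprime_iff_not_dvd hp).mpr hc).symm hp.one_lt
  have h1 : (ζ ^ c) ^ c' = ζ := by
    rw [← pow_mul, pow_eq_pow_mod (c * c') hζ.pow_eq_one, hc', pow_one]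
  have h2 : (ζ ^ c) ^ p = 1 := by rw [← pow_mul, mul_comm, pow_mul, hζ.pow_eq_one, one_pow]
  have h3 := val_pow_sub_one_le A hp.ne_zero h2 c'
  rwa [h1] at h3

theorem val_zeta_sub_one_pow (A : ValuationSubring Qb) (hζ : IsPrimitiveRoot ζ p) :
    A.valuation (ζ - 1) ^ (p - 1) = A.valuation (p : Qb) := by
  have hp : p.Prime := Fact.out
  obtain ⟨n, rfl⟩ : ∃ n, p = n + 1 := ⟨p - 1, (Nat.sub_add_cancel hp.pos).symm⟩
  have hprod : ∏ k ∈ Finset.range n, (1 - ζ ^ (k + 1)) = ((n + 1 : ℕ) : Qb) := by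
    have := hζ.prod_one_sub_pow_eq_order
    simpa using this
  rw [← hprod, map_prod, Nat.add_sub_cancel]
  rw [Finset.prod_congr rfl (fun k hk => (A.valuation.map_sub_swap _ _).trans
    (val_pow_sub_one_eq A hζ (c := k + 1) ?_))]
  · rw [Finset.prod_const, Finset.card_range]
  · intro hdvd
    have h1 := Nat.le_of_dvd (Nat.succ_pos k) hdvd
    have h2 := Finset.mem_range.mp hk
    omega

theorem val_zeta_sub_one_lt (hA : A.LiesOverPrime p) (hζ : IsPrimitiveRoot ζ p) :
    A.valuation (ζ - 1) < 1 := by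
  have hp : p.Prime := Fact.out
  have hvp : A.valuation (p : Qb) < 1 := (A.mem_nonunits_iff).mp hA
  by_contra hcon
  have h1 : A.valuation (ζ - 1) = 1 := by
    refine le_antisymm ?_ (not_lt.mp hcon)
    have h3 : A.valuation (ζ - 1) ≤ max (A.valuation ζ) (A.valuation 1) := A.valuation.map_sub _ _
    rw [val_eq_one_of_pow_eq_one A hp.ne_zero hζ.pow_eq_one, map_one, max_self] at h3
    exact h3
  have h4 := val_zeta_sub_one_pow A hζ
  rw [h1, one_pow] at h4
  exact absurd h4.symm hvp.ne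

end Zeta

/-! ## The tame type of an inertia eigenvector -/

section Core

variable {M : Type} [AddCommGroup M] {act : Gal → M → M}
  {H : Subalgebra (ratLocalizedAt p) (M → Qb)}

/-- The action of a function model, as an additive map. -/
noncomputable def actHom (hH : IsFunModel p act H) (σ : Gal) : M →+ M :=
  AddMonoidHom.mk' (act σ) (hH.act_add p σ)

omit [Fact (Nat.Prime p)] in
theorem act_nsmul (hH : IsFunModel p act H) (σ : Gal) (n : ℕ) (m : M) :
    act σ (n • m) = n • act σ m :=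
  map_nsmul (actHom hH σ) n m

omit [Fact (Nat.Prime p)] in
theorem act_sub (hH : IsFunModel p act H) (σ : Gal) (m m' : M) :
    act σ (m - m') = act σ m - act σ m' :=
  map_sub (actHom hH σ) m m'

omit [Fact (Nat.Prime p)] in
theorem act_eq_zero_iff (hH : IsFunModel p act H) (σ : Gal) (m : M) : act σ m = 0 ↔ m = 0 := by
  constructor
  · intro h
    have h1 := hH.act_symm_act p σ m
    rw [h, hH.act_zero p] at h1
    exact h1.symm
  · intro h
    rw [h, hH.act_zero p]

omit [Fact (Nat.Prime p)] in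
theorem nsmul_eq_nsmul_of_modEq {x : M} (hx : p • x = 0) {n m : ℕ} (h : n ≡ m [MOD p]) :
    n • x = m • x :=
  nsmul_eq_nsmul_iff_modEq.mpr (h.of_dvd (addOrderOf_dvd_of_nsmul_eq_zero hx))

theorem modEq_of_nsmul_eq_nsmul {x : M} (hx0 : x ≠ 0) (hx : p • x = 0) {n m : ℕ}
    (h : n • x = m • x) : n ≡ m [MOD p] := by
  have h1 := nsmul_eq_nsmul_iff_modEq.mp h
  rwa [addOrderOf_eq_prime hx hx0] at h1

/-- **Tame type, depth `< 1`.**  A point `x` of order `p` of a function model over `ℤ_(p)`,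
of depth `< 1`, on which the inertia group acts through scalars: the scalar of `σ` is the
exponent of `σ` on the `p`-th roots of unity. -/
theorem modEq_of_depth_lt_one (hH : IsFunModel p act H) (hA : A.LiesOverPrime p) {ζ : Qb}
    (hζ : IsPrimitiveRoot ζ p) {x : M} (hx0 : x ≠ 0) (hx : p • x = 0)
    (hI : ∀ σ ∈ A.inertiaSubgroupIn ℚ, ∃ n : ℕ, act σ x = n • x)
    (hd : ∀ φ ∈ H, A.valuation (φ x - φ 0) < 1)
    {σ : Gal} (hσ : σ ∈ A.inertiaSubgroupIn ℚ) {n w : ℕ} (hn : act σ x = n • x)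
    (hw : σ ζ = ζ ^ w) : n ≡ w [MOD p] := by
  have hp : p.Prime := Fact.out
  have : NeZero p := ⟨hp.ne_zero⟩
  have : Algebra.IsAlgebraic ℚ Qb := AlgebraicClosure.isAlgebraic ℚ
  have hp1 : p - 1 ≠ 0 := Nat.sub_ne_zero_of_lt hp.one_lt
  obtain ⟨t, ht, φ₀, hφ₀, h0⟩ := exists_depth hH hA x
  have ht1 : t < 1 := h0 ▸ hd φ₀ hφ₀
  have ht0 : t ≠ 0 := by
    intro h
    apply hx0
    apply hH.sep
    intro φ hφ
    have h1 := ht φ hφ
    rw [h, le_zero_iff, Valuation.zero_iff, sub_eq_zero] at h1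
    exact h1
  have hpos : 0 < t := zero_lt_iff.mpr ht0
  have htt : t * t < t := mul_lt_of_lt_one_right hpos ht1
  -- Step A: the norm of the orbit, `t ^ (p - 1) ≤ v p`
  set a : ZMod p → Qb := fun r => φ₀ (r.val • x) - φ₀ 0 with ha
  have hval : ∀ m : ℕ, (m : ZMod p).val • x = m • x := fun m =>
    nsmul_eq_nsmul_of_modEq hx (by rw [ZMod.val_natCast]; exact Nat.mod_modEq m p)
  have hva : ∀ r : ZMod p, r ≠ 0 → A.valuation (a r) = t := by
    intro r hr
    have h1 := val_nsmul_sub_le hH hA ht1.le ht hφ₀ r.val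
    have hndvd : ¬ p ∣ r.val := by
      intro hdvd
      apply hr
      rw [← ZMod.natCast_zmod_val r, (ZMod.natCast_eq_zero_iff _ _).mpr hdvd]
    have h2 : A.valuation ((r.val : Qb) * (φ₀ x - φ₀ 0)) = t := by
      rw [map_mul, h0, valuation_natCast_eq_one hp hA hndvd, one_mul]
    have h3 : a r = (a r - (r.val : Qb) * (φ₀ x - φ₀ 0)) + (r.val : Qb) * (φ₀ x - φ₀ 0) := by
      ring
    rw [h3, Valuation.map_add_eq_of_lt_right, h2]
    rw [h2]
    calc A.valuation (a r - (r.val : Qb) * (φ₀ x - φ₀ 0)) ≤ t ^ 2 := h1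
      _ < t := by rw [pow_two]; exact htt
  set N : Qb := ∏ r : (ZMod p)ˣ, a (r : ZMod p) with hN
  have hvN : A.valuation N = t ^ (p - 1) := by
    rw [hN, map_prod]
    have h1 : ∀ r ∈ (Finset.univ : Finset (ZMod p)ˣ), A.valuation (a (r : ZMod p)) = t :=
      fun r _ => hva (r : ZMod p) (Units.ne_zero r)
    rw [Finset.prod_congr rfl h1, Finset.prod_const, Finset.card_univ, ZMod.card_units]
  have hfix : ∀ τ ∈ A.inertiaSubgroupIn ℚ, τ N = N := by
    intro τ hτ
    obtain ⟨m, hm⟩ := hI τ hτ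
    have hpm : ¬ p ∣ m := by
      intro hdvd
      have h1 : act τ x = 0 := by
        rw [hm]
        obtain ⟨c, rfl⟩ := hdvd
        rw [mul_nsmul, hx, nsmul_zero]
      exact hx0 ((act_eq_zero_iff hH τ x).mp h1)
    have hτa : ∀ r : ZMod p, τ (a r) = a (r * (m : ZMod p)) := by
      intro r
      have e : (r * (m : ZMod p)).val • x = r.val • m • x := by
        rw [← mul_nsmul']
        have h1 : r * (m : ZMod p) = ((r.val * m : ℕ) : ZMod p) := by
          rw [Nat.cast_mul, ZMod.natCast_zmod_val]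
        rw [h1, hval]
      simp only [ha]
      rw [map_sub, ← hH.eqv φ₀ hφ₀, ← hH.eqv φ₀ hφ₀, hH.act_zero p, act_nsmul hH, hm, e]
    let c : (ZMod p)ˣ := ZMod.unitOfCoprime m ((Nat.Prime.coprime_iff_not_dvd hp).mpr hpm).symm
    rw [hN, map_prod]
    calc ∏ r : (ZMod p)ˣ, τ (a (r : ZMod p)) = ∏ r : (ZMod p)ˣ, a ((r * c : (ZMod p)ˣ) : ZMod p) :=
          Finset.prod_congr rfl fun r _ => by
            rw [hτa, Units.val_mul, ZMod.coe_unitOfCoprime]
      _ = ∏ r : (ZMod p)ˣ, a (r : ZMod p) :=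
          Equiv.prod_comp (Equiv.mulRight c) (fun r : (ZMod p)ˣ => a (r : ZMod p))
  have hNlt : A.valuation N < 1 := by
    rw [hvN]
    exact pow_lt_one' ht1 hp1
  have hvp0 : 0 < A.valuation (p : Qb) := Fermat.Agent.S58.helper6024.valuation_natCast_pos A hp
  have hun := Fermat.Agent.S58.helper6024.unram hp A hA N hfix hNlt
  rw [map_div₀] at hun
  have hle : A.valuation N ≤ A.valuation (p : Qb) := (div_le_one₀ hvp0).mp hun
  have hge := val_p_le_pow hH hA ht0 ht1 hx ht hφ₀ h0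
  have heq : t ^ (p - 1) = A.valuation (ζ - 1) ^ (p - 1) := by
    rw [val_zeta_sub_one_pow A hζ]
    exact le_antisymm (hvN ▸ hle) hge
  have htz : A.valuation (ζ - 1) = t := ((pow_left_inj hp1).mp heq).symm
  -- Step B: the tangent congruence
  have hπ0 : ζ - 1 ≠ 0 := by
    intro h
    rw [h, map_zero] at htz
    exact ht0 htz.symm
  have hσD := mem_decomposition_of_mem_inertiaSubgroupIn hσ
  have hvσπ : A.valuation (σ (ζ - 1)) = t := by
    rw [valuation_apply_of_mem_decomposition hσD, htz]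
  have hσa : σ (φ₀ x - φ₀ 0) = φ₀ (n • x) - φ₀ 0 := by
    rw [map_sub, ← hH.eqv φ₀ hφ₀, ← hH.eqv φ₀ hφ₀, hH.act_zero p, hn]
  have he1 : A.valuation (σ (φ₀ x - φ₀ 0) - (n : Qb) * (φ₀ x - φ₀ 0)) ≤ t ^ 2 := by
    rw [hσa]
    exact val_nsmul_sub_le hH hA ht1.le ht hφ₀ n
  have hσπ : σ (ζ - 1) = ζ ^ w - 1 := by rw [map_sub, map_one, hw]
  have he2 : A.valuation (σ (ζ - 1) - (w : Qb) * (ζ - 1)) ≤ t ^ 2 := by
    rw [hσπ, ← htz]
    exact val_pow_sub_one_sub_le A hp.ne_zero hζ.pow_eq_one w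
  have hu : (φ₀ x - φ₀ 0) / (ζ - 1) * (ζ - 1) = φ₀ x - φ₀ 0 := div_mul_cancel₀ _ hπ0
  have hσu : σ ((φ₀ x - φ₀ 0) / (ζ - 1)) * σ (ζ - 1) = σ (φ₀ x - φ₀ 0) := by
    rw [← map_mul, hu]
  have hvu : A.valuation ((φ₀ x - φ₀ 0) / (ζ - 1)) = 1 := by
    rw [map_div₀, h0, htz, div_self ht0]
  have hσuu : A.valuation (σ ((φ₀ x - φ₀ 0) / (ζ - 1)) - (φ₀ x - φ₀ 0) / (ζ - 1)) < 1 :=
    (A.mem_nonunits_iff).mp (apply_sub_mem_nonunits hσ
      ((ValuationSubring.valuation_le_one_iff A _).1 hvu.le))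
  have key : ((n : Qb) - (w : Qb)) * ((φ₀ x - φ₀ 0) * (ζ - 1)) =
      (σ ((φ₀ x - φ₀ 0) / (ζ - 1)) - (φ₀ x - φ₀ 0) / (ζ - 1)) * (σ (ζ - 1) * (ζ - 1))
        - (σ (φ₀ x - φ₀ 0) - (n : Qb) * (φ₀ x - φ₀ 0)) * (ζ - 1)
        + (φ₀ x - φ₀ 0) * (σ (ζ - 1) - (w : Qb) * (ζ - 1)) := by
    linear_combination (-(ζ - 1)) * hσu + σ (ζ - 1) * hu
  have hlt : A.valuation (((n : Qb) - (w : Qb)) * ((φ₀ x - φ₀ 0) * (ζ - 1))) < t * t := by
    rw [key]
    refine Valuation.map_add_lt _ (Valuation.map_sub_lt _ ?_ ?_) ?_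
    · rw [map_mul, map_mul, hvσπ, htz]
      calc A.valuation (σ ((φ₀ x - φ₀ 0) / (ζ - 1)) - (φ₀ x - φ₀ 0) / (ζ - 1)) * (t * t)
            < 1 * (t * t) := mul_lt_mul_of_pos_right hσuu (mul_pos hpos hpos)
        _ = t * t := one_mul _
    · rw [map_mul, htz]
      calc A.valuation (σ (φ₀ x - φ₀ 0) - (n : Qb) * (φ₀ x - φ₀ 0)) * t ≤ t ^ 2 * t :=
            mul_le_mul' he1 le_rfl
        _ = (t * t) * t := by rw [pow_two]
        _ < t * t := mul_lt_of_lt_one_right (mul_pos hpos hpos) ht1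
    · rw [map_mul, h0]
      calc t * A.valuation (σ (ζ - 1) - (w : Qb) * (ζ - 1)) ≤ t * t ^ 2 :=
            mul_le_mul' le_rfl he2
        _ = (t * t) * t := by rw [pow_two, mul_comm]
        _ < t * t := mul_lt_of_lt_one_right (mul_pos hpos hpos) ht1
  have hdvd : (p : ℤ) ∣ (n : ℤ) - (w : ℤ) := by
    by_contra hnd
    have h1 := valuation_intCast_eq_one (A := A) hp hA hnd
    rw [map_mul, map_mul, h0, htz] at hlt
    have h2 : A.valuation ((n : Qb) - (w : Qb)) = 1 := by
      rw [← h1]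
      push_cast
      rfl
    rw [h2, one_mul] at hlt
    exact lt_irrefl _ hlt
  have h3 : (w : ℤ) ≡ (n : ℤ) [ZMOD (p : ℤ)] := Int.modEq_iff_dvd.mpr hdvd
  exact (Int.natCast_modEq_iff.mp h3).symm

/-- **Tame type of an inertia eigenvector in a flat module** ("Raynaud in rank one", point
side).  In a function model over `ℤ_(p)`, a point `x` killed by `p` on which the
inertia group at `p` acts through scalars is either fixed by inertia, or inertia acts on it
through the mod `p` cyclotomic character.  (No hypothesis on `p`: `p = 2` is allowed.) -/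
theorem tame_type (hH : IsFunModel p act H) (hA : A.LiesOverPrime p) {ζ : Qb}
    (hζ : IsPrimitiveRoot ζ p) {x : M} (hx : p • x = 0)
    (hI : ∀ σ ∈ A.inertiaSubgroupIn ℚ, ∃ n : ℕ, act σ x = n • x) :
    (∀ σ ∈ A.inertiaSubgroupIn ℚ, act σ x = x) ∨
      ∀ σ ∈ A.inertiaSubgroupIn ℚ, ∀ w : ℕ, σ ζ = ζ ^ w → act σ x = w • x := by
  by_cases hfix : ∀ σ ∈ A.inertiaSubgroupIn ℚ, act σ x = x
  · exact Or.inl hfix
  · right
    obtain ⟨σ0, hσ0'⟩ := not_forall.mp hfix
    obtain ⟨hσ0, hne⟩ := Classical.not_imp.mp hσ0'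
    obtain ⟨n0, hn0⟩ := hI σ0 hσ0
    have hy0 : act σ0 x - x ≠ 0 := sub_ne_zero.mpr hne
    have hyp : p • (act σ0 x - x) = 0 := by
      rw [nsmul_sub, ← act_nsmul hH, hx, hH.act_zero p, sub_zero]
    have hyI : ∀ σ : Gal, ∀ n : ℕ, act σ x = n • x →
        act σ (act σ0 x - x) = n • (act σ0 x - x) := by
      intro σ n hn
      rw [act_sub hH, hn0, act_nsmul hH, hn, nsmul_sub, smul_comm n0 n x]
    have hd : ∀ φ ∈ H, A.valuation (φ (act σ0 x - x) - φ 0) < 1 := fun φ hφ =>
      val_apply_act_sub_lt hH hA hσ0 hφ x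
    intro σ hσ w hw
    obtain ⟨n, hn⟩ := hI σ hσ
    have h1 := modEq_of_depth_lt_one hH hA hζ hy0 hyp
      (fun τ hτ => by
        obtain ⟨m, hm⟩ := hI τ hτ
        exact ⟨m, hyI τ m hm⟩) hd hσ (hyI σ n hn) hw
    rw [hn]
    exact nsmul_eq_nsmul_of_modEq hx h1

end Core

/-! ## The statement in hypothesis-passing shape -/

omit [Fact (Nat.Prime p)] in
/-- `tame_type` for `HasFunModel`, in the binder shape of the hypothesis `hTT` consumed by the
reducible flat chain (`helper56_RedFrozen`): `p`, `P`, `ζ` fixed outside, then every module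
with a function model. -/
theorem tame_type_of_hasFunModel (hp : p.Prime) (hA : A.LiesOverPrime p) {ζ : Qb}
    (hζ : IsPrimitiveRoot ζ p) :
    ∀ (M : Type) [AddCommGroup M] (act : Gal → M → M), HasFunModel p M act →
      ∀ x : M, x ≠ 0 → p • x = 0 →
        (∀ σ ∈ A.inertiaSubgroupIn ℚ, ∃ n : ℕ, act σ x = n • x) →
        (∀ σ ∈ A.inertiaSubgroupIn ℚ, act σ x = x) ∨
          (∀ σ ∈ A.inertiaSubgroupIn ℚ, ∀ w : ℕ, σ ζ = ζ ^ w → act σ x = w • x) := by
  intro M _ act hM x _ hx hI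
  have : Fact p.Prime := ⟨hp⟩
  obtain ⟨H, hH⟩ := hM
  exact tame_type hH hA hζ hx hI

end Fermat.Agent.S56.helper2444
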