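import Mathlib
import Fermat.Prelude.Def_FLTPrelim_Ramification
import Fermat.Prelude.Def_GaloisRep_Flat
import Fermat.Agent.S05.helper4205_Inertia
import Fermat.Agent.S32.helper1304_HopfClose
import Fermat.Agent.S58.helper6024_Unram

/-!
# Left-exactness of the maximal unramified quotient for flat Galois modules (helper4251)

Frozen vocabulary, on the function models `helper1304.IsFunModel` (`ℤ_(p)`-orders of
`G_ℚ`-equivariant functions).  No inertia-level order and no quotient by a subgroup that is not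
`G_ℚ`-stable is used.

Main results (`P` a valuation subring of `ℚ̄` over the odd prime `p`, `I` its inertia group):

* `sub_mem_redKer`      : `(I - 1) M ⊆ redKer`                      (R2)
* `char_eq_one_of_mem_redKer` : an `I`-eigencharacter of `M` is trivial on `redKer` (R5*)
* `mem_closure_inertia_of_mem_redKer` : `redKer M ⊆ (I - 1) M`       (R5)
* `inertia_closure_inf_le` : `(I - 1) M ∩ Y ⊆ (I - 1) Y` for a `G_ℚ`-stable subgroup `Y` (ET)
* `inertia_trivial_of_scalar` : TYPE lemma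
* `inertia_inter_of_isFlatAt` : the frozen corollary for a flat `GaloisRepAdic`.
-/

namespace Fermat.Agent.S56.helper4251

open GaloisRep
open Fermat.Agent.S32.helper1304

local notation "Qb" => AlgebraicClosure ℚ
local notation "Gal" => (AlgebraicClosure ℚ ≃ₐ[ℚ] AlgebraicClosure ℚ)

/-! ## Ordered-group helpers -/

section Ord

variable {Γ : Type*} [LinearOrderedCommGroupWithZero Γ]

theorem mul_lt_one_of_lt_of_le_one {a b : Γ} (ha : a < 1) (hb : b ≤ 1) : a * b < 1 :=
  lt_of_le_of_lt (by calc a * b ≤ a * 1 := by gcongr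
                       _ = a := mul_one a) ha

theorem mul_lt_of_le_of_lt_one {a b c : Γ} (hc : c ≠ 0) (ha : a ≤ c) (hb : b < 1) : a * b < c := by
  have hc' : 0 < c := zero_lt_iff.mpr hc
  calc a * b ≤ c * b := by gcongr
    _ < c * 1 := by gcongr
    _ = c := mul_one c

end Ord

/-! ## Valuation facts at a place over `p` -/

section Val

variable {p : ℕ} (P : ValuationSubring Qb)

/-- `ℤ_(p) ⊆ P` for a place over `p`. -/
theorem ratLoc_mem (hp : p.Prime) (hP : P.LiesOverPrime p) (r : ratLocalizedAt p) :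
    algebraMap (ratLocalizedAt p) Qb r ∈ P := by
  rw [algebraMap_R_Qb_apply]
  have hden : ¬ p ∣ (r : ℚ).den := by
    have h1 : (r : ℚ).den.Coprime p := r.2
    intro hdvd
    have := Nat.Coprime.eq_one_of_dvd h1.symm hdvd
    exact hp.one_lt.ne' this
  have hv : P.valuation (((r : ℚ).den : ℕ) : Qb) = 1 :=
    Fermat.Agent.S05.helper4205.valuation_natCast_eq_one hp hP hden
  have e : algebraMap ℚ Qb (r : ℚ) = (((r : ℚ).num : ℤ) : Qb) / (((r : ℚ).den : ℕ) : Qb) := by
    rw [eq_ratCast]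
    conv_lhs => rw [← Rat.num_div_den (r : ℚ)]
    push_cast
    rfl
  rw [e, ← ValuationSubring.valuation_le_one_iff, map_div₀, hv, div_one]
  exact (ValuationSubring.valuation_le_one_iff P _).2
    (Fermat.Agent.S05.helper4205.vs_intCast_mem P _)

/-- An element of `ℚ̄` integral over `ℤ_(p)` lies in every valuation subring over `p`. -/
theorem mem_of_isIntegral_ratLoc (hp : p.Prime) (hP : P.LiesOverPrime p) {x : Qb}
    (hx : IsIntegral (ratLocalizedAt p) x) : x ∈ P := by
  obtain ⟨g, hg, hgx⟩ := hx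
  let φ : ratLocalizedAt p →+* P :=
    (algebraMap (ratLocalizedAt p) Qb).codRestrict P.toSubring (ratLoc_mem P hp hP)
  have hint : IsIntegral P x := by
    refine ⟨g.map φ, hg.map φ, ?_⟩
    rw [Polynomial.eval₂_map]
    have hcomp : (algebraMap P Qb).comp φ = algebraMap (ratLocalizedAt p) Qb := by
      ext r
      rfl
    rw [hcomp]
    exact hgx
  obtain ⟨y, hy⟩ := (IsIntegrallyClosed.isIntegral_iff (R := P) (K := Qb)).mp hint
  rw [← hy]
  exact y.2

end Val


/-! ## Roots of unity at a place over `p` -/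

section Roots

variable {p : ℕ} (P : ValuationSubring Qb)

theorem val_root_eq_one {ξ : Qb} {n : ℕ} (hn : n ≠ 0) (hξ : ξ ^ n = 1) : P.valuation ξ = 1 := by
  have h1 : P.valuation ξ ^ n = 1 := by rw [← map_pow, hξ, map_one]
  exact (pow_eq_one_iff.mp h1).resolve_right hn

theorem val_pow_sub_one_le {ξ : Qb} (hξ : P.valuation ξ ≤ 1) (k : ℕ) :
    P.valuation (ξ ^ k - 1) ≤ P.valuation (ξ - 1) := by
  rw [← geom_sum_mul, map_mul]
  have h1 : P.valuation (∑ i ∈ Finset.range k, ξ ^ i) ≤ 1 := by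
    refine Valuation.map_sum_le _ fun i _ => ?_
    rw [map_pow]
    exact pow_le_one₀ zero_le hξ
  calc P.valuation (∑ i ∈ Finset.range k, ξ ^ i) * P.valuation (ξ - 1)
      ≤ 1 * P.valuation (ξ - 1) := by gcongr
    _ = P.valuation (ξ - 1) := one_mul _

theorem isPrimitiveRoot_of_pow_eq_one (hp : p.Prime) {ξ : Qb} (hξ : ξ ^ p = 1) (hξ1 : ξ ≠ 1) :
    IsPrimitiveRoot ξ p := by
  have h1 : orderOf ξ ∣ p := orderOf_dvd_of_pow_eq_one hξ
  rcases (Nat.dvd_prime hp).mp h1 with h | h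
  · exact absurd (orderOf_eq_one_iff.mp h) hξ1
  · rw [← h]
    exact IsPrimitiveRoot.orderOf ξ

/-- All nontrivial `p`-th roots of unity are at the same distance from `1`. -/
theorem val_sub_one_eq (hp : p.Prime) {ζ ξ : Qb} (hζ : IsPrimitiveRoot ζ p) (hξ : ξ ^ p = 1)
    (hξ1 : ξ ≠ 1) : P.valuation (ξ - 1) = P.valuation (ζ - 1) := by
  have : NeZero p := ⟨hp.ne_zero⟩
  have hξp : IsPrimitiveRoot ξ p := isPrimitiveRoot_of_pow_eq_one hp hξ hξ1
  obtain ⟨i, -, hi⟩ := hζ.eq_pow_of_pow_eq_one hξ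
  obtain ⟨j, -, hj⟩ := hξp.eq_pow_of_pow_eq_one hζ.pow_eq_one
  refine le_antisymm ?_ ?_
  · rw [← hi]
    exact val_pow_sub_one_le P (val_root_eq_one P hp.ne_zero hζ.pow_eq_one).le i
  · rw [← hj]
    exact val_pow_sub_one_le P (val_root_eq_one P hp.ne_zero hξ).le j

/-- `v(p) = v(ζ - 1)^(p-1)`. -/
theorem val_p_eq (hp : p.Prime) {ζ : Qb} (hζ : IsPrimitiveRoot ζ p) :
    P.valuation (p : Qb) = P.valuation (ζ - 1) ^ (p - 1) := by
  have hp1 : p - 1 + 1 = p := Nat.sub_add_cancel hp.one_le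
  have hζ' : IsPrimitiveRoot ζ (p - 1 + 1) := by rw [hp1]; exact hζ
  have h := IsPrimitiveRoot.prod_one_sub_pow_eq_order hζ'
  have h2 : ((p - 1 : ℕ) : Qb) + 1 = (p : Qb) := by
    have := congrArg (Nat.cast : ℕ → Qb) hp1
    push_cast at this
    exact this
  rw [h2] at h
  rw [← h, map_prod]
  have h3 : ∀ k ∈ Finset.range (p - 1),
      P.valuation (1 - ζ ^ (k + 1)) = P.valuation (ζ - 1) := by
    intro k hk
    rw [Finset.mem_range] at hk
    rw [← Valuation.map_neg, neg_sub]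
    refine val_sub_one_eq P hp hζ ?_ ?_
    · rw [← pow_mul, mul_comm, pow_mul, hζ.pow_eq_one, one_pow]
    · exact hζ.pow_ne_one_of_pos_of_lt (Nat.succ_ne_zero k) (by omega)
  rw [Finset.prod_congr rfl h3, Finset.prod_const, Finset.card_range]

theorem val_zeta_sub_one_lt_one (hp : p.Prime) (hP : P.LiesOverPrime p) {ζ : Qb}
    (hζ : IsPrimitiveRoot ζ p) : P.valuation (ζ - 1) < 1 := by
  have hle : P.valuation (ζ - 1) ≤ 1 := by
    rw [ValuationSubring.valuation_le_one_iff]
    exact sub_mem ((ValuationSubring.valuation_le_one_iff P _).mp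
      (val_root_eq_one P hp.ne_zero hζ.pow_eq_one).le) P.one_mem
  refine lt_of_le_of_ne hle fun h => ?_
  have h1 : P.valuation (p : Qb) < 1 := (ValuationSubring.mem_nonunits_iff P).mp hP
  rw [val_p_eq P hp hζ, h, one_pow] at h1
  exact lt_irrefl _ h1

theorem val_zeta_sub_one_ne_zero (hp : p.Prime) {ζ : Qb} (hζ : IsPrimitiveRoot ζ p) :
    P.valuation (ζ - 1) ≠ 0 := by
  rw [Ne, Valuation.zero_iff, sub_eq_zero]
  exact hζ.ne_one hp.one_lt

/-- The image of a primitive `p`-th root of unity under a field automorphism is a power. -/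
theorem exists_zmod_apply_zeta [Fact p.Prime] {ζ : Qb} (hζ : IsPrimitiveRoot ζ p) (τ : Gal) :
    ∃ c : ZMod p, c ≠ 0 ∧ τ ζ = ζ ^ c.val := by
  have hp : p.Prime := Fact.out
  have : NeZero p := ⟨hp.ne_zero⟩
  have h1 : (τ ζ) ^ p = 1 := by rw [← map_pow, hζ.pow_eq_one, map_one]
  obtain ⟨i, hi, hiζ⟩ := hζ.eq_pow_of_pow_eq_one h1
  refine ⟨(i : ZMod p), ?_, ?_⟩
  · intro h0
    have hi0 : i = 0 := by
      have := congrArg ZMod.val h0
      rwa [ZMod.val_natCast_of_lt hi, ZMod.val_zero] at this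
    rw [hi0, pow_zero] at hiζ
    have : τ ζ = τ 1 := by rw [← hiζ, map_one]
    exact hζ.ne_one hp.one_lt (τ.injective this)
  · rw [ZMod.val_natCast_of_lt hi, hiζ]

theorem zeta_pow_val_mul [Fact p.Prime] {ζ : Qb} (hζ : IsPrimitiveRoot ζ p) (a b : ZMod p) :
    ζ ^ (a * b).val = (ζ ^ a.val) ^ b.val := by
  rw [ZMod.val_mul, ← pow_mul, ← pow_eq_pow_mod _ hζ.pow_eq_one]

/-- Inertia at `p` moves the `p`-th roots of unity (`p` odd). -/
theorem exists_inertia_apply_zeta_ne (hp : p.Prime) (hp2 : p ≠ 2) (hP : P.LiesOverPrime p)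
    {ζ : Qb} (hζ : IsPrimitiveRoot ζ p) : ∃ σ ∈ P.inertiaSubgroupIn ℚ, σ ζ ≠ ζ := by
  by_contra hcon
  push Not at hcon
  have hfix : ∀ σ ∈ P.inertiaSubgroupIn ℚ, σ (ζ - 1) = ζ - 1 := fun σ hσ => by
    rw [map_sub, map_one, hcon σ hσ]
  have hlt := val_zeta_sub_one_lt_one P hp hP hζ
  have h0 := val_zeta_sub_one_ne_zero P hp hζ
  have hpos : 0 < P.valuation (ζ - 1) := zero_lt_iff.mpr h0
  have hun := Fermat.Agent.S58.helper6024.unram hp P hP (ζ - 1) hfix hlt
  have hp0 : P.valuation (p : Qb) ≠ 0 := by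
    rw [Ne, Valuation.zero_iff]
    exact_mod_cast hp.ne_zero
  rw [map_div₀, div_le_one₀ (zero_lt_iff.mpr hp0), val_p_eq P hp hζ] at hun
  have h2 : 2 ≤ p - 1 := by
    have := hp.two_le
    omega
  have h3 : P.valuation (ζ - 1) ^ (p - 1) ≤ P.valuation (ζ - 1) ^ 2 :=
    pow_le_pow_of_le_one zero_le hlt.le h2
  have h4 : P.valuation (ζ - 1) ^ 2 < P.valuation (ζ - 1) := by
    rw [pow_two]
    calc P.valuation (ζ - 1) * P.valuation (ζ - 1) < P.valuation (ζ - 1) * 1 := by gcongr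
      _ = P.valuation (ζ - 1) := mul_one _
  exact lt_irrefl _ (lt_of_le_of_lt (hun.trans h3) h4)

end Roots


/-! ## The uniformiser of the tame field, without Galois theory -/

section Unif

variable {p : ℕ} [Fact p.Prime] (P : ValuationSubring Qb)

/-- **Uniformiser lemma.**  An element of the maximal ideal of `P` that is fixed by the inertia
elements fixing `ζ_p` is divisible by `ζ_p - 1`.  (Norm to the inertia field + `unram`.) -/
theorem val_le_of_fixed (hP : P.LiesOverPrime p) {ζ : Qb} (hζ : IsPrimitiveRoot ζ p) {d : Qb}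
    (hd : P.valuation d < 1)
    (hfix : ∀ τ ∈ P.inertiaSubgroupIn ℚ, τ ζ = ζ → τ d = d) :
    P.valuation d ≤ P.valuation (ζ - 1) := by
  classical
  have hp : p.Prime := Fact.out
  have halg : Algebra.IsAlgebraic ℚ Qb := AlgebraicClosure.isAlgebraic ℚ
  let S : Finset (ZMod p) :=
    Finset.univ.filter (fun a => ∃ σ ∈ P.inertiaSubgroupIn ℚ, σ ζ = ζ ^ a.val)
  have hS : ∀ a, a ∈ S ↔ ∃ σ ∈ P.inertiaSubgroupIn ℚ, σ ζ = ζ ^ a.val := fun a => by
    simp [S]
  let sel : ZMod p → Gal := fun a =>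
    if h : ∃ σ ∈ P.inertiaSubgroupIn ℚ, σ ζ = ζ ^ a.val then h.choose else 1
  have hsel : ∀ a ∈ S, sel a ∈ P.inertiaSubgroupIn ℚ ∧ sel a ζ = ζ ^ a.val := by
    intro a ha
    have h := (hS a).mp ha
    simp only [sel, dif_pos h]
    exact h.choose_spec
  -- the norm
  have hNfix : ∀ τ ∈ P.inertiaSubgroupIn ℚ, τ (∏ a ∈ S, sel a d) = ∏ a ∈ S, sel a d := by
    intro τ hτ
    obtain ⟨c, hc0, hc⟩ := exists_zmod_apply_zeta hζ τ
    have hpow : ∀ a : ZMod p, (ζ ^ c.val) ^ a.val = ζ ^ (c * a).val := fun a =>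
      (zeta_pow_val_mul hζ c a).symm
    have hmem : ∀ a ∈ S, c * a ∈ S := by
      intro a ha
      obtain ⟨h1, h2⟩ := hsel a ha
      refine (hS _).mpr ⟨τ * sel a, (P.inertiaSubgroupIn ℚ).mul_mem hτ h1, ?_⟩
      rw [AlgEquiv.mul_apply, h2, map_pow, hc, hpow]
    have hinj : Function.Injective (fun a : ZMod p => c * a) := mul_right_injective₀ hc0
    have himg : S.image (fun a => c * a) = S := by
      apply Finset.eq_of_subset_of_card_le
      · intro x hx
        obtain ⟨a, ha, rfl⟩ := Finset.mem_image.mp hx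
        exact hmem a ha
      · rw [Finset.card_image_of_injective _ hinj]
    have hterm : ∀ a ∈ S, τ (sel a d) = sel (c * a) d := by
      intro a ha
      obtain ⟨h1, h2⟩ := hsel a ha
      obtain ⟨h3, h4⟩ := hsel (c * a) (hmem a ha)
      have h5 : ((sel (c * a))⁻¹ * τ * sel a) d = d := by
        apply hfix _ ((P.inertiaSubgroupIn ℚ).mul_mem
          ((P.inertiaSubgroupIn ℚ).mul_mem ((P.inertiaSubgroupIn ℚ).inv_mem h3) hτ) h1)
        rw [AlgEquiv.mul_apply, AlgEquiv.mul_apply, h2, map_pow, hc, hpow, ← h4,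
          AlgEquiv.aut_inv, AlgEquiv.symm_apply_apply]
      have h6 := congrArg (sel (c * a)) h5
      rw [AlgEquiv.mul_apply, AlgEquiv.mul_apply, AlgEquiv.aut_inv,
        AlgEquiv.apply_symm_apply] at h6
      exact h6
    rw [map_prod, Finset.prod_congr rfl hterm]
    conv_rhs => rw [← himg]
    rw [Finset.prod_image]
    intro x _ y _ hxy
    exact hinj hxy
  have hNval : P.valuation (∏ a ∈ S, sel a d) = P.valuation d ^ S.card := by
    rw [map_prod, ← Finset.prod_const]
    refine Finset.prod_congr rfl fun a ha => ?_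
    exact Fermat.Agent.S05.helper4205.valuation_apply_of_mem_decomposition
      (Fermat.Agent.S05.helper4205.mem_decomposition_of_mem_inertiaSubgroupIn (hsel a ha).1) d
  have hone : (1 : ZMod p) ∈ S := by
    refine (hS 1).mpr ⟨1, (P.inertiaSubgroupIn ℚ).one_mem, ?_⟩
    have : Fact (1 < p) := ⟨hp.one_lt⟩
    rw [ZMod.val_one, pow_one, AlgEquiv.one_apply]
  have hcard1 : S.card ≠ 0 := Finset.card_ne_zero.mpr ⟨1, hone⟩
  have hcard2 : S.card ≤ p - 1 := by
    have hsub : S ⊆ Finset.univ.erase (0 : ZMod p) := by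
      intro a ha
      rw [Finset.mem_erase]
      refine ⟨?_, Finset.mem_univ _⟩
      rintro rfl
      obtain ⟨σ, -, hσ⟩ := (hS 0).mp ha
      rw [ZMod.val_zero, pow_zero] at hσ
      have : σ ζ = σ 1 := by rw [hσ, map_one]
      exact hζ.ne_one hp.one_lt (σ.injective this)
    have h1 := Finset.card_le_card hsub
    rwa [Finset.card_erase_of_mem (Finset.mem_univ _), Finset.card_univ, ZMod.card] at h1
  have hNlt : P.valuation (∏ a ∈ S, sel a d) < 1 := by
    rw [hNval]
    exact lt_of_le_of_lt (pow_le_of_le_one zero_le hd.le hcard1) hd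
  have hun := Fermat.Agent.S58.helper6024.unram hp P hP _ hNfix hNlt
  have hp0 : P.valuation (p : Qb) ≠ 0 := by
    rw [Ne, Valuation.zero_iff]
    exact_mod_cast hp.ne_zero
  rw [map_div₀, div_le_one₀ (zero_lt_iff.mpr hp0), val_p_eq P hp hζ, hNval] at hun
  by_contra hcon
  push Not at hcon
  have hlt := val_zeta_sub_one_lt_one P hp hP hζ
  have h1 : P.valuation (ζ - 1) ^ (p - 1) ≤ P.valuation (ζ - 1) ^ S.card :=
    pow_le_pow_of_le_one zero_le hlt.le hcard2
  have h2 : P.valuation (ζ - 1) ^ S.card < P.valuation d ^ S.card :=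
    pow_lt_pow_left₀ hcon zero_le hcard1
  exact lt_irrefl _ (lt_of_le_of_lt (hun.trans h1) h2)

end Unif


/-! ## The kernel of reduction and (R2) -/

section RedKer

variable {p : ℕ} {M : Type} [AddCommGroup M]

/-- Two points are congruent modulo the maximal ideal of `P`: every function of the model takes
congruent values. -/
def RedEq (H : Subalgebra (ratLocalizedAt p) (M → Qb)) (P : ValuationSubring Qb) (x y : M) :
    Prop :=
  ∀ φ ∈ H, P.valuation (φ x - φ y) < 1

/-- The kernel of reduction of a function model at the place `P`. -/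
def redKer (H : Subalgebra (ratLocalizedAt p) (M → Qb)) (P : ValuationSubring Qb) : Set M :=
  {x | RedEq H P x 0}

variable {H : Subalgebra (ratLocalizedAt p) (M → Qb)} {P : ValuationSubring Qb}
  {act : Gal → M → M}

theorem mem_redKer_iff {x : M} :
    x ∈ redKer H P ↔ ∀ φ ∈ H, P.valuation (φ x - φ 0) < 1 := Iff.rfl

omit [AddCommGroup M] in
theorem RedEq.refl (x : M) : RedEq H P x x := fun φ _ => by
  rw [sub_self, map_zero]
  exact zero_lt_one' _

/-- Values of the functions of a model are integral at every place over `p`. -/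
theorem val_mem (hp : p.Prime) (hP : P.LiesOverPrime p) (h : IsFunModel p act H) {φ : M → Qb}
    (hφ : φ ∈ H) (m : M) : φ m ∈ P := by
  have h1 : IsIntegral (ratLocalizedAt p) φ :=
    IsIntegral.of_mem_of_fg H ((finite_iff_fg p H).mp h.fin) φ hφ
  exact mem_of_isIntegral_ratLoc P hp hP
    (h1.map (Pi.evalAlgHom (ratLocalizedAt p) (fun _ : M => Qb) m))

theorem val_le_one (hp : p.Prime) (hP : P.LiesOverPrime p) (h : IsFunModel p act H) {φ : M → Qb}
    (hφ : φ ∈ H) (m : M) : P.valuation (φ m) ≤ 1 :=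
  (ValuationSubring.valuation_le_one_iff P _).mpr (val_mem hp hP h hφ m)

/-- Congruence modulo `m_P` is compatible with the group law (the group law is defined over
the order). -/
theorem RedEq.add (hp : p.Prime) (hP : P.LiesOverPrime p) (h : IsFunModel p act H)
    {x x' y y' : M} (hx : RedEq H P x x') (hy : RedEq H P y y') :
    RedEq H P (x + y) (x' + y') := by
  intro φ hφ
  obtain ⟨n, a, b, ha, hb, hab⟩ := h.comul φ hφ
  rw [hab, hab, ← Finset.sum_sub_distrib]
  refine Valuation.map_sum_lt _ one_ne_zero fun i _ => ?_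
  have e : a i x * b i y - a i x' * b i y' =
      (a i x - a i x') * b i y + a i x' * (b i y - b i y') := by ring
  rw [e]
  refine lt_of_le_of_lt (Valuation.map_add _ _ _) (max_lt ?_ ?_)
  · rw [map_mul]
    exact mul_lt_one_of_lt_of_le_one (hx (a i) (ha i)) (val_le_one hp hP h (hb i) y)
  · rw [map_mul, mul_comm]
    exact mul_lt_one_of_lt_of_le_one (hy (b i) (hb i)) (val_le_one hp hP h (ha i) x')

/-- Inertia moves every point inside its congruence class. -/
theorem redEq_act (hp : p.Prime) (hP : P.LiesOverPrime p) (h : IsFunModel p act H) {σ : Gal}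
    (hσ : σ ∈ P.inertiaSubgroupIn ℚ) (x : M) : RedEq H P (act σ x) x := by
  intro φ hφ
  rw [h.eqv φ hφ, ← ValuationSubring.mem_nonunits_iff]
  exact Fermat.Agent.S05.helper4205.apply_sub_mem_nonunits hσ (val_mem hp hP h hφ x)

/-- **(R2)** `(σ - 1) x` lies in the kernel of reduction for `σ` in the inertia group. -/
theorem sub_mem_redKer (hp : p.Prime) (hP : P.LiesOverPrime p) (h : IsFunModel p act H)
    {σ : Gal} (hσ : σ ∈ P.inertiaSubgroupIn ℚ) (x : M) : act σ x - x ∈ redKer H P := by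
  have h1 := RedEq.add hp hP h (redEq_act hp hP h hσ x) (RedEq.refl (H := H) (P := P) (-x))
  rwa [add_neg_cancel, ← sub_eq_add_neg] at h1

theorem zero_mem_redKer : (0 : M) ∈ redKer H P := RedEq.refl 0

theorem add_mem_redKer (hp : p.Prime) (hP : P.LiesOverPrime p) (h : IsFunModel p act H)
    {x y : M} (hx : x ∈ redKer H P) (hy : y ∈ redKer H P) : x + y ∈ redKer H P := by
  have h1 := RedEq.add hp hP h hx hy
  rwa [add_zero] at h1

theorem nsmul_mem_redKer (hp : p.Prime) (hP : P.LiesOverPrime p) (h : IsFunModel p act H)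
    {x : M} (hx : x ∈ redKer H P) (k : ℕ) : k • x ∈ redKer H P := by
  induction k with
  | zero => rw [zero_nsmul]; exact zero_mem_redKer
  | succ k ih => rw [succ_nsmul]; exact add_mem_redKer hp hP h ih hx

theorem neg_mem_redKer (hp : p.Prime) (hP : P.LiesOverPrime p) (h : IsFunModel p act H)
    (hpM : ∀ x : M, p • x = 0) {x : M} (hx : x ∈ redKer H P) : -x ∈ redKer H P := by
  have h1 : (p - 1) • x = -x := by
    have h2 : (p - 1) • x + x = 0 := by
      rw [← succ_nsmul, Nat.sub_add_cancel hp.one_le, hpM]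
    exact eq_neg_of_add_eq_zero_left h2
  rw [← h1]
  exact nsmul_mem_redKer hp hP h hx _

/-- `(I - 1) M ⊆ redKer`. -/
theorem closure_inertia_subset_redKer (hp : p.Prime) (hP : P.LiesOverPrime p)
    (h : IsFunModel p act H) (hpM : ∀ x : M, p • x = 0) {x : M}
    (hx : x ∈ AddSubgroup.closure
      {z : M | ∃ σ ∈ P.inertiaSubgroupIn ℚ, ∃ m : M, z = act σ m - m}) :
    x ∈ redKer H P := by
  induction hx using AddSubgroup.closure_induction with
  | mem z hz =>
    obtain ⟨σ, hσ, m, rfl⟩ := hz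
    exact sub_mem_redKer hp hP h hσ m
  | zero => exact zero_mem_redKer
  | add a b _ _ ha hb => exact add_mem_redKer hp hP h ha hb
  | neg a _ ha => exact neg_mem_redKer hp hP h hpM ha

end RedKer


/-! ## Coordinates in a `ℤ_(p)`-basis of the model -/

section Coord

variable {p : ℕ} [Fact p.Prime] {M : Type} [AddCommGroup M]
  {H : Subalgebra (ratLocalizedAt p) (M → Qb)} {P : ValuationSubring Qb} {act : Gal → M → M}

omit [Fact p.Prime] [AddCommGroup M] in
theorem ratLoc_smul_fun (r : ratLocalizedAt p) (f : M → Qb) :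
    r • f = (algebraMap (ratLocalizedAt p) Qb r) • f := by
  funext m
  rw [smul_fun_apply, Pi.smul_apply, smul_eq_mul]

omit [Fact p.Prime] [AddCommGroup M] in
/-- Products of a `Qb`-linearly independent family of functions are linearly independent as
functions of two variables. -/
theorem prod_coord_eq_zero {n : ℕ} {b : Fin n → M → Qb} (hli : LinearIndependent Qb b)
    (g : Fin n → Fin n → Qb)
    (hg : ∀ x y, ∑ j, ∑ k, g j k * (b j x * b k y) = 0) : ∀ j k, g j k = 0 := by
  have h1 : ∀ y j, ∑ k, g j k * b k y = 0 := by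
    intro y
    apply Fintype.linearIndependent_iff.mp hli (fun j => ∑ k, g j k * b k y)
    funext x
    rw [Finset.sum_apply, Pi.zero_apply, ← hg x y]
    refine Finset.sum_congr rfl fun j _ => ?_
    rw [Pi.smul_apply, smul_eq_mul, Finset.sum_mul]
    refine Finset.sum_congr rfl fun k _ => ?_
    ring
  intro j
  apply Fintype.linearIndependent_iff.mp hli (fun k => g j k)
  funext y
  rw [Finset.sum_apply, Pi.zero_apply, ← h1 y j]
  refine Finset.sum_congr rfl fun k _ => ?_
  rw [Pi.smul_apply, smul_eq_mul]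

/-- A `ℤ_(p)`-basis of the model: `Qb`-basis of all functions, with `P`-integral structure
constants for the group law. -/
theorem exists_good_basis (hP : P.LiesOverPrime p) (h : IsFunModel p act H) :
    ∃ (n : ℕ) (b : Fin n → M → Qb) (m : Fin n → Fin n → Fin n → Qb),
      (∀ i, b i ∈ H) ∧ LinearIndependent Qb b ∧
      (∀ f : M → Qb, ∃ c : Fin n → Qb, f = ∑ i, c i • b i) ∧
      (∀ i j k, m i j k ∈ P) ∧
      ∀ i x y, b i (x + y) = ∑ j, ∑ k, m i j k * (b j x * b k y) := by
  have hp : p.Prime := Fact.out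
  obtain ⟨n, b, hbH, hli, hsp⟩ := exists_basis_of_fin_eqv p h.fin h.eqv
  have hfin : Finite M := h.finite p
  have htop := span_Qb_eq_top_of_sep p H h.sep
  have hle : Submodule.span Qb (H : Set (M → Qb)) ≤ Submodule.span Qb (Set.range b) := by
    refine Submodule.span_le.mpr fun φ hφ => ?_
    obtain ⟨r, hr⟩ := hsp φ hφ
    rw [hr]
    refine Submodule.sum_mem _ fun i _ => ?_
    rw [ratLoc_smul_fun]
    exact Submodule.smul_mem _ _ (Submodule.subset_span ⟨i, rfl⟩)
  have hspan : ∀ f : M → Qb, ∃ c : Fin n → Qb, f = ∑ i, c i • b i := by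
    intro f
    have hf : f ∈ Submodule.span Qb (Set.range b) := hle (htop ▸ Submodule.mem_top)
    obtain ⟨c, hc⟩ := (Submodule.mem_span_range_iff_exists_fun Qb).mp hf
    exact ⟨c, hc.symm⟩
  choose N a b' ha hb' hab using fun i => h.comul (b i) (hbH i)
  choose r hr using fun i l => hsp (a i l) (ha i l)
  choose t ht using fun i l => hsp (b' i l) (hb' i l)
  refine ⟨n, b, fun i j k => ∑ l : Fin (N i),
      algebraMap (ratLocalizedAt p) Qb (r i l j) * algebraMap (ratLocalizedAt p) Qb (t i l k),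
    hbH, hli, hspan, fun i j k => ?_, fun i x y => ?_⟩
  · exact sum_mem fun l _ => mul_mem (ratLoc_mem P hp hP _) (ratLoc_mem P hp hP _)
  · have e1 : ∀ l, a i l x = ∑ j, algebraMap (ratLocalizedAt p) Qb (r i l j) * b j x := by
      intro l
      conv_lhs => rw [hr i l]
      rw [Finset.sum_apply]
      exact Finset.sum_congr rfl fun j _ => smul_fun_apply p _ _ _
    have e2 : ∀ l, b' i l y = ∑ k, algebraMap (ratLocalizedAt p) Qb (t i l k) * b k y := by
      intro l
      conv_lhs => rw [ht i l]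
      rw [Finset.sum_apply]
      exact Finset.sum_congr rfl fun k _ => smul_fun_apply p _ _ _
    rw [hab i x y]
    simp_rw [e1, e2, Finset.sum_mul_sum, Finset.sum_mul]
    rw [Finset.sum_comm]
    refine Finset.sum_congr rfl fun j _ => ?_
    rw [Finset.sum_comm]
    refine Finset.sum_congr rfl fun k _ => ?_
    refine Finset.sum_congr rfl fun l _ => ?_
    ring

omit [Fact p.Prime] in
/-- **(D0)** Characters are integral: the coordinates of a multiplicative function in a basis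
with integral structure constants are integral. -/
theorem coord_mem_of_char {n : ℕ} {b : Fin n → M → Qb} {m : Fin n → Fin n → Fin n → Qb}
    (hli : LinearIndependent Qb b) (hm : ∀ i j k, m i j k ∈ P)
    (hcomul : ∀ i x y, b i (x + y) = ∑ j, ∑ k, m i j k * (b j x * b k y))
    {χ : M → Qb} (hχ : ∀ x y, χ (x + y) = χ x * χ y) {c : Fin n → Qb}
    (hc : ∀ x, χ x = ∑ i, c i * b i x) (i : Fin n) : c i ∈ P := by
  have hmul : ∀ j k, c j * c k - ∑ i, c i * m i j k = 0 := by
    apply prod_coord_eq_zero hli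
    intro x y
    have h1 : ∑ j, ∑ k, (c j * c k - ∑ i, c i * m i j k) * (b j x * b k y)
        = (∑ j, c j * b j x) * (∑ k, c k * b k y)
          - ∑ i, c i * ∑ j, ∑ k, m i j k * (b j x * b k y) := by
      rw [Finset.sum_mul_sum]
      simp_rw [sub_mul, Finset.sum_sub_distrib, Finset.mul_sum, Finset.sum_mul]
      congr 1
      · refine Finset.sum_congr rfl fun j _ => Finset.sum_congr rfl fun k _ => ?_
        ring
      · symm
        rw [Finset.sum_comm]
        refine Finset.sum_congr rfl fun j _ => ?_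
        rw [Finset.sum_comm]
        refine Finset.sum_congr rfl fun k _ => Finset.sum_congr rfl fun i _ => ?_
        ring
    rw [h1, ← hc x, ← hc y]
    have h2 : ∑ i, c i * ∑ j, ∑ k, m i j k * (b j x * b k y) = χ (x + y) := by
      rw [hc (x + y)]
      exact Finset.sum_congr rfl fun i _ => by rw [hcomul]
    rw [h2, hχ, sub_self]
  obtain ⟨j0, -, hj0⟩ := Finset.exists_max_image Finset.univ (fun j => P.valuation (c j))
    ⟨i, Finset.mem_univ i⟩
  have hle : P.valuation (c j0) * P.valuation (c j0) ≤ P.valuation (c j0) := by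
    have h3 : c j0 * c j0 = ∑ i, c i * m i j0 j0 := sub_eq_zero.mp (hmul j0 j0)
    rw [← map_mul, h3]
    refine Valuation.map_sum_le _ fun i _ => ?_
    rw [map_mul]
    calc P.valuation (c i) * P.valuation (m i j0 j0) ≤ P.valuation (c j0) * 1 := by
          gcongr
          · exact hj0 i (Finset.mem_univ i)
          · exact (ValuationSubring.valuation_le_one_iff P _).mpr (hm i j0 j0)
      _ = P.valuation (c j0) := mul_one _
  have h1 : P.valuation (c j0) ≤ 1 := by
    by_contra hcon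
    push Not at hcon
    have hpos : 0 < P.valuation (c j0) := lt_trans (zero_lt_one' _) hcon
    have : P.valuation (c j0) * 1 < P.valuation (c j0) * P.valuation (c j0) := by gcongr
    rw [mul_one] at this
    exact lt_irrefl _ (lt_of_lt_of_le this hle)
  exact (ValuationSubring.valuation_le_one_iff P _).mp
    ((hj0 i (Finset.mem_univ i)).trans h1)

end Coord


/-! ## (R5*): inertia-eigencharacters are trivial on the kernel of reduction -/

section Char

variable {p : ℕ} [Fact p.Prime] {M : Type} [AddCommGroup M]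
  {H : Subalgebra (ratLocalizedAt p) (M → Qb)} {P : ValuationSubring Qb} {act : Gal → M → M}

/-- **(R5*)**  Let `χ : M → μ_p` be a character which is invariant under the inertia elements
fixing `ζ_p`, and such that `σ * χ = χ ^ a` for one `σ` in the inertia group with `a ≢ 1 mod p`
(`(σ * χ) y = σ (χ (σ⁻¹ y))`).  Then `χ` is trivial on the kernel of reduction. -/
theorem char_eq_one_of_mem_redKer (hP : P.LiesOverPrime p) (h : IsFunModel p act H)
    {ζ : Qb} (hζ : IsPrimitiveRoot ζ p) {χ : M → Qb}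
    (hχmul : ∀ x y, χ (x + y) = χ x * χ y) (hχp : ∀ x, χ x ^ p = 1)
    (hχI : ∀ τ ∈ P.inertiaSubgroupIn ℚ, τ ζ = ζ → ∀ x, χ (act τ x) = χ x)
    {σ : Gal} (hσ : σ ∈ P.inertiaSubgroupIn ℚ) {a : ℕ} (ha : ¬ a ≡ 1 [MOD p])
    (hσχ : ∀ x, σ (χ x) = χ (act σ x) ^ a)
    {x : M} (hx : x ∈ redKer H P) : χ x = 1 := by
  have hp : p.Prime := Fact.out
  have : NeZero p := ⟨hp.ne_zero⟩
  obtain ⟨n, b, m, hbH, hli, hspan, hm, hcomul⟩ := exists_good_basis hP h
  obtain ⟨c, hc⟩ := hspan χ
  have hcx : ∀ y, χ y = ∑ i, c i * b i y := by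
    intro y
    conv_lhs => rw [hc]
    rw [Finset.sum_apply]
    exact Finset.sum_congr rfl fun i _ => by rw [Pi.smul_apply, smul_eq_mul]
  have hcP : ∀ i, c i ∈ P := coord_mem_of_char hli hm hcomul hχmul hcx
  -- Galois action on coordinates
  have hgal : ∀ (τ : Gal) (y : M), τ (χ y) = ∑ i, τ (c i) * b i (act τ y) := by
    intro τ y
    rw [hcx y, map_sum]
    exact Finset.sum_congr rfl fun i _ => by rw [map_mul, h.eqv _ (hbH i)]
  -- values of `χ` are powers of `ζ`
  have hfixval : ∀ τ : Gal, τ ζ = ζ → ∀ y, τ (χ y) = χ y := by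
    intro τ hτ y
    obtain ⟨k, -, hk⟩ := hζ.eq_pow_of_pow_eq_one (hχp y)
    rw [← hk, map_pow, hτ]
  -- the coordinates are fixed by the inertia elements fixing `ζ`
  have hcfix : ∀ τ ∈ P.inertiaSubgroupIn ℚ, τ ζ = ζ → ∀ i, τ (c i) = c i := by
    intro τ hτ hτζ i
    have key : ∑ i, (τ (c i) - c i) • b i = 0 := by
      funext y
      rw [Finset.sum_apply, Pi.zero_apply]
      have hy : act τ (act τ.symm y) = y := h.act_act_symm p τ y
      have h1 := hgal τ (act τ.symm y)
      rw [hy, hfixval τ hτζ] at h1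
      have h2 : χ (act τ.symm y) = χ y := by
        rw [← hχI τ hτ hτζ (act τ.symm y), hy]
      rw [h2, hcx y] at h1
      simp only [Pi.smul_apply, smul_eq_mul, sub_mul, Finset.sum_sub_distrib]
      rw [← h1, sub_self]
    exact sub_eq_zero.mp (Fintype.linearIndependent_iff.mp hli _ key i)
  -- the function `χ ^ a - χ` in coordinates
  have hd : ∀ y, ∑ i, (σ (c i) - c i) * b i y = χ y ^ a - χ y := by
    intro y
    have hy : act σ (act σ.symm y) = y := h.act_act_symm p σ y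
    have h1 := hgal σ (act σ.symm y)
    rw [hσχ, hy] at h1
    simp only [sub_mul, Finset.sum_sub_distrib]
    rw [← h1, ← hcx y]
  -- its coordinates are divisible by `ζ - 1`
  have hdval : ∀ i, P.valuation (σ (c i) - c i) ≤ P.valuation (ζ - 1) := by
    intro i
    apply val_le_of_fixed P hP hζ
    · rw [← ValuationSubring.mem_nonunits_iff]
      exact Fermat.Agent.S05.helper4205.apply_sub_mem_nonunits hσ (hcP i)
    · intro τ hτ hτζ
      have hρ : (σ⁻¹ * τ * σ) (c i) = c i := by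
        apply hcfix _ ((P.inertiaSubgroupIn ℚ).mul_mem
          ((P.inertiaSubgroupIn ℚ).mul_mem ((P.inertiaSubgroupIn ℚ).inv_mem hσ) hτ) hσ)
        obtain ⟨e, -, he⟩ := exists_zmod_apply_zeta hζ σ
        rw [AlgEquiv.mul_apply, AlgEquiv.mul_apply, he, map_pow, hτζ, ← he, AlgEquiv.aut_inv,
          AlgEquiv.symm_apply_apply]
      have h6 := congrArg σ hρ
      rw [AlgEquiv.mul_apply, AlgEquiv.mul_apply, AlgEquiv.aut_inv,
        AlgEquiv.apply_symm_apply] at h6
      rw [map_sub, h6, hcfix τ hτ hτζ i]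
  have hχ0 : χ 0 = 1 := by
    have h1 := hχmul 0 0
    rw [add_zero] at h1
    have h2 : χ 0 ≠ 0 := by
      intro h0
      have := hχp 0
      rw [h0, zero_pow hp.ne_zero] at this
      exact zero_ne_one this
    have h3 : 1 * χ 0 = χ 0 * χ 0 := by rw [one_mul]; exact h1
    exact (mul_right_cancel₀ h2 h3).symm
  have hπ0 := val_zeta_sub_one_ne_zero P hp hζ
  have hlt : P.valuation (χ x ^ a - χ x) < P.valuation (ζ - 1) := by
    have h1 : χ x ^ a - χ x = ∑ i, (σ (c i) - c i) * (b i x - b i 0) := by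
      have h0 := hd 0
      rw [hχ0, one_pow, sub_self] at h0
      simp only [mul_sub, Finset.sum_sub_distrib]
      rw [hd x, h0, sub_zero]
    rw [h1]
    refine Valuation.map_sum_lt _ hπ0 fun i _ => ?_
    rw [map_mul]
    exact mul_lt_of_le_of_lt_one hπ0 (hdval i) (hx (b i) (hbH i))
  by_contra hne
  have hξ : IsPrimitiveRoot (χ x) p := isPrimitiveRoot_of_pow_eq_one hp (hχp x) hne
  have hη1 : (χ x ^ a * χ x ^ (p - 1)) ^ p = 1 := by
    rw [mul_pow, ← pow_mul, ← pow_mul, mul_comm a p, mul_comm (p - 1) p, pow_mul, pow_mul,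
      hχp x, one_pow, one_pow, one_mul]
  have hξinv : χ x * χ x ^ (p - 1) = 1 := by
    rw [← pow_succ', Nat.sub_add_cancel hp.one_le, hχp x]
  have hη2 : χ x ^ a * χ x ^ (p - 1) ≠ 1 := by
    intro h1
    have h2 : χ x ^ a = χ x ^ 1 := by
      rw [pow_one]
      have hunit : χ x ^ (p - 1) ≠ 0 := pow_ne_zero _ (hξ.ne_zero hp.ne_zero)
      exact mul_right_cancel₀ hunit (h1.trans hξinv.symm)
    rw [pow_eq_pow_mod a (hχp x), pow_eq_pow_mod 1 (hχp x)] at h2
    exact ha (hξ.pow_inj (Nat.mod_lt _ hp.pos) (Nat.mod_lt _ hp.pos) h2)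
  have hval := val_sub_one_eq P hp hζ hη1 hη2
  have e : χ x ^ a - χ x = χ x * (χ x ^ a * χ x ^ (p - 1) - 1) := by
    rw [mul_sub, mul_one, mul_comm (χ x ^ a), ← mul_assoc, hξinv, one_mul]
  rw [e, map_mul, hval, val_root_eq_one P hp.ne_zero (hχp x), one_mul] at hlt
  exact lt_irrefl _ hlt

end Char


/-! ## (R5), (ET) and the TYPE lemma -/

section Main

variable {p : ℕ} [Fact p.Prime] {M : Type} [AddCommGroup M]
  {H : Subalgebra (ratLocalizedAt p) (M → Qb)} {P : ValuationSubring Qb} {act : Gal → M → M}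

omit [Fact p.Prime] in
/-- A `μ_p`-valued character of `M / L` which is nontrivial at a given point outside `L`. -/
theorem exists_char_of_not_mem [Finite M] (hpM : ∀ x : M, p • x = 0) (L : AddSubgroup M)
    {x : M} (hx : x ∉ L) :
    ∃ χ : M → Qb, (∀ y z, χ (y + z) = χ y * χ z) ∧ (∀ y, χ y ^ p = 1) ∧
      (∀ y z, y - z ∈ L → χ y = χ z) ∧ χ x ≠ 1 := by
  have hne : Multiplicative.ofAdd (QuotientAddGroup.mk x : M ⧸ L) ≠ 1 := by
    intro h1
    apply hx
    rw [ofAdd_eq_one] at h1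
    exact (QuotientAddGroup.eq_zero_iff x).mp h1
  have hexp : NeZero (Monoid.exponent (Multiplicative (M ⧸ L))) :=
    ⟨Monoid.exponent_ne_zero_of_finite⟩
  obtain ⟨φ, hφ⟩ := CommGroup.exists_apply_ne_one_of_hasEnoughRootsOfUnity
    (Multiplicative (M ⧸ L)) Qb hne
  refine ⟨fun y => (φ (Multiplicative.ofAdd (QuotientAddGroup.mk y : M ⧸ L)) : Qb),
    fun y z => ?_, fun y => ?_, fun y z hyz => ?_, fun h1 => hφ (Units.val_eq_one.mp h1)⟩
  · show ((φ (Multiplicative.ofAdd (QuotientAddGroup.mk (y + z) : M ⧸ L)) : Qbˣ) : Qb) = _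
    rw [QuotientAddGroup.mk_add, ofAdd_add, map_mul, Units.val_mul]
  · show ((φ (Multiplicative.ofAdd (QuotientAddGroup.mk y : M ⧸ L)) : Qbˣ) : Qb) ^ p = 1
    rw [← Units.val_pow_eq_pow_val, ← map_pow, ← ofAdd_nsmul, ← QuotientAddGroup.mk_nsmul, hpM,
      QuotientAddGroup.mk_zero, ofAdd_zero, map_one, Units.val_one]
  · show ((φ (Multiplicative.ofAdd (QuotientAddGroup.mk y : M ⧸ L)) : Qbˣ) : Qb) =
      ((φ (Multiplicative.ofAdd (QuotientAddGroup.mk z : M ⧸ L)) : Qbˣ) : Qb)
    rw [(QuotientAddGroup.eq_iff_sub_mem).mpr hyz]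

/-- **(R5)** The kernel of reduction is contained in `(I - 1) M` (`p` odd). -/
theorem mem_closure_inertia_of_mem_redKer (hp2 : p ≠ 2) (hP : P.LiesOverPrime p)
    (h : IsFunModel p act H) (hpM : ∀ x : M, p • x = 0) {x : M} (hx : x ∈ redKer H P) :
    x ∈ AddSubgroup.closure
      {z : M | ∃ σ ∈ P.inertiaSubgroupIn ℚ, ∃ m : M, z = act σ m - m} := by
  have hp : p.Prime := Fact.out
  have hne0 : NeZero p := ⟨hp.ne_zero⟩
  have hfin : Finite M := h.finite p
  by_contra hx'
  obtain ⟨χ, hmul, hpow, hcongr, hχx⟩ := exists_char_of_not_mem hpM _ hx'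
  obtain ⟨ζ, hζ⟩ := HasEnoughRootsOfUnity.exists_primitiveRoot Qb p
  have hinv : ∀ τ ∈ P.inertiaSubgroupIn ℚ, ∀ y, χ (act τ y) = χ y := fun τ hτ y =>
    hcongr _ _ (AddSubgroup.subset_closure ⟨τ, hτ, y, rfl⟩)
  obtain ⟨σ, hσ, hσζ⟩ := exists_inertia_apply_zeta_ne P hp hp2 hP hζ
  obtain ⟨e, -, he⟩ := exists_zmod_apply_zeta hζ σ
  have ha : ¬ e.val ≡ 1 [MOD p] := by
    intro hmod
    apply hσζ
    rw [he]
    calc ζ ^ e.val = ζ ^ (e.val % p) := pow_eq_pow_mod _ hζ.pow_eq_one
      _ = ζ ^ (1 % p) := by rw [hmod]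
      _ = ζ ^ 1 := (pow_eq_pow_mod _ hζ.pow_eq_one).symm
      _ = ζ := pow_one ζ
  have hσχ : ∀ y, σ (χ y) = χ (act σ y) ^ e.val := by
    intro y
    rw [hinv σ hσ y]
    obtain ⟨k, -, hk⟩ := hζ.eq_pow_of_pow_eq_one (hpow y)
    rw [← hk, map_pow, he, ← pow_mul, ← pow_mul, mul_comm]
  exact hχx (char_eq_one_of_mem_redKer hP h hζ hmul hpow (fun τ hτ _ y => hinv τ hτ y) hσ ha
    hσχ hx)

/-- **(ET): left-exactness of the maximal unramified quotient.**  For a `G_ℚ`-stable subgroup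
`Y` of a `p`-torsion module with a function model over `ℤ_(p)` (`p` odd):
`(I - 1) M ∩ Y ⊆ (I - 1) Y`. -/
theorem inertia_closure_inf_le (hp2 : p ≠ 2) (hP : P.LiesOverPrime p)
    (h : IsFunModel p act H) (hpM : ∀ x : M, p • x = 0) (Y : AddSubgroup M)
    (hY : ∀ σ : Gal, ∀ y ∈ Y, act σ y ∈ Y) {x : M} (hxY : x ∈ Y)
    (hx : x ∈ AddSubgroup.closure
      {z : M | ∃ σ ∈ P.inertiaSubgroupIn ℚ, ∃ m : M, z = act σ m - m}) :
    x ∈ AddSubgroup.closure
      {z : M | ∃ σ ∈ P.inertiaSubgroupIn ℚ, ∃ y ∈ Y, z = act σ y - y} := by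
  have hp : p.Prime := Fact.out
  have hx1 : x ∈ redKer H P := closure_inertia_subset_redKer hp hP h hpM hx
  let act' : Gal → Y → Y := fun σ y => ⟨act σ y, hY σ y y.2⟩
  have h' : IsFunModel p act' (H.map (pull p Y.subtype)) :=
    h.map_pull p Y.subtype Subtype.coe_injective (fun _ _ => rfl)
  have hx' : (⟨x, hxY⟩ : Y) ∈ redKer (H.map (pull p Y.subtype)) P := by
    rintro _ ⟨φ, hφ, rfl⟩
    exact hx1 φ hφ
  have h2 := mem_closure_inertia_of_mem_redKer hp2 hP h' (fun y => Subtype.ext (hpM y)) hx'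
  have h3 : Y.subtype ⟨x, hxY⟩ ∈ (AddSubgroup.closure
      {z : Y | ∃ σ ∈ P.inertiaSubgroupIn ℚ, ∃ m : Y, z = act' σ m - m}).map Y.subtype :=
    AddSubgroup.mem_map_of_mem _ h2
  rw [AddMonoidHom.map_closure] at h3
  refine AddSubgroup.closure_mono ?_ h3
  rintro _ ⟨z, ⟨σ, hσ, m, rfl⟩, rfl⟩
  exact ⟨σ, hσ, m.1, m.2, rfl⟩

omit [Fact p.Prime] in
theorem char_zero (hp0 : p ≠ 0) {χ : M → Qb} (hmul : ∀ y z, χ (y + z) = χ y * χ z)
    (hpow : ∀ y, χ y ^ p = 1) : χ 0 = 1 := by
  have h1 := hmul 0 0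
  rw [add_zero] at h1
  have h2 : χ 0 ≠ 0 := by
    intro h0
    have := hpow 0
    rw [h0, zero_pow hp0] at this
    exact zero_ne_one this
  have h3 : 1 * χ 0 = χ 0 * χ 0 := by rw [one_mul]; exact h1
  exact (mul_right_cancel₀ h2 h3).symm

omit [Fact p.Prime] in
theorem char_nsmul {χ : M → Qb} (hmul : ∀ y z, χ (y + z) = χ y * χ z) (h0 : χ 0 = 1) (k : ℕ)
    (y : M) : χ (k • y) = χ y ^ k := by
  induction k with
  | zero => rw [zero_nsmul, pow_zero, h0]
  | succ k ih => rw [succ_nsmul, hmul, ih, pow_succ]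

theorem pow_eq_pow_of_cast_eq {ξ : Qb} (hξ : ξ ^ p = 1) {m n : ℕ}
    (hmn : (m : ZMod p) = (n : ZMod p)) : ξ ^ m = ξ ^ n := by
  have h1 : m % p = n % p := (ZMod.natCast_eq_natCast_iff' m n p).mp hmn
  rw [pow_eq_pow_mod m hξ, pow_eq_pow_mod n hξ, h1]

/-- **TYPE lemma.**  Let `L` be a subgroup of a `p`-torsion module `M` with a function model.
If the inertia elements fixing `ζ_p` act trivially on `M / L` and some `σ` in the inertia group
acts on `M / L` by a scalar `s` with `σ ζ ≠ ζ ^ s`, then the whole inertia group acts trivially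
on `M / L`. -/
theorem inertia_trivial_of_scalar (hP : P.LiesOverPrime p) (h : IsFunModel p act H)
    (hpM : ∀ x : M, p • x = 0) (L : AddSubgroup M) {ζ : Qb} (hζ : IsPrimitiveRoot ζ p)
    (hI' : ∀ τ ∈ P.inertiaSubgroupIn ℚ, τ ζ = ζ → ∀ m : M, act τ m - m ∈ L)
    {σ : Gal} (hσ : σ ∈ P.inertiaSubgroupIn ℚ) {s : ℕ} (hs : ∀ m : M, act σ m - s • m ∈ L)
    (hne : σ ζ ≠ ζ ^ s) :
    ∀ τ ∈ P.inertiaSubgroupIn ℚ, ∀ m : M, act τ m - m ∈ L := by
  have hp : p.Prime := Fact.out
  have hne0 : NeZero p := ⟨hp.ne_zero⟩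
  have hfin : Finite M := h.finite p
  intro τ hτ m
  have hred : act τ m - m ∈ redKer H P := sub_mem_redKer hp hP h hτ m
  by_contra hnot
  obtain ⟨χ, hmul, hpow, hcongr, hχx⟩ := exists_char_of_not_mem hpM L hnot
  have h0 : χ 0 = 1 := char_zero hp.ne_zero hmul hpow
  obtain ⟨e, he0, he⟩ := exists_zmod_apply_zeta hζ σ
  have hχs : ∀ y, χ (act σ y) = χ y ^ s := fun y => by
    rw [hcongr _ _ (hs y), char_nsmul hmul h0]
  by_cases ht : (s : ZMod p) = 0
  · -- `σ` acts as zero on `M / L`: then `L = M`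
    apply hχx
    have h1 : ∀ y, χ (act σ y) = 1 := by
      intro y
      rw [hχs y, pow_eq_pow_of_cast_eq (hpow y) (m := s) (n := 0) (by rw [ht, Nat.cast_zero]),
        pow_zero]
    rw [← h.act_act_symm p σ (act τ m - m)]
    exact h1 _
  · -- the eigen-exponent
    have ha : ¬ (e * (s : ZMod p)⁻¹).val ≡ 1 [MOD p] := by
      intro hmod
      apply hne
      have h1 : (((e * (s : ZMod p)⁻¹).val : ℕ) : ZMod p) = ((1 : ℕ) : ZMod p) :=
        (ZMod.natCast_eq_natCast_iff _ _ _).mpr hmod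
      rw [ZMod.natCast_zmod_val, Nat.cast_one] at h1
      have h2 : e = (s : ZMod p) := by
        have := congrArg (fun z => z * (s : ZMod p)) h1
        simpa [mul_assoc, inv_mul_cancel₀ ht] using this
      rw [he]
      exact pow_eq_pow_of_cast_eq hζ.pow_eq_one (by rw [ZMod.natCast_zmod_val, h2])
    have hσχ : ∀ y, σ (χ y) = χ (act σ y) ^ (e * (s : ZMod p)⁻¹).val := by
      intro y
      rw [hχs y]
      obtain ⟨k, -, hk⟩ := hζ.eq_pow_of_pow_eq_one (hpow y)
      rw [← hk, map_pow, he, ← pow_mul, ← pow_mul, ← pow_mul]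
      apply pow_eq_pow_of_cast_eq hζ.pow_eq_one
      push_cast
      rw [ZMod.natCast_zmod_val, ZMod.natCast_zmod_val]
      field_simp
    exact hχx (char_eq_one_of_mem_redKer hP h hζ hmul hpow
      (fun τ' hτ' hτζ y => hcongr _ _ (hI' τ' hτ' hτζ y)) hσ ha hσχ hred)

end Main


/-! ## Frozen corollaries for flat `GaloisRepAdic` -/

section Frozen

variable {A : Type} [CommRing A] [IsLocalRing A]

/-- The level-`J` quotient of a flat representation has a function model. -/
theorem hasFunModel_level_of_isFlatAt (ρ : GaloisRepAdic A) (p : ℕ) (hflat : ρ.IsFlatAt p)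
    (J : Ideal A) (hJ : Finite (A ⧸ J)) :
    HasFunModel p (ρ.V ⧸ (J • (⊤ : Submodule A ρ.V))) (fun σ => ρ.levelAction J σ) :=
  hasFunModel_of_hasFlatModel p (((isFlatAt_iff p ρ).mp hflat).2 J hJ)

/-- A flat representation over a finite ring has a function model on its full module. -/
theorem hasFunModel_of_isFlatAt [Finite A] (ρ : GaloisRepAdic A) (p : ℕ)
    (hflat : ρ.IsFlatAt p) : HasFunModel p ρ.V (fun σ v => ρ.ρ σ v) := by
  have hfin : Finite (A ⧸ (⊥ : Ideal A)) :=
    Finite.of_surjective (Ideal.Quotient.mk (⊥ : Ideal A)) Ideal.Quotient.mk_surjective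
  have h1 := hasFunModel_level_of_isFlatAt ρ p hflat ⊥ hfin
  refine h1.of_injective p ((⊥ : Ideal A) • (⊤ : Submodule A ρ.V)).mkQ.toAddMonoidHom ?_ ?_
  · have hbot : ((⊥ : Ideal A) • (⊤ : Submodule A ρ.V)) = ⊥ := Submodule.bot_smul _
    intro x y hxy
    have h2 : x - y ∈ ((⊥ : Ideal A) • (⊤ : Submodule A ρ.V)) :=
      (Submodule.Quotient.eq _).mp hxy
    rw [hbot, Submodule.mem_bot, sub_eq_zero] at h2
    exact h2
  · intro σ x
    rfl

/-- **(ET), frozen form.**  `ρ` a flat representation over a finite local ring `A` killed by the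
odd prime `p`, `N` a `G_ℚ`-stable subgroup of `ρ.V`, `I` the inertia group of a place over `p`:
`(I - 1) ρ.V ∩ N ⊆ (I - 1) N`. -/
theorem inertia_inter_of_isFlatAt [Finite A] (ρ : GaloisRepAdic A) (p : ℕ) [Fact p.Prime]
    (hp2 : p ≠ 2) (hpA : (p : A) = 0) (hflat : ρ.IsFlatAt p) (P : ValuationSubring Qb)
    (hP : P.LiesOverPrime p) (N : AddSubgroup ρ.V) (hN : ∀ σ : Gal, ∀ y ∈ N, ρ.ρ σ y ∈ N)
    {x : ρ.V} (hxN : x ∈ N)
    (hx : x ∈ AddSubgroup.closure
      {z : ρ.V | ∃ σ ∈ P.inertiaSubgroupIn ℚ, ∃ m : ρ.V, z = ρ.ρ σ m - m}) :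
    x ∈ AddSubgroup.closure
      {z : ρ.V | ∃ σ ∈ P.inertiaSubgroupIn ℚ, ∃ y ∈ N, z = ρ.ρ σ y - y} := by
  obtain ⟨H, hH⟩ := hasFunModel_of_isFlatAt ρ p hflat
  have hpM : ∀ v : ρ.V, p • v = 0 := fun v => by
    rw [← Nat.cast_smul_eq_nsmul A, hpA, zero_smul]
  exact inertia_closure_inf_le hp2 hP hH hpM N hN hxN hx

/-- **(ET), frozen form at level `J`** (`A ⧸ J` finite, `p ∈ J`). -/
theorem inertia_inter_level_of_isFlatAt (ρ : GaloisRepAdic A) (p : ℕ) [Fact p.Prime]
    (hp2 : p ≠ 2) (hflat : ρ.IsFlatAt p) (J : Ideal A) (hJ : Finite (A ⧸ J))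
    (hpJ : (p : A) ∈ J) (P : ValuationSubring Qb) (hP : P.LiesOverPrime p)
    (N : AddSubgroup (ρ.V ⧸ (J • (⊤ : Submodule A ρ.V))))
    (hN : ∀ σ : Gal, ∀ y ∈ N, ρ.levelAction J σ y ∈ N)
    {x : ρ.V ⧸ (J • (⊤ : Submodule A ρ.V))} (hxN : x ∈ N)
    (hx : x ∈ AddSubgroup.closure
      {z | ∃ σ ∈ P.inertiaSubgroupIn ℚ, ∃ m, z = ρ.levelAction J σ m - m}) :
    x ∈ AddSubgroup.closure
      {z | ∃ σ ∈ P.inertiaSubgroupIn ℚ, ∃ y ∈ N, z = ρ.levelAction J σ y - y} := by
  obtain ⟨H, hH⟩ := hasFunModel_level_of_isFlatAt ρ p hflat J hJ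
  have hpM : ∀ v : ρ.V ⧸ (J • (⊤ : Submodule A ρ.V)), p • v = 0 := by
    intro v
    obtain ⟨w, rfl⟩ := Submodule.Quotient.mk_surjective _ v
    rw [← Submodule.Quotient.mk_smul, Submodule.Quotient.mk_eq_zero,
      ← Nat.cast_smul_eq_nsmul A]
    exact Submodule.smul_mem_smul hpJ Submodule.mem_top
  exact inertia_closure_inf_le hp2 hP hH hpM N hN hxN hx

/-- **TYPE lemma, frozen form at level `J`.** -/
theorem inertia_trivial_level_of_isFlatAt (ρ : GaloisRepAdic A) (p : ℕ) [Fact p.Prime]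
    (hflat : ρ.IsFlatAt p) (J : Ideal A) (hJ : Finite (A ⧸ J))
    (hpJ : (p : A) ∈ J) (P : ValuationSubring Qb) (hP : P.LiesOverPrime p)
    (L : AddSubgroup (ρ.V ⧸ (J • (⊤ : Submodule A ρ.V)))) {ζ : Qb} (hζ : IsPrimitiveRoot ζ p)
    (hI' : ∀ τ ∈ P.inertiaSubgroupIn ℚ, τ ζ = ζ → ∀ m, ρ.levelAction J τ m - m ∈ L)
    {σ : Gal} (hσ : σ ∈ P.inertiaSubgroupIn ℚ) {s : ℕ}
    (hs : ∀ m, ρ.levelAction J σ m - s • m ∈ L) (hne : σ ζ ≠ ζ ^ s) :
    ∀ τ ∈ P.inertiaSubgroupIn ℚ, ∀ m, ρ.levelAction J τ m - m ∈ L := by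
  obtain ⟨H, hH⟩ := hasFunModel_level_of_isFlatAt ρ p hflat J hJ
  have hpM : ∀ v : ρ.V ⧸ (J • (⊤ : Submodule A ρ.V)), p • v = 0 := by
    intro v
    obtain ⟨w, rfl⟩ := Submodule.Quotient.mk_surjective _ v
    rw [← Submodule.Quotient.mk_smul, Submodule.Quotient.mk_eq_zero,
      ← Nat.cast_smul_eq_nsmul A]
    exact Submodule.smul_mem_smul hpJ Submodule.mem_top
  exact inertia_trivial_of_scalar hP hH hpM L hζ hI' hσ hs hne

end Frozen

end Fermat.Agent.S56.helper4251
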