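import Mathlib
import Fermat.Agent.S56.helper4251_RedArith
import Fermat.Agent.Lib.helper3858_ResidueQbar

/-!
# Flat ⟹ peu ramifié, directly on the function model (helper4251, node FLAT-REDPEU)

Let `M` be a `p`-torsion module with a function model `H` over `ℤ_(p)` (the frozen shape of
`GaloisRepAdic.IsFlatAt`), `P` a place of `ℚ̄` over `p` with inertia group `I`, and `L ≤ M` a
subgroup such that

* `I` acts on `L` through the mod `p` cyclotomic character, and
* `I` acts trivially on `M / L`.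

Then for every character `ψ : M → μ_p` and every point `x : M`, the Kummer cocycle
`σ ↦ ψ (σ x - x)` on `I` has a generator `s` which is a **unit** at `P`, and whose radicand
`s ^ p` is congruent to `1` modulo `p`, up to the `p`-th power of an inertia-fixed element
(`exists_peu_kummer`).

The proof is an averaging argument: the twisted average over `L` of a function of the model is
again integral, because each twisted line sum is an inertia-fixed element of the maximal ideal,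
hence divisible by `p`.
-/

set_option autoImplicit false

namespace Fermat.Agent.S56.helper4251

open GaloisRep
open Fermat.Agent.S32.helper1304

local notation "Qb" => AlgebraicClosure ℚ
local notation "Gal" => (AlgebraicClosure ℚ ≃ₐ[ℚ] AlgebraicClosure ℚ)

/-! ## Twisted box sums -/

section TBox

variable {p : ℕ} [Fact p.Prime] {M : Type} [AddCommGroup M]

/-- The twisted box sum of `g` along a list `ts` of points:
`tbox ψ [t₁, …, tₙ] g m = ∑_{i₁, …, iₙ mod p} ψ(∑ iₖ tₖ)⁻¹ g (m + ∑ iₖ tₖ)`. -/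
noncomputable def tbox (p : ℕ) [Fact p.Prime] (ψ : M → Qb) : List M → (M → Qb) → M → Qb
  | [], g => g
  | t :: ts, g => fun m => ∑ i : ZMod p, (ψ (i.val • t))⁻¹ * tbox p ψ ts g (m + i.val • t)

theorem tbox_nil (ψ : M → Qb) (g : M → Qb) : tbox p ψ [] g = g := rfl

theorem tbox_cons (ψ : M → Qb) (t : M) (ts : List M) (g : M → Qb) (m : M) :
    tbox p ψ (t :: ts) g m =
      ∑ i : ZMod p, (ψ (i.val • t))⁻¹ * tbox p ψ ts g (m + i.val • t) := rfl

theorem val_add_nsmul {t : M} (ht : p • t = 0) (a b : ZMod p) :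
    (a + b).val • t = a.val • t + b.val • t := by
  rw [ZMod.val_add, ← nsmul_eq_mod_nsmul _ ht, add_nsmul]

theorem val_mul_nsmul {t : M} (ht : p • t = 0) (a b : ZMod p) :
    (a * b).val • t = a.val • (b.val • t) := by
  rw [ZMod.val_mul, ← nsmul_eq_mod_nsmul _ ht, mul_nsmul']

/-- Linearity of the twisted box sum. -/
theorem tbox_sum {ι : Type*} [Fintype ι] (ψ : M → Qb) (ts : List M) (c : ι → Qb)
    (g : ι → M → Qb) (m : M) :
    tbox p ψ ts (fun m => ∑ j, c j * g j m) m = ∑ j, c j * tbox p ψ ts (g j) m := by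
  induction ts generalizing m with
  | nil => rfl
  | cons t ts ih =>
    rw [tbox_cons]
    simp_rw [ih, tbox_cons, Finset.mul_sum]
    rw [Finset.sum_comm]
    refine Finset.sum_congr rfl fun j _ => Finset.sum_congr rfl fun i _ => ?_
    ring

/-- The twisted box sum of the twisting character itself. -/
theorem tbox_self {ψ : M → Qb} (hψmul : ∀ x y, ψ (x + y) = ψ x * ψ y) (hψ0 : ∀ x, ψ x ≠ 0)
    (ts : List M) (m : M) : tbox p ψ ts ψ m = (p : Qb) ^ ts.length * ψ m := by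
  induction ts generalizing m with
  | nil => rw [tbox_nil, List.length_nil, pow_zero, one_mul]
  | cons t ts ih =>
    rw [tbox_cons]
    have h1 : ∀ i : ZMod p, (ψ (i.val • t))⁻¹ * tbox p ψ ts ψ (m + i.val • t)
        = (p : Qb) ^ ts.length * ψ m := by
      intro i
      rw [ih, hψmul]
      have := hψ0 (i.val • t)
      field_simp
    rw [Finset.sum_congr rfl fun i _ => h1 i, Finset.sum_const, Finset.card_univ, ZMod.card,
      List.length_cons, pow_succ, nsmul_eq_mul]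
    ring

/-- Covariance of the twisted box sum under translation by a member of the list. -/
theorem tbox_add_mem (hpM : ∀ x : M, p • x = 0) {ψ : M → Qb}
    (hψmul : ∀ x y, ψ (x + y) = ψ x * ψ y) (hψ0 : ∀ x, ψ x ≠ 0) (g : M → Qb) (ts : List M)
    {l : M} (hl : l ∈ ts) (m : M) : tbox p ψ ts g (m + l) = ψ l * tbox p ψ ts g m := by
  induction ts generalizing m with
  | nil => exact absurd hl List.not_mem_nil
  | cons t ts ih =>
    rw [tbox_cons, tbox_cons, Finset.mul_sum]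
    rcases List.mem_cons.mp hl with hlt | hl'
    · subst hlt
      rw [← Equiv.sum_comp (Equiv.addRight (1 : ZMod p))
        (fun i => ψ l * ((ψ (i.val • l))⁻¹ * tbox p ψ ts g (m + i.val • l)))]
      refine Finset.sum_congr rfl fun i _ => ?_
      have e : (i + 1).val • l = i.val • l + l := by
        rw [val_add_nsmul (hpM l), ZMod.val_one, one_nsmul]
      have e2 : m + l + i.val • l = m + (i.val • l + l) := by abel
      rw [Equiv.coe_addRight, e, hψmul, e2]
      have h1 := hψ0 (i.val • l)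
      have h2 := hψ0 l
      field_simp
    · refine Finset.sum_congr rfl fun i _ => ?_
      rw [add_right_comm, ih hl']
      ring

end TBox

/-! ## Roots of unity -/

section RootsPeu

variable {p : ℕ} (P : ValuationSubring Qb)

theorem val_root_sub_one_lt_one (hp : p.Prime) (hP : P.LiesOverPrime p) {ξ : Qb}
    (hξ : ξ ^ p = 1) : P.valuation (ξ - 1) < 1 := by
  by_cases hξ1 : ξ = 1
  · rw [hξ1, sub_self, map_zero]
    exact zero_lt_one' _
  · exact val_zeta_sub_one_lt_one P hp hP (isPrimitiveRoot_of_pow_eq_one hp hξ hξ1)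

theorem apply_root_eq_pow (hp : p.Prime) {ζ ξ : Qb} (hζ : IsPrimitiveRoot ζ p) (hξ : ξ ^ p = 1)
    {σ : Gal} {k : ℕ} (hσ : σ ζ = ζ ^ k) : σ ξ = ξ ^ k := by
  have : NeZero p := ⟨hp.ne_zero⟩
  obtain ⟨i, -, hi⟩ := hζ.eq_pow_of_pow_eq_one hξ
  rw [← hi, map_pow, hσ, ← pow_mul, ← pow_mul, mul_comm]

end RootsPeu

/-! ## Integrality of twisted sums -/

section Int

variable {p : ℕ} [Fact p.Prime] {M : Type} [AddCommGroup M]
  {H : Subalgebra (ratLocalizedAt p) (M → Qb)} {P : ValuationSubring Qb} {act : Gal → M → M}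

/-- A function whose coordinates in the family `b` are `P`-integral. -/
def IsIntCoord (P : ValuationSubring Qb) {n : ℕ} (b : Fin n → M → Qb) (f : M → Qb) : Prop :=
  ∃ c : Fin n → Qb, (∀ j, c j ∈ P) ∧ ∀ m, f m = ∑ j, c j * b j m

omit [Fact p.Prime] [AddCommGroup M] in
theorem isIntCoord_basis {n : ℕ} (b : Fin n → M → Qb) (j : Fin n) : IsIntCoord P b (b j) := by
  classical
  refine ⟨fun i => if i = j then 1 else 0, fun i => ?_, fun m => ?_⟩
  · dsimp only
    by_cases hij : i = j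
    · rw [if_pos hij]
      exact P.one_mem
    · rw [if_neg hij]
      exact P.zero_mem
  · simp

/-- **Twisted line sums are divisible by `p`.**  For `t` in a subgroup `L` of the kernel of
reduction on which inertia acts through the cyclotomic character, and `φ` in the model,
`∑_{i mod p} ψ(i t)⁻¹ φ(i t)` is an inertia-fixed element of the maximal ideal. -/
theorem twisted_line_mem (hP : P.LiesOverPrime p) (h : IsFunModel p act H)
    (hpM : ∀ x : M, p • x = 0) {ζ : Qb} (hζ : IsPrimitiveRoot ζ p) (L : AddSubgroup M)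
    (hL1 : ∀ σ ∈ P.inertiaSubgroupIn ℚ, ∀ a : ℕ, σ ζ = ζ ^ a → ∀ l ∈ L, act σ l = a • l)
    (hLred : ∀ l ∈ L, l ∈ redKer H P)
    {ψ : M → Qb} (hψmul : ∀ x y, ψ (x + y) = ψ x * ψ y) (hψp : ∀ x, ψ x ^ p = 1)
    {φ : M → Qb} (hφ : φ ∈ H) {t : M} (ht : t ∈ L) :
    (∑ i : ZMod p, (ψ (i.val • t))⁻¹ * φ (i.val • t)) / (p : Qb) ∈ P := by
  have hp : p.Prime := Fact.out
  have hψ0 : ψ 0 = 1 := char_zero hp.ne_zero hψmul hψp
  rw [← ValuationSubring.valuation_le_one_iff]
  refine Fermat.Agent.S58.helper6024.unram hp P hP _ ?_ ?_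
  · intro σ hσ
    obtain ⟨c, hc, hσζ⟩ := exists_zmod_apply_zeta hζ σ
    rw [map_sum, ← Equiv.sum_comp (Equiv.mulLeft₀ c hc)
      (fun i => (ψ (i.val • t))⁻¹ * φ (i.val • t))]
    refine Finset.sum_congr rfl fun i _ => ?_
    rw [map_mul, map_inv₀, ← h.eqv φ hφ, hL1 σ hσ c.val hσζ _ (L.nsmul_mem ht _),
      apply_root_eq_pow hp hζ (hψp _) hσζ, ← char_nsmul hψmul hψ0, ← val_mul_nsmul (hpM t)]
    rfl
  · have e : ∑ i : ZMod p, (ψ (i.val • t))⁻¹ * φ (i.val • t)
        = ∑ i : ZMod p, ((ψ (i.val • t))⁻¹ * φ (i.val • t) - φ 0) + (p : Qb) * φ 0 := by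
      rw [Finset.sum_sub_distrib, Finset.sum_const, Finset.card_univ, ZMod.card, nsmul_eq_mul]
      ring
    rw [e]
    refine lt_of_le_of_lt (Valuation.map_add _ _ _) (max_lt ?_ ?_)
    · refine Valuation.map_sum_lt _ one_ne_zero fun i _ => ?_
      have e2 : (ψ (i.val • t))⁻¹ * φ (i.val • t) - φ 0
          = (ψ (i.val • t))⁻¹ * (φ (i.val • t) - φ 0) + ((ψ (i.val • t))⁻¹ - 1) * φ 0 := by ring
      have hinv : ((ψ (i.val • t))⁻¹) ^ p = 1 := by rw [inv_pow, hψp, inv_one]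
      rw [e2]
      refine lt_of_le_of_lt (Valuation.map_add _ _ _) (max_lt ?_ ?_)
      · rw [map_mul, val_root_eq_one P hp.ne_zero hinv, one_mul]
        exact hLred _ (L.nsmul_mem ht _) φ hφ
      · rw [map_mul]
        exact mul_lt_one_of_lt_of_le_one (val_root_sub_one_lt_one P hp hP hinv)
          (val_le_one hp hP h hφ 0)
    · rw [map_mul]
      exact mul_lt_one_of_lt_of_le_one ((ValuationSubring.mem_nonunits_iff P).mp hP)
        (val_le_one hp hP h hφ 0)

/-- A twisted line sum of a function with integral coordinates is `p` times a function with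
integral coordinates. -/
theorem line_isIntCoord {n : ℕ} {b : Fin n → M → Qb} {mm : Fin n → Fin n → Fin n → Qb}
    (hmm : ∀ i j k, mm i j k ∈ P)
    (hcomul : ∀ i x y, b i (x + y) = ∑ j, ∑ k, mm i j k * (b j x * b k y))
    (ψ : M → Qb) (t : M)
    (hT : ∀ k, (∑ i : ZMod p, (ψ (i.val • t))⁻¹ * b k (i.val • t)) / (p : Qb) ∈ P)
    {f : M → Qb} (hf : IsIntCoord P b f) :
    ∃ f' : M → Qb, IsIntCoord P b f' ∧
      ∀ m, ∑ i : ZMod p, (ψ (i.val • t))⁻¹ * f (m + i.val • t) = (p : Qb) * f' m := by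
  have hp : p.Prime := Fact.out
  have hp0 : (p : Qb) ≠ 0 := by exact_mod_cast hp.ne_zero
  obtain ⟨c, hc, hfc⟩ := hf
  set T : Fin n → Qb := fun k => (∑ i : ZMod p, (ψ (i.val • t))⁻¹ * b k (i.val • t)) / (p : Qb)
    with hTdef
  have hpT : ∀ k, ∑ i : ZMod p, (ψ (i.val • t))⁻¹ * b k (i.val • t) = (p : Qb) * T k := by
    intro k
    rw [hTdef]
    field_simp
  -- stage A: basis elements
  have hA : ∀ l m, ∑ i : ZMod p, (ψ (i.val • t))⁻¹ * b l (m + i.val • t)
      = (p : Qb) * ∑ j, (∑ k, mm l j k * T k) * b j m := by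
    intro l m
    have e1 : ∀ i : ZMod p, (ψ (i.val • t))⁻¹ * b l (m + i.val • t)
        = ∑ j, ∑ k, mm l j k * b j m * ((ψ (i.val • t))⁻¹ * b k (i.val • t)) := by
      intro i
      rw [hcomul, Finset.mul_sum]
      refine Finset.sum_congr rfl fun j _ => ?_
      rw [Finset.mul_sum]
      refine Finset.sum_congr rfl fun k _ => ?_
      ring
    rw [Finset.sum_congr rfl fun i _ => e1 i, Finset.sum_comm, Finset.mul_sum]
    refine Finset.sum_congr rfl fun j _ => ?_
    rw [Finset.sum_comm, Finset.sum_mul, Finset.mul_sum]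
    refine Finset.sum_congr rfl fun k _ => ?_
    rw [← Finset.mul_sum, hpT]
    ring
  refine ⟨fun m => ∑ j, (∑ l, c l * ∑ k, mm l j k * T k) * b j m,
    ⟨fun j => ∑ l, c l * ∑ k, mm l j k * T k, fun j => ?_, fun m => rfl⟩, fun m => ?_⟩
  · exact sum_mem fun l _ => mul_mem (hc l) (sum_mem fun k _ => mul_mem (hmm l j k) (hT k))
  · have e1 : ∀ i : ZMod p, (ψ (i.val • t))⁻¹ * f (m + i.val • t)
        = ∑ l, c l * ((ψ (i.val • t))⁻¹ * b l (m + i.val • t)) := by
      intro i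
      rw [hfc, Finset.mul_sum]
      refine Finset.sum_congr rfl fun l _ => ?_
      ring
    rw [Finset.sum_congr rfl fun i _ => e1 i, Finset.sum_comm]
    simp_rw [← Finset.mul_sum, hA]
    have e3 : ∀ j, (∑ l, c l * ∑ k, mm l j k * T k) * b j m
        = ∑ l, c l * ((∑ k, mm l j k * T k) * b j m) := by
      intro j
      rw [Finset.sum_mul]
      exact Finset.sum_congr rfl fun l _ => by ring
    rw [Finset.sum_congr rfl fun j _ => e3 j, Finset.sum_comm, Finset.mul_sum]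
    refine Finset.sum_congr rfl fun l _ => ?_
    rw [← Finset.mul_sum]
    ring

/-- The twisted box sum along `ts` of a function with integral coordinates is `p ^ ts.length`
times a function with integral coordinates. -/
theorem tbox_isIntCoord {n : ℕ} {b : Fin n → M → Qb} {mm : Fin n → Fin n → Fin n → Qb}
    (hmm : ∀ i j k, mm i j k ∈ P)
    (hcomul : ∀ i x y, b i (x + y) = ∑ j, ∑ k, mm i j k * (b j x * b k y))
    (ψ : M → Qb) (ts : List M)
    (hT : ∀ t ∈ ts, ∀ k, (∑ i : ZMod p, (ψ (i.val • t))⁻¹ * b k (i.val • t)) / (p : Qb) ∈ P)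
    {f : M → Qb} (hf : IsIntCoord P b f) :
    ∃ f' : M → Qb, IsIntCoord P b f' ∧
      ∀ m, tbox p ψ ts f m = (p : Qb) ^ ts.length * f' m := by
  induction ts with
  | nil => exact ⟨f, hf, fun m => by rw [tbox_nil, List.length_nil, pow_zero, one_mul]⟩
  | cons t ts ih =>
    obtain ⟨f1, hf1, e1⟩ := ih fun t' ht' => hT t' (List.mem_cons_of_mem _ ht')
    obtain ⟨f2, hf2, e2⟩ := line_isIntCoord hmm hcomul ψ t (hT t List.mem_cons_self) hf1
    refine ⟨f2, hf2, fun m => ?_⟩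
    rw [tbox_cons]
    simp_rw [e1]
    rw [List.length_cons, pow_succ, mul_assoc, ← e2 m, Finset.mul_sum]
    refine Finset.sum_congr rfl fun i _ => ?_
    ring

/-- Inertia-equivariance of the twisted box sums of functions of the model. -/
theorem tbox_galois (h : IsFunModel p act H) (hpM : ∀ x : M, p • x = 0) (L : AddSubgroup M)
    {ψ : M → Qb} (hψmul : ∀ x y, ψ (x + y) = ψ x * ψ y) (hψp : ∀ x, ψ x ^ p = 1)
    {ζ : Qb} (hζ : IsPrimitiveRoot ζ p) {σ : Gal} {c : ZMod p} (hc : c ≠ 0)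
    (hσζ : σ ζ = ζ ^ c.val) (hσL : ∀ l ∈ L, act σ l = c.val • l)
    {g : M → Qb} (hg : g ∈ H) (ts : List M) (hts : ∀ t ∈ ts, t ∈ L) (m : M) :
    σ (tbox p ψ ts g m) = tbox p ψ ts g (act σ m) := by
  have hp : p.Prime := Fact.out
  have hψ0 : ψ 0 = 1 := char_zero hp.ne_zero hψmul hψp
  induction ts generalizing m with
  | nil => exact (h.eqv g hg σ m).symm
  | cons t ts ih =>
    have htL : t ∈ L := hts t List.mem_cons_self
    rw [tbox_cons, tbox_cons, map_sum, ← Equiv.sum_comp (Equiv.mulLeft₀ c hc)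
      (fun i => (ψ (i.val • t))⁻¹ * tbox p ψ ts g (act σ m + i.val • t))]
    refine Finset.sum_congr rfl fun i _ => ?_
    rw [map_mul, map_inv₀, ih (fun t' ht' => hts t' (List.mem_cons_of_mem _ ht')),
      h.act_add p, hσL _ (L.nsmul_mem htL _), apply_root_eq_pow hp hζ (hψp _) hσζ,
      ← char_nsmul hψmul hψ0, ← val_mul_nsmul (hpM t)]
    rfl

end Int

/-! ## The main theorem -/

section MainPeu

variable {p : ℕ} [Fact p.Prime] {M : Type} [AddCommGroup M]
  {H : Subalgebra (ratLocalizedAt p) (M → Qb)} {P : ValuationSubring Qb} {act : Gal → M → M}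

/-- A subgroup on which inertia acts through the cyclotomic character lies in the kernel of
reduction (`p` odd). -/
theorem mem_redKer_of_cyclotomic (hp2 : p ≠ 2) (hP : P.LiesOverPrime p)
    (h : IsFunModel p act H) (hpM : ∀ x : M, p • x = 0) {ζ : Qb} (hζ : IsPrimitiveRoot ζ p)
    (L : AddSubgroup M)
    (hL1 : ∀ σ ∈ P.inertiaSubgroupIn ℚ, ∀ a : ℕ, σ ζ = ζ ^ a → ∀ l ∈ L, act σ l = a • l)
    {l : M} (hl : l ∈ L) : l ∈ redKer H P := by
  have hp : p.Prime := Fact.out
  obtain ⟨σ, hσ, hσζ⟩ := exists_inertia_apply_zeta_ne P hp hp2 hP hζ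
  obtain ⟨c, -, hcζ⟩ := exists_zmod_apply_zeta hζ σ
  have hc1 : c ≠ 1 := by
    rintro rfl
    rw [ZMod.val_one, pow_one] at hcζ
    exact hσζ hcζ
  have h1 : act σ l - l ∈ redKer H P := sub_mem_redKer hp hP h hσ l
  rw [hL1 σ hσ c.val hcζ l hl] at h1
  have h2 := nsmul_mem_redKer hp hP h h1 ((c - 1)⁻¹ : ZMod p).val
  have e : ((c - 1)⁻¹ : ZMod p).val • (c.val • l - l) = l := by
    have hdc : (c - 1)⁻¹ * c = 1 + (c - 1)⁻¹ := by
      have h3 : (c - 1)⁻¹ * (c - 1) = 1 := inv_mul_cancel₀ (sub_ne_zero.mpr hc1)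
      linear_combination h3
    rw [smul_sub, ← val_mul_nsmul (hpM l), hdc, val_add_nsmul (hpM l), ZMod.val_one, one_nsmul,
      add_sub_cancel_right]
  rwa [e] at h2

/-- **Unit Kummer generators.**  In the situation of the header, the cocycle
`σ ↦ ψ (σ x - x)` on the inertia group is the coboundary of a unit. -/
theorem exists_unit_kummer (hp2 : p ≠ 2) (hP : P.LiesOverPrime p) (h : IsFunModel p act H)
    (hpM : ∀ x : M, p • x = 0) {ζ : Qb} (hζ : IsPrimitiveRoot ζ p) (L : AddSubgroup M)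
    (hL1 : ∀ σ ∈ P.inertiaSubgroupIn ℚ, ∀ a : ℕ, σ ζ = ζ ^ a → ∀ l ∈ L, act σ l = a • l)
    (hL2 : ∀ σ ∈ P.inertiaSubgroupIn ℚ, ∀ m : M, act σ m - m ∈ L)
    {ψ : M → Qb} (hψmul : ∀ x y, ψ (x + y) = ψ x * ψ y) (hψp : ∀ x, ψ x ^ p = 1) (x : M) :
    ∃ s : Qb, P.valuation s = 1 ∧
      ∀ σ ∈ P.inertiaSubgroupIn ℚ, σ s = ψ (act σ x - x) * s := by
  classical
  have hp : p.Prime := Fact.out
  have hp0 : (p : Qb) ≠ 0 := by exact_mod_cast hp.ne_zero
  have hψne : ∀ y, ψ y ≠ 0 := fun y hy => by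
    have h1 := hψp y
    rw [hy, zero_pow hp.ne_zero] at h1
    exact zero_ne_one h1
  have hfin : Finite M := h.finite p
  have : Fintype M := Fintype.ofFinite M
  obtain ⟨n, b, mm, hbH, hli, hspan, hmm, hcomul⟩ := exists_good_basis hP h
  set ts : List M := (Finset.univ.filter (fun l : M => l ∈ L)).toList with hts
  have hmem : ∀ l : M, l ∈ ts ↔ l ∈ L := fun l => by
    rw [hts, Finset.mem_toList, Finset.mem_filter]
    simp
  have hLred : ∀ l ∈ L, l ∈ redKer H P := fun l hl =>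
    mem_redKer_of_cyclotomic hp2 hP h hpM hζ L hL1 hl
  have hT : ∀ t ∈ ts, ∀ k,
      (∑ i : ZMod p, (ψ (i.val • t))⁻¹ * b k (i.val • t)) / (p : Qb) ∈ P :=
    fun t ht k => twisted_line_mem hP h hpM hζ L hL1 hLred hψmul hψp (hbH k) ((hmem t).mp ht)
  choose f hf hfe using fun j =>
    tbox_isIntCoord hmm hcomul ψ ts hT (isIntCoord_basis (P := P) b j)
  have hfP : ∀ j m, f j m ∈ P := by
    intro j m
    obtain ⟨c, hc, hfc⟩ := hf j
    rw [hfc]
    exact sum_mem fun i _ => mul_mem (hc i) (val_mem hp hP h (hbH i) m)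
  obtain ⟨c, hc⟩ := hspan ψ
  have hc' : ∀ y, ψ y = ∑ j, c j * b j y := by
    intro y
    conv_lhs => rw [hc]
    rw [Finset.sum_apply]
    rfl
  have hcP : ∀ j, c j ∈ P := coord_mem_of_char hli hmm hcomul hψmul hc'
  have hpN : (p : Qb) ^ ts.length ≠ 0 := pow_ne_zero _ hp0
  have hsum : ∑ j, c j * f j x = ψ x := by
    have h1 := tbox_sum (p := p) ψ ts c b x
    rw [← funext hc', tbox_self hψmul hψne] at h1
    apply mul_left_cancel₀ hpN
    rw [h1, Finset.mul_sum]
    refine Finset.sum_congr rfl fun j _ => ?_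
    rw [hfe]
    ring
  have hex : ∃ j, P.valuation (f j x) = 1 := by
    by_contra hcon
    push Not at hcon
    have hlt : P.valuation (∑ j, c j * f j x) < 1 := by
      refine Valuation.map_sum_lt _ one_ne_zero fun j _ => ?_
      rw [map_mul, mul_comm]
      exact mul_lt_one_of_lt_of_le_one
        (lt_of_le_of_ne ((ValuationSubring.valuation_le_one_iff P _).mpr (hfP j x)) (hcon j))
        ((ValuationSubring.valuation_le_one_iff P _).mpr (hcP j))
    rw [hsum, val_root_eq_one P hp.ne_zero (hψp x)] at hlt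
    exact lt_irrefl _ hlt
  obtain ⟨j, hj⟩ := hex
  refine ⟨f j x, hj, fun σ hσ => ?_⟩
  obtain ⟨c0, hc0, hσζ⟩ := exists_zmod_apply_zeta hζ σ
  have hg := tbox_galois h hpM L hψmul hψp hζ hc0 hσζ
    (fun l hl => hL1 σ hσ c0.val hσζ l hl) (hbH j) ts (fun t ht => (hmem t).mp ht) x
  have hcov := tbox_add_mem hpM hψmul hψne (b j) ts ((hmem _).mpr (hL2 σ hσ x)) x
  rw [add_sub_cancel, hfe, hfe] at hcov
  rw [hfe, hfe, hcov, map_mul, map_pow, map_natCast] at hg
  exact mul_left_cancel₀ hpN (hg.trans (by ring))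

/-- **Inertia-fixed units are `p`-th powers modulo `p`**: for a unit `u` fixed by the inertia
group there is an inertia-fixed `w ≠ 0` with `u * w ^ p ≡ 1` modulo `p`. -/
theorem exists_pth_power_mul_sub_one (hP : P.LiesOverPrime p) {u : Qb}
    (hu : P.valuation u = 1) (hfix : ∀ σ ∈ P.inertiaSubgroupIn ℚ, σ u = u) :
    ∃ w : Qb, w ≠ 0 ∧ (∀ σ ∈ P.inertiaSubgroupIn ℚ, σ w = w) ∧
      P.valuation (u * w ^ p - 1) ≤ P.valuation (p : Qb) := by
  have hp : p.Prime := Fact.out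
  have hu0 : u ≠ 0 := by
    rintro rfl
    rw [map_zero] at hu
    exact zero_ne_one hu
  have huP : u ∈ P := (ValuationSubring.valuation_le_one_iff P _).mp hu.le
  have halg : Algebra.IsAlgebraic ℚ Qb := AlgebraicClosure.isAlgebraic ℚ
  obtain ⟨n, hn, hx⟩ := Fermat.Agent.Lib.helper3858.exists_pow_eq_self_residueField P hp hP
    (IsLocalRing.residue P ⟨u, huP⟩)
  have h1 : P.valuation (u ^ (p ^ n) - u) < 1 := by
    have h2 : (⟨u, huP⟩ : P) ^ (p ^ n) - ⟨u, huP⟩ ∈ IsLocalRing.maximalIdeal P := by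
      rw [← IsLocalRing.residue_eq_zero_iff, map_sub, map_pow, hx, sub_self]
    have h3 := (ValuationSubring.valuation_lt_one_iff P _).mp h2
    simpa using h3
  set N := p ^ n - 1 with hN
  have hN1 : N + 1 = p ^ n := Nat.sub_add_cancel (Nat.one_le_pow _ _ hp.pos)
  have h4 : P.valuation (u ^ N - 1) < 1 := by
    have e : u ^ (p ^ n) - u = u * (u ^ N - 1) := by
      rw [← hN1]
      ring
    rw [e, map_mul, hu, one_mul] at h1
    exact h1
  refine ⟨(u⁻¹) ^ (p ^ (n - 1)), pow_ne_zero _ (inv_ne_zero hu0),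
    fun σ hσ => by rw [map_pow, map_inv₀, hfix σ hσ], ?_⟩
  have e5 : u * ((u⁻¹) ^ (p ^ (n - 1))) ^ p - 1 = -(u ^ N - 1) * (u⁻¹) ^ N := by
    have e6 : p ^ (n - 1) * p = N + 1 := by
      rw [hN1, ← pow_succ, Nat.sub_add_cancel hn]
    have h7 : u ^ N * (u⁻¹) ^ N = 1 := by rw [← mul_pow, mul_inv_cancel₀ hu0, one_pow]
    have h8 : u * ((u⁻¹) ^ N * u⁻¹) = (u⁻¹) ^ N := by
      rw [mul_comm, mul_assoc, inv_mul_cancel₀ hu0, mul_one]
    rw [← pow_mul, e6, pow_succ, h8]
    linear_combination h7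
  have hfix' : ∀ σ ∈ P.inertiaSubgroupIn ℚ,
      σ (-(u ^ N - 1) * (u⁻¹) ^ N) = -(u ^ N - 1) * (u⁻¹) ^ N := by
    intro σ hσ
    simp only [map_mul, map_neg, map_sub, map_pow, map_inv₀, map_one, hfix σ hσ]
  have hv : P.valuation (-(u ^ N - 1) * (u⁻¹) ^ N) < 1 := by
    rw [map_mul, Valuation.map_neg, map_pow, map_inv₀, hu, inv_one, one_pow, mul_one]
    exact h4
  have hun := Fermat.Agent.S58.helper6024.unram hp P hP _ hfix' hv
  have hp0 : P.valuation (p : Qb) ≠ 0 := by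
    rw [Ne, Valuation.zero_iff]
    exact_mod_cast hp.ne_zero
  rw [map_div₀, div_le_one₀ (zero_lt_iff.mpr hp0)] at hun
  rw [e5]
  exact hun

/-- **(PR+) Flat ⟹ peu ramifié.**  `M` a `p`-torsion module with a function model (`p` odd),
`P` a place over `p` with inertia group `I`, `L ≤ M` a subgroup on which `I` acts through the
cyclotomic character and such that `I` acts trivially on `M / L`.  For every character
`ψ : M → μ_p` and every `x : M` the Kummer cocycle `σ ↦ ψ (σ x - x)` on `I` is generated by a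
unit `s` whose radicand `s ^ p` is `≡ 1` modulo `p` up to the `p`-th power of an `I`-fixed
element. -/
theorem exists_peu_kummer (hp2 : p ≠ 2) (hP : P.LiesOverPrime p) (h : IsFunModel p act H)
    (hpM : ∀ x : M, p • x = 0) {ζ : Qb} (hζ : IsPrimitiveRoot ζ p) (L : AddSubgroup M)
    (hL1 : ∀ σ ∈ P.inertiaSubgroupIn ℚ, ∀ a : ℕ, σ ζ = ζ ^ a → ∀ l ∈ L, act σ l = a • l)
    (hL2 : ∀ σ ∈ P.inertiaSubgroupIn ℚ, ∀ m : M, act σ m - m ∈ L)
    {ψ : M → Qb} (hψmul : ∀ x y, ψ (x + y) = ψ x * ψ y) (hψp : ∀ x, ψ x ^ p = 1) (x : M) :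
    ∃ s w : Qb, P.valuation s = 1 ∧ w ≠ 0 ∧
      (∀ σ ∈ P.inertiaSubgroupIn ℚ, σ s = ψ (act σ x - x) * s) ∧
      (∀ σ ∈ P.inertiaSubgroupIn ℚ, σ w = w) ∧
      P.valuation (s ^ p * w ^ p - 1) ≤ P.valuation (p : Qb) := by
  obtain ⟨s, hs, hσs⟩ := exists_unit_kummer hp2 hP h hpM hζ L hL1 hL2 hψmul hψp x
  have hfix : ∀ σ ∈ P.inertiaSubgroupIn ℚ, σ (s ^ p) = s ^ p := fun σ hσ => by
    rw [map_pow, hσs σ hσ, mul_pow, hψp, one_mul]
  obtain ⟨w, hw0, hwfix, hw⟩ :=
    exists_pth_power_mul_sub_one hP (u := s ^ p) (by rw [map_pow, hs, one_pow]) hfix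
  exact ⟨s, w, hs, hw0, hσs, hwfix, hw⟩

/-- **(PR+)** for the character `ζ ^ lam` attached to an additive map `lam : M →+ ZMod p`. -/
theorem exists_peu_kummer_addHom (hp2 : p ≠ 2) (hP : P.LiesOverPrime p)
    (h : IsFunModel p act H) (hpM : ∀ x : M, p • x = 0) {ζ : Qb} (hζ : IsPrimitiveRoot ζ p)
    (L : AddSubgroup M)
    (hL1 : ∀ σ ∈ P.inertiaSubgroupIn ℚ, ∀ a : ℕ, σ ζ = ζ ^ a → ∀ l ∈ L, act σ l = a • l)
    (hL2 : ∀ σ ∈ P.inertiaSubgroupIn ℚ, ∀ m : M, act σ m - m ∈ L)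
    (lam : M →+ ZMod p) (x : M) :
    ∃ s w : Qb, P.valuation s = 1 ∧ w ≠ 0 ∧
      (∀ σ ∈ P.inertiaSubgroupIn ℚ, σ s = ζ ^ (lam (act σ x - x)).val * s) ∧
      (∀ σ ∈ P.inertiaSubgroupIn ℚ, σ w = w) ∧
      P.valuation (s ^ p * w ^ p - 1) ≤ P.valuation (p : Qb) :=
  exists_peu_kummer hp2 hP h hpM hζ L hL1 hL2 (ψ := fun m => ζ ^ (lam m).val)
    (fun x y => by
      rw [map_add, ZMod.val_add, ← pow_add, ← pow_eq_pow_mod _ hζ.pow_eq_one])
    (fun x => by rw [← pow_mul, mul_comm, pow_mul, hζ.pow_eq_one, one_pow]) x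

end MainPeu

/-! ## Frozen corollary -/

section FrozenPeu

variable {A : Type} [CommRing A] [IsLocalRing A]

/-- **(PR+), frozen form.**  `ρ` a flat representation over a finite local ring `A` killed by
the odd prime `p`. -/
theorem exists_peu_kummer_of_isFlatAt [Finite A] (ρ : GaloisRepAdic A) (p : ℕ) [Fact p.Prime]
    (hp2 : p ≠ 2) (hpA : (p : A) = 0) (hflat : ρ.IsFlatAt p) (P : ValuationSubring Qb)
    (hP : P.LiesOverPrime p) {ζ : Qb} (hζ : IsPrimitiveRoot ζ p) (L : AddSubgroup ρ.V)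
    (hL1 : ∀ σ ∈ P.inertiaSubgroupIn ℚ, ∀ a : ℕ, σ ζ = ζ ^ a → ∀ l ∈ L, ρ.ρ σ l = a • l)
    (hL2 : ∀ σ ∈ P.inertiaSubgroupIn ℚ, ∀ m : ρ.V, ρ.ρ σ m - m ∈ L)
    (lam : ρ.V →+ ZMod p) (x : ρ.V) :
    ∃ s w : Qb, P.valuation s = 1 ∧ w ≠ 0 ∧
      (∀ σ ∈ P.inertiaSubgroupIn ℚ, σ s = ζ ^ (lam (ρ.ρ σ x - x)).val * s) ∧
      (∀ σ ∈ P.inertiaSubgroupIn ℚ, σ w = w) ∧
      P.valuation (s ^ p * w ^ p - 1) ≤ P.valuation (p : Qb) := by
  obtain ⟨H, hH⟩ := hasFunModel_of_isFlatAt ρ p hflat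
  have hpM : ∀ v : ρ.V, p • v = 0 := fun v => by
    rw [← Nat.cast_smul_eq_nsmul A, hpA, zero_smul]
  exact exists_peu_kummer_addHom hp2 hP hH hpM hζ L hL1 hL2 lam x

end FrozenPeu

end Fermat.Agent.S56.helper4251
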