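/-
S56 FLAT-LOCAL, node FLAT-REDCOUNT-CORE (helper5221): the eigen-count behind the reducible
end-game ("peu ramifie classes of type `ω ν` form a space of dimension at most one"), as an
abstract statement on the LEVEL surface of `helper4188_UnitLevel`.  Mathlib only.

Setting: a field `K` with a valuation `v`, a primitive `p`-th root of unity `ζ`, a uniformizer
`π` (elementwise form `IsUnif v π`), a level `m` with `p ∤ m` below the top level, and a
valuation-preserving ring endomorphism `g` of `K` fixing `π` and inducing the Frobenius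
`x ↦ x ^ p` on the residue field.  A family of radicands `a h l ∈ K` (`h` in an additive group
`H`, `l` in a finite vector space `Λ` over a finite field `k₀ = 𝔽_p[β]`), additive in both
variables modulo `p`-th powers, `g`-equivariant of type `β`, all of level `≥ m`, and such that
`h = 0` as soon as all `a h l` have level `≥ m + 1`.  Then `Nat.card H ≤ Nat.card Λ`.

No finiteness of the residue field is used, and no normal basis theorem: the leading
coefficient `x = lead (a h l)` is a root of the additive polynomial `∑ nᵢ T ^ (p ^ i)` attached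
to the minimal polynomial `∑ nᵢ T ^ i` of `β`.
-/
import Mathlib
import Fermat.Agent.S56.helper4188_UnitLevel

set_option autoImplicit false

namespace Fermat.Agent.S56.helper5221

open Polynomial
open Fermat.Agent.S56.helper4188

variable {K : Type*} [Field K] {Γ₀ : Type*} [LinearOrderedCommGroupWithZero Γ₀]
  (v : Valuation K Γ₀)

/-! ### The residue field and the reduction map -/

/-- The residue field of the valuation `v`. -/
abbrev Res : Type _ := IsLocalRing.ResidueField v.valuationSubring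

/-- Reduction modulo the maximal ideal (junk value `0` outside the valuation ring). -/
noncomputable def red (x : K) : Res v :=
  if h : v x ≤ 1 then IsLocalRing.residue v.valuationSubring ⟨x, h⟩ else 0

theorem red_of_le {x : K} (h : v x ≤ 1) :
    red v x = IsLocalRing.residue v.valuationSubring ⟨x, h⟩ := dif_pos h

theorem red_zero : red v 0 = 0 := by
  rw [red_of_le v (by rw [v.map_zero]; exact zero_le)]
  exact map_zero _

theorem red_one : red v 1 = 1 := by
  rw [red_of_le v (le_of_eq v.map_one)]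
  exact map_one _

theorem red_add {x y : K} (hx : v x ≤ 1) (hy : v y ≤ 1) :
    red v (x + y) = red v x + red v y := by
  rw [red_of_le v hx, red_of_le v hy, red_of_le v (v.map_add_le hx hy), ← map_add]
  rfl

theorem val_mul_le_one {x y : K} (hx : v x ≤ 1) (hy : v y ≤ 1) : v (x * y) ≤ 1 := by
  rw [v.map_mul]
  calc v x * v y ≤ 1 * 1 := mul_le_mul' hx hy
    _ = 1 := one_mul 1

theorem val_pow_le_one {x : K} (hx : v x ≤ 1) (n : ℕ) : v (x ^ n) ≤ 1 := by
  rw [v.map_pow]
  exact pow_le_one' hx n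

theorem red_mul {x y : K} (hx : v x ≤ 1) (hy : v y ≤ 1) :
    red v (x * y) = red v x * red v y := by
  rw [red_of_le v hx, red_of_le v hy, red_of_le v (val_mul_le_one v hx hy), ← map_mul]
  rfl

theorem red_pow {x : K} (hx : v x ≤ 1) (n : ℕ) : red v (x ^ n) = red v x ^ n := by
  induction n with
  | zero => simpa using red_one v
  | succ n ih =>
    rw [pow_succ, pow_succ, red_mul v (val_pow_le_one v hx n) hx, ih]

theorem val_natCast_le_one (n : ℕ) : v (n : K) ≤ 1 := by
  induction n with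
  | zero => simp
  | succ n ih =>
    push_cast
    exact v.map_add_le ih (le_of_eq v.map_one)

theorem red_natCast (n : ℕ) : red v (n : K) = (n : Res v) := by
  induction n with
  | zero => simpa using red_zero v
  | succ n ih =>
    push_cast
    rw [red_add v (val_natCast_le_one v n) (le_of_eq v.map_one), ih, red_one]

theorem red_eq_zero_iff {x : K} (hx : v x ≤ 1) : red v x = 0 ↔ v x < 1 := by
  rw [red_of_le v hx, IsLocalRing.residue_eq_zero_iff, ValuationSubring.valuation_lt_one_iff]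
  exact ((Valuation.isEquiv_valuation_valuationSubring v).lt_one_iff_lt_one (x := x)).symm

theorem red_neg {x : K} (hx : v x ≤ 1) : red v (-x) = -red v x := by
  have h : v (-x) ≤ 1 := by rw [v.map_neg]; exact hx
  have h2 := red_add v hx h
  rw [add_neg_cancel, red_zero] at h2
  exact (neg_eq_of_add_eq_zero_right h2.symm).symm

theorem red_eq_iff {x y : K} (hx : v x ≤ 1) (hy : v y ≤ 1) :
    red v x = red v y ↔ v (x - y) < 1 := by
  have hy' : v (-y) ≤ 1 := by rw [v.map_neg]; exact hy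
  rw [← red_eq_zero_iff v (v.map_sub_le hx hy), sub_eq_add_neg, red_add v hx hy', red_neg v hy,
    ← sub_eq_add_neg, sub_eq_zero]

/-! ### The leading coefficient as a function into the residue field -/

variable {p : ℕ} {π : K} {m : ℕ}

open Classical in
/-- The leading coefficient of `u` at level `m`, in the residue field (junk value `0` if `u`
is not of level `≥ m`). -/
noncomputable def ld (π : K) (p m : ℕ) (u : K) : Res v :=
  if h : ∃ a, Lead v π p m u a then red v h.choose else 0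

theorem m_pos (hm : ¬ p ∣ m) : 0 < m :=
  Nat.pos_of_ne_zero (by rintro rfl; exact hm (dvd_zero p))

theorem levelGE_mul {v : Valuation K Γ₀} (hπ : IsUnif v π) (hm : ¬ p ∣ m) {u u' : K}
    (hu : LevelGE v π p m u) (hu' : LevelGE v π p m u') : LevelGE v π p m (u * u') := by
  obtain ⟨a, ha⟩ := hu.exists_lead hπ
  obtain ⟨a', ha'⟩ := hu'.exists_lead hπ
  exact (ha.mul hπ (m_pos hm) ha').levelGE

theorem levelGE_mul_pow_p {v : Valuation K Γ₀} (hπ : IsUnif v π) (hm : ¬ p ∣ m) {u w : K}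
    (hu : LevelGE v π p m u) (hw : w ≠ 0) : LevelGE v π p m (u * w ^ p) :=
  levelGE_mul hπ hm hu (lead_pow_self (p := p) (m := m) hπ hw).levelGE

section LdLemmas

variable {v}
variable (hp : p.Prime) {ζ : K} (hζ : IsPrimitiveRoot ζ p) (hπ : IsUnif v π)
  (hm : ¬ p ∣ m) (hlt : v (ζ - 1) ^ p < v π ^ m)
include hp hζ hπ hm hlt

theorem ld_eq {u a : K} (h : Lead v π p m u a) : ld v π p m u = red v a := by
  have hex : ∃ a, Lead v π p m u a := ⟨a, h⟩
  rw [ld, dif_pos hex]
  exact (red_eq_iff v hex.choose_spec.1 h.1).2 (hex.choose_spec.unique hp hζ hπ hm hlt h)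

theorem ld_mul {u u' : K} (hu : LevelGE v π p m u) (hu' : LevelGE v π p m u') :
    ld v π p m (u * u') = ld v π p m u + ld v π p m u' := by
  obtain ⟨a, ha⟩ := hu.exists_lead hπ
  obtain ⟨a', ha'⟩ := hu'.exists_lead hπ
  rw [ld_eq hp hζ hπ hm hlt (ha.mul hπ (m_pos hm) ha'), ld_eq hp hζ hπ hm hlt ha,
    ld_eq hp hζ hπ hm hlt ha', red_add v ha.1 ha'.1]

theorem ld_pow_p {x : K} (hx : x ≠ 0) : ld v π p m (x ^ p) = 0 := by
  rw [ld_eq hp hζ hπ hm hlt (lead_pow_self (p := p) (m := m) hπ hx), red_zero]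

theorem ld_mul_pow_p {u w : K} (hu : LevelGE v π p m u) (hw : w ≠ 0) :
    ld v π p m (u * w ^ p) = ld v π p m u := by
  rw [ld_mul hp hζ hπ hm hlt hu (lead_pow_self (p := p) (m := m) hπ hw).levelGE,
    ld_pow_p hp hζ hπ hm hlt hw, add_zero]

theorem ld_eq_zero_iff {u : K} (hu : LevelGE v π p m u) :
    ld v π p m u = 0 ↔ LevelGE v π p (m + 1) u := by
  obtain ⟨a, ha⟩ := hu.exists_lead hπ
  rw [ld_eq hp hζ hπ hm hlt ha, red_eq_zero_iff v ha.1]
  exact ha.val_lt_one_iff hp hζ hπ hm hlt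

theorem ld_map (g : K →+* K) (hg : ∀ x, v (g x) = v x) (hgπ : g π = π)
    (hfrob : ∀ x, v x ≤ 1 → v (g x - x ^ p) < 1) {u : K} (hu : LevelGE v π p m u) :
    ld v π p m (g u) = ld v π p m u ^ p := by
  obtain ⟨a, ha⟩ := hu.exists_lead hπ
  have h1 := ha.map hπ g hg (c := 1) (by rw [hgπ, mul_one])
  rw [ld_eq hp hζ hπ hm hlt h1, ld_eq hp hζ hπ hm hlt ha, one_pow, one_mul,
    ← red_pow v ha.1]
  have hga : v (g a) ≤ 1 := by rw [hg]; exact ha.1
  exact (red_eq_iff v hga (val_pow_le_one v ha.1 p)).2 (hfrob a ha.1)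

/-- Twisted form of `ld_map`: no hypothesis on `g π`; the leading coefficient is multiplied by
the residue of `(g π / π) ^ m`. -/
theorem ld_map_tw (g : K →+* K) (hg : ∀ x, v (g x) = v x)
    (hfrob : ∀ x, v x ≤ 1 → v (g x - x ^ p) < 1) {u : K} (hu : LevelGE v π p m u) :
    ld v π p m (g u) = red v (g π / π) ^ m * ld v π p m u ^ p := by
  obtain ⟨a, ha⟩ := hu.exists_lead hπ
  have hc : g π = π * (g π / π) := by
    rw [mul_div_cancel₀ _ hπ.ne_zero]
  have hvc : v (g π / π) = 1 := by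
    rw [v.map_div, hg, div_self hπ.val_ne_zero]
  have h1 := ha.map hπ g hg hc
  have hga : v (g a) ≤ 1 := by rw [hg]; exact ha.1
  rw [ld_eq hp hζ hπ hm hlt h1, ld_eq hp hζ hπ hm hlt ha,
    red_mul v (val_pow_le_one v hvc.le m) hga, red_pow v hvc.le, ← red_pow v ha.1]
  congr 1
  exact (red_eq_iff v hga (val_pow_le_one v ha.1 p)).2 (hfrob a ha.1)

end LdLemmas

/-! ### Additive polynomials `∑ nᵢ T ^ (p ^ i)` -/

section FrobSum

variable {κ : Type*} [Field κ]

/-- `frobSum p n d y = ∑_{i ≤ d} nᵢ y ^ (p ^ i)`. -/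
def frobSum (p : ℕ) (n : ℕ → ℕ) (d : ℕ) (y : κ) : κ :=
  ∑ i ∈ Finset.range (d + 1), (n i : κ) * y ^ (p ^ i)

theorem frobSum_zero {p : ℕ} (hp : p ≠ 0) (n : ℕ → ℕ) (d : ℕ) : frobSum p n d (0 : κ) = 0 := by
  rw [frobSum]
  apply Finset.sum_eq_zero
  intro i _
  rw [zero_pow (pow_ne_zero i hp), mul_zero]

/-- The additive polynomial `∑_{i ≤ d} nᵢ T ^ (p ^ i)` with `n_d = 1` has at most `p ^ d`
roots. -/
theorem card_frobSum_roots_le {p : ℕ} (hp : 1 < p) (n : ℕ → ℕ) (d : ℕ) (hd : n d = 1) :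
    Set.Finite {y : κ | frobSum p n d y = 0} ∧
      Nat.card {y : κ | frobSum p n d y = 0} ≤ p ^ d := by
  classical
  set Q : κ[X] := ∑ i ∈ Finset.range (d + 1), C (n i : κ) * X ^ (p ^ i) with hQ
  have hcoeff : Q.coeff (p ^ d) = 1 := by
    rw [hQ, Polynomial.finsetSum_coeff, Finset.sum_eq_single d]
    · simp [hd]
    · intro i _ hid
      rw [coeff_C_mul, coeff_X_pow, if_neg, mul_zero]
      intro h
      exact hid ((Nat.pow_right_injective hp) h).symm
    · intro h
      exact absurd (Finset.mem_range.2 (Nat.lt_succ_self d)) h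
  have hQ0 : Q ≠ 0 := by
    intro h
    rw [h] at hcoeff
    simp at hcoeff
  have hdeg : Q.natDegree ≤ p ^ d := by
    rw [hQ]
    apply Polynomial.natDegree_sum_le_of_forall_le
    intro i hi
    refine (natDegree_C_mul_le _ _).trans ?_
    rw [natDegree_X_pow]
    exact Nat.pow_le_pow_right (le_of_lt hp) (Nat.lt_succ_iff.1 (Finset.mem_range.1 hi))
  have hsub : {y : κ | frobSum p n d y = 0} ⊆ (Q.roots.toFinset : Set κ) := by
    intro y hy
    simp only [Finset.mem_coe, Multiset.mem_toFinset, mem_roots hQ0, IsRoot.def]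
    rw [hQ, eval_finsetSum]
    simpa [frobSum] using hy
  refine ⟨(Finset.finite_toSet _).subset hsub, ?_⟩
  calc Nat.card {y : κ | frobSum p n d y = 0}
      = Set.ncard {y : κ | frobSum p n d y = 0} := (Nat.card_coe_set_eq _)
    _ ≤ (Q.roots.toFinset : Set κ).ncard := Set.ncard_le_ncard hsub (Finset.finite_toSet _)
    _ = Q.roots.toFinset.card := Set.ncard_coe_finset _
    _ ≤ Multiset.card Q.roots := Multiset.toFinset_card_le _
    _ ≤ Q.natDegree := card_roots' Q
    _ ≤ p ^ d := hdeg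

/-- The twisting constants of the iterates of `y ↦ γ * y ^ p`:
`(y ↦ γ y ^ p)^[i] = twc p γ i * y ^ (p ^ i)`. -/
def twc (p : ℕ) (γ : κ) : ℕ → κ
  | 0 => 1
  | (i + 1) => γ * twc p γ i ^ p

theorem twc_ne_zero (p : ℕ) {γ : κ} (hγ : γ ≠ 0) (i : ℕ) : twc p γ i ≠ 0 := by
  induction i with
  | zero => exact one_ne_zero
  | succ i ih => exact mul_ne_zero hγ (pow_ne_zero p ih)

/-- `frobSumTw p γ n d y = ∑_{i ≤ d} nᵢ (twc p γ i * y ^ (p ^ i))`. -/
def frobSumTw (p : ℕ) (γ : κ) (n : ℕ → ℕ) (d : ℕ) (y : κ) : κ :=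
  ∑ i ∈ Finset.range (d + 1), (n i : κ) * (twc p γ i * y ^ (p ^ i))

theorem frobSumTw_zero {p : ℕ} (hp : p ≠ 0) (γ : κ) (n : ℕ → ℕ) (d : ℕ) :
    frobSumTw p γ n d (0 : κ) = 0 := by
  rw [frobSumTw]
  apply Finset.sum_eq_zero
  intro i _
  rw [zero_pow (pow_ne_zero i hp), mul_zero, mul_zero]

/-- The twisted additive polynomial `∑_{i ≤ d} nᵢ γᵢ T ^ (p ^ i)` with `n_d = 1`, `γ ≠ 0` has at
most `p ^ d` roots. -/
theorem card_frobSumTw_roots_le {p : ℕ} (hp : 1 < p) {γ : κ} (hγ : γ ≠ 0) (n : ℕ → ℕ) (d : ℕ)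
    (hd : n d = 1) :
    Set.Finite {y : κ | frobSumTw p γ n d y = 0} ∧
      Nat.card {y : κ | frobSumTw p γ n d y = 0} ≤ p ^ d := by
  classical
  set Q : κ[X] := ∑ i ∈ Finset.range (d + 1), C ((n i : κ) * twc p γ i) * X ^ (p ^ i) with hQ
  have hcoeff : Q.coeff (p ^ d) = twc p γ d := by
    rw [hQ, Polynomial.finsetSum_coeff, Finset.sum_eq_single d]
    · simp [hd]
    · intro i _ hid
      rw [coeff_C_mul, coeff_X_pow, if_neg, mul_zero]
      intro h
      exact hid ((Nat.pow_right_injective hp) h).symm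
    · intro h
      exact absurd (Finset.mem_range.2 (Nat.lt_succ_self d)) h
  have hQ0 : Q ≠ 0 := by
    intro h
    rw [h] at hcoeff
    exact twc_ne_zero p hγ d (by simpa using hcoeff.symm)
  have hdeg : Q.natDegree ≤ p ^ d := by
    rw [hQ]
    apply Polynomial.natDegree_sum_le_of_forall_le
    intro i hi
    refine (natDegree_C_mul_le _ _).trans ?_
    rw [natDegree_X_pow]
    exact Nat.pow_le_pow_right (le_of_lt hp) (Nat.lt_succ_iff.1 (Finset.mem_range.1 hi))
  have hsub : {y : κ | frobSumTw p γ n d y = 0} ⊆ (Q.roots.toFinset : Set κ) := by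
    intro y hy
    simp only [Finset.mem_coe, Multiset.mem_toFinset, mem_roots hQ0, IsRoot.def]
    rw [hQ, eval_finsetSum]
    have hy' : frobSumTw p γ n d y = 0 := hy
    rw [frobSumTw] at hy'
    rw [← hy']
    apply Finset.sum_congr rfl
    intro i _
    simp [mul_assoc]
  refine ⟨(Finset.finite_toSet _).subset hsub, ?_⟩
  calc Nat.card {y : κ | frobSumTw p γ n d y = 0}
      = Set.ncard {y : κ | frobSumTw p γ n d y = 0} := (Nat.card_coe_set_eq _)
    _ ≤ (Q.roots.toFinset : Set κ).ncard := Set.ncard_le_ncard hsub (Finset.finite_toSet _)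
    _ = Q.roots.toFinset.card := Set.ncard_coe_finset _
    _ ≤ Multiset.card Q.roots := Multiset.toFinset_card_le _
    _ ≤ Q.natDegree := card_roots' Q
    _ ≤ p ^ d := hdeg

end FrobSum

/-! ### Elements of `𝔽_p[β]` as natural-number polynomials in `β` -/

section NatEval

variable {p : ℕ} [Fact p.Prime] {k₀ : Type*} [Field k₀] [Algebra (ZMod p) k₀]

/-- `natEval β n d = ∑_{i ≤ d} nᵢ β ^ i`. -/
def natEval (β : k₀) (n : ℕ → ℕ) (d : ℕ) : k₀ :=
  ∑ i ∈ Finset.range (d + 1), (n i : k₀) * β ^ i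

theorem aeval_eq_natEval (β : k₀) (P : (ZMod p)[X]) :
    aeval β P = natEval β (fun i => (P.coeff i).val) P.natDegree := by
  rw [aeval_eq_sum_range, natEval]
  apply Finset.sum_congr rfl
  intro i _
  rw [Algebra.smul_def]
  congr 1
  conv_lhs => rw [← ZMod.natCast_zmod_val (P.coeff i)]
  rw [map_natCast]

theorem exists_natEval_of_adjoin (β : k₀) (hβ : Algebra.adjoin (ZMod p) {β} = ⊤) (x : k₀) :
    ∃ (n : ℕ → ℕ) (d : ℕ), x = natEval β n d := by
  have hx : x ∈ Algebra.adjoin (ZMod p) {β} := by rw [hβ]; trivial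
  rw [Algebra.adjoin_singleton_eq_range_aeval] at hx
  obtain ⟨P, rfl⟩ := hx
  exact ⟨_, _, aeval_eq_natEval β P⟩

theorem exists_natEval_eq_zero [Finite k₀] (β : k₀) :
    ∃ (n : ℕ → ℕ) (d : ℕ), n d = 1 ∧ natEval β n d = 0 ∧ p ^ d ≤ Nat.card k₀ := by
  have hint : IsIntegral (ZMod p) β := IsIntegral.of_finite (ZMod p) β
  have hmonic : (minpoly (ZMod p) β).Monic := minpoly.monic hint
  refine ⟨fun i => ((minpoly (ZMod p) β).coeff i).val, (minpoly (ZMod p) β).natDegree, ?_, ?_, ?_⟩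
  · show ((minpoly (ZMod p) β).coeff (minpoly (ZMod p) β).natDegree).val = 1
    rw [Polynomial.coeff_natDegree, hmonic.leadingCoeff, ZMod.val_one]
  · rw [← aeval_eq_natEval, minpoly.aeval]
  · have h1 : (minpoly (ZMod p) β).natDegree ≤ Module.finrank (ZMod p) k₀ :=
      minpoly.natDegree_le β
    rw [Module.natCard_eq_pow_finrank (K := ZMod p) (V := k₀), Nat.card_zmod]
    exact Nat.pow_le_pow_right (Fact.out : p.Prime).pos h1

end NatEval

/-! ### The count -/

/-- **(RC1) Eigen-count.**  Radicand data `a : H → Λ → K`, additive in both variables modulo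
`p`-th powers, Frobenius-equivariant of type `β` (`k₀ = 𝔽_p[β]`), all of level `≥ m`, and such
that `h = 0` as soon as all `a h l` have level `≥ m + 1`.  Then `#H ≤ #Λ`. -/
theorem card_le_of_levelGE [Fact p.Prime] {ζ : K} (hζ : IsPrimitiveRoot ζ p) (hπ : IsUnif v π)
    (hm : ¬ p ∣ m) (hlt : v (ζ - 1) ^ p < v π ^ m)
    (g : K →+* K) (hg : ∀ x, v (g x) = v x) (hgπ : g π = π)
    (hfrob : ∀ x, v x ≤ 1 → v (g x - x ^ p) < 1)
    {k₀ : Type*} [Field k₀] [Finite k₀] [Algebra (ZMod p) k₀] (β : k₀)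
    (hβ : Algebra.adjoin (ZMod p) {β} = ⊤)
    {Λ : Type*} [AddCommGroup Λ] [Module k₀ Λ] [Finite Λ]
    {H : Type*} [AddCommGroup H]
    (a : H → Λ → K)
    (haddH : ∀ h h' l, ∃ w : K, w ≠ 0 ∧ a (h + h') l = a h l * a h' l * w ^ p)
    (haddΛ : ∀ h l l', ∃ w : K, w ≠ 0 ∧ a h (l + l') = a h l * a h l' * w ^ p)
    (hfr : ∀ h l, ∃ w : K, w ≠ 0 ∧ g (a h l) = a h (β • l) * w ^ p)
    (hlev : ∀ h l, LevelGE v π p m (a h l))
    (hinj : ∀ h, (∀ l, LevelGE v π p (m + 1) (a h l)) → h = 0) :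
    Finite H ∧ Nat.card H ≤ Nat.card Λ := by
  classical
  have hp : p.Prime := Fact.out
  -- the leading-coefficient pairing
  set X : H → Λ → Res v := fun h l => ld v π p m (a h l) with hX
  have hXl : ∀ h l l', X h (l + l') = X h l + X h l' := by
    intro h l l'
    obtain ⟨w, hw, e⟩ := haddΛ h l l'
    simp only [hX]
    rw [e, ld_mul_pow_p hp hζ hπ hm hlt (levelGE_mul hπ hm (hlev h l) (hlev h l')) hw,
      ld_mul hp hζ hπ hm hlt (hlev h l) (hlev h l')]
  have hXh : ∀ h h' l, X (h + h') l = X h l + X h' l := by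
    intro h h' l
    obtain ⟨w, hw, e⟩ := haddH h h' l
    simp only [hX]
    rw [e, ld_mul_pow_p hp hζ hπ hm hlt (levelGE_mul hπ hm (hlev h l) (hlev h' l)) hw,
      ld_mul hp hζ hπ hm hlt (hlev h l) (hlev h' l)]
  have hXβ : ∀ h l, X h (β • l) = X h l ^ p := by
    intro h l
    obtain ⟨w, hw, e⟩ := hfr h l
    simp only [hX]
    rw [← ld_map hp hζ hπ hm hlt g hg hgπ hfrob (hlev h l), e,
      ld_mul_pow_p hp hζ hπ hm hlt (hlev h (β • l)) hw]
  -- additive maps
  let XΛ : H → (Λ →+ Res v) := fun h => AddMonoidHom.mk' (X h) (hXl h)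
  have hXΛ : ∀ h l, XΛ h l = X h l := fun _ _ => rfl
  let XH : H →+ (Λ →+ Res v) := AddMonoidHom.mk' XΛ (by
    intro h h'
    ext l
    exact hXh h h' l)
  have hXH : ∀ h, XH h = XΛ h := fun _ => rfl
  have hpow : ∀ h l (i : ℕ), XΛ h (β ^ i • l) = XΛ h l ^ (p ^ i) := by
    intro h l i
    induction i with
    | zero => simp
    | succ i ih =>
      rw [pow_succ', mul_smul, hXΛ, hXβ, ← hXΛ, ih, ← pow_mul, pow_succ]
  have heval : ∀ h l (n : ℕ → ℕ) (d : ℕ),
      XΛ h (natEval β n d • l) = frobSum p n d (XΛ h l) := by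
    intro h l n d
    rw [natEval, frobSum, Finset.sum_smul, map_sum]
    apply Finset.sum_congr rfl
    intro i _
    rw [mul_smul, Nat.cast_smul_eq_nsmul, map_nsmul, hpow, nsmul_eq_mul]
  -- the relation of `β`
  obtain ⟨n₀, d, hd, hrel, hcard⟩ := exists_natEval_eq_zero (p := p) β
  obtain ⟨hYfin, hYcard⟩ := card_frobSum_roots_le (κ := Res v) hp.one_lt n₀ d hd
  have hmem : ∀ h l, XΛ h l ∈ {y : Res v | frobSum p n₀ d y = 0} := by
    intro h l
    show frobSum p n₀ d (XΛ h l) = 0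
    rw [← heval, hrel, zero_smul, map_zero]
  have hYfinite : Finite {y : Res v | frobSum p n₀ d y = 0} := hYfin.to_subtype
  -- a basis of `Λ`
  let b := Module.finBasis k₀ Λ
  let F : H → (Fin (Module.finrank k₀ Λ) → {y : Res v | frobSum p n₀ d y = 0}) :=
    fun h j => ⟨XΛ h (b j), hmem h (b j)⟩
  have hF : Function.Injective F := by
    intro h h' hFF
    have h0 : ∀ j, XΛ (h - h') (b j) = 0 := by
      intro j
      have e1 : XΛ h (b j) = XΛ h' (b j) := congrArg Subtype.val (congrFun hFF j)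
      rw [← hXH, map_sub, AddMonoidHom.sub_apply, hXH, hXH, e1, sub_self]
    have h1 : ∀ l, XΛ (h - h') l = 0 := by
      intro l
      rw [← b.sum_repr l, map_sum]
      apply Finset.sum_eq_zero
      intro j _
      obtain ⟨n, e, hne⟩ := exists_natEval_of_adjoin β hβ (b.repr l j)
      rw [hne, heval, h0 j, frobSum_zero hp.ne_zero]
    have h2 : h - h' = 0 := by
      apply hinj
      intro l
      exact (ld_eq_zero_iff hp hζ hπ hm hlt (hlev (h - h') l)).1 (h1 l)
    exact sub_eq_zero.1 h2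
  refine ⟨Finite.of_injective F hF, ?_⟩
  calc Nat.card H
      ≤ Nat.card (Fin (Module.finrank k₀ Λ) → {y : Res v | frobSum p n₀ d y = 0}) :=
        Nat.card_le_card_of_injective F hF
    _ = Nat.card {y : Res v | frobSum p n₀ d y = 0} ^ Module.finrank k₀ Λ := by
        rw [Nat.card_fun, Nat.card_fin]
    _ ≤ (p ^ d) ^ Module.finrank k₀ Λ := Nat.pow_le_pow_left hYcard _
    _ ≤ Nat.card k₀ ^ Module.finrank k₀ Λ := Nat.pow_le_pow_left hcard _
    _ = Nat.card Λ := (Module.natCard_eq_pow_finrank (K := k₀) (V := Λ)).symm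

/-- **(RC1')** The eigen-count for an arbitrary finite field `k ∋ β` (the subfield `𝔽_p(β)` is
used internally) and a finite `k`-vector space `Λ`. -/
theorem card_le_of_levelGE_field [Fact p.Prime] {ζ : K} (hζ : IsPrimitiveRoot ζ p)
    (hπ : IsUnif v π) (hm : ¬ p ∣ m) (hlt : v (ζ - 1) ^ p < v π ^ m)
    (g : K →+* K) (hg : ∀ x, v (g x) = v x) (hgπ : g π = π)
    (hfrob : ∀ x, v x ≤ 1 → v (g x - x ^ p) < 1)
    {k : Type*} [Field k] [Finite k] [Algebra (ZMod p) k] (β : k)
    {Λ : Type*} [AddCommGroup Λ] [Module k Λ] [Finite Λ]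
    {H : Type*} [AddCommGroup H]
    (a : H → Λ → K)
    (haddH : ∀ h h' l, ∃ w : K, w ≠ 0 ∧ a (h + h') l = a h l * a h' l * w ^ p)
    (haddΛ : ∀ h l l', ∃ w : K, w ≠ 0 ∧ a h (l + l') = a h l * a h l' * w ^ p)
    (hfr : ∀ h l, ∃ w : K, w ≠ 0 ∧ g (a h l) = a h (β • l) * w ^ p)
    (hlev : ∀ h l, LevelGE v π p m (a h l))
    (hinj : ∀ h, (∀ l, LevelGE v π p (m + 1) (a h l)) → h = 0) :
    Finite H ∧ Nat.card H ≤ Nat.card Λ := by
  have hgen : Algebra.adjoin (ZMod p) {IntermediateField.AdjoinSimple.gen (ZMod p) β} = ⊤ := by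
    rw [eq_top_iff]
    intro x _
    have hx : (x : k) ∈ (IntermediateField.adjoin (ZMod p) {β}).toSubalgebra := x.2
    rw [IntermediateField.adjoin_simple_toSubalgebra_of_isAlgebraic
      (IsIntegral.of_finite (ZMod p) β).isAlgebraic,
      Algebra.adjoin_singleton_eq_range_aeval] at hx
    obtain ⟨P, hP⟩ := hx
    rw [Algebra.adjoin_singleton_eq_range_aeval]
    refine ⟨P, ?_⟩
    apply Subtype.ext
    have h1 := Polynomial.aeval_algHom_apply (IntermediateField.adjoin (ZMod p) {β}).val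
      (IntermediateField.AdjoinSimple.gen (ZMod p) β) P
    rw [IntermediateField.val_mk] at h1
    exact h1.symm.trans hP
  exact card_le_of_levelGE v hζ hπ hm hlt g hg hgπ hfrob
    (IntermediateField.AdjoinSimple.gen (ZMod p) β) hgen a haddH haddΛ hfr hlev hinj

/-- **(RC1, twisted) Eigen-count without normalisation of the Frobenius.**  As
`card_le_of_levelGE`, but with NO hypothesis on `g π` (a valuation-preserving Frobenius lift
`g` multiplies the uniformiser by a unit). -/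
theorem card_le_of_levelGE_tw [Fact p.Prime] {ζ : K} (hζ : IsPrimitiveRoot ζ p) (hπ : IsUnif v π)
    (hm : ¬ p ∣ m) (hlt : v (ζ - 1) ^ p < v π ^ m)
    (g : K →+* K) (hg : ∀ x, v (g x) = v x)
    (hfrob : ∀ x, v x ≤ 1 → v (g x - x ^ p) < 1)
    {k₀ : Type*} [Field k₀] [Finite k₀] [Algebra (ZMod p) k₀] (β : k₀)
    (hβ : Algebra.adjoin (ZMod p) {β} = ⊤)
    {Λ : Type*} [AddCommGroup Λ] [Module k₀ Λ] [Finite Λ]
    {H : Type*} [AddCommGroup H]
    (a : H → Λ → K)
    (haddH : ∀ h h' l, ∃ w : K, w ≠ 0 ∧ a (h + h') l = a h l * a h' l * w ^ p)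
    (haddΛ : ∀ h l l', ∃ w : K, w ≠ 0 ∧ a h (l + l') = a h l * a h l' * w ^ p)
    (hfr : ∀ h l, ∃ w : K, w ≠ 0 ∧ g (a h l) = a h (β • l) * w ^ p)
    (hlev : ∀ h l, LevelGE v π p m (a h l))
    (hinj : ∀ h, (∀ l, LevelGE v π p (m + 1) (a h l)) → h = 0) :
    Finite H ∧ Nat.card H ≤ Nat.card Λ := by
  classical
  have hp : p.Prime := Fact.out
  -- the twisting constant
  set γ : Res v := red v (g π / π) ^ m with hγdef
  have hvc : v (g π / π) = 1 := by
    rw [v.map_div, hg, div_self hπ.val_ne_zero]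
  have hγ : γ ≠ 0 := by
    apply pow_ne_zero
    intro h0
    rw [red_eq_zero_iff v hvc.le, hvc] at h0
    exact lt_irrefl _ h0
  -- the leading-coefficient pairing
  set X : H → Λ → Res v := fun h l => ld v π p m (a h l) with hX
  have hXl : ∀ h l l', X h (l + l') = X h l + X h l' := by
    intro h l l'
    obtain ⟨w, hw, e⟩ := haddΛ h l l'
    simp only [hX]
    rw [e, ld_mul_pow_p hp hζ hπ hm hlt (levelGE_mul hπ hm (hlev h l) (hlev h l')) hw,
      ld_mul hp hζ hπ hm hlt (hlev h l) (hlev h l')]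
  have hXh : ∀ h h' l, X (h + h') l = X h l + X h' l := by
    intro h h' l
    obtain ⟨w, hw, e⟩ := haddH h h' l
    simp only [hX]
    rw [e, ld_mul_pow_p hp hζ hπ hm hlt (levelGE_mul hπ hm (hlev h l) (hlev h' l)) hw,
      ld_mul hp hζ hπ hm hlt (hlev h l) (hlev h' l)]
  have hXβ : ∀ h l, X h (β • l) = γ * X h l ^ p := by
    intro h l
    obtain ⟨w, hw, e⟩ := hfr h l
    simp only [hX]
    rw [hγdef, ← ld_map_tw hp hζ hπ hm hlt g hg hfrob (hlev h l), e,
      ld_mul_pow_p hp hζ hπ hm hlt (hlev h (β • l)) hw]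
  -- additive maps
  let XΛ : H → (Λ →+ Res v) := fun h => AddMonoidHom.mk' (X h) (hXl h)
  have hXΛ : ∀ h l, XΛ h l = X h l := fun _ _ => rfl
  let XH : H →+ (Λ →+ Res v) := AddMonoidHom.mk' XΛ (by
    intro h h'
    ext l
    exact hXh h h' l)
  have hXH : ∀ h, XH h = XΛ h := fun _ => rfl
  have hpow : ∀ h l (i : ℕ), XΛ h (β ^ i • l) = twc p γ i * XΛ h l ^ (p ^ i) := by
    intro h l i
    induction i with
    | zero => simp [twc]
    | succ i ih =>
      rw [pow_succ', mul_smul, hXΛ, hXβ, ← hXΛ, ih, twc, mul_pow, ← pow_mul, pow_succ, mul_assoc]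
  have heval : ∀ h l (n : ℕ → ℕ) (d : ℕ),
      XΛ h (natEval β n d • l) = frobSumTw p γ n d (XΛ h l) := by
    intro h l n d
    rw [natEval, frobSumTw, Finset.sum_smul, map_sum]
    apply Finset.sum_congr rfl
    intro i _
    rw [mul_smul, Nat.cast_smul_eq_nsmul, map_nsmul, hpow, nsmul_eq_mul]
  -- the relation of `β`
  obtain ⟨n₀, d, hd, hrel, hcard⟩ := exists_natEval_eq_zero (p := p) β
  obtain ⟨hYfin, hYcard⟩ := card_frobSumTw_roots_le (κ := Res v) hp.one_lt hγ n₀ d hd
  have hmem : ∀ h l, XΛ h l ∈ {y : Res v | frobSumTw p γ n₀ d y = 0} := by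
    intro h l
    show frobSumTw p γ n₀ d (XΛ h l) = 0
    rw [← heval, hrel, zero_smul, map_zero]
  have hYfinite : Finite {y : Res v | frobSumTw p γ n₀ d y = 0} := hYfin.to_subtype
  -- a basis of `Λ`
  let b := Module.finBasis k₀ Λ
  let F : H → (Fin (Module.finrank k₀ Λ) → {y : Res v | frobSumTw p γ n₀ d y = 0}) :=
    fun h j => ⟨XΛ h (b j), hmem h (b j)⟩
  have hF : Function.Injective F := by
    intro h h' hFF
    have h0 : ∀ j, XΛ (h - h') (b j) = 0 := by
      intro j
      have e1 : XΛ h (b j) = XΛ h' (b j) := congrArg Subtype.val (congrFun hFF j)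
      rw [← hXH, map_sub, AddMonoidHom.sub_apply, hXH, hXH, e1, sub_self]
    have h1 : ∀ l, XΛ (h - h') l = 0 := by
      intro l
      rw [← b.sum_repr l, map_sum]
      apply Finset.sum_eq_zero
      intro j _
      obtain ⟨n, e, hne⟩ := exists_natEval_of_adjoin β hβ (b.repr l j)
      rw [hne, heval, h0 j, frobSumTw_zero hp.ne_zero]
    have h2 : h - h' = 0 := by
      apply hinj
      intro l
      exact (ld_eq_zero_iff hp hζ hπ hm hlt (hlev (h - h') l)).1 (h1 l)
    exact sub_eq_zero.1 h2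
  refine ⟨Finite.of_injective F hF, ?_⟩
  calc Nat.card H
      ≤ Nat.card (Fin (Module.finrank k₀ Λ) → {y : Res v | frobSumTw p γ n₀ d y = 0}) :=
        Nat.card_le_card_of_injective F hF
    _ = Nat.card {y : Res v | frobSumTw p γ n₀ d y = 0} ^ Module.finrank k₀ Λ := by
        rw [Nat.card_fun, Nat.card_fin]
    _ ≤ (p ^ d) ^ Module.finrank k₀ Λ := Nat.pow_le_pow_left hYcard _
    _ ≤ Nat.card k₀ ^ Module.finrank k₀ Λ := Nat.pow_le_pow_left hcard _
    _ = Nat.card Λ := (Module.natCard_eq_pow_finrank (K := k₀) (V := Λ)).symm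

/-- **(RC1', twisted)** The twisted eigen-count for an arbitrary finite field `k ∋ β` and a
finite `k`-vector space `Λ`. -/
theorem card_le_of_levelGE_field_tw [Fact p.Prime] {ζ : K} (hζ : IsPrimitiveRoot ζ p)
    (hπ : IsUnif v π) (hm : ¬ p ∣ m) (hlt : v (ζ - 1) ^ p < v π ^ m)
    (g : K →+* K) (hg : ∀ x, v (g x) = v x)
    (hfrob : ∀ x, v x ≤ 1 → v (g x - x ^ p) < 1)
    {k : Type*} [Field k] [Finite k] [Algebra (ZMod p) k] (β : k)
    {Λ : Type*} [AddCommGroup Λ] [Module k Λ] [Finite Λ]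
    {H : Type*} [AddCommGroup H]
    (a : H → Λ → K)
    (haddH : ∀ h h' l, ∃ w : K, w ≠ 0 ∧ a (h + h') l = a h l * a h' l * w ^ p)
    (haddΛ : ∀ h l l', ∃ w : K, w ≠ 0 ∧ a h (l + l') = a h l * a h l' * w ^ p)
    (hfr : ∀ h l, ∃ w : K, w ≠ 0 ∧ g (a h l) = a h (β • l) * w ^ p)
    (hlev : ∀ h l, LevelGE v π p m (a h l))
    (hinj : ∀ h, (∀ l, LevelGE v π p (m + 1) (a h l)) → h = 0) :
    Finite H ∧ Nat.card H ≤ Nat.card Λ := by
  have hgen : Algebra.adjoin (ZMod p) {IntermediateField.AdjoinSimple.gen (ZMod p) β} = ⊤ := by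
    rw [eq_top_iff]
    intro x _
    have hx : (x : k) ∈ (IntermediateField.adjoin (ZMod p) {β}).toSubalgebra := x.2
    rw [IntermediateField.adjoin_simple_toSubalgebra_of_isAlgebraic
      (IsIntegral.of_finite (ZMod p) β).isAlgebraic,
      Algebra.adjoin_singleton_eq_range_aeval] at hx
    obtain ⟨P, hP⟩ := hx
    rw [Algebra.adjoin_singleton_eq_range_aeval]
    refine ⟨P, ?_⟩
    apply Subtype.ext
    have h1 := Polynomial.aeval_algHom_apply (IntermediateField.adjoin (ZMod p) {β}).val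
      (IntermediateField.AdjoinSimple.gen (ZMod p) β) P
    rw [IntermediateField.val_mk] at h1
    exact h1.symm.trans hP
  exact card_le_of_levelGE_tw v hζ hπ hm hlt g hg hfrob
    (IntermediateField.AdjoinSimple.gen (ZMod p) β) hgen a haddH haddΛ hfr hlev hinj

/-! ### (RC0) Invariant unit classes have level divisible by the tame order -/

/-- A unit class in normal form which is invariant modulo `p`-th powers under a tame
automorphism `t` (`t π = π * c`, `c` of exact order `e` in the residue field, `e` not above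
the top level) has level at least `e`.  For `π = ζ - 1`, `e = p - 1`: invariant unit classes
have level `≥ p - 1` (the "peu ramifie" level). -/
theorem levelGE_of_unitNormal_of_invariant (hp : p.Prime) {ζ : K} (hζ : IsPrimitiveRoot ζ p)
    (hπ : IsUnif v π) {e : ℕ} (he : v (ζ - 1) ^ p ≤ v π ^ e)
    (t : K →+* K) (ht : ∀ x, v (t x) = v x) (htame : ∀ x, v x ≤ 1 → v (t x - x) < 1) {c : K}
    (hc : t π = π * c) (hord : ∀ m : ℕ, v (c ^ m - 1) < 1 → e ∣ m)
    {u : K} (hu : UnitNormal v π ζ p u) {x : K} (hx : x ≠ 0) (htu : t u = u * x ^ p) :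
    LevelGE v π p e u := by
  rcases hu with ⟨m, hm0, hpm, hlt, hval⟩ | htop
  · have hπm : π ^ m ≠ 0 := pow_ne_zero m hπ.ne_zero
    have hpos : 0 < v π ^ m := pow_pos hπ.val_pos m
    have hva : v ((u - 1) / π ^ m) = 1 := by
      rw [v.map_div, v.map_pow, hval]
      exact div_self (ne_of_gt hpos)
    have hlead : Lead v π p m u ((u - 1) / π ^ m) := by
      refine ⟨le_of_eq hva, 1, one_ne_zero, ?_⟩
      have e1 : u * 1 ^ p - 1 - (u - 1) / π ^ m * π ^ m = 0 := by
        field_simp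
        ring
      rw [e1, v.map_zero]
      exact hpos
    have h1 := hlead.eigen hp hζ hπ hpm hlt t ht htame hc hva (k := 1) hx
      (by rw [pow_one]; exact htu)
    rw [Nat.cast_one] at h1
    have h2 : e ≤ m := Nat.le_of_dvd hm0 (hord m h1)
    refine ⟨1, one_ne_zero, ?_⟩
    rw [one_pow, mul_one, hval]
    exact pow_le_pow_of_le_one zero_le (le_of_lt hπ.lt_one) h2
  · exact ⟨1, one_ne_zero, by rw [one_pow, mul_one]; exact le_trans htop he⟩

/-! ### (RC3) Twisted homomorphisms vanishing on a subgroup -/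

section Bookkeeping

variable {D : Type*} [Group D] {k : Type*} [Field k]

/-- A map `β : D → k` with `β (σ τ) = β σ + η σ * β τ` which vanishes on a subgroup `N`, when
some `τ₀` with `η τ₀ ≠ 1` commutes with every `σ` modulo `N`, is the coboundary
`σ ↦ (η σ - 1) * x`, `x = β τ₀ / (η τ₀ - 1)`. -/
theorem eq_coboundary_of_vanish (η β : D → k)
    (hβ : ∀ σ τ, β (σ * τ) = β σ + η σ * β τ)
    (N : Subgroup D) (hN : ∀ n ∈ N, β n = 0)
    (τ₀ : D) (hτ₀ : η τ₀ ≠ 1) (hcomm : ∀ σ : D, ∃ n ∈ N, τ₀ * σ = σ * τ₀ * n) (σ : D) :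
    β σ = (η σ - 1) * (β τ₀ / (η τ₀ - 1)) := by
  obtain ⟨n, hn, e⟩ := hcomm σ
  have h1 : β (τ₀ * σ) = β τ₀ + η τ₀ * β σ := hβ τ₀ σ
  have h2 : β (σ * τ₀ * n) = β σ + η σ * β τ₀ := by
    rw [hβ (σ * τ₀) n, hN n hn, mul_zero, add_zero, hβ σ τ₀]
  rw [e, h2] at h1
  have h3 : η τ₀ - 1 ≠ 0 := sub_ne_zero.2 hτ₀
  field_simp
  linear_combination (-1 : k) * h1

/-- Rank-nullity in cardinal form: an additive map `f : Z →+ A` into a finite group whose
kernel lies in a finite subgroup `Z₀`. -/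
theorem finite_card_le_of_addHom {Z A : Type*} [AddCommGroup Z] [AddCommGroup A] [Finite A]
    (f : Z →+ A) (Z₀ : AddSubgroup Z) (hker : ∀ c, f c = 0 → c ∈ Z₀) [Finite Z₀] :
    Finite Z ∧ Nat.card Z ≤ Nat.card A * Nat.card Z₀ := by
  classical
  let s : A → Z := fun t => if h : ∃ c, f c = t then h.choose else 0
  have hs : ∀ c, f (s (f c)) = f c := by
    intro c
    have h : ∃ c', f c' = f c := ⟨c, rfl⟩
    simp only [s, dif_pos h]
    exact h.choose_spec
  let F : Z → A × Z₀ :=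
    fun c => (f c, ⟨c - s (f c), hker _ (by rw [map_sub, hs, sub_self])⟩)
  have hF : Function.Injective F := by
    intro c c' h
    have h1 : f c = f c' := congrArg Prod.fst h
    have h2 : c - s (f c) = c' - s (f c') := congrArg (fun x => (x.2 : Z)) h
    rw [h1] at h2
    exact sub_left_injective h2
  refine ⟨Finite.of_injective F hF, ?_⟩
  calc Nat.card Z ≤ Nat.card (A × Z₀) := Nat.card_le_card_of_injective F hF
    _ = Nat.card A * Nat.card Z₀ := Nat.card_prod _ _

/-- **(RC2) Cocycle bookkeeping for the reducible case.**  `Z` is a `k`-space of upper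
triangular trace-zero cocycles `c` for `Ad ρ`, `ρ = [[χ₁, b], [0, χ₂]]`, seen through its two
coordinates `u c = c₁₁`, `w c = c₁₂ : D → k` (jointly injective); `η = χ₁ / χ₂`,
`t = -2 b / χ₂`, so that `c₁₂ (σ τ) = c₁₂ σ + η σ * c₁₂ τ + t σ * c₁₁ τ`.  If `c₁₁` is
determined by its value at `φ` (`c₁₁` is an unramified homomorphism and `D = ⟨φ⟩ I` at the level
of the cocycles), `τ₀` has `η τ₀ ≠ 1` and commutes with `D` modulo `N`, and the restrictions to
`N` of the `c₁₂` with `c₁₁ = 0` form a set with at most `#k` elements (RC1), then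
`#Z ≤ #k ^ 3`. -/
theorem card_le_cube [Finite k] {Z : Type*} [AddCommGroup Z] [Module k Z]
    (u w : Z →ₗ[k] (D → k)) (hinj : ∀ c, u c = 0 → w c = 0 → c = 0)
    (η t : D → k)
    (hw : ∀ c σ τ, w c (σ * τ) = w c σ + η σ * w c τ + t σ * u c τ)
    (φ : D) (hφ : ∀ c, u c φ = 0 → u c = 0)
    (N : Subgroup D) (τ₀ : D) (hτ₀ : η τ₀ ≠ 1) (hcomm : ∀ σ : D, ∃ n ∈ N, τ₀ * σ = σ * τ₀ * n)
    (hfin : Set.Finite {h : N → k | ∃ c, u c = 0 ∧ ∀ n : N, h n = w c n})
    (hcard : Nat.card {h : N → k | ∃ c, u c = 0 ∧ ∀ n : N, h n = w c n} ≤ Nat.card k) :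
    Finite Z ∧ Nat.card Z ≤ Nat.card k ^ 3 := by
  classical
  have hHfin : Finite {h : N → k | ∃ c, u c = 0 ∧ ∀ n : N, h n = w c n} := hfin.to_subtype
  -- Step A: the kernel of `u`
  let Z₀ : AddSubgroup Z := (LinearMap.ker u).toAddSubgroup
  have hZ₀ : ∀ c : Z₀, u (c : Z) = 0 := fun c => c.2
  let G : Z₀ → k × {h : N → k | ∃ c, u c = 0 ∧ ∀ n : N, h n = w c n} :=
    fun c => (w (c : Z) τ₀, ⟨fun n => w (c : Z) n, ⟨c, hZ₀ c, fun _ => rfl⟩⟩)
  have hG : Function.Injective G := by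
    intro c c' h
    have h1 : w (c : Z) τ₀ = w (c' : Z) τ₀ := congrArg Prod.fst h
    have h2 : ∀ n : N, w (c : Z) n = w (c' : Z) n := by
      intro n
      exact congrFun (congrArg (fun x => (x.2 : N → k)) h) n
    have hu : u ((c : Z) - (c' : Z)) = 0 := by rw [map_sub, hZ₀ c, hZ₀ c', sub_self]
    have hβ : ∀ σ τ, w ((c : Z) - (c' : Z)) (σ * τ) =
        w ((c : Z) - (c' : Z)) σ + η σ * w ((c : Z) - (c' : Z)) τ := by
      intro σ τ
      rw [hw, hu]
      simp
    have hN : ∀ n ∈ N, w ((c : Z) - (c' : Z)) n = 0 := by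
      intro n hn
      rw [map_sub, Pi.sub_apply, h2 ⟨n, hn⟩, sub_self]
    have hτ : w ((c : Z) - (c' : Z)) τ₀ = 0 := by
      rw [map_sub, Pi.sub_apply, h1, sub_self]
    have hw0 : w ((c : Z) - (c' : Z)) = 0 := by
      funext σ
      rw [eq_coboundary_of_vanish η _ hβ N hN τ₀ hτ₀ hcomm σ, hτ]
      simp
    exact Subtype.ext (sub_eq_zero.1 (hinj _ hu hw0))
  have hZ₀fin : Finite Z₀ := Finite.of_injective G hG
  have hZ₀card : Nat.card Z₀ ≤ Nat.card k * Nat.card k := by
    calc Nat.card Z₀ ≤ Nat.card (k × {h : N → k | ∃ c, u c = 0 ∧ ∀ n : N, h n = w c n}) :=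
          Nat.card_le_card_of_injective G hG
      _ = Nat.card k * Nat.card {h : N → k | ∃ c, u c = 0 ∧ ∀ n : N, h n = w c n} :=
          Nat.card_prod _ _
      _ ≤ Nat.card k * Nat.card k := Nat.mul_le_mul_left _ hcard
  -- Step B: the value of `c₁₁` at `φ`
  let f : Z →+ k := ((LinearMap.proj φ : (D → k) →ₗ[k] k).comp u).toAddMonoidHom
  have hf : ∀ c, f c = u c φ := fun _ => rfl
  obtain ⟨hZfin, hZcard⟩ := finite_card_le_of_addHom f Z₀ (fun c hc => hφ c (by rw [← hf]; exact hc))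
  refine ⟨hZfin, ?_⟩
  calc Nat.card Z ≤ Nat.card k * Nat.card Z₀ := hZcard
    _ ≤ Nat.card k * (Nat.card k * Nat.card k) := Nat.mul_le_mul_left _ hZ₀card
    _ = Nat.card k ^ 3 := by ring

/-- A finite vector space over a finite field with at most `#k ^ n` elements has dimension at
most `n`. -/
theorem finrank_le_of_card_le [Finite k] {Z : Type*} [AddCommGroup Z] [Module k Z] [Finite Z]
    {n : ℕ} (h : Nat.card Z ≤ Nat.card k ^ n) : Module.finrank k Z ≤ n := by
  rw [Module.natCard_eq_pow_finrank (K := k) (V := Z)] at h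
  exact (Nat.pow_le_pow_iff_right Finite.one_lt_card).1 h

/-- **(RC2') Final count.**  If the subspace `Z` has at most `#k ^ 3` elements, then
`Z + k d` has dimension at most `4`. -/
theorem finrank_sup_span_le [Finite k] {E : Type*} [AddCommGroup E] [Module k E]
    (Z : Submodule k E) [Finite Z] (hZ : Nat.card Z ≤ Nat.card k ^ 3) (d : E) :
    Module.finrank k ↥(Z ⊔ Submodule.span k {d}) ≤ 4 := by
  have h1 : Module.finrank k Z ≤ 3 := finrank_le_of_card_le hZ
  have h2 : Module.finrank k (Submodule.span k ({d} : Set E)) ≤ 1 := by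
    have h := finrank_span_le_card (R := k) ({d} : Set E)
    simpa using h
  have h3 := Submodule.finrank_add_le_finrank_add_finrank Z (Submodule.span k {d})
  omega

/-- Cardinal form of the final count: `Z + k d` is finite with at most `#k ^ 4` elements. -/
theorem card_sup_span_le [Finite k] {E : Type*} [AddCommGroup E] [Module k E]
    (Z : Submodule k E) [Finite Z] (hZ : Nat.card Z ≤ Nat.card k ^ 3) (d : E) :
    Finite ↥(Z ⊔ Submodule.span k {d}) ∧
      Nat.card ↥(Z ⊔ Submodule.span k {d}) ≤ Nat.card k ^ 4 := by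
  let F : k × Z → ↥(Z ⊔ Submodule.span k {d}) := fun x =>
    ⟨(x.2 : E) + x.1 • d, Submodule.add_mem_sup x.2.2
      (Submodule.smul_mem _ _ (Submodule.mem_span_singleton_self d))⟩
  have hF : Function.Surjective F := by
    rintro ⟨y, hy⟩
    obtain ⟨z, hz, w, hw, rfl⟩ := Submodule.mem_sup.1 hy
    obtain ⟨a, rfl⟩ := Submodule.mem_span_singleton.1 hw
    exact ⟨(a, ⟨z, hz⟩), rfl⟩
  refine ⟨Finite.of_surjective F hF, ?_⟩
  calc Nat.card ↥(Z ⊔ Submodule.span k {d}) ≤ Nat.card (k × Z) :=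
        Nat.card_le_card_of_surjective F hF
    _ = Nat.card k * Nat.card Z := Nat.card_prod _ _
    _ ≤ Nat.card k * Nat.card k ^ 3 := Nat.mul_le_mul_left _ hZ
    _ = Nat.card k ^ 4 := by ring

end Bookkeeping

end Fermat.Agent.S56.helper5221
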