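/-
S56 FLAT-LOCAL, node FLAT-REDCOUNT-MAT (helper5221): the abstract count of the reducible
end-game in the matrix carrier of `helper56_RedShape` (cocycles `c : D → M₂(k)` for
`Ad ρ`, `ρ : D →* M₂(k)` upper triangular, `c (σ τ) = c σ + ρ σ * c τ * ρ σ⁻¹`).

* `dmap ρ X` : the coboundary `σ ↦ ρ σ * X * ρ σ⁻¹ - X` (linear in `X`);
* `Zsh ρ I` : the `k`-space of normalised cocycles (cocycle, trace zero, `c₂₁ = 0` on `D`,
  `c₁₁ = 0` on `I`) -- the output shape of `helper56.exists_cocycle_shape_of_ET`;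
* `slice12 ρ I Q N` : the `k`-space of the restrictions `c₁₂|N` of the `c ∈ Zsh ρ I ⊓ Q` with
  `c₁₁ = 0` (the additive group `H` to which (RC1) `card_le_of_levelGE_field` is applied);
* `card_normalised_le` : `Zsh ρ I ⊓ Q` has at most `#k ^ 3` elements, for any subspace `Q`
  ("flat and of finite level") such that `c₁₁` is determined by its value at `φ` on it and
  `slice12` has at most `#k` elements;
* `LLsub ρ I Q := (Zsh ρ I ⊓ Q) ⊔ k · ∂E₂₁` and `red_count` : it is finite with at most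
  `#k ^ 4` elements, of dimension at most `4`, contains all coboundaries and every cocycle
  `c = c₀ - ∂X` with `c₀ ∈ Zsh ρ I ⊓ Q`, as soon as the coboundaries of upper triangular
  matrices lie in `Q`.

Mathlib + `helper5221_RedCount` only.
-/
import Mathlib
import Fermat.Agent.S56.helper5221_RedCount

set_option autoImplicit false

namespace Fermat.Agent.S56.helper5221

open Matrix

variable {D : Type*} [Group D] {k : Type*} [Field k]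

/-! ### Upper triangular `2 × 2` conjugation -/

section Conj

variable {A B C : Matrix (Fin 2) (Fin 2) k}

/-- The inverse of an upper triangular matrix, entrywise. -/
theorem upper_inv_entries (hA : A 1 0 = 0) (hAB : A * B = 1) :
    B 1 0 = 0 ∧ A 0 0 * B 0 0 = 1 ∧ A 1 1 * B 1 1 = 1 ∧ A 0 0 * B 0 1 + A 0 1 * B 1 1 = 0 := by
  have h00 := congrFun (congrFun hAB 0) 0
  have h01 := congrFun (congrFun hAB 0) 1
  have h10 := congrFun (congrFun hAB 1) 0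
  have h11 := congrFun (congrFun hAB 1) 1
  simp only [Matrix.mul_apply, Fin.sum_univ_two, hA, zero_mul, zero_add] at h00 h01 h10 h11
  have e11 : (1 : Matrix (Fin 2) (Fin 2) k) 1 1 = 1 := Matrix.one_apply_eq 1
  have e00 : (1 : Matrix (Fin 2) (Fin 2) k) 0 0 = 1 := Matrix.one_apply_eq 0
  have e10 : (1 : Matrix (Fin 2) (Fin 2) k) 1 0 = 0 := Matrix.one_apply_ne (by decide)
  have e01 : (1 : Matrix (Fin 2) (Fin 2) k) 0 1 = 0 := Matrix.one_apply_ne (by decide)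
  rw [e00] at h00
  rw [e01] at h01
  rw [e10] at h10
  rw [e11] at h11
  have hA11 : A 1 1 ≠ 0 := by
    intro h0
    rw [h0, zero_mul] at h11
    exact zero_ne_one h11
  have hB10 : B 1 0 = 0 := by
    rcases mul_eq_zero.1 h10 with h | h
    · exact absurd h hA11
    · exact h
  rw [hB10, mul_zero, add_zero] at h00
  exact ⟨hB10, h00, h11, h01⟩

theorem upper_conj_apply_one_zero (hA : A 1 0 = 0) (hAB : A * B = 1) (hC : C 1 0 = 0) :
    (A * C * B) 1 0 = 0 := by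
  obtain ⟨hB, -, -, -⟩ := upper_inv_entries hA hAB
  simp only [Matrix.mul_apply, Fin.sum_univ_two, hA, hB, hC, zero_mul, mul_zero, add_zero]

theorem upper_conj_apply_zero_zero (hA : A 1 0 = 0) (hAB : A * B = 1) (hC : C 1 0 = 0) :
    (A * C * B) 0 0 = C 0 0 := by
  obtain ⟨hB, h00, -, -⟩ := upper_inv_entries hA hAB
  simp only [Matrix.mul_apply, Fin.sum_univ_two, hB, hC, mul_zero, add_zero]
  linear_combination (C 0 0) * h00

theorem upper_conj_apply_one_one (hA : A 1 0 = 0) (hAB : A * B = 1) (hC : C 1 0 = 0) :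
    (A * C * B) 1 1 = C 1 1 := by
  obtain ⟨-, -, h11, -⟩ := upper_inv_entries hA hAB
  simp only [Matrix.mul_apply, Fin.sum_univ_two, hA, hC, zero_mul, mul_zero, zero_add]
  linear_combination (C 1 1) * h11

theorem upper_conj_apply_zero_one (hA : A 1 0 = 0) (hAB : A * B = 1) (hC : C 1 0 = 0) :
    (A * C * B) 0 1 = A 0 0 * B 1 1 * C 0 1 + A 0 1 * B 1 1 * (C 1 1 - C 0 0) := by
  obtain ⟨-, -, -, h01⟩ := upper_inv_entries hA hAB
  simp only [Matrix.mul_apply, Fin.sum_univ_two, hC, mul_zero, add_zero]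
  linear_combination (C 0 0) * h01

end Conj

/-! ### The coboundary map -/

section Cob

variable (ρ : D →* Matrix (Fin 2) (Fin 2) k)

theorem rho_mul_rho_inv (σ : D) : ρ σ * ρ σ⁻¹ = 1 := by
  rw [← map_mul, mul_inv_cancel, map_one]

theorem rho_inv_mul_rho (σ : D) : ρ σ⁻¹ * ρ σ = 1 := by
  rw [← map_mul, inv_mul_cancel, map_one]

/-- The coboundary `σ ↦ ρ σ * X * ρ σ⁻¹ - X`, linear in `X`. -/
def dmap : Matrix (Fin 2) (Fin 2) k →ₗ[k] (D → Matrix (Fin 2) (Fin 2) k) where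
  toFun X := fun σ => ρ σ * X * ρ σ⁻¹ - X
  map_add' X Y := by
    funext σ
    simp only [Pi.add_apply, mul_add, add_mul]
    abel
  map_smul' a X := by
    funext σ
    simp only [Pi.smul_apply, RingHom.id_apply, Matrix.mul_smul, Matrix.smul_mul, smul_sub]

@[simp] theorem dmap_apply (X : Matrix (Fin 2) (Fin 2) k) (σ : D) :
    dmap ρ X σ = ρ σ * X * ρ σ⁻¹ - X := rfl

theorem dmap_mul (X : Matrix (Fin 2) (Fin 2) k) (σ τ : D) :
    dmap ρ X (σ * τ) = dmap ρ X σ + ρ σ * dmap ρ X τ * ρ σ⁻¹ := by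
  simp only [dmap_apply, map_mul, _root_.mul_inv_rev, mul_sub, sub_mul, mul_assoc]
  abel

theorem trace_dmap (X : Matrix (Fin 2) (Fin 2) k) (σ : D) : (dmap ρ X σ).trace = 0 := by
  rw [dmap_apply, Matrix.trace_sub, Matrix.trace_mul_comm, ← mul_assoc, rho_inv_mul_rho,
    one_mul, sub_self]

/-- The elementary matrix `E₂₁` (the only direction of `M₂(k)` which is not upper
triangular). -/
def lowE : Matrix (Fin 2) (Fin 2) k := !![0, 0; 1, 0]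

theorem eq_upper_add_lowE (X : Matrix (Fin 2) (Fin 2) k) :
    X = (X - X 1 0 • (lowE : Matrix (Fin 2) (Fin 2) k)) + X 1 0 • lowE := by
  abel

theorem upper_sub_lowE (X : Matrix (Fin 2) (Fin 2) k) :
    (X - X 1 0 • (lowE : Matrix (Fin 2) (Fin 2) k)) 1 0 = 0 := by
  simp [lowE]

end Cob

/-! ### Normalised cocycles -/

section Shape

variable (ρ : D →* Matrix (Fin 2) (Fin 2) k)

/-- The `k`-space of normalised cocycles: cocycles for `Ad ρ` of trace zero with `c₂₁ = 0` on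
`D` and `c₁₁ = 0` on `I`. -/
def Zsh (I : Subgroup D) : Submodule k (D → Matrix (Fin 2) (Fin 2) k) where
  carrier := {c | (∀ σ τ, c (σ * τ) = c σ + ρ σ * c τ * ρ σ⁻¹) ∧ (∀ σ, (c σ).trace = 0) ∧
    (∀ σ, c σ 1 0 = 0) ∧ ∀ σ ∈ I, c σ 0 0 = 0}
  add_mem' := by
    rintro c c' ⟨h1, h2, h3, h4⟩ ⟨h1', h2', h3', h4'⟩
    refine ⟨fun σ τ => ?_, fun σ => ?_, fun σ => ?_, fun σ hσ => ?_⟩
    · simp only [Pi.add_apply, h1 σ τ, h1' σ τ, mul_add, add_mul]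
      abel
    · simp only [Pi.add_apply, Matrix.trace_add, h2 σ, h2' σ, add_zero]
    · simp only [Pi.add_apply, Matrix.add_apply, h3 σ, h3' σ, add_zero]
    · simp only [Pi.add_apply, Matrix.add_apply, h4 σ hσ, h4' σ hσ, add_zero]
  zero_mem' := by
    refine ⟨fun σ τ => ?_, fun σ => ?_, fun σ => ?_, fun σ _ => ?_⟩
    · simp only [Pi.zero_apply, mul_zero, zero_mul, add_zero]
    · simp only [Pi.zero_apply, Matrix.trace_zero]
    · simp only [Pi.zero_apply, Matrix.zero_apply]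
    · simp only [Pi.zero_apply, Matrix.zero_apply]
  smul_mem' := by
    rintro a c ⟨h1, h2, h3, h4⟩
    refine ⟨fun σ τ => ?_, fun σ => ?_, fun σ => ?_, fun σ hσ => ?_⟩
    · simp only [Pi.smul_apply, h1 σ τ, smul_add, Matrix.mul_smul, Matrix.smul_mul]
    · simp only [Pi.smul_apply, Matrix.trace_smul, h2 σ, smul_zero]
    · simp only [Pi.smul_apply, Matrix.smul_apply, h3 σ, smul_zero]
    · simp only [Pi.smul_apply, Matrix.smul_apply, h4 σ hσ, smul_zero]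

variable {ρ}

theorem mem_Zsh {I : Subgroup D} {c : D → Matrix (Fin 2) (Fin 2) k} :
    c ∈ Zsh ρ I ↔ (∀ σ τ, c (σ * τ) = c σ + ρ σ * c τ * ρ σ⁻¹) ∧ (∀ σ, (c σ).trace = 0) ∧
      (∀ σ, c σ 1 0 = 0) ∧ ∀ σ ∈ I, c σ 0 0 = 0 := Iff.rfl

theorem Zsh_apply_one_one {I : Subgroup D} {c : D → Matrix (Fin 2) (Fin 2) k}
    (hc : c ∈ Zsh ρ I) (σ : D) : c σ 1 1 = - c σ 0 0 := by
  have h := hc.2.1 σ
  rw [Matrix.trace_fin_two] at h
  linear_combination h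

/-- On normalised cocycles `c₁₁` is a homomorphism `D → k`. -/
theorem Zsh_apply_zero_zero_mul (hup : ∀ σ, ρ σ 1 0 = 0) {I : Subgroup D}
    {c : D → Matrix (Fin 2) (Fin 2) k} (hc : c ∈ Zsh ρ I) (σ τ : D) :
    c (σ * τ) 0 0 = c σ 0 0 + c τ 0 0 := by
  rw [hc.1 σ τ, Matrix.add_apply,
    upper_conj_apply_zero_zero (hup σ) (rho_mul_rho_inv ρ σ) (hc.2.2.1 τ)]

/-- On normalised cocycles `c₁₂` is an `η`-cocycle up to the term `t σ * c₁₁ τ`,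
`η = χ₁ / χ₂`, `t = -2 b / χ₂`. -/
theorem Zsh_apply_zero_one_mul (hup : ∀ σ, ρ σ 1 0 = 0) {I : Subgroup D}
    {c : D → Matrix (Fin 2) (Fin 2) k} (hc : c ∈ Zsh ρ I) (σ τ : D) :
    c (σ * τ) 0 1 = c σ 0 1 + ρ σ 0 0 * ρ σ⁻¹ 1 1 * c τ 0 1 +
      -2 * ρ σ 0 1 * ρ σ⁻¹ 1 1 * c τ 0 0 := by
  rw [hc.1 σ τ, Matrix.add_apply,
    upper_conj_apply_zero_one (hup σ) (rho_mul_rho_inv ρ σ) (hc.2.2.1 τ), Zsh_apply_one_one hc τ]
  ring

/-- The `c₁₁`-homomorphism of a normalised cocycle, in multiplicative form (the shape to which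
`helper6024.decomposition_eq_dec` applies). -/
def c11Hom (hup : ∀ σ, ρ σ 1 0 = 0) {I : Subgroup D} {c : D → Matrix (Fin 2) (Fin 2) k}
    (hc : c ∈ Zsh ρ I) : D →* Multiplicative k where
  toFun σ := Multiplicative.ofAdd (c σ 0 0)
  map_one' := by
    have h := Zsh_apply_zero_zero_mul hup hc 1 1
    rw [mul_one] at h
    have h0 : c 1 0 0 = 0 := by linear_combination -h
    rw [h0]; rfl
  map_mul' σ τ := by
    rw [Zsh_apply_zero_zero_mul hup hc σ τ]; rfl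

@[simp] theorem c11Hom_apply (hup : ∀ σ, ρ σ 1 0 = 0) {I : Subgroup D}
    {c : D → Matrix (Fin 2) (Fin 2) k} (hc : c ∈ Zsh ρ I) (σ : D) :
    c11Hom hup hc σ = Multiplicative.ofAdd (c σ 0 0) := rfl

/-- If `D = ⟨φ⟩ · I` as far as the homomorphism `c₁₁` can see, then `c₁₁ (φ) = 0` forces
`c₁₁ = 0`. -/
theorem Zsh_c11_eq_zero (hup : ∀ σ, ρ σ 1 0 = 0) {I : Subgroup D}
    {c : D → Matrix (Fin 2) (Fin 2) k} (hc : c ∈ Zsh ρ I) (φ : D)
    (hdec : ∀ τ : D, ∃ n : ℕ, ∃ σ ∈ I, c11Hom hup hc τ = c11Hom hup hc (φ ^ n) * c11Hom hup hc σ)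
    (h : c φ 0 0 = 0) (τ : D) : c τ 0 0 = 0 := by
  obtain ⟨n, σ, hσ, e⟩ := hdec τ
  have h1 : c11Hom hup hc φ = 1 := by rw [c11Hom_apply, h]; rfl
  have h2 : c11Hom hup hc σ = 1 := by rw [c11Hom_apply, hc.2.2.2 σ hσ]; rfl
  rw [map_pow, h1, one_pow, h2, mul_one] at e
  exact e

/-- Coboundaries of upper triangular matrices are normalised cocycles. -/
theorem dmap_mem_Zsh (hup : ∀ σ, ρ σ 1 0 = 0) (I : Subgroup D) {X : Matrix (Fin 2) (Fin 2) k}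
    (hX : X 1 0 = 0) : dmap ρ X ∈ Zsh ρ I := by
  refine ⟨fun σ τ => dmap_mul ρ X σ τ, fun σ => trace_dmap ρ X σ, fun σ => ?_, fun σ _ => ?_⟩
  · rw [dmap_apply, Matrix.sub_apply,
      upper_conj_apply_one_zero (hup σ) (rho_mul_rho_inv ρ σ) hX, hX, sub_zero]
  · rw [dmap_apply, Matrix.sub_apply,
      upper_conj_apply_zero_zero (hup σ) (rho_mul_rho_inv ρ σ) hX, sub_self]

variable (ρ)

/-- The `k`-space of the restrictions to `N` of the `c₁₂`, for the `c ∈ Zsh ρ I ⊓ Q` with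
`c₁₁ = 0`. -/
def slice12 (I : Subgroup D) (Q : Submodule k (D → Matrix (Fin 2) (Fin 2) k)) (N : Subgroup D) :
    Submodule k (↥N → k) where
  carrier := {h | ∃ c ∈ Zsh ρ I ⊓ Q, (∀ σ, c σ 0 0 = 0) ∧ ∀ n : N, h n = c n 0 1}
  add_mem' := by
    rintro h h' ⟨c, hc, hc0, hch⟩ ⟨c', hc', hc0', hch'⟩
    refine ⟨c + c', add_mem hc hc', fun σ => ?_, fun n => ?_⟩
    · simp only [Pi.add_apply, Matrix.add_apply, hc0 σ, hc0' σ, add_zero]
    · simp only [Pi.add_apply, Matrix.add_apply, hch n, hch' n]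
  zero_mem' := ⟨0, zero_mem _, fun σ => rfl, fun n => rfl⟩
  smul_mem' := by
    rintro a h ⟨c, hc, hc0, hch⟩
    refine ⟨a • c, Submodule.smul_mem _ a hc, fun σ => ?_, fun n => ?_⟩
    · simp only [Pi.smul_apply, Matrix.smul_apply, hc0 σ, smul_zero]
    · simp only [Pi.smul_apply, Matrix.smul_apply, hch n]

variable {ρ}

theorem mem_slice12 {I : Subgroup D} {Q : Submodule k (D → Matrix (Fin 2) (Fin 2) k)}
    {N : Subgroup D} {h : ↥N → k} :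
    h ∈ slice12 ρ I Q N ↔
      ∃ c ∈ Zsh ρ I ⊓ Q, (∀ σ, c σ 0 0 = 0) ∧ ∀ n : N, h n = c n 0 1 := Iff.rfl

/-- For `c ∈ Zsh ρ I` with `c₁₁ = 0`, the entry `c₁₂` is an `η`-cocycle on `D`. -/
theorem Zsh_c12_cocycle (hup : ∀ σ, ρ σ 1 0 = 0) {I : Subgroup D}
    {c : D → Matrix (Fin 2) (Fin 2) k} (hc : c ∈ Zsh ρ I) (hc0 : ∀ σ, c σ 0 0 = 0) (σ τ : D) :
    c (σ * τ) 0 1 = c σ 0 1 + ρ σ 0 0 * ρ σ⁻¹ 1 1 * c τ 0 1 := by
  rw [Zsh_apply_zero_one_mul hup hc σ τ, hc0 τ, mul_zero, add_zero]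

/-- The elements of `slice12` are additive on `N` as soon as `η = 1` on `N`. -/
theorem slice12_mul (hup : ∀ σ, ρ σ 1 0 = 0) {I : Subgroup D}
    {Q : Submodule k (D → Matrix (Fin 2) (Fin 2) k)} {N : Subgroup D}
    (hη : ∀ n ∈ N, ρ n 0 0 * ρ n⁻¹ 1 1 = 1) {h : ↥N → k} (hh : h ∈ slice12 ρ I Q N)
    (n n' : ↥N) : h (n * n') = h n + h n' := by
  obtain ⟨c, hc, hc0, hch⟩ := hh
  rw [hch, hch, hch, Subgroup.coe_mul, Zsh_c12_cocycle hup hc.1 hc0, hη n n.2, one_mul]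

/-- An `η`-cocycle vanishes at `1`. -/
theorem Zsh_c12_one (hup : ∀ σ, ρ σ 1 0 = 0) {I : Subgroup D}
    {c : D → Matrix (Fin 2) (Fin 2) k} (hc : c ∈ Zsh ρ I) (hc0 : ∀ σ, c σ 0 0 = 0) :
    c 1 0 1 = 0 := by
  have h := Zsh_c12_cocycle hup hc hc0 1 1
  rw [mul_one, map_one, inv_one, map_one, Matrix.one_apply_eq, Matrix.one_apply_eq, one_mul,
    one_mul] at h
  exact left_eq_add.1 h

/-- Conjugation formula on `slice12`: `h (g⁻¹ n g) = η (g⁻¹) * h n`. -/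
theorem slice12_conj (hup : ∀ σ, ρ σ 1 0 = 0) {I : Subgroup D}
    {Q : Submodule k (D → Matrix (Fin 2) (Fin 2) k)} {N : Subgroup D}
    (hη : ∀ n ∈ N, ρ n 0 0 * ρ n⁻¹ 1 1 = 1) {h : ↥N → k} (hh : h ∈ slice12 ρ I Q N)
    (g : D) (n : ↥N) (hn : g⁻¹ * (n : D) * g ∈ N) :
    h ⟨g⁻¹ * (n : D) * g, hn⟩ = ρ g⁻¹ 0 0 * ρ g 1 1 * h n := by
  obtain ⟨c, hc, hc0, hch⟩ := hh
  rw [hch, hch]
  show c (g⁻¹ * (n : D) * g) 0 1 = ρ g⁻¹ 0 0 * ρ g 1 1 * c (n : D) 0 1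
  have h1 := Zsh_c12_cocycle hup hc.1 hc0 g⁻¹ ((n : D) * g)
  have h2 := Zsh_c12_cocycle hup hc.1 hc0 (n : D) g
  have h3 := Zsh_c12_cocycle hup hc.1 hc0 g⁻¹ g
  rw [inv_mul_cancel, Zsh_c12_one hup hc.1 hc0] at h3
  rw [inv_inv] at h1 h3
  rw [mul_assoc, h1, h2, hη n n.2, one_mul]
  linear_combination -h3

/-- **The count on normalised cocycles.**  `Zsh ρ I ⊓ Q` has at most `#k ^ 3` elements, as
soon as `c₁₁` is determined by its value at `φ` and the `c₁₂|N` with `c₁₁ = 0` are at most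
`#k` (the output of (RC1)). -/
theorem card_normalised_le [Finite k] (hup : ∀ σ, ρ σ 1 0 = 0) (I : Subgroup D)
    (Q : Submodule k (D → Matrix (Fin 2) (Fin 2) k))
    (φ : D) (hφ : ∀ c ∈ Zsh ρ I ⊓ Q, c φ 0 0 = 0 → ∀ σ, c σ 0 0 = 0)
    (N : Subgroup D) (τ₀ : D) (hτ₀ : ρ τ₀ 0 0 * ρ τ₀⁻¹ 1 1 ≠ 1)
    (hcomm : ∀ σ : D, ∃ n ∈ N, τ₀ * σ = σ * τ₀ * n)
    [Finite ↥(slice12 ρ I Q N)] (hcard : Nat.card ↥(slice12 ρ I Q N) ≤ Nat.card k) :
    Finite ↥(Zsh ρ I ⊓ Q) ∧ Nat.card ↥(Zsh ρ I ⊓ Q) ≤ Nat.card k ^ 3 := by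
  classical
  let S : Submodule k (D → Matrix (Fin 2) (Fin 2) k) := Zsh ρ I ⊓ Q
  let ent : Fin 2 → Fin 2 → ((D → Matrix (Fin 2) (Fin 2) k) →ₗ[k] (D → k)) := fun i j =>
    { toFun := fun c σ => c σ i j
      map_add' := fun c c' => rfl
      map_smul' := fun a c => rfl }
  let u : ↥S →ₗ[k] (D → k) := (ent 0 0).comp S.subtype
  let w : ↥S →ₗ[k] (D → k) := (ent 0 1).comp S.subtype
  have hu : ∀ (c : ↥S) (σ : D), u c σ = (c : D → Matrix (Fin 2) (Fin 2) k) σ 0 0 :=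
    fun c σ => rfl
  have hwv : ∀ (c : ↥S) (σ : D), w c σ = (c : D → Matrix (Fin 2) (Fin 2) k) σ 0 1 :=
    fun c σ => rfl
  have hS : ∀ c : ↥S, (c : D → Matrix (Fin 2) (Fin 2) k) ∈ Zsh ρ I := fun c => c.2.1
  have hset : {h : ↥N → k | ∃ c : ↥S, u c = 0 ∧ ∀ n : N, h n = w c n} =
      (slice12 ρ I Q N : Set (↥N → k)) := by
    ext h
    constructor
    · rintro ⟨c, hc0, hch⟩
      exact ⟨c, c.2, fun σ => by rw [← hu c σ, hc0]; rfl, fun n => hch n⟩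
    · rintro ⟨c, hc, hc0, hch⟩
      exact ⟨⟨c, hc⟩, funext fun σ => hc0 σ, fun n => hch n⟩
  refine card_le_cube (Z := ↥S) u w ?_ (fun σ => ρ σ 0 0 * ρ σ⁻¹ 1 1)
    (fun σ => -2 * ρ σ 0 1 * ρ σ⁻¹ 1 1) ?_ φ ?_ N τ₀ hτ₀ hcomm ?_ ?_
  · intro c h0 h1
    apply Subtype.ext
    funext σ
    have e00 : (c : D → Matrix (Fin 2) (Fin 2) k) σ 0 0 = 0 := by rw [← hu c σ, h0]; rfl
    have e01 : (c : D → Matrix (Fin 2) (Fin 2) k) σ 0 1 = 0 := by rw [← hwv c σ, h1]; rfl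
    have e10 : (c : D → Matrix (Fin 2) (Fin 2) k) σ 1 0 = 0 := (hS c).2.2.1 σ
    have e11 : (c : D → Matrix (Fin 2) (Fin 2) k) σ 1 1 = 0 := by
      rw [Zsh_apply_one_one (hS c) σ, e00, neg_zero]
    ext i j
    fin_cases i <;> fin_cases j
    · exact e00
    · exact e01
    · exact e10
    · exact e11
  · intro c σ τ
    rw [hwv, hwv, hwv, hu]
    exact Zsh_apply_zero_one_mul hup (hS c) σ τ
  · intro c h0
    funext σ
    rw [hu]
    exact hφ c c.2 (by rw [← hu c φ]; exact h0) σ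
  · rw [hset]
    exact Set.toFinite _
  · rw [hset]
    exact hcard

/-- The hypothesis `hτ₀` of `card_normalised_le` in the shape of `helper56_RedShape`
(`χ₂` unramified, `χ₁ (τ0) ≠ 1` for some `τ0 ∈ I`). -/
theorem eta_ne_one_of_inertia (I : Subgroup D) (hχ2 : ∀ σ ∈ I, ρ σ 1 1 = 1) {τ0 : D}
    (hτ0 : τ0 ∈ I) (hτ0' : ρ τ0 0 0 ≠ 1) : ρ τ0 0 0 * ρ τ0⁻¹ 1 1 ≠ 1 := by
  rw [hχ2 _ (I.inv_mem hτ0), mul_one]
  exact hτ0'

/-- The hypothesis `hcomm` of `card_normalised_le` for a subgroup `N` containing all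
commutators (e.g. the common kernel of characters of `D`). -/
theorem comm_of_commutators (N : Subgroup D) (hN : ∀ σ τ : D, τ⁻¹ * σ⁻¹ * τ * σ ∈ N) (τ₀ : D)
    (σ : D) : ∃ n ∈ N, τ₀ * σ = σ * τ₀ * n :=
  ⟨τ₀⁻¹ * σ⁻¹ * τ₀ * σ, hN σ τ₀, by group⟩

/-! ### The final subspace -/

variable (ρ)

/-- The subspace `LL = (Zsh ρ I ⊓ Q) + k · ∂E₂₁`. -/
def LLsub (I : Subgroup D) (Q : Submodule k (D → Matrix (Fin 2) (Fin 2) k)) :
    Submodule k (D → Matrix (Fin 2) (Fin 2) k) :=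
  (Zsh ρ I ⊓ Q) ⊔ Submodule.span k {dmap ρ lowE}

variable {ρ}

/-- Every coboundary lies in `LLsub`. -/
theorem dmap_mem_LLsub (hup : ∀ σ, ρ σ 1 0 = 0) (I : Subgroup D)
    (Q : Submodule k (D → Matrix (Fin 2) (Fin 2) k))
    (hB : ∀ X : Matrix (Fin 2) (Fin 2) k, X 1 0 = 0 → dmap ρ X ∈ Q)
    (X : Matrix (Fin 2) (Fin 2) k) : dmap ρ X ∈ LLsub ρ I Q := by
  rw [eq_upper_add_lowE X, map_add, map_smul]
  refine Submodule.add_mem_sup ?_ ?_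
  · exact ⟨dmap_mem_Zsh hup I (upper_sub_lowE X), hB _ (upper_sub_lowE X)⟩
  · exact Submodule.smul_mem _ _ (Submodule.subset_span rfl)

/-- Every cocycle `c₀ - ∂X` with `c₀` normalised (the output of the shape lemma) lies in
`LLsub`. -/
theorem sub_dmap_mem_LLsub (hup : ∀ σ, ρ σ 1 0 = 0) (I : Subgroup D)
    (Q : Submodule k (D → Matrix (Fin 2) (Fin 2) k))
    (hB : ∀ X : Matrix (Fin 2) (Fin 2) k, X 1 0 = 0 → dmap ρ X ∈ Q)
    {c0 : D → Matrix (Fin 2) (Fin 2) k} (hc0 : c0 ∈ Zsh ρ I ⊓ Q)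
    (X : Matrix (Fin 2) (Fin 2) k) :
    (fun σ => c0 σ - (ρ σ * X * ρ σ⁻¹ - X)) ∈ LLsub ρ I Q := by
  have h : (fun σ => c0 σ - (ρ σ * X * ρ σ⁻¹ - X)) = c0 - dmap ρ X := rfl
  rw [h]
  exact sub_mem (Submodule.mem_sup_left hc0) (dmap_mem_LLsub hup I Q hB X)

/-- Elements of `LLsub` are trace-zero cocycles. -/
theorem cocycle_of_mem_LLsub (I : Subgroup D)
    (Q : Submodule k (D → Matrix (Fin 2) (Fin 2) k)) {c : D → Matrix (Fin 2) (Fin 2) k}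
    (hc : c ∈ LLsub ρ I Q) :
    (∀ σ τ, c (σ * τ) = c σ + ρ σ * c τ * ρ σ⁻¹) ∧ ∀ σ, (c σ).trace = 0 := by
  obtain ⟨c0, hc0, d, hd, rfl⟩ := Submodule.mem_sup.1 hc
  obtain ⟨a, rfl⟩ := Submodule.mem_span_singleton.1 hd
  have h1 := hc0.1.1
  have h2 := hc0.1.2.1
  refine ⟨fun σ τ => ?_, fun σ => ?_⟩
  · simp only [Pi.add_apply, Pi.smul_apply, h1 σ τ, dmap_mul ρ lowE σ τ, smul_add, mul_add,
      add_mul, Matrix.mul_smul, Matrix.smul_mul]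
    abel
  · simp only [Pi.add_apply, Pi.smul_apply, Matrix.trace_add, Matrix.trace_smul, h2 σ,
      trace_dmap ρ lowE σ, smul_zero, add_zero]

/-- **(RED-COUNT, matrix carrier).**  `LLsub ρ I Q` is finite with at most `#k ^ 4` elements,
of dimension at most `4`; it contains all coboundaries and all `c₀ - ∂X`, `c₀ ∈ Zsh ρ I ⊓ Q`. -/
theorem red_count [Finite k] (hup : ∀ σ, ρ σ 1 0 = 0) (I : Subgroup D)
    (Q : Submodule k (D → Matrix (Fin 2) (Fin 2) k))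
    (φ : D) (hφ : ∀ c ∈ Zsh ρ I ⊓ Q, c φ 0 0 = 0 → ∀ σ, c σ 0 0 = 0)
    (N : Subgroup D) (τ₀ : D) (hτ₀ : ρ τ₀ 0 0 * ρ τ₀⁻¹ 1 1 ≠ 1)
    (hcomm : ∀ σ : D, ∃ n ∈ N, τ₀ * σ = σ * τ₀ * n)
    [Finite ↥(slice12 ρ I Q N)] (hcard : Nat.card ↥(slice12 ρ I Q N) ≤ Nat.card k)
    (hB : ∀ X : Matrix (Fin 2) (Fin 2) k, X 1 0 = 0 → dmap ρ X ∈ Q) :
    Finite ↥(LLsub ρ I Q) ∧ Nat.card ↥(LLsub ρ I Q) ≤ Nat.card k ^ 4 ∧
      Module.finrank k ↥(LLsub ρ I Q) ≤ 4 ∧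
      (∀ X : Matrix (Fin 2) (Fin 2) k, dmap ρ X ∈ LLsub ρ I Q) ∧
      (∀ c0 ∈ Zsh ρ I ⊓ Q, ∀ X : Matrix (Fin 2) (Fin 2) k,
        (fun σ => c0 σ - (ρ σ * X * ρ σ⁻¹ - X)) ∈ LLsub ρ I Q) ∧
      ∀ c ∈ LLsub ρ I Q, (∀ σ τ, c (σ * τ) = c σ + ρ σ * c τ * ρ σ⁻¹) ∧ ∀ σ, (c σ).trace = 0 := by
  obtain ⟨hfin, hc3⟩ := card_normalised_le hup I Q φ hφ N τ₀ hτ₀ hcomm hcard
  obtain ⟨hfin4, hc4⟩ := card_sup_span_le (Zsh ρ I ⊓ Q) hc3 (dmap ρ lowE)
  refine ⟨hfin4, hc4, ?_, dmap_mem_LLsub hup I Q hB,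
    fun c0 hc0 X => sub_dmap_mem_LLsub hup I Q hB hc0 X,
    fun c hc => cocycle_of_mem_LLsub I Q hc⟩
  exact finrank_sup_span_le (Zsh ρ I ⊓ Q) hc3 (dmap ρ lowE)

end Shape

end Fermat.Agent.S56.helper5221
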