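/-
S56 FLAT-LOCAL, node FLAT-RED-HCARD (helper5221): the junction
"Kummer dictionary + eigen-count (RC1) ⟹ `hcard` of `red_count`" in the frozen vocabulary.

`A` a valuation subring of `ℚ̄` over `p`, `D := A.decompositionSubgroup ℚ` (as a type),
`N₀ := {s ∈ I_A | s ζ = ζ}` (`inertiaZetaQ A ζ ≤ Gal(ℚ̄/ℚ)`, `inertiaZeta A ζ ≤ D`),
`K := helper164.fixedK N₀` with the valuation `helper164.valK A N₀`, uniformiser `ζ - 1`,
level `m = p - 1`, `Λ := k` with the trace form of `k / 𝔽_p`.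

* `conj_mem_inertiaZetaQ`, `comm_inertiaZeta` : `N₀` is normalised by `D`, and contains the
  commutators `[τ₀, σ]`, `τ₀ ∈ I_A`, `σ ∈ D` (the `hcomm` of `card_normalised_le`);
* `card_slice12_le` : `#(slice12 ρ I Q N₀) ≤ #k` from (TYPE) `η = 1` on `N₀`, (TAME) the value
  group of `K` is generated by `v (ζ - 1)`, (LEVEL INPUT) the Kummer radicand of
  `Tr (l * c₁₂)|N₀` lies in `(1 + p 𝒪) Kˣᵖ` for every normalised `c ∈ Q` with `c₁₁ = 0`.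
-/
import Mathlib
import Fermat.Agent.S56.helper164_KummerLocal
import Fermat.Agent.S56.helper5221_RedAsm
import Fermat.Agent.Lib.helper54_Frobenius
import Fermat.Agent.S56.helper6024_TameInertia

set_option autoImplicit false

namespace Fermat.Agent.S56.helper5221

open Fermat.Agent.S56.helper164 Fermat.Agent.S56.helper4188

/-! ### The subgroup `N₀ = {s ∈ I | s ζ = ζ}` -/

section Subgroups

variable (A : ValuationSubring Qb) (ζ : Qb)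

/-- `N₀ = {s ∈ I_A | s ζ = ζ}` as a subgroup of `Gal(ℚ̄/ℚ)`. -/
noncomputable def inertiaZetaQ : Subgroup GQ where
  carrier := {s | s ∈ A.inertiaSubgroupIn ℚ ∧ s ζ = ζ}
  mul_mem' := by
    rintro a b ⟨ha, ha'⟩ ⟨hb, hb'⟩
    exact ⟨mul_mem ha hb, by rw [AlgEquiv.mul_apply, hb', ha']⟩
  one_mem' := ⟨one_mem _, rfl⟩
  inv_mem' := by
    rintro a ⟨ha, ha'⟩
    refine ⟨inv_mem ha, ?_⟩
    have h : a⁻¹ (a ζ) = ζ := a.symm_apply_apply ζ
    rw [ha'] at h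
    exact h

theorem mem_inertiaZetaQ {s : GQ} :
    s ∈ inertiaZetaQ A ζ ↔ s ∈ A.inertiaSubgroupIn ℚ ∧ s ζ = ζ := Iff.rfl

/-- `N₀` inside the decomposition group. -/
noncomputable def inertiaZeta : Subgroup ↥(A.decompositionSubgroup ℚ) :=
  (inertiaZetaQ A ζ).comap (A.decompositionSubgroup ℚ).subtype

theorem mem_inertiaZeta {n : ↥(A.decompositionSubgroup ℚ)} :
    n ∈ inertiaZeta A ζ ↔ (n : GQ) ∈ inertiaZetaQ A ζ := Iff.rfl

theorem inertiaZetaQ_le_decomposition {s : GQ} (hs : s ∈ inertiaZetaQ A ζ) :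
    s ∈ A.decompositionSubgroup ℚ :=
  Fermat.Agent.S05.helper4205.mem_decomposition_of_mem_inertiaSubgroupIn hs.1

variable {A ζ}

/-- Elements of `Gal(ℚ̄/ℚ)` commute on the `p`-th roots of unity. -/
theorem apply_apply_comm_of_isPrimitiveRoot {p : ℕ} (hp : 0 < p) (hζ : IsPrimitiveRoot ζ p)
    (σ τ : GQ) : σ (τ ζ) = τ (σ ζ) := by
  have : NeZero p := ⟨hp.ne'⟩
  have h1 : (σ ζ) ^ p = 1 := by rw [← map_pow, hζ.pow_eq_one, map_one]
  have h2 : (τ ζ) ^ p = 1 := by rw [← map_pow, hζ.pow_eq_one, map_one]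
  obtain ⟨i, -, hi⟩ := hζ.eq_pow_of_pow_eq_one h1
  obtain ⟨j, -, hj⟩ := hζ.eq_pow_of_pow_eq_one h2
  rw [← hi, ← hj, map_pow, map_pow, ← hi, ← hj, ← pow_mul, ← pow_mul, mul_comm]

/-- `N₀` is normalised by the decomposition group. -/
theorem conj_mem_inertiaZetaQ {p : ℕ} (hp : 0 < p) (hζ : IsPrimitiveRoot ζ p) {g : GQ}
    (hg : g ∈ A.decompositionSubgroup ℚ) {s : GQ} (hs : s ∈ inertiaZetaQ A ζ) :
    g⁻¹ * s * g ∈ inertiaZetaQ A ζ := by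
  refine ⟨?_, ?_⟩
  · have h := Fermat.Agent.S56.helper6024.conj_mem_inertiaSubgroupIn (A := A)
      (inv_mem hg) hs.1
    rwa [inv_inv] at h
  · rw [AlgEquiv.mul_apply, AlgEquiv.mul_apply, apply_apply_comm_of_isPrimitiveRoot hp hζ s g,
      hs.2]
    exact g.symm_apply_apply ζ

/-- `N₀` contains the commutators of inertia with the decomposition group: the hypothesis
`hcomm` of `card_normalised_le` for `N = inertiaZeta A ζ` and any `τ₀` in inertia. -/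
theorem comm_inertiaZeta {p : ℕ} (hp : 0 < p) (hζ : IsPrimitiveRoot ζ p)
    (τ₀ σ : ↥(A.decompositionSubgroup ℚ)) (hτ₀ : (τ₀ : GQ) ∈ A.inertiaSubgroupIn ℚ) :
    ∃ n ∈ inertiaZeta A ζ, τ₀ * σ = σ * τ₀ * n := by
  refine ⟨τ₀⁻¹ * (σ⁻¹ * τ₀ * σ), ?_, by group⟩
  rw [mem_inertiaZeta]
  refine ⟨?_, ?_⟩
  · have h1 : ((σ⁻¹ * τ₀ * σ : ↥(A.decompositionSubgroup ℚ)) : GQ) ∈ A.inertiaSubgroupIn ℚ := by
      have h := Fermat.Agent.S56.helper6024.conj_mem_inertiaSubgroupIn (A := A)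
        (inv_mem σ.2) hτ₀
      rw [inv_inv] at h
      exact h
    exact mul_mem (inv_mem hτ₀) h1
  · show ((τ₀ : GQ)⁻¹ * ((σ : GQ)⁻¹ * (τ₀ : GQ) * (σ : GQ))) ζ = ζ
    rw [AlgEquiv.mul_apply, AlgEquiv.mul_apply, AlgEquiv.mul_apply,
      apply_apply_comm_of_isPrimitiveRoot hp hζ (τ₀ : GQ) (σ : GQ)]
    have h1 : (σ : GQ)⁻¹ ((σ : GQ) ((τ₀ : GQ) ζ)) = (τ₀ : GQ) ζ :=
      (σ : GQ).symm_apply_apply _
    rw [h1]
    exact (τ₀ : GQ).symm_apply_apply ζ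

end Subgroups

/-! ### Extension by zero -/

section Ext

variable (A : ValuationSubring Qb) (ζ : Qb) {k : Type*} [Zero k]

open Classical in
/-- Extension by zero to `Gal(ℚ̄/ℚ)` of a function on `inertiaZeta A ζ`. -/
noncomputable def ext0 (h : ↥(inertiaZeta A ζ) → k) (g : GQ) : k :=
  if hg : g ∈ inertiaZetaQ A ζ then
    h ⟨⟨g, inertiaZetaQ_le_decomposition A ζ hg⟩, hg⟩
  else 0

theorem ext0_apply (h : ↥(inertiaZeta A ζ) → k) {g : GQ} (hg : g ∈ inertiaZetaQ A ζ) :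
    ext0 A ζ h g = h ⟨⟨g, inertiaZetaQ_le_decomposition A ζ hg⟩, hg⟩ := dif_pos hg

end Ext

/-! ### A valuation identity -/

/-- `v (p) = v (ζ - 1) ^ (p - 1)` for any valuation. -/
theorem val_prime_eq_pow_sub_one {K : Type*} [Field K] {Γ₀ : Type*}
    [LinearOrderedCommGroupWithZero Γ₀] (v : Valuation K Γ₀) {q : ℕ} (hq : q.Prime) {ζ : K}
    (hζ : IsPrimitiveRoot ζ q) : v (q : K) = v (ζ - 1) ^ (q - 1) := by
  obtain ⟨n, rfl⟩ : ∃ n, q = n + 1 := ⟨q - 1, (Nat.succ_pred_eq_of_pos hq.pos).symm⟩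
  have hprod := hζ.prod_one_sub_pow_eq_order
  have hcast : ((n + 1 : ℕ) : K) = (n : K) + 1 := by push_cast; ring
  rw [hcast, ← hprod, map_prod, Nat.add_sub_cancel]
  rw [Finset.prod_eq_pow_card (b := v (ζ - 1)), Finset.card_range]
  intro i hi
  have hi' : i + 1 < n + 1 := Nat.succ_lt_succ (Finset.mem_range.1 hi)
  have h1 : (ζ ^ (i + 1)) ^ (n + 1) = 1 := by
    rw [← pow_mul, mul_comm, pow_mul, hζ.pow_eq_one, one_pow]
  have h2 : ζ ^ (i + 1) ≠ 1 := hζ.pow_ne_one_of_pos_of_lt (Nat.succ_ne_zero i) hi'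
  rw [← val_root_sub_one_eq v hq hζ h1 h2, ← neg_sub, Valuation.map_neg]

/-! ### The junction -/

section Junction

variable {p : ℕ} [Fact p.Prime] (A : ValuationSubring Qb) {k : Type*} [Field k] [Finite k]
  [Algebra (ZMod p) k] {ζ : Qb}

/-- The trace form of a finite field over `𝔽_p` separates points. -/
theorem eq_zero_of_trace_mul_eq_zero (x : k)
    (h : ∀ l : k, Algebra.trace (ZMod p) k (l * x) = 0) : x = 0 := by
  have hfd : Module.Finite (ZMod p) k := Module.Finite.of_finite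
  have hnd := traceForm_nondegenerate (ZMod p) k
  apply hnd.1 x
  intro l
  rw [Algebra.traceForm_apply, mul_comm]
  exact h l

/-- **(RED-HCARD).**  The count `hcard` of `red_count` for `N = inertiaZeta A ζ`. -/
theorem card_slice12_le (hA : A.LiesOverPrime p) (hζ : IsPrimitiveRoot ζ p)
    (ρ : ↥(A.decompositionSubgroup ℚ) →* Matrix (Fin 2) (Fin 2) k) (hup : ∀ σ, ρ σ 1 0 = 0)
    (I : Subgroup ↥(A.decompositionSubgroup ℚ))
    (Q : Submodule k (↥(A.decompositionSubgroup ℚ) → Matrix (Fin 2) (Fin 2) k))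
    (hQlev : ∀ c ∈ Q, ∃ F : IntermediateField ℚ Qb, FiniteDimensional ℚ F ∧
      ∀ s : ↥(A.decompositionSubgroup ℚ), (s : GQ) ∈ F.fixingSubgroup → c s = 0)
    (hη : ∀ n ∈ inertiaZeta A ζ, ρ n 0 0 * ρ n⁻¹ 1 1 = 1)
    (hunif : ∀ x : Qb, x ≠ 0 → (∀ s ∈ A.inertiaSubgroupIn ℚ, s ζ = ζ → s x = x) →
      ∃ n : ℤ, A.valuation x = A.valuation (ζ - 1) ^ n)
    (hlev : ∀ c ∈ Zsh ρ I ⊓ Q, (∀ σ, c σ 0 0 = 0) → ∀ l : k, ∃ y x : Qb, y ≠ 0 ∧ x ≠ 0 ∧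
      (∀ s : ↥(A.decompositionSubgroup ℚ), s ∈ inertiaZeta A ζ →
        (s : GQ) y = ζ ^ (Algebra.trace (ZMod p) k (l * c s 0 1)).val * y) ∧
      (∀ s ∈ inertiaZetaQ A ζ, s x = x) ∧
      A.valuation (y ^ p * x ^ p - 1) ≤ A.valuation (p : Qb)) :
    Finite ↥(slice12 ρ I Q (inertiaZeta A ζ)) ∧
      Nat.card ↥(slice12 ρ I Q (inertiaZeta A ζ)) ≤ Nat.card k := by
  classical
  have hp : p.Prime := Fact.out
  -- notation
  set N' : Subgroup GQ := inertiaZetaQ A ζ with hN'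
  set v : Valuation (fixedK N') A.ValueGroup := valK A N' with hv
  have hH : ∀ g ∈ N', g ζ = ζ := fun g hg => hg.2
  -- the uniformiser `ζ - 1`
  have hζmem : ζ ∈ fixedK N' := mem_fixedK.2 hH
  let ζK : fixedK N' := ⟨ζ, hζmem⟩
  have hζK : IsPrimitiveRoot ζK p :=
    IsPrimitiveRoot.of_map_of_injective (f := algebraMap (fixedK N') Qb) hζ
      (algebraMap (fixedK N') Qb).injective
  let π : fixedK N' := ζK - 1
  have hπcoe : ((π : fixedK N') : Qb) = ζ - 1 := rfl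
  have hvπ : v π = A.valuation (ζ - 1) := rfl
  have hlam : A.valuation (ζ - 1) < 1 := valuation_root_sub_one_lt_one A hA hζ.pow_eq_one
  have hζ1 : ζ - 1 ≠ 0 := sub_ne_zero.2 (hζ.ne_one hp.one_lt)
  have hπ : IsUnif v π := by
    refine ⟨hlam, fun h0 => hζ1 (congrArg Subtype.val h0), fun x hx => ?_⟩
    have hx0 : (x : Qb) ≠ 0 := fun h0 => hx (Subtype.ext h0)
    exact hunif (x : Qb) hx0 (fun s hs hsζ => mem_fixedK.1 x.2 s ⟨hs, hsζ⟩)
  have hm : ¬ p ∣ p - 1 := by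
    intro h
    have h1 := Nat.le_of_dvd (Nat.sub_pos_of_lt hp.one_lt) h
    have h2 := hp.one_lt
    omega
  have hlt : v (ζK - 1) ^ p < v π ^ (p - 1) := by
    show v π ^ p < v π ^ (p - 1)
    have h0 : 0 < v π := hπ.val_pos
    calc v π ^ p = v π ^ (p - 1) * v π := by
          rw [← pow_succ, Nat.sub_add_cancel hp.one_lt.le]
      _ < v π ^ (p - 1) * 1 := by
          apply mul_lt_mul_of_pos_left hπ.lt_one
          exact pow_pos h0 _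
      _ = v π ^ (p - 1) := mul_one _
  have hvp : A.valuation (p : Qb) = v π ^ (p - 1) := by
    rw [hvπ]
    exact val_prime_eq_pow_sub_one A.valuation hp hζ
  -- a Frobenius
  obtain ⟨φ, hφ⟩ := Fermat.Agent.Lib.helper54.exists_isFrobeniusAt hp A hA
  have hφD : φ ∈ A.decompositionSubgroup ℚ := hφ.mem_decompositionSubgroup
  have hn : ∀ s ∈ N', φ⁻¹ * s * φ ∈ N' := fun s hs => conj_mem_inertiaZetaQ hp.pos hζ hφD hs
  let g : fixedK N' →+* fixedK N' := fixedRestrict N' φ hn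
  have hg : ∀ x, v (g x) = v x := fun x => valK_fixedRestrict A hφD hn x
  have hfrob : ∀ x, v x ≤ 1 → v (g x - x ^ p) < 1 := fun x hx => valK_frobenius A hφ hn x hx
  -- the exponent of the Frobenius on `ζ`
  have hφζ : (φ ζ) ^ p = 1 := by rw [← map_pow, hζ.pow_eq_one, map_one]
  have : NeZero p := ⟨hp.ne_zero⟩
  obtain ⟨i, hi, hiζ⟩ := hζ.eq_pow_of_pow_eq_one hφζ
  let b : ZMod p := (i : ZMod p)
  have hb : φ ζ = ζ ^ b.val := by rw [ZMod.val_natCast_of_lt hi, hiζ]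
  let φD : ↥(A.decompositionSubgroup ℚ) := ⟨φ, hφD⟩
  let β : k := algebraMap (ZMod p) k b * (ρ φD⁻¹ 0 0 * ρ φD 1 1)
  -- the pairing
  let S := slice12 ρ I Q (inertiaZeta A ζ)
  let B : ↥S → k → GQ → ZMod p := fun h l g' =>
    Algebra.trace (ZMod p) k (l * ext0 A ζ (h : ↥(inertiaZeta A ζ) → k) g')
  have hext_mul : ∀ (h : ↥S) (g₁ : GQ), g₁ ∈ N' → ∀ g₂ : GQ, g₂ ∈ N' →
      ext0 A ζ (h : ↥(inertiaZeta A ζ) → k) (g₁ * g₂) =
        ext0 A ζ (h : ↥(inertiaZeta A ζ) → k) g₁ + ext0 A ζ (h : ↥(inertiaZeta A ζ) → k) g₂ := by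
    intro h g₁ hg₁ g₂ hg₂
    rw [ext0_apply A ζ _ (N'.mul_mem hg₁ hg₂), ext0_apply A ζ _ hg₁, ext0_apply A ζ _ hg₂]
    exact slice12_mul hup hη h.2
      ⟨⟨g₁, inertiaZetaQ_le_decomposition A ζ hg₁⟩, hg₁⟩
      ⟨⟨g₂, inertiaZetaQ_le_decomposition A ζ hg₂⟩, hg₂⟩
  have hext_conj : ∀ (h : ↥S) (s : GQ), s ∈ N' →
      ext0 A ζ (h : ↥(inertiaZeta A ζ) → k) (φ⁻¹ * s * φ) =
        ρ φD⁻¹ 0 0 * ρ φD 1 1 * ext0 A ζ (h : ↥(inertiaZeta A ζ) → k) s := by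
    intro h s hs
    rw [ext0_apply A ζ _ (hn s hs), ext0_apply A ζ _ hs]
    exact slice12_conj hup hη h.2 φD ⟨⟨s, inertiaZetaQ_le_decomposition A ζ hs⟩, hs⟩ (hn s hs)
  have hBhom : ∀ (h : ↥S) (l : k), ∀ g₁ ∈ N', ∀ g₂ ∈ N', B h l (g₁ * g₂) = B h l g₁ + B h l g₂ := by
    intro h l g₁ hg₁ g₂ hg₂
    show Algebra.trace (ZMod p) k (l * ext0 A ζ (h : ↥(inertiaZeta A ζ) → k) (g₁ * g₂)) = _
    rw [hext_mul h g₁ hg₁ g₂ hg₂, mul_add, map_add]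
  have hBlev : ∀ (h : ↥S) (l : k), IsLevelOn N' (B h l) := by
    intro h l
    obtain ⟨c, hc, hc0, hch⟩ := h.2
    obtain ⟨F, hF, hFc⟩ := hQlev c hc.2
    refine ⟨F, hF, fun g₁ hg₁ s hs hsF => ?_⟩
    rw [hBhom h l g₁ hg₁ s hs]
    have h0 : ext0 A ζ (h : ↥(inertiaZeta A ζ) → k) s = 0 := by
      rw [ext0_apply A ζ _ hs, hch]
      have := hFc ⟨s, inertiaZetaQ_le_decomposition A ζ hs⟩ hsF
      show c ⟨s, _⟩ 0 1 = 0
      rw [this]
      rfl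
    show _ + Algebra.trace (ZMod p) k (l * ext0 A ζ (h : ↥(inertiaZeta A ζ) → k) s) = _
    rw [h0, mul_zero, map_zero, add_zero]
  have hBaddA : ∀ (h h' : ↥S) (l : k), ∀ g₁ ∈ N', B (h + h') l g₁ = B h l g₁ + B h' l g₁ := by
    intro h h' l g₁ hg₁
    show Algebra.trace (ZMod p) k (l * ext0 A ζ ((h + h' : ↥S) : ↥(inertiaZeta A ζ) → k) g₁) =
      Algebra.trace (ZMod p) k (l * ext0 A ζ (h : ↥(inertiaZeta A ζ) → k) g₁) +
        Algebra.trace (ZMod p) k (l * ext0 A ζ (h' : ↥(inertiaZeta A ζ) → k) g₁)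
    rw [ext0_apply A ζ _ hg₁, ext0_apply A ζ _ hg₁, ext0_apply A ζ _ hg₁, Submodule.coe_add,
      Pi.add_apply, mul_add, map_add]
  have hBaddΛ : ∀ (h : ↥S) (l l' : k), ∀ g₁ ∈ N', B h (l + l') g₁ = B h l g₁ + B h l' g₁ := by
    intro h l l' g₁ _
    show Algebra.trace (ZMod p) k ((l + l') * _) = _
    rw [add_mul, map_add]
  obtain ⟨a, ha, -, haA, haΛ, -, haconj⟩ :=
    exists_radicandFamily₂ (H := N') hζ hH (A := ↥S) (Λ := k) B hBhom hBlev hBaddA hBaddΛ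
  -- Frobenius equivariance
  have hfr : ∀ (h : ↥S) (l : k), ∃ w : fixedK N', w ≠ 0 ∧ g (a h l) = a h (β • l) * w ^ p := by
    intro h l
    refine haconj φ hn b hb h l (β • l) (fun s hs => ?_)
    show b * Algebra.trace (ZMod p) k (l * ext0 A ζ (h : ↥(inertiaZeta A ζ) → k) (φ⁻¹ * s * φ)) =
      Algebra.trace (ZMod p) k (β • l * ext0 A ζ (h : ↥(inertiaZeta A ζ) → k) s)
    rw [hext_conj h s hs, ← smul_eq_mul (a := b), ← map_smul, Algebra.smul_def, smul_eq_mul]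
    congr 1
    ring
  -- level input
  have hlevel : ∀ (h : ↥S) (l : k), LevelGE v π p (p - 1) (a h l) := by
    intro h l
    obtain ⟨c, hc, hc0, hch⟩ := h.2
    obtain ⟨y, x, hy0, hx0, hy, hx, hval⟩ := hlev c hc hc0 l
    have hgen : IsKummerGen N' ζ (B h l) y := by
      refine ⟨hy0, fun s hs => ?_⟩
      have h1 := hy ⟨s, inertiaZetaQ_le_decomposition A ζ hs⟩ hs
      show s y = ζ ^ (Algebra.trace (ZMod p) k
        (l * ext0 A ζ (h : ↥(inertiaZeta A ζ) → k) s)).val * y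
      rw [ext0_apply A ζ _ hs, hch]
      exact h1
    have hu : y ^ p ∈ fixedK N' := mem_fixedK.2 fun s hs => hgen.pow_fixed hζ hs
    have hrad : IsRadicand N' ζ (B h l) (⟨y ^ p, hu⟩ : fixedK N') := ⟨y, rfl, hgen⟩
    obtain ⟨w, hw0, hw⟩ := hrad.eq_mul_pow (ha h l)
    rw [hw]
    apply levelGE_mul_pow_p hπ hm _ hw0
    refine ⟨⟨x, mem_fixedK.2 hx⟩, fun h0 => hx0 (congrArg Subtype.val h0), ?_⟩
    rw [← hvp]
    exact hval
  -- injectivity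
  have hinj : ∀ h : ↥S, (∀ l : k, LevelGE v π p (p - 1 + 1) (a h l)) → h = 0 := by
    intro h hall
    have hzero : ∀ s ∈ N', ext0 A ζ (h : ↥(inertiaZeta A ζ) → k) s = 0 := by
      intro s hs
      apply eq_zero_of_trace_mul_eq_zero (p := p)
      intro l
      have hmle : valK A N' π ^ (p - 1 + 1) ≤ A.valuation (ζ - 1) ^ p := by
        rw [Nat.sub_add_cancel hp.one_lt.le]
        exact le_of_eq rfl
      exact (ha h l).unramified_of_levelGE A hA hζ hH (hall l) hmle hs hs.1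
    apply Subtype.ext
    funext n
    have hn' : ((n : ↥(A.decompositionSubgroup ℚ)) : GQ) ∈ N' := n.2
    have h1 := hzero _ hn'
    rw [ext0_apply A ζ _ hn'] at h1
    exact h1
  exact card_le_of_levelGE_field_tw v hζK hπ hm hlt g hg hfrob β a haA haΛ hfr hlevel hinj

/-- **(RED-COUNT, frozen carrier).**  The final subspace of the reducible case on the
decomposition group `D` of `A`, `I := A.inertiaSubgroup ℚ`: `LLsub ρ I Q` is finite with at most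
`#k ^ 4` elements, of dimension at most `4`, and contains all coboundaries and every
`c₀ - ∂X` with `c₀` normalised in `Q`.  Hypotheses: (TYPE) `χ₂ = 1` on `I`, `χ₁ = 1` on
`{σ ∈ I | σ ζ = ζ}`, `χ₁ (τ₀) ≠ 1` for one `τ₀ ∈ I`; (LEVEL) the elements of `Q` have finite
level; (TAME) `hunif`; (LEVEL INPUT) `hlev`; (B) coboundaries of upper triangular matrices lie
in `Q`. -/
theorem red_count_frozen (hA : A.LiesOverPrime p) (hζ : IsPrimitiveRoot ζ p)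
    (ρ : ↥(A.decompositionSubgroup ℚ) →* Matrix (Fin 2) (Fin 2) k) (hup : ∀ σ, ρ σ 1 0 = 0)
    (hχ2 : ∀ σ ∈ A.inertiaSubgroup ℚ, ρ σ 1 1 = 1)
    (hχ1 : ∀ σ ∈ A.inertiaSubgroup ℚ, (σ : GQ) ζ = ζ → ρ σ 0 0 = 1)
    {τ₀ : ↥(A.decompositionSubgroup ℚ)} (hτ₀I : τ₀ ∈ A.inertiaSubgroup ℚ)
    (hτ₀ : ρ τ₀ 0 0 ≠ 1)
    (Q : Submodule k (↥(A.decompositionSubgroup ℚ) → Matrix (Fin 2) (Fin 2) k))
    (hQlev : ∀ c ∈ Q, ∃ F : IntermediateField ℚ Qb, FiniteDimensional ℚ F ∧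
      ∀ s : ↥(A.decompositionSubgroup ℚ), (s : GQ) ∈ F.fixingSubgroup → c s = 0)
    (hunif : ∀ x : Qb, x ≠ 0 → (∀ s ∈ A.inertiaSubgroupIn ℚ, s ζ = ζ → s x = x) →
      ∃ n : ℤ, A.valuation x = A.valuation (ζ - 1) ^ n)
    (hlev : ∀ c ∈ Zsh ρ (A.inertiaSubgroup ℚ) ⊓ Q, (∀ σ, c σ 0 0 = 0) → ∀ l : k,
      ∃ y x : Qb, y ≠ 0 ∧ x ≠ 0 ∧
      (∀ s : ↥(A.decompositionSubgroup ℚ), s ∈ inertiaZeta A ζ →
        (s : GQ) y = ζ ^ (Algebra.trace (ZMod p) k (l * c s 0 1)).val * y) ∧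
      (∀ s ∈ inertiaZetaQ A ζ, s x = x) ∧
      A.valuation (y ^ p * x ^ p - 1) ≤ A.valuation (p : Qb))
    (hB : ∀ X : Matrix (Fin 2) (Fin 2) k, X 1 0 = 0 → dmap ρ X ∈ Q) :
    Finite ↥(LLsub ρ (A.inertiaSubgroup ℚ) Q) ∧
      Nat.card ↥(LLsub ρ (A.inertiaSubgroup ℚ) Q) ≤ Nat.card k ^ 4 ∧
      Module.finrank k ↥(LLsub ρ (A.inertiaSubgroup ℚ) Q) ≤ 4 ∧
      (∀ X : Matrix (Fin 2) (Fin 2) k, dmap ρ X ∈ LLsub ρ (A.inertiaSubgroup ℚ) Q) ∧
      (∀ c0 ∈ Zsh ρ (A.inertiaSubgroup ℚ) ⊓ Q, ∀ X : Matrix (Fin 2) (Fin 2) k,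
        (fun σ => c0 σ - (ρ σ * X * ρ σ⁻¹ - X)) ∈ LLsub ρ (A.inertiaSubgroup ℚ) Q) ∧
      ∀ c ∈ LLsub ρ (A.inertiaSubgroup ℚ) Q,
        (∀ σ τ, c (σ * τ) = c σ + ρ σ * c τ * ρ σ⁻¹) ∧ ∀ σ, (c σ).trace = 0 := by
  have hp : p.Prime := Fact.out
  -- (TYPE) on `N₀`
  have hη : ∀ n ∈ inertiaZeta A ζ, ρ n 0 0 * ρ n⁻¹ 1 1 = 1 := by
    intro n hn
    have hnI : n ∈ A.inertiaSubgroup ℚ :=
      (Fermat.Agent.S56.helper6024.mem_inertiaSubgroup_iff A n).2 hn.1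
    rw [hχ1 n hnI hn.2, hχ2 _ (inv_mem hnI), one_mul]
  -- a Frobenius, and `c₁₁` is determined by its value there
  obtain ⟨φ, hφ⟩ := Fermat.Agent.Lib.helper54.exists_isFrobeniusAt hp A hA
  let φD : ↥(A.decompositionSubgroup ℚ) := ⟨φ, hφ.mem_decompositionSubgroup⟩
  have hφ11 : ∀ c ∈ Zsh ρ (A.inertiaSubgroup ℚ) ⊓ Q, c φD 0 0 = 0 → ∀ σ, c σ 0 0 = 0 := by
    intro c hc h0 σ
    obtain ⟨F, hF, hFc⟩ := hQlev c hc.2
    refine Zsh_c11_eq_zero hup hc.1 φD (fun τ => ?_) h0 σ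
    refine Fermat.Agent.S56.helper6024.decomposition_eq_dec hp A hA (c11Hom hup hc.1) F hF
      (fun u hu => ?_) φD hφ τ
    rw [c11Hom_apply, hFc u hu]
    rfl
  have hfin : Finite ↥(slice12 ρ (A.inertiaSubgroup ℚ) Q (inertiaZeta A ζ)) :=
    (card_slice12_le A hA hζ ρ hup (A.inertiaSubgroup ℚ) Q hQlev hη hunif hlev).1
  exact red_count hup (A.inertiaSubgroup ℚ) Q φD hφ11 (inertiaZeta A ζ) τ₀
    (eta_ne_one_of_inertia (A.inertiaSubgroup ℚ) hχ2 hτ₀I hτ₀)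
    (fun σ => comm_inertiaZeta hp.pos hζ τ₀ σ
      ((Fermat.Agent.S56.helper6024.mem_inertiaSubgroup_iff A τ₀).1 hτ₀I))
    (card_slice12_le A hA hζ ρ hup (A.inertiaSubgroup ℚ) Q hQlev hη hunif hlev).2 hB

end Junction

end Fermat.Agent.S56.helper5221
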