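import Mathlib
import Fermat.Agent.S05.helper4205_Inertia
import Fermat.Agent.S32.helper1304_HopfClose
import Fermat.Agent.S33.helper50_NoFixQb

set_option autoImplicit false

/-!
# S56 — the kernel of reduction of a function model (nodes FLAT-REDKER / FLAT-REDHYPB, backup)

Carrier: the landed function models `S32.helper1304.IsFunModel p act H` (`H` a module-finite
`ℤ_(p)`-subalgebra of `M → Qbar` of `G_ℚ`-equivariant functions, separating points, closed under
the addition law), i.e. what `S32.helper1304.hasFunModel_of_hasFlatModel` extracts from the frozen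
`GaloisRepAdic.IsFlatAt`.

For a valuation subring `P` of `Qbar` over `p`, with inertia group `I`:

* `apply_mem` (R0): all values of the functions of `H` lie in `P`;
* `redKer` : the subgroup of the points congruent to `0` modulo the maximal ideal of `P` in every
  coordinate; `act_mem_redKer` (R1): it is stable under the decomposition group;
  `act_sub_mem_redKer` (R2): inertia acts trivially on `M / redKer`;
* `mem_of_fixed_mod` (K3): for `p` odd, no inertia-stable subquotient of `redKer` has a nonzero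
  inertia-fixed point killed by `p`.  Proof: the restricted order `order₀` on `redKer` (generated
  by the restrictions of `H` and the inertia-fixed constants of `P`) satisfies the hypotheses of
  the landed `S33.helper50.mem_of_inertia_fixed_mod`, `(Loc)` holding by definition of `redKer`;
* `IsRedKernel p I act W0` : the abstract notion ((R2) + (K3)); `isRedKernel_redKer`;
* `IsRedKernel.mem_closure_of_mem_closure` (ET+): for `M` killed by `p` and ANY `I`-stable
  subgroup `Y`, `(I - 1) M ∩ Y ⊆ (I - 1) Y`;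
* `IsRedKernel.eq_closure` (R5*): for `M` killed by `p`, `W0 = (I - 1) M` (so `W0` is unique);
* `IsRedKernel.eq_zero_of_chain`, `.exists_sub_eq_of_chain`, `.exists_fixed_decomp_of_chain`
  (SPLIT): along an `I`-stable chain whose steps are `I`-trivial or on which `t₀ ∈ I` acts by an
  integer `a` with `a - 1` prime to `p`: `t₀ - 1` is bijective on `W0`, `W0 = (t₀ - 1) M` and
  `M = W0 ⊕ M^{t₀}`;
* `exists_isRedKernel_of_hasFunModel`, `exists_isRedKernel_of_hasFlatModel`,
  `exists_isRedKernel_of_isFlatAt`, `mem_closure_of_hasFunModel`, `mem_closure_of_isFunModel`,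
  `mem_closure_of_isFlatAt` : the same for the landed / frozen shapes;
* `IsRedKernel.comap`, `IsRedKernel.hET`, `isRedKernel_decomposition`, `hET_of_isFlatAt` : the
  hypothesis `hET` of `S56.helper56.exists_cocycle_shape_of_ET` in its exact carrier.
-/

namespace Fermat.Agent.S56.helper5274

open GaloisRep

local notation "Qb" => AlgebraicClosure ℚ
local notation "GQ" => (AlgebraicClosure ℚ ≃ₐ[ℚ] AlgebraicClosure ℚ)

/-! ## The maximal ideal of a valuation subring -/

section Nonunits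

variable {L : Type*} [Field L] {A : ValuationSubring L}

theorem zero_mem_nu : (0 : L) ∈ A.nonunits := by
  rw [A.mem_nonunits_iff, map_zero]
  exact zero_lt_one

theorem add_mem_nu {x y : L} (hx : x ∈ A.nonunits) (hy : y ∈ A.nonunits) :
    x + y ∈ A.nonunits := by
  rw [A.mem_nonunits_iff] at hx hy ⊢
  exact lt_of_le_of_lt (Valuation.map_add _ _ _) (max_lt hx hy)

theorem neg_mem_nu {x : L} (hx : x ∈ A.nonunits) : -x ∈ A.nonunits := by
  rw [A.mem_nonunits_iff] at hx ⊢
  rwa [Valuation.map_neg]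

theorem sub_mem_nu {x y : L} (hx : x ∈ A.nonunits) (hy : y ∈ A.nonunits) :
    x - y ∈ A.nonunits := by
  rw [sub_eq_add_neg]
  exact add_mem_nu hx (neg_mem_nu hy)

theorem mul_mem_nu {x y : L} (hx : x ∈ A.nonunits) (hy : y ∈ A) : x * y ∈ A.nonunits := by
  rw [A.mem_nonunits_iff] at hx ⊢
  rw [map_mul]
  calc A.valuation x * A.valuation y ≤ A.valuation x * 1 :=
        mul_le_mul' le_rfl ((A.valuation_le_one_iff _).mpr hy)
    _ = A.valuation x := mul_one _
    _ < 1 := hx

theorem sum_mem_nu {ι : Type*} (s : Finset ι) (f : ι → L) (hf : ∀ i ∈ s, f i ∈ A.nonunits) :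
    ∑ i ∈ s, f i ∈ A.nonunits := by
  classical
  induction s using Finset.induction_on with
  | empty =>
    rw [Finset.sum_empty]
    exact zero_mem_nu
  | insert a s ha ih =>
    rw [Finset.sum_insert ha]
    exact add_mem_nu (hf a (Finset.mem_insert_self a s))
      (ih fun i hi => hf i (Finset.mem_insert_of_mem hi))

end Nonunits

/-! ## (R0) Integrality -/

section Integrality

variable {p : ℕ}

/-- `ℤ_(p) ⊆ P` for a valuation subring `P` of `Qbar` over `p`. -/
theorem algebraMap_ratLoc_mem (hp : p.Prime) (P : ValuationSubring Qb) (hP : P.LiesOverPrime p)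
    (r : ratLocalizedAt p) : algebraMap (ratLocalizedAt p) Qb r ∈ P := by
  have hr : ((r : ℚ).den).Coprime p := r.2
  have hden : ¬ p ∣ (r : ℚ).den := by
    intro h
    exact hp.one_lt.ne' (Nat.Coprime.eq_one_of_dvd hr.symm h)
  have h1 : algebraMap (ratLocalizedAt p) Qb r =
      (((r : ℚ).num : ℤ) : Qb) * ((((r : ℚ).den : ℕ) : Qb))⁻¹ := by
    rw [Fermat.Agent.S32.helper1304.algebraMap_R_Qb_apply]
    conv_lhs => rw [← Rat.num_div_den (r : ℚ)]
    rw [map_div₀, map_intCast, map_natCast, div_eq_mul_inv]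
  rw [h1]
  exact P.mul_mem _ _ (intCast_mem P _)
    (Fermat.Agent.S19.helper1243.inv_natCast_mem P hp hP hden)

/-- An element of `Qbar` integral over `ℤ_(p)` lies in every valuation subring over `p`. -/
theorem mem_of_isIntegral_ratLoc (hp : p.Prime) (P : ValuationSubring Qb)
    (hP : P.LiesOverPrime p) {x : Qb} (hx : IsIntegral (ratLocalizedAt p) x) : x ∈ P := by
  obtain ⟨q, hq, hq0⟩ := hx
  let f : ratLocalizedAt p →+* P :=
    (algebraMap (ratLocalizedAt p) Qb).codRestrict P (algebraMap_ratLoc_mem hp P hP)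
  have h1 : IsIntegral P x := by
    refine ⟨q.map f, hq.map f, ?_⟩
    rw [Polynomial.eval₂_map]
    have hcomp : (algebraMap P Qb).comp f = algebraMap (ratLocalizedAt p) Qb := by
      ext r
      rfl
    rw [hcomp]
    exact hq0
  obtain ⟨y, hy⟩ := IsIntegrallyClosed.isIntegral_iff.mp h1
  rw [← hy]
  exact y.2

/-- The values of the elements of a module-finite subalgebra of functions are integral. -/
theorem isIntegral_apply {M : Type} {H : Subalgebra (ratLocalizedAt p) (M → Qb)}
    (hfin : Module.Finite (ratLocalizedAt p) H) {φ : M → Qb} (hφ : φ ∈ H) (m : M) :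
    IsIntegral (ratLocalizedAt p) (φ m) := by
  have h1 : IsIntegral (ratLocalizedAt p) (⟨φ, hφ⟩ : H) := Algebra.IsIntegral.isIntegral _
  exact h1.map ((Pi.evalAlgHom (ratLocalizedAt p) (fun _ : M => Qb) m).comp H.val)

end Integrality

/-! ## The kernel of reduction -/

section RedKer

open Fermat.Agent.S32.helper1304

variable {p : ℕ} {M : Type} [AddCommGroup M] {act : GQ → M → M}
  {H : Subalgebra (ratLocalizedAt p) (M → Qb)}

/-- (R0) The functions of a function model take their values in every valuation subring of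
`Qbar` over `p`. -/
theorem apply_mem (hM : IsFunModel p act H) (hp : p.Prime) (P : ValuationSubring Qb)
    (hP : P.LiesOverPrime p) {φ : M → Qb} (hφ : φ ∈ H) (m : M) : φ m ∈ P :=
  mem_of_isIntegral_ratLoc hp P hP (isIntegral_apply hM.fin hφ m)

theorem act_mul (hM : IsFunModel p act H) (s t : GQ) (m : M) :
    act (s * t) m = act s (act t m) := by
  apply hM.sep
  intro φ hφ
  rw [hM.eqv φ hφ, hM.eqv φ hφ, hM.eqv φ hφ]
  rfl

theorem act_neg (hM : IsFunModel p act H) (s : GQ) (m : M) : act s (-m) = -act s m := by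
  have h1 := hM.act_add p s m (-m)
  rw [add_neg_cancel, hM.act_zero p] at h1
  exact (neg_eq_of_add_eq_zero_right h1.symm).symm

theorem act_sub (hM : IsFunModel p act H) (s : GQ) (m m' : M) :
    act s (m - m') = act s m - act s m' := by
  rw [sub_eq_add_neg, hM.act_add p, act_neg hM, ← sub_eq_add_neg]

/-- Congruence of two points modulo the maximal ideal of `P`, in every coordinate of `H`. -/
def Cong (P : ValuationSubring Qb) (H : Subalgebra (ratLocalizedAt p) (M → Qb)) (m m' : M) :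
    Prop :=
  ∀ φ ∈ H, φ m - φ m' ∈ P.nonunits

omit [AddCommGroup M] in
theorem Cong.refl (P : ValuationSubring Qb) (H : Subalgebra (ratLocalizedAt p) (M → Qb))
    (m : M) : Cong P H m m := fun φ _ => by
  rw [sub_self]
  exact zero_mem_nu

omit [AddCommGroup M] in
theorem Cong.symm {P : ValuationSubring Qb} {m m' : M} (h : Cong P H m m') : Cong P H m' m :=
  fun φ hφ => by
    have h1 := neg_mem_nu (h φ hφ)
    rwa [neg_sub] at h1

omit [AddCommGroup M] in
theorem Cong.trans {P : ValuationSubring Qb} {m m' m'' : M} (h : Cong P H m m')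
    (h' : Cong P H m' m'') : Cong P H m m'' := fun φ hφ => by
  have h1 := add_mem_nu (h φ hφ) (h' φ hφ)
  rwa [sub_add_sub_cancel] at h1

/-- Congruence is compatible with translation (the group law is defined over `P`). -/
theorem Cong.add_right (hM : IsFunModel p act H) (hp : p.Prime) {P : ValuationSubring Qb}
    (hP : P.LiesOverPrime p) {m m' : M} (h : Cong P H m m') (x : M) :
    Cong P H (m + x) (m' + x) := by
  intro φ hφ
  obtain ⟨n, a, b, ha, hb, hab⟩ := hM.comul φ hφ
  rw [hab, hab, ← Finset.sum_sub_distrib]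
  refine sum_mem_nu _ _ fun i _ => ?_
  rw [← sub_mul]
  exact mul_mem_nu (h _ (ha i)) (apply_mem hM hp P hP (hb i) x)

/-- **The kernel of reduction** of a function model at a valuation subring `P` of `Qbar` over
`p`: the points whose coordinates are all congruent to those of `0` modulo the maximal ideal. -/
def redKer (hM : IsFunModel p act H) (hp : p.Prime) (P : ValuationSubring Qb)
    (hP : P.LiesOverPrime p) : AddSubgroup M where
  carrier := {m | Cong P H m 0}
  zero_mem' := Cong.refl P H 0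
  add_mem' := by
    intro m m' hm hm'
    have h1 := Cong.add_right hM hp hP hm m'
    rw [zero_add] at h1
    exact h1.trans hm'
  neg_mem' := by
    intro m hm
    have h1 := Cong.add_right hM hp hP hm (-m)
    rw [add_neg_cancel, zero_add] at h1
    exact h1.symm

theorem mem_redKer {hM : IsFunModel p act H} {hp : p.Prime} {P : ValuationSubring Qb}
    {hP : P.LiesOverPrime p} {m : M} :
    m ∈ redKer hM hp P hP ↔ ∀ φ ∈ H, φ m - φ 0 ∈ P.nonunits := Iff.rfl

/-- (R1) The kernel of reduction is stable under the decomposition group. -/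
theorem act_mem_redKer (hM : IsFunModel p act H) (hp : p.Prime) (P : ValuationSubring Qb)
    (hP : P.LiesOverPrime p) {σ : GQ} (hσ : σ ∈ P.decompositionSubgroup ℚ) {m : M}
    (hm : m ∈ redKer hM hp P hP) : act σ m ∈ redKer hM hp P hP := by
  intro φ hφ
  have h0 : φ 0 = σ (φ 0) := by
    have h1 := hM.eqv φ hφ σ 0
    rw [hM.act_zero p σ] at h1
    exact h1
  rw [hM.eqv φ hφ σ m, h0, ← map_sub]
  exact (Fermat.Agent.S05.helper4205.apply_mem_nonunits_iff_of_mem_decomposition hσ).mpr
    (hm φ hφ)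

/-- (R2) Inertia acts trivially on `M / redKer`. -/
theorem act_sub_mem_redKer (hM : IsFunModel p act H) (hp : p.Prime) (P : ValuationSubring Qb)
    (hP : P.LiesOverPrime p) {σ : GQ} (hσ : σ ∈ P.inertiaSubgroupIn ℚ) (m : M) :
    act σ m - m ∈ redKer hM hp P hP := by
  have h1 : Cong P H (act σ m) m := fun φ hφ => by
    rw [hM.eqv φ hφ σ m]
    exact Fermat.Agent.S05.helper4205.apply_sub_mem_nonunits hσ (apply_mem hM hp P hP hφ m)
  have h2 := h1.add_right hM hp hP (-m)
  rw [add_neg_cancel, ← sub_eq_add_neg] at h2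
  exact h2

end RedKer

/-! ## The restricted order on the kernel of reduction and NOFIX -/

section NoFix

open Fermat.Agent.S32.helper1304 Fermat.Agent.S19

variable {p : ℕ} {M : Type} [AddCommGroup M] {act : GQ → M → M}
  {H : Subalgebra (ratLocalizedAt p) (M → Qb)}
  (hM : IsFunModel p act H) (hp : p.Prime) (P : ValuationSubring Qb) (hP : P.LiesOverPrime p)

/-- The action of the decomposition group restricted to the kernel of reduction (the identity
outside the decomposition group). -/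
noncomputable def act₀ (s : GQ) (m : redKer hM hp P hP) : redKer hM hp P hP :=
  open Classical in
  if hs : s ∈ P.decompositionSubgroup ℚ then ⟨act s m.1, act_mem_redKer hM hp P hP hs m.2⟩ else m

theorem act₀_coe {s : GQ} (hs : s ∈ P.inertiaSubgroupIn ℚ) (m : redKer hM hp P hP) :
    (act₀ hM hp P hP s m : M) = act s m.1 := by
  have hs' : s ∈ P.decompositionSubgroup ℚ :=
    Fermat.Agent.S05.helper4205.mem_decomposition_of_mem_inertiaSubgroupIn hs
  unfold act₀
  rw [dif_pos hs']

theorem act₀_add {s : GQ} (hs : s ∈ P.inertiaSubgroupIn ℚ) (m m' : redKer hM hp P hP) :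
    act₀ hM hp P hP s (m + m') = act₀ hM hp P hP s m + act₀ hM hp P hP s m' := by
  apply Subtype.ext
  rw [AddSubgroup.coe_add, act₀_coe hM hp P hP hs, act₀_coe hM hp P hP hs,
    act₀_coe hM hp P hP hs, AddSubgroup.coe_add, hM.act_add p]

theorem act₀_bijective {s : GQ} (hs : s ∈ P.inertiaSubgroupIn ℚ) :
    Function.Bijective (act₀ hM hp P hP s) := by
  have : Finite M := hM.finite p
  have hinj : Function.Injective (act₀ hM hp P hP s) := by
    intro m m' h
    have h1 : act s m.1 = act s m'.1 := by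
      rw [← act₀_coe hM hp P hP hs m, ← act₀_coe hM hp P hP hs m', h]
    apply Subtype.ext
    have h2 := congrArg (act s.symm) h1
    rwa [hM.act_symm_act p, hM.act_symm_act p] at h2
  exact ⟨hinj, Finite.injective_iff_surjective.mp hinj⟩

/-- Generators of the restricted order: restrictions of the functions of `H` and constants of
`P` fixed by inertia. -/
def gens : Set (redKer hM hp P hP → Qb) :=
  {ψ | ∃ φ ∈ H, ψ = fun m => φ m.1} ∪
    {ψ | ∃ c ∈ P, (∀ s ∈ P.inertiaSubgroupIn ℚ, s c = c) ∧ ψ = fun _ => c}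

/-- The restricted order on the kernel of reduction, over the ring of inertia-fixed integers. -/
noncomputable def order₀ : Subring (redKer hM hp P hP → Qb) :=
  Subring.closure (gens hM hp P hP)

theorem restrict_mem_order₀ {φ : M → Qb} (hφ : φ ∈ H) :
    (fun m : redKer hM hp P hP => φ m.1) ∈ order₀ hM hp P hP :=
  Subring.subset_closure (Or.inl ⟨φ, hφ, rfl⟩)

theorem const_mem_order₀ {c : Qb} (hc : c ∈ P) (hfix : ∀ s ∈ P.inertiaSubgroupIn ℚ, s c = c) :
    (fun _ : redKer hM hp P hP => c) ∈ order₀ hM hp P hP :=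
  Subring.subset_closure (Or.inr ⟨c, hc, hfix, rfl⟩)

theorem order₀_val : ∀ ψ ∈ order₀ hM hp P hP, ∀ m, ψ m ∈ P := by
  intro ψ hψ
  induction hψ using Subring.closure_induction with
  | mem ψ hψ =>
    rcases hψ with ⟨φ, hφ, rfl⟩ | ⟨c, hc, -, rfl⟩
    · intro m
      exact apply_mem hM hp P hP hφ m.1
    · intro m
      exact hc
  | zero => intro m; exact P.zero_mem
  | one => intro m; exact P.one_mem
  | add x y _ _ hx hy => intro m; exact P.add_mem _ _ (hx m) (hy m)
  | neg x _ hx => intro m; exact P.neg_mem _ (hx m)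
  | mul x y _ _ hx hy => intro m; exact P.mul_mem _ _ (hx m) (hy m)

theorem order₀_eqv : ∀ ψ ∈ order₀ hM hp P hP, ∀ s ∈ P.inertiaSubgroupIn ℚ, ∀ m,
    ψ (act₀ hM hp P hP s m) = s (ψ m) := by
  intro ψ hψ s hs
  induction hψ using Subring.closure_induction with
  | mem ψ hψ =>
    rcases hψ with ⟨φ, hφ, rfl⟩ | ⟨c, hc, hfix, rfl⟩
    · intro m
      show φ (act₀ hM hp P hP s m).1 = s (φ m.1)
      rw [act₀_coe hM hp P hP hs m, hM.eqv φ hφ s m.1]
    · intro m
      exact (hfix s hs).symm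
  | zero => intro m; simp only [Pi.zero_apply, map_zero]
  | one => intro m; simp only [Pi.one_apply, map_one]
  | add x y _ _ hx hy => intro m; simp only [Pi.add_apply, map_add, hx m, hy m]
  | neg x _ hx => intro m; simp only [Pi.neg_apply, map_neg, hx m]
  | mul x y _ _ hx hy => intro m; simp only [Pi.mul_apply, map_mul, hx m, hy m]

theorem order₀_smul : ∀ c ∈ P, (∀ s ∈ P.inertiaSubgroupIn ℚ, s c = c) →
    ∀ ψ ∈ order₀ hM hp P hP, (fun m => c * ψ m) ∈ order₀ hM hp P hP := by
  intro c hc hfix ψ hψ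
  exact mul_mem (const_mem_order₀ hM hp P hP hc hfix) hψ

theorem order₀_sep : ∀ m m' : redKer hM hp P hP, m ≠ m' →
    ∃ ψ ∈ order₀ hM hp P hP, ψ m ≠ ψ m' := by
  intro m m' hne
  by_contra hcon
  push Not at hcon
  apply hne
  apply Subtype.ext
  apply hM.sep
  intro φ hφ
  exact hcon (fun x => φ x.1) (restrict_mem_order₀ hM hp P hP hφ)

theorem order₀_law : ∀ ψ ∈ order₀ hM hp P hP,
    ∃ (n : ℕ) (a b : Fin n → redKer hM hp P hP → Qb), (∀ k, a k ∈ order₀ hM hp P hP) ∧
      (∀ k, b k ∈ order₀ hM hp P hP) ∧ ∀ m m', ψ (m + m') = ∑ k, a k m * b k m' := by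
  intro ψ hψ
  have key : order₀ hM hp P hP ≤
      (helper1243.tensorSubring (order₀ hM hp P hP)).comap
        (helper1243.addPull (redKer hM hp P hP)) := by
    refine Subring.closure_le.mpr ?_
    rintro ψ (⟨φ, hφ, rfl⟩ | ⟨c, hc, hfix, rfl⟩)
    · obtain ⟨n, a, b, ha, hb, hab⟩ := hM.comul φ hφ
      show helper1243.IsTensor (order₀ hM hp P hP) _
      refine helper1243.isTensor_of_fin (fun k m => a k m.1) (fun k m => b k m.1)
        (fun k => restrict_mem_order₀ hM hp P hP (ha k))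
        (fun k => restrict_mem_order₀ hM hp P hP (hb k)) (fun m m' => ?_)
      exact hab m.1 m'.1
    · exact helper1243.fst_mem_tensorSubring (a := fun _ => c)
        (const_mem_order₀ hM hp P hP hc hfix)
  have h1 : helper1243.IsTensor (order₀ hM hp P hP)
      (helper1243.addPull (redKer hM hp P hP) ψ) := key hψ
  obtain ⟨n, a, b, ha, hb, hab⟩ := h1.exists_fin
  exact ⟨n, a, b, ha, hb, fun m m' => hab m m'⟩

theorem order₀_loc : ∀ ψ ∈ order₀ hM hp P hP, ∀ m, ψ m - ψ 0 ∈ P.nonunits := by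
  intro ψ hψ
  induction hψ using Subring.closure_induction with
  | mem ψ hψ =>
    rcases hψ with ⟨φ, hφ, rfl⟩ | ⟨c, hc, hfix, rfl⟩
    · intro m
      exact m.2 φ hφ
    · intro m
      simp only [sub_self]
      exact zero_mem_nu
  | zero =>
    intro m
    simp only [Pi.zero_apply, sub_self]
    exact zero_mem_nu
  | one =>
    intro m
    simp only [Pi.one_apply, sub_self]
    exact zero_mem_nu
  | add x y _ _ hx hy =>
    intro m
    have h1 : (x + y) m - (x + y) 0 = (x m - x 0) + (y m - y 0) := by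
      simp only [Pi.add_apply]; ring
    rw [h1]
    exact add_mem_nu (hx m) (hy m)
  | neg x _ hx =>
    intro m
    have h1 : (-x) m - (-x) 0 = -(x m - x 0) := by
      simp only [Pi.neg_apply]; ring
    rw [h1]
    exact neg_mem_nu (hx m)
  | mul x y hxm hym hx hy =>
    intro m
    have h1 : (x * y) m - (x * y) 0 = (x m - x 0) * y m + (y m - y 0) * x 0 := by
      simp only [Pi.mul_apply]; ring
    rw [h1]
    exact add_mem_nu (mul_mem_nu (hx m) (order₀_val hM hp P hP y hym m))
      (mul_mem_nu (hy m) (order₀_val hM hp P hP x hxm 0))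

/-- **(K3) NOFIX on the kernel of reduction.**  For `p` odd: if `N` is an inertia-stable subgroup
of `M`, and `m ∈ redKer` is inertia-fixed modulo `N` with `p • m ∈ N`, then `m ∈ N`.  (No
inertia-stable subquotient of the kernel of reduction has a nonzero inertia-fixed point.) -/
theorem mem_of_fixed_mod (hp2 : p ≠ 2) (N : AddSubgroup M)
    (hN : ∀ s ∈ P.inertiaSubgroupIn ℚ, ∀ n ∈ N, act s n ∈ N) {m : M}
    (hm : m ∈ redKer hM hp P hP) (hfix : ∀ s ∈ P.inertiaSubgroupIn ℚ, act s m - m ∈ N)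
    (hpm : p • m ∈ N) : m ∈ N := by
  have : Finite M := hM.finite p
  let N₁ : AddSubgroup (redKer hM hp P hP) := N.comap (redKer hM hp P hP).subtype
  have hN₁ : ∀ s ∈ P.inertiaSubgroupIn ℚ, ∀ n ∈ N₁, act₀ hM hp P hP s n ∈ N₁ := by
    intro s hs n hn
    show (act₀ hM hp P hP s n : M) ∈ N
    rw [act₀_coe hM hp P hP hs]
    exact hN s hs n.1 hn
  have hfix₁ : ∀ s ∈ P.inertiaSubgroupIn ℚ,
      act₀ hM hp P hP s ⟨m, hm⟩ - ⟨m, hm⟩ ∈ N₁ := by
    intro s hs
    show ((act₀ hM hp P hP s ⟨m, hm⟩ - ⟨m, hm⟩ : redKer hM hp P hP) : M) ∈ N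
    rw [AddSubgroup.coe_sub, act₀_coe hM hp P hP hs]
    exact hfix s hs
  have hpm₁ : p • (⟨m, hm⟩ : redKer hM hp P hP) ∈ N₁ := by
    show ((p • (⟨m, hm⟩ : redKer hM hp P hP) : redKer hM hp P hP) : M) ∈ N
    rw [AddSubgroup.coe_nsmul]
    exact hpm
  have h := Fermat.Agent.S33.helper50.mem_of_inertia_fixed_mod hp hp2 P hP (act₀ hM hp P hP)
    (fun s hs => act₀_bijective hM hp P hP hs) (fun s hs m m' => act₀_add hM hp P hP hs m m')
    (order₀ hM hp P hP) (order₀_val hM hp P hP) (order₀_eqv hM hp P hP) (order₀_smul hM hp P hP)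
    (order₀_sep hM hp P hP) (order₀_law hM hp P hP) (order₀_loc hM hp P hP) N₁ hN₁ ⟨m, hm⟩
    hfix₁ hpm₁
  exact h

end NoFix

/-! ## Abstract reduction kernels: `(I - 1) M ∩ Y = (I - 1) Y`, `W0 = (I - 1) M`, the splitting -/

section Abstract

variable {G : Type*} [Group G] {M : Type*} [AddCommGroup M]

/-- `W0` is a *reduction kernel* at `p` for the action `act` of the subgroup `I` on `M`:
`I` acts trivially on `M / W0`, and no `I`-stable subquotient of `W0` has a nonzero `I`-fixed
point killed by `p`. -/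
def IsRedKernel (p : ℕ) (I : Subgroup G) (act : G → M → M) (W0 : AddSubgroup M) : Prop :=
  (∀ s ∈ I, ∀ m : M, act s m - m ∈ W0) ∧
    ∀ N : AddSubgroup M, (∀ s ∈ I, ∀ n ∈ N, act s n ∈ N) → ∀ m ∈ W0,
      (∀ s ∈ I, act s m - m ∈ N) → p • m ∈ N → m ∈ N

variable {p : ℕ} {I : Subgroup G} {act : G → M → M} {W0 : AddSubgroup M}

theorem act_neg_of_add (hadd : ∀ s ∈ I, ∀ m m' : M, act s (m + m') = act s m + act s m')
    {s : G} (hs : s ∈ I) (m : M) : act s (-m) = -act s m := by
  have h0 : act s 0 = 0 := by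
    have h1 := hadd s hs 0 0
    rw [add_zero] at h1
    exact left_eq_add.mp h1
  have h2 := hadd s hs m (-m)
  rw [add_neg_cancel, h0] at h2
  exact (neg_eq_of_add_eq_zero_right h2.symm).symm

theorem act_zero_of_add (hadd : ∀ s ∈ I, ∀ m m' : M, act s (m + m') = act s m + act s m')
    {s : G} (hs : s ∈ I) : act s 0 = 0 := by
  have h1 := hadd s hs 0 0
  rw [add_zero] at h1
  exact left_eq_add.mp h1

theorem act_sub_of_add (hadd : ∀ s ∈ I, ∀ m m' : M, act s (m + m') = act s m + act s m')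
    {s : G} (hs : s ∈ I) (m m' : M) : act s (m - m') = act s m - act s m' := by
  rw [sub_eq_add_neg, hadd s hs, act_neg_of_add hadd hs, ← sub_eq_add_neg]

/-- `(I - 1) Y` is `I`-stable when `Y` is. -/
theorem act_mem_closure (hadd : ∀ s ∈ I, ∀ m m' : M, act s (m + m') = act s m + act s m')
    (hmul : ∀ s ∈ I, ∀ t ∈ I, ∀ m : M, act (s * t) m = act s (act t m))
    (Y : AddSubgroup M) (hY : ∀ s ∈ I, ∀ y ∈ Y, act s y ∈ Y) :
    ∀ t ∈ I, ∀ n ∈ AddSubgroup.closure {x : M | ∃ s ∈ I, ∃ y ∈ Y, x = act s y - y},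
      act t n ∈ AddSubgroup.closure {x : M | ∃ s ∈ I, ∃ y ∈ Y, x = act s y - y} := by
  intro t ht n hn
  induction hn using AddSubgroup.closure_induction with
  | mem x hx =>
    obtain ⟨s, hs, y, hy, rfl⟩ := hx
    have hc : t * s * t⁻¹ ∈ I := mul_mem (mul_mem ht hs) (inv_mem ht)
    refine AddSubgroup.subset_closure ⟨t * s * t⁻¹, hc, act t y, hY t ht y hy, ?_⟩
    rw [act_sub_of_add hadd ht, ← hmul _ hc _ ht, inv_mul_cancel_right, hmul _ ht _ hs]
  | zero =>
    rw [act_zero_of_add hadd ht]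
    exact zero_mem _
  | add x y _ _ hx hy =>
    rw [hadd t ht]
    exact add_mem hx hy
  | neg x _ hx =>
    rw [act_neg_of_add hadd ht]
    exact neg_mem hx

/-- `(I - 1) M ⊆ W0`. -/
theorem IsRedKernel.closure_le (hW : IsRedKernel p I act W0) :
    AddSubgroup.closure {x : M | ∃ s ∈ I, ∃ m : M, x = act s m - m} ≤ W0 := by
  refine (AddSubgroup.closure_le _).mpr ?_
  rintro x ⟨s, hs, m, rfl⟩
  exact hW.1 s hs m

/-- **(ET+)** For `M` killed by `p` and ANY `I`-stable subgroup `Y` of `M`: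
`(I - 1) M ∩ Y ⊆ (I - 1) Y`. -/
theorem IsRedKernel.mem_closure_of_mem_closure (hW : IsRedKernel p I act W0)
    (hadd : ∀ s ∈ I, ∀ m m' : M, act s (m + m') = act s m + act s m')
    (hmul : ∀ s ∈ I, ∀ t ∈ I, ∀ m : M, act (s * t) m = act s (act t m))
    (hkill : ∀ x : M, p • x = 0)
    (Y : AddSubgroup M) (hY : ∀ s ∈ I, ∀ y ∈ Y, act s y ∈ Y) {x : M} (hxY : x ∈ Y)
    (hx : x ∈ AddSubgroup.closure {x : M | ∃ s ∈ I, ∃ m : M, x = act s m - m}) :
    x ∈ AddSubgroup.closure {x : M | ∃ s ∈ I, ∃ y ∈ Y, x = act s y - y} := by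
  refine hW.2 _ (act_mem_closure hadd hmul Y hY) x (hW.closure_le hx)
    (fun s hs => AddSubgroup.subset_closure ⟨s, hs, x, hxY, rfl⟩) ?_
  rw [hkill]
  exact zero_mem _

/-- **(R5*)** For `M` killed by `p`, a reduction kernel is `(I - 1) M`: the maximal quotient of
`M` on which `I` acts trivially is `M / W0`.  In particular the reduction kernel is unique. -/
theorem IsRedKernel.eq_closure (hW : IsRedKernel p I act W0)
    (hadd : ∀ s ∈ I, ∀ m m' : M, act s (m + m') = act s m + act s m')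
    (hmul : ∀ s ∈ I, ∀ t ∈ I, ∀ m : M, act (s * t) m = act s (act t m))
    (hkill : ∀ x : M, p • x = 0) :
    W0 = AddSubgroup.closure {x : M | ∃ s ∈ I, ∃ m : M, x = act s m - m} := by
  refine le_antisymm (fun m hm => ?_) hW.closure_le
  have hst : ∀ t ∈ I, ∀ n ∈ AddSubgroup.closure {x : M | ∃ s ∈ I, ∃ m : M, x = act s m - m},
      act t n ∈ AddSubgroup.closure {x : M | ∃ s ∈ I, ∃ m : M, x = act s m - m} := by
    intro t ht n hn
    have h1 := act_mem_closure hadd hmul (⊤ : AddSubgroup M)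
      (fun _ _ _ _ => AddSubgroup.mem_top _) t ht n
      (by
        refine (AddSubgroup.closure_mono ?_) hn
        rintro x ⟨s, hs, m, rfl⟩
        exact ⟨s, hs, m, AddSubgroup.mem_top _, rfl⟩)
    refine (AddSubgroup.closure_mono ?_) h1
    rintro x ⟨s, hs, m, -, rfl⟩
    exact ⟨s, hs, m, rfl⟩
  refine hW.2 _ hst m hm (fun s hs => AddSubgroup.subset_closure ⟨s, hs, m, rfl⟩) ?_
  rw [hkill]
  exact zero_mem _

/-- **(SPLIT 1)** Along an `I`-stable chain `0 = C 0, ..., C r = M` whose steps are killed by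
`p` and are `I`-trivial or such that `t₀` acts on them by an integer `a` with `a - 1` prime to
`p`: a reduction kernel has no nonzero `t₀`-fixed point. -/
theorem IsRedKernel.eq_zero_of_chain (hW : IsRedKernel p I act W0) {t₀ : G} (a : ℤ)
    (hap : IsCoprime (a - 1) (p : ℤ)) (r : ℕ) (C : ℕ → AddSubgroup M) (hC0 : C 0 = ⊥)
    (hCr : C r = ⊤)
    (hCst : ∀ i < r, ∀ s ∈ I, ∀ c ∈ C i, act s c ∈ C i)
    (hCp : ∀ i < r, ∀ c ∈ C (i + 1), p • c ∈ C i)
    (hstep : ∀ i < r, (∀ s ∈ I, ∀ c ∈ C (i + 1), act s c - c ∈ C i) ∨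
      (∀ c ∈ C (i + 1), act t₀ c - a • c ∈ C i))
    {m : M} (hm : m ∈ W0) (hfix : act t₀ m = m) : m = 0 := by
  have key : ∀ i, i ≤ r → m ∈ C (r - i) := by
    intro i
    induction i with
    | zero =>
      intro _
      rw [Nat.sub_zero, hCr]
      exact AddSubgroup.mem_top _
    | succ i ih =>
      intro hi
      have hj : r - (i + 1) < r := by omega
      have hj1 : r - (i + 1) + 1 = r - i := by omega
      have hmem : m ∈ C (r - (i + 1) + 1) := by
        rw [hj1]
        exact ih (by omega)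
      rcases hstep (r - (i + 1)) hj with h | h
      · exact hW.2 (C (r - (i + 1))) (hCst _ hj) m hm (fun s hs => h s hs m hmem)
          (hCp _ hj m hmem)
      · have h1 : act t₀ m - a • m ∈ C (r - (i + 1)) := h m hmem
        rw [hfix] at h1
        have h2 : (p : ℤ) • m ∈ C (r - (i + 1)) := by
          rw [natCast_zsmul]
          exact hCp _ hj m hmem
        obtain ⟨u, v, huv⟩ := hap
        have h3 : m = (-u) • (m - a • m) + v • ((p : ℤ) • m) := by
          have h4 : (-u) • (m - a • m) + v • ((p : ℤ) • m) =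
              (u * (a - 1) + v * (p : ℤ)) • m := by
            rw [smul_sub, smul_smul, smul_smul, add_smul, mul_sub, sub_smul, mul_one, neg_smul,
              neg_mul, neg_smul]
            abel
          rw [h4, huv, one_smul]
        rw [h3]
        exact add_mem ((C (r - (i + 1))).zsmul_mem h1 _) ((C (r - (i + 1))).zsmul_mem h2 _)
  have h0 := key r le_rfl
  rw [Nat.sub_self, hC0] at h0
  exact (AddSubgroup.mem_bot).mp h0

/-- **(SPLIT 2)** In the situation of `IsRedKernel.eq_zero_of_chain`, with `t₀ ∈ I` and `M`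
finite: `t₀ - 1` maps the reduction kernel ONTO itself; in particular `W0 = (t₀ - 1) M`. -/
theorem IsRedKernel.exists_sub_eq_of_chain [Finite M] (hW : IsRedKernel p I act W0)
    (hadd : ∀ s ∈ I, ∀ m m' : M, act s (m + m') = act s m + act s m')
    {t₀ : G} (ht₀ : t₀ ∈ I) (a : ℤ)
    (hap : IsCoprime (a - 1) (p : ℤ)) (r : ℕ) (C : ℕ → AddSubgroup M) (hC0 : C 0 = ⊥)
    (hCr : C r = ⊤)
    (hCst : ∀ i < r, ∀ s ∈ I, ∀ c ∈ C i, act s c ∈ C i)
    (hCp : ∀ i < r, ∀ c ∈ C (i + 1), p • c ∈ C i)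
    (hstep : ∀ i < r, (∀ s ∈ I, ∀ c ∈ C (i + 1), act s c - c ∈ C i) ∨
      (∀ c ∈ C (i + 1), act t₀ c - a • c ∈ C i))
    {w : M} (hw : w ∈ W0) : ∃ m ∈ W0, act t₀ m - m = w := by
  let f : W0 → W0 := fun m => ⟨act t₀ m.1 - m.1, hW.1 t₀ ht₀ m.1⟩
  have hinj : Function.Injective f := by
    intro m m' hmm
    have h1 : act t₀ m.1 - m.1 = act t₀ m'.1 - m'.1 := congrArg Subtype.val hmm
    have h2 : act t₀ (m.1 - m'.1) = m.1 - m'.1 := by
      rw [act_sub_of_add hadd ht₀]
      have h3 : act t₀ m.1 - act t₀ m'.1 = (act t₀ m.1 - m.1) - (act t₀ m'.1 - m'.1)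
          + (m.1 - m'.1) := by abel
      rw [h3, h1, sub_self, zero_add]
    have h4 := hW.eq_zero_of_chain a hap r C hC0 hCr hCst hCp hstep (W0.sub_mem m.2 m'.2) h2
    exact Subtype.ext (sub_eq_zero.mp h4)
  obtain ⟨m, hm⟩ := (Finite.injective_iff_surjective.mp hinj) ⟨w, hw⟩
  exact ⟨m.1, m.2, congrArg Subtype.val hm⟩

/-- **(SPLIT 3)** In the situation of `IsRedKernel.eq_zero_of_chain`, with `t₀ ∈ I` and `M`
finite: `M = W0 + M^{t₀}` (and the sum is direct by `IsRedKernel.eq_zero_of_chain`). -/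
theorem IsRedKernel.exists_fixed_decomp_of_chain [Finite M] (hW : IsRedKernel p I act W0)
    (hadd : ∀ s ∈ I, ∀ m m' : M, act s (m + m') = act s m + act s m')
    {t₀ : G} (ht₀ : t₀ ∈ I) (a : ℤ)
    (hap : IsCoprime (a - 1) (p : ℤ)) (r : ℕ) (C : ℕ → AddSubgroup M) (hC0 : C 0 = ⊥)
    (hCr : C r = ⊤)
    (hCst : ∀ i < r, ∀ s ∈ I, ∀ c ∈ C i, act s c ∈ C i)
    (hCp : ∀ i < r, ∀ c ∈ C (i + 1), p • c ∈ C i)
    (hstep : ∀ i < r, (∀ s ∈ I, ∀ c ∈ C (i + 1), act s c - c ∈ C i) ∨
      (∀ c ∈ C (i + 1), act t₀ c - a • c ∈ C i))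
    (m : M) : ∃ w ∈ W0, act t₀ (m - w) = m - w := by
  obtain ⟨w, hw, hw'⟩ := hW.exists_sub_eq_of_chain hadd ht₀ a hap r C hC0 hCr hCst hCp hstep
    (hW.1 t₀ ht₀ m)
  refine ⟨w, hw, ?_⟩
  rw [act_sub_of_add hadd ht₀]
  have h1 : act t₀ m - act t₀ w = (act t₀ m - m) - (act t₀ w - w) + (m - w) := by abel
  rw [h1, hw', sub_self, zero_add]

/-- Transfer of a reduction kernel along a group homomorphism (e.g. from `G_ℚ` with
`I = P.inertiaSubgroupIn ℚ` to the decomposition group with its normal inertia subgroup). -/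
theorem IsRedKernel.comap {G' : Type*} [Group G'] (f : G' →* G) {I' : Subgroup G'}
    (h1 : ∀ s' ∈ I', f s' ∈ I) (h2 : ∀ s ∈ I, ∃ s' ∈ I', f s' = s)
    (hW : IsRedKernel p I act W0) : IsRedKernel p I' (fun s' => act (f s')) W0 := by
  refine ⟨fun s' hs' m => hW.1 _ (h1 s' hs') m, fun N hN m hm hfix hpm => hW.2 N ?_ m hm ?_ hpm⟩
  · intro s hs n hn
    obtain ⟨s', hs', rfl⟩ := h2 s hs
    exact hN s' hs' n hn
  · intro s hs
    obtain ⟨s', hs', rfl⟩ := h2 s hs
    exact hfix s' hs'

/-- **(hET)** in the binder shape of `S56.helper56.exists_cocycle_shape_of_ET`: for `M` killed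
by `p` and an additive map `e : E →+ M` with `I`-stable range,
`(I - 1) M ∩ range e ⊆ (I - 1) (range e)`. -/
theorem IsRedKernel.hET (hW : IsRedKernel p I act W0)
    (hadd : ∀ s ∈ I, ∀ m m' : M, act s (m + m') = act s m + act s m')
    (hmul : ∀ s ∈ I, ∀ t ∈ I, ∀ m : M, act (s * t) m = act s (act t m))
    (hkill : ∀ x : M, p • x = 0) {E : Type*} [AddCommGroup E] (e : E →+ M)
    (he : ∀ σ ∈ I, ∀ w : E, ∃ w' : E, act σ (e w) = e w') (w : E)
    (hw : e w ∈ AddSubgroup.closure {x : M | ∃ σ ∈ I, ∃ m : M, x = act σ m - m}) :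
    e w ∈ AddSubgroup.closure {x : M | ∃ σ ∈ I, ∃ w' : E, x = act σ (e w') - e w'} := by
  have hY : ∀ s ∈ I, ∀ y ∈ e.range, act s y ∈ e.range := by
    rintro s hs y ⟨w₁, rfl⟩
    obtain ⟨w', hw'⟩ := he s hs w₁
    exact ⟨w', hw'.symm⟩
  have h1 := hW.mem_closure_of_mem_closure hadd hmul hkill e.range hY ⟨w, rfl⟩ hw
  refine (AddSubgroup.closure_mono ?_) h1
  rintro x ⟨s, hs, y, ⟨w', rfl⟩, rfl⟩
  exact ⟨s, hs, w', rfl⟩

end Abstract

/-! ## Function models and the frozen shapes -/

section Frozen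

open Fermat.Agent.S32.helper1304

variable {p : ℕ} {M : Type} [AddCommGroup M] {act : GQ → M → M}

/-- The kernel of reduction of a function model is a reduction kernel for inertia (`p` odd). -/
theorem isRedKernel_redKer {H : Subalgebra (ratLocalizedAt p) (M → Qb)}
    (hM : IsFunModel p act H) (hp : p.Prime) (hp2 : p ≠ 2) (P : ValuationSubring Qb)
    (hP : P.LiesOverPrime p) :
    IsRedKernel p (P.inertiaSubgroupIn ℚ) act (redKer hM hp P hP) :=
  ⟨fun _ hs m => act_sub_mem_redKer hM hp P hP hs m,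
    fun N hN _ hm hfix hpm => mem_of_fixed_mod hM hp P hP hp2 N hN hm hfix hpm⟩

/-- Basic properties of the action on a module with a function model. -/
theorem act_props_of_hasFunModel (h : HasFunModel p M act) :
    Finite M ∧ (∀ (s : GQ) (m m' : M), act s (m + m') = act s m + act s m') ∧
      ∀ (s t : GQ) (m : M), act (s * t) m = act s (act t m) := by
  obtain ⟨H, hM⟩ := h
  exact ⟨hM.finite p, fun s m m' => hM.act_add p s m m', fun s t m => act_mul hM s t m⟩

/-- **(R4), function-model form.**  A module with a function model over `ℤ_(p)` (`p` odd) has,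
at every valuation subring `P` of `Qbar` over `p`, a subgroup `W0` stable under the
decomposition group which is a reduction kernel for the inertia group. -/
theorem exists_isRedKernel_of_hasFunModel (hp : p.Prime) (hp2 : p ≠ 2)
    (h : HasFunModel p M act) (P : ValuationSubring Qb) (hP : P.LiesOverPrime p) :
    ∃ W0 : AddSubgroup M, (∀ σ ∈ P.decompositionSubgroup ℚ, ∀ w ∈ W0, act σ w ∈ W0) ∧
      IsRedKernel p (P.inertiaSubgroupIn ℚ) act W0 := by
  obtain ⟨H, hM⟩ := h
  exact ⟨redKer hM hp P hP, fun σ hσ w hw => act_mem_redKer hM hp P hP hσ hw,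
    isRedKernel_redKer hM hp hp2 P hP⟩

/-- **(R4), frozen existential shape** (`S32.helper1304.HasFlatModel`). -/
theorem exists_isRedKernel_of_hasFlatModel (hp : p.Prime) (hp2 : p ≠ 2)
    (h : HasFlatModel p M act) (P : ValuationSubring Qb) (hP : P.LiesOverPrime p) :
    ∃ W0 : AddSubgroup M, (∀ σ ∈ P.decompositionSubgroup ℚ, ∀ w ∈ W0, act σ w ∈ W0) ∧
      IsRedKernel p (P.inertiaSubgroupIn ℚ) act W0 :=
  exists_isRedKernel_of_hasFunModel hp hp2 (hasFunModel_of_hasFlatModel p h) P hP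

/-- **(ET+), function-model form**: `M` killed by `p` odd, `Y` ANY inertia-stable subgroup:
`(I - 1) M ∩ Y ⊆ (I - 1) Y`. -/
theorem mem_closure_of_hasFunModel (hp : p.Prime) (hp2 : p ≠ 2) (h : HasFunModel p M act)
    (hkill : ∀ x : M, p • x = 0) (P : ValuationSubring Qb) (hP : P.LiesOverPrime p)
    (Y : AddSubgroup M) (hY : ∀ s ∈ P.inertiaSubgroupIn ℚ, ∀ y ∈ Y, act s y ∈ Y) {x : M}
    (hxY : x ∈ Y)
    (hx : x ∈ AddSubgroup.closure
      {x : M | ∃ s ∈ P.inertiaSubgroupIn ℚ, ∃ m : M, x = act s m - m}) :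
    x ∈ AddSubgroup.closure
      {x : M | ∃ s ∈ P.inertiaSubgroupIn ℚ, ∃ y ∈ Y, x = act s y - y} := by
  obtain ⟨-, hadd, hmul⟩ := act_props_of_hasFunModel h
  obtain ⟨W0, -, hW⟩ := exists_isRedKernel_of_hasFunModel hp hp2 h P hP
  exact hW.mem_closure_of_mem_closure (fun s _ => hadd s) (fun s _ t _ => hmul s t) hkill Y hY
    hxY hx

/-- **(ET)** in the shape of team_s56_chat #208 (`IsFunModel`, `Y` stable under all of `G_ℚ`). -/
theorem mem_closure_of_isFunModel {H : Subalgebra (ratLocalizedAt p) (M → Qb)}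
    (hM : IsFunModel p act H) (hp : p.Prime) (hp2 : p ≠ 2) (hkill : ∀ x : M, p • x = 0)
    (P : ValuationSubring Qb) (hP : P.LiesOverPrime p) (Y : AddSubgroup M)
    (hY : ∀ (σ : GQ), ∀ y ∈ Y, act σ y ∈ Y) {x : M} (hxY : x ∈ Y)
    (hx : x ∈ AddSubgroup.closure
      {x : M | ∃ s ∈ P.inertiaSubgroupIn ℚ, ∃ m : M, x = act s m - m}) :
    x ∈ AddSubgroup.closure
      {x : M | ∃ s ∈ P.inertiaSubgroupIn ℚ, ∃ y ∈ Y, x = act s y - y} :=
  mem_closure_of_hasFunModel hp hp2 ⟨H, hM⟩ hkill P hP Y (fun s _ => hY s) hxY hx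

/-- **(R4) for the frozen `GaloisRepAdic.IsFlatAt`**: at every finite level `V / I V` of a flat
representation (`p` odd) and every valuation subring `P` of `Qbar` over `p` there is a subgroup
`W0`, stable under the decomposition group, which is a reduction kernel for inertia. -/
theorem exists_isRedKernel_of_isFlatAt {A : Type} [CommRing A] [IsLocalRing A]
    (ρ : GaloisRepAdic A) (hp : p.Prime) (hp2 : p ≠ 2) (hflat : ρ.IsFlatAt p) (J : Ideal A)
    (hJ : Finite (A ⧸ J)) (P : ValuationSubring Qb) (hP : P.LiesOverPrime p) :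
    ∃ W0 : AddSubgroup (ρ.V ⧸ (J • (⊤ : Submodule A ρ.V))),
      (∀ σ ∈ P.decompositionSubgroup ℚ, ∀ w ∈ W0, ρ.levelAction J σ w ∈ W0) ∧
      IsRedKernel p (P.inertiaSubgroupIn ℚ) (fun σ => ρ.levelAction J σ) W0 :=
  exists_isRedKernel_of_hasFlatModel hp hp2 (((isFlatAt_iff p ρ).mp hflat).2 J hJ) P hP

/-- **(ET+) for the frozen `GaloisRepAdic.IsFlatAt`**: at a finite level `V / J V` killed by `p`
(`p` odd), for ANY inertia-stable subgroup `Y`: `(I - 1)(V / J V) ∩ Y ⊆ (I - 1) Y`. -/
theorem mem_closure_of_isFlatAt {A : Type} [CommRing A] [IsLocalRing A]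
    (ρ : GaloisRepAdic A) (hp : p.Prime) (hp2 : p ≠ 2) (hflat : ρ.IsFlatAt p) (J : Ideal A)
    (hJ : Finite (A ⧸ J)) (hkill : ∀ x : ρ.V ⧸ (J • (⊤ : Submodule A ρ.V)), p • x = 0)
    (P : ValuationSubring Qb) (hP : P.LiesOverPrime p)
    (Y : AddSubgroup (ρ.V ⧸ (J • (⊤ : Submodule A ρ.V))))
    (hY : ∀ s ∈ P.inertiaSubgroupIn ℚ, ∀ y ∈ Y, ρ.levelAction J s y ∈ Y)
    {x : ρ.V ⧸ (J • (⊤ : Submodule A ρ.V))} (hxY : x ∈ Y)
    (hx : x ∈ AddSubgroup.closure {x : ρ.V ⧸ (J • (⊤ : Submodule A ρ.V)) |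
      ∃ s ∈ P.inertiaSubgroupIn ℚ, ∃ m, x = ρ.levelAction J s m - m}) :
    x ∈ AddSubgroup.closure {x : ρ.V ⧸ (J • (⊤ : Submodule A ρ.V)) |
      ∃ s ∈ P.inertiaSubgroupIn ℚ, ∃ y ∈ Y, x = ρ.levelAction J s y - y} :=
  mem_closure_of_hasFunModel hp hp2
    (hasFunModel_of_hasFlatModel p (((isFlatAt_iff p ρ).mp hflat).2 J hJ)) hkill P hP Y hY hxY hx

/-- The inertia subgroup is normal in the decomposition group (it is a kernel); stated as a
theorem, to be supplied as `haveI` to consumers requiring `[I.Normal]`. -/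
theorem inertiaSubgroup_normal (P : ValuationSubring Qb) : (P.inertiaSubgroup ℚ).Normal :=
  MonoidHom.normal_ker _

/-- The inertia subgroup of the decomposition group maps onto `P.inertiaSubgroupIn ℚ`. -/
theorem isRedKernel_decomposition {W0 : AddSubgroup M} (P : ValuationSubring Qb)
    (hW : IsRedKernel p (P.inertiaSubgroupIn ℚ) act W0) :
    IsRedKernel p (P.inertiaSubgroup ℚ)
      (fun (σ : P.decompositionSubgroup ℚ) => act (σ : GQ)) W0 :=
  hW.comap (P.decompositionSubgroup ℚ).subtype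
    (fun s' hs' => by
      show (P.decompositionSubgroup ℚ).subtype s' ∈
        (P.inertiaSubgroup ℚ).map (P.decompositionSubgroup ℚ).subtype
      exact Subgroup.mem_map_of_mem _ hs')
    (fun s hs => by
      have hs' : s ∈ (P.inertiaSubgroup ℚ).map (P.decompositionSubgroup ℚ).subtype := hs
      exact Subgroup.mem_map.mp hs')

/-- **(hET) for the frozen `GaloisRepAdic.IsFlatAt`, in the carrier of
`S56.helper56.exists_cocycle_shape_of_ET`** (`D` = the decomposition group of `P`, `I` = its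
normal inertia subgroup `P.inertiaSubgroup ℚ`, `act σ = ρ.levelAction J ↑σ`): at a finite level
`V / J V` killed by `p` (`p` odd), for an additive map `e` with inertia-stable range,
`(I - 1)(V / J V) ∩ range e ⊆ (I - 1)(range e)`. -/
theorem hET_of_isFlatAt {A : Type} [CommRing A] [IsLocalRing A]
    (ρ : GaloisRepAdic A) (hp : p.Prime) (hp2 : p ≠ 2) (hflat : ρ.IsFlatAt p) (J : Ideal A)
    (hJ : Finite (A ⧸ J)) (hkill : ∀ x : ρ.V ⧸ (J • (⊤ : Submodule A ρ.V)), p • x = 0)
    (P : ValuationSubring Qb) (hP : P.LiesOverPrime p)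
    {E : Type*} [AddCommGroup E] (e : E →+ (ρ.V ⧸ (J • (⊤ : Submodule A ρ.V))))
    (he : ∀ σ ∈ P.inertiaSubgroup ℚ, ∀ w : E, ∃ w' : E,
      ρ.levelAction J (σ : GQ) (e w) = e w') (w : E)
    (hw : e w ∈ AddSubgroup.closure {x : ρ.V ⧸ (J • (⊤ : Submodule A ρ.V)) |
      ∃ σ ∈ P.inertiaSubgroup ℚ, ∃ m, x = ρ.levelAction J (σ : GQ) m - m}) :
    e w ∈ AddSubgroup.closure {x : ρ.V ⧸ (J • (⊤ : Submodule A ρ.V)) |
      ∃ σ ∈ P.inertiaSubgroup ℚ, ∃ w' : E, x = ρ.levelAction J (σ : GQ) (e w') - e w'} := by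
  have hfm := hasFunModel_of_hasFlatModel p (((isFlatAt_iff p ρ).mp hflat).2 J hJ)
  obtain ⟨-, hadd, hmul⟩ := act_props_of_hasFunModel hfm
  obtain ⟨W0, -, hW⟩ := exists_isRedKernel_of_hasFunModel hp hp2 hfm P hP
  exact (isRedKernel_decomposition P hW).hET (fun s _ m m' => hadd s m m')
    (fun s _ t _ m => hmul s t m) hkill e he w hw

end Frozen

end Fermat.Agent.S56.helper5274
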