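import Mathlib

/-!
# S56 flat-local, reducible case: the SHAPE lemma (helper56, registry row FLAT-REDSHAPE)

Abstract, Mathlib-only.  `D` a group (decomposition group), `I` a normal subgroup (inertia),
`ρ : D →* M₂(k)` upper triangular (`ρ σ 1 0 = 0`), lower character trivial on `I`, upper
character non-trivial at some `τ₀ ∈ I`; `c : D → M₂(k)` a trace-zero 1-cocycle for the adjoint
action (`ρ' = (1 + ε c) ρ` is a lift of `ρ` to `k[ε]`).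

The single arithmetic input is `HypB`: for `σ, τ ∈ I` and `v, v'` with
`(ρ σ - 1) v = (ρ τ - 1) v'`, the second coordinate of `c σ (ρ σ v) - c τ (ρ τ v')` vanishes.
In `V' = V̄ ⊕ ε V̄` the element `(σ - 1)(v, 0) - (τ - 1)(v', 0)` is
`(0, c σ (ρ σ v) - c τ (ρ τ v'))`, so `HypB` says `(I - 1) V' ∩ ε V' ⊆ ε L̄`, `L̄ = k e₀`,
tested on the elements the proof uses.  It follows from the kernel-of-reduction lemmas
(inertia acts trivially modulo the kernel of reduction; the kernel of reduction contains no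
non-zero inertia-fixed point) applied to the QUOTIENT `V' / ε L̄` (see `hypB_of_subgroup`).

Conclusion: after subtracting the coboundary of `X = t • E₂₁`, the cocycle is upper triangular
on `D` and has zero diagonal on `I`.
-/

set_option autoImplicit false

namespace Fermat.Agent.S56.helper56

open Matrix

section RedShape

variable {k : Type*} [Field k] {D : Type*} [Group D]

/-- The `(1,0)` entry of `g * m * g'` for `g`, `g'` upper triangular. -/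
theorem mul_mul_apply_one_zero (g m g' : Matrix (Fin 2) (Fin 2) k) (hg : g 1 0 = 0)
    (hg' : g' 1 0 = 0) : (g * m * g') 1 0 = g 1 1 * m 1 0 * g' 0 0 := by
  simp only [Matrix.mul_apply, Fin.sum_univ_two, hg, hg']
  ring

/-- Entries of `g * (t • E₂₁) * g'`. -/
theorem mul_E21_mul_apply (g g' : Matrix (Fin 2) (Fin 2) k) (t : k) (i j : Fin 2) :
    (g * !![0, 0; t, 0] * g') i j = g i 1 * t * g' 0 j := by
  simp [Matrix.mul_apply, Fin.sum_univ_two]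

/-- The coboundary of `X`. -/
def cobdry (ρ : D →* Matrix (Fin 2) (Fin 2) k) (X : Matrix (Fin 2) (Fin 2) k) (σ : D) :
    Matrix (Fin 2) (Fin 2) k :=
  ρ σ * X * ρ σ⁻¹ - X

theorem map_mul_map_inv (ρ : D →* Matrix (Fin 2) (Fin 2) k) (σ : D) : ρ σ * ρ σ⁻¹ = 1 := by
  rw [← map_mul, mul_inv_cancel, map_one]

theorem map_inv_mul_map (ρ : D →* Matrix (Fin 2) (Fin 2) k) (σ : D) : ρ σ⁻¹ * ρ σ = 1 := by
  rw [← map_mul, inv_mul_cancel, map_one]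

/-- A coboundary is a cocycle. -/
theorem cobdry_mul (ρ : D →* Matrix (Fin 2) (Fin 2) k) (X : Matrix (Fin 2) (Fin 2) k)
    (σ τ : D) : cobdry ρ X (σ * τ) = cobdry ρ X σ + ρ σ * cobdry ρ X τ * ρ σ⁻¹ := by
  unfold cobdry
  rw [map_mul, _root_.mul_inv_rev, map_mul]
  calc ρ σ * ρ τ * X * (ρ τ⁻¹ * ρ σ⁻¹) - X
      = ρ σ * (ρ τ * X * ρ τ⁻¹) * ρ σ⁻¹ - X := by simp only [Matrix.mul_assoc]
    _ = ρ σ * X * ρ σ⁻¹ - X + ρ σ * (ρ τ * X * ρ τ⁻¹ - X) * ρ σ⁻¹ := by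
        rw [Matrix.mul_sub, Matrix.sub_mul]; abel

theorem trace_cobdry (ρ : D →* Matrix (Fin 2) (Fin 2) k) (X : Matrix (Fin 2) (Fin 2) k)
    (σ : D) : (cobdry ρ X σ).trace = 0 := by
  unfold cobdry
  rw [Matrix.trace_sub, Matrix.trace_mul_cycle, map_inv_mul_map, Matrix.one_mul, sub_self]

/-- Adding a coboundary to a cocycle gives a cocycle. -/
theorem add_cobdry_mul (ρ : D →* Matrix (Fin 2) (Fin 2) k) (c : D → Matrix (Fin 2) (Fin 2) k)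
    (hcoc : ∀ σ τ, c (σ * τ) = c σ + ρ σ * c τ * ρ σ⁻¹) (X : Matrix (Fin 2) (Fin 2) k)
    (σ τ : D) :
    c (σ * τ) + cobdry ρ X (σ * τ) =
      (c σ + cobdry ρ X σ) + ρ σ * (c τ + cobdry ρ X τ) * ρ σ⁻¹ := by
  rw [hcoc, cobdry_mul, Matrix.mul_add, Matrix.add_mul]
  abel

/-- Entry identities for an upper triangular representation. -/
theorem upper_inv_entries (ρ : D →* Matrix (Fin 2) (Fin 2) k) (hup : ∀ σ, ρ σ 1 0 = 0) (σ : D) :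
    ρ σ 0 0 * ρ σ⁻¹ 0 0 = 1 ∧ ρ σ 1 1 * ρ σ⁻¹ 1 1 = 1 ∧
      ρ σ 0 0 * ρ σ⁻¹ 0 1 + ρ σ 0 1 * ρ σ⁻¹ 1 1 = 0 := by
  have h := map_mul_map_inv ρ σ
  have h00 := congrFun (congrFun h 0) 0
  have h11 := congrFun (congrFun h 1) 1
  have h01 := congrFun (congrFun h 0) 1
  simp only [Matrix.mul_apply, Fin.sum_univ_two, hup, Matrix.one_apply_eq] at h00 h11
  simp only [Matrix.mul_apply, Fin.sum_univ_two] at h01
  refine ⟨by simpa using h00, by simpa using h11, by simpa using h01⟩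

/-- **Reducible shape lemma.**  See the module docstring. -/
theorem exists_shape (I : Subgroup D) [I.Normal] (ρ : D →* Matrix (Fin 2) (Fin 2) k)
    (hup : ∀ σ, ρ σ 1 0 = 0)
    (c : D → Matrix (Fin 2) (Fin 2) k)
    (hcoc : ∀ σ τ, c (σ * τ) = c σ + ρ σ * c τ * ρ σ⁻¹)
    (htr : ∀ σ, (c σ).trace = 0)
    (hχ2 : ∀ σ ∈ I, ρ σ 1 1 = 1)
    {τ0 : D} (hτ0 : τ0 ∈ I) (hτ0' : ρ τ0 0 0 ≠ 1)
    (hB : ∀ σ ∈ I, ∀ τ ∈ I, ∀ v v' : Fin 2 → k, ρ σ *ᵥ v - v = ρ τ *ᵥ v' - v' →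
      (c σ *ᵥ (ρ σ *ᵥ v) - c τ *ᵥ (ρ τ *ᵥ v')) 1 = 0) :
    ∃ t : k, (∀ σ, (c σ + cobdry ρ !![0, 0; t, 0] σ) 1 0 = 0) ∧
      ∀ σ ∈ I, (c σ + cobdry ρ !![0, 0; t, 0] σ) 1 1 = 0 ∧
        (c σ + cobdry ρ !![0, 0; t, 0] σ) 0 0 = 0 := by
  have hd : ρ τ0 0 0 - 1 ≠ 0 := sub_ne_zero.mpr hτ0'
  -- step 1
  have step1 : ∀ σ ∈ I, c σ 1 0 * ρ σ 0 0 * (ρ τ0 0 0 - 1) =
      c τ0 1 0 * ρ τ0 0 0 * (ρ σ 0 0 - 1) := by
    intro σ hσ
    have h := hB σ hσ τ0 hτ0 ![ρ τ0 0 0 - 1, 0] ![ρ σ 0 0 - 1, 0] (by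
      funext i
      fin_cases i
      · simp; ring
      · simp [hup])
    simp [hup] at h
    linear_combination h
  -- step 2
  have step2 : ∀ σ ∈ I, c σ 1 0 * ρ σ 0 1 * (ρ τ0 0 0 - 1) + c σ 1 1 * (ρ τ0 0 0 - 1) =
      c τ0 1 0 * ρ τ0 0 0 * ρ σ 0 1 := by
    intro σ hσ
    have hz := hχ2 σ hσ
    have h := hB σ hσ τ0 hτ0 ![0, ρ τ0 0 0 - 1] ![ρ σ 0 1, 0] (by
      funext i
      fin_cases i
      · simp; ring
      · simp [hup, hz])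
    simp [hup, hz] at h
    linear_combination h
  set t : k := ρ τ0 0 0 * c τ0 1 0 / (ρ τ0 0 0 - 1) with ht
  have ht' : t * (ρ τ0 0 0 - 1) = ρ τ0 0 0 * c τ0 1 0 := by
    rw [ht]; field_simp
  -- consequences on inertia
  have key1 : ∀ σ ∈ I, c σ 1 0 * ρ σ 0 0 = t * (ρ σ 0 0 - 1) := by
    intro σ hσ
    apply mul_right_cancel₀ hd
    linear_combination step1 σ hσ - (ρ σ 0 0 - 1) * ht'
  have key2 : ∀ σ ∈ I, c σ 1 0 * ρ σ 0 1 + c σ 1 1 = t * ρ σ 0 1 := by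
    intro σ hσ
    apply mul_right_cancel₀ hd
    linear_combination step2 σ hσ - ρ σ 0 1 * ht'
  have entry : ∀ σ (i j : Fin 2), (c σ + cobdry ρ !![0, 0; t, 0] σ) i j =
      c σ i j + ρ σ i 1 * t * ρ σ⁻¹ 0 j - (!![0, 0; t, 0] : Matrix (Fin 2) (Fin 2) k) i j := by
    intro σ i j
    unfold cobdry
    rw [Matrix.add_apply, Matrix.sub_apply, mul_E21_mul_apply]
    ring
  have on10 : ∀ σ ∈ I, (c σ + cobdry ρ !![0, 0; t, 0] σ) 1 0 = 0 := by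
    intro σ hσ
    obtain ⟨hx, -, -⟩ := upper_inv_entries ρ hup σ
    have hz := hχ2 σ hσ
    have hx0 : ρ σ 0 0 ≠ 0 := by
      intro h0; rw [h0, zero_mul] at hx; exact zero_ne_one hx
    rw [entry]
    simp only [Matrix.of_apply, Matrix.cons_val', Matrix.cons_val_one, Matrix.cons_val_zero,
      hz]
    apply mul_right_cancel₀ hx0
    linear_combination key1 σ hσ + t * hx
  refine ⟨t, ?_, ?_⟩
  · intro σ
    -- conjugate τ0 into the cocycle identity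
    have hτ : σ⁻¹ * τ0 * σ ∈ I := by
      have := ‹I.Normal›.conj_mem τ0 hτ0 σ⁻¹
      simpa using this
    obtain ⟨c0, hc0⟩ : ∃ c0 : D → Matrix (Fin 2) (Fin 2) k,
        ∀ τ, c0 τ = c τ + cobdry ρ !![0, 0; t, 0] τ := ⟨_, fun _ => rfl⟩
    have e1 := add_cobdry_mul ρ c hcoc !![0, 0; t, 0] σ (σ⁻¹ * τ0 * σ)
    have e2 := add_cobdry_mul ρ c hcoc !![0, 0; t, 0] τ0 σ
    have hmul : σ * (σ⁻¹ * τ0 * σ) = τ0 * σ := by group
    rw [hmul] at e1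
    have e := e1.symm.trans e2
    simp only [← hc0] at e
    have e10 := congrFun (congrFun e 1) 0
    rw [Matrix.add_apply, Matrix.add_apply,
      mul_mul_apply_one_zero _ _ _ (hup σ) (hup σ⁻¹),
      mul_mul_apply_one_zero _ _ _ (hup τ0) (hup τ0⁻¹)] at e10
    have h1 : c0 (σ⁻¹ * τ0 * σ) 1 0 = 0 := by rw [hc0]; exact on10 _ hτ
    have h2 : c0 τ0 1 0 = 0 := by rw [hc0]; exact on10 _ hτ0
    rw [h1, h2, hχ2 τ0 hτ0] at e10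
    obtain ⟨hx, -, -⟩ := upper_inv_entries ρ hup τ0
    have hx1 : ρ τ0⁻¹ 0 0 ≠ 1 := by
      intro h1; rw [h1, mul_one] at hx; exact hτ0' hx
    have : c0 σ 1 0 * (1 - ρ τ0⁻¹ 0 0) = 0 := by
      linear_combination e10
    rw [← hc0]
    rcases mul_eq_zero.mp this with h | h
    · exact h
    · exact absurd (sub_eq_zero.mp h).symm hx1
  · intro σ hσ
    obtain ⟨hx, hz', hxy⟩ := upper_inv_entries ρ hup σ
    have hz := hχ2 σ hσ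
    have hx0 : ρ σ 0 0 ≠ 0 := by
      intro h0; rw [h0, zero_mul] at hx; exact zero_ne_one hx
    rw [hz, one_mul] at hz'
    have h11 : (c σ + cobdry ρ !![0, 0; t, 0] σ) 1 1 = 0 := by
      rw [entry]
      simp only [Matrix.of_apply, Matrix.cons_val', Matrix.cons_val_one, Matrix.cons_val_zero,
        hz]
      rw [hz'] at hxy
      apply mul_right_cancel₀ hx0
      linear_combination ρ σ 0 0 * key2 σ hσ - ρ σ 0 1 * key1 σ hσ + t * hxy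
    refine ⟨h11, ?_⟩
    have htr0 : (c σ + cobdry ρ !![0, 0; t, 0] σ).trace = 0 := by
      rw [Matrix.trace_add, htr, trace_cobdry, add_zero]
    rw [Matrix.trace_fin_two, h11, add_zero] at htr0
    exact htr0

/-- **Packaged form** (the input shape of the reducible count): there are a trace-zero `X` and
a trace-zero cocycle `c0`, upper triangular on `D` and with zero diagonal on `I`, such that
`c = c0 - d X`. -/
theorem exists_cocycle_shape (I : Subgroup D) [I.Normal] (ρ : D →* Matrix (Fin 2) (Fin 2) k)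
    (hup : ∀ σ, ρ σ 1 0 = 0)
    (c : D → Matrix (Fin 2) (Fin 2) k)
    (hcoc : ∀ σ τ, c (σ * τ) = c σ + ρ σ * c τ * ρ σ⁻¹)
    (htr : ∀ σ, (c σ).trace = 0)
    (hχ2 : ∀ σ ∈ I, ρ σ 1 1 = 1)
    {τ0 : D} (hτ0 : τ0 ∈ I) (hτ0' : ρ τ0 0 0 ≠ 1)
    (hB : ∀ σ ∈ I, ∀ τ ∈ I, ∀ v v' : Fin 2 → k, ρ σ *ᵥ v - v = ρ τ *ᵥ v' - v' →
      (c σ *ᵥ (ρ σ *ᵥ v) - c τ *ᵥ (ρ τ *ᵥ v')) 1 = 0) :
    ∃ (X : Matrix (Fin 2) (Fin 2) k) (c0 : D → Matrix (Fin 2) (Fin 2) k),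
      X.trace = 0 ∧ (∀ σ, c σ = c0 σ - (ρ σ * X * ρ σ⁻¹ - X)) ∧
      (∀ σ τ, c0 (σ * τ) = c0 σ + ρ σ * c0 τ * ρ σ⁻¹) ∧ (∀ σ, (c0 σ).trace = 0) ∧
      (∀ σ, c0 σ 1 0 = 0) ∧ (∀ σ ∈ I, c0 σ 1 1 = 0) ∧ (∀ σ ∈ I, c0 σ 0 0 = 0) := by
  obtain ⟨t, h1, h2⟩ := exists_shape I ρ hup c hcoc htr hχ2 hτ0 hτ0' hB
  refine ⟨!![0, 0; t, 0], fun σ => c σ + cobdry ρ !![0, 0; t, 0] σ, ?_, ?_, ?_, ?_, h1,
    fun σ hσ => (h2 σ hσ).1, fun σ hσ => (h2 σ hσ).2⟩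
  · simp [Matrix.trace_fin_two]
  · intro σ
    exact (add_sub_cancel_right (c σ) (cobdry ρ !![0, 0; t, 0] σ)).symm
  · intro σ τ
    exact add_cobdry_mul ρ c hcoc _ σ τ
  · intro σ
    rw [Matrix.trace_add, htr, trace_cobdry, add_zero]

/-- **`HypB` from a subgroup `N` of the lift** (`N` = preimage of the kernel of reduction of
the quotient `V' / ε L̄`).  `M` is the underlying additive group of the lift `V'`,
`s v` the chosen lift of `v`, `e w = ε • s w`.  Hypotheses on `N`: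
`(n1)` inertia acts trivially modulo `N`; `(n2)` `N ∩ ε V̄ ⊆ ε L̄`. -/
theorem hypB_of_subgroup (I : Subgroup D) (ρ : D →* Matrix (Fin 2) (Fin 2) k)
    (c : D → Matrix (Fin 2) (Fin 2) k)
    {M : Type*} [AddCommGroup M] (act : D → M → M) (s e : (Fin 2 → k) →+ M)
    (hs : ∀ σ ∈ I, ∀ v, act σ (s v) = s (ρ σ *ᵥ v) + e (c σ *ᵥ (ρ σ *ᵥ v)))
    (N : AddSubgroup M)
    (n1 : ∀ σ ∈ I, ∀ m, act σ m - m ∈ N)
    (n2 : ∀ w : Fin 2 → k, e w ∈ N → w 1 = 0) :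
    ∀ σ ∈ I, ∀ τ ∈ I, ∀ v v' : Fin 2 → k, ρ σ *ᵥ v - v = ρ τ *ᵥ v' - v' →
      (c σ *ᵥ (ρ σ *ᵥ v) - c τ *ᵥ (ρ τ *ᵥ v')) 1 = 0 := by
  intro σ hσ τ hτ v v' h
  apply n2
  have h1 := N.sub_mem (n1 σ hσ (s v)) (n1 τ hτ (s v'))
  have h2 : act σ (s v) - s v - (act τ (s v') - s v') =
      e (c σ *ᵥ (ρ σ *ᵥ v) - c τ *ᵥ (ρ τ *ᵥ v')) := by
    rw [hs σ hσ, hs τ hτ, map_sub]
    have h3 : s (ρ σ *ᵥ v) - s v = s (ρ τ *ᵥ v') - s v' := by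
      rw [← map_sub, ← map_sub, h]
    calc s (ρ σ *ᵥ v) + e (c σ *ᵥ (ρ σ *ᵥ v)) - s v -
          (s (ρ τ *ᵥ v') + e (c τ *ᵥ (ρ τ *ᵥ v')) - s v')
        = (s (ρ σ *ᵥ v) - s v) - (s (ρ τ *ᵥ v') - s v') +
          (e (c σ *ᵥ (ρ σ *ᵥ v)) - e (c τ *ᵥ (ρ τ *ᵥ v'))) := by abel
      _ = e (c σ *ᵥ (ρ σ *ᵥ v)) - e (c τ *ᵥ (ρ τ *ᵥ v')) := by
          rw [h3, sub_self, zero_add]
  rwa [h2] at h1

/-- **`(n2)` from `(R3)` on the quotient.**  `E0 = e {w | w 1 = 0} = ε L̄`.  If every element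
of `N` that is inertia-fixed modulo `ε L̄` lies in `ε L̄` (the kernel of reduction of
`V' / ε L̄` has no non-zero inertia-fixed point), then `N ∩ ε V̄ ⊆ ε L̄`. -/
theorem n2_of_fixed (I : Subgroup D) (ρ : D →* Matrix (Fin 2) (Fin 2) k)
    (hup : ∀ σ, ρ σ 1 0 = 0) (hχ2 : ∀ σ ∈ I, ρ σ 1 1 = 1)
    {M : Type*} [AddCommGroup M] (act : D → M → M) (e : (Fin 2 → k) →+ M)
    (he : ∀ σ ∈ I, ∀ w, act σ (e w) = e (ρ σ *ᵥ w))
    (he_inj : Function.Injective e)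
    (N : AddSubgroup M)
    (hR3 : ∀ n ∈ N, (∀ σ ∈ I, ∃ w : Fin 2 → k, w 1 = 0 ∧ act σ n - n = e w) →
      ∃ w : Fin 2 → k, w 1 = 0 ∧ n = e w) :
    ∀ w : Fin 2 → k, e w ∈ N → w 1 = 0 := by
  intro w hw
  obtain ⟨w', hw', h⟩ := hR3 (e w) hw (fun σ hσ => by
    refine ⟨ρ σ *ᵥ w - w, ?_, ?_⟩
    · simp [hup, hχ2 σ hσ]
    · rw [he σ hσ, map_sub])
  rw [he_inj h]
  exact hw'

/-- **Reducible shape from the kernel of reduction of the quotient `V' / ε L̄`**: the complete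
abstract statement.  `N` is the preimage in `V'` of that kernel of reduction;
`(hR2)` inertia acts trivially modulo `N`; `(hR3)` an element of `N` that is inertia-fixed
modulo `ε L̄` lies in `ε L̄`. -/
theorem exists_cocycle_shape_of_redKer (I : Subgroup D) [I.Normal]
    (ρ : D →* Matrix (Fin 2) (Fin 2) k) (hup : ∀ σ, ρ σ 1 0 = 0)
    (c : D → Matrix (Fin 2) (Fin 2) k)
    (hcoc : ∀ σ τ, c (σ * τ) = c σ + ρ σ * c τ * ρ σ⁻¹)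
    (htr : ∀ σ, (c σ).trace = 0)
    (hχ2 : ∀ σ ∈ I, ρ σ 1 1 = 1)
    {τ0 : D} (hτ0 : τ0 ∈ I) (hτ0' : ρ τ0 0 0 ≠ 1)
    {M : Type*} [AddCommGroup M] (act : D → M → M) (s e : (Fin 2 → k) →+ M)
    (hs : ∀ σ ∈ I, ∀ v, act σ (s v) = s (ρ σ *ᵥ v) + e (c σ *ᵥ (ρ σ *ᵥ v)))
    (he : ∀ σ ∈ I, ∀ w, act σ (e w) = e (ρ σ *ᵥ w))
    (he_inj : Function.Injective e)
    (N : AddSubgroup M)
    (hR2 : ∀ σ ∈ I, ∀ m, act σ m - m ∈ N)
    (hR3 : ∀ n ∈ N, (∀ σ ∈ I, ∃ w : Fin 2 → k, w 1 = 0 ∧ act σ n - n = e w) →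
      ∃ w : Fin 2 → k, w 1 = 0 ∧ n = e w) :
    ∃ (X : Matrix (Fin 2) (Fin 2) k) (c0 : D → Matrix (Fin 2) (Fin 2) k),
      X.trace = 0 ∧ (∀ σ, c σ = c0 σ - (ρ σ * X * ρ σ⁻¹ - X)) ∧
      (∀ σ τ, c0 (σ * τ) = c0 σ + ρ σ * c0 τ * ρ σ⁻¹) ∧ (∀ σ, (c0 σ).trace = 0) ∧
      (∀ σ, c0 σ 1 0 = 0) ∧ (∀ σ ∈ I, c0 σ 1 1 = 0) ∧ (∀ σ ∈ I, c0 σ 0 0 = 0) :=
  exists_cocycle_shape I ρ hup c hcoc htr hχ2 hτ0 hτ0'
    (hypB_of_subgroup I ρ c act s e hs N hR2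
      (n2_of_fixed I ρ hup hχ2 act e he he_inj N hR3))

/-- **`(n2)` from `(ET)`** (left-exactness of the maximal unramified quotient, in the shape
`(I - 1) V' ∩ ε V' ⊆ (I - 1) ε V'` of the kernel-of-reduction argument on the function
model): if every element of `N` lying in `ε V' = range e` is a sum of elements
`(σ - 1)(e w')`, `σ ∈ I`, then `N ∩ ε V̄ ⊆ ε L̄`. -/
theorem n2_of_ET (I : Subgroup D) (ρ : D →* Matrix (Fin 2) (Fin 2) k)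
    (hup : ∀ σ, ρ σ 1 0 = 0) (hχ2 : ∀ σ ∈ I, ρ σ 1 1 = 1)
    {M : Type*} [AddCommGroup M] (act : D → M → M) (e : (Fin 2 → k) →+ M)
    (he : ∀ σ ∈ I, ∀ w, act σ (e w) = e (ρ σ *ᵥ w))
    (he_inj : Function.Injective e)
    (N : AddSubgroup M)
    (hET : ∀ w : Fin 2 → k, e w ∈ N →
      e w ∈ AddSubgroup.closure {x : M | ∃ σ ∈ I, ∃ w' : Fin 2 → k, x = act σ (e w') - e w'}) :
    ∀ w : Fin 2 → k, e w ∈ N → w 1 = 0 := by
  intro w hw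
  have key : ∀ x ∈ AddSubgroup.closure
      {x : M | ∃ σ ∈ I, ∃ w' : Fin 2 → k, x = act σ (e w') - e w'},
      ∃ w0 : Fin 2 → k, w0 1 = 0 ∧ x = e w0 := by
    intro x hx
    induction hx using AddSubgroup.closure_induction with
    | mem x hx =>
      obtain ⟨σ, hσ, w', rfl⟩ := hx
      refine ⟨ρ σ *ᵥ w' - w', ?_, ?_⟩
      · simp [hup, hχ2 σ hσ]
      · rw [he σ hσ, map_sub]
    | zero => exact ⟨0, rfl, (map_zero e).symm⟩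
    | add x y _ _ hx hy =>
      obtain ⟨a, ha, rfl⟩ := hx
      obtain ⟨b, hb, rfl⟩ := hy
      exact ⟨a + b, by simp [ha, hb], (map_add e a b).symm⟩
    | neg x _ hx =>
      obtain ⟨a, ha, rfl⟩ := hx
      exact ⟨-a, by simp [ha], (map_neg e a).symm⟩
  obtain ⟨w0, hw0, h⟩ := key (e w) (hET w hw)
  rw [he_inj h]
  exact hw0

/-- **Reducible shape from `(ET)`**: the complete abstract statement in the form fed by the
function-model argument.  `N = (I - 1) V'` (the subgroup generated by all `σ m - m`,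
`σ ∈ I`); `(hET)`: `(I - 1) V' ∩ ε V' ⊆ (I - 1) ε V'`. -/
theorem exists_cocycle_shape_of_ET (I : Subgroup D) [I.Normal]
    (ρ : D →* Matrix (Fin 2) (Fin 2) k) (hup : ∀ σ, ρ σ 1 0 = 0)
    (c : D → Matrix (Fin 2) (Fin 2) k)
    (hcoc : ∀ σ τ, c (σ * τ) = c σ + ρ σ * c τ * ρ σ⁻¹)
    (htr : ∀ σ, (c σ).trace = 0)
    (hχ2 : ∀ σ ∈ I, ρ σ 1 1 = 1)
    {τ0 : D} (hτ0 : τ0 ∈ I) (hτ0' : ρ τ0 0 0 ≠ 1)
    {M : Type*} [AddCommGroup M] (act : D → M → M) (s e : (Fin 2 → k) →+ M)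
    (hs : ∀ σ ∈ I, ∀ v, act σ (s v) = s (ρ σ *ᵥ v) + e (c σ *ᵥ (ρ σ *ᵥ v)))
    (he : ∀ σ ∈ I, ∀ w, act σ (e w) = e (ρ σ *ᵥ w))
    (he_inj : Function.Injective e)
    (hET : ∀ w : Fin 2 → k,
      e w ∈ AddSubgroup.closure {x : M | ∃ σ ∈ I, ∃ m : M, x = act σ m - m} →
      e w ∈ AddSubgroup.closure {x : M | ∃ σ ∈ I, ∃ w' : Fin 2 → k, x = act σ (e w') - e w'}) :
    ∃ (X : Matrix (Fin 2) (Fin 2) k) (c0 : D → Matrix (Fin 2) (Fin 2) k),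
      X.trace = 0 ∧ (∀ σ, c σ = c0 σ - (ρ σ * X * ρ σ⁻¹ - X)) ∧
      (∀ σ τ, c0 (σ * τ) = c0 σ + ρ σ * c0 τ * ρ σ⁻¹) ∧ (∀ σ, (c0 σ).trace = 0) ∧
      (∀ σ, c0 σ 1 0 = 0) ∧ (∀ σ ∈ I, c0 σ 1 1 = 0) ∧ (∀ σ ∈ I, c0 σ 0 0 = 0) :=
  exists_cocycle_shape I ρ hup c hcoc htr hχ2 hτ0 hτ0'
    (hypB_of_subgroup I ρ c act s e hs
      (AddSubgroup.closure {x : M | ∃ σ ∈ I, ∃ m : M, x = act σ m - m})
      (fun σ hσ m => AddSubgroup.subset_closure ⟨σ, hσ, m, rfl⟩)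
      (n2_of_ET I ρ hup hχ2 act e he he_inj _ hET))

end RedShape

end Fermat.Agent.S56.helper56
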