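import Mathlib

/-!
# S56 flat-local, reducible case: the TYPE lemma (helper56, registry row FLAT-REDTYPE)

Abstract, Mathlib-only.  `V` a `k`-vector space of dimension `2`, `ρ : D →* End_k V`
(`D` = decomposition group), `I ⊴ D` (inertia).  Inputs:

* `(STAB)` a `D`-stable line `l`;
* `(R3')` the span `J` of the `(σ - 1) v`, `σ ∈ I`, contains no non-zero `I`-fixed vector
  (kernel of reduction: `(I - 1) V ⊆ redKer`, `redKer ∩ V^I = 0`);
* `(DET)` some `τ ∈ I` has `det ρ τ ≠ 1` (the determinant is the cyclotomic character);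
* `(EIG)` if `I` acts non-trivially on `l`, then `I` acts trivially on `V / l`
  ("Raynaud in rank one": the character of inertia on a stable line is `1` or `ω`).

Output: a basis `b` with `b 0` spanning a `D`-stable line `L`, `I` trivial on `V / L`, i.e.
in matrix form `ρ σ 1 0 = 0` on `D`, `ρ σ 1 1 = 1` on `I`, `ρ τ₀ 0 0 ≠ 1` for some `τ₀ ∈ I`:
the hypotheses `hup`, `hχ2`, `hτ0'` of `helper56_RedShape`.
-/

set_option autoImplicit false

namespace Fermat.Agent.S56.helper56

open Module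

section RedType

variable {k : Type*} [Field k] {D : Type*} [Group D]
variable {V : Type*} [AddCommGroup V] [Module k V]

/-- The span of the `(σ - 1) v`, `σ ∈ I`. -/
def inertiaSpan (I : Subgroup D) (ρ : D →* Module.End k V) : Submodule k V :=
  Submodule.span k {y | ∃ σ ∈ I, ∃ v, y = ρ σ v - v}

theorem sub_mem_inertiaSpan (I : Subgroup D) (ρ : D →* Module.End k V) {σ : D} (hσ : σ ∈ I)
    (v : V) : ρ σ v - v ∈ inertiaSpan I ρ :=
  Submodule.subset_span ⟨σ, hσ, v, rfl⟩

/-- `(I - 1) V` is stable under `D` when `I` is normal. -/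
theorem inertiaSpan_stable (I : Subgroup D) [I.Normal] (ρ : D →* Module.End k V) (τ : D) :
    ∀ x ∈ inertiaSpan I ρ, ρ τ x ∈ inertiaSpan I ρ := by
  intro x hx
  induction hx using Submodule.span_induction with
  | mem y hy =>
    obtain ⟨σ, hσ, v, rfl⟩ := hy
    have h1 : ρ τ (ρ σ v - v) = ρ (τ * σ * τ⁻¹) (ρ τ v) - ρ τ v := by
      rw [map_sub, map_mul, map_mul, Module.End.mul_apply, Module.End.mul_apply,
        ← Module.End.mul_apply (ρ τ⁻¹), ← map_mul, inv_mul_cancel, map_one,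
        Module.End.one_apply]
    rw [h1]
    exact sub_mem_inertiaSpan I ρ (Subgroup.Normal.conj_mem inferInstance σ hσ τ) _
  | zero => rw [map_zero]; exact Submodule.zero_mem _
  | add a b _ _ ha hb => rw [map_add]; exact Submodule.add_mem _ ha hb
  | smul c a _ ha => rw [map_smul]; exact Submodule.smul_mem _ c ha

/-- **The stable line of a flat reducible representation.**  Either `l` itself (when inertia
acts non-trivially on it, by `(EIG)`), or `(I - 1) V` (when inertia acts trivially on `l`: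
the split case). -/
theorem exists_line_of_flat_type (hV : finrank k V = 2) (I : Subgroup D) [I.Normal]
    (ρ : D →* Module.End k V)
    (l : Submodule k V) (hl1 : finrank k l = 1) (hl : ∀ σ, ∀ x ∈ l, ρ σ x ∈ l)
    (hR3 : ∀ x ∈ inertiaSpan I ρ, (∀ σ ∈ I, ρ σ x = x) → x = 0)
    (hdet : ∃ τ ∈ I, LinearMap.det (ρ τ) ≠ 1)
    (hEIG : (∃ σ ∈ I, ∃ x ∈ l, ρ σ x ≠ x) → ∀ σ ∈ I, ∀ v, ρ σ v - v ∈ l) :
    ∃ L : Submodule k V, finrank k L = 1 ∧ (∀ σ, ∀ x ∈ L, ρ σ x ∈ L) ∧
      ∀ σ ∈ I, ∀ v, ρ σ v - v ∈ L := by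
  have hfin : Module.Finite k V := Module.finite_of_finrank_eq_succ hV
  by_cases h : ∃ σ ∈ I, ∃ x ∈ l, ρ σ x ≠ x
  · exact ⟨l, hl1, hl, hEIG h⟩
  · have h : ∀ σ ∈ I, ∀ x ∈ l, ρ σ x = x := fun σ hσ x hx =>
      by_contra fun hne => h ⟨σ, hσ, x, hx, hne⟩
    have hdisj : Disjoint (inertiaSpan I ρ) l := by
      rw [Submodule.disjoint_def]
      intro x hxJ hxl
      exact hR3 x hxJ (fun σ hσ => h σ hσ x hxl)
    have hne : inertiaSpan I ρ ≠ ⊥ := by
      intro hbot
      obtain ⟨τ, hτ, hτdet⟩ := hdet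
      apply hτdet
      have h1 : ρ τ = 1 := by
        apply LinearMap.ext
        intro v
        have h2 := sub_mem_inertiaSpan I ρ hτ v
        rw [hbot, Submodule.mem_bot, sub_eq_zero] at h2
        rw [h2, Module.End.one_apply]
      rw [h1, map_one]
    have hle := Submodule.finrank_add_finrank_le_of_disjoint hdisj
    have hpos : 0 < finrank k (inertiaSpan I ρ) := by
      rw [Module.finrank_pos_iff_exists_ne_zero]
      obtain ⟨x, hx, hx0⟩ := (Submodule.ne_bot_iff _).mp hne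
      exact ⟨⟨x, hx⟩, fun h0 => hx0 (congrArg Subtype.val h0)⟩
    refine ⟨inertiaSpan I ρ, by omega, inertiaSpan_stable I ρ,
      fun σ hσ v => sub_mem_inertiaSpan I ρ hσ v⟩

/-- **Adapted basis.**  A `D`-stable line `L` modulo which `I` acts trivially gives a basis in
which `ρ` is upper triangular, with lower character trivial on `I`; the upper character is
non-trivial at every `τ ∈ I` with `det ρ τ ≠ 1`. -/
theorem exists_basis_of_line (hV : finrank k V = 2) (I : Subgroup D)
    (ρ : D →* Module.End k V)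
    (L : Submodule k V) (hL1 : finrank k L = 1) (hL : ∀ σ, ∀ x ∈ L, ρ σ x ∈ L)
    (hI : ∀ σ ∈ I, ∀ v, ρ σ v - v ∈ L) :
    ∃ b : Basis (Fin 2) k V, b 0 ∈ L ∧ (∀ x ∈ L, ∃ a : k, x = a • b 0) ∧
      (∀ σ, LinearMap.toMatrix b b (ρ σ) 1 0 = 0) ∧
      (∀ σ ∈ I, LinearMap.toMatrix b b (ρ σ) 1 1 = 1) ∧
      ∀ τ ∈ I, LinearMap.det (ρ τ) ≠ 1 → LinearMap.toMatrix b b (ρ τ) 0 0 ≠ 1 := by
  have hfin : Module.Finite k V := Module.finite_of_finrank_eq_succ hV
  -- a generator of `L`
  obtain ⟨⟨e0, he0L⟩, he0ne, he0span⟩ := finrank_eq_one_iff'.mp hL1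
  have he0 : e0 ≠ 0 := fun h => he0ne (Subtype.ext h)
  have hLspan : ∀ x ∈ L, ∃ a : k, x = a • e0 := by
    intro x hx
    obtain ⟨a, ha⟩ := he0span ⟨x, hx⟩
    exact ⟨a, (congrArg Subtype.val ha).symm⟩
  -- a vector outside `L`
  obtain ⟨e1, he1⟩ : ∃ e1 : V, e1 ∉ L := by
    by_contra hcon
    have hcon : ∀ x : V, x ∈ L := fun x => by_contra fun hx => hcon ⟨x, hx⟩
    have htop : L = ⊤ := by
      rw [eq_top_iff]
      intro x _
      exact hcon x
    rw [htop, finrank_top, hV] at hL1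
    omega
  have hli : LinearIndependent k ![e0, e1] := by
    rw [linearIndependent_fin2]
    refine ⟨?_, ?_⟩
    · intro h0
      apply he1
      have : e1 = 0 := h0
      rw [this]
      exact L.zero_mem
    · intro a ha
      have ha' : a • e1 = e0 := ha
      have ha0 : a ≠ 0 := by
        intro h0
        rw [h0, zero_smul] at ha'
        exact he0 ha'.symm
      apply he1
      have : e1 = a⁻¹ • e0 := by
        rw [← ha', smul_smul, inv_mul_cancel₀ ha0, one_smul]
      rw [this]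
      exact L.smul_mem _ he0L
  let b : Basis (Fin 2) k V := basisOfLinearIndependentOfCardEqFinrank hli (by simp [hV])
  have hb0 : b 0 = e0 := by
    simp [b, coe_basisOfLinearIndependentOfCardEqFinrank]
  have hb1 : b 1 = e1 := by
    simp [b, coe_basisOfLinearIndependentOfCardEqFinrank]
  have hrepr0 : ∀ a : k, b.repr (a • e0) 1 = 0 := by
    intro a
    rw [← hb0, map_smul, Basis.repr_self]
    simp
  refine ⟨b, hb0 ▸ he0L, fun x hx => hb0 ▸ hLspan x hx, ?_, ?_, ?_⟩
  · intro σ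
    rw [LinearMap.toMatrix_apply, hb0]
    obtain ⟨a, ha⟩ := hLspan _ (hL σ e0 he0L)
    rw [ha]
    exact hrepr0 a
  · intro σ hσ
    rw [LinearMap.toMatrix_apply, hb1]
    obtain ⟨a, ha⟩ := hLspan _ (hI σ hσ e1)
    have h1 : ρ σ e1 = e1 + a • e0 := by
      rw [← ha]
      abel
    rw [h1, map_add, Finsupp.add_apply, hrepr0 a, add_zero, ← hb1, Basis.repr_self]
    simp
  · intro τ hτ hdet
    have h10 : LinearMap.toMatrix b b (ρ τ) 1 0 = 0 := by
      rw [LinearMap.toMatrix_apply, hb0]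
      obtain ⟨a, ha⟩ := hLspan _ (hL τ e0 he0L)
      rw [ha]
      exact hrepr0 a
    have h11 : LinearMap.toMatrix b b (ρ τ) 1 1 = 1 := by
      rw [LinearMap.toMatrix_apply, hb1]
      obtain ⟨a, ha⟩ := hLspan _ (hI τ hτ e1)
      have h1 : ρ τ e1 = e1 + a • e0 := by
        rw [← ha]
        abel
      rw [h1, map_add, Finsupp.add_apply, hrepr0 a, add_zero, ← hb1, Basis.repr_self]
      simp
    intro h00
    apply hdet
    rw [← LinearMap.det_toMatrix b, Matrix.det_fin_two, h10, h11, h00]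
    ring

/-- **HypA**: the complete abstract statement.  Under `(STAB)`, `(R3')`, `(DET)`, `(EIG)` there
is a basis in which `ρ` has the shape assumed by the shape lemma `exists_shape`. -/
theorem exists_basis_of_flat_type (hV : finrank k V = 2) (I : Subgroup D) [I.Normal]
    (ρ : D →* Module.End k V)
    (l : Submodule k V) (hl1 : finrank k l = 1) (hl : ∀ σ, ∀ x ∈ l, ρ σ x ∈ l)
    (hR3 : ∀ x ∈ inertiaSpan I ρ, (∀ σ ∈ I, ρ σ x = x) → x = 0)
    (hdet : ∃ τ ∈ I, LinearMap.det (ρ τ) ≠ 1)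
    (hEIG : (∃ σ ∈ I, ∃ x ∈ l, ρ σ x ≠ x) → ∀ σ ∈ I, ∀ v, ρ σ v - v ∈ l) :
    ∃ b : Basis (Fin 2) k V,
      (∀ σ, LinearMap.toMatrix b b (ρ σ) 1 0 = 0) ∧
      (∀ σ ∈ I, LinearMap.toMatrix b b (ρ σ) 1 1 = 1) ∧
      ∃ τ ∈ I, LinearMap.toMatrix b b (ρ τ) 0 0 ≠ 1 := by
  obtain ⟨L, hL1, hL, hI⟩ := exists_line_of_flat_type hV I ρ l hl1 hl hR3 hdet hEIG
  obtain ⟨b, -, -, h10, h11, h00⟩ := exists_basis_of_line hV I ρ L hL1 hL hI
  obtain ⟨τ, hτ, hτdet⟩ := hdet
  exact ⟨b, h10, h11, τ, hτ, h00 τ hτ hτdet⟩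

/-! ### Matrix entries in a basis adapted to a line, and `(EIG)` from the two alternatives -/

/-- A basis whose first vector spans a given line. -/
theorem exists_basis_of_finrank_one (hV : finrank k V = 2) (L : Submodule k V)
    (hL1 : finrank k L = 1) :
    ∃ b : Basis (Fin 2) k V, b 0 ∈ L ∧ ∀ x ∈ L, ∃ a : k, x = a • b 0 := by
  have hfin : Module.Finite k V := Module.finite_of_finrank_eq_succ hV
  obtain ⟨⟨e0, he0L⟩, he0ne, he0span⟩ := finrank_eq_one_iff'.mp hL1
  have he0 : e0 ≠ 0 := fun h => he0ne (Subtype.ext h)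
  have hLspan : ∀ x ∈ L, ∃ a : k, x = a • e0 := by
    intro x hx
    obtain ⟨a, ha⟩ := he0span ⟨x, hx⟩
    exact ⟨a, (congrArg Subtype.val ha).symm⟩
  obtain ⟨e1, he1⟩ : ∃ e1 : V, e1 ∉ L := by
    by_contra hcon
    have hcon : ∀ x : V, x ∈ L := fun x => by_contra fun hx => hcon ⟨x, hx⟩
    have htop : L = ⊤ := by
      rw [eq_top_iff]
      intro x _
      exact hcon x
    rw [htop, finrank_top, hV] at hL1
    omega
  have hli : LinearIndependent k ![e0, e1] := by
    rw [linearIndependent_fin2]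
    refine ⟨?_, ?_⟩
    · intro h0
      apply he1
      have : e1 = 0 := h0
      rw [this]
      exact L.zero_mem
    · intro a ha
      have ha' : a • e1 = e0 := ha
      have ha0 : a ≠ 0 := by
        intro h0
        rw [h0, zero_smul] at ha'
        exact he0 ha'.symm
      apply he1
      have : e1 = a⁻¹ • e0 := by
        rw [← ha', smul_smul, inv_mul_cancel₀ ha0, one_smul]
      rw [this]
      exact L.smul_mem _ he0L
  let b : Basis (Fin 2) k V := basisOfLinearIndependentOfCardEqFinrank hli (by simp [hV])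
  have hb0 : b 0 = e0 := by
    simp [b, coe_basisOfLinearIndependentOfCardEqFinrank]
  exact ⟨b, hb0 ▸ he0L, fun x hx => hb0 ▸ hLspan x hx⟩

/-- First column of the matrix of an endomorphism with eigenvector `b 0`. -/
theorem toMatrix_first_column (b : Basis (Fin 2) k V) (f : Module.End k V) {a : k}
    (h : f (b 0) = a • b 0) :
    LinearMap.toMatrix b b f 0 0 = a ∧ LinearMap.toMatrix b b f 1 0 = 0 := by
  rw [LinearMap.toMatrix_apply, LinearMap.toMatrix_apply, h, map_smul, Basis.repr_self]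
  simp

/-- An endomorphism whose matrix has second row `(0, 1)` is the identity modulo `k · b 0`. -/
theorem exists_sub_eq_smul_of_toMatrix (b : Basis (Fin 2) k V) (f : Module.End k V)
    (h10 : LinearMap.toMatrix b b f 1 0 = 0) (h11 : LinearMap.toMatrix b b f 1 1 = 1) (v : V) :
    ∃ a : k, f v - v = a • b 0 := by
  have h1 := congrFun (LinearMap.toMatrix_mulVec_repr b b f v) 1
  rw [Matrix.mulVec, dotProduct, Fin.sum_univ_two, h10, h11, zero_mul, zero_add, one_mul] at h1
  have h2 : b.repr (f v - v) 1 = 0 := by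
    rw [map_sub, Finsupp.sub_apply, ← h1, sub_self]
  refine ⟨b.repr (f v - v) 0, ?_⟩
  have h3 := b.sum_repr (f v - v)
  rw [Fin.sum_univ_two, h2, zero_smul, add_zero] at h3
  exact h3.symm

/-- **`(EIG)` from the rank-one alternative** ("the character of inertia on a stable line is
trivial or the determinant").  `l = k · b 0` is a line; either inertia fixes `b 0`, or every
`σ ∈ I` acts on `b 0` through the scalar `det ρ σ`.  Then: if inertia acts non-trivially on
`l`, it acts trivially on `V / l`. -/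
theorem eig_of_alternative (I : Subgroup D) (ρ : D →* Module.End k V) (b : Basis (Fin 2) k V)
    (l : Submodule k V) (hb0 : b 0 ∈ l) (hspan : ∀ x ∈ l, ∃ a : k, x = a • b 0)
    (halt : (∀ σ ∈ I, ρ σ (b 0) = b 0) ∨
      (∀ σ ∈ I, ∃ a : k, a ≠ 0 ∧ ρ σ (b 0) = a • b 0 ∧ LinearMap.det (ρ σ) = a)) :
    (∃ σ ∈ I, ∃ x ∈ l, ρ σ x ≠ x) → ∀ σ ∈ I, ∀ v, ρ σ v - v ∈ l := by
  rintro ⟨σ0, hσ0, x, hx, hne⟩ σ hσ v
  rcases halt with halt | halt
  · exfalso
    apply hne
    obtain ⟨a, rfl⟩ := hspan x hx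
    rw [map_smul, halt σ0 hσ0]
  · obtain ⟨a, ha0, ha, hdet⟩ := halt σ hσ
    obtain ⟨h00, h10⟩ := toMatrix_first_column b (ρ σ) ha
    have h11 : LinearMap.toMatrix b b (ρ σ) 1 1 = 1 := by
      have h1 := LinearMap.det_toMatrix b (ρ σ)
      rw [Matrix.det_fin_two, h00, h10, mul_zero, sub_zero, hdet] at h1
      exact mul_left_cancel₀ ha0 (h1.trans (mul_one a).symm)
    obtain ⟨a', ha'⟩ := exists_sub_eq_smul_of_toMatrix b (ρ σ) h10 h11 v
    rw [ha']
    exact l.smul_mem _ hb0

end RedType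

end Fermat.Agent.S56.helper56
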