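import Mathlib
import Fermat.Agent.Lib.helper54_Frobenius
import Fermat.Agent.S33.helper6050_CycInertia
import Fermat.Agent.S56.helper6024_TameInertia

/-!
# S56 flat-local, reducible case: characters of the decomposition group on inertia
(helper56, registry row FLAT-REDTYPE, part `(T-a)/(T-b)`)

Frozen vocabulary: `P` a valuation subring of `ℚ̄` over the prime `p`, `D` its decomposition
group, `I` its inertia group, `ζ` a primitive `p`-th root of unity.

* `sub_one_le_of_inertia_orbit` : the image of `I` in `(ℤ/p)ˣ` (action on `ζ`) has order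
  `≥ p - 1` (`ℚ(ζ_p)` is totally ramified at `p`), in the form: if `I` acts on `ζ` through
  the powers of `a` and `a ^ d ≡ 1 [MOD p]`, `0 < d`, then `p - 1 ≤ d`.
* For a function `ψ : G_ℚ → k`, `char k = p`, multiplicative on `D` and of finite level:
  `(T-a)` `psi_pow_sub_one` : `ψ σ ^ (p - 1) = 1` for `σ ∈ I`;
  `(T-b)` `psi_eq_one_of_apply_eq` : `ψ σ = 1` for `σ ∈ I` fixing `ζ`.

So every character of `D` with values in a field of characteristic `p` is, on inertia, a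
power of the mod `p` cyclotomic character.
-/

set_option autoImplicit false

namespace Fermat.Agent.S56.helper56

local notation "Qb" => AlgebraicClosure ℚ
local notation "GQ" => (AlgebraicClosure ℚ ≃ₐ[ℚ] AlgebraicClosure ℚ)

open Fermat.Agent.S33.helper6050

/-! ## Roots of unity -/

section Roots

variable {p : ℕ} {ζ : Qb}

/-- Every automorphism raises `ζ` to a power. -/
theorem exists_apply_eq_pow (hp : p.Prime) (hζ : IsPrimitiveRoot ζ p) (σ : GQ) :
    ∃ a : ℕ, σ ζ = ζ ^ a := by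
  have : NeZero p := ⟨hp.ne_zero⟩
  have h1 : (σ ζ) ^ p = 1 := by rw [← map_pow, hζ.pow_eq_one, map_one]
  obtain ⟨i, -, hi⟩ := hζ.eq_pow_of_pow_eq_one h1
  exact ⟨i, hi.symm⟩

theorem pow_apply_root (σ : GQ) {a : ℕ} (h : σ ζ = ζ ^ a) (n : ℕ) :
    (σ ^ n) ζ = ζ ^ (a ^ n) := by
  induction n with
  | zero => rw [pow_zero, pow_zero, pow_one, AlgEquiv.one_apply]
  | succ n ih =>
    rw [pow_succ', AlgEquiv.mul_apply, ih, map_pow, h, ← pow_mul, pow_succ']

/-- `ζ ^ m = ζ ^ n` iff `m ≡ n [MOD p]`. -/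
theorem root_pow_eq_iff (hp : p.Prime) (hζ : IsPrimitiveRoot ζ p) (m n : ℕ) :
    ζ ^ m = ζ ^ n ↔ m ≡ n [MOD p] := by
  have hfin : IsOfFinOrder ζ := isOfFinOrder_iff_pow_eq_one.mpr ⟨p, hp.pos, hζ.pow_eq_one⟩
  rw [hfin.pow_eq_pow_iff_modEq, ← hζ.eq_orderOf]

/-- An automorphism whose `p ^ m`-th power fixes `ζ` fixes `ζ`. -/
theorem apply_eq_self_of_pow_prime_pow (hp : p.Prime) (hζ : IsPrimitiveRoot ζ p) (σ : GQ)
    (m : ℕ) (h : (σ ^ (p ^ m)) ζ = ζ) : σ ζ = ζ := by
  have : Fact p.Prime := ⟨hp⟩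
  obtain ⟨c, hc⟩ := exists_apply_eq_pow hp hζ σ
  have h1 := pow_apply_root σ hc (p ^ m)
  rw [h] at h1
  have h2 : ζ ^ 1 = ζ ^ (c ^ p ^ m) := by rw [pow_one]; exact h1
  rw [root_pow_eq_iff hp hζ, ← ZMod.natCast_eq_natCast_iff, Nat.cast_pow, ZMod.pow_card_pow,
    ZMod.natCast_eq_natCast_iff] at h2
  rw [hc, ← (root_pow_eq_iff hp hζ 1 c).mpr h2, pow_one]

end Roots

/-! ## Valuations of `1 - ζ ^ c` -/

section Val

variable {p : ℕ} (P : ValuationSubring Qb) {ζ : Qb}

theorem valuation_one_sub_pow_le {x : Qb} {m : ℕ} (hm : m ≠ 0) (hx : x ^ m = 1) (c : ℕ) :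
    P.valuation (1 - x ^ c) ≤ P.valuation (1 - x) := by
  rw [← geom_sum_mul_neg x c, map_mul]
  have h1 : P.valuation (∑ i ∈ Finset.range c, x ^ i) ≤ 1 := by
    apply Valuation.map_sum_le
    intro i _
    rw [map_pow, valuation_eq_one_of_pow_eq_one P hm hx, one_pow]
  exact mul_le_of_le_one_left' h1

theorem valuation_one_sub_pow_eq (hp : p.Prime) (hζ : IsPrimitiveRoot ζ p) {c : ℕ}
    (hc : ¬ p ∣ c) : P.valuation (1 - ζ ^ c) = P.valuation (1 - ζ) := by
  refine le_antisymm (valuation_one_sub_pow_le P hp.ne_zero hζ.pow_eq_one c) ?_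
  obtain ⟨c', -, hc'⟩ := Nat.exists_mul_mod_eq_one_of_coprime
    ((Nat.Prime.coprime_iff_not_dvd hp).mpr hc).symm hp.one_lt
  have h1 : (ζ ^ c) ^ c' = ζ := by
    rw [← pow_mul, pow_eq_pow_mod (c * c') hζ.pow_eq_one, hc', pow_one]
  have h2 : (ζ ^ c) ^ p = 1 := by rw [← pow_mul, mul_comm, pow_mul, hζ.pow_eq_one, one_pow]
  have h3 := valuation_one_sub_pow_le P hp.ne_zero h2 c'
  rwa [h1] at h3

theorem valuation_one_sub_pow_card (hp : p.Prime) (hζ : IsPrimitiveRoot ζ p) :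
    P.valuation (1 - ζ) ^ (p - 1) = P.valuation (p : Qb) := by
  obtain ⟨n, rfl⟩ : ∃ n, p = n + 1 := ⟨p - 1, (Nat.sub_add_cancel hp.one_lt.le).symm⟩
  have hprod : ∏ k ∈ Finset.range n, (1 - ζ ^ (k + 1)) = ((n + 1 : ℕ) : Qb) := by
    have := hζ.prod_one_sub_pow_eq_order
    simpa using this
  rw [← hprod, map_prod, Nat.add_sub_cancel]
  rw [Finset.prod_congr rfl (fun k hk => valuation_one_sub_pow_eq P hp hζ (c := k + 1) ?_)]
  · rw [Finset.prod_const, Finset.card_range]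
  · intro hdvd
    have h1 := Nat.le_of_dvd (Nat.succ_pos k) hdvd
    have h2 := Finset.mem_range.mp hk
    omega

theorem valuation_one_sub_lt_one (hp : p.Prime) (hP : P.LiesOverPrime p)
    (hζ : IsPrimitiveRoot ζ p) : P.valuation (1 - ζ) < 1 := by
  have hvp : P.valuation (p : Qb) < 1 := (P.mem_nonunits_iff).mp hP
  have hle : P.valuation (1 - ζ) ≤ 1 := valuation_one_sub_le_one P hp.ne_zero hζ.pow_eq_one
  rcases lt_or_eq_of_le hle with h | h
  · exact h
  · exfalso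
    have h1 := valuation_one_sub_pow_card P hp hζ
    rw [h, one_pow] at h1
    exact absurd h1.symm hvp.ne

theorem valuation_one_sub_pos (hp : p.Prime) (hζ : IsPrimitiveRoot ζ p) :
    0 < P.valuation (1 - ζ) := by
  rw [zero_lt_iff, Valuation.ne_zero_iff, sub_ne_zero]
  exact fun h => hζ.ne_one hp.one_lt h.symm

end Val

/-! ## The cyclotomic character is surjective on inertia -/

section Orbit

variable {p : ℕ} (hp : p.Prime) (P : ValuationSubring Qb) (hP : P.LiesOverPrime p)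
variable {ζ : Qb} (hζ : IsPrimitiveRoot ζ p)

include hp hP hζ in
/-- **`ℚ(ζ_p)` is totally ramified at `p`**, orbit form: if the inertia group at `P` acts on
`ζ` through the powers of one exponent `a` (up to elements fixing `ζ`), and `a ^ d ≡ 1`
modulo `p` with `0 < d`, then `p - 1 ≤ d`. -/
theorem sub_one_le_of_inertia_orbit {a d : ℕ} (hd : 0 < d) (had : a ^ d ≡ 1 [MOD p])
    (s : GQ) (hs : s ζ = ζ ^ a)
    (hgen : ∀ σ ∈ P.inertiaSubgroupIn ℚ, ∃ (n : ℕ) (w : GQ), σ = s ^ n * w ∧ w ζ = ζ) :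
    p - 1 ≤ d := by
  by_contra hlt
  have hlt : d < p - 1 := not_le.mp hlt
  -- `p ∤ a ^ j`
  have hpa : ¬ p ∣ a := by
    intro hdvd
    have h1 : a ^ d ≡ 0 [MOD p] := by
      rw [Nat.modEq_zero_iff_dvd]
      exact dvd_pow hdvd hd.ne'
    have h2 : (1 : ℕ) ≡ 0 [MOD p] := had.symm.trans h1
    rw [Nat.modEq_zero_iff_dvd, Nat.dvd_one] at h2
    exact hp.one_lt.ne' h2
  have hpaj : ∀ j : ℕ, ¬ p ∣ a ^ j := fun j hdvd => hpa (hp.dvd_of_dvd_pow hdvd)
  -- the orbit product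
  set f : ℕ → Qb := fun j => 1 - ζ ^ (a ^ j) with hf
  set N : Qb := ∏ j ∈ Finset.range d, f j with hN
  have hsf : ∀ j, s (f j) = f (j + 1) := by
    intro j
    simp only [hf, map_sub, map_one, map_pow, hs]
    rw [← pow_mul, ← pow_succ']
  have hfd : f d = f 0 := by
    simp only [hf, pow_zero]
    rw [(root_pow_eq_iff hp hζ (a ^ d) 1).mpr had]
  have hf0 : f 0 ≠ 0 := by
    simp only [hf, pow_zero, pow_one]
    rw [sub_ne_zero]
    exact fun h => hζ.ne_one hp.one_lt h.symm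
  have hsN : s N = N := by
    rw [hN, map_prod]
    simp only [hsf]
    have h1 := Finset.prod_range_succ' f d
    have h2 := Finset.prod_range_succ f d
    rw [h1, hfd] at h2
    exact mul_right_cancel₀ hf0 h2
  have hsnN : ∀ n : ℕ, (s ^ n) N = N := by
    intro n
    induction n with
    | zero => rw [pow_zero, AlgEquiv.one_apply]
    | succ n ih => rw [pow_succ, AlgEquiv.mul_apply, hsN, ih]
  have hfix : ∀ σ ∈ P.inertiaSubgroupIn ℚ, σ N = N := by
    intro σ hσ
    obtain ⟨n, w, rfl, hw⟩ := hgen σ hσ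
    have hwN : w N = N := by
      rw [hN, map_prod]
      refine Finset.prod_congr rfl fun j _ => ?_
      simp only [hf, map_sub, map_one, map_pow, hw]
    rw [AlgEquiv.mul_apply, hwN, hsnN]
  have hvN : P.valuation N = P.valuation (1 - ζ) ^ d := by
    rw [hN, map_prod]
    rw [Finset.prod_congr rfl (fun j _ => valuation_one_sub_pow_eq P hp hζ (hpaj j))]
    rw [Finset.prod_const, Finset.card_range]
  have hv1 := valuation_one_sub_lt_one P hp hP hζ
  have hv0 := valuation_one_sub_pos P hp hζ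
  have hNlt : P.valuation N < 1 := by
    rw [hvN]
    exact pow_lt_one' hv1 hd.ne'
  have hp0 : (p : Qb) ≠ 0 := by exact_mod_cast hp.ne_zero
  have hvp0 : 0 < P.valuation (p : Qb) := zero_lt_iff.mpr ((Valuation.ne_zero_iff _).mpr hp0)
  have hun := Fermat.Agent.S58.helper6024.unram hp P hP N hfix hNlt
  rw [map_div₀] at hun
  have hle : P.valuation N ≤ P.valuation (p : Qb) := (div_le_one₀ hvp0).mp hun
  rw [hvN, ← valuation_one_sub_pow_card P hp hζ] at hle
  exact absurd hle (not_le.mpr (pow_lt_pow_right_of_lt_one₀ hv0 hv1 hlt))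

end Orbit

/-! ## Characters of the decomposition group on inertia -/

section TameChar

variable {p : ℕ} (hp : p.Prime) (P : ValuationSubring Qb) (hP : P.LiesOverPrime p)
variable {k : Type*} [Field k] [CharP k p]
variable (ψ : GQ → k) (h1 : ψ 1 = 1)
  (hmul : ∀ σ ∈ P.decompositionSubgroup ℚ, ∀ τ ∈ P.decompositionSubgroup ℚ,
    ψ (σ * τ) = ψ σ * ψ τ)
  (E : IntermediateField ℚ Qb)
  (hlev : ∀ σ ∈ P.decompositionSubgroup ℚ, (∀ x ∈ E, σ x = x) → ψ σ = 1)

include h1 hmul in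
theorem psi_pow {σ : GQ} (hσ : σ ∈ P.decompositionSubgroup ℚ) (n : ℕ) :
    ψ (σ ^ n) = ψ σ ^ n := by
  induction n with
  | zero => rw [pow_zero, pow_zero, h1]
  | succ n ih => rw [pow_succ, pow_succ, hmul _ (pow_mem hσ n) _ hσ, ih]

include hp h1 hmul hlev in
/-- An element of `D` acting on the level through an element of `p`-power order is in the
kernel of `ψ`. -/
theorem psi_eq_one_of_pow {w : GQ} (hw : w ∈ P.decompositionSubgroup ℚ) (m : ℕ)
    (hfix : ∀ x ∈ E, (w ^ (p ^ m)) x = x) : ψ w = 1 := by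
  have : Fact p.Prime := ⟨hp⟩
  have h2 : ψ w ^ (p ^ m) = 1 := by
    rw [← psi_pow P ψ h1 hmul hw]
    exact hlev _ (pow_mem hw _) hfix
  have h3 : (ψ w - 1) ^ (p ^ m) = 0 := by
    rw [sub_pow_char_pow, one_pow, h2, sub_self]
  exact sub_eq_zero.mp (pow_eq_zero_iff (pow_ne_zero m hp.ne_zero) |>.mp h3)

include hp hP h1 hmul hlev in
/-- **(T-a)** A character of the decomposition group at `p` with values in characteristic `p`
has order dividing `p - 1` on inertia. -/
theorem psi_pow_sub_one [FiniteDimensional ℚ E] {σ : GQ} (hσ : σ ∈ P.inertiaSubgroupIn ℚ) :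
    ψ σ ^ (p - 1) = 1 := by
  obtain ⟨φ, hφ⟩ := Fermat.Agent.Lib.helper54.exists_isFrobeniusAt hp P hP
  have hφD : φ ∈ P.decompositionSubgroup ℚ := hφ.mem_decompositionSubgroup
  have hσD : σ ∈ P.decompositionSubgroup ℚ :=
    Fermat.Agent.S05.helper4205.mem_decomposition_of_mem_inertiaSubgroupIn hσ
  obtain ⟨w, m, hw, hconj, hfix⟩ :=
    Fermat.Agent.S56.helper6024.tame_frobenius_elt hp P hP E φ hφ σ hσ
  have hwD : w ∈ P.decompositionSubgroup ℚ :=
    Fermat.Agent.S05.helper4205.mem_decomposition_of_mem_inertiaSubgroupIn hw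
  have hψw : ψ w = 1 := psi_eq_one_of_pow hp P ψ h1 hmul E hlev hwD m hfix
  have hA : ψ (φ * σ * φ⁻¹) = ψ σ := by
    rw [hmul _ (mul_mem hφD hσD) _ (inv_mem hφD), hmul _ hφD _ hσD, mul_comm (ψ φ), mul_assoc,
      ← hmul _ hφD _ (inv_mem hφD), mul_inv_cancel, h1, mul_one]
  have hB : ψ (φ * σ * φ⁻¹) = ψ σ ^ p := by
    rw [hconj, hmul _ (pow_mem hσD p) _ hwD, hψw, mul_one, psi_pow P ψ h1 hmul hσD]
  have hne : ψ σ ≠ 0 := by
    intro h0
    have h2 := hmul _ hσD _ (inv_mem hσD)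
    rw [mul_inv_cancel, h1, h0, zero_mul] at h2
    exact one_ne_zero h2
  have hC : ψ σ ^ (p - 1) * ψ σ = 1 * ψ σ := by
    rw [← pow_succ, Nat.sub_add_cancel hp.one_lt.le, ← hB, hA, one_mul]
  exact mul_right_cancel₀ hne hC

include hp hP h1 hmul hlev in
/-- **(T-b)** A character of the decomposition group at `p` with values in characteristic `p`
is trivial on the inertia elements fixing the `p`-th roots of unity: on inertia it is a power
of the mod `p` cyclotomic character. -/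
theorem psi_eq_one_of_apply_eq [FiniteDimensional ℚ E] {ζ : Qb} (hζ : IsPrimitiveRoot ζ p)
    {σ : GQ} (hσ : σ ∈ P.inertiaSubgroupIn ℚ) (hσζ : σ ζ = ζ) : ψ σ = 1 := by
  have : Fact p.Prime := ⟨hp⟩
  -- a level containing `E` and `ζ`
  have hint : IsIntegral ℚ ζ := ((AlgebraicClosure.isAlgebraic ℚ).isAlgebraic ζ).isIntegral
  have : FiniteDimensional ℚ (IntermediateField.adjoin ℚ {ζ}) :=
    IntermediateField.adjoin.finiteDimensional hint
  obtain ⟨s, hs, hgen⟩ := Fermat.Agent.S56.helper6024.tame_cyclic_elt hp P hP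
    (E ⊔ IntermediateField.adjoin ℚ {ζ})
  have hsD : s ∈ P.decompositionSubgroup ℚ :=
    Fermat.Agent.S05.helper4205.mem_decomposition_of_mem_inertiaSubgroupIn hs
  have hζE : ζ ∈ E ⊔ IntermediateField.adjoin ℚ {ζ} :=
    (le_sup_right : IntermediateField.adjoin ℚ {ζ} ≤ _)
      (IntermediateField.mem_adjoin_simple_self ℚ ζ)
  obtain ⟨a, ha⟩ := exists_apply_eq_pow hp hζ s
  -- every inertia element is `s ^ n * w` with `w` fixing `ζ` and in the kernel of `ψ`
  have hgen' : ∀ τ ∈ P.inertiaSubgroupIn ℚ, ∃ (n : ℕ) (w : GQ), τ = s ^ n * w ∧ w ζ = ζ ∧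
      w ∈ P.decompositionSubgroup ℚ ∧ ψ w = 1 := by
    intro τ hτ
    obtain ⟨n, w, m, hw, hτw, hfix⟩ := hgen τ hτ
    have hwD : w ∈ P.decompositionSubgroup ℚ :=
      Fermat.Agent.S05.helper4205.mem_decomposition_of_mem_inertiaSubgroupIn hw
    refine ⟨n, w, hτw, apply_eq_self_of_pow_prime_pow hp hζ w m (hfix ζ hζE), hwD, ?_⟩
    exact psi_eq_one_of_pow hp P ψ h1 hmul E hlev hwD m
      (fun x hx => hfix x ((le_sup_left : E ≤ _) hx))
  obtain ⟨n, w, hσw, hwζ, hwD, hψw⟩ := hgen' σ hσ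
  -- `a ^ n ≡ 1`
  have han : a ^ n ≡ 1 [MOD p] := by
    have h2 : (s ^ n) ζ = ζ := by
      have h3 := hσζ
      rw [hσw, AlgEquiv.mul_apply, hwζ] at h3
      exact h3
    rw [pow_apply_root s ha n] at h2
    have h4 : ζ ^ (a ^ n) = ζ ^ 1 := by rw [pow_one]; exact h2
    exact (root_pow_eq_iff hp hζ _ _).mp h4
  -- hence `p - 1 ∣ n`
  have hpa : ¬ p ∣ a := by
    intro hdvd
    have h2 : s ζ = 1 := by
      obtain ⟨c, rfl⟩ := hdvd
      rw [ha, pow_mul, hζ.pow_eq_one, one_pow]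
    have h3 : s ζ = s 1 := by rw [h2, map_one]
    exact hζ.ne_one hp.one_lt (s.injective h3)
  have ha0 : (a : ZMod p) ≠ 0 := by
    rwa [Ne, ZMod.natCast_eq_zero_iff]
  have hdvd : p - 1 ∣ n := by
    have ho1 : orderOf (a : ZMod p) ∣ n := by
      rw [orderOf_dvd_iff_pow_eq_one, ← Nat.cast_pow, ← Nat.cast_one (R := ZMod p),
        ZMod.natCast_eq_natCast_iff]
      exact han
    have ho2 : orderOf (a : ZMod p) ∣ p - 1 := by
      rw [orderOf_dvd_iff_pow_eq_one]
      exact ZMod.pow_card_sub_one_eq_one ha0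
    have hpos : 0 < orderOf (a : ZMod p) := by
      rw [orderOf_pos_iff]
      exact isOfFinOrder_iff_pow_eq_one.mpr
        ⟨p - 1, Nat.sub_pos_of_lt hp.one_lt, ZMod.pow_card_sub_one_eq_one ha0⟩
    have hmod : a ^ orderOf (a : ZMod p) ≡ 1 [MOD p] := by
      rw [← ZMod.natCast_eq_natCast_iff, Nat.cast_pow, Nat.cast_one, pow_orderOf_eq_one]
    have hge := sub_one_le_of_inertia_orbit hp P hP hζ hpos hmod s ha
      (fun τ hτ => by
        obtain ⟨n', w', h5, h6, -, -⟩ := hgen' τ hτ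
        exact ⟨n', w', h5, h6⟩)
    have hle := Nat.le_of_dvd (Nat.sub_pos_of_lt hp.one_lt) ho2
    have heq : orderOf (a : ZMod p) = p - 1 := le_antisymm hle hge
    rwa [heq] at ho1
  obtain ⟨c, rfl⟩ := hdvd
  rw [hσw, hmul _ (pow_mem hsD _) _ hwD, hψw, mul_one, psi_pow P ψ h1 hmul hsD, pow_mul,
    psi_pow_sub_one hp P hP ψ h1 hmul E hlev hs, one_pow]

end TameChar

end Fermat.Agent.S56.helper56
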