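import Mathlib
import Fermat.Agent.S33.helper6050_CycInertia
import Fermat.Agent.S56.helper6599_StdLift
import Fermat.Agent.S56.helper6366_FlatJunction
import Fermat.Agent.S56.helper5274_RedKer
import Fermat.Agent.S56.helper56_RedShape
import Fermat.Agent.S56.helper56_RedType
import Fermat.Agent.S56.helper56_TameChar

/-!
# S56 flat-local, reducible case: the frozen-vocabulary adapter (helper56, FLAT-REDTYPE)

For `ρbar : ResidualGaloisRep k` (`k` finite of characteristic `p`, `p` odd), a valuation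
subring `P` of `ℚ̄` over `p` and a first-order lift `stdLift c` (`c : LiftCocycle ρbar`):

* `hasFunModel_residual_of_isFlatAt` : if `stdLift c` is flat at `p` then `ρbar` itself has a
  function model (`ρbar ≅ ε V' ⊆ V'`).
* `exists_basis_of_hasFunModel` (HypA): `ρbar` with a function model, cyclotomic determinant
  and a `D_P`-stable line, under `(EIG)`, has a basis in which it is upper triangular on
  `D_P`, with lower character trivial on inertia and upper character non-trivial at some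
  inertia element.
* `eig_of_TT` : `(EIG)` from the rank-one statement `(TT)` ("inertia acts on an inertia-stable
  point of order `p` through `1` or through the cyclotomic character").
* `exists_matrix_shape_of_isFlatAt` (F): in such a basis, the matrix cocycle of a flat lift
  is, up to a coboundary, upper triangular on `D_P` with zero diagonal on inertia.
-/

set_option autoImplicit false

namespace Fermat.Agent.S56.helper56

open TensorProduct Module
open Fermat.Agent.S32 Fermat.Agent.S56.helper6599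

local notation "Qb" => AlgebraicClosure ℚ
local notation "GQ" => (AlgebraicClosure ℚ ≃ₐ[ℚ] AlgebraicClosure ℚ)

/-! ## The dictionary `V̄ → V' = k[ε] ⊗ V̄` -/

section Dict

variable {k : Type} [Field k] (ρbar : ResidualGaloisRep k)

/-- `x ↦ 1 ⊗ x`. -/
noncomputable def sLift : ρbar.V →+ DualNumber k ⊗[k] ρbar.V :=
  (TensorProduct.mk k (DualNumber k) ρbar.V 1).toAddMonoidHom

/-- `x ↦ ε ⊗ x`. -/
noncomputable def eLift : ρbar.V →+ DualNumber k ⊗[k] ρbar.V :=
  (TensorProduct.mk k (DualNumber k) ρbar.V DualNumber.eps).toAddMonoidHom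

theorem sLift_apply (x : ρbar.V) : sLift ρbar x = (1 : DualNumber k) ⊗ₜ[k] x := rfl

theorem eLift_apply (x : ρbar.V) : eLift ρbar x = (DualNumber.eps : DualNumber k) ⊗ₜ[k] x := rfl

theorem eLift_injective : Function.Injective (eLift ρbar) := by
  intro x y h
  have h1 := congrArg (sndC ρbar.V) h
  rw [eLift_apply, eLift_apply, sndC_tmul, sndC_tmul, DualNumber.snd_eps, one_smul,
    one_smul] at h1
  exact h1

variable {ρbar}

theorem stdLift_sLift (c : LiftCocycle ρbar) (σ : GQ) (x : ρbar.V) :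
    (stdLift c).ρ σ (sLift ρbar x) =
      sLift ρbar (ρbar.ρ σ x) + eLift ρbar (c.c σ (ρbar.ρ σ x)) := by
  show dualEnd ρbar (ρbar.ρ σ) (c.b σ) ((1 : DualNumber k) ⊗ₜ[k] x) =
    (1 : DualNumber k) ⊗ₜ[k] (ρbar.ρ σ x) +
      (DualNumber.eps : DualNumber k) ⊗ₜ[k] (c.c σ (ρbar.ρ σ x))
  rw [dualEnd_tmul, mul_one]
  rfl

theorem stdLift_eLift (c : LiftCocycle ρbar) (σ : GQ) (x : ρbar.V) :
    (stdLift c).ρ σ (eLift ρbar x) = eLift ρbar (ρbar.ρ σ x) := by
  show dualEnd ρbar (ρbar.ρ σ) (c.b σ) ((DualNumber.eps : DualNumber k) ⊗ₜ[k] x) =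
    (DualNumber.eps : DualNumber k) ⊗ₜ[k] (ρbar.ρ σ x)
  rw [dualEnd_tmul, eps_mul_eps, zero_tmul, add_zero]

/-- The lift is killed by `p`. -/
theorem stdLift_nsmul_eq_zero {p : ℕ} [CharP k p] (c : LiftCocycle ρbar) (x : (stdLift c).V) :
    p • x = 0 := by
  have h1 : ((p : k)) • (show DualNumber k ⊗[k] ρbar.V from x) = 0 := by
    rw [CharP.cast_eq_zero k p, zero_smul]
  rw [Nat.cast_smul_eq_nsmul] at h1
  exact h1

/-- `ρbar` is killed by `p`. -/
theorem residual_nsmul_eq_zero {p : ℕ} [CharP k p] (x : ρbar.V) : p • x = 0 := by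
  rw [← Nat.cast_smul_eq_nsmul k, CharP.cast_eq_zero k p, zero_smul]

/-- **`ρbar` has a function model as soon as one first-order lift is flat.** -/
theorem hasFunModel_residual_of_isFlatAt (p : ℕ) [Fact p.Prime] [Finite k]
    (c : LiftCocycle ρbar) (hflat : (stdLift c).IsFlatAt p) :
    helper1304.HasFunModel p ρbar.V (fun σ x => ρbar.ρ σ x) := by
  have hfinA : Finite (DualNumber k) := inferInstanceAs (Finite (k × k))
  have h1 := Fermat.Agent.S56.helper6366.hasFunModel_of_isFlatAt p (stdLift c) hflat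
  exact h1.of_injective p (eLift ρbar) (eLift_injective ρbar)
    (fun σ x => (stdLift_eLift c σ x).symm)

end Dict

/-! ## Coordinates -/

section Coord

variable {k : Type} [Field k] {V : Type} [AddCommGroup V] [Module k V]

/-- Matrix times coordinate vector. -/
theorem equivFun_symm_mulVec (b : Basis (Fin 2) k V) (f : Module.End k V) (v : Fin 2 → k) :
    b.equivFun.symm ((LinearMap.toMatrix b b f).mulVec v) = f (b.equivFun.symm v) := by
  have h1 := LinearMap.toMatrix_mulVec_repr b b f (b.equivFun.symm v)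
  have h2 : (⇑(b.repr (b.equivFun.symm v)) : Fin 2 → k) = v := b.equivFun.apply_symm_apply v
  rw [h2] at h1
  rw [h1]
  exact b.equivFun.symm_apply_apply _

end Coord

/-! ## The matrix carrier on the decomposition group -/

section Matrix

variable {k : Type} [Field k] (ρbar : ResidualGaloisRep k) (b : Basis (Fin 2) k ρbar.V)
  (P : ValuationSubring Qb)

/-- `ρbar` restricted to the decomposition group at `P`, in matrices. -/
noncomputable def matRep : ↥(P.decompositionSubgroup ℚ) →* Matrix (Fin 2) (Fin 2) k :=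
  (MonoidHomClass.toMonoidHom (LinearMap.toMatrixAlgEquiv b)).comp
    (ρbar.ρ.comp (P.decompositionSubgroup ℚ).subtype)

theorem matRep_apply (σ : ↥(P.decompositionSubgroup ℚ)) :
    matRep ρbar b P σ = LinearMap.toMatrix b b (ρbar.ρ (σ : GQ)) := rfl

variable {ρbar}

/-- The cocycle of a lift restricted to the decomposition group at `P`, in matrices. -/
noncomputable def matCoc (c : LiftCocycle ρbar) (σ : ↥(P.decompositionSubgroup ℚ)) :
    Matrix (Fin 2) (Fin 2) k :=
  LinearMap.toMatrix b b (c.c (σ : GQ))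

theorem matCoc_mul (c : LiftCocycle ρbar) (σ τ : ↥(P.decompositionSubgroup ℚ)) :
    matCoc b P c (σ * τ) =
      matCoc b P c σ + matRep ρbar b P σ * matCoc b P c τ * matRep ρbar b P σ⁻¹ := by
  simp only [matCoc, matRep_apply, Subgroup.coe_mul, Subgroup.coe_inv]
  rw [c.map_mul', map_add, LinearMap.toMatrix_mul, LinearMap.toMatrix_mul]

theorem trace_matCoc (c : LiftCocycle ρbar)
    (htr : ∀ g, LinearMap.trace k ρbar.V (c.c g) = 0) (σ : ↥(P.decompositionSubgroup ℚ)) :
    (matCoc b P c σ).trace = 0 := by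
  rw [matCoc, ← LinearMap.trace_eq_matrix_trace k b, htr]

end Matrix

/-! ## The shape of a flat lift, frozen vocabulary -/

section Shape

variable {k : Type} [Field k] {ρbar : ResidualGaloisRep k}

/-- **(F) The shape of a flat first-order lift in an adapted basis.**  `b` a basis of `ρbar.V`
in which `ρbar` is upper triangular on the decomposition group at `P`, with lower character
trivial on inertia and upper character non-trivial at `τ0 ∈ I_P`.  If `stdLift c` is flat at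
`p` (odd), then the matrix cocycle `matCoc b P c` on the decomposition group is
`c0 - (ρ X ρ⁻¹ - X)` with `c0` a trace-zero cocycle which is upper triangular on the
decomposition group and has zero diagonal on inertia. -/
theorem exists_matrix_shape_of_isFlatAt {p : ℕ} (hp : p.Prime) (hp2 : p ≠ 2) [Finite k]
    [CharP k p] (P : ValuationSubring Qb) (hP : P.LiesOverPrime p)
    (b : Basis (Fin 2) k ρbar.V)
    (hup : ∀ σ ∈ P.decompositionSubgroup ℚ, LinearMap.toMatrix b b (ρbar.ρ σ) 1 0 = 0)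
    (hχ2 : ∀ σ ∈ P.inertiaSubgroupIn ℚ, LinearMap.toMatrix b b (ρbar.ρ σ) 1 1 = 1)
    {τ0 : GQ} (hτ0 : τ0 ∈ P.inertiaSubgroupIn ℚ)
    (hτ0' : LinearMap.toMatrix b b (ρbar.ρ τ0) 0 0 ≠ 1)
    (c : LiftCocycle ρbar) (htr : ∀ g, LinearMap.trace k ρbar.V (c.c g) = 0)
    (hflat : (stdLift c).IsFlatAt p) :
    ∃ (X : Matrix (Fin 2) (Fin 2) k)
      (c0 : ↥(P.decompositionSubgroup ℚ) → Matrix (Fin 2) (Fin 2) k),
      X.trace = 0 ∧
      (∀ σ, matCoc b P c σ = c0 σ - (matRep ρbar b P σ * X * matRep ρbar b P σ⁻¹ - X)) ∧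
      (∀ σ τ, c0 (σ * τ) = c0 σ + matRep ρbar b P σ * c0 τ * matRep ρbar b P σ⁻¹) ∧
      (∀ σ, (c0 σ).trace = 0) ∧ (∀ σ, c0 σ 1 0 = 0) ∧
      (∀ σ ∈ P.inertiaSubgroup ℚ, c0 σ 1 1 = 0) ∧ (∀ σ ∈ P.inertiaSubgroup ℚ, c0 σ 0 0 = 0) := by
  have : Fact p.Prime := ⟨hp⟩
  have hfinA : Finite (DualNumber k) := inferInstanceAs (Finite (k × k))
  have : (P.inertiaSubgroup ℚ).Normal := Fermat.Agent.S56.helper5274.inertiaSubgroup_normal P
  have hτ0D : τ0 ∈ P.decompositionSubgroup ℚ :=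
    Fermat.Agent.S05.helper4205.mem_decomposition_of_mem_inertiaSubgroupIn hτ0
  -- the function model of the lift and its reduction kernel
  have hfm := Fermat.Agent.S56.helper6366.hasFunModel_of_isFlatAt p (stdLift c) hflat
  obtain ⟨-, hadd, hmul⟩ := Fermat.Agent.S56.helper5274.act_props_of_hasFunModel hfm
  obtain ⟨W0, -, hW⟩ :=
    Fermat.Agent.S56.helper5274.exists_isRedKernel_of_hasFunModel hp hp2 hfm P hP
  have hWD := Fermat.Agent.S56.helper5274.isRedKernel_decomposition P hW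
  -- the dictionary
  let s : (Fin 2 → k) →+ (stdLift c).V :=
    (sLift ρbar).comp b.equivFun.symm.toLinearMap.toAddMonoidHom
  let e : (Fin 2 → k) →+ (stdLift c).V :=
    (eLift ρbar).comp b.equivFun.symm.toLinearMap.toAddMonoidHom
  have hs : ∀ σ ∈ P.inertiaSubgroup ℚ, ∀ v : Fin 2 → k,
      (stdLift c).ρ (σ : GQ) (s v) =
        s ((matRep ρbar b P σ).mulVec v) +
          e ((matCoc b P c σ).mulVec ((matRep ρbar b P σ).mulVec v)) := by
    intro σ _ v
    show (stdLift c).ρ (σ : GQ) (sLift ρbar (b.equivFun.symm v)) =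
      sLift ρbar (b.equivFun.symm ((matRep ρbar b P σ).mulVec v)) +
        eLift ρbar (b.equivFun.symm ((matCoc b P c σ).mulVec ((matRep ρbar b P σ).mulVec v)))
    rw [stdLift_sLift, matRep_apply, matCoc, equivFun_symm_mulVec, equivFun_symm_mulVec,
      equivFun_symm_mulVec]
  have he : ∀ σ ∈ P.inertiaSubgroup ℚ, ∀ w : Fin 2 → k,
      (stdLift c).ρ (σ : GQ) (e w) = e ((matRep ρbar b P σ).mulVec w) := by
    intro σ _ w
    show (stdLift c).ρ (σ : GQ) (eLift ρbar (b.equivFun.symm w)) =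
      eLift ρbar (b.equivFun.symm ((matRep ρbar b P σ).mulVec w))
    rw [stdLift_eLift, matRep_apply, equivFun_symm_mulVec]
  have he_inj : Function.Injective e := by
    intro w w' h
    exact b.equivFun.symm.injective (eLift_injective ρbar h)
  have hET : ∀ w : Fin 2 → k,
      e w ∈ AddSubgroup.closure {x : (stdLift c).V | ∃ σ ∈ P.inertiaSubgroup ℚ,
        ∃ m : (stdLift c).V, x = (stdLift c).ρ (σ : GQ) m - m} →
      e w ∈ AddSubgroup.closure {x : (stdLift c).V | ∃ σ ∈ P.inertiaSubgroup ℚ,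
        ∃ w' : Fin 2 → k, x = (stdLift c).ρ (σ : GQ) (e w') - e w'} := by
    intro w hw
    exact hWD.hET (fun σ _ m m' => hadd (σ : GQ) m m') (fun σ _ τ _ m => hmul (σ : GQ) (τ : GQ) m)
      (stdLift_nsmul_eq_zero c) e (fun σ hσ w => ⟨_, he σ hσ w⟩) w hw
  exact exists_cocycle_shape_of_ET (P.inertiaSubgroup ℚ) (matRep ρbar b P)
    (fun σ => hup (σ : GQ) σ.2) (matCoc b P c) (matCoc_mul b P c) (trace_matCoc b P c htr)
    (fun σ hσ => hχ2 (σ : GQ) ((Fermat.Agent.S56.helper6024.mem_inertiaSubgroup_iff P σ).mp hσ))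
    (τ0 := ⟨τ0, hτ0D⟩) ((Fermat.Agent.S56.helper6024.mem_inertiaSubgroup_iff P _).mpr hτ0) hτ0'
    (fun σ m => (stdLift c).ρ (σ : GQ) m) s e hs he he_inj hET

end Shape

/-! ## HypA in the frozen vocabulary -/

section HypA

variable {k : Type} [Field k] (ρbar : ResidualGaloisRep k)

/-- `ρbar` restricted to the decomposition group at `P`. -/
noncomputable def decRep (P : ValuationSubring Qb) :
    ↥(P.decompositionSubgroup ℚ) →* Module.End k ρbar.V :=
  ρbar.ρ.comp (P.decompositionSubgroup ℚ).subtype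

theorem decRep_apply (P : ValuationSubring Qb) (σ : ↥(P.decompositionSubgroup ℚ)) :
    decRep ρbar P σ = ρbar.ρ (σ : GQ) := rfl

/-- **`(R3')`** for a residual representation with a function model: `(I - 1) V̄` contains no
non-zero inertia-fixed vector. -/
theorem inertiaSpan_fixed_eq_zero {p : ℕ} (hp : p.Prime) (hp2 : p ≠ 2) [CharP k p]
    (hfun : helper1304.HasFunModel p ρbar.V (fun σ x => ρbar.ρ σ x))
    (P : ValuationSubring Qb) (hP : P.LiesOverPrime p) :
    ∀ x ∈ inertiaSpan (P.inertiaSubgroup ℚ) (decRep ρbar P),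
      (∀ σ ∈ P.inertiaSubgroup ℚ, decRep ρbar P σ x = x) → x = 0 := by
  obtain ⟨W0, -, hW⟩ :=
    Fermat.Agent.S56.helper5274.exists_isRedKernel_of_hasFunModel hp hp2 hfun P hP
  have hmem : ∀ y ∈ inertiaSpan (P.inertiaSubgroup ℚ) (decRep ρbar P), ∀ a : k, a • y ∈ W0 := by
    intro y hy
    induction hy using Submodule.span_induction with
    | mem y hy =>
      obtain ⟨σ, hσ, v, rfl⟩ := hy
      intro a
      have h1 := hW.1 (σ : GQ) ((Fermat.Agent.S56.helper6024.mem_inertiaSubgroup_iff P σ).mp hσ)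
        (a • v)
      have h2 : a • (decRep ρbar P σ v - v) = ρbar.ρ (σ : GQ) (a • v) - a • v := by
        rw [smul_sub, map_smul, decRep_apply]
      rw [h2]
      exact h1
    | zero => intro a; rw [smul_zero]; exact W0.zero_mem
    | add y z _ _ hy hz => intro a; rw [smul_add]; exact W0.add_mem (hy a) (hz a)
    | smul c y _ hy => intro a; rw [smul_smul]; exact hy (a * c)
  intro x hx hfix
  have hxW : x ∈ W0 := by
    have := hmem x hx 1
    rwa [one_smul] at this
  have h3 := hW.2 ⊥ (fun s _ n hn => by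
      rw [AddSubgroup.mem_bot] at hn
      rw [AddSubgroup.mem_bot, hn]
      show ρbar.ρ s 0 = 0
      rw [map_zero]) x hxW
    (fun s hs => by
      have hsD := Fermat.Agent.S05.helper4205.mem_decomposition_of_mem_inertiaSubgroupIn hs
      have h4 := hfix ⟨s, hsD⟩ ((Fermat.Agent.S56.helper6024.mem_inertiaSubgroup_iff P _).mpr hs)
      rw [decRep_apply] at h4
      rw [AddSubgroup.mem_bot]
      show ρbar.ρ s x - x = 0
      rw [h4, sub_self])
    (by rw [AddSubgroup.mem_bot]; exact residual_nsmul_eq_zero x)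
  exact (AddSubgroup.mem_bot).mp h3

/-- **HypA, frozen vocabulary.**  A residual representation with a function model over
`ℤ_(p)` (`p` odd), cyclotomic determinant and a line stable under the decomposition group at
`P`, for which `(EIG)` holds, has a basis in which it is upper triangular on the decomposition
group, with lower character trivial on inertia and upper character non-trivial somewhere on
inertia. -/
theorem exists_basis_of_hasFunModel {p : ℕ} (hp : p.Prime) (hp2 : p ≠ 2) [CharP k p]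
    (hfun : helper1304.HasFunModel p ρbar.V (fun σ x => ρbar.ρ σ x))
    (hdet : (GaloisRepAdic.ofResidualGaloisRep ρbar).DetIsCyclotomic p)
    (P : ValuationSubring Qb) (hP : P.LiesOverPrime p)
    (l : Submodule k ρbar.V) (hl1 : finrank k l = 1)
    (hl : ∀ σ ∈ P.decompositionSubgroup ℚ, ∀ x ∈ l, ρbar.ρ σ x ∈ l)
    (hEIG : (∃ σ ∈ P.inertiaSubgroupIn ℚ, ∃ x ∈ l, ρbar.ρ σ x ≠ x) →
      ∀ σ ∈ P.inertiaSubgroupIn ℚ, ∀ v, ρbar.ρ σ v - v ∈ l) :
    ∃ b : Basis (Fin 2) k ρbar.V,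
      (∀ σ ∈ P.decompositionSubgroup ℚ, LinearMap.toMatrix b b (ρbar.ρ σ) 1 0 = 0) ∧
      (∀ σ ∈ P.inertiaSubgroupIn ℚ, LinearMap.toMatrix b b (ρbar.ρ σ) 1 1 = 1) ∧
      ∃ τ ∈ P.inertiaSubgroupIn ℚ, LinearMap.toMatrix b b (ρbar.ρ τ) 0 0 ≠ 1 := by
  have : (P.inertiaSubgroup ℚ).Normal := Fermat.Agent.S56.helper5274.inertiaSubgroup_normal P
  have hmemI : ∀ σ : ↥(P.decompositionSubgroup ℚ),
      σ ∈ P.inertiaSubgroup ℚ ↔ (σ : GQ) ∈ P.inertiaSubgroupIn ℚ :=
    Fermat.Agent.S56.helper6024.mem_inertiaSubgroup_iff P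
  have hID : ∀ s ∈ P.inertiaSubgroupIn ℚ, s ∈ P.decompositionSubgroup ℚ := fun s hs =>
    Fermat.Agent.S05.helper4205.mem_decomposition_of_mem_inertiaSubgroupIn hs
  obtain ⟨t₀, ht₀, hunit⟩ := Fermat.Agent.S33.helper6050.exists_inertia_isUnit_det_sub_one
    (GaloisRepAdic.ofResidualGaloisRep ρbar) hp hp2 hdet P hP
  have hdet' : ∃ τ ∈ P.inertiaSubgroup ℚ, LinearMap.det (decRep ρbar P τ) ≠ 1 := by
    refine ⟨⟨t₀, hID t₀ ht₀⟩, (hmemI _).mpr ht₀, fun h => ?_⟩
    have h1 : LinearMap.det (ρbar.ρ t₀) = 1 := h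
    have h2 : LinearMap.det ((GaloisRepAdic.ofResidualGaloisRep ρbar).ρ t₀) - 1 = 0 := by
      show LinearMap.det (ρbar.ρ t₀) - 1 = 0
      rw [h1, sub_self]
    rw [h2] at hunit
    exact not_isUnit_zero hunit
  obtain ⟨b, h10, h11, τ, hτ, h00⟩ := exists_basis_of_flat_type ρbar.finrank_eq
    (P.inertiaSubgroup ℚ) (decRep ρbar P) l hl1 (fun σ x hx => hl (σ : GQ) σ.2 x hx)
    (inertiaSpan_fixed_eq_zero ρbar hp hp2 hfun P hP) hdet'
    (by
      rintro ⟨σ, hσ, x, hx, hne⟩ σ' hσ' v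
      exact hEIG ⟨(σ : GQ), (hmemI σ).mp hσ, x, hx, hne⟩ (σ' : GQ) ((hmemI σ').mp hσ') v)
  refine ⟨b, fun σ hσ => h10 ⟨σ, hσ⟩, fun σ hσ => h11 ⟨σ, hID σ hσ⟩ ((hmemI _).mpr hσ),
    (τ : GQ), (hmemI τ).mp hτ, h00⟩

/-- **`(EIG)` from the rank-one statement `(TT)`.**  `(TT)`: for a non-zero `x` on whose line
inertia acts through integers, inertia either fixes `x` or acts on it through the cyclotomic
character.  Together with the tame structure `(T-a)` (characters of the decomposition group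
take values in `𝔽_p` on inertia) and `det ρbar = ω` this gives `(EIG)`: if inertia acts
non-trivially on the stable line `l`, it acts trivially on `V̄ / l`. -/
theorem eig_of_TT {p : ℕ} (hp : p.Prime) [CharP k p]
    (hdet : (GaloisRepAdic.ofResidualGaloisRep ρbar).DetIsCyclotomic p)
    (P : ValuationSubring Qb) (hP : P.LiesOverPrime p) {ζ : Qb} (hζ : IsPrimitiveRoot ζ p)
    (l : Submodule k ρbar.V) (hl1 : finrank k l = 1)
    (hl : ∀ σ ∈ P.decompositionSubgroup ℚ, ∀ x ∈ l, ρbar.ρ σ x ∈ l)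
    (hTT : ∀ x : ρbar.V, x ≠ 0 →
      (∀ σ ∈ P.inertiaSubgroupIn ℚ, ∃ n : ℕ, ρbar.ρ σ x = n • x) →
      (∀ σ ∈ P.inertiaSubgroupIn ℚ, ρbar.ρ σ x = x) ∨
      (∀ σ ∈ P.inertiaSubgroupIn ℚ, ∀ w : ℕ, σ ζ = ζ ^ w → ρbar.ρ σ x = w • x)) :
    (∃ σ ∈ P.inertiaSubgroupIn ℚ, ∃ x ∈ l, ρbar.ρ σ x ≠ x) →
      ∀ σ ∈ P.inertiaSubgroupIn ℚ, ∀ v, ρbar.ρ σ v - v ∈ l := by
  have : Fact p.Prime := ⟨hp⟩
  have : NeZero p := ⟨hp.ne_zero⟩
  obtain ⟨b, hb0, hspan⟩ := exists_basis_of_finrank_one ρbar.finrank_eq l hl1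
  have hb0ne : b 0 ≠ 0 := b.ne_zero 0
  -- the character of the decomposition group on the line
  set ψ : GQ → k := fun σ => LinearMap.toMatrix b b (ρbar.ρ σ) 0 0 with hψ
  have hχ : ∀ σ ∈ P.decompositionSubgroup ℚ, ρbar.ρ σ (b 0) = ψ σ • b 0 := by
    intro σ hσ
    obtain ⟨a, ha⟩ := hspan _ (hl σ hσ (b 0) hb0)
    have h1 := (toMatrix_first_column b (ρbar.ρ σ) ha).1
    rw [hψ]
    show ρbar.ρ σ (b 0) = LinearMap.toMatrix b b (ρbar.ρ σ) 0 0 • b 0
    rw [h1]
    exact ha
  have hψ1 : ψ 1 = 1 := by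
    show LinearMap.toMatrix b b (ρbar.ρ 1) 0 0 = 1
    rw [map_one]
    have : (1 : Module.End k ρbar.V) = LinearMap.id := rfl
    rw [this, LinearMap.toMatrix_id]
    simp
  have hψmul : ∀ σ ∈ P.decompositionSubgroup ℚ, ∀ τ ∈ P.decompositionSubgroup ℚ,
      ψ (σ * τ) = ψ σ * ψ τ := by
    intro σ hσ τ hτ
    have h1 := hχ (σ * τ) (mul_mem hσ hτ)
    rw [map_mul, Module.End.mul_apply, hχ τ hτ, map_smul, hχ σ hσ, smul_smul] at h1
    have h2 : (ψ τ * ψ σ - ψ (σ * τ)) • b 0 = 0 := by rw [sub_smul, h1, sub_self]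
    rcases smul_eq_zero.mp h2 with h3 | h3
    · rw [← sub_eq_zero.mp h3, mul_comm]
    · exact absurd h3 hb0ne
  obtain ⟨E, hEfd, hE⟩ := ρbar.factorsThroughFiniteLevel
  have hψlev : ∀ σ ∈ P.decompositionSubgroup ℚ, (∀ x ∈ E, σ x = x) → ψ σ = 1 := by
    intro σ _ hσ
    have h1 : ρbar.ρ σ = 1 := hE σ hσ
    show LinearMap.toMatrix b b (ρbar.ρ σ) 0 0 = 1
    rw [h1]
    have : (1 : Module.End k ρbar.V) = LinearMap.id := rfl
    rw [this, LinearMap.toMatrix_id]
    simp
  have hID : ∀ s ∈ P.inertiaSubgroupIn ℚ, s ∈ P.decompositionSubgroup ℚ := fun s hs =>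
    Fermat.Agent.S05.helper4205.mem_decomposition_of_mem_inertiaSubgroupIn hs
  -- `(T-a)`: values in the prime field on inertia
  have hFp : ∀ σ ∈ P.inertiaSubgroupIn ℚ, ∃ n : ℕ, ψ σ = (n : k) := by
    intro σ hσ
    have h1 := psi_pow_sub_one hp P hP ψ hψ1 hψmul E hψlev hσ
    have h2 : ψ σ ^ p = ψ σ := by
      rw [← Nat.sub_add_cancel hp.one_lt.le, pow_succ, h1, one_mul]
    obtain ⟨z, hz⟩ := (mem_bot_iff_intCast p k).mp ((Subfield.mem_bot_iff_pow_eq_self k p).mpr h2)
    refine ⟨(z % (p : ℤ)).toNat, ?_⟩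
    have h3 : (((z % (p : ℤ)).toNat : ℤ) : k) = (z : k) := by
      rw [Int.toNat_of_nonneg (Int.emod_nonneg z (by exact_mod_cast hp.ne_zero)),
        CharP.intCast_eq_intCast k p]
      exact Int.mod_modEq z p
    rw [← hz, ← h3, Int.cast_natCast]
  have hn : ∀ σ ∈ P.inertiaSubgroupIn ℚ, ∃ n : ℕ, ρbar.ρ σ (b 0) = n • b 0 := by
    intro σ hσ
    obtain ⟨n, hn⟩ := hFp σ hσ
    exact ⟨n, by rw [hχ σ (hID σ hσ), hn, Nat.cast_smul_eq_nsmul]⟩
  have halt : (∀ σ ∈ P.inertiaSubgroupIn ℚ, ρbar.ρ σ (b 0) = b 0) ∨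
      (∀ σ ∈ P.inertiaSubgroupIn ℚ, ∃ a : k, a ≠ 0 ∧ ρbar.ρ σ (b 0) = a • b 0 ∧
        LinearMap.det (ρbar.ρ σ) = a) := by
    rcases hTT (b 0) hb0ne hn with h | h
    · exact Or.inl h
    · refine Or.inr fun σ hσ => ?_
      obtain ⟨w, hw⟩ := exists_apply_eq_pow hp hζ σ
      refine ⟨(w : k), ?_, ?_, ?_⟩
      · rw [Ne, CharP.cast_eq_zero_iff k p]
        rintro ⟨c, rfl⟩
        have h2 : σ ζ = 1 := by rw [hw, pow_mul, hζ.pow_eq_one, one_pow]
        have h3 : σ ζ = σ 1 := by rw [h2, map_one]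
        exact hζ.ne_one hp.one_lt (σ.injective h3)
      · rw [h σ hσ w hw, Nat.cast_smul_eq_nsmul]
      · have h1 := hdet.2 1 σ w (fun μ hμ => by
          rw [pow_one] at hμ
          obtain ⟨i, -, rfl⟩ := hζ.eq_pow_of_pow_eq_one hμ
          rw [map_pow, hw, ← pow_mul, ← pow_mul, mul_comm])
        have h2 : (((p ^ 1 : ℕ) : k)) = 0 := by rw [pow_one]; exact CharP.cast_eq_zero k p
        rw [h2, Ideal.span_singleton_eq_bot.mpr rfl, Ideal.mem_bot, sub_eq_zero] at h1
        exact h1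
  exact eig_of_alternative (P.inertiaSubgroupIn ℚ) ρbar.ρ b l hb0 hspan halt

end HypA

end Fermat.Agent.S56.helper56
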