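/-
S56, node FLAT-LINEAR (helper1624): the flat first-order cocycles form a subspace.

Setting.  `V` is an additive group with an action `ρ : G_ℚ → V → V` by additive maps, and
`c : G_ℚ → V → V`.  The twisted action on `V × V` is

  `twAct ρ c σ (x, y) = (ρ σ x + c σ (ρ σ y), ρ σ y)`,

i.e. the Galois module of the first-order lift `(1 + ε c) ρ` written in a split basis
(`x` the `ε`-part, `y` the constant part).  `FlatCoc p ρ c` says that this Galois module has a
function model over `ℤ_(p)` in the sense of `S32/helper1304_HopfClose` (equivalently: it is the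
module of `Qb`-points of a finite flat commutative group scheme over `ℤ_(p)`, which is the frozen
clause of `GaloisRepAdic.IsFlatAt`).

Results (all from the closure properties of function models: products, stable subgroups,
equivariant quotients):

* `FlatCoc.add`      : Baer sum, `FlatCoc c → FlatCoc c' → FlatCoc (c + c')`;
* `FlatCoc.comp`     : `FlatCoc c → FlatCoc (a ∘ c)` for every additive `a` commuting with `ρ`
                       (in particular scalars, including `0`);
* `FlatCoc.of_cob`   : invariance under change of splitting (coboundaries);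
* `FlatCoc.cocycle`  : a flat `c` automatically satisfies the cocycle identity;
* `flatSub`          : the packaged `k`-submodule of `G_ℚ → End_k V`;
* `flatCoc_of_isFlatAt` : bridge from the frozen `GaloisRepAdic.IsFlatAt`.
-/
import Mathlib
import Fermat.Agent.S32.helper1304_HopfClose

set_option autoImplicit false

namespace Fermat.Agent.S56.helper1624

open Fermat.Agent.S32.helper1304

local notation "Qb" => AlgebraicClosure ℚ
local notation "Gal" => (AlgebraicClosure ℚ ≃ₐ[ℚ] AlgebraicClosure ℚ)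

section Core

variable (p : ℕ) {V : Type} [AddCommGroup V]

/-- The twisted action on `V × V` attached to `ρ` and `c`:
`(x, y) ↦ (ρ σ x + c σ (ρ σ y), ρ σ y)`. -/
def twAct (ρ : Gal → V → V) (c : Gal → V → V) (σ : Gal) (z : V × V) : V × V :=
  (ρ σ z.1 + c σ (ρ σ z.2), ρ σ z.2)

@[simp] theorem twAct_fst (ρ : Gal → V → V) (c : Gal → V → V) (σ : Gal) (z : V × V) :
    (twAct ρ c σ z).1 = ρ σ z.1 + c σ (ρ σ z.2) := rfl

@[simp] theorem twAct_snd (ρ : Gal → V → V) (c : Gal → V → V) (σ : Gal) (z : V × V) :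
    (twAct ρ c σ z).2 = ρ σ z.2 := rfl

/-- `c` is a flat cocycle for `ρ`: the twisted Galois module on `V × V` has a function model over
`ℤ_(p)`. -/
def FlatCoc (ρ : Gal → V → V) (c : Gal → V → V) : Prop :=
  HasFunModel p (V × V) (twAct ρ c)

variable {p}

/-- The base module is a quotient of the twisted module. -/
theorem FlatCoc.base [Fact p.Prime] {ρ c : Gal → V → V} (h : FlatCoc p ρ c) :
    HasFunModel p V ρ :=
  HasFunModel.of_surjective p h (AddMonoidHom.snd V V) Prod.snd_surjective (fun _ _ => rfl)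

/-- The zero cocycle is flat as soon as the base module has a function model. -/
theorem flatCoc_zero {ρ : Gal → V → V} (h : HasFunModel p V ρ) :
    FlatCoc p ρ (0 : Gal → V → V) := by
  refine HasFunModel.of_addEquiv p (HasFunModel.prod p h h) (AddEquiv.refl (V × V)) ?_
  intro σ z
  refine Prod.ext ?_ rfl
  simp [twAct]

/-- The zero cocycle is flat iff the base module has a function model. -/
theorem flatCoc_zero_iff [Fact p.Prime] {ρ : Gal → V → V} :
    FlatCoc p ρ (0 : Gal → V → V) ↔ HasFunModel p V ρ :=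
  ⟨fun h => h.base, flatCoc_zero⟩

/-- The base action of a flat pair is additive. -/
theorem FlatCoc.base_add {ρ c : Gal → V → V} (h : FlatCoc p ρ c) (σ : Gal) (x y : V) :
    ρ σ (x + y) = ρ σ x + ρ σ y := by
  obtain ⟨H, hH⟩ := h
  have h1 := hH.act_add p σ (0, x) (0, y)
  have h2 := congrArg Prod.snd h1
  simpa using h2

/-- The base action of a flat pair is multiplicative. -/
theorem FlatCoc.base_mul {ρ c : Gal → V → V} (h : FlatCoc p ρ c)
    (σ τ : Gal) (y : V) : ρ (σ * τ) y = ρ σ (ρ τ y) := by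
  obtain ⟨H, hH⟩ := h
  have hmul : twAct ρ c (σ * τ) (0, y) = twAct ρ c σ (twAct ρ c τ (0, y)) := by
    apply hH.sep
    intro φ hφ
    rw [hH.eqv φ hφ, hH.eqv φ hφ, hH.eqv φ hφ]
    rfl
  exact congrArg Prod.snd hmul

/-- An additive map kills `0` and commutes with negation (plain-function form). -/
theorem map_zero_of_add {f : V → V} (hf : ∀ x y, f (x + y) = f x + f y) : f 0 = 0 := by
  have h := hf 0 0
  rw [add_zero] at h
  exact left_eq_add.mp h

theorem map_neg_of_add {f : V → V} (hf : ∀ x y, f (x + y) = f x + f y) (v : V) :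
    f (-v) = -f v := by
  have h1 := hf v (-v)
  rw [add_neg_cancel, map_zero_of_add hf] at h1
  exact (neg_eq_of_add_eq_zero_right h1.symm).symm

/-- **Baer sum.**  The sum of two flat cocycles is flat: `M_{c + c'}` is an equivariant additive
image of the stable subgroup `{y = y'}` of `M_c × M_{c'}`. -/
theorem FlatCoc.add [Fact p.Prime] {ρ c c' : Gal → V → V}
    (h : FlatCoc p ρ c) (h' : FlatCoc p ρ c') : FlatCoc p ρ (c + c') := by
  have hρ := h.base_add
  have hprod := HasFunModel.prod p h h'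
  let N : AddSubgroup ((V × V) × (V × V)) :=
    { carrier := {z | z.1.2 = z.2.2}
      add_mem' := fun {a b} ha hb => by
        show a.1.2 + b.1.2 = a.2.2 + b.2.2
        rw [show a.1.2 = a.2.2 from ha, show b.1.2 = b.2.2 from hb]
      zero_mem' := rfl
      neg_mem' := fun {a} ha => by
        show -a.1.2 = -a.2.2
        rw [show a.1.2 = a.2.2 from ha] }
  have hstab : ∀ (σ : Gal) (z : N),
      (twAct ρ c σ (z : (V × V) × (V × V)).1, twAct ρ c' σ (z : (V × V) × (V × V)).2) ∈ N := by
    intro σ z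
    show ρ σ (z : (V × V) × (V × V)).1.2 = ρ σ (z : (V × V) × (V × V)).2.2
    rw [show (z : (V × V) × (V × V)).1.2 = (z : (V × V) × (V × V)).2.2 from z.2]
  have hN : HasFunModel p N (fun σ z => ⟨_, hstab σ z⟩) :=
    HasFunModel.of_injective p hprod N.subtype Subtype.val_injective (fun _ _ => rfl)
  let f : N →+ V × V :=
    { toFun := fun z => ((z : (V × V) × (V × V)).1.1 + (z : (V × V) × (V × V)).2.1,
        (z : (V × V) × (V × V)).1.2)
      map_zero' := by simp
      map_add' := fun a b => by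
        refine Prod.ext ?_ rfl
        show (a : (V × V) × (V × V)).1.1 + (b : (V × V) × (V × V)).1.1 +
            ((a : (V × V) × (V × V)).2.1 + (b : (V × V) × (V × V)).2.1) =
          (a : (V × V) × (V × V)).1.1 + (a : (V × V) × (V × V)).2.1 +
            ((b : (V × V) × (V × V)).1.1 + (b : (V × V) × (V × V)).2.1)
        abel }
  have hf : Function.Surjective f := by
    rintro ⟨x, y⟩
    refine ⟨⟨((x, y), (0, y)), rfl⟩, ?_⟩
    show (x + 0, y) = (x, y)
    rw [add_zero]
  refine HasFunModel.of_surjective p hN f hf ?_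
  intro σ z
  have hz : (z : (V × V) × (V × V)).1.2 = (z : (V × V) × (V × V)).2.2 := z.2
  refine Prod.ext ?_ rfl
  show ρ σ (z : (V × V) × (V × V)).1.1 + c σ (ρ σ (z : (V × V) × (V × V)).1.2) +
      (ρ σ (z : (V × V) × (V × V)).2.1 + c' σ (ρ σ (z : (V × V) × (V × V)).2.2)) =
    ρ σ ((z : (V × V) × (V × V)).1.1 + (z : (V × V) × (V × V)).2.1) +
      (c σ (ρ σ (z : (V × V) × (V × V)).1.2) + c' σ (ρ σ (z : (V × V) × (V × V)).1.2))
  rw [hρ, ← hz]
  abel

/-- **Push-out along an endomorphism of the base.**  If `a : V →+ V` commutes with the action,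
then `a ∘ c` is flat whenever `c` is: `M_{a ∘ c}` is the equivariant additive image of
`M_c × V` under `((x, y), z) ↦ (a x + z, y)`.  No case distinction `a = 0`. -/
theorem FlatCoc.comp [Fact p.Prime] {ρ c : Gal → V → V}
    (a : V →+ V) (ha : ∀ σ v, a (ρ σ v) = ρ σ (a v)) (h : FlatCoc p ρ c) :
    FlatCoc p ρ (fun σ v => a (c σ v)) := by
  have hρ := h.base_add
  have hprod := HasFunModel.prod p h h.base
  let f : (V × V) × V →+ V × V :=
    { toFun := fun z => (a z.1.1 + z.2, z.1.2)
      map_zero' := by simp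
      map_add' := fun u w => by
        refine Prod.ext ?_ rfl
        show a (u.1.1 + w.1.1) + (u.2 + w.2) = a u.1.1 + u.2 + (a w.1.1 + w.2)
        rw [map_add]
        abel }
  have hf : Function.Surjective f := by
    rintro ⟨x, y⟩
    refine ⟨((0, y), x), ?_⟩
    show (a 0 + x, y) = (x, y)
    rw [map_zero, zero_add]
  refine HasFunModel.of_surjective p hprod f hf ?_
  intro σ z
  refine Prod.ext ?_ rfl
  show a (ρ σ z.1.1 + c σ (ρ σ z.1.2)) + ρ σ z.2 = ρ σ (a z.1.1 + z.2) + a (c σ (ρ σ z.1.2))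
  rw [map_add, hρ, ha]
  abel

/-- The negative of a flat cocycle is flat. -/
theorem FlatCoc.neg [Fact p.Prime] {ρ c : Gal → V → V} (h : FlatCoc p ρ c) :
    FlatCoc p ρ (-c) :=
  h.comp (-AddMonoidHom.id V) (fun σ v => by
    show -ρ σ v = ρ σ (-v)
    rw [map_neg_of_add (h.base_add σ)])

/-- **Change of splitting.**  If `c' = c - dT`, in the inverse-free form
`c' σ (ρ σ y) + ρ σ (T y) = c σ (ρ σ y) + T (ρ σ y)`, then `M_c ≃ M_{c'}` via
`(x, y) ↦ (x + T y, y)`; so flatness of `c` gives flatness of `c'`. -/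
theorem FlatCoc.of_cob {ρ c c' : Gal → V → V} (T : V →+ V)
    (hT : ∀ σ y, c' σ (ρ σ y) + ρ σ (T y) = c σ (ρ σ y) + T (ρ σ y))
    (h : FlatCoc p ρ c) : FlatCoc p ρ c' := by
  have hρ := h.base_add
  let f : V × V ≃+ V × V :=
    { toFun := fun z => (z.1 + T z.2, z.2)
      invFun := fun z => (z.1 - T z.2, z.2)
      left_inv := fun z => by
        refine Prod.ext ?_ rfl
        show z.1 + T z.2 - T z.2 = z.1
        abel
      right_inv := fun z => by
        refine Prod.ext ?_ rfl
        show z.1 - T z.2 + T z.2 = z.1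
        abel
      map_add' := fun u w => by
        refine Prod.ext ?_ rfl
        show u.1 + w.1 + T (u.2 + w.2) = u.1 + T u.2 + (w.1 + T w.2)
        rw [map_add]
        abel }
  refine HasFunModel.of_addEquiv p h f ?_
  intro σ z
  refine Prod.ext ?_ rfl
  show ρ σ z.1 + c σ (ρ σ z.2) + T (ρ σ z.2) = ρ σ (z.1 + T z.2) + c' σ (ρ σ z.2)
  rw [hρ, add_assoc, ← hT σ z.2]
  abel

/-- Change of splitting, as an equivalence (given additivity of the base action). -/
theorem flatCoc_iff_of_cob {ρ c c' : Gal → V → V}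
    (hρ : ∀ σ x y, ρ σ (x + y) = ρ σ x + ρ σ y) (T : V →+ V)
    (hT : ∀ σ y, c' σ (ρ σ y) + ρ σ (T y) = c σ (ρ σ y) + T (ρ σ y)) :
    FlatCoc p ρ c ↔ FlatCoc p ρ c' := by
  refine ⟨fun h => h.of_cob T hT, fun h => h.of_cob (-T) ?_⟩
  intro σ y
  have := hT σ y
  show c σ (ρ σ y) + ρ σ (-T y) = c' σ (ρ σ y) + -T (ρ σ y)
  rw [map_neg_of_add (hρ σ), ← sub_eq_add_neg, ← sub_eq_add_neg, sub_eq_sub_iff_add_eq_add]
  exact this.symm

/-- Coboundaries are flat as soon as the base module has a function model: if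
`d σ (ρ σ y) = ρ σ (T y) - T (ρ σ y)` (that is, `d σ = ρ σ ∘ T ∘ (ρ σ)⁻¹ - T`), then `d` is
flat. -/
theorem flatCoc_cob {ρ : Gal → V → V} (h : HasFunModel p V ρ) {d : Gal → V → V}
    (T : V →+ V) (hd : ∀ σ y, d σ (ρ σ y) = ρ σ (T y) - T (ρ σ y)) :
    FlatCoc p ρ d := by
  have h0 := flatCoc_zero h
  refine h0.of_cob (-T) ?_
  intro σ y
  show d σ (ρ σ y) + ρ σ (-T y) = (0 : Gal → V → V) σ (ρ σ y) + -T (ρ σ y)
  rw [hd, map_neg_of_add (h0.base_add σ), Pi.zero_apply, Pi.zero_apply]
  abel

/-- Adding a coboundary to a flat cocycle keeps it flat. -/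
theorem FlatCoc.add_cob {ρ c : Gal → V → V} (h : FlatCoc p ρ c) {d : Gal → V → V}
    (T : V →+ V) (hd : ∀ σ y, d σ (ρ σ y) = ρ σ (T y) - T (ρ σ y)) :
    FlatCoc p ρ (c + d) := by
  refine h.of_cob (-T) ?_
  intro σ y
  show c σ (ρ σ y) + d σ (ρ σ y) + ρ σ (-T y) = c σ (ρ σ y) + -T (ρ σ y)
  rw [hd, map_neg_of_add (h.base_add σ)]
  abel

/-- A flat `c` is automatically a cocycle (in the inverse-free form): the twisted action of a
module with a function model is multiplicative. -/
theorem FlatCoc.cocycle {ρ c : Gal → V → V} (h : FlatCoc p ρ c) (σ τ : Gal) (y : V) :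
    c (σ * τ) (ρ (σ * τ) y) = c σ (ρ σ (ρ τ y)) + ρ σ (c τ (ρ τ y)) := by
  have hρ := h.base_add
  obtain ⟨H, hH⟩ := h
  have hmul : twAct ρ c (σ * τ) (0, y) = twAct ρ c σ (twAct ρ c τ (0, y)) := by
    apply hH.sep
    intro φ hφ
    rw [hH.eqv φ hφ, hH.eqv φ hφ, hH.eqv φ hφ]
    rfl
  have h0 : ∀ σ : Gal, ρ σ 0 = 0 := fun σ => map_zero_of_add (hρ σ)
  have h1 := congrArg Prod.fst hmul
  simp only [twAct_fst, twAct_snd] at h1
  rw [h0, zero_add, h0, zero_add] at h1
  rw [h1]
  abel

/-- A flat pair is trivial on an open subgroup: there is a finite extension `L` of `ℚ` such that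
every `σ` fixing `L` acts trivially on the twisted module; so `ρ σ = id` and `c σ = 0` there. -/
theorem FlatCoc.exists_level {ρ c : Gal → V → V} (h : FlatCoc p ρ c) :
    ∃ L : IntermediateField ℚ Qb, FiniteDimensional ℚ L ∧
      ∀ σ : Gal, (∀ x ∈ L, σ x = x) → (∀ y, ρ σ y = y) ∧ ∀ y, c σ y = 0 := by
  have hρ := h.base_add
  obtain ⟨H, hH⟩ := h
  have hfinM : Finite (V × V) := hH.finite p
  have hfg := hH.fin
  obtain ⟨s, hs⟩ := (Module.finite_def.mp hfg)
  -- the finite set of values
  let S : Set Qb := Set.range (fun q : s × (V × V) => ((q.1 : H) : V × V → Qb) q.2)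
  have hSfin : S.Finite := Set.finite_range _
  let L : IntermediateField ℚ Qb := IntermediateField.adjoin ℚ S
  have hLfin : FiniteDimensional ℚ L :=
    IntermediateField.finiteDimensional_adjoin
      (fun x _ => ((AlgebraicClosure.isAlgebraic ℚ).isAlgebraic x).isIntegral)
  refine ⟨L, hLfin, fun σ hσ => ?_⟩
  -- every element of `H` takes `σ`-fixed values
  have hfix : ∀ φ ∈ H, ∀ m : V × V, σ (φ m) = φ m := by
    intro φ hφ m
    have hmem : (⟨φ, hφ⟩ : H) ∈ Submodule.span (GaloisRep.ratLocalizedAt p) (s : Set H) := by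
      rw [hs]; exact Submodule.mem_top
    refine Submodule.span_induction (p := fun (ψ : H) _ => σ ((ψ : V × V → Qb) m) =
      (ψ : V × V → Qb) m) ?_ ?_ ?_ ?_ hmem
    · intro ψ hψ
      exact hσ _ (IntermediateField.subset_adjoin ℚ S ⟨(⟨ψ, hψ⟩, m), rfl⟩)
    · show σ ((0 : V × V → Qb) m) = (0 : V × V → Qb) m
      simp
    · intro ψ ψ' _ _ h1 h2
      show σ (((ψ : V × V → Qb) + (ψ' : V × V → Qb)) m) = ((ψ : V × V → Qb) + (ψ' : V × V → Qb)) m
      rw [Pi.add_apply, map_add, h1, h2]
    · intro r ψ _ h1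
      show σ ((r • (ψ : V × V → Qb)) m) = (r • (ψ : V × V → Qb)) m
      rw [smul_fun_apply, map_mul, h1, algebraMap_R_Qb_apply, AlgEquiv.commutes]
  have htriv : ∀ m : V × V, twAct ρ c σ m = m := by
    intro m
    apply hH.sep
    intro φ hφ
    rw [hH.eqv φ hφ, hfix φ hφ]
  have h1 : ∀ y, ρ σ y = y := fun y => congrArg Prod.snd (htriv (0, y))
  refine ⟨h1, fun y => ?_⟩
  have h2 := congrArg Prod.fst (htriv (0, y))
  simp only [twAct_fst] at h2
  rw [map_zero_of_add (hρ σ), zero_add, h1] at h2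
  exact h2

end Core

/-! ## The packaged submodule -/

section Sub

variable (p : ℕ) [Fact p.Prime] {k : Type} [CommRing k] {V : Type} [AddCommGroup V] [Module k V]

/-- The submodule of flat cocycles `c : G_ℚ → End_k V` for the action `ρ`.  The disjunct `c = 0`
only matters when there is no flat `c` at all (i.e. when `V` itself has no function model). -/
def flatSub (ρ : Gal → Module.End k V) : Submodule k (Gal → Module.End k V) where
  carrier := {c | c = 0 ∨ FlatCoc p (fun σ => ⇑(ρ σ)) (fun σ => ⇑(c σ))}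
  zero_mem' := Or.inl rfl
  add_mem' := by
    rintro c c' (rfl | hc) (rfl | hc')
    · exact Or.inl (add_zero _)
    · rw [zero_add]; exact Or.inr hc'
    · rw [add_zero]; exact Or.inr hc
    · exact Or.inr (hc.add hc')
  smul_mem' := by
    rintro a c (rfl | hc)
    · exact Or.inl (smul_zero _)
    · refine Or.inr ?_
      exact hc.comp (DistribSMul.toAddMonoidHom V a) (fun σ v => by
        show a • (ρ σ v) = ρ σ (a • v)
        rw [map_smul])

variable {p}

theorem mem_flatSub {ρ : Gal → Module.End k V} {c : Gal → Module.End k V} :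
    c ∈ flatSub p ρ ↔ c = 0 ∨ FlatCoc p (fun σ => ⇑(ρ σ)) (fun σ => ⇑(c σ)) := Iff.rfl

/-- Flat cocycles lie in `flatSub`. -/
theorem mem_flatSub_of_flatCoc {ρ : Gal → Module.End k V} {c : Gal → Module.End k V}
    (h : FlatCoc p (fun σ => ⇑(ρ σ)) (fun σ => ⇑(c σ))) : c ∈ flatSub p ρ := Or.inr h

/-- If the base module has a function model, `flatSub` is exactly the set of flat cocycles. -/
theorem mem_flatSub_iff {ρ : Gal → Module.End k V} (h : HasFunModel p V (fun σ => ⇑(ρ σ)))
    {c : Gal → Module.End k V} :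
    c ∈ flatSub p ρ ↔ FlatCoc p (fun σ => ⇑(ρ σ)) (fun σ => ⇑(c σ)) := by
  refine ⟨?_, Or.inr⟩
  rintro (rfl | hc)
  · exact flatCoc_zero h
  · exact hc

/-- Coboundaries lie in `flatSub` when the base module has a function model:
`σ ↦ ρ σ ∘ T ∘ ρ σ⁻¹ - T`. -/
theorem cob_mem_flatSub {ρ : Gal →* Module.End k V} (h : HasFunModel p V (fun σ => ⇑(ρ σ)))
    (T : Module.End k V) :
    (fun σ : Gal => ρ σ * T * ρ σ⁻¹ - T) ∈ flatSub p (fun σ => ρ σ) := by
  refine Or.inr (flatCoc_cob h T.toAddMonoidHom ?_)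
  intro σ y
  show (ρ σ * T * ρ σ⁻¹ - T) (ρ σ y) = ρ σ (T y) - T (ρ σ y)
  have h1 : ρ σ⁻¹ (ρ σ y) = y := by
    rw [← Module.End.mul_apply, ← map_mul, inv_mul_cancel, map_one, Module.End.one_apply]
  rw [LinearMap.sub_apply, Module.End.mul_apply, Module.End.mul_apply, h1]

/-- Every element of `flatSub` is a cocycle for the adjoint action (for a multiplicative `ρ`). -/
theorem cocycle_of_mem_flatSub {ρ : Gal →* Module.End k V} {c : Gal → Module.End k V}
    (hc : c ∈ flatSub p (fun σ => ρ σ)) (σ τ : Gal) :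
    c (σ * τ) = c σ + ρ σ * c τ * ρ σ⁻¹ := by
  rcases hc with rfl | hc
  · simp
  · apply LinearMap.ext
    intro v
    have hinv : ∀ (g : Gal) (w : V), ρ g (ρ g⁻¹ w) = w := by
      intro g w
      rw [← Module.End.mul_apply, ← map_mul, mul_inv_cancel, map_one, Module.End.one_apply]
    have h1 := hc.cocycle σ τ (ρ (σ * τ)⁻¹ v)
    have h2 : ρ τ (ρ (σ * τ)⁻¹ v) = ρ σ⁻¹ v := by
      rw [mul_inv_rev, map_mul, Module.End.mul_apply, hinv]
    simp only at h1
    rw [hinv, h2, hinv] at h1
    rw [h1, LinearMap.add_apply, Module.End.mul_apply, Module.End.mul_apply]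

/-- The submodule `B¹ + (flat cocycles)`: coboundaries `σ ↦ ρ σ ∘ T ∘ ρ σ⁻¹ - T` together with
the flat cocycles.  It always contains the coboundaries and consists of cocycles; when the base
module has a function model it is exactly the set of flat cocycles. -/
def flatSubB (p : ℕ) [Fact p.Prime] {k : Type} [CommRing k] {V : Type} [AddCommGroup V]
    [Module k V] (ρ : Gal →* Module.End k V) : Submodule k (Gal → Module.End k V) where
  carrier := {c | (∃ T : Module.End k V, ∀ σ, c σ = ρ σ * T * ρ σ⁻¹ - T) ∨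
    FlatCoc p (fun σ => ⇑(ρ σ)) (fun σ => ⇑(c σ))}
  zero_mem' := Or.inl ⟨0, fun σ => by simp⟩
  add_mem' := by
    have key : ∀ (c : Gal → Module.End k V) (T : Module.End k V) (σ : Gal) (y : V),
        (c σ = ρ σ * T * ρ σ⁻¹ - T) → c σ (ρ σ y) = ρ σ (T y) - T (ρ σ y) := by
      intro c T σ y h
      have h1 : ρ σ⁻¹ (ρ σ y) = y := by
        rw [← Module.End.mul_apply, ← map_mul, inv_mul_cancel, map_one, Module.End.one_apply]
      rw [h, LinearMap.sub_apply, Module.End.mul_apply, Module.End.mul_apply, h1]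
    rintro c c' (⟨T, hT⟩ | hc) (⟨T', hT'⟩ | hc')
    · refine Or.inl ⟨T + T', fun σ => ?_⟩
      rw [Pi.add_apply, hT, hT', mul_add, add_mul]
      abel
    · refine Or.inr ?_
      have h1 := hc'.add_cob (d := fun σ => ⇑(c σ)) T.toAddMonoidHom
        (fun σ y => key c T σ y (hT σ))
      rw [add_comm]
      exact h1
    · exact Or.inr (hc.add_cob (d := fun σ => ⇑(c' σ)) T'.toAddMonoidHom
        (fun σ y => key c' T' σ y (hT' σ)))
    · exact Or.inr (hc.add hc')
  smul_mem' := by
    rintro a c (⟨T, hT⟩ | hc)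
    · refine Or.inl ⟨a • T, fun σ => ?_⟩
      rw [Pi.smul_apply, hT, smul_sub, mul_smul_comm, smul_mul_assoc]
    · refine Or.inr ?_
      exact hc.comp (DistribSMul.toAddMonoidHom V a) (fun σ v => by
        show a • (ρ σ v) = ρ σ (a • v)
        rw [map_smul])

theorem mem_flatSubB {ρ : Gal →* Module.End k V} {c : Gal → Module.End k V} :
    c ∈ flatSubB p ρ ↔ (∃ T : Module.End k V, ∀ σ, c σ = ρ σ * T * ρ σ⁻¹ - T) ∨
      FlatCoc p (fun σ => ⇑(ρ σ)) (fun σ => ⇑(c σ)) := Iff.rfl

/-- Flat cocycles lie in `flatSubB`. -/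
theorem mem_flatSubB_of_flatCoc {ρ : Gal →* Module.End k V} {c : Gal → Module.End k V}
    (h : FlatCoc p (fun σ => ⇑(ρ σ)) (fun σ => ⇑(c σ))) : c ∈ flatSubB p ρ := Or.inr h

/-- Coboundaries lie in `flatSubB`. -/
theorem cob_mem_flatSubB (ρ : Gal →* Module.End k V) (T : Module.End k V) :
    (fun σ : Gal => ρ σ * T * ρ σ⁻¹ - T) ∈ flatSubB p ρ := Or.inl ⟨T, fun _ => rfl⟩

/-- If the base module has a function model, `flatSubB` is exactly the set of flat cocycles. -/
theorem mem_flatSubB_iff {ρ : Gal →* Module.End k V} (h : HasFunModel p V (fun σ => ⇑(ρ σ)))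
    {c : Gal → Module.End k V} :
    c ∈ flatSubB p ρ ↔ FlatCoc p (fun σ => ⇑(ρ σ)) (fun σ => ⇑(c σ)) := by
  refine ⟨?_, Or.inr⟩
  rintro (⟨T, hT⟩ | hc)
  · refine flatCoc_cob h T.toAddMonoidHom ?_
    intro σ y
    show c σ (ρ σ y) = ρ σ (T y) - T (ρ σ y)
    have h1 : ρ σ⁻¹ (ρ σ y) = y := by
      rw [← Module.End.mul_apply, ← map_mul, inv_mul_cancel, map_one, Module.End.one_apply]
    rw [hT, LinearMap.sub_apply, Module.End.mul_apply, Module.End.mul_apply, h1]
  · exact hc

/-- Every element of `flatSubB` is a cocycle for the adjoint action. -/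
theorem cocycle_of_mem_flatSubB {ρ : Gal →* Module.End k V} {c : Gal → Module.End k V}
    (hc : c ∈ flatSubB p ρ) (σ τ : Gal) :
    c (σ * τ) = c σ + ρ σ * c τ * ρ σ⁻¹ := by
  rcases hc with ⟨T, hT⟩ | hc
  · rw [hT, hT, hT, mul_inv_rev, map_mul, map_mul]
    simp only [mul_sub, sub_mul, mul_assoc]
    abel
  · exact cocycle_of_mem_flatSub (Or.inr hc) σ τ

/-- Every element of `flatSubB` has finite level, provided `ρ` has: there is a finite extension
`L` of `ℚ` such that `ρ σ = 1` and `c σ = 0` for every `σ` fixing `L`. -/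
theorem exists_level_of_mem_flatSubB {ρ : Gal →* Module.End k V}
    (hρ : ∃ L : IntermediateField ℚ Qb, FiniteDimensional ℚ L ∧
      ∀ σ : Gal, (∀ x ∈ L, σ x = x) → ρ σ = 1)
    {c : Gal → Module.End k V} (hc : c ∈ flatSubB p ρ) :
    ∃ L : IntermediateField ℚ Qb, FiniteDimensional ℚ L ∧
      ∀ σ : Gal, (∀ x ∈ L, σ x = x) → ρ σ = 1 ∧ c σ = 0 := by
  rcases hc with ⟨T, hT⟩ | hc
  · obtain ⟨L, hL, h⟩ := hρ
    refine ⟨L, hL, fun σ hσ => ⟨h σ hσ, ?_⟩⟩
    have h1 : ρ σ⁻¹ = 1 := by
      have h2 : ρ σ⁻¹ * ρ σ = 1 := by rw [← map_mul, inv_mul_cancel, map_one]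
      rw [h σ hσ, mul_one] at h2
      exact h2
    rw [hT, h σ hσ, h1, one_mul, mul_one, sub_self]
  · obtain ⟨L, hL, h⟩ := hc.exists_level
    refine ⟨L, hL, fun σ hσ => ⟨?_, ?_⟩⟩
    · exact LinearMap.ext fun y => (h σ hσ).1 y
    · exact LinearMap.ext fun y => (h σ hσ).2 y

end Sub

/-! ## From counts to dimensions -/

section Count

/-- If every finitely generated subspace of `W` has dimension at most `n`, then `W` is
finite-dimensional of dimension at most `n`. -/
theorem finite_and_finrank_le_of_forall_fg {K W : Type*} [Field K] [AddCommGroup W] [Module K W]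
    (n : ℕ)
    (h : ∀ U : Submodule K W, Module.Finite K U → Module.finrank K U ≤ n) :
    Module.Finite K W ∧ Module.finrank K W ≤ n := by
  have hrank : Module.rank K W ≤ n := by
    refine rank_le fun s hs => ?_
    have h1 := h (Submodule.span K (s : Set W)) (Module.Finite.span_of_finite K s.finite_toSet)
    have h2 : Module.finrank K (Submodule.span K (s : Set W)) = s.card := by
      have h3 := finrank_span_set_eq_card (R := K) (s := (s : Set W)) hs
      rw [h3]
      simp
    omega
  have hfin : Module.Finite K W :=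
    Module.rank_lt_aleph0_iff.mp (lt_of_le_of_lt hrank (Cardinal.natCast_lt_aleph0))
  refine ⟨hfin, ?_⟩
  have := Module.finrank_le_of_rank_le (n := n) hrank
  exact this

/-- **Counts give dimensions.**  Over a finite field `K`: if every finite subspace of `W` has at
most `(#K) ^ n` elements, then `W` is finite-dimensional of dimension at most `n`. -/
theorem finite_and_finrank_le_of_card_le {K W : Type*} [Field K] [Finite K] [AddCommGroup W]
    [Module K W] (n : ℕ)
    (h : ∀ U : Submodule K W, Finite U → Nat.card U ≤ Nat.card K ^ n) :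
    Module.Finite K W ∧ Module.finrank K W ≤ n := by
  refine finite_and_finrank_le_of_forall_fg n fun U hU => ?_
  have hfinU : Finite U := Module.finite_of_finite K
  have h1 := h U hfinU
  rw [Module.natCard_eq_pow_finrank (K := K) (V := U)] at h1
  have hK : 1 < Nat.card K := Finite.one_lt_card
  exact (Nat.pow_le_pow_iff_right hK).mp h1

end Count

/-! ## Bridge from the frozen clause -/

section Bridge

variable {p : ℕ} {V : Type} [AddCommGroup V]

/-- **Bridge.**  Let `ρ'` be a representation over a finite local ring `A` which is flat at `p`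
in the frozen sense, and let `e : V × V →+ ρ'.V` be an injective additive map intertwining the
twisted action `twAct ρ c` with `ρ'`.  Then `c` is a flat cocycle for `ρ`.
(For `A = k[ε]`, `ρ' = (1 + ε c) ρ` and `e (x, y) = s y + ε • s x`.) -/
theorem flatCoc_of_isFlatAt {A : Type} [CommRing A] [IsLocalRing A] [Finite A]
    (ρ' : GaloisRepAdic A) (hfl : ρ'.IsFlatAt p) {ρ c : Gal → V → V}
    (e : V × V →+ ρ'.V) (he : Function.Injective e)
    (hact : ∀ σ z, e (twAct ρ c σ z) = ρ'.ρ σ (e z)) : FlatCoc p ρ c := by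
  have h1 := ((isFlatAt_iff p ρ').mp hfl).2 ⊥
    (Finite.of_surjective (Ideal.Quotient.mk (⊥ : Ideal A)) Ideal.Quotient.mk_surjective)
  have h2 := hasFunModel_of_hasFlatModel p h1
  have hbot : (⊥ : Ideal A) • (⊤ : Submodule A ρ'.V) = ⊥ := Submodule.bot_smul _
  let q : ρ'.V →+ ρ'.V ⧸ ((⊥ : Ideal A) • (⊤ : Submodule A ρ'.V)) :=
    (Submodule.mkQ ((⊥ : Ideal A) • (⊤ : Submodule A ρ'.V))).toAddMonoidHom
  have hq : Function.Injective q := by
    intro x y hxy
    have h3 : x - y ∈ (⊥ : Ideal A) • (⊤ : Submodule A ρ'.V) :=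
      (Submodule.Quotient.eq _).mp hxy
    rw [hbot, Submodule.mem_bot, sub_eq_zero] at h3
    exact h3
  refine HasFunModel.of_injective p h2 (q.comp e) (hq.comp he) ?_
  intro σ z
  show q (e (twAct ρ c σ z)) = ρ'.levelAction ⊥ σ (q (e z))
  rw [hact]
  rfl

end Bridge

end Fermat.Agent.S56.helper1624
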