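/-
S56, node FLAT-LINEAR (helper1624), part 2: the adapter to the landed DICT / LOC-CARRIER
vocabulary (`helper6599.LiftCocycle`, `helper6599.stdLift`, `helper6599.ad0`,
`helper6044.decomp / locB1 / locZ1 / locSub`).

* `isFlatAt_stdLift_iff` : `(stdLift c).IsFlatAt p ↔ FlatCoc p ρbar.ρ c.c`;
* `exists_liftCocycle_add / _smul / _add_cob` : the flat lift cocycles are closed under sums,
  `k`-scalars and coboundaries (the "two closure properties");
* `flatZ p ρbar q` : the intrinsic `𝔽_p`-subspace of functions `decomp q → ad0 p ρbar` spanned by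
  the coboundaries and the restrictions of the trace-zero flat lift cocycles, with
  `locB1 ≤ flatZ ≤ locZ1`, `mem_flatZ_iff`, `mem_flatZ_of_stdLift`, closure under `k`-scalars,
  and `resTotal_mem_locSub_flatZ`.
-/
import Mathlib
import Fermat.Agent.S32.helper1304_FlatSubquot
import Fermat.Agent.S56.helper1624_FlatLinear
import Fermat.Agent.S56.helper6599_Ad0
import Fermat.Agent.S56.helper6044_LocCarrier

set_option autoImplicit false

noncomputable section

namespace Fermat.Agent.S56.helper1624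

open Fermat.Agent.S32.helper1304 TensorProduct

local notation "Qb" => AlgebraicClosure ℚ
local notation "Gal" => (AlgebraicClosure ℚ ≃ₐ[ℚ] AlgebraicClosure ℚ)

/-! ## The converse bridge, generic form -/

section Converse

variable {p : ℕ} {V : Type} [AddCommGroup V]

/-- **Converse bridge.**  If `c` is a flat cocycle for `ρ` and `e : V × V →+ ρ'.V` is a
surjective additive map intertwining the twisted action with `ρ'`, then `ρ'` is flat at `p` in
the frozen sense. -/
theorem isFlatAt_of_flatCoc [Fact p.Prime] {A : Type} [CommRing A] [IsLocalRing A] [Finite A]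
    (ρ' : GaloisRepAdic A) {ρ c : Gal → V → V} (h : FlatCoc p ρ c)
    (e : V × V →+ ρ'.V) (he : Function.Surjective e)
    (hact : ∀ σ z, e (twAct ρ c σ z) = ρ'.ρ σ (e z)) : ρ'.IsFlatAt p := by
  refine (isFlatAt_iff p ρ').mpr ⟨?_, fun I _ => ?_⟩
  · exact Finite.of_surjective (IsLocalRing.residue A) Ideal.Quotient.mk_surjective
  · refine hasFlatModel_of_hasFunModel p ?_
    let q : ρ'.V →+ ρ'.V ⧸ (I • (⊤ : Submodule A ρ'.V)) :=
      (Submodule.mkQ (I • (⊤ : Submodule A ρ'.V))).toAddMonoidHom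
    have hq : Function.Surjective q := Submodule.mkQ_surjective _
    refine HasFunModel.of_surjective p h (q.comp e) (hq.comp he) ?_
    intro σ z
    show q (e (twAct ρ c σ z)) = ρ'.levelAction I σ (q (e z))
    rw [hact]
    rfl

end Converse

/-! ## The standard lift -/

section StdLift

variable {p : ℕ} {k : Type} [Field k] {ρbar : ResidualGaloisRep k}

/-- The split map `(x, y) ↦ 1 ⊗ y + ε ⊗ x` from `V × V` to `k[ε] ⊗ V`. -/
def splitHom (ρbar : ResidualGaloisRep k) : ρbar.V × ρbar.V →+ DualNumber k ⊗[k] ρbar.V where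
  toFun z := (1 : DualNumber k) ⊗ₜ[k] z.2 + (DualNumber.eps : DualNumber k) ⊗ₜ[k] z.1
  map_zero' := by simp
  map_add' u w := by
    show (1 : DualNumber k) ⊗ₜ[k] (u.2 + w.2) +
      (DualNumber.eps : DualNumber k) ⊗ₜ[k] (u.1 + w.1) = _
    rw [tmul_add, tmul_add]
    abel

theorem splitHom_apply (ρbar : ResidualGaloisRep k) (z : ρbar.V × ρbar.V) :
    splitHom ρbar z =
      (1 : DualNumber k) ⊗ₜ[k] z.2 + (DualNumber.eps : DualNumber k) ⊗ₜ[k] z.1 := rfl

theorem splitHom_injective (ρbar : ResidualGaloisRep k) :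
    Function.Injective (splitHom ρbar) := by
  intro u w h
  have h1 := congrArg (helper6599.fstC ρbar.V) h
  have h2 := congrArg (helper6599.sndC ρbar.V) h
  simp only [splitHom, AddMonoidHom.coe_mk, ZeroHom.coe_mk, map_add, helper6599.fstC_tmul,
    helper6599.sndC_tmul, TrivSqZeroExt.fst_one, TrivSqZeroExt.snd_one, DualNumber.fst_eps,
    DualNumber.snd_eps, one_smul, zero_smul, add_zero, zero_add] at h1 h2
  exact Prod.ext h2 h1

theorem splitHom_surjective (ρbar : ResidualGaloisRep k) :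
    Function.Surjective (splitHom ρbar) := by
  intro x
  exact ⟨(helper6599.sndC ρbar.V x, helper6599.fstC ρbar.V x),
    (helper6599.eq_one_tmul_add_eps_tmul x).symm⟩

/-- The split map intertwines the twisted action with the standard lift. -/
theorem splitHom_twAct (c : helper6599.LiftCocycle ρbar) (σ : Gal) (z : ρbar.V × ρbar.V) :
    splitHom ρbar (twAct (fun σ => ⇑(ρbar.ρ σ)) (fun σ => ⇑(c.c σ)) σ z) =
      (helper6599.stdLift c).ρ σ (splitHom ρbar z) := by
  show (1 : DualNumber k) ⊗ₜ[k] (ρbar.ρ σ z.2) +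
      (DualNumber.eps : DualNumber k) ⊗ₜ[k] (ρbar.ρ σ z.1 + c.c σ (ρbar.ρ σ z.2)) =
    helper6599.dualEnd ρbar (ρbar.ρ σ) (c.b σ)
      ((1 : DualNumber k) ⊗ₜ[k] z.2 + (DualNumber.eps : DualNumber k) ⊗ₜ[k] z.1)
  rw [map_add, helper6599.dualEnd_tmul, helper6599.dualEnd_tmul, mul_one,
    helper6599.eps_mul_eps, zero_tmul, add_zero, tmul_add]
  show _ = _ + (DualNumber.eps : DualNumber k) ⊗ₜ[k] (c.c σ (ρbar.ρ σ z.2)) + _
  abel

omit [Field k] in
theorem finite_dualNumber [Finite k] : Finite (DualNumber k) :=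
  inferInstanceAs (Finite (k × k))

/-- **Bridge, DICT shape.**  If the standard lift of `c` is flat at `p` (frozen clause), then
`c` is a flat cocycle. -/
theorem flatCoc_of_stdLift [Finite k] (c : helper6599.LiftCocycle ρbar)
    (hfl : (helper6599.stdLift c).IsFlatAt p) :
    FlatCoc p (fun σ => ⇑(ρbar.ρ σ)) (fun σ => ⇑(c.c σ)) := by
  have : Finite (DualNumber k) := finite_dualNumber
  exact flatCoc_of_isFlatAt (helper6599.stdLift c) hfl (splitHom ρbar) (splitHom_injective ρbar)
    (splitHom_twAct c)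

/-- **The standard lift is flat iff its cocycle is a flat cocycle.** -/
theorem isFlatAt_stdLift_iff [Fact p.Prime] [Finite k] (c : helper6599.LiftCocycle ρbar) :
    (helper6599.stdLift c).IsFlatAt p ↔
      FlatCoc p (fun σ => ⇑(ρbar.ρ σ)) (fun σ => ⇑(c.c σ)) := by
  have : Finite (DualNumber k) := finite_dualNumber
  exact ⟨flatCoc_of_stdLift c, fun h =>
    isFlatAt_of_flatCoc (helper6599.stdLift c) h (splitHom ρbar) (splitHom_surjective ρbar)
      (splitHom_twAct c)⟩

/-- A flat cocycle function is a lift cocycle (cocycle identity and finite level are automatic). -/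
def liftCocycleOfFlat [Fact p.Prime] (c : Gal → Module.End k ρbar.V)
    (h : FlatCoc p (fun σ => ⇑(ρbar.ρ σ)) (fun σ => ⇑(c σ))) : helper6599.LiftCocycle ρbar where
  c := c
  map_mul' := cocycle_of_mem_flatSub (ρ := ρbar.ρ) (Or.inr h)
  level' := by
    obtain ⟨L, hL, hlev⟩ := h.exists_level
    exact ⟨L, hL, fun σ hσ => LinearMap.ext fun y => (hlev σ hσ).2 y⟩

@[simp] theorem liftCocycleOfFlat_c [Fact p.Prime] (c : Gal → Module.End k ρbar.V)
    (h : FlatCoc p (fun σ => ⇑(ρbar.ρ σ)) (fun σ => ⇑(c σ))) :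
    (liftCocycleOfFlat c h).c = c := rfl

theorem isFlatAt_stdLift_liftCocycleOfFlat [Fact p.Prime] [Finite k]
    (c : Gal → Module.End k ρbar.V)
    (h : FlatCoc p (fun σ => ⇑(ρbar.ρ σ)) (fun σ => ⇑(c σ))) :
    (helper6599.stdLift (liftCocycleOfFlat c h)).IsFlatAt p :=
  (isFlatAt_stdLift_iff _).mpr h

/-- **Closure under sums** (Baer sum), DICT vocabulary. -/
theorem exists_liftCocycle_add [Fact p.Prime] [Finite k] (c c' : helper6599.LiftCocycle ρbar)
    (h : (helper6599.stdLift c).IsFlatAt p) (h' : (helper6599.stdLift c').IsFlatAt p) :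
    ∃ c'' : helper6599.LiftCocycle ρbar, (∀ g, c''.c g = c.c g + c'.c g) ∧
      (helper6599.stdLift c'').IsFlatAt p := by
  have h1 := ((isFlatAt_stdLift_iff c).mp h).add ((isFlatAt_stdLift_iff c').mp h')
  exact ⟨liftCocycleOfFlat (fun g => c.c g + c'.c g) h1, fun _ => rfl,
    isFlatAt_stdLift_liftCocycleOfFlat _ h1⟩

/-- **Closure under `k`-scalars**, DICT vocabulary. -/
theorem exists_liftCocycle_smul [Fact p.Prime] [Finite k] (a : k)
    (c : helper6599.LiftCocycle ρbar) (h : (helper6599.stdLift c).IsFlatAt p) :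
    ∃ c'' : helper6599.LiftCocycle ρbar, (∀ g, c''.c g = a • c.c g) ∧
      (helper6599.stdLift c'').IsFlatAt p := by
  have h1 := ((isFlatAt_stdLift_iff c).mp h).comp (DistribSMul.toAddMonoidHom ρbar.V a)
    (fun σ v => by
      show a • (ρbar.ρ σ v) = ρbar.ρ σ (a • v)
      rw [map_smul])
  exact ⟨liftCocycleOfFlat (fun g => a • c.c g) h1, fun _ => rfl,
    isFlatAt_stdLift_liftCocycleOfFlat _ h1⟩

/-- **Closure under coboundaries**, DICT vocabulary. -/
theorem exists_liftCocycle_add_cob [Fact p.Prime] [Finite k] (c : helper6599.LiftCocycle ρbar)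
    (h : (helper6599.stdLift c).IsFlatAt p) (T : Module.End k ρbar.V) :
    ∃ c'' : helper6599.LiftCocycle ρbar,
      (∀ g, c''.c g = c.c g + (ρbar.ρ g * T * ρbar.ρ g⁻¹ - T)) ∧
      (helper6599.stdLift c'').IsFlatAt p := by
  have h1 := ((isFlatAt_stdLift_iff c).mp h).add_cob
    (d := fun σ => ⇑(ρbar.ρ σ * T * ρbar.ρ σ⁻¹ - T)) T.toAddMonoidHom (fun σ y => by
      show (ρbar.ρ σ * T * ρbar.ρ σ⁻¹ - T) (ρbar.ρ σ y) = ρbar.ρ σ (T y) - T (ρbar.ρ σ y)
      have h2 : ρbar.ρ σ⁻¹ (ρbar.ρ σ y) = y := by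
        rw [← Module.End.mul_apply, ← map_mul, inv_mul_cancel, map_one, Module.End.one_apply]
      rw [LinearMap.sub_apply, Module.End.mul_apply, Module.End.mul_apply, h2])
  exact ⟨liftCocycleOfFlat (fun g => c.c g + (ρbar.ρ g * T * ρbar.ρ g⁻¹ - T)) h1, fun _ => rfl,
    isFlatAt_stdLift_liftCocycleOfFlat _ h1⟩

end StdLift

/-! ## The intrinsic flat subspace of `End`-valued functions on a subgroup (`k`-linear form) -/

section CarrierK

variable (p : ℕ) [Fact p.Prime] {k : Type} [Field k] (ρbar : ResidualGaloisRep k)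
  (D : Subgroup Gal)

/-- The `k`-subspace of functions `D → End_k V` consisting of the restrictions to `D` of the
trace-zero-valued elements of `flatSubB` (coboundaries and flat cocycles on `G_ℚ`). -/
def flatZk : Submodule k (↥D → Module.End k ρbar.V) where
  carrier := {z | ∃ c ∈ flatSubB p ρbar.ρ, (∀ g, LinearMap.trace k ρbar.V (c g) = 0) ∧
    ∀ d : ↥D, z d = c (d : Gal)}
  zero_mem' := ⟨0, zero_mem _, fun _ => by simp, fun _ => rfl⟩
  add_mem' := by
    rintro z z' ⟨c, hc, htr, hres⟩ ⟨c', hc', htr', hres'⟩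
    refine ⟨c + c', add_mem hc hc', fun g => ?_, fun d => ?_⟩
    · rw [Pi.add_apply, map_add, htr, htr', add_zero]
    · rw [Pi.add_apply, Pi.add_apply, hres, hres']
  smul_mem' := by
    rintro a z ⟨c, hc, htr, hres⟩
    refine ⟨a • c, Submodule.smul_mem _ a hc, fun g => ?_, fun d => ?_⟩
    · rw [Pi.smul_apply, map_smul, htr, smul_zero]
    · rw [Pi.smul_apply, Pi.smul_apply, hres]

variable {p ρbar D}

theorem mem_flatZk {z : ↥D → Module.End k ρbar.V} :
    z ∈ flatZk p ρbar D ↔ ∃ c ∈ flatSubB p ρbar.ρ, (∀ g, LinearMap.trace k ρbar.V (c g) = 0) ∧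
      ∀ d : ↥D, z d = c (d : Gal) := Iff.rfl

/-- Coboundaries (of arbitrary endomorphisms) lie in `flatZk`. -/
theorem cob_mem_flatZk (T : Module.End k ρbar.V) :
    (fun d : ↥D => ρbar.ρ (d : Gal) * T * ρbar.ρ (d : Gal)⁻¹ - T) ∈ flatZk p ρbar D :=
  ⟨fun σ => ρbar.ρ σ * T * ρbar.ρ σ⁻¹ - T, cob_mem_flatSubB ρbar.ρ T,
    fun g => by rw [map_sub, helper6599.trace_conj, sub_self], fun _ => rfl⟩

/-- Elements of `flatZk` have trace-zero values. -/
theorem trace_of_mem_flatZk {z : ↥D → Module.End k ρbar.V} (hz : z ∈ flatZk p ρbar D) (d : ↥D) :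
    LinearMap.trace k ρbar.V (z d) = 0 := by
  obtain ⟨c, -, htr, hres⟩ := hz
  rw [hres, htr]

/-- Elements of `flatZk` are cocycles for the adjoint action. -/
theorem cocycle_of_mem_flatZk {z : ↥D → Module.End k ρbar.V} (hz : z ∈ flatZk p ρbar D)
    (g h : ↥D) : z (g * h) = z g + ρbar.ρ (g : Gal) * z h * ρbar.ρ (g : Gal)⁻¹ := by
  obtain ⟨c, hc, -, hres⟩ := hz
  rw [hres, hres, hres]
  exact cocycle_of_mem_flatSubB hc (g : Gal) (h : Gal)

/-- Elements of `flatZk` have finite level. -/
theorem exists_level_of_mem_flatZk {z : ↥D → Module.End k ρbar.V} (hz : z ∈ flatZk p ρbar D) :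
    ∃ L : IntermediateField ℚ Qb, FiniteDimensional ℚ L ∧
      ∀ s : ↥D, (∀ x ∈ L, (s : Gal) x = x) →
        ρbar.ρ (s : Gal) = 1 ∧ z s = 0 ∧ ∀ g : ↥D, z (g * s) = z g := by
  obtain ⟨c, hc, -, hres⟩ := hz
  obtain ⟨L, hL, hlev⟩ := exists_level_of_mem_flatSubB ρbar.factorsThroughFiniteLevel hc
  refine ⟨L, hL, fun s hs => ⟨(hlev (s : Gal) hs).1, ?_, fun g => ?_⟩⟩
  · rw [hres, (hlev (s : Gal) hs).2]
  · rw [hres, hres]
    show c ((g : Gal) * (s : Gal)) = c (g : Gal)
    rw [cocycle_of_mem_flatSubB hc, (hlev (s : Gal) hs).2, mul_zero, zero_mul, add_zero]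

/-- The restriction to `D` of the cocycle of a trace-zero flat standard lift lies in `flatZk`. -/
theorem mem_flatZk_of_stdLift [Finite k] (c : helper6599.LiftCocycle ρbar)
    (htr : ∀ g, LinearMap.trace k ρbar.V (c.c g) = 0)
    (hfl : (helper6599.stdLift c).IsFlatAt p) :
    (fun d : ↥D => c.c (d : Gal)) ∈ flatZk p ρbar D :=
  ⟨c.c, Or.inr (flatCoc_of_stdLift c hfl), htr, fun _ => rfl⟩

/-- Membership in `flatZk`, DICT vocabulary: the restriction of a coboundary, or the restriction
of the cocycle of a trace-zero flat standard lift.  (So every per-lift statement about flat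
standard lifts applies to every non-coboundary element of `flatZk`.) -/
theorem mem_flatZk_iff [Finite k] {z : ↥D → Module.End k ρbar.V} :
    z ∈ flatZk p ρbar D ↔
      (∃ T : Module.End k ρbar.V, ∀ d : ↥D, z d = ρbar.ρ (d : Gal) * T * ρbar.ρ (d : Gal)⁻¹ - T) ∨
      ∃ c : helper6599.LiftCocycle ρbar, (helper6599.stdLift c).IsFlatAt p ∧
        (∀ g, LinearMap.trace k ρbar.V (c.c g) = 0) ∧ ∀ d : ↥D, z d = c.c (d : Gal) := by
  constructor
  · rintro ⟨c, hc, htr, hres⟩
    rcases hc with ⟨T, hT⟩ | hc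
    · exact Or.inl ⟨T, fun d => by rw [hres, hT]⟩
    · exact Or.inr ⟨liftCocycleOfFlat c hc, isFlatAt_stdLift_liftCocycleOfFlat c hc, htr, hres⟩
  · rintro (⟨T, hT⟩ | ⟨c, hc, htr, hres⟩)
    · have h1 := cob_mem_flatZk (p := p) (ρbar := ρbar) (D := D) T
      have h2 : z = fun d : ↥D => ρbar.ρ (d : Gal) * T * ρbar.ρ (d : Gal)⁻¹ - T := funext hT
      rw [h2]
      exact h1
    · have h1 := mem_flatZk_of_stdLift (D := D) c htr hc
      have h2 : z = fun d : ↥D => c.c (d : Gal) := funext hres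
      rw [h2]
      exact h1

end CarrierK

/-! ## Matrix form (for the reducible end-game carriers) -/

section Mat

variable (p : ℕ) [Fact p.Prime] {k : Type} [Field k] (ρbar : ResidualGaloisRep k)
  (D : Subgroup Gal) (b : Module.Basis (Fin 2) k ρbar.V)

/-- `flatZk` in matrix coordinates with respect to a basis `b` of `ρbar.V`: the `k`-subspace of
functions `D → M₂(k)` whose associated `End`-valued function lies in `flatZk`. -/
def flatZmat : Submodule k (↥D → Matrix (Fin 2) (Fin 2) k) :=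
  (flatZk p ρbar D).comap
    ((LinearMap.pi fun d : ↥D =>
      (Matrix.toLin b b).toLinearMap ∘ₗ LinearMap.proj d :
        (↥D → Matrix (Fin 2) (Fin 2) k) →ₗ[k] (↥D → Module.End k ρbar.V)))

variable {p ρbar D b}

theorem mem_flatZmat {z : ↥D → Matrix (Fin 2) (Fin 2) k} :
    z ∈ flatZmat p ρbar D b ↔ (fun d => Matrix.toLin b b (z d)) ∈ flatZk p ρbar D := Iff.rfl

/-- Coboundaries lie in `flatZmat`. -/
theorem cob_mem_flatZmat (X : Matrix (Fin 2) (Fin 2) k) :
    (fun d : ↥D => LinearMap.toMatrix b b (ρbar.ρ (d : Gal)) * X *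
      LinearMap.toMatrix b b (ρbar.ρ (d : Gal)⁻¹) - X) ∈ flatZmat p ρbar D b := by
  rw [mem_flatZmat]
  have h1 := cob_mem_flatZk (p := p) (ρbar := ρbar) (D := D) (Matrix.toLin b b X)
  have h2 : (fun d : ↥D => Matrix.toLin b b (LinearMap.toMatrix b b (ρbar.ρ (d : Gal)) * X *
      LinearMap.toMatrix b b (ρbar.ρ (d : Gal)⁻¹) - X)) =
      fun d : ↥D => ρbar.ρ (d : Gal) * Matrix.toLin b b X * ρbar.ρ (d : Gal)⁻¹ -
        Matrix.toLin b b X := by
    funext d
    rw [map_sub, Matrix.toLin_mul b b b, Matrix.toLin_mul b b b, Matrix.toLin_toMatrix,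
      Matrix.toLin_toMatrix]
    rfl
  rw [h2]
  exact h1

/-- The matrix of the restriction to `D` of the cocycle of a trace-zero flat standard lift lies
in `flatZmat`. -/
theorem mem_flatZmat_of_stdLift [Finite k] (c : helper6599.LiftCocycle ρbar)
    (htr : ∀ g, LinearMap.trace k ρbar.V (c.c g) = 0)
    (hfl : (helper6599.stdLift c).IsFlatAt p) :
    (fun d : ↥D => LinearMap.toMatrix b b (c.c (d : Gal))) ∈ flatZmat p ρbar D b := by
  rw [mem_flatZmat]
  have h1 := mem_flatZk_of_stdLift (D := D) c htr hfl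
  have h2 : (fun d : ↥D => Matrix.toLin b b (LinearMap.toMatrix b b (c.c (d : Gal)))) =
      fun d : ↥D => c.c (d : Gal) := by
    funext d
    rw [Matrix.toLin_toMatrix]
  rw [h2]
  exact h1

/-- Membership in `flatZmat`: a matrix coboundary, or the matrix of the restriction of the
cocycle of a trace-zero flat standard lift. -/
theorem mem_flatZmat_iff [Finite k] {z : ↥D → Matrix (Fin 2) (Fin 2) k} :
    z ∈ flatZmat p ρbar D b ↔
      (∃ X : Matrix (Fin 2) (Fin 2) k, ∀ d : ↥D,
        z d = LinearMap.toMatrix b b (ρbar.ρ (d : Gal)) * X *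
          LinearMap.toMatrix b b (ρbar.ρ (d : Gal)⁻¹) - X) ∨
      ∃ c : helper6599.LiftCocycle ρbar, (helper6599.stdLift c).IsFlatAt p ∧
        (∀ g, LinearMap.trace k ρbar.V (c.c g) = 0) ∧
        ∀ d : ↥D, z d = LinearMap.toMatrix b b (c.c (d : Gal)) := by
  constructor
  · intro hz
    rcases (mem_flatZk_iff.mp (mem_flatZmat.mp hz)) with ⟨T, hT⟩ | ⟨c, hc, htr, hres⟩
    · refine Or.inl ⟨LinearMap.toMatrix b b T, fun d => ?_⟩
      have h1 := congrArg (LinearMap.toMatrix b b) (hT d)
      rw [LinearMap.toMatrix_toLin] at h1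
      rw [h1, map_sub, LinearMap.toMatrix_mul, LinearMap.toMatrix_mul]
    · refine Or.inr ⟨c, hc, htr, fun d => ?_⟩
      have h1 := congrArg (LinearMap.toMatrix b b) (hres d)
      rw [LinearMap.toMatrix_toLin] at h1
      exact h1
  · rintro (⟨X, hX⟩ | ⟨c, hc, htr, hres⟩)
    · have h1 := cob_mem_flatZmat (p := p) (ρbar := ρbar) (D := D) (b := b) X
      have h2 : z = fun d : ↥D => LinearMap.toMatrix b b (ρbar.ρ (d : Gal)) * X *
          LinearMap.toMatrix b b (ρbar.ρ (d : Gal)⁻¹) - X := funext hX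
      rw [h2]
      exact h1
    · have h1 := mem_flatZmat_of_stdLift (D := D) (b := b) c htr hc
      have h2 : z = fun d : ↥D => LinearMap.toMatrix b b (c.c (d : Gal)) := funext hres
      rw [h2]
      exact h1

/-- Elements of `flatZmat` are cocycles for the adjoint action, in matrices. -/
theorem cocycle_of_mem_flatZmat {z : ↥D → Matrix (Fin 2) (Fin 2) k}
    (hz : z ∈ flatZmat p ρbar D b) (g h : ↥D) :
    z (g * h) = z g + LinearMap.toMatrix b b (ρbar.ρ (g : Gal)) * z h *
      LinearMap.toMatrix b b (ρbar.ρ (g : Gal)⁻¹) := by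
  have h1 := cocycle_of_mem_flatZk (mem_flatZmat.mp hz) g h
  have h2 := congrArg (LinearMap.toMatrix b b) h1
  rw [LinearMap.toMatrix_toLin, map_add, LinearMap.toMatrix_mul, LinearMap.toMatrix_mul,
    LinearMap.toMatrix_toLin, LinearMap.toMatrix_toLin] at h2
  exact h2

/-- Elements of `flatZmat` have trace-zero values. -/
theorem trace_of_mem_flatZmat {z : ↥D → Matrix (Fin 2) (Fin 2) k}
    (hz : z ∈ flatZmat p ρbar D b) (d : ↥D) : (z d).trace = 0 := by
  have h1 := trace_of_mem_flatZk (mem_flatZmat.mp hz) d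
  rw [LinearMap.trace_eq_matrix_trace k b, LinearMap.toMatrix_toLin] at h1
  exact h1

/-- Elements of `flatZmat` have finite level. -/
theorem exists_level_of_mem_flatZmat {z : ↥D → Matrix (Fin 2) (Fin 2) k}
    (hz : z ∈ flatZmat p ρbar D b) :
    ∃ L : IntermediateField ℚ Qb, FiniteDimensional ℚ L ∧
      ∀ s : ↥D, (∀ x ∈ L, (s : Gal) x = x) →
        ρbar.ρ (s : Gal) = 1 ∧ z s = 0 ∧ ∀ g : ↥D, z (g * s) = z g := by
  obtain ⟨L, hL, h⟩ := exists_level_of_mem_flatZk (mem_flatZmat.mp hz)
  refine ⟨L, hL, fun s hs => ⟨(h s hs).1, ?_, fun g => ?_⟩⟩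
  · have h1 := congrArg (LinearMap.toMatrix b b) (h s hs).2.1
    rw [LinearMap.toMatrix_toLin, map_zero] at h1
    exact h1
  · have h1 := congrArg (LinearMap.toMatrix b b) ((h s hs).2.2 g)
    rw [LinearMap.toMatrix_toLin, LinearMap.toMatrix_toLin] at h1
    exact h1

end Mat

/-! ## The intrinsic flat subspace on the decomposition group -/

section Carrier

variable (p : ℕ) [Fact p.Prime] {k : Type} [Field k] [Algebra (ZMod p) k]
  (ρbar : ResidualGaloisRep k) (q : Nat.Primes)

/-- The `𝔽_p`-subspace of functions `decomp q → ad0 ρbar` consisting of the coboundaries and of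
the restrictions to the decomposition group of the flat cocycles `c : G_ℚ → End_k V` with
trace-zero values. -/
def flatZ : Submodule (ZMod p) (↥(helper6044.decomp q) → helper6599.ad0 p ρbar) where
  carrier := {z | z ∈ helper6044.locB1 (helper6599.ad0 p ρbar) q ∨
    ∃ c : Gal → Module.End k ρbar.V,
      FlatCoc p (fun σ => ⇑(ρbar.ρ σ)) (fun σ => ⇑(c σ)) ∧
      (∀ g, LinearMap.trace k ρbar.V (c g) = 0) ∧
      ∀ d : ↥(helper6044.decomp q), helper6599.ad0Val p ρbar (z d) = c (d : Gal)}
  zero_mem' := Or.inl (zero_mem _)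
  add_mem' := by
    have key : ∀ (z z' : ↥(helper6044.decomp q) → helper6599.ad0 p ρbar),
        z ∈ helper6044.locB1 (helper6599.ad0 p ρbar) q →
        (∃ c : Gal → Module.End k ρbar.V,
          FlatCoc p (fun σ => ⇑(ρbar.ρ σ)) (fun σ => ⇑(c σ)) ∧
          (∀ g, LinearMap.trace k ρbar.V (c g) = 0) ∧
          ∀ d : ↥(helper6044.decomp q), helper6599.ad0Val p ρbar (z' d) = c (d : Gal)) →
        ∃ c : Gal → Module.End k ρbar.V,
          FlatCoc p (fun σ => ⇑(ρbar.ρ σ)) (fun σ => ⇑(c σ)) ∧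
          (∀ g, LinearMap.trace k ρbar.V (c g) = 0) ∧
          ∀ d : ↥(helper6044.decomp q), helper6599.ad0Val p ρbar ((z + z') d) = c (d : Gal) := by
      rintro z z' hz ⟨c, hc, htr, hres⟩
      obtain ⟨m, hm⟩ := (helper6044.mem_locB1_iff _ q z).mp hz
      let T : Module.End k ρbar.V := helper6599.ad0Val p ρbar m
      refine ⟨fun g => c g + (ρbar.ρ g * T * ρbar.ρ g⁻¹ - T), ?_, ?_, ?_⟩
      · refine hc.add_cob (d := fun σ => ⇑(ρbar.ρ σ * T * ρbar.ρ σ⁻¹ - T)) T.toAddMonoidHom
          (fun σ y => ?_)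
        show (ρbar.ρ σ * T * ρbar.ρ σ⁻¹ - T) (ρbar.ρ σ y) = ρbar.ρ σ (T y) - T (ρbar.ρ σ y)
        have h2 : ρbar.ρ σ⁻¹ (ρbar.ρ σ y) = y := by
          rw [← Module.End.mul_apply, ← map_mul, inv_mul_cancel, map_one, Module.End.one_apply]
        rw [LinearMap.sub_apply, Module.End.mul_apply, Module.End.mul_apply, h2]
      · intro g
        rw [map_add, map_sub, helper6599.trace_conj, sub_self, add_zero, htr]
      · intro d
        rw [Pi.add_apply, map_add, hres d, hm d, map_sub, helper6599.ad0Val_ρ, add_comm]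
    rintro z z' (hz | hz) (hz' | hz')
    · exact Or.inl (add_mem hz hz')
    · exact Or.inr (key z z' hz hz')
    · refine Or.inr ?_
      rw [add_comm]
      exact key z' z hz' hz
    · obtain ⟨c, hc, htr, hres⟩ := hz
      obtain ⟨c', hc', htr', hres'⟩ := hz'
      refine Or.inr ⟨fun g => c g + c' g, hc.add hc', fun g => ?_, fun d => ?_⟩
      · rw [map_add, htr, htr', add_zero]
      · rw [Pi.add_apply, map_add, hres, hres']
  smul_mem' := by
    rintro a z (hz | ⟨c, hc, htr, hres⟩)
    · exact Or.inl (Submodule.smul_mem _ a hz)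
    · refine Or.inr ⟨fun g => algebraMap (ZMod p) k a • c g, ?_, fun g => ?_, fun d => ?_⟩
      · exact hc.comp (DistribSMul.toAddMonoidHom ρbar.V (algebraMap (ZMod p) k a))
          (fun σ v => by
            show algebraMap (ZMod p) k a • (ρbar.ρ σ v) = ρbar.ρ σ (algebraMap (ZMod p) k a • v)
            rw [map_smul])
      · rw [map_smul, htr, smul_zero]
      · rw [Pi.smul_apply, helper6599.ad0Val_smul, hres]

variable {p ρbar q}

theorem mem_flatZ {z : ↥(helper6044.decomp q) → helper6599.ad0 p ρbar} :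
    z ∈ flatZ p ρbar q ↔ z ∈ helper6044.locB1 (helper6599.ad0 p ρbar) q ∨
      ∃ c : Gal → Module.End k ρbar.V,
        FlatCoc p (fun σ => ⇑(ρbar.ρ σ)) (fun σ => ⇑(c σ)) ∧
        (∀ g, LinearMap.trace k ρbar.V (c g) = 0) ∧
        ∀ d : ↥(helper6044.decomp q), helper6599.ad0Val p ρbar (z d) = c (d : Gal) := Iff.rfl

/-- Membership in `flatZ`, DICT vocabulary: a coboundary, or the restriction of the cocycle of a
trace-zero flat standard lift. -/
theorem mem_flatZ_iff [Finite k] {z : ↥(helper6044.decomp q) → helper6599.ad0 p ρbar} :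
    z ∈ flatZ p ρbar q ↔ z ∈ helper6044.locB1 (helper6599.ad0 p ρbar) q ∨
      ∃ c : helper6599.LiftCocycle ρbar, (helper6599.stdLift c).IsFlatAt p ∧
        (∀ g, LinearMap.trace k ρbar.V (c.c g) = 0) ∧
        ∀ d : ↥(helper6044.decomp q), helper6599.ad0Val p ρbar (z d) = c.c (d : Gal) := by
  rw [mem_flatZ]
  refine or_congr Iff.rfl ⟨?_, ?_⟩
  · rintro ⟨c, hc, htr, hres⟩
    exact ⟨liftCocycleOfFlat c hc, isFlatAt_stdLift_liftCocycleOfFlat c hc, htr, hres⟩
  · rintro ⟨c, hc, htr, hres⟩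
    exact ⟨c.c, (isFlatAt_stdLift_iff c).mp hc, htr, hres⟩

variable (p ρbar q)

/-- Coboundaries lie in `flatZ`. -/
theorem locB1_le_flatZ : helper6044.locB1 (helper6599.ad0 p ρbar) q ≤ flatZ p ρbar q :=
  fun _ hz => Or.inl hz

/-- `flatZ` consists of level cocycles on the decomposition group. -/
theorem flatZ_le_locZ1 : flatZ p ρbar q ≤ helper6044.locZ1 (helper6599.ad0 p ρbar) q := by
  rintro z (hz | ⟨c, hc, htr, hres⟩)
  · have hsm : helper6044.IsSmoothRep (helper6599.ad0 p ρbar) := by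
      intro m
      obtain ⟨F, hF, h⟩ := helper6599.ad0_smooth p ρbar m
      exact ⟨F, hF, h⟩
    exact helper6044.locB1_le_locZ1 q hsm hz
  · have hcoc := cocycle_of_mem_flatSub (ρ := ρbar.ρ) (c := c) (Or.inr hc)
    refine (helper6044.mem_locZ1_iff _ q z).mpr ⟨fun g h => ?_, ?_⟩
    · apply helper6599.ad0_ext
      rw [map_add, helper6599.ad0Val_ρ, hres, hres, hres]
      exact hcoc (g : Gal) (h : Gal)
    · obtain ⟨L, hL, hlev⟩ := hc.exists_level
      refine ⟨L, hL, fun g s hs => ?_⟩
      apply helper6599.ad0_ext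
      have hs' : ∀ x ∈ L, (s : Gal) x = x := fun x hx =>
        (IntermediateField.mem_fixingSubgroup_iff L (s : Gal)).mp hs x hx
      have h0 : c (s : Gal) = 0 := LinearMap.ext fun y => (hlev (s : Gal) hs').2 y
      rw [hres, hres]
      show c ((g : Gal) * (s : Gal)) = c (g : Gal)
      rw [hcoc, h0, mul_zero, zero_mul, add_zero]

/-- **Membership for DICT**: the restriction to the decomposition group of the cocycle of a
trace-zero flat standard lift lies in `flatZ`. -/
theorem mem_flatZ_of_stdLift [Finite k] (c : helper6599.LiftCocycle ρbar)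
    (htr : ∀ g, LinearMap.trace k ρbar.V (c.c g) = 0)
    (hfl : (helper6599.stdLift c).IsFlatAt p) :
    (fun d : ↥(helper6044.decomp q) => (c.toCocycle p htr : Gal → helper6599.ad0 p ρbar) (d : Gal))
      ∈ flatZ p ρbar q :=
  Or.inr ⟨c.c, flatCoc_of_stdLift c hfl, htr, fun _ => rfl⟩

/-- `flatZ` is stable under the `k`-scalars (it is a `k`-subspace of trace-zero-valued
functions). -/
theorem smul_mem_flatZ (a : k) {z : ↥(helper6044.decomp q) → helper6599.ad0 p ρbar}
    (hz : z ∈ flatZ p ρbar q) :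
    (fun d => helper6599.ad0Mk p ρbar (a • helper6599.ad0Val p ρbar (z d))
      (by rw [map_smul, helper6599.trace_ad0Val, smul_zero])) ∈ flatZ p ρbar q := by
  rcases hz with hz | ⟨c, hc, htr, hres⟩
  · obtain ⟨m, hm⟩ := (helper6044.mem_locB1_iff _ q z).mp hz
    refine Or.inl ((helper6044.mem_locB1_iff _ q _).mpr
      ⟨helper6599.ad0Mk p ρbar (a • helper6599.ad0Val p ρbar m)
        (by rw [map_smul, helper6599.trace_ad0Val, smul_zero]), fun g => ?_⟩)
    apply helper6599.ad0_ext
    rw [helper6599.ad0Val_ad0Mk, hm g, map_sub, map_sub, helper6599.ad0Val_ρ,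
      helper6599.ad0Val_ρ, helper6599.ad0Val_ad0Mk, smul_sub, mul_smul_comm, smul_mul_assoc]
  · refine Or.inr ⟨fun g => a • c g, ?_, fun g => ?_, fun d => ?_⟩
    · exact hc.comp (DistribSMul.toAddMonoidHom ρbar.V a) (fun σ v => by
        show a • (ρbar.ρ σ v) = ρbar.ρ σ (a • v)
        rw [map_smul])
    · rw [map_smul, htr, smul_zero]
    · rw [helper6599.ad0Val_ad0Mk, hres]

/-- **The local class of a flat lift lies in `locSub flatZ`** (the shape consumed by the
dictionary (D3): `hloc` at the prime `q`). -/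
theorem resTotal_mem_locSub_flatZ [Finite k] (S : Finset Nat.Primes) (q : ↥S)
    (c : helper6599.LiftCocycle ρbar)
    (htr : ∀ g, LinearMap.trace k ρbar.V (c.c g) = 0)
    (hur : ∀ l : Nat.Primes, l ∉ S → (helper6599.stdLift c).IsUnramifiedAt l)
    (hfl : (helper6599.stdLift c).IsFlatAt p) :
    Fermat.Agent.S55.helper15.resTotal S (helper6599.ad0 p ρbar)
        (Fermat.Agent.S55.helper7860.toContinuousH1S S (helper6599.ad0 p ρbar)
          (c.toLevelCocycle p htr S hur)) q ∈
      helper6044.locSub (helper6599.ad0 p ρbar) q.1 (flatZ p ρbar q.1) :=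
  helper6044.resTotal_mem_locSub (helper6599.ad0 p ρbar) S (c.toLevelCocycle p htr S hur) q
    (flatZ p ρbar q.1) (mem_flatZ_of_stdLift p ρbar q.1 c htr hfl)

/-- `flatZ` (values in `ad0`, over `𝔽_p`) is `flatZk` (values in `End`, over `k`) read through
`ad0Val`, when `2` is invertible in `k`. -/
theorem mem_flatZ_iff_flatZk (h2 : (2 : k) ≠ 0)
    {z : ↥(helper6044.decomp q) → helper6599.ad0 p ρbar} :
    z ∈ flatZ p ρbar q ↔
      (fun d => helper6599.ad0Val p ρbar (z d)) ∈ flatZk p ρbar (helper6044.decomp q) := by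
  constructor
  · rintro (hz | ⟨c, hc, htr, hres⟩)
    · obtain ⟨m, hm⟩ := (helper6044.mem_locB1_iff _ q z).mp hz
      have h1 := cob_mem_flatZk (p := p) (ρbar := ρbar) (D := helper6044.decomp q)
        (helper6599.ad0Val p ρbar m)
      have h3 : (fun d => helper6599.ad0Val p ρbar (z d)) =
          fun d : ↥(helper6044.decomp q) => ρbar.ρ (d : Gal) * helper6599.ad0Val p ρbar m *
            ρbar.ρ (d : Gal)⁻¹ - helper6599.ad0Val p ρbar m := by
        funext d
        rw [hm d, map_sub, helper6599.ad0Val_ρ]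
      rw [h3]
      exact h1
    · exact ⟨c, Or.inr hc, htr, hres⟩
  · rintro ⟨c, hc, htr, hres⟩
    rcases hc with ⟨T, hT⟩ | hc
    · -- replace `T` by its trace-zero part
      let t : k := LinearMap.trace k ρbar.V T / 2
      let T0 : Module.End k ρbar.V := T - t • (1 : Module.End k ρbar.V)
      have htr0 : LinearMap.trace k ρbar.V T0 = 0 := by
        have h1 : LinearMap.trace k ρbar.V (1 : Module.End k ρbar.V) = 2 := by
          rw [LinearMap.trace_one, ρbar.finrank_eq]
          norm_num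
        show LinearMap.trace k ρbar.V (T - t • (1 : Module.End k ρbar.V)) = 0
        rw [map_sub, map_smul, h1, smul_eq_mul]
        show LinearMap.trace k ρbar.V T - LinearMap.trace k ρbar.V T / 2 * 2 = 0
        field_simp
        ring
      refine Or.inl ((helper6044.mem_locB1_iff _ q z).mpr
        ⟨helper6599.ad0Mk p ρbar T0 htr0, fun g => ?_⟩)
      apply helper6599.ad0_ext
      have h3 : helper6599.ad0Val p ρbar (z g) = c (g : Gal) := hres g
      rw [h3, hT, map_sub, helper6599.ad0Val_ρ, helper6599.ad0Val_ad0Mk]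
      show ρbar.ρ (g : Gal) * T * ρbar.ρ (g : Gal)⁻¹ - T =
        ρbar.ρ (g : Gal) * (T - t • (1 : Module.End k ρbar.V)) * ρbar.ρ (g : Gal)⁻¹ -
          (T - t • (1 : Module.End k ρbar.V))
      rw [mul_sub, sub_mul, mul_smul_comm, smul_mul_assoc, mul_one,
        helper6599.LiftCocycle.rho_mul_inv]
      abel
    · exact Or.inr ⟨c, hc, htr, hres⟩

end Carrier

/-! ## Appended: every element of the flat subspaces comes from a flat lift -/

section Uniform

variable {p : ℕ} [Fact p.Prime] {k : Type} [Field k] {ρbar : ResidualGaloisRep k}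
  {D : Subgroup Gal}

/-- If some standard lift is flat, the residual module has a function model. -/
theorem hasFunModel_base_of_stdLift [Finite k] (c : helper6599.LiftCocycle ρbar)
    (hfl : (helper6599.stdLift c).IsFlatAt p) :
    HasFunModel p ρbar.V (fun σ => ⇑(ρbar.ρ σ)) :=
  (flatCoc_of_stdLift c hfl).base

/-- **Uniform description of `flatZk`** when the residual module has a function model (e.g. as
soon as one flat lift exists): EVERY element (coboundaries included) is the restriction of the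
cocycle of a trace-zero flat standard lift. -/
theorem exists_flat_of_mem_flatZk [Finite k]
    (hV : HasFunModel p ρbar.V (fun σ => ⇑(ρbar.ρ σ)))
    {z : ↥D → Module.End k ρbar.V} (hz : z ∈ flatZk p ρbar D) :
    ∃ c : helper6599.LiftCocycle ρbar, (helper6599.stdLift c).IsFlatAt p ∧
      (∀ g, LinearMap.trace k ρbar.V (c.c g) = 0) ∧ ∀ d : ↥D, z d = c.c (d : Gal) := by
  obtain ⟨c, hc, htr, hres⟩ := hz
  have hfl : FlatCoc p (fun σ => ⇑(ρbar.ρ σ)) (fun σ => ⇑(c σ)) := (mem_flatSubB_iff hV).mp hc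
  exact ⟨liftCocycleOfFlat c hfl, isFlatAt_stdLift_liftCocycleOfFlat c hfl, htr, hres⟩

/-- `flatZk` is exactly the set of restrictions of the cocycles of the trace-zero flat standard
lifts, when the residual module has a function model. -/
theorem mem_flatZk_iff_of_base [Finite k]
    (hV : HasFunModel p ρbar.V (fun σ => ⇑(ρbar.ρ σ)))
    {z : ↥D → Module.End k ρbar.V} :
    z ∈ flatZk p ρbar D ↔
      ∃ c : helper6599.LiftCocycle ρbar, (helper6599.stdLift c).IsFlatAt p ∧
        (∀ g, LinearMap.trace k ρbar.V (c.c g) = 0) ∧ ∀ d : ↥D, z d = c.c (d : Gal) := by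
  refine ⟨exists_flat_of_mem_flatZk hV, ?_⟩
  rintro ⟨c, hc, htr, hres⟩
  have h1 := mem_flatZk_of_stdLift (D := D) c htr hc
  have h2 : z = fun d : ↥D => c.c (d : Gal) := funext hres
  rw [h2]
  exact h1

/-- **Uniform description of `flatZmat`**: every element is the matrix of the restriction of the
cocycle of a trace-zero flat standard lift, when the residual module has a function model. -/
theorem exists_flat_of_mem_flatZmat [Finite k] {b : Module.Basis (Fin 2) k ρbar.V}
    (hV : HasFunModel p ρbar.V (fun σ => ⇑(ρbar.ρ σ)))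
    {z : ↥D → Matrix (Fin 2) (Fin 2) k} (hz : z ∈ flatZmat p ρbar D b) :
    ∃ c : helper6599.LiftCocycle ρbar, (helper6599.stdLift c).IsFlatAt p ∧
      (∀ g, LinearMap.trace k ρbar.V (c.c g) = 0) ∧
      ∀ d : ↥D, z d = LinearMap.toMatrix b b (c.c (d : Gal)) := by
  obtain ⟨c, hc, htr, hres⟩ := exists_flat_of_mem_flatZk hV (mem_flatZmat.mp hz)
  refine ⟨c, hc, htr, fun d => ?_⟩
  have h1 := congrArg (LinearMap.toMatrix b b) (hres d)
  rw [LinearMap.toMatrix_toLin] at h1
  exact h1

/-- `flatZmat` is exactly the set of matrices of restrictions of the cocycles of the trace-zero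
flat standard lifts, when the residual module has a function model. -/
theorem mem_flatZmat_iff_of_base [Finite k] {b : Module.Basis (Fin 2) k ρbar.V}
    (hV : HasFunModel p ρbar.V (fun σ => ⇑(ρbar.ρ σ)))
    {z : ↥D → Matrix (Fin 2) (Fin 2) k} :
    z ∈ flatZmat p ρbar D b ↔
      ∃ c : helper6599.LiftCocycle ρbar, (helper6599.stdLift c).IsFlatAt p ∧
        (∀ g, LinearMap.trace k ρbar.V (c.c g) = 0) ∧
        ∀ d : ↥D, z d = LinearMap.toMatrix b b (c.c (d : Gal)) := by
  refine ⟨exists_flat_of_mem_flatZmat hV, ?_⟩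
  rintro ⟨c, hc, htr, hres⟩
  have h1 := mem_flatZmat_of_stdLift (D := D) (b := b) c htr hc
  have h2 : z = fun d : ↥D => LinearMap.toMatrix b b (c.c (d : Gal)) := funext hres
  rw [h2]
  exact h1

end Uniform

end Fermat.Agent.S56.helper1624
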