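/-
S56, node FLAT-LINEAR (helper1624), part 3: the link to the captain's FLAT-SPEC
(`helper6366.FlatTangentAt`).

Under `LocalHyp p ρbar`, the intrinsic subspace `flatZk p ρbar (decP p)` (coboundaries and
restrictions of flat cocycles, a `k`-subspace by FLAT-LINEAR) is the SMALLEST subspace `LL`
allowed in `FlatTangentAt`:

* `B1_le_flatZk`, `flat_mem_flatZk` : it contains `B1` and the restriction of the cocycle of every
  flat lift with cyclotomic determinant;
* `flatZk_le_of` : it is contained in every `LL` with these two properties;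
* `flatTangentAt_iff` : `FlatTangentAt p ρbar ↔ Module.Finite ∧ finrank ≤ 4` for `flatZk`;
* `flatTangentAt_of_card` : it suffices to COUNT the finite subspaces of `flatZk`.
-/
import Mathlib
import Fermat.Agent.S56.helper6366_FlatSpec
import Fermat.Agent.S56.helper1624_FlatLinearStd

set_option autoImplicit false

noncomputable section

namespace Fermat.Agent.S56.helper1624

open Fermat.Agent.S56.helper6366

local notation "Gal" => (AlgebraicClosure ℚ ≃ₐ[ℚ] AlgebraicClosure ℚ)

variable {p : ℕ} [Fact p.Prime] {k : Type} [Field k] {ρbar : ResidualGaloisRep k}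

omit [Fact p.Prime] in
/-- `DetIsCyclotomic` for `ρbar` forces `p = 0` in `k`. -/
theorem natCast_eq_zero_of_det
    (hdet : (GaloisRepAdic.ofResidualGaloisRep ρbar).DetIsCyclotomic p) : (p : k) = 0 := by
  have h := hdet.1
  have hbot : IsLocalRing.maximalIdeal k = ⊥ :=
    (Ideal.eq_bot_or_top _).resolve_right (Ideal.IsMaximal.ne_top inferInstance)
  rw [hbot, Ideal.mem_bot] at h
  exact h

omit [Fact p.Prime] in
/-- A standard lift with trace-zero cocycle has cyclotomic determinant as soon as `ρbar`
has. -/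
theorem detIsCyclotomic_stdLift
    (hdet : (GaloisRepAdic.ofResidualGaloisRep ρbar).DetIsCyclotomic p)
    (c : helper6599.LiftCocycle ρbar) (htr : ∀ g, LinearMap.trace k ρbar.V (c.c g) = 0) :
    (helper6599.stdLift c).DetIsCyclotomic p := by
  have hp : (p : k) = 0 := natCast_eq_zero_of_det hdet
  refine ⟨?_, fun n σ a hμ => ?_⟩
  · rw [helper6599.dual_mem_maximalIdeal_iff, TrivSqZeroExt.fst_natCast, hp]
  · have h1 := hdet.2 n σ a hμ
    have hdet' : LinearMap.det (helper6599.dualEnd ρbar (ρbar.ρ σ) (c.c σ * ρbar.ρ σ)) =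
        algebraMap k (DualNumber k) (LinearMap.det (ρbar.ρ σ)) := by
      rw [TrivSqZeroExt.algebraMap_eq_inl]
      apply TrivSqZeroExt.ext
      · rw [helper6599.fst_det_dualEnd, TrivSqZeroExt.fst_inl]
      · rw [helper6599.snd_det_dualEnd, htr, mul_zero, TrivSqZeroExt.snd_inl]
    have hdetσ : LinearMap.det ((helper6599.stdLift c).ρ σ) =
        algebraMap k (DualNumber k) (LinearMap.det (ρbar.ρ σ)) := hdet'
    obtain ⟨r, hr⟩ := Ideal.mem_span_singleton'.mp h1
    refine Ideal.mem_span_singleton'.mpr ⟨algebraMap k (DualNumber k) r, ?_⟩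
    rw [hdetσ, ← map_natCast (algebraMap k (DualNumber k)) a,
      ← map_natCast (algebraMap k (DualNumber k)) (p ^ n), ← map_mul, ← map_sub, hr]
    rfl

/-- `B1` is contained in the intrinsic flat subspace. -/
theorem B1_le_flatZk (p : ℕ) [Fact p.Prime] (ρbar : ResidualGaloisRep k) :
    B1 p ρbar ≤ flatZk p ρbar (decP p) := by
  rintro _ ⟨X, rfl⟩
  exact cob_mem_flatZk X

/-- The restriction to `decP p` of the cocycle of a flat lift with cyclotomic determinant lies in
the intrinsic flat subspace. -/
theorem flat_mem_flatZk (h : LocalHyp p ρbar) (c : helper6599.LiftCocycle ρbar)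
    (hfl : (helper6599.stdLift c).IsFlatAt p) (hdet : (helper6599.stdLift c).DetIsCyclotomic p) :
    (fun σ : ↥(decP p) => c.c (σ : Gal)) ∈ flatZk p ρbar (decP p) := by
  have := h.fin
  exact mem_flatZk_of_stdLift c
    (helper6599.trace_eq_zero_of_detIsCyclotomic p (natCast_eq_zero_of_det h.det) c hdet) hfl

/-- The intrinsic flat subspace is the smallest `LL` allowed in `FlatTangentAt`. -/
theorem flatZk_le_of (h : LocalHyp p ρbar)
    (LL : Submodule k (↥(decP p) → Module.End k ρbar.V)) (hB : B1 p ρbar ≤ LL)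
    (hmem : ∀ c : helper6599.LiftCocycle ρbar, (helper6599.stdLift c).IsFlatAt p →
      (helper6599.stdLift c).DetIsCyclotomic p → (fun σ : ↥(decP p) => c.c (σ : Gal)) ∈ LL) :
    flatZk p ρbar (decP p) ≤ LL := by
  have := h.fin
  intro z hz
  rcases mem_flatZk_iff.mp hz with ⟨T, hT⟩ | ⟨c, hc, htr, hres⟩
  · have h1 : z = cobD p ρbar T := funext hT
    rw [h1]
    exact hB ⟨T, rfl⟩
  · have h1 : z = fun σ : ↥(decP p) => c.c (σ : Gal) := funext hres
    rw [h1]
    exact hmem c hc (detIsCyclotomic_stdLift h.det c htr)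

/-- FLAT-LOCAL from any finite-dimensional `LL` of dimension at most `4` containing the intrinsic
flat subspace. -/
theorem flatTangentAt_of_flatZk_le (h : LocalHyp p ρbar)
    (LL : Submodule k (↥(decP p) → Module.End k ρbar.V)) [Module.Finite k ↥LL]
    (h4 : Module.finrank k ↥LL ≤ 4) (hle : flatZk p ρbar (decP p) ≤ LL) :
    FlatTangentAt p ρbar :=
  ⟨LL, inferInstance, h4, (B1_le_flatZk p ρbar).trans hle,
    fun c hfl hdet => hle (flat_mem_flatZk h c hfl hdet)⟩

/-- **FLAT-LOCAL is a dimension bound on the intrinsic flat subspace.** -/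
theorem flatTangentAt_iff (h : LocalHyp p ρbar) :
    FlatTangentAt p ρbar ↔ Module.Finite k ↥(flatZk p ρbar (decP p)) ∧
      Module.finrank k ↥(flatZk p ρbar (decP p)) ≤ 4 := by
  constructor
  · rintro ⟨LL, hfin, h4, hB, hmem⟩
    have hle := flatZk_le_of h LL hB hmem
    have hfin' : Module.Finite k ↥(flatZk p ρbar (decP p)) :=
      Module.Finite.of_injective (Submodule.inclusion hle) (Submodule.inclusion_injective hle)
    exact ⟨hfin', (Submodule.finrank_mono hle).trans h4⟩
  · rintro ⟨hfin, h4⟩
    exact flatTangentAt_of_flatZk_le h _ h4 le_rfl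

/-- **FLAT-LOCAL from a count**: it suffices that every FINITE subspace of the intrinsic flat
subspace has at most `(#k) ^ 4` elements. -/
theorem flatTangentAt_of_card (h : LocalHyp p ρbar)
    (hcount : ∀ U : Submodule k ↥(flatZk p ρbar (decP p)), Finite U →
      Nat.card U ≤ Nat.card k ^ 4) : FlatTangentAt p ρbar := by
  have := h.fin
  exact (flatTangentAt_iff h).mpr (finite_and_finrank_le_of_card_le 4 hcount)

/-- **FLAT-LOCAL from a count modulo coboundaries**: it suffices that every finite subspace `U`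
of functions with `B1 ≤ U ≤ flatZk` has at most `#B1 * #k ^ n` elements, where
`finrank B1 + n ≤ 4`. -/
theorem flatTangentAt_of_card_mod (h : LocalHyp p ρbar) (n : ℕ)
    (hn : Module.finrank k ↥(B1 p ρbar) + n ≤ 4)
    (hcount : ∀ U : Submodule k (↥(decP p) → Module.End k ρbar.V), B1 p ρbar ≤ U →
      U ≤ flatZk p ρbar (decP p) → Finite U → Nat.card U ≤ Nat.card ↥(B1 p ρbar) * Nat.card k ^ n) :
    FlatTangentAt p ρbar := by
  have hfink := h.fin
  have hK : 1 < Nat.card k := Finite.one_lt_card
  have hfinB : Finite ↥(B1 p ρbar) := Module.finite_of_finite k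
  refine (flatTangentAt_iff h).mpr ?_
  refine finite_and_finrank_le_of_forall_fg 4 fun W hW => ?_
  -- `U := B1 ⊔ (image of W)`
  let W' : Submodule k (↥(decP p) → Module.End k ρbar.V) :=
    W.map (flatZk p ρbar (decP p)).subtype
  have hW' : W' ≤ flatZk p ρbar (decP p) := Submodule.map_subtype_le _ _
  have hfinW' : Module.Finite k ↥W' := Module.Finite.map W _
  let U := B1 p ρbar ⊔ W'
  have hU1 : B1 p ρbar ≤ U := le_sup_left
  have hU2 : U ≤ flatZk p ρbar (decP p) := sup_le (B1_le_flatZk p ρbar) hW'
  have hfinU : Module.Finite k ↥U := by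
    show Module.Finite k ↥(B1 p ρbar ⊔ W')
    infer_instance
  have hfinU' : Finite ↥U := Module.finite_of_finite k
  have h1 := hcount U hU1 hU2 hfinU'
  rw [Module.natCard_eq_pow_finrank (K := k) (V := ↥U),
    Module.natCard_eq_pow_finrank (K := k) (V := ↥(B1 p ρbar)), ← pow_add] at h1
  have h2 : Module.finrank k ↥U ≤ Module.finrank k ↥(B1 p ρbar) + n :=
    (Nat.pow_le_pow_iff_right hK).mp h1
  have h3 : Module.finrank k ↥W = Module.finrank k ↥W' :=
    (Submodule.equivSubtypeMap (flatZk p ρbar (decP p)) W).finrank_eq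
  have h4 : Module.finrank k ↥W' ≤ Module.finrank k ↥U :=
    Submodule.finrank_mono (le_sup_right : W' ≤ B1 p ρbar ⊔ W')
  omega

/-! ### Matrix form of the closing step (appended for the reducible assembly) -/

/-- `flatZmat` is contained in every subspace of matrix-valued functions containing the matrix
coboundaries and the matrices of the cocycles of the trace-zero flat standard lifts. -/
theorem flatZmat_le_of [Finite k] (D : Subgroup Gal) (b : Module.Basis (Fin 2) k ρbar.V)
    (LLm : Submodule k (↥D → Matrix (Fin 2) (Fin 2) k))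
    (hcob : ∀ X : Matrix (Fin 2) (Fin 2) k,
      (fun d : ↥D => LinearMap.toMatrix b b (ρbar.ρ (d : Gal)) * X *
        LinearMap.toMatrix b b (ρbar.ρ (d : Gal)⁻¹) - X) ∈ LLm)
    (hmem : ∀ c : helper6599.LiftCocycle ρbar, (helper6599.stdLift c).IsFlatAt p →
      (∀ g, LinearMap.trace k ρbar.V (c.c g) = 0) →
      (fun d : ↥D => LinearMap.toMatrix b b (c.c (d : Gal))) ∈ LLm) :
    flatZmat p ρbar D b ≤ LLm := by
  intro z hz
  rcases mem_flatZmat_iff.mp hz with ⟨X, hX⟩ | ⟨c, hc, htr, hres⟩
  · have h1 : z = fun d : ↥D => LinearMap.toMatrix b b (ρbar.ρ (d : Gal)) * X *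
        LinearMap.toMatrix b b (ρbar.ρ (d : Gal)⁻¹) - X := funext hX
    rw [h1]
    exact hcob X
  · have h1 : z = fun d : ↥D => LinearMap.toMatrix b b (c.c (d : Gal)) := funext hres
    rw [h1]
    exact hmem c hc htr

/-- **Closing step in matrices.**  If a finite-dimensional subspace `LLm` of matrix-valued
functions on `decP p`, of dimension at most `4`, contains `flatZmat`, then `FlatTangentAt`
holds. -/
theorem flatTangentAt_of_flatZmat_le (h : LocalHyp p ρbar) (b : Module.Basis (Fin 2) k ρbar.V)
    (LLm : Submodule k (↥(decP p) → Matrix (Fin 2) (Fin 2) k)) [Module.Finite k ↥LLm]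
    (h4 : Module.finrank k ↥LLm ≤ 4) (hle : flatZmat p ρbar (decP p) b ≤ LLm) :
    FlatTangentAt p ρbar := by
  -- transport `LLm` to `End`-valued functions
  let e : (↥(decP p) → Matrix (Fin 2) (Fin 2) k) ≃ₗ[k] (↥(decP p) → Module.End k ρbar.V) :=
    LinearEquiv.piCongrRight fun _ => Matrix.toLin b b
  let LL : Submodule k (↥(decP p) → Module.End k ρbar.V) := LLm.map e.toLinearMap
  have hfin : Module.Finite k ↥LL := Module.Finite.map LLm e.toLinearMap
  have hrank : Module.finrank k ↥LL = Module.finrank k ↥LLm :=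
    (LinearEquiv.finrank_map_eq e LLm)
  refine flatTangentAt_of_flatZk_le h LL (hrank.le.trans h4) ?_
  intro z hz
  refine ⟨e.symm z, hle ?_, e.apply_symm_apply z⟩
  rw [mem_flatZmat]
  have h1 : (fun d => Matrix.toLin b b ((e.symm z) d)) = z := by
    funext d
    show Matrix.toLin b b ((Matrix.toLin b b).symm (z d)) = z d
    rw [LinearEquiv.apply_symm_apply]
  rw [h1]
  exact hz

/-- **Closing step in matrices, from memberships**: a finite-dimensional subspace `LLm` of
dimension at most `4` containing the matrix coboundaries and the matrices of the cocycles of all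
flat lifts with cyclotomic determinant gives `FlatTangentAt`. -/
theorem flatTangentAt_of_mat (h : LocalHyp p ρbar) (b : Module.Basis (Fin 2) k ρbar.V)
    (LLm : Submodule k (↥(decP p) → Matrix (Fin 2) (Fin 2) k)) [Module.Finite k ↥LLm]
    (h4 : Module.finrank k ↥LLm ≤ 4)
    (hcob : ∀ X : Matrix (Fin 2) (Fin 2) k,
      (fun d : ↥(decP p) => LinearMap.toMatrix b b (ρbar.ρ (d : Gal)) * X *
        LinearMap.toMatrix b b (ρbar.ρ (d : Gal)⁻¹) - X) ∈ LLm)
    (hmem : ∀ c : helper6599.LiftCocycle ρbar, (helper6599.stdLift c).IsFlatAt p →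
      (helper6599.stdLift c).DetIsCyclotomic p →
      (fun d : ↥(decP p) => LinearMap.toMatrix b b (c.c (d : Gal))) ∈ LLm) :
    FlatTangentAt p ρbar := by
  have := h.fin
  refine flatTangentAt_of_flatZmat_le h b LLm h4 (flatZmat_le_of (decP p) b LLm hcob ?_)
  intro c hfl htr
  exact hmem c hfl (detIsCyclotomic_stdLift h.det c htr)

end Fermat.Agent.S56.helper1624
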