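/-
S56, FLAT-LOCAL, reducible case: backup assembly (helper7147), part 1 = the CORE.

`flatTangentAt_of_red`: the reducible clause of the captain's FLAT-SPEC
(`helper6366.FlatTangentAt p ρbar`) from three named inputs, each in the shape of its owner:

* TYPE   : a basis `b` in which `ρbar` restricted to `decP p` is upper triangular (`hup`);
* SHAPE  : the matrix of the cocycle of every flat trace-zero standard lift is, up to a
           coboundary, a normalised cocycle (`helper5221.Zsh`), the output of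
           `helper56.exists_cocycle_shape_of_ET`;
* COUNT  : a subgroup `N`, an element `τ₀` commuting with `decP p` modulo `N` with `η τ₀ ≠ 1`,
           and `#slice12 ≤ #k` (the output of the eigen-count (RC1)).

Inside: the Frobenius clause `hφ` of `helper5221.red_count` (from
`helper6024.decomposition_eq_dec` and the finite level of the elements of
`helper1624.flatZmat`), and the transport from matrices back to `End_k V`.
-/
import Mathlib
import Fermat.Agent.Lib.helper54_Frobenius
import Fermat.Agent.S56.helper6024_TameInertia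
import Fermat.Agent.S56.helper6366_FlatSpec
import Fermat.Agent.S56.helper1624_FlatLinearSpec
import Fermat.Agent.S56.helper5221_RedAsm

set_option autoImplicit false

noncomputable section

namespace Fermat.Agent.S56.helper7147

open Fermat.Agent.S56.helper6366 Fermat.Agent.S56.helper6599 Fermat.Agent.S56.helper1624
  Fermat.Agent.S56.helper5221

local notation "Qb" => AlgebraicClosure ℚ

variable (p : ℕ) [Fact p.Prime] {k : Type} [Field k] (ρbar : ResidualGaloisRep k)
  (b : Module.Basis (Fin 2) k ρbar.V)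

/-- The inertia subgroup of the decomposition group `decP p` (Mathlib's, a subgroup of the
decomposition group seen as a group). -/
abbrev inP : Subgroup ↥(decP p) := (padicPlace p).inertiaSubgroup ℚ

/-- `ρbar` restricted to `decP p`, in matrices with respect to the basis `b`. -/
def matRep : ↥(decP p) →* Matrix (Fin 2) (Fin 2) k where
  toFun σ := LinearMap.toMatrix b b (ρbar.ρ (σ : GQ))
  map_one' := by
    rw [Subgroup.coe_one, map_one]
    exact LinearMap.toMatrix_one b
  map_mul' σ τ := by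
    rw [Subgroup.coe_mul, map_mul]
    exact LinearMap.toMatrix_mul b _ _

@[simp] theorem matRep_apply (σ : ↥(decP p)) :
    matRep p ρbar b σ = LinearMap.toMatrix b b (ρbar.ρ (σ : GQ)) := rfl

theorem matRep_inv (σ : ↥(decP p)) :
    matRep p ρbar b σ⁻¹ = LinearMap.toMatrix b b (ρbar.ρ (σ : GQ)⁻¹) := rfl

/-- `End`-valued functions to matrix-valued functions. -/
def toMatFun : (↥(decP p) → Module.End k ρbar.V) →ₗ[k] (↥(decP p) → Matrix (Fin 2) (Fin 2) k) :=
  LinearMap.pi fun d : ↥(decP p) => (LinearMap.toMatrix b b).toLinearMap ∘ₗ LinearMap.proj d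

@[simp] theorem toMatFun_apply (z : ↥(decP p) → Module.End k ρbar.V) (d : ↥(decP p)) :
    toMatFun p ρbar b z d = LinearMap.toMatrix b b (z d) := rfl

theorem toMatFun_injective : Function.Injective (toMatFun p ρbar b) := by
  intro z z' h
  funext d
  have h1 := congrFun h d
  rw [toMatFun_apply, toMatFun_apply] at h1
  exact (LinearMap.toMatrix b b).injective h1

theorem toMatFun_mem_flatZmat {z : ↥(decP p) → Module.End k ρbar.V}
    (hz : z ∈ flatZk p ρbar (decP p)) : toMatFun p ρbar b z ∈ flatZmat p ρbar (decP p) b := by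
  rw [mem_flatZmat]
  have h2 : (fun d : ↥(decP p) => Matrix.toLin b b (toMatFun p ρbar b z d)) = z := by
    funext d
    rw [toMatFun_apply, Matrix.toLin_toMatrix]
  rw [h2]
  exact hz

/-- **Core of the reducible assembly.** -/
theorem flatTangentAt_of_red [Finite k] (h : LocalHyp p ρbar)
    (hup : ∀ σ, matRep p ρbar b σ 1 0 = 0)
    (hshape : ∀ c : LiftCocycle ρbar, (stdLift c).IsFlatAt p →
      (∀ g, LinearMap.trace k ρbar.V (c.c g) = 0) →
      ∃ (X : Matrix (Fin 2) (Fin 2) k) (c0 : ↥(decP p) → Matrix (Fin 2) (Fin 2) k),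
        (∀ σ : ↥(decP p), LinearMap.toMatrix b b (c.c (σ : GQ)) =
          c0 σ - (matRep p ρbar b σ * X * matRep p ρbar b σ⁻¹ - X)) ∧
        c0 ∈ Zsh (matRep p ρbar b) (inP p))
    (N : Subgroup ↥(decP p)) (τ₀ : ↥(decP p))
    (hτ₀ : matRep p ρbar b τ₀ 0 0 * matRep p ρbar b τ₀⁻¹ 1 1 ≠ 1)
    (hcomm : ∀ σ : ↥(decP p), ∃ n ∈ N, τ₀ * σ = σ * τ₀ * n)
    (hcard : Finite ↥(slice12 (matRep p ρbar b) (inP p) (flatZmat p ρbar (decP p) b) N) ∧
      Nat.card ↥(slice12 (matRep p ρbar b) (inP p) (flatZmat p ρbar (decP p) b) N) ≤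
        Nat.card k) :
    FlatTangentAt p ρbar := by
  classical
  have hp : p.Prime := Fact.out
  set ρ := matRep p ρbar b with hρ
  set Q := flatZmat p ρbar (decP p) b with hQ
  have hP : (padicPlace p).LiesOverPrime p :=
    Fermat.Agent.S55.helper4145.padicPlace_liesOverPrime p
  -- a Frobenius
  obtain ⟨φ, hφ⟩ := Fermat.Agent.Lib.helper54.exists_isFrobeniusAt hp (padicPlace p) hP
  have hφD : φ ∈ decP p := hφ.mem_decompositionSubgroup
  -- the Frobenius clause
  have hφc : ∀ c ∈ Zsh ρ (inP p) ⊓ Q, c ⟨φ, hφD⟩ 0 0 = 0 → ∀ σ, c σ 0 0 = 0 := by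
    intro c hc h0
    obtain ⟨L, hL, hlev⟩ := exists_level_of_mem_flatZmat hc.2
    refine Zsh_c11_eq_zero hup hc.1 ⟨φ, hφD⟩ ?_ h0
    intro τ
    refine Fermat.Agent.S56.helper6024.decomposition_eq_dec hp (padicPlace p) hP
      (c11Hom hup hc.1) L hL ?_ ⟨φ, hφD⟩ hφ τ
    intro u hu
    have hu' : ∀ x ∈ L, (u : GQ) x = x :=
      (IntermediateField.mem_fixingSubgroup_iff L (u : GQ)).1 hu
    rw [c11Hom_apply, (hlev u hu').2.1]
    rfl
  obtain ⟨hfin, hcard'⟩ := hcard
  have hB : ∀ X : Matrix (Fin 2) (Fin 2) k, X 1 0 = 0 → dmap ρ X ∈ Q := fun X _ =>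
    cob_mem_flatZmat X
  obtain ⟨hLfin, -, hL4, hLcob, hLsh, -⟩ :=
    red_count hup (inP p) Q ⟨φ, hφD⟩ hφc N τ₀ hτ₀ hcomm hcard' hB
  -- `Q ≤ LLsub`
  have hQle : Q ≤ LLsub ρ (inP p) Q := by
    intro z hz
    rcases mem_flatZmat_iff.mp hz with ⟨X, hX⟩ | ⟨c, hc, htr, hres⟩
    · have e : z = dmap ρ X := funext hX
      rw [e]
      exact hLcob X
    · obtain ⟨X, c0, hc0, hc0Z⟩ := hshape c hc htr
      have e : z = fun σ => c0 σ - (ρ σ * X * ρ σ⁻¹ - X) := by
        funext σ
        rw [hres σ, hc0 σ]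
      have hc0Q : c0 ∈ Q := by
        have e2 : c0 = z + dmap ρ X := by
          funext σ
          rw [Pi.add_apply, e]
          show c0 σ = c0 σ - (ρ σ * X * ρ σ⁻¹ - X) + (ρ σ * X * ρ σ⁻¹ - X)
          abel
        rw [e2]
        exact add_mem hz (cob_mem_flatZmat X)
      rw [e]
      exact hLsh c0 ⟨hc0Z, hc0Q⟩ X
  -- transport back to `End`
  let LL : Submodule k (↥(decP p) → Module.End k ρbar.V) :=
    (LLsub ρ (inP p) Q).comap (toMatFun p ρbar b)
  have hle : flatZk p ρbar (decP p) ≤ LL := fun z hz =>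
    hQle (toMatFun_mem_flatZmat p ρbar b hz)
  let Ψ : ↥LL →ₗ[k] ↥(LLsub ρ (inP p) Q) :=
    (toMatFun p ρbar b).restrict (fun z hz => hz)
  have hΨ : Function.Injective Ψ := by
    intro z z' hzz
    apply Subtype.ext
    exact toMatFun_injective p ρbar b (congrArg Subtype.val hzz)
  have hLfin' : Module.Finite k ↥(LLsub ρ (inP p) Q) := Module.Finite.of_finite
  have hLLfin : Module.Finite k ↥LL := Module.Finite.of_injective Ψ hΨ
  have h4 : Module.finrank k ↥LL ≤ 4 :=
    (LinearMap.finrank_le_finrank_of_injective hΨ).trans hL4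
  exact flatTangentAt_of_flatZk_le h LL h4 hle

end Fermat.Agent.S56.helper7147
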