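/-
S56, FLAT-LOCAL, reducible case: backup assembly (helper7147), part 2 = the SHAPE clause in
the frozen vocabulary.

For a flat trace-zero standard lift `stdLift c` of `ρbar` and a basis `b` of TYPE
(`ρbar|D` upper triangular, lower character unramified, upper character ramified at `τ0`),
the matrix cocycle `σ ↦ toMatrix b b (c.c σ)` on `decP p` is a normalised cocycle
(`helper5221.Zsh`) up to the coboundary of a trace-zero matrix.

Composition of `helper56.exists_cocycle_shape_of_ET` (abstract shape lemma) with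
`helper5274.IsRedKernel.hET` ((ET) for the kernel of reduction of a function model), on the
split model `V × V` with the twisted action `helper1624.twAct` (no tensor product).
-/
import Mathlib
import Fermat.Agent.S56.helper7147_RedCore
import Fermat.Agent.S56.helper56_RedShape
import Fermat.Agent.S56.helper5274_RedKer

set_option autoImplicit false

noncomputable section

namespace Fermat.Agent.S56.helper7147

open Matrix Fermat.Agent.S56.helper6366 Fermat.Agent.S56.helper6599 Fermat.Agent.S56.helper1624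
  Fermat.Agent.S56.helper5221

local notation "Qb" => AlgebraicClosure ℚ

section Vec

variable {k : Type} [Field k] {V : Type} [AddCommGroup V] [Module k V]
  (b : Module.Basis (Fin 2) k V)

/-- Coordinates to vectors. -/
def vecOf : (Fin 2 → k) →+ V := b.equivFun.symm.toLinearMap.toAddMonoidHom

theorem vecOf_apply (v : Fin 2 → k) : vecOf b v = b.equivFun.symm v := rfl

theorem vecOf_injective : Function.Injective (vecOf b) := b.equivFun.symm.injective

theorem vecOf_mulVec (f : Module.End k V) (v : Fin 2 → k) :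
    vecOf b (LinearMap.toMatrix b b f *ᵥ v) = f (vecOf b v) := by
  have h1 := LinearMap.toMatrix_mulVec_repr b b f (vecOf b v)
  have h2 : ⇑(b.repr (vecOf b v)) = v := by
    have := b.equivFun.apply_symm_apply v
    rw [Module.Basis.equivFun_apply] at this
    exact this
  rw [h2] at h1
  rw [h1, vecOf_apply]
  have h3 : ⇑(b.repr (f (vecOf b v))) = b.equivFun (f (vecOf b v)) :=
    (Module.Basis.equivFun_apply b _).symm
  rw [h3, LinearEquiv.symm_apply_apply]

end Vec

variable (p : ℕ) [Fact p.Prime] {k : Type} [Field k] (ρbar : ResidualGaloisRep k)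
  (b : Module.Basis (Fin 2) k ρbar.V)

/-- **SHAPE, frozen vocabulary.** -/
theorem exists_shape_of_flat [Finite k] (h : LocalHyp p ρbar)
    (hup : ∀ σ, matRep p ρbar b σ 1 0 = 0)
    (hχ2 : ∀ σ ∈ inP p, matRep p ρbar b σ 1 1 = 1)
    {τ0 : ↥(decP p)} (hτ0 : τ0 ∈ inP p) (hτ0' : matRep p ρbar b τ0 0 0 ≠ 1)
    (c : LiftCocycle ρbar) (hfl : (stdLift c).IsFlatAt p)
    (htr : ∀ g, LinearMap.trace k ρbar.V (c.c g) = 0) :
    ∃ (X : Matrix (Fin 2) (Fin 2) k) (c0 : ↥(decP p) → Matrix (Fin 2) (Fin 2) k),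
      (∀ σ : ↥(decP p), LinearMap.toMatrix b b (c.c (σ : GQ)) =
        c0 σ - (matRep p ρbar b σ * X * matRep p ρbar b σ⁻¹ - X)) ∧
      c0 ∈ Zsh (matRep p ρbar b) (inP p) := by
  have hp : p.Prime := Fact.out
  have hP : (padicPlace p).LiesOverPrime p :=
    Fermat.Agent.S55.helper4145.padicPlace_liesOverPrime p
  have : (inP p).Normal := Fermat.Agent.S56.helper5274.inertiaSubgroup_normal (padicPlace p)
  -- the split model
  let act₀ : GQ → ρbar.V × ρbar.V → ρbar.V × ρbar.V :=
    twAct (fun σ => ⇑(ρbar.ρ σ)) (fun σ => ⇑(c.c σ))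
  have hfm : Fermat.Agent.S32.helper1304.HasFunModel p (ρbar.V × ρbar.V) act₀ :=
    flatCoc_of_stdLift c hfl
  obtain ⟨-, hadd, hmul⟩ := Fermat.Agent.S56.helper5274.act_props_of_hasFunModel hfm
  obtain ⟨W0, -, hW⟩ :=
    Fermat.Agent.S56.helper5274.exists_isRedKernel_of_hasFunModel hp h.odd hfm (padicPlace p) hP
  have hW' := Fermat.Agent.S56.helper5274.isRedKernel_decomposition (padicPlace p) hW
  have hpk : (p : k) = 0 := natCast_eq_zero_of_det h.det
  have hkill : ∀ x : ρbar.V × ρbar.V, p • x = 0 := by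
    intro x
    have h1 : ∀ v : ρbar.V, p • v = 0 := fun v => by
      rw [← Nat.cast_smul_eq_nsmul k, hpk, zero_smul]
    exact Prod.ext (h1 x.1) (h1 x.2)
  let s : (Fin 2 → k) →+ ρbar.V × ρbar.V := (AddMonoidHom.inr ρbar.V ρbar.V).comp (vecOf b)
  let e : (Fin 2 → k) →+ ρbar.V × ρbar.V := (AddMonoidHom.inl ρbar.V ρbar.V).comp (vecOf b)
  have hs_apply : ∀ v, s v = (0, vecOf b v) := fun v => rfl
  have he_apply : ∀ w, e w = (vecOf b w, 0) := fun w => rfl
  let cM : ↥(decP p) → Matrix (Fin 2) (Fin 2) k := fun σ => LinearMap.toMatrix b b (c.c (σ : GQ))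
  have hcoc : ∀ σ τ : ↥(decP p), cM (σ * τ) =
      cM σ + matRep p ρbar b σ * cM τ * matRep p ρbar b σ⁻¹ := by
    intro σ τ
    show LinearMap.toMatrix b b (c.c ((σ : GQ) * (τ : GQ))) = _
    rw [c.map_mul', map_add, LinearMap.toMatrix_mul, LinearMap.toMatrix_mul]
    rfl
  have htrM : ∀ σ : ↥(decP p), (cM σ).trace = 0 := by
    intro σ
    have h1 := htr (σ : GQ)
    rw [LinearMap.trace_eq_matrix_trace k b] at h1
    exact h1
  have hs : ∀ σ ∈ inP p, ∀ v, act₀ (σ : GQ) (s v) =
      s (matRep p ρbar b σ *ᵥ v) + e (cM σ *ᵥ (matRep p ρbar b σ *ᵥ v)) := by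
    intro σ _ v
    rw [hs_apply, hs_apply, he_apply]
    refine Prod.ext ?_ ?_
    · show ρbar.ρ (σ : GQ) 0 + c.c (σ : GQ) (ρbar.ρ (σ : GQ) (vecOf b v)) =
        0 + vecOf b (cM σ *ᵥ (matRep p ρbar b σ *ᵥ v))
      rw [map_zero, vecOf_mulVec, matRep_apply, vecOf_mulVec]
    · show ρbar.ρ (σ : GQ) (vecOf b v) = vecOf b (matRep p ρbar b σ *ᵥ v) + 0
      rw [add_zero, matRep_apply, vecOf_mulVec]
  have he : ∀ σ ∈ inP p, ∀ w, act₀ (σ : GQ) (e w) = e (matRep p ρbar b σ *ᵥ w) := by
    intro σ _ w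
    rw [he_apply, he_apply]
    refine Prod.ext ?_ ?_
    · show ρbar.ρ (σ : GQ) (vecOf b w) + c.c (σ : GQ) (ρbar.ρ (σ : GQ) 0) =
        vecOf b (matRep p ρbar b σ *ᵥ w)
      rw [map_zero, map_zero, add_zero, matRep_apply, vecOf_mulVec]
    · show ρbar.ρ (σ : GQ) 0 = 0
      rw [map_zero]
  have he_inj : Function.Injective e := by
    intro w w' hww
    rw [he_apply, he_apply] at hww
    exact vecOf_injective b (congrArg Prod.fst hww)
  obtain ⟨X, c0, -, hc, hc0coc, hc0tr, hc0lo, -, hc0I⟩ :=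
    Fermat.Agent.S56.helper56.exists_cocycle_shape_of_ET (inP p) (matRep p ρbar b) hup cM hcoc
      htrM hχ2 hτ0 hτ0' (fun (σ : ↥(decP p)) => act₀ (σ : GQ)) s e hs he he_inj
      (fun w hw => hW'.hET (fun s _ m m' => hadd (s : GQ) m m')
        (fun s _ t _ m => hmul (s : GQ) (t : GQ) m) hkill e
        (fun σ hσ w => ⟨_, he σ hσ w⟩) w hw)
  exact ⟨X, c0, hc, hc0coc, hc0tr, hc0lo, hc0I⟩

end Fermat.Agent.S56.helper7147
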