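/-
S56, FLAT-LOCAL, reducible case: backup assembly (helper7147), part 3 = the closed statement
`stmt_FlatRed : helper6366.Stmt_FlatRed`.

Route (no `Stmt_FB`): TYPE = `helper56.exists_basis_of_hasFunModel` + `helper56.eig_of_TT` +
`helper2444.tame_type_of_hasFunModel`; SHAPE = `exists_shape_of_flat` (part 2); COUNT =
`helper5221.card_slice12_le` with `hunif` from `helper4753` and the LEVEL INPUT from
`helper4251.exists_peu_kummer_addHom` on the split model `V × V` (`hlev_of_flat` below); closing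
linear algebra = `flatTangentAt_of_red` (part 1).
-/
import Mathlib
import Fermat.Agent.S56.helper7147_RedShapeF
import Fermat.Agent.S56.helper56_RedFrozen
import Fermat.Agent.S56.helper2444_TameType
import Fermat.Agent.S56.helper5221_RedKummer
import Fermat.Agent.S56.helper4753_TameAdapt
import Fermat.Agent.S56.helper4251_RedPeu

set_option autoImplicit false
set_option linter.style.haveILetI false

noncomputable section

namespace Fermat.Agent.S56.helper7147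

open Fermat.Agent.S56.helper6366 Fermat.Agent.S56.helper6599 Fermat.Agent.S56.helper1624
  Fermat.Agent.S56.helper5221

local notation "Qb" => AlgebraicClosure ℚ

section Coord

variable {k : Type} [Field k] {V : Type} [AddCommGroup V] [Module k V]
  (b : Module.Basis (Fin 2) k V)

/-- Coordinates of `f v` in terms of the matrix of `f`. -/
theorem repr_apply_end (f : Module.End k V) (v : V) (i : Fin 2) :
    b.repr (f v) i = LinearMap.toMatrix b b f i 0 * b.repr v 0 +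
      LinearMap.toMatrix b b f i 1 * b.repr v 1 := by
  rw [← LinearMap.toMatrix_mulVec_repr b b f v, Matrix.mulVec, dotProduct, Fin.sum_univ_two]

end Coord

/-- The determinant of `ρbar σ` is the cyclotomic exponent of `σ`. -/
theorem det_eq_natCast_of_apply_zeta {p : ℕ} [Fact p.Prime] {k : Type} [Field k]
    (ρbar : ResidualGaloisRep k)
    (hdet : (GaloisRepAdic.ofResidualGaloisRep ρbar).DetIsCyclotomic p)
    {ζ : Qb} (hζ : IsPrimitiveRoot ζ p) (σ : GQ) (a : ℕ) (ha : σ ζ = ζ ^ a) :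
    LinearMap.det (ρbar.ρ σ) = (a : k) := by
  have hp : p.Prime := Fact.out
  have : NeZero p := ⟨hp.ne_zero⟩
  have h1 := hdet.2 1 σ a (fun μ hμ => by
    rw [pow_one] at hμ
    obtain ⟨i, -, rfl⟩ := hζ.eq_pow_of_pow_eq_one hμ
    rw [map_pow, ha, ← pow_mul, ← pow_mul, mul_comm])
  have h2 : (((p ^ 1 : ℕ) : k)) = 0 := by
    rw [pow_one]
    exact natCast_eq_zero_of_det hdet
  rw [h2, Ideal.span_singleton_eq_bot.mpr rfl, Ideal.mem_bot, sub_eq_zero] at h1
  exact h1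

/-- In a basis of TYPE, the upper character on inertia is the cyclotomic character. -/
theorem upper_eq_natCast {p : ℕ} [Fact p.Prime] {k : Type} [Field k]
    (ρbar : ResidualGaloisRep k)
    (hdet : (GaloisRepAdic.ofResidualGaloisRep ρbar).DetIsCyclotomic p)
    {ζ : Qb} (hζ : IsPrimitiveRoot ζ p) (b : Module.Basis (Fin 2) k ρbar.V) (σ : GQ)
    (h10 : LinearMap.toMatrix b b (ρbar.ρ σ) 1 0 = 0)
    (h11 : LinearMap.toMatrix b b (ρbar.ρ σ) 1 1 = 1) (a : ℕ) (ha : σ ζ = ζ ^ a) :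
    LinearMap.toMatrix b b (ρbar.ρ σ) 0 0 = (a : k) := by
  have h1 := det_eq_natCast_of_apply_zeta ρbar hdet hζ σ a ha
  rw [← LinearMap.det_toMatrix b, Matrix.det_fin_two, h10, h11, mul_zero, sub_zero, mul_one] at h1
  exact h1

/-- **The LEVEL INPUT** (`hlev` of `helper5221.card_slice12_le`) for the matrix cocycle of a flat
standard lift which is normalised (`c₂₁ = 0`, zero diagonal on inertia): every character
`Tr (l * c₁₂)` of inertia has a unit Kummer radicand which is a `p`-th power modulo `p` up to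
an inertia-fixed element.  From `helper4251.exists_peu_kummer_addHom` on the split model. -/
theorem hlev_of_flat {p : ℕ} [Fact p.Prime] {k : Type} [Field k] [Finite k] [Algebra (ZMod p) k]
    (ρbar : ResidualGaloisRep k) (hp2 : p ≠ 2)
    (hdet : (GaloisRepAdic.ofResidualGaloisRep ρbar).DetIsCyclotomic p)
    (P : ValuationSubring Qb) (hP : P.LiesOverPrime p) {ζ : Qb} (hζ : IsPrimitiveRoot ζ p)
    (b : Module.Basis (Fin 2) k ρbar.V)
    (hup : ∀ σ ∈ P.inertiaSubgroupIn ℚ, LinearMap.toMatrix b b (ρbar.ρ σ) 1 0 = 0)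
    (hχ2 : ∀ σ ∈ P.inertiaSubgroupIn ℚ, LinearMap.toMatrix b b (ρbar.ρ σ) 1 1 = 1)
    (c : LiftCocycle ρbar) (hfl : (stdLift c).IsFlatAt p)
    (hc10 : ∀ σ ∈ P.inertiaSubgroupIn ℚ, LinearMap.toMatrix b b (c.c σ) 1 0 = 0)
    (hc00 : ∀ σ ∈ P.inertiaSubgroupIn ℚ, LinearMap.toMatrix b b (c.c σ) 0 0 = 0)
    (hc11 : ∀ σ ∈ P.inertiaSubgroupIn ℚ, LinearMap.toMatrix b b (c.c σ) 1 1 = 0) (l : k) :
    ∃ y x : Qb, y ≠ 0 ∧ x ≠ 0 ∧
      (∀ σ ∈ P.inertiaSubgroupIn ℚ,
        σ y = ζ ^ (Algebra.trace (ZMod p) k (l * LinearMap.toMatrix b b (c.c σ) 0 1)).val * y) ∧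
      (∀ σ ∈ P.inertiaSubgroupIn ℚ, σ x = x) ∧
      P.valuation (y ^ p * x ^ p - 1) ≤ P.valuation (p : Qb) := by
  have hp0 : (p : k) = 0 := natCast_eq_zero_of_det hdet
  obtain ⟨H, hH⟩ := flatCoc_of_stdLift c hfl
  have hkill : ∀ z : ρbar.V × ρbar.V, p • z = 0 := by
    intro z
    have h1 : ∀ v : ρbar.V, p • v = 0 := fun v => by
      rw [← Nat.cast_smul_eq_nsmul k, hp0, zero_smul]
    exact Prod.ext (h1 z.1) (h1 z.2)
  -- the subgroup `L = l × l`, `l = k · b 0`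
  let φ : ρbar.V × ρbar.V →+ k × k :=
    ((b.coord 1).toAddMonoidHom.comp (AddMonoidHom.fst ρbar.V ρbar.V)).prod
      ((b.coord 1).toAddMonoidHom.comp (AddMonoidHom.snd ρbar.V ρbar.V))
  have hφ : ∀ z : ρbar.V × ρbar.V, z ∈ φ.ker ↔ b.repr z.1 1 = 0 ∧ b.repr z.2 1 = 0 := by
    intro z
    rw [AddMonoidHom.mem_ker]
    show ((b.coord 1) z.1, (b.coord 1) z.2) = 0 ↔ _
    rw [Prod.mk_eq_zero, Module.Basis.coord_apply, Module.Basis.coord_apply]
  -- the functional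
  let lam : ρbar.V × ρbar.V →+ ZMod p :=
    ((Algebra.trace (ZMod p) k).toAddMonoidHom.comp (AddMonoidHom.mulLeft l)).comp
      ((b.coord 0).toAddMonoidHom.comp (AddMonoidHom.fst ρbar.V ρbar.V))
  have hlam : ∀ z : ρbar.V × ρbar.V, lam z = Algebra.trace (ZMod p) k (l * b.repr z.1 0) :=
    fun z => rfl
  have hL1 : ∀ σ ∈ P.inertiaSubgroupIn ℚ, ∀ a : ℕ, σ ζ = ζ ^ a → ∀ z ∈ φ.ker,
      twAct (fun σ => ⇑(ρbar.ρ σ)) (fun σ => ⇑(c.c σ)) σ z = a • z := by
    intro σ hσ a ha z hz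
    obtain ⟨hz1, hz2⟩ := (hφ z).1 hz
    have h00 := upper_eq_natCast ρbar hdet hζ b σ (hup σ hσ) (hχ2 σ hσ) a ha
    have hρ : ∀ v : ρbar.V, b.repr v 1 = 0 → ρbar.ρ σ v = a • v := by
      intro v hv
      apply b.repr.injective
      ext i
      rw [repr_apply_end, hv, mul_zero, add_zero, ← Nat.cast_smul_eq_nsmul k, map_smul,
        Finsupp.smul_apply, smul_eq_mul]
      fin_cases i
      · show LinearMap.toMatrix b b (ρbar.ρ σ) 0 0 * b.repr v 0 = (a : k) * b.repr v 0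
        rw [h00]
      · show LinearMap.toMatrix b b (ρbar.ρ σ) 1 0 * b.repr v 0 = (a : k) * b.repr v 1
        rw [hup σ hσ, hv, zero_mul, mul_zero]
    have hc0 : ∀ v : ρbar.V, b.repr v 1 = 0 → c.c σ v = 0 := by
      intro v hv
      apply b.repr.injective
      ext i
      rw [repr_apply_end, hv, mul_zero, add_zero, map_zero b.repr, Finsupp.zero_apply]
      fin_cases i
      · show LinearMap.toMatrix b b (c.c σ) 0 0 * b.repr v 0 = 0
        rw [hc00 σ hσ, zero_mul]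
      · show LinearMap.toMatrix b b (c.c σ) 1 0 * b.repr v 0 = 0
        rw [hc10 σ hσ, zero_mul]
    have hav : b.repr (a • z.2) 1 = 0 := by
      rw [← Nat.cast_smul_eq_nsmul k, map_smul, Finsupp.smul_apply, hz2, smul_zero]
    refine Prod.ext ?_ ?_
    · show ρbar.ρ σ z.1 + c.c σ (ρbar.ρ σ z.2) = a • z.1
      rw [hρ z.1 hz1, hρ z.2 hz2, hc0 _ hav, add_zero]
    · show ρbar.ρ σ z.2 = a • z.2
      exact hρ z.2 hz2
  have hL2 : ∀ σ ∈ P.inertiaSubgroupIn ℚ, ∀ z : ρbar.V × ρbar.V,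
      twAct (fun σ => ⇑(ρbar.ρ σ)) (fun σ => ⇑(c.c σ)) σ z - z ∈ φ.ker := by
    intro σ hσ z
    rw [hφ]
    have hρ1 : ∀ v : ρbar.V, b.repr (ρbar.ρ σ v) 1 = b.repr v 1 := by
      intro v
      rw [repr_apply_end, hup σ hσ, hχ2 σ hσ, zero_mul, zero_add, one_mul]
    have hc1 : ∀ v : ρbar.V, b.repr (c.c σ v) 1 = 0 := by
      intro v
      rw [repr_apply_end, hc10 σ hσ, hc11 σ hσ, zero_mul, zero_mul, add_zero]
    constructor
    · show b.repr (ρbar.ρ σ z.1 + c.c σ (ρbar.ρ σ z.2) - z.1) 1 = 0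
      rw [map_sub, map_add, Finsupp.sub_apply, Finsupp.add_apply, hρ1, hc1, add_zero, sub_self]
    · show b.repr (ρbar.ρ σ z.2 - z.2) 1 = 0
      rw [map_sub, Finsupp.sub_apply, hρ1, sub_self]
  obtain ⟨s, w, hs, hw0, hσs, hσw, hval⟩ :=
    Fermat.Agent.S56.helper4251.exists_peu_kummer_addHom hp2 hP hH hkill hζ φ.ker hL1 hL2 lam
      ((0 : ρbar.V), b 1)
  have hs0 : s ≠ 0 := by
    intro h0
    rw [h0, map_zero] at hs
    exact zero_ne_one hs
  refine ⟨s, w, hs0, hw0, fun σ hσ => ?_, hσw, hval⟩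
  have h1 := hσs σ hσ
  have h2 : lam (twAct (fun σ => ⇑(ρbar.ρ σ)) (fun σ => ⇑(c.c σ)) σ ((0 : ρbar.V), b 1) -
      ((0 : ρbar.V), b 1)) =
      Algebra.trace (ZMod p) k (l * LinearMap.toMatrix b b (c.c σ) 0 1) := by
    rw [hlam]
    show Algebra.trace (ZMod p) k
      (l * b.repr (ρbar.ρ σ 0 + c.c σ (ρbar.ρ σ (b 1)) - 0) 0) = _
    rw [map_zero (ρbar.ρ σ), zero_add, sub_zero, repr_apply_end,
      repr_apply_end b (ρbar.ρ σ) (b 1) 1,
      repr_apply_end b (ρbar.ρ σ) (b 1) 0, hc00 σ hσ, zero_mul, zero_add, hup σ hσ, hχ2 σ hσ,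
      Module.Basis.repr_self, Finsupp.single_eq_same,
      Finsupp.single_eq_of_ne (by decide : (0 : Fin 2) ≠ 1), mul_zero, zero_add, mul_one, mul_one]
  rw [h2] at h1
  exact h1

/-- **FLAT-LOCAL, reducible case** (`helper6366.Stmt_FlatRed`), closed. -/
theorem stmt_FlatRed : Stmt_FlatRed := by
  intro p _ k _ ρbar h hline
  classical
  have hp : p.Prime := Fact.out
  have hfin : Finite k := h.fin
  have hp0 : (p : k) = 0 := natCast_eq_zero_of_det h.det
  haveI : CharP k p := (CharP.charP_iff_prime_eq_zero hp).mpr hp0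
  letI : Algebra (ZMod p) k := ZMod.algebra k p
  by_cases hex : ∃ c : LiftCocycle ρbar, (stdLift c).IsFlatAt p
  swap
  · exact flatTangentAt_of_forall_not p ρbar (fun c _ hfl => hex ⟨c, hfl⟩)
  obtain ⟨c1, hc1⟩ := hex
  have hV : Fermat.Agent.S32.helper1304.HasFunModel p ρbar.V (fun σ x => ρbar.ρ σ x) :=
    Fermat.Agent.S56.helper56.hasFunModel_residual_of_isFlatAt p c1 hc1
  have hP : (padicPlace p).LiesOverPrime p :=
    Fermat.Agent.S55.helper4145.padicPlace_liesOverPrime p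
  obtain ⟨ζ, hζ⟩ : ∃ ζ : Qb, IsPrimitiveRoot ζ p := by
    haveI : NeZero p := ⟨hp.ne_zero⟩
    exact HasEnoughRootsOfUnity.exists_primitiveRoot Qb p
  obtain ⟨l, hl1, hl⟩ := hline
  -- TYPE
  have hEIG := Fermat.Agent.S56.helper56.eig_of_TT ρbar hp h.det (padicPlace p) hP hζ l hl1 hl
    (fun x hx hI => Fermat.Agent.S56.helper2444.tame_type_of_hasFunModel hp hP hζ ρbar.V _ hV x hx
      (Fermat.Agent.S56.helper56.residual_nsmul_eq_zero x) hI)
  obtain ⟨b, hup, hχ2, τ, hτ, hτ0⟩ := Fermat.Agent.S56.helper56.exists_basis_of_hasFunModel ρbar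
    hp h.odd hV h.det (padicPlace p) hP l hl1 hl hEIG
  have hID : ∀ s ∈ (padicPlace p).inertiaSubgroupIn ℚ, s ∈ decP p := fun s hs =>
    Fermat.Agent.S05.helper4205.mem_decomposition_of_mem_inertiaSubgroupIn hs
  have hmemI : ∀ σ : ↥(decP p), σ ∈ inP p ↔ (σ : GQ) ∈ (padicPlace p).inertiaSubgroupIn ℚ :=
    Fermat.Agent.S56.helper6024.mem_inertiaSubgroup_iff (padicPlace p)
  have hupM : ∀ σ, matRep p ρbar b σ 1 0 = 0 := fun σ => hup (σ : GQ) σ.2
  have hχ2M : ∀ σ ∈ inP p, matRep p ρbar b σ 1 1 = 1 := fun σ hσ =>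
    hχ2 (σ : GQ) ((hmemI σ).1 hσ)
  let τ₀ : ↥(decP p) := ⟨τ, hID τ hτ⟩
  have hτ₀I : τ₀ ∈ inP p := (hmemI τ₀).2 hτ
  have hτ₀ : matRep p ρbar b τ₀ 0 0 ≠ 1 := hτ0
  -- SHAPE
  have hshape := fun (c : LiftCocycle ρbar) (hfl : (stdLift c).IsFlatAt p)
      (htr : ∀ g, LinearMap.trace k ρbar.V (c.c g) = 0) =>
    exists_shape_of_flat p ρbar b h hupM hχ2M hτ₀I hτ₀ c hfl htr
  -- COUNT
  have hQlev : ∀ c ∈ flatZmat p ρbar (decP p) b, ∃ F : IntermediateField ℚ Qb,
      FiniteDimensional ℚ F ∧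
      ∀ s : ↥(decP p), (s : GQ) ∈ F.fixingSubgroup → c s = 0 := by
    intro c hc
    obtain ⟨L, hL, hlev⟩ := exists_level_of_mem_flatZmat hc
    exact ⟨L, hL, fun s hs =>
      (hlev s ((IntermediateField.mem_fixingSubgroup_iff L (s : GQ)).1 hs)).2.1⟩
  have hη : ∀ n ∈ inertiaZeta (padicPlace p) ζ,
      matRep p ρbar b n 0 0 * matRep p ρbar b n⁻¹ 1 1 = 1 := by
    intro n hn
    have hnI : (n : GQ) ∈ (padicPlace p).inertiaSubgroupIn ℚ := hn.1
    have h00 : matRep p ρbar b n 0 0 = 1 := by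
      have := upper_eq_natCast ρbar h.det hζ b (n : GQ) (hup _ n.2) (hχ2 _ hnI) 1
        (by rw [pow_one]; exact hn.2)
      rw [Nat.cast_one] at this
      exact this
    rw [h00, hχ2M _ (inv_mem ((hmemI n).2 hnI)), one_mul]
  have hunif : ∀ x : Qb, x ≠ 0 →
      (∀ s ∈ (padicPlace p).inertiaSubgroupIn ℚ, s ζ = ζ → s x = x) →
      ∃ n : ℤ, (padicPlace p).valuation x = (padicPlace p).valuation (ζ - 1) ^ n :=
    fun x hx hfix =>
      Fermat.Agent.S56.helper4753.exists_zpow_valuation_eq_of_inertiaStab_fixed hp hP hζ hx hfix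
  have hlev : ∀ c ∈ Zsh (matRep p ρbar b) (inP p) ⊓ flatZmat p ρbar (decP p) b,
      (∀ σ, c σ 0 0 = 0) → ∀ l : k, ∃ y x : Qb, y ≠ 0 ∧ x ≠ 0 ∧
      (∀ s : ↥(decP p), s ∈ inertiaZeta (padicPlace p) ζ →
        (s : GQ) y = ζ ^ (Algebra.trace (ZMod p) k (l * c s 0 1)).val * y) ∧
      (∀ s ∈ inertiaZetaQ (padicPlace p) ζ, s x = x) ∧
      (padicPlace p).valuation (y ^ p * x ^ p - 1) ≤ (padicPlace p).valuation (p : Qb) := by
    intro c hc hc0 l'
    obtain ⟨c', hfl', htr', hres⟩ := exists_flat_of_mem_flatZmat hV hc.2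
    obtain ⟨-, hctr, hc10, -⟩ := hc.1
    have hc11 : ∀ σ, c σ 1 1 = 0 := by
      intro σ
      have h1 := hctr σ
      rw [Matrix.trace_fin_two, hc0 σ, zero_add] at h1
      exact h1
    obtain ⟨y, x, hy, hx, hσy, hσx, hval⟩ := hlev_of_flat ρbar h.odd h.det (padicPlace p) hP hζ b
      (fun σ hσ => hup σ (hID σ hσ)) hχ2 c' hfl'
      (fun σ hσ => by rw [← hres ⟨σ, hID σ hσ⟩]; exact hc10 _)
      (fun σ hσ => by rw [← hres ⟨σ, hID σ hσ⟩]; exact hc0 _)
      (fun σ hσ => by rw [← hres ⟨σ, hID σ hσ⟩]; exact hc11 _) l'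
    refine ⟨y, x, hy, hx, fun s hs => ?_, fun s hs => hσx s hs.1, hval⟩
    rw [hres s]
    exact hσy (s : GQ) hs.1
  have hcard := card_slice12_le (padicPlace p) hP hζ (matRep p ρbar b) hupM (inP p)
    (flatZmat p ρbar (decP p) b) hQlev hη hunif hlev
  exact flatTangentAt_of_red p ρbar b h hupM hshape (inertiaZeta (padicPlace p) ζ) τ₀
    (eta_ne_one_of_inertia (inP p) hχ2M hτ₀I hτ₀)
    (fun σ => comm_inertiaZeta hp.pos hζ τ₀ σ hτ) hcard

end Fermat.Agent.S56.helper7147
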