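import Mathlib
import Fermat.Prelude.Def_GroupCohomology_ContinuousUnramified
import Fermat.Agent.Lib.helper54_Frobenius
import Fermat.Agent.Lib.helper954_QbarPlaces
import Fermat.Agent.S55.helper4145_Decomp
import Fermat.Agent.S56.helper4859_TWPrimes

/-!
# S56 / TW-R6 (P3), helper1028: the local adapter on the frozen S55 carriers

The restriction of a class `x ∈ H¹(G_ℚ, M)` to the frozen local group at `q` is Mathlib's
`groupCohomology.map (primeLocalToGlobal q) (𝟙 _) 1` (the underlying map of `resH1S` /
`resTotal`, `helper7860.coe_resH1S`).  Everything below is unconditional and needs NO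
hypothesis on `M` or `x` at `q` unless stated.

* `exists_eq_sub_of_map_eq_zero` : a cocycle whose class restricts to `0` at `q` is a coboundary
  on the decomposition group of the frozen place `primeLocalPlace q`;
* `classTrivAt_of_map_eq_zero`   : then `x` is trivial (`helper4859.ClassTrivAt`) at EVERY
  element of the decomposition group of EVERY place over `q` (in particular at every Frobenius);
* `exists_frobenius_classTrivAt` : the form consumed by `helper4859.exists_tw_primes`;
* `locRes_eq_zero_of_eq_sub` / `locRes_eq_zero_iff` : the converse (a class trivial on the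
  whole decomposition group by ONE coboundary witness restricts to `0`).
-/

set_option autoImplicit false

namespace Fermat.Agent.S56.helper1028

open groupCohomology CategoryTheory ExtCitation
open scoped Pointwise

local notation "Qb" => AlgebraicClosure ℚ
local notation "GQ" => (AlgebraicClosure ℚ ≃ₐ[ℚ] AlgebraicClosure ℚ)

section General

variable {R : Type} [CommRing R] (M : Rep.{0, 0, 0} R GQ)

/-- If the class of the cocycle `c` dies in `H¹` of the frozen local group at `q`, then `c` is a
coboundary on the decomposition group of the frozen place over `q`. -/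
theorem exists_eq_sub_of_map_eq_zero (q : Nat.Primes) (c : cocycles₁ M)
    (h : (groupCohomology.map (primeLocalToGlobal q)
      (𝟙 (Rep.res (primeLocalToGlobal q) M)) 1).hom ((H1π M).hom c) = 0) :
    ∃ m : M, ∀ φ ∈ (primeLocalPlace q).decompositionSubgroup ℚ,
      (c : GQ → M) φ = M.ρ φ m - m := by
  rw [H1π_comp_map_apply, H1π_eq_zero_iff] at h
  obtain ⟨m, hm⟩ := h
  refine ⟨m, fun φ hφ => ?_⟩
  obtain ⟨d, rfl⟩ := Fermat.Agent.S55.helper4145.exists_primeLocalToGlobal_eq q hφ
  exact (congrFun hm d).symm

/-- Converse: a cocycle which is a coboundary on the decomposition group of the frozen place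
over `q` has trivial class in `H¹` of the frozen local group at `q`. -/
theorem locRes_eq_zero_of_eq_sub (q : Nat.Primes) (c : cocycles₁ M) (m : M)
    (hm : ∀ φ ∈ (primeLocalPlace q).decompositionSubgroup ℚ, (c : GQ → M) φ = M.ρ φ m - m) :
    (groupCohomology.map (primeLocalToGlobal q)
      (𝟙 (Rep.res (primeLocalToGlobal q) M)) 1).hom ((H1π M).hom c) = 0 := by
  rw [H1π_comp_map_apply, H1π_eq_zero_iff]
  refine ⟨m, funext fun d => ?_⟩
  have h1 := hm (primeLocalToGlobal q d) (by
    rw [← Fermat.Agent.S55.helper4145.primeLocalToGlobal_range]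
    exact ⟨d, rfl⟩)
  exact h1.symm

theorem locRes_eq_zero_iff (q : Nat.Primes) (c : cocycles₁ M) :
    (groupCohomology.map (primeLocalToGlobal q)
      (𝟙 (Rep.res (primeLocalToGlobal q) M)) 1).hom ((H1π M).hom c) = 0 ↔
    ∃ m : M, ∀ φ ∈ (primeLocalPlace q).decompositionSubgroup ℚ,
      (c : GQ → M) φ = M.ρ φ m - m :=
  ⟨exists_eq_sub_of_map_eq_zero M q c, fun ⟨m, hm⟩ => locRes_eq_zero_of_eq_sub M q c m hm⟩

end General

/-! ## The `ClassTrivAt` form (vocabulary of `helper4859_TWPrimes`) -/

section ClassTriv

open Fermat.Agent.S56.helper4859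

variable {p : ℕ} [Fact p.Prime] (M : Rep.{0, 0, 0} (ZMod p) GQ)

/-- **Local adapter.**  A class whose restriction to the frozen local group at `q` is `0` is
trivial at every element of the decomposition group of every place over `q`. -/
theorem classTrivAt_of_map_eq_zero (q : Nat.Primes) (x : H1 M)
    (h : (groupCohomology.map (primeLocalToGlobal q)
      (𝟙 (Rep.res (primeLocalToGlobal q) M)) 1).hom x = 0)
    (P : ValuationSubring Qb) (hP : P.LiesOverPrime (q : ℕ)) (φ : GQ)
    (hφ : φ ∈ P.decompositionSubgroup ℚ) : ClassTrivAt M x φ := by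
  induction x using H1_induction_on with
  | h c =>
    obtain ⟨m, hm⟩ := exists_eq_sub_of_map_eq_zero M q c h
    obtain ⟨g, rfl⟩ := Fermat.Agent.Lib.helper954.exists_smul_eq q.2 (primeLocalPlace q) P
      (Fermat.Agent.S55.helper4145.primeLocalPlace_liesOverPrime q) hP
    have hψ : g⁻¹ * φ * g ∈ (primeLocalPlace q).decompositionSubgroup ℚ := by
      rw [ValuationSubring.decompositionSubgroup, MulAction.mem_stabilizer_iff] at hφ ⊢
      rw [mul_smul, mul_smul, hφ, inv_smul_smul]
    have h1 : TrivAt (actOf M) (c : GQ → M) (g⁻¹ * φ * g) := ⟨m, hm _ hψ⟩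
    have h2 := h1.conj (isCoc_of_cocycle M c) g
    have e : g * (g⁻¹ * φ * g) * g⁻¹ = φ := by group
    rw [e] at h2
    exact (classTrivAt_iff c φ).2 h2

/-- ... in particular at every Frobenius element at every place over `q`. -/
theorem classTrivAt_frobenius_of_map_eq_zero (q : Nat.Primes) (x : H1 M)
    (h : (groupCohomology.map (primeLocalToGlobal q)
      (𝟙 (Rep.res (primeLocalToGlobal q) M)) 1).hom x = 0)
    (P : ValuationSubring Qb) (hP : P.LiesOverPrime (q : ℕ)) (φ : GQ)
    (hφ : P.IsFrobeniusAt φ (q : ℕ)) : ClassTrivAt M x φ :=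
  classTrivAt_of_map_eq_zero M q x h P hP φ hφ.mem_decompositionSubgroup

/-- The form consumed by `helper4859.exists_tw_primes`: a class locally trivial at `q` is trivial
at some Frobenius element at some place over `q`. -/
theorem exists_frobenius_classTrivAt (q : Nat.Primes) (x : H1 M)
    (h : (groupCohomology.map (primeLocalToGlobal q)
      (𝟙 (Rep.res (primeLocalToGlobal q) M)) 1).hom x = 0) :
    ∃ (P : ValuationSubring Qb) (φ : GQ), P.LiesOverPrime (q : ℕ) ∧
      P.IsFrobeniusAt φ (q : ℕ) ∧ ClassTrivAt M x φ := by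
  have hP := Fermat.Agent.S55.helper4145.primeLocalPlace_liesOverPrime q
  obtain ⟨φ, hφ⟩ := Fermat.Agent.Lib.helper54.exists_isFrobeniusAt q.2 (primeLocalPlace q) hP
  exact ⟨primeLocalPlace q, φ, hP, hφ, classTrivAt_frobenius_of_map_eq_zero M q x h _ hP φ hφ⟩

end ClassTriv

end Fermat.Agent.S56.helper1028
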