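/-
S56 flat-local chain, brick KUM (helper1214).  Mathlib only.

Discriminant lower bound for a Kummer extension `K(y)`, `y ^ p ∈ K`, of a discretely valued
field, in "evaluation determinant" form: no automorphisms, no maximal orders, arbitrary
(multiplicative) valuation on an ambient field `Ω`.
-/
import Mathlib

namespace Fermat.Agent.S56.helper1214

open Finset

variable {Ω : Type*} [Field Ω] {Γ₀ : Type*} [LinearOrderedCommGroupWithZero Γ₀]

/-- The valuation of a natural number is at most one. -/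
theorem val_natCast_le_one (v : Valuation Ω Γ₀) (n : ℕ) : v (n : Ω) ≤ 1 := by
  induction n with
  | zero => simp
  | succ n ih =>
    rw [Nat.cast_succ]
    exact le_trans (v.map_add _ _) (max_le ih (by simp))

/-- If the nonzero terms of a finite sum have pairwise distinct valuations, every term is
bounded by the sum. -/
theorem val_term_le_sum (v : Valuation Ω Γ₀) {ι : Type*} [DecidableEq ι] (s : Finset ι)
    (f : ι → Ω)
    (hne : ∀ i ∈ s, ∀ j ∈ s, i ≠ j → f i ≠ 0 → f j ≠ 0 → v (f i) ≠ v (f j)) :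
    ∀ i ∈ s, v (f i) ≤ v (∑ j ∈ s, f j) := by
  intro i hi
  obtain ⟨i0, hi0, hmax⟩ := s.exists_max_image (fun j => v (f j)) ⟨i, hi⟩
  by_cases h0 : f i0 = 0
  · have : v (f i) ≤ v (f i0) := hmax i hi
    rw [h0, map_zero] at this
    exact le_trans this zero_le
  · have hpos : v (f i0) ≠ 0 := (v.ne_zero_iff).mpr h0
    have hlt : ∀ j ∈ s.erase i0, v (f j) < v (f i0) := by
      intro j hj
      have hj' := Finset.mem_erase.mp hj
      by_cases hfj : f j = 0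
      · rw [hfj, map_zero]; exact zero_lt_iff.mpr hpos
      · exact lt_of_le_of_ne (hmax j hj'.2) (hne j hj'.2 i0 hi0 hj'.1 hfj h0)
    have hsum : v (∑ j ∈ s.erase i0, f j) < v (f i0) := v.map_sum_lt hpos hlt
    have : v (∑ j ∈ s, f j) = v (f i0) := by
      rw [← Finset.add_sum_erase s f hi0]
      exact v.map_add_eq_of_lt_left hsum
    rw [this]; exact hmax i hi

/-- Column-wise bounds on the entries bound the determinant. -/
theorem val_det_le (v : Valuation Ω Γ₀) {n : ℕ} (B : Matrix (Fin n) (Fin n) Ω) (g : Fin n → Γ₀)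
    (h : ∀ i k, v (B i k) ≤ g k) : v B.det ≤ ∏ k, g k := by
  rw [Matrix.det_apply']
  apply v.map_sum_le
  intro σ _
  rw [map_mul, map_prod]
  have h1 : v ((Equiv.Perm.sign σ : ℤ) : Ω) = 1 := by
    rcases Int.units_eq_one_or (Equiv.Perm.sign σ) with h | h <;> simp [h]
  rw [h1, one_mul]
  exact Finset.prod_le_prod (fun _ _ => zero_le) (fun i _ => h (σ i) i)

theorem prod_zpow_eq_zpow_sum {a : Γ₀} (ha : a ≠ 0) {ι : Type*} (s : Finset ι) (f : ι → ℤ) :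
    ∏ i ∈ s, a ^ f i = a ^ ∑ i ∈ s, f i := by
  classical
  induction s using Finset.induction_on with
  | empty => simp
  | insert i s hi ih => rw [Finset.prod_insert hi, Finset.sum_insert hi, ih, zpow_add₀ ha]

/-- `⌊a/p⌋ + ⌊(m p - a)/p⌋ = m - 1` when `p ∤ a`. -/
theorem ediv_add_ediv_sub {p : ℤ} (hp : 0 < p) (m a : ℤ) (ha : ¬ p ∣ a) :
    a / p + (m * p - a) / p = m - 1 := by
  have hr0 : 0 ≤ a % p := Int.emod_nonneg a hp.ne'
  have hr1 : a % p < p := Int.emod_lt_of_pos a hp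
  have hr2 : a % p ≠ 0 := fun h => ha (Int.dvd_of_emod_eq_zero h)
  have hdec : a % p + p * (a / p) = a := Int.emod_add_mul_ediv a p
  have key : (m * p - a) / p = m - a / p - 1 ∧ (m * p - a) % p = p - a % p := by
    rw [Int.ediv_emod_unique hp]
    refine ⟨?_, by omega, by omega⟩
    linear_combination -hdec
  rw [key.1]; ring

/-- The floor sum `2 ∑_{k<p} ⌊m k / p⌋ = (m-1)(p-1)` for `p` prime, `p ∤ m`. -/
theorem two_mul_floor_sum {p : ℕ} (hp : p.Prime) (m : ℤ) (hmp : ¬ (p : ℤ) ∣ m) :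
    2 * ∑ k ∈ range p, (m * (k : ℤ) / (p : ℤ)) = (m - 1) * ((p : ℤ) - 1) := by
  obtain ⟨q, rfl⟩ : ∃ q, p = q + 1 := ⟨p - 1, (Nat.succ_pred_eq_of_pos hp.pos).symm⟩
  have hp0 : (0 : ℤ) < ((q + 1 : ℕ) : ℤ) := by exact_mod_cast hp.pos
  rw [Finset.sum_range_succ']
  simp only [Nat.cast_zero, mul_zero, Int.zero_ediv, add_zero]
  set g : ℕ → ℤ := fun j => m * ((j + 1 : ℕ) : ℤ) / ((q + 1 : ℕ) : ℤ) with hg
  have hrefl : ∑ j ∈ range q, g (q - 1 - j) = ∑ j ∈ range q, g j := Finset.sum_range_reflect g q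
  have hpair : ∀ j ∈ range q, g j + g (q - 1 - j) = m - 1 := by
    intro j hj
    have hjq : j < q := Finset.mem_range.mp hj
    have hndvd : ¬ ((q + 1 : ℕ) : ℤ) ∣ m * ((j + 1 : ℕ) : ℤ) := by
      intro hd
      rcases Int.Prime.dvd_mul' hp hd with h | h
      · exact hmp h
      · have : (q + 1) ∣ (j + 1) := by exact_mod_cast h
        have := Nat.le_of_dvd (Nat.succ_pos j) this
        omega
    have hcast : (((q - 1 - j + 1 : ℕ)) : ℤ) = ((q + 1 : ℕ) : ℤ) - ((j + 1 : ℕ) : ℤ) := by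
      have : q - 1 - j + 1 = q - j := by omega
      rw [this]; push_cast [Nat.cast_sub hjq.le]; ring
    have := ediv_add_ediv_sub hp0 m (m * ((j + 1 : ℕ) : ℤ)) hndvd
    simp only [hg]
    rw [hcast, mul_sub]
    exact this
  have : 2 * ∑ j ∈ range q, g j = ∑ j ∈ range q, (g j + g (q - 1 - j)) := by
    rw [Finset.sum_add_distrib, hrefl]; ring
  rw [this, Finset.sum_congr rfl hpair]
  simp only [Finset.sum_const, Finset.card_range, nsmul_eq_mul]
  push_cast; ring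

section gen

variable (v : Valuation Ω Γ₀) (K : Subfield Ω) {p : ℕ} {π : Ω} {lam : Ω} {m : ℤ}

/-- `(v π ^ n * v lam ^ k) ^ p = v π ^ (n p + m k)` when `v lam ^ p = v π ^ m`. -/
theorem zpow_key (hπ0 : π ≠ 0) (hlam : v lam ^ p = v π ^ m) (n : ℤ) (k : ℕ) :
    (v π ^ n * v lam ^ k) ^ p = v π ^ (n * p + m * k) := by
  have hne : v π ≠ 0 := (v.ne_zero_iff).mpr hπ0
  rw [mul_pow, ← pow_mul, mul_comm k p, pow_mul, hlam, ← zpow_natCast (v π ^ n) p, ← zpow_mul,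
    ← zpow_natCast (v π ^ m) k, ← zpow_mul, ← zpow_add₀ hne]

/-- The terms `b k * lam ^ k`, `k < p`, `b k ∈ K`, have pairwise distinct valuations. -/
theorem val_terms_ne (hp : p.Prime) (hπ0 : π ≠ 0) (hπ1 : v π < 1)
    (hK : ∀ x ∈ K, x ≠ 0 → ∃ n : ℤ, v x = v π ^ n)
    (hlam : v lam ^ p = v π ^ m) (hmp : ¬ (p : ℤ) ∣ m)
    (b : Fin p → Ω) (hb : ∀ k, b k ∈ K) (k l : Fin p) (hkl : k ≠ l)
    (hk : b k * lam ^ (k : ℕ) ≠ 0) (hl : b l * lam ^ (l : ℕ) ≠ 0) :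
    v (b k * lam ^ (k : ℕ)) ≠ v (b l * lam ^ (l : ℕ)) := by
  intro heq
  have hvπ0 : 0 < v π := zero_lt_iff.mpr ((v.ne_zero_iff).mpr hπ0)
  have hinj := zpow_right_injective₀ hvπ0 (ne_of_lt hπ1)
  obtain ⟨nk, hnk⟩ := hK (b k) (hb k) (left_ne_zero_of_mul hk)
  obtain ⟨nl, hnl⟩ := hK (b l) (hb l) (left_ne_zero_of_mul hl)
  rw [map_mul, map_mul, map_pow, map_pow, hnk, hnl] at heq
  have h2 := congrArg (fun x => x ^ p) heq
  simp only [zpow_key v hπ0 hlam] at h2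
  have h3 : nk * p + m * k = nl * p + m * l := hinj h2
  have h4 : (p : ℤ) ∣ m * ((l : ℤ) - k) := ⟨nk - nl, by linear_combination -h3⟩
  rcases Int.Prime.dvd_mul' hp h4 with h | h
  · exact hmp h
  · have hk' := k.2
    have hl' := l.2
    have hne : (l : ℤ) - k ≠ 0 := by
      intro h0
      apply hkl
      apply Fin.ext
      omega
    have := Int.le_of_dvd (abs_pos.mpr hne) ((dvd_abs _ _).mpr h)
    rcases abs_cases ((l : ℤ) - k) with h5 | h5 <;> omega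

/-- Coefficient bound: an integral element `∑ b k lam ^ k` has `v (b k) ≤ v π ^ (-⌊m k / p⌋)`. -/
theorem val_coeff_le (hp : p.Prime) (hπ0 : π ≠ 0) (hπ1 : v π < 1)
    (hK : ∀ x ∈ K, x ≠ 0 → ∃ n : ℤ, v x = v π ^ n)
    (hlam : v lam ^ p = v π ^ m) (hmp : ¬ (p : ℤ) ∣ m)
    (b : Fin p → Ω) (hb : ∀ k, b k ∈ K) (hz : v (∑ k, b k * lam ^ (k : ℕ)) ≤ 1) (k : Fin p) :
    v (b k) ≤ v π ^ (-(m * (k : ℤ) / (p : ℤ))) := by
  have hvπ0 : 0 < v π := zero_lt_iff.mpr ((v.ne_zero_iff).mpr hπ0)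
  by_cases hbk : b k = 0
  · rw [hbk, map_zero]; exact zero_le
  have hlam0 : lam ≠ 0 := by
    intro h
    rw [h, map_zero, zero_pow hp.ne_zero] at hlam
    exact (zpow_ne_zero m hvπ0.ne') hlam.symm
  have hterm : v (b k * lam ^ (k : ℕ)) ≤ 1 := by
    refine le_trans (val_term_le_sum v Finset.univ (fun k => b k * lam ^ (k : ℕ)) ?_ k
      (Finset.mem_univ k)) hz
    intro i _ j _ hij hi hj
    exact val_terms_ne v K hp hπ0 hπ1 hK hlam hmp b hb i j hij hi hj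
  obtain ⟨n, hn⟩ := hK (b k) (hb k) hbk
  rw [map_mul, map_pow, hn] at hterm
  have h2 : (v π ^ n * v lam ^ (k : ℕ)) ^ p ≤ 1 := pow_le_one₀ zero_le hterm
  rw [zpow_key v hπ0 hlam, ← zpow_zero (v π), zpow_le_zpow_iff_right_of_lt_one₀ hvπ0 hπ1] at h2
  have hp0 : (0 : ℤ) < p := by exact_mod_cast hp.pos
  have h3 : -n ≤ m * (k : ℤ) / (p : ℤ) := by
    have := Int.ediv_le_ediv hp0 (show (-n) * (p : ℤ) ≤ m * (k : ℤ) by linarith)
    rwa [Int.mul_ediv_cancel _ hp0.ne'] at this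
  rw [hn]
  exact zpow_le_zpow_right_of_le_one₀ hvπ0 hπ1.le (by linarith)

/-- GEN: the coefficient matrix of `p` integral elements with respect to the powers of an
element `lam` with `v lam ^ p = v π ^ m`, `p ∤ m`, has `v (det) ^ 2 ≤ v π ^ (-(m-1)(p-1))`. -/
theorem val_det_sq_le (hp : p.Prime) (hπ0 : π ≠ 0) (hπ1 : v π < 1)
    (hK : ∀ x ∈ K, x ≠ 0 → ∃ n : ℤ, v x = v π ^ n)
    (hlam : v lam ^ p = v π ^ m) (hmp : ¬ (p : ℤ) ∣ m)
    (b : Matrix (Fin p) (Fin p) Ω) (hb : ∀ i k, b i k ∈ K)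
    (hz : ∀ i, v (∑ k, b i k * lam ^ (k : ℕ)) ≤ 1) :
    v b.det ^ 2 ≤ v π ^ (-((m - 1) * ((p : ℤ) - 1))) := by
  have hvπ0 : 0 < v π := zero_lt_iff.mpr ((v.ne_zero_iff).mpr hπ0)
  have h1 : v b.det ≤ ∏ k : Fin p, v π ^ (-(m * (k : ℤ) / (p : ℤ))) :=
    val_det_le v b _ (fun i k => val_coeff_le v K hp hπ0 hπ1 hK hlam hmp (b i) (hb i) (hz i) k)
  rw [prod_zpow_eq_zpow_sum hvπ0.ne'] at h1
  have h2 : v b.det ^ 2 ≤ (v π ^ ∑ k : Fin p, (-(m * (k : ℤ) / (p : ℤ)))) ^ 2 :=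
    pow_le_pow_left₀ zero_le h1 2
  have h3 : (∑ k : Fin p, (-(m * (k : ℤ) / (p : ℤ)))) * 2 = -((m - 1) * ((p : ℤ) - 1)) := by
    have := two_mul_floor_sum hp m hmp
    rw [Fin.sum_univ_eq_sum_range (fun k => -(m * (k : ℤ) / (p : ℤ))) p, Finset.sum_neg_distrib]
    linarith
  have h4 : (v π ^ ∑ k : Fin p, (-(m * (k : ℤ) / (p : ℤ)))) ^ 2
      = v π ^ (-((m - 1) * ((p : ℤ) - 1))) := by
    rw [← h3, zpow_mul]; exact (zpow_natCast _ 2).symm
  rwa [h4] at h2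

end gen

section roots

variable (v : Valuation Ω Γ₀) {p : ℕ} {ζ : Ω}

theorem val_zeta (hp : p.Prime) (hζ : IsPrimitiveRoot ζ p) : v ζ = 1 := by
  have h : v ζ ^ p = 1 := by rw [← map_pow, hζ.pow_eq_one, map_one]
  exact (pow_eq_one_iff_left hp.ne_zero).mp h

theorem val_zeta_pow (hp : p.Prime) (hζ : IsPrimitiveRoot ζ p) (n : ℕ) : v (ζ ^ n) = 1 := by
  rw [map_pow, val_zeta v hp hζ, one_pow]

theorem val_geom_sum_le_one (x : Ω) (hx : v x = 1)
    (n : ℕ) : v (∑ i ∈ range n, x ^ i) ≤ 1 := by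
  apply v.map_sum_le
  intro i _
  rw [map_pow, hx, one_pow]

/-- `v (ζ ^ d - 1) = v (ζ - 1)` for `0 < d < p`. -/
theorem val_zeta_pow_sub_one (hp : p.Prime) (hζ : IsPrimitiveRoot ζ p) {d : ℕ} (hd0 : 0 < d)
    (hdp : d < p) : v (ζ ^ d - 1) = v (ζ - 1) := by
  apply le_antisymm
  · rw [← mul_geom_sum ζ d, map_mul]
    exact mul_le_of_le_one_right' (val_geom_sum_le_one v ζ (val_zeta v hp hζ) d)
  · have hcop : Nat.Coprime d p :=
      ((Nat.Prime.coprime_iff_not_dvd hp).mpr (Nat.not_dvd_of_pos_of_lt hd0 hdp)).symm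
    obtain ⟨d', -, hd'⟩ := Nat.exists_mul_mod_eq_one_of_coprime hcop hp.one_lt
    have hζ' : (ζ ^ d) ^ d' = ζ := by
      rw [← pow_mul, pow_eq_pow_mod (d * d') hζ.pow_eq_one, hd', pow_one]
    have h2 : ζ - 1 = (ζ ^ d - 1) * ∑ i ∈ range d', (ζ ^ d) ^ i := by
      rw [mul_geom_sum, hζ']
    rw [h2, map_mul]
    exact mul_le_of_le_one_right' (val_geom_sum_le_one v (ζ ^ d) (val_zeta_pow v hp hζ d) d')

/-- `v p = v (ζ - 1) ^ (p - 1)`. -/
theorem val_prime_eq (hp : p.Prime) (hζ : IsPrimitiveRoot ζ p) :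
    v (p : Ω) = v (ζ - 1) ^ (p - 1) := by
  obtain ⟨q, rfl⟩ : ∃ q, p = q + 1 := ⟨p - 1, (Nat.succ_pred_eq_of_pos hp.pos).symm⟩
  have h := hζ.prod_one_sub_pow_eq_order
  have h2 : v ((q : Ω) + 1) = ∏ k ∈ range q, v (1 - ζ ^ (k + 1)) := by rw [← h, map_prod]
  rw [Nat.cast_succ, h2, Nat.add_sub_cancel]
  rw [Finset.prod_congr rfl (fun k hk => ?_), Finset.prod_const, Finset.card_range]
  rw [← v.map_neg, neg_sub]
  exact val_zeta_pow_sub_one v hp hζ (Nat.succ_pos k)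
    (by have := Finset.mem_range.mp hk; omega)

/-- Valuation of the Vandermonde determinant of the conjugates `ζ ^ j * y`. -/
theorem val_det_vandermonde_sq (hp : p.Prime) (hζ : IsPrimitiveRoot ζ p) (y : Ω) :
    v (Matrix.vandermonde (fun j : Fin p => ζ ^ (j : ℕ) * y)).det ^ 2
      = (v (ζ - 1) * v y) ^ (p * (p - 1)) := by
  rw [Matrix.det_vandermonde, map_prod]
  have h1 : ∀ i : Fin p, v (∏ j ∈ Finset.Ioi i, (ζ ^ (j : ℕ) * y - ζ ^ (i : ℕ) * y))
      = (v (ζ - 1) * v y) ^ (p - 1 - (i : ℕ)) := by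
    intro i
    rw [map_prod, Finset.prod_congr rfl (fun j hj => ?_), Finset.prod_const, Fin.card_Ioi]
    have hij : (i : ℕ) < j := Fin.lt_def.mp (Finset.mem_Ioi.mp hj)
    have hj' := j.2
    have : ζ ^ (j : ℕ) * y - ζ ^ (i : ℕ) * y = ζ ^ (i : ℕ) * (ζ ^ ((j : ℕ) - i) - 1) * y := by
      rw [mul_sub, ← pow_add, Nat.add_sub_cancel' hij.le]; ring
    rw [this, map_mul, map_mul, val_zeta_pow v hp hζ, one_mul,
      val_zeta_pow_sub_one v hp hζ (Nat.sub_pos_of_lt hij) (by omega)]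
  rw [Finset.prod_congr rfl (fun i _ => h1 i), Finset.prod_pow_eq_pow_sum, ← pow_mul]
  congr 1
  rw [Fin.sum_univ_eq_sum_range (fun i => p - 1 - i) p, Finset.sum_range_reflect (fun i => i) p]
  exact Finset.sum_range_id_mul_two p

/-- The evaluation matrix at the conjugates is `a * Vᵀ`. -/
theorem eval_matrix_eq (a : Matrix (Fin p) (Fin p) Ω) (ζ y : Ω) :
    (Matrix.of fun i j : Fin p => ∑ k : Fin p, a i k * (ζ ^ (j : ℕ) * y) ^ (k : ℕ))
      = a * (Matrix.vandermonde (fun j : Fin p => ζ ^ (j : ℕ) * y)).transpose := by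
  ext i j
  simp [Matrix.mul_apply, Matrix.vandermonde_apply]

theorem val_det_eval_sq (hp : p.Prime) (hζ : IsPrimitiveRoot ζ p)
    (a : Matrix (Fin p) (Fin p) Ω) (y : Ω) :
    v (Matrix.det (Matrix.of fun i j : Fin p => ∑ k : Fin p, a i k * (ζ ^ (j : ℕ) * y) ^ (k : ℕ))) ^ 2
      = v a.det ^ 2 * (v (ζ - 1) * v y) ^ (p * (p - 1)) := by
  rw [eval_matrix_eq, Matrix.det_mul, Matrix.det_transpose, map_mul, mul_pow,
    val_det_vandermonde_sq v hp hζ]

end roots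

/-- Binomial expansion with a `Fin p`-indexed sum. -/
theorem sum_choose_mul_pow (x : Ω) {p : ℕ} (k : Fin p) :
    ∑ l : Fin p, (((k : ℕ).choose (l : ℕ) : ℕ) : Ω) * x ^ (l : ℕ) = (x + 1) ^ (k : ℕ) := by
  rw [add_pow, Fin.sum_univ_eq_sum_range (fun l => (((k : ℕ).choose l : ℕ) : Ω) * x ^ l) p]
  symm
  apply Finset.sum_subset_zero_on_sdiff
  · intro l hl
    have := Finset.mem_range.mp hl
    exact Finset.mem_range.mpr (by have := k.2; omega)
  · intro l hl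
    have hl' := Finset.mem_sdiff.mp hl
    have : (k : ℕ) < l := by
      have := hl'.2
      simp only [Finset.mem_range, not_lt] at this
      omega
    simp [Nat.choose_eq_zero_of_lt this]
  · intro l _
    simp [mul_comm]

section kummer

variable (v : Valuation Ω Γ₀) (K : Subfield Ω) {p : ℕ} {π ζ y : Ω}

/-- **KUM0** (uniformiser radicand, "très ramifié"): if `v y ^ p = v π ^ s` with `p ∤ s`, every
family of `p` integral elements `z i = ∑ k, a i k * y ^ k` (`a i k ∈ K`) has evaluation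
determinant `det (∑ k, a i k * (ζ ^ j * y) ^ k)` with `v (det) ^ 2 ≤ v π ^ ((p-1)(pE+1))`. -/
theorem kummer_disc_le_of_val_not_dvd (hp : p.Prime) (hπ0 : π ≠ 0) (hπ1 : v π < 1)
    (hK : ∀ x ∈ K, x ≠ 0 → ∃ n : ℤ, v x = v π ^ n)
    (hζ : IsPrimitiveRoot ζ p) {E : ℕ} (hE : v (ζ - 1) = v π ^ E)
    {s : ℤ} (hy : v y ^ p = v π ^ s) (hsp : ¬ (p : ℤ) ∣ s)
    (a : Matrix (Fin p) (Fin p) Ω) (haK : ∀ i k, a i k ∈ K)
    (hz : ∀ i, v (∑ k, a i k * y ^ (k : ℕ)) ≤ 1) :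
    v (Matrix.det (Matrix.of fun i j : Fin p => ∑ k : Fin p, a i k * (ζ ^ (j : ℕ) * y) ^ (k : ℕ))) ^ 2
      ≤ v π ^ ((p - 1) * (p * E + 1)) := by
  have hvπ0 : v π ≠ 0 := (v.ne_zero_iff).mpr hπ0
  have hgen := val_det_sq_le v K hp hπ0 hπ1 hK hy hsp a haK hz
  rw [val_det_eval_sq v hp hζ]
  obtain ⟨q, rfl⟩ : ∃ q, p = q + 1 := ⟨p - 1, (Nat.succ_pred_eq_of_pos hp.pos).symm⟩
  have h2 : (v (ζ - 1) * v y) ^ ((q + 1) * (q + 1 - 1)) = v π ^ ((E : ℤ) * (q + 1) * q + s * q) := by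
    rw [Nat.add_sub_cancel, mul_pow, hE, pow_mul (v y), hy, ← pow_mul, ← zpow_natCast (v π ^ s) q,
      ← zpow_mul, ← zpow_natCast (v π) (E * ((q + 1) * q)), ← zpow_add₀ hvπ0]
    congr 1
    push_cast; ring
  calc v a.det ^ 2 * (v (ζ - 1) * v y) ^ ((q + 1) * (q + 1 - 1))
      ≤ v π ^ (-((s - 1) * (((q + 1 : ℕ) : ℤ) - 1))) * (v (ζ - 1) * v y) ^ ((q + 1) * (q + 1 - 1)) :=
        mul_le_mul' hgen le_rfl
    _ = v π ^ ((q + 1 - 1) * ((q + 1) * E + 1)) := by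
        rw [h2, ← zpow_add₀ hvπ0, ← zpow_natCast]
        congr 1
        push_cast; ring

/-- `v (y - 1) ^ p = v π ^ m` for `y ^ p = 1 + π ^ m * c`, `v c = 1`, `0 < m < p E`,
where `v (ζ - 1) = v π ^ E` (so `v p = v π ^ ((p-1) E)`). -/
theorem val_sub_one_pow (hp : p.Prime) (hπ0 : π ≠ 0) (hπ1 : v π < 1)
    (hζ : IsPrimitiveRoot ζ p) {E : ℕ} (hE : v (ζ - 1) = v π ^ E)
    {c : Ω} {m : ℕ} (hm0 : 0 < m) (hmE : m < p * E) (hc : v c = 1)
    (hy : y ^ p = 1 + π ^ m * c) : v (y - 1) ^ p = v π ^ m := by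
  have hvπ0 : 0 < v π := zero_lt_iff.mpr ((v.ne_zero_iff).mpr hπ0)
  have hπm : v (π ^ m * c) = v π ^ m := by rw [map_mul, map_pow, hc, mul_one]
  have hπm1 : v (π ^ m * c) < 1 := by rw [hπm]; exact pow_lt_one₀ zero_le hπ1 hm0.ne'
  have hvy : v y = 1 := by
    have : v y ^ p = 1 := by rw [← map_pow, hy]; exact v.map_one_add_of_lt hπm1
    exact (pow_eq_one_iff_left hp.ne_zero).mp this
  set lam := y - 1 with hlamdef
  have hlam1 : v lam ≤ 1 := by
    have := v.map_sub y 1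
    rw [hvy, map_one, max_self] at this
    exact this
  obtain ⟨q, rfl⟩ : ∃ q, p = q + 1 := ⟨p - 1, (Nat.succ_pred_eq_of_pos hp.pos).symm⟩
  -- the middle terms of the binomial expansion
  set R : Ω := ∑ j ∈ range q, lam ^ (j + 1) * 1 ^ (q + 1 - (j + 1)) * ((q + 1).choose (j + 1) : Ω)
    with hR
  have hexp : π ^ m * c = lam ^ (q + 1) + R := by
    have h1 : y = lam + 1 := by rw [hlamdef]; ring
    have h2 : y ^ (q + 1) = R + 1 + lam ^ (q + 1) := by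
      rw [h1, add_pow, Finset.sum_range_succ, Finset.sum_range_succ']
      simp [hR]
    rw [h2] at hy
    linear_combination -hy
  have hRle : v R ≤ v ((q + 1 : ℕ) : Ω) * v lam := by
    apply v.map_sum_le
    intro j hj
    have hjq : j < q := Finset.mem_range.mp hj
    obtain ⟨t, ht⟩ := hp.dvd_choose_self (Nat.succ_ne_zero j) (by omega : j + 1 < q + 1)
    rw [ht, Nat.cast_mul, map_mul, map_mul, map_mul, one_pow, map_one, mul_one, map_pow]
    calc v lam ^ (j + 1) * (v ((q + 1 : ℕ) : Ω) * v (t : Ω))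
        ≤ v lam * (v ((q + 1 : ℕ) : Ω) * 1) :=
          mul_le_mul' (pow_le_of_le_one zero_le hlam1 (Nat.succ_ne_zero j))
            (mul_le_mul' le_rfl (val_natCast_le_one v t))
      _ = v ((q + 1 : ℕ) : Ω) * v lam := by rw [mul_one, mul_comm]
  by_contra hne
  have hkey : v π ^ m = v (lam ^ (q + 1) + R) := by rw [← hexp, hπm]
  rcases lt_or_ge (v R) (v (lam ^ (q + 1))) with hcase | hcase
  · rw [v.map_add_eq_of_lt_left hcase, map_pow] at hkey
    exact hne hkey.symm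
  · have h1 : v π ^ m ≤ v ((q + 1 : ℕ) : Ω) * v lam := by
      rw [hkey]
      exact le_trans (v.map_add _ _) (max_le (le_trans hcase hRle) hRle)
    have hlampos : 0 < v lam := by
      rcases eq_or_lt_of_le (zero_le : (0 : Γ₀) ≤ v lam) with h | h
      · rw [← h, mul_zero] at h1
        exact absurd (lt_of_lt_of_le (pow_pos hvπ0 m) h1) (lt_irrefl _)
      · exact h
    have h2 : v lam ^ q ≤ v ((q + 1 : ℕ) : Ω) := by
      have h3 : v lam ^ q * v lam ≤ v ((q + 1 : ℕ) : Ω) * v lam := by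
        rw [← pow_succ, ← map_pow]
        exact le_trans hcase hRle
      exact le_of_mul_le_mul_right h3 hlampos
    have hvp : v ((q + 1 : ℕ) : Ω) = v π ^ (E * q) := by
      rw [val_prime_eq v hp hζ, hE, Nat.add_sub_cancel, pow_mul]
    have h4 : (v π ^ m) ^ q ≤ v ((q + 1 : ℕ) : Ω) ^ (q + 1) := by
      calc (v π ^ m) ^ q ≤ (v ((q + 1 : ℕ) : Ω) * v lam) ^ q := pow_le_pow_left₀ zero_le h1 q
        _ = v ((q + 1 : ℕ) : Ω) ^ q * v lam ^ q := mul_pow _ _ _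
        _ ≤ v ((q + 1 : ℕ) : Ω) ^ q * v ((q + 1 : ℕ) : Ω) := mul_le_mul' le_rfl h2
        _ = v ((q + 1 : ℕ) : Ω) ^ (q + 1) := (pow_succ _ _).symm
    rw [hvp, ← pow_mul, ← pow_mul, pow_le_pow_iff_right_of_lt_one₀ hvπ0 hπ1] at h4
    have hq : 0 < q := by have := hp.two_le; omega
    have h5 : E * (q + 1) ≤ m := by
      have : E * (q + 1) * q ≤ m * q := by nlinarith [h4]
      exact Nat.le_of_mul_le_mul_right this hq
    have : (q + 1) * E = E * (q + 1) := mul_comm _ _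
    omega

/-- **KUM** (unit radicand of level `m`): `y ^ p = 1 + π ^ m * c`, `v c = 1`, `0 < m < p E`,
`p ∤ m`, `v (ζ - 1) = v π ^ E`.  Every family of `p` integral elements
`z i = ∑ k, a i k * y ^ k` (`a i k ∈ K`) has evaluation determinant
`det (∑ k, a i k * (ζ ^ j * y) ^ k)` with `v (det) ^ 2 ≤ v π ^ ((p-1)(pE-m+1))`. -/
theorem kummer_disc_le_of_level (hp : p.Prime) (hπ0 : π ≠ 0) (hπ1 : v π < 1)
    (hK : ∀ x ∈ K, x ≠ 0 → ∃ n : ℤ, v x = v π ^ n)
    (hζ : IsPrimitiveRoot ζ p) {E : ℕ} (hE : v (ζ - 1) = v π ^ E)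
    {c : Ω} {m : ℕ} (hm0 : 0 < m) (hmE : m < p * E) (hmp : ¬ p ∣ m) (hc : v c = 1)
    (hy : y ^ p = 1 + π ^ m * c)
    (a : Matrix (Fin p) (Fin p) Ω) (haK : ∀ i k, a i k ∈ K)
    (hz : ∀ i, v (∑ k, a i k * y ^ (k : ℕ)) ≤ 1) :
    v (Matrix.det (Matrix.of fun i j : Fin p => ∑ k : Fin p, a i k * (ζ ^ (j : ℕ) * y) ^ (k : ℕ))) ^ 2
      ≤ v π ^ ((p - 1) * (p * E - m + 1)) := by
  have hvπ0 : v π ≠ 0 := (v.ne_zero_iff).mpr hπ0
  have hπm1 : v (π ^ m * c) < 1 := by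
    rw [map_mul, map_pow, hc, mul_one]; exact pow_lt_one₀ zero_le hπ1 hm0.ne'
  have hvy : v y = 1 := by
    have : v y ^ p = 1 := by rw [← map_pow, hy]; exact v.map_one_add_of_lt hπm1
    exact (pow_eq_one_iff_left hp.ne_zero).mp this
  have hlam : v (y - 1) ^ p = v π ^ (m : ℤ) := by
    rw [zpow_natCast]; exact val_sub_one_pow v hp hπ0 hπ1 hζ hE hm0 hmE hc hy
  have hmp' : ¬ (p : ℤ) ∣ (m : ℤ) := fun h => hmp (Int.natCast_dvd_natCast.mp h)
  -- change of basis `y ^ k ↔ (y - 1) ^ l`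
  set T : Matrix (Fin p) (Fin p) Ω := Matrix.of fun k l => (((k : ℕ).choose (l : ℕ) : ℕ) : Ω)
    with hT
  have hTdet : T.det = 1 := by
    rw [Matrix.det_of_isLowerTriangular]
    · simp [hT]
    · intro i j hij
      have : (i : ℕ) < (j : ℕ) := hij
      simp [hT, Nat.choose_eq_zero_of_lt this]
  have hTrow : ∀ k : Fin p, ∑ l : Fin p, T k l * (y - 1) ^ (l : ℕ) = y ^ (k : ℕ) := by
    intro k
    simp only [hT, Matrix.of_apply]
    rw [sum_choose_mul_pow (y - 1) k]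
    ring
  set b : Matrix (Fin p) (Fin p) Ω := a * T with hb
  have hbK : ∀ i l, b i l ∈ K := by
    intro i l
    rw [hb, Matrix.mul_apply]
    exact K.sum_mem (fun k _ => K.mul_mem (haK i k) (by simp [hT]))
  have hbz : ∀ i, v (∑ l, b i l * (y - 1) ^ (l : ℕ)) ≤ 1 := by
    intro i
    have : ∑ l, b i l * (y - 1) ^ (l : ℕ) = ∑ k, a i k * y ^ (k : ℕ) := by
      simp only [hb, Matrix.mul_apply, Finset.sum_mul]
      rw [Finset.sum_comm]
      refine Finset.sum_congr rfl (fun k _ => ?_)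
      rw [← hTrow k, Finset.mul_sum]
      refine Finset.sum_congr rfl (fun l _ => ?_)
      ring
    rw [this]; exact hz i
  have hgen := val_det_sq_le v K hp hπ0 hπ1 hK hlam hmp' b hbK hbz
  have hdet : b.det = a.det := by rw [hb, Matrix.det_mul, hTdet, mul_one]
  rw [hdet] at hgen
  rw [val_det_eval_sq v hp hζ, hvy, mul_one, hE]
  obtain ⟨q, rfl⟩ : ∃ q, p = q + 1 := ⟨p - 1, (Nat.succ_pred_eq_of_pos hp.pos).symm⟩
  calc v a.det ^ 2 * (v π ^ E) ^ ((q + 1) * (q + 1 - 1))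
      ≤ v π ^ (-(((m : ℤ) - 1) * (((q + 1 : ℕ) : ℤ) - 1))) * (v π ^ E) ^ ((q + 1) * (q + 1 - 1)) :=
        mul_le_mul' hgen le_rfl
    _ = v π ^ ((q + 1 - 1) * ((q + 1) * E - m + 1)) := by
        rw [← pow_mul, ← zpow_natCast (v π) (E * ((q + 1) * (q + 1 - 1))), ← zpow_add₀ hvπ0,
          ← zpow_natCast]
        congr 1
        rw [Nat.add_sub_cancel]
        push_cast [Nat.cast_sub hmE.le]
        ring

end kummer

end Fermat.Agent.S56.helper1214
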