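/-
S56 flat-local chain (helper1214): further exports on top of `helper1214_KummerDisc`.

* (IND)  independence of the powers of `lam` over `K` when `v lam ^ p = v π ^ m`, `p ∤ m`;
* (KUM') elementwise form: an integral element `z = ∑ a k * y ^ k` of a Kummer extension is moved
  by the conjugation `y ↦ ζ ^ j * y` by an element of valuation `≤ v π ^ ((pE - m + 1)/p)`;
* (BRK)  break form: uniformiser `lam ^ A * π ^ B` and the valuation of its conjugate difference.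
-/
import Fermat.Agent.S56.helper1214_KummerDisc

namespace Fermat.Agent.S56.helper1214

open Finset

variable {Ω : Type*} [Field Ω] {Γ₀ : Type*} [LinearOrderedCommGroupWithZero Γ₀]

section ind

variable (v : Valuation Ω Γ₀) (K : Subfield Ω) {p : ℕ} {π lam : Ω} {m : ℤ}

theorem lam_ne_zero (hp : p.Prime) (hπ0 : π ≠ 0) (hlam : v lam ^ p = v π ^ m) : lam ≠ 0 := by
  have hvπ0 : 0 < v π := zero_lt_iff.mpr ((v.ne_zero_iff).mpr hπ0)
  intro h
  rw [h, map_zero, zero_pow hp.ne_zero] at hlam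
  exact (zpow_ne_zero m hvπ0.ne') hlam.symm

/-- (IND) `lam ∉ K` when `v lam ^ p = v π ^ m` with `p ∤ m`. -/
theorem not_mem_of_val_pow (hp : p.Prime) (hπ0 : π ≠ 0) (hπ1 : v π < 1)
    (hK : ∀ x ∈ K, x ≠ 0 → ∃ n : ℤ, v x = v π ^ n)
    (hlam : v lam ^ p = v π ^ m) (hmp : ¬ (p : ℤ) ∣ m) : lam ∉ K := by
  intro h
  have hvπ0 : 0 < v π := zero_lt_iff.mpr ((v.ne_zero_iff).mpr hπ0)
  obtain ⟨n, hn⟩ := hK lam h (lam_ne_zero v hp hπ0 hlam)
  rw [hn, ← zpow_natCast, ← zpow_mul] at hlam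
  have h2 : n * (p : ℤ) = m := zpow_right_injective₀ hvπ0 (ne_of_lt hπ1) hlam
  exact hmp ⟨n, by linarith⟩

/-- (IND) the powers `lam ^ k`, `k < p`, are linearly independent over `K`. -/
theorem eq_zero_of_sum_eq_zero (hp : p.Prime) (hπ0 : π ≠ 0) (hπ1 : v π < 1)
    (hK : ∀ x ∈ K, x ≠ 0 → ∃ n : ℤ, v x = v π ^ n)
    (hlam : v lam ^ p = v π ^ m) (hmp : ¬ (p : ℤ) ∣ m)
    (b : Fin p → Ω) (hb : ∀ k, b k ∈ K) (h0 : ∑ k, b k * lam ^ (k : ℕ) = 0) : ∀ k, b k = 0 := by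
  intro k
  have := val_term_le_sum v Finset.univ (fun k => b k * lam ^ (k : ℕ))
    (fun i _ j _ hij hi hj => val_terms_ne v K hp hπ0 hπ1 hK hlam hmp b hb i j hij hi hj) k
    (Finset.mem_univ k)
  rw [h0, map_zero] at this
  have h2 : b k * lam ^ (k : ℕ) = 0 := (v.zero_iff).mp (le_antisymm this zero_le)
  exact (mul_eq_zero.mp h2).resolve_right (pow_ne_zero _ (lam_ne_zero v hp hπ0 hlam))

/-- Each term of an integral element is integral. -/
theorem val_term_le_one (hp : p.Prime) (hπ0 : π ≠ 0) (hπ1 : v π < 1)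
    (hK : ∀ x ∈ K, x ≠ 0 → ∃ n : ℤ, v x = v π ^ n)
    (hlam : v lam ^ p = v π ^ m) (hmp : ¬ (p : ℤ) ∣ m)
    (b : Fin p → Ω) (hb : ∀ k, b k ∈ K) (hz : v (∑ k, b k * lam ^ (k : ℕ)) ≤ 1) (k : Fin p) :
    v (b k * lam ^ (k : ℕ)) ≤ 1 :=
  le_trans (val_term_le_sum v Finset.univ (fun k => b k * lam ^ (k : ℕ))
    (fun i _ j _ hij hi hj => val_terms_ne v K hp hπ0 hπ1 hK hlam hmp b hb i j hij hi hj) k
    (Finset.mem_univ k)) hz

/-- For `0 < k < p` the term `b k * lam ^ k` of an integral element is divisible by a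
uniformiser of `K(lam)`: `v (b k * lam ^ k) ^ p ≤ v π`. -/
theorem val_term_pow_le (hp : p.Prime) (hπ0 : π ≠ 0) (hπ1 : v π < 1)
    (hK : ∀ x ∈ K, x ≠ 0 → ∃ n : ℤ, v x = v π ^ n)
    (hlam : v lam ^ p = v π ^ m) (hmp : ¬ (p : ℤ) ∣ m)
    (b : Fin p → Ω) (hb : ∀ k, b k ∈ K) (hz : v (∑ k, b k * lam ^ (k : ℕ)) ≤ 1) (k : Fin p)
    (hk : 0 < (k : ℕ)) : v (b k * lam ^ (k : ℕ)) ^ p ≤ v π := by
  have hvπ0 : 0 < v π := zero_lt_iff.mpr ((v.ne_zero_iff).mpr hπ0)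
  by_cases hbk : b k = 0
  · rw [hbk, zero_mul, map_zero, zero_pow hp.ne_zero]; exact zero_le
  have hterm := val_term_le_one v K hp hπ0 hπ1 hK hlam hmp b hb hz k
  obtain ⟨n, hn⟩ := hK (b k) (hb k) hbk
  rw [map_mul, map_pow, hn] at hterm ⊢
  have h2 : (v π ^ n * v lam ^ (k : ℕ)) ^ p ≤ 1 := pow_le_one₀ zero_le hterm
  rw [zpow_key v hπ0 hlam] at h2 ⊢
  rw [← zpow_zero (v π), zpow_le_zpow_iff_right_of_lt_one₀ hvπ0 hπ1] at h2
  have hne : n * (p : ℤ) + m * (k : ℤ) ≠ 0 := by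
    intro h0
    have hdvd : (p : ℤ) ∣ m * (k : ℤ) := ⟨-n, by linarith⟩
    rcases Int.Prime.dvd_mul' hp hdvd with h | h
    · exact hmp h
    · have h3 : p ∣ (k : ℕ) := Int.natCast_dvd_natCast.mp h
      have := Nat.le_of_dvd hk h3
      have := k.2
      omega
  have h3 : (1 : ℤ) ≤ n * (p : ℤ) + m * (k : ℤ) := by omega
  calc v π ^ (n * (p : ℤ) + m * (k : ℤ)) ≤ v π ^ (1 : ℤ) :=
        zpow_le_zpow_right_of_le_one₀ hvπ0 hπ1.le h3
    _ = v π := zpow_one _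

end ind

section elementwise

variable (v : Valuation Ω Γ₀) (K : Subfield Ω) {p : ℕ} {π ζ y : Ω}

/-- If every term of a finite sum has `v (f i) ^ n ≤ g` (`n ≠ 0`), so has the sum. -/
theorem val_sum_pow_le {ι : Type*} (s : Finset ι) (f : ι → Ω) {n : ℕ} (hn : n ≠ 0) (g : Γ₀)
    (h : ∀ i ∈ s, v (f i) ^ n ≤ g) : v (∑ i ∈ s, f i) ^ n ≤ g := by
  rcases s.eq_empty_or_nonempty with rfl | hs
  · simp [zero_pow hn]
  · obtain ⟨i0, hi0, hmax⟩ := s.exists_max_image (fun j => v (f j)) hs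
    exact le_trans (pow_le_pow_left₀ zero_le (v.map_sum_le (fun i hi => hmax i hi)) n) (h i0 hi0)

/-- `v (ζ ^ n - 1) ≤ v (ζ - 1)` for every `n`. -/
theorem val_zeta_pow_sub_one_le (hp : p.Prime) (hζ : IsPrimitiveRoot ζ p) (n : ℕ) :
    v (ζ ^ n - 1) ≤ v (ζ - 1) := by
  rw [← mul_geom_sum ζ n, map_mul]
  exact mul_le_of_le_one_right' (val_geom_sum_le_one v ζ (val_zeta v hp hζ) n)

/-- **KUM0'** (elementwise, uniformiser radicand): if `v y ^ p = v π ^ s`, `p ∤ s`, then the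
conjugation `y ↦ ζ ^ j * y` moves every integral `z = ∑ a k * y ^ k` (`a k ∈ K`) by an element
`d` with `v d ^ p ≤ v π ^ (p E + 1)`. -/
theorem kummer_conj_sub_le_of_val_not_dvd (hp : p.Prime) (hπ0 : π ≠ 0) (hπ1 : v π < 1)
    (hK : ∀ x ∈ K, x ≠ 0 → ∃ n : ℤ, v x = v π ^ n)
    (hζ : IsPrimitiveRoot ζ p) {E : ℕ} (hE : v (ζ - 1) = v π ^ E)
    {s : ℤ} (hy : v y ^ p = v π ^ s) (hsp : ¬ (p : ℤ) ∣ s)
    (a : Fin p → Ω) (haK : ∀ k, a k ∈ K) (hz : v (∑ k, a k * y ^ (k : ℕ)) ≤ 1) (j : ℕ) :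
    v (∑ k, a k * (ζ ^ j * y) ^ (k : ℕ) - ∑ k, a k * y ^ (k : ℕ)) ^ p ≤ v π ^ (p * E + 1) := by
  rw [← Finset.sum_sub_distrib]
  apply val_sum_pow_le v _ _ hp.ne_zero
  intro k _
  have hterm : a k * (ζ ^ j * y) ^ (k : ℕ) - a k * y ^ (k : ℕ)
      = (a k * y ^ (k : ℕ)) * (ζ ^ (j * (k : ℕ)) - 1) := by
    rw [mul_pow, ← pow_mul]; ring
  rw [hterm, map_mul, mul_pow]
  rcases Nat.eq_zero_or_pos (k : ℕ) with hk | hk
  · simp [hk, zero_pow hp.ne_zero]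
  · calc v (a k * y ^ (k : ℕ)) ^ p * v (ζ ^ (j * (k : ℕ)) - 1) ^ p
        ≤ v π * v (ζ - 1) ^ p :=
          mul_le_mul' (val_term_pow_le v K hp hπ0 hπ1 hK hy hsp a haK hz k hk)
            (pow_le_pow_left₀ zero_le (val_zeta_pow_sub_one_le v hp hζ _) p)
      _ = v π ^ (p * E + 1) := by rw [hE, ← pow_mul, pow_succ, mul_comm E p, mul_comm]

/-- **KUM'** (elementwise, unit radicand of level `m`): `y ^ p = 1 + π ^ m * c`, `v c = 1`,
`0 < m < p E`, `p ∤ m`.  The conjugation `y ↦ ζ ^ j * y` moves every integral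
`z = ∑ a k * y ^ k` (`a k ∈ K`) by an element `d` with `v d ^ p ≤ v π ^ (p E - m + 1)`. -/
theorem kummer_conj_sub_le_of_level (hp : p.Prime) (hπ0 : π ≠ 0) (hπ1 : v π < 1)
    (hK : ∀ x ∈ K, x ≠ 0 → ∃ n : ℤ, v x = v π ^ n)
    (hζ : IsPrimitiveRoot ζ p) {E : ℕ} (hE : v (ζ - 1) = v π ^ E)
    {c : Ω} {m : ℕ} (hm0 : 0 < m) (hmE : m < p * E) (hmp : ¬ p ∣ m) (hc : v c = 1)
    (hy : y ^ p = 1 + π ^ m * c)
    (a : Fin p → Ω) (haK : ∀ k, a k ∈ K) (hz : v (∑ k, a k * y ^ (k : ℕ)) ≤ 1) (j : ℕ) :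
    v (∑ k, a k * (ζ ^ j * y) ^ (k : ℕ) - ∑ k, a k * y ^ (k : ℕ)) ^ p
      ≤ v π ^ (p * E - m + 1) := by
  have hvπ0 : 0 < v π := zero_lt_iff.mpr ((v.ne_zero_iff).mpr hπ0)
  have hπm1 : v (π ^ m * c) < 1 := by
    rw [map_mul, map_pow, hc, mul_one]; exact pow_lt_one₀ zero_le hπ1 hm0.ne'
  have hvy : v y = 1 := by
    have : v y ^ p = 1 := by rw [← map_pow, hy]; exact v.map_one_add_of_lt hπm1
    exact (pow_eq_one_iff_left hp.ne_zero).mp this
  have hlamN : v (y - 1) ^ p = v π ^ m := val_sub_one_pow v hp hπ0 hπ1 hζ hE hm0 hmE hc hy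
  have hlam : v (y - 1) ^ p = v π ^ (m : ℤ) := by rw [zpow_natCast]; exact hlamN
  have hmp' : ¬ (p : ℤ) ∣ (m : ℤ) := fun h => hmp (Int.natCast_dvd_natCast.mp h)
  -- coefficients with respect to the powers of `y - 1`
  set b : Fin p → Ω := fun l => ∑ k : Fin p, a k * (((k : ℕ).choose (l : ℕ) : ℕ) : Ω) with hb
  have hbK : ∀ l, b l ∈ K := fun l =>
    K.sum_mem (fun k _ => K.mul_mem (haK k) (natCast_mem K _))
  have hconv : ∀ x : Ω, ∑ k, a k * x ^ (k : ℕ) = ∑ l, b l * (x - 1) ^ (l : ℕ) := by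
    intro x
    simp only [hb, Finset.sum_mul]
    rw [Finset.sum_comm]
    refine Finset.sum_congr rfl (fun k _ => ?_)
    have h1 := sum_choose_mul_pow (x - 1) k
    rw [sub_add_cancel] at h1
    rw [← h1, Finset.mul_sum]
    refine Finset.sum_congr rfl (fun l _ => ?_)
    ring
  have hbz : v (∑ l, b l * (y - 1) ^ (l : ℕ)) ≤ 1 := by rw [← hconv y]; exact hz
  rw [hconv (ζ ^ j * y), hconv y, ← Finset.sum_sub_distrib]
  apply val_sum_pow_le v _ _ hp.ne_zero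
  intro l _
  set lam := y - 1 with hlamdef
  set lam' := ζ ^ j * y - 1 with hlam'def
  -- `v (ζ - 1) ≤ v lam`
  have hζlam : v (ζ - 1) ≤ v lam := by
    rw [← pow_le_pow_iff_left₀ zero_le zero_le hp.ne_zero, hlamN, hE, ← pow_mul]
    exact pow_le_pow_of_le_one zero_le hπ1.le (by rw [mul_comm]; exact hmE.le)
  have hdiff : lam' - lam = (ζ ^ j - 1) * y := by rw [hlam'def, hlamdef]; ring
  have hvdiff : v (lam' - lam) ≤ v (ζ - 1) := by
    rw [hdiff, map_mul, hvy, mul_one]; exact val_zeta_pow_sub_one_le v hp hζ j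
  have hvlam' : v lam' ≤ v lam := by
    have : lam' = lam + (lam' - lam) := by ring
    rw [this]
    exact le_trans (v.map_add _ _) (max_le le_rfl (le_trans hvdiff hζlam))
  rcases Nat.eq_zero_or_pos (l : ℕ) with hl | hl
  · rw [hl, pow_zero, pow_zero, sub_self, map_zero, zero_pow hp.ne_zero]; exact zero_le
  have hfac : b l * lam' ^ (l : ℕ) - b l * lam ^ (l : ℕ)
      = b l * ((∑ i ∈ range (l : ℕ), lam' ^ i * lam ^ ((l : ℕ) - 1 - i)) * (lam' - lam)) := by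
    rw [geom_sum₂_mul]; ring
  have hgeom : v (∑ i ∈ range (l : ℕ), lam' ^ i * lam ^ ((l : ℕ) - 1 - i)) ≤ v lam ^ ((l : ℕ) - 1) := by
    apply v.map_sum_le
    intro i hi
    have hil : i < (l : ℕ) := Finset.mem_range.mp hi
    rw [map_mul, map_pow, map_pow]
    calc v lam' ^ i * v lam ^ ((l : ℕ) - 1 - i) ≤ v lam ^ i * v lam ^ ((l : ℕ) - 1 - i) :=
          mul_le_mul' (pow_le_pow_left₀ zero_le hvlam' i) le_rfl
      _ = v lam ^ ((l : ℕ) - 1) := by rw [← pow_add]; congr 1; omega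
  -- `X := v (b l) * v lam ^ (l - 1) * v (ζ - 1)` bounds the term
  have hX : v (b l * lam' ^ (l : ℕ) - b l * lam ^ (l : ℕ))
      ≤ v (b l) * v lam ^ ((l : ℕ) - 1) * v (ζ - 1) := by
    rw [hfac, map_mul, map_mul, mul_assoc]
    exact mul_le_mul' le_rfl (mul_le_mul' hgeom hvdiff)
  have hXp : (v (b l) * v lam ^ ((l : ℕ) - 1) * v (ζ - 1)) ^ p ≤ v π ^ (p * E - m + 1) := by
    have hterm := val_term_pow_le v K hp hπ0 hπ1 hK hlam hmp' b hbK hbz l hl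
    have hXlam : v (b l) * v lam ^ ((l : ℕ) - 1) * v (ζ - 1) * v lam
        = v (b l * lam ^ (l : ℕ)) * v (ζ - 1) := by
      have : v lam ^ (l : ℕ) = v lam ^ ((l : ℕ) - 1) * v lam := by
        rw [← pow_succ]; congr 1; omega
      rw [map_mul, map_pow, this, mul_right_comm, mul_assoc (v (b l))]
    have h1 : (v (b l) * v lam ^ ((l : ℕ) - 1) * v (ζ - 1)) ^ p * v π ^ m
        = v (b l * lam ^ (l : ℕ)) ^ p * v (ζ - 1) ^ p := by
      rw [← hlamN, ← mul_pow, hXlam, mul_pow]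
    have h2 : v (b l * lam ^ (l : ℕ)) ^ p * v (ζ - 1) ^ p ≤ v π ^ (p * E - m + 1) * v π ^ m := by
      calc v (b l * lam ^ (l : ℕ)) ^ p * v (ζ - 1) ^ p ≤ v π * v (ζ - 1) ^ p :=
            mul_le_mul' hterm le_rfl
        _ = v π ^ (p * E - m + 1) * v π ^ m := by
            rw [hE, ← pow_mul, ← pow_add, ← pow_succ']
            congr 1
            have := hmE.le
            have : E * p = p * E := mul_comm _ _
            omega
    rw [← h1] at h2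
    exact le_of_mul_le_mul_right h2 (pow_pos hvπ0 m)
  exact le_trans (pow_le_pow_left₀ zero_le hX p) hXp

end elementwise

section brk

variable (v : Valuation Ω Γ₀) {p : ℕ} {π ζ y : Ω}

/-- The valuation of an integer is at most one. -/
theorem val_intCast_le_one (n : ℤ) : v (n : Ω) ≤ 1 := by
  obtain ⟨k, rfl | rfl⟩ := Int.eq_nat_or_neg n
  · simpa using val_natCast_le_one v k
  · simpa using val_natCast_le_one v k

theorem val_one_add_pow_sub_one_le (ε : Ω) (hε : v ε < 1) (n : ℕ) :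
    v ((1 + ε) ^ n - 1) ≤ v ε := by
  have h1 : v (1 + ε) = 1 := v.map_one_add_of_lt hε
  rw [← mul_geom_sum (1 + ε) n, add_sub_cancel_left, map_mul]
  exact mul_le_of_le_one_right' (val_geom_sum_le_one v (1 + ε) h1 n)

/-- `v ((1 + ε) ^ n - 1) = v ε` when `v ε < 1` and `v n = 1`. -/
theorem val_one_add_pow_sub_one (ε : Ω) (hε : v ε < 1) (n : ℕ) (hn : v (n : Ω) = 1) :
    v ((1 + ε) ^ n - 1) = v ε := by
  have hgs : v (∑ i ∈ range n, (1 + ε) ^ i) = 1 := by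
    have : ∑ i ∈ range n, (1 + ε) ^ i = (n : Ω) + ∑ i ∈ range n, ((1 + ε) ^ i - 1) := by
      rw [Finset.sum_sub_distrib]; simp
    rw [this]
    have hlt : v (∑ i ∈ range n, ((1 + ε) ^ i - 1)) < v (n : Ω) := by
      rw [hn]
      exact lt_of_le_of_lt
        (v.map_sum_le (fun i _ => val_one_add_pow_sub_one_le v ε hε i)) hε
    rw [v.map_add_eq_of_lt_left hlt, hn]
  rw [← mul_geom_sum (1 + ε) n, add_sub_cancel_left, map_mul, hgs, mul_one]

/-- `v ((1 + ε) ^ A - 1) = v ε` for an integer exponent `A` with `v A = 1`. -/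
theorem val_one_add_zpow_sub_one (ε : Ω) (hε : v ε < 1) (A : ℤ) (hA : v (A : Ω) = 1) :
    v ((1 + ε) ^ A - 1) = v ε := by
  have h1 : v (1 + ε) = 1 := v.map_one_add_of_lt hε
  have h1ne : (1 + ε) ≠ 0 := by
    intro h; rw [h, map_zero] at h1; exact zero_ne_one h1
  obtain ⟨n, rfl | rfl⟩ := Int.eq_nat_or_neg A
  · rw [zpow_natCast]
    exact val_one_add_pow_sub_one v ε hε n (by simpa using hA)
  · have hn : v (n : Ω) = 1 := by simpa using hA
    rw [zpow_neg, zpow_natCast]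
    have hne : (1 + ε) ^ n ≠ 0 := pow_ne_zero n h1ne
    have : ((1 + ε) ^ n)⁻¹ - 1 = -((1 + ε) ^ n - 1) * ((1 + ε) ^ n)⁻¹ := by
      field_simp; ring
    rw [this, map_mul, v.map_neg, val_one_add_pow_sub_one v ε hε n hn, map_inv₀, map_pow, h1,
      one_pow, inv_one, mul_one]

/-- **BRK 1**: `lam ^ A * π ^ B` with `A m + B p = 1` is a uniformiser of `K(lam)`:
its valuation is a `p`-th root of `v π`. -/
theorem val_uniformizer_pow (hπ0 : π ≠ 0) {lam : Ω} {m : ℤ} (hlam : v lam ^ p = v π ^ m)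
    {A B : ℤ} (hAB : A * m + B * p = 1) : v (lam ^ A * π ^ B) ^ p = v π := by
  have hvπ0 : v π ≠ 0 := (v.ne_zero_iff).mpr hπ0
  have h1 : (v lam ^ A) ^ p = v π ^ (m * A) := by
    rw [← zpow_natCast (v lam ^ A) p, ← zpow_mul, mul_comm A (p : ℤ), zpow_mul, zpow_natCast, hlam,
      ← zpow_mul]
  have h2 : (v π ^ B) ^ p = v π ^ (B * p) := by
    rw [← zpow_natCast (v π ^ B) p, ← zpow_mul]
  rw [map_mul, map_zpow₀, map_zpow₀, mul_pow, h1, h2, ← zpow_add₀ hvπ0]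
  have : m * A + B * p = 1 := by linarith
  rw [this, zpow_one]

/-- **BRK 2** (break of the Kummer extension of level `m`): for `y ^ p = 1 + π ^ m * c`,
`v c = 1`, `0 < m < p E`, `A m + B p = 1` and `p ∤ k`, the uniformiser `(y - 1) ^ A * π ^ B`
and its conjugate under `y ↦ ζ ^ k * y` differ by an element of valuation
`v (ζ - 1) * (v (y - 1))⁻¹ * v ((y - 1) ^ A * π ^ B)`. -/
theorem val_break (hp : p.Prime) (hπ0 : π ≠ 0) (hπ1 : v π < 1)
    (hζ : IsPrimitiveRoot ζ p) {E : ℕ} (hE : v (ζ - 1) = v π ^ E)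
    {c : Ω} {m : ℕ} (hm0 : 0 < m) (hmE : m < p * E) (hc : v c = 1)
    (hy : y ^ p = 1 + π ^ m * c) {A B : ℤ} (hAB : A * m + B * p = 1) {k : ℕ} (hk : ¬ p ∣ k) :
    v ((ζ ^ k * y - 1) ^ A * π ^ B - (y - 1) ^ A * π ^ B)
      = v (ζ - 1) * (v (y - 1))⁻¹ * v ((y - 1) ^ A * π ^ B) := by
  have hvπ0 : 0 < v π := zero_lt_iff.mpr ((v.ne_zero_iff).mpr hπ0)
  have hπm1 : v (π ^ m * c) < 1 := by
    rw [map_mul, map_pow, hc, mul_one]; exact pow_lt_one₀ zero_le hπ1 hm0.ne'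
  have hvy : v y = 1 := by
    have : v y ^ p = 1 := by rw [← map_pow, hy]; exact v.map_one_add_of_lt hπm1
    exact (pow_eq_one_iff_left hp.ne_zero).mp this
  have hlamN : v (y - 1) ^ p = v π ^ m := val_sub_one_pow v hp hπ0 hπ1 hζ hE hm0 hmE hc hy
  set lam := y - 1 with hlamdef
  have hlam0 : lam ≠ 0 := by
    intro h
    rw [h, map_zero, zero_pow hp.ne_zero] at hlamN
    exact (pow_ne_zero m hvπ0.ne') hlamN.symm
  have hvlam0 : v lam ≠ 0 := (v.ne_zero_iff).mpr hlam0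
  -- `v (ζ ^ k - 1) = v (ζ - 1)`
  have hζk : v (ζ ^ k - 1) = v (ζ - 1) := by
    rw [pow_eq_pow_mod k hζ.pow_eq_one]
    have hpos : 0 < k % p := Nat.pos_of_ne_zero (fun h => hk (Nat.dvd_of_mod_eq_zero h))
    exact val_zeta_pow_sub_one v hp hζ hpos (Nat.mod_lt k hp.pos)
  -- `v (ζ - 1) < v lam`
  have hζlam : v (ζ - 1) < v lam := by
    rw [← pow_lt_pow_iff_left₀ zero_le zero_le hp.ne_zero, hlamN, hE, ← pow_mul]
    exact pow_lt_pow_right_of_lt_one₀ hvπ0 hπ1 (by rw [mul_comm]; exact hmE)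
  set ε := (ζ ^ k - 1) * y / lam with hεdef
  have hvε : v ε = v (ζ - 1) * (v lam)⁻¹ := by
    rw [hεdef, map_div₀, map_mul, hζk, hvy, mul_one, div_eq_mul_inv]
  have hε1 : v ε < 1 := by
    rw [hvε]
    exact (mul_inv_lt_iff₀ (zero_lt_iff.mpr hvlam0)).mpr (by rwa [one_mul])
  have hlam' : ζ ^ k * y - 1 = lam * (1 + ε) := by
    have h1 : lam * (1 + ε) = lam + (ζ ^ k - 1) * y := by
      rw [hεdef, mul_add, mul_one, mul_div_cancel₀ _ hlam0]
    rw [h1, hlamdef]; ring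
  -- `v A = 1`
  have hE0 : 0 < E := by
    rcases Nat.eq_zero_or_pos E with h | h
    · rw [h, mul_zero] at hmE; omega
    · exact h
  have hvp : v (p : Ω) < 1 := by
    rw [val_prime_eq v hp hζ, hE, ← pow_mul]
    exact pow_lt_one₀ zero_le hπ1 (Nat.mul_ne_zero hE0.ne' (by have := hp.two_le; omega))
  have hvA : v (A : Ω) = 1 := by
    apply le_antisymm (val_intCast_le_one v A)
    by_contra hlt
    rw [not_le] at hlt
    have hcast : (A : Ω) * (m : Ω) + (B : Ω) * (p : Ω) = 1 := by exact_mod_cast congrArg (Int.cast : ℤ → Ω) hAB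
    have h1 : v ((A : Ω) * (m : Ω)) < 1 := by
      rw [map_mul]
      exact lt_of_le_of_lt (mul_le_of_le_one_right' (val_natCast_le_one v m)) hlt
    have h2 : v ((B : Ω) * (p : Ω)) < 1 := by
      rw [map_mul]
      exact lt_of_le_of_lt (mul_le_of_le_one_left' (val_intCast_le_one v B)) hvp
    have h3 : v ((A : Ω) * (m : Ω) + (B : Ω) * (p : Ω)) < 1 :=
      lt_of_le_of_lt (v.map_add _ _) (max_lt h1 h2)
    rw [hcast, map_one] at h3
    exact lt_irrefl _ h3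
  have hfac : (ζ ^ k * y - 1) ^ A * π ^ B - lam ^ A * π ^ B
      = lam ^ A * π ^ B * ((1 + ε) ^ A - 1) := by
    rw [hlam', mul_zpow]; ring
  rw [hfac, map_mul, val_one_add_zpow_sub_one v ε hε1 A hvA, hvε, mul_comm]

end brk

section basis

variable (v : Valuation Ω Γ₀) (K : Subfield Ω) {p : ℕ} {π ζ y : Ω}

/-- The binomial change-of-basis matrix has determinant one. -/
theorem det_choose_matrix (p : ℕ) :
    (Matrix.of fun k l : Fin p => (((k : ℕ).choose (l : ℕ) : ℕ) : Ω)).det = 1 := by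
  rw [Matrix.det_of_isLowerTriangular]
  · simp
  · intro i j hij
    have : (i : ℕ) < (j : ℕ) := hij
    simp [Nat.choose_eq_zero_of_lt this]

/-- (IND, level `m`) `1, y, …, y ^ (p-1)` are linearly independent over `K` when
`y ^ p = 1 + π ^ m * c`, `v c = 1`, `0 < m < p E`, `p ∤ m`. -/
theorem kummer_eq_zero_of_sum_eq_zero (hp : p.Prime) (hπ0 : π ≠ 0) (hπ1 : v π < 1)
    (hK : ∀ x ∈ K, x ≠ 0 → ∃ n : ℤ, v x = v π ^ n)
    (hζ : IsPrimitiveRoot ζ p) {E : ℕ} (hE : v (ζ - 1) = v π ^ E)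
    {c : Ω} {m : ℕ} (hm0 : 0 < m) (hmE : m < p * E) (hmp : ¬ p ∣ m) (hc : v c = 1)
    (hy : y ^ p = 1 + π ^ m * c)
    (a : Fin p → Ω) (haK : ∀ k, a k ∈ K) (h0 : ∑ k, a k * y ^ (k : ℕ) = 0) : ∀ k, a k = 0 := by
  have hlam : v (y - 1) ^ p = v π ^ (m : ℤ) := by
    rw [zpow_natCast]; exact val_sub_one_pow v hp hπ0 hπ1 hζ hE hm0 hmE hc hy
  have hmp' : ¬ (p : ℤ) ∣ (m : ℤ) := fun h => hmp (Int.natCast_dvd_natCast.mp h)
  set T : Matrix (Fin p) (Fin p) Ω := Matrix.of fun k l : Fin p => (((k : ℕ).choose (l : ℕ) : ℕ) : Ω)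
    with hT
  set b : Fin p → Ω := Matrix.vecMul a T with hb
  have hbl : ∀ l, b l = ∑ k : Fin p, a k * (((k : ℕ).choose (l : ℕ) : ℕ) : Ω) := by
    intro l; simp [hb, hT, Matrix.vecMul, dotProduct]
  have hbK : ∀ l, b l ∈ K := fun l => by
    rw [hbl]; exact K.sum_mem (fun k _ => K.mul_mem (haK k) (natCast_mem K _))
  have hconv : ∑ k, a k * y ^ (k : ℕ) = ∑ l, b l * (y - 1) ^ (l : ℕ) := by
    simp only [hbl, Finset.sum_mul]
    rw [Finset.sum_comm]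
    refine Finset.sum_congr rfl (fun k _ => ?_)
    have h1 := sum_choose_mul_pow (y - 1) k
    rw [sub_add_cancel] at h1
    rw [← h1, Finset.mul_sum]
    refine Finset.sum_congr rfl (fun l _ => ?_)
    ring
  rw [hconv] at h0
  have hb0 : b = 0 := funext (eq_zero_of_sum_eq_zero v K hp hπ0 hπ1 hK hlam hmp' b hbK h0)
  have hT1 : T.det ≠ 0 := by rw [hT, det_choose_matrix]; exact one_ne_zero
  have ha0 : a = 0 := Matrix.eq_zero_of_vecMul_eq_zero hT1 hb0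
  intro k; rw [ha0]; rfl

/-- (IND, level `m`) `y ∉ K`: the radicand `1 + π ^ m * c` is not a `p`-th power in `K`
(as soon as `ζ ∈ K`, every `p`-th root of it is `ζ ^ j * y`). -/
theorem kummer_not_mem_of_level (hp : p.Prime) (hπ0 : π ≠ 0) (hπ1 : v π < 1)
    (hK : ∀ x ∈ K, x ≠ 0 → ∃ n : ℤ, v x = v π ^ n)
    (hζ : IsPrimitiveRoot ζ p) {E : ℕ} (hE : v (ζ - 1) = v π ^ E)
    {c : Ω} {m : ℕ} (hm0 : 0 < m) (hmE : m < p * E) (hmp : ¬ p ∣ m) (hc : v c = 1)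
    (hy : y ^ p = 1 + π ^ m * c) : y ∉ K := by
  have hlam : v (y - 1) ^ p = v π ^ (m : ℤ) := by
    rw [zpow_natCast]; exact val_sub_one_pow v hp hπ0 hπ1 hζ hE hm0 hmE hc hy
  have hmp' : ¬ (p : ℤ) ∣ (m : ℤ) := fun h => hmp (Int.natCast_dvd_natCast.mp h)
  intro hyK
  exact not_mem_of_val_pow v K hp hπ0 hπ1 hK hlam hmp' (K.sub_mem hyK K.one_mem)

end basis

end Fermat.Agent.S56.helper1214
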