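/-
S56 FLAT-LOCAL, junction FLAT-FB-COR (helper1214).

Layer bound (L5) + Kummer break (BRK, `helper1214_KummerBreak`) + normal form modulo `p`-th
powers (LEVEL, `helper4188_UnitLevel`)  ⟹  (FB): the radicand of a degree-`p` Kummer layer has
level `≥ (p - 1) E` modulo `p`-th powers, where `v (ζ - 1) = v π ^ E` (so `(p - 1) E = v_π(p)`):
the radicand lies in `(1 + p O) · (K^×)^p`.

Carrier: a field `K` with valuation `vK` and uniformiser `π` (`helper4188.IsUnif`), a field `Ω`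
with valuation `v`, a ring hom `ι : K →+* Ω` compatible with the valuations.  The layer bound is
a hypothesis on ONE ring endomorphism `σ` of `Ω` fixing `ι K` with `σ y = ζ ^ k * y`, `p ∤ k`:
for every `ϖ` of a subfield `M ∋ y`, `M ⊇ ι K`, with `v ϖ ^ p = v π`:
`v (ζ - 1) * v π ≤ v (σ ϖ - ϖ) ^ p`  (i.e. `|σ ϖ - ϖ| ≥ |p|^(1/(p(p-1))) |ϖ|`).

Also: levels below the top are insensitive to tame base change (`levelGE_of_levelGE_tame`), so
the bound proved over the maximal tame subfield descends to every smaller tame field.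
-/
import Fermat.Agent.S56.helper1214_KummerBreak
import Fermat.Agent.S56.helper4188_UnitLevel

set_option autoImplicit false

namespace Fermat.Agent.S56.helper1214

open Finset

section zpow

variable {Ω : Type*} [Field Ω] {Γ₀ : Type*} [LinearOrderedCommGroupWithZero Γ₀]
  (v : Valuation Ω Γ₀) {p : ℕ} {ζ : Ω}

/-- Integer powers of a `p`-th root of unity only depend on the exponent modulo `p`. -/
theorem zeta_zpow_eq (hp : p.Prime) (hζ : IsPrimitiveRoot ζ p) (z : ℤ) :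
    ζ ^ z = ζ ^ (z % (p : ℤ)).toNat := by
  have hp0 : (p : ℤ) ≠ 0 := by exact_mod_cast hp.ne_zero
  have h1 : 0 ≤ z % (p : ℤ) := Int.emod_nonneg z hp0
  have hζ0 : ζ ≠ 0 := hζ.ne_zero hp.ne_zero
  have h2 : z = z % (p : ℤ) + (p : ℤ) * (z / (p : ℤ)) := (Int.emod_add_mul_ediv z (p : ℤ)).symm
  conv_lhs => rw [h2]
  rw [zpow_add₀ hζ0, zpow_mul, zpow_natCast, hζ.pow_eq_one, one_zpow, mul_one]
  conv_lhs => rw [← Int.toNat_of_nonneg h1]
  rw [zpow_natCast]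

/-- `v (ζ ^ z - 1) = v (ζ - 1)` for an integer exponent `z` prime to `p`. -/
theorem val_zeta_zpow_sub_one (hp : p.Prime) (hζ : IsPrimitiveRoot ζ p) {z : ℤ}
    (hz : ¬ (p : ℤ) ∣ z) : v (ζ ^ z - 1) = v (ζ - 1) := by
  rw [zeta_zpow_eq hp hζ z]
  have hp0 : (0 : ℤ) < p := by exact_mod_cast hp.pos
  have h1 : 0 ≤ z % (p : ℤ) := Int.emod_nonneg z hp0.ne'
  have h2 : z % (p : ℤ) < p := Int.emod_lt_of_pos z hp0
  have h3 : z % (p : ℤ) ≠ 0 := fun h => hz (Int.dvd_of_emod_eq_zero h)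
  apply val_zeta_pow_sub_one v hp hζ <;> omega

/-- Bezout for an integer prime to `p`. -/
theorem exists_bezout (hp : p.Prime) {n : ℤ} (hn : ¬ (p : ℤ) ∣ n) :
    ∃ A B : ℤ, A * n + B * p = 1 ∧ ¬ (p : ℤ) ∣ A := by
  have hpi : Prime (p : ℤ) := Nat.prime_iff_prime_int.mp hp
  have hc : IsCoprime n (p : ℤ) := ((Prime.coprime_iff_not_dvd hpi).mpr hn).symm
  obtain ⟨A, B, hAB⟩ := hc
  refine ⟨A, B, hAB, fun hA => ?_⟩
  have : (p : ℤ) ∣ 1 := by
    rw [← hAB]; exact dvd_add (Dvd.dvd.mul_right hA n) (Dvd.intro_left B rfl)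
  exact hpi.not_dvd_one this

/-- The layer bound in the form `|p| * g ^ (p - 1) ≤ x ^ (p - 1)` gives `|ζ - 1| * g ≤ x`
(with `g = |ϖ| ^ p`, `x = |σ ϖ - ϖ| ^ p` this converts
`|p| * |ϖ| ^ (p (p - 1)) ≤ |σ ϖ - ϖ| ^ (p (p - 1))` into the hypothesis of
`levelGE_of_layer_bound`). -/
theorem layer_bound_of_prime_form (hp : p.Prime) (hζ : IsPrimitiveRoot ζ p) {g x : Γ₀}
    (h : v (p : Ω) * g ^ (p - 1) ≤ x ^ (p - 1)) : v (ζ - 1) * g ≤ x := by
  rw [val_prime_eq v hp hζ, ← mul_pow] at h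
  have hp1 : p - 1 ≠ 0 := by have := hp.two_le; omega
  exact (pow_le_pow_iff_left₀ zero_le zero_le hp1).mp h

end zpow

section junction

variable {K : Type*} [Field K] {Ω : Type*} [Field Ω] {Γ₀ : Type*}
  [LinearOrderedCommGroupWithZero Γ₀] (vK : Valuation K Γ₀) (v : Valuation Ω Γ₀) (ι : K →+* Ω)
  {p : ℕ} {ζ π : K}

/-- Every nonzero element has level `≥ 0`. -/
theorem levelGE_zero (hp : p.Prime) (hπ : helper4188.IsUnif vK π) {u : K} (hu : u ≠ 0) :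
    helper4188.LevelGE vK π p 0 u := by
  obtain ⟨n, hn⟩ := hπ.exists_zpow u hu
  refine ⟨π ^ n.natAbs, pow_ne_zero _ hπ.ne_zero, ?_⟩
  rw [pow_zero]
  have h1 : vK (u * (π ^ n.natAbs) ^ p) ≤ 1 := by
    rw [map_mul, hn, map_pow, map_pow, ← pow_mul, ← zpow_natCast (vK π) (n.natAbs * p),
      ← zpow_add₀ hπ.val_ne_zero, ← zpow_zero (vK π), hπ.zpow_le_zpow_iff]
    have h2 : (n.natAbs : ℤ) ≤ ((n.natAbs * p : ℕ) : ℤ) := by
      exact_mod_cast Nat.le_mul_of_pos_right _ hp.pos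
    omega
  exact vK.map_sub_le h1 (by rw [map_one])

/-- **(FB) from the layer bound.**  `u ∈ K^×`, `y ^ p = u` in `Ω`, `σ` a ring endomorphism of
`Ω` fixing `K` with `σ y = ζ ^ k * y`, `p ∤ k`; if every `ϖ` in a subfield `M ⊇ K(y)` with
`v ϖ ^ p = v π` satisfies the layer bound `v (ζ - 1) * v π ≤ v (σ ϖ - ϖ) ^ p`, then `u` has
level `≥ (p - 1) E` modulo `p`-th powers of `K` (`v (ζ - 1) = v π ^ E`, `0 < E`). -/
theorem levelGE_of_layer_bound (hι : ∀ x, v (ι x) = vK x) (hp : p.Prime)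
    (hζ : IsPrimitiveRoot ζ p) (hπ : helper4188.IsUnif vK π)
    (hperf : ∀ a : K, vK a ≤ 1 → ∃ b : K, vK (a - b ^ p) < 1)
    {E : ℕ} (hE : vK (ζ - 1) = vK π ^ E) (hE0 : 0 < E)
    {u : K} (hu : u ≠ 0) {y : Ω} (hy : y ^ p = ι u)
    (σ : Ω →+* Ω) (hσ : ∀ x : K, σ (ι x) = ι x) {k : ℕ} (hk : ¬ p ∣ k)
    (hσy : σ y = ι ζ ^ k * y) (M : Subfield Ω) (hM : ∀ x, ι x ∈ M) (hyM : y ∈ M)
    (hL5 : ∀ ϖ ∈ M, v ϖ ^ p = vK π → vK (ζ - 1) * vK π ≤ v (σ ϖ - ϖ) ^ p) :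
    helper4188.LevelGE vK π p ((p - 1) * E) u := by
  have hπ0 : π ≠ 0 := hπ.ne_zero
  have hπ1 : vK π < 1 := hπ.lt_one
  have hvπ0 : 0 < vK π := hπ.val_pos
  have hζ' : IsPrimitiveRoot (ι ζ) p := hζ.map_of_injective ι.injective
  have hιπ0 : ι π ≠ 0 := (map_ne_zero ι).mpr hπ0
  have hιπ1 : v (ι π) < 1 := by rw [hι]; exact hπ1
  have hE' : v (ι ζ - 1) = v (ι π) ^ E := by
    rw [← map_one ι, ← map_sub, hι, hι, hE]
  have hp2 : 2 ≤ p := hp.two_le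
  have hle : (p - 1) * E ≤ p * E := Nat.mul_le_mul_right E (Nat.sub_le p 1)
  obtain ⟨w, hw, hcase⟩ := helper4188.exists_normal_form vK hp hζ hπ hperf hu
  have hy'p : (y * ι w) ^ p = ι (u * w ^ p) := by
    rw [mul_pow, hy, map_mul, map_pow]
  have hσy' : σ (y * ι w) = ι ζ ^ k * (y * ι w) := by
    rw [map_mul, hσy, hσ, mul_assoc]
  have hy'M : y * ι w ∈ M := M.mul_mem hyM (hM w)
  have hπM : ι π ∈ M := hM π
  rcases hcase with ⟨n, hn, hval⟩ | hN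
  · -- radicand of valuation prime to `p`: contradiction with the layer bound
    exfalso
    obtain ⟨A, B, hAB, hA⟩ := exists_bezout hp hn
    have hlam : v (y * ι w) ^ p = v (ι π) ^ n := by
      rw [← map_pow, hy'p, hι, hι, hval]
    have hϖM : (y * ι w) ^ A * ι π ^ B ∈ M :=
      M.mul_mem (M.zpow_mem hy'M A) (M.zpow_mem hπM B)
    have hϖp : v ((y * ι w) ^ A * ι π ^ B) ^ p = vK π := by
      rw [val_uniformizer_pow v hιπ0 hlam hAB, hι]
    have hσϖ : σ ((y * ι w) ^ A * ι π ^ B) - (y * ι w) ^ A * ι π ^ B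
        = ((ι ζ) ^ ((k : ℤ) * A) - 1) * ((y * ι w) ^ A * ι π ^ B) := by
      rw [map_mul, map_zpow₀, map_zpow₀, hσy', hσ, mul_zpow, zpow_mul, zpow_natCast]
      ring
    have hkA : ¬ (p : ℤ) ∣ (k : ℤ) * A := by
      intro h
      rcases (Nat.prime_iff_prime_int.mp hp).dvd_or_dvd h with h1 | h1
      · exact hk (Int.natCast_dvd_natCast.mp h1)
      · exact hA h1
    have h1 := hL5 _ hϖM hϖp
    rw [hσϖ, map_mul, mul_pow, hϖp, val_zeta_zpow_sub_one v hp hζ' hkA, ← map_one ι, ← map_sub,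
      hι] at h1
    have h2 : vK (ζ - 1) ≤ vK (ζ - 1) ^ p := le_of_mul_le_mul_right h1 hvπ0
    have h3 : vK (ζ - 1) < 1 := by rw [hE]; exact pow_lt_one₀ zero_le hπ1 hE0.ne'
    have h4 : 0 < vK (ζ - 1) := by rw [hE]; exact pow_pos hvπ0 E
    exact absurd h2 (not_le.mpr (pow_lt_self_of_lt_one₀ h4 h3 (by omega)))
  rcases hN with ⟨m, hm0, hmp, hlt, hval⟩ | htop
  · -- exact level `m`, `p ∤ m`, below the top
    have hmE : m < p * E := by
      rw [hE, ← pow_mul] at hlt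
      have := (pow_lt_pow_iff_right_of_lt_one₀ hvπ0 hπ1).mp hlt
      rwa [mul_comm] at this
    have hπm0 : π ^ m ≠ 0 := pow_ne_zero m hπ0
    have hvc : vK ((u * w ^ p - 1) / π ^ m) = 1 := by
      rw [map_div₀, hval, map_pow, div_self (pow_ne_zero m hvπ0.ne')]
    have hu'eq : u * w ^ p = 1 + π ^ m * ((u * w ^ p - 1) / π ^ m) := by
      rw [mul_div_cancel₀ _ hπm0]; ring
    have hy'' : (y * ι w) ^ p = 1 + ι π ^ m * ι ((u * w ^ p - 1) / π ^ m) := by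
      rw [hy'p, ← map_pow, ← map_mul, ← map_one ι, ← map_add, ← hu'eq]
    have hvc' : v (ι ((u * w ^ p - 1) / π ^ m)) = 1 := by rw [hι, hvc]
    have hmz : ¬ (p : ℤ) ∣ (m : ℤ) := by rwa [Int.natCast_dvd_natCast]
    obtain ⟨A, B, hAB, -⟩ := exists_bezout hp hmz
    have hlamN : v (y * ι w - 1) ^ p = v (ι π) ^ m :=
      val_sub_one_pow v hp hιπ0 hιπ1 hζ' hE' hm0 hmE hvc' hy''
    have hlam : v (y * ι w - 1) ^ p = v (ι π) ^ (m : ℤ) := by rw [zpow_natCast]; exact hlamN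
    have hϖM : (y * ι w - 1) ^ A * ι π ^ B ∈ M :=
      M.mul_mem (M.zpow_mem (M.sub_mem hy'M M.one_mem) A) (M.zpow_mem hπM B)
    have hϖp : v ((y * ι w - 1) ^ A * ι π ^ B) ^ p = vK π := by
      rw [val_uniformizer_pow v hιπ0 hlam hAB, hι]
    have hσϖ : σ ((y * ι w - 1) ^ A * ι π ^ B) = (ι ζ ^ k * (y * ι w) - 1) ^ A * ι π ^ B := by
      rw [map_mul, map_zpow₀, map_zpow₀, map_sub, map_one, hσy', hσ]
    have hbrk := val_break v hp hιπ0 hιπ1 hζ' hE' hm0 hmE hvc' hy'' hAB hk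
    have h1 := hL5 _ hϖM hϖp
    rw [hσϖ, hbrk, mul_pow, mul_pow, inv_pow, hlamN, hϖp, hE', hι, hE] at h1
    have h2 : vK π ^ (E + 1 + m) ≤ vK π ^ (p * E + 1) := by
      have hm' : vK π ^ m ≠ 0 := pow_ne_zero m hvπ0.ne'
      calc vK π ^ (E + 1 + m) = vK π ^ E * vK π * vK π ^ m := by
            rw [pow_add, pow_add, pow_one]
        _ ≤ (vK π ^ E) ^ p * (vK π ^ m)⁻¹ * vK π * vK π ^ m := by gcongr
        _ = vK π ^ (p * E + 1) := by
          rw [mul_assoc, mul_assoc, mul_comm (vK π) (vK π ^ m), ← mul_assoc ((vK π ^ m)⁻¹),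
            inv_mul_cancel₀ hm', one_mul, ← pow_mul, mul_comm E p, pow_succ]
    have h3 : p * E + 1 ≤ E + 1 + m := (pow_le_pow_iff_right_of_lt_one₀ hvπ0 hπ1).mp h2
    have h4 : (p - 1) * E ≤ m := by
      have : (p - 1) * E + E = p * E := by
        rw [← Nat.succ_mul]; congr 1; omega
      omega
    exact ⟨w, hw, by rw [hval]; exact pow_le_pow_of_le_one zero_le hπ1.le h4⟩
  · -- top level
    refine ⟨w, hw, le_trans htop ?_⟩
    rw [hE, ← pow_mul]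
    exact pow_le_pow_of_le_one zero_le hπ1.le (by rw [mul_comm E p]; exact hle)

/-- **Levels below the top are insensitive to tame base change.**  `j : K →+* K₂` compatible
with the valuations, `π₂` a uniformiser of `K₂` with `v π = v π₂ ^ e'`, `p ∤ e'` (no hypothesis
on residue fields of `K₂`).  If `j u` has level `≥ e' * m` in `K₂` and `m ≤ p E` (top level of
`K`), then `u` has level `≥ m` in `K`. -/
theorem levelGE_of_levelGE_tame {K₂ : Type*} [Field K₂] (v₂ : Valuation K₂ Γ₀) (j : K →+* K₂)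
    (hj : ∀ x, v₂ (j x) = vK x) (hp : p.Prime) (hζ : IsPrimitiveRoot ζ p)
    (hπ : helper4188.IsUnif vK π) (hperf : ∀ a : K, vK a ≤ 1 → ∃ b : K, vK (a - b ^ p) < 1)
    {π₂ : K₂} (hπ₂ : helper4188.IsUnif v₂ π₂) {e' : ℕ} (he' : vK π = v₂ π₂ ^ e')
    (hpe' : ¬ p ∣ e') {E : ℕ} (hE : vK (ζ - 1) = vK π ^ E) {u : K} (hu : u ≠ 0) {m : ℕ}
    (hm : m ≤ p * E) (h : helper4188.LevelGE v₂ π₂ p (e' * m) (j u)) :
    helper4188.LevelGE vK π p m u := by
  rcases Nat.eq_zero_or_pos m with rfl | hm0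
  · exact levelGE_zero vK hp hπ hu
  have he'0 : 0 < e' := Nat.pos_of_ne_zero (fun h0 => hpe' (h0 ▸ dvd_zero p))
  obtain ⟨w₂, hw₂, hw₂le⟩ := h
  have hg0 : v₂ π₂ ≠ 0 := hπ₂.val_ne_zero
  have hlt1 : v₂ π₂ ^ (e' * m) < 1 :=
    pow_lt_one₀ zero_le hπ₂.lt_one (Nat.mul_ne_zero he'0.ne' hm0.ne')
  have hunit : v₂ (j u * w₂ ^ p) = 1 := by
    have e : j u * w₂ ^ p = 1 + (j u * w₂ ^ p - 1) := by ring
    rw [e]; exact v₂.map_one_add_of_lt (lt_of_le_of_lt hw₂le hlt1)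
  obtain ⟨w, hw, hcase⟩ := helper4188.exists_normal_form vK hp hζ hπ hperf hu
  rcases hcase with ⟨n, hn, hval⟩ | hN
  · -- valuation prime to `p`: impossible, `j u` is a unit times a `p`-th power in `K₂`
    exfalso
    obtain ⟨a, ha⟩ := hπ.exists_zpow w hw
    obtain ⟨b, hb⟩ := hπ₂.exists_zpow w₂ hw₂
    have hI : vK u * v₂ π₂ ^ ((e' : ℤ) * a * p) = v₂ π₂ ^ ((e' : ℤ) * n) := by
      have h1 := hval
      rw [map_mul, map_pow, ha, he'] at h1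
      rw [zpow_mul, zpow_mul, zpow_mul, zpow_natCast, zpow_natCast]
      exact h1
    have hII : vK u * v₂ π₂ ^ (b * p) = 1 := by
      have h1 := hunit
      rw [map_mul, hj, map_pow, hb] at h1
      rw [zpow_mul, zpow_natCast]
      exact h1
    have hIII : v₂ π₂ ^ ((e' : ℤ) * a * p) = v₂ π₂ ^ ((e' : ℤ) * n + b * p) :=
      calc v₂ π₂ ^ ((e' : ℤ) * a * p)
          = (vK u * v₂ π₂ ^ (b * p)) * v₂ π₂ ^ ((e' : ℤ) * a * p) := by rw [hII, one_mul]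
        _ = (vK u * v₂ π₂ ^ ((e' : ℤ) * a * p)) * v₂ π₂ ^ (b * p) := by rw [mul_right_comm]
        _ = v₂ π₂ ^ ((e' : ℤ) * n) * v₂ π₂ ^ (b * p) := by rw [hI]
        _ = v₂ π₂ ^ ((e' : ℤ) * n + b * p) := (zpow_add₀ hg0 _ _).symm
    have hIV := hπ₂.zpow_inj.mp hIII
    have hdvd : (p : ℤ) ∣ (e' : ℤ) * n := ⟨(e' : ℤ) * a - b, by linarith⟩
    rcases (Nat.prime_iff_prime_int.mp hp).dvd_or_dvd hdvd with h1 | h1
    · exact hpe' (Int.natCast_dvd_natCast.mp h1)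
    · exact hn h1
  rcases hN with ⟨m', hm'0, hm'p, hlt, hval⟩ | htop
  · by_cases hmm : m ≤ m'
    · exact ⟨w, hw, by rw [hval]; exact pow_le_pow_of_le_one zero_le hπ.lt_one.le hmm⟩
    · exfalso
      rw [not_le] at hmm
      have hζ₂ : IsPrimitiveRoot (j ζ) p := hζ.map_of_injective j.injective
      have hx1 : v₂ (j (u * w ^ p) - 1) = v₂ π₂ ^ (e' * m') := by
        rw [← map_one j, ← map_sub, hj, hval, he', ← pow_mul]
      have hjw : j w ≠ 0 := (map_ne_zero j).mpr hw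
      have hxt : j (u * w ^ p) * (w₂ / j w) ^ p = j u * w₂ ^ p := by
        rw [map_mul, map_pow, div_pow]
        field_simp
      have hlt2 : v₂ (j (u * w ^ p) * (w₂ / j w) ^ p - 1) < v₂ (j (u * w ^ p) - 1) := by
        rw [hxt, hx1]
        exact lt_of_le_of_lt hw₂le (pow_lt_pow_right_of_lt_one₀ hπ₂.val_pos hπ₂.lt_one
          (Nat.mul_lt_mul_of_pos_left hmm he'0))
      have hx1lt : v₂ (j (u * w ^ p) - 1) < 1 := by
        rw [hx1]; exact pow_lt_one₀ zero_le hπ₂.lt_one (Nat.mul_ne_zero he'0.ne' hm'0.ne')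
      have hvx : v₂ (j (u * w ^ p)) = 1 := by
        have e : j (u * w ^ p) = 1 + (j (u * w ^ p) - 1) := by ring
        rw [e]; exact v₂.map_one_add_of_lt hx1lt
      have hx0 : j (u * w ^ p) ≠ 0 := by
        intro h0; rw [h0, map_zero] at hvx; exact zero_ne_one hvx
      have ht : (w₂ / j w) ^ p - 1
          = (j (u * w ^ p))⁻¹ * ((j (u * w ^ p) * (w₂ / j w) ^ p - 1) - (j (u * w ^ p) - 1)) := by
        field_simp
        ring
      have hvt : v₂ ((w₂ / j w) ^ p - 1) = v₂ π₂ ^ (e' * m') := by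
        rw [ht, map_mul, map_inv₀, hvx, inv_one, one_mul, v₂.map_sub_eq_of_lt_right hlt2, hx1]
      have hnd : ¬ p ∣ e' * m' := by
        intro hd
        rcases (Nat.Prime.dvd_mul hp).mp hd with h1 | h1
        · exact hpe' h1
        · exact hm'p h1
      have hlt' : v₂ (j ζ - 1) ^ p < v₂ π₂ ^ (e' * m') := by
        rw [← map_one j, ← map_sub, hj, ← hx1, ← map_one j, ← map_sub, hj, hval]
        exact hlt
      exact helper4188.val_pow_sub_one_ne' v₂ hp hζ₂ hπ₂ hnd hlt' (w₂ / j w) hvt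
  · refine ⟨w, hw, le_trans htop ?_⟩
    rw [hE, ← pow_mul]
    exact pow_le_pow_of_le_one zero_le hπ.lt_one.le (by rw [mul_comm E p]; exact hm)

/-- **(FB) over a tame subfield.**  `K ⊆ K₂ ⊆ Ω` (`j`, `ι₂`), `K₂/K` tame (`v π = v π₂ ^ e'`,
`p ∤ e'`); layer bound for `K₂` (e.g. the maximal tame subfield of the splitting field);
`u ∈ K^×` with a `p`-th root `y` in `Ω` moved by `σ`.  Then `u` has level `≥ (p - 1) E` in `K`. -/
theorem levelGE_of_layer_bound_tame {K₂ : Type*} [Field K₂] (v₂ : Valuation K₂ Γ₀)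
    (j : K →+* K₂) (hj : ∀ x, v₂ (j x) = vK x) (ι₂ : K₂ →+* Ω) (hι₂ : ∀ x, v (ι₂ x) = v₂ x)
    (hp : p.Prime) (hζ : IsPrimitiveRoot ζ p) (hπ : helper4188.IsUnif vK π)
    (hperf : ∀ a : K, vK a ≤ 1 → ∃ b : K, vK (a - b ^ p) < 1)
    {π₂ : K₂} (hπ₂ : helper4188.IsUnif v₂ π₂)
    (hperf₂ : ∀ a : K₂, v₂ a ≤ 1 → ∃ b : K₂, v₂ (a - b ^ p) < 1)
    {e' : ℕ} (he' : vK π = v₂ π₂ ^ e') (hpe' : ¬ p ∣ e')
    {E : ℕ} (hE : vK (ζ - 1) = vK π ^ E) (hE0 : 0 < E)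
    {u : K} (hu : u ≠ 0) {y : Ω} (hy : y ^ p = ι₂ (j u))
    (σ : Ω →+* Ω) (hσ : ∀ x : K₂, σ (ι₂ x) = ι₂ x) {k : ℕ} (hk : ¬ p ∣ k)
    (hσy : σ y = ι₂ (j ζ) ^ k * y) (M : Subfield Ω) (hM : ∀ x, ι₂ x ∈ M) (hyM : y ∈ M)
    (hL5 : ∀ ϖ ∈ M, v ϖ ^ p = v₂ π₂ → v₂ (j ζ - 1) * v₂ π₂ ≤ v (σ ϖ - ϖ) ^ p) :
    helper4188.LevelGE vK π p ((p - 1) * E) u := by
  have he'0 : 0 < e' := Nat.pos_of_ne_zero (fun h0 => hpe' (h0 ▸ dvd_zero p))
  have hζ₂ : IsPrimitiveRoot (j ζ) p := hζ.map_of_injective j.injective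
  have hE₂ : v₂ (j ζ - 1) = v₂ π₂ ^ (e' * E) := by
    rw [← map_one j, ← map_sub, hj, hE, he', ← pow_mul]
  have h1 : helper4188.LevelGE v₂ π₂ p ((p - 1) * (e' * E)) (j u) :=
    levelGE_of_layer_bound v₂ v ι₂ hι₂ hp hζ₂ hπ₂ hperf₂ hE₂ (Nat.mul_pos he'0 hE0)
      ((map_ne_zero j).mpr hu) hy σ hσ hk hσy M hM hyM hL5
  have h2 : (p - 1) * (e' * E) = e' * ((p - 1) * E) := by ring
  rw [h2] at h1
  exact levelGE_of_levelGE_tame vK v₂ j hj hp hζ hπ hperf hπ₂ he' hpe' hE hu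
    (Nat.mul_le_mul_right E (Nat.sub_le p 1)) h1

end junction

end Fermat.Agent.S56.helper1214
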