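/-
S56 FLAT-LOCAL, node FLAT-RED-ASM (helper1401), part 2: from the flat structure to the level
input of the eigen-count, through the captain's junction `helper6366.Stmt_FB` (Fontaine's bound,
Kummer form).

* `diagHom ρ hup : D →* kˣ × kˣ` : the diagonal characters of an upper triangular representation;
  `diagFix P ρ hup` : its kernel on the decomposition group, as a subgroup of `GQ` (normal in the
  decomposition group, of index prime to `p`).
* `good_of_flat` : for a flat cocycle `c'` whose matrix is strictly upper triangular on the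
  decomposition group at `padicPlace p`, every character `tr (l * c'₁₂)` of `inertiaFix` has a
  radicand of level `≥ p - 1` in the fixed field of `inertiaFix` (the hypothesis `hgood` of
  `card_slice12_le`).  The radicand is built on the `D`-level group `diagFix` and
  `helper6366.Stmt_FB` is applied verbatim.
-/
import Mathlib
import Fermat.Agent.S32.helper1304_HopfClose
import Fermat.Agent.S56.helper1624_FlatLinear
import Fermat.Agent.S56.helper6366_FlatJunction
import Fermat.Agent.S56.helper1401_RedKummer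

set_option autoImplicit false

namespace Fermat.Agent.S56.helper1401

open Fermat.Agent.S56.helper164 Fermat.Agent.S56.helper4188 Fermat.Agent.S56.helper5221
open Fermat.Agent.S32.helper1304 Fermat.Agent.S56.helper1624

/-- `v p = v (ζ - 1) ^ (p - 1)` for a primitive `p`-th root of unity `ζ`, for any valuation. -/
theorem val_prime_eq_zeta_pow {K : Type*} [Field K] {Γ₀ : Type*}
    [LinearOrderedCommGroupWithZero Γ₀] (v : Valuation K Γ₀) {q : ℕ} (hq : q.Prime) {ζ : K}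
    (hζ : IsPrimitiveRoot ζ q) : v (q : K) = v (ζ - 1) ^ (q - 1) := by
  obtain ⟨n, rfl⟩ : ∃ n, q = n + 1 := ⟨q - 1, (Nat.succ_pred_eq_of_pos hq.pos).symm⟩
  have hprod := hζ.prod_one_sub_pow_eq_order
  have hcast : ((n + 1 : ℕ) : K) = (n : K) + 1 := by push_cast; ring
  rw [hcast, ← hprod, map_prod, Nat.add_sub_cancel]
  rw [Finset.prod_eq_pow_card (b := v (ζ - 1)), Finset.card_range]
  intro k hk
  have hk' : k + 1 < n + 1 := Nat.succ_lt_succ (Finset.mem_range.1 hk)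
  have h1 : (ζ ^ (k + 1)) ^ (n + 1) = 1 := by
    rw [← pow_mul, mul_comm, pow_mul, hζ.pow_eq_one, one_pow]
  have h2 : ζ ^ (k + 1) ≠ 1 := hζ.pow_ne_one_of_pos_of_lt (Nat.succ_ne_zero k) hk'
  rw [← val_root_sub_one_eq v hq hζ h1 h2, ← neg_sub, Valuation.map_neg]

/-! ### The diagonal characters -/

section Diag

variable {k : Type*} [Field k] {D : Type*} [Group D]

theorem upper_apply_zero_zero_ne (ρ : D →* Matrix (Fin 2) (Fin 2) k) (hup : ∀ σ, ρ σ 1 0 = 0)
    (σ : D) : ρ σ 0 0 ≠ 0 := by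
  obtain ⟨-, h, -, -⟩ := upper_inv_entries (hup σ) (rho_mul_rho_inv ρ σ)
  exact left_ne_zero_of_mul_eq_one h

theorem upper_apply_one_one_ne (ρ : D →* Matrix (Fin 2) (Fin 2) k) (hup : ∀ σ, ρ σ 1 0 = 0)
    (σ : D) : ρ σ 1 1 ≠ 0 := by
  obtain ⟨-, -, h, -⟩ := upper_inv_entries (hup σ) (rho_mul_rho_inv ρ σ)
  exact left_ne_zero_of_mul_eq_one h

/-- The diagonal characters `(χ₁, χ₂)` of an upper triangular representation. -/
noncomputable def diagHom (ρ : D →* Matrix (Fin 2) (Fin 2) k) (hup : ∀ σ, ρ σ 1 0 = 0) :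
    D →* kˣ × kˣ where
  toFun σ := (Units.mk0 (ρ σ 0 0) (upper_apply_zero_zero_ne ρ hup σ),
    Units.mk0 (ρ σ 1 1) (upper_apply_one_one_ne ρ hup σ))
  map_one' := by
    refine Prod.ext (Units.ext ?_) (Units.ext ?_)
    · show ρ 1 0 0 = 1
      rw [map_one, Matrix.one_apply_eq]
    · show ρ 1 1 1 = 1
      rw [map_one, Matrix.one_apply_eq]
  map_mul' σ τ := by
    refine Prod.ext (Units.ext ?_) (Units.ext ?_)
    · exact upper_mul_apply_zero_zero ρ hup σ τ
    · exact upper_mul_apply_one_one ρ hup σ τ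

theorem mem_ker_diagHom {ρ : D →* Matrix (Fin 2) (Fin 2) k} {hup : ∀ σ, ρ σ 1 0 = 0} {σ : D} :
    σ ∈ (diagHom ρ hup).ker ↔ ρ σ 0 0 = 1 ∧ ρ σ 1 1 = 1 := by
  rw [MonoidHom.mem_ker]
  constructor
  · intro h
    have h1 := congrArg (fun x : kˣ × kˣ => ((x.1 : kˣ) : k)) h
    have h2 := congrArg (fun x : kˣ × kˣ => ((x.2 : kˣ) : k)) h
    exact ⟨h1, h2⟩
  · rintro ⟨h1, h2⟩
    exact Prod.ext (Units.ext h1) (Units.ext h2)

/-- The kernel of a homomorphism to a finite group of order prime to `p` has index prime to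
`p`. -/
theorem not_dvd_index_ker {G A : Type*} [Group G] [Group A] [Finite A] (Ψ : G →* A) {p : ℕ}
    (hA : ¬ p ∣ Nat.card A) : ¬ p ∣ Ψ.ker.index := by
  rw [Subgroup.index_ker]
  exact fun h => hA (h.trans (Subgroup.card_subgroup_dvd_card Ψ.range))

/-- `#(kˣ × kˣ)` is prime to `p` for a finite field `k` of characteristic `p`. -/
theorem not_dvd_card_units_prod {p : ℕ} [Fact p.Prime] (k : Type*) [Field k] [Finite k]
    [Algebra (ZMod p) k] : ¬ p ∣ Nat.card (kˣ × kˣ) := by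
  have hp : p.Prime := Fact.out
  have hcard : Nat.card k = p ^ Module.finrank (ZMod p) k := by
    rw [Module.natCard_eq_pow_finrank (K := ZMod p) (V := k), Nat.card_zmod]
  have hpos : 0 < Module.finrank (ZMod p) k := Module.finrank_pos
  have hdvd : p ∣ Nat.card k := by
    rw [hcard]
    exact dvd_pow_self p hpos.ne'
  have hu : Nat.card kˣ = Nat.card k - 1 := Nat.card_units k
  have h1 : ¬ p ∣ Nat.card kˣ := by
    rw [hu]
    intro h
    have h2 : 1 < Nat.card k := Finite.one_lt_card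
    have h3 : p ∣ 1 := by
      have h4 : Nat.card k - (Nat.card k - 1) = 1 := by omega
      rw [← h4]
      exact Nat.dvd_sub hdvd h
    exact hp.one_lt.ne' (Nat.dvd_one.1 h3)
  rw [Nat.card_prod]
  exact fun h => (hp.dvd_mul.1 h).elim h1 h1

end Diag

/-! ### The `D`-level group -/

section DiagFix

variable {k : Type*} [Field k]

/-- The kernel of the diagonal characters on the decomposition group, as a subgroup of `GQ`. -/
noncomputable def diagFix (P : ValuationSubring Qb)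
    (ρ : ↥(P.decompositionSubgroup ℚ) →* Matrix (Fin 2) (Fin 2) k) (hup : ∀ σ, ρ σ 1 0 = 0) :
    Subgroup GQ :=
  (diagHom ρ hup).ker.map (P.decompositionSubgroup ℚ).subtype

theorem mem_diagFix {P : ValuationSubring Qb}
    {ρ : ↥(P.decompositionSubgroup ℚ) →* Matrix (Fin 2) (Fin 2) k} {hup : ∀ σ, ρ σ 1 0 = 0}
    {σ : GQ} : σ ∈ diagFix P ρ hup ↔
      ∃ hσ : σ ∈ P.decompositionSubgroup ℚ, ρ ⟨σ, hσ⟩ 0 0 = 1 ∧ ρ ⟨σ, hσ⟩ 1 1 = 1 := by
  unfold diagFix
  rw [Subgroup.mem_map]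
  constructor
  · rintro ⟨x, hx, rfl⟩
    exact ⟨x.2, mem_ker_diagHom.1 hx⟩
  · rintro ⟨hσ, h⟩
    exact ⟨⟨σ, hσ⟩, mem_ker_diagHom.2 h, rfl⟩

theorem diagFix_le (P : ValuationSubring Qb)
    (ρ : ↥(P.decompositionSubgroup ℚ) →* Matrix (Fin 2) (Fin 2) k) (hup : ∀ σ, ρ σ 1 0 = 0) :
    diagFix P ρ hup ≤ P.decompositionSubgroup ℚ :=
  Subgroup.map_subtype_le _

theorem diagFix_subgroupOf (P : ValuationSubring Qb)
    (ρ : ↥(P.decompositionSubgroup ℚ) →* Matrix (Fin 2) (Fin 2) k) (hup : ∀ σ, ρ σ 1 0 = 0) :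
    (diagFix P ρ hup).subgroupOf (P.decompositionSubgroup ℚ) = (diagHom ρ hup).ker := by
  ext x
  rw [Subgroup.mem_subgroupOf, mem_diagFix, mem_ker_diagHom]
  exact ⟨fun ⟨_, h⟩ => h, fun h => ⟨x.2, h⟩⟩

theorem diagFix_normal (P : ValuationSubring Qb)
    (ρ : ↥(P.decompositionSubgroup ℚ) →* Matrix (Fin 2) (Fin 2) k) (hup : ∀ σ, ρ σ 1 0 = 0) :
    ((diagFix P ρ hup).subgroupOf (P.decompositionSubgroup ℚ)).Normal := by
  rw [diagFix_subgroupOf]
  exact MonoidHom.normal_ker _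

theorem diagFix_relIndex {p : ℕ} [Fact p.Prime] [Finite k] [Algebra (ZMod p) k]
    (P : ValuationSubring Qb)
    (ρ : ↥(P.decompositionSubgroup ℚ) →* Matrix (Fin 2) (Fin 2) k) (hup : ∀ σ, ρ σ 1 0 = 0) :
    ¬ p ∣ (diagFix P ρ hup).relIndex (P.decompositionSubgroup ℚ) := by
  unfold Subgroup.relIndex
  rw [diagFix_subgroupOf]
  exact not_dvd_index_ker _ (not_dvd_card_units_prod k)

end DiagFix

/-! ### The level input from a flat cocycle -/

section Good

/-- A `k`-vector space, `k` of characteristic `p`, is killed by `p`. -/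
theorem nsmul_prime_eq_zero {p : ℕ} (k : Type*) [Field k] [Algebra (ZMod p) k]
    {V : Type*} [AddCommGroup V] [Module k V] (m : V) : p • m = 0 := by
  have h0 : (p : k) = 0 := by
    have h1 : algebraMap (ZMod p) k (p : ZMod p) = 0 := by
      rw [ZMod.natCast_self, map_zero]
    rwa [map_natCast] at h1
  rw [← Nat.cast_smul_eq_nsmul k, h0, zero_smul]

/-- `helper6366.Stmt_FB` at a valuation subring equal to `padicPlace p`. -/
theorem stmt_FB_at (hFB : Fermat.Agent.S56.helper6366.Stmt_FB) (p : ℕ) [Fact p.Prime]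
    (hp2 : p ≠ 2) (P : ValuationSubring Qb) (hP : P = padicPlace p)
    (M : Type) [AddCommGroup M] (act : GQ → M → M) (hM : HasFunModel p M act)
    (hkill : ∀ m : M, p • m = 0) (N : Subgroup GQ) (hN : N ≤ P.decompositionSubgroup ℚ)
    (hnorm : (N.subgroupOf (P.decompositionSubgroup ℚ)).Normal)
    (hidx : ¬ p ∣ N.relIndex (P.decompositionSubgroup ℚ))
    (hζ : ∃ ζ : Qb, IsPrimitiveRoot ζ p ∧ ∀ τ ∈ N, τ ζ = ζ)
    (hker : ∀ τ ∈ P.decompositionSubgroup ℚ, (∀ m : M, act τ m = m) → τ ∈ N)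
    (y : Qb) (hy0 : y ≠ 0) (hyp : ∀ τ ∈ N, τ (y ^ p) = y ^ p)
    (hyfix : ∀ τ ∈ P.decompositionSubgroup ℚ, (∀ m : M, act τ m = m) → τ y = y) :
    ∃ w : Qb, w ≠ 0 ∧ (∀ τ ∈ N, τ w = w) ∧
      P.valuation (y ^ p * w ^ p - 1) ≤ P.valuation (p : Qb) := by
  subst hP
  exact hFB p hp2 M act hM hkill N hN hnorm hidx hζ hker y hy0 hyp hyfix

variable {p : ℕ} [Fact p.Prime] {k : Type*} [Field k] [Finite k] [Algebra (ZMod p) k]
  {V : Type} [AddCommGroup V] [Module k V]

/-- **The level input, from `Stmt_FB`.**  `ρ` a representation of `G_ℚ` on `V`, upper triangular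
in the basis `b` on the decomposition group `D` at `P = padicPlace p` (matrix form `ρm`), with
diagonal characters trivial on `inertiaFix` and `ζ` fixed by the kernel of the diagonal
characters.  `c'` a flat cocycle for `ρ` (function-model form) whose matrix is strictly upper
triangular on `D`.  Then for every `l` the character `tr (l * c'₁₂)` of `inertiaFix` has a
radicand of level `≥ p - 1` in the fixed field of `inertiaFix`. -/
theorem good_of_flat (hp2 : p ≠ 2) (hFB : Fermat.Agent.S56.helper6366.Stmt_FB)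
    (P : ValuationSubring Qb) (hP : P = padicPlace p) {ζ : Qb}
    (hζ : IsPrimitiveRoot ζ p)
    (b : Module.Basis (Fin 2) k V) (ρ : GQ →* Module.End k V)
    (ρm : ↥(P.decompositionSubgroup ℚ) →* Matrix (Fin 2) (Fin 2) k)
    (hρm : ∀ σ : ↥(P.decompositionSubgroup ℚ), ρm σ = LinearMap.toMatrix b b (ρ (σ : GQ)))
    (hup : ∀ σ, ρm σ 1 0 = 0)
    (hN0 : ∀ n ∈ inertiaFixD P ζ, ρm n 0 0 = 1 ∧ ρm n 1 1 = 1)
    (hdet1 : ∀ σ : ↥(P.decompositionSubgroup ℚ), ρm σ 0 0 = 1 → ρm σ 1 1 = 1 → (σ : GQ) ζ = ζ)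
    (c' : GQ → Module.End k V)
    (hflat : FlatCoc p (fun σ => ⇑(ρ σ)) (fun σ => ⇑(c' σ)))
    (hcoc : ∀ σ τ, c' (σ * τ) = c' σ + ρ σ * c' τ * ρ σ⁻¹)
    (hc : ∀ σ ∈ P.decompositionSubgroup ℚ, LinearMap.toMatrix b b (c' σ) 1 0 = 0 ∧
      LinearMap.toMatrix b b (c' σ) 0 0 = 0 ∧ LinearMap.toMatrix b b (c' σ) 1 1 = 0)
    (tr : k →+ ZMod p) (l : k) :
    ∃ u : fixedK (inertiaFix P ζ),
      IsRadicand (inertiaFix P ζ) ζ
        (fun g => tr (l * extFix P ζ (fun n : ↥(inertiaFixD P ζ) =>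
          LinearMap.toMatrix b b (c' ((n : ↥(P.decompositionSubgroup ℚ)) : GQ)) 0 1) g)) u ∧
      LevelGE (vK P ζ) (zetaK P ζ - 1) p (p - 1) u := by
  have hp : p.Prime := Fact.out
  set N : Subgroup GQ := diagFix P ρm hup with hN
  set χ : GQ → ZMod p := fun g => tr (l * LinearMap.toMatrix b b (c' g) 0 1) with hχ
  have hND : N ≤ P.decompositionSubgroup ℚ := diagFix_le P ρm hup
  have hN0le : inertiaFix P ζ ≤ N := by
    intro σ hσ
    have hσD : σ ∈ P.decompositionSubgroup ℚ := inertiaFix_le_decomposition P ζ hσ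
    exact mem_diagFix.2 ⟨hσD, hN0 ⟨σ, hσD⟩ (mem_inertiaFixD.2 hσ)⟩
  have hNζ : ∀ g ∈ N, g ζ = ζ := by
    intro g hg
    obtain ⟨hgD, h00, h11⟩ := mem_diagFix.1 hg
    exact hdet1 ⟨g, hgD⟩ h00 h11
  -- additivity on `N`
  have hent : ∀ g ∈ N, ∀ h ∈ N, LinearMap.toMatrix b b (c' (g * h)) 0 1 =
      LinearMap.toMatrix b b (c' g) 0 1 + LinearMap.toMatrix b b (c' h) 0 1 := by
    intro g hg h hh
    obtain ⟨hgD, g00, g11⟩ := mem_diagFix.1 hg
    obtain ⟨c10, c00, c11⟩ := hc h (hND hh)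
    have g10 := hup ⟨g, hgD⟩
    rw [hρm] at g00 g11 g10
    have hAB : LinearMap.toMatrix b b (ρ g) * LinearMap.toMatrix b b (ρ g⁻¹) = 1 := by
      rw [← LinearMap.toMatrix_mul, ← map_mul, mul_inv_cancel, map_one, LinearMap.toMatrix_one]
    obtain ⟨-, -, e11, -⟩ := upper_inv_entries g10 hAB
    rw [g11, one_mul] at e11
    rw [hcoc g h, map_add, Matrix.add_apply, LinearMap.toMatrix_mul, LinearMap.toMatrix_mul,
      upper_conj_apply_zero_one g10 hAB c10, g00, e11, c00, c11]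
    ring
  have hadd : ∀ g ∈ N, ∀ h ∈ N, χ (g * h) = χ g + (fun _ : GQ => (1 : ZMod p)) g * χ h := by
    intro g hg h hh
    show tr (l * LinearMap.toMatrix b b (c' (g * h)) 0 1) =
      tr (l * LinearMap.toMatrix b b (c' g) 0 1) + 1 * tr (l * LinearMap.toMatrix b b (c' h) 0 1)
    rw [hent g hg h hh, mul_add, map_add, one_mul]
  -- level
  obtain ⟨L, hLfin, hL⟩ := hflat.exists_level
  have hzero : ∀ s : GQ, s ∈ L.fixingSubgroup → c' s = 0 := by
    intro s hs
    apply LinearMap.ext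
    intro v
    exact (hL s (fun x hx => (IntermediateField.mem_fixingSubgroup_iff L s).1 hs x hx)).2 v
  have hlev : IsLevelOn N χ := by
    refine ⟨L, hLfin, fun g hg s hs hsL => ?_⟩
    have h1 := hadd g hg s hs
    have h2 : χ s = 0 := by
      show tr (l * LinearMap.toMatrix b b (c' s) 0 1) = 0
      rw [hzero s hsL, map_zero, Matrix.zero_apply, mul_zero, map_zero]
    rw [h1, h2, mul_zero, add_zero]
  have hω : ∀ g ∈ N, g ζ = ζ ^ ((fun _ : GQ => (1 : ZMod p)) g).val := by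
    intro g hg
    have : Fact (1 < p) := ⟨hp.one_lt⟩
    rw [ZMod.val_one, pow_one]
    exact hNζ g hg
  obtain ⟨u, y, hy, hgen⟩ := exists_isRadicand (H := N) hζ (fun _ => 1) χ hω hadd hlev
  -- the kernel of the action lies in `N` and fixes `y`
  have hker : ∀ σ ∈ P.decompositionSubgroup ℚ,
      (∀ m : V × V, twAct (fun σ => ⇑(ρ σ)) (fun σ => ⇑(c' σ)) σ m = m) → σ ∈ N ∧ c' σ = 0 := by
    intro σ hσD hσ
    have hρ1 : ρ σ = 1 := by
      apply LinearMap.ext
      intro v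
      have h1 := congrArg Prod.snd (hσ (0, v))
      exact h1
    have hc0 : c' σ = 0 := by
      apply LinearMap.ext
      intro v
      have h1 := congrArg Prod.fst (hσ (0, v))
      simp only [twAct_fst] at h1
      rw [hρ1] at h1
      simpa using h1
    refine ⟨mem_diagFix.2 ⟨hσD, ?_, ?_⟩, hc0⟩
    · rw [hρm]
      show LinearMap.toMatrix b b (ρ σ) 0 0 = 1
      rw [hρ1, LinearMap.toMatrix_one, Matrix.one_apply_eq]
    · rw [hρm]
      show LinearMap.toMatrix b b (ρ σ) 1 1 = 1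
      rw [hρ1, LinearMap.toMatrix_one, Matrix.one_apply_eq]
  have hyfix : ∀ σ ∈ P.decompositionSubgroup ℚ,
      (∀ m : V × V, twAct (fun σ => ⇑(ρ σ)) (fun σ => ⇑(c' σ)) σ m = m) → σ y = y := by
    intro σ hσD hσ
    obtain ⟨hσN, hc0⟩ := hker σ hσD hσ
    refine hgen.fixed_of_zero hσN ?_
    show tr (l * LinearMap.toMatrix b b (c' σ) 0 1) = 0
    rw [hc0, map_zero, Matrix.zero_apply, mul_zero, map_zero]
  -- (FB)
  obtain ⟨w, hw0, hwfix, hwv⟩ := stmt_FB_at hFB p hp2 P hP (V × V)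
    (twAct (fun σ => ⇑(ρ σ)) (fun σ => ⇑(c' σ))) hflat
    (fun m => nsmul_prime_eq_zero k m) N hND (diagFix_normal P ρm hup)
    (diagFix_relIndex P ρm hup) ⟨ζ, hζ, hNζ⟩ (fun τ hτ h => (hker τ hτ h).1) y hgen.1
    (fun τ hτ => hgen.pow_fixed hζ hτ) hyfix
  -- repackage in the fixed field of `inertiaFix P ζ`
  let uK : fixedK (inertiaFix P ζ) :=
    ⟨(u : Qb), mem_fixedK.2 fun σ hσ => mem_fixedK.1 u.2 σ (hN0le hσ)⟩
  let xK : fixedK (inertiaFix P ζ) := ⟨w, mem_fixedK.2 fun σ hσ => hwfix σ (hN0le hσ)⟩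
  refine ⟨uK, ⟨y, hy, (hgen.mono hN0le).congr ?_⟩, xK, fun h => hw0 (congrArg Subtype.val h), ?_⟩
  · intro g hg
    show tr (l * LinearMap.toMatrix b b (c' g) 0 1) = _
    rw [extFix_of_mem P ζ _ hg]
  · have hpow : vK P ζ (zetaK P ζ - 1) ^ (p - 1) = P.valuation (p : Qb) := by
      rw [val_prime_eq_zeta_pow P.valuation hp hζ]
      rfl
    rw [hpow]
    have e : ((uK * xK ^ p - 1 : fixedK (inertiaFix P ζ)) : Qb) = y ^ p * w ^ p - 1 := by
      rw [hy]; rfl
    show P.valuation ((uK * xK ^ p - 1 : fixedK (inertiaFix P ζ)) : Qb) ≤ _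
    rw [e]
    exact hwv

end Good

end Fermat.Agent.S56.helper1401
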