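/-
S56 FLAT-LOCAL, node FLAT-RED-ASM (helper1401), part 3: the assembly of the reducible case.

`flatTangentAt_of_shape` : `helper6366.FlatTangentAt p ρbar` from
* `LocalHyp p ρbar`;
* the junction `helper6366.Stmt_FB` (Fontaine's bound, Kummer form);
* a basis `b` of `ρbar.V` in which `ρbar` is upper triangular on the decomposition group at
  `padicPlace p`, with `χ₂` unramified and `χ₁` ramified (output of the type analysis);
* the shape of the flat lifts: every flat trace-zero lift cocycle is, on the decomposition group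
  and up to a coboundary, upper triangular with `c₁₁ = 0` on inertia (output of the
  connected-étale argument).
-/
import Mathlib
import Fermat.Agent.S56.helper4753_TameAdapt
import Fermat.Agent.S56.helper1624_FlatLinearSpec
import Fermat.Agent.S56.helper1401_RedFlat

set_option autoImplicit false

namespace Fermat.Agent.S56.helper1401

open Fermat.Agent.S56.helper164 Fermat.Agent.S56.helper4188 Fermat.Agent.S56.helper5221
open Fermat.Agent.S32.helper1304 Fermat.Agent.S56.helper1624 Fermat.Agent.S56.helper6366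
open Fermat.Agent.S56.helper6599 (LiftCocycle stdLift)

/-! ### The matrix form of `ρbar` on a subgroup -/

section Mat

variable {k : Type} [Field k]

/-- The matrix of `ρbar` in the basis `b`, on a subgroup. -/
noncomputable def matRep (ρbar : ResidualGaloisRep k) (b : Module.Basis (Fin 2) k ρbar.V)
    (D : Subgroup GQ) : ↥D →* Matrix (Fin 2) (Fin 2) k where
  toFun σ := LinearMap.toMatrix b b (ρbar.ρ (σ : GQ))
  map_one' := by
    show LinearMap.toMatrix b b (ρbar.ρ (1 : GQ)) = 1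
    rw [map_one, LinearMap.toMatrix_one]
  map_mul' σ τ := by
    show LinearMap.toMatrix b b (ρbar.ρ ((σ : GQ) * (τ : GQ))) = _
    rw [map_mul, LinearMap.toMatrix_mul]

@[simp] theorem matRep_apply (ρbar : ResidualGaloisRep k) (b : Module.Basis (Fin 2) k ρbar.V)
    (D : Subgroup GQ) (σ : ↥D) :
    matRep ρbar b D σ = LinearMap.toMatrix b b (ρbar.ρ (σ : GQ)) := rfl

/-- The determinant of an upper triangular `ρbar σ` is the product of the diagonal entries. -/
theorem det_eq_of_upper (ρbar : ResidualGaloisRep k) (b : Module.Basis (Fin 2) k ρbar.V)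
    (σ : GQ) (h : LinearMap.toMatrix b b (ρbar.ρ σ) 1 0 = 0) :
    LinearMap.det (ρbar.ρ σ) =
      LinearMap.toMatrix b b (ρbar.ρ σ) 0 0 * LinearMap.toMatrix b b (ρbar.ρ σ) 1 1 := by
  rw [← LinearMap.det_toMatrix b, Matrix.det_fin_two, h, mul_zero, sub_zero]

end Mat

/-! ### The cyclotomic determinant on `μ_p` -/

section Cyc

variable {p : ℕ} [Fact p.Prime] {k : Type} [Field k]

/-- For `ρbar` with cyclotomic determinant: `σ` fixes a primitive `p`-th root of unity iff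
`det ρbar σ = 1`. -/
theorem det_eq_one_iff_fix {ρbar : ResidualGaloisRep k}
    (hdet : (GaloisRepAdic.ofResidualGaloisRep ρbar).DetIsCyclotomic p) {ζ : Qb}
    (hζ : IsPrimitiveRoot ζ p) (σ : GQ) : LinearMap.det (ρbar.ρ σ) = 1 ↔ σ ζ = ζ := by
  have hp : p.Prime := Fact.out
  have hpk : (p : k) = 0 := natCast_eq_zero_of_det hdet
  have hchar : CharP k p := (CharP.charP_iff_prime_eq_zero hp).2 hpk
  obtain ⟨a, ha⟩ := Fermat.Agent.S56.helper6599.exists_pow_action p σ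
  have h1 := hdet.2 1 σ a ha
  have hp' : (((p ^ 1 : ℕ) : k)) = 0 := by rw [pow_one, hpk]
  rw [hp', Ideal.span_singleton_eq_bot.mpr rfl, Ideal.mem_bot, sub_eq_zero] at h1
  have h2 : LinearMap.det (ρbar.ρ σ) = (a : k) := h1
  have hσζ : σ ζ = ζ ^ a := ha ζ (by rw [pow_one]; exact hζ.pow_eq_one)
  have hζ0 : ζ ≠ 0 := hζ.ne_zero hp.ne_zero
  have hmod : ζ ^ a = ζ ↔ a ≡ 1 [MOD p] := by
    rcases Nat.eq_zero_or_pos a with rfl | hapos
    · rw [pow_zero]
      constructor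
      · intro h
        exact absurd h.symm (hζ.ne_one hp.one_lt)
      · intro h
        have h3 : p ∣ 1 - 0 := (Nat.modEq_iff_dvd' (Nat.zero_le 1)).1 h
        exact absurd (Nat.dvd_one.1 h3) hp.one_lt.ne'
    · have e : ζ ^ a = ζ * ζ ^ (a - 1) := by
        rw [← pow_succ', Nat.sub_add_cancel hapos]
      rw [e]
      constructor
      · intro h
        have h3 : ζ ^ (a - 1) = 1 := by
          have h4 : ζ * ζ ^ (a - 1) = ζ * 1 := by rw [mul_one]; exact h
          exact mul_left_cancel₀ hζ0 h4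
        exact ((Nat.modEq_iff_dvd' hapos).2 ((hζ.pow_eq_one_iff_dvd _).1 h3)).symm
      · intro h
        have h3 : p ∣ a - 1 := (Nat.modEq_iff_dvd' hapos).1 h.symm
        rw [(hζ.pow_eq_one_iff_dvd _).2 h3, mul_one]
  rw [h2, hσζ, hmod, ← Nat.cast_one (R := k), CharP.natCast_eq_natCast k p]

end Cyc

/-! ### Small group-theoretic inputs -/

section Comm

/-- Commutators fix the `p`-th roots of unity. -/
theorem comm_apply_root {p : ℕ} [Fact p.Prime] {ζ : Qb} (hζ : IsPrimitiveRoot ζ p) (σ τ : GQ) :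
    (τ⁻¹ * σ⁻¹ * τ * σ) ζ = ζ := by
  obtain ⟨a, ha⟩ := Fermat.Agent.S56.helper6599.exists_pow_action p σ
  obtain ⟨c, hc⟩ := Fermat.Agent.S56.helper6599.exists_pow_action p τ
  have hζp : ζ ^ p ^ 1 = 1 := by rw [pow_one]; exact hζ.pow_eq_one
  have h1 : τ (σ ζ) = σ (τ ζ) := by
    rw [ha ζ hζp, hc ζ hζp, map_pow, map_pow, hc ζ hζp, ha ζ hζp, ← pow_mul, ← pow_mul, mul_comm]
  have h2 : (τ⁻¹ * σ⁻¹ * τ * σ) ζ = τ⁻¹ (σ⁻¹ (τ (σ ζ))) := rfl
  rw [h2, h1]
  have h3 : σ⁻¹ (σ (τ ζ)) = τ ζ := σ.symm_apply_apply _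
  rw [h3]
  exact τ.symm_apply_apply _

/-- A nondegenerate additive functional `k → 𝔽_p` on a finite field of characteristic `p`. -/
theorem exists_nondegenerate_tr {p : ℕ} [Fact p.Prime] (k : Type*) [Field k] [Finite k]
    [Algebra (ZMod p) k] :
    ∃ tr : k →+ ZMod p, ∀ x : k, (∀ l : k, tr (l * x) = 0) → x = 0 := by
  have hfd : Module.Finite (ZMod p) k := Module.Finite.of_finite
  refine ⟨(Algebra.trace (ZMod p) k).toAddMonoidHom, fun x hx => ?_⟩
  by_contra hx0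
  obtain ⟨y, hy⟩ := Algebra.trace_surjective (ZMod p) k 1
  have h1 := hx (y * x⁻¹)
  rw [mul_assoc, inv_mul_cancel₀ hx0, mul_one] at h1
  have h2 : Algebra.trace (ZMod p) k y = 0 := h1
  rw [hy] at h2
  exact one_ne_zero h2

end Comm

/-! ### The assembly -/

section Asm

variable {p : ℕ} [Fact p.Prime] {k : Type} [Field k]

/-- **FLAT-LOCAL, reducible case, from the shape of the flat lifts.**  See the file header. -/
theorem flatTangentAt_of_shape {ρbar : ResidualGaloisRep k} (h : LocalHyp p ρbar)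
    (hFB : Stmt_FB) (b : Module.Basis (Fin 2) k ρbar.V)
    (hup : ∀ σ : ↥(decP p), matRep ρbar b (decP p) σ 1 0 = 0)
    (hχ2 : ∀ σ ∈ (padicPlace p).inertiaSubgroup ℚ, matRep ρbar b (decP p) σ 1 1 = 1)
    (τ0 : ↥(decP p)) (hτ0 : τ0 ∈ (padicPlace p).inertiaSubgroup ℚ)
    (hτ0' : matRep ρbar b (decP p) τ0 0 0 ≠ 1)
    (hshape : ∀ c : LiftCocycle ρbar, (stdLift c).IsFlatAt p →
      (∀ g, LinearMap.trace k ρbar.V (c.c g) = 0) →
      ∃ (X : Matrix (Fin 2) (Fin 2) k) (c0 : ↥(decP p) → Matrix (Fin 2) (Fin 2) k),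
        (∀ σ : ↥(decP p), LinearMap.toMatrix b b (c.c (σ : GQ)) =
          c0 σ - (matRep ρbar b (decP p) σ * X * matRep ρbar b (decP p) σ⁻¹ - X)) ∧
        (∀ σ, c0 σ 1 0 = 0) ∧ ∀ σ ∈ (padicPlace p).inertiaSubgroup ℚ, c0 σ 0 0 = 0) :
    FlatTangentAt p ρbar := by
  classical
  have hfin : Finite k := h.fin
  have hp2 : p ≠ 2 := h.odd
  have hp : p.Prime := Fact.out
  have hpk : (p : k) = 0 := natCast_eq_zero_of_det h.det
  have hchar : CharP k p := (CharP.charP_iff_prime_eq_zero hp).2 hpk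
  let _ : Algebra (ZMod p) k := ZMod.algebra k p
  -- vacuous case
  by_cases hex : ∃ c : LiftCocycle ρbar, (stdLift c).IsFlatAt p ∧
      ∀ g, LinearMap.trace k ρbar.V (c.c g) = 0
  swap
  · exact flatTangentAt_of_forall_not p ρbar (fun c hdet hfl => hex ⟨c, hfl,
      Fermat.Agent.S56.helper6599.trace_eq_zero_of_detIsCyclotomic p hpk c hdet⟩)
  obtain ⟨cs, hcsfl, -⟩ := hex
  have hV : HasFunModel p ρbar.V (fun σ => ⇑(ρbar.ρ σ)) := (flatCoc_of_stdLift cs hcsfl).base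
  -- the arithmetic inputs at `padicPlace p`
  have hP : (padicPlace p).LiesOverPrime p :=
    Fermat.Agent.S55.helper4145.padicPlace_liesOverPrime p
  have : NeZero (p : ℚ) := ⟨by exact_mod_cast hp.ne_zero⟩
  have : NeZero p := ⟨hp.ne_zero⟩
  obtain ⟨ζ, hζ⟩ := HasEnoughRootsOfUnity.exists_primitiveRoot Qb p
  have hlam : (padicPlace p).valuation (ζ - 1) < 1 :=
    (Fermat.Agent.S56.helper4753.valuation_primitiveRoot_sub_one hp hP hζ).1
  have hTI : ∀ x : Qb, x ≠ 0 →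
      (∀ σ ∈ (padicPlace p).inertiaSubgroupIn ℚ, σ ζ = ζ → σ x = x) →
      ∃ n : ℤ, (padicPlace p).valuation x = (padicPlace p).valuation (ζ - 1) ^ n :=
    fun x hx hfix =>
      Fermat.Agent.S56.helper4753.exists_zpow_valuation_eq_of_inertiaStab_fixed hp hP hζ hx hfix
  obtain ⟨φ, hφF, hφζ⟩ :=
    Fermat.Agent.S56.helper4753.exists_isFrobeniusAt_fix_primitiveRoot hp hP hζ
  have hφD : φ ∈ (padicPlace p).decompositionSubgroup ℚ := hφF.mem_decompositionSubgroup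
  obtain ⟨tr, htr⟩ := exists_nondegenerate_tr (p := p) k
  -- the matrix carrier
  set ρm : ↥(decP p) →* Matrix (Fin 2) (Fin 2) k := matRep ρbar b (decP p) with hρm
  set I : Subgroup ↥(decP p) := (padicPlace p).inertiaSubgroup ℚ with hI
  set Q : Submodule k (↥(decP p) → Matrix (Fin 2) (Fin 2) k) :=
    flatZmat p ρbar (decP p) b with hQ
  have hdetm : ∀ σ : ↥(decP p), LinearMap.det (ρbar.ρ (σ : GQ)) = ρm σ 0 0 * ρm σ 1 1 :=
    fun σ => det_eq_of_upper ρbar b (σ : GQ) (hup σ)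
  have hN0 : ∀ n ∈ inertiaFixD (padicPlace p) ζ, ρm n 0 0 = 1 ∧ ρm n 1 1 = 1 := by
    intro n hn
    have hn' := mem_inertiaFixD.1 hn
    have h11 : ρm n 1 1 = 1 :=
      hχ2 n ((Fermat.Agent.S56.helper6024.mem_inertiaSubgroup_iff (padicPlace p) n).2 hn'.1)
    have h1 := (det_eq_one_iff_fix h.det hζ (n : GQ)).2 hn'.2
    rw [hdetm n, h11, mul_one] at h1
    exact ⟨h1, h11⟩
  have hdet1 : ∀ σ : ↥(decP p), ρm σ 0 0 = 1 → ρm σ 1 1 = 1 → (σ : GQ) ζ = ζ := by
    intro σ h00 h11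
    apply (det_eq_one_iff_fix h.det hζ (σ : GQ)).1
    rw [hdetm σ, h00, h11, mul_one]
  have hη : ∀ n ∈ inertiaFixD (padicPlace p) ζ, ρm n 0 0 * ρm n⁻¹ 1 1 = 1 := by
    intro n hn
    rw [(hN0 n hn).1, (hN0 n⁻¹ (inv_mem hn)).2, mul_one]
  -- the level input
  have hgood : ∀ c ∈ Zsh ρm I ⊓ Q, (∀ σ, c σ 0 0 = 0) → ∀ l : k,
      ∃ u : fixedK (inertiaFix (padicPlace p) ζ),
        IsRadicand (inertiaFix (padicPlace p) ζ) ζ
          (fun g => tr (l * extFix (padicPlace p) ζ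
            (fun n : ↥(inertiaFixD (padicPlace p) ζ) => c n 0 1) g)) u ∧
        LevelGE (vK (padicPlace p) ζ) (zetaK (padicPlace p) ζ - 1) p (p - 1) u := by
    intro c hc hc0 l
    obtain ⟨c', hc'B, -, hres⟩ := mem_flatZmat.1 hc.2
    have hflat : FlatCoc p (fun σ => ⇑(ρbar.ρ σ)) (fun σ => ⇑(c' σ)) :=
      (mem_flatSubB_iff hV).1 hc'B
    have hcd : ∀ d : ↥(decP p), c d = LinearMap.toMatrix b b (c' (d : GQ)) := fun d => by
      rw [← hres d, LinearMap.toMatrix_toLin]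
    have hstrict : ∀ σ ∈ (padicPlace p).decompositionSubgroup ℚ,
        LinearMap.toMatrix b b (c' σ) 1 0 = 0 ∧ LinearMap.toMatrix b b (c' σ) 0 0 = 0 ∧
          LinearMap.toMatrix b b (c' σ) 1 1 = 0 := by
      intro σ hσ
      have e := hcd ⟨σ, hσ⟩
      refine ⟨?_, ?_, ?_⟩
      · rw [← e]; exact hc.1.2.2.1 _
      · rw [← e]; exact hc0 _
      · rw [← e, Zsh_apply_one_one hc.1, hc0, neg_zero]
    obtain ⟨u, hu, hlev⟩ := good_of_flat hp2 hFB (padicPlace p) rfl hζ b ρbar.ρ ρm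
      (fun σ => rfl) hup hN0 hdet1 c' hflat (fun σ τ => cocycle_of_mem_flatSubB hc'B σ τ)
      hstrict tr l
    have e : (fun n : ↥(inertiaFixD (padicPlace p) ζ) => c n 0 1) =
        fun n : ↥(inertiaFixD (padicPlace p) ζ) => LinearMap.toMatrix b b
          (c' ((n : ↥((padicPlace p).decompositionSubgroup ℚ)) : GQ)) 0 1 :=
      funext fun n => by rw [hcd]
    rw [e]
    exact ⟨u, hu, hlev⟩
  obtain ⟨hfinS, hcard⟩ := card_slice12_le (padicPlace p) hζ hlam hTI φ hφD hφζ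
    (fun x hx => Fermat.Agent.Lib.helper3858.apply_sub_pow_mem_nonunits_of_isFrobeniusAt hφF hx)
    tr htr ρm hup I hη Q hgood
  -- `c₁₁` is determined by its value at the Frobenius
  have hφc : ∀ c ∈ Zsh ρm I ⊓ Q, c (⟨φ, hφD⟩ : ↥(decP p)) 0 0 = 0 → ∀ σ, c σ 0 0 = 0 := by
    intro c hc h0 σ
    obtain ⟨L, hLfin, hL⟩ := exists_level_of_mem_flatZmat hc.2
    refine Zsh_c11_eq_zero hup hc.1 (⟨φ, hφD⟩ : ↥(decP p)) (fun τ => ?_) h0 σ
    refine Fermat.Agent.S56.helper6024.decomposition_eq_dec hp (padicPlace p) hP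
      (c11Hom hup hc.1) L hLfin (fun u hu => ?_) (⟨φ, hφD⟩ : ↥(decP p)) hφF τ
    have h1 := (hL u (fun x hx => (IntermediateField.mem_fixingSubgroup_iff L _).1 hu x hx)).2.1
    rw [c11Hom_apply, h1]
    rfl
  -- the commutator hypothesis
  have hτ0ne : ρm τ0 0 0 * ρm τ0⁻¹ 1 1 ≠ 1 := eta_ne_one_of_inertia I hχ2 hτ0 hτ0'
  have hcomm : ∀ σ : ↥(decP p), ∃ n ∈ inertiaFixD (padicPlace p) ζ, τ0 * σ = σ * τ0 * n := by
    intro σ
    refine ⟨τ0⁻¹ * σ⁻¹ * τ0 * σ, mem_inertiaFixD.2 ⟨?_, ?_⟩, by group⟩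
    · have hτ0I : (τ0 : GQ) ∈ (padicPlace p).inertiaSubgroupIn ℚ :=
        (Fermat.Agent.S56.helper6024.mem_inertiaSubgroup_iff (padicPlace p) τ0).1 hτ0
      have h1 := Fermat.Agent.S56.helper6024.conj_mem_inertiaSubgroupIn (A := padicPlace p)
        (inv_mem σ.2) hτ0I
      rw [inv_inv] at h1
      have h2 := mul_mem (inv_mem hτ0I) h1
      have e : ((τ0⁻¹ * σ⁻¹ * τ0 * σ : ↥(decP p)) : GQ) =
          (τ0 : GQ)⁻¹ * ((σ : GQ)⁻¹ * (τ0 : GQ) * (σ : GQ)) := by
        push_cast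
        group
      rw [e]
      exact h2
    · exact comm_apply_root hζ (σ : GQ) (τ0 : GQ)
  -- the count
  have hB : ∀ X : Matrix (Fin 2) (Fin 2) k, X 1 0 = 0 → dmap ρm X ∈ Q :=
    fun X _ => cob_mem_flatZmat X
  obtain ⟨hfinLL, -, h4, hcob, hmem, -⟩ := red_count hup I Q (⟨φ, hφD⟩ : ↥(decP p)) hφc
    (inertiaFixD (padicPlace p) ζ) τ0 hτ0ne hcomm hcard hB
  have hfinM : Module.Finite k ↥(LLsub ρm I Q) := Module.Finite.of_finite
  refine flatTangentAt_of_flatZmat_le h b (LLsub ρm I Q) h4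
    (flatZmat_le_of (decP p) b (LLsub ρm I Q) (fun X => hcob X) (fun c hcfl hctr => ?_))
  obtain ⟨X, c0, hc0, hc10, hc00⟩ := hshape c hcfl hctr
  have hcQ : (fun d : ↥(decP p) => LinearMap.toMatrix b b (c.c (d : GQ))) ∈ Q :=
    mem_flatZmat_of_stdLift c hctr hcfl
  have hc0eq : c0 = (fun d : ↥(decP p) => LinearMap.toMatrix b b (c.c (d : GQ))) + dmap ρm X := by
    funext σ
    rw [Pi.add_apply, hc0 σ, dmap_apply]
    abel
  have hc0Q : c0 ∈ Q := by
    rw [hc0eq]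
    exact add_mem hcQ (cob_mem_flatZmat X)
  have hc0Z : c0 ∈ Zsh ρm I :=
    ⟨fun σ τ => cocycle_of_mem_flatZmat hc0Q σ τ, fun σ => trace_of_mem_flatZmat hc0Q σ,
      hc10, hc00⟩
  have e : (fun d : ↥(decP p) => LinearMap.toMatrix b b (c.c (d : GQ))) =
      fun σ => c0 σ - (ρm σ * X * ρm σ⁻¹ - X) := funext hc0
  rw [e]
  exact hmem c0 ⟨hc0Z, hc0Q⟩ X

end Asm

end Fermat.Agent.S56.helper1401
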