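/-
S56 FLAT-LOCAL, node FLAT-WAYBACK (helper3657): the dictionary between the `p`-adic vocabulary of
track B (`PadicAlgCl p` with its norm, the local Galois group) and the frozen vocabulary
(`AlgebraicClosure ℚ`, the place `padicPlace p`, subgroups of the absolute Galois group).

* (WB0) valuation dictionary: `(padicPlace p).valuation` versus the norm of `padicEmbedding p`.
* (WB1) density of `padicEmbedding p '' F` in the `p`-adic field generated by it.
* (WB2) transfer of "level modulo `p`-th powers" statements from the `p`-adic field back to `F`.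
* (WB3) fixed-field dictionary along `localGaloisToGlobal p`.
-/
import Mathlib
import Fermat.Prelude.Def_GaloisRep_CompletionBridge

set_option autoImplicit false

namespace Fermat.Agent.S56.helper3657

open scoped NNReal

local notation "Qb" => AlgebraicClosure ℚ

variable (p : ℕ) [Fact p.Prime]

/-! ### (WB0) The valuation dictionary -/

theorem padicEmbedding_injective : Function.Injective (padicEmbedding p) :=
  (padicEmbedding p).toRingHom.injective

theorem mem_padicPlace_iff_norm {x : Qb} : x ∈ padicPlace p ↔ ‖padicEmbedding p x‖ ≤ 1 := by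
  rw [mem_padicPlace_iff, ← NNReal.coe_le_coe]; rfl

/-- (WB0) `v x ≤ v y ↔ ‖ι x‖ ≤ ‖ι y‖`. -/
theorem valuation_le_iff (x y : Qb) :
    (padicPlace p).valuation x ≤ (padicPlace p).valuation y ↔
      ‖padicEmbedding p x‖ ≤ ‖padicEmbedding p y‖ := by
  by_cases hy : y = 0
  · subst hy
    simp only [map_zero, norm_zero, le_zero_iff, norm_le_zero_iff, map_eq_zero]
  · have hvy : (padicPlace p).valuation y ≠ 0 := (Valuation.ne_zero_iff _).2 hy
    have hny : 0 < ‖padicEmbedding p y‖ :=
      norm_pos_iff.2 ((map_ne_zero (padicEmbedding p)).2 hy)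
    rw [← div_le_one₀ (zero_lt_iff.2 hvy), ← map_div₀, ValuationSubring.valuation_le_one_iff,
      mem_padicPlace_iff_norm, map_div₀, norm_div, div_le_one hny]

theorem valuation_lt_iff (x y : Qb) :
    (padicPlace p).valuation x < (padicPlace p).valuation y ↔
      ‖padicEmbedding p x‖ < ‖padicEmbedding p y‖ := by
  rw [← not_le, ← not_le, valuation_le_iff]

theorem valuation_eq_iff (x y : Qb) :
    (padicPlace p).valuation x = (padicPlace p).valuation y ↔
      ‖padicEmbedding p x‖ = ‖padicEmbedding p y‖ := by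
  rw [le_antisymm_iff, le_antisymm_iff, valuation_le_iff, valuation_le_iff]

theorem valuation_le_one_iff (x : Qb) :
    (padicPlace p).valuation x ≤ 1 ↔ ‖padicEmbedding p x‖ ≤ 1 := by
  simpa using valuation_le_iff p x 1

theorem valuation_lt_one_iff (x : Qb) :
    (padicPlace p).valuation x < 1 ↔ ‖padicEmbedding p x‖ < 1 := by
  simpa using valuation_lt_iff p x 1

theorem valuation_eq_one_iff (x : Qb) :
    (padicPlace p).valuation x = 1 ↔ ‖padicEmbedding p x‖ = 1 := by
  simpa using valuation_eq_iff p x 1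

theorem norm_padicEmbedding_natCast (n : ℕ) :
    ‖padicEmbedding p (n : Qb)‖ = ‖(n : ℚ_[p])‖ := by
  rw [map_natCast, ← PadicAlgCl.norm_extends, map_natCast]

theorem norm_padicEmbedding_prime : ‖padicEmbedding p (p : Qb)‖ = (p : ℝ)⁻¹ := by
  rw [norm_padicEmbedding_natCast, Padic.norm_p]

theorem valuation_prime_lt_one : (padicPlace p).valuation (p : Qb) < 1 := by
  rw [valuation_lt_one_iff, norm_padicEmbedding_prime]
  exact inv_lt_one_of_one_lt₀ (by exact_mod_cast (Fact.out : p.Prime).one_lt)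

/-! ### (WB1) Density -/

/-- The `p`-adic field generated by (the image of) a subset of `Qb`. -/
noncomputable abbrev padicField (S : Set Qb) : IntermediateField ℚ_[p] (PadicAlgCl p) :=
  IntermediateField.adjoin ℚ_[p] (padicEmbedding p '' S)

theorem padicEmbedding_mem_padicField {S : Set Qb} {x : Qb} (hx : x ∈ S) :
    padicEmbedding p x ∈ padicField p S :=
  IntermediateField.subset_adjoin _ _ ⟨x, hx, rfl⟩

/-- The closure of the image of a subfield `F` of `Qb` contains the `p`-adic field generated by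
`F`. -/
theorem padicField_le_closure (F : Subfield Qb) (y : PadicAlgCl p)
    (hy : y ∈ padicField p (F : Set Qb)) :
    y ∈ closure (padicEmbedding p '' (F : Set Qb)) := by
  classical
  let T : Subfield (PadicAlgCl p) := (F.map (padicEmbedding p).toRingHom).topologicalClosure
  have hT : (T : Set (PadicAlgCl p)) = closure (padicEmbedding p '' (F : Set Qb)) := rfl
  have hQ : ∀ x : ℚ_[p], algebraMap ℚ_[p] (PadicAlgCl p) x ∈ T := by
    intro x
    have hx : x ∈ closure (Set.range ((↑) : ℚ → ℚ_[p])) := Padic.denseRange_ratCast p x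
    have hcont : Continuous (algebraMap ℚ_[p] (PadicAlgCl p)) :=
      (algebraMap_isometry ℚ_[p] (PadicAlgCl p)).continuous
    have := map_mem_closure hcont hx (t := padicEmbedding p '' (F : Set Qb)) (by
      rintro _ ⟨q, rfl⟩
      refine ⟨(q : Qb), SubfieldClass.ratCast_mem F q, ?_⟩
      rw [map_ratCast, map_ratCast])
    rw [← hT] at this
    exact this
  let T' : IntermediateField ℚ_[p] (PadicAlgCl p) := Subfield.toIntermediateField T hQ
  have hle : padicField p (F : Set Qb) ≤ T' := by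
    rw [IntermediateField.adjoin_le_iff]
    intro z hz
    show z ∈ T
    have : z ∈ (T : Set (PadicAlgCl p)) := by rw [hT]; exact subset_closure hz
    exact this
  have : y ∈ (T : Set (PadicAlgCl p)) := hle hy
  rwa [hT] at this

/-- (WB1) Density: every element of the `p`-adic field generated by a subfield `F` of `Qb` is
approximated by elements of `F`. -/
theorem exists_mem_norm_sub_lt (F : Subfield Qb) {y : PadicAlgCl p}
    (hy : y ∈ padicField p (F : Set Qb)) {ε : ℝ} (hε : 0 < ε) :
    ∃ x ∈ F, ‖padicEmbedding p x - y‖ < ε := by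
  obtain ⟨z, ⟨x, hx, rfl⟩, hz⟩ := Metric.mem_closure_iff.1 (padicField_le_closure p F y hy) ε hε
  refine ⟨x, hx, ?_⟩
  rwa [dist_comm, dist_eq_norm] at hz

/-- (WB1), multiplicative form. -/
theorem exists_mem_norm_div_sub_one_lt (F : Subfield Qb) {y : PadicAlgCl p}
    (hy : y ∈ padicField p (F : Set Qb)) (hy0 : y ≠ 0) {ε : ℝ} (hε : 0 < ε) :
    ∃ x ∈ F, x ≠ 0 ∧ ‖padicEmbedding p x / y - 1‖ < ε := by
  have hny : 0 < ‖y‖ := norm_pos_iff.2 hy0
  obtain ⟨x, hx, hxy⟩ := exists_mem_norm_sub_lt p F hy (mul_pos (lt_min hε one_pos) hny)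
  have h1 : ‖padicEmbedding p x / y - 1‖ < min ε 1 := by
    rw [div_sub_one hy0, norm_div, div_lt_iff₀ hny]
    exact hxy
  refine ⟨x, hx, ?_, h1.trans_le (min_le_left _ _)⟩
  rintro rfl
  rw [map_zero, zero_div, zero_sub, norm_neg, norm_one] at h1
  exact absurd h1 (not_lt.2 (min_le_right _ _))

/-- (WB1), norm-preserving form: the approximating element can be chosen with the same norm. -/
theorem exists_mem_norm_sub_lt_norm_eq (F : Subfield Qb) {y : PadicAlgCl p}
    (hy : y ∈ padicField p (F : Set Qb)) (hy0 : y ≠ 0) {ε : ℝ} (hε : 0 < ε) :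
    ∃ x ∈ F, x ≠ 0 ∧ ‖padicEmbedding p x - y‖ < ε ∧ ‖padicEmbedding p x‖ = ‖y‖ := by
  have hny : 0 < ‖y‖ := norm_pos_iff.2 hy0
  obtain ⟨x, hx, hxy⟩ := exists_mem_norm_sub_lt p F hy (lt_min hε hny)
  have hlt : ‖padicEmbedding p x - y‖ < ‖y‖ := hxy.trans_le (min_le_right _ _)
  have hnorm : ‖padicEmbedding p x‖ = ‖y‖ := by
    have := IsUltrametricDist.norm_add_eq_max_of_norm_ne_norm (x := padicEmbedding p x - y) (y := y)
      hlt.ne
    rw [sub_add_cancel, max_eq_right hlt.le] at this
    exact this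
  refine ⟨x, hx, ?_, hxy.trans_le (min_le_left _ _), hnorm⟩
  rintro rfl
  rw [map_zero, norm_zero] at hnorm
  exact hny.ne hnorm

/-! ### (WB2) Transfer of levels modulo `n`-th powers -/

/-- Ultrametric estimate `‖(1 + δ) ^ n - 1‖ ≤ ‖δ‖` for `‖δ‖ ≤ 1`. -/
theorem norm_one_add_pow_sub_one_le {δ : PadicAlgCl p} (hδ : ‖δ‖ ≤ 1) (n : ℕ) :
    ‖(1 + δ) ^ n - 1‖ ≤ ‖δ‖ := by
  have h1 : ‖1 + δ‖ ≤ 1 :=
    (IsUltrametricDist.norm_add_le_max 1 δ).trans (max_le (by rw [norm_one]) hδ)
  induction n with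
  | zero => simp
  | succ n ih =>
    have e : (1 + δ) ^ (n + 1) - 1 = ((1 + δ) ^ n - 1) * (1 + δ) + δ := by ring
    rw [e]
    refine (IsUltrametricDist.norm_add_le_max _ _).trans (max_le ?_ le_rfl)
    rw [norm_mul]
    calc ‖(1 + δ) ^ n - 1‖ * ‖1 + δ‖ ≤ ‖δ‖ * 1 :=
          mul_le_mul ih h1 (norm_nonneg _) (norm_nonneg _)
      _ = ‖δ‖ := mul_one _

/-- Core of the way back: an approximate identity `a * b ^ n ≈ y` with `b` in the `p`-adic field
generated by `F` can be realised with `b` in (the image of) `F`, up to any prescribed error. -/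
theorem exists_mem_norm_mul_pow_sub_lt (F : Subfield Qb) (n : ℕ) {a b : PadicAlgCl p}
    (hb : b ∈ padicField p (F : Set Qb)) (hb0 : b ≠ 0) {ε : ℝ} (hε : 0 < ε) :
    ∃ x ∈ F, x ≠ 0 ∧ ‖a * padicEmbedding p x ^ n - a * b ^ n‖ < ε := by
  set A : ℝ := ‖a * b ^ n‖ + 1 with hA
  have hA0 : 0 < A := by positivity
  obtain ⟨x, hx, hx0, hxb⟩ := exists_mem_norm_div_sub_one_lt p F hb hb0
    (lt_min (div_pos hε hA0) one_pos)
  refine ⟨x, hx, hx0, ?_⟩
  set δ : PadicAlgCl p := padicEmbedding p x / b - 1 with hδ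
  have hδ1 : ‖δ‖ ≤ 1 := (hxb.trans_le (min_le_right _ _)).le
  have hδε : ‖δ‖ < ε / A := hxb.trans_le (min_le_left _ _)
  have hxe : padicEmbedding p x = b * (1 + δ) := by
    rw [hδ]; field_simp; ring
  have e : a * padicEmbedding p x ^ n - a * b ^ n = a * b ^ n * ((1 + δ) ^ n - 1) := by
    rw [hxe]; ring
  rw [e, norm_mul]
  calc ‖a * b ^ n‖ * ‖(1 + δ) ^ n - 1‖ ≤ ‖a * b ^ n‖ * ‖δ‖ :=
        mul_le_mul_of_nonneg_left (norm_one_add_pow_sub_one_le p hδ1 n) (norm_nonneg _)
    _ ≤ A * ‖δ‖ := mul_le_mul_of_nonneg_right (by rw [hA]; linarith) (norm_nonneg _)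
    _ < A * (ε / A) := mul_lt_mul_of_pos_left hδε hA0
    _ = ε := by field_simp

/-- (WB2), norm form with `≤`: if `a * b ^ n` is within `t` of `y` for some nonzero `b` in the
`p`-adic field generated by `F`, the same holds for (the image of) some nonzero `x ∈ F`. -/
theorem exists_mem_norm_mul_pow_sub_le (F : Subfield Qb) (n : ℕ) {a y : PadicAlgCl p} {t : ℝ}
    (ht : 0 < t)
    (h : ∃ b ∈ padicField p (F : Set Qb), b ≠ 0 ∧ ‖a * b ^ n - y‖ ≤ t) :
    ∃ x ∈ F, x ≠ 0 ∧ ‖a * padicEmbedding p x ^ n - y‖ ≤ t := by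
  obtain ⟨b, hb, hb0, hby⟩ := h
  obtain ⟨x, hx, hx0, hxb⟩ := exists_mem_norm_mul_pow_sub_lt p F n (a := a) hb hb0 ht
  refine ⟨x, hx, hx0, ?_⟩
  have e : a * padicEmbedding p x ^ n - y =
      (a * padicEmbedding p x ^ n - a * b ^ n) + (a * b ^ n - y) := by ring
  rw [e]
  exact (IsUltrametricDist.norm_add_le_max _ _).trans (max_le hxb.le hby)

/-- (WB2), norm form with `<`. -/
theorem exists_mem_norm_mul_pow_sub_lt' (F : Subfield Qb) (n : ℕ) {a y : PadicAlgCl p} {t : ℝ}
    (h : ∃ b ∈ padicField p (F : Set Qb), b ≠ 0 ∧ ‖a * b ^ n - y‖ < t) :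
    ∃ x ∈ F, x ≠ 0 ∧ ‖a * padicEmbedding p x ^ n - y‖ < t := by
  obtain ⟨b, hb, hb0, hby⟩ := h
  have ht : 0 < t := (norm_nonneg _).trans_lt hby
  obtain ⟨x, hx, hx0, hxb⟩ := exists_mem_norm_mul_pow_sub_lt p F n (a := a) hb hb0 ht
  refine ⟨x, hx, hx0, ?_⟩
  have e : a * padicEmbedding p x ^ n - y =
      (a * padicEmbedding p x ^ n - a * b ^ n) + (a * b ^ n - y) := by ring
  rw [e]
  exact (IsUltrametricDist.norm_add_le_max _ _).trans_lt (max_lt hxb hby)

/-- (WB2), valuation form with `≤` (the way back for `LevelGE`-type statements):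
`u, r, c ∈ Qb`, `c ≠ 0`; if `ι u * b ^ n` is within `‖ι c‖` of `ι r` for some nonzero `b` in the
`p`-adic field generated by `F`, then `v (u * x ^ n - r) ≤ v c` for some nonzero `x ∈ F`. -/
theorem exists_mem_valuation_mul_pow_sub_le (F : Subfield Qb) (n : ℕ) {u r c : Qb} (hc : c ≠ 0)
    (h : ∃ b ∈ padicField p (F : Set Qb), b ≠ 0 ∧
      ‖padicEmbedding p u * b ^ n - padicEmbedding p r‖ ≤ ‖padicEmbedding p c‖) :
    ∃ x ∈ F, x ≠ 0 ∧
      (padicPlace p).valuation (u * x ^ n - r) ≤ (padicPlace p).valuation c := by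
  have hc' : 0 < ‖padicEmbedding p c‖ := norm_pos_iff.2 ((map_ne_zero (padicEmbedding p)).2 hc)
  obtain ⟨x, hx, hx0, hxn⟩ := exists_mem_norm_mul_pow_sub_le p F n hc' h
  refine ⟨x, hx, hx0, ?_⟩
  rw [valuation_le_iff, map_sub, map_mul, map_pow]
  exact hxn

/-- (WB2), valuation form with `<` (the way back for `Lead`-type statements). -/
theorem exists_mem_valuation_mul_pow_sub_lt (F : Subfield Qb) (n : ℕ) {u r c : Qb}
    (h : ∃ b ∈ padicField p (F : Set Qb), b ≠ 0 ∧
      ‖padicEmbedding p u * b ^ n - padicEmbedding p r‖ < ‖padicEmbedding p c‖) :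
    ∃ x ∈ F, x ≠ 0 ∧
      (padicPlace p).valuation (u * x ^ n - r) < (padicPlace p).valuation c := by
  obtain ⟨x, hx, hx0, hxn⟩ := exists_mem_norm_mul_pow_sub_lt' p F n h
  refine ⟨x, hx, hx0, ?_⟩
  rw [valuation_lt_iff, map_sub, map_mul, map_pow]
  exact hxn

/-- (WB2) for levels: `ι u ∈ (1 + c 𝒪) · (Fp^×)^n` in the `p`-adic field `Fp` generated by `F`
implies `u ∈ (1 + c 𝒪) · (F^×)^n` in the frozen vocabulary. -/
theorem exists_mem_valuation_mul_pow_sub_one_le (F : Subfield Qb) (n : ℕ) {u c : Qb} (hc : c ≠ 0)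
    (h : ∃ b ∈ padicField p (F : Set Qb), b ≠ 0 ∧
      ‖padicEmbedding p u * b ^ n - 1‖ ≤ ‖padicEmbedding p c‖) :
    ∃ x ∈ F, x ≠ 0 ∧
      (padicPlace p).valuation (u * x ^ n - 1) ≤ (padicPlace p).valuation c := by
  refine exists_mem_valuation_mul_pow_sub_le p F n hc ?_
  simpa using h

/-! ### (WB3) The fixed-field dictionary along `localGaloisToGlobal` -/

local notation "GQ" => (Qb ≃ₐ[ℚ] Qb)
local notation "Gp" => (PadicAlgCl p ≃ₐ[ℚ_[p]] PadicAlgCl p)

/-- If `x` is fixed by the global image of a local automorphism `τ`, then `ι x` is fixed by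
`τ`. -/
theorem padicEmbedding_fixed {x : Qb} {τ : Gp} (h : localGaloisToGlobal p τ x = x) :
    τ (padicEmbedding p x) = padicEmbedding p x := by
  rw [← padicEmbedding_localGaloisToGlobal, h]

/-- Conversely `τ (ι x) = ι x` forces the global image of `τ` to fix `x`. -/
theorem localGaloisToGlobal_fixed {x : Qb} {τ : Gp}
    (h : τ (padicEmbedding p x) = padicEmbedding p x) : localGaloisToGlobal p τ x = x := by
  apply padicEmbedding_injective p
  rw [padicEmbedding_localGaloisToGlobal, h]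

theorem padicEmbedding_fixed_iff {x : Qb} {τ : Gp} :
    τ (padicEmbedding p x) = padicEmbedding p x ↔ localGaloisToGlobal p τ x = x :=
  ⟨localGaloisToGlobal_fixed p, padicEmbedding_fixed p⟩

/-- Elements of `Qb` fixed by a subgroup `H` of the global Galois group embed to elements fixed
by the local preimage of `H`. -/
theorem padicEmbedding_fixed_of_forall_mem {H : Subgroup GQ} {x : Qb} (hx : ∀ g ∈ H, g x = x)
    {τ : Gp} (hτ : localGaloisToGlobal p τ ∈ H) :
    τ (padicEmbedding p x) = padicEmbedding p x :=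
  padicEmbedding_fixed p (hx _ hτ)

/-- A local automorphism whose global image fixes `S` pointwise fixes the `p`-adic field generated
by `S` pointwise. -/
theorem fixed_of_mem_padicField {S : Set Qb} {y : PadicAlgCl p} (hy : y ∈ padicField p S)
    {τ : Gp} (hτ : ∀ x ∈ S, localGaloisToGlobal p τ x = x) : τ y = y := by
  have hle : padicField p S ≤ IntermediateField.fixedField (Subgroup.zpowers τ) := by
    rw [IntermediateField.adjoin_le_iff]
    rintro _ ⟨x, hx, rfl⟩
    rw [SetLike.mem_coe, IntermediateField.mem_fixedField_iff]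
    intro g hg
    obtain ⟨k, rfl⟩ := Subgroup.mem_zpowers_iff.1 hg
    have h1 : τ (padicEmbedding p x) = padicEmbedding p x := padicEmbedding_fixed p (hτ x hx)
    have h3 : τ ∈ MulAction.stabilizer Gp (padicEmbedding p x) := by
      rw [MulAction.mem_stabilizer_iff]; exact h1
    have h4 := Subgroup.zpow_mem _ h3 k
    rw [MulAction.mem_stabilizer_iff] at h4
    exact h4
  have := hle hy
  rw [IntermediateField.mem_fixedField_iff] at this
  exact this τ (Subgroup.mem_zpowers τ)

instance isGalois_padicAlgCl : IsGalois ℚ_[p] (PadicAlgCl p) :=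
  IsAlgClosure.isGalois ℚ_[p] (PadicAlgCl p)

/-- (WB3) The `p`-adic field generated by an intermediate field `E` of `Qb / ℚ` is exactly the
set of elements of `PadicAlgCl p` fixed by all local automorphisms whose global image fixes `E`:
"`E · ℚ_p` is the fixed field of the local preimage of `Gal(Qb / E)`". -/
theorem mem_padicField_of_fixed (E : IntermediateField ℚ Qb) {y : PadicAlgCl p}
    (hy : ∀ τ : Gp, localGaloisToGlobal p τ ∈ E.fixingSubgroup → τ y = y) :
    y ∈ padicField p (E : Set Qb) := by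
  rw [← InfiniteGalois.fixedField_fixingSubgroup (padicField p (E : Set Qb)),
    IntermediateField.mem_fixedField_iff]
  intro τ hτ
  apply hy
  rw [IntermediateField.mem_fixingSubgroup_iff]
  intro x hx
  apply localGaloisToGlobal_fixed p
  exact (IntermediateField.mem_fixingSubgroup_iff _ _).1 hτ _
    (padicEmbedding_mem_padicField p hx)

theorem mem_padicField_iff_fixed (E : IntermediateField ℚ Qb) {y : PadicAlgCl p} :
    y ∈ padicField p (E : Set Qb) ↔
      ∀ τ : Gp, localGaloisToGlobal p τ ∈ E.fixingSubgroup → τ y = y :=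
  ⟨fun hy _ hτ => fixed_of_mem_padicField p hy
      (fun x hx => (IntermediateField.mem_fixingSubgroup_iff _ _).1 hτ x hx),
    mem_padicField_of_fixed p E⟩

/-- (WB3), subgroup form: if `y` is fixed by every local automorphism whose global image lies in
the subgroup `H`, then `y` lies in the `p`-adic field generated by the fixed field of the closure
of `H`; in particular this applies to `H = E.fixingSubgroup`. Stated for the fixed field of `H`
under the hypothesis that `H` is the full fixing subgroup of its fixed field (`H` closed). -/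
theorem mem_padicField_fixedField_of_fixed (H : Subgroup GQ)
    (hH : (IntermediateField.fixedField H).fixingSubgroup ≤ H) {y : PadicAlgCl p}
    (hy : ∀ τ : Gp, localGaloisToGlobal p τ ∈ H → τ y = y) :
    y ∈ padicField p ((IntermediateField.fixedField H : IntermediateField ℚ Qb) : Set Qb) :=
  mem_padicField_of_fixed p _ (fun τ hτ => hy τ (hH hτ))

/-- The image of `ι` on the fixed field of `H` lies in the fixed points of the local preimage
of `H`. -/
theorem padicField_fixedField_fixed (H : Subgroup GQ) {y : PadicAlgCl p}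
    (hy : y ∈ padicField p ((IntermediateField.fixedField H : IntermediateField ℚ Qb) : Set Qb))
    {τ : Gp} (hτ : localGaloisToGlobal p τ ∈ H) : τ y = y :=
  fixed_of_mem_padicField p hy
    (fun x hx => (IntermediateField.mem_fixedField_iff H x).1 hx _ hτ)

/-- (WB3), set form: `y` lies in the `p`-adic field generated by `S ⊆ Qb` as soon as it is fixed
by every local automorphism whose global image fixes `S` pointwise. -/
theorem mem_padicField_of_fixed' (S : Set Qb) {y : PadicAlgCl p}
    (hy : ∀ τ : Gp, (∀ s ∈ S, localGaloisToGlobal p τ s = s) → τ y = y) :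
    y ∈ padicField p S := by
  rw [← InfiniteGalois.fixedField_fixingSubgroup (padicField p S),
    IntermediateField.mem_fixedField_iff]
  intro τ hτ
  apply hy
  intro s hs
  apply localGaloisToGlobal_fixed p
  exact (IntermediateField.mem_fixingSubgroup_iff _ _).1 hτ _
    (padicEmbedding_mem_padicField p hs)

theorem mem_padicField_iff (S : Set Qb) {y : PadicAlgCl p} :
    y ∈ padicField p S ↔
      ∀ τ : Gp, (∀ s ∈ S, localGaloisToGlobal p τ s = s) → τ y = y :=
  ⟨fun hy _ hτ => fixed_of_mem_padicField p hy hτ, mem_padicField_of_fixed' p S⟩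

/-- (WB3), the form used by the assembler: if `y ∈ Qb` is fixed by every element of the
decomposition group of `padicPlace p` that fixes `S` pointwise, then `ι y` lies in the `p`-adic
field generated by `S`.  (E.g. `S` = the values of the points of a flat model, `y` fixed by
`D_P ∩ ker ρ`.) -/
theorem padicEmbedding_mem_padicField_of_decomposition (S : Set Qb) {y : Qb}
    (hy : ∀ σ ∈ (padicPlace p).decompositionSubgroup ℚ, (∀ s ∈ S, σ s = s) → σ y = y) :
    padicEmbedding p y ∈ padicField p S :=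
  mem_padicField_of_fixed' p S fun τ hτ =>
    padicEmbedding_fixed p (hy _ (localGaloisToGlobal_mem_decompositionSubgroup p τ) hτ)

theorem padicField_mono {S T : Set Qb} (h : S ⊆ T) : padicField p S ≤ padicField p T :=
  IntermediateField.adjoin.mono _ _ _ (Set.image_mono h)

/-- The `p`-adic field generated by `S` is also generated by any subfield between `S` and the
field generated by `S`; in particular by `IntermediateField.adjoin ℚ S`. -/
theorem padicField_adjoin (S : Set Qb) :
    padicField p ((IntermediateField.adjoin ℚ S : IntermediateField ℚ Qb) : Set Qb) =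
      padicField p S := by
  apply le_antisymm
  · rw [IntermediateField.adjoin_le_iff]
    rintro _ ⟨x, hx, rfl⟩
    apply mem_padicField_of_fixed' p S
    intro τ hτ
    apply padicEmbedding_fixed p
    have hle : IntermediateField.adjoin ℚ S ≤
        IntermediateField.fixedField (Subgroup.zpowers (localGaloisToGlobal p τ)) := by
      rw [IntermediateField.adjoin_le_iff]
      intro s hs
      rw [SetLike.mem_coe, IntermediateField.mem_fixedField_iff]
      intro g hg
      obtain ⟨k, rfl⟩ := Subgroup.mem_zpowers_iff.1 hg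
      have h3 : localGaloisToGlobal p τ ∈ MulAction.stabilizer GQ s := by
        rw [MulAction.mem_stabilizer_iff]; exact hτ s hs
      have h4 := Subgroup.zpow_mem _ h3 k
      rw [MulAction.mem_stabilizer_iff] at h4
      exact h4
    have := hle hx
    rw [IntermediateField.mem_fixedField_iff] at this
    exact this _ (Subgroup.mem_zpowers _)
  · exact padicField_mono p (IntermediateField.subset_adjoin ℚ S)

/-! ### (WB4) Abstract carriers

The level / Kummer bricks of FLAT-LOCAL are stated for an abstract field with an abstract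
valuation.  `NormCompat p v f` says that the valuation `v` on `K` is the norm of `PadicAlgCl p`
pulled back along `f : K →+* PadicAlgCl p` (as an ordering).  Both the frozen carriers
(`K` a subfield of `Qb`, `v = (padicPlace p).valuation` restricted, `f = ι ∘ subtype`) and the
`p`-adic carriers (`K` a subfield of `PadicAlgCl p`, `v` the norm valuation) are instances. -/

section Carriers

/-- The valuation `v` is the norm of `PadicAlgCl p` pulled back along `f`. -/
def NormCompat {K : Type*} [Field K] {Γ : Type*} [LinearOrderedCommGroupWithZero Γ]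
    (v : Valuation K Γ) (f : K →+* PadicAlgCl p) : Prop :=
  ∀ x y : K, v x ≤ v y ↔ ‖f x‖ ≤ ‖f y‖

namespace NormCompat

variable {p}
variable {K : Type*} [Field K] {Γ : Type*} [LinearOrderedCommGroupWithZero Γ]
  {v : Valuation K Γ} {f : K →+* PadicAlgCl p} (h : NormCompat p v f)

include h

theorem le_iff {x y : K} : v x ≤ v y ↔ ‖f x‖ ≤ ‖f y‖ := h x y

theorem lt_iff {x y : K} : v x < v y ↔ ‖f x‖ < ‖f y‖ := by
  rw [← not_le, ← not_le, h.le_iff]

theorem eq_iff {x y : K} : v x = v y ↔ ‖f x‖ = ‖f y‖ := by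
  rw [le_antisymm_iff, le_antisymm_iff, h.le_iff, h.le_iff]

theorem le_one_iff {x : K} : v x ≤ 1 ↔ ‖f x‖ ≤ 1 := by
  simpa using h.le_iff (x := x) (y := 1)

theorem lt_one_iff {x : K} : v x < 1 ↔ ‖f x‖ < 1 := by
  simpa using h.lt_iff (x := x) (y := 1)

theorem eq_one_iff {x : K} : v x = 1 ↔ ‖f x‖ = 1 := by
  simpa using h.eq_iff (x := x) (y := 1)

theorem le_pow_iff {x π : K} {m : ℕ} : v x ≤ v π ^ m ↔ ‖f x‖ ≤ ‖f π‖ ^ m := by
  rw [← map_pow, h.le_iff, map_pow, norm_pow]

theorem lt_pow_iff {x π : K} {m : ℕ} : v x < v π ^ m ↔ ‖f x‖ < ‖f π‖ ^ m := by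
  rw [← map_pow, h.lt_iff, map_pow, norm_pow]

theorem pow_le_iff {x π : K} {m : ℕ} : v π ^ m ≤ v x ↔ ‖f π‖ ^ m ≤ ‖f x‖ := by
  rw [← map_pow, h.le_iff, map_pow, norm_pow]

theorem eq_pow_iff {x π : K} {m : ℕ} : v x = v π ^ m ↔ ‖f x‖ = ‖f π‖ ^ m := by
  rw [← map_pow, h.eq_iff, map_pow, norm_pow]

theorem eq_zpow_iff {x π : K} {n : ℤ} : v x = v π ^ n ↔ ‖f x‖ = ‖f π‖ ^ n := by
  rw [← map_zpow₀, h.eq_iff, map_zpow₀, norm_zpow]

end NormCompat

/-- Frozen carriers: any field mapping to `Qb`, with the valuation of `padicPlace p` pulled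
back. -/
theorem normCompat_padicPlace {K : Type*} [Field K] (j : K →+* Qb) :
    NormCompat p ((padicPlace p).valuation.comap j) ((padicEmbedding p).toRingHom.comp j) :=
  fun x y => valuation_le_iff p (j x) (j y)

/-- Frozen carriers, subfield form. -/
theorem normCompat_subfield (F : Subfield Qb) :
    NormCompat p ((padicPlace p).valuation.comap F.subtype)
      ((padicEmbedding p).toRingHom.comp F.subtype) :=
  normCompat_padicPlace p F.subtype

/-- `p`-adic carriers: any field mapping to `PadicAlgCl p`, with the norm valuation pulled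
back. -/
theorem normCompat_norm {M : Type*} [Field M] (j : M →+* PadicAlgCl p) :
    NormCompat p ((NormedField.valuation (K := PadicAlgCl p)).comap j) j := by
  intro x y
  rw [Valuation.comap_apply, Valuation.comap_apply, NormedField.valuation_apply,
    NormedField.valuation_apply, ← NNReal.coe_le_coe, coe_nnnorm, coe_nnnorm]

variable {K₀ M : Type*} [Field K₀] [Field M] {Γ Γ' : Type*}
  [LinearOrderedCommGroupWithZero Γ] [LinearOrderedCommGroupWithZero Γ']
  {v₀ : Valuation K₀ Γ} {j₀ : K₀ →+* Qb} {vM : Valuation M Γ'} {fM : M →+* PadicAlgCl p}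

/-- **The way back for levels** (`helper4188.LevelGE` unfolded on both sides).
`(K₀, v₀, j₀)` a frozen carrier, `(M, vM, fM)` a `p`-adic carrier whose image lies in the `p`-adic
field generated by `j₀ K₀`, `π, u ∈ K₀` corresponding to `πM, uM ∈ M`:
`LevelGE vM πM n m uM → LevelGE v₀ π n m u`. -/
theorem levelGE_wayBack
    (h₀ : NormCompat p v₀ ((padicEmbedding p).toRingHom.comp j₀)) (hM : NormCompat p vM fM)
    (hsub : ∀ y : M, fM y ∈ padicField p (Set.range j₀))
    {π u : K₀} {πM uM : M} (hπ : fM πM = padicEmbedding p (j₀ π))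
    (hu : fM uM = padicEmbedding p (j₀ u)) (hπ0 : π ≠ 0) (n m : ℕ)
    (h : ∃ w : M, w ≠ 0 ∧ vM (uM * w ^ n - 1) ≤ vM πM ^ m) :
    ∃ w : K₀, w ≠ 0 ∧ v₀ (u * w ^ n - 1) ≤ v₀ π ^ m := by
  obtain ⟨w, hw0, hw⟩ := h
  have hF : ((j₀.fieldRange : Subfield Qb) : Set Qb) = Set.range j₀ := RingHom.coe_fieldRange j₀
  have hb : fM w ∈ padicField p ((j₀.fieldRange : Subfield Qb) : Set Qb) := by
    rw [hF]; exact hsub w
  have hb0 : fM w ≠ 0 := (map_ne_zero fM).2 hw0
  have hnorm : ‖padicEmbedding p (j₀ u) * fM w ^ n - 1‖ ≤ ‖padicEmbedding p (j₀ π)‖ ^ m := by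
    have := hM.le_pow_iff.1 hw
    rwa [map_sub, map_mul, map_pow, map_one, hu, hπ] at this
  have hpos : 0 < ‖padicEmbedding p (j₀ π)‖ ^ m :=
    pow_pos (norm_pos_iff.2 ((map_ne_zero _).2 ((map_ne_zero j₀).2 hπ0))) m
  obtain ⟨x, hx, hx0, hxn⟩ :=
    exists_mem_norm_mul_pow_sub_le p j₀.fieldRange n hpos ⟨fM w, hb, hb0, hnorm⟩
  obtain ⟨w₀, rfl⟩ : ∃ w₀, j₀ w₀ = x := RingHom.mem_fieldRange.1 hx
  refine ⟨w₀, fun h0 => hx0 (by rw [h0, map_zero]), ?_⟩
  rw [h₀.le_pow_iff]
  simpa [map_sub, map_mul, map_pow] using hxn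

/-- **The way back for discreteness**: if `πM` is a uniformiser of the `p`-adic carrier (every
nonzero value is an integral power of `vM πM`) and `j₀ K₀` maps into `fM M`, then `π` is a
uniformiser of the frozen carrier. -/
theorem exists_zpow_wayBack
    (h₀ : NormCompat p v₀ ((padicEmbedding p).toRingHom.comp j₀)) (hM : NormCompat p vM fM)
    (hsup : ∀ x : K₀, ∃ y : M, fM y = padicEmbedding p (j₀ x))
    {π : K₀} {πM : M} (hπ : fM πM = padicEmbedding p (j₀ π))
    (h : ∀ y : M, y ≠ 0 → ∃ n : ℤ, vM y = vM πM ^ n) :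
    ∀ x : K₀, x ≠ 0 → ∃ n : ℤ, v₀ x = v₀ π ^ n := by
  intro x hx
  obtain ⟨y, hy⟩ := hsup x
  have hy0 : y ≠ 0 := by
    rintro rfl
    rw [map_zero] at hy
    exact hx ((map_eq_zero j₀).1 ((map_eq_zero (padicEmbedding p)).1 hy.symm))
  obtain ⟨n, hn⟩ := h y hy0
  refine ⟨n, ?_⟩
  rw [h₀.eq_zpow_iff]
  have := hM.eq_zpow_iff.1 hn
  rw [hy, hπ] at this
  exact this

/-- **The way forth for discreteness**: if `π` is a uniformiser of the frozen carrier and `fM M`
lies in the `p`-adic field generated by `j₀ K₀`, then `πM` is a uniformiser of the `p`-adic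
carrier. -/
theorem exists_zpow_wayForth
    (h₀ : NormCompat p v₀ ((padicEmbedding p).toRingHom.comp j₀)) (hM : NormCompat p vM fM)
    (hsub : ∀ y : M, fM y ∈ padicField p (Set.range j₀))
    {π : K₀} {πM : M} (hπ : fM πM = padicEmbedding p (j₀ π))
    (h : ∀ x : K₀, x ≠ 0 → ∃ n : ℤ, v₀ x = v₀ π ^ n) :
    ∀ y : M, y ≠ 0 → ∃ n : ℤ, vM y = vM πM ^ n := by
  intro y hy
  have hF : ((j₀.fieldRange : Subfield Qb) : Set Qb) = Set.range j₀ := RingHom.coe_fieldRange j₀
  have hb : fM y ∈ padicField p ((j₀.fieldRange : Subfield Qb) : Set Qb) := by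
    rw [hF]; exact hsub y
  obtain ⟨x, hx, hx0, -, hxn⟩ :=
    exists_mem_norm_sub_lt_norm_eq p j₀.fieldRange hb ((map_ne_zero fM).2 hy) one_pos
  obtain ⟨x₀, rfl⟩ : ∃ x₀, j₀ x₀ = x := RingHom.mem_fieldRange.1 hx
  obtain ⟨n, hn⟩ := h x₀ (fun h0 => hx0 (by rw [h0, map_zero]))
  refine ⟨n, ?_⟩
  rw [hM.eq_zpow_iff, hπ, ← hxn]
  exact h₀.eq_zpow_iff.1 hn

/-- **The way forth for perfectness of the residue field** (`hperf` of the level bricks). -/
theorem perf_wayForth
    (h₀ : NormCompat p v₀ ((padicEmbedding p).toRingHom.comp j₀)) (hM : NormCompat p vM fM)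
    (hsub : ∀ y : M, fM y ∈ padicField p (Set.range j₀))
    (hsup : ∀ x : K₀, ∃ y : M, fM y = padicEmbedding p (j₀ x)) (n : ℕ)
    (h : ∀ a : K₀, v₀ a ≤ 1 → ∃ b : K₀, v₀ (a - b ^ n) < 1) :
    ∀ a : M, vM a ≤ 1 → ∃ b : M, vM (a - b ^ n) < 1 := by
  intro a ha
  have ha1 : ‖fM a‖ ≤ 1 := hM.le_one_iff.1 ha
  have hF : ((j₀.fieldRange : Subfield Qb) : Set Qb) = Set.range j₀ := RingHom.coe_fieldRange j₀
  have hb : fM a ∈ padicField p ((j₀.fieldRange : Subfield Qb) : Set Qb) := by
    rw [hF]; exact hsub a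
  obtain ⟨x, hx, hxa⟩ := exists_mem_norm_sub_lt p j₀.fieldRange hb one_pos
  obtain ⟨x₀, rfl⟩ : ∃ x₀, j₀ x₀ = x := RingHom.mem_fieldRange.1 hx
  have hx1 : ‖padicEmbedding p (j₀ x₀)‖ ≤ 1 := by
    have e : padicEmbedding p (j₀ x₀) = (padicEmbedding p (j₀ x₀) - fM a) + fM a := by ring
    rw [e]
    exact (IsUltrametricDist.norm_add_le_max _ _).trans (max_le hxa.le ha1)
  obtain ⟨b₀, hb₀⟩ := h x₀ (h₀.le_one_iff.2 hx1)
  obtain ⟨b, hbM⟩ := hsup b₀
  refine ⟨b, ?_⟩
  rw [hM.lt_one_iff, map_sub, map_pow, hbM]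
  have hb₀' : ‖padicEmbedding p (j₀ x₀) - padicEmbedding p (j₀ b₀) ^ n‖ < 1 := by
    have := h₀.lt_one_iff.1 hb₀
    simpa [map_sub, map_pow] using this
  have e : fM a - padicEmbedding p (j₀ b₀) ^ n =
      (fM a - padicEmbedding p (j₀ x₀)) +
        (padicEmbedding p (j₀ x₀) - padicEmbedding p (j₀ b₀) ^ n) := by ring
  rw [e]
  refine (IsUltrametricDist.norm_add_le_max _ _).trans_lt (max_lt ?_ hb₀')
  rwa [norm_sub_rev]

/-- **The way back for perfectness of the residue field**. -/
theorem perf_wayBack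
    (h₀ : NormCompat p v₀ ((padicEmbedding p).toRingHom.comp j₀)) (hM : NormCompat p vM fM)
    (hsub : ∀ y : M, fM y ∈ padicField p (Set.range j₀))
    (hsup : ∀ x : K₀, ∃ y : M, fM y = padicEmbedding p (j₀ x)) (n : ℕ)
    (h : ∀ a : M, vM a ≤ 1 → ∃ b : M, vM (a - b ^ n) < 1) :
    ∀ a : K₀, v₀ a ≤ 1 → ∃ b : K₀, v₀ (a - b ^ n) < 1 := by
  intro a ha
  obtain ⟨aM, haM⟩ := hsup a
  have ha1 : vM aM ≤ 1 := by
    rw [hM.le_one_iff, haM]; exact h₀.le_one_iff.1 ha
  obtain ⟨b, hb⟩ := h aM ha1
  have hb' : ‖padicEmbedding p (j₀ a) - fM b ^ n‖ < 1 := by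
    have := hM.lt_one_iff.1 hb
    rwa [map_sub, map_pow, haM] at this
  by_cases hb0 : b = 0
  · refine ⟨0, ?_⟩
    rw [h₀.lt_one_iff]
    rw [hb0, map_zero] at hb'
    simpa [map_sub, map_pow] using hb'
  · have hF : ((j₀.fieldRange : Subfield Qb) : Set Qb) = Set.range j₀ :=
      RingHom.coe_fieldRange j₀
    have hbF : fM b ∈ padicField p ((j₀.fieldRange : Subfield Qb) : Set Qb) := by
      rw [hF]; exact hsub b
    obtain ⟨x, hx, -, hxn⟩ := exists_mem_norm_mul_pow_sub_lt' p j₀.fieldRange n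
      (a := 1) (y := padicEmbedding p (j₀ a)) (t := 1)
      ⟨fM b, hbF, (map_ne_zero fM).2 hb0, by rwa [one_mul, norm_sub_rev]⟩
    obtain ⟨b₀, rfl⟩ : ∃ b₀, j₀ b₀ = x := RingHom.mem_fieldRange.1 hx
    refine ⟨b₀, ?_⟩
    rw [h₀.lt_one_iff]
    rw [one_mul, norm_sub_rev] at hxn
    simpa [map_sub, map_pow] using hxn

end Carriers

/-! ### (WB5) Ready-made instances for subfield carriers -/

section Instances

/-- The frozen valuation on a subfield `F` of `Qb`. -/
noncomputable abbrev frozenVal (F : Subfield Qb) : Valuation F (padicPlace p).ValueGroup :=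
  (padicPlace p).valuation.comap F.subtype

/-- The norm valuation on a `p`-adic intermediate field. -/
noncomputable abbrev padicVal (Fp : IntermediateField ℚ_[p] (PadicAlgCl p)) : Valuation Fp ℝ≥0 :=
  (NormedField.valuation (K := PadicAlgCl p)).comap (algebraMap Fp (PadicAlgCl p))

theorem normCompat_padicVal (Fp : IntermediateField ℚ_[p] (PadicAlgCl p)) :
    NormCompat p (padicVal p Fp) (algebraMap Fp (PadicAlgCl p)) :=
  normCompat_norm p _

theorem padicVal_apply (Fp : IntermediateField ℚ_[p] (PadicAlgCl p)) (x : Fp) :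
    ((padicVal p Fp x : ℝ≥0) : ℝ) = ‖(x : PadicAlgCl p)‖ := rfl

theorem frozenVal_apply (F : Subfield Qb) (x : F) :
    frozenVal p F x = (padicPlace p).valuation (x : Qb) := rfl

/-- **(FB) way back, subfield carriers**: `F` a subfield of `Qb`, `Fp` a `p`-adic field contained
in the `p`-adic field generated by `F` (e.g. `Fp = padicField p F`), `π, u ∈ F` whose images lie
in `Fp`.  Then `helper4188.LevelGE (padicVal p Fp) ⟨ι π, _⟩ n m ⟨ι u, _⟩` implies
`helper4188.LevelGE (frozenVal p F) π n m u` (both unfolded). -/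
theorem levelGE_wayBack_subfield (F : Subfield Qb) (Fp : IntermediateField ℚ_[p] (PadicAlgCl p))
    (hFp : Fp ≤ padicField p (F : Set Qb)) {π u : F} (hπ0 : π ≠ 0)
    (hπ : padicEmbedding p π ∈ Fp) (hu : padicEmbedding p u ∈ Fp) (n m : ℕ)
    (h : ∃ w : Fp, w ≠ 0 ∧
      padicVal p Fp ((⟨padicEmbedding p u, hu⟩ : Fp) * w ^ n - 1) ≤
        padicVal p Fp (⟨padicEmbedding p π, hπ⟩ : Fp) ^ m) :
    ∃ w : F, w ≠ 0 ∧ frozenVal p F (u * w ^ n - 1) ≤ frozenVal p F π ^ m :=
  levelGE_wayBack p (j₀ := F.subtype) (fM := algebraMap Fp (PadicAlgCl p))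
    (normCompat_subfield p F) (normCompat_padicVal p Fp)
    (fun y => by
      have := hFp y.2
      simpa using this) (πM := ⟨padicEmbedding p π, hπ⟩) (uM := ⟨padicEmbedding p u, hu⟩)
    rfl rfl hπ0 n m h

/-- Way forth, subfield carriers: a uniformiser of `(F, frozenVal)` is a uniformiser of
`(padicField p F, padicVal)`. -/
theorem exists_zpow_wayForth_subfield (F : Subfield Qb) {π : F}
    (h : ∀ x : F, x ≠ 0 → ∃ n : ℤ, frozenVal p F x = frozenVal p F π ^ n) :
    ∀ y : padicField p (F : Set Qb), y ≠ 0 → ∃ n : ℤ,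
      padicVal p (padicField p (F : Set Qb)) y =
        padicVal p (padicField p (F : Set Qb))
          ⟨padicEmbedding p π, padicEmbedding_mem_padicField p π.2⟩ ^ n :=
  exists_zpow_wayForth p (j₀ := F.subtype)
    (fM := algebraMap (padicField p (F : Set Qb)) (PadicAlgCl p))
    (normCompat_subfield p F) (normCompat_padicVal p _)
    (fun y => by simp)
    (πM := ⟨padicEmbedding p π, padicEmbedding_mem_padicField p π.2⟩) rfl h

/-- Way forth, subfield carriers: perfectness of the residue field (`hperf`). -/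
theorem perf_wayForth_subfield (F : Subfield Qb) (n : ℕ)
    (h : ∀ a : F, frozenVal p F a ≤ 1 → ∃ b : F, frozenVal p F (a - b ^ n) < 1) :
    ∀ a : padicField p (F : Set Qb), padicVal p (padicField p (F : Set Qb)) a ≤ 1 →
      ∃ b : padicField p (F : Set Qb), padicVal p (padicField p (F : Set Qb)) (a - b ^ n) < 1 :=
  perf_wayForth p (j₀ := F.subtype)
    (fM := algebraMap (padicField p (F : Set Qb)) (PadicAlgCl p))
    (normCompat_subfield p F) (normCompat_padicVal p _)
    (fun y => by simp)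
    (fun x => ⟨⟨padicEmbedding p x, padicEmbedding_mem_padicField p x.2⟩, rfl⟩) n h

end Instances

end Fermat.Agent.S56.helper3657
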