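/-
S56 FLAT-LOCAL, node FLAT-B-END (helper3657): the end of track B in the frozen vocabulary.

Track B proves its layer bound / (FB) inside `PadicAlgCl p`.  The end-game (N2 / reducible
assemblies) consumes a *frozen* statement: for a Kummer radicand `u = y ^ p` in a subfield `F` of
`Qb := AlgebraicClosure ℚ`, the level of `u` modulo `p`-th powers of `F` is at least `v p`.
This file states the `p`-adic (FB) as a `Prop` in threshold form (`FBPadic`), the frozen (FB)
(`FBFrozen`), proves `FBPadic → FBFrozen` (WAYBACK), and gives the adapters to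
`helper4188.LevelGE` on both sides.
-/
import Fermat.Agent.S56.helper3657_WayBack
import Fermat.Agent.S56.helper4188_UnitLevel

set_option autoImplicit false

namespace Fermat.Agent.S56.helper3657

open scoped NNReal

local notation "Qb" => AlgebraicClosure ℚ

variable (p : ℕ) [Fact p.Prime]

/-! ### The two forms of (FB) -/

/-- **(FB), `p`-adic threshold form**, for a pair of `p`-adic fields `Fp`, `L`:
every nonzero element of `Fp` having a `p`-th root in `L` lies in `(1 + p 𝒪) · (Fp^×)^p`.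
(Track B proves this for `L = K'(points of a flat group scheme killed by p)` and `Fp` a tamely
ramified subfield of `L` containing `ζ_p`.) -/
def FBPadic (Fp L : IntermediateField ℚ_[p] (PadicAlgCl p)) : Prop :=
  ∀ u ∈ Fp, u ≠ 0 → (∃ y ∈ L, y ^ p = u) →
    ∃ b ∈ Fp, b ≠ 0 ∧ ‖u * b ^ p - 1‖ ≤ ‖(p : PadicAlgCl p)‖

/-- **(FB), frozen threshold form**, for a subfield `F` of `Qb` and a set `S ⊆ Qb` (the values
of the points): every nonzero `u ∈ F` having a `p`-th root `y` fixed by the stabiliser of `S` in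
the decomposition group of `padicPlace p` lies in `(1 + p 𝒪) · (F^×)^p`. -/
def FBFrozen (F : Subfield Qb) (S : Set Qb) : Prop :=
  ∀ u ∈ F, u ≠ 0 → ∀ y : Qb, y ^ p = u →
    (∀ σ ∈ (padicPlace p).decompositionSubgroup ℚ, (∀ s ∈ S, σ s = s) → σ y = y) →
    ∃ x ∈ F, x ≠ 0 ∧
      (padicPlace p).valuation (u * x ^ p - 1) ≤ (padicPlace p).valuation (p : Qb)

theorem FBPadic.mono {Fp L L' : IntermediateField ℚ_[p] (PadicAlgCl p)} (h : FBPadic p Fp L')
    (hL : L ≤ L') : FBPadic p Fp L :=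
  fun u hu hu0 ⟨y, hy, hyu⟩ => h u hu hu0 ⟨y, hL hy, hyu⟩

/-- **The end of track B**: the `p`-adic (FB) for the pair
`(F · ℚ_p, ℚ_p(S)) = (padicField p F, padicField p S)` gives the frozen (FB) for `(F, S)`. -/
theorem fbFrozen_of_fbPadic (F : Subfield Qb) (S : Set Qb)
    (h : FBPadic p (padicField p (F : Set Qb)) (padicField p S)) : FBFrozen p F S := by
  intro u hu hu0 y hy hyS
  have hp0 : (p : Qb) ≠ 0 := by exact_mod_cast (Fact.out : p.Prime).ne_zero
  obtain ⟨b, hb, hb0, hbn⟩ := h (padicEmbedding p u) (padicEmbedding_mem_padicField p hu)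
    ((map_ne_zero _).2 hu0)
    ⟨padicEmbedding p y, padicEmbedding_mem_padicField_of_decomposition p S hyS, by
      rw [← map_pow, hy]⟩
  refine exists_mem_valuation_mul_pow_sub_one_le p F p hp0 ⟨b, hb, hb0, ?_⟩
  rwa [map_natCast]

/-- The frozen (FB) is monotone in the set `S` of "values". -/
theorem FBFrozen.mono {F : Subfield Qb} {S S' : Set Qb} (h : FBFrozen p F S') (hS : S ⊆ S') :
    FBFrozen p F S :=
  fun u hu hu0 y hy hyS => h u hu hu0 y hy (fun σ hσ hσS => hyS σ hσ (fun s hs => hσS s (hS hs)))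

/-! ### Adapters to `helper4188.LevelGE` -/

section Level

variable {K : Type*} [Field K] {Γ₀ : Type*} [LinearOrderedCommGroupWithZero Γ₀]

/-- `v p = v (ζ - 1) ^ (p - 1)` for a primitive `p`-th root of unity `ζ`, for any valuation. -/
theorem val_prime_eq_pow (v : Valuation K Γ₀) {q : ℕ} (hq : q.Prime) {ζ : K}
    (hζ : IsPrimitiveRoot ζ q) : v (q : K) = v (ζ - 1) ^ (q - 1) := by
  obtain ⟨n, rfl⟩ : ∃ n, q = n + 1 := ⟨q - 1, (Nat.succ_pred_eq_of_pos hq.pos).symm⟩
  have hprod := hζ.prod_one_sub_pow_eq_order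
  have hcast : ((n + 1 : ℕ) : K) = (n : K) + 1 := by push_cast; ring
  rw [hcast, ← hprod, map_prod, Nat.add_sub_cancel]
  rw [Finset.prod_eq_pow_card (b := v (ζ - 1)), Finset.card_range]
  intro k hk
  have hk' : k + 1 < n + 1 := Nat.succ_lt_succ (Finset.mem_range.1 hk)
  have h1 : (ζ ^ (k + 1)) ^ (n + 1) = 1 := by
    rw [← pow_mul, mul_comm, pow_mul, hζ.pow_eq_one, one_pow]
  have h2 : ζ ^ (k + 1) ≠ 1 := hζ.pow_ne_one_of_pos_of_lt (Nat.succ_ne_zero k) hk'
  rw [← helper4188.val_root_sub_one_eq v hq hζ h1 h2, ← neg_sub, Valuation.map_neg]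

omit [Fact p.Prime] in
/-- From the level form to the threshold form: `LevelGE v π p m u` with `v π ^ m = v p`. -/
theorem exists_of_levelGE (v : Valuation K Γ₀) {π u : K} {m : ℕ} (hπ : v π ^ m = v (p : K))
    (h : helper4188.LevelGE v π p m u) : ∃ w : K, w ≠ 0 ∧ v (u * w ^ p - 1) ≤ v (p : K) := by
  obtain ⟨w, hw0, hw⟩ := h
  exact ⟨w, hw0, hπ ▸ hw⟩

omit [Fact p.Prime] in
/-- From the threshold form to the level form. -/
theorem levelGE_of_exists (v : Valuation K Γ₀) {π u : K} {m : ℕ} (hπ : v π ^ m = v (p : K))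
    (h : ∃ w : K, w ≠ 0 ∧ v (u * w ^ p - 1) ≤ v (p : K)) : helper4188.LevelGE v π p m u := by
  obtain ⟨w, hw0, hw⟩ := h
  exact ⟨w, hw0, hπ.symm ▸ hw⟩

/-- The exponent `(p - 1) * E` of FB-COR: if `v (ζ - 1) = v π ^ E` then
`v π ^ ((p - 1) * E) = v p`. -/
theorem val_pow_eq_val_prime (v : Valuation K Γ₀) {ζ π : K} (hζ : IsPrimitiveRoot ζ p) {E : ℕ}
    (hE : v (ζ - 1) = v π ^ E) : v π ^ ((p - 1) * E) = v (p : K) := by
  rw [val_prime_eq_pow v (Fact.out : p.Prime) hζ, hE, ← pow_mul, mul_comm]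

end Level

/-- Adapter on the `p`-adic side: the output of FB-COR (`helper4188.LevelGE` on the carrier
`(Fp, padicVal)` at a level `m` with `v π ^ m = v p`, for every radicand with a root in `L`)
is `FBPadic p Fp L`. -/
theorem fbPadic_of_levelGE (Fp L : IntermediateField ℚ_[p] (PadicAlgCl p)) {π : Fp} {m : ℕ}
    (hπ : padicVal p Fp π ^ m = padicVal p Fp (p : Fp))
    (h : ∀ u : Fp, u ≠ 0 → (∃ y ∈ L, y ^ p = (u : PadicAlgCl p)) →
      helper4188.LevelGE (padicVal p Fp) π p m u) : FBPadic p Fp L := by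
  intro u hu hu0 hy
  obtain ⟨w, hw0, hw⟩ := exists_of_levelGE p (padicVal p Fp) hπ
    (h ⟨u, hu⟩ (fun h0 => hu0 (congrArg Subtype.val h0)) hy)
  refine ⟨w, w.2, fun h0 => hw0 (Subtype.ext h0), ?_⟩
  have := (normCompat_padicVal p Fp).le_iff.1 hw
  simpa using this

/-- Adapter on the frozen side: the frozen (FB) gives `helper4188.LevelGE` on the frozen carrier
`(F', frozenVal)` for every subfield `F' ⊇ F` and every `π ∈ F'`, `m` with `v π ^ m = v p`
(e.g. `F'` the inertia-level tame field of TAMEK0, `m = e0`). -/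
theorem levelGE_of_fbFrozen {F F' : Subfield Qb} (hFF' : F ≤ F') {S : Set Qb}
    (h : FBFrozen p F S) {π : F'} {m : ℕ}
    (hπ : frozenVal p F' π ^ m = frozenVal p F' (p : F')) {u : F'} (hu : (u : Qb) ∈ F)
    (hu0 : u ≠ 0) {y : Qb} (hy : y ^ p = (u : Qb))
    (hyS : ∀ σ ∈ (padicPlace p).decompositionSubgroup ℚ, (∀ s ∈ S, σ s = s) → σ y = y) :
    helper4188.LevelGE (frozenVal p F') π p m u := by
  obtain ⟨x, hx, hx0, hxv⟩ := h u hu (fun h0 => hu0 (Subtype.ext h0)) y hy hyS
  refine levelGE_of_exists p (frozenVal p F') hπ ⟨⟨x, hFF' hx⟩, fun h0 => hx0 ?_, ?_⟩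
  · exact congrArg Subtype.val h0
  · exact hxv

/-- **Track-B END, packaged**: `p`-adic (FB) for `(F · ℚ_p, ℚ_p(S))` ⟹ the LEVEL INPUT of the
frozen end-game for every radicand in `F`, read in any larger subfield `F'`. -/
theorem levelGE_of_fbPadic {F F' : Subfield Qb} (hFF' : F ≤ F') {S : Set Qb}
    (h : FBPadic p (padicField p (F : Set Qb)) (padicField p S)) {π : F'} {m : ℕ}
    (hπ : frozenVal p F' π ^ m = frozenVal p F' (p : F')) {u : F'} (hu : (u : Qb) ∈ F)
    (hu0 : u ≠ 0) {y : Qb} (hy : y ^ p = (u : Qb))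
    (hyS : ∀ σ ∈ (padicPlace p).decompositionSubgroup ℚ, (∀ s ∈ S, σ s = s) → σ y = y) :
    helper4188.LevelGE (frozenVal p F') π p m u :=
  levelGE_of_fbFrozen p hFF' (fbFrozen_of_fbPadic p F S h) hπ hu hu0 hy hyS

end Fermat.Agent.S56.helper3657
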