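/-
S56 FLAT-LOCAL, node FLAT-FB-B-END, part (E) (helper3657): the frozen reduction of the captain's
junction `helper6366.Stmt_FB` to ONE `p`-adic statement.

`Stmt_FB` speaks about a normal subgroup `N` of the decomposition group `D = decP p` of index
prime to `p` and its fixed field `F = ℚ̄^N`.  The `p`-adic field `F · ℚ_p` (`padicField p F`) is
then a subfield of `L₀ = ℚ_p(points)`, stable under the local Galois group, on which every local
automorphism has order dividing `[D : N]` (prime to `p`), and which contains `ζ_p`.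
`FBPadicTame p L₀` asks the `p`-adic (FB) (`FBPadic`, see `helper3657_TrackBEnd`) for all such
subfields of `L₀`; `stmt_FB_of_padic` deduces `Stmt_FB` from it.
-/
import Fermat.Agent.S56.helper3657_TrackBEnd
import Fermat.Agent.S56.helper6366_FlatJunction

set_option autoImplicit false

namespace Fermat.Agent.S56.helper3657

open Fermat.Agent.S56.helper6366 Fermat.Agent.S56.helper6599 Fermat.Agent.S32

local notation "Qb" => AlgebraicClosure ℚ

variable (p : ℕ) [Fact p.Prime]

/-- **(FB) for the tame Galois subfields of `L₀`**: the `p`-adic (FB) `FBPadic p Fp L₀` for every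
subfield `Fp` of `L₀` which is stable under the local Galois group, on which every local
automorphism has exponent `n` prime to `p` (so `Fp / ℚ_p` is Galois and tamely ramified), and
which contains a primitive `p`-th root of unity. -/
def FBPadicTame (L₀ : IntermediateField ℚ_[p] (PadicAlgCl p)) : Prop :=
  ∀ Fp : IntermediateField ℚ_[p] (PadicAlgCl p), Fp ≤ L₀ →
    (∀ (τ : PadicAlgCl p ≃ₐ[ℚ_[p]] PadicAlgCl p), ∀ x ∈ Fp, τ x ∈ Fp) →
    (∃ n : ℕ, ¬ p ∣ n ∧ ∀ (τ : PadicAlgCl p ≃ₐ[ℚ_[p]] PadicAlgCl p), ∀ x ∈ Fp, (τ ^ n) x = x) →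
    (∃ ζ ∈ Fp, IsPrimitiveRoot ζ p) → FBPadic p Fp L₀

/-- The fixed field of a subgroup of `G_ℚ`, as a subfield of `Qb`. -/
noncomputable abbrev fixedSubfield (N : Subgroup GQ) : Subfield Qb :=
  (IntermediateField.fixedField N : IntermediateField ℚ Qb).toSubfield

theorem mem_fixedSubfield_iff (N : Subgroup GQ) (x : Qb) :
    x ∈ fixedSubfield N ↔ ∀ τ ∈ N, τ x = x :=
  IntermediateField.mem_fixedField_iff N x

section Field

variable {N : Subgroup GQ}

/-- `F · ℚ_p` is stable under the local Galois group when `N` is normal in `D`. -/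
theorem padicField_fixedSubfield_stable (hND : N ≤ decP p)
    (hNn : (N.subgroupOf (decP p)).Normal)
    (τ : PadicAlgCl p ≃ₐ[ℚ_[p]] PadicAlgCl p) {x : PadicAlgCl p}
    (hx : x ∈ padicField p (fixedSubfield N : Set Qb)) :
    τ x ∈ padicField p (fixedSubfield N : Set Qb) := by
  have hle : padicField p (fixedSubfield N : Set Qb) ≤
      (padicField p (fixedSubfield N : Set Qb)).comap
        (τ : PadicAlgCl p →ₐ[ℚ_[p]] PadicAlgCl p) := by
    rw [IntermediateField.adjoin_le_iff]
    rintro _ ⟨z, hz, rfl⟩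
    show τ (padicEmbedding p z) ∈ padicField p (fixedSubfield N : Set Qb)
    rw [← padicEmbedding_localGaloisToGlobal]
    apply padicEmbedding_mem_padicField
    rw [SetLike.mem_coe, mem_fixedSubfield_iff]
    intro n hn
    set g : GQ := localGaloisToGlobal p τ with hg
    have hgD : g ∈ decP p := localGaloisToGlobal_mem_decompositionSubgroup p τ
    have hconj : (⟨g, hgD⟩ : decP p)⁻¹ * ⟨n, hND hn⟩ * (⟨g, hgD⟩ : decP p)⁻¹⁻¹ ∈
        N.subgroupOf (decP p) :=
      hNn.conj_mem _ (Subgroup.mem_subgroupOf.2 hn) _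
    rw [Subgroup.mem_subgroupOf] at hconj
    have h1 : g⁻¹ * n * g ∈ N := by simpa using hconj
    have h2 := (mem_fixedSubfield_iff N z).1 hz _ h1
    have h3 : (g⁻¹ * n * g) z = g⁻¹ (n (g z)) := rfl
    rw [h3] at h2
    have h4 := congrArg g h2
    rw [← AlgEquiv.mul_apply, mul_inv_cancel, AlgEquiv.one_apply] at h4
    exact h4
  exact hle hx

/-- Every local automorphism has exponent `[D : N]` on `F · ℚ_p`. -/
theorem padicField_fixedSubfield_pow (hNn : (N.subgroupOf (decP p)).Normal)
    (τ : PadicAlgCl p ≃ₐ[ℚ_[p]] PadicAlgCl p) {x : PadicAlgCl p}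
    (hx : x ∈ padicField p (fixedSubfield N : Set Qb)) :
    (τ ^ N.relIndex (decP p)) x = x := by
  apply fixed_of_mem_padicField p hx
  intro s hs
  have hgD : localGaloisToGlobal p τ ∈ decP p := localGaloisToGlobal_mem_decompositionSubgroup p τ
  have h1 := Subgroup.pow_index_mem (N.subgroupOf (decP p)) ⟨localGaloisToGlobal p τ, hgD⟩
  rw [Subgroup.mem_subgroupOf] at h1
  have h2 : localGaloisToGlobal p (τ ^ N.relIndex (decP p)) ∈ N := by
    rw [map_pow]
    exact h1
  exact (mem_fixedSubfield_iff N s).1 hs _ h2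

end Field

/-- **(E)**: the captain's junction `Stmt_FB` follows from the `p`-adic (FB) on the tame Galois
subfields of `ℚ_p(S)`, where `S ⊆ Qb` is any set whose pointwise stabiliser in the decomposition
group is the kernel of the action on `M` (the values of the points of the local model). -/
theorem stmt_FB_of_padic
    (h : ∀ (p : ℕ) [Fact p.Prime], p ≠ 2 →
      ∀ (M : Type) [AddCommGroup M] (act : GQ → M → M),
        helper1304.HasFunModel p M act → (∀ m : M, p • m = 0) →
        ∃ S : Set Qb, (∀ σ ∈ decP p, (∀ s ∈ S, σ s = s) ↔ ∀ m : M, act σ m = m) ∧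
          FBPadicTame p (padicField p S)) :
    Stmt_FB := by
  intro p _ hp2 M _ act hfun hkill N hND hNn hidx hζ hker y hy0 hyN hyM
  obtain ⟨ζ, hζ, hζN⟩ := hζ
  obtain ⟨S, hS, hFB⟩ := h p hp2 M act hfun hkill
  have hle : padicField p (fixedSubfield N : Set Qb) ≤ padicField p S := by
    rw [IntermediateField.adjoin_le_iff]
    rintro _ ⟨x, hx, rfl⟩
    apply padicEmbedding_mem_padicField_of_decomposition p S
    intro σ hσ hσS
    exact (mem_fixedSubfield_iff N x).1 hx σ (hker σ hσ ((hS σ hσ).1 hσS))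
  have hfb : FBPadic p (padicField p (fixedSubfield N : Set Qb)) (padicField p S) := by
    refine hFB _ hle (fun τ x hx => padicField_fixedSubfield_stable p hND hNn τ hx)
      ⟨N.relIndex (decP p), hidx, fun τ x hx => padicField_fixedSubfield_pow p hNn τ hx⟩
      ⟨padicEmbedding p ζ, ?_, ?_⟩
    · apply padicEmbedding_mem_padicField
      rw [SetLike.mem_coe, mem_fixedSubfield_iff]
      exact hζN
    · exact hζ.map_of_injective (padicEmbedding_injective p)
  have hfr := fbFrozen_of_fbPadic p (fixedSubfield N) S hfb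
  obtain ⟨x, hxF, hx0, hval⟩ := hfr (y ^ p) ((mem_fixedSubfield_iff N _).2 hyN)
    (pow_ne_zero p hy0) y rfl (fun σ hσ hσS => hyM σ hσ ((hS σ hσ).1 hσS))
  exact ⟨x, hx0, (mem_fixedSubfield_iff N x).1 hxF, hval⟩

end Fermat.Agent.S56.helper3657
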