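/-
S56 (flat local bound, design B = grouplike lifting + explicit converse Krasner), helper453.
Mathlib only.  Node FLAT-BOUND-B of `s56_nodes`.

* `norm_le_norm_sum_of_distinct` : ultrametric sums with pairwise distinct norms.
* `unitBall`, `IntC` : polynomials with integral coefficients over an ultrametric field.
* `rep`, `transfer` : polynomial representatives with respect to a power basis and the
  "transfer" map `a = A(π) ↦ A(w)`.
* `norm_aeval_minpoly_ne` : abstract weak converse Krasner (KR).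
* `TotRam` : standing hypotheses (totally ramified Galois `L/K'`, `K'` unramified) and the
  properties of the transfer map: norm-preserving, multiplicative modulo `P(w)` (EIS).
* `RigProp`, `LiftProp` : the interface with FLAT-RIG, (L1) rigidity and (L2) sharp lifting.
* `TotRam.exists_algebraMap_eq` : Fontaine's property in the form used by the bound.
* `TotRam.fontaine_bound_of_root`, `TotRam.fontaine_bound_of_Pm`, `TotRam.fontaine_bound` :
  the ramification bound (F), from the root form / the evaluation form (P_m) of Fontaine's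
  property / from (L1) + (L2).
* `TotRam.layer_bound_of_F`, `TotRam.layer_bound_of_Pm` : (L5), the bound for the break of a
  degree-`p` layer `L^H / L^P` (Serre IV.3 in product form as a hypothesis).
-/
import Mathlib

set_option autoImplicit false
set_option linter.unusedSectionVars false

open Polynomial

namespace Fermat.Agent.S56.helper453

section Ultra

/-- In an ultrametric group, a finite sum whose terms have pairwise distinct norms (apart from
terms of norm `0`) dominates each of its terms. -/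
theorem norm_le_norm_sum_of_distinct {M ι : Type*} [SeminormedAddCommGroup M]
    [IsUltrametricDist M] (s : Finset ι) (f : ι → M)
    (h : ∀ i ∈ s, ∀ j ∈ s, i ≠ j → ‖f i‖ = ‖f j‖ → ‖f i‖ = 0) :
    ∀ i ∈ s, ‖f i‖ ≤ ‖∑ j ∈ s, f j‖ := by
  classical
  induction s using Finset.induction_on with
  | empty => intro i hi; simp at hi
  | insert a s' ha ih =>
    have ih' := ih (fun i hi j hj hij he =>
      h i (Finset.mem_insert_of_mem hi) j (Finset.mem_insert_of_mem hj) hij he)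
    rw [Finset.sum_insert ha]
    by_cases hne : ‖f a‖ = ‖∑ j ∈ s', f j‖
    · -- then everything has norm zero
      have hzero : ‖∑ j ∈ s', f j‖ = 0 := by
        rcases s'.eq_empty_or_nonempty with hs | hs
        · simp [hs]
        · obtain ⟨i₀, hi₀, hle⟩ := IsUltrametricDist.exists_norm_finsetSum_le_of_nonempty hs f
          have hi₀' := ih' i₀ hi₀
          have heq : ‖f a‖ = ‖f i₀‖ := by rw [hne]; exact le_antisymm hle hi₀'
          have hai : a ≠ i₀ := fun e => ha (e ▸ hi₀)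
          have := h a (Finset.mem_insert_self _ _) i₀ (Finset.mem_insert_of_mem hi₀) hai heq
          rw [← hne, this]
      intro i hi
      rcases Finset.mem_insert.1 hi with rfl | hi
      · rw [hne, hzero]; exact norm_nonneg _
      · exact ((ih' i hi).trans hzero.le).trans (norm_nonneg _)
    · rw [IsUltrametricDist.norm_add_eq_max_of_norm_ne_norm hne]
      intro i hi
      rcases Finset.mem_insert.1 hi with rfl | hi
      · exact le_max_left _ _
      · exact (ih' i hi).trans (le_max_right _ _)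

end Ultra

section IntC

variable {Cp : Type*} [NormedField Cp] [IsUltrametricDist Cp]

/-- The unit ball of an ultrametric normed field, as a subring. -/
def unitBall (Cp : Type*) [NormedField Cp] [IsUltrametricDist Cp] : Subring Cp where
  carrier := {x | ‖x‖ ≤ 1}
  mul_mem' {a b} ha hb := by
    change ‖a * b‖ ≤ 1
    rw [norm_mul]
    exact mul_le_one₀ ha (norm_nonneg _) hb
  one_mem' := by change ‖(1 : Cp)‖ ≤ 1; rw [norm_one]
  add_mem' {a b} ha hb := (IsUltrametricDist.norm_add_le_max a b).trans (max_le ha hb)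
  zero_mem' := by change ‖(0 : Cp)‖ ≤ 1; rw [norm_zero]; exact zero_le_one
  neg_mem' {a} ha := by change ‖-a‖ ≤ 1; rw [norm_neg]; exact ha

theorem mem_unitBall {x : Cp} : x ∈ unitBall Cp ↔ ‖x‖ ≤ 1 := Iff.rfl

/-- Polynomials with coefficients in the unit ball. -/
def IntC (f : Cp[X]) : Prop := ∀ i, ‖f.coeff i‖ ≤ 1

theorem intC_iff_lifts (f : Cp[X]) : IntC f ↔ f ∈ Polynomial.lifts (unitBall Cp).subtype := by
  rw [Polynomial.lifts_iff_coeff_lifts]
  constructor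
  · intro h i
    exact ⟨⟨f.coeff i, h i⟩, rfl⟩
  · intro h i
    obtain ⟨x, hx⟩ := h i
    rw [← hx]
    exact x.2

theorem IntC.mul {f g : Cp[X]} (hf : IntC f) (hg : IntC g) : IntC (f * g) := by
  rw [intC_iff_lifts] at *
  exact Subsemiring.mul_mem _ hf hg

omit [IsUltrametricDist Cp] in
theorem intC_X_sub_C {a : Cp} (ha : ‖a‖ ≤ 1) : IntC (X - C a) := by
  intro i
  rw [coeff_sub, coeff_X, coeff_C]
  by_cases h1 : 1 = i <;> by_cases h0 : i = 0 <;> simp [h1, h0, ha]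
  omega

theorem intC_prod {ι : Type*} (s : Finset ι) (f : ι → Cp[X]) (h : ∀ i ∈ s, IntC (f i)) :
    IntC (∏ i ∈ s, f i) := by
  simp only [intC_iff_lifts] at *
  exact Subsemiring.prod_mem _ h

theorem IntC.norm_eval_le {f : Cp[X]} (hf : IntC f) {w : Cp} (hw : ‖w‖ ≤ 1) : ‖f.eval w‖ ≤ 1 := by
  rw [intC_iff_lifts] at hf
  obtain ⟨g, rfl⟩ := hf
  rw [coe_mapRingHom, eval_map]
  have hw' : w ∈ unitBall Cp := hw
  have : eval₂ (unitBall Cp).subtype w g = (unitBall Cp).subtype (g.eval ⟨w, hw'⟩) :=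
    (Polynomial.eval₂_at_apply (unitBall Cp).subtype (⟨w, hw'⟩ : unitBall Cp)).symm ▸ rfl
  rw [this]
  exact (g.eval (⟨w, hw'⟩ : unitBall Cp)).2

theorem IntC.divByMonic {f P : Cp[X]} (hf : IntC f) (hP : IntC P) (hmon : P.Monic) :
    IntC (f /ₘ P) := by
  rw [intC_iff_lifts] at *
  obtain ⟨f₀, rfl⟩ := hf
  obtain ⟨P₀, hP₀, -, hP₀mon⟩ := Polynomial.lifts_and_natDegree_eq_and_monic hP hmon
  rw [← hP₀, coe_mapRingHom, ← Polynomial.map_divByMonic _ hP₀mon]
  exact ⟨_, rfl⟩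

end IntC

section Rep

variable {K' L : Type*} [Field K'] [Field L] [Algebra K' L]

/-- The polynomial representative of degree `< pb.dim` of an element, as a linear map. -/
noncomputable def rep (pb : PowerBasis K' L) : L →ₗ[K'] K'[X] :=
  pb.basis.constr K' (fun i : Fin pb.dim => (X : K'[X]) ^ (i : ℕ))

theorem rep_apply (pb : PowerBasis K' L) (a : L) :
    rep pb a = ∑ i : Fin pb.dim, C (pb.basis.repr a i) * X ^ (i : ℕ) := by
  rw [rep, Module.Basis.constr_apply_fintype]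
  refine Finset.sum_congr rfl (fun i _ => ?_)
  rw [Module.Basis.equivFun_apply, smul_eq_C_mul]

theorem degree_rep_lt (pb : PowerBasis K' L) (a : L) : (rep pb a).degree < pb.dim := by
  rw [rep_apply]
  exact degree_sum_fin_lt _

theorem aeval_rep (pb : PowerBasis K' L) (a : L) : aeval pb.gen (rep pb a) = a := by
  rw [rep_apply, map_sum]
  conv_rhs => rw [← pb.basis.sum_repr a]
  refine Finset.sum_congr rfl (fun i _ => ?_)
  rw [map_mul, aeval_C, map_pow, aeval_X, pb.basis_eq_pow, Algebra.smul_def]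

theorem rep_eq_of_degree_lt (pb : PowerBasis K' L) {f : K'[X]} (hf : f.degree < pb.dim) :
    rep pb (aeval pb.gen f) = f := by
  by_contra hne
  have h0 : rep pb (aeval pb.gen f) - f ≠ 0 := sub_ne_zero.2 hne
  have hroot : aeval pb.gen (rep pb (aeval pb.gen f) - f) = 0 := by
    rw [map_sub, aeval_rep, sub_self]
  have h1 := pb.dim_le_degree_of_root h0 hroot
  have hlt : (rep pb (aeval pb.gen f) - f).degree < pb.dim :=
    lt_of_le_of_lt (degree_sub_le _ _) (max_lt (degree_rep_lt pb _) hf)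
  exact absurd h1 (not_le.2 hlt)

theorem monic_minpoly_gen (pb : PowerBasis K' L) : (minpoly K' pb.gen).Monic :=
  minpoly.monic pb.isIntegral_gen

theorem degree_minpoly_gen' (pb : PowerBasis K' L) : (minpoly K' pb.gen).degree = pb.dim := by
  rw [degree_eq_natDegree (monic_minpoly_gen pb).ne_zero, pb.natDegree_minpoly]

theorem rep_aeval (pb : PowerBasis K' L) (f : K'[X]) :
    rep pb (aeval pb.gen f) = f %ₘ minpoly K' pb.gen := by
  have hmon := monic_minpoly_gen pb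
  have h1 : aeval pb.gen (f %ₘ minpoly K' pb.gen) = aeval pb.gen f :=
    aeval_modByMonic_eq_self_of_root (minpoly.aeval _ _)
  rw [← h1]
  apply rep_eq_of_degree_lt
  calc (f %ₘ minpoly K' pb.gen).degree < (minpoly K' pb.gen).degree :=
        degree_modByMonic_lt _ hmon
    _ = pb.dim := degree_minpoly_gen' pb

theorem rep_one (pb : PowerBasis K' L) : rep pb 1 = 1 := by
  have h : rep pb (aeval pb.gen (1 : K'[X])) = 1 := by
    apply rep_eq_of_degree_lt
    rw [degree_one]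
    exact_mod_cast pb.dim_pos
  simpa using h

theorem rep_mul (pb : PowerBasis K' L) (a b : L) :
    rep pb (a * b) = (rep pb a * rep pb b) %ₘ minpoly K' pb.gen := by
  conv_lhs => rw [← aeval_rep pb a, ← aeval_rep pb b, ← map_mul]
  exact rep_aeval pb _

theorem natDegree_rep_lt (pb : PowerBasis K' L) (a : L) : (rep pb a).natDegree < pb.dim := by
  by_cases h : rep pb a = 0
  · rw [h, natDegree_zero]; exact pb.dim_pos
  · exact (natDegree_lt_iff_degree_lt h).2 (degree_rep_lt pb a)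

end Rep

section Transfer

variable {K' L Cp : Type*} [Field K'] [Field L] [NormedField Cp] [IsUltrametricDist Cp]
  [Algebra K' L] [Algebra K' Cp] [Algebra L Cp] [IsScalarTower K' L Cp]

/-- The transfer map: evaluate the polynomial representative at `w`. -/
noncomputable def transfer (pb : PowerBasis K' L) (w : Cp) : L →ₗ[K'] Cp :=
  (aeval w).toLinearMap ∘ₗ rep pb

omit [IsUltrametricDist Cp] [Algebra L Cp] [IsScalarTower K' L Cp] in
theorem transfer_apply (pb : PowerBasis K' L) (w : Cp) (a : L) :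
    transfer pb w a = aeval w (rep pb a) := rfl

omit [IsUltrametricDist Cp] [Algebra L Cp] [IsScalarTower K' L Cp] in
theorem transfer_one (pb : PowerBasis K' L) (w : Cp) : transfer pb w 1 = 1 := by
  rw [transfer_apply, rep_one, map_one]

omit [IsUltrametricDist Cp] in
theorem transfer_gen_self (pb : PowerBasis K' L) (a : L) :
    transfer pb (algebraMap L Cp pb.gen) a = algebraMap L Cp a := by
  rw [transfer_apply, aeval_algebraMap_apply, aeval_rep]

omit [IsUltrametricDist Cp] [Algebra L Cp] [IsScalarTower K' L Cp] in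
theorem transfer_mul (pb : PowerBasis K' L) (w : Cp) (a b : L) :
    transfer pb w a * transfer pb w b - transfer pb w (a * b) =
      aeval w (minpoly K' pb.gen) * aeval w ((rep pb a * rep pb b) /ₘ minpoly K' pb.gen) := by
  rw [transfer_apply, transfer_apply, transfer_apply, rep_mul]
  have h := modByMonic_add_div (rep pb a * rep pb b) (minpoly K' pb.gen)
  have h2 := congrArg (aeval w) h
  rw [map_add, map_mul, map_mul] at h2
  linear_combination -h2

variable (p : ℕ)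

omit [Field L] [Algebra K' L] [Algebra L Cp] [IsScalarTower K' L Cp] in
/-- Each term of `f(y)` is dominated by `‖f(y)‖` when `‖y‖ ^ N = ‖p‖`, `deg f < N` and the
value group of `K'` is `‖p‖ ^ ℤ`. -/
theorem norm_term_le_norm_aeval
    (hK : ∀ a : K', a ≠ 0 → ∃ k : ℤ, ‖algebraMap K' Cp a‖ = ‖(p : Cp)‖ ^ k)
    {N : ℕ} {y : Cp} (hy0 : 0 < ‖y‖) (hy1 : ‖y‖ < 1) (hyN : ‖y‖ ^ N = ‖(p : Cp)‖)
    (f : K'[X]) (hf : f.natDegree < N) (i : ℕ) :
    ‖algebraMap K' Cp (f.coeff i)‖ * ‖y‖ ^ i ≤ ‖aeval y f‖ := by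
  by_cases hi : i < N
  swap
  · rw [coeff_eq_zero_of_natDegree_lt (lt_of_lt_of_le hf (not_lt.1 hi)), map_zero, norm_zero,
      zero_mul]
    exact norm_nonneg _
  rw [aeval_eq_sum_range' hf]
  have hterm : ∀ j : ℕ, ‖f.coeff j • y ^ j‖ = ‖algebraMap K' Cp (f.coeff j)‖ * ‖y‖ ^ j := by
    intro j
    rw [Algebra.smul_def, norm_mul, norm_pow]
  rw [← hterm i]
  refine norm_le_norm_sum_of_distinct (Finset.range N) (fun j => f.coeff j • y ^ j) ?_ i
    (Finset.mem_range.2 hi)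
  intro a ha b hb hab heq
  by_contra hne
  rw [hterm a, hterm b] at heq
  rw [hterm a] at hne
  have hca : f.coeff a ≠ 0 := by
    intro h
    rw [h, map_zero, norm_zero, zero_mul] at hne
    exact hne rfl
  have hcb : f.coeff b ≠ 0 := by
    intro h
    rw [h, map_zero, norm_zero, zero_mul] at heq
    exact hne heq
  obtain ⟨ka, hka⟩ := hK _ hca
  obtain ⟨kb, hkb⟩ := hK _ hcb
  have e : ∀ (k : ℤ) (j : ℕ), ‖(p : Cp)‖ ^ k * ‖y‖ ^ j = ‖y‖ ^ ((N : ℤ) * k + j) := by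
    intro k j
    rw [← hyN, zpow_add₀ hy0.ne', zpow_mul, zpow_natCast, zpow_natCast]
  rw [hka, hkb, e, e] at heq
  have hinj := zpow_right_injective₀ hy0 hy1.ne heq
  have ha' := Finset.mem_range.1 ha
  have hb' := Finset.mem_range.1 hb
  have h3 : (a : ℤ) % N = (b : ℤ) % N := by
    have h4 := congrArg (· % (N : ℤ)) hinj
    simpa [Int.add_mul_emod_self_left] using h4
  rw [Int.emod_eq_of_lt (by positivity) (by exact_mod_cast ha'),
    Int.emod_eq_of_lt (by positivity) (by exact_mod_cast hb')] at h3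
  exact hab (by exact_mod_cast h3)

omit [Field L] [Algebra K' L] [Algebra L Cp] [IsScalarTower K' L Cp] in
theorem exists_norm_aeval_eq
    (hK : ∀ a : K', a ≠ 0 → ∃ k : ℤ, ‖algebraMap K' Cp a‖ = ‖(p : Cp)‖ ^ k)
    {N : ℕ} (hN : 0 < N) {y : Cp} (hy0 : 0 < ‖y‖) (hy1 : ‖y‖ < 1)
    (hyN : ‖y‖ ^ N = ‖(p : Cp)‖) (f : K'[X]) (hf : f.natDegree < N) :
    ∃ i < N, ‖aeval y f‖ = ‖algebraMap K' Cp (f.coeff i)‖ * ‖y‖ ^ i := by
  have hne : (Finset.range N).Nonempty := ⟨0, Finset.mem_range.2 hN⟩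
  obtain ⟨i, hi, hle⟩ := IsUltrametricDist.exists_norm_finsetSum_le_of_nonempty hne
    (fun j => f.coeff j • y ^ j)
  refine ⟨i, Finset.mem_range.1 hi, le_antisymm ?_ (norm_term_le_norm_aeval p hK hy0 hy1 hyN f hf i)⟩
  rw [aeval_eq_sum_range' hf]
  refine hle.trans (le_of_eq ?_)
  rw [Algebra.smul_def, norm_mul, norm_pow]

omit [Field L] [Algebra K' L] [Algebra L Cp] [IsScalarTower K' L Cp] in
theorem norm_aeval_eq_of_norm_eq
    (hK : ∀ a : K', a ≠ 0 → ∃ k : ℤ, ‖algebraMap K' Cp a‖ = ‖(p : Cp)‖ ^ k)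
    {N : ℕ} (hN : 0 < N) {y y' : Cp} (hy0 : 0 < ‖y‖) (hy1 : ‖y‖ < 1)
    (hyN : ‖y‖ ^ N = ‖(p : Cp)‖) (hyy' : ‖y'‖ = ‖y‖) (f : K'[X]) (hf : f.natDegree < N) :
    ‖aeval y' f‖ = ‖aeval y f‖ := by
  have hy0' : 0 < ‖y'‖ := hyy' ▸ hy0
  have hy1' : ‖y'‖ < 1 := hyy' ▸ hy1
  have hyN' : ‖y'‖ ^ N = ‖(p : Cp)‖ := hyy' ▸ hyN
  apply le_antisymm
  · obtain ⟨i, -, hi⟩ := exists_norm_aeval_eq p hK hN hy0' hy1' hyN' f hf
    rw [hi, hyy']
    exact norm_term_le_norm_aeval p hK hy0 hy1 hyN f hf i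
  · obtain ⟨i, -, hi⟩ := exists_norm_aeval_eq p hK hN hy0 hy1 hyN f hf
    rw [hi, ← hyy']
    exact norm_term_le_norm_aeval p hK hy0' hy1' hyN' f hf i

omit [Field L] [Algebra K' L] [Algebra L Cp] [IsScalarTower K' L Cp] in
theorem norm_coeff_le_one_of_norm_aeval_le_one
    (hK : ∀ a : K', a ≠ 0 → ∃ k : ℤ, ‖algebraMap K' Cp a‖ = ‖(p : Cp)‖ ^ k)
    (hp0 : 0 < ‖(p : Cp)‖) (hp1 : ‖(p : Cp)‖ < 1)
    {N : ℕ} {y : Cp} (hy0 : 0 < ‖y‖) (hy1 : ‖y‖ < 1) (hyN : ‖y‖ ^ N = ‖(p : Cp)‖)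
    (f : K'[X]) (hf : f.natDegree < N) (hle : ‖aeval y f‖ ≤ 1) (i : ℕ) :
    ‖algebraMap K' Cp (f.coeff i)‖ ≤ 1 := by
  by_cases hi : i < N
  swap
  · rw [coeff_eq_zero_of_natDegree_lt (lt_of_lt_of_le hf (not_lt.1 hi)), map_zero, norm_zero]
    exact zero_le_one
  by_cases hc : f.coeff i = 0
  · rw [hc, map_zero, norm_zero]; exact zero_le_one
  obtain ⟨k, hk⟩ := hK _ hc
  have h1 := (norm_term_le_norm_aeval p hK hy0 hy1 hyN f hf i).trans hle
  rw [hk] at h1 ⊢
  by_contra hgt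
  push Not at hgt
  have hkneg : k < 0 := by
    by_contra hk0
    push Not at hk0
    exact absurd (zpow_le_one₀ hp0 hp1.le hk0) (not_le.2 hgt)
  have h2 : ‖(p : Cp)‖ ^ (-1 : ℤ) ≤ ‖(p : Cp)‖ ^ k :=
    zpow_le_zpow_right_of_le_one₀ hp0 hp1.le (by omega)
  have h3 : ‖y‖ ^ N < ‖y‖ ^ i := pow_lt_pow_right_of_lt_one₀ hy0 hy1 hi
  have h4 : 1 < ‖(p : Cp)‖ ^ (-1 : ℤ) * ‖y‖ ^ i := by
    rw [zpow_neg_one, ← hyN, inv_mul_eq_div, one_lt_div (pow_pos hy0 N)]
    exact h3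
  have h5 : ‖(p : Cp)‖ ^ (-1 : ℤ) * ‖y‖ ^ i ≤ ‖(p : Cp)‖ ^ k * ‖y‖ ^ i :=
    mul_le_mul_of_nonneg_right h2 (pow_nonneg hy0.le i)
  linarith

omit [Field L] [Algebra K' L] [Algebra L Cp] [IsScalarTower K' L Cp] in
theorem exists_zpow_norm_aeval
    (hK : ∀ a : K', a ≠ 0 → ∃ k : ℤ, ‖algebraMap K' Cp a‖ = ‖(p : Cp)‖ ^ k)
    {N : ℕ} (hN : 0 < N) {y : Cp} (hy0 : 0 < ‖y‖) (hy1 : ‖y‖ < 1)
    (hyN : ‖y‖ ^ N = ‖(p : Cp)‖) (f : K'[X]) (hf : f.natDegree < N) (hne : aeval y f ≠ 0) :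
    ∃ m : ℤ, ‖aeval y f‖ = ‖y‖ ^ m := by
  obtain ⟨i, -, hi⟩ := exists_norm_aeval_eq p hK hN hy0 hy1 hyN f hf
  have hc : f.coeff i ≠ 0 := by
    intro h
    rw [h, map_zero, norm_zero, zero_mul] at hi
    exact hne (norm_eq_zero.1 hi)
  obtain ⟨k, hk⟩ := hK _ hc
  refine ⟨(N : ℤ) * k + i, ?_⟩
  rw [hi, hk, ← hyN, zpow_add₀ hy0.ne', zpow_mul, zpow_natCast, zpow_natCast]

end Transfer

section GalProd

variable {K L : Type*} [Field K] [Field L] [Algebra K L] [FiniteDimensional K L] [IsGalois K L]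

/-- The minimal polynomial of a generator `π` of a Galois extension is the product of the
`X - σ π`. -/
theorem minpoly_map_eq_prod (π : L) (hgen : ∀ σ : L ≃ₐ[K] L, σ π = π → σ = 1) :
    (minpoly K π).map (algebraMap K L) = ∏ σ : L ≃ₐ[K] L, (X - C (σ π)) := by
  classical
  have hint : IsIntegral K π := Algebra.IsIntegral.isIntegral π
  have hsplit : ((minpoly K π).map (algebraMap K L)).Splits := Normal.splits inferInstance π
  have hsep : (minpoly K π).Separable := Algebra.IsSeparable.isSeparable K π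
  have hnodup : ((minpoly K π).aroots L).Nodup :=
    (nodup_aroots_iff_of_splits (minpoly.ne_zero hint) hsplit).2 hsep
  have hinj : Function.Injective (fun σ : L ≃ₐ[K] L => σ π) := by
    intro σ τ h
    have h1 : (τ⁻¹ * σ) π = π := by
      change τ⁻¹ (σ π) = π
      rw [show σ π = τ π from h]
      exact τ.symm_apply_apply π
    have h2 := hgen _ h1
    have h3 := congrArg (fun x => τ * x) h2
    simpa [mul_assoc] using h3
  have hroots : (minpoly K π).aroots L =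
      (Finset.univ : Finset (L ≃ₐ[K] L)).val.map (fun σ => σ π) := by
    refine Multiset.Nodup.ext hnodup ((Multiset.nodup_map_iff_of_injective hinj).2
      Finset.univ.nodup) |>.2 ?_
    intro a
    rw [← isConjRoot_iff_mem_minpoly_aroots hint, isConjRoot_iff_exists_algEquiv]
    constructor
    · rintro ⟨σ, hσ⟩
      refine Multiset.mem_map.2 ⟨σ⁻¹, Finset.mem_univ _, ?_⟩
      change σ.symm π = a
      rw [← hσ]
      exact σ.symm_apply_apply a
    · intro ha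
      obtain ⟨σ, -, hσ⟩ := Multiset.mem_map.1 ha
      refine ⟨σ⁻¹, ?_⟩
      change σ.symm a = π
      rw [← hσ]
      exact σ.symm_apply_apply π
  have h1 := hsplit.eq_prod_roots_of_monic ((minpoly.monic hint).map _)
  rw [h1]
  change (((minpoly K π).aroots L).map (X - C ·)).prod = _
  rw [hroots, Multiset.map_map]
  rfl

/-- The minimal polynomial of a generator `π` of a Galois extension, evaluated at `w`, is the
product of the `w - σ π`. -/
theorem aeval_minpoly_eq_prod (π : L) (hgen : ∀ σ : L ≃ₐ[K] L, σ π = π → σ = 1) (w : L) :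
    aeval w (minpoly K π) = ∏ σ : L ≃ₐ[K] L, (w - σ π) := by
  rw [← eval_map_algebraMap, minpoly_map_eq_prod π hgen, eval_prod]
  simp

end GalProd

section KR

variable {K L : Type*} [Field K] [NormedField L] [IsUltrametricDist L] [Algebra K L]
  [FiniteDimensional K L] [IsGalois K L]

open Classical in
/-- **Weak converse Krasner.**  `L/K` finite Galois, the norm of `L` is ultrametric,
Galois-invariant and has value group `‖π‖ ^ ℤ`; `π` generates `L/K`; `σ₁ ≠ 1` minimises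
`‖σ π - π‖`.  Then `‖P(w)‖`, `P = minpoly K π`, never takes the value
`‖σ₁ π - π‖ * ∏_{σ ≠ 1} ‖σ π - π‖ / ‖π‖` for `w ∈ L`. -/
theorem norm_aeval_minpoly_ne
    (hinv : ∀ (σ : L ≃ₐ[K] L) (x : L), ‖σ x‖ = ‖x‖)
    (π : L) (hπ0 : π ≠ 0) (hπ1 : ‖π‖ < 1)
    (hval : ∀ x : L, x ≠ 0 → ∃ k : ℤ, ‖x‖ = ‖π‖ ^ k)
    (hgen : ∀ σ : L ≃ₐ[K] L, σ π = π → σ = 1)
    (σ₁ : L ≃ₐ[K] L) (hσ₁ : σ₁ ≠ 1)
    (hmin : ∀ σ : L ≃ₐ[K] L, σ ≠ 1 → ‖σ₁ π - π‖ ≤ ‖σ π - π‖)
    (w : L) :
    ‖aeval w (minpoly K π)‖ ≠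
      ‖σ₁ π - π‖ * (∏ σ ∈ (Finset.univ : Finset (L ≃ₐ[K] L)).erase 1, ‖σ π - π‖) / ‖π‖ := by
  set d : (L ≃ₐ[K] L) → ℝ := fun σ => ‖σ π - π‖ with hd
  have hdpos : ∀ σ, σ ≠ 1 → 0 < d σ := fun σ hσ =>
    norm_pos_iff.2 (sub_ne_zero.2 (fun h => hσ (hgen σ h)))
  have hπpos : 0 < ‖π‖ := norm_pos_iff.2 hπ0
  rw [aeval_minpoly_eq_prod π hgen w, norm_prod]
  obtain ⟨σ₀, -, hσ₀⟩ := Finset.exists_min_image Finset.univ
    (fun σ : L ≃ₐ[K] L => ‖w - σ π‖) Finset.univ_nonempty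
  set r := ‖w - σ₀ π‖ with hr
  have hkey : ∀ σ : L ≃ₐ[K] L, ‖w - σ π‖ = max r (d (σ₀⁻¹ * σ)) := by
    intro σ
    have h1 : ‖σ₀ π - σ π‖ = d (σ₀⁻¹ * σ) := by
      have e : (σ₀⁻¹ * σ) π - π = σ₀⁻¹ (σ π - σ₀ π) := by
        rw [map_sub]
        change σ₀⁻¹ (σ π) - π = σ₀⁻¹ (σ π) - σ₀.symm (σ₀ π)
        rw [σ₀.symm_apply_apply]
      change ‖σ₀ π - σ π‖ = ‖(σ₀⁻¹ * σ) π - π‖
      rw [e, hinv, norm_sub_rev]
    have h2 : w - σ π = (w - σ₀ π) + (σ₀ π - σ π) := by ring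
    rcases eq_or_ne r ‖σ₀ π - σ π‖ with h | h
    · apply le_antisymm
      · rw [h2, ← h1]
        exact IsUltrametricDist.norm_add_le_max _ _
      · rw [← h1, ← h, max_self]
        exact hσ₀ σ (Finset.mem_univ _)
    · rw [h2, IsUltrametricDist.norm_add_eq_max_of_norm_ne_norm h, h1]
  have hprod : ∏ σ : L ≃ₐ[K] L, ‖w - σ π‖
      = r * ∏ τ ∈ Finset.univ.erase (1 : L ≃ₐ[K] L), max r (d τ) := by
    calc ∏ σ : L ≃ₐ[K] L, ‖w - σ π‖ = ∏ σ : L ≃ₐ[K] L, max r (d (σ₀⁻¹ * σ)) :=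
          Finset.prod_congr rfl (fun σ _ => hkey σ)
      _ = ∏ τ : L ≃ₐ[K] L, max r (d τ) :=
          Fintype.prod_equiv (Equiv.mulLeft σ₀⁻¹) _ _ (fun σ => rfl)
      _ = max r (d 1) * ∏ τ ∈ Finset.univ.erase (1 : L ≃ₐ[K] L), max r (d τ) :=
          (Finset.mul_prod_erase _ _ (Finset.mem_univ _)).symm
      _ = r * ∏ τ ∈ Finset.univ.erase (1 : L ≃ₐ[K] L), max r (d τ) := by
          have : d 1 = 0 := by simp [hd]
          rw [this, max_eq_left (norm_nonneg _)]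
  rw [hprod]
  set D := ∏ σ ∈ Finset.univ.erase (1 : L ≃ₐ[K] L), d σ with hD
  have hDpos : 0 < D := Finset.prod_pos (fun σ hσ => hdpos σ (Finset.ne_of_mem_erase hσ))
  have hd1pos : 0 < d σ₁ := hdpos σ₁ hσ₁
  change r * ∏ τ ∈ Finset.univ.erase (1 : L ≃ₐ[K] L), max r (d τ) ≠ d σ₁ * D / ‖π‖
  rcases le_or_gt r (d σ₁) with hle | hgt
  · have h1 : ∏ τ ∈ Finset.univ.erase (1 : L ≃ₐ[K] L), max r (d τ) = D :=
      Finset.prod_congr rfl (fun τ hτ =>
        max_eq_right (hle.trans (hmin τ (Finset.ne_of_mem_erase hτ))))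
    rw [h1]
    have h2 : r * D ≤ d σ₁ * D := mul_le_mul_of_nonneg_right hle hDpos.le
    have h3 : d σ₁ * D < d σ₁ * D / ‖π‖ := by
      rw [lt_div_iff₀ hπpos]
      have : 0 < d σ₁ * D := mul_pos hd1pos hDpos
      nlinarith
    exact (lt_of_le_of_lt h2 h3).ne
  · have hw : w - σ₀ π ≠ 0 := by
      intro h
      rw [hr, h, norm_zero] at hgt
      exact absurd hgt (not_lt.2 hd1pos.le)
    obtain ⟨k, hk⟩ := hval _ hw
    obtain ⟨l, hl⟩ := hval (σ₁ π - π) (sub_ne_zero.2 (fun h => hσ₁ (hgen σ₁ h)))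
    have hkl : k < l := by
      by_contra hcon
      push Not at hcon
      have : ‖π‖ ^ k ≤ ‖π‖ ^ l := zpow_le_zpow_right_of_le_one₀ hπpos hπ1.le hcon
      rw [← hk, ← hl] at this
      exact absurd hgt (not_lt.2 this)
    have hr_ge : d σ₁ / ‖π‖ ≤ r := by
      rw [div_le_iff₀ hπpos]
      change ‖σ₁ π - π‖ ≤ ‖w - σ₀ π‖ * ‖π‖
      rw [hl, hk, ← zpow_add_one₀ hπpos.ne']
      exact zpow_le_zpow_right_of_le_one₀ hπpos hπ1.le (by omega)
    have hmem : σ₁ ∈ Finset.univ.erase (1 : L ≃ₐ[K] L) :=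
      Finset.mem_erase.2 ⟨hσ₁, Finset.mem_univ _⟩
    set D' := ∏ τ ∈ (Finset.univ.erase (1 : L ≃ₐ[K] L)).erase σ₁, d τ with hD'
    have hD'pos : 0 < D' := Finset.prod_pos (fun σ hσ =>
      hdpos σ (Finset.ne_of_mem_erase (Finset.mem_of_mem_erase hσ)))
    have h1 : r * D' ≤ ∏ τ ∈ Finset.univ.erase (1 : L ≃ₐ[K] L), max r (d τ) := by
      rw [← Finset.mul_prod_erase _ _ hmem]
      apply mul_le_mul (le_max_left _ _) ?_ hD'pos.le
        (le_trans (norm_nonneg _) (le_max_left _ _))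
      exact Finset.prod_le_prod (fun τ _ => norm_nonneg _) (fun τ _ => le_max_right _ _)
    have h2 : D = d σ₁ * D' := (Finset.mul_prod_erase _ _ hmem).symm
    have hrpos : 0 < r := lt_of_lt_of_le (div_pos hd1pos hπpos) hr_ge
    have h3 : d σ₁ * D / ‖π‖ < r * (r * D') := by
      rw [h2]
      have h5 : d σ₁ * (d σ₁ * D') / ‖π‖ < (d σ₁ / ‖π‖) * ((d σ₁ / ‖π‖) * D') := by
        have e : (d σ₁ / ‖π‖) * ((d σ₁ / ‖π‖) * D') = (d σ₁ * (d σ₁ * D') / ‖π‖) / ‖π‖ := by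
          field_simp
        rw [e, lt_div_iff₀ hπpos]
        have : 0 < d σ₁ * (d σ₁ * D') / ‖π‖ := by positivity
        nlinarith
      refine lt_of_lt_of_le h5 ?_
      have h6 : (d σ₁ / ‖π‖) * D' ≤ r * D' := mul_le_mul_of_nonneg_right hr_ge hD'pos.le
      exact mul_le_mul hr_ge h6 (by positivity) hrpos.le
    have h4 : r * (r * D') ≤ r * ∏ τ ∈ Finset.univ.erase (1 : L ≃ₐ[K] L), max r (d τ) :=
      mul_le_mul_of_nonneg_left h1 (norm_nonneg _)
    exact (lt_of_lt_of_le h3 h4).ne'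

end KR

section TotRam

variable (p : ℕ) (K' L Cp : Type*) [Field K'] [Field L] [NormedField Cp] [IsUltrametricDist Cp]
  [Algebra K' L] [Algebra K' Cp] [Algebra L Cp] [IsScalarTower K' L Cp]
  [FiniteDimensional K' L] [IsGalois K' L]

/-- Standing hypotheses of the converse-Krasner argument: `L/K'` is finite Galois inside the
ultrametric field `Cp`, the value group of `K'` is `‖p‖ ^ ℤ`, the norm is Galois-invariant on
`L`, and `π` generates `L/K'` with `‖π‖ ^ [L:K'] = ‖p‖` (`L/K'` totally ramified, `π` a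
uniformiser, `K'/ℚ_p` unramified). -/
structure TotRam (π : L) : Prop where
  hp0 : 0 < ‖(p : Cp)‖
  hp1 : ‖(p : Cp)‖ < 1
  hK : ∀ a : K', a ≠ 0 → ∃ k : ℤ, ‖algebraMap K' Cp a‖ = ‖(p : Cp)‖ ^ k
  hπ : ‖algebraMap L Cp π‖ ^ Module.finrank K' L = ‖(p : Cp)‖
  hinv : ∀ (σ : L ≃ₐ[K'] L) (x : L), ‖algebraMap L Cp (σ x)‖ = ‖algebraMap L Cp x‖
  hgen : ∀ σ : L ≃ₐ[K'] L, σ π = π → σ = 1

variable {p K' L Cp}

namespace TotRam

variable {π : L}

theorem norm_pi_pos (h : TotRam p K' L Cp π) : 0 < ‖algebraMap L Cp π‖ := by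
  by_contra hcon
  have h0 : ‖algebraMap L Cp π‖ = 0 := le_antisymm (not_lt.1 hcon) (norm_nonneg _)
  have := h.hπ
  rw [h0, zero_pow (Module.finrank_pos (R := K') (M := L)).ne'] at this
  exact absurd h.hp0 (by rw [← this]; exact lt_irrefl _)

theorem norm_pi_lt_one (h : TotRam p K' L Cp π) : ‖algebraMap L Cp π‖ < 1 := by
  by_contra hcon
  have h1 : 1 ≤ ‖algebraMap L Cp π‖ := not_lt.1 hcon
  have := one_le_pow₀ (n := Module.finrank K' L) h1
  rw [h.hπ] at this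
  exact absurd h.hp1 (not_lt.2 this)

theorem pi_ne_zero (h : TotRam p K' L Cp π) : π ≠ 0 := by
  intro h0
  have := h.norm_pi_pos
  rw [h0, map_zero, norm_zero] at this
  exact lt_irrefl _ this

open IntermediateField in
theorem adjoin_eq_top (h : TotRam p K' L Cp π) : K'⟮π⟯ = ⊤ := by
  have h1 : K'⟮π⟯.fixingSubgroup = ⊥ := by
    rw [eq_bot_iff]
    intro σ hσ
    rw [Subgroup.mem_bot]
    apply h.hgen
    have := (IntermediateField.mem_fixingSubgroup_iff K'⟮π⟯ σ).1 hσ π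
      (IntermediateField.mem_adjoin_simple_self K' π)
    exact this
  have h2 := IsGalois.fixedField_fixingSubgroup K'⟮π⟯
  rw [h1, IntermediateField.fixedField_bot] at h2
  exact h2.symm

/-- The power basis of `L/K'` given by the uniformiser. -/
noncomputable def pb (h : TotRam p K' L Cp π) : PowerBasis K' L :=
  (IntermediateField.adjoin.powerBasis (Algebra.IsIntegral.isIntegral (R := K') π)).map
    ((IntermediateField.equivOfEq h.adjoin_eq_top).trans IntermediateField.topEquiv)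

theorem pb_gen (h : TotRam p K' L Cp π) : h.pb.gen = π := by
  simp [pb, IntermediateField.adjoin.powerBasis_gen]

theorem pb_dim (h : TotRam p K' L Cp π) : h.pb.dim = Module.finrank K' L := h.pb.finrank.symm

end TotRam

end TotRam

section TotRam2

variable {p : ℕ} {K' L Cp : Type*} [Field K'] [Field L] [NormedField Cp] [IsUltrametricDist Cp]
  [Algebra K' L] [Algebra K' Cp] [Algebra L Cp] [IsScalarTower K' L Cp]
  [FiniteDimensional K' L] [IsGalois K' L] {π : L}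

namespace TotRam

theorem pow_dim (h : TotRam p K' L Cp π) : ‖algebraMap L Cp π‖ ^ h.pb.dim = ‖(p : Cp)‖ := by
  rw [h.pb_dim]; exact h.hπ

theorem algebraMap_eq_aeval_rep (h : TotRam p K' L Cp π) (a : L) :
    algebraMap L Cp a = aeval (algebraMap L Cp π) (rep h.pb a) := by
  rw [aeval_algebraMap_apply]
  conv_lhs => rw [← aeval_rep h.pb a, h.pb_gen]

/-- The value group of `L` is `‖π‖ ^ ℤ`. -/
theorem exists_zpow (h : TotRam p K' L Cp π) (x : L) (hx : x ≠ 0) :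
    ∃ k : ℤ, ‖algebraMap L Cp x‖ = ‖algebraMap L Cp π‖ ^ k := by
  rw [h.algebraMap_eq_aeval_rep x]
  refine exists_zpow_norm_aeval p h.hK h.pb.dim_pos h.norm_pi_pos h.norm_pi_lt_one h.pow_dim _
    (natDegree_rep_lt h.pb x) ?_
  rw [← h.algebraMap_eq_aeval_rep x]
  exact (map_ne_zero (algebraMap L Cp)).2 hx

/-- The minimal polynomial of `π`, mapped to `Cp`, is the product of the `X - σ π`. -/
theorem minpoly_map_eq (h : TotRam p K' L Cp π) :
    (minpoly K' π).map (algebraMap K' Cp) = ∏ σ : L ≃ₐ[K'] L, (X - C (algebraMap L Cp (σ π))) := by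
  have h1 := congrArg (Polynomial.map (algebraMap L Cp))
    (minpoly_map_eq_prod (K := K') π h.hgen)
  rw [Polynomial.map_map, ← IsScalarTower.algebraMap_eq, Polynomial.map_prod] at h1
  rw [h1]
  refine Finset.prod_congr rfl (fun σ _ => ?_)
  rw [Polynomial.map_sub, map_X, map_C]

theorem intC_minpoly (h : TotRam p K' L Cp π) : IntC ((minpoly K' π).map (algebraMap K' Cp)) := by
  rw [h.minpoly_map_eq]
  refine intC_prod _ _ (fun σ _ => intC_X_sub_C ?_)
  rw [h.hinv]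
  exact h.norm_pi_lt_one.le

theorem aeval_minpoly_eq (h : TotRam p K' L Cp π) (w : Cp) :
    aeval w (minpoly K' π) = ∏ σ : L ≃ₐ[K'] L, (w - algebraMap L Cp (σ π)) := by
  rw [← eval_map_algebraMap, h.minpoly_map_eq, eval_prod]
  simp

theorem intC_rep (h : TotRam p K' L Cp π) {a : L} (ha : ‖algebraMap L Cp a‖ ≤ 1) :
    IntC ((rep h.pb a).map (algebraMap K' Cp)) := by
  intro i
  rw [coeff_map]
  refine norm_coeff_le_one_of_norm_aeval_le_one p h.hK h.hp0 h.hp1 h.norm_pi_pos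
    h.norm_pi_lt_one h.pow_dim _ (natDegree_rep_lt h.pb a) ?_ i
  rw [← h.algebraMap_eq_aeval_rep a]
  exact ha

/-- The transfer map preserves norms when `‖w‖ = ‖π‖`. -/
theorem norm_transfer (h : TotRam p K' L Cp π) {w : Cp} (hw : ‖w‖ = ‖algebraMap L Cp π‖)
    (a : L) : ‖transfer h.pb w a‖ = ‖algebraMap L Cp a‖ := by
  rw [transfer_apply, h.algebraMap_eq_aeval_rep a]
  exact norm_aeval_eq_of_norm_eq p h.hK h.pb.dim_pos h.norm_pi_pos h.norm_pi_lt_one h.pow_dim hw _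
    (natDegree_rep_lt h.pb a)

/-- The transfer map is multiplicative modulo `P(w)` on integral elements. -/
theorem norm_transfer_mul_le (h : TotRam p K' L Cp π) {w : Cp} (hw : ‖w‖ ≤ 1) {a b : L}
    (ha : ‖algebraMap L Cp a‖ ≤ 1) (hb : ‖algebraMap L Cp b‖ ≤ 1) :
    ‖transfer h.pb w a * transfer h.pb w b - transfer h.pb w (a * b)‖
      ≤ ‖aeval w (minpoly K' π)‖ := by
  rw [transfer_mul, norm_mul, h.pb_gen]
  have hq : IntC (((rep h.pb a * rep h.pb b) /ₘ minpoly K' π).map (algebraMap K' Cp)) := by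
    rw [Polynomial.map_divByMonic _ (minpoly.monic (Algebra.IsIntegral.isIntegral π)),
      Polynomial.map_mul]
    exact IntC.divByMonic ((h.intC_rep ha).mul (h.intC_rep hb)) h.intC_minpoly
      ((minpoly.monic (Algebra.IsIntegral.isIntegral π)).map _)
  have h1 : ‖aeval w ((rep h.pb a * rep h.pb b) /ₘ minpoly K' π)‖ ≤ 1 := by
    rw [← eval_map_algebraMap]
    exact hq.norm_eval_le hw
  exact mul_le_of_le_one_right (norm_nonneg _) h1

open Classical in
/-- Converse Krasner for a totally ramified Galois extension. -/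
theorem norm_aeval_ne (h : TotRam p K' L Cp π) (σ₁ : L ≃ₐ[K'] L) (hσ₁ : σ₁ ≠ 1)
    (hmin : ∀ σ : L ≃ₐ[K'] L, σ ≠ 1 →
      ‖algebraMap L Cp (σ₁ π - π)‖ ≤ ‖algebraMap L Cp (σ π - π)‖) (w : L) :
    ‖algebraMap L Cp (aeval w (minpoly K' π))‖ ≠
      ‖algebraMap L Cp (σ₁ π - π)‖ *
        (∏ σ ∈ (Finset.univ : Finset (L ≃ₐ[K'] L)).erase 1, ‖algebraMap L Cp (σ π - π)‖)
          / ‖algebraMap L Cp π‖ := by
  let _ : NormedField L := NormedField.induced L Cp (algebraMap L Cp) (algebraMap L Cp).injective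
  have : IsUltrametricDist L := ⟨fun x y z => by
    rw [dist_eq_norm, dist_eq_norm, dist_eq_norm]
    change ‖algebraMap L Cp (x - z)‖ ≤ max ‖algebraMap L Cp (x - y)‖ ‖algebraMap L Cp (y - z)‖
    have e : x - z = (x - y) + (y - z) := by ring
    rw [e, map_add]
    exact IsUltrametricDist.norm_add_le_max _ _⟩
  exact norm_aeval_minpoly_ne (K := K') (L := L) h.hinv π h.pi_ne_zero h.norm_pi_lt_one
    h.exists_zpow h.hgen σ₁ hσ₁ hmin w

end TotRam

end TotRam2

section RootNorm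

variable {p : ℕ} {K' L Cp : Type*} [Field K'] [Field L] [NormedField Cp] [IsUltrametricDist Cp]
  [Algebra K' L] [Algebra K' Cp] [Algebra L Cp] [IsScalarTower K' L Cp]
  [FiniteDimensional K' L] [IsGalois K' L] {π : L}

namespace TotRam

theorem card_aut (_h : TotRam p K' L Cp π) :
    (Finset.univ : Finset (L ≃ₐ[K'] L)).card = Module.finrank K' L := by
  rw [Finset.card_univ, ← Nat.card_eq_fintype_card]
  exact IsGalois.card_aut_eq_finrank K' L

/-- A root `w` of `P + p ^ a * X ^ j` (with `a ≥ 1`, `j < N` and `(a, j) ≠ (1, 0)`) has the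
norm of the uniformiser. -/
theorem norm_root_eq (h : TotRam p K' L Cp π) {w : Cp} {a j : ℕ} (ha : 1 ≤ a)
    (hj : j < Module.finrank K' L) (haj : 2 ≤ a ∨ 1 ≤ j)
    (hw : aeval w (minpoly K' π) = -((p : Cp) ^ a * w ^ j)) :
    ‖w‖ = ‖algebraMap L Cp π‖ := by
  have hy0 := h.norm_pi_pos
  have hy1 := h.norm_pi_lt_one
  have hyN := h.hπ
  have hnorm : ‖aeval w (minpoly K' π)‖ = ‖(p : Cp)‖ ^ a * ‖w‖ ^ j := by
    rw [hw, norm_neg, norm_mul, norm_pow, norm_pow]
  have hpa : ‖(p : Cp)‖ ^ a ≤ ‖(p : Cp)‖ := by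
    calc ‖(p : Cp)‖ ^ a ≤ ‖(p : Cp)‖ ^ 1 := pow_le_pow_of_le_one h.hp0.le h.hp1.le ha
      _ = ‖(p : Cp)‖ := pow_one _
  rcases lt_trichotomy ‖w‖ ‖algebraMap L Cp π‖ with hlt | heq | hgt
  · -- ‖w‖ < ‖π‖ : every factor has norm ‖π‖
    exfalso
    have hfac : ∀ σ : L ≃ₐ[K'] L, ‖w - algebraMap L Cp (σ π)‖ = ‖algebraMap L Cp π‖ := by
      intro σ
      have hne : ‖w‖ ≠ ‖-algebraMap L Cp (σ π)‖ := by
        rw [norm_neg, h.hinv]; exact hlt.ne
      rw [sub_eq_add_neg, IsUltrametricDist.norm_add_eq_max_of_norm_ne_norm hne, norm_neg,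
        h.hinv, max_eq_right hlt.le]
    have hP : ‖aeval w (minpoly K' π)‖ = ‖(p : Cp)‖ := by
      rw [h.aeval_minpoly_eq, norm_prod, Finset.prod_congr rfl (fun σ _ => hfac σ),
        Finset.prod_const, h.card_aut, hyN]
    rw [hP] at hnorm
    have hw1 : ‖w‖ < 1 := hlt.trans hy1
    rcases haj with ha2 | hj1
    · have h2 : ‖(p : Cp)‖ ^ a ≤ ‖(p : Cp)‖ ^ 2 := pow_le_pow_of_le_one h.hp0.le h.hp1.le ha2
      have h3 : ‖(p : Cp)‖ ^ 2 < ‖(p : Cp)‖ := by
        have := h.hp0; have := h.hp1; nlinarith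
      have h4 : ‖w‖ ^ j ≤ 1 := pow_le_one₀ (norm_nonneg _) hw1.le
      have h5 : ‖(p : Cp)‖ ^ a * ‖w‖ ^ j ≤ ‖(p : Cp)‖ ^ a :=
        mul_le_of_le_one_right (pow_nonneg h.hp0.le _) h4
      linarith
    · have h4 : ‖w‖ ^ j < 1 := pow_lt_one₀ (norm_nonneg _) hw1 (by omega)
      have h5 : ‖(p : Cp)‖ ^ a * ‖w‖ ^ j < ‖(p : Cp)‖ ^ a * 1 :=
        mul_lt_mul_of_pos_left h4 (pow_pos h.hp0 _)
      linarith
  · exact heq
  · -- ‖w‖ > ‖π‖ : every factor has norm ‖w‖
    exfalso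
    have hfac : ∀ σ : L ≃ₐ[K'] L, ‖w - algebraMap L Cp (σ π)‖ = ‖w‖ := by
      intro σ
      have hne : ‖w‖ ≠ ‖-algebraMap L Cp (σ π)‖ := by
        rw [norm_neg, h.hinv]; exact hgt.ne'
      rw [sub_eq_add_neg, IsUltrametricDist.norm_add_eq_max_of_norm_ne_norm hne, norm_neg,
        h.hinv, max_eq_left hgt.le]
    have hP : ‖aeval w (minpoly K' π)‖ = ‖w‖ ^ Module.finrank K' L := by
      rw [h.aeval_minpoly_eq, norm_prod, Finset.prod_congr rfl (fun σ _ => hfac σ),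
        Finset.prod_const, h.card_aut]
    rw [hP] at hnorm
    have hw0 : 0 < ‖w‖ := hy0.trans hgt
    have hN : ‖(p : Cp)‖ < ‖w‖ ^ Module.finrank K' L := by
      rw [← hyN]
      exact pow_lt_pow_left₀ hgt hy0.le (Module.finrank_pos (R := K') (M := L)).ne'
    by_cases hw1 : ‖w‖ ≤ 1
    · have h4 : ‖w‖ ^ j ≤ 1 := pow_le_one₀ hw0.le hw1
      have h5 : ‖(p : Cp)‖ ^ a * ‖w‖ ^ j ≤ ‖(p : Cp)‖ ^ a :=
        mul_le_of_le_one_right (pow_nonneg h.hp0.le _) h4
      linarith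
    · push Not at hw1
      have h4 : ‖w‖ ^ j < ‖w‖ ^ Module.finrank K' L := pow_lt_pow_right₀ hw1 hj
      have h5 : ‖(p : Cp)‖ ^ a * ‖w‖ ^ j ≤ 1 * ‖w‖ ^ j :=
        mul_le_mul_of_nonneg_right (hpa.trans h.hp1.le) (pow_nonneg hw0.le _)
      linarith

end TotRam

end RootNorm

section Approx

variable {p : ℕ} {R₀ H K' L Cp : Type*} [CommRing R₀] [CommRing H] [Bialgebra R₀ H]
  [Field K'] [Field L] [NormedField Cp] [IsUltrametricDist Cp]
  [Algebra K' L] [Algebra K' Cp] [Algebra L Cp] [IsScalarTower K' L Cp]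
  [Algebra R₀ K'] [Algebra R₀ L] [Algebra R₀ Cp] [IsScalarTower R₀ K' L] [IsScalarTower R₀ K' Cp]
  [IsScalarTower R₀ L Cp]
  [FiniteDimensional K' L] [IsGalois K' L] {π : L}

open WithConv Coalgebra TensorProduct

/-- The approximate point `T ∘ x` attached to a point `x : H → L` and an element `w`. -/
noncomputable def approxPt (h : TotRam p K' L Cp π) (w : Cp) (x : H →ₐ[R₀] L) : H →ₗ[R₀] Cp :=
  ((transfer h.pb w).restrictScalars R₀) ∘ₗ x.toLinearMap

theorem approxPt_apply (h : TotRam p K' L Cp π) (w : Cp) (x : H →ₐ[R₀] L) (a : H) :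
    approxPt h w x a = transfer h.pb w (x a) := rfl

theorem transfer_algebraMap (h : TotRam p K' L Cp π) (w : Cp) (r : R₀) :
    transfer h.pb w (algebraMap R₀ L r) = algebraMap R₀ Cp r := by
  rw [IsScalarTower.algebraMap_apply R₀ K' L, Algebra.algebraMap_eq_smul_one, map_smul,
    transfer_one, ← Algebra.algebraMap_eq_smul_one, ← IsScalarTower.algebraMap_apply]

theorem approxPt_one (h : TotRam p K' L Cp π) (w : Cp) (x : H →ₐ[R₀] L) :
    approxPt h w x 1 = 1 := by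
  rw [approxPt_apply, map_one, transfer_one]

theorem norm_approxPt (h : TotRam p K' L Cp π) {w : Cp} (hw : ‖w‖ = ‖algebraMap L Cp π‖)
    (x : H →ₐ[R₀] L) (a : H) : ‖approxPt h w x a‖ = ‖algebraMap L Cp (x a)‖ := by
  rw [approxPt_apply, h.norm_transfer hw]

theorem norm_approxPt_mul_le (h : TotRam p K' L Cp π) {w : Cp}
    (hw : ‖w‖ = ‖algebraMap L Cp π‖)
    (hint : ∀ (y : H →ₐ[R₀] L) (a : H), ‖algebraMap L Cp (y a)‖ ≤ 1)
    (x : H →ₐ[R₀] L) (a b : H) :
    ‖approxPt h w x (a * b) - approxPt h w x a * approxPt h w x b‖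
      ≤ ‖aeval w (minpoly K' π)‖ := by
  rw [approxPt_apply, approxPt_apply, approxPt_apply, map_mul, norm_sub_rev]
  exact h.norm_transfer_mul_le (hw.le.trans h.norm_pi_lt_one.le) (hint x a) (hint x b)

/-- Convolution powers of the approximate point approximate the transfer of the convolution
powers of the point. -/
theorem norm_convPow_approxPt_sub_le (h : TotRam p K' L Cp π) {w : Cp}
    (hw : ‖w‖ = ‖algebraMap L Cp π‖)
    (hint : ∀ (y : H →ₐ[R₀] L) (a : H), ‖algebraMap L Cp (y a)‖ ≤ 1)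
    (x : H →ₐ[R₀] L) (n : ℕ) (a : H) :
    ‖(toConv (approxPt h w x) ^ n).ofConv a
        - transfer h.pb w ((toConv x ^ n : WithConv (H →ₐ[R₀] L)).ofConv a)‖
      ≤ ‖aeval w (minpoly K' π)‖ := by
  have hw1 : ‖w‖ ≤ 1 := hw.le.trans h.norm_pi_lt_one.le
  induction n generalizing a with
  | zero =>
    have e1 : (toConv (approxPt h w x) ^ 0).ofConv a = algebraMap R₀ Cp (counit a) := by
      rw [pow_zero]; rfl
    have e2 : ((toConv x ^ 0 : WithConv (H →ₐ[R₀] L)).ofConv a) = algebraMap R₀ L (counit a) := by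
      rw [pow_zero]; rfl
    rw [e1, e2, transfer_algebraMap, sub_self, norm_zero]
    exact norm_nonneg _
  | succ n ih =>
    set F : H →ₗ[R₀] Cp := (toConv (approxPt h w x) ^ n).ofConv with hF
    set Xn : H →ₐ[R₀] L := (toConv x ^ n : WithConv (H →ₐ[R₀] L)).ofConv with hXn
    have e1 : (toConv (approxPt h w x) ^ (n + 1)).ofConv a
        = LinearMap.mul' R₀ Cp (TensorProduct.map F (approxPt h w x) (comul a)) := by
      rw [pow_succ]; rfl
    have e2 : ((toConv x ^ (n + 1) : WithConv (H →ₐ[R₀] L)).ofConv a)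
        = LinearMap.mul' R₀ L (TensorProduct.map Xn.toLinearMap x.toLinearMap (comul a)) := by
      rw [pow_succ]
      have e3 := congrArg (fun f => f.ofConv a)
        (AlgHom.toLinearMap_convMul (toConv x ^ n : WithConv (H →ₐ[R₀] L)) (toConv x))
      exact e3
    rw [e1, e2]
    generalize comul (R := R₀) a = t
    induction t using TensorProduct.induction_on with
    | zero =>
      simp only [map_zero, sub_self, norm_zero]
      exact norm_nonneg _
    | tmul u v =>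
      simp only [TensorProduct.map_tmul, LinearMap.mul'_apply, AlgHom.toLinearMap_apply]
      have e4 : F u * approxPt h w x v - transfer h.pb w (Xn u * x v)
          = (F u - transfer h.pb w (Xn u)) * approxPt h w x v
            + (transfer h.pb w (Xn u) * transfer h.pb w (x v) - transfer h.pb w (Xn u * x v)) := by
        rw [approxPt_apply]; ring
      rw [e4]
      refine (IsUltrametricDist.norm_add_le_max _ _).trans (max_le ?_ ?_)
      · rw [norm_mul]
        have h1 : ‖approxPt h w x v‖ ≤ 1 := by rw [norm_approxPt h hw]; exact hint x v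
        calc ‖F u - transfer h.pb w (Xn u)‖ * ‖approxPt h w x v‖
            ≤ ‖F u - transfer h.pb w (Xn u)‖ * 1 :=
              mul_le_mul_of_nonneg_left h1 (norm_nonneg _)
          _ = ‖F u - transfer h.pb w (Xn u)‖ := mul_one _
          _ ≤ _ := ih u
      · exact h.norm_transfer_mul_le hw1 (hint Xn u) (hint x v)
    | add t₁ t₂ h₁ h₂ =>
      simp only [map_add]
      have e5 : ∀ A₁ A₂ B₁ B₂ : Cp, A₁ + A₂ - (B₁ + B₂) = (A₁ - B₁) + (A₂ - B₂) := by
        intros; ring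
      rw [e5]
      exact (IsUltrametricDist.norm_add_le_max _ _).trans (max_le h₁ h₂)

/-- If the point `x` is killed by `p`, the approximate point is killed by `p` modulo `P(w)`. -/
theorem norm_convPow_approxPt_sub_counit_le (h : TotRam p K' L Cp π) {w : Cp}
    (hw : ‖w‖ = ‖algebraMap L Cp π‖)
    (hint : ∀ (y : H →ₐ[R₀] L) (a : H), ‖algebraMap L Cp (y a)‖ ≤ 1)
    (x : H →ₐ[R₀] L) {n : ℕ} (hx : (toConv x : WithConv (H →ₐ[R₀] L)) ^ n = 1) (a : H) :
    ‖(toConv (approxPt h w x) ^ n).ofConv a - algebraMap R₀ Cp (counit a)‖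
      ≤ ‖aeval w (minpoly K' π)‖ := by
  have h1 := norm_convPow_approxPt_sub_le h hw hint x n a
  rw [hx] at h1
  have e2 : ((1 : WithConv (H →ₐ[R₀] L)).ofConv a) = algebraMap R₀ L (counit a) := rfl
  rw [e2, transfer_algebraMap] at h1
  exact h1

end Approx

section Fontaine

open WithConv Coalgebra

/-- (L1) Rigidity: two points that are congruent modulo an ideal of valuation `> 1/(p-1)` are
equal. -/
def RigProp (p : ℕ) (R₀ H Cp : Type*) [CommRing R₀] [CommRing H] [Bialgebra R₀ H]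
    [NormedField Cp] [Algebra R₀ Cp] : Prop :=
  ∀ (x y : H →ₐ[R₀] Cp) (θ : ℝ), θ < ‖(p : Cp)‖ ^ ((1 : ℝ) / ((p : ℝ) - 1)) →
    (∀ a, ‖x a - y a‖ ≤ θ) → x = y

/-- (L2) Sharp lifting with values in `E`: a linear map `g` with values in `E` that is a point
killed by `p` modulo an ideal of valuation `> p/(p-1)` is congruent to a genuine point with
values in `E`, modulo that ideal divided by `p`. -/
def LiftProp (p : ℕ) (R₀ H Cp : Type*) [CommRing R₀] [CommRing H] [Bialgebra R₀ H]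
    [NormedField Cp] [Algebra R₀ Cp] (E : Set Cp) : Prop :=
  ∀ (g : H →ₗ[R₀] Cp) (ρ : ℝ), ρ < ‖(p : Cp)‖ ^ ((p : ℝ) / ((p : ℝ) - 1)) →
    (∀ a, g a ∈ E) → (∀ a, ‖g a‖ ≤ 1) → (∀ a b, ‖g (a * b) - g a * g b‖ ≤ ρ) → g 1 = 1 →
    (∀ a, ‖(toConv g ^ p).ofConv a - algebraMap R₀ Cp (counit a)‖ ≤ ρ) →
    ∃ χ : H →ₐ[R₀] Cp, (∀ a, χ a ∈ E) ∧ ∀ a, ‖χ a - g a‖ ≤ ρ / ‖(p : Cp)‖

variable {p : ℕ} {R₀ H K' L Cp : Type*} [CommRing R₀] [CommRing H] [Bialgebra R₀ H]
  [Field K'] [Field L] [NormedField Cp] [IsUltrametricDist Cp]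
  [Algebra K' L] [Algebra K' Cp] [Algebra L Cp] [IsScalarTower K' L Cp]
  [Algebra R₀ K'] [Algebra R₀ L] [Algebra R₀ Cp] [IsScalarTower R₀ K' L] [IsScalarTower R₀ K' Cp]
  [IsScalarTower R₀ L Cp]
  [FiniteDimensional K' L] [IsGalois K' L] {π : L}

open IntermediateField in
/-- **Fontaine's property in the form used by the bound.**  If `w` has the norm of the
uniformiser and `‖P(w)‖ < ‖p‖ ^ (p/(p-1))`, then `L` embeds in `K'(w)`; if moreover `w` is a
root of a monic polynomial of degree `[L:K']`, then `w` lies in (the image of) `L`. -/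
theorem TotRam.exists_algebraMap_eq (h : TotRam p K' L Cp π) (hp : 1 < p)
    [Finite (H →ₐ[R₀] L)]
    (hint : ∀ (x : H →ₐ[R₀] L) (a : H), ‖algebraMap L Cp (x a)‖ ≤ 1)
    (hkill : ∀ x : WithConv (H →ₐ[R₀] L), x ^ p = 1)
    (hall : ∀ y : H →ₐ[R₀] Cp, ∃ x : H →ₐ[R₀] L, y = (IsScalarTower.toAlgHom R₀ L Cp).comp x)
    (hgenL : ∀ F : IntermediateField K' L, (∀ (x : H →ₐ[R₀] L) (a : H), x a ∈ F) → F = ⊤)
    (hrig : RigProp p R₀ H Cp)
    (hlift : ∀ E : IntermediateField K' Cp, FiniteDimensional K' E →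
      LiftProp p R₀ H Cp (E : Set Cp))
    {w : Cp} (hw : ‖w‖ = ‖algebraMap L Cp π‖)
    (hρ : ‖aeval w (minpoly K' π)‖ < ‖(p : Cp)‖ ^ ((p : ℝ) / ((p : ℝ) - 1)))
    {Q : K'[X]} (hQ : Q.Monic) (hQdeg : Q.natDegree = Module.finrank K' L)
    (hQw : aeval w Q = 0) :
    ∃ wL : L, algebraMap L Cp wL = w := by
  classical
  set ρ := ‖aeval w (minpoly K' π)‖ with hρdef
  have hwint : IsIntegral K' w := ⟨Q, hQ, by rwa [← aeval_def]⟩
  let E : IntermediateField K' Cp := K'⟮w⟯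
  have hEfin : FiniteDimensional K' E := IntermediateField.adjoin.finiteDimensional hwint
  -- the approximate points take values in `E`
  have hgE : ∀ (x : H →ₐ[R₀] L) (a : H), approxPt h w x a ∈ (E : Set Cp) := by
    intro x a
    rw [approxPt_apply, transfer_apply]
    exact IntermediateField.algebra_adjoin_le_adjoin K' {w} (aeval_mem_adjoin_singleton K' w)
  -- lift them
  have hex : ∀ x : H →ₐ[R₀] L, ∃ χ : H →ₐ[R₀] Cp, (∀ a, χ a ∈ (E : Set Cp)) ∧
      ∀ a, ‖χ a - approxPt h w x a‖ ≤ ρ / ‖(p : Cp)‖ := by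
    intro x
    refine hlift E hEfin (approxPt h w x) ρ hρ (hgE x) ?_ ?_ (approxPt_one h w x) ?_
    · intro a
      rw [norm_approxPt h hw]
      exact hint x a
    · intro a b
      exact norm_approxPt_mul_le h hw hint x a b
    · intro a
      exact norm_convPow_approxPt_sub_counit_le h hw hint x (hkill (toConv x)) a
  choose χ hχE hχ using hex
  -- rigidity threshold
  have hp1 : (0 : ℝ) < (p : ℝ) - 1 := by
    have : (1 : ℝ) < p := by exact_mod_cast hp
    linarith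
  have hθ : ρ / ‖(p : Cp)‖ < ‖(p : Cp)‖ ^ ((1 : ℝ) / ((p : ℝ) - 1)) := by
    rw [div_lt_iff₀ h.hp0]
    have e : (p : ℝ) / ((p : ℝ) - 1) = (1 : ℝ) / ((p : ℝ) - 1) + 1 := by
      field_simp
      ring
    rw [e, Real.rpow_add h.hp0, Real.rpow_one] at hρ
    exact hρ
  -- injectivity of x ↦ χ x
  let ιA : L →ₐ[R₀] Cp := IsScalarTower.toAlgHom R₀ L Cp
  have hιinj : Function.Injective (fun x : H →ₐ[R₀] L => ιA.comp x) := by
    intro x x' hxx
    ext a
    have := congrArg (fun f : H →ₐ[R₀] Cp => f a) hxx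
    exact (algebraMap L Cp).injective this
  have hχinj : Function.Injective χ := by
    intro x x' hxx
    apply hιinj
    refine hrig (ιA.comp x) (ιA.comp x') _ hθ ?_
    intro a
    change ‖algebraMap L Cp (x a) - algebraMap L Cp (x' a)‖ ≤ ρ / ‖(p : Cp)‖
    rw [← map_sub, ← h.norm_transfer hw, map_sub, ← approxPt_apply, ← approxPt_apply]
    have e : approxPt h w x a - approxPt h w x' a
        = -(χ x a - approxPt h w x a) + (χ x' a - approxPt h w x' a) := by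
      rw [hxx]; ring
    rw [e]
    refine (IsUltrametricDist.norm_add_le_max _ _).trans (max_le ?_ (hχ x' a))
    rw [norm_neg]
    exact hχ x a
  -- surjectivity onto all points
  have hιsurj : ∀ y : H →ₐ[R₀] Cp, ∃ x : H →ₐ[R₀] L, ιA.comp x = y := fun y => by
    obtain ⟨x, hx⟩ := hall y
    exact ⟨x, hx.symm⟩
  choose back hback using hιsurj
  have hΨinj : Function.Injective (fun x : H →ₐ[R₀] L => back (χ x)) := by
    intro x x' hxx
    apply hχinj
    have h1 := hback (χ x)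
    have h2 := hback (χ x')
    rw [← h1, ← h2]
    exact congrArg (fun z => ιA.comp z) hxx
  have hΨsurj := Finite.injective_iff_surjective.1 hΨinj
  have hval : ∀ (x : H →ₐ[R₀] L) (a : H), algebraMap L Cp (x a) ∈ E := by
    intro x a
    obtain ⟨x', hx'⟩ := hΨsurj x
    have h1 : ιA.comp x = χ x' := by
      have h2 : back (χ x') = x := hx'
      rw [← h2]
      exact hback (χ x')
    have h3 := congrArg (fun f : H →ₐ[R₀] Cp => f a) h1
    change algebraMap L Cp (x a) = χ x' a at h3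
    rw [h3]
    exact hχE x' a
  -- hence `L ⊆ E`
  have hLE : ∀ b : L, algebraMap L Cp b ∈ E := by
    have htop := hgenL (E.comap (IsScalarTower.toAlgHom K' L Cp)) (fun x a => hval x a)
    intro b
    have hb : b ∈ E.comap (IsScalarTower.toAlgHom K' L Cp) := by rw [htop]; trivial
    exact hb
  -- degree count
  let ιK : L →ₗ[K'] Cp := (IsScalarTower.toAlgHom K' L Cp).toLinearMap
  have hιKinj : Function.Injective ιK := (algebraMap L Cp).injective
  have hle : LinearMap.range ιK ≤ Subalgebra.toSubmodule E.toSubalgebra := by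
    rintro _ ⟨b, rfl⟩
    exact hLE b
  have hfinE : Module.finrank K' E ≤ Module.finrank K' L := by
    rw [IntermediateField.adjoin.finrank hwint, ← hQdeg]
    exact natDegree_le_natDegree (minpoly.min K' w hQ hQw)
  have hfinR : Module.finrank K' (LinearMap.range ιK) = Module.finrank K' L :=
    LinearMap.finrank_range_of_inj hιKinj
  have hEsub : FiniteDimensional K' (Subalgebra.toSubmodule E.toSubalgebra) := hEfin
  have heq : LinearMap.range ιK = Subalgebra.toSubmodule E.toSubalgebra := by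
    apply Submodule.eq_of_le_of_finrank_le hle
    rw [hfinR]
    exact hfinE
  have hwE : w ∈ Subalgebra.toSubmodule E.toSubalgebra :=
    IntermediateField.mem_adjoin_simple_self K' w
  rw [← heq] at hwE
  obtain ⟨wL, hwL⟩ := hwE
  exact ⟨wL, hwL⟩

end Fontaine

section FontaineBound

open WithConv Coalgebra

variable {p : ℕ} {R₀ H K' L Cp : Type*} [CommRing R₀] [CommRing H] [Bialgebra R₀ H]
  [Field K'] [Field L] [NormedField Cp] [IsUltrametricDist Cp]
  [Algebra K' L] [Algebra K' Cp] [Algebra L Cp] [IsScalarTower K' L Cp]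
  [Algebra R₀ K'] [Algebra R₀ L] [Algebra R₀ Cp] [IsScalarTower R₀ K' L] [IsScalarTower R₀ K' Cp]
  [IsScalarTower R₀ L Cp]
  [FiniteDimensional K' L] [IsGalois K' L] {π : L}

theorem TotRam.natDegree_minpoly (h : TotRam p K' L Cp π) :
    (minpoly K' π).natDegree = Module.finrank K' L := by
  have h1 := h.pb.natDegree_minpoly
  rw [h.pb_gen, h.pb_dim] at h1
  exact h1

open Classical in
/-- **The ramification bound (F), core form.**  `L/K'` totally ramified Galois with uniformiser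
`π`.  Hypothesis `hroot` (the consequence of Fontaine's property that is used): every `w` with
`‖w‖ = ‖π‖` and `‖P(w)‖ < ‖p‖ ^ (p/(p-1))` (`P` the minimal polynomial of `π`) that is a root of
a monic polynomial of degree `[L:K']` over `K'` lies in `L`.  Then, for `σ₁ ≠ 1` minimising
`‖σ π - π‖`, `‖p‖ ^ (p/(p-1)) ≤ ‖σ₁ π - π‖ * ∏_{σ ≠ 1} ‖σ π - π‖ / ‖π‖`. -/
theorem TotRam.fontaine_bound_of_root (h : TotRam p K' L Cp π) [IsAlgClosed Cp] (hp : 1 < p)
    (hroot : ∀ w : Cp, ‖w‖ = ‖algebraMap L Cp π‖ →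
      ‖aeval w (minpoly K' π)‖ < ‖(p : Cp)‖ ^ ((p : ℝ) / ((p : ℝ) - 1)) →
      ∀ Q : K'[X], Q.Monic → Q.natDegree = Module.finrank K' L → aeval w Q = 0 →
        ∃ wL : L, algebraMap L Cp wL = w)
    (σ₁ : L ≃ₐ[K'] L) (hσ₁ : σ₁ ≠ 1)
    (hmin : ∀ σ : L ≃ₐ[K'] L, σ ≠ 1 →
      ‖algebraMap L Cp (σ₁ π - π)‖ ≤ ‖algebraMap L Cp (σ π - π)‖) :
    ‖(p : Cp)‖ ^ ((p : ℝ) / ((p : ℝ) - 1)) ≤
      ‖algebraMap L Cp (σ₁ π - π)‖ *
        (∏ σ ∈ (Finset.univ : Finset (L ≃ₐ[K'] L)).erase 1, ‖algebraMap L Cp (σ π - π)‖)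
          / ‖algebraMap L Cp π‖ := by
  by_contra hcon
  push Not at hcon
  have hy0 := h.norm_pi_pos
  have hy1 := h.norm_pi_lt_one
  have hyN := h.hπ
  have hN0 : 0 < Module.finrank K' L := Module.finrank_pos
  -- the critical value is a norm of an element of `L`, hence a power of `‖π‖`
  obtain ⟨A, hA⟩ : ∃ A : ℤ, ‖algebraMap L Cp (σ₁ π - π)‖ *
        (∏ σ ∈ (Finset.univ : Finset (L ≃ₐ[K'] L)).erase 1, ‖algebraMap L Cp (σ π - π)‖)
          / ‖algebraMap L Cp π‖ = ‖algebraMap L Cp π‖ ^ A := by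
    have ht0 : (σ₁ π - π) * (∏ σ ∈ (Finset.univ : Finset (L ≃ₐ[K'] L)).erase 1, (σ π - π)) / π
        ≠ 0 := by
      refine div_ne_zero (mul_ne_zero (sub_ne_zero.2 (fun e => hσ₁ (h.hgen σ₁ e))) ?_) h.pi_ne_zero
      exact Finset.prod_ne_zero_iff.2 (fun σ hσ =>
        sub_ne_zero.2 (fun e => (Finset.ne_of_mem_erase hσ) (h.hgen σ e)))
    obtain ⟨A, hA⟩ := h.exists_zpow _ ht0
    refine ⟨A, ?_⟩
    rw [← hA, map_div₀, map_mul, map_prod, norm_div, norm_mul, norm_prod]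
  rw [hA] at hcon
  have hp1 : (0 : ℝ) < (p : ℝ) - 1 := by
    have : (1 : ℝ) < p := by exact_mod_cast hp
    linarith
  have hexp : (1 : ℝ) ≤ (p : ℝ) / ((p : ℝ) - 1) := by
    rw [le_div_iff₀ hp1]; linarith
  have hle : ‖(p : Cp)‖ ^ ((p : ℝ) / ((p : ℝ) - 1)) ≤ ‖(p : Cp)‖ := by
    have h1 := Real.rpow_le_rpow_of_exponent_ge h.hp0 h.hp1.le hexp
    rwa [Real.rpow_one] at h1
  have hAN : (Module.finrank K' L : ℤ) < A := by
    by_contra hcon2
    push Not at hcon2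
    have h1 : ‖algebraMap L Cp π‖ ^ (Module.finrank K' L : ℤ) ≤ ‖algebraMap L Cp π‖ ^ A :=
      zpow_le_zpow_right_of_le_one₀ hy0 hy1.le hcon2
    rw [zpow_natCast, hyN] at h1
    exact absurd (lt_of_lt_of_le hcon hle) (not_lt.2 h1)
  -- write A = N * a + j
  obtain ⟨a, j, ha, hj, haj, hAeq⟩ : ∃ a j : ℕ, 1 ≤ a ∧ j < Module.finrank K' L ∧
      (2 ≤ a ∨ 1 ≤ j) ∧ A = (Module.finrank K' L : ℤ) * a + j := by
    have hN0' : (0 : ℤ) < (Module.finrank K' L : ℤ) := by exact_mod_cast hN0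
    have h1 := Int.mul_ediv_add_emod A (Module.finrank K' L : ℤ)
    have h2 := Int.emod_nonneg A hN0'.ne'
    have h3 := Int.emod_lt_of_pos A hN0'
    set q := A / (Module.finrank K' L : ℤ) with hq
    set r := A % (Module.finrank K' L : ℤ) with hr
    have hq1 : 1 ≤ q := by
      by_contra hc
      push Not at hc
      have h4 : (Module.finrank K' L : ℤ) * q ≤ 0 :=
        mul_nonpos_of_nonneg_of_nonpos hN0'.le (by omega)
      omega
    have hqr : 2 ≤ q ∨ 1 ≤ r := by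
      by_contra hc
      push Not at hc
      have hq' : q = 1 := by omega
      have hr' : r = 0 := by omega
      rw [hq', hr', mul_one, add_zero] at h1
      omega
    refine ⟨q.toNat, r.toNat, by omega, by omega, by omega, ?_⟩
    rw [Int.toNat_of_nonneg (by omega : 0 ≤ q), Int.toNat_of_nonneg h2]
    exact h1.symm
  -- the perturbed polynomial and its root
  have hPmon : (minpoly K' π).Monic := minpoly.monic (Algebra.IsIntegral.isIntegral π)
  have hPdeg := h.natDegree_minpoly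
  have hdeglt : (C ((p : K') ^ a) * X ^ j).degree < (minpoly K' π).degree := by
    rw [degree_eq_natDegree hPmon.ne_zero, hPdeg]
    refine lt_of_le_of_lt (degree_C_mul_X_pow_le j _) ?_
    exact_mod_cast hj
  have hQmon : (minpoly K' π + C ((p : K') ^ a) * X ^ j).Monic := hPmon.add_of_left hdeglt
  have hQdeg : (minpoly K' π + C ((p : K') ^ a) * X ^ j).natDegree = Module.finrank K' L := by
    rw [natDegree_add_eq_left_of_degree_lt hdeglt, hPdeg]
  obtain ⟨w, hw⟩ := IsAlgClosed.exists_aeval_eq_zero Cp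
    (minpoly K' π + C ((p : K') ^ a) * X ^ j) (by
      rw [degree_eq_natDegree hQmon.ne_zero, hQdeg]
      exact_mod_cast hN0.ne')
  have hwP : aeval w (minpoly K' π) = -((p : Cp) ^ a * w ^ j) := by
    have h1 := hw
    simp only [map_add, map_mul, map_pow, aeval_X, map_natCast] at h1
    exact eq_neg_of_add_eq_zero_left h1
  have hwn := h.norm_root_eq ha hj haj hwP
  have hρ : ‖aeval w (minpoly K' π)‖ = ‖algebraMap L Cp π‖ ^ A := by
    rw [hwP, norm_neg, norm_mul, norm_pow, norm_pow, hwn, ← hyN, ← pow_mul, ← pow_add, hAeq]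
    exact_mod_cast (zpow_natCast ‖algebraMap L Cp π‖ (Module.finrank K' L * a + j)).symm
  obtain ⟨wL, hwL⟩ := hroot w hwn (by rw [hρ]; exact hcon) _ hQmon hQdeg hw
  have hne := h.norm_aeval_ne σ₁ hσ₁ hmin wL
  rw [← aeval_algebraMap_apply, hwL, hρ, hA] at hne
  exact hne rfl

open IntermediateField in
/-- Degree count: if `L ⊆ K'(w)` and `w` is a root of a monic polynomial of degree `[L:K']`,
then `w ∈ L`. -/
theorem TotRam.exists_algebraMap_eq_of_mem_adjoin (_h : TotRam p K' L Cp π) {w : Cp}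
    (hLE : ∀ b : L, algebraMap L Cp b ∈ K'⟮w⟯)
    {Q : K'[X]} (hQ : Q.Monic) (hQdeg : Q.natDegree = Module.finrank K' L)
    (hQw : aeval w Q = 0) :
    ∃ wL : L, algebraMap L Cp wL = w := by
  have hwint : IsIntegral K' w := ⟨Q, hQ, by rwa [← aeval_def]⟩
  let E : IntermediateField K' Cp := K'⟮w⟯
  have hEfin : FiniteDimensional K' E := IntermediateField.adjoin.finiteDimensional hwint
  let ιK : L →ₗ[K'] Cp := (IsScalarTower.toAlgHom K' L Cp).toLinearMap
  have hιKinj : Function.Injective ιK := (algebraMap L Cp).injective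
  have hle : LinearMap.range ιK ≤ Subalgebra.toSubmodule E.toSubalgebra := by
    rintro _ ⟨b, rfl⟩
    exact hLE b
  have hfinE : Module.finrank K' E ≤ Module.finrank K' L := by
    rw [IntermediateField.adjoin.finrank hwint, ← hQdeg]
    exact natDegree_le_natDegree (minpoly.min K' w hQ hQw)
  have hfinR : Module.finrank K' (LinearMap.range ιK) = Module.finrank K' L :=
    LinearMap.finrank_range_of_inj hιKinj
  have hEsub : FiniteDimensional K' (Subalgebra.toSubmodule E.toSubalgebra) := hEfin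
  have heq : LinearMap.range ιK = Subalgebra.toSubmodule E.toSubalgebra := by
    apply Submodule.eq_of_le_of_finrank_le hle
    rw [hfinR]
    exact hfinE
  have hwE : w ∈ Subalgebra.toSubmodule E.toSubalgebra :=
    IntermediateField.mem_adjoin_simple_self K' w
  rw [← heq] at hwE
  obtain ⟨wL, hwL⟩ := hwE
  exact ⟨wL, hwL⟩

/-- Conversion of the threshold: `ρ < ‖p‖ ^ (p/(p-1))` implies `ρ ^ (p-1) < ‖p‖ ^ p`. -/
theorem pow_lt_of_lt_rpow {x ρ : ℝ} (hx : 0 ≤ x) (hρ0 : 0 ≤ ρ) {p : ℕ} (hp : 1 < p)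
    (hρ : ρ < x ^ ((p : ℝ) / ((p : ℝ) - 1))) : ρ ^ (p - 1) < x ^ p := by
  have h1 : (x ^ ((p : ℝ) / ((p : ℝ) - 1))) ^ (p - 1) = x ^ p := by
    rw [← Real.rpow_natCast, ← Real.rpow_mul hx, ← Real.rpow_natCast]
    congr 1
    have hp1 : (1 : ℝ) < p := by exact_mod_cast hp
    have hne : (p : ℝ) - 1 ≠ 0 := by linarith
    rw [Nat.cast_sub (by omega), Nat.cast_one, div_mul_cancel₀ _ hne]
  rw [← h1]
  exact pow_lt_pow_left₀ hρ hρ0 (by omega)

open Classical IntermediateField in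
/-- **The ramification bound (F) from Fontaine's property (P_m) in evaluation form**: if every
integral `w` with `‖P(w)‖ ^ (p-1) < ‖p‖ ^ p` satisfies `L ⊆ K'(w)`, then the bound (F) holds. -/
theorem TotRam.fontaine_bound_of_Pm (h : TotRam p K' L Cp π) [IsAlgClosed Cp] (hp : 1 < p)
    (hPm : ∀ w : Cp, ‖w‖ ≤ 1 → ‖aeval w (minpoly K' π)‖ ^ (p - 1) < ‖(p : Cp)‖ ^ p →
      ∀ b : L, algebraMap L Cp b ∈ K'⟮w⟯)
    (σ₁ : L ≃ₐ[K'] L) (hσ₁ : σ₁ ≠ 1)
    (hmin : ∀ σ : L ≃ₐ[K'] L, σ ≠ 1 →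
      ‖algebraMap L Cp (σ₁ π - π)‖ ≤ ‖algebraMap L Cp (σ π - π)‖) :
    ‖(p : Cp)‖ ^ ((p : ℝ) / ((p : ℝ) - 1)) ≤
      ‖algebraMap L Cp (σ₁ π - π)‖ *
        (∏ σ ∈ (Finset.univ : Finset (L ≃ₐ[K'] L)).erase 1, ‖algebraMap L Cp (σ π - π)‖)
          / ‖algebraMap L Cp π‖ := by
  refine h.fontaine_bound_of_root hp (fun w hw hρ Q hQ hQdeg hQw => ?_) σ₁ hσ₁ hmin
  refine h.exists_algebraMap_eq_of_mem_adjoin (hPm w ?_ ?_) hQ hQdeg hQw
  · rw [hw]; exact h.norm_pi_lt_one.le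
  · exact pow_lt_of_lt_rpow (norm_nonneg _) (norm_nonneg _) hp hρ

open Classical in
/-- **The ramification bound (F)** (Fontaine's bound `u ≤ p/(p-1) + 1/e`, without upper
numbering).  `L/K'` totally ramified Galois with uniformiser `π`, `K'` unramified over `ℚ_p`,
`L` generated by the values of the points of a bialgebra `H` killed by `p` and satisfying
rigidity (L1) and sharp lifting (L2).  Then, for `σ₁ ≠ 1` minimising `‖σ π - π‖`,
`‖p‖ ^ (p/(p-1)) ≤ ‖σ₁ π - π‖ * ∏_{σ ≠ 1} ‖σ π - π‖ / ‖π‖`. -/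
theorem TotRam.fontaine_bound (h : TotRam p K' L Cp π) [IsAlgClosed Cp] (hp : 1 < p)
    [Finite (H →ₐ[R₀] L)]
    (hint : ∀ (x : H →ₐ[R₀] L) (a : H), ‖algebraMap L Cp (x a)‖ ≤ 1)
    (hkill : ∀ x : WithConv (H →ₐ[R₀] L), x ^ p = 1)
    (hall : ∀ y : H →ₐ[R₀] Cp, ∃ x : H →ₐ[R₀] L, y = (IsScalarTower.toAlgHom R₀ L Cp).comp x)
    (hgenL : ∀ F : IntermediateField K' L, (∀ (x : H →ₐ[R₀] L) (a : H), x a ∈ F) → F = ⊤)
    (hrig : RigProp p R₀ H Cp)
    (hlift : ∀ E : IntermediateField K' Cp, FiniteDimensional K' E →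
      LiftProp p R₀ H Cp (E : Set Cp))
    (σ₁ : L ≃ₐ[K'] L) (hσ₁ : σ₁ ≠ 1)
    (hmin : ∀ σ : L ≃ₐ[K'] L, σ ≠ 1 →
      ‖algebraMap L Cp (σ₁ π - π)‖ ≤ ‖algebraMap L Cp (σ π - π)‖) :
    ‖(p : Cp)‖ ^ ((p : ℝ) / ((p : ℝ) - 1)) ≤
      ‖algebraMap L Cp (σ₁ π - π)‖ *
        (∏ σ ∈ (Finset.univ : Finset (L ≃ₐ[K'] L)).erase 1, ‖algebraMap L Cp (σ π - π)‖)
          / ‖algebraMap L Cp π‖ :=
  h.fontaine_bound_of_root hp (fun _ hw hρ _ hQ hQdeg hQw =>
    h.exists_algebraMap_eq hp hint hkill hall hgenL hrig hlift hw hρ hQ hQdeg hQw) σ₁ hσ₁ hmin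

end FontaineBound

section Layer

variable {p : ℕ} {K' L Cp : Type*} [Field K'] [Field L] [NormedField Cp] [IsUltrametricDist Cp]
  [Algebra K' L] [Algebra K' Cp] [Algebra L Cp] [IsScalarTower K' L Cp]
  [FiniteDimensional K' L] [IsGalois K' L] {π : L}

namespace TotRam

theorem norm_sub_le_pi (h : TotRam p K' L Cp π) (σ : L ≃ₐ[K'] L) :
    ‖algebraMap L Cp (σ π - π)‖ ≤ ‖algebraMap L Cp π‖ := by
  rw [map_sub, sub_eq_add_neg]
  refine (IsUltrametricDist.norm_add_le_max _ _).trans ?_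
  rw [norm_neg, h.hinv, max_self]

theorem norm_mul_sub_le (h : TotRam p K' L Cp π) (σ τ : L ≃ₐ[K'] L) (x : L) :
    ‖algebraMap L Cp ((σ * τ) x - x)‖ ≤
      max ‖algebraMap L Cp (σ x - x)‖ ‖algebraMap L Cp (τ x - x)‖ := by
  have e : (σ * τ) x - x = (σ x - x) + σ (τ x - x) := by
    rw [AlgEquiv.mul_apply, map_sub]; ring
  rw [e, map_add]
  refine (IsUltrametricDist.norm_add_le_max _ _).trans ?_
  rw [h.hinv]

theorem norm_inv_sub (h : TotRam p K' L Cp π) (σ : L ≃ₐ[K'] L) (x : L) :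
    ‖algebraMap L Cp (σ⁻¹ x - x)‖ = ‖algebraMap L Cp (σ x - x)‖ := by
  have e : σ⁻¹ x - x = σ⁻¹ (-(σ x - x)) := by
    rw [map_neg, map_sub]
    have : σ⁻¹ (σ x) = x := by
      rw [← AlgEquiv.mul_apply, inv_mul_cancel, AlgEquiv.one_apply]
    rw [this]; ring
  rw [e, h.hinv, map_neg, norm_neg]

theorem norm_pow_sub_le (h : TotRam p K' L Cp π) (σ : L ≃ₐ[K'] L) (x : L) (k : ℕ) :
    ‖algebraMap L Cp ((σ ^ k) x - x)‖ ≤ ‖algebraMap L Cp (σ x - x)‖ := by
  induction k with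
  | zero => simp
  | succ k ih =>
    rw [pow_succ]
    exact (h.norm_mul_sub_le _ _ x).trans (max_le ih le_rfl)

theorem norm_zpow_sub_le (h : TotRam p K' L Cp π) (σ : L ≃ₐ[K'] L) (x : L) (k : ℤ) :
    ‖algebraMap L Cp ((σ ^ k) x - x)‖ ≤ ‖algebraMap L Cp (σ x - x)‖ := by
  obtain ⟨n, rfl | rfl⟩ := Int.eq_nat_or_neg k
  · rw [zpow_natCast]; exact h.norm_pow_sub_le σ x n
  · rw [zpow_neg, zpow_natCast, h.norm_inv_sub]; exact h.norm_pow_sub_le σ x n

theorem norm_sub_pos (h : TotRam p K' L Cp π) {σ : L ≃ₐ[K'] L} (hσ : σ ≠ 1) :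
    0 < ‖algebraMap L Cp (σ π - π)‖ := by
  rw [norm_pos_iff, Ne, map_eq_zero, sub_eq_zero]
  exact fun e => hσ (h.hgen σ e)


open Classical in
/-- **(L5) Layer form of the ramification bound.**  `L/K'` totally ramified Galois with
uniformiser `π`; `σ₁ ≠ 1` minimises `‖σ π - π‖` and satisfies the bound (F).  Let `H ⊴ P` be
subgroups of `Gal(L/K')` with `P` containing the wild inertia `{σ | ‖σ π - π‖ < ‖π‖}` and
`[P : H] = p`, and let `ϖ` be an `H`-fixed element with `‖ϖ‖ = ‖π‖ ^ |H|` (a uniformiser of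
`L^H`) satisfying Serre's formula `‖τ ϖ - ϖ‖ = ∏_{x ∈ H} ‖(τ x) π - π‖` on `P ∖ H`.  Then the
break of the degree-`p` layer `L^H / L^P` is bounded:
`‖p‖ * ‖ϖ‖ ^ (p (p-1)) ≤ ‖τ ϖ - ϖ‖ ^ (p (p-1))` for `τ ∈ P ∖ H`. -/
theorem layer_bound_of_F (h : TotRam p K' L Cp π) (hp : p.Prime)
    (σ₁ : L ≃ₐ[K'] L)
    (hmin : ∀ σ : L ≃ₐ[K'] L, σ ≠ 1 →
      ‖algebraMap L Cp (σ₁ π - π)‖ ≤ ‖algebraMap L Cp (σ π - π)‖)
    (hF : ‖(p : Cp)‖ ^ ((p : ℝ) / ((p : ℝ) - 1)) ≤
      ‖algebraMap L Cp (σ₁ π - π)‖ *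
        (∏ σ ∈ (Finset.univ : Finset (L ≃ₐ[K'] L)).erase 1, ‖algebraMap L Cp (σ π - π)‖)
          / ‖algebraMap L Cp π‖)
    (P H : Subgroup (L ≃ₐ[K'] L)) [Fintype H]
    (hP : ∀ σ : L ≃ₐ[K'] L, ‖algebraMap L Cp (σ π - π)‖ < ‖algebraMap L Cp π‖ → σ ∈ P)
    (hHP : H ≤ P) (hnorm : ∀ g ∈ P, ∀ x ∈ H, g * x * g⁻¹ ∈ H) (hidx : H.relIndex P = p)
    (ϖ : L) (hϖH : ∀ x ∈ H, x ϖ = ϖ)
    (hϖ : ‖algebraMap L Cp ϖ‖ = ‖algebraMap L Cp π‖ ^ Nat.card H)
    (hS : ∀ τ ∈ P, τ ∉ H →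
      ‖algebraMap L Cp (τ ϖ - ϖ)‖ =
        ∏ x : H, ‖algebraMap L Cp ((τ * (x : L ≃ₐ[K'] L)) π - π)‖)
    (τ : L ≃ₐ[K'] L) (hτP : τ ∈ P) (hτH : τ ∉ H) :
    ‖(p : Cp)‖ * ‖algebraMap L Cp ϖ‖ ^ (p * (p - 1)) ≤
      ‖algebraMap L Cp (τ ϖ - ϖ)‖ ^ (p * (p - 1)) := by
  set y := ‖algebraMap L Cp π‖ with hy
  have hy0 : 0 < y := h.norm_pi_pos
  have hy1 : y < 1 := h.norm_pi_lt_one
  set d : (L ≃ₐ[K'] L) → ℝ := fun σ => ‖algebraMap L Cp (σ π - π)‖ with hd
  set δ : (L ≃ₐ[K'] L) → ℝ := fun σ => ‖algebraMap L Cp (σ ϖ - ϖ)‖ with hδ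
  have hd_nonneg : ∀ σ, 0 ≤ d σ := fun σ => norm_nonneg _
  have hd_le : ∀ σ, d σ ≤ y := h.norm_sub_le_pi
  have hd_mul : ∀ σ τ, d (σ * τ) ≤ max (d σ) (d τ) := fun σ τ => h.norm_mul_sub_le σ τ π
  have hd_inv : ∀ σ, d σ⁻¹ = d σ := fun σ => h.norm_inv_sub σ π
  have hd_pos : ∀ σ, σ ≠ 1 → 0 < d σ := fun σ hσ => h.norm_sub_pos hσ
  have hd_out : ∀ σ, σ ∉ P → d σ = y := fun σ hσ =>
    le_antisymm (hd_le σ) (not_lt.1 (fun hlt => hσ (hP σ hlt)))
  have hp2 : 2 ≤ p := hp.two_le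
  -- Step 1: `δ` is constant on `P ∖ H`
  have hconst : ∀ s t, s ∈ P → s ∉ H → t ∈ P → t ∉ H → δ s ≤ δ t := by
    intro s t hsP hsH htP htH
    have : (H.subgroupOf P).Normal := by
      constructor
      intro n hn g
      rw [Subgroup.mem_subgroupOf] at hn ⊢
      exact hnorm g g.2 n hn
    have : Fact p.Prime := ⟨hp⟩
    have hcard : Nat.card (↥P ⧸ H.subgroupOf P) = p := by
      rw [← Subgroup.index_eq_card]; exact hidx
    have ht1 : (QuotientGroup.mk ⟨t, htP⟩ : ↥P ⧸ H.subgroupOf P) ≠ 1 := by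
      rw [Ne, QuotientGroup.eq_one_iff, Subgroup.mem_subgroupOf]
      exact htH
    have htop := zpowers_eq_top_of_prime_card hcard ht1
    have hmem : (QuotientGroup.mk ⟨s, hsP⟩ : ↥P ⧸ H.subgroupOf P) ∈
        Subgroup.zpowers (QuotientGroup.mk ⟨t, htP⟩ : ↥P ⧸ H.subgroupOf P) := by
      rw [htop]; trivial
    obtain ⟨k, hk⟩ := Subgroup.mem_zpowers_iff.1 hmem
    rw [← QuotientGroup.mk_zpow, QuotientGroup.eq, Subgroup.mem_subgroupOf] at hk
    have hx : (t ^ k)⁻¹ * s ∈ H := by simpa using hk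
    have e : s ϖ = (t ^ k) ϖ := by
      have h1 := hϖH _ hx
      have h2 : s = t ^ k * ((t ^ k)⁻¹ * s) := by group
      conv_lhs => rw [h2, AlgEquiv.mul_apply, h1]
    change ‖algebraMap L Cp (s ϖ - ϖ)‖ ≤ _
    rw [e]
    exact h.norm_zpow_sub_le t ϖ k
  -- the relevant finite sets
  set PF : Finset (L ≃ₐ[K'] L) := Finset.univ.filter (fun σ => σ ∈ P) with hPF
  set HF : Finset (L ≃ₐ[K'] L) := Finset.univ.filter (fun σ => σ ∈ H) with hHF
  set S : Finset (L ≃ₐ[K'] L) := Finset.univ.filter (fun σ => σ ∈ P ∧ σ ∉ H) with hSdef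
  set A : Finset (L ≃ₐ[K'] L) := Finset.univ.filter (fun σ => σ ∉ P) with hA
  have hSmem : ∀ σ, σ ∈ S ↔ σ ∈ P ∧ σ ∉ H := by intro σ; simp [S]
  have hHFmem : ∀ σ, σ ∈ HF ↔ σ ∈ H := by intro σ; simp [HF]
  have hcardP : PF.card = Nat.card P := by
    rw [Nat.card_eq_fintype_card, Fintype.card_subtype]
  have hcardH : HF.card = Nat.card H := by
    rw [Nat.card_eq_fintype_card, ← Finset.card_univ]
    exact Finset.card_bij' (s := HF) (t := (Finset.univ : Finset H))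
      (fun σ hσ => ⟨σ, (hHFmem σ).1 hσ⟩) (fun x _ => (x : L ≃ₐ[K'] L))
      (fun _ _ => Finset.mem_univ _) (fun x _ => (hHFmem _).2 x.2) (fun _ _ => rfl)
      (fun _ _ => rfl)
  have hPH : Nat.card P = Nat.card H * p := by
    have h1 := Subgroup.relIndex_mul_relIndex ⊥ H P bot_le hHP
    rw [Subgroup.relIndex_bot_left, Subgroup.relIndex_bot_left, hidx] at h1
    exact h1.symm
  have hcardS : S.card = Nat.card H * (p - 1) := by
    have h1 : S = PF \ HF := by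
      ext σ; simp [S, PF, HF]
    have h2 : HF ⊆ PF := by
      intro σ hσ
      simp only [HF, PF, Finset.mem_filter, Finset.mem_univ, true_and] at hσ ⊢
      exact hHP hσ
    rw [h1, Finset.card_sdiff_of_subset h2, hcardP, hcardH, hPH, Nat.mul_sub_one]
  have hcardG : (Finset.univ : Finset (L ≃ₐ[K'] L)).card = Module.finrank K' L := h.card_aut
  have hcardA : A.card + Nat.card H * p = Module.finrank K' L := by
    rw [← hcardG, ← hPH, ← hcardP, add_comm]
    exact Finset.card_filter_add_card_filter_not (s := (Finset.univ : Finset (L ≃ₐ[K'] L)))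
      (fun σ => σ ∈ P)
  have hHpos : 0 < Nat.card H := Nat.card_pos
  -- Step 2: double counting
  have hδS : ∀ s ∈ S, δ s = δ τ := by
    intro s hs
    obtain ⟨hsP, hsH⟩ := (hSmem s).1 hs
    exact le_antisymm (hconst s τ hsP hsH hτP hτH) (hconst τ s hτP hτH hsP hsH)
  have hprodS : (∏ s ∈ S, d s) ^ Nat.card H = (δ τ ^ (p - 1)) ^ Nat.card H := by
    have h1 : ∏ s ∈ S, δ s = (∏ s ∈ S, d s) ^ Nat.card H := by
      calc ∏ s ∈ S, δ s = ∏ s ∈ S, ∏ x : H, d (s * (x : L ≃ₐ[K'] L)) :=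
            Finset.prod_congr rfl
              (fun s hs => hS s ((hSmem s).1 hs).1 ((hSmem s).1 hs).2)
        _ = ∏ x : H, ∏ s ∈ S, d (s * (x : L ≃ₐ[K'] L)) := Finset.prod_comm
        _ = ∏ _x : H, ∏ s ∈ S, d s := by
            refine Finset.prod_congr rfl (fun x _ => ?_)
            refine Finset.prod_nbij' (fun s => s * (x : L ≃ₐ[K'] L))
              (fun s => s * (x : L ≃ₐ[K'] L)⁻¹) ?_ ?_ ?_ ?_ ?_
            · intro s hs
              obtain ⟨hsP, hsH⟩ := (hSmem s).1 hs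
              refine (hSmem _).2 ⟨P.mul_mem hsP (hHP x.2), fun hc => hsH ?_⟩
              have := H.mul_mem hc (H.inv_mem x.2)
              simpa using this
            · intro s hs
              obtain ⟨hsP, hsH⟩ := (hSmem s).1 hs
              refine (hSmem _).2 ⟨P.mul_mem hsP (P.inv_mem (hHP x.2)), fun hc => hsH ?_⟩
              have := H.mul_mem hc x.2
              simpa using this
            · intro s _; simp
            · intro s _; simp
            · intro s _; rfl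
        _ = (∏ s ∈ S, d s) ^ Nat.card H := by
            rw [Finset.prod_const, Finset.card_univ, Nat.card_eq_fintype_card]
    have h2 : ∏ s ∈ S, δ s = δ τ ^ S.card := by
      rw [Finset.prod_congr rfl hδS, Finset.prod_const]
    rw [← h1, h2, hcardS, ← pow_mul, mul_comm]
  have hprodS' : ∏ s ∈ S, d s = δ τ ^ (p - 1) :=
    (pow_left_inj₀ (Finset.prod_nonneg (fun s _ => hd_nonneg s))
      (pow_nonneg (norm_nonneg _) _) hHpos.ne').1 hprodS
  -- Step 3: the coset estimate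
  have hstar : d σ₁ * ∏ σ ∈ HF.erase 1, d σ ≤ δ τ := by
    obtain ⟨t0, -, ht0⟩ := Finset.exists_min_image (Finset.univ : Finset H)
      (fun x : H => d (τ * (x : L ≃ₐ[K'] L))) ⟨1, Finset.mem_univ _⟩
    set t := τ * (t0 : L ≃ₐ[K'] L) with ht
    have htH : t ∉ H := fun hc => hτH (by
      have := H.mul_mem hc (H.inv_mem t0.2)
      simpa [t] using this)
    have ht1 : t ≠ 1 := fun hc => htH (hc ▸ H.one_mem)
    have hmin_t : ∀ x ∈ H, d t ≤ d (t * x) := by
      intro x hx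
      have := ht0 (t0 * ⟨x, hx⟩) (Finset.mem_univ _)
      simpa [t, mul_assoc] using this
    have hge : ∀ x ∈ H, d x ≤ d (t * x) := by
      intro x hx
      have h1 : x = t⁻¹ * (t * x) := by group
      calc d x = d (t⁻¹ * (t * x)) := by rw [← h1]
        _ ≤ max (d t⁻¹) (d (t * x)) := hd_mul _ _
        _ = d (t * x) := by rw [hd_inv, max_eq_right (hmin_t x hx)]
    have e1 : δ τ = ∏ x : H, d (t * (x : L ≃ₐ[K'] L)) := by
      rw [show δ τ = ∏ x : H, d (τ * (x : L ≃ₐ[K'] L)) from hS τ hτP hτH]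
      refine (Fintype.prod_equiv (Equiv.mulLeft t0) _ _ (fun x => ?_)).symm
      simp [t, mul_assoc]
    have e2 : ∏ x : H, d (t * (x : L ≃ₐ[K'] L)) = ∏ σ ∈ HF, d (t * σ) :=
      (Finset.prod_subtype HF hHFmem (fun σ => d (t * σ))).symm
    have h1mem : (1 : L ≃ₐ[K'] L) ∈ HF := (hHFmem 1).2 H.one_mem
    rw [e1, e2, ← Finset.mul_prod_erase HF _ h1mem, mul_one]
    refine mul_le_mul (hmin t ht1) ?_ (Finset.prod_nonneg (fun s _ => hd_nonneg s))
      (hd_nonneg _)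
    refine Finset.prod_le_prod (fun s _ => hd_nonneg s) (fun s hs => ?_)
    exact hge s ((hHFmem s).1 (Finset.mem_of_mem_erase hs))
  -- Step 4: decomposition of the product over `σ ≠ 1`
  have hdecomp : ∏ σ ∈ (Finset.univ : Finset (L ≃ₐ[K'] L)).erase 1, d σ =
      y ^ A.card * δ τ ^ (p - 1) * ∏ σ ∈ HF.erase 1, d σ := by
    rw [← Finset.prod_filter_mul_prod_filter_not ((Finset.univ : Finset (L ≃ₐ[K'] L)).erase 1)
      (fun σ => σ ∈ H)]
    have e1 : ((Finset.univ : Finset (L ≃ₐ[K'] L)).erase 1).filter (fun σ => σ ∈ H)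
        = HF.erase 1 := by
      ext σ; simp [HF]
    have e2 : ((Finset.univ : Finset (L ≃ₐ[K'] L)).erase 1).filter (fun σ => σ ∉ H)
        = Finset.univ.filter (fun σ => σ ∉ H) := by
      ext σ
      simp only [Finset.mem_filter, Finset.mem_erase, Finset.mem_univ, and_true, true_and,
        and_iff_right_iff_imp]
      exact fun hσ hc => hσ (hc ▸ H.one_mem)
    rw [e1, e2, ← Finset.prod_filter_mul_prod_filter_not
      ((Finset.univ : Finset (L ≃ₐ[K'] L)).filter (fun σ => σ ∉ H)) (fun σ => σ ∈ P)]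
    have e3 : ((Finset.univ : Finset (L ≃ₐ[K'] L)).filter (fun σ => σ ∉ H)).filter
        (fun σ => σ ∈ P) = S := by
      ext σ; simp [S, and_comm]
    have e4 : ((Finset.univ : Finset (L ≃ₐ[K'] L)).filter (fun σ => σ ∉ H)).filter
        (fun σ => σ ∉ P) = A := by
      ext σ
      simp only [A, Finset.mem_filter, Finset.mem_univ, true_and, and_iff_right_iff_imp]
      exact fun hσ hc => hσ (hHP hc)
    have e5 : ∏ σ ∈ A, d σ = y ^ A.card := by
      rw [← Finset.prod_const]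
      refine Finset.prod_congr rfl (fun σ hσ => hd_out σ ?_)
      simpa [A] using hσ
    rw [e3, e4, e5, hprodS']
    ring
  -- Step 5: the numerical conclusion
  have hδpos : 0 < δ τ := by
    rw [show δ τ = ∏ x : H, d (τ * (x : L ≃ₐ[K'] L)) from hS τ hτP hτH]
    refine Finset.prod_pos (fun x _ => hd_pos _ (fun hc => hτH ?_))
    have h1 : τ = (x : L ≃ₐ[K'] L)⁻¹ := eq_inv_of_mul_eq_one_left hc
    rw [h1]
    exact H.inv_mem x.2
  obtain ⟨k, hk⟩ := h.exists_zpow (τ ϖ - ϖ) (by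
    intro hc
    have : δ τ = 0 := by
      change ‖algebraMap L Cp (τ ϖ - ϖ)‖ = 0
      rw [hc, map_zero, norm_zero]
    exact hδpos.ne' this)
  change δ τ = y ^ k at hk
  have hDle : d σ₁ * (∏ σ ∈ (Finset.univ : Finset (L ≃ₐ[K'] L)).erase 1, d σ) / y ≤
      y ^ ((A.card : ℤ) + k * p - 1) := by
    rw [hdecomp, div_le_iff₀ hy0]
    have e : y ^ ((A.card : ℤ) + k * p - 1) * y = y ^ A.card * δ τ ^ (p - 1) * δ τ := by
      rw [hk, ← zpow_natCast (y ^ k) (p - 1), ← zpow_mul, ← zpow_natCast y A.card,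
        ← zpow_add_one₀ hy0.ne', ← zpow_add₀ hy0.ne', ← zpow_add₀ hy0.ne']
      congr 1
      have : ((p - 1 : ℕ) : ℤ) = (p : ℤ) - 1 := by
        rw [Nat.cast_sub (by omega)]; simp
      rw [this]; ring
    rw [e]
    calc d σ₁ * (y ^ A.card * δ τ ^ (p - 1) * ∏ σ ∈ HF.erase 1, d σ)
        = y ^ A.card * δ τ ^ (p - 1) * (d σ₁ * ∏ σ ∈ HF.erase 1, d σ) := by ring
      _ ≤ y ^ A.card * δ τ ^ (p - 1) * δ τ :=
        mul_le_mul_of_nonneg_left hstar (mul_nonneg (pow_nonneg hy0.le _)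
          (pow_nonneg hδpos.le _))
  have hpp : ‖(p : Cp)‖ ^ p ≤ (y ^ ((A.card : ℤ) + k * p - 1)) ^ (p - 1) := by
    have h1 : (‖(p : Cp)‖ ^ ((p : ℝ) / ((p : ℝ) - 1))) ^ (p - 1) = ‖(p : Cp)‖ ^ p := by
      rw [← Real.rpow_natCast, ← Real.rpow_mul (norm_nonneg _), ← Real.rpow_natCast]
      congr 1
      have hp1 : (1 : ℝ) < p := by exact_mod_cast hp.one_lt
      have hne : (p : ℝ) - 1 ≠ 0 := by linarith
      rw [Nat.cast_sub (by omega), Nat.cast_one, div_mul_cancel₀ _ hne]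
    rw [← h1]
    exact pow_le_pow_left₀ (Real.rpow_nonneg (norm_nonneg _) _) (hF.trans hDle) _
  have hpN : ‖(p : Cp)‖ = y ^ ((Module.finrank K' L : ℕ) : ℤ) := by
    rw [zpow_natCast]; exact h.hπ.symm
  have hexp : ((A.card : ℤ) + k * p - 1) * ((p : ℤ) - 1) ≤ (Module.finrank K' L : ℤ) * p := by
    have h1 : y ^ ((Module.finrank K' L : ℤ) * p) ≤
        y ^ (((A.card : ℤ) + k * p - 1) * ((p : ℤ) - 1)) := by
      have e1 : y ^ ((Module.finrank K' L : ℤ) * p) = ‖(p : Cp)‖ ^ p := by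
        rw [hpN, ← zpow_natCast (y ^ _) p, ← zpow_mul]
      have e2 : y ^ (((A.card : ℤ) + k * p - 1) * ((p : ℤ) - 1)) =
          (y ^ ((A.card : ℤ) + k * p - 1)) ^ (p - 1) := by
        rw [← zpow_natCast (y ^ _) (p - 1), ← zpow_mul]
        congr 2
        rw [Nat.cast_sub (by omega)]; simp
      rw [e1, e2]
      exact hpp
    exact (zpow_le_zpow_iff_right_of_lt_one₀ hy0 hy1).1 h1
  -- integer arithmetic
  obtain ⟨c, hc⟩ : p ∣ Module.finrank K' L := by
    have h1 : Nat.card P ∣ Nat.card (L ≃ₐ[K'] L) := Subgroup.card_subgroup_dvd_card P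
    rw [IsGalois.card_aut_eq_finrank, hPH] at h1
    exact (Dvd.intro_left _ rfl).trans h1
  have hfin : k * ((p : ℤ) * ((p : ℤ) - 1)) ≤
      (Module.finrank K' L : ℤ) + (Nat.card H : ℤ) * ((p : ℤ) * ((p : ℤ) - 1)) := by
    have hA' : (A.card : ℤ) = (Module.finrank K' L : ℤ) - (Nat.card H : ℤ) * p := by
      have := congrArg (Nat.cast : ℕ → ℤ) hcardA
      push_cast at this
      linarith
    have hc' : (Module.finrank K' L : ℤ) = (p : ℤ) * c := by exact_mod_cast hc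
    rw [hA'] at hexp
    have hp1 : (1 : ℤ) ≤ p := by exact_mod_cast hp.one_le
    have e1 : (p : ℤ) * (k * ((p : ℤ) - 1)) =
        (((Module.finrank K' L : ℤ) - (Nat.card H : ℤ) * p) + k * p - 1) * ((p : ℤ) - 1)
          - (Module.finrank K' L : ℤ) * p
          + (p : ℤ) * (c + (Nat.card H : ℤ) * ((p : ℤ) - 1)) + ((p : ℤ) - 1) := by
      rw [hc']; ring
    have e2 : (p : ℤ) * (k * ((p : ℤ) - 1)) ≤
        (p : ℤ) * (c + (Nat.card H : ℤ) * ((p : ℤ) - 1)) + ((p : ℤ) - 1) := by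
      linarith
    have e3 : k * ((p : ℤ) - 1) ≤ c + (Nat.card H : ℤ) * ((p : ℤ) - 1) := by
      by_contra hcon
      push Not at hcon
      have h4 : c + (Nat.card H : ℤ) * ((p : ℤ) - 1) + 1 ≤ k * ((p : ℤ) - 1) := hcon
      have h5 := mul_le_mul_of_nonneg_left h4 (by linarith : (0 : ℤ) ≤ p)
      linarith
    calc k * ((p : ℤ) * ((p : ℤ) - 1)) = (p : ℤ) * (k * ((p : ℤ) - 1)) := by ring
      _ ≤ (p : ℤ) * (c + (Nat.card H : ℤ) * ((p : ℤ) - 1)) :=
          mul_le_mul_of_nonneg_left e3 (by linarith)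
      _ = _ := by rw [hc']; ring
  change ‖(p : Cp)‖ * ‖algebraMap L Cp ϖ‖ ^ (p * (p - 1)) ≤ δ τ ^ (p * (p - 1))
  have hpp1 : ((p * (p - 1) : ℕ) : ℤ) = (p : ℤ) * ((p : ℤ) - 1) := by
    rw [Nat.cast_mul, Nat.cast_sub (by omega)]; simp
  rw [hϖ, hk, hpN, ← zpow_natCast (y ^ Nat.card H) (p * (p - 1)),
    ← zpow_natCast (y ^ k) (p * (p - 1)), ← zpow_natCast y (Nat.card H), ← zpow_mul, ← zpow_mul,
    ← zpow_add₀ hy0.ne', hpp1]
  exact zpow_le_zpow_right_of_le_one₀ hy0 hy1.le hfin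

open Classical IntermediateField in
/-- **(L5) from Fontaine's property (P_m) in evaluation form**: the layer bound with the
ramification bound (F) discharged by `TotRam.fontaine_bound_of_Pm`. -/
theorem layer_bound_of_Pm (h : TotRam p K' L Cp π) [IsAlgClosed Cp] (hp : p.Prime)
    (hPm : ∀ w : Cp, ‖w‖ ≤ 1 → ‖aeval w (minpoly K' π)‖ ^ (p - 1) < ‖(p : Cp)‖ ^ p →
      ∀ b : L, algebraMap L Cp b ∈ K'⟮w⟯)
    (P H : Subgroup (L ≃ₐ[K'] L)) [Fintype H]
    (hP : ∀ σ : L ≃ₐ[K'] L, ‖algebraMap L Cp (σ π - π)‖ < ‖algebraMap L Cp π‖ → σ ∈ P)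
    (hHP : H ≤ P) (hnorm : ∀ g ∈ P, ∀ x ∈ H, g * x * g⁻¹ ∈ H) (hidx : H.relIndex P = p)
    (ϖ : L) (hϖH : ∀ x ∈ H, x ϖ = ϖ)
    (hϖ : ‖algebraMap L Cp ϖ‖ = ‖algebraMap L Cp π‖ ^ Nat.card H)
    (hS : ∀ τ ∈ P, τ ∉ H →
      ‖algebraMap L Cp (τ ϖ - ϖ)‖ =
        ∏ x : H, ‖algebraMap L Cp ((τ * (x : L ≃ₐ[K'] L)) π - π)‖)
    (τ : L ≃ₐ[K'] L) (hτP : τ ∈ P) (hτH : τ ∉ H) :
    ‖(p : Cp)‖ * ‖algebraMap L Cp ϖ‖ ^ (p * (p - 1)) ≤
      ‖algebraMap L Cp (τ ϖ - ϖ)‖ ^ (p * (p - 1)) := by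
  have hτ1 : τ ≠ 1 := fun hc => hτH (hc ▸ H.one_mem)
  obtain ⟨σ₁, hσ₁mem, hmin⟩ := Finset.exists_min_image
    ((Finset.univ : Finset (L ≃ₐ[K'] L)).erase 1) (fun σ => ‖algebraMap L Cp (σ π - π)‖)
    ⟨τ, Finset.mem_erase.2 ⟨hτ1, Finset.mem_univ _⟩⟩
  have hσ₁ : σ₁ ≠ 1 := Finset.ne_of_mem_erase hσ₁mem
  have hmin' : ∀ σ : L ≃ₐ[K'] L, σ ≠ 1 →
      ‖algebraMap L Cp (σ₁ π - π)‖ ≤ ‖algebraMap L Cp (σ π - π)‖ :=
    fun σ hσ => hmin σ (Finset.mem_erase.2 ⟨hσ, Finset.mem_univ _⟩)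
  exact h.layer_bound_of_F hp σ₁ hmin' (h.fontaine_bound_of_Pm hp.one_lt hPm σ₁ hσ₁ hmin')
    P H hP hHP hnorm hidx ϖ hϖH hϖ hS τ hτP hτH

end TotRam

end Layer

end Fermat.Agent.S56.helper453
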