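/-
S56 (flat local bound, design B), helper453.  Node FLAT-FB-ABS of `s56_nodes`:
the abstract junction "(F) ⟹ (FB)" on the `TotRam` carrier.

Imports `helper453_FontaineBound` ((KR), (EIS), (F), (L5)), `helper862_SerreIV` (Serre IV.3 in
product form and the totally ramified normal form) and `helper1214_LayerLevel` (Kummer break and
the level normal form, junction J1).

* `valL` : the valuation on `L` induced by the norm of `Cp`.
* `exists_stabilizer` : Kummer theory, group side (the stabiliser of a `p`-th root is normal of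
  index `p`).
* `TotRam.exists_zpow_of_fixed` : the value group of a fixed field `L^W` is `‖π‖ ^ (|W| ℤ)`.
* `TotRam.mem_closure_of_fixed` : `O_{L^H} = O_{L^P}[ϖ]` for a uniformiser `ϖ` of `L^H`.
* `TotRam.serre` : Serre's formula `‖τ ϖ - ϖ‖ = ∏_{x ∈ H} ‖(τ x) π - π‖` on the carrier.
* `TotRam.layer_bound'` : (L5) with Serre's formula discharged.
* `TotRam.exists_pow_norm_sub_lt` : perfectness of the residue field passes from `K'` to `L`.
* `TotRam.flat_bound_of_F`, `TotRam.flat_bound_of_Pm`, `TotRam.flat_bound` : **(FB)**: if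
  `F = L^P` (`P ⊇` wild inertia) contains `ζ_p` and `u ∈ F^×` has a `p`-th root in `L`, then
  `u ∈ (1 + p O_F) (F^×)^p`.
* `TotRam.flat_bound_tame_of_F`, `TotRam.flat_bound_tame_of_Pm`, `TotRam.flat_bound_tame` : the
  same for ANY field `K₀` mapping into `L^P` (uniformiser, perfect residue field, `ζ_p ∈ K₀`,
  `p ∤ [G : P]`; `K₀` need not contain `K'`), by tame descent of levels (helper1214 J2).
-/
import Fermat.Agent.S56.helper453_FontaineBound
import Fermat.Agent.S56.helper862_SerreIV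
import Fermat.Agent.S56.helper1214_LayerLevel

set_option autoImplicit false
set_option linter.unusedSectionVars false

open Polynomial

namespace Fermat.Agent.S56.helper453

section ValL

variable (L Cp : Type*) [Field L] [NormedField Cp] [IsUltrametricDist Cp] [Algebra L Cp]

/-- The valuation on `L` induced by the norm of `Cp`. -/
noncomputable def valL : Valuation L NNReal :=
  (NormedField.valuation (K := Cp)).comap (algebraMap L Cp)

variable {L Cp}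

theorem coe_valL (x : L) : ((valL L Cp x : NNReal) : ℝ) = ‖algebraMap L Cp x‖ := rfl

theorem valL_le_iff {x y : L} : valL L Cp x ≤ valL L Cp y ↔
    ‖algebraMap L Cp x‖ ≤ ‖algebraMap L Cp y‖ := by
  rw [← NNReal.coe_le_coe, coe_valL, coe_valL]

theorem valL_lt_iff {x y : L} : valL L Cp x < valL L Cp y ↔
    ‖algebraMap L Cp x‖ < ‖algebraMap L Cp y‖ := by
  rw [← NNReal.coe_lt_coe, coe_valL, coe_valL]

theorem valL_le_one_iff {x : L} : valL L Cp x ≤ 1 ↔ ‖algebraMap L Cp x‖ ≤ 1 := by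
  rw [← NNReal.coe_le_coe, coe_valL, NNReal.coe_one]

theorem valL_lt_one_iff {x : L} : valL L Cp x < 1 ↔ ‖algebraMap L Cp x‖ < 1 := by
  rw [← NNReal.coe_lt_coe, coe_valL, NNReal.coe_one]

theorem valL_eq_zpow_iff {x y : L} (n : ℤ) : valL L Cp x = valL L Cp y ^ n ↔
    ‖algebraMap L Cp x‖ = ‖algebraMap L Cp y‖ ^ n := by
  rw [← NNReal.coe_inj, NNReal.coe_zpow, coe_valL, coe_valL]

theorem valL_eq_pow_iff {x y : L} (n : ℕ) : valL L Cp x = valL L Cp y ^ n ↔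
    ‖algebraMap L Cp x‖ = ‖algebraMap L Cp y‖ ^ n := by
  rw [← NNReal.coe_inj, NNReal.coe_pow, coe_valL, coe_valL]

end ValL

section Kummer

variable {K' L : Type*} [Field K'] [Field L] [Algebra K' L]

/-- Kummer theory, group side: if `P` fixes a primitive `p`-th root of unity `ζ` and `y ^ p`,
and some `τ ∈ P` moves `y`, then the stabiliser of `y` in `P` is normal of index `p`. -/
theorem exists_stabilizer {p : ℕ} (hp : p.Prime) (P : Subgroup (L ≃ₐ[K'] L)) {ζ : L}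
    (hζ : IsPrimitiveRoot ζ p) (hζP : ∀ σ ∈ P, σ ζ = ζ) {y : L} (hy0 : y ≠ 0)
    (hyP : ∀ σ ∈ P, σ (y ^ p) = y ^ p) {τ : L ≃ₐ[K'] L} (hτP : τ ∈ P) (hτy : τ y ≠ y) :
    ∃ H : Subgroup (L ≃ₐ[K'] L), H ≤ P ∧ (∀ σ, σ ∈ H ↔ σ ∈ P ∧ σ y = y) ∧
      (∀ g ∈ P, ∀ x ∈ H, g * x * g⁻¹ ∈ H) ∧ H.relIndex P = p := by
  classical
  have hp0 : p ≠ 0 := hp.ne_zero
  have : NeZero p := ⟨hp0⟩
  have hrat : ∀ σ ∈ P, (σ y / y) ^ p = 1 := by
    intro σ hσ
    rw [div_pow, ← map_pow, hyP σ hσ, div_self (pow_ne_zero _ hy0)]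
  have hfix : ∀ σ ∈ P, ∀ ρ ∈ P, σ (ρ y / y) = ρ y / y := by
    intro σ hσ ρ hρ
    obtain ⟨i, -, hi⟩ := hζ.eq_pow_of_pow_eq_one (hrat ρ hρ)
    rw [← hi, map_pow, hζP σ hσ]
  let φ : ↥P →* Lˣ :=
    { toFun := fun σ => Units.mk0 ((σ : L ≃ₐ[K'] L) y / y)
        (div_ne_zero ((_root_.map_ne_zero _).2 hy0) hy0)
      map_one' := by
        ext
        simp [div_self hy0]
      map_mul' := by
        intro σ ρ
        ext
        have h1 := hfix σ σ.2 ρ ρ.2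
        rw [map_div₀, div_eq_iff ((_root_.map_ne_zero _).2 hy0)] at h1
        simp only [Units.val_mk0, Units.val_mul, Subgroup.coe_mul, AlgEquiv.mul_apply]
        rw [h1]
        field_simp }
  have hφ : ∀ σ : P, φ σ = 1 ↔ (σ : L ≃ₐ[K'] L) y = y := by
    intro σ
    rw [Units.ext_iff]
    change (σ : L ≃ₐ[K'] L) y / y = 1 ↔ _
    rw [div_eq_one_iff_eq hy0]
  refine ⟨φ.ker.map P.subtype, Subgroup.map_subtype_le _, ?_, ?_, ?_⟩
  · intro σ
    rw [Subgroup.mem_map]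
    constructor
    · rintro ⟨x, hx, rfl⟩
      exact ⟨x.2, (hφ x).1 (MonoidHom.mem_ker.1 hx)⟩
    · rintro ⟨hσ, hσy⟩
      exact ⟨⟨σ, hσ⟩, MonoidHom.mem_ker.2 ((hφ ⟨σ, hσ⟩).2 hσy), rfl⟩
  · intro g hg x hx
    rw [Subgroup.mem_map] at hx ⊢
    obtain ⟨x', hx', rfl⟩ := hx
    have hconj := (MonoidHom.normal_ker φ).conj_mem x' hx' ⟨g, hg⟩
    refine ⟨_, hconj, ?_⟩
    simp only [map_mul, map_inv, Subgroup.subtype_apply]
  · have h1 : (φ.ker.map P.subtype).subgroupOf P = φ.ker :=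
      Subgroup.comap_map_eq_self_of_injective Subtype.val_injective _
    rw [Subgroup.relIndex, h1, Subgroup.index_ker]
    have h2 : φ.range ≤ rootsOfUnity p L := by
      rintro _ ⟨σ, rfl⟩
      rw [mem_rootsOfUnity']
      exact hrat σ σ.2
    have h3 : Nat.card φ.range ∣ p := by
      have := Subgroup.card_dvd_of_le h2
      rwa [hζ.card_rootsOfUnity] at this
    rcases (Nat.dvd_prime hp).1 h3 with h4 | h4
    · exfalso
      have h5 : φ.range = ⊥ := Subgroup.card_eq_one.1 h4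
      have h6 : φ ⟨τ, hτP⟩ ∈ φ.range := ⟨_, rfl⟩
      rw [h5, Subgroup.mem_bot] at h6
      exact hτy ((hφ ⟨τ, hτP⟩).1 h6)
    · exact h4

end Kummer

section Fixed

variable {p : ℕ} {K' L Cp : Type*} [Field K'] [Field L] [NormedField Cp] [IsUltrametricDist Cp]
  [Algebra K' L] [Algebra K' Cp] [Algebra L Cp] [IsScalarTower K' L Cp]
  [FiniteDimensional K' L] [IsGalois K' L] {π : L}

namespace TotRam

/-- The norm of `π` from `L` to the fixed field of `W`. -/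
noncomputable def piW (π : L) (W : Subgroup (L ≃ₐ[K'] L)) : L :=
  ∏ᶠ σ : W, (σ : L ≃ₐ[K'] L) π

theorem piW_eq (π : L) (W : Subgroup (L ≃ₐ[K'] L)) [Fintype W] :
    piW π W = ∏ σ : W, (σ : L ≃ₐ[K'] L) π := by
  rw [piW, finprod_eq_prod_of_fintype]

theorem piW_fixed (π : L) (W : Subgroup (L ≃ₐ[K'] L)) (τ : L ≃ₐ[K'] L) (hτ : τ ∈ W) :
    τ (piW π W) = piW π W := by
  classical
  have : Fintype W := Fintype.ofFinite W
  rw [piW_eq, map_prod]
  exact Fintype.prod_equiv (Equiv.mulLeft (⟨τ, hτ⟩ : W)) _ _ (fun σ => rfl)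

theorem norm_piW (h : TotRam p K' L Cp π) (W : Subgroup (L ≃ₐ[K'] L)) :
    ‖algebraMap L Cp (piW π W)‖ = ‖algebraMap L Cp π‖ ^ Nat.card W := by
  classical
  have : Fintype W := Fintype.ofFinite W
  have e : ∀ σ : W, ‖algebraMap L Cp ((σ : L ≃ₐ[K'] L) π)‖ = ‖algebraMap L Cp π‖ :=
    fun σ => h.hinv _ _
  rw [piW_eq, map_prod, norm_prod, Finset.prod_congr rfl (fun σ _ => e σ),
    Finset.prod_const, Finset.card_univ, Nat.card_eq_fintype_card]

theorem piW_ne_zero (h : TotRam p K' L Cp π) (W : Subgroup (L ≃ₐ[K'] L)) : piW π W ≠ 0 := by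
  intro hc
  have h1 := h.norm_piW W
  rw [hc, map_zero, norm_zero] at h1
  exact (pow_pos h.norm_pi_pos _).ne' h1.symm

/-- **Value group of a fixed field.**  If `a ≠ 0` is fixed by the subgroup `W`, then
`‖a‖ ∈ ‖π‖ ^ (|W| ℤ)`: the extension `L / L^W` is totally ramified of degree `|W|`. -/
theorem exists_zpow_of_fixed (h : TotRam p K' L Cp π) (W : Subgroup (L ≃ₐ[K'] L)) {a : L}
    (ha : a ≠ 0) (haW : ∀ σ ∈ W, σ a = a) :
    ∃ n : ℤ, ‖algebraMap L Cp a‖ = ‖algebraMap L Cp π‖ ^ ((Nat.card W : ℤ) * n) := by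
  classical
  set y := ‖algebraMap L Cp π‖ with hy
  have hy0 : 0 < y := h.norm_pi_pos
  have hy1 : y < 1 := h.norm_pi_lt_one
  obtain ⟨k, hk⟩ := h.exists_zpow a ha
  set w := Nat.card W with hw
  have hw0 : 0 < w := Nat.card_pos
  suffices hdvd : (w : ℤ) ∣ k by
    obtain ⟨n, hn⟩ := hdvd
    exact ⟨n, by rw [hk, hn]⟩
  set g := Int.gcd k w with hg
  have hgw : g ∣ w := Int.natCast_dvd_natCast.1 (Int.gcd_dvd_right k (w : ℤ))
  have hg0 : 0 < g := Nat.pos_of_dvd_of_pos hgw hw0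
  have hbez : (g : ℤ) = k * Int.gcdA k w + w * Int.gcdB k w := Int.gcd_eq_gcd_ab k w
  set s := Int.gcdA k w
  set t := Int.gcdB k w
  set c : L := a ^ s * piW π W ^ t with hc
  have hcW : ∀ σ ∈ W, σ c = c := by
    intro σ hσ
    rw [hc, map_mul, map_zpow₀, map_zpow₀, haW σ hσ, piW_fixed π W σ hσ]
  have hcn : ‖algebraMap L Cp c‖ = y ^ g := by
    rw [hc, map_mul, map_zpow₀, map_zpow₀, norm_mul, norm_zpow, norm_zpow, hk, h.norm_piW W,
      ← zpow_natCast y (Nat.card W), ← zpow_mul, ← zpow_mul, ← zpow_add₀ hy0.ne', ← hbez,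
      zpow_natCast]
  set N := Module.finrank K' L with hN
  have hwN : w ∣ N := by
    have h1 : Nat.card W ∣ Nat.card (L ≃ₐ[K'] L) := Subgroup.card_subgroup_dvd_card W
    rwa [IsGalois.card_aut_eq_finrank] at h1
  obtain ⟨e, he⟩ : g ∣ N := hgw.trans hwN
  have hN0 : 0 < N := Module.finrank_pos
  have he0 : 0 < e := by
    rcases Nat.eq_zero_or_pos e with h0 | h0
    · rw [h0, mul_zero] at he; omega
    · exact h0
  have hc0 : c ≠ 0 := by
    intro h0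
    rw [h0, map_zero, norm_zero] at hcn
    exact (pow_pos hy0 g).ne' hcn.symm
  have hvc0 : valL L Cp c ≠ 0 := (Valuation.ne_zero_iff _).2 hc0
  have hvc1 : valL L Cp c < 1 := by
    rw [valL_lt_one_iff, hcn]
    exact pow_lt_one₀ hy0.le hy1 hg0.ne'
  have hKv : ∀ b : K', b ≠ 0 →
      ∃ n : ℤ, valL L Cp (algebraMap K' L b) = valL L Cp c ^ ((e : ℤ) * n) := by
    intro b hb
    obtain ⟨n, hn⟩ := h.hK b hb
    refine ⟨n, ?_⟩
    rw [valL_eq_zpow_iff, ← IsScalarTower.algebraMap_apply, hn, hcn, ← h.hπ, ← hN, he,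
      ← zpow_natCast, ← zpow_natCast, ← zpow_mul, ← zpow_mul]
    congr 1
    push_cast
    ring
  have hli := helper862.linearIndependent_pow (valL L Cp) hvc0 hvc1 (e := e) hKv
  let F := IntermediateField.fixedField W
  have hcF : ∀ i : Fin e, c ^ (i : ℕ) ∈ F :=
    fun i => pow_mem ((IntermediateField.mem_fixedField_iff W c).2 hcW) _
  have hli' : LinearIndependent K' (fun i : Fin e => (⟨c ^ (i : ℕ), hcF i⟩ : F)) := by
    refine LinearIndependent.of_comp F.val.toLinearMap ?_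
    exact hli
  have hle : e ≤ Module.finrank K' F := by
    have := hli'.fintype_card_le_finrank
    simpa using this
  have hmul : Module.finrank K' F * Module.finrank F L = N := Module.finrank_mul_finrank K' F L
  rw [IntermediateField.finrank_fixedField_eq_card] at hmul
  have h1 : e * w ≤ g * e := by
    calc e * w ≤ Module.finrank K' F * w := Nat.mul_le_mul_right _ hle
      _ = N := hmul
      _ = g * e := he
  have h2 : w ≤ g := by
    have : e * w ≤ e * g := by rw [mul_comm e g]; exact h1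
    exact Nat.le_of_mul_le_mul_left this he0
  have h3 : g = w := Nat.le_antisymm (Nat.le_of_dvd hw0 hgw) h2
  rw [← h3]
  exact Int.gcd_dvd_left k w

variable (Cp) in
/-- The integers of the fixed field of `P`, as a subring of `L`. -/
def fixedInt (P : Subgroup (L ≃ₐ[K'] L)) : Subring L where
  carrier := {a | (∀ σ ∈ P, σ a = a) ∧ ‖algebraMap L Cp a‖ ≤ 1}
  mul_mem' := by
    rintro a b ⟨ha, ha'⟩ ⟨hb, hb'⟩
    refine ⟨fun σ hσ => by rw [map_mul, ha σ hσ, hb σ hσ], ?_⟩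
    rw [map_mul, norm_mul]; exact mul_le_one₀ ha' (norm_nonneg _) hb'
  one_mem' := ⟨fun σ _ => map_one σ, by rw [map_one, norm_one]⟩
  add_mem' := by
    rintro a b ⟨ha, ha'⟩ ⟨hb, hb'⟩
    refine ⟨fun σ hσ => by rw [map_add, ha σ hσ, hb σ hσ], ?_⟩
    rw [map_add]; exact (IsUltrametricDist.norm_add_le_max _ _).trans (max_le ha' hb')
  zero_mem' := ⟨fun σ _ => map_zero σ, by rw [map_zero, norm_zero]; exact zero_le_one⟩
  neg_mem' := by
    rintro a ⟨ha, ha'⟩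
    refine ⟨fun σ hσ => by rw [map_neg, ha σ hσ], ?_⟩
    rw [map_neg, norm_neg]; exact ha'

theorem mem_fixedInt {P : Subgroup (L ≃ₐ[K'] L)} {a : L} :
    a ∈ fixedInt Cp P ↔ (∀ σ ∈ P, σ a = a) ∧ ‖algebraMap L Cp a‖ ≤ 1 := Iff.rfl

/-- **Normal form of an intermediate layer**: if `H ≤ P` and `ϖ` is a uniformiser of `L^H`
(fixed by `H`, `‖ϖ‖ = ‖π‖ ^ |H|`), then `O_{L^H} = O_{L^P}[ϖ]`. -/
theorem mem_closure_of_fixed (h : TotRam p K' L Cp π) (P H : Subgroup (L ≃ₐ[K'] L))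
    (hHP : H ≤ P) (ϖ : L) (hϖH : ∀ x ∈ H, x ϖ = ϖ)
    (hϖ : ‖algebraMap L Cp ϖ‖ = ‖algebraMap L Cp π‖ ^ Nat.card H)
    (c : L) (hcH : ∀ x ∈ H, x c = c) (hc : ‖algebraMap L Cp c‖ ≤ 1) :
    c ∈ Subring.closure ((fixedInt Cp P : Set L) ∪ {ϖ}) := by
  classical
  set y := ‖algebraMap L Cp π‖ with hy
  have hy0 : 0 < y := h.norm_pi_pos
  have hy1 : y < 1 := h.norm_pi_lt_one
  let F := IntermediateField.fixedField P
  let FH := IntermediateField.fixedField H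
  have hle : F ≤ FH := fun x hx =>
    (IntermediateField.mem_fixedField_iff H x).2
      (fun σ hσ => (IntermediateField.mem_fixedField_iff P x).1 hx σ (hHP hσ))
  let M := IntermediateField.extendScalars hle
  let vM : Valuation M NNReal := (valL L Cp).comap (algebraMap M L)
  have hϖM : ϖ ∈ M := (IntermediateField.mem_extendScalars hle).2
    ((IntermediateField.mem_fixedField_iff H ϖ).2 hϖH)
  have hcM : c ∈ M := (IntermediateField.mem_extendScalars hle).2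
    ((IntermediateField.mem_fixedField_iff H c).2 hcH)
  set e := H.relIndex P with he
  have hcard : Nat.card H * e = Nat.card P := by
    have h1 := Subgroup.relIndex_mul_relIndex ⊥ H P bot_le hHP
    rwa [Subgroup.relIndex_bot_left, Subgroup.relIndex_bot_left] at h1
  have hH0 : 0 < Nat.card H := Nat.card_pos
  have hP0 : 0 < Nat.card P := Nat.card_pos
  have he0 : 0 < e := by
    rcases Nat.eq_zero_or_pos e with h0 | h0
    · rw [h0, mul_zero] at hcard; omega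
    · exact h0
  have hϖ0 : ϖ ≠ 0 := by
    intro h0
    rw [h0, map_zero, norm_zero] at hϖ
    exact (pow_pos hy0 _).ne' hϖ.symm
  have hvϖ0 : vM ⟨ϖ, hϖM⟩ ≠ 0 := by
    change valL L Cp ϖ ≠ 0
    exact (Valuation.ne_zero_iff _).2 hϖ0
  have hvϖ1 : vM ⟨ϖ, hϖM⟩ < 1 := by
    change valL L Cp ϖ < 1
    rw [valL_lt_one_iff, hϖ]
    exact pow_lt_one₀ hy0.le hy1 hH0.ne'
  have hK : ∀ a : F, a ≠ 0 →
      ∃ n : ℤ, vM (algebraMap F M a) = vM ⟨ϖ, hϖM⟩ ^ ((e : ℤ) * n) := by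
    intro a ha
    obtain ⟨n, hn⟩ := h.exists_zpow_of_fixed P (a := (a : L)) (by simpa using ha)
      (fun σ hσ => (IntermediateField.mem_fixedField_iff P _).1 a.2 σ hσ)
    refine ⟨n, ?_⟩
    change valL L Cp (a : L) = valL L Cp ϖ ^ ((e : ℤ) * n)
    rw [valL_eq_zpow_iff, hn, hϖ, ← zpow_natCast y (Nat.card H), ← zpow_mul, ← hcard]
    congr 1
    push_cast
    ring
  have hfin : Module.finrank F M = e := by
    have h1 := IntermediateField.relfinrank_mul_finrank_top hle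
    rw [IntermediateField.finrank_fixedField_eq_card, IntermediateField.finrank_fixedField_eq_card,
      ← hcard, mul_comm (Nat.card H) e] at h1
    rw [← IntermediateField.relfinrank_eq_finrank_of_le hle]
    exact Nat.eq_of_mul_eq_mul_right hH0 h1
  have hcint : vM ⟨c, hcM⟩ ≤ 1 := by
    change valL L Cp c ≤ 1
    exact valL_le_one_iff.2 hc
  obtain ⟨a, ha, hca⟩ := helper862.exists_integral_coeffs vM hvϖ0 hvϖ1 hK he0 hfin hcint
  have hca' : c = ∑ i : Fin e, (a i : L) * ϖ ^ (i : ℕ) := by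
    have h1 := congrArg (fun z : M => (z : L)) hca
    simp only [AddSubmonoidClass.coe_finsetSum, MulMemClass.coe_mul, SubmonoidClass.coe_pow] at h1
    exact h1
  rw [hca']
  refine Subring.sum_mem _ fun i _ => Subring.mul_mem _ ?_ (Subring.pow_mem _ ?_ _)
  · refine Subring.subset_closure (Or.inl ⟨fun σ hσ =>
      (IntermediateField.mem_fixedField_iff P _).1 (a i).2 σ hσ, ?_⟩)
    have := ha i
    change valL L Cp (a i : L) ≤ 1 at this
    exact valL_le_one_iff.1 this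
  · exact Subring.subset_closure (Or.inr rfl)

/-- **Serre, Local Fields IV Prop. 3 on the `TotRam` carrier**: for `H ≤ P`, `ϖ` a uniformiser
of `L^H` and `τ ∈ P`:  `‖τ ϖ - ϖ‖ = ∏_{x ∈ H} ‖(τ x) π - π‖`. -/
theorem serre (h : TotRam p K' L Cp π) (P H : Subgroup (L ≃ₐ[K'] L)) [Fintype H] (hHP : H ≤ P)
    (ϖ : L) (hϖH : ∀ x ∈ H, x ϖ = ϖ)
    (hϖ : ‖algebraMap L Cp ϖ‖ = ‖algebraMap L Cp π‖ ^ Nat.card H)
    (τ : L ≃ₐ[K'] L) (hτ : τ ∈ P) :
    ‖algebraMap L Cp (τ ϖ - ϖ)‖ =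
      ∏ x : H, ‖algebraMap L Cp ((τ * (x : L ≃ₐ[K'] L)) π - π)‖ := by
  classical
  have hy0 : 0 < ‖algebraMap L Cp π‖ := h.norm_pi_pos
  have hy1 : ‖algebraMap L Cp π‖ < 1 := h.norm_pi_lt_one
  let v := valL L Cp
  let R₀ := fixedInt Cp P
  let H' := H.subgroupOf P
  have : Fintype H' := Fintype.ofFinite _
  have hv : ∀ (g : P) (z : L), v (g • z) = v z := by
    intro g z
    apply NNReal.coe_injective
    exact h.hinv g z
  have hR₀ : ∀ a ∈ R₀, v a ≤ 1 := fun a ha => valL_le_one_iff.2 ha.2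
  have hfix : ∀ (g : P), ∀ a ∈ R₀, g • a = a := fun g a ha => ha.1 g g.2
  have hx : v π ≤ 1 := valL_le_one_iff.2 hy1.le
  have hstab : ∀ x ∈ H', x • π = π → x = 1 := by
    intro x _ hxπ
    exact Subtype.ext (h.hgen (x : L ≃ₐ[K'] L) hxπ)
  have hyH : ∀ x ∈ H', x • ϖ = ϖ := fun x hx => hϖH x (Subgroup.mem_subgroupOf.1 hx)
  have hϖ1 : ‖algebraMap L Cp ϖ‖ ≤ 1 := by rw [hϖ]; exact pow_le_one₀ hy0.le hy1.le
  -- `ϖ ∈ O_F[π]`
  have hyx : ϖ ∈ Subring.closure ((R₀ : Set L) ∪ {π}) := by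
    refine h.mem_closure_of_fixed P ⊥ bot_le π (fun x hx => ?_) ?_ ϖ (fun x hx => ?_) hϖ1
    · rw [Subgroup.mem_bot.1 hx]; rfl
    · rw [Subgroup.card_bot, pow_one]
    · rw [Subgroup.mem_bot.1 hx]; rfl
  -- the coefficients of `∏ (X - x π)` are in `O_F[ϖ]`
  have hcoef : ∀ k, (∏ x : H', (X - C ((x : P) • π))).coeff k ∈
      Subring.closure ((R₀ : Set L) ∪ {ϖ}) := by
    intro k
    set f : L[X] := ∏ x : H', (X - C ((x : P) • π)) with hf
    have hmap : ∀ σ ∈ H, f.map ((σ : L ≃ₐ[K'] L) : L →+* L) = f := by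
      intro σ hσ
      rw [hf, Polynomial.map_prod]
      let σ' : H' := ⟨⟨σ, hHP hσ⟩, Subgroup.mem_subgroupOf.2 hσ⟩
      refine Fintype.prod_equiv (Equiv.mulLeft σ') _ _ (fun x => ?_)
      rw [Polynomial.map_sub, Polynomial.map_X, Polynomial.map_C]
      rfl
    have hcH : ∀ σ ∈ H, σ (f.coeff k) = f.coeff k := by
      intro σ hσ
      have h1 := congrArg (fun q : L[X] => q.coeff k) (hmap σ hσ)
      simp only [Polynomial.coeff_map] at h1
      exact h1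
    have hcint : ‖algebraMap L Cp (f.coeff k)‖ ≤ 1 := by
      rw [← Polynomial.coeff_map, hf, Polynomial.map_prod]
      refine intC_prod _ _ (fun x _ => ?_) k
      rw [Polynomial.map_sub, Polynomial.map_X, Polynomial.map_C]
      refine intC_X_sub_C ?_
      change ‖algebraMap L Cp (((x : P) : L ≃ₐ[K'] L) π)‖ ≤ 1
      rw [h.hinv]
      exact hy1.le
    exact h.mem_closure_of_fixed P H hHP ϖ hϖH hϖ _ hcH hcint
  have key := helper862.serre_prod_subgroup v hv R₀ hR₀ hfix H' hx hstab hyH hyx hcoef ⟨τ, hτ⟩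
  have key' := congrArg (fun r : NNReal => (r : ℝ)) key
  simp only [NNReal.coe_prod] at key'
  rw [show ‖algebraMap L Cp (τ ϖ - ϖ)‖ = ((v ((⟨τ, hτ⟩ : P) • ϖ - ϖ) : NNReal) : ℝ) from rfl, key']
  exact Fintype.prod_equiv (Subgroup.subgroupOfEquivOfLe hHP).toEquiv _ _ (fun x => rfl)

/-- The residue field of `L` is that of `K'`: every integral element of `L` is congruent to
an integral element of `K'` modulo the maximal ideal. -/
theorem exists_norm_sub_algebraMap_lt (h : TotRam p K' L Cp π) {a : L}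
    (ha : ‖algebraMap L Cp a‖ ≤ 1) :
    ∃ c : K', ‖algebraMap K' Cp c‖ ≤ 1 ∧ ‖algebraMap L Cp (a - algebraMap K' L c)‖ < 1 := by
  have hint := h.intC_rep ha
  refine ⟨(rep h.pb a).coeff 0, ?_, ?_⟩
  · have := hint 0
    rwa [coeff_map] at this
  · have e : a - algebraMap K' L ((rep h.pb a).coeff 0) = aeval π (rep h.pb a).divX * π := by
      have h1 : aeval π (rep h.pb a) = a := by
        have := aeval_rep h.pb a
        rwa [h.pb_gen] at this
      have h2 := congrArg (aeval π) (Polynomial.divX_mul_X_add (rep h.pb a))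
      rw [h1, map_add, map_mul, aeval_X, aeval_C] at h2
      exact sub_eq_iff_eq_add.2 h2.symm
    rw [e, map_mul, norm_mul]
    have h1 : ‖algebraMap L Cp (aeval π (rep h.pb a).divX)‖ ≤ 1 := by
      rw [← aeval_algebraMap_apply, ← eval_map_algebraMap]
      refine IntC.norm_eval_le ?_ h.norm_pi_lt_one.le
      intro i
      rw [coeff_map, coeff_divX]
      have := hint (i + 1)
      rwa [coeff_map] at this
    calc ‖algebraMap L Cp (aeval π (rep h.pb a).divX)‖ * ‖algebraMap L Cp π‖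
        ≤ 1 * ‖algebraMap L Cp π‖ := mul_le_mul_of_nonneg_right h1 (norm_nonneg _)
      _ < 1 := by rw [one_mul]; exact h.norm_pi_lt_one

/-- If the residue field of `K'` is perfect, every integral element of `L` is a `p`-th power
of an element of `K'` modulo the maximal ideal. -/
theorem exists_pow_norm_sub_lt (h : TotRam p K' L Cp π)
    (hperf : ∀ a : K', ‖algebraMap K' Cp a‖ ≤ 1 → ∃ b : K', ‖algebraMap K' Cp (a - b ^ p)‖ < 1)
    {a : L} (ha : ‖algebraMap L Cp a‖ ≤ 1) :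
    ∃ b : K', ‖algebraMap L Cp (a - algebraMap K' L b ^ p)‖ < 1 := by
  obtain ⟨c, hc, hac⟩ := h.exists_norm_sub_algebraMap_lt ha
  obtain ⟨b, hb⟩ := hperf c hc
  refine ⟨b, ?_⟩
  have e : a - algebraMap K' L b ^ p = (a - algebraMap K' L c) + algebraMap K' L (c - b ^ p) := by
    rw [map_sub, map_pow]; ring
  rw [e, map_add]
  refine lt_of_le_of_lt (IsUltrametricDist.norm_add_le_max _ _) (max_lt hac ?_)
  rw [← IsScalarTower.algebraMap_apply]
  exact hb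

open Classical in
/-- **(L5) with Serre's formula discharged**: the layer bound for `H ⊴ P`, `[P : H] = p`, `ϖ` a
uniformiser of `L^H`, `τ ∈ P ∖ H`, from the ramification bound (F) alone. -/
theorem layer_bound' (h : TotRam p K' L Cp π) (hp : p.Prime)
    (σ₁ : L ≃ₐ[K'] L)
    (hmin : ∀ σ : L ≃ₐ[K'] L, σ ≠ 1 →
      ‖algebraMap L Cp (σ₁ π - π)‖ ≤ ‖algebraMap L Cp (σ π - π)‖)
    (hF : ‖(p : Cp)‖ ^ ((p : ℝ) / ((p : ℝ) - 1)) ≤
      ‖algebraMap L Cp (σ₁ π - π)‖ *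
        (∏ σ ∈ (Finset.univ : Finset (L ≃ₐ[K'] L)).erase 1, ‖algebraMap L Cp (σ π - π)‖)
          / ‖algebraMap L Cp π‖)
    (P H : Subgroup (L ≃ₐ[K'] L))
    (hP : ∀ σ : L ≃ₐ[K'] L, ‖algebraMap L Cp (σ π - π)‖ < ‖algebraMap L Cp π‖ → σ ∈ P)
    (hHP : H ≤ P) (hnorm : ∀ g ∈ P, ∀ x ∈ H, g * x * g⁻¹ ∈ H) (hidx : H.relIndex P = p)
    (ϖ : L) (hϖH : ∀ x ∈ H, x ϖ = ϖ)
    (hϖ : ‖algebraMap L Cp ϖ‖ = ‖algebraMap L Cp π‖ ^ Nat.card H)
    (τ : L ≃ₐ[K'] L) (hτP : τ ∈ P) (hτH : τ ∉ H) :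
    ‖(p : Cp)‖ * ‖algebraMap L Cp ϖ‖ ^ (p * (p - 1)) ≤
      ‖algebraMap L Cp (τ ϖ - ϖ)‖ ^ (p * (p - 1)) := by
  have : Fintype H := Fintype.ofFinite H
  exact h.layer_bound_of_F hp σ₁ hmin hF P H hP hHP hnorm hidx ϖ hϖH hϖ
    (fun τ' hτ' _ => h.serre P H hHP ϖ hϖH hϖ τ' hτ') τ hτP hτH

open Classical in
/-- **(FB), abstract form.**  `L/K'` totally ramified Galois with uniformiser `π`, `K'`
absolutely unramified with perfect residue field, satisfying the ramification bound (F).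
Let `P` be a subgroup of `Gal(L/K')` containing the wild inertia, `F = L^P`, `ζ ∈ F` a
primitive `p`-th root of unity.  Then every `u ∈ F^×` with a `p`-th root in `L` lies in
`(1 + p O_F) · (F^×)^p`. -/
theorem flat_bound_of_F (h : TotRam p K' L Cp π) (hp : p.Prime)
    (hF : ∀ σ₁ : L ≃ₐ[K'] L, σ₁ ≠ 1 →
      (∀ σ : L ≃ₐ[K'] L, σ ≠ 1 →
        ‖algebraMap L Cp (σ₁ π - π)‖ ≤ ‖algebraMap L Cp (σ π - π)‖) →
      ‖(p : Cp)‖ ^ ((p : ℝ) / ((p : ℝ) - 1)) ≤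
        ‖algebraMap L Cp (σ₁ π - π)‖ *
          (∏ σ ∈ (Finset.univ : Finset (L ≃ₐ[K'] L)).erase 1, ‖algebraMap L Cp (σ π - π)‖)
            / ‖algebraMap L Cp π‖)
    (hperf : ∀ a : K', ‖algebraMap K' Cp a‖ ≤ 1 → ∃ b : K', ‖algebraMap K' Cp (a - b ^ p)‖ < 1)
    (P : Subgroup (L ≃ₐ[K'] L))
    (hP : ∀ σ : L ≃ₐ[K'] L, ‖algebraMap L Cp (σ π - π)‖ < ‖algebraMap L Cp π‖ → σ ∈ P)
    {ζ : L} (hζ : IsPrimitiveRoot ζ p) (hζP : ∀ σ ∈ P, σ ζ = ζ)
    {u : L} (hu : u ≠ 0) (huP : ∀ σ ∈ P, σ u = u) {y : L} (hy : y ^ p = u) :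
    ∃ t : L, (∀ σ ∈ P, σ t = t) ∧ t ≠ 0 ∧ ‖algebraMap L Cp (u * t ^ p - 1)‖ ≤ ‖(p : Cp)‖ := by
  have hy0 : y ≠ 0 := fun h0 => hu (by rw [← hy, h0, zero_pow hp.ne_zero])
  by_cases hyP : ∀ σ ∈ P, σ y = y
  · refine ⟨y⁻¹, fun σ hσ => by rw [map_inv₀, hyP σ hσ], inv_ne_zero hy0, ?_⟩
    rw [inv_pow, hy, mul_inv_cancel₀ hu, sub_self, map_zero, norm_zero]
    exact norm_nonneg _
  push Not at hyP
  obtain ⟨τ, hτP, hτy⟩ := hyP
  have hτ1 : τ ≠ 1 := fun hc => hτy (by rw [hc]; rfl)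
  -- a minimiser and (F)
  obtain ⟨σ₁, hσ₁mem, hmin0⟩ := Finset.exists_min_image
    ((Finset.univ : Finset (L ≃ₐ[K'] L)).erase 1) (fun σ => ‖algebraMap L Cp (σ π - π)‖)
    ⟨τ, Finset.mem_erase.2 ⟨hτ1, Finset.mem_univ _⟩⟩
  have hσ₁ : σ₁ ≠ 1 := Finset.ne_of_mem_erase hσ₁mem
  have hmin : ∀ σ : L ≃ₐ[K'] L, σ ≠ 1 →
      ‖algebraMap L Cp (σ₁ π - π)‖ ≤ ‖algebraMap L Cp (σ π - π)‖ :=
    fun σ hσ => hmin0 σ (Finset.mem_erase.2 ⟨hσ, Finset.mem_univ _⟩)
  have hFσ := hF σ₁ hσ₁ hmin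
  -- the stabiliser of `y`
  obtain ⟨H, hHP, hHmem, hnorm, hidx⟩ := exists_stabilizer hp P hζ hζP hy0
    (fun σ hσ => by rw [hy]; exact huP σ hσ) hτP hτy
  have hτH : τ ∉ H := fun hc => hτy ((hHmem τ).1 hc).2
  have hcard : Nat.card H * p = Nat.card P := by
    have h1 := Subgroup.relIndex_mul_relIndex ⊥ H P bot_le hHP
    rwa [Subgroup.relIndex_bot_left, Subgroup.relIndex_bot_left, hidx] at h1
  -- carriers
  set yπ := ‖algebraMap L Cp π‖ with hyπ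
  have hyπ0 : 0 < yπ := h.norm_pi_pos
  have hyπ1 : yπ < 1 := h.norm_pi_lt_one
  let F := IntermediateField.fixedField P
  let v := valL L Cp
  let vF : Valuation F NNReal := v.comap (algebraMap F L)
  let ι : F →+* L := algebraMap F L
  have hι : ∀ x, v (ι x) = vF x := fun x => rfl
  have hmemF : ∀ x : L, (∀ σ ∈ P, σ x = x) → x ∈ F :=
    fun x hx => (IntermediateField.mem_fixedField_iff P x).2 hx
  have hFfix : ∀ x : F, ∀ σ ∈ P, σ (x : L) = x :=
    fun x σ hσ => (IntermediateField.mem_fixedField_iff P _).1 x.2 σ hσ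
  let πF : F := ⟨piW π P, hmemF _ (piW_fixed π P)⟩
  let ζF : F := ⟨ζ, hmemF _ hζP⟩
  let uF : F := ⟨u, hmemF _ huP⟩
  have hπFn : ‖algebraMap L Cp (piW π P)‖ = yπ ^ Nat.card P := h.norm_piW P
  have hπF : helper4188.IsUnif vF πF := by
    refine ⟨?_, ?_, ?_⟩
    · change valL L Cp (piW π P) < 1
      rw [valL_lt_one_iff, hπFn]
      exact pow_lt_one₀ hyπ0.le hyπ1 Nat.card_pos.ne'
    · intro hc
      exact h.piW_ne_zero P (congrArg Subtype.val hc)
    · intro x hx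
      obtain ⟨n, hn⟩ := h.exists_zpow_of_fixed P (a := (x : L)) (by simpa using hx) (hFfix x)
      refine ⟨n, ?_⟩
      change valL L Cp (x : L) = valL L Cp (piW π P) ^ n
      rw [valL_eq_zpow_iff, hn, hπFn, ← zpow_natCast yπ, ← zpow_mul]
  have hζF : IsPrimitiveRoot ζF p :=
    IsPrimitiveRoot.of_map_of_injective (f := algebraMap F L) hζ (algebraMap F L).injective
  have hperfF : ∀ a : F, vF a ≤ 1 → ∃ b : F, vF (a - b ^ p) < 1 := by
    intro a ha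
    obtain ⟨b, hb⟩ := h.exists_pow_norm_sub_lt hperf (a := (a : L)) (valL_le_one_iff.1 ha)
    refine ⟨algebraMap K' F b, ?_⟩
    change valL L Cp ((a : L) - (algebraMap K' L b) ^ p) < 1
    exact valL_lt_one_iff.2 hb
  -- the exponent `E`
  have hvp : v (p : L) = v (ζ - 1) ^ (p - 1) := helper1214.val_prime_eq v hp hζ
  have hpn : ((v (p : L) : NNReal) : ℝ) = ‖(p : Cp)‖ := by
    change ‖algebraMap L Cp (p : L)‖ = _
    rw [map_natCast]
  have hζlt : v (ζ - 1) < 1 := by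
    by_contra hc
    push Not at hc
    have h1 : 1 ≤ v (ζ - 1) ^ (p - 1) := one_le_pow₀ hc
    rw [← hvp] at h1
    have h2 : (1 : ℝ) ≤ ‖(p : Cp)‖ := by rw [← hpn]; exact_mod_cast h1
    exact absurd h.hp1 (not_lt.2 h2)
  obtain ⟨E, hE, hE0⟩ : ∃ E : ℕ, vF (ζF - 1) = vF πF ^ E ∧ 0 < E := by
    obtain ⟨n, hn⟩ := hπF.exists_zpow (ζF - 1) (sub_ne_zero.2 (hζF.ne_one hp.one_lt))
    have hn0 : 0 < n := by
      have h1 : vF (ζF - 1) < 1 := hζlt
      rw [hn, ← zpow_zero (vF πF), hπF.zpow_lt_zpow_iff] at h1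
      exact h1
    refine ⟨n.toNat, ?_, by omega⟩
    rw [hn, ← zpow_natCast, Int.toNat_of_nonneg hn0.le]
  -- the exponent `k`
  have : NeZero p := ⟨hp.ne_zero⟩
  obtain ⟨k, hk, hτyk⟩ : ∃ k : ℕ, ¬ p ∣ k ∧ τ y = ζ ^ k * y := by
    have h1 : (τ y / y) ^ p = 1 := by
      rw [div_pow, ← map_pow, hy, huP τ hτP, div_self hu]
    obtain ⟨i, hi, hiζ⟩ := hζ.eq_pow_of_pow_eq_one h1
    refine ⟨i, ?_, ?_⟩
    · intro hdvd
      have hi0 : i = 0 := Nat.eq_zero_of_dvd_of_lt hdvd hi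
      rw [hi0, pow_zero] at hiζ
      exact hτy ((div_eq_one_iff_eq hy0).1 hiζ.symm)
    · rw [hiζ, div_mul_cancel₀ _ hy0]
  -- the layer field
  let M : Subfield L := (IntermediateField.fixedField H).toSubfield
  have hM : ∀ x : F, ι x ∈ M := fun x =>
    (IntermediateField.mem_fixedField_iff H _).2 (fun σ hσ => hFfix x σ (hHP hσ))
  have hyM : y ∈ M :=
    (IntermediateField.mem_fixedField_iff H _).2 (fun σ hσ => ((hHmem σ).1 hσ).2)
  have hL5 : ∀ ϖ ∈ M, v ϖ ^ p = vF πF →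
      vF (ζF - 1) * vF πF ≤ v ((τ : L →+* L) ϖ - ϖ) ^ p := by
    intro ϖ hϖM hϖp
    have hϖH : ∀ x ∈ H, x ϖ = ϖ := (IntermediateField.mem_fixedField_iff H ϖ).1 hϖM
    have hϖn : ‖algebraMap L Cp ϖ‖ = yπ ^ Nat.card H := by
      have h1 : ‖algebraMap L Cp ϖ‖ ^ p = (yπ ^ Nat.card H) ^ p := by
        have h2 := congrArg (fun r : NNReal => (r : ℝ)) hϖp
        simp only [NNReal.coe_pow] at h2
        rw [← pow_mul, hcard, ← hπFn]
        exact h2
      exact (pow_left_inj₀ (norm_nonneg _) (pow_nonneg hyπ0.le _) hp.ne_zero).1 h1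
    have hL := h.layer_bound' hp σ₁ hmin hFσ P H hP hHP hnorm hidx ϖ hϖH hϖn τ hτP hτH
    have hform : v (p : L) * (v ϖ ^ p) ^ (p - 1) ≤ (v (τ ϖ - ϖ) ^ p) ^ (p - 1) := by
      rw [← NNReal.coe_le_coe]
      push_cast
      rw [hpn, ← pow_mul, ← pow_mul]
      exact hL
    have := helper1214.layer_bound_of_prime_form v hp hζ hform
    rw [hϖp] at this
    exact this
  have hlev := helper1214.levelGE_of_layer_bound vF v ι hι hp hζF hπF hperfF hE hE0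
    (u := uF) (fun hc => hu (congrArg Subtype.val hc)) (y := y) hy (τ : L →+* L)
    (fun x => hFfix x τ hτP) hk hτyk M hM hyM hL5
  obtain ⟨w, hw, hwle⟩ := hlev
  refine ⟨(w : L), hFfix w, fun hc => hw (Subtype.ext hc), ?_⟩
  have h1 : vF πF ^ ((p - 1) * E) = v (p : L) := by
    rw [mul_comm, pow_mul, ← hE, hvp]; rfl
  rw [h1] at hwle
  have h2 : ((vF (uF * w ^ p - 1) : NNReal) : ℝ) ≤ ((v (p : L) : NNReal) : ℝ) :=
    NNReal.coe_le_coe.2 hwle
  rw [hpn] at h2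
  exact h2

end TotRam

end Fixed

section Tame

variable {p : ℕ} {K' L Cp : Type*} [Field K'] [Field L] [NormedField Cp] [IsUltrametricDist Cp]
  [Algebra K' L] [Algebra K' Cp] [Algebra L Cp] [IsScalarTower K' L Cp]
  [FiniteDimensional K' L] [IsGalois K' L] {π : L}

namespace TotRam

open Classical in
/-- **(FB) over a subfield of the tame field.**  In the situation of `flat_bound_of_F`, assume
moreover `p ∤ [Gal(L/K') : P]` (e.g. `P` the wild inertia).  Let `K₀` be any field with a ring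
homomorphism `j : K₀ → L` whose image is fixed by `P`, with a uniformiser `πK`, perfect residue
field and a primitive `p`-th root of unity.  Then every `u ∈ K₀^×` such that `j u` has a `p`-th
root in `L` lies in `(1 + p O_{K₀}) (K₀^×)^p`.  (No hypothesis `K' ⊆ K₀`.) -/
theorem flat_bound_tame_of_F (h : TotRam p K' L Cp π) (hp : p.Prime)
    (hF : ∀ σ₁ : L ≃ₐ[K'] L, σ₁ ≠ 1 →
      (∀ σ : L ≃ₐ[K'] L, σ ≠ 1 →
        ‖algebraMap L Cp (σ₁ π - π)‖ ≤ ‖algebraMap L Cp (σ π - π)‖) →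
      ‖(p : Cp)‖ ^ ((p : ℝ) / ((p : ℝ) - 1)) ≤
        ‖algebraMap L Cp (σ₁ π - π)‖ *
          (∏ σ ∈ (Finset.univ : Finset (L ≃ₐ[K'] L)).erase 1, ‖algebraMap L Cp (σ π - π)‖)
            / ‖algebraMap L Cp π‖)
    (hperf : ∀ a : K', ‖algebraMap K' Cp a‖ ≤ 1 → ∃ b : K', ‖algebraMap K' Cp (a - b ^ p)‖ < 1)
    (P : Subgroup (L ≃ₐ[K'] L))
    (hP : ∀ σ : L ≃ₐ[K'] L, ‖algebraMap L Cp (σ π - π)‖ < ‖algebraMap L Cp π‖ → σ ∈ P)
    (hPidx : ¬ p ∣ P.index)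
    {K₀ : Type*} [Field K₀] (j : K₀ →+* L) (hjP : ∀ σ ∈ P, ∀ x : K₀, σ (j x) = j x)
    {πK : K₀} (hπK : helper4188.IsUnif ((valL L Cp).comap j) πK)
    (hperfK : ∀ a : K₀, ‖algebraMap L Cp (j a)‖ ≤ 1 →
      ∃ b : K₀, ‖algebraMap L Cp (j (a - b ^ p))‖ < 1)
    {ζ : K₀} (hζ : IsPrimitiveRoot ζ p) {u : K₀} (hu : u ≠ 0) {y : L} (hy : y ^ p = j u) :
    ∃ t : K₀, t ≠ 0 ∧ ‖algebraMap L Cp (j (u * t ^ p - 1))‖ ≤ ‖(p : Cp)‖ := by
  set yπ := ‖algebraMap L Cp π‖ with hyπ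
  have hyπ0 : 0 < yπ := h.norm_pi_pos
  have hyπ1 : yπ < 1 := h.norm_pi_lt_one
  have hζL : IsPrimitiveRoot (j ζ) p := hζ.map_of_injective j.injective
  have hjuL : j u ≠ 0 := (_root_.map_ne_zero j).2 hu
  -- (FB) over `F = L^P`
  obtain ⟨t₁, ht₁P, ht₁0, ht₁⟩ := h.flat_bound_of_F hp hF hperf P hP hζL
    (fun σ hσ => hjP σ hσ ζ) hjuL (fun σ hσ => hjP σ hσ u) hy
  -- carriers
  let F := IntermediateField.fixedField P
  let v := valL L Cp
  let vF : Valuation F NNReal := v.comap (algebraMap F L)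
  let vK : Valuation K₀ NNReal := v.comap j
  have hmemF : ∀ x : L, (∀ σ ∈ P, σ x = x) → x ∈ F :=
    fun x hx => (IntermediateField.mem_fixedField_iff P x).2 hx
  have hFfix : ∀ x : F, ∀ σ ∈ P, σ (x : L) = x :=
    fun x σ hσ => (IntermediateField.mem_fixedField_iff P _).1 x.2 σ hσ
  let πF : F := ⟨piW π P, hmemF _ (piW_fixed π P)⟩
  have hπFn : ‖algebraMap L Cp (piW π P)‖ = yπ ^ Nat.card P := h.norm_piW P
  have hπF : helper4188.IsUnif vF πF := by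
    refine ⟨?_, ?_, ?_⟩
    · change valL L Cp (piW π P) < 1
      rw [valL_lt_one_iff, hπFn]
      exact pow_lt_one₀ hyπ0.le hyπ1 Nat.card_pos.ne'
    · intro hc
      exact h.piW_ne_zero P (congrArg Subtype.val hc)
    · intro x hx
      obtain ⟨n, hn⟩ := h.exists_zpow_of_fixed P (a := (x : L)) (by simpa using hx) (hFfix x)
      refine ⟨n, ?_⟩
      change valL L Cp (x : L) = valL L Cp (piW π P) ^ n
      rw [valL_eq_zpow_iff, hn, hπFn, ← zpow_natCast yπ, ← zpow_mul]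
  let j' : K₀ →+* F :=
    { toFun := fun x => ⟨j x, hmemF _ (fun σ hσ => hjP σ hσ x)⟩
      map_one' := Subtype.ext (map_one j)
      map_mul' := fun a b => Subtype.ext (map_mul j a b)
      map_zero' := Subtype.ext (map_zero j)
      map_add' := fun a b => Subtype.ext (map_add j a b) }
  have hj : ∀ x, vF (j' x) = vK x := fun x => rfl
  have hperfK' : ∀ a : K₀, vK a ≤ 1 → ∃ b : K₀, vK (a - b ^ p) < 1 := by
    intro a ha
    obtain ⟨b, hb⟩ := hperfK a (valL_le_one_iff.1 ha)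
    exact ⟨b, valL_lt_one_iff.2 hb⟩
  -- the ramification index `e'` of `F` over `K₀`
  obtain ⟨e', he', he'0⟩ : ∃ e' : ℕ, vK πK = vF πF ^ e' ∧ 0 < e' := by
    obtain ⟨n, hn⟩ := hπF.exists_zpow (j' πK) ((_root_.map_ne_zero j').2 hπK.ne_zero)
    have hn0 : 0 < n := by
      have h1 : vF (j' πK) < 1 := hπK.lt_one
      rw [hn, ← zpow_zero (vF πF), hπF.zpow_lt_zpow_iff] at h1
      exact h1
    refine ⟨n.toNat, ?_, by omega⟩
    rw [← hj, hn, ← zpow_natCast, Int.toNat_of_nonneg hn0.le]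
  have hpK0 : (p : K₀) ≠ 0 := by
    intro hc
    have h1 : ‖algebraMap L Cp (j (p : K₀))‖ = ‖(p : Cp)‖ := by
      rw [map_natCast, map_natCast]
    rw [hc, map_zero, map_zero, norm_zero] at h1
    exact h.hp0.ne' h1.symm
  have hpe' : ¬ p ∣ e' := by
    intro hdvd
    obtain ⟨m, hm⟩ := hπK.exists_zpow (p : K₀) hpK0
    -- `‖p‖ = ‖π‖ ^ (|P| e' m)` and `‖p‖ = ‖π‖ ^ N`
    have h1 : ‖(p : Cp)‖ = yπ ^ ((Nat.card P : ℤ) * e' * m) := by
      have h2 := congrArg (fun r : NNReal => (r : ℝ)) hm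
      have h3 := congrArg (fun r : NNReal => (r : ℝ)) he'
      simp only [NNReal.coe_zpow, NNReal.coe_pow] at h2 h3
      have h4 : ‖algebraMap L Cp (j (p : K₀))‖ = ‖algebraMap L Cp (j πK)‖ ^ m := h2
      have h5 : ‖algebraMap L Cp (j πK)‖ = ‖algebraMap L Cp (piW π P)‖ ^ e' := h3
      rw [map_natCast, map_natCast, h5, hπFn] at h4
      rw [h4, ← zpow_natCast (yπ ^ Nat.card P) e', ← zpow_natCast yπ (Nat.card P), ← zpow_mul,
        ← zpow_mul, mul_assoc]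
    have h2 : ‖(p : Cp)‖ = yπ ^ ((Module.finrank K' L : ℕ) : ℤ) := by
      rw [zpow_natCast]; exact h.hπ.symm
    have h3 : ((Module.finrank K' L : ℕ) : ℤ) = (Nat.card P : ℤ) * e' * m :=
      zpow_right_injective₀ hyπ0 hyπ1.ne (h2.symm.trans h1)
    have h4 : P.index * Nat.card P = Module.finrank K' L := by
      rw [Subgroup.index_mul_card, IsGalois.card_aut_eq_finrank]
    have h5 : ((P.index : ℕ) : ℤ) = e' * m := by
      have hP0 : (0 : ℤ) < Nat.card P := by exact_mod_cast Nat.card_pos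
      have h6 : ((P.index : ℕ) : ℤ) * Nat.card P = (Nat.card P : ℤ) * e' * m := by
        rw [← h3, ← h4]; push_cast; ring
      have h7 : (Nat.card P : ℤ) * ((P.index : ℕ) : ℤ) = (Nat.card P : ℤ) * (e' * m) := by
        linarith
      exact mul_left_cancel₀ hP0.ne' h7
    have h6 : (p : ℤ) ∣ ((P.index : ℕ) : ℤ) := by
      rw [h5]
      exact Dvd.dvd.mul_right (Int.natCast_dvd_natCast.2 hdvd) m
    exact hPidx (Int.natCast_dvd_natCast.1 h6)
  -- the exponent `E`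
  have hvp : vK (p : K₀) = vK (ζ - 1) ^ (p - 1) := helper1214.val_prime_eq vK hp hζ
  have hpn : ((vK (p : K₀) : NNReal) : ℝ) = ‖(p : Cp)‖ := by
    change ‖algebraMap L Cp (j (p : K₀))‖ = _
    rw [map_natCast, map_natCast]
  have hζlt : vK (ζ - 1) < 1 := by
    by_contra hc
    push Not at hc
    have h1 : 1 ≤ vK (ζ - 1) ^ (p - 1) := one_le_pow₀ hc
    rw [← hvp] at h1
    have h2 : (1 : ℝ) ≤ ‖(p : Cp)‖ := by rw [← hpn]; exact_mod_cast h1
    exact absurd h.hp1 (not_lt.2 h2)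
  obtain ⟨E, hE, hE0⟩ : ∃ E : ℕ, vK (ζ - 1) = vK πK ^ E ∧ 0 < E := by
    obtain ⟨n, hn⟩ := hπK.exists_zpow (ζ - 1) (sub_ne_zero.2 (hζ.ne_one hp.one_lt))
    have hn0 : 0 < n := by
      have h1 := hζlt
      rw [hn, ← zpow_zero (vK πK), hπK.zpow_lt_zpow_iff] at h1
      exact h1
    refine ⟨n.toNat, ?_, by omega⟩
    rw [hn, ← zpow_natCast, Int.toNat_of_nonneg hn0.le]
  have hvpE : vK (p : K₀) = vK πK ^ ((p - 1) * E) := by
    rw [hvp, hE, ← pow_mul, mul_comm]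
  -- level over `F`
  have hlevF : helper4188.LevelGE vF πF p (e' * ((p - 1) * E)) (j' u) := by
    refine ⟨⟨t₁, hmemF _ ht₁P⟩, fun hc => ht₁0 (congrArg Subtype.val hc), ?_⟩
    rw [pow_mul, ← he', ← hvpE, ← NNReal.coe_le_coe, hpn]
    exact ht₁
  have hlev := helper1214.levelGE_of_levelGE_tame vK vF j' hj hp hζ hπK hperfK' hπF he' hpe' hE
    hu (Nat.mul_le_mul_right E (Nat.sub_le p 1)) hlevF
  obtain ⟨w, hw, hwle⟩ := hlev
  refine ⟨w, hw, ?_⟩
  rw [← hvpE] at hwle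
  have h2 : ((vK (u * w ^ p - 1) : NNReal) : ℝ) ≤ ((vK (p : K₀) : NNReal) : ℝ) :=
    NNReal.coe_le_coe.2 hwle
  rw [hpn] at h2
  exact h2

end TotRam

end Tame

section Final

open WithConv Coalgebra

variable {p : ℕ} {R₀ H K' L Cp : Type*} [CommRing R₀] [CommRing H] [Bialgebra R₀ H]
  [Field K'] [Field L] [NormedField Cp] [IsUltrametricDist Cp]
  [Algebra K' L] [Algebra K' Cp] [Algebra L Cp] [IsScalarTower K' L Cp]
  [Algebra R₀ K'] [Algebra R₀ L] [Algebra R₀ Cp] [IsScalarTower R₀ K' L] [IsScalarTower R₀ K' Cp]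
  [IsScalarTower R₀ L Cp]
  [FiniteDimensional K' L] [IsGalois K' L] {π : L}

open IntermediateField in
/-- **(FB) from Fontaine's property (P_m) in evaluation form.** -/
theorem TotRam.flat_bound_of_Pm (h : TotRam p K' L Cp π) [IsAlgClosed Cp] (hp : p.Prime)
    (hPm : ∀ w : Cp, ‖w‖ ≤ 1 → ‖aeval w (minpoly K' π)‖ ^ (p - 1) < ‖(p : Cp)‖ ^ p →
      ∀ b : L, algebraMap L Cp b ∈ K'⟮w⟯)
    (hperf : ∀ a : K', ‖algebraMap K' Cp a‖ ≤ 1 → ∃ b : K', ‖algebraMap K' Cp (a - b ^ p)‖ < 1)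
    (P : Subgroup (L ≃ₐ[K'] L))
    (hP : ∀ σ : L ≃ₐ[K'] L, ‖algebraMap L Cp (σ π - π)‖ < ‖algebraMap L Cp π‖ → σ ∈ P)
    {ζ : L} (hζ : IsPrimitiveRoot ζ p) (hζP : ∀ σ ∈ P, σ ζ = ζ)
    {u : L} (hu : u ≠ 0) (huP : ∀ σ ∈ P, σ u = u) {y : L} (hy : y ^ p = u) :
    ∃ t : L, (∀ σ ∈ P, σ t = t) ∧ t ≠ 0 ∧ ‖algebraMap L Cp (u * t ^ p - 1)‖ ≤ ‖(p : Cp)‖ :=
  h.flat_bound_of_F hp
    (fun σ₁ hσ₁ hmin => h.fontaine_bound_of_Pm hp.one_lt hPm σ₁ hσ₁ hmin) hperf P hP hζ hζP hu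
    huP hy

/-- **(FB) for the field generated by the points of a bialgebra killed by `p`**, from rigidity
(L1) and sharp lifting (L2): `L/K'` totally ramified Galois with uniformiser `π`, `K'` absolutely
unramified with perfect residue field, `L` generated over `K'` by the values of the points of
`H`; `P ⊇` wild inertia, `F = L^P ∋ ζ_p`.  Then every `u ∈ F^×` with a `p`-th root in `L` lies
in `(1 + p O_F) (F^×)^p`. -/
theorem TotRam.flat_bound (h : TotRam p K' L Cp π) [IsAlgClosed Cp] (hp : p.Prime)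
    [Finite (H →ₐ[R₀] L)]
    (hint : ∀ (x : H →ₐ[R₀] L) (a : H), ‖algebraMap L Cp (x a)‖ ≤ 1)
    (hkill : ∀ x : WithConv (H →ₐ[R₀] L), x ^ p = 1)
    (hall : ∀ y : H →ₐ[R₀] Cp, ∃ x : H →ₐ[R₀] L, y = (IsScalarTower.toAlgHom R₀ L Cp).comp x)
    (hgenL : ∀ F : IntermediateField K' L, (∀ (x : H →ₐ[R₀] L) (a : H), x a ∈ F) → F = ⊤)
    (hrig : RigProp p R₀ H Cp)
    (hlift : ∀ E : IntermediateField K' Cp, FiniteDimensional K' E →
      LiftProp p R₀ H Cp (E : Set Cp))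
    (hperf : ∀ a : K', ‖algebraMap K' Cp a‖ ≤ 1 → ∃ b : K', ‖algebraMap K' Cp (a - b ^ p)‖ < 1)
    (P : Subgroup (L ≃ₐ[K'] L))
    (hP : ∀ σ : L ≃ₐ[K'] L, ‖algebraMap L Cp (σ π - π)‖ < ‖algebraMap L Cp π‖ → σ ∈ P)
    {ζ : L} (hζ : IsPrimitiveRoot ζ p) (hζP : ∀ σ ∈ P, σ ζ = ζ)
    {u : L} (hu : u ≠ 0) (huP : ∀ σ ∈ P, σ u = u) {y : L} (hy : y ^ p = u) :
    ∃ t : L, (∀ σ ∈ P, σ t = t) ∧ t ≠ 0 ∧ ‖algebraMap L Cp (u * t ^ p - 1)‖ ≤ ‖(p : Cp)‖ :=
  h.flat_bound_of_F hp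
    (fun σ₁ hσ₁ hmin =>
      h.fontaine_bound hp.one_lt hint hkill hall hgenL hrig hlift σ₁ hσ₁ hmin) hperf P hP hζ hζP
    hu huP hy

open IntermediateField in
/-- **(FB) over a subfield of the tame field, from (P_m).** -/
theorem TotRam.flat_bound_tame_of_Pm (h : TotRam p K' L Cp π) [IsAlgClosed Cp] (hp : p.Prime)
    (hPm : ∀ w : Cp, ‖w‖ ≤ 1 → ‖aeval w (minpoly K' π)‖ ^ (p - 1) < ‖(p : Cp)‖ ^ p →
      ∀ b : L, algebraMap L Cp b ∈ K'⟮w⟯)
    (hperf : ∀ a : K', ‖algebraMap K' Cp a‖ ≤ 1 → ∃ b : K', ‖algebraMap K' Cp (a - b ^ p)‖ < 1)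
    (P : Subgroup (L ≃ₐ[K'] L))
    (hP : ∀ σ : L ≃ₐ[K'] L, ‖algebraMap L Cp (σ π - π)‖ < ‖algebraMap L Cp π‖ → σ ∈ P)
    (hPidx : ¬ p ∣ P.index)
    {K₀ : Type*} [Field K₀] (j : K₀ →+* L) (hjP : ∀ σ ∈ P, ∀ x : K₀, σ (j x) = j x)
    {πK : K₀} (hπK : helper4188.IsUnif ((valL L Cp).comap j) πK)
    (hperfK : ∀ a : K₀, ‖algebraMap L Cp (j a)‖ ≤ 1 →
      ∃ b : K₀, ‖algebraMap L Cp (j (a - b ^ p))‖ < 1)
    {ζ : K₀} (hζ : IsPrimitiveRoot ζ p) {u : K₀} (hu : u ≠ 0) {y : L} (hy : y ^ p = j u) :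
    ∃ t : K₀, t ≠ 0 ∧ ‖algebraMap L Cp (j (u * t ^ p - 1))‖ ≤ ‖(p : Cp)‖ :=
  h.flat_bound_tame_of_F hp
    (fun σ₁ hσ₁ hmin => h.fontaine_bound_of_Pm hp.one_lt hPm σ₁ hσ₁ hmin) hperf P hP hPidx j hjP
    hπK hperfK hζ hu hy

/-- **(FB) over a subfield of the tame field**, for the field generated by the points of a
bialgebra killed by `p`, from rigidity (L1) and sharp lifting (L2).  `K₀` is any field mapping
into `L^P` (`P ⊇` wild inertia, `p ∤ [Gal(L/K') : P]`) with a uniformiser, perfect residue field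
and a primitive `p`-th root of unity; no hypothesis `K' ⊆ K₀`. -/
theorem TotRam.flat_bound_tame (h : TotRam p K' L Cp π) [IsAlgClosed Cp] (hp : p.Prime)
    [Finite (H →ₐ[R₀] L)]
    (hint : ∀ (x : H →ₐ[R₀] L) (a : H), ‖algebraMap L Cp (x a)‖ ≤ 1)
    (hkill : ∀ x : WithConv (H →ₐ[R₀] L), x ^ p = 1)
    (hall : ∀ y : H →ₐ[R₀] Cp, ∃ x : H →ₐ[R₀] L, y = (IsScalarTower.toAlgHom R₀ L Cp).comp x)
    (hgenL : ∀ F : IntermediateField K' L, (∀ (x : H →ₐ[R₀] L) (a : H), x a ∈ F) → F = ⊤)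
    (hrig : RigProp p R₀ H Cp)
    (hlift : ∀ E : IntermediateField K' Cp, FiniteDimensional K' E →
      LiftProp p R₀ H Cp (E : Set Cp))
    (hperf : ∀ a : K', ‖algebraMap K' Cp a‖ ≤ 1 → ∃ b : K', ‖algebraMap K' Cp (a - b ^ p)‖ < 1)
    (P : Subgroup (L ≃ₐ[K'] L))
    (hP : ∀ σ : L ≃ₐ[K'] L, ‖algebraMap L Cp (σ π - π)‖ < ‖algebraMap L Cp π‖ → σ ∈ P)
    (hPidx : ¬ p ∣ P.index)
    {K₀ : Type*} [Field K₀] (j : K₀ →+* L) (hjP : ∀ σ ∈ P, ∀ x : K₀, σ (j x) = j x)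
    {πK : K₀} (hπK : helper4188.IsUnif ((valL L Cp).comap j) πK)
    (hperfK : ∀ a : K₀, ‖algebraMap L Cp (j a)‖ ≤ 1 →
      ∃ b : K₀, ‖algebraMap L Cp (j (a - b ^ p))‖ < 1)
    {ζ : K₀} (hζ : IsPrimitiveRoot ζ p) {u : K₀} (hu : u ≠ 0) {y : L} (hy : y ^ p = j u) :
    ∃ t : K₀, t ≠ 0 ∧ ‖algebraMap L Cp (j (u * t ^ p - 1))‖ ≤ ‖(p : Cp)‖ :=
  h.flat_bound_tame_of_F hp
    (fun σ₁ hσ₁ hmin =>
      h.fontaine_bound hp.one_lt hint hkill hall hgenL hrig hlift σ₁ hσ₁ hmin) hperf P hP hPidx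
    j hjP hπK hperfK hζ hu hy

end Final

end Fermat.Agent.S56.helper453
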