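/-
S56 (flat local bound, design B): the classical ramification layer in abstract,
elementwise form.  Mathlib only.

Carrier: a field `L` with an arbitrary valuation `v : Valuation L Γ₀` and a group `G`
acting on `L` by ring automorphisms that preserve `v`.  No completeness, no discreteness
class: all arithmetic hypotheses are stated elementwise, so the statements instantiate on
subfields of `PadicAlgCl p` (with the norm) as well as on `P.valuation`-style carriers.

Contents
* `val_smul_sub_le_of_mem_closure` : elements of `R₀[y]` move at most as much as `y`.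
* `serre_prod` / `serre_prod_subgroup` : Serre, Local Fields IV Prop. 3, in product form
  with one un-normalised valuation:
  `v (τ • y - y) = ∏ h ∈ S, v ((τ * h) • x - x)`.
* `val_sum_eq_sup`, `val_sum_pow_eq_sup`, `val_sum_fin_pow_eq_sup`, `linearIndependent_pow`,
  `exists_integral_coeffs`, `mem_closure_of_val_le_one` : totally ramified normal form
  (`O_L = O_K[π]` when the value group of `K` is `(v π ^ e) ^ ℤ` and `[L : K] = e`).
* `val_smul_sub_le_of_gen`, `val_smul_sub_mul_le` : the `i`-function is read off a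
  uniformizer; `ramSubgroup` (lower numbering subgroups, normal), `val_pow_smul_sub_le`
  (`σ ∈ G_n ⇒ σ ^ p ∈ G_(n+1)`), `isPGroup_ramSubgroup` (`G_1` is a `p`-group).
* `serre_prod_totRam` : Serre IV.3 for a totally ramified Galois extension `L/K'` from the
  elementwise hypotheses only (value group of `K'` is `(v π ^ [L : K']) ^ ℤ`, `ϖ` fixed by `H`
  with `v ϖ = v π ^ #H`); `serre_prod_norm` : the same in norm form
  `‖algebraMap L Cp (τ ϖ - ϖ)‖ = ∏ x : H, ‖algebraMap L Cp ((τ * x) π - π)‖`.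
* `val_le_pow_succ_of_lt_pow` (discreteness), `totRam_val_sub_mul_le`, `totRam_isPGroup`,
  `mem_ramSubgroup_sq_iff` : the wild subgroup `{σ | v (σ π - π) < v π}` of a totally ramified
  Galois extension is a `p`-group.
-/
import Mathlib

set_option autoImplicit false

open Polynomial

namespace Fermat.Agent.S56.helper862

section SerreIV

variable {L : Type*} [Field L] {Γ₀ : Type*} [LinearOrderedCommGroupWithZero Γ₀]
  (v : Valuation L Γ₀) {G : Type*} [Group G] [MulSemiringAction G L]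

/-- Elements of the subring generated by a pointwise fixed integral subring `R₀` and an
integral element `y` are moved by `τ` at most as much as `y` is. -/
theorem val_smul_sub_le_of_mem_closure (τ : G) (hv : ∀ z : L, v (τ • z) = v z)
    (R₀ : Subring L) (hR₀ : ∀ a ∈ R₀, v a ≤ 1) (hfix : ∀ a ∈ R₀, τ • a = a)
    {y : L} (hy : v y ≤ 1) {c : L} (hc : c ∈ Subring.closure ((R₀ : Set L) ∪ {y})) :
    v c ≤ 1 ∧ v (τ • c - c) ≤ v (τ • y - y) := by
  induction hc using Subring.closure_induction with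
  | mem a ha =>
    rcases ha with ha | ha
    · refine ⟨hR₀ a ha, ?_⟩
      rw [hfix a ha, sub_self, map_zero]
      exact zero_le
    · rw [Set.mem_singleton_iff] at ha
      subst ha
      exact ⟨hy, le_rfl⟩
  | zero => simp
  | one => simp
  | add a b _ _ iha ihb =>
    refine ⟨(v.map_add a b).trans (max_le iha.1 ihb.1), ?_⟩
    have : τ • (a + b) - (a + b) = (τ • a - a) + (τ • b - b) := by rw [smul_add]; ring
    rw [this]
    exact (v.map_add _ _).trans (max_le iha.2 ihb.2)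
  | neg a _ iha =>
    refine ⟨by rw [Valuation.map_neg]; exact iha.1, ?_⟩
    have : τ • (-a) - (-a) = -(τ • a - a) := by rw [smul_neg]; ring
    rw [this, Valuation.map_neg]
    exact iha.2
  | mul a b _ _ iha ihb =>
    refine ⟨by rw [map_mul]; exact mul_le_one' iha.1 ihb.1, ?_⟩
    have : τ • (a * b) - a * b = τ • a * (τ • b - b) + (τ • a - a) * b := by
      rw [smul_mul']; ring
    rw [this]
    refine (v.map_add _ _).trans (max_le ?_ ?_)
    · rw [map_mul, hv]
      calc v a * v (τ • b - b) ≤ 1 * v (τ • b - b) := mul_le_mul_left (iha.1) _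
        _ = v (τ • b - b) := one_mul _
        _ ≤ _ := ihb.2
    · rw [map_mul]
      calc v (τ • a - a) * v b ≤ v (τ • a - a) * 1 := mul_le_mul_right ihb.1 _
        _ = v (τ • a - a) := mul_one _
        _ ≤ _ := iha.2

/-- A polynomial over `L` with coefficients in `R₀`, evaluated at `x`, for every element of
the subring generated by `R₀` and `x`. -/
theorem exists_poly_of_mem_closure (R₀ : Subring L) {x c : L}
    (hc : c ∈ Subring.closure ((R₀ : Set L) ∪ {x})) :
    ∃ f : L[X], (∀ n, f.coeff n ∈ R₀) ∧ f.eval x = c := by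
  induction hc using Subring.closure_induction with
  | mem a ha =>
    rcases ha with ha | ha
    · refine ⟨C a, fun n => ?_, eval_C⟩
      rw [coeff_C]
      split_ifs
      · exact ha
      · exact R₀.zero_mem
    · rw [Set.mem_singleton_iff] at ha
      subst ha
      refine ⟨X, fun n => ?_, eval_X⟩
      rw [coeff_X]
      split_ifs
      · exact R₀.one_mem
      · exact R₀.zero_mem
  | zero => exact ⟨0, fun n => by simp, eval_zero⟩
  | one => exact ⟨1, fun n => by
      rw [coeff_one]; split_ifs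
      · exact R₀.one_mem
      · exact R₀.zero_mem, eval_one⟩
  | add a b _ _ iha ihb =>
    obtain ⟨f, hf, rfl⟩ := iha
    obtain ⟨g, hg, rfl⟩ := ihb
    exact ⟨f + g, fun n => by rw [coeff_add]; exact R₀.add_mem (hf n) (hg n), eval_add⟩
  | neg a _ iha =>
    obtain ⟨f, hf, rfl⟩ := iha
    exact ⟨-f, fun n => by rw [coeff_neg]; exact R₀.neg_mem (hf n), eval_neg _ _⟩
  | mul a b _ _ iha ihb =>
    obtain ⟨f, hf, rfl⟩ := iha
    obtain ⟨g, hg, rfl⟩ := ihb
    refine ⟨f * g, fun n => ?_, eval_mul⟩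
    rw [coeff_mul]
    exact R₀.sum_mem fun i _ => R₀.mul_mem (hf _) (hg _)

/-- Evaluation at an integral point of a polynomial with integral coefficients is
integral. -/
theorem val_eval_le_one {f : L[X]} (hf : ∀ n, v (f.coeff n) ≤ 1) {x : L} (hx : v x ≤ 1) :
    v (f.eval x) ≤ 1 := by
  rw [eval_eq_sum_range]
  refine v.map_sum_le fun i _ => ?_
  rw [map_mul, map_pow]
  exact mul_le_one' (hf i) (pow_le_one' hx i)

/-- **Serre, Local Fields IV Prop. 3**, lower bound half: the product of the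
`v ((τ * h) • x - x)` over `h ∈ S` is at most `v (τ • y - y)` as soon as the coefficients
of `∏ h ∈ S, (X - h • x)` lie in `R₀[y]`. -/
theorem serre_prod_le (hv : ∀ (g : G) (z : L), v (g • z) = v z)
    (R₀ : Subring L) (hR₀ : ∀ a ∈ R₀, v a ≤ 1) (hfix : ∀ (g : G), ∀ a ∈ R₀, g • a = a)
    (S : Finset G) (h1 : (1 : G) ∈ S) {x y : L} (hx : v x ≤ 1) (hy : v y ≤ 1)
    (hcoef : ∀ k, (∏ h ∈ S, (X - C (h • x))).coeff k ∈
      Subring.closure ((R₀ : Set L) ∪ {y})) (τ : G) :
    ∏ h ∈ S, v ((τ * h) • x - x) ≤ v (τ • y - y) := by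
  classical
  set g : L[X] := ∏ h ∈ S, (X - C (h • x)) with hg
  set τ' : L →+* L := MulSemiringAction.toRingHom G L τ with hτ'
  have hτ'apply : ∀ z, τ' z = τ • z := fun z => rfl
  have hgx : g.eval x = 0 := by
    rw [hg, eval_prod]
    exact Finset.prod_eq_zero h1 (by simp)
  have hgτ : (g.map τ').eval x = ∏ h ∈ S, (x - (τ * h) • x) := by
    rw [hg, Polynomial.map_prod, eval_prod]
    refine Finset.prod_congr rfl fun h _ => ?_
    rw [Polynomial.map_sub, map_X, map_C, eval_sub, eval_X, eval_C, hτ'apply, mul_smul]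
  have hdiff : (g.map τ').eval x = (g.map τ').eval x - g.eval x := by rw [hgx, sub_zero]
  have key : v ((g.map τ').eval x) ≤ v (τ • y - y) := by
    rw [hdiff, eval_eq_sum_range, eval_eq_sum_range (p := g), natDegree_map,
      ← Finset.sum_sub_distrib]
    refine v.map_sum_le fun i _ => ?_
    rw [coeff_map, hτ'apply, ← sub_mul, map_mul, map_pow]
    calc v (τ • g.coeff i - g.coeff i) * v x ^ i ≤ v (τ • g.coeff i - g.coeff i) * 1 :=
          mul_le_mul_right (pow_le_one' hx i) _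
      _ = v (τ • g.coeff i - g.coeff i) := mul_one _
      _ ≤ _ := (val_smul_sub_le_of_mem_closure v τ (hv τ) R₀ hR₀ (hfix τ) hy (hcoef i)).2
  rw [hgτ, map_prod] at key
  calc ∏ h ∈ S, v ((τ * h) • x - x) = ∏ h ∈ S, v (x - (τ * h) • x) :=
        Finset.prod_congr rfl fun h _ => v.map_sub_swap _ _
    _ ≤ _ := key

/-- Division of an integral polynomial by a monic integral polynomial that divides it has an
integral quotient. -/
theorem exists_integral_quotient {F g : L[X]} (hF : ∀ n, v (F.coeff n) ≤ 1)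
    (hg : ∀ n, v (g.coeff n) ≤ 1) (hmon : g.Monic) (hdvd : g ∣ F) :
    ∃ Q : L[X], (∀ n, v (Q.coeff n) ≤ 1) ∧ F = g * Q := by
  set ι : v.integer →+* L := v.integer.subtype with hι
  have hrange : ∀ {f : L[X]}, (∀ n, v (f.coeff n) ≤ 1) → ∃ f' : v.integer[X], f'.map ι = f := by
    intro f hf
    have : f ∈ lifts ι := by
      rw [lifts_iff_coeff_lifts]
      intro n
      exact ⟨⟨f.coeff n, hf n⟩, rfl⟩
    exact (mem_lifts f).1 this
  obtain ⟨F', rfl⟩ := hrange hF
  obtain ⟨g', rfl⟩ := hrange hg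
  have hinj : Function.Injective ι := Subtype.val_injective
  have hmon' : g'.Monic := by
    rw [Monic, leadingCoeff] at hmon ⊢
    apply hinj
    rw [natDegree_map_eq_of_injective hinj, coeff_map] at hmon
    rw [hmon, map_one]
  have hmod : F' %ₘ g' = 0 := by
    apply map_injective ι hinj
    rw [map_modByMonic ι hmon', Polynomial.map_zero]
    exact (modByMonic_eq_zero_iff_dvd (hmon'.map ι)).2 hdvd
  refine ⟨(F' /ₘ g').map ι, fun n => ?_, ?_⟩
  · rw [coeff_map]
    exact ((F' /ₘ g').coeff n).2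
  · rw [← Polynomial.map_mul]
    congr 1
    have := modByMonic_add_div F' g'
    rw [hmod, zero_add] at this
    exact this.symm

/-- **Serre, Local Fields IV Prop. 3**, upper bound half: if `y ∈ R₀[x]` is fixed by every
`h ∈ S` and the `h • x` (`h ∈ S`) are pairwise distinct, then
`v (τ • y - y) ≤ ∏ h ∈ S, v ((τ * h) • x - x)`. -/
theorem serre_le_prod (hv : ∀ (g : G) (z : L), v (g • z) = v z)
    (R₀ : Subring L) (hR₀ : ∀ a ∈ R₀, v a ≤ 1) (hfix : ∀ (g : G), ∀ a ∈ R₀, g • a = a)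
    (S : Finset G) {x y : L} (hx : v x ≤ 1)
    (hinj : ∀ a ∈ S, ∀ b ∈ S, a • x = b • x → a = b) (hyS : ∀ h ∈ S, h • y = y)
    (hyx : y ∈ Subring.closure ((R₀ : Set L) ∪ {x})) (τ : G) :
    v (τ • y - y) ≤ ∏ h ∈ S, v ((τ * h) • x - x) := by
  classical
  obtain ⟨f, hf, hfx⟩ := exists_poly_of_mem_closure R₀ hyx
  have hfint : ∀ n, v (f.coeff n) ≤ 1 := fun n => hR₀ _ (hf n)
  have hy : v y ≤ 1 := hfx ▸ val_eval_le_one v hfint hx
  set g : L[X] := ∏ h ∈ S, (X - C (h • x)) with hg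
  -- the action on coefficients
  have hmapf : ∀ σ : G, f.map (MulSemiringAction.toRingHom G L σ) = f := by
    intro σ
    ext n
    rw [coeff_map]
    exact hfix σ _ (hf n)
  have hevalσ : ∀ (σ : G) (z : L), f.eval (σ • z) = σ • f.eval z := by
    intro σ z
    have h := Polynomial.eval₂_hom (p := f) (MulSemiringAction.toRingHom G L σ) z
    rw [← eval_map, hmapf σ] at h
    exact h
  set F : L[X] := f - C y with hF
  have hFint : ∀ n, v (F.coeff n) ≤ 1 := by
    intro n
    rw [hF, coeff_sub]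
    refine (v.map_sub _ _).trans (max_le (hfint n) ?_)
    rw [coeff_C]
    split_ifs
    · exact hy
    · rw [map_zero]; exact zero_le
  have hgint : ∀ n, v (g.coeff n) ≤ 1 := by
    intro n
    -- coefficients of a product of integral monic linear factors are integral
    have : ∀ T : Finset G, ∀ n, v ((∏ h ∈ T, (X - C (h • x))).coeff n) ≤ 1 := by
      intro T
      induction T using Finset.induction_on with
      | empty =>
        intro n
        rw [Finset.prod_empty, coeff_one]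
        split_ifs
        · rw [map_one]
        · rw [map_zero]; exact zero_le
      | insert a T ha ih =>
        intro n
        rw [Finset.prod_insert ha, coeff_mul]
        refine v.map_sum_le fun i _ => ?_
        rw [map_mul]
        refine mul_le_one' ?_ (ih _)
        rw [coeff_sub, coeff_X, coeff_C]
        refine (v.map_sub _ _).trans (max_le ?_ ?_)
        · split_ifs
          · rw [map_one]
          · rw [map_zero]; exact zero_le
        · split_ifs
          · rw [hv]; exact hx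
          · rw [map_zero]; exact zero_le
    exact this S n
  have hmon : g.Monic := monic_prod_of_monic _ _ fun h _ => monic_X_sub_C _
  have hdvd : g ∣ F := by
    rw [hg]
    refine Finset.prod_dvd_of_coprime ?_ ?_
    · intro a ha b hb hab
      refine isCoprime_X_sub_C_of_isUnit_sub (IsUnit.mk0 _ ?_)
      rw [sub_ne_zero]
      exact fun h => hab (hinj a ha b hb h)
    · intro h hh
      rw [dvd_iff_isRoot, IsRoot, hF, eval_sub, eval_C, hevalσ, hfx, hyS h hh, sub_self]
  obtain ⟨Q, hQ, hFQ⟩ := exists_integral_quotient v hFint hgint hmon hdvd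
  set τ' : L →+* L := MulSemiringAction.toRingHom G L τ with hτ'
  have hτ'apply : ∀ z, τ' z = τ • z := fun z => rfl
  have hgτ : (g.map τ').eval x = ∏ h ∈ S, (x - (τ * h) • x) := by
    rw [hg, Polynomial.map_prod, eval_prod]
    refine Finset.prod_congr rfl fun h _ => ?_
    rw [Polynomial.map_sub, map_X, map_C, eval_sub, eval_X, eval_C, hτ'apply, mul_smul]
  have hFτ : (F.map τ').eval x = y - τ • y := by
    rw [hF, Polynomial.map_sub, map_C, hmapf τ, eval_sub, eval_C, hfx, hτ'apply]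
  have hQτ : v ((Q.map τ').eval x) ≤ 1 := by
    refine val_eval_le_one v (fun n => ?_) hx
    rw [coeff_map, hτ'apply, hv]
    exact hQ n
  have hprod : y - τ • y = (∏ h ∈ S, (x - (τ * h) • x)) * (Q.map τ').eval x := by
    rw [← hFτ, hFQ, Polynomial.map_mul, eval_mul, hgτ]
  rw [v.map_sub_swap, hprod, map_mul, map_prod]
  calc (∏ h ∈ S, v (x - (τ * h) • x)) * v ((Q.map τ').eval x)
      ≤ (∏ h ∈ S, v (x - (τ * h) • x)) * 1 := mul_le_mul_right hQτ _
    _ = ∏ h ∈ S, v (x - (τ * h) • x) := mul_one _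
    _ = _ := Finset.prod_congr rfl fun h _ => v.map_sub_swap _ _

/-- **Serre, Local Fields IV Prop. 3** in product form, for one un-normalised valuation.

`S` is a finite set of elements of `G` containing `1` (in the application: a subgroup `H`),
`x` has pairwise distinct `S`-translates, `y ∈ R₀[x]` is fixed by `S`, and the coefficients
of `∏ h ∈ S, (X - h • x)` lie in `R₀[y]`.  Then for every `τ`:
`v (τ • y - y) = ∏ h ∈ S, v ((τ * h) • x - x)`. -/
theorem serre_prod (hv : ∀ (g : G) (z : L), v (g • z) = v z)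
    (R₀ : Subring L) (hR₀ : ∀ a ∈ R₀, v a ≤ 1) (hfix : ∀ (g : G), ∀ a ∈ R₀, g • a = a)
    (S : Finset G) (h1 : (1 : G) ∈ S) {x y : L} (hx : v x ≤ 1)
    (hinj : ∀ a ∈ S, ∀ b ∈ S, a • x = b • x → a = b) (hyS : ∀ h ∈ S, h • y = y)
    (hyx : y ∈ Subring.closure ((R₀ : Set L) ∪ {x}))
    (hcoef : ∀ k, (∏ h ∈ S, (X - C (h • x))).coeff k ∈
      Subring.closure ((R₀ : Set L) ∪ {y})) (τ : G) :
    v (τ • y - y) = ∏ h ∈ S, v ((τ * h) • x - x) := by
  obtain ⟨f, hf, hfx⟩ := exists_poly_of_mem_closure R₀ hyx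
  have hy : v y ≤ 1 := hfx ▸ val_eval_le_one v (fun n => hR₀ _ (hf n)) hx
  exact le_antisymm (serre_le_prod v hv R₀ hR₀ hfix S hx hinj hyS hyx τ)
    (serre_prod_le v hv R₀ hR₀ hfix S h1 hx hy hcoef τ)

/-- `serre_prod` for a subgroup `H` (with a `Fintype` structure): the coset identity
`v (τ • y - y) = ∏ h : H, v ((τ * h) • x - x)`. -/
theorem serre_prod_subgroup (hv : ∀ (g : G) (z : L), v (g • z) = v z)
    (R₀ : Subring L) (hR₀ : ∀ a ∈ R₀, v a ≤ 1) (hfix : ∀ (g : G), ∀ a ∈ R₀, g • a = a)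
    (H : Subgroup G) [Fintype H] {x y : L} (hx : v x ≤ 1)
    (hstab : ∀ h ∈ H, h • x = x → h = 1) (hyH : ∀ h ∈ H, h • y = y)
    (hyx : y ∈ Subring.closure ((R₀ : Set L) ∪ {x}))
    (hcoef : ∀ k, (∏ h : H, (X - C ((h : G) • x))).coeff k ∈
      Subring.closure ((R₀ : Set L) ∪ {y})) (τ : G) :
    v (τ • y - y) = ∏ h : H, v ((τ * (h : G)) • x - x) := by
  classical
  set S : Finset G := Finset.univ.map ⟨fun h : H => (h : G), Subtype.val_injective⟩ with hS
  have hmemS : ∀ a, a ∈ S ↔ a ∈ H := by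
    intro a
    rw [hS, Finset.mem_map]
    constructor
    · rintro ⟨h, _, rfl⟩
      exact h.2
    · intro ha
      exact ⟨⟨a, ha⟩, Finset.mem_univ _, rfl⟩
  have hprod1 : ∏ h ∈ S, (X - C (h • x)) = ∏ h : H, (X - C ((h : G) • x)) := by
    rw [hS, Finset.prod_map]
    rfl
  have hprod2 : ∏ h ∈ S, v ((τ * h) • x - x) = ∏ h : H, v ((τ * (h : G)) • x - x) := by
    rw [hS, Finset.prod_map]
    rfl
  have := serre_prod v hv R₀ hR₀ hfix S ((hmemS 1).2 H.one_mem) hx
    (fun a ha b hb hab => by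
      have ha' := (hmemS a).1 ha
      have hb' := (hmemS b).1 hb
      have : (b⁻¹ * a) • x = x := by
        rw [mul_smul, hab, smul_smul, inv_mul_cancel, one_smul]
      have h1 := hstab _ (H.mul_mem (H.inv_mem hb') ha') this
      exact (inv_mul_eq_one.1 h1).symm)
    (fun h hh => hyH h ((hmemS h).1 hh)) hyx
    (fun k => by rw [hprod1]; exact hcoef k) τ
  rw [this, hprod2]

end SerreIV

section NormalForm

variable {L : Type*} [Field L] {Γ₀ : Type*} [LinearOrderedCommGroupWithZero Γ₀]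
  (v : Valuation L Γ₀)

/-- If the nonzero values `v (f i)` are pairwise distinct, the valuation of the sum is the
largest value. -/
theorem val_sum_eq_sup {ι : Type*} (s : Finset ι) (f : ι → L)
    (h : ∀ i ∈ s, ∀ j ∈ s, i ≠ j → v (f i) = v (f j) → v (f i) = 0) :
    v (∑ i ∈ s, f i) = s.sup fun i => v (f i) := by
  classical
  induction s using Finset.induction_on with
  | empty => simp [bot_eq_zero]
  | insert a s ha ih =>
    have ih' := ih fun i hi j hj => h i (Finset.mem_insert_of_mem hi) j (Finset.mem_insert_of_mem hj)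
    rw [Finset.sum_insert ha, Finset.sup_insert]
    by_cases hne : v (f a) = v (∑ i ∈ s, f i)
    · -- then both are zero
      have h0 : v (f a) = 0 := by
        rcases s.eq_empty_or_nonempty with rfl | hs
        · rw [hne]; simp
        · obtain ⟨j, hj, hjs⟩ := Finset.exists_mem_eq_sup s hs fun i => v (f i)
          refine h a (Finset.mem_insert_self a s) j (Finset.mem_insert_of_mem hj) ?_ ?_
          · rintro rfl; exact ha hj
          · rw [hne, ih', hjs]
      have h0' : v (∑ i ∈ s, f i) = 0 := hne ▸ h0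
      have hfa : f a = 0 := v.zero_iff.1 h0
      rw [hfa, zero_add, ← ih', h0', map_zero]
      simp
    · rw [v.map_add_of_distinct_val hne, ih']

/-- `v π ^ m ≤ 1 ↔ 0 ≤ m` for `0 < v π < 1`. -/
theorem zpow_le_one_iff_of_lt_one {γ : Γ₀} (h0 : γ ≠ 0) (h1 : γ < 1) (m : ℤ) :
    γ ^ m ≤ 1 ↔ 0 ≤ m := by
  have hpos : 0 < γ := zero_lt_iff.2 h0
  constructor
  · intro h
    by_contra hm
    push Not at hm
    have : 1 < γ ^ m := by
      have h2 : γ ^ (-m) < 1 := by
        obtain ⟨k, hk⟩ := Int.eq_ofNat_of_zero_le (neg_nonneg.2 hm.le)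
        rw [hk, zpow_natCast]
        refine pow_lt_one₀ hpos.le h1 ?_
        intro hk0
        rw [hk0] at hk
        simp at hk
        omega
      rw [zpow_neg] at h2
      exact (inv_lt_one₀ (zpow_pos hpos m)).1 h2
    exact absurd h (not_le.2 this)
  · intro hm
    obtain ⟨k, rfl⟩ := Int.eq_ofNat_of_zero_le hm
    rw [zpow_natCast]
    exact pow_le_one₀ hpos.le h1.le

theorem zpow_injective_of_lt_one {γ : Γ₀} (h0 : γ ≠ 0) (h1 : γ < 1) {m n : ℤ}
    (h : γ ^ m = γ ^ n) : m = n := by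
  have hpos : 0 < γ := zero_lt_iff.2 h0
  have key : ∀ a b : ℤ, γ ^ a = γ ^ b → a ≤ b := by
    intro a b hab
    have : γ ^ (b - a) ≤ 1 := by
      rw [zpow_sub₀ h0, hab, div_self (zpow_ne_zero _ h0)]
    have := (zpow_le_one_iff_of_lt_one h0 h1 _).1 this
    omega
  exact le_antisymm (key m n h) (key n m h.symm)

/-- **Totally ramified normal form.**  If the nonzero `a i` have values in `(v π ^ e) ^ ℤ`,
then `v (∑ i < e, a i * π ^ i) = max_i v (a i) * v π ^ i`. -/
theorem val_sum_pow_eq_sup {π : L} (hπ0 : v π ≠ 0) (hπ1 : v π < 1) {e : ℕ} (a : ℕ → L)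
    (ha : ∀ i < e, a i = 0 ∨ ∃ n : ℤ, v (a i) = v π ^ ((e : ℤ) * n)) :
    v (∑ i ∈ Finset.range e, a i * π ^ i) =
      (Finset.range e).sup fun i => v (a i) * v π ^ i := by
  have := val_sum_eq_sup v (Finset.range e) (fun i => a i * π ^ i) ?_
  · rw [this]
    refine Finset.sup_congr rfl fun i _ => ?_
    rw [map_mul, map_pow]
  · intro i hi j hj hij hval
    rw [Finset.mem_range] at hi hj
    rcases ha i hi with h0 | ⟨n, hn⟩
    · rw [h0, zero_mul, map_zero]
    rcases ha j hj with h0 | ⟨m, hm⟩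
    · rw [hval, h0, zero_mul, map_zero]
    exfalso
    rw [map_mul, map_mul, map_pow, map_pow, hn, hm, ← zpow_natCast, ← zpow_natCast,
      ← zpow_add₀ hπ0, ← zpow_add₀ hπ0] at hval
    have h := zpow_injective_of_lt_one hπ0 hπ1 hval
    have h1 : ((i : ℤ) - j) = (e : ℤ) * (m - n) := by linarith
    have hdvd : (e : ℤ) ∣ (i : ℤ) - j := ⟨m - n, h1⟩
    have hlt : |(i : ℤ) - j| < e := by
      rw [abs_lt]; constructor <;> omega
    have := Int.eq_zero_of_abs_lt_dvd hdvd hlt
    omega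

/-- In the situation of `val_sum_pow_eq_sup`, if the sum is integral then so are the
coefficients. -/
theorem val_coeff_le_one {π : L} (hπ0 : v π ≠ 0) (hπ1 : v π < 1) {e : ℕ} (a : ℕ → L)
    (ha : ∀ i < e, a i = 0 ∨ ∃ n : ℤ, v (a i) = v π ^ ((e : ℤ) * n))
    (hsum : v (∑ i ∈ Finset.range e, a i * π ^ i) ≤ 1) {i : ℕ} (hi : i < e) :
    v (a i) ≤ 1 := by
  rw [val_sum_pow_eq_sup v hπ0 hπ1 a ha] at hsum
  have hle : v (a i) * v π ^ i ≤ 1 :=
    (Finset.le_sup (f := fun i => v (a i) * v π ^ i) (Finset.mem_range.2 hi)).trans hsum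
  rcases ha i hi with h0 | ⟨n, hn⟩
  · rw [h0, map_zero]; exact zero_le
  · rw [hn, ← zpow_natCast, ← zpow_add₀ hπ0, zpow_le_one_iff_of_lt_one hπ0 hπ1] at hle
    rw [hn, zpow_le_one_iff_of_lt_one hπ0 hπ1]
    have he : (0 : ℤ) < e := by omega
    by_contra hneg
    push Not at hneg
    have hn1 : n ≤ -1 := by
      by_contra h
      push Not at h
      have h0 : 0 ≤ n := by omega
      have := mul_nonneg he.le h0
      omega
    have : (e : ℤ) * n ≤ -e := by nlinarith
    omega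

section OverField

variable {K : Type*} [Field K] [Algebra K L]

/-- Extend a `Fin e`-family of coefficients in `K` to an `ℕ`-family in `L`. -/
noncomputable def coeffExt {e : ℕ} (a : Fin e → K) (i : ℕ) : L :=
  if h : i < e then algebraMap K L (a ⟨i, h⟩) else 0

theorem coeffExt_fin {e : ℕ} (a : Fin e → K) (i : Fin e) :
    coeffExt (L := L) a (i : ℕ) = algebraMap K L (a i) := by
  simp [coeffExt, i.2]

theorem sum_fin_eq_sum_range {e : ℕ} (a : Fin e → K) (π : L) :
    ∑ i : Fin e, algebraMap K L (a i) * π ^ (i : ℕ) =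
      ∑ i ∈ Finset.range e, coeffExt (L := L) a i * π ^ i := by
  rw [← Fin.sum_univ_eq_sum_range (fun i => coeffExt (L := L) a i * π ^ i) e]
  exact Finset.sum_congr rfl fun i _ => by rw [coeffExt_fin]

theorem coeffExt_spec {π : L} {e : ℕ}
    (hK : ∀ a : K, a ≠ 0 → ∃ n : ℤ, v (algebraMap K L a) = v π ^ ((e : ℤ) * n))
    (a : Fin e → K) :
    ∀ i < e, coeffExt (L := L) a i = 0 ∨ ∃ n : ℤ, v (coeffExt (L := L) a i) = v π ^ ((e : ℤ) * n) := by
  intro i hi
  rw [coeffExt, dif_pos hi]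
  by_cases h0 : a ⟨i, hi⟩ = 0
  · left; rw [h0, map_zero]
  · right; exact hK _ h0

/-- **Totally ramified normal form**, `Fin e`-indexed with coefficients in `K`. -/
theorem val_sum_fin_pow_eq_sup {π : L} (hπ0 : v π ≠ 0) (hπ1 : v π < 1) {e : ℕ}
    (hK : ∀ a : K, a ≠ 0 → ∃ n : ℤ, v (algebraMap K L a) = v π ^ ((e : ℤ) * n))
    (a : Fin e → K) :
    v (∑ i : Fin e, algebraMap K L (a i) * π ^ (i : ℕ)) =
      Finset.univ.sup fun i : Fin e => v (algebraMap K L (a i)) * v π ^ (i : ℕ) := by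
  rw [sum_fin_eq_sum_range, val_sum_pow_eq_sup v hπ0 hπ1 _ (coeffExt_spec v hK a)]
  apply le_antisymm
  · refine Finset.sup_le fun i hi => ?_
    rw [Finset.mem_range] at hi
    have := Finset.le_sup (f := fun i : Fin e => v (algebraMap K L (a i)) * v π ^ (i : ℕ))
      (Finset.mem_univ (⟨i, hi⟩ : Fin e))
    simpa [coeffExt, hi] using this
  · refine Finset.sup_le fun i _ => ?_
    have := Finset.le_sup (f := fun i : ℕ => v (coeffExt (L := L) a i) * v π ^ i)
      (Finset.mem_range.2 i.2)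
    simpa [coeffExt_fin] using this

/-- The powers `π ^ i`, `i < e`, are linearly independent over `K`. -/
theorem linearIndependent_pow {π : L} (hπ0 : v π ≠ 0) (hπ1 : v π < 1) {e : ℕ}
    (hK : ∀ a : K, a ≠ 0 → ∃ n : ℤ, v (algebraMap K L a) = v π ^ ((e : ℤ) * n)) :
    LinearIndependent K (fun i : Fin e => π ^ (i : ℕ)) := by
  rw [Fintype.linearIndependent_iff]
  intro a hsum i
  have hsum' : ∑ j : Fin e, algebraMap K L (a j) * π ^ (j : ℕ) = 0 := by
    rw [← hsum]
    exact Finset.sum_congr rfl fun j _ => by rw [Algebra.smul_def]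
  have h := val_sum_fin_pow_eq_sup v hπ0 hπ1 hK a
  rw [hsum', map_zero] at h
  have hle := Finset.le_sup (f := fun i : Fin e => v (algebraMap K L (a i)) * v π ^ (i : ℕ))
    (Finset.mem_univ i)
  rw [← h] at hle
  have h0 : v (algebraMap K L (a i)) * v π ^ (i : ℕ) = 0 := le_antisymm hle zero_le
  rcases mul_eq_zero.1 h0 with h1 | h1
  · exact (algebraMap K L).injective (by rw [v.zero_iff.1 h1, map_zero])
  · exact absurd h1 (pow_ne_zero _ hπ0)

/-- If moreover `[L : K] = e`, every element of `L` is a `K`-combination of the `π ^ i`. -/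
theorem exists_coeffs {π : L} (hπ0 : v π ≠ 0) (hπ1 : v π < 1) {e : ℕ}
    (hK : ∀ a : K, a ≠ 0 → ∃ n : ℤ, v (algebraMap K L a) = v π ^ ((e : ℤ) * n))
    (he : 0 < e) (hfin : Module.finrank K L = e) (x : L) :
    ∃ a : Fin e → K, x = ∑ i : Fin e, algebraMap K L (a i) * π ^ (i : ℕ) := by
  have hli := linearIndependent_pow v hπ0 hπ1 hK
  have hspan : Submodule.span K (Set.range fun i : Fin e => π ^ (i : ℕ)) = ⊤ := by
    have : FiniteDimensional K L := Module.finite_of_finrank_pos (by omega)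
    exact hli.span_eq_top_of_card_eq_finrank' (by rw [Fintype.card_fin, hfin])
  have hx : x ∈ Submodule.span K (Set.range fun i : Fin e => π ^ (i : ℕ)) := hspan ▸ Submodule.mem_top
  obtain ⟨a, ha⟩ := (Submodule.mem_span_range_iff_exists_fun K).1 hx
  refine ⟨a, ?_⟩
  rw [← ha]
  exact Finset.sum_congr rfl fun j _ => by rw [Algebra.smul_def]

/-- **`O_L = O_K[π]`, coefficient form**: if `[L : K] = e`, every integral element of `L` is
an integral `K`-combination of `1, π, …, π ^ (e - 1)`. -/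
theorem exists_integral_coeffs {π : L} (hπ0 : v π ≠ 0) (hπ1 : v π < 1) {e : ℕ}
    (hK : ∀ a : K, a ≠ 0 → ∃ n : ℤ, v (algebraMap K L a) = v π ^ ((e : ℤ) * n))
    (he : 0 < e) (hfin : Module.finrank K L = e) {x : L} (hx : v x ≤ 1) :
    ∃ a : Fin e → K, (∀ i, v (algebraMap K L (a i)) ≤ 1) ∧
      x = ∑ i : Fin e, algebraMap K L (a i) * π ^ (i : ℕ) := by
  obtain ⟨a, ha⟩ := exists_coeffs v hπ0 hπ1 hK he hfin x
  refine ⟨a, fun i => ?_, ha⟩
  rw [ha, sum_fin_eq_sum_range] at hx
  have := val_coeff_le_one v hπ0 hπ1 _ (coeffExt_spec v hK a) hx i.2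
  rwa [coeffExt_fin] at this

/-- **`O_L = O_K[π]`, closure form.** -/
theorem mem_closure_of_val_le_one {π : L} (hπ0 : v π ≠ 0) (hπ1 : v π < 1) {e : ℕ}
    (hK : ∀ a : K, a ≠ 0 → ∃ n : ℤ, v (algebraMap K L a) = v π ^ ((e : ℤ) * n))
    (he : 0 < e) (hfin : Module.finrank K L = e) (R₀ : Subring L)
    (hR₀ : ∀ a : K, v (algebraMap K L a) ≤ 1 → algebraMap K L a ∈ R₀) {x : L} (hx : v x ≤ 1) :
    x ∈ Subring.closure ((R₀ : Set L) ∪ {π}) := by
  obtain ⟨a, ha, rfl⟩ := exists_integral_coeffs v hπ0 hπ1 hK he hfin hx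
  refine Subring.sum_mem _ fun i _ => Subring.mul_mem _ ?_ (Subring.pow_mem _ ?_ _)
  · exact Subring.subset_closure (Or.inl (hR₀ _ (ha i)))
  · exact Subring.subset_closure (Or.inr rfl)

end OverField

end NormalForm


section IFunction

variable {L : Type*} [Field L] {Γ₀ : Type*} [LinearOrderedCommGroupWithZero Γ₀]
  (v : Valuation L Γ₀) {G : Type*} [Group G] [MulSemiringAction G L]

/-- `v (a ^ k - b ^ k) * γ ≤ v (a - b) * γ ^ k` when `v a, v b ≤ γ`. -/
theorem val_pow_sub_pow_mul_le {a b : L} {γ : Γ₀} (ha : v a ≤ γ) (hb : v b ≤ γ) (k : ℕ) :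
    v (a ^ k - b ^ k) * γ ≤ v (a - b) * γ ^ k := by
  rcases k with _ | k
  · simp
  rw [← geom_sum₂_mul, map_mul, mul_comm (v _) (v (a - b)), mul_assoc, pow_succ]
  refine mul_le_mul_right (mul_le_mul_left ?_ γ) _
  refine v.map_sum_le fun i hi => ?_
  rw [Finset.mem_range] at hi
  rw [map_mul, map_pow, map_pow]
  calc v a ^ i * v b ^ (k + 1 - 1 - i) ≤ γ ^ i * γ ^ (k + 1 - 1 - i) :=
        mul_le_mul' (pow_le_pow_left' ha i) (pow_le_pow_left' hb _)
    _ = γ ^ k := by rw [← pow_add]; congr 1; omega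

/-- Integral elements are moved at most as much as a generator `π` of the integers over a
pointwise fixed subring. -/
theorem val_smul_sub_le_of_gen (σ : G) (hv : ∀ z : L, v (σ • z) = v z)
    (R₀ : Subring L) (hR₀ : ∀ a ∈ R₀, v a ≤ 1) (hfix : ∀ a ∈ R₀, σ • a = a)
    {π : L} (hπ : v π ≤ 1)
    (hgen : ∀ z : L, v z ≤ 1 → z ∈ Subring.closure ((R₀ : Set L) ∪ {π}))
    {z : L} (hz : v z ≤ 1) : v (σ • z - z) ≤ v (σ • π - π) :=
  (val_smul_sub_le_of_mem_closure v σ hv R₀ hR₀ hfix hπ (hgen z hz)).2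

/-- **The `i`-function is controlled by a uniformizer**, multiplicative form valid for all
`z`: `v (σ z - z) * v π ≤ v (σ π - π) * v z`, i.e. `v (σ z / z - 1) ≤ v (σ π / π - 1)`. -/
theorem val_smul_sub_mul_le (σ : G) (hv : ∀ z : L, v (σ • z) = v z)
    (R₀ : Subring L) (hR₀ : ∀ a ∈ R₀, v a ≤ 1) (hfix : ∀ a ∈ R₀, σ • a = a)
    {π : L} (hπ0 : v π ≠ 0) (hπ1 : v π ≤ 1)
    (hgen : ∀ z : L, v z ≤ 1 → z ∈ Subring.closure ((R₀ : Set L) ∪ {π}))
    (hdisc : ∀ z : L, z ≠ 0 → ∃ n : ℤ, v z = v π ^ n) (z : L) :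
    v (σ • z - z) * v π ≤ v (σ • π - π) * v z := by
  by_cases hz0 : z = 0
  · subst hz0; simp
  have hπne : π ≠ 0 := fun h => hπ0 (by rw [h, map_zero])
  obtain ⟨n, hn⟩ := hdisc z hz0
  -- the power part
  have hpow : ∀ n : ℤ, v (σ • (π ^ n) - π ^ n) * v π ≤ v (σ • π - π) * v π ^ n := by
    have hnat : ∀ k : ℕ, v (σ • (π ^ k) - π ^ k) * v π ≤ v (σ • π - π) * v π ^ k := by
      intro k
      rw [smul_pow']
      exact val_pow_sub_pow_mul_le v (by rw [hv]) le_rfl k
    intro n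
    rcases Int.eq_nat_or_neg n with ⟨k, rfl | rfl⟩
    · rw [zpow_natCast, zpow_natCast]; exact hnat k
    · have hk := hnat k
      have hσk : σ • (π ^ k) ≠ 0 := by
        intro h
        have := hv (π ^ k)
        rw [h, map_zero, map_pow] at this
        exact pow_ne_zero k hπ0 this.symm
      have e1 : σ • (π ^ (-(k : ℤ))) - π ^ (-(k : ℤ)) =
          -((σ • (π ^ k) - π ^ k) * (σ • (π ^ k))⁻¹ * (π ^ k)⁻¹) := by
        rw [zpow_neg, zpow_natCast, smul_inv'' ]
        field_simp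
        ring
      rw [e1, Valuation.map_neg, map_mul, map_mul, map_inv₀, map_inv₀, hv, map_pow,
        zpow_neg, zpow_natCast]
      have hpk : v π ^ k ≠ 0 := pow_ne_zero k hπ0
      calc v (σ • π ^ k - π ^ k) * (v π ^ k)⁻¹ * (v π ^ k)⁻¹ * v π
          = (v (σ • π ^ k - π ^ k) * v π) * ((v π ^ k)⁻¹ * (v π ^ k)⁻¹) := by ac_rfl
        _ ≤ (v (σ • π - π) * v π ^ k) * ((v π ^ k)⁻¹ * (v π ^ k)⁻¹) :=
          mul_le_mul_left hk _
        _ = v (σ • π - π) * (v π ^ k)⁻¹ := by
          rw [mul_assoc, ← mul_assoc (v π ^ k), mul_inv_cancel₀ hpk, one_mul]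
  -- the unit part
  set u : L := z * (π ^ n)⁻¹ with hu
  have hπn : π ^ n ≠ 0 := zpow_ne_zero n hπne
  have hvu : v u = 1 := by
    rw [hu, map_mul, map_inv₀, map_zpow₀, hn, mul_inv_cancel₀ (zpow_ne_zero n hπ0)]
  have hzu : z = π ^ n * u := by rw [hu]; field_simp
  have hunit : v (σ • u - u) ≤ v (σ • π - π) :=
    val_smul_sub_le_of_gen v σ hv R₀ hR₀ hfix hπ1 hgen hvu.le
  have e2 : σ • z - z = (σ • (π ^ n) - π ^ n) * σ • u + π ^ n * (σ • u - u) := by
    rw [hzu, smul_mul']; ring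
  rw [e2]
  have h1 : v ((σ • (π ^ n) - π ^ n) * σ • u) * v π ≤ v (σ • π - π) * v z := by
    rw [map_mul, hv, hvu, mul_one, hn]
    exact hpow n
  have h2 : v (π ^ n * (σ • u - u)) * v π ≤ v (σ • π - π) * v z := by
    rw [map_mul, map_zpow₀, hn]
    calc v π ^ n * v (σ • u - u) * v π ≤ v π ^ n * v (σ • π - π) * 1 :=
          mul_le_mul' (mul_le_mul_right hunit _) hπ1
      _ = v (σ • π - π) * v π ^ n := by rw [mul_one, mul_comm]
  rcases v.map_add' ((σ • (π ^ n) - π ^ n) * σ • u) (π ^ n * (σ • u - u)) with h | h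
  · exact (mul_le_mul_left h _).trans h1
  · exact (mul_le_mul_left h _).trans h2

/-- Natural numbers are integral for every valuation. -/
theorem val_natCast_le_one (k : ℕ) : v (k : L) ≤ 1 := by
  induction k with
  | zero => simp
  | succ k ih =>
    rw [Nat.cast_succ]
    exact (v.map_add _ _).trans (max_le ih (by rw [map_one]))

/-- The ramification subgroup with threshold `γ`: the automorphisms that move every
integral element by at most `γ`.  (Lower numbering: `G_n` is the threshold `v π ^ (n + 1)`.) -/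
def ramSubgroup (hv : ∀ (g : G) (z : L), v (g • z) = v z) (γ : Γ₀) : Subgroup G where
  carrier := {σ | ∀ z : L, v z ≤ 1 → v (σ • z - z) ≤ γ}
  one_mem' := by
    intro z _
    rw [one_smul, sub_self, map_zero]
    exact zero_le
  mul_mem' := by
    intro a b ha hb z hz
    have : (a * b) • z - z = a • (b • z - z) + (a • z - z) := by
      rw [mul_smul, smul_sub]; ring
    rw [this]
    exact (v.map_add _ _).trans (max_le (by rw [hv]; exact hb z hz) (ha z hz))
  inv_mem' := by
    intro a ha z hz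
    have : a⁻¹ • z - z = -(a⁻¹ • (a • z - z)) := by
      rw [smul_sub, inv_smul_smul]; ring
    rw [this, Valuation.map_neg, hv]
    exact ha z hz

theorem mem_ramSubgroup_iff (hv : ∀ (g : G) (z : L), v (g • z) = v z) (γ : Γ₀) (σ : G) :
    σ ∈ ramSubgroup v hv γ ↔ ∀ z : L, v z ≤ 1 → v (σ • z - z) ≤ γ := Iff.rfl

theorem ramSubgroup_mono (hv : ∀ (g : G) (z : L), v (g • z) = v z) {γ γ' : Γ₀} (h : γ ≤ γ') :
    ramSubgroup v hv γ ≤ ramSubgroup v hv γ' :=
  fun _ hσ z hz => (hσ z hz).trans h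

instance ramSubgroup_normal (hv : ∀ (g : G) (z : L), v (g • z) = v z) (γ : Γ₀) :
    (ramSubgroup v hv γ).Normal where
  conj_mem := by
    intro n hn g z hz
    have : (g * n * g⁻¹) • z - z = g • (n • (g⁻¹ • z) - g⁻¹ • z) := by
      rw [mul_smul, mul_smul, smul_sub, smul_inv_smul]
    rw [this, hv]
    exact hn _ (by rw [hv]; exact hz)

/-- Membership in a ramification subgroup is tested on a generator of the integers. -/
theorem mem_ramSubgroup_iff_of_gen (hv : ∀ (g : G) (z : L), v (g • z) = v z) (γ : Γ₀) (σ : G)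
    (R₀ : Subring L) (hR₀ : ∀ a ∈ R₀, v a ≤ 1) (hfix : ∀ a ∈ R₀, σ • a = a)
    {π : L} (hπ : v π ≤ 1)
    (hgen : ∀ z : L, v z ≤ 1 → z ∈ Subring.closure ((R₀ : Set L) ∪ {π})) :
    σ ∈ ramSubgroup v hv γ ↔ v (σ • π - π) ≤ γ :=
  ⟨fun h => h π hπ, fun h _ hz =>
    (val_smul_sub_le_of_gen v σ (hv σ) R₀ hR₀ hfix hπ hgen hz).trans h⟩

/-- **Wild elements: `σ ∈ G_n ⇒ σ ^ p ∈ G_(n+1)`** (`n ≥ 1`, residue characteristic `p`),
on a uniformizer.  `hmul` is the conclusion of `val_smul_sub_mul_le`. -/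
theorem val_pow_smul_sub_le (σ : G) {π : L} (hπ0 : v π ≠ 0) (hπ1 : v π ≤ 1)
    (hmul : ∀ z : L, v (σ • z - z) * v π ≤ v (σ • π - π) * v z)
    {p : ℕ} (hp : v (p : L) ≤ v π) {n : ℕ} (hn : 1 ≤ n)
    (hσ : v (σ • π - π) ≤ v π ^ (n + 1)) :
    v (σ ^ p • π - π) ≤ v π ^ (n + 2) := by
  set δ : L := σ • π - π with hδ
  have key : ∀ k : ℕ, v (σ ^ k • π - π - k * δ) ≤ v π ^ (n + 2) := by
    intro k
    induction k with
    | zero => simp
    | succ k ih =>
      set u : L := σ ^ k • π - π with hu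
      have hu1 : v u ≤ v π ^ (n + 1) := by
        have : u = (u - k * δ) + k * δ := by ring
        rw [this]
        refine (v.map_add _ _).trans (max_le (ih.trans ?_) ?_)
        · exact pow_le_pow_right_of_le_one' hπ1 (by omega)
        · rw [map_mul]
          calc v (k : L) * v δ ≤ 1 * v δ := mul_le_mul_left (val_natCast_le_one v k) _
            _ = v δ := one_mul _
            _ ≤ _ := hσ
      have hu2 : v (σ • u - u) ≤ v π ^ (n + 2) := by
        have h1 := hmul u
        have h2 : v (σ • u - u) * v π ≤ v π ^ (n + 2) * v π := by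
          refine h1.trans ?_
          calc v δ * v u ≤ v π ^ (n + 1) * v π ^ (n + 1) := mul_le_mul' hσ hu1
            _ = v π ^ (2 * n + 2) := by rw [← pow_add]; congr 1; omega
            _ ≤ v π ^ (n + 3) := pow_le_pow_right_of_le_one' hπ1 (by omega)
            _ = v π ^ (n + 2) * v π := by rw [pow_succ]
        exact (mul_le_mul_iff_left₀ (zero_lt_iff.2 hπ0)).1 h2
      have e : σ ^ (k + 1) • π - π - ((k + 1 : ℕ) : L) * δ = (u - k * δ) + (σ • u - u) := by
        have h3 : σ ^ (k + 1) • π = σ • (σ ^ k • π) := by rw [pow_succ', mul_smul]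
        have h4 : σ ^ k • π = π + u := by rw [hu]; ring
        rw [h3, h4, smul_add, hu, smul_sub, Nat.cast_succ, hδ]
        ring
      rw [e]
      exact (v.map_add _ _).trans (max_le ih hu2)
  have : σ ^ p • π - π = (σ ^ p • π - π - p * δ) + p * δ := by ring
  rw [this]
  refine (v.map_add _ _).trans (max_le (key p) ?_)
  rw [map_mul]
  calc v (p : L) * v δ ≤ v π * v π ^ (n + 1) := mul_le_mul' hp hσ
    _ = v π ^ (n + 2) := by rw [← pow_succ']

/-- **The wild ramification subgroup `G_1` is a `p`-group** (`G` finite, acting faithfully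
on the uniformizer, residue characteristic `p`). -/
theorem isPGroup_ramSubgroup [Finite G] (hv : ∀ (g : G) (z : L), v (g • z) = v z)
    (R₀ : Subring L) (hR₀ : ∀ a ∈ R₀, v a ≤ 1) (hfix : ∀ (g : G), ∀ a ∈ R₀, g • a = a)
    {π : L} (hπ0 : v π ≠ 0) (hπ1 : v π < 1)
    (hgen : ∀ z : L, v z ≤ 1 → z ∈ Subring.closure ((R₀ : Set L) ∪ {π}))
    (hdisc : ∀ z : L, z ≠ 0 → ∃ n : ℤ, v z = v π ^ n)
    (hstab : ∀ σ : G, σ • π = π → σ = 1) {p : ℕ} (hp : v (p : L) < 1) :
    IsPGroup p (ramSubgroup v hv (v π ^ 2)) := by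
  classical
  have hpos : 0 < v π := zero_lt_iff.2 hπ0
  have hpπ : v (p : L) ≤ v π := by
    by_cases hp0 : (p : L) = 0
    · rw [hp0, map_zero]; exact zero_le
    · obtain ⟨m, hm⟩ := hdisc _ hp0
      rw [hm] at hp ⊢
      have hm1 : 1 ≤ m := by
        by_contra h
        push Not at h
        have : (1 : Γ₀) ≤ v π ^ m := by
          have h2 : v π ^ (-m) ≤ 1 := by
            obtain ⟨k, hk⟩ := Int.eq_ofNat_of_zero_le (show 0 ≤ -m by omega)
            rw [hk, zpow_natCast]
            exact pow_le_one₀ hpos.le hπ1.le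
          rw [zpow_neg] at h2
          exact (inv_le_one₀ (zpow_pos hpos m)).1 h2
        exact absurd hp (not_lt.2 this)
      obtain ⟨k, rfl⟩ := Int.eq_ofNat_of_zero_le (show 0 ≤ m by omega)
      rw [zpow_natCast]
      calc v π ^ k ≤ v π ^ 1 := pow_le_pow_right_of_le_one' hπ1.le (by omega)
        _ = v π := pow_one _
  -- a uniform lower bound for the nonzero `v (τ π - π)`
  have hbound : ∃ M : ℕ, ∀ τ : G, τ • π ≠ π → v π ^ M < v (τ • π - π) := by
    have hτ : ∀ τ : G, ∃ m : ℕ, τ • π ≠ π → v π ^ m < v (τ • π - π) := by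
      intro τ
      by_cases h : τ • π = π
      · exact ⟨0, fun h' => absurd h h'⟩
      · obtain ⟨n, hn⟩ := hdisc _ (sub_ne_zero.2 h)
        refine ⟨(n + 1).toNat, fun _ => ?_⟩
        rw [hn, ← zpow_natCast]
        exact zpow_lt_zpow_right_of_lt_one₀ hpos hπ1 (by omega)
    choose m hm using hτ
    have : Fintype G := Fintype.ofFinite G
    refine ⟨Finset.univ.sup m, fun τ hτ' => lt_of_le_of_lt ?_ (hm τ hτ')⟩
    exact pow_le_pow_right_of_le_one' hπ1.le (Finset.le_sup (Finset.mem_univ τ))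
  obtain ⟨M, hM⟩ := hbound
  intro g
  have hg := g.2
  have key : ∀ k : ℕ, v ((g : G) ^ p ^ k • π - π) ≤ v π ^ (k + 2) := by
    intro k
    induction k with
    | zero =>
      rw [pow_zero, pow_one, zero_add]
      exact hg π hπ1.le
    | succ k ih =>
      have hmul := val_smul_sub_mul_le v ((g : G) ^ p ^ k) (hv _) R₀ hR₀ (hfix _) hπ0 hπ1.le
        hgen hdisc
      have := val_pow_smul_sub_le v ((g : G) ^ p ^ k) hπ0 hπ1.le hmul hpπ (n := k + 1)
        (by omega) ih
      rw [← pow_mul, ← pow_succ] at this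
      exact this
  refine ⟨M, ?_⟩
  have h1 : (g : G) ^ p ^ M • π = π := by
    by_contra h
    have h2 := hM _ h
    have h3 := key M
    have h4 : v π ^ (M + 2) ≤ v π ^ M := pow_le_pow_right_of_le_one' hπ1.le (by omega)
    exact absurd (h3.trans h4) (not_le.2 h2)
  have h2 := hstab _ h1
  exact Subtype.ext (by rw [SubgroupClass.coe_pow, h2]; rfl)

end IFunction


section TotRamGalois

variable {K' L : Type*} [Field K'] [Field L] [Algebra K' L]
  {Γ₀ : Type*} [LinearOrderedCommGroupWithZero Γ₀] (v : Valuation L Γ₀)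

/-- Coefficients of a product of monic linear factors with integral roots are integral. -/
theorem val_coeff_prod_X_sub_C_le_one {ι : Type*} (T : Finset ι) (r : ι → L)
    (hr : ∀ i ∈ T, v (r i) ≤ 1) (n : ℕ) : v ((∏ i ∈ T, (X - C (r i))).coeff n) ≤ 1 := by
  classical
  induction T using Finset.induction_on generalizing n with
  | empty =>
    rw [Finset.prod_empty, coeff_one]
    split_ifs
    · rw [map_one]
    · rw [map_zero]; exact zero_le
  | insert a T ha ih =>
    rw [Finset.prod_insert ha, coeff_mul]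
    refine v.map_sum_le fun i _ => ?_
    rw [map_mul]
    refine mul_le_one' ?_ (ih (fun i hi => hr i (Finset.mem_insert_of_mem hi)) _)
    rw [coeff_sub, coeff_X, coeff_C]
    refine (v.map_sub _ _).trans (max_le ?_ ?_)
    · split_ifs
      · rw [map_one]
      · rw [map_zero]; exact zero_le
    · split_ifs
      · exact hr a (Finset.mem_insert_self a T)
      · rw [map_zero]; exact zero_le

/-- The integers of `K'` inside `L`, as a subring of `L`. -/
def baseIntegers (K' : Type*) [Field K'] [Algebra K' L] : Subring L :=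
  (algebraMap K' L).range ⊓ v.integer

theorem mem_baseIntegers_iff (x : L) :
    x ∈ baseIntegers v K' ↔ (∃ a : K', algebraMap K' L a = x) ∧ v x ≤ 1 := by
  rw [baseIntegers, Subring.mem_inf, RingHom.mem_range]
  rfl

theorem algebraMap_mem_baseIntegers {a : K'} (ha : v (algebraMap K' L a) ≤ 1) :
    algebraMap K' L a ∈ baseIntegers v K' :=
  (mem_baseIntegers_iff v _).2 ⟨⟨a, rfl⟩, ha⟩

/-- In a totally ramified extension the uniformizer generates: an automorphism fixing `π` is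
trivial. -/
theorem algEquiv_eq_one_of_fix [FiniteDimensional K' L] {π : L} (hπ0 : v π ≠ 0) (hπ1 : v π < 1)
    (hK : ∀ a : K', a ≠ 0 →
      ∃ n : ℤ, v (algebraMap K' L a) = v π ^ ((Module.finrank K' L : ℤ) * n))
    (σ : L ≃ₐ[K'] L) (hσ : σ π = π) : σ = 1 := by
  have he : 0 < Module.finrank K' L := Module.finrank_pos
  ext x
  obtain ⟨a, rfl⟩ := exists_coeffs v hπ0 hπ1 hK he rfl x
  rw [AlgEquiv.one_apply, map_sum]
  refine Finset.sum_congr rfl fun i _ => ?_
  rw [map_mul, map_pow, hσ, AlgEquiv.commutes]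

/-- **Serre IV.3 for a totally ramified Galois extension `L/K'`**, product form.

`v` is a `Gal(L/K')`-invariant valuation on `L`, `π` a uniformizer of `L` such that the value
group of `K'` is `(v π ^ [L : K']) ^ ℤ`.  For a subgroup `H` and an `H`-fixed element `ϖ` with
`v ϖ = v π ^ #H` (a uniformizer of `L^H`):
`v (τ ϖ - ϖ) = ∏ h : H, v ((τ * h) π - π)` for every `τ`. -/
theorem serre_prod_totRam [FiniteDimensional K' L] [IsGalois K' L]
    (hinv : ∀ (σ : L ≃ₐ[K'] L) (x : L), v (σ x) = v x)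
    {π : L} (hπ0 : v π ≠ 0) (hπ1 : v π < 1)
    (hK : ∀ a : K', a ≠ 0 →
      ∃ n : ℤ, v (algebraMap K' L a) = v π ^ ((Module.finrank K' L : ℤ) * n))
    (H : Subgroup (L ≃ₐ[K'] L)) [Fintype H] {ϖ : L} (hϖH : ∀ h ∈ H, h ϖ = ϖ)
    (hϖ : v ϖ = v π ^ Nat.card H) (τ : L ≃ₐ[K'] L) :
    v (τ ϖ - ϖ) = ∏ h : H, v ((τ * (h : L ≃ₐ[K'] L)) π - π) := by
  classical
  have he : 0 < Module.finrank K' L := Module.finrank_pos
  have hcardH : 0 < Nat.card H := Nat.card_pos
  have hϖ1 : v ϖ ≤ 1 := by rw [hϖ]; exact pow_le_one' hπ1.le _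
  set R₀ : Subring L := baseIntegers v K' with hR₀def
  have hR₀ : ∀ a ∈ R₀, v a ≤ 1 := fun a ha => ((mem_baseIntegers_iff v a).1 ha).2
  have hfix : ∀ (g : L ≃ₐ[K'] L), ∀ a ∈ R₀, g • a = a := by
    intro g a ha
    obtain ⟨⟨b, rfl⟩, -⟩ := (mem_baseIntegers_iff v a).1 ha
    exact g.commutes b
  have hgenL : ∀ z : L, v z ≤ 1 → z ∈ Subring.closure ((R₀ : Set L) ∪ {π}) := fun z hz =>
    mem_closure_of_val_le_one v hπ0 hπ1 hK he rfl R₀
      (fun a ha => algebraMap_mem_baseIntegers v ha) hz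
  -- the fixed field of `H` and its normal form
  set M : IntermediateField K' L := IntermediateField.fixedField H with hM
  have hϖM : ϖ ∈ M := by
    rw [hM, IntermediateField.mem_fixedField_iff]
    exact hϖH
  have hdeg : Module.finrank K' M * Nat.card H = Module.finrank K' L := by
    rw [← IntermediateField.finrank_fixedField_eq_card H]
    exact Module.finrank_mul_finrank K' M L
  set vM : Valuation M Γ₀ := v.comap (algebraMap M L) with hvM
  have hvM_apply : ∀ z : M, vM z = v (z : L) := fun z => rfl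
  have hKM : ∀ a : K', a ≠ 0 →
      ∃ n : ℤ, vM (algebraMap K' M a) = vM ⟨ϖ, hϖM⟩ ^ ((Module.finrank K' M : ℤ) * n) := by
    intro a ha
    obtain ⟨n, hn⟩ := hK a ha
    refine ⟨n, ?_⟩
    rw [hvM_apply, hvM_apply]
    change v (algebraMap K' L a) = v ϖ ^ _
    rw [hn, hϖ, ← zpow_natCast, ← zpow_mul, ← hdeg]
    congr 1
    push_cast
    ring
  have hgenM : ∀ c : L, c ∈ M → v c ≤ 1 → c ∈ Subring.closure ((R₀ : Set L) ∪ {ϖ}) := by
    intro c hcM hc
    have h0 : vM ⟨ϖ, hϖM⟩ ≠ 0 := by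
      rw [hvM_apply]
      change v ϖ ≠ 0
      rw [hϖ]
      exact pow_ne_zero _ hπ0
    have h1 : vM ⟨ϖ, hϖM⟩ < 1 := by
      rw [hvM_apply]
      change v ϖ < 1
      rw [hϖ]
      exact pow_lt_one₀ zero_le hπ1 hcardH.ne'
    obtain ⟨a, ha, hsum⟩ := exists_integral_coeffs vM h0 h1 hKM Module.finrank_pos rfl
      (x := (⟨c, hcM⟩ : M)) hc
    have hc' : c = ∑ i : Fin (Module.finrank K' M), algebraMap K' L (a i) * ϖ ^ (i : ℕ) := by
      have := congrArg (fun z : M => (z : L)) hsum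
      simpa using this
    rw [hc']
    refine Subring.sum_mem _ fun i _ => Subring.mul_mem _ ?_ (Subring.pow_mem _ ?_ _)
    · exact Subring.subset_closure (Or.inl (algebraMap_mem_baseIntegers v (ha i)))
    · exact Subring.subset_closure (Or.inr rfl)
  -- coefficients of the orbit polynomial
  have hcoef : ∀ k, (∏ h : H, (X - C ((h : L ≃ₐ[K'] L) • π))).coeff k ∈
      Subring.closure ((R₀ : Set L) ∪ {ϖ}) := by
    intro k
    refine hgenM _ ?_ ?_
    · rw [hM, IntermediateField.mem_fixedField_iff]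
      intro h₀ hh₀
      have hmap : (∏ h : H, (X - C ((h : L ≃ₐ[K'] L) • π))).map
          (h₀ : L ≃ₐ[K'] L).toAlgHom.toRingHom = ∏ h : H, (X - C ((h : L ≃ₐ[K'] L) • π)) := by
        rw [Polynomial.map_prod]
        refine Fintype.prod_equiv (Equiv.mulLeft (⟨h₀, hh₀⟩ : H)) _ _ fun h => ?_
        rw [Polynomial.map_sub, map_X, map_C]
        rfl
      have := congrArg (fun q : L[X] => q.coeff k) hmap
      simp only [coeff_map] at this
      exact this
    · exact val_coeff_prod_X_sub_C_le_one v _ _ (fun i _ => by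
        rw [AlgEquiv.smul_def, hinv]; exact hπ1.le) k
  exact serre_prod_subgroup v (fun g z => hinv g z) R₀ hR₀ hfix H hπ1.le
    (fun h _ hh => algEquiv_eq_one_of_fix v hπ0 hπ1 hK h hh) hϖH
    (hgenL ϖ hϖ1) hcoef τ

end TotRamGalois

section NormForm

open scoped NNReal

variable {K' L Cp : Type*} [Field K'] [Field L] [NormedField Cp] [IsUltrametricDist Cp]
  [Algebra K' L] [Algebra K' Cp] [Algebra L Cp] [IsScalarTower K' L Cp]

/-- The valuation `x ↦ ‖algebraMap L Cp x‖₊` on a field `L` mapping to an ultrametric normed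
field `Cp`. -/
noncomputable def normVal (L Cp : Type*) [Field L] [NormedField Cp] [IsUltrametricDist Cp]
    [Algebra L Cp] : Valuation L ℝ≥0 :=
  (NormedField.valuation (K := Cp)).comap (algebraMap L Cp)

theorem normVal_apply (x : L) : (normVal L Cp x : ℝ) = ‖algebraMap L Cp x‖ := rfl

/-- The totally ramified hypotheses in norm form (`‖p‖`-adic value group of `K'`,
`‖π‖ ^ [L : K'] = ‖p‖`) give the hypotheses of the abstract normal form. -/
theorem normVal_hyps [FiniteDimensional K' L] {p : ℕ} {π : L} (hp0 : 0 < ‖(p : Cp)‖)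
    (hp1 : ‖(p : Cp)‖ < 1)
    (hK : ∀ a : K', a ≠ 0 → ∃ k : ℤ, ‖algebraMap K' Cp a‖ = ‖(p : Cp)‖ ^ k)
    (hπ : ‖algebraMap L Cp π‖ ^ Module.finrank K' L = ‖(p : Cp)‖) :
    normVal L Cp π ≠ 0 ∧ normVal L Cp π < 1 ∧
      ∀ a : K', a ≠ 0 → ∃ n : ℤ, normVal L Cp (algebraMap K' L a) =
        normVal L Cp π ^ ((Module.finrank K' L : ℤ) * n) := by
  have he : 0 < Module.finrank K' L := Module.finrank_pos
  have h0 : ‖algebraMap L Cp π‖ ≠ 0 := by
    intro h
    rw [h, zero_pow he.ne'] at hπ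
    exact hp0.ne hπ
  have h1 : ‖algebraMap L Cp π‖ < 1 := by
    by_contra h
    push Not at h
    have : 1 ≤ ‖algebraMap L Cp π‖ ^ Module.finrank K' L := one_le_pow₀ h
    rw [hπ] at this
    exact absurd hp1 (not_lt.2 this)
  refine ⟨?_, ?_, ?_⟩
  · intro h
    apply h0
    rw [← normVal_apply, h, NNReal.coe_zero]
  · rw [← NNReal.coe_lt_coe, normVal_apply, NNReal.coe_one]
    exact h1
  · intro a ha
    obtain ⟨k, hk⟩ := hK a ha
    refine ⟨k, ?_⟩
    rw [← NNReal.coe_inj, normVal_apply, ← IsScalarTower.algebraMap_apply, hk, NNReal.coe_zpow,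
      normVal_apply, zpow_mul, zpow_natCast, hπ]

/-- **Serre IV.3 in norm form**, in the shape of the hypothesis `hS` of
`helper453.TotRam.layer_bound_of_Pm`, for every `τ`. -/
theorem serre_prod_norm [FiniteDimensional K' L] [IsGalois K' L] {p : ℕ} {π : L}
    (hp0 : 0 < ‖(p : Cp)‖) (hp1 : ‖(p : Cp)‖ < 1)
    (hK : ∀ a : K', a ≠ 0 → ∃ k : ℤ, ‖algebraMap K' Cp a‖ = ‖(p : Cp)‖ ^ k)
    (hπ : ‖algebraMap L Cp π‖ ^ Module.finrank K' L = ‖(p : Cp)‖)
    (hinv : ∀ (σ : L ≃ₐ[K'] L) (x : L), ‖algebraMap L Cp (σ x)‖ = ‖algebraMap L Cp x‖)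
    (H : Subgroup (L ≃ₐ[K'] L)) [Fintype H] (ϖ : L) (hϖH : ∀ x ∈ H, x ϖ = ϖ)
    (hϖ : ‖algebraMap L Cp ϖ‖ = ‖algebraMap L Cp π‖ ^ Nat.card H) (τ : L ≃ₐ[K'] L) :
    ‖algebraMap L Cp (τ ϖ - ϖ)‖ =
      ∏ x : H, ‖algebraMap L Cp ((τ * (x : L ≃ₐ[K'] L)) π - π)‖ := by
  obtain ⟨h0, h1, hK'⟩ := normVal_hyps (K' := K') (L := L) (Cp := Cp) hp0 hp1 hK hπ
  have hinv' : ∀ (σ : L ≃ₐ[K'] L) (x : L), normVal L Cp (σ x) = normVal L Cp x := by
    intro σ x
    rw [← NNReal.coe_inj, normVal_apply, normVal_apply, hinv]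
  have hϖ' : normVal L Cp ϖ = normVal L Cp π ^ Nat.card H := by
    rw [← NNReal.coe_inj, NNReal.coe_pow, normVal_apply, normVal_apply, hϖ]
  have := serre_prod_totRam (normVal L Cp) hinv' h0 h1 hK' H hϖH hϖ' τ
  have h2 := congrArg (fun r : ℝ≥0 => (r : ℝ)) this
  simp only [NNReal.coe_prod] at h2
  exact h2

end NormForm


section Discrete

variable {L : Type*} [Field L] {Γ₀ : Type*} [LinearOrderedCommGroupWithZero Γ₀]
  (v : Valuation L Γ₀)

/-- Discreteness: `v w < v π ^ n ⇒ v w ≤ v π ^ (n + 1)`. -/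
theorem val_le_pow_succ_of_lt_pow {π : L} (hπ0 : v π ≠ 0) (hπ1 : v π < 1)
    (hdisc : ∀ z : L, z ≠ 0 → ∃ n : ℤ, v z = v π ^ n) {w : L} {n : ℕ}
    (hw : v w < v π ^ n) : v w ≤ v π ^ (n + 1) := by
  by_cases hw0 : w = 0
  · rw [hw0, map_zero]; exact zero_le
  obtain ⟨m, hm⟩ := hdisc w hw0
  have hpos : 0 < v π := zero_lt_iff.2 hπ0
  rw [hm, ← zpow_natCast] at hw
  rw [hm, ← zpow_natCast]
  have hmn : (n : ℤ) < m := by
    by_contra h
    push Not at h
    have : v π ^ (n : ℤ) ≤ v π ^ m := by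
      rcases h.lt_or_eq with h' | h'
      · exact (zpow_lt_zpow_right_of_lt_one₀ hpos hπ1 h').le
      · rw [h']
    exact absurd hw (not_lt.2 this)
  have h2 : ((n + 1 : ℕ) : ℤ) ≤ m := by push_cast; omega
  rcases h2.lt_or_eq with h' | h'
  · exact (zpow_lt_zpow_right_of_lt_one₀ hpos hπ1 h').le
  · rw [h']

theorem val_le_of_lt_one {π : L} (hπ0 : v π ≠ 0) (hπ1 : v π < 1)
    (hdisc : ∀ z : L, z ≠ 0 → ∃ n : ℤ, v z = v π ^ n) {w : L} (hw : v w < 1) : v w ≤ v π := by
  have := val_le_pow_succ_of_lt_pow v hπ0 hπ1 hdisc (n := 0) (by rw [pow_zero]; exact hw)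
  rwa [zero_add, pow_one] at this

theorem val_le_sq_of_lt {π : L} (hπ0 : v π ≠ 0) (hπ1 : v π < 1)
    (hdisc : ∀ z : L, z ≠ 0 → ∃ n : ℤ, v z = v π ^ n) {w : L} (hw : v w < v π) :
    v w ≤ v π ^ 2 := by
  have := val_le_pow_succ_of_lt_pow v hπ0 hπ1 hdisc (n := 1) (by rw [pow_one]; exact hw)
  exact this

/-- `v (a ^ k - b ^ k) ≤ v (a - b)` for integral `a`, `b`. -/
theorem val_pow_sub_pow_le {a b : L} (ha : v a ≤ 1) (hb : v b ≤ 1) (k : ℕ) :
    v (a ^ k - b ^ k) ≤ v (a - b) := by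
  have := val_pow_sub_pow_mul_le v ha hb k
  simpa using this

end Discrete

section TotRamGroup

variable {K' L : Type*} [Field K'] [Field L] [Algebra K' L] [FiniteDimensional K' L]
  {Γ₀ : Type*} [LinearOrderedCommGroupWithZero Γ₀] (v : Valuation L Γ₀)

omit [FiniteDimensional K' L] in
theorem val_le_one_of_mem_baseIntegers {a : L} (ha : a ∈ baseIntegers v K') : v a ≤ 1 :=
  ((mem_baseIntegers_iff v a).1 ha).2

omit [FiniteDimensional K' L] in
theorem algEquiv_apply_of_mem_baseIntegers (σ : L ≃ₐ[K'] L) {a : L}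
    (ha : a ∈ baseIntegers v K') : σ a = a := by
  obtain ⟨⟨b, rfl⟩, -⟩ := (mem_baseIntegers_iff v a).1 ha
  exact σ.commutes b

/-- `O_L = O_K'[π]` in closure form over `baseIntegers v K'`. -/
theorem mem_closure_baseIntegers {π : L} (hπ0 : v π ≠ 0) (hπ1 : v π < 1)
    (hK : ∀ a : K', a ≠ 0 →
      ∃ n : ℤ, v (algebraMap K' L a) = v π ^ ((Module.finrank K' L : ℤ) * n))
    {z : L} (hz : v z ≤ 1) :
    z ∈ Subring.closure ((baseIntegers v K' : Set L) ∪ {π}) :=
  mem_closure_of_val_le_one v hπ0 hπ1 hK Module.finrank_pos rfl (baseIntegers v K')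
    (fun _ ha => algebraMap_mem_baseIntegers v ha) hz

/-- In a totally ramified extension, `v (σ z - z) * v π ≤ v (σ π - π) * v z` for all `z`. -/
theorem totRam_val_sub_mul_le (hinv : ∀ (σ : L ≃ₐ[K'] L) (x : L), v (σ x) = v x)
    {π : L} (hπ0 : v π ≠ 0) (hπ1 : v π < 1)
    (hK : ∀ a : K', a ≠ 0 →
      ∃ n : ℤ, v (algebraMap K' L a) = v π ^ ((Module.finrank K' L : ℤ) * n))
    (hdisc : ∀ z : L, z ≠ 0 → ∃ n : ℤ, v z = v π ^ n) (σ : L ≃ₐ[K'] L) (z : L) :
    v (σ z - z) * v π ≤ v (σ π - π) * v z :=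
  val_smul_sub_mul_le v σ (hinv σ) (baseIntegers v K')
    (fun _ ha => val_le_one_of_mem_baseIntegers v ha)
    (fun _ ha => algEquiv_apply_of_mem_baseIntegers v σ ha) hπ0 hπ1.le
    (fun _ hz => mem_closure_baseIntegers v hπ0 hπ1 hK hz) hdisc z

/-- In a totally ramified Galois extension with residue characteristic `p`, the wild
ramification subgroup `{σ | v (σ π - π) ≤ v π ^ 2}` is a `p`-group. -/
theorem totRam_isPGroup (hinv : ∀ (σ : L ≃ₐ[K'] L) (x : L), v (σ x) = v x)
    {π : L} (hπ0 : v π ≠ 0) (hπ1 : v π < 1)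
    (hK : ∀ a : K', a ≠ 0 →
      ∃ n : ℤ, v (algebraMap K' L a) = v π ^ ((Module.finrank K' L : ℤ) * n))
    (hdisc : ∀ z : L, z ≠ 0 → ∃ n : ℤ, v z = v π ^ n) {p : ℕ} (hp : v (p : L) < 1) :
    IsPGroup p (ramSubgroup v (fun (g : L ≃ₐ[K'] L) z => hinv g z) (v π ^ 2)) :=
  isPGroup_ramSubgroup v (fun (g : L ≃ₐ[K'] L) z => hinv g z) (baseIntegers v K')
    (fun _ ha => val_le_one_of_mem_baseIntegers v ha)
    (fun g _ ha => algEquiv_apply_of_mem_baseIntegers v g ha) hπ0 hπ1
    (fun _ hz => mem_closure_baseIntegers v hπ0 hπ1 hK hz) hdisc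
    (fun σ hσ => algEquiv_eq_one_of_fix v hπ0 hπ1 hK σ hσ) hp

theorem mem_ramSubgroup_sq_iff (hinv : ∀ (σ : L ≃ₐ[K'] L) (x : L), v (σ x) = v x)
    {π : L} (hπ0 : v π ≠ 0) (hπ1 : v π < 1)
    (hK : ∀ a : K', a ≠ 0 →
      ∃ n : ℤ, v (algebraMap K' L a) = v π ^ ((Module.finrank K' L : ℤ) * n))
    (hdisc : ∀ z : L, z ≠ 0 → ∃ n : ℤ, v z = v π ^ n) (σ : L ≃ₐ[K'] L) :
    σ ∈ ramSubgroup v (fun (g : L ≃ₐ[K'] L) z => hinv g z) (v π ^ 2) ↔ v (σ π - π) < v π := by
  rw [mem_ramSubgroup_iff_of_gen v (fun (g : L ≃ₐ[K'] L) z => hinv g z) (v π ^ 2) σ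
    (baseIntegers v K') (fun _ ha => val_le_one_of_mem_baseIntegers v ha)
    (fun _ ha => algEquiv_apply_of_mem_baseIntegers v σ ha) hπ1.le
    (fun _ hz => mem_closure_baseIntegers v hπ0 hπ1 hK hz)]
  constructor
  · intro h
    refine lt_of_le_of_lt h ?_
    calc v π ^ 2 = v π * v π := sq _
      _ < 1 * v π := mul_lt_mul_of_pos_right hπ1 (zero_lt_iff.2 hπ0)
      _ = v π := one_mul _
  · intro h
    exact val_le_sq_of_lt v hπ0 hπ1 hdisc h

end TotRamGroup

end Fermat.Agent.S56.helper862
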