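/-
S56 (flat local bound, design B): the classical ramification layer, instance for finite
extensions of `ℚ_p`.

Carrier: an abstract field `L`, finite over `ℚ_[p]` (so `L := ↥L₀` for an intermediate field
`L₀` of `PadicAlgCl p` instantiates, with `specVal` the ambient norm).  The valuation is
`specVal p L : Valuation L ℝ≥0`, the spectral norm.

Contents
* `specVal` and its dictionary with `integerRing` (S55 `helper862_LocalIntegers`).
* `exists_uniformizer` : uniformizers, discreteness of the value group, `v π ^ e = v p`,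
  `#κ = p ^ f`, `e * f = [L : ℚ_p]`.
* `inertia` (normal subgroup of `Gal(L/ℚ_p)`), `resAut`, `ker_resAut`;
  Teichmüller representatives (`exists_teichmuller`, `teichmuller_unique`);
  `card_residueField_le_of_algHom`, `card_residueField_le_of_approx`.
* `exists_totRam` : for `L/ℚ_p` finite Galois and `K' = inertiaField p L = L^I`:
  `[K' : ℚ_p] = f`, `[L : K'] = e = #I`, `K'/ℚ_p` unramified (value group `v p ^ ℤ`).
* `exists_totRam_package`, `exists_totRam_padicAlgCl` : the elementwise hypotheses of the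
  abstract layer / of `helper453.TotRam` for `L/K'` (norm form on `PadicAlgCl p`).
* `exists_pth_root_mod`, `exists_not_artinSchreier` : the residue field is perfect and the
  Artin–Schreier map is not onto (elementwise).
* `exists_uniformizer_of_inertiaField_le` : uniformizers of the fields `K' ≤ M ≤ L`,
  `v πM ^ [M : K'] = v p`.
* `wild` (normal subgroup of `Gal(L/K')`), `mem_wild_iff_of_uniformizer`, `isPGroup_wild`,
  `mem_wild_of_pow_mem`, `not_dvd_index_wild` : the wild inertia subgroup is a `p`-group of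
  index prime to `p`.
-/
import Mathlib
import Fermat.Agent.S55.helper862_LocalIntegers
import Fermat.Agent.S56.helper862_SerreIV

set_option autoImplicit false

open Polynomial IsLocalRing
open scoped NNReal

namespace Fermat.Agent.S56.helper862

open Fermat.Agent.S55.helper862

section SpecVal

variable (p : ℕ) [Fact p.Prime] (L : Type*) [Field L] [Algebra ℚ_[p] L]
  [Algebra.IsAlgebraic ℚ_[p] L]

/-- The spectral norm of a finite (algebraic) extension of `ℚ_p`, as a valuation. -/
noncomputable def specVal : Valuation L ℝ≥0 where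
  toFun x := ⟨spectralNorm ℚ_[p] L x, spectralNorm_nonneg x⟩
  map_zero' := by
    ext
    exact spectralNorm_zero
  map_one' := by
    ext
    exact spectralNorm_one
  map_mul' x y := by
    ext
    exact spectralAlgNorm_mul x y
  map_add_le_max' x y := by
    have := isNonarchimedean_spectralNorm (K := ℚ_[p]) (L := L) x y
    exact_mod_cast this

theorem specVal_apply (x : L) : (specVal p L x : ℝ) = spectralNorm ℚ_[p] L x := rfl

theorem specVal_le_one_iff (x : L) : specVal p L x ≤ 1 ↔ x ∈ integerRing p L := by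
  rw [mem_integerRing_iff_spectralNorm_le_one, ← specVal_apply, ← NNReal.coe_one,
    NNReal.coe_le_coe]

theorem specVal_algebraMap (a : ℚ_[p]) : (specVal p L (algebraMap ℚ_[p] L a) : ℝ) = ‖a‖ := by
  rw [specVal_apply, spectralNorm_extends]

theorem specVal_natCast_prime : (specVal p L (p : L) : ℝ) = (p : ℝ)⁻¹ := by
  have h : (p : L) = algebraMap ℚ_[p] L (p : ℚ_[p]) := by rw [map_natCast]
  rw [h, specVal_algebraMap, Padic.norm_p]

theorem specVal_natCast_prime_ne_zero : specVal p L (p : L) ≠ 0 := by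
  intro h
  have := specVal_natCast_prime p L
  rw [h, NNReal.coe_zero] at this
  have hp : (0 : ℝ) < (p : ℝ)⁻¹ := inv_pos.2 (Nat.cast_pos.2 (Fact.out : p.Prime).pos)
  linarith

theorem specVal_natCast_prime_lt_one : specVal p L (p : L) < 1 := by
  rw [← NNReal.coe_lt_coe, specVal_natCast_prime, NNReal.coe_one]
  exact inv_lt_one_of_one_lt₀ (by exact_mod_cast (Fact.out : p.Prime).one_lt)

theorem specVal_algEquiv (σ : L ≃ₐ[ℚ_[p]] L) (x : L) : specVal p L (σ x) = specVal p L x := by
  ext
  rw [specVal_apply, specVal_apply]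
  exact (spectralNorm_eq_of_equiv σ x).symm

/-- The spectral norm of a subextension is the restriction of the spectral norm. -/
theorem specVal_tower (K : IntermediateField ℚ_[p] L) (x : K) :
    specVal p K x = specVal p L (x : L) := by
  ext
  rw [specVal_apply, specVal_apply]
  exact spectralNorm.eq_of_tower (K := ℚ_[p]) (E := K) (L := L) x

/-- In a subextension of `PadicAlgCl p`, `specVal` is the ambient norm. -/
theorem specVal_eq_norm (K : IntermediateField ℚ_[p] (PadicAlgCl p)) (x : K) :
    (specVal p K x : ℝ) = ‖(x : PadicAlgCl p)‖ := by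
  rw [specVal_apply, ← PadicAlgCl.spectralNorm_eq,
    spectralNorm.eq_of_tower (E := K) (L := PadicAlgCl p)]
  rfl

end SpecVal

section Uniformizer

variable (p : ℕ) [Fact p.Prime] (L : Type*) [Field L] [Algebra ℚ_[p] L]
  [FiniteDimensional ℚ_[p] L]

theorem specVal_lt_one_iff (x : integerRing p L) :
    specVal p L (x : L) < 1 ↔ x ∈ maximalIdeal (integerRing p L) := by
  rw [mem_maximalIdeal_integerRing_iff, ← specVal_apply, ← NNReal.coe_one, NNReal.coe_lt_coe]

theorem specVal_eq_one_iff (x : integerRing p L) :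
    specVal p L (x : L) = 1 ↔ IsUnit x := by
  rw [isUnit_integerRing_iff, ← specVal_apply, ← NNReal.coe_one, NNReal.coe_inj]

/-- Existence of a uniformizer together with the ramification index and residue degree:
`0 < v π < 1`, the value group is `v π ^ ℤ`, `v π ^ e = v p`, `#κ = p ^ f`, `e * f = [L : ℚ_p]`. -/
theorem exists_uniformizer :
    ∃ (π : L) (e f : ℕ), specVal p L π ≠ 0 ∧ specVal p L π < 1 ∧ 0 < e ∧ 0 < f ∧
      (∀ z : L, z ≠ 0 → ∃ n : ℤ, specVal p L z = specVal p L π ^ n) ∧
      specVal p L π ^ e = specVal p L (p : L) ∧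
      Nat.card (ResidueField (integerRing p L)) = p ^ f ∧
      e * f = Module.finrank ℚ_[p] L := by
  obtain ⟨e, f, he, hf, hpow, hcard, hef⟩ := exists_ramificationIdx_inertiaDeg_integerRing p L
  obtain ⟨ϖ, hϖ⟩ := IsDiscreteValuationRing.exists_irreducible (integerRing p L)
  have hϖ0 : (ϖ : L) ≠ 0 := fun h => hϖ.ne_zero (Subtype.ext h)
  have hv0 : specVal p L (ϖ : L) ≠ 0 := (Valuation.ne_zero_iff _).2 hϖ0
  have hv1 : specVal p L (ϖ : L) < 1 := by
    rw [specVal_lt_one_iff]
    exact (IsDiscreteValuationRing.irreducible_iff_uniformizer ϖ).1 hϖ ▸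
      Ideal.mem_span_singleton_self ϖ
  -- nonzero integers are unit * power
  have hint : ∀ z : integerRing p L, z ≠ 0 → ∃ n : ℕ, specVal p L (z : L) = specVal p L (ϖ : L) ^ n := by
    intro z hz
    obtain ⟨n, u, hu⟩ := IsDiscreteValuationRing.eq_unit_mul_pow_irreducible hz hϖ
    refine ⟨n, ?_⟩
    rw [hu, Subring.coe_mul, map_mul, Subring.coe_pow, map_pow,
      (specVal_eq_one_iff p L (u : integerRing p L)).2 u.isUnit, one_mul]
  refine ⟨ϖ, e, f, hv0, hv1, he, hf, ?_, ?_, hcard, hef⟩
  · intro z hz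
    rcases mem_integerRing_or_inv_mem p L z with h | h
    · obtain ⟨n, hn⟩ := hint ⟨z, h⟩ (fun h0 => hz (congrArg Subtype.val h0))
      exact ⟨n, by rw [zpow_natCast]; exact hn⟩
    · obtain ⟨n, hn⟩ := hint ⟨z⁻¹, h⟩ (fun h0 => inv_ne_zero hz (congrArg Subtype.val h0))
      refine ⟨-n, ?_⟩
      rw [zpow_neg, zpow_natCast, ← hn]
      simp [map_inv₀]
  · -- `(p) = 𝔪 ^ e = (ϖ ^ e)`
    have h1 : maximalIdeal (integerRing p L) = Ideal.span {ϖ} :=
      (IsDiscreteValuationRing.irreducible_iff_uniformizer ϖ).1 hϖ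
    rw [h1, Ideal.span_singleton_pow, Ideal.span_singleton_eq_span_singleton] at hpow
    obtain ⟨u, hu⟩ := hpow
    have h2 : (p : L) = ((ϖ ^ e * (u : integerRing p L) : integerRing p L) : L) := by
      rw [hu]; simp
    rw [h2, Subring.coe_mul, map_mul, Subring.coe_pow, map_pow,
      (specVal_eq_one_iff p L (u : integerRing p L)).2 u.isUnit, mul_one]

end Uniformizer

/-- A finite field with `p ^ f` elements has at most `f` ring automorphisms. -/
theorem card_ringAut_le (κ : Type*) [Field κ] [Finite κ] (p f : ℕ) [Fact p.Prime] [CharP κ p]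
    (hcard : Nat.card κ = p ^ f) : Nat.card (RingAut κ) ≤ f := by
  let _ := ZMod.algebra κ p
  have hfin : Module.finrank (ZMod p) κ = f := by
    have h := Module.natCard_eq_pow_finrank (K := ZMod p) (V := κ)
    rw [hcard, Nat.card_zmod] at h
    exact (Nat.pow_right_injective (Fact.out : p.Prime).two_le h).symm
  have hgal : Nat.card (κ ≃ₐ[ZMod p] κ) = f := by
    rw [IsGalois.card_aut_eq_finrank, hfin]
  rw [← hgal]
  let φ : RingAut κ → (κ ≃ₐ[ZMod p] κ) := fun e =>
    AlgEquiv.ofRingEquiv (f := e) (fun x =>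
      RingHom.congr_fun (Subsingleton.elim ((e : κ →+* κ).comp (algebraMap (ZMod p) κ))
        (algebraMap (ZMod p) κ)) x)
  refine Nat.card_le_card_of_injective φ ?_
  intro e₁ e₂ h
  ext x
  exact congrArg (fun g : κ ≃ₐ[ZMod p] κ => g x) h

section Inertia

variable (p : ℕ) [Fact p.Prime] (L : Type*) [Field L] [Algebra ℚ_[p] L]
  [FiniteDimensional ℚ_[p] L]

theorem specVal_smul (σ : L ≃ₐ[ℚ_[p]] L) (z : L) : specVal p L (σ • z) = specVal p L z :=
  specVal_algEquiv p L σ z

instance isInvariantSubring_integerRing :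
    IsInvariantSubring (L ≃ₐ[ℚ_[p]] L) (integerRing p L) where
  smul_mem σ {x} hx := by
    rw [← specVal_le_one_iff] at hx ⊢
    rw [specVal_smul]
    exact hx

/-- The inertia subgroup of `Gal(L/ℚ_p)`: the automorphisms acting trivially on the residue
field. -/
def inertia : Subgroup (L ≃ₐ[ℚ_[p]] L) where
  carrier := {σ | ∀ z : L, specVal p L z ≤ 1 → specVal p L (σ z - z) < 1}
  one_mem' := by
    intro z _
    simp
  mul_mem' := by
    intro a b ha hb z hz
    have : (a * b) z - z = a (b z - z) + (a z - z) := by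
      rw [AlgEquiv.mul_apply, map_sub]; ring
    rw [this]
    exact lt_of_le_of_lt (Valuation.map_add _ _ _)
      (max_lt (by rw [specVal_algEquiv]; exact hb z hz) (ha z hz))
  inv_mem' := by
    intro a ha z hz
    have : a⁻¹ z - z = -(a⁻¹ (a z - z)) := by
      rw [map_sub, ← AlgEquiv.mul_apply, inv_mul_cancel, AlgEquiv.one_apply]; ring
    rw [this, Valuation.map_neg, specVal_algEquiv]
    exact ha z hz

theorem mem_inertia_iff (σ : L ≃ₐ[ℚ_[p]] L) :
    σ ∈ inertia p L ↔ ∀ z : L, specVal p L z ≤ 1 → specVal p L (σ z - z) < 1 := Iff.rfl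

instance inertia_normal : (inertia p L).Normal where
  conj_mem := by
    intro n hn g z hz
    have : (g * n * g⁻¹) z - z = g (n (g⁻¹ z) - g⁻¹ z) := by
      rw [AlgEquiv.mul_apply, AlgEquiv.mul_apply, map_sub, ← AlgEquiv.mul_apply g g⁻¹,
        mul_inv_cancel, AlgEquiv.one_apply]
    rw [this, specVal_algEquiv]
    exact hn _ (by rw [specVal_algEquiv]; exact hz)

/-- The action of the Galois group on the residue field. -/
noncomputable def resAut :
    (L ≃ₐ[ℚ_[p]] L) →* RingAut (ResidueField (integerRing p L)) :=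
  MulSemiringAction.toRingAut (L ≃ₐ[ℚ_[p]] L) (ResidueField (integerRing p L))

theorem resAut_residue (σ : L ≃ₐ[ℚ_[p]] L) (x : integerRing p L) :
    resAut p L σ (residue _ x) = residue _ (σ • x) := rfl

theorem ker_resAut : (resAut p L).ker = inertia p L := by
  ext σ
  rw [MonoidHom.mem_ker, mem_inertia_iff]
  constructor
  · intro h z hz
    have hz' : z ∈ integerRing p L := (specVal_le_one_iff p L z).1 hz
    have h1 := resAut_residue p L σ ⟨z, hz'⟩
    rw [h, RingAut.one_apply] at h1
    have h2 : (σ • (⟨z, hz'⟩ : integerRing p L)) - ⟨z, hz'⟩ ∈ maximalIdeal (integerRing p L) := by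
      rw [← Ideal.Quotient.eq]
      exact h1.symm
    rw [← specVal_lt_one_iff] at h2
    exact h2
  · intro h
    ext c
    obtain ⟨x, rfl⟩ := residue_surjective c
    rw [resAut_residue, RingAut.one_apply]
    apply Ideal.Quotient.eq.2
    rw [← specVal_lt_one_iff]
    exact h x ((specVal_le_one_iff p L x).2 x.2)

end Inertia

section Teichmuller

variable (p : ℕ) [Fact p.Prime] (L : Type*) [Field L] [Algebra ℚ_[p] L]
  [FiniteDimensional ℚ_[p] L]

theorem one_lt_card_residueField : 1 < Nat.card (ResidueField (integerRing p L)) :=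
  Finite.one_lt_card

/-- Elements with `a ^ q = a` are integral. -/
theorem specVal_le_one_of_pow_eq {a : L} {q : ℕ} (hq : 1 < q) (ha : a ^ q = a) :
    specVal p L a ≤ 1 := by
  by_contra h
  push Not at h
  have h1 : specVal p L a < specVal p L a ^ q := lt_self_pow₀ h hq
  rw [← map_pow, ha] at h1
  exact lt_irrefl _ h1

/-- **Teichmüller representatives** (existence, by Hensel's lemma for `X ^ q - X`). -/
theorem exists_teichmuller {x : L} (hx : specVal p L x ≤ 1) :
    ∃ a : L, a ^ Nat.card (ResidueField (integerRing p L)) = a ∧ specVal p L (a - x) < 1 := by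
  classical
  set R := integerRing p L with hR
  set q := Nat.card (ResidueField R) with hq
  have hq1 : 1 < q := one_lt_card_residueField p L
  have : Fintype (ResidueField R) := Fintype.ofFinite _
  have hqF : q = Fintype.card (ResidueField R) := Nat.card_eq_fintype_card
  let x' : R := ⟨x, (specVal_le_one_iff p L x).1 hx⟩
  let f : R[X] := X ^ q - X
  have hmon : f.Monic := monic_X_pow_sub (by rw [degree_X]; exact_mod_cast hq1)
  have hres : ∀ y : R, residue R (y ^ q - y) = 0 := by
    intro y
    rw [map_sub, map_pow, hqF, FiniteField.pow_card, sub_self]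
  have h1 : f.eval x' ∈ maximalIdeal R := by
    have : f.eval x' = x' ^ q - x' := by simp [f]
    rw [this, ← residue_eq_zero_iff]
    exact hres x'
  have h2 : IsUnit (Ideal.Quotient.mk (maximalIdeal R) (f.derivative.eval x')) := by
    have hder : f.derivative.eval x' = (q : R) * x' ^ (q - 1) - 1 := by
      simp [f, derivative_X_pow]
    have hq0 : residue R (q : R) = 0 := by
      rw [map_natCast, hqF]
      exact FiniteField.cast_card_eq_zero _
    have : Ideal.Quotient.mk (maximalIdeal R) (f.derivative.eval x') = -1 := by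
      change residue R _ = -1
      rw [hder, map_sub, map_mul, hq0, zero_mul, map_one, zero_sub]
    rw [this]
    exact isUnit_one.neg
  obtain ⟨a, ha, hax⟩ := HenselianRing.is_henselian (I := maximalIdeal R) f hmon x' h1 h2
  refine ⟨(a : L), ?_, ?_⟩
  · have : a ^ q - a = 0 := by simpa [f, IsRoot] using ha
    have h3 : a ^ q = a := sub_eq_zero.1 this
    exact_mod_cast congrArg (Subtype.val) h3
  · exact (specVal_lt_one_iff p L (a - x')).2 hax

/-- **Teichmüller representatives** are determined by their residue class. -/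
theorem teichmuller_unique {a b : L}
    (ha : a ^ Nat.card (ResidueField (integerRing p L)) = a)
    (hb : b ^ Nat.card (ResidueField (integerRing p L)) = b)
    (hab : specVal p L (a - b) < 1) : a = b := by
  classical
  set R := integerRing p L with hR
  set q := Nat.card (ResidueField R) with hq
  have hq1 : 1 < q := one_lt_card_residueField p L
  have : Fintype (ResidueField R) := Fintype.ofFinite _
  have hqF : q = Fintype.card (ResidueField R) := Nat.card_eq_fintype_card
  let a' : R := ⟨a, (specVal_le_one_iff p L a).1 (specVal_le_one_of_pow_eq p L hq1 ha)⟩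
  let b' : R := ⟨b, (specVal_le_one_iff p L b).1 (specVal_le_one_of_pow_eq p L hq1 hb)⟩
  let f : R[X] := X ^ q - X
  have hfa : f.eval a' = 0 := by
    have : f.eval a' = a' ^ q - a' := by simp [f]
    rw [this, sub_eq_zero]
    exact Subtype.ext ha
  have hfb : f.eval b' = 0 := by
    have : f.eval b' = b' ^ q - b' := by simp [f]
    rw [this, sub_eq_zero]
    exact Subtype.ext hb
  have hnu : ¬ IsUnit (a' - b') := by
    have : a' - b' ∈ maximalIdeal R := (specVal_lt_one_iff p L (a' - b')).1 hab
    exact this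
  have hder : IsUnit (f.derivative.eval a') := by
    have hder : f.derivative.eval a' = (q : R) * a' ^ (q - 1) - 1 := by
      simp [f, derivative_X_pow]
    have hq0 : residue R (q : R) = 0 := by
      rw [map_natCast, hqF]
      exact FiniteField.cast_card_eq_zero _
    have hres : residue R (f.derivative.eval a') = -1 := by
      rw [hder, map_sub, map_mul, hq0, zero_mul, map_one, zero_sub]
    by_contra hnot
    have : f.derivative.eval a' ∈ maximalIdeal R := hnot
    rw [← residue_eq_zero_iff, hres] at this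
    exact one_ne_zero (neg_eq_zero.1 this)
  have := IsLocalRing.eq_of_eval_eq_zero_of_not_isUnit_sub hfa hfb hnu hder
  exact congrArg Subtype.val this

/-- Teichmüller representatives are fixed by inertia. -/
theorem inertia_fixes_teichmuller {σ : L ≃ₐ[ℚ_[p]] L} (hσ : σ ∈ inertia p L) {a : L}
    (ha : a ^ Nat.card (ResidueField (integerRing p L)) = a) : σ a = a := by
  refine teichmuller_unique p L ?_ ha ?_
  · rw [← map_pow, ha]
  · exact hσ a (specVal_le_one_of_pow_eq p L (one_lt_card_residueField p L) ha)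

/-- Every integral element of `L` is congruent to an element of the inertia field. -/
theorem exists_mem_fixedField_inertia {x : L} (hx : specVal p L x ≤ 1) :
    ∃ a : IntermediateField.fixedField (inertia p L), specVal p L (x - a) < 1 := by
  obtain ⟨a, ha, hax⟩ := exists_teichmuller p L hx
  refine ⟨⟨a, ?_⟩, ?_⟩
  · rw [IntermediateField.mem_fixedField_iff]
    intro σ hσ
    exact inertia_fixes_teichmuller p L hσ ha
  · rw [Valuation.map_sub_swap]
    exact hax

end Teichmuller

section ResidueCard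

variable (p : ℕ) [Fact p.Prime] {M₁ M₂ : Type*} [Field M₁] [Algebra ℚ_[p] M₁]
  [FiniteDimensional ℚ_[p] M₁] [Field M₂] [Algebra ℚ_[p] M₂] [FiniteDimensional ℚ_[p] M₂]

/-- The spectral norm is compatible with every `ℚ_p`-embedding. -/
theorem specVal_algHom (φ : M₁ →ₐ[ℚ_[p]] M₂) (x : M₁) :
    specVal p M₂ (φ x) = specVal p M₁ x := by
  ext
  rw [specVal_apply, specVal_apply, spectralNorm, spectralNorm,
    minpoly.algHom_eq φ φ.injective x]

/-- The residue field of a subextension is not larger. -/
theorem card_residueField_le_of_algHom (φ : M₁ →ₐ[ℚ_[p]] M₂) :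
    Nat.card (ResidueField (integerRing p M₁)) ≤ Nat.card (ResidueField (integerRing p M₂)) := by
  have key : ∀ c : ResidueField (integerRing p M₁), ∃ y : integerRing p M₂,
      ∀ x : integerRing p M₁, residue _ x = c → specVal p M₂ (φ (x : M₁) - y) < 1 := by
    intro c
    obtain ⟨x₀, rfl⟩ := residue_surjective c
    have hx₀ : φ (x₀ : M₁) ∈ integerRing p M₂ := by
      rw [← specVal_le_one_iff, specVal_algHom, specVal_le_one_iff]
      exact x₀.2
    refine ⟨⟨_, hx₀⟩, fun x hx => ?_⟩
    have h1 : x - x₀ ∈ maximalIdeal (integerRing p M₁) := Ideal.Quotient.eq.1 hx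
    rw [← specVal_lt_one_iff, ← specVal_algHom p φ] at h1
    simpa using h1
  choose g hg using key
  refine Nat.card_le_card_of_injective (fun c => residue _ (g c)) ?_
  intro c c' hcc
  obtain ⟨x, rfl⟩ := residue_surjective c
  obtain ⟨x', rfl⟩ := residue_surjective c'
  have h1 := hg _ x rfl
  have h2 := hg _ x' rfl
  have h3 : g (residue _ x) - g (residue _ x') ∈ maximalIdeal (integerRing p M₂) :=
    Ideal.Quotient.eq.1 hcc
  rw [← specVal_lt_one_iff] at h3
  apply Ideal.Quotient.eq.2
  rw [← specVal_lt_one_iff, ← specVal_algHom p φ]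
  have e : φ ((x - x' : integerRing p M₁) : M₁) =
      (φ (x : M₁) - g (residue _ x)) + ((g (residue _ x) : M₂) - g (residue _ x'))
        - (φ (x' : M₁) - g (residue _ x')) := by
    push_cast
    rw [map_sub]
    ring
  rw [e]
  exact lt_of_le_of_lt (Valuation.map_sub _ _ _)
    (max_lt (lt_of_le_of_lt (Valuation.map_add _ _ _) (max_lt h1 h3)) h2)

/-- If every integral element of `M₂` is congruent to an element of (the image of) `M₁`, the
residue field of `M₂` is not larger than that of `M₁`. -/
theorem card_residueField_le_of_approx (φ : M₁ →ₐ[ℚ_[p]] M₂)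
    (h : ∀ x : M₂, specVal p M₂ x ≤ 1 → ∃ a : M₁, specVal p M₂ (x - φ a) < 1) :
    Nat.card (ResidueField (integerRing p M₂)) ≤ Nat.card (ResidueField (integerRing p M₁)) := by
  have key : ∀ c : ResidueField (integerRing p M₂), ∃ a : integerRing p M₁,
      ∀ x : integerRing p M₂, residue _ x = c → specVal p M₂ ((x : M₂) - φ (a : M₁)) < 1 := by
    intro c
    obtain ⟨x₀, rfl⟩ := residue_surjective c
    obtain ⟨a, ha⟩ := h x₀ ((specVal_le_one_iff p M₂ _).2 x₀.2)
    have ha1 : specVal p M₂ (φ a) ≤ 1 := by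
      have e : φ a = (x₀ : M₂) - ((x₀ : M₂) - φ a) := by ring
      rw [e]
      exact (Valuation.map_sub _ _ _).trans (max_le ((specVal_le_one_iff p M₂ _).2 x₀.2) ha.le)
    have ha' : a ∈ integerRing p M₁ := by
      rw [← specVal_le_one_iff, ← specVal_algHom p φ]
      exact ha1
    refine ⟨⟨a, ha'⟩, fun x hx => ?_⟩
    have h1 : x - x₀ ∈ maximalIdeal (integerRing p M₂) := Ideal.Quotient.eq.1 hx
    rw [← specVal_lt_one_iff] at h1
    have e : (x : M₂) - φ a = ((x - x₀ : integerRing p M₂) : M₂) + ((x₀ : M₂) - φ a) := by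
      push_cast
      ring
    rw [e]
    exact lt_of_le_of_lt (Valuation.map_add _ _ _) (max_lt h1 ha)
  choose g hg using key
  refine Nat.card_le_card_of_injective (fun c => residue _ (g c)) ?_
  intro c c' hcc
  obtain ⟨x, rfl⟩ := residue_surjective c
  obtain ⟨x', rfl⟩ := residue_surjective c'
  have h1 := hg _ x rfl
  have h2 := hg _ x' rfl
  have h3 : g (residue _ x) - g (residue _ x') ∈ maximalIdeal (integerRing p M₁) :=
    Ideal.Quotient.eq.1 hcc
  rw [← specVal_lt_one_iff, ← specVal_algHom p φ] at h3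
  apply Ideal.Quotient.eq.2
  rw [← specVal_lt_one_iff]
  have e : ((x - x' : integerRing p M₂) : M₂) =
      ((x : M₂) - φ (g (residue _ x) : M₁))
        + φ ((g (residue _ x) - g (residue _ x') : integerRing p M₁) : M₁)
        - ((x' : M₂) - φ (g (residue _ x') : M₁)) := by
    push_cast
    rw [map_sub]
    ring
  rw [e]
  exact lt_of_le_of_lt (Valuation.map_sub _ _ _)
    (max_lt (lt_of_le_of_lt (Valuation.map_add _ _ _) (max_lt h1 h3)) h2)

end ResidueCard

section InertiaField

variable (p : ℕ) [Fact p.Prime] (L : Type*) [Field L] [Algebra ℚ_[p] L]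
  [FiniteDimensional ℚ_[p] L]

/-- The inertia field of `L/ℚ_p`: the fixed field of the inertia subgroup. -/
noncomputable abbrev inertiaField : IntermediateField ℚ_[p] L :=
  IntermediateField.fixedField (inertia p L)

theorem index_inertia_le {f : ℕ}
    (hf : Nat.card (ResidueField (integerRing p L)) = p ^ f) : (inertia p L).index ≤ f := by
  rw [← ker_resAut, Subgroup.index_ker]
  have : Finite (RingAut (ResidueField (integerRing p L))) :=
    Finite.of_injective (fun e : RingAut (ResidueField (integerRing p L)) =>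
      (e : ResidueField (integerRing p L) → ResidueField (integerRing p L)))
      DFunLike.coe_injective
  exact (Nat.card_le_card_of_injective Subtype.val Subtype.val_injective).trans
    (card_ringAut_le _ p f hf)

variable [IsGalois ℚ_[p] L]

/-- **Structure of the inertia field** of a finite Galois extension `L/ℚ_p`.
There are a uniformizer `π` of `L` and numbers `e`, `f` with `e * f = [L : ℚ_p]`,
`v π ^ e = v p`, `#κ_L = p ^ f`, such that `K' := L^I` has `[K' : ℚ_p] = f`, `[L : K'] = e = #I`
and `K'/ℚ_p` is unramified: the value group of `K'` is `v p ^ ℤ`. -/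
theorem exists_totRam :
    ∃ (π : L) (e f : ℕ), 0 < e ∧ 0 < f ∧ specVal p L π ≠ 0 ∧ specVal p L π < 1 ∧
      (∀ z : L, z ≠ 0 → ∃ n : ℤ, specVal p L z = specVal p L π ^ n) ∧
      specVal p L π ^ e = specVal p L (p : L) ∧
      Nat.card (ResidueField (integerRing p L)) = p ^ f ∧
      e * f = Module.finrank ℚ_[p] L ∧
      Module.finrank ℚ_[p] (inertiaField p L) = f ∧
      Module.finrank (inertiaField p L) L = e ∧
      Nat.card (inertia p L) = e ∧
      (∀ a : inertiaField p L, a ≠ 0 →
        ∃ n : ℤ, specVal p L (a : L) = specVal p L (p : L) ^ n) := by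
  obtain ⟨π, e, f, hπ0, hπ1, he, hf, hdisc, hpow, hcard, hef⟩ := exists_uniformizer p L
  obtain ⟨π', e', f', hπ'0, hπ'1, he', hf', hdisc', hpow', hcard', hef'⟩ :=
    exists_uniformizer p (inertiaField p L)
  have hp1 : 1 < p := (Fact.out : p.Prime).one_lt
  have hf_le : f ≤ f' := by
    have h := card_residueField_le_of_approx p (inertiaField p L).val
      (fun x hx => exists_mem_fixedField_inertia p L hx)
    rw [hcard, hcard'] at h
    exact (Nat.pow_le_pow_iff_right hp1).1 h
  have hidx : (inertia p L).index ≤ f := index_inertia_le p L hcard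
  have hcardI : Module.finrank (inertiaField p L) L = Nat.card (inertia p L) :=
    IntermediateField.finrank_fixedField_eq_card _
  have hG : Nat.card (L ≃ₐ[ℚ_[p]] L) = Module.finrank ℚ_[p] L :=
    IsGalois.card_aut_eq_finrank ℚ_[p] L
  have hmul : Module.finrank ℚ_[p] (inertiaField p L) * Module.finrank (inertiaField p L) L
      = Module.finrank ℚ_[p] L := Module.finrank_mul_finrank ℚ_[p] (inertiaField p L) L
  have hidx2 : Nat.card (inertia p L) * (inertia p L).index = Nat.card (L ≃ₐ[ℚ_[p]] L) :=
    Subgroup.card_mul_index _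
  have hIpos : 0 < Nat.card (inertia p L) := Nat.card_pos
  have hK' : Module.finrank ℚ_[p] (inertiaField p L) = (inertia p L).index := by
    have : Module.finrank ℚ_[p] (inertiaField p L) * Nat.card (inertia p L)
        = (inertia p L).index * Nat.card (inertia p L) := by
      rw [← hcardI, hmul, ← hG, ← hidx2, hcardI, mul_comm]
    exact Nat.eq_of_mul_eq_mul_right hIpos this
  have he'1 : e' = 1 := by
    have h1 : e' * f' ≤ 1 * f' := by
      rw [one_mul, hef', hK']
      exact hidx.trans hf_le
    have := Nat.le_of_mul_le_mul_right h1 hf'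
    omega
  have hf'f : f' = f := by
    have h1 : f' ≤ f := by
      have : e' * f' = f' := by rw [he'1, one_mul]
      rw [← this, hef', hK']
      exact hidx
    omega
  have hK'f : Module.finrank ℚ_[p] (inertiaField p L) = f := by
    rw [← hef', he'1, one_mul, hf'f]
  have hLe : Module.finrank (inertiaField p L) L = e := by
    have : f * Module.finrank (inertiaField p L) L = f * e := by
      rw [← hK'f, hmul, ← hef, hK'f, mul_comm]
    exact Nat.eq_of_mul_eq_mul_left hf this
  refine ⟨π, e, f, he, hf, hπ0, hπ1, hdisc, hpow, hcard, hef, hK'f, hLe, ?_, ?_⟩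
  · rw [← hcardI, hLe]
  · intro a ha
    obtain ⟨n, hn⟩ := hdisc' a ha
    refine ⟨n, ?_⟩
    have hp' : specVal p (inertiaField p L) (p : inertiaField p L) = specVal p L (p : L) := by
      rw [specVal_tower]
      simp
    rw [← specVal_tower, hn, ← hp', ← hpow', he'1, pow_one]

end InertiaField


section TotRamPackage

variable (p : ℕ) [Fact p.Prime] (L : Type*) [Field L] [Algebra ℚ_[p] L]
  [FiniteDimensional ℚ_[p] L] [IsGalois ℚ_[p] L]

/-- **The totally ramified package** for `L` over its inertia field `K' = L^I`, in the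
elementwise shape consumed by the abstract layer (`serre_prod_totRam`, `exists_integral_coeffs`,
…): a uniformizer `π` of `L` with `v π ^ [L : K'] = v p`, value group of `K'` equal to
`v p ^ ℤ = (v π ^ [L : K']) ^ ℤ`, `π` generates `L/K'`, and `[L : K'] = #I`. -/
theorem exists_totRam_package :
    ∃ π : L, specVal p L π ≠ 0 ∧ specVal p L π < 1 ∧
      (∀ z : L, z ≠ 0 → ∃ n : ℤ, specVal p L z = specVal p L π ^ n) ∧
      specVal p L π ^ Module.finrank (inertiaField p L) L = specVal p L (p : L) ∧
      (∀ a : inertiaField p L, a ≠ 0 →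
        ∃ n : ℤ, specVal p L (a : L) = specVal p L (p : L) ^ n) ∧
      (∀ a : inertiaField p L, a ≠ 0 → ∃ n : ℤ,
        specVal p L (algebraMap (inertiaField p L) L a) =
          specVal p L π ^ ((Module.finrank (inertiaField p L) L : ℤ) * n)) ∧
      (∀ σ : L ≃ₐ[inertiaField p L] L, σ π = π → σ = 1) ∧
      Module.finrank (inertiaField p L) L = Nat.card (inertia p L) := by
  obtain ⟨π, e, f, he, hf, hπ0, hπ1, hdisc, hpow, hcard, hef, hK'f, hLe, hI, hunr⟩ :=
    exists_totRam p L
  have hK : ∀ a : inertiaField p L, a ≠ 0 → ∃ n : ℤ,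
      specVal p L (algebraMap (inertiaField p L) L a) =
        specVal p L π ^ ((Module.finrank (inertiaField p L) L : ℤ) * n) := by
    intro a ha
    obtain ⟨n, hn⟩ := hunr a ha
    refine ⟨n, ?_⟩
    rw [IntermediateField.algebraMap_apply, hn, ← hpow, hLe, zpow_mul, zpow_natCast]
  refine ⟨π, hπ0, hπ1, hdisc, by rw [hLe]; exact hpow, hunr, hK, ?_, by rw [hLe, hI]⟩
  intro σ hσ
  exact algEquiv_eq_one_of_fix (specVal p L) hπ0 hπ1 hK σ hσ

/-- Automorphisms over the inertia field preserve the spectral norm. -/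
theorem specVal_algEquiv_inertiaField (σ : L ≃ₐ[inertiaField p L] L) (x : L) :
    specVal p L (σ x) = specVal p L x :=
  specVal_algEquiv p L (σ.restrictScalars ℚ_[p]) x

end TotRamPackage

section PadicAlgClInstance

variable (p : ℕ) [Fact p.Prime] (L₀ : IntermediateField ℚ_[p] (PadicAlgCl p))
  [FiniteDimensional ℚ_[p] L₀] [IsGalois ℚ_[p] L₀]

theorem norm_natCast_prime_pos : 0 < ‖(p : PadicAlgCl p)‖ := by
  rw [norm_pos_iff]
  exact_mod_cast (Fact.out : p.Prime).ne_zero

theorem norm_natCast_prime_lt_one : ‖(p : PadicAlgCl p)‖ < 1 := by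
  have h := specVal_natCast_prime_lt_one p (⊤ : IntermediateField ℚ_[p] (PadicAlgCl p))
  rw [← NNReal.coe_lt_coe, specVal_eq_norm] at h
  simpa using h

/-- **The hypotheses of `helper453.TotRam p K' L Cp π`** for `L = L₀` a finite Galois extension
of `ℚ_p` inside `Cp = PadicAlgCl p` and `K'` its inertia field (fields `hK`, `hπ`, `hinv`,
`hgen`; `hp0`, `hp1` are `norm_natCast_prime_pos`, `norm_natCast_prime_lt_one`). -/
theorem exists_totRam_padicAlgCl :
    ∃ π : L₀,
      (∀ a : inertiaField p L₀, a ≠ 0 → ∃ k : ℤ,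
        ‖algebraMap (inertiaField p L₀) (PadicAlgCl p) a‖ = ‖(p : PadicAlgCl p)‖ ^ k) ∧
      ‖algebraMap L₀ (PadicAlgCl p) π‖ ^ Module.finrank (inertiaField p L₀) L₀
        = ‖(p : PadicAlgCl p)‖ ∧
      (∀ (σ : L₀ ≃ₐ[inertiaField p L₀] L₀) (x : L₀),
        ‖algebraMap L₀ (PadicAlgCl p) (σ x)‖ = ‖algebraMap L₀ (PadicAlgCl p) x‖) ∧
      (∀ σ : L₀ ≃ₐ[inertiaField p L₀] L₀, σ π = π → σ = 1) ∧
      (∀ z : L₀, z ≠ 0 → ∃ n : ℤ,
        ‖algebraMap L₀ (PadicAlgCl p) z‖ = ‖algebraMap L₀ (PadicAlgCl p) π‖ ^ n) ∧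
      Module.finrank (inertiaField p L₀) L₀ = Nat.card (inertia p L₀) := by
  obtain ⟨π, hπ0, hπ1, hdisc, hpow, hunr, hK, hgen, hcard⟩ := exists_totRam_package p L₀
  have hnorm : ∀ x : L₀, ‖algebraMap L₀ (PadicAlgCl p) x‖ = (specVal p L₀ x : ℝ) :=
    fun x => (specVal_eq_norm p L₀ x).symm
  have hpnorm : ‖(p : PadicAlgCl p)‖ = (specVal p L₀ (p : L₀) : ℝ) := by
    rw [specVal_eq_norm]
    simp
  refine ⟨π, ?_, ?_, ?_, hgen, ?_, hcard⟩
  · intro a ha
    obtain ⟨n, hn⟩ := hunr a ha
    refine ⟨n, ?_⟩
    rw [IsScalarTower.algebraMap_apply (inertiaField p L₀) L₀ (PadicAlgCl p), hnorm,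
      IntermediateField.algebraMap_apply, hn, hpnorm, NNReal.coe_zpow]
  · rw [hnorm, hpnorm, ← hpow, NNReal.coe_pow]
  · intro σ x
    rw [hnorm, hnorm, specVal_algEquiv_inertiaField]
  · intro z hz
    obtain ⟨n, hn⟩ := hdisc z hz
    exact ⟨n, by rw [hnorm, hnorm, hn, NNReal.coe_zpow]⟩

end PadicAlgClInstance


section ResidueFacts

variable (p : ℕ) [Fact p.Prime] (K : Type*) [Field K] [Algebra ℚ_[p] K]
  [FiniteDimensional ℚ_[p] K]

/-- The residue field of a finite extension of `ℚ_p` is perfect: every integral element is a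
`p`-th power modulo the maximal ideal. -/
theorem exists_pth_root_mod {a : K} (ha : specVal p K a ≤ 1) :
    ∃ b : K, specVal p K b ≤ 1 ∧ specVal p K (a - b ^ p) < 1 := by
  set R := integerRing p K
  let a' : R := ⟨a, (specVal_le_one_iff p K a).1 ha⟩
  obtain ⟨y, hy⟩ := surjective_frobenius (ResidueField R) p (residue R a')
  obtain ⟨b', rfl⟩ := residue_surjective y
  refine ⟨b', (specVal_le_one_iff p K _).2 b'.2, ?_⟩
  have h1 : a' - b' ^ p ∈ maximalIdeal R := by
    rw [← residue_eq_zero_iff, map_sub, map_pow, ← hy, frobenius_def, sub_self]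
  exact (specVal_lt_one_iff p K (a' - b' ^ p)).2 h1

/-- The Artin–Schreier map is not surjective on the (finite) residue field: there is an
integral `c` with `y ^ p - y - c` a unit for every integral `y`. -/
theorem exists_not_artinSchreier :
    ∃ c : K, specVal p K c ≤ 1 ∧
      ∀ y : K, specVal p K y ≤ 1 → specVal p K (y ^ p - y - c) = 1 := by
  set R := integerRing p K
  let ℘ : ResidueField R → ResidueField R := fun y => y ^ p - y
  have hp0 : p ≠ 0 := (Fact.out : p.Prime).ne_zero
  have hninj : ¬ Function.Injective ℘ := by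
    intro h
    have h01 : ℘ 0 = ℘ 1 := by simp [℘, hp0]
    exact zero_ne_one (h h01)
  have hnsurj : ¬ Function.Surjective ℘ := fun h => hninj (Finite.injective_iff_surjective.2 h)
  rw [Function.Surjective] at hnsurj
  push Not at hnsurj
  obtain ⟨c, hc⟩ := hnsurj
  obtain ⟨c', rfl⟩ := residue_surjective c
  refine ⟨c', (specVal_le_one_iff p K _).2 c'.2, fun y hy => ?_⟩
  let y' : R := ⟨y, (specVal_le_one_iff p K y).1 hy⟩
  have h1 : IsUnit (y' ^ p - y' - c') := by
    by_contra hnu
    have hm : y' ^ p - y' - c' ∈ maximalIdeal R := hnu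
    rw [← residue_eq_zero_iff, map_sub, map_sub, map_pow, sub_eq_zero] at hm
    exact hc (residue R y') hm
  exact (specVal_eq_one_iff p K (y' ^ p - y' - c')).2 h1

end ResidueFacts

section Intermediate

variable (p : ℕ) [Fact p.Prime] (L : Type*) [Field L] [Algebra ℚ_[p] L]
  [FiniteDimensional ℚ_[p] L] [IsGalois ℚ_[p] L]

/-- **Uniformizers of the intermediate fields above the inertia field**: for
`K' ≤ M ≤ L` there is `πM ∈ M`, a uniformizer of `M`, with `v πM ^ [M : K'] = v p`
(`[M : K']` written as `eM` with `eM * [K' : ℚ_p] = [M : ℚ_p]`). -/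
theorem exists_uniformizer_of_inertiaField_le (M : IntermediateField ℚ_[p] L)
    (hM : inertiaField p L ≤ M) :
    ∃ (πM : M) (eM : ℕ), 0 < eM ∧ specVal p L (πM : L) ≠ 0 ∧ specVal p L (πM : L) < 1 ∧
      (∀ z : M, z ≠ 0 → ∃ n : ℤ, specVal p L (z : L) = specVal p L (πM : L) ^ n) ∧
      specVal p L (πM : L) ^ eM = specVal p L (p : L) ∧
      eM * Module.finrank ℚ_[p] (inertiaField p L) = Module.finrank ℚ_[p] M := by
  obtain ⟨π, e, f, he, hf, hπ0, hπ1, hdisc, hpow, hcard, hef, hK'f, hLe, hI, hunr⟩ :=
    exists_totRam p L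
  obtain ⟨πM, eM, fM, hM0, hM1, heM, hfM, hdiscM, hpowM, hcardM, hefM⟩ := exists_uniformizer p M
  have hp1 : 1 < p := (Fact.out : p.Prime).one_lt
  have h1 : fM ≤ f := by
    have h := card_residueField_le_of_algHom p M.val
    rw [hcard, hcardM] at h
    exact (Nat.pow_le_pow_iff_right hp1).1 h
  have h2 : f ≤ fM := by
    have h := card_residueField_le_of_approx p M.val (fun x hx => by
      obtain ⟨a, ha⟩ := exists_mem_fixedField_inertia p L hx
      exact ⟨⟨a, hM a.2⟩, ha⟩)
    rw [hcard, hcardM] at h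
    exact (Nat.pow_le_pow_iff_right hp1).1 h
  have hfMf : fM = f := le_antisymm h1 h2
  refine ⟨πM, eM, heM, ?_, ?_, ?_, ?_, ?_⟩
  · rw [← specVal_tower]; exact hM0
  · rw [← specVal_tower]; exact hM1
  · intro z hz
    obtain ⟨n, hn⟩ := hdiscM z hz
    exact ⟨n, by rw [← specVal_tower, ← specVal_tower, hn]⟩
  · have hp' : specVal p M (p : M) = specVal p L (p : L) := by
      rw [specVal_tower]
      simp
    rw [← specVal_tower, hpowM, hp']
  · rw [hK'f, ← hfMf, hefM]

end Intermediate


section Wild

variable (p : ℕ) [Fact p.Prime] (L : Type*) [Field L] [Algebra ℚ_[p] L]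
  [FiniteDimensional ℚ_[p] L] [IsGalois ℚ_[p] L]

/-- Elements of `Gal(L/K')`, `K'` the inertia field, act trivially on the residue field. -/
theorem specVal_sub_lt_one_of_inertiaField (σ : L ≃ₐ[inertiaField p L] L) {z : L}
    (hz : specVal p L z ≤ 1) : specVal p L (σ z - z) < 1 := by
  have hmem : σ.restrictScalars ℚ_[p] ∈ inertia p L := by
    rw [← IntermediateField.fixingSubgroup_fixedField (inertia p L),
      IntermediateField.mem_fixingSubgroup_iff]
    intro x hx
    exact σ.commutes ⟨x, hx⟩
  exact hmem z hz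

/-- The wild inertia subgroup of `Gal(L/K')`: the automorphisms with `σ z / z ≡ 1` modulo the
maximal ideal for every `z ≠ 0`. -/
def wild : Subgroup (L ≃ₐ[inertiaField p L] L) where
  carrier := {σ | ∀ z : L, z ≠ 0 → specVal p L (σ z - z) < specVal p L z}
  one_mem' := by
    intro z hz
    rw [AlgEquiv.one_apply, sub_self, map_zero]
    exact zero_lt_iff.2 ((Valuation.ne_zero_iff _).2 hz)
  mul_mem' := by
    intro a b ha hb z hz
    have : (a * b) z - z = a (b z - z) + (a z - z) := by
      rw [AlgEquiv.mul_apply, map_sub]; ring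
    rw [this]
    exact lt_of_le_of_lt (Valuation.map_add _ _ _)
      (max_lt (by rw [specVal_algEquiv_inertiaField]; exact hb z hz) (ha z hz))
  inv_mem' := by
    intro a ha z hz
    have : a⁻¹ z - z = -(a⁻¹ (a z - z)) := by
      rw [map_sub, ← AlgEquiv.mul_apply, inv_mul_cancel, AlgEquiv.one_apply]; ring
    rw [this, Valuation.map_neg, specVal_algEquiv_inertiaField]
    exact ha z hz

theorem mem_wild_iff (σ : L ≃ₐ[inertiaField p L] L) :
    σ ∈ wild p L ↔ ∀ z : L, z ≠ 0 → specVal p L (σ z - z) < specVal p L z := Iff.rfl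

instance wild_normal : (wild p L).Normal where
  conj_mem := by
    intro n hn g z hz
    have : (g * n * g⁻¹) z - z = g (n (g⁻¹ z) - g⁻¹ z) := by
      rw [AlgEquiv.mul_apply, AlgEquiv.mul_apply, map_sub, ← AlgEquiv.mul_apply g g⁻¹,
        mul_inv_cancel, AlgEquiv.one_apply]
    rw [this, specVal_algEquiv_inertiaField]
    have hz' : g⁻¹ z ≠ 0 := by
      intro h
      apply hz
      have := congrArg g h
      rwa [← AlgEquiv.mul_apply, mul_inv_cancel, AlgEquiv.one_apply, map_zero] at this
    have := hn _ hz'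
    rwa [specVal_algEquiv_inertiaField] at this

/-- Membership in the wild inertia subgroup is tested on a uniformizer. -/
theorem mem_wild_iff_of_uniformizer {π : L} (hπ0 : specVal p L π ≠ 0) (hπ1 : specVal p L π < 1)
    (hdisc : ∀ z : L, z ≠ 0 → ∃ n : ℤ, specVal p L z = specVal p L π ^ n)
    (hK : ∀ a : inertiaField p L, a ≠ 0 → ∃ n : ℤ,
      specVal p L (algebraMap (inertiaField p L) L a) =
        specVal p L π ^ ((Module.finrank (inertiaField p L) L : ℤ) * n))
    (σ : L ≃ₐ[inertiaField p L] L) :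
    σ ∈ wild p L ↔ specVal p L (σ π - π) < specVal p L π := by
  have hπne : π ≠ 0 := (Valuation.ne_zero_iff _).1 hπ0
  constructor
  · intro h
    exact h π hπne
  · intro h z hz
    have h1 := totRam_val_sub_mul_le (specVal p L) (specVal_algEquiv_inertiaField p L)
      hπ0 hπ1 hK hdisc σ z
    have hz0 : 0 < specVal p L z := zero_lt_iff.2 ((Valuation.ne_zero_iff _).2 hz)
    have h2 : specVal p L (σ z - z) * specVal p L π < specVal p L z * specVal p L π := by
      refine lt_of_le_of_lt h1 ?_
      rw [mul_comm (specVal p L z)]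
      exact mul_lt_mul_of_pos_right h hz0
    exact lt_of_mul_lt_mul_right h2 zero_le

/-- The wild inertia subgroup is a `p`-group. -/
theorem isPGroup_wild : IsPGroup p (wild p L) := by
  obtain ⟨π, hπ0, hπ1, hdisc, hpow, hunr, hK, hgen, hcard⟩ := exists_totRam_package p L
  have hP := totRam_isPGroup (specVal p L) (specVal_algEquiv_inertiaField p L) hπ0 hπ1 hK hdisc
    (p := p) (specVal_natCast_prime_lt_one p L)
  intro g
  have hg : (g : L ≃ₐ[inertiaField p L] L) ∈
      ramSubgroup (specVal p L) (fun (g : L ≃ₐ[inertiaField p L] L) z =>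
        specVal_algEquiv_inertiaField p L g z) (specVal p L π ^ 2) := by
    rw [mem_ramSubgroup_sq_iff (specVal p L) (specVal_algEquiv_inertiaField p L) hπ0 hπ1 hK hdisc]
    exact (mem_wild_iff_of_uniformizer p L hπ0 hπ1 hdisc hK _).1 g.2
  obtain ⟨k, hk⟩ := hP ⟨g, hg⟩
  refine ⟨k, Subtype.ext ?_⟩
  have := congrArg Subtype.val hk
  simpa using this

/-- **The tame quotient has no `p`-torsion**: `σ ^ p` wild implies `σ` wild. -/
theorem mem_wild_of_pow_mem {σ : L ≃ₐ[inertiaField p L] L} (hσ : σ ^ p ∈ wild p L) :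
    σ ∈ wild p L := by
  obtain ⟨π, hπ0, hπ1, hdisc, hpow, hunr, hK, hgen, hcard⟩ := exists_totRam_package p L
  set v := specVal p L with hv
  have hπne : π ≠ 0 := (Valuation.ne_zero_iff _).1 hπ0
  have hinv := specVal_algEquiv_inertiaField p L
  rw [mem_wild_iff_of_uniformizer p L hπ0 hπ1 hdisc hK] at hσ ⊢
  obtain ⟨u, hu⟩ : ∃ u : L, u = σ π * π⁻¹ := ⟨_, rfl⟩
  have hvu : v u = 1 := by
    rw [hu, map_mul, map_inv₀, hinv, mul_inv_cancel₀ hπ0]
  have huπ : u * π = σ π := by rw [hu, mul_assoc, inv_mul_cancel₀ hπne, mul_one]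
  have hσu : v (σ u - u) ≤ v π :=
    val_le_of_lt_one v hπ0 hπ1 hdisc (specVal_sub_lt_one_of_inertiaField p L σ hvu.le)
  have hσuint : v (σ u) ≤ 1 := by rw [hinv]; exact hvu.le
  -- `σ ^ k π ≡ u ^ k π` modulo `π ^ 2`
  have key : ∀ k : ℕ, v ((σ ^ k) π - u ^ k * π) ≤ v π ^ 2 := by
    intro k
    induction k with
    | zero => simp
    | succ k ih =>
      have e : (σ ^ (k + 1)) π - u ^ (k + 1) * π
          = ((σ u) ^ k - u ^ k) * (u * π) + σ ((σ ^ k) π - u ^ k * π) := by
        rw [pow_succ', AlgEquiv.mul_apply, map_sub, map_mul, map_pow, ← huπ]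
        ring
      rw [e]
      refine (Valuation.map_add _ _ _).trans (max_le ?_ (by rw [hinv]; exact ih))
      rw [map_mul, map_mul, hvu, one_mul, sq]
      exact mul_le_mul' ((val_pow_sub_pow_le v hσuint hvu.le k).trans hσu) le_rfl
  have h1 : v (u ^ p * π - π) ≤ v π ^ 2 := by
    have e : u ^ p * π - π = ((σ ^ p) π - π) - ((σ ^ p) π - u ^ p * π) := by ring
    rw [e]
    exact (Valuation.map_sub _ _ _).trans
      (max_le (val_le_sq_of_lt v hπ0 hπ1 hdisc hσ) (key p))
  have h2 : v (u ^ p - 1) ≤ v π := by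
    have e : u ^ p * π - π = (u ^ p - 1) * π := by ring
    rw [e, map_mul, sq] at h1
    exact (mul_le_mul_iff_left₀ (zero_lt_iff.2 hπ0)).1 h1
  -- `(u - 1) ^ p ≡ u ^ p - 1` modulo `p`
  have h3 : v ((u - 1) ^ p) ≤ v π := by
    have hbin := add_pow_prime_eq' (Fact.out : p.Prime) (u - 1) (1 : L)
    rw [sub_add_cancel, one_pow] at hbin
    have e : (u - 1) ^ p = (u ^ p - 1) - (p : L) *
        ∑ k ∈ Finset.Ioo 0 p, (u - 1) ^ k * 1 ^ (p - k) * ((p.choose k / p : ℕ) : L) := by
      rw [hbin]; ring
    rw [e]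
    refine (Valuation.map_sub _ _ _).trans (max_le h2 ?_)
    rw [map_mul]
    have hu1 : v (u - 1) ≤ 1 := (Valuation.map_sub _ _ _).trans (max_le hvu.le (by rw [map_one]))
    have hsum : v (∑ k ∈ Finset.Ioo 0 p, (u - 1) ^ k * 1 ^ (p - k) * ((p.choose k / p : ℕ) : L))
        ≤ 1 := by
      refine Valuation.map_sum_le _ fun k _ => ?_
      rw [map_mul, map_mul, map_pow, map_pow, map_one, one_pow, mul_one]
      exact mul_le_one' (pow_le_one' hu1 k) (val_natCast_le_one v _)
    have hpπ : v (p : L) ≤ v π :=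
      val_le_of_lt_one v hπ0 hπ1 hdisc (specVal_natCast_prime_lt_one p L)
    calc v (p : L) * v (∑ k ∈ Finset.Ioo 0 p, (u - 1) ^ k * 1 ^ (p - k) *
          ((p.choose k / p : ℕ) : L)) ≤ v π * 1 := mul_le_mul' hpπ hsum
      _ = v π := mul_one _
  have h4 : v (u - 1) < 1 := by
    by_contra h
    push Not at h
    have : 1 ≤ v ((u - 1) ^ p) := by rw [map_pow]; exact one_le_pow₀ h
    exact absurd (this.trans h3) (not_le.2 hπ1)
  have e : σ π - π = (u - 1) * π := by rw [sub_mul, huπ, one_mul]
  rw [e, map_mul]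
  calc v (u - 1) * v π < 1 * v π := mul_lt_mul_of_pos_right h4 (zero_lt_iff.2 hπ0)
    _ = v π := one_mul _

/-- **The wild inertia subgroup has index prime to `p`** in `Gal(L/K')` (it is the Sylow
`p`-subgroup of the inertia group). -/
theorem not_dvd_index_wild : ¬ p ∣ (wild p L).index := by
  intro hdvd
  rw [Subgroup.index_eq_card] at hdvd
  obtain ⟨x, hx⟩ := exists_prime_orderOf_dvd_card' (G := (L ≃ₐ[inertiaField p L] L) ⧸ wild p L)
    p hdvd
  obtain ⟨σ, rfl⟩ := QuotientGroup.mk_surjective x
  have h1 : (σ : (L ≃ₐ[inertiaField p L] L) ⧸ wild p L) ^ p = 1 := by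
    have := pow_orderOf_eq_one (σ : (L ≃ₐ[inertiaField p L] L) ⧸ wild p L)
    rwa [hx] at this
  have h2 : σ ^ p ∈ wild p L := by
    rw [← QuotientGroup.eq_one_iff, QuotientGroup.mk_pow]
    exact h1
  have h3 : σ ∈ wild p L := mem_wild_of_pow_mem p L h2
  have h4 : (σ : (L ≃ₐ[inertiaField p L] L) ⧸ wild p L) = 1 := (QuotientGroup.eq_one_iff σ).2 h3
  rw [h4, orderOf_one] at hx
  exact (Fact.out : p.Prime).one_lt.ne hx

end Wild


end Fermat.Agent.S56.helper862
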