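/-
S56 FLAT-LOCAL, track B, node FLAT-FB-TAME-EXP (helper453): the `p`-adic (FB) for tame subfields.

Instantiates the abstract bound `TotRam.flat_bound_tame_of_F` (`helper453_FlatBound`) at the
`p`-adic carrier of `helper862_LocalRam`: `L₀` a finite Galois extension of `ℚ_p` inside
`PadicAlgCl p`, `K'` its inertia field, `P` its wild inertia subgroup.  Output: helper3657's
`FBPadic p Fp L₀` for every subfield `Fp ≤ L₀` containing `ζ_p` which is fixed by wild inertia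
(`fbPadic_of_wild_fixes`), in particular for every `Fp ≤ L₀` on which the absolute Galois group
of `ℚ_p` acts through a group of exponent prime to `p` (`fbPadic_of_exponent`).  The inputs
`TotRam` and Fontaine's bound (F) are the outputs of `helper6909.fontaine_bound_points`.
-/
import Fermat.Agent.S56.helper453_FlatBound
import Fermat.Agent.S56.helper862_LocalRam
import Fermat.Agent.S56.helper3657_TrackBEnd

set_option autoImplicit false

namespace Fermat.Agent.S56.helper453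

open Fermat.Agent.S56.helper862

section PadicTame

variable (p : ℕ) [Fact p.Prime] (L₀ : IntermediateField ℚ_[p] (PadicAlgCl p))
  [FiniteDimensional ℚ_[p] L₀] [IsGalois ℚ_[p] L₀]

/-- Wild inertia of `L₀/ℚ_p` fixes every subfield `Fp` of `PadicAlgCl p` on which the absolute
Galois group of `ℚ_p` acts through a group of exponent prime to `p`. -/
theorem wild_fixes_of_exponent (Fp : IntermediateField ℚ_[p] (PadicAlgCl p))
    (hexp : ∃ n : ℕ, ¬ p ∣ n ∧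
      ∀ (τ : PadicAlgCl p ≃ₐ[ℚ_[p]] PadicAlgCl p), ∀ x ∈ Fp, (τ ^ n) x = x) :
    ∀ σ ∈ wild p L₀, ∀ x : L₀, (x : PadicAlgCl p) ∈ Fp → σ x = x := by
  obtain ⟨n, hpn, hn⟩ := hexp
  intro σ hσ x hx
  have hp : p.Prime := Fact.out
  let σ' : L₀ ≃ₐ[ℚ_[p]] L₀ := σ.restrictScalars ℚ_[p]
  let τ : PadicAlgCl p ≃ₐ[ℚ_[p]] PadicAlgCl p := σ'.liftNormal (PadicAlgCl p)
  have hτ : ∀ z : L₀, τ (z : PadicAlgCl p) = ((σ z : L₀) : PadicAlgCl p) :=
    fun z => σ'.liftNormal_commutes (PadicAlgCl p) z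
  have hτk : ∀ k : ℕ, ∀ z : L₀, (τ ^ k) (z : PadicAlgCl p) = (((σ ^ k) z : L₀) : PadicAlgCl p) := by
    intro k
    induction k with
    | zero => intro z; simp
    | succ k ih =>
      intro z
      rw [pow_succ, pow_succ, AlgEquiv.mul_apply, AlgEquiv.mul_apply, hτ, ih]
  have h1 : (σ ^ n) x = x := Subtype.ext (by rw [← hτk]; exact hn τ _ hx)
  have h1' : ∀ m : ℕ, ((σ ^ n) ^ m) x = x := by
    intro m
    induction m with
    | zero => simp
    | succ m ih => rw [pow_succ, AlgEquiv.mul_apply, h1, ih]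
  obtain ⟨k, hk⟩ := (isPGroup_wild p L₀) ⟨σ, hσ⟩
  have h2 : σ ^ (p ^ k) = 1 := by simpa using congrArg Subtype.val hk
  rcases Nat.eq_zero_or_pos k with rfl | hk0
  · rw [pow_zero, pow_one] at h2
    rw [h2, AlgEquiv.one_apply]
  have hcop : Nat.Coprime n (p ^ k) :=
    Nat.Coprime.pow_right k ((Nat.Prime.coprime_iff_not_dvd hp).2 hpn).symm
  obtain ⟨m, hm⟩ := Nat.exists_mul_mod_eq_one_of_coprime hcop
    (Nat.one_lt_pow hk0.ne' hp.one_lt)
  have h3 : σ ^ (n * m) = σ := by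
    rw [← Nat.div_add_mod (n * m) (p ^ k), hm.2, pow_add, pow_mul, h2, one_pow, one_mul, pow_one]
  have h4 := h1' m
  rwa [← pow_mul, h3] at h4

open Classical in
/-- **The `p`-adic (FB) over a subfield fixed by wild inertia.**  `L₀/ℚ_p` finite Galois inside
`PadicAlgCl p` with inertia field `K'`, uniformiser `π` and Fontaine's bound (F) for `L₀/K'`;
`Fp ≤ L₀` a subfield containing `ζ_p`, fixed by the wild inertia subgroup of `Gal(L₀/K')`.  Then
every `u ∈ Fp^×` with a `p`-th root in `L₀` lies in `(1 + p 𝒪) (Fp^×)^p`. -/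
theorem fbPadic_of_wild_fixes {π : L₀}
    (h : TotRam p (inertiaField p L₀) L₀ (PadicAlgCl p) π)
    (hF : ∀ σ₁ : L₀ ≃ₐ[inertiaField p L₀] L₀, σ₁ ≠ 1 →
      (∀ σ : L₀ ≃ₐ[inertiaField p L₀] L₀, σ ≠ 1 →
        ‖algebraMap L₀ (PadicAlgCl p) (σ₁ π - π)‖ ≤ ‖algebraMap L₀ (PadicAlgCl p) (σ π - π)‖) →
      ‖(p : PadicAlgCl p)‖ ^ ((p : ℝ) / ((p : ℝ) - 1)) ≤
        ‖algebraMap L₀ (PadicAlgCl p) (σ₁ π - π)‖ *
          (∏ σ ∈ (Finset.univ : Finset (L₀ ≃ₐ[inertiaField p L₀] L₀)).erase 1,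
            ‖algebraMap L₀ (PadicAlgCl p) (σ π - π)‖)
            / ‖algebraMap L₀ (PadicAlgCl p) π‖)
    (Fp : IntermediateField ℚ_[p] (PadicAlgCl p)) (hFp : Fp ≤ L₀)
    (hfix : ∀ σ ∈ wild p L₀, ∀ x : L₀, (x : PadicAlgCl p) ∈ Fp → σ x = x)
    (hζ : ∃ ζ ∈ Fp, IsPrimitiveRoot ζ p) : helper3657.FBPadic p Fp L₀ := by
  intro u hu hu0 hy
  obtain ⟨y, hyL, hyu⟩ := hy
  obtain ⟨ζ, hζFp, hζ⟩ := hζ
  have hp : p.Prime := Fact.out
  have : FiniteDimensional ℚ_[p] Fp :=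
    Module.Finite.of_injective (IntermediateField.inclusion hFp).toLinearMap
      (IntermediateField.inclusion_injective hFp)
  let j : Fp →+* L₀ := (IntermediateField.inclusion hFp).toRingHom
  -- norm dictionary
  have hnL : ∀ x : L₀, ‖algebraMap L₀ (PadicAlgCl p) x‖ = (specVal p L₀ x : ℝ) :=
    fun x => (specVal_eq_norm p L₀ x).symm
  have hnF : ∀ x : Fp, ‖algebraMap L₀ (PadicAlgCl p) (j x)‖ = (specVal p Fp x : ℝ) :=
    fun x => (specVal_eq_norm p Fp x).symm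
  have hvF : ∀ x : Fp, (valL L₀ (PadicAlgCl p)).comap j x = specVal p Fp x := by
    intro x
    apply NNReal.coe_injective
    rw [Valuation.comap_apply, coe_valL, hnF]
  -- uniformiser of `Fp`
  obtain ⟨πF, e, f, hπF0, hπF1, he, hf, hdiscF, hpowF, hcardF, hefF⟩ := exists_uniformizer p Fp
  have hπK : helper4188.IsUnif ((valL L₀ (PadicAlgCl p)).comap j) πF := by
    refine ⟨?_, ?_, ?_⟩
    · rw [hvF]; exact hπF1
    · exact (Valuation.ne_zero_iff _).1 hπF0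
    · intro x hx
      obtain ⟨n, hn⟩ := hdiscF x hx
      exact ⟨n, by rw [hvF, hvF, hn]⟩
  -- perfect residue fields
  have hperfK : ∀ a : Fp, ‖algebraMap L₀ (PadicAlgCl p) (j a)‖ ≤ 1 →
      ∃ b : Fp, ‖algebraMap L₀ (PadicAlgCl p) (j (a - b ^ p))‖ < 1 := by
    intro a ha
    rw [hnF, ← NNReal.coe_one, NNReal.coe_le_coe] at ha
    obtain ⟨b, -, hb⟩ := exists_pth_root_mod p Fp ha
    refine ⟨b, ?_⟩
    rw [hnF, ← NNReal.coe_one, NNReal.coe_lt_coe]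
    exact hb
  have hnK : ∀ a : inertiaField p L₀, ‖algebraMap (inertiaField p L₀) (PadicAlgCl p) a‖
      = (specVal p (inertiaField p L₀) a : ℝ) := by
    intro a
    rw [specVal_tower, ← hnL]
    rfl
  have hperf : ∀ a : inertiaField p L₀, ‖algebraMap (inertiaField p L₀) (PadicAlgCl p) a‖ ≤ 1 →
      ∃ b : inertiaField p L₀,
        ‖algebraMap (inertiaField p L₀) (PadicAlgCl p) (a - b ^ p)‖ < 1 := by
    intro a ha
    rw [hnK, ← NNReal.coe_one, NNReal.coe_le_coe] at ha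
    obtain ⟨b, -, hb⟩ := exists_pth_root_mod p (inertiaField p L₀) ha
    refine ⟨b, ?_⟩
    rw [hnK, ← NNReal.coe_one, NNReal.coe_lt_coe]
    exact hb
  -- wild inertia contains the first ramification group
  have hπ0 : specVal p L₀ π ≠ 0 := by
    intro h0
    have := h.norm_pi_pos
    rw [hnL, h0] at this
    exact lt_irrefl _ this
  have hπ1 : specVal p L₀ π < 1 := by
    rw [← NNReal.coe_lt_coe, ← hnL, NNReal.coe_one]
    exact h.norm_pi_lt_one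
  have hdisc : ∀ z : L₀, z ≠ 0 → ∃ n : ℤ, specVal p L₀ z = specVal p L₀ π ^ n := by
    intro z hz
    obtain ⟨n, hn⟩ := h.exists_zpow z hz
    refine ⟨n, NNReal.coe_injective ?_⟩
    rw [NNReal.coe_zpow, ← hnL, ← hnL, hn]
  have hK : ∀ a : inertiaField p L₀, a ≠ 0 → ∃ n : ℤ,
      specVal p L₀ (algebraMap (inertiaField p L₀) L₀ a) =
        specVal p L₀ π ^ ((Module.finrank (inertiaField p L₀) L₀ : ℤ) * n) := by
    intro a ha
    obtain ⟨n, hn⟩ := h.hK a ha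
    refine ⟨n, NNReal.coe_injective ?_⟩
    rw [NNReal.coe_zpow, ← hnL, ← hnL, zpow_mul, zpow_natCast, h.hπ, ← hn]
    rfl
  have hP : ∀ σ : L₀ ≃ₐ[inertiaField p L₀] L₀,
      ‖algebraMap L₀ (PadicAlgCl p) (σ π - π)‖ < ‖algebraMap L₀ (PadicAlgCl p) π‖ →
        σ ∈ wild p L₀ := by
    intro σ hσ
    rw [mem_wild_iff_of_uniformizer p L₀ hπ0 hπ1 hdisc hK, ← NNReal.coe_lt_coe, ← hnL, ← hnL]
    exact hσ
  have hjP : ∀ σ ∈ wild p L₀, ∀ x : Fp, σ (j x) = j x := fun σ hσ x => hfix σ hσ (j x) x.2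
  have hζ' : IsPrimitiveRoot (⟨ζ, hζFp⟩ : Fp) p :=
    IsPrimitiveRoot.of_map_of_injective (f := algebraMap Fp (PadicAlgCl p)) hζ
      (algebraMap Fp (PadicAlgCl p)).injective
  have hu' : (⟨u, hu⟩ : Fp) ≠ 0 := fun h0 => hu0 (congrArg Subtype.val h0)
  have hy' : (⟨y, hyL⟩ : L₀) ^ p = j ⟨u, hu⟩ := Subtype.ext hyu
  obtain ⟨t, ht0, ht⟩ := h.flat_bound_tame_of_F hp hF hperf (wild p L₀) hP
    (not_dvd_index_wild p L₀) j hjP hπK hperfK hζ' hu' hy'
  exact ⟨t, t.2, fun h0 => ht0 (Subtype.ext h0), ht⟩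

open Classical in
/-- **The `p`-adic (FB) over a subfield of exponent prime to `p`.**  As `fbPadic_of_wild_fixes`,
for every subfield `Fp ≤ L₀` containing `ζ_p` on which the absolute Galois group of `ℚ_p` acts
through a group of exponent prime to `p` (e.g. `Fp/ℚ_p` Galois of degree prime to `p`). -/
theorem fbPadic_of_exponent {π : L₀}
    (h : TotRam p (inertiaField p L₀) L₀ (PadicAlgCl p) π)
    (hF : ∀ σ₁ : L₀ ≃ₐ[inertiaField p L₀] L₀, σ₁ ≠ 1 →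
      (∀ σ : L₀ ≃ₐ[inertiaField p L₀] L₀, σ ≠ 1 →
        ‖algebraMap L₀ (PadicAlgCl p) (σ₁ π - π)‖ ≤ ‖algebraMap L₀ (PadicAlgCl p) (σ π - π)‖) →
      ‖(p : PadicAlgCl p)‖ ^ ((p : ℝ) / ((p : ℝ) - 1)) ≤
        ‖algebraMap L₀ (PadicAlgCl p) (σ₁ π - π)‖ *
          (∏ σ ∈ (Finset.univ : Finset (L₀ ≃ₐ[inertiaField p L₀] L₀)).erase 1,
            ‖algebraMap L₀ (PadicAlgCl p) (σ π - π)‖)
            / ‖algebraMap L₀ (PadicAlgCl p) π‖)
    (Fp : IntermediateField ℚ_[p] (PadicAlgCl p)) (hFp : Fp ≤ L₀)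
    (hexp : ∃ n : ℕ, ¬ p ∣ n ∧
      ∀ (τ : PadicAlgCl p ≃ₐ[ℚ_[p]] PadicAlgCl p), ∀ x ∈ Fp, (τ ^ n) x = x)
    (hζ : ∃ ζ ∈ Fp, IsPrimitiveRoot ζ p) : helper3657.FBPadic p Fp L₀ :=
  fbPadic_of_wild_fixes p L₀ h hF Fp hFp (wild_fixes_of_exponent p L₀ Fp hexp) hζ

open Classical in
/-- The same with the inputs packaged as in `helper6909.fontaine_bound_points` (an existential
over the uniformiser), for all tame `Fp` at once: this is helper3657's `FBPadicTame p L₀`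
unfolded (the Galois-stability hypothesis on `Fp` is not needed). -/
theorem fbPadic_of_exponent_of_exists
    (hex : ∃ π : L₀, TotRam p (inertiaField p L₀) L₀ (PadicAlgCl p) π ∧
      ∀ σ₁ : L₀ ≃ₐ[inertiaField p L₀] L₀, σ₁ ≠ 1 →
      (∀ σ : L₀ ≃ₐ[inertiaField p L₀] L₀, σ ≠ 1 →
        ‖algebraMap L₀ (PadicAlgCl p) (σ₁ π - π)‖ ≤ ‖algebraMap L₀ (PadicAlgCl p) (σ π - π)‖) →
      ‖(p : PadicAlgCl p)‖ ^ ((p : ℝ) / ((p : ℝ) - 1)) ≤
        ‖algebraMap L₀ (PadicAlgCl p) (σ₁ π - π)‖ *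
          (∏ σ ∈ (Finset.univ : Finset (L₀ ≃ₐ[inertiaField p L₀] L₀)).erase 1,
            ‖algebraMap L₀ (PadicAlgCl p) (σ π - π)‖)
            / ‖algebraMap L₀ (PadicAlgCl p) π‖)
    (Fp : IntermediateField ℚ_[p] (PadicAlgCl p)) (hFp : Fp ≤ L₀)
    (hexp : ∃ n : ℕ, ¬ p ∣ n ∧
      ∀ (τ : PadicAlgCl p ≃ₐ[ℚ_[p]] PadicAlgCl p), ∀ x ∈ Fp, (τ ^ n) x = x)
    (hζ : ∃ ζ ∈ Fp, IsPrimitiveRoot ζ p) : helper3657.FBPadic p Fp L₀ := by
  obtain ⟨π, h, hF⟩ := hex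
  exact fbPadic_of_exponent p L₀ h hF Fp hFp hexp hζ

end PadicTame

end Fermat.Agent.S56.helper453
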