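import Fermat.Agent.S56.helper6909_PointsRational
import Fermat.Agent.S56.helper453_FontaineBound
import Fermat.Agent.S56.helper862_LocalRam

/-!
# The `PadicAlgCl p` instance of track B (S56, node FLAT-FB-PADIC)

`helper6909`.  For a finite free cocommutative bialgebra `H` over a base ring `O` mapping to
`ℚ_p` with integral image (`O = ℤ_p` or `ℤ_(p)`), all of whose `PadicAlgCl p`-points are killed
by `p`, let `L₀ = ℚ_p(values of the points)`.  Then `L₀/ℚ_p` is finite Galois and Fontaine's
ramification bound (F) of `helper453` holds for `L₀` over its inertia field, with no open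
hypothesis.
-/

set_option autoImplicit false
set_option linter.unusedSectionVars false

namespace Fermat.Agent.S56.helper6909

open Fermat.Agent.S56.helper453 Fermat.Agent.S56.helper862 WithConv

section Points

variable (p : ℕ) [Fact p.Prime] (O H : Type*) [CommRing O] [CommRing H] [Bialgebra O H]
  [Algebra O ℚ_[p]]

/-- The field generated over `ℚ_p` by the values of the `PadicAlgCl p`-points of `H`. -/
noncomputable def pointsField : IntermediateField ℚ_[p] (PadicAlgCl p) :=
  IntermediateField.adjoin ℚ_[p] {y | ∃ (x : H →ₐ[O] PadicAlgCl p) (h : H), x h = y}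

variable {p O H}

theorem mem_pointsField (x : H →ₐ[O] PadicAlgCl p) (h : H) : x h ∈ pointsField p O H :=
  IntermediateField.subset_adjoin _ _ ⟨x, h, rfl⟩

theorem pointsField_le {F : IntermediateField ℚ_[p] (PadicAlgCl p)}
    (hF : ∀ (x : H →ₐ[O] PadicAlgCl p) (h : H), x h ∈ F) : pointsField p O H ≤ F :=
  IntermediateField.adjoin_le_iff.mpr (by rintro y ⟨x, h, rfl⟩; exact hF x h)

theorem algebraMap_base_mem (F : IntermediateField ℚ_[p] (PadicAlgCl p)) (r : O) :
    algebraMap O (PadicAlgCl p) r ∈ F := by
  rw [IsScalarTower.algebraMap_apply O ℚ_[p] (PadicAlgCl p)]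
  exact F.algebraMap_mem _

variable (p O H)

instance finiteDimensional_pointsField [Module.Free O H] [Module.Finite O H] :
    FiniteDimensional ℚ_[p] (pointsField p O H) := by
  classical
  have : Nontrivial O := (algebraMap O (PadicAlgCl p)).domain_nontrivial
  let b := Module.Free.chooseBasis O H
  let s : Set (PadicAlgCl p) := Set.range
    (fun xi : (H →ₐ[O] PadicAlgCl p) × Module.Free.ChooseBasisIndex O H => xi.1 (b xi.2))
  have : Finite s := (Set.finite_range _).to_subtype
  have hfd : FiniteDimensional ℚ_[p] (IntermediateField.adjoin ℚ_[p] s) :=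
    IntermediateField.finiteDimensional_adjoin (fun y _ => Algebra.IsIntegral.isIntegral y)
  have hle : pointsField p O H ≤ IntermediateField.adjoin ℚ_[p] s := by
    refine pointsField_le fun x h => ?_
    rw [← b.sum_repr h, map_sum]
    refine sum_mem fun i _ => ?_
    rw [map_smul, Algebra.smul_def]
    exact mul_mem (algebraMap_base_mem _ _) (IntermediateField.subset_adjoin _ _ ⟨(x, i), rfl⟩)
  exact Module.Finite.of_injective (IntermediateField.inclusion hle).toLinearMap
    (IntermediateField.inclusion_injective hle)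

instance isGalois_pointsField : IsGalois ℚ_[p] (pointsField p O H) := by
  have hnormal : Normal ℚ_[p] (pointsField p O H) := by
    rw [IntermediateField.normal_iff_forall_map_le]
    intro σ
    rw [pointsField, IntermediateField.adjoin_map, IntermediateField.adjoin_le_iff]
    rintro _ ⟨_, ⟨x, h, rfl⟩, rfl⟩
    let x' : H →ₐ[O] PadicAlgCl p :=
      { (σ : PadicAlgCl p →+* PadicAlgCl p).comp (x : H →+* PadicAlgCl p) with
        commutes' := fun r => by
          change σ (x (algebraMap O H r)) = _
          rw [x.commutes, IsScalarTower.algebraMap_apply O ℚ_[p] (PadicAlgCl p), σ.commutes] }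
    exact IntermediateField.subset_adjoin _ _ ⟨x', h, rfl⟩
  exact ⟨⟩

end Points

section Towers

variable {p : ℕ} [Fact p.Prime] {O : Type*} [CommRing O] [Algebra O ℚ_[p]]
  (L₀ : IntermediateField ℚ_[p] (PadicAlgCl p))

instance isScalarTower_base_field : IsScalarTower O L₀ (PadicAlgCl p) :=
  IsScalarTower.of_algebraMap_eq (fun _ => rfl)

instance isScalarTower_base_sub (K : IntermediateField ℚ_[p] L₀) : IsScalarTower O K L₀ :=
  IsScalarTower.of_algebraMap_eq (fun _ => rfl)

instance isScalarTower_base_sub' (K : IntermediateField ℚ_[p] L₀) :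
    IsScalarTower O K (PadicAlgCl p) :=
  IsScalarTower.of_algebraMap_eq (fun _ => rfl)

end Towers

section Bound

variable {p : ℕ} [Fact p.Prime] {O H : Type*} [CommRing O] [CommRing H] [Bialgebra O H]
  [Coalgebra.IsCocomm O H] [Module.Free O H] [Module.Finite O H] [Algebra O ℚ_[p]]

theorem norm_algebraMap_base_le_one (hO : ∀ r : O, ‖algebraMap O ℚ_[p] r‖ ≤ 1) (r : O) :
    ‖algebraMap O (PadicAlgCl p) r‖ ≤ 1 := by
  rw [IsScalarTower.algebraMap_apply O ℚ_[p] (PadicAlgCl p)]
  exact (PadicAlgCl.norm_extends p _).le.trans (hO r)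

/-- Every point with values in `PadicAlgCl p` factors through the field of points. -/
theorem exists_point_eq_comp (y : H →ₐ[O] PadicAlgCl p) :
    ∃ x : H →ₐ[O] pointsField p O H,
      y = (IsScalarTower.toAlgHom O (pointsField p O H) (PadicAlgCl p)).comp x := by
  refine ⟨{ toFun := fun h => ⟨y h, mem_pointsField y h⟩
            map_one' := Subtype.ext (map_one y)
            map_mul' := fun a b => Subtype.ext (map_mul y a b)
            map_zero' := Subtype.ext (map_zero y)
            map_add' := fun a b => Subtype.ext (map_add y a b)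
            commutes' := fun r => Subtype.ext (y.commutes r) }, ?_⟩
  exact AlgHom.ext fun h => rfl

/-- Composition with the inclusion of the field of points is compatible with convolution
powers. -/
theorem comp_incl_pow (x : WithConv (H →ₐ[O] pointsField p O H)) (n : ℕ) :
    (toConv ((IsScalarTower.toAlgHom O (pointsField p O H) (PadicAlgCl p)).comp (x ^ n).ofConv) :
      WithConv (H →ₐ[O] PadicAlgCl p))
      = toConv ((IsScalarTower.toAlgHom O (pointsField p O H) (PadicAlgCl p)).comp x.ofConv) ^ n := by
  induction n with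
  | zero =>
    rw [pow_zero, pow_zero]
    apply WithConv.ofConv_injective
    exact AlgHom.ext fun h => rfl
  | succ n ih =>
    rw [pow_succ, pow_succ, ← ih]
    apply WithConv.ofConv_injective
    exact AlgHom.comp_convMul_distrib _ (x ^ n) x

/-- The points with values in the field of points are killed by `p`. -/
theorem pow_eq_one_of_pts (hpts : ∀ x : WithConv (H →ₐ[O] PadicAlgCl p), x ^ p = 1)
    (x : WithConv (H →ₐ[O] pointsField p O H)) : x ^ p = 1 := by
  have h1 := comp_incl_pow x p
  rw [hpts] at h1
  apply WithConv.ofConv_injective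
  refine AlgHom.ext fun h => ?_
  have h2 := congrArg (fun q : WithConv (H →ₐ[O] PadicAlgCl p) => q.ofConv h) h1
  exact Subtype.ext h2

/-- The field of points is generated by the values of the points over any subfield. -/
theorem eq_top_of_forall_mem (K : IntermediateField ℚ_[p] (pointsField p O H))
    (F : IntermediateField K (pointsField p O H))
    (hF : ∀ (x : H →ₐ[O] pointsField p O H) (a : H), x a ∈ F) : F = ⊤ := by
  rw [eq_top_iff]
  intro z _
  have hle : pointsField p O H
      ≤ (F.restrictScalars ℚ_[p]).map (pointsField p O H).val := by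
    refine pointsField_le fun y a => ?_
    obtain ⟨x, rfl⟩ := exists_point_eq_comp y
    exact ⟨x a, hF x a, rfl⟩
  obtain ⟨f, hf, hfz⟩ := hle z.2
  have : f = z := Subtype.ext hfz
  rw [← this]
  exact hf

open Classical in
/-- **Fontaine's ramification bound (F) for the field of points**, with no open hypothesis:
`L₀ = ℚ_p(points of H)`, `K'` its inertia field, `π` a uniformiser of `L₀`.  For every
`σ₁ ≠ 1` in `Gal(L₀/K')` minimising `‖σ π - π‖`,
`‖p‖ ^ (p/(p-1)) ≤ ‖σ₁ π - π‖ * ∏_{σ ≠ 1} ‖σ π - π‖ / ‖π‖`. -/
theorem fontaine_bound_points (hO : ∀ r : O, ‖algebraMap O ℚ_[p] r‖ ≤ 1)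
    (hpts : ∀ x : WithConv (H →ₐ[O] PadicAlgCl p), x ^ p = 1) :
    ∃ π : pointsField p O H,
      TotRam p (inertiaField p (pointsField p O H)) (pointsField p O H) (PadicAlgCl p) π ∧
      (∀ z : pointsField p O H, z ≠ 0 → ∃ n : ℤ,
        ‖algebraMap (pointsField p O H) (PadicAlgCl p) z‖
          = ‖algebraMap (pointsField p O H) (PadicAlgCl p) π‖ ^ n) ∧
      Module.finrank (inertiaField p (pointsField p O H)) (pointsField p O H)
        = Nat.card (inertia p (pointsField p O H)) ∧
      ∀ σ₁ : pointsField p O H ≃ₐ[inertiaField p (pointsField p O H)] pointsField p O H,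
        σ₁ ≠ 1 →
        (∀ σ : pointsField p O H ≃ₐ[inertiaField p (pointsField p O H)] pointsField p O H,
          σ ≠ 1 → ‖algebraMap (pointsField p O H) (PadicAlgCl p) (σ₁ π - π)‖
            ≤ ‖algebraMap (pointsField p O H) (PadicAlgCl p) (σ π - π)‖) →
        ‖(p : PadicAlgCl p)‖ ^ ((p : ℝ) / ((p : ℝ) - 1)) ≤
          ‖algebraMap (pointsField p O H) (PadicAlgCl p) (σ₁ π - π)‖ *
            (∏ σ ∈ (Finset.univ : Finset (pointsField p O H
                ≃ₐ[inertiaField p (pointsField p O H)] pointsField p O H)).erase 1,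
              ‖algebraMap (pointsField p O H) (PadicAlgCl p) (σ π - π)‖)
            / ‖algebraMap (pointsField p O H) (PadicAlgCl p) π‖ := by
  obtain ⟨π, hK, hπ, hinv, hgen, hdisc, hcard⟩ := exists_totRam_padicAlgCl p (pointsField p O H)
  have hT : TotRam p (inertiaField p (pointsField p O H)) (pointsField p O H) (PadicAlgCl p) π :=
    ⟨Fermat.Agent.S56.helper862.norm_natCast_prime_pos p,
      Fermat.Agent.S56.helper862.norm_natCast_prime_lt_one p, hK, hπ, hinv, hgen⟩
  refine ⟨π, hT, hdisc, hcard, fun σ₁ hσ₁ hmin => ?_⟩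
  have hOC := norm_algebraMap_base_le_one (p := p) hO
  exact hT.fontaine_bound (R₀ := O) (H := H) (Fact.out : p.Prime).one_lt
    (fun x a => norm_point_le_one hOC
      ((IsScalarTower.toAlgHom O (pointsField p O H) (PadicAlgCl p)).comp x) a)
    (pow_eq_one_of_pts hpts) exists_point_eq_comp
    (eq_top_of_forall_mem (inertiaField p (pointsField p O H)))
    (rigProp_padic hOC ⊥ (fun r => algebraMap_base_mem ⊥ r) hpts)
    (fun E hE => liftProp_padic_tower E hE) σ₁ hσ₁ hmin

end Bound

end Fermat.Agent.S56.helper6909
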