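import Mathlib
import Fermat.Prelude.Def_GaloisRep_Flat
import Fermat.Prelude.Def_GaloisRep_CompletionBridge
import Fermat.Agent.S28.helper508_RatLoc
import Fermat.Agent.S32.helper1304_HopfClose
import Fermat.Agent.S55.helper698_LocTop
import Fermat.Agent.S55.helper862_LocalIntegers

set_option autoImplicit false

/-!
# The local model of a finite flat Galois module (track B of the flat wall)

`R = GaloisRep.ratLocalizedAt p = ℤ_(p)`, `Qb = AlgebraicClosure ℚ`,
`Gp = PadicAlgCl p ≃ₐ[ℚ_[p]] PadicAlgCl p`.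

The frozen definition `GaloisRepAdic.IsFlatAt` (shape `helper1304.HasFlatModel`) speaks about a
Hopf algebra `H` over `ℤ_(p)`, its `Qb`-points and the action of the global Galois group.
The local theory (rigidity, lifting, Fontaine's property, ramification bounds) is about Hopf
algebras over `ℤ_p`, their points in `PadicAlgCl p` and the action of the local Galois group.

This file produces the second from the first:
`hasLocalFlatModel_of_hasFlatModel : HasFlatModel p M act →
    HasLocalFlatModel p M (fun τ => act (localGaloisToGlobal p τ))`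
with the Hopf algebra `ℤ_[p] ⊗[ℤ_(p)] H`.
-/

namespace Fermat.Agent.S56.helper7049

open GaloisRep TensorProduct

local notation "Qb" => AlgebraicClosure ℚ
local notation "Gal" => (AlgebraicClosure ℚ ≃ₐ[ℚ] AlgebraicClosure ℚ)

variable (p : ℕ) [Fact p.Prime]

/-! ## `ℤ_(p) → ℤ_p` -/

theorem norm_ratLocalizedAt_le_one (r : ratLocalizedAt p) : ‖((r : ℚ) : ℚ_[p])‖ ≤ 1 := by
  refine Padic.norm_rat_le_one ?_
  have h : (r : ℚ).den.Coprime p := r.2
  exact fun hd => (Fact.out : p.Prime).one_lt.ne' (Nat.Coprime.eq_one_of_dvd h.symm hd)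

/-- The inclusion `ℤ_(p) → ℤ_p`. -/
noncomputable def toZp : ratLocalizedAt p →+* ℤ_[p] where
  toFun r := ⟨((r : ℚ) : ℚ_[p]), norm_ratLocalizedAt_le_one p r⟩
  map_one' := by apply Subtype.ext; simp
  map_mul' a b := by apply Subtype.ext; simp
  map_zero' := by apply Subtype.ext; simp
  map_add' a b := by apply Subtype.ext; simp

@[simp] theorem coe_toZp (r : ratLocalizedAt p) : ((toZp p r : ℤ_[p]) : ℚ_[p]) = ((r : ℚ) : ℚ_[p]) :=
  rfl

theorem toZp_injective : Function.Injective (toZp p) := by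
  intro a b h
  have h' : (((a : ℚ) : ℚ_[p])) = ((b : ℚ) : ℚ_[p]) := congrArg Subtype.val h
  exact Subtype.ext (Rat.cast_injective h')

/-- The algebra structure `ℤ_(p) → ℤ_p` (not an instance: activate it locally). -/
noncomputable abbrev algebraRZp : Algebra (ratLocalizedAt p) ℤ_[p] := (toZp p).toAlgebra

attribute [local instance] algebraRZp

theorem algebraMap_R_Zp (r : ratLocalizedAt p) : algebraMap (ratLocalizedAt p) ℤ_[p] r = toZp p r :=
  rfl

theorem algebraMap_Zp_padicAlgCl (a : ℤ_[p]) :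
    algebraMap ℤ_[p] (PadicAlgCl p) a = algebraMap ℚ_[p] (PadicAlgCl p) (a : ℚ_[p]) := rfl

theorem algebraMap_R_padicAlgCl (r : ratLocalizedAt p) :
    algebraMap (ratLocalizedAt p) (PadicAlgCl p) r =
      algebraMap ℚ_[p] (PadicAlgCl p) (((r : ℚ) : ℚ_[p])) := by
  show algebraMap ℚ_[p] (PadicAlgCl p) (algebraMap (ratLocalizedAt p) ℚ_[p] r) = _
  congr 1

instance isScalarTower_R_Zp_padicAlgCl : IsScalarTower (ratLocalizedAt p) ℤ_[p] (PadicAlgCl p) :=
  IsScalarTower.of_algebraMap_eq fun r => by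
    rw [algebraMap_R_padicAlgCl, algebraMap_Zp_padicAlgCl, algebraMap_R_Zp, coe_toZp]

/-! ## `padicEmbedding` over `ℤ_(p)` -/

theorem algebraMap_R_padicAlgCl' (r : ratLocalizedAt p) :
    algebraMap (ratLocalizedAt p) (PadicAlgCl p) r = algebraMap ℚ (PadicAlgCl p) (r : ℚ) := by
  rw [algebraMap_R_padicAlgCl, eq_ratCast (algebraMap ℚ (PadicAlgCl p)), map_ratCast]

instance isScalarTower_R_Q_padicAlgCl : IsScalarTower (ratLocalizedAt p) ℚ (PadicAlgCl p) :=
  IsScalarTower.of_algebraMap_eq fun r => algebraMap_R_padicAlgCl' p r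

/-- `padicEmbedding p` as a `ℤ_(p)`-algebra map. -/
noncomputable def embR : Qb →ₐ[ratLocalizedAt p] PadicAlgCl p :=
  { (padicEmbedding p).toRingHom with
    commutes' := fun r => by
      show padicEmbedding p (algebraMap ℚ Qb (r : ℚ)) = _
      rw [AlgHom.commutes, algebraMap_R_padicAlgCl'] }

@[simp] theorem embR_apply (x : Qb) : embR p x = padicEmbedding p x := rfl

theorem embR_injective : Function.Injective (embR p) := (padicEmbedding p).toRingHom.injective

/-! ## Points -/

section Points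

variable {H : Type} [CommRing H] [Algebra (ratLocalizedAt p) H]

/-- Compose a `Qb`-point with `padicEmbedding`. -/
noncomputable def pointMap (x : H →ₐ[ratLocalizedAt p] Qb) :
    H →ₐ[ratLocalizedAt p] PadicAlgCl p :=
  (embR p).comp x

@[simp] theorem pointMap_apply (x : H →ₐ[ratLocalizedAt p] Qb) (h : H) :
    pointMap p x h = padicEmbedding p (x h) := rfl

theorem pointMap_injective :
    Function.Injective (pointMap p : (H →ₐ[ratLocalizedAt p] Qb) → _) := by
  intro x y hxy
  ext h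
  exact embR_injective p (by simpa using congrArg (fun f => f h) hxy)

theorem pointMap_surjective [Module.Finite (ratLocalizedAt p) H] :
    Function.Surjective (pointMap p : (H →ₐ[ratLocalizedAt p] Qb) → _) := by
  intro y
  have hmem : ∀ h : H, y h ∈ (embR p).range := by
    intro h
    have h1 : IsIntegral (ratLocalizedAt p) (y h) :=
      (Algebra.IsIntegral.isIntegral (R := ratLocalizedAt p) h).map y
    have h2 : IsIntegral ℚ (y h) := h1.tower_top
    obtain ⟨z, hz⟩ := Fermat.Agent.S55.helper698.mem_range_padicEmbedding_of_isIntegral p h2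
    exact ⟨z, hz⟩
  let e := AlgEquiv.ofInjective (embR p) (embR_injective p)
  refine ⟨(e.symm : (embR p).range →ₐ[ratLocalizedAt p] Qb).comp
    (y.codRestrict (embR p).range hmem), ?_⟩
  ext h
  show embR p (e.symm (y.codRestrict (embR p).range hmem h)) = y h
  calc embR p (e.symm (y.codRestrict (embR p).range hmem h))
      = ((e (e.symm (y.codRestrict (embR p).range hmem h)) : (embR p).range) : PadicAlgCl p) :=
        (AlgEquiv.ofInjective_apply (embR p) (embR_injective p) _).symm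
    _ = y h := by rw [e.apply_symm_apply]; rfl

/-- `Qb`-points and `PadicAlgCl p`-points of a finite `ℤ_(p)`-algebra are the same. -/
noncomputable def pointEquiv [Module.Finite (ratLocalizedAt p) H] :
    (H →ₐ[ratLocalizedAt p] Qb) ≃ (H →ₐ[ratLocalizedAt p] PadicAlgCl p) :=
  Equiv.ofBijective (pointMap p) ⟨pointMap_injective p, pointMap_surjective p⟩

@[simp] theorem pointEquiv_apply [Module.Finite (ratLocalizedAt p) H]
    (x : H →ₐ[ratLocalizedAt p] Qb) (h : H) :
    pointEquiv p x h = padicEmbedding p (x h) := rfl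

/-- `Qb`-points of `H` and `PadicAlgCl p`-points of `ℤ_p ⊗ H`. -/
noncomputable def localPointEquiv [Module.Finite (ratLocalizedAt p) H] :
    (H →ₐ[ratLocalizedAt p] Qb) ≃ (ℤ_[p] ⊗[ratLocalizedAt p] H →ₐ[ℤ_[p]] PadicAlgCl p) :=
  (pointEquiv p).trans (AlgHom.liftEquiv (ratLocalizedAt p) ℤ_[p] H (PadicAlgCl p))

theorem localPointEquiv_tmul [Module.Finite (ratLocalizedAt p) H]
    (x : H →ₐ[ratLocalizedAt p] Qb) (a : ℤ_[p]) (h : H) :
    localPointEquiv p x (a ⊗ₜ h) = a • padicEmbedding p (x h) := rfl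

theorem localPointEquiv_one_tmul [Module.Finite (ratLocalizedAt p) H]
    (x : H →ₐ[ratLocalizedAt p] Qb) (h : H) :
    localPointEquiv p x (1 ⊗ₜ h) = padicEmbedding p (x h) := by
  rw [localPointEquiv_tmul, one_smul]

theorem padicEmbedding_localPointEquiv_symm [Module.Finite (ratLocalizedAt p) H]
    (F : ℤ_[p] ⊗[ratLocalizedAt p] H →ₐ[ℤ_[p]] PadicAlgCl p) (h : H) :
    padicEmbedding p ((localPointEquiv p).symm F h) = F (1 ⊗ₜ h) := by
  rw [← localPointEquiv_one_tmul, Equiv.apply_symm_apply]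

end Points

/-! ## Convolution and base change -/

section Conv

open WithConv

variable {H : Type} [CommRing H] [Bialgebra (ratLocalizedAt p) H]
variable {C : Type} [CommRing C] [Algebra ℤ_[p] C] [Algebra (ratLocalizedAt p) C]
  [IsScalarTower (ratLocalizedAt p) ℤ_[p] C]

theorem lift_tttc_one_tmul (F G : ℤ_[p] ⊗[ratLocalizedAt p] H →ₐ[ℤ_[p]] C)
    (t : H ⊗[ratLocalizedAt p] H) :
    Algebra.TensorProduct.lift F G (fun _ _ => .all ..)
      (TensorProduct.AlgebraTensorModule.tensorTensorTensorComm (ratLocalizedAt p) ℤ_[p]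
        (ratLocalizedAt p) ℤ_[p] ℤ_[p] ℤ_[p] H H (((1 : ℤ_[p]) ⊗ₜ[ℤ_[p]] (1 : ℤ_[p])) ⊗ₜ t)) =
    Algebra.TensorProduct.lift ((AlgHom.liftEquiv (ratLocalizedAt p) ℤ_[p] H C).symm F)
      ((AlgHom.liftEquiv (ratLocalizedAt p) ℤ_[p] H C).symm G) (fun _ _ => .all ..) t := by
  induction t using TensorProduct.induction_on with
  | zero => simp
  | tmul x y => simp
  | add a b ha hb => simp only [tmul_add, map_add, ha, hb]

/-- Convolution of points of the base change, evaluated on `1 ⊗ h`. -/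
theorem convMul_one_tmul (F G : WithConv (ℤ_[p] ⊗[ratLocalizedAt p] H →ₐ[ℤ_[p]] C)) (h : H) :
    (F * G) (1 ⊗ₜ h) =
      (toConv ((AlgHom.liftEquiv (ratLocalizedAt p) ℤ_[p] H C).symm F.ofConv) *
        toConv ((AlgHom.liftEquiv (ratLocalizedAt p) ℤ_[p] H C).symm G.ofConv)) h := by
  rw [AlgHom.convMul_apply, AlgHom.convMul_apply, TensorProduct.comul_tmul,
    CommSemiring.comul_apply]
  exact lift_tttc_one_tmul p F.ofConv G.ofConv _

/-- Base change of points is multiplicative for the convolution products. -/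
theorem liftEquiv_convMul (a b : WithConv (H →ₐ[ratLocalizedAt p] C)) :
    toConv (AlgHom.liftEquiv (ratLocalizedAt p) ℤ_[p] H C (a * b).ofConv) =
      toConv (AlgHom.liftEquiv (ratLocalizedAt p) ℤ_[p] H C a.ofConv) *
        toConv (AlgHom.liftEquiv (ratLocalizedAt p) ℤ_[p] H C b.ofConv) := by
  apply WithConv.ext
  apply (AlgHom.liftEquiv (ratLocalizedAt p) ℤ_[p] H C).symm.injective
  ext h
  rw [AlgHom.liftEquiv_symm_apply, AlgHom.liftEquiv_symm_apply]
  erw [convMul_one_tmul]
  simp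

end Conv

/-! ## The local model -/

section Model

open WithConv

variable {H : Type} [CommRing H] [Bialgebra (ratLocalizedAt p) H]
  [Module.Finite (ratLocalizedAt p) H]

/-- `localPointEquiv` on the convolution monoids. -/
noncomputable def localPointConvEquiv :
    WithConv (H →ₐ[ratLocalizedAt p] Qb) ≃
      WithConv (ℤ_[p] ⊗[ratLocalizedAt p] H →ₐ[ℤ_[p]] PadicAlgCl p) :=
  WithConv.congr (localPointEquiv p)

theorem localPointConvEquiv_one_tmul (x : WithConv (H →ₐ[ratLocalizedAt p] Qb)) (h : H) :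
    localPointConvEquiv p x (1 ⊗ₜ h) = padicEmbedding p (x h) :=
  localPointEquiv_one_tmul p x.ofConv h

theorem padicEmbedding_localPointConvEquiv_symm
    (F : WithConv (ℤ_[p] ⊗[ratLocalizedAt p] H →ₐ[ℤ_[p]] PadicAlgCl p)) (h : H) :
    padicEmbedding p ((localPointConvEquiv p).symm F h) = F (1 ⊗ₜ h) :=
  padicEmbedding_localPointEquiv_symm p F.ofConv h

theorem localPointConvEquiv_mul (x y : WithConv (H →ₐ[ratLocalizedAt p] Qb)) :
    localPointConvEquiv p (x * y) = localPointConvEquiv p x * localPointConvEquiv p y := by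
  have h1 : (embR p).comp (x * y).ofConv =
      ofConv (toConv ((embR p).comp x.ofConv) * toConv ((embR p).comp y.ofConv)) :=
    AlgHom.comp_convMul_distrib (embR p) x y
  have h2 := liftEquiv_convMul p (C := PadicAlgCl p) (toConv ((embR p).comp x.ofConv))
    (toConv ((embR p).comp y.ofConv))
  show toConv (AlgHom.liftEquiv (ratLocalizedAt p) ℤ_[p] H (PadicAlgCl p)
    ((embR p).comp (x * y).ofConv)) = _
  rw [h1]
  exact h2

theorem localPointConvEquiv_symm_mul
    (F G : WithConv (ℤ_[p] ⊗[ratLocalizedAt p] H →ₐ[ℤ_[p]] PadicAlgCl p)) :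
    (localPointConvEquiv p).symm (F * G) =
      (localPointConvEquiv p).symm F * (localPointConvEquiv p).symm G := by
  apply (localPointConvEquiv p).injective
  rw [localPointConvEquiv_mul, Equiv.apply_symm_apply, Equiv.apply_symm_apply,
    Equiv.apply_symm_apply]

/-- Galois compatibility: the local Galois group acts on the `PadicAlgCl p`-points as the
decomposition group acts on the `Qb`-points. -/
theorem localPointConvEquiv_symm_galois (τ : PadicAlgCl p ≃ₐ[ℚ_[p]] PadicAlgCl p)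
    (F G : WithConv (ℤ_[p] ⊗[ratLocalizedAt p] H →ₐ[ℤ_[p]] PadicAlgCl p))
    (hFG : ∀ z : ℤ_[p] ⊗[ratLocalizedAt p] H, G z = τ (F z)) (h : H) :
    (localPointConvEquiv p).symm G h =
      localGaloisToGlobal p τ ((localPointConvEquiv p).symm F h) := by
  apply (padicEmbedding p).toRingHom.injective
  show padicEmbedding p _ = padicEmbedding p _
  rw [padicEmbedding_localGaloisToGlobal, padicEmbedding_localPointConvEquiv_symm,
    padicEmbedding_localPointConvEquiv_symm, hFG]

end Model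

/-- The local form of the frozen flat-model clause: a finite free cocommutative Hopf algebra
over `ℤ_p` whose `PadicAlgCl p`-points are `M`, equivariantly for the local Galois group. -/
def HasLocalFlatModel (M : Type) [AddCommGroup M]
    (actLoc : (PadicAlgCl p ≃ₐ[ℚ_[p]] PadicAlgCl p) → M → M) : Prop :=
  ∃ (Hp : Type) (_ : CommRing Hp) (_ : HopfAlgebra ℤ_[p] Hp),
    Module.Finite ℤ_[p] Hp ∧ Module.Free ℤ_[p] Hp ∧ Coalgebra.IsCocomm ℤ_[p] Hp ∧
    ∃ e : WithConv (Hp →ₐ[ℤ_[p]] PadicAlgCl p) ≃ M,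
      (∀ f g : WithConv (Hp →ₐ[ℤ_[p]] PadicAlgCl p), e (f * g) = e f + e g) ∧
      ∀ (τ : PadicAlgCl p ≃ₐ[ℚ_[p]] PadicAlgCl p)
        (f g : WithConv (Hp →ₐ[ℤ_[p]] PadicAlgCl p)),
        (∀ h : Hp, g h = τ (f h)) → e g = actLoc τ (e f)

/-- **Local model bridge.** The frozen flat-model clause (Hopf algebra over `ℤ_(p)`, points in
`Qb`, global Galois action) gives a local flat model (Hopf algebra `ℤ_p ⊗ H` over `ℤ_p`, points
in `PadicAlgCl p`, local Galois action through `localGaloisToGlobal p`). -/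
theorem hasLocalFlatModel_of_hasFlatModel {M : Type} [AddCommGroup M] {act : Gal → M → M}
    (h : Fermat.Agent.S32.helper1304.HasFlatModel p M act) :
    HasLocalFlatModel p M (fun τ => act (localGaloisToGlobal p τ)) := by
  obtain ⟨H, _, _, hfin, hflat, hco, e, hadd, hact⟩ := h
  haveI := hfin
  haveI := hflat
  haveI := hco
  refine ⟨ℤ_[p] ⊗[ratLocalizedAt p] H, inferInstance, inferInstance, inferInstance,
    inferInstance, inferInstance, (localPointConvEquiv p).symm.trans e, ?_, ?_⟩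
  · intro f g
    rw [Equiv.trans_apply, Equiv.trans_apply, Equiv.trans_apply, localPointConvEquiv_symm_mul,
      hadd]
  · intro τ f g hfg
    rw [Equiv.trans_apply, Equiv.trans_apply]
    exact hact (localGaloisToGlobal p τ) _ _ (localPointConvEquiv_symm_galois p τ f g hfg)

/-- The frozen `IsFlatAt` gives a local flat model at every finite level. -/
theorem hasLocalFlatModel_of_isFlatAt {A : Type} [CommRing A] [IsLocalRing A]
    (ρ : GaloisRepAdic A) (h : ρ.IsFlatAt p) (I : Ideal A) (hI : Finite (A ⧸ I)) :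
    HasLocalFlatModel p (ρ.V ⧸ (I • (⊤ : Submodule A ρ.V)))
      (fun τ => ρ.levelAction I (localGaloisToGlobal p τ)) :=
  hasLocalFlatModel_of_hasFlatModel p (h.2 I hI)

/-! ## Consequences for any local model datum -/

section Datum

open WithConv

variable {p}
variable {Hp : Type} [CommRing Hp] [Bialgebra ℤ_[p] Hp]
  {M : Type} [AddCommGroup M]

/-- Values of points of a finite `ℤ_p`-algebra are integral. -/
theorem norm_point_le_one [Module.Finite ℤ_[p] Hp] (f : Hp →ₐ[ℤ_[p]] PadicAlgCl p) (h : Hp) :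
    ‖f h‖ ≤ 1 := by
  have h1 : IsIntegral ℤ_[p] (f h) := (Algebra.IsIntegral.isIntegral (R := ℤ_[p]) h).map f
  exact (Fermat.Agent.S55.helper862.isIntegral_iff_spectralNorm_le_one p (PadicAlgCl p) (f h)).mp h1

theorem map_one_of_additive (e : WithConv (Hp →ₐ[ℤ_[p]] PadicAlgCl p) ≃ M)
    (hadd : ∀ f g, e (f * g) = e f + e g) : e 1 = 0 := by
  have h := hadd 1 1
  rw [mul_one] at h
  exact (add_eq_left.mp h.symm)

theorem map_pow_of_additive (e : WithConv (Hp →ₐ[ℤ_[p]] PadicAlgCl p) ≃ M)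
    (hadd : ∀ f g, e (f * g) = e f + e g) (f : WithConv (Hp →ₐ[ℤ_[p]] PadicAlgCl p)) (n : ℕ) :
    e (f ^ n) = n • e f := by
  induction n with
  | zero => rw [pow_zero, zero_smul, map_one_of_additive e hadd]
  | succ k ih => rw [pow_succ, hadd, ih, succ_nsmul]

/-- If `n` kills `M`, every point has order dividing `n` for the convolution product. -/
theorem pow_eq_one_of_nsmul_eq_zero (e : WithConv (Hp →ₐ[ℤ_[p]] PadicAlgCl p) ≃ M)
    (hadd : ∀ f g, e (f * g) = e f + e g) {n : ℕ} (hn : ∀ m : M, n • m = 0)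
    (f : WithConv (Hp →ₐ[ℤ_[p]] PadicAlgCl p)) : f ^ n = 1 := by
  apply e.injective
  rw [map_pow_of_additive e hadd, hn, map_one_of_additive e hadd]

/-- The local Galois group acts on points by composition. -/
noncomputable def galPoint (τ : PadicAlgCl p ≃ₐ[ℚ_[p]] PadicAlgCl p)
    (f : WithConv (Hp →ₐ[ℤ_[p]] PadicAlgCl p)) : WithConv (Hp →ₐ[ℤ_[p]] PadicAlgCl p) :=
  toConv (((τ : PadicAlgCl p →ₐ[ℚ_[p]] PadicAlgCl p).restrictScalars ℤ_[p]).comp f.ofConv)

@[simp] theorem galPoint_apply (τ : PadicAlgCl p ≃ₐ[ℚ_[p]] PadicAlgCl p)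
    (f : WithConv (Hp →ₐ[ℤ_[p]] PadicAlgCl p)) (h : Hp) : galPoint τ f h = τ (f h) := rfl

theorem galPoint_mul (τ : PadicAlgCl p ≃ₐ[ℚ_[p]] PadicAlgCl p)
    (f g : WithConv (Hp →ₐ[ℤ_[p]] PadicAlgCl p)) :
    galPoint τ (f * g) = galPoint τ f * galPoint τ g := by
  apply WithConv.ext
  exact AlgHom.comp_convMul_distrib
    ((τ : PadicAlgCl p →ₐ[ℚ_[p]] PadicAlgCl p).restrictScalars ℤ_[p]) f g

omit [AddCommGroup M] in
theorem map_galPoint {actLoc : (PadicAlgCl p ≃ₐ[ℚ_[p]] PadicAlgCl p) → M → M}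
    (e : WithConv (Hp →ₐ[ℤ_[p]] PadicAlgCl p) ≃ M)
    (hact : ∀ (τ : PadicAlgCl p ≃ₐ[ℚ_[p]] PadicAlgCl p)
      (f g : WithConv (Hp →ₐ[ℤ_[p]] PadicAlgCl p)), (∀ h : Hp, g h = τ (f h)) →
        e g = actLoc τ (e f))
    (τ : PadicAlgCl p ≃ₐ[ℚ_[p]] PadicAlgCl p) (f : WithConv (Hp →ₐ[ℤ_[p]] PadicAlgCl p)) :
    e (galPoint τ f) = actLoc τ (e f) :=
  hact τ f (galPoint τ f) fun _ => rfl

omit [AddCommGroup M] in
/-- `τ` fixes the point `e f` of `M` iff it fixes all the values of `f`: the field cut out by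
the action on `M` is the field generated by the values of the points. -/
theorem actLoc_eq_self_iff {actLoc : (PadicAlgCl p ≃ₐ[ℚ_[p]] PadicAlgCl p) → M → M}
    (e : WithConv (Hp →ₐ[ℤ_[p]] PadicAlgCl p) ≃ M)
    (hact : ∀ (τ : PadicAlgCl p ≃ₐ[ℚ_[p]] PadicAlgCl p)
      (f g : WithConv (Hp →ₐ[ℤ_[p]] PadicAlgCl p)), (∀ h : Hp, g h = τ (f h)) →
        e g = actLoc τ (e f))
    (τ : PadicAlgCl p ≃ₐ[ℚ_[p]] PadicAlgCl p) (f : WithConv (Hp →ₐ[ℤ_[p]] PadicAlgCl p)) :
    actLoc τ (e f) = e f ↔ ∀ h : Hp, τ (f h) = f h := by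
  rw [← map_galPoint e hact τ f, e.apply_eq_iff_eq]
  constructor
  · intro hf h
    rw [← galPoint_apply, hf]
  · intro hf
    apply WithConv.ext
    ext h
    exact hf h

omit [AddCommGroup M] in
/-- `τ` acts trivially on `M` iff it fixes every value of every point. -/
theorem actLoc_eq_id_iff {actLoc : (PadicAlgCl p ≃ₐ[ℚ_[p]] PadicAlgCl p) → M → M}
    (e : WithConv (Hp →ₐ[ℤ_[p]] PadicAlgCl p) ≃ M)
    (hact : ∀ (τ : PadicAlgCl p ≃ₐ[ℚ_[p]] PadicAlgCl p)
      (f g : WithConv (Hp →ₐ[ℤ_[p]] PadicAlgCl p)), (∀ h : Hp, g h = τ (f h)) →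
        e g = actLoc τ (e f))
    (τ : PadicAlgCl p ≃ₐ[ℚ_[p]] PadicAlgCl p) :
    (∀ m : M, actLoc τ m = m) ↔
      ∀ (f : WithConv (Hp →ₐ[ℤ_[p]] PadicAlgCl p)) (h : Hp), τ (f h) = f h := by
  constructor
  · intro hm f
    exact (actLoc_eq_self_iff e hact τ f).mp (hm (e f))
  · intro hf m
    obtain ⟨f, rfl⟩ := e.surjective m
    exact (actLoc_eq_self_iff e hact τ f).mpr (hf f)

end Datum

end Fermat.Agent.S56.helper7049
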