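import Mathlib
import Fermat.Agent.S56.helper7049_LocalModel
import Fermat.Agent.S32.helper1304_FlatSubquot

set_option autoImplicit false

/-!
# The local model of a finite flat Galois module, II: separation and the point field

Continuation of `helper7049_LocalModel` (track B of the flat wall).

* `HasSepLocalFlatModel p M actLoc`: the local clause `HasLocalFlatModel` together with the fact
  that the `PadicAlgCl p`-points separate the elements of the Hopf algebra.  It is produced from
  the frozen clause through the function order of `helper1304` / `helper1852`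
  (`hasSepLocalFlatModel_of_hasFlatModel`).
* For a bialgebra whose points separate and are killed by `n`, the `n`-th convolution power of the
  identity is the unit (`toConv_id_pow_eq_one_of_sep`).
* `pointField p Hp`: the field generated over `ℚ_p` by all values of all points.  It is a finite
  Galois extension of `ℚ_p` and its fixing subgroup is the kernel of the local action.
-/

namespace Fermat.Agent.S56.helper7049

open GaloisRep TensorProduct

local notation "Qb" => AlgebraicClosure ℚ
local notation "Gal" => (AlgebraicClosure ℚ ≃ₐ[ℚ] AlgebraicClosure ℚ)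

variable (p : ℕ) [Fact p.Prime]

attribute [local instance] algebraRZp

/-! ## Separation of the base change of a function order -/

/-- A linearly independent family over a field has a dual family of linear forms. -/
theorem exists_dual_of_linearIndependent {K V ι : Type*} [Field K] [AddCommGroup V] [Module K V]
    [DecidableEq ι] {v : ι → V} (hv : LinearIndependent K v) (j : ι) :
    ∃ f : V →ₗ[K] K, ∀ i, f (v i) = if i = j then 1 else 0 := by
  obtain ⟨f, hf⟩ := LinearMap.exists_extend
    ((Finsupp.lapply j : (ι →₀ K) →ₗ[K] K) ∘ₗ (hv.repr : _ →ₗ[K] (ι →₀ K)))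
  refine ⟨f, fun i => ?_⟩
  have h1 := congrArg
    (fun g : Submodule.span K (Set.range v) →ₗ[K] K =>
      g ⟨v i, Submodule.subset_span (Set.mem_range_self i)⟩) hf
  simp only [LinearMap.comp_apply, Submodule.subtype_apply, Finsupp.lapply_apply] at h1
  rw [h1, hv.repr_eq_single i _ rfl, Finsupp.single_apply]

theorem algebraMap_Zp_padicAlgCl_injective :
    Function.Injective (algebraMap ℤ_[p] (PadicAlgCl p)) := by
  intro a b hab
  rw [algebraMap_Zp_padicAlgCl, algebraMap_Zp_padicAlgCl] at hab
  exact Subtype.ext ((algebraMap ℚ_[p] (PadicAlgCl p)).injective hab)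

/-- The base ring `ℤ_p` has integral image in `PadicAlgCl p`. -/
theorem norm_algebraMap_Zp_le_one (a : ℤ_[p]) : ‖algebraMap ℤ_[p] (PadicAlgCl p) a‖ ≤ 1 := by
  rw [algebraMap_Zp_padicAlgCl]
  exact (PadicAlgCl.norm_extends p (a : ℚ_[p])).le.trans (PadicInt.norm_le_one a)

/-- The base ring `ℤ_p` has image in `ℚ_p`. -/
theorem algebraMap_Zp_mem_bot (a : ℤ_[p]) :
    algebraMap ℤ_[p] (PadicAlgCl p) a ∈ (⊥ : IntermediateField ℚ_[p] (PadicAlgCl p)) := by
  rw [algebraMap_Zp_padicAlgCl]
  exact IntermediateField.algebraMap_mem _ _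

section Sep

variable {H : Type} [CommRing H] [Algebra (ratLocalizedAt p) H]
  [Module.Finite (ratLocalizedAt p) H]

/-- If a `ℤ_(p)`-basis of `H` is linearly independent over `Qb` as a family of functions on a
finite family of `Qb`-points, then the corresponding `PadicAlgCl p`-points separate the elements
of `ℤ_p ⊗ H`. -/
theorem eq_zero_of_forall_localPoint {ι X : Type} [Finite ι] [Finite X]
    (b : Module.Basis ι (ratLocalizedAt p) H) (pt : X → (H →ₐ[ratLocalizedAt p] Qb))
    (hli : LinearIndependent Qb (fun (i : ι) (m : X) => pt m (b i)))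
    (z : ℤ_[p] ⊗[ratLocalizedAt p] H) (hz : ∀ m : X, localPointEquiv p (pt m) z = 0) :
    z = 0 := by
  classical
  have := Fintype.ofFinite ι
  have := Fintype.ofFinite X
  let B := Algebra.TensorProduct.basis ℤ_[p] b
  have hzsum : z = ∑ i, (B.repr z i) ⊗ₜ[ratLocalizedAt p] (b i) := by
    conv_lhs => rw [← B.sum_repr z]
    refine Finset.sum_congr rfl fun i _ => ?_
    rw [Algebra.TensorProduct.basis_apply, TensorProduct.smul_tmul', smul_eq_mul, mul_one]
  have key : ∀ m : X, ∑ i, (B.repr z i) • padicEmbedding p (pt m (b i)) = 0 := by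
    intro m
    have h1 := hz m
    rw [hzsum, map_sum] at h1
    simpa only [localPointEquiv_tmul] using h1
  apply B.repr.injective
  ext j
  rw [map_zero, Finsupp.zero_apply]
  obtain ⟨f, hf⟩ := exists_dual_of_linearIndependent hli j
  have hfsum : ∀ w : X → Qb, f w = ∑ m, w m * f (fun m' => if m = m' then 1 else 0) := by
    intro w
    rw [LinearMap.pi_apply_eq_sum_univ f w]
    rfl
  apply algebraMap_Zp_padicAlgCl_injective p
  rw [map_zero]
  calc algebraMap ℤ_[p] (PadicAlgCl p) (B.repr z j)
      = ∑ i, (B.repr z i) • padicEmbedding p (f (fun m => pt m (b i))) := by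
        rw [Finset.sum_eq_single j]
        · rw [hf j, if_pos rfl, map_one, Algebra.smul_def, mul_one]
        · intro i _ hij
          rw [hf i, if_neg hij, map_zero, smul_zero]
        · intro hj
          exact absurd (Finset.mem_univ j) hj
    _ = ∑ i, ∑ m, padicEmbedding p (f (fun m' => if m = m' then 1 else 0)) *
          ((B.repr z i) • padicEmbedding p (pt m (b i))) := by
        refine Finset.sum_congr rfl fun i _ => ?_
        rw [hfsum, map_sum, Finset.smul_sum]
        refine Finset.sum_congr rfl fun m _ => ?_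
        rw [map_mul, mul_smul_comm, mul_comm]
    _ = ∑ m, padicEmbedding p (f (fun m' => if m = m' then 1 else 0)) *
          ∑ i, (B.repr z i) • padicEmbedding p (pt m (b i)) := by
        rw [Finset.sum_comm]
        refine Finset.sum_congr rfl fun m _ => ?_
        rw [Finset.mul_sum]
    _ = 0 := by
        refine Finset.sum_eq_zero fun m _ => ?_
        rw [key m, mul_zero]

end Sep

/-! ## The local model with separation -/

/-- `HasLocalFlatModel` together with: the `PadicAlgCl p`-points separate the elements of the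
Hopf algebra (so that the Hopf algebra is a `ℤ_p`-order of functions on `M`). -/
def HasSepLocalFlatModel (M : Type) [AddCommGroup M]
    (actLoc : (PadicAlgCl p ≃ₐ[ℚ_[p]] PadicAlgCl p) → M → M) : Prop :=
  ∃ (Hp : Type) (_ : CommRing Hp) (_ : HopfAlgebra ℤ_[p] Hp),
    Module.Finite ℤ_[p] Hp ∧ Module.Free ℤ_[p] Hp ∧ Coalgebra.IsCocomm ℤ_[p] Hp ∧
    (∀ z : Hp, (∀ x : Hp →ₐ[ℤ_[p]] PadicAlgCl p, x z = 0) → z = 0) ∧
    ∃ e : WithConv (Hp →ₐ[ℤ_[p]] PadicAlgCl p) ≃ M,
      (∀ f g : WithConv (Hp →ₐ[ℤ_[p]] PadicAlgCl p), e (f * g) = e f + e g) ∧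
      ∀ (τ : PadicAlgCl p ≃ₐ[ℚ_[p]] PadicAlgCl p)
        (f g : WithConv (Hp →ₐ[ℤ_[p]] PadicAlgCl p)),
        (∀ h : Hp, g h = τ (f h)) → e g = actLoc τ (e f)

theorem HasSepLocalFlatModel.hasLocalFlatModel {M : Type} [AddCommGroup M]
    {actLoc : (PadicAlgCl p ≃ₐ[ℚ_[p]] PadicAlgCl p) → M → M}
    (h : HasSepLocalFlatModel p M actLoc) : HasLocalFlatModel p M actLoc := by
  obtain ⟨Hp, i1, i2, hfin, hfree, hco, -, e, hadd, hact⟩ := h
  exact ⟨Hp, i1, i2, hfin, hfree, hco, e, hadd, hact⟩

/-! ## Killing the Hopf algebra itself -/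

section Kill

open WithConv

variable {O Hb K : Type*} [CommRing O] [CommRing Hb] [Bialgebra O Hb] [CommRing K] [Algebra O K]

/-- A point composed with the `n`-th convolution power of the identity is the `n`-th convolution
power of the point. -/
theorem comp_toConv_id_pow (x : Hb →ₐ[O] K) (n : ℕ) :
    x.toLinearMap ∘ₗ ((toConv (LinearMap.id : Hb →ₗ[O] Hb)) ^ n).ofConv =
      ((toConv x.toLinearMap : WithConv (Hb →ₗ[O] K)) ^ n).ofConv := by
  induction n with
  | zero =>
    rw [pow_zero, pow_zero]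
    apply LinearMap.ext
    intro c
    simp [LinearMap.convOne_def]
  | succ n ih =>
    rw [pow_succ, pow_succ, LinearMap.algHom_comp_convMul_distrib, ih]
    rfl

/-- Linear form of "the point is killed by `n`". -/
theorem toConv_toLinearMap_pow_eq_one {n : ℕ} (x : WithConv (Hb →ₐ[O] K)) (hx : x ^ n = 1) :
    (toConv x.ofConv.toLinearMap : WithConv (Hb →ₗ[O] K)) ^ n = 1 := by
  have h1 := AlgHom.toLinearMap_convPow x n
  rw [hx] at h1
  exact h1.symm

/-- If the `K`-points separate the elements of `Hb` and are all killed by `n` in the convolution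
monoid, then `Hb` is killed by `n`: the `n`-th convolution power of the identity is the unit. -/
theorem toConv_id_pow_eq_one_of_sep (n : ℕ)
    (hsep : ∀ z : Hb, (∀ x : Hb →ₐ[O] K, x z = 0) → z = 0)
    (hpts : ∀ x : WithConv (Hb →ₐ[O] K), x ^ n = 1) :
    (toConv (LinearMap.id : Hb →ₗ[O] Hb)) ^ n = 1 := by
  apply WithConv.ofConv_injective
  apply LinearMap.ext
  intro z
  rw [← sub_eq_zero]
  apply hsep
  intro x
  have h1 := congrArg (fun g : Hb →ₗ[O] K => g z) (comp_toConv_id_pow x n)
  have h2 : ((toConv x.toLinearMap : WithConv (Hb →ₗ[O] K)) ^ n) = 1 :=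
    toConv_toLinearMap_pow_eq_one (toConv x) (hpts (toConv x))
  simp only [LinearMap.comp_apply, AlgHom.toLinearMap_apply] at h1
  rw [map_sub, h1, h2, sub_eq_zero]
  simp [LinearMap.convOne_def]

end Kill

/-! ## The point field -/

section PointField

open WithConv

variable {p}
variable (Hp : Type) [CommRing Hp] [Algebra ℤ_[p] Hp]

variable (p) in
/-- The field generated over `ℚ_p` by all values of all `PadicAlgCl p`-points of `Hp`. -/
noncomputable def pointField : IntermediateField ℚ_[p] (PadicAlgCl p) :=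
  IntermediateField.adjoin ℚ_[p]
    {y : PadicAlgCl p | ∃ (f : Hp →ₐ[ℤ_[p]] PadicAlgCl p) (h : Hp), f h = y}

variable {Hp}

theorem point_mem_pointField (f : Hp →ₐ[ℤ_[p]] PadicAlgCl p) (h : Hp) :
    f h ∈ pointField p Hp :=
  IntermediateField.subset_adjoin _ _ ⟨f, h, rfl⟩

theorem pointField_le_iff (E : IntermediateField ℚ_[p] (PadicAlgCl p)) :
    pointField p Hp ≤ E ↔ ∀ (f : Hp →ₐ[ℤ_[p]] PadicAlgCl p) (h : Hp), f h ∈ E := by
  constructor
  · intro hE f h
    exact hE (point_mem_pointField f h)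
  · intro hE
    apply IntermediateField.adjoin_le_iff.mpr
    rintro y ⟨f, h, rfl⟩
    exact hE f h

/-- The point field is stable under the local Galois group. -/
theorem map_pointField_le (τ : PadicAlgCl p ≃ₐ[ℚ_[p]] PadicAlgCl p) :
    (pointField p Hp).map (τ : PadicAlgCl p →ₐ[ℚ_[p]] PadicAlgCl p) ≤ pointField p Hp := by
  unfold pointField
  rw [IntermediateField.adjoin_map]
  apply IntermediateField.adjoin.mono
  rintro y ⟨x, ⟨f, h, rfl⟩, rfl⟩
  exact ⟨((τ : PadicAlgCl p →ₐ[ℚ_[p]] PadicAlgCl p).restrictScalars ℤ_[p]).comp f, h, rfl⟩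

instance normal_pointField : Normal ℚ_[p] (pointField p Hp) :=
  IntermediateField.normal_iff_forall_map_le'.mpr fun τ => map_pointField_le τ

instance isGalois_pointField : IsGalois ℚ_[p] (pointField p Hp) where

/-- The point field is generated by the values of the points on a spanning set. -/
theorem pointField_le_of_span {s : Set Hp} (hs : Submodule.span ℤ_[p] s = ⊤)
    (E : IntermediateField ℚ_[p] (PadicAlgCl p))
    (hE : ∀ (f : Hp →ₐ[ℤ_[p]] PadicAlgCl p), ∀ g ∈ s, f g ∈ E) : pointField p Hp ≤ E := by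
  rw [pointField_le_iff]
  intro f h
  have hh : h ∈ Submodule.span ℤ_[p] s := hs ▸ Submodule.mem_top
  induction hh using Submodule.span_induction with
  | mem x hx => exact hE f x hx
  | zero => rw [map_zero]; exact E.zero_mem
  | add x y _ _ hx hy => rw [map_add]; exact E.add_mem hx hy
  | smul a x _ hx =>
    rw [map_smul, Algebra.smul_def, algebraMap_Zp_padicAlgCl]
    exact E.mul_mem (E.algebraMap_mem _) hx

instance finiteDimensional_pointField [Module.Finite ℤ_[p] Hp] :
    FiniteDimensional ℚ_[p] (pointField p Hp) := by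
  obtain ⟨s, hs⟩ := (Module.Finite.fg_top : (⊤ : Submodule ℤ_[p] Hp).FG)
  let T : Set (PadicAlgCl p) :=
    Set.range (fun q : (Hp →ₐ[ℤ_[p]] PadicAlgCl p) × s => q.1 (q.2 : Hp))
  have hT : FiniteDimensional ℚ_[p] (IntermediateField.adjoin ℚ_[p] T) :=
    IntermediateField.finiteDimensional_adjoin fun x _ =>
      Algebra.IsIntegral.isIntegral (R := ℚ_[p]) x
  have hle : pointField p Hp ≤ IntermediateField.adjoin ℚ_[p] T :=
    pointField_le_of_span (s := (s : Set Hp)) hs _ fun f g hg =>
      IntermediateField.subset_adjoin _ _ ⟨(f, ⟨g, hg⟩), rfl⟩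
  exact Module.Finite.of_injective (IntermediateField.inclusion hle).toLinearMap
    (IntermediateField.inclusion hle).injective

/-- The fixing subgroup of the point field: the elements fixing all values of all points. -/
theorem mem_fixingSubgroup_pointField_iff (τ : PadicAlgCl p ≃ₐ[ℚ_[p]] PadicAlgCl p) :
    τ ∈ (pointField p Hp).fixingSubgroup ↔
      ∀ (f : Hp →ₐ[ℤ_[p]] PadicAlgCl p) (h : Hp), τ (f h) = f h := by
  rw [IntermediateField.mem_fixingSubgroup_iff]
  constructor
  · intro hτ f h
    exact hτ _ (point_mem_pointField f h)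
  · intro hτ x hx
    have hle : pointField p Hp ≤ IntermediateField.fixedField (Subgroup.zpowers τ) := by
      rw [pointField_le_iff]
      intro f h
      rw [IntermediateField.mem_fixedField_iff]
      rintro σ ⟨k, rfl⟩
      have hfix : ∀ n : ℕ, (τ ^ n) (f h) = f h := by
        intro n
        induction n with
        | zero => rfl
        | succ n ih => rw [pow_succ, AlgEquiv.mul_apply, hτ f h, ih]
      have hfix' : ∀ n : ℕ, (τ ^ n)⁻¹ (f h) = f h := by
        intro n
        rw [AlgEquiv.aut_inv, AlgEquiv.symm_apply_eq, hfix n]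
      rcases Int.eq_nat_or_neg k with ⟨n, rfl | rfl⟩
      · show (τ ^ (n : ℤ)) (f h) = f h
        rw [zpow_natCast]; exact hfix n
      · show (τ ^ (-(n : ℤ))) (f h) = f h
        rw [zpow_neg, zpow_natCast]; exact hfix' n
    exact (IntermediateField.mem_fixedField_iff _ x).mp (hle hx) τ (Subgroup.mem_zpowers τ)

/-- **Kernel field.** For a local model datum `(e, hact)` the fixing subgroup of the point field
is the kernel of the local action on `M`. -/
theorem mem_fixingSubgroup_pointField_iff_act {Hq : Type} [CommRing Hq] [Bialgebra ℤ_[p] Hq]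
    {M : Type} {actLoc : (PadicAlgCl p ≃ₐ[ℚ_[p]] PadicAlgCl p) → M → M}
    (e : WithConv (Hq →ₐ[ℤ_[p]] PadicAlgCl p) ≃ M)
    (hact : ∀ (τ : PadicAlgCl p ≃ₐ[ℚ_[p]] PadicAlgCl p)
      (f g : WithConv (Hq →ₐ[ℤ_[p]] PadicAlgCl p)), (∀ h : Hq, g h = τ (f h)) →
        e g = actLoc τ (e f))
    (τ : PadicAlgCl p ≃ₐ[ℚ_[p]] PadicAlgCl p) :
    τ ∈ (pointField p Hq).fixingSubgroup ↔ ∀ m : M, actLoc τ m = m := by
  rw [mem_fixingSubgroup_pointField_iff, actLoc_eq_id_iff e hact τ]
  constructor
  · intro h f x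
    exact h f.ofConv x
  · intro h f x
    exact h (toConv f) x

/-- **(hkill)** For a local model datum with separation: if `n` kills `M`, then the `n`-th
convolution power of the identity of the Hopf algebra is the unit. -/
theorem toConv_id_pow_eq_one {Hq : Type} [CommRing Hq] [Bialgebra ℤ_[p] Hq]
    {M : Type} [AddCommGroup M] (e : WithConv (Hq →ₐ[ℤ_[p]] PadicAlgCl p) ≃ M)
    (hadd : ∀ f g : WithConv (Hq →ₐ[ℤ_[p]] PadicAlgCl p), e (f * g) = e f + e g)
    (hsep : ∀ z : Hq, (∀ x : Hq →ₐ[ℤ_[p]] PadicAlgCl p, x z = 0) → z = 0)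
    {n : ℕ} (hn : ∀ m : M, n • m = 0) :
    (toConv (LinearMap.id : Hq →ₗ[ℤ_[p]] Hq)) ^ n = 1 :=
  toConv_id_pow_eq_one_of_sep n hsep (pow_eq_one_of_nsmul_eq_zero e hadd hn)

end PointField

/-! ## The seam with the frozen vocabulary -/

section Seam

open WithConv

/-- The values in `Qb` of the `Qb`-points of a `ℤ_(p)`-algebra. -/
def pointValues (H : Type) [CommRing H] [Algebra (ratLocalizedAt p) H] : Set Qb :=
  {s : Qb | ∃ (x : H →ₐ[ratLocalizedAt p] Qb) (h : H), x h = s}

/-- The point field of `ℤ_p ⊗ H` is generated over `ℚ_p` by the (embedded) values of the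
`Qb`-points of `H`. -/
theorem adjoin_image_pointValues {H : Type} [CommRing H] [Algebra (ratLocalizedAt p) H]
    [Module.Finite (ratLocalizedAt p) H] :
    IntermediateField.adjoin ℚ_[p] (padicEmbedding p '' pointValues p H) =
      pointField p (ℤ_[p] ⊗[ratLocalizedAt p] H) := by
  apply le_antisymm
  · apply IntermediateField.adjoin_le_iff.mpr
    rintro _ ⟨s, ⟨x, h, rfl⟩, rfl⟩
    rw [← localPointEquiv_one_tmul]
    exact point_mem_pointField _ _
  · rw [pointField_le_iff]
    intro f z
    induction z using TensorProduct.induction_on with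
    | zero => rw [map_zero]; exact zero_mem _
    | tmul a h =>
      have h1 : (a ⊗ₜ[ratLocalizedAt p] h : ℤ_[p] ⊗[ratLocalizedAt p] H) = a • (1 ⊗ₜ h) := by
        rw [TensorProduct.smul_tmul', smul_eq_mul, mul_one]
      rw [h1, map_smul, Algebra.smul_def, algebraMap_Zp_padicAlgCl,
        ← padicEmbedding_localPointEquiv_symm]
      exact mul_mem (IntermediateField.algebraMap_mem _ _)
        (IntermediateField.subset_adjoin _ _ ⟨_, ⟨_, h, rfl⟩, rfl⟩)
    | add x y hx hy => rw [map_add]; exact add_mem hx hy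

/-- **Local datum of a flat module.** A function model (equivalently, the frozen flat-model
clause) gives: a finite free
cocommutative Hopf algebra `Hp` over `ℤ_p`, whose `PadicAlgCl p`-points separate its elements and
are `M` equivariantly for the local Galois group; and a set `S ⊆ Qb` (the values of the points of
the function order) which generates the point field of `Hp` over `ℚ_p` and whose pointwise
stabiliser in the global Galois group is the kernel of the action on `M`. -/
theorem exists_localDatum_of_hasFunModel {M : Type} [AddCommGroup M] {act : Gal → M → M}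
    (h : Fermat.Agent.S32.helper1304.HasFunModel p M act) :
    ∃ (Hp : Type) (_ : CommRing Hp) (_ : HopfAlgebra ℤ_[p] Hp),
      Module.Finite ℤ_[p] Hp ∧ Module.Free ℤ_[p] Hp ∧ Coalgebra.IsCocomm ℤ_[p] Hp ∧
      (∀ z : Hp, (∀ x : Hp →ₐ[ℤ_[p]] PadicAlgCl p, x z = 0) → z = 0) ∧
      (∃ S : Set Qb,
        IntermediateField.adjoin ℚ_[p] (padicEmbedding p '' S) = pointField p Hp ∧
        ∀ σ : Gal, (∀ s ∈ S, σ s = s) ↔ ∀ m : M, act σ m = m) ∧
      ∃ e : WithConv (Hp →ₐ[ℤ_[p]] PadicAlgCl p) ≃ M,
        (∀ f g : WithConv (Hp →ₐ[ℤ_[p]] PadicAlgCl p), e (f * g) = e f + e g) ∧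
        ∀ (τ : PadicAlgCl p ≃ₐ[ℚ_[p]] PadicAlgCl p)
          (f g : WithConv (Hp →ₐ[ℤ_[p]] PadicAlgCl p)),
          (∀ h : Hp, g h = τ (f h)) → e g = act (localGaloisToGlobal p τ) (e f) := by
  obtain ⟨Hs, hH⟩ := h
  have fo := hH.funOrder p
  let _ := fo.hopfAlgebra
  have := fo.moduleFinite
  have := fo.moduleFree
  have := fo.isCocomm
  have : Finite M := fo.finite
  let e0 : M ≃ WithConv (Hs →ₐ[ratLocalizedAt p] Qb) :=
    (Equiv.ofBijective (Fermat.Agent.Lib.helper1852.ev (R := ratLocalizedAt p) Hs)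
      fo.ev_bijective).trans (WithConv.equiv _).symm
  have he0 : ∀ m, e0 m = WithConv.toConv (Fermat.Agent.Lib.helper1852.ev Hs m) := fun m => rfl
  refine ⟨ℤ_[p] ⊗[ratLocalizedAt p] Hs, inferInstance, inferInstance, inferInstance,
    inferInstance, inferInstance, ?_, ⟨pointValues p Hs, adjoin_image_pointValues p, ?_⟩,
    (localPointConvEquiv p).symm.trans e0.symm, ?_, ?_⟩
  · intro z hz
    obtain ⟨n, b, hb⟩ := fo.basis
    exact eq_zero_of_forall_localPoint p b (Fermat.Agent.Lib.helper1852.ev Hs) hb z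
      (fun m => hz _)
  · intro σ
    constructor
    · intro hS m
      apply hH.sep
      intro φ hφ
      rw [hH.eqv φ hφ σ m]
      exact hS _ ⟨Fermat.Agent.Lib.helper1852.ev Hs m, ⟨φ, hφ⟩, rfl⟩
    · rintro hm s ⟨x, φ, rfl⟩
      obtain ⟨m, rfl⟩ := fo.ev_bijective.2 x
      show σ ((φ : M → Qb) m) = (φ : M → Qb) m
      rw [← hH.eqv φ.1 φ.2 σ m, hm m]
  · intro f g
    rw [Equiv.trans_apply, Equiv.trans_apply, Equiv.trans_apply, localPointConvEquiv_symm_mul]
    obtain ⟨m, hm⟩ := e0.surjective ((localPointConvEquiv p).symm f)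
    obtain ⟨m', hm'⟩ := e0.surjective ((localPointConvEquiv p).symm g)
    rw [← hm, ← hm', Equiv.symm_apply_apply, Equiv.symm_apply_apply, Equiv.symm_apply_eq, he0,
      he0, he0]
    exact fo.toConv_ev_mul m m'
  · intro τ f g hfg
    rw [Equiv.trans_apply, Equiv.trans_apply]
    obtain ⟨m, hm⟩ := e0.surjective ((localPointConvEquiv p).symm f)
    rw [← hm, Equiv.symm_apply_apply, Equiv.symm_apply_eq, he0]
    apply WithConv.ofConv_injective
    apply AlgHom.ext
    intro φ
    have h1 := localPointConvEquiv_symm_galois p τ f g hfg φ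
    rw [← hm, he0] at h1
    refine h1.trans ?_
    exact (hH.eqv φ.1 φ.2 (localGaloisToGlobal p τ) m).symm

/-- The local datum, from the frozen flat-model clause. -/
theorem exists_localDatum_of_hasFlatModel {M : Type} [AddCommGroup M] {act : Gal → M → M}
    (h : Fermat.Agent.S32.helper1304.HasFlatModel p M act) :
    ∃ (Hp : Type) (_ : CommRing Hp) (_ : HopfAlgebra ℤ_[p] Hp),
      Module.Finite ℤ_[p] Hp ∧ Module.Free ℤ_[p] Hp ∧ Coalgebra.IsCocomm ℤ_[p] Hp ∧
      (∀ z : Hp, (∀ x : Hp →ₐ[ℤ_[p]] PadicAlgCl p, x z = 0) → z = 0) ∧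
      (∃ S : Set Qb,
        IntermediateField.adjoin ℚ_[p] (padicEmbedding p '' S) = pointField p Hp ∧
        ∀ σ : Gal, (∀ s ∈ S, σ s = s) ↔ ∀ m : M, act σ m = m) ∧
      ∃ e : WithConv (Hp →ₐ[ℤ_[p]] PadicAlgCl p) ≃ M,
        (∀ f g : WithConv (Hp →ₐ[ℤ_[p]] PadicAlgCl p), e (f * g) = e f + e g) ∧
        ∀ (τ : PadicAlgCl p ≃ₐ[ℚ_[p]] PadicAlgCl p)
          (f g : WithConv (Hp →ₐ[ℤ_[p]] PadicAlgCl p)),
          (∀ h : Hp, g h = τ (f h)) → e g = act (localGaloisToGlobal p τ) (e f) :=
  exists_localDatum_of_hasFunModel p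
    (Fermat.Agent.S32.helper1304.hasFunModel_of_hasFlatModel p h)

/-- The frozen `IsFlatAt` gives a local datum at every finite level. -/
theorem exists_localDatum_of_isFlatAt {A : Type} [CommRing A] [IsLocalRing A]
    (ρ : GaloisRepAdic A) (h : ρ.IsFlatAt p) (I : Ideal A) (hI : Finite (A ⧸ I)) :
    ∃ (Hp : Type) (_ : CommRing Hp) (_ : HopfAlgebra ℤ_[p] Hp),
      Module.Finite ℤ_[p] Hp ∧ Module.Free ℤ_[p] Hp ∧ Coalgebra.IsCocomm ℤ_[p] Hp ∧
      (∀ z : Hp, (∀ x : Hp →ₐ[ℤ_[p]] PadicAlgCl p, x z = 0) → z = 0) ∧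
      (∃ S : Set Qb,
        IntermediateField.adjoin ℚ_[p] (padicEmbedding p '' S) = pointField p Hp ∧
        ∀ σ : Gal, (∀ s ∈ S, σ s = s) ↔
          ∀ m : ρ.V ⧸ (I • (⊤ : Submodule A ρ.V)), ρ.levelAction I σ m = m) ∧
      ∃ e : WithConv (Hp →ₐ[ℤ_[p]] PadicAlgCl p) ≃ ρ.V ⧸ (I • (⊤ : Submodule A ρ.V)),
        (∀ f g : WithConv (Hp →ₐ[ℤ_[p]] PadicAlgCl p), e (f * g) = e f + e g) ∧
        ∀ (τ : PadicAlgCl p ≃ₐ[ℚ_[p]] PadicAlgCl p)
          (f g : WithConv (Hp →ₐ[ℤ_[p]] PadicAlgCl p)),
          (∀ h : Hp, g h = τ (f h)) → e g = ρ.levelAction I (localGaloisToGlobal p τ) (e f) :=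
  exists_localDatum_of_hasFlatModel p (h.2 I hI)

variable {p}

/-- **The way into the point field.** For a local datum `(e, hact)`: an element of `Qb` fixed by
every element of the decomposition group of `padicPlace p` acting trivially on `M` embeds into
the point field. -/
theorem padicEmbedding_mem_pointField_of_fixed {Hq : Type} [CommRing Hq] [Bialgebra ℤ_[p] Hq]
    {M : Type} {act : Gal → M → M} (e : WithConv (Hq →ₐ[ℤ_[p]] PadicAlgCl p) ≃ M)
    (hact : ∀ (τ : PadicAlgCl p ≃ₐ[ℚ_[p]] PadicAlgCl p)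
      (f g : WithConv (Hq →ₐ[ℤ_[p]] PadicAlgCl p)), (∀ h : Hq, g h = τ (f h)) →
        e g = act (localGaloisToGlobal p τ) (e f))
    (y : Qb)
    (hy : ∀ σ ∈ (padicPlace p).decompositionSubgroup ℚ, (∀ m : M, act σ m = m) → σ y = y) :
    padicEmbedding p y ∈ pointField p Hq := by
  rw [← InfiniteGalois.fixedField_fixingSubgroup (pointField p Hq),
    IntermediateField.mem_fixedField_iff]
  intro τ hτ
  have h1 := (mem_fixingSubgroup_pointField_iff_act
    (actLoc := fun τ => act (localGaloisToGlobal p τ)) e hact τ).mp hτ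
  have h2 := hy (localGaloisToGlobal p τ) (localGaloisToGlobal_mem_decompositionSubgroup p τ) h1
  rw [← padicEmbedding_localGaloisToGlobal, h2]

end Seam

/-! ## The local model with separation, from the frozen clause -/

/-- **Local model bridge, with separation.** The frozen flat-model clause gives a local flat
model whose points separate: the Hopf algebra is `ℤ_p ⊗ H` for the function order `H` of
`helper1304` / `helper1852`. -/
theorem hasSepLocalFlatModel_of_hasFlatModel {M : Type} [AddCommGroup M] {act : Gal → M → M}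
    (h : Fermat.Agent.S32.helper1304.HasFlatModel p M act) :
    HasSepLocalFlatModel p M (fun τ => act (localGaloisToGlobal p τ)) := by
  obtain ⟨Hp, i1, i2, hfin, hfree, hco, hsep, -, e, hadd, hact⟩ :=
    exists_localDatum_of_hasFlatModel p h
  exact ⟨Hp, i1, i2, hfin, hfree, hco, hsep, e, hadd, hact⟩

/-- The frozen `IsFlatAt` gives a local flat model with separation at every finite level. -/
theorem hasSepLocalFlatModel_of_isFlatAt {A : Type} [CommRing A] [IsLocalRing A]
    (ρ : GaloisRepAdic A) (h : ρ.IsFlatAt p) (I : Ideal A) (hI : Finite (A ⧸ I)) :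
    HasSepLocalFlatModel p (ρ.V ⧸ (I • (⊤ : Submodule A ρ.V)))
      (fun τ => ρ.levelAction I (localGaloisToGlobal p τ)) :=
  hasSepLocalFlatModel_of_hasFlatModel p (h.2 I hI)

end Fermat.Agent.S56.helper7049
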