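/-
S56 FLAT-LOCAL, node FLAT-FB-B (helper3657): the closed junction `stmt_FB : helper6366.Stmt_FB`
(Fontaine's bound in Kummer form, frozen vocabulary), by TRACK B.

Chain (every arrow is a theorem on main):
* `helper7049.exists_localDatum_of_hasFunModel`  (LOCMODEL): function model over `ℤ_(p)` ⟹ finite
  free cocommutative Hopf algebra `Hp` over `ℤ_p`, its `PadicAlgCl p`-points, and the set `S ⊆ ℚ̄`
  of values with `ℚ_p(S) = pointField p Hp`, stabiliser of `S` = kernel of the action;
* `helper6909.fontaine_bound_points`  (FLAT-RIG + FLAT-BOUND-B + FLAT-RAM): Fontaine's bound (F)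
  for `L₀ = ℚ_p(points)` over its inertia field;
* `helper453.fbPadic_of_exponent`  (FLAT-FB-ABS + FB-COR): (F) ⟹ the `p`-adic (FB)
  `FBPadic p Fp L₀` for every subfield `Fp ≤ L₀` of exponent prime to `p` containing `ζ_p`;
* `stmt_FB_of_padic`  (FLAT-FB-B-END (E), WAYBACK): the way back to the frozen vocabulary.
-/
import Fermat.Agent.S56.helper3657_StmtFB
import Fermat.Agent.S56.helper7049_LocalSep
import Fermat.Agent.S56.helper6909_FlatPadic
import Fermat.Agent.S56.helper453_FlatPadicTame

set_option autoImplicit false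

namespace Fermat.Agent.S56.helper3657

/-- The `p`-adic (FB) on all tame subfields of the field of points of a finite free cocommutative
Hopf algebra over `ℤ_p` whose points are killed by `p`. -/
theorem fbPadicTame_pointField (p : ℕ) [Fact p.Prime] (Hp : Type) [CommRing Hp]
    [HopfAlgebra ℤ_[p] Hp] [Module.Finite ℤ_[p] Hp] [Module.Free ℤ_[p] Hp]
    [Coalgebra.IsCocomm ℤ_[p] Hp]
    (hpts : ∀ x : WithConv (Hp →ₐ[ℤ_[p]] PadicAlgCl p), x ^ p = 1) :
    FBPadicTame p (helper7049.pointField p Hp) := by
  intro Fp hFp _ hexp hζ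
  obtain ⟨π, h, _, _, hF⟩ := helper6909.fontaine_bound_points (p := p) (O := ℤ_[p]) (H := Hp)
    (fun r => PadicInt.norm_le_one r) hpts
  exact helper453.fbPadic_of_exponent p (helper7049.pointField p Hp) h hF Fp hFp hexp hζ

/-- **(J-FB), closed**: Fontaine's bound in Kummer form, in the frozen vocabulary. -/
theorem stmt_FB : helper6366.Stmt_FB :=
  stmt_FB_of_padic (fun p _ _ M _ act hfun hkill => by
    obtain ⟨Hp, _, _, hfin, hfree, hco, -, ⟨S, hS, hSfix⟩, e, hadd, -⟩ :=
      helper7049.exists_localDatum_of_hasFunModel p hfun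
    refine ⟨S, fun σ _ => hSfix σ, ?_⟩
    have hS' : padicField p S = helper7049.pointField p Hp := hS
    rw [hS']
    exact fbPadicTame_pointField p Hp (helper7049.pow_eq_one_of_nsmul_eq_zero e hadd hkill))

end Fermat.Agent.S56.helper3657
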