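/-
# S56, FLAT-LOCAL, reducible case: the closed statement `Stmt_FlatRed` (helper1401, FLAT-RED-ASM)

`stmt_FlatRed : helper6366.Stmt_FlatRed` -- for `ρbar` with a line stable under the
decomposition group at `p` (and the hypotheses `LocalHyp p ρbar` of S56), the flat deformation
classes at `p` lie in a `k`-subspace of dimension at most `4` containing the coboundaries.

Inputs, all theorems:
* TYPE (`helper56.exists_basis_of_hasFunModel` + `helper56.eig_of_TT` +
  `helper2444.tame_type_of_hasFunModel`): an adapted basis of `ρbar.V`;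
* SHAPE (`helper56.exists_matrix_shape_of_isFlatAt`): the matrix shape of a flat lift;
* LEVEL (`helper3657.stmt_FB : helper6366.Stmt_FB`): Fontaine's bound for the Kummer radicands;
* COUNT (`helper1401.flatTangentAt_of_shape`): the reducible count on the Kummer side.
-/
import Mathlib
import Fermat.Agent.S56.helper3657_StmtFBClosed
import Fermat.Agent.S56.helper2444_TameType
import Fermat.Agent.S56.helper56_RedFrozen
import Fermat.Agent.S56.helper1401_RedAsm

set_option autoImplicit false

namespace Fermat.Agent.S56.helper1401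

open Fermat.Agent.S56.helper6366
open Fermat.Agent.S56.helper6599 (LiftCocycle stdLift)

local notation "Qb" => AlgebraicClosure ℚ
local notation "GQ" => (AlgebraicClosure ℚ ≃ₐ[ℚ] AlgebraicClosure ℚ)

/-- **FLAT-LOCAL, reducible case**, from the flat Kummer bound `Stmt_FB`. -/
theorem stmt_FlatRed_of (hFB : Stmt_FB) : Stmt_FlatRed := by
  intro p _ k _ ρbar h hline
  have hp : p.Prime := Fact.out
  -- if no lift with cyclotomic determinant is flat, there is nothing to prove
  by_cases hex : ∃ c : LiftCocycle ρbar, (stdLift c).IsFlatAt p ∧ (stdLift c).DetIsCyclotomic p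
  swap
  · exact flatTangentAt_of_forall_not p ρbar (fun c hdet hfl => hex ⟨c, hfl, hdet⟩)
  obtain ⟨cs, hcsfl, -⟩ := hex
  have hfin : Finite k := h.fin
  have hchar : CharP k p :=
    (CharP.charP_iff_prime_eq_zero hp).2 (Fermat.Agent.S56.helper1624.natCast_eq_zero_of_det h.det)
  have hP : (padicPlace p).LiesOverPrime p :=
    Fermat.Agent.S55.helper4145.padicPlace_liesOverPrime p
  have : NeZero (p : ℚ) := ⟨by exact_mod_cast hp.ne_zero⟩
  have : NeZero p := ⟨hp.ne_zero⟩
  obtain ⟨ζ, hζ⟩ := HasEnoughRootsOfUnity.exists_primitiveRoot Qb p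
  have hmemI : ∀ σ : ↥((padicPlace p).decompositionSubgroup ℚ),
      σ ∈ (padicPlace p).inertiaSubgroup ℚ ↔ (σ : GQ) ∈ (padicPlace p).inertiaSubgroupIn ℚ :=
    Fermat.Agent.S56.helper6024.mem_inertiaSubgroup_iff (padicPlace p)
  have hID : ∀ σ ∈ (padicPlace p).inertiaSubgroupIn ℚ,
      σ ∈ (padicPlace p).decompositionSubgroup ℚ := fun σ hσ =>
    Fermat.Agent.S05.helper4205.mem_decomposition_of_mem_inertiaSubgroupIn hσ
  -- TYPE: an adapted basis
  have hfun := Fermat.Agent.S56.helper56.hasFunModel_residual_of_isFlatAt p cs hcsfl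
  obtain ⟨l, hl1, hl⟩ := hline
  obtain ⟨b, hup, hχ2, τ, hτ, hτ'⟩ :=
    Fermat.Agent.S56.helper56.exists_basis_of_hasFunModel ρbar hp h.odd hfun h.det
      (padicPlace p) hP l hl1 hl
      (Fermat.Agent.S56.helper56.eig_of_TT ρbar hp h.det (padicPlace p) hP hζ l hl1 hl
        (fun x hx0 hI => Fermat.Agent.S56.helper2444.tame_type_of_hasFunModel hp hP hζ ρbar.V
          (fun σ x => ρbar.ρ σ x) hfun x hx0
          (Fermat.Agent.S56.helper56.residual_nsmul_eq_zero x) hI))
  -- COUNT, with SHAPE as input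
  refine flatTangentAt_of_shape h hFB b (fun σ => hup (σ : GQ) σ.2)
    (fun σ hσ => hχ2 (σ : GQ) ((hmemI σ).mp hσ)) ⟨τ, hID τ hτ⟩ ((hmemI _).mpr hτ) hτ'
    (fun c hfl htr => ?_)
  obtain ⟨X, c0, -, hc, -, -, h10, -, h00⟩ :=
    Fermat.Agent.S56.helper56.exists_matrix_shape_of_isFlatAt hp h.odd (padicPlace p) hP b
      hup hχ2 hτ hτ' c htr hfl
  exact ⟨X, c0, hc, h10, h00⟩

/-- **FLAT-LOCAL, reducible case** (`Stmt_FlatRed` of the FLAT spec): a theorem. -/
theorem stmt_FlatRed : Stmt_FlatRed := stmt_FlatRed_of Fermat.Agent.S56.helper3657.stmt_FB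

end Fermat.Agent.S56.helper1401
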