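/-
S56 FLAT-LOCAL, node FLAT-RED-ASM (helper1401), part 1: the (RC1) eigen-count of
`helper5221_RedCount` instantiated in the frozen vocabulary, on the inertia-level tame field.

`Qb = AlgebraicClosure ℚ`, `P` a valuation subring of `Qb` over `p`, `I` its inertia group,
`ζ` a primitive `p`-th root of unity, `N0 = inertiaFix P ζ = {σ ∈ I | σ ζ = ζ}`,
`K = fixedK N0` (the fixed field, `= ℚ̄ ∩ ℚ_p^{ur}(ζ_p)`), with the valuation `vK` of `P`,
the uniformizer `ζ - 1`, the level `m = p - 1` (`v (ζ - 1) ^ (p - 1) = v p`), and the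
endomorphism `g` induced by a Frobenius element `φ` with `φ ζ = ζ`.

* `inertiaFix`, `vK`, `zetaK`, `isUnif_zetaK_sub_one` : the carrier;
* `card_le_of_radicands` : a family `X h : N0 → k` of characters (additive in `h`,
  `φ`-equivariant of type `β`, separated by `N0`), each `tr (l * X h)` having a radicand of
  level `≥ p - 1` in `K`, has at most `#k` members.

The three arithmetic inputs on the tame field (valuations of `N0`-fixed elements are powers of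
`v (ζ - 1)`; `v (ζ - 1) < 1`; a Frobenius fixing `ζ`) are hypotheses here.
-/
import Mathlib
import Fermat.Prelude.Def_FLTPrelim_Ramification
import Fermat.Prelude.Def_EllipticCurve_FrobeniusTrace
import Fermat.Agent.S05.helper4205_Inertia
import Fermat.Agent.S56.helper6024_TameInertia
import Fermat.Agent.S56.helper164_KummerDict
import Fermat.Agent.S56.helper5221_RedAsm

set_option autoImplicit false

namespace Fermat.Agent.S56.helper1401

open Fermat.Agent.S56.helper164 Fermat.Agent.S56.helper4188 Fermat.Agent.S56.helper5221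

/-! ### The carrier -/

/-- The inertia elements at `P` fixing `ζ`. -/
def inertiaFix (P : ValuationSubring Qb) (ζ : Qb) : Subgroup GQ where
  carrier := {σ | σ ∈ P.inertiaSubgroupIn ℚ ∧ σ ζ = ζ}
  mul_mem' := by
    rintro σ τ ⟨hσ, hσζ⟩ ⟨hτ, hτζ⟩
    exact ⟨mul_mem hσ hτ, by rw [AlgEquiv.mul_apply, hτζ, hσζ]⟩
  one_mem' := ⟨one_mem _, rfl⟩
  inv_mem' := by
    rintro σ ⟨hσ, hσζ⟩
    refine ⟨inv_mem hσ, ?_⟩
    have h : σ⁻¹ (σ ζ) = ζ := σ.symm_apply_apply ζ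
    rw [hσζ] at h
    exact h

theorem mem_inertiaFix {P : ValuationSubring Qb} {ζ : Qb} {σ : GQ} :
    σ ∈ inertiaFix P ζ ↔ σ ∈ P.inertiaSubgroupIn ℚ ∧ σ ζ = ζ := Iff.rfl

/-- `inertiaFix` is normalised by every element of the decomposition group fixing `ζ`. -/
theorem conj_mem_inertiaFix {P : ValuationSubring Qb} {ζ : Qb} {φ : GQ}
    (hφD : φ ∈ P.decompositionSubgroup ℚ) (hφζ : φ ζ = ζ) {σ : GQ}
    (hσ : σ ∈ inertiaFix P ζ) : φ⁻¹ * σ * φ ∈ inertiaFix P ζ := by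
  have hinv : φ⁻¹ ζ = ζ := by
    have h : φ⁻¹ (φ ζ) = ζ := φ.symm_apply_apply ζ
    rw [hφζ] at h
    exact h
  refine ⟨?_, ?_⟩
  · have h := Fermat.Agent.S56.helper6024.conj_mem_inertiaSubgroupIn (A := P)
      (inv_mem hφD) hσ.1
    rwa [inv_inv] at h
  · rw [AlgEquiv.mul_apply, AlgEquiv.mul_apply, hφζ, hσ.2, hinv]

/-- The valuation of `P` on the fixed field of `inertiaFix P ζ`. -/
noncomputable def vK (P : ValuationSubring Qb) (ζ : Qb) :
    Valuation (fixedK (inertiaFix P ζ)) P.ValueGroup :=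
  P.valuation.comap (algebraMap (fixedK (inertiaFix P ζ)) Qb)

theorem vK_apply (P : ValuationSubring Qb) (ζ : Qb) (x : fixedK (inertiaFix P ζ)) :
    vK P ζ x = P.valuation (x : Qb) := rfl

/-- `ζ` as an element of the fixed field of `inertiaFix P ζ`. -/
def zetaK (P : ValuationSubring Qb) (ζ : Qb) : fixedK (inertiaFix P ζ) :=
  ⟨ζ, mem_fixedK.2 fun _ hg => hg.2⟩

@[simp] theorem coe_zetaK (P : ValuationSubring Qb) (ζ : Qb) : ((zetaK P ζ : fixedK _) : Qb) = ζ :=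
  rfl

theorem isPrimitiveRoot_zetaK {p : ℕ} (P : ValuationSubring Qb) {ζ : Qb}
    (hζ : IsPrimitiveRoot ζ p) : IsPrimitiveRoot (zetaK P ζ) p :=
  IsPrimitiveRoot.of_map_of_injective (f := algebraMap (fixedK (inertiaFix P ζ)) Qb)
    (show IsPrimitiveRoot (algebraMap (fixedK (inertiaFix P ζ)) Qb (zetaK P ζ)) p from hζ)
    (algebraMap (fixedK (inertiaFix P ζ)) Qb).injective

/-- `ζ - 1` is a uniformizer of the fixed field of `inertiaFix P ζ` (elementwise form), given the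
valuation statement on `Qb`. -/
theorem isUnif_zetaK_sub_one {p : ℕ} (hp : p.Prime) (P : ValuationSubring Qb) {ζ : Qb}
    (hζ : IsPrimitiveRoot ζ p) (hlam : P.valuation (ζ - 1) < 1)
    (hTI : ∀ x : Qb, x ≠ 0 → (∀ σ ∈ P.inertiaSubgroupIn ℚ, σ ζ = ζ → σ x = x) →
      ∃ n : ℤ, P.valuation x = P.valuation (ζ - 1) ^ n) :
    IsUnif (vK P ζ) (zetaK P ζ - 1) where
  lt_one := hlam
  ne_zero := by
    intro h
    have h1 : ζ - 1 = 0 := congrArg (fun x : fixedK (inertiaFix P ζ) => (x : Qb)) h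
    exact hζ.ne_one hp.one_lt (sub_eq_zero.1 h1)
  exists_zpow := by
    intro x hx
    have hx0 : (x : Qb) ≠ 0 := fun h => hx (Subtype.ext h)
    obtain ⟨n, hn⟩ := hTI (x : Qb) hx0 (fun σ hσ hσζ => mem_fixedK.1 x.2 σ ⟨hσ, hσζ⟩)
    exact ⟨n, hn⟩

/-! ### The count -/

/-- The restriction to the fixed field of `inertiaFix P ζ` of a decomposition-group element
fixing `ζ`. -/
noncomputable def frobK (P : ValuationSubring Qb) (ζ : Qb) (φ : GQ)
    (hφD : φ ∈ P.decompositionSubgroup ℚ) (hφζ : φ ζ = ζ) :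
    fixedK (inertiaFix P ζ) →+* fixedK (inertiaFix P ζ) :=
  fixedRestrict (inertiaFix P ζ) φ (fun _ hk => conj_mem_inertiaFix hφD hφζ hk)

theorem coe_frobK (P : ValuationSubring Qb) (ζ : Qb) (φ : GQ)
    (hφD : φ ∈ P.decompositionSubgroup ℚ) (hφζ : φ ζ = ζ) (x : fixedK (inertiaFix P ζ)) :
    ((frobK P ζ φ hφD hφζ x : fixedK (inertiaFix P ζ)) : Qb) = φ (x : Qb) := rfl

/-- **Top level ⟹ trivial on `inertiaFix`.**  A radicand on `inertiaFix P ζ` of top level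
(`≥ p` for the uniformizer `ζ - 1`) belongs to a character vanishing on `inertiaFix P ζ`. -/
theorem eq_zero_of_top_level {p : ℕ} [Fact p.Prime] (P : ValuationSubring Qb) {ζ : Qb}
    (hζ : IsPrimitiveRoot ζ p) (hlam : P.valuation (ζ - 1) < 1)
    {χ : GQ → ZMod p} {u : fixedK (inertiaFix P ζ)}
    (hu : IsRadicand (inertiaFix P ζ) ζ χ u)
    (hlev : LevelGE (vK P ζ) (zetaK P ζ - 1) p p u) {σ : GQ} (hσ : σ ∈ inertiaFix P ζ) :
    χ σ = 0 := by
  have hp : p.Prime := Fact.out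
  obtain ⟨w, hw0, hw⟩ := hlev
  obtain ⟨y, hy, hgen⟩ := hu
  have hw0' : (w : Qb) ≠ 0 := fun h => hw0 (Subtype.ext h)
  have hz : P.valuation ((y * (w : Qb)) ^ p - 1) ≤ P.valuation (ζ - 1) ^ p := by
    have e : (y * (w : Qb)) ^ p - 1 = ((u * w ^ p - 1 : fixedK (inertiaFix P ζ)) : Qb) := by
      rw [mul_pow, hy]; rfl
    rw [e]
    exact hw
  have hgu : (σ : Qb →+* Qb) ((y * (w : Qb)) ^ p) = (y * (w : Qb)) ^ p := by
    have e : (y * (w : Qb)) ^ p = ((u * w ^ p : fixedK (inertiaFix P ζ)) : Qb) := by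
      rw [mul_pow, hy]; rfl
    rw [e]
    exact mem_fixedK.1 (u * w ^ p).2 σ hσ
  have hin : ∀ x : Qb, P.valuation x ≤ 1 → P.valuation ((σ : Qb →+* Qb) x - x) < 1 := by
    intro x hx
    have hxP : x ∈ P := (ValuationSubring.valuation_le_one_iff P x).1 hx
    exact (ValuationSubring.mem_nonunits_iff P).1
      (Fermat.Agent.S05.helper4205.apply_sub_mem_nonunits hσ.1 hxP)
  have hfix := fixed_of_top_level P.valuation hp hζ hlam hz (σ : Qb →+* Qb) hσ.2 hgu hin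
  have hσw : σ (w : Qb) = w := mem_fixedK.1 w.2 σ hσ
  have hσy : σ y = y := by
    have h1 : σ y * (w : Qb) = y * (w : Qb) := by
      have h2 : σ (y * (w : Qb)) = y * (w : Qb) := hfix
      rwa [map_mul, hσw] at h2
    exact mul_right_cancel₀ hw0' h1
  have h3 : ζ ^ (χ σ).val * y = ζ ^ (0 : ZMod p).val * y := by
    rw [← hgen.2 σ hσ, hσy, zpowv_zero, one_mul]
  exact zpowv_injective hζ (mul_right_cancel₀ hgen.1 h3)

/-- **(RC1) in the frozen vocabulary.**  `X h : GQ → k` (`h` in an additive group `Hs`) a family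
of functions, additive in `h` on `N0 = inertiaFix P ζ`, with `X h (φ⁻¹ g φ) = β * X h g` for a
Frobenius `φ` fixing `ζ`, and `h = 0` as soon as `X h` vanishes on `N0`.  If every character
`tr (l * X h)` of `N0` has a radicand of level `≥ p - 1` in the fixed field of `N0`, then
`#Hs ≤ #k`. -/
theorem card_le_of_radicands {p : ℕ} [Fact p.Prime] (P : ValuationSubring Qb) {ζ : Qb}
    (hζ : IsPrimitiveRoot ζ p) (hlam : P.valuation (ζ - 1) < 1)
    (hTI : ∀ x : Qb, x ≠ 0 → (∀ σ ∈ P.inertiaSubgroupIn ℚ, σ ζ = ζ → σ x = x) →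
      ∃ n : ℤ, P.valuation x = P.valuation (ζ - 1) ^ n)
    (φ : GQ) (hφD : φ ∈ P.decompositionSubgroup ℚ) (hφζ : φ ζ = ζ)
    (hφF : ∀ x ∈ P, φ x - x ^ p ∈ P.nonunits)
    {k : Type*} [Field k] [Finite k] [Algebra (ZMod p) k]
    (tr : k →+ ZMod p) (htr : ∀ x : k, (∀ l : k, tr (l * x) = 0) → x = 0) (β : k)
    {Hs : Type*} [AddCommGroup Hs] (X : Hs → GQ → k)
    (hXadd : ∀ h h', ∀ g ∈ inertiaFix P ζ, X (h + h') g = X h g + X h' g)
    (hXconj : ∀ h, ∀ g ∈ inertiaFix P ζ, X h (φ⁻¹ * g * φ) = β * X h g)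
    (hXinj : ∀ h, (∀ g ∈ inertiaFix P ζ, X h g = 0) → h = 0)
    (hgood : ∀ (h : Hs) (l : k), ∃ u : fixedK (inertiaFix P ζ),
      IsRadicand (inertiaFix P ζ) ζ (fun g => tr (l * X h g)) u ∧
        LevelGE (vK P ζ) (zetaK P ζ - 1) p (p - 1) u) :
    Finite Hs ∧ Nat.card Hs ≤ Nat.card k := by
  have hp : p.Prime := Fact.out
  have hπ : IsUnif (vK P ζ) (zetaK P ζ - 1) := isUnif_zetaK_sub_one hp P hζ hlam hTI
  have hζK : IsPrimitiveRoot (zetaK P ζ) p := isPrimitiveRoot_zetaK P hζ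
  choose a ha using hgood
  have hm : ¬ p ∣ p - 1 := by
    intro h
    have h1 := Nat.le_of_dvd (Nat.sub_pos_of_lt hp.one_lt) h
    have h2 := hp.two_le
    omega
  have hlt : vK P ζ (zetaK P ζ - 1) ^ p < vK P ζ (zetaK P ζ - 1) ^ (p - 1) := by
    have h1 : vK P ζ (zetaK P ζ - 1) < 1 := hπ.lt_one
    have h0 : 0 < vK P ζ (zetaK P ζ - 1) := hπ.val_pos
    have e : p = (p - 1) + 1 := (Nat.sub_add_cancel hp.one_lt.le).symm
    conv_lhs => rw [e, pow_succ]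
    calc vK P ζ (zetaK P ζ - 1) ^ (p - 1) * vK P ζ (zetaK P ζ - 1)
        < vK P ζ (zetaK P ζ - 1) ^ (p - 1) * 1 :=
          mul_lt_mul_of_pos_left h1 (pow_pos h0 _)
      _ = vK P ζ (zetaK P ζ - 1) ^ (p - 1) := mul_one _
  have hn : ∀ κ ∈ inertiaFix P ζ, φ⁻¹ * κ * φ ∈ inertiaFix P ζ :=
    fun _ hk => conj_mem_inertiaFix hφD hφζ hk
  have hφ1 : φ ζ = ζ ^ (1 : ZMod p).val := by
    have : Fact (1 < p) := ⟨hp.one_lt⟩
    rw [ZMod.val_one, pow_one, hφζ]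
  refine card_le_of_levelGE_field (vK P ζ) hζK hπ hm hlt (frobK P ζ φ hφD hφζ) ?_ ?_ ?_ β
    (Λ := k) a ?_ ?_ ?_ (fun h l => (ha h l).2) ?_
  · intro x
    have : Algebra.IsAlgebraic ℚ Qb := AlgebraicClosure.isAlgebraic ℚ
    exact Fermat.Agent.S05.helper4205.valuation_apply_of_mem_decomposition hφD (x : Qb)
  · apply Subtype.ext
    rw [coe_frobK]
    show φ (ζ - 1) = ζ - 1
    rw [map_sub, map_one, hφζ]
  · intro x hx
    have hxP : (x : Qb) ∈ P := (ValuationSubring.valuation_le_one_iff P _).1 hx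
    exact (ValuationSubring.mem_nonunits_iff P).1 (hφF (x : Qb) hxP)
  · intro h h' l
    exact (ha h l).1.add_eq hζ (ha h' l).1 (ha (h + h') l).1 (fun g hg => by
      show tr (l * X (h + h') g) = tr (l * X h g) + tr (l * X h' g)
      rw [hXadd h h' g hg, mul_add, map_add])
  · intro h l l'
    exact (ha h l).1.add_eq hζ (ha h l').1 (ha h (l + l')).1 (fun g _ => by
      show tr ((l + l') * X h g) = tr (l * X h g) + tr (l' * X h g)
      rw [add_mul, map_add])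
  · intro h l
    exact (ha h l).1.conj_eq hζ (ha h (β • l)).1 φ hn 1 hφ1 (fun κ hκ => by
      show (1 : ZMod p) * tr (l * X h (φ⁻¹ * κ * φ)) = tr (β • l * X h κ)
      rw [one_mul, hXconj h κ hκ, smul_eq_mul]
      congr 1
      ring)
  · intro h hall
    apply hXinj h
    intro g hg
    apply htr
    intro l
    have e : p - 1 + 1 = p := Nat.sub_add_cancel hp.one_lt.le
    have hl := hall l
    rw [e] at hl
    exact eq_zero_of_top_level P hζ hlam (ha h l).1 hl hg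

/-! ### The slice of the matrix carrier -/

section Slice

variable {k : Type*} [Field k]

/-- For an upper triangular representation the diagonal entries are multiplicative. -/
theorem upper_mul_apply_zero_zero {D : Type*} [Group D] (ρ : D →* Matrix (Fin 2) (Fin 2) k)
    (hup : ∀ σ, ρ σ 1 0 = 0) (σ τ : D) : ρ (σ * τ) 0 0 = ρ σ 0 0 * ρ τ 0 0 := by
  rw [map_mul, Matrix.mul_apply, Fin.sum_univ_two, hup τ, mul_zero, add_zero]

theorem upper_mul_apply_one_one {D : Type*} [Group D] (ρ : D →* Matrix (Fin 2) (Fin 2) k)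
    (hup : ∀ σ, ρ σ 1 0 = 0) (σ τ : D) : ρ (σ * τ) 1 1 = ρ σ 1 1 * ρ τ 1 1 := by
  rw [map_mul, Matrix.mul_apply, Fin.sum_univ_two, hup σ, zero_mul, zero_add]

/-- Conjugation formula for an `η`-cocycle on a subgroup where `η = 1`:
`c (φ⁻¹ g φ) = η (φ⁻¹) c (g)`. -/
theorem c12_conj {D : Type*} [Group D] (ρ : D →* Matrix (Fin 2) (Fin 2) k)
    (hup : ∀ σ, ρ σ 1 0 = 0) {I : Subgroup D} {c : D → Matrix (Fin 2) (Fin 2) k}
    (hc : c ∈ Zsh ρ I) (hc0 : ∀ σ, c σ 0 0 = 0) (φ g : D)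
    (hg : ρ g 0 0 * ρ g⁻¹ 1 1 = 1) :
    c (φ⁻¹ * g * φ) 0 1 = ρ φ⁻¹ 0 0 * ρ φ⁻¹⁻¹ 1 1 * c g 0 1 := by
  have h1 := Zsh_c12_cocycle hup hc hc0 (φ⁻¹ * g) φ
  have h2 := Zsh_c12_cocycle hup hc hc0 φ⁻¹ g
  have h3 := Zsh_c12_cocycle hup hc hc0 φ⁻¹ φ
  have h4 := Zsh_c12_cocycle hup hc hc0 1 1
  rw [inv_mul_cancel] at h3
  rw [mul_one, map_one, inv_one, map_one, Matrix.one_apply_eq, Matrix.one_apply_eq, one_mul,
    one_mul] at h4
  have h5 : c 1 0 1 = 0 := by linear_combination -h4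
  have e1 : ρ (φ⁻¹ * g) 0 0 = ρ φ⁻¹ 0 0 * ρ g 0 0 := upper_mul_apply_zero_zero ρ hup _ _
  have e2 : ρ (φ⁻¹ * g)⁻¹ 1 1 = ρ g⁻¹ 1 1 * ρ φ⁻¹⁻¹ 1 1 := by
    rw [mul_inv_rev]
    exact upper_mul_apply_one_one ρ hup _ _
  rw [h1, h2, e1, e2]
  rw [h5] at h3
  linear_combination (ρ φ⁻¹ 0 0 * ρ φ⁻¹⁻¹ 1 1 * c φ 0 1) * hg - h3

variable {p : ℕ} [Fact p.Prime] (P : ValuationSubring Qb) {ζ : Qb}

theorem inertiaFix_le_decomposition (P : ValuationSubring Qb) (ζ : Qb) :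
    inertiaFix P ζ ≤ P.decompositionSubgroup ℚ :=
  fun _ hσ => Fermat.Agent.S05.helper4205.mem_decomposition_of_mem_inertiaSubgroupIn hσ.1

/-- `inertiaFix P ζ` as a subgroup of the decomposition group. -/
noncomputable def inertiaFixD (P : ValuationSubring Qb) (ζ : Qb) :
    Subgroup ↥(P.decompositionSubgroup ℚ) :=
  (inertiaFix P ζ).subgroupOf (P.decompositionSubgroup ℚ)

theorem mem_inertiaFixD {P : ValuationSubring Qb} {ζ : Qb}
    {σ : ↥(P.decompositionSubgroup ℚ)} : σ ∈ inertiaFixD P ζ ↔ (σ : GQ) ∈ inertiaFix P ζ :=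
  Subgroup.mem_subgroupOf

open Classical in
/-- Extension by zero to `GQ` of a function on `inertiaFixD P ζ`. -/
noncomputable def extFix (P : ValuationSubring Qb) (ζ : Qb) (h : ↥(inertiaFixD P ζ) → k)
    (g : GQ) : k :=
  if hg : g ∈ inertiaFix P ζ then
    h ⟨⟨g, inertiaFix_le_decomposition P ζ hg⟩, mem_inertiaFixD.2 hg⟩
  else 0

theorem extFix_of_mem (P : ValuationSubring Qb) (ζ : Qb) (h : ↥(inertiaFixD P ζ) → k)
    {g : GQ} (hg : g ∈ inertiaFix P ζ) :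
    extFix P ζ h g = h ⟨⟨g, inertiaFix_le_decomposition P ζ hg⟩, mem_inertiaFixD.2 hg⟩ :=
  dif_pos hg

/-- **The count of the slice.**  `ρ` an upper triangular representation of the decomposition
group with `η = χ₁ / χ₂` trivial on `inertiaFixD`, `Q` a subspace of cocycles such that for every
normalised `c ∈ Q` with `c₁₁ = 0` and every `l`, the character `tr (l * c₁₂)` of `inertiaFix` has
a radicand of level `≥ p - 1`.  Then `slice12 ρ I Q (inertiaFixD P ζ)` has at most `#k`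
elements. -/
theorem card_slice12_le [Finite k] [Algebra (ZMod p) k]
    (hζ : IsPrimitiveRoot ζ p) (hlam : P.valuation (ζ - 1) < 1)
    (hTI : ∀ x : Qb, x ≠ 0 → (∀ σ ∈ P.inertiaSubgroupIn ℚ, σ ζ = ζ → σ x = x) →
      ∃ n : ℤ, P.valuation x = P.valuation (ζ - 1) ^ n)
    (φ : GQ) (hφD : φ ∈ P.decompositionSubgroup ℚ) (hφζ : φ ζ = ζ)
    (hφF : ∀ x ∈ P, φ x - x ^ p ∈ P.nonunits)
    (tr : k →+ ZMod p) (htr : ∀ x : k, (∀ l : k, tr (l * x) = 0) → x = 0)
    (ρ : ↥(P.decompositionSubgroup ℚ) →* Matrix (Fin 2) (Fin 2) k) (hup : ∀ σ, ρ σ 1 0 = 0)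
    (I : Subgroup ↥(P.decompositionSubgroup ℚ))
    (hη : ∀ n ∈ inertiaFixD P ζ, ρ n 0 0 * ρ n⁻¹ 1 1 = 1)
    (Q : Submodule k (↥(P.decompositionSubgroup ℚ) → Matrix (Fin 2) (Fin 2) k))
    (hgood : ∀ c ∈ Zsh ρ I ⊓ Q, (∀ σ, c σ 0 0 = 0) → ∀ l : k,
      ∃ u : fixedK (inertiaFix P ζ),
        IsRadicand (inertiaFix P ζ) ζ
          (fun g => tr (l * extFix P ζ (fun n : ↥(inertiaFixD P ζ) => c n 0 1) g)) u ∧
        LevelGE (vK P ζ) (zetaK P ζ - 1) p (p - 1) u) :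
    Finite ↥(slice12 ρ I Q (inertiaFixD P ζ)) ∧
      Nat.card ↥(slice12 ρ I Q (inertiaFixD P ζ)) ≤ Nat.card k := by
  set φD : ↥(P.decompositionSubgroup ℚ) := ⟨φ, hφD⟩ with hφDdef
  refine card_le_of_radicands P hζ hlam hTI φ hφD hφζ hφF tr htr
    (ρ φD⁻¹ 0 0 * ρ φD⁻¹⁻¹ 1 1)
    (fun h : ↥(slice12 ρ I Q (inertiaFixD P ζ)) => extFix P ζ (h : ↥(inertiaFixD P ζ) → k))
    ?_ ?_ ?_ ?_
  · intro h h' g hg
    rw [extFix_of_mem P ζ _ hg, extFix_of_mem P ζ _ hg, extFix_of_mem P ζ _ hg]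
    rfl
  · intro h g hg
    obtain ⟨c, hc, hc0, hch⟩ := h.2
    have hg' : φ⁻¹ * g * φ ∈ inertiaFix P ζ := conj_mem_inertiaFix hφD hφζ hg
    rw [extFix_of_mem P ζ _ hg', extFix_of_mem P ζ _ hg, hch, hch]
    set gD : ↥(P.decompositionSubgroup ℚ) := ⟨g, inertiaFix_le_decomposition P ζ hg⟩ with hgD
    have e : (⟨φ⁻¹ * g * φ, inertiaFix_le_decomposition P ζ hg'⟩ :
        ↥(P.decompositionSubgroup ℚ)) = φD⁻¹ * gD * φD := rfl
    show c (⟨φ⁻¹ * g * φ, inertiaFix_le_decomposition P ζ hg'⟩ :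
        ↥(P.decompositionSubgroup ℚ)) 0 1 = _
    rw [e]
    exact c12_conj ρ hup hc.1 hc0 φD gD (hη gD (mem_inertiaFixD.2 hg))
  · intro h hall
    apply Subtype.ext
    funext n
    have hn : (n : GQ) ∈ inertiaFix P ζ := mem_inertiaFixD.1 n.2
    have h1 := hall (n : GQ) hn
    rw [extFix_of_mem P ζ _ hn] at h1
    exact h1
  · intro h l
    obtain ⟨c, hc, hc0, hch⟩ := h.2
    obtain ⟨u, hu, hlev⟩ := hgood c hc hc0 l
    refine ⟨u, hu.congr ?_, hlev⟩
    intro g hg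
    show tr (l * extFix P ζ (fun n : ↥(inertiaFixD P ζ) => c n 0 1) g) =
      tr (l * extFix P ζ (h : ↥(inertiaFixD P ζ) → k) g)
    rw [extFix_of_mem P ζ _ hg, extFix_of_mem P ζ _ hg, hch]

end Slice

end Fermat.Agent.S56.helper1401
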