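/-
S56, FLAT-KUMDICT, third file (helper164): the radicand layer on an ARBITRARY carrier of the fixed
field.

The radicand layer of `helper164_KummerDict` / `helper164_KummerLocal` lives on
`fixedK H : IntermediateField ℚ Qb`.  Consumers that use another carrier for the same field — any
`K : Subfield Qb` with `hK : ∀ x, x ∈ K ↔ ∀ g ∈ H, g x = x`, any ring endomorphism `gK` of `K`
whose underlying map is `g₀` — get the same statements here, with no transport left to do.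
-/
import Mathlib
import Fermat.Agent.S56.helper164_KummerLocal

set_option autoImplicit false

namespace Fermat.Agent.S56.helper164

section Subfield

variable {p : ℕ} [Fact p.Prime] {H : Subgroup GQ} {ζ : Qb}

/-- `u : ℚ̄` is a radicand of `χ` on `H`: `u = y ^ p` for a Kummer generator `y` of `χ`.
(`IsRadicand H ζ χ u` is `IsRadicandOf H ζ χ (u : Qb)` by definition.) -/
def IsRadicandOf (H : Subgroup GQ) (ζ : Qb) (χ : GQ → ZMod p) (u : Qb) : Prop :=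
  ∃ y : Qb, y ^ p = u ∧ IsKummerGen H ζ χ y

lemma isRadicand_iff {χ : GQ → ZMod p} {u : fixedK H} :
    IsRadicand H ζ χ u ↔ IsRadicandOf H ζ χ (u : Qb) := Iff.rfl

/-- A radicand is fixed by `H`. -/
lemma IsRadicandOf.fixed (hζ : IsPrimitiveRoot ζ p) {χ : GQ → ZMod p} {u : Qb}
    (h : IsRadicandOf H ζ χ u) {g : GQ} (hg : g ∈ H) : g u = u := by
  obtain ⟨y, rfl, hy⟩ := h
  exact hy.pow_fixed hζ hg

/-- The identification of `fixedK H` with any subfield `K` of `ℚ̄` whose elements are exactly the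
`H`-fixed elements. -/
noncomputable def fixedKEquiv (K : Subfield Qb) (hK : ∀ x : Qb, x ∈ K ↔ ∀ g ∈ H, g x = x) :
    fixedK H ≃+* K where
  toFun x := ⟨x, (hK x).2 (mem_fixedK.1 x.2)⟩
  invFun x := ⟨x, mem_fixedK.2 ((hK x).1 x.2)⟩
  left_inv _ := rfl
  right_inv _ := rfl
  map_mul' _ _ := rfl
  map_add' _ _ := rfl

@[simp] lemma coe_fixedKEquiv (K : Subfield Qb) (hK : ∀ x : Qb, x ∈ K ↔ ∀ g ∈ H, g x = x)
    (x : fixedK H) : ((fixedKEquiv K hK x : K) : Qb) = x := rfl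

@[simp] lemma coe_fixedKEquiv_symm (K : Subfield Qb) (hK : ∀ x : Qb, x ∈ K ↔ ∀ g ∈ H, g x = x)
    (x : K) : (((fixedKEquiv K hK).symm x : fixedK H) : Qb) = x := rfl

/-- **Radicand family, bi-additive form, on an arbitrary carrier `K` of the fixed field of `H`**
(`H` fixes `ζ`).  Same statement as `exists_radicandFamily₂`, for `a : A → Λ → K`, with the
equivariance clause for every ring endomorphism `gK` of `K` induced by a `g₀` normalising `H`. -/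
theorem exists_radicandFamily₂_subfield (hζ : IsPrimitiveRoot ζ p) (hH : ∀ g ∈ H, g ζ = ζ)
    (K : Subfield Qb) (hK : ∀ x : Qb, x ∈ K ↔ ∀ g ∈ H, g x = x)
    {A Λ : Type*} [AddCommGroup A] [AddCommGroup Λ] (B : A → Λ → GQ → ZMod p)
    (hhom : ∀ h l, ∀ g ∈ H, ∀ g' ∈ H, B h l (g * g') = B h l g + B h l g')
    (hlev : ∀ h l, IsLevelOn H (B h l))
    (haddA : ∀ h h' l, ∀ g ∈ H, B (h + h') l g = B h l g + B h' l g)
    (haddΛ : ∀ h l l', ∀ g ∈ H, B h (l + l') g = B h l g + B h l' g) :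
    ∃ a : A → Λ → K,
      (∀ h l, IsRadicandOf H ζ (B h l) (a h l : Qb)) ∧
      (∀ h l, a h l ≠ 0) ∧
      (∀ h h' l, ∃ w : K, w ≠ 0 ∧ a (h + h') l = a h l * a h' l * w ^ p) ∧
      (∀ h l l', ∃ w : K, w ≠ 0 ∧ a h (l + l') = a h l * a h l' * w ^ p) ∧
      (∀ h l, (∃ w : K, a h l = w ^ p) ↔ ∀ g ∈ H, B h l g = 0) ∧
      (∀ (g₀ : GQ) (gK : K →+* K), (∀ x : K, (gK x : Qb) = g₀ (x : Qb)) →
        (∀ k ∈ H, g₀⁻¹ * k * g₀ ∈ H) → ∀ b : ZMod p, g₀ ζ = ζ ^ b.val →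
        ∀ h l l', (∀ k ∈ H, b * B h l (g₀⁻¹ * k * g₀) = B h l' k) →
          ∃ w : K, w ≠ 0 ∧ gK (a h l) = a h l' * w ^ p) := by
  obtain ⟨a, h1, h2, h3, h4, h5, h6⟩ := exists_radicandFamily₂ hζ hH B hhom hlev haddA haddΛ
  set e := fixedKEquiv K hK with he
  have hne : ∀ w : fixedK H, w ≠ 0 → e w ≠ 0 := fun w hw h0 =>
    hw (e.injective (h0.trans (map_zero e).symm))
  refine ⟨fun h l => e (a h l), fun h l => h1 h l, fun h l => hne _ (h2 h l), fun h h' l => ?_,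
    fun h l l' => ?_, fun h l => ⟨?_, fun hB => ?_⟩, fun g₀ gK hgK hn b hb h l l' hB => ?_⟩
  · obtain ⟨w, hw0, hw⟩ := h3 h h' l
    exact ⟨e w, hne w hw0, by beta_reduce; rw [hw, map_mul, map_mul, map_pow]⟩
  · obtain ⟨w, hw0, hw⟩ := h4 h l l'
    exact ⟨e w, hne w hw0, by beta_reduce; rw [hw, map_mul, map_mul, map_pow]⟩
  · rintro ⟨w, hw⟩
    refine (h5 h l).1 ⟨e.symm w, e.injective ?_⟩
    rw [map_pow, e.apply_symm_apply]
    exact hw
  · obtain ⟨w, hw⟩ := (h5 h l).2 hB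
    exact ⟨e w, by beta_reduce; rw [hw, map_pow]⟩
  · obtain ⟨w, hw0, hw⟩ := h6 g₀ hn b hb h l l' hB
    refine ⟨e w, hne w hw0, ?_⟩
    have e1 : gK (e (a h l)) = e (fixedRestrict H g₀ hn (a h l)) := Subtype.ext (hgK _)
    beta_reduce
    rw [e1, hw, map_mul, map_pow]

/-- **Radicand family of a family of cocycles (module form) on an arbitrary carrier `K` of the
fixed field of `N`.**  Same statement as `exists_radicandFamily_cocycle`. -/
theorem exists_radicandFamily_cocycle_subfield (hζ : IsPrimitiveRoot ζ p) {D N : Subgroup GQ}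
    (hND : N ≤ D) (hnorm : ∀ g ∈ D, ∀ k ∈ N, g⁻¹ * k * g ∈ N)
    (ω : GQ → ZMod p) (hω : ∀ g ∈ D, g ζ = ζ ^ (ω g).val) (hNζ : ∀ k ∈ N, k ζ = ζ)
    (K : Subfield Qb) (hK : ∀ x : Qb, x ∈ K ↔ ∀ g ∈ N, g x = x)
    {M : Type*} [AddCommGroup M] (r : GQ → M →+ M) (hrN : ∀ k ∈ N, ∀ x, r k x = x)
    {Z : Type*} [AddCommGroup Z] (c : Z → GQ → M)
    (hc : ∀ z, ∀ g ∈ D, ∀ h ∈ D, c z (g * h) = c z g + r g (c z h))
    (hl : ∀ z, IsLevelOn D (c z))
    (hadd : ∀ z z', ∀ k ∈ N, c (z + z') k = c z k + c z' k) :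
    ∃ a : Z → (M →+ ZMod p) → K,
      (∀ z lam, IsRadicandOf N ζ (fun g => lam (c z g)) (a z lam : Qb)) ∧
      (∀ z lam, a z lam ≠ 0) ∧
      (∀ z z' lam, ∃ w : K, w ≠ 0 ∧ a (z + z') lam = a z lam * a z' lam * w ^ p) ∧
      (∀ z lam lam', ∃ w : K, w ≠ 0 ∧ a z (lam + lam') = a z lam * a z lam' * w ^ p) ∧
      (∀ z lam, (∃ w : K, a z lam = w ^ p) ↔ ∀ k ∈ N, lam (c z k) = 0) ∧
      (∀ (g₀ : GQ), g₀ ∈ D → ∀ gK : K →+* K, (∀ x : K, (gK x : Qb) = g₀ (x : Qb)) →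
        ∀ (z : Z) (lam lam' : M →+ ZMod p), (∀ x, lam' x = ω g₀ * lam (r g₀⁻¹ x)) →
          ∃ w : K, w ≠ 0 ∧ gK (a z lam) = a z lam' * w ^ p) := by
  obtain ⟨a, h1, h2, h3, h4, h5, h6⟩ :=
    exists_radicandFamily_cocycle hζ hND hnorm ω hω hNζ r hrN c hc hl hadd
  set e := fixedKEquiv K hK with he
  have hne : ∀ w : fixedK N, w ≠ 0 → e w ≠ 0 := fun w hw h0 =>
    hw (e.injective (h0.trans (map_zero e).symm))
  refine ⟨fun z lam => e (a z lam), fun z lam => h1 z lam, fun z lam => hne _ (h2 z lam),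
    fun z z' lam => ?_, fun z lam lam' => ?_, fun z lam => ⟨?_, fun hB => ?_⟩,
    fun g₀ hg₀ gK hgK z lam lam' hlam => ?_⟩
  · obtain ⟨w, hw0, hw⟩ := h3 z z' lam
    exact ⟨e w, hne w hw0, by beta_reduce; rw [hw, map_mul, map_mul, map_pow]⟩
  · obtain ⟨w, hw0, hw⟩ := h4 z lam lam'
    exact ⟨e w, hne w hw0, by beta_reduce; rw [hw, map_mul, map_mul, map_pow]⟩
  · rintro ⟨w, hw⟩
    refine (h5 z lam).1 ⟨e.symm w, e.injective ?_⟩
    rw [map_pow, e.apply_symm_apply]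
    exact hw
  · obtain ⟨w, hw⟩ := (h5 z lam).2 hB
    exact ⟨e w, by beta_reduce; rw [hw, map_pow]⟩
  · obtain ⟨w, hw0, hw⟩ := h6 g₀ hg₀ z lam lam' hlam
    refine ⟨e w, hne w hw0, ?_⟩
    have e1 : gK (e (a z lam)) = e (fixedRestrict N g₀ (hnorm g₀ hg₀) (a z lam)) :=
      Subtype.ext (hgK _)
    beta_reduce
    rw [e1, hw, map_mul, map_pow]

/-- **Top level ⟹ unramified, on an arbitrary carrier `K` of the fixed field**, in the `LevelGE`
vocabulary of `helper4188_UnitLevel` for the valuation `A.valuation.comap K.subtype`. -/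
theorem unramified_of_levelGE_subfield (A : ValuationSubring Qb) (hA : A.LiesOverPrime p)
    (hζ : IsPrimitiveRoot ζ p) (hH : ∀ g ∈ H, g ζ = ζ)
    (K : Subfield Qb) (hK : ∀ x : Qb, x ∈ K ↔ ∀ g ∈ H, g x = x)
    {χ : GQ → ZMod p} {u : K} (h : IsRadicandOf H ζ χ (u : Qb)) {π : K} {m : ℕ}
    (hlev : Fermat.Agent.S56.helper4188.LevelGE (A.valuation.comap K.subtype) π p m u)
    (hm : A.valuation (π : Qb) ^ m ≤ A.valuation (ζ - 1) ^ p)
    {σ : GQ} (hσH : σ ∈ H) (hσI : σ ∈ A.inertiaSubgroupIn ℚ) : χ σ = 0 := by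
  obtain ⟨w, hw0, hw⟩ := hlev
  set e := fixedKEquiv K hK with he
  have h' : IsRadicand H ζ χ (e.symm u) := h
  refine h'.unramified_of_top A hA hζ hH ⟨e.symm w, fun h0 => hw0 ?_, ?_⟩ hσH hσI
  · have := congrArg e h0
    rwa [e.apply_symm_apply, map_zero] at this
  · have e1 : valK A H (e.symm u * e.symm w ^ p - 1) =
        (A.valuation.comap K.subtype) (u * w ^ p - 1) := rfl
    rw [e1]
    exact hw.trans hm

/-- **Unramified ⟹ eigen-radicand, on an arbitrary carrier `K` of the fixed field of `N`**: the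
radicand of an unramified character of `N ≤ D` is, modulo `p`-th powers of `K`, an eigenvector
of every `g₀ ∈ D` normalising `N`: `g₀ u = u ^ b * w ^ p` where `g₀ ζ = ζ ^ b`. -/
theorem conj_eq_of_unramified_subfield (A : ValuationSubring Qb) (hA : A.LiesOverPrime p)
    {N : Subgroup GQ} (hζ : IsPrimitiveRoot ζ p) (hND : N ≤ A.decompositionSubgroup ℚ)
    (K : Subfield Qb) (hK : ∀ x : Qb, x ∈ K ↔ ∀ g ∈ N, g x = x)
    {χ : GQ → ZMod p} {u : K} (h : IsRadicandOf N ζ χ (u : Qb))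
    (hχ : ∀ g ∈ N, ∀ h ∈ N, χ (g * h) = χ g + χ h)
    (hunr : ∀ σ ∈ N, σ ∈ A.inertiaSubgroupIn ℚ → χ σ = 0)
    {g₀ : GQ} (hg₀ : g₀ ∈ A.decompositionSubgroup ℚ) (hn : ∀ k ∈ N, g₀⁻¹ * k * g₀ ∈ N)
    (gK : K →+* K) (hgK : ∀ x : K, (gK x : Qb) = g₀ (x : Qb))
    (b : ZMod p) (hb : g₀ ζ = ζ ^ b.val) :
    ∃ w : K, w ≠ 0 ∧ gK u = u ^ b.val * w ^ p := by
  set e := fixedKEquiv K hK with he
  have h' : IsRadicand N ζ χ (e.symm u) := h
  obtain ⟨w, hw0, hw⟩ := h'.conj_eq_of_unramified A hA hζ hND hχ hunr hg₀ hn b hb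
  refine ⟨e w, fun h0 => hw0 (e.injective (h0.trans (map_zero e).symm)), ?_⟩
  have e1 : gK u = e (fixedRestrict N g₀ hn (e.symm u)) := Subtype.ext (hgK _)
  rw [e1, hw, map_mul, map_pow, map_pow, e.apply_symm_apply]

end Subfield

end Fermat.Agent.S56.helper164
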