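/-
S56-AD0NUM (helper1848): the numerics of `ad0` consumed by the Greenberg–Wiles count.

Linear-algebra form on `Module.End k V`, `finrank k V = 2`, `2 ≠ 0` in `k`:

* `IrredOver K S` : no proper nonzero `K`-subspace of `K ⊗[k] V` is stable under the base change
  of every element of `S` (the shape of the frozen `IsAbsolutelyIrreducible` and of the frozen
  index-two hypothesis of S56);
* `eq_smul_one_of_commute` (N1): the commutant of an absolutely irreducible set is the scalars;
* `eq_zero_of_commute_of_trace` (N2): no invariant in `ad0`;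
* `eq_zero_of_twisted_commute` (N3): no invariant in `ad0 ⊗ χ`;
* `centralizer_eq_span`, `finrank_centralizer` (N4): the trace-zero centraliser of an
  endomorphism with two distinct eigenvalues is a line;
* `charpoly_of_sq_eq_one_of_det` (N5): an involution of determinant `-1` has eigenvalues `1, -1`;
* frozen instances (N6).
-/
import Mathlib
import Fermat.Prelude.Def_GaloisRep_LocalConditions
import Fermat.Prelude.Def_GaloisRep_ComplexConjugation

set_option autoImplicit false

noncomputable section

namespace Fermat.Agent.S56.helper1848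

open Module Polynomial
open scoped TensorProduct

section Abstract

variable {k : Type*} [Field k] {V : Type*} [AddCommGroup V] [Module k V]

/-- No proper nonzero `K`-subspace of `K ⊗[k] V` is stable under the base change of every element
of `S`. -/
def IrredOver (K : Type*) [Field K] [Algebra k K] (S : Set (Module.End k V)) : Prop :=
  ∀ W : Submodule K (K ⊗[k] V), (∀ f ∈ S, ∀ x ∈ W, f.baseChange K x ∈ W) → W = ⊥ ∨ W = ⊤

lemma baseChange_eq_zero_iff (K : Type*) [Field K] [Algebra k K] (X : Module.End k V) :
    X.baseChange K = 0 ↔ X = 0 := by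
  constructor
  · intro h
    ext v
    have h1 : (1 : K) ⊗ₜ[k] X v = 0 := by
      have := LinearMap.congr_fun h ((1 : K) ⊗ₜ[k] v)
      simpa using this
    simpa using (Module.FaithfullyFlat.one_tmul_eq_zero_iff k V (A := K) (X v)).mp h1
  · rintro rfl
    simp

/-- **(N1) Commutant.**  If `S` is irreducible after base change to an algebraically closed
field, every endomorphism commuting with `S` is the scalar `trace X / 2`. -/
theorem eq_smul_one_of_commute [FiniteDimensional k V] (hV : Module.finrank k V = 2)
    (h2 : (2 : k) ≠ 0) (K : Type*) [Field K] [Algebra k K] [IsAlgClosed K]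
    {S : Set (Module.End k V)} (hS : IrredOver K S) (X : Module.End k V)
    (hX : ∀ f ∈ S, f * X = X * f) : X = (LinearMap.trace k V X / 2) • (1 : Module.End k V) := by
  classical
  have : Nontrivial (K ⊗[k] V) := by
    apply Module.nontrivial_of_finrank_pos (R := K)
    rw [Module.finrank_baseChange, hV]
    norm_num
  obtain ⟨μ, hμ⟩ := Module.End.exists_eigenvalue (X.baseChange K)
  have hstab : ∀ f ∈ S, ∀ x ∈ Module.End.eigenspace (X.baseChange K) μ,
      f.baseChange K x ∈ Module.End.eigenspace (X.baseChange K) μ := by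
    intro f hf x hx
    rw [Module.End.mem_eigenspace_iff] at hx ⊢
    have hc : X.baseChange K * f.baseChange K = f.baseChange K * X.baseChange K := by
      rw [← LinearMap.baseChange_mul, ← LinearMap.baseChange_mul, hX f hf]
    have := LinearMap.congr_fun hc x
    rw [Module.End.mul_apply, Module.End.mul_apply, hx, map_smul] at this
    exact this
  have htop : Module.End.eigenspace (X.baseChange K) μ = ⊤ :=
    (hS _ hstab).resolve_left hμ
  have hXK : X.baseChange K = μ • (1 : Module.End K (K ⊗[k] V)) := by
    ext x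
    have hx : (1 : K) ⊗ₜ[k] x ∈ Module.End.eigenspace (X.baseChange K) μ := by
      rw [htop]; exact Submodule.mem_top
    rw [Module.End.mem_eigenspace_iff] at hx
    simpa using hx
  have htr : algebraMap k K (LinearMap.trace k V X) = 2 * μ := by
    rw [← LinearMap.trace_baseChange, hXK, map_smul, LinearMap.trace_one,
      Module.finrank_baseChange, hV]
    simp [mul_comm]
  have h2K : (2 : K) ≠ 0 := by
    intro h
    apply h2
    apply (algebraMap k K).injective
    rw [map_ofNat, h, map_zero]
  have hμ' : μ = algebraMap k K (LinearMap.trace k V X / 2) := by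
    rw [map_div₀, htr, map_ofNat, mul_div_cancel_left₀ _ h2K]
  ext v
  have h1 := LinearMap.congr_fun hXK ((1 : K) ⊗ₜ[k] v)
  rw [LinearMap.baseChange_tmul, LinearMap.smul_apply, Module.End.one_apply, hμ',
    algebraMap_smul, ← TensorProduct.tmul_smul] at h1
  have h3 : (1 : K) ⊗ₜ[k] (X v - (LinearMap.trace k V X / 2) • v) = 0 := by
    rw [TensorProduct.tmul_sub, h1, sub_self]
  have h4 := (Module.FaithfullyFlat.one_tmul_eq_zero_iff k V (A := K) _).mp h3
  rw [LinearMap.smul_apply, Module.End.one_apply]
  exact sub_eq_zero.mp h4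

/-- **(N2) No invariant in `ad0`.** -/
theorem eq_zero_of_commute_of_trace [FiniteDimensional k V] (hV : Module.finrank k V = 2)
    (h2 : (2 : k) ≠ 0) (K : Type*) [Field K] [Algebra k K] [IsAlgClosed K]
    {S : Set (Module.End k V)} (hS : IrredOver K S) (X : Module.End k V)
    (hX : ∀ f ∈ S, f * X = X * f) (htr : LinearMap.trace k V X = 0) : X = 0 := by
  rw [eq_smul_one_of_commute hV h2 K hS X hX, htr, zero_div, zero_smul]

/-- The characteristic polynomial of an endomorphism of a plane. -/
theorem charpoly_eq [FiniteDimensional k V] (hV : Module.finrank k V = 2) (f : Module.End k V) :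
    f.charpoly = X ^ 2 - C (LinearMap.trace k V f) * X + C (LinearMap.det f) := by
  classical
  let b := Module.finBasisOfFinrankEq k V hV
  rw [← LinearMap.charpoly_toMatrix f b, Matrix.charpoly_fin_two,
    LinearMap.trace_eq_matrix_trace k b f, LinearMap.det_toMatrix b f]

/-- Cayley–Hamilton in a plane. -/
theorem mul_self_eq [FiniteDimensional k V] (hV : Module.finrank k V = 2) (f : Module.End k V) :
    f * f = LinearMap.trace k V f • f - LinearMap.det f • (1 : Module.End k V) := by
  have h := LinearMap.aeval_self_charpoly f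
  rw [charpoly_eq hV f] at h
  simp only [map_add, map_sub, map_pow, map_mul, aeval_X, aeval_C] at h
  rw [sq, Algebra.algebraMap_eq_smul_one, Algebra.algebraMap_eq_smul_one, smul_mul_assoc,
    one_mul] at h
  rw [← sub_eq_zero, ← h]
  abel

/-- **(N3) No invariant in `ad0 ⊗ χ`.**  `ρ` absolutely irreducible, and absolutely irreducible
on every subgroup of index two (the frozen shapes `habs`, `hTW` of S56). -/
theorem eq_zero_of_twisted_commute [FiniteDimensional k V] (hV : Module.finrank k V = 2)
    (h2 : (2 : k) ≠ 0) (K : Type*) [Field K] [Algebra k K] [IsAlgClosed K]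
    {G : Type*} [Group G] (ρ : G →* Module.End k V)
    (hirr : IrredOver K (Set.range ρ))
    (hirr2 : ∀ H : Subgroup G, H.index = 2 → IrredOver K (ρ '' (H : Set G)))
    (χ : G →* kˣ) (X : Module.End k V) (htr : LinearMap.trace k V X = 0)
    (hX : ∀ g, (χ g : k) • (ρ g * X) = X * ρ g) : X = 0 := by
  classical
  by_cases hχ : ∀ g, (χ g : k) ^ 2 = 1
  · by_cases h1 : ∀ g, χ g = 1
    · refine eq_zero_of_commute_of_trace hV h2 K hirr X ?_ htr
      rintro _ ⟨g, rfl⟩
      have := hX g
      rwa [h1 g, Units.val_one, one_smul] at this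
    · rw [not_forall] at h1
      obtain ⟨g0, hg0⟩ := h1
      have hpm : ∀ g, χ g = 1 ∨ χ g = -1 := by
        intro g
        have h := hχ g
        have h' : ((χ g : k) - 1) * ((χ g : k) + 1) = 0 := by ring_nf; rw [h]; ring
        rcases mul_eq_zero.mp h' with h'' | h''
        · left; ext; simpa using sub_eq_zero.mp h''
        · right; ext; simpa using eq_neg_of_add_eq_zero_left h''
      have hg0' : χ g0 = -1 := (hpm g0).resolve_left hg0
      have hne : (1 : kˣ) ≠ -1 := by
        intro h
        apply h2
        have h' : (1 : k) = -1 := by simpa using congrArg Units.val h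
        calc (2 : k) = 1 + 1 := by norm_num
          _ = 1 + -1 := by rw [← h']
          _ = 0 := by ring
      have hidx : χ.ker.index = 2 := by
        rw [Subgroup.index_eq_two_iff]
        refine ⟨g0, fun b => ?_⟩
        rw [MonoidHom.mem_ker, MonoidHom.mem_ker, map_mul, hg0']
        rcases hpm b with hb | hb
        · rw [hb]
          refine Or.inr ⟨rfl, ?_⟩
          simpa using hne.symm
        · rw [hb]
          refine Or.inl ⟨by simp, ?_⟩
          exact hne.symm
      refine eq_zero_of_commute_of_trace hV h2 K (hirr2 _ hidx) X ?_ htr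
      rintro _ ⟨g, hg, rfl⟩
      have := hX g
      rwa [MonoidHom.mem_ker.mp hg, Units.val_one, one_smul] at this
  · rw [not_forall] at hχ
    obtain ⟨g0, hg0⟩ := hχ
    -- `det X = 0`
    have hdetρ : LinearMap.det (ρ g0) ≠ 0 := by
      intro h
      have h1 : LinearMap.det (ρ g0 * ρ g0⁻¹) = 1 := by
        rw [← map_mul, mul_inv_cancel, map_one, map_one]
      rw [map_mul, h, zero_mul] at h1
      exact zero_ne_one h1
    have hdet : LinearMap.det X = 0 := by
      have h := congrArg LinearMap.det (hX g0)
      rw [LinearMap.det_smul, hV, map_mul, map_mul] at h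
      have h' : ((χ g0 : k) ^ 2 - 1) * (LinearMap.det (ρ g0) * LinearMap.det X) = 0 := by
        rw [sub_mul, one_mul, h]; ring
      rcases mul_eq_zero.mp h' with h'' | h''
      · exact absurd (sub_eq_zero.mp h'') hg0
      · exact (mul_eq_zero.mp h'').resolve_left hdetρ
    have hsq : X * X = 0 := by
      rw [mul_self_eq hV X, htr, hdet, zero_smul, zero_smul, sub_zero]
    -- the kernel of the base change is stable
    have hstab : ∀ f ∈ Set.range ρ, ∀ x ∈ LinearMap.ker (X.baseChange K),
        f.baseChange K x ∈ LinearMap.ker (X.baseChange K) := by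
      rintro _ ⟨g, rfl⟩ x hx
      rw [LinearMap.mem_ker] at hx ⊢
      have hc : X.baseChange K * (ρ g).baseChange K
          = (χ g : k) • ((ρ g).baseChange K * X.baseChange K) := by
        rw [← LinearMap.baseChange_mul, ← LinearMap.baseChange_mul, ← LinearMap.baseChange_smul,
          hX g]
      have := LinearMap.congr_fun hc x
      rw [Module.End.mul_apply, LinearMap.smul_apply, Module.End.mul_apply, hx, map_zero,
        smul_zero] at this
      exact this
    have hXK : X.baseChange K = 0 := by
      rcases hirr _ hstab with h | h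
      · ext v
        have hmem : X.baseChange K ((1 : K) ⊗ₜ[k] v) ∈ LinearMap.ker (X.baseChange K) := by
          rw [LinearMap.mem_ker, ← Module.End.mul_apply, ← LinearMap.baseChange_mul, hsq,
            LinearMap.baseChange_zero, LinearMap.zero_apply]
        rw [h, Submodule.mem_bot] at hmem
        simpa using hmem
      · exact LinearMap.ker_eq_top.mp h
    exact (baseChange_eq_zero_iff K X).mp hXK

end Abstract

section Centralizer

variable {k : Type*} [Field k] {V : Type*} [AddCommGroup V] [Module k V]

/-- The trace-zero endomorphisms commuting with `F` (= `H⁰(⟨F⟩, ad0)`). -/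
def ad0Centralizer (F : Module.End k V) : Submodule k (Module.End k V) where
  carrier := {Y | LinearMap.trace k V Y = 0 ∧ Y * F = F * Y}
  add_mem' := by
    rintro Y Z ⟨h1, h2⟩ ⟨h3, h4⟩
    exact ⟨by rw [map_add, h1, h3, add_zero], by rw [add_mul, mul_add, h2, h4]⟩
  zero_mem' := ⟨map_zero _, by rw [zero_mul, mul_zero]⟩
  smul_mem' := by
    rintro c Y ⟨h1, h2⟩
    exact ⟨by rw [map_smul, h1, smul_zero], by rw [smul_mul_assoc, mul_smul_comm, h2]⟩

lemma mem_ad0Centralizer {F Y : Module.End k V} :
    Y ∈ ad0Centralizer F ↔ LinearMap.trace k V Y = 0 ∧ Y * F = F * Y := Iff.rfl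

/-- **(N4), discriminant form.**  If the discriminant `(tr F)² - 4 det F` of an endomorphism of a
plane is nonzero, its trace-zero centraliser is the line spanned by `F - (tr F / 2)`. -/
theorem ad0Centralizer_eq_span_of_disc [FiniteDimensional k V] (hV : Module.finrank k V = 2)
    (h2 : (2 : k) ≠ 0) (F : Module.End k V)
    (hdisc : LinearMap.trace k V F ^ 2 - 4 * LinearMap.det F ≠ 0) :
    ad0Centralizer F
      = Submodule.span k {F - (LinearMap.trace k V F / 2) • (1 : Module.End k V)} := by
  set t := LinearMap.trace k V F with ht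
  set Z : Module.End k V := F - (t / 2) • (1 : Module.End k V) with hZ
  have h4 : (4 : k) ≠ 0 := by
    have : (4 : k) = 2 * 2 := by norm_num
    rw [this]
    exact mul_ne_zero h2 h2
  set δ : k := (t ^ 2 - 4 * LinearMap.det F) / 4 with hδ
  have hδ0 : δ ≠ 0 := div_ne_zero hdisc h4
  have hZtr : LinearMap.trace k V Z = 0 := by
    rw [hZ, map_sub, map_smul, LinearMap.trace_one, hV, ← ht]
    simp only [smul_eq_mul, Nat.cast_ofNat]
    rw [div_mul_cancel₀ _ h2, sub_self]
  have hZF : Z * F = F * Z := by
    rw [hZ, sub_mul, mul_sub, smul_mul_assoc, mul_smul_comm, one_mul, mul_one]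
  have hZZ : Z * Z = δ • (1 : Module.End k V) := by
    rw [hZ, sub_mul, mul_sub, mul_sub, smul_mul_assoc, mul_smul_comm, smul_mul_assoc,
      mul_smul_comm, one_mul, mul_one, mul_one, mul_self_eq hV F, ← ht, hδ]
    rw [smul_smul]
    match_scalars <;> field_simp <;> ring
  apply le_antisymm
  · rintro Y ⟨hYtr, hYF⟩
    have hYZ : Y * Z = Z * Y := by
      rw [hZ, sub_mul, mul_sub, smul_mul_assoc, mul_smul_comm, one_mul, mul_one, hYF]
    have hYY := mul_self_eq hV Y
    rw [hYtr, zero_smul, zero_sub] at hYY
    have hZZ' := mul_self_eq hV Z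
    rw [hZtr, zero_smul, zero_sub] at hZZ'
    have hWW := mul_self_eq hV (Y + Z)
    rw [map_add, hYtr, hZtr, add_zero, zero_smul, zero_sub] at hWW
    -- `2 • (Y * Z)` is a scalar
    set c : k := (LinearMap.det Y + LinearMap.det Z - LinearMap.det (Y + Z)) / 2 with hc
    have hYZs : Y * Z = c • (1 : Module.End k V) := by
      have e : (Y + Z) * (Y + Z) = Y * Y + Z * Z + (2 : k) • (Y * Z) := by
        rw [add_mul, mul_add, mul_add, ← hYZ, two_smul]; abel
      rw [hWW, hYY, hZZ'] at e
      have e2 : (2 : k) • (Y * Z) = ((2 : k) * c) • (1 : Module.End k V) := by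
        rw [hc, mul_div_cancel₀ _ h2]
        rw [eq_sub_iff_add_eq'.mpr e.symm]
        module
      have e3 : (2 : k)⁻¹ • ((2 : k) • (Y * Z)) = (2 : k)⁻¹ • (((2 : k) * c) • (1 : Module.End k V)) :=
        congrArg _ e2
      rwa [smul_smul, smul_smul, inv_mul_cancel₀ h2, one_smul, ← mul_assoc, inv_mul_cancel₀ h2,
        one_mul] at e3
    have e4 : δ • Y = c • Z := by
      have : Y * (Z * Z) = (Y * Z) * Z := (mul_assoc _ _ _).symm
      rw [hZZ, hYZs, mul_smul_comm, mul_one, smul_mul_assoc, one_mul] at this
      exact this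
    have e5 : Y = (δ⁻¹ * c) • Z := by
      rw [mul_smul, ← e4, smul_smul, inv_mul_cancel₀ hδ0, one_smul]
    rw [e5]
    exact Submodule.smul_mem _ _ (Submodule.subset_span rfl)
  · rw [Submodule.span_le, Set.singleton_subset_iff]
    exact ⟨hZtr, hZF⟩

/-- `F - (tr F / 2)` is nonzero when the discriminant is nonzero. -/
theorem finrank_ad0Centralizer_of_disc [FiniteDimensional k V] (hV : Module.finrank k V = 2)
    (h2 : (2 : k) ≠ 0) (F : Module.End k V)
    (hdisc : LinearMap.trace k V F ^ 2 - 4 * LinearMap.det F ≠ 0) :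
    Module.finrank k (ad0Centralizer F) = 1 := by
  rw [ad0Centralizer_eq_span_of_disc hV h2 F hdisc]
  apply finrank_span_singleton
  intro h0
  apply hdisc
  have hF : F = (LinearMap.trace k V F / 2) • (1 : Module.End k V) := sub_eq_zero.mp h0
  have hdet : LinearMap.det F = (LinearMap.trace k V F / 2) ^ 2 := by
    conv_lhs => rw [hF]
    rw [LinearMap.det_smul, hV, map_one, mul_one]
  rw [hdet]
  field_simp
  ring

/-- Trace and determinant from a split characteristic polynomial. -/
theorem trace_det_of_charpoly [FiniteDimensional k V] (hV : Module.finrank k V = 2)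
    (F : Module.End k V) (a b : k) (hF : F.charpoly = (X - C a) * (X - C b)) :
    LinearMap.trace k V F = a + b ∧ LinearMap.det F = a * b := by
  have h := charpoly_eq hV F
  rw [hF] at h
  have e0 := congrArg (eval 0) h
  have e1 := congrArg (eval 1) h
  simp only [eval_mul, eval_sub, eval_X, eval_C, eval_add, eval_pow] at e0 e1
  have hdet : LinearMap.det F = a * b := by linear_combination -e0
  refine ⟨?_, hdet⟩
  rw [hdet] at e1
  linear_combination e1

/-- **(N4)** The trace-zero centraliser of an endomorphism of a plane with two distinct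
eigenvalues is a line: `H⁰(⟨Frob⟩, ad0)` has `k`-dimension one at a Taylor–Wiles prime. -/
theorem finrank_ad0Centralizer [FiniteDimensional k V] (hV : Module.finrank k V = 2)
    (h2 : (2 : k) ≠ 0) (F : Module.End k V) (a b : k) (hab : a ≠ b)
    (hF : F.charpoly = (X - C a) * (X - C b)) :
    Module.finrank k (ad0Centralizer F) = 1 := by
  obtain ⟨htr, hdet⟩ := trace_det_of_charpoly hV F a b hF
  apply finrank_ad0Centralizer_of_disc hV h2
  rw [htr, hdet]
  have : (a + b) ^ 2 - 4 * (a * b) = (a - b) ^ 2 := by ring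
  rw [this]
  exact pow_ne_zero 2 (sub_ne_zero.mpr hab)

/-- **(N4), span form.** -/
theorem ad0Centralizer_eq_span [FiniteDimensional k V] (hV : Module.finrank k V = 2)
    (h2 : (2 : k) ≠ 0) (F : Module.End k V) (a b : k) (hab : a ≠ b)
    (hF : F.charpoly = (X - C a) * (X - C b)) :
    ad0Centralizer F = Submodule.span k {F - ((a + b) / 2) • (1 : Module.End k V)} := by
  obtain ⟨htr, hdet⟩ := trace_det_of_charpoly hV F a b hF
  rw [← htr]
  apply ad0Centralizer_eq_span_of_disc hV h2
  rw [htr, hdet]
  have : (a + b) ^ 2 - 4 * (a * b) = (a - b) ^ 2 := by ring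
  rw [this]
  exact pow_ne_zero 2 (sub_ne_zero.mpr hab)

/-- **(N5)** An involution of determinant `-1` of a plane has trace zero. -/
theorem trace_eq_zero_of_involution [FiniteDimensional k V] (hV : Module.finrank k V = 2)
    (c : Module.End k V) (hc : c * c = 1) (hdet : LinearMap.det c = -1) :
    LinearMap.trace k V c = 0 := by
  have h := mul_self_eq hV c
  rw [hc, hdet, neg_smul, one_smul, sub_neg_eq_add] at h
  have h' : LinearMap.trace k V c • c = 0 := by
    have := h.symm
    rwa [add_eq_right] at this
  rcases smul_eq_zero.mp h' with h0 | h0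
  · exact h0
  · exfalso
    rw [h0, mul_zero] at hc
    have : Nontrivial V := by
      apply Module.nontrivial_of_finrank_pos (R := k)
      rw [hV]
      norm_num
    obtain ⟨v, hv⟩ := exists_ne (0 : V)
    have h1 := LinearMap.congr_fun hc v
    rw [LinearMap.zero_apply, Module.End.one_apply] at h1
    exact hv h1.symm

/-- **(N5)** The characteristic polynomial of an involution of determinant `-1`. -/
theorem charpoly_of_involution [FiniteDimensional k V] (hV : Module.finrank k V = 2)
    (c : Module.End k V) (hc : c * c = 1) (hdet : LinearMap.det c = -1) :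
    c.charpoly = (X - C (1 : k)) * (X - C (-1 : k)) := by
  rw [charpoly_eq hV c, trace_eq_zero_of_involution hV c hc hdet, hdet]
  simp only [map_zero, zero_mul, sub_zero, map_neg, map_one, sub_neg_eq_add]
  ring

/-- **(N5)** The centraliser of an involution of determinant `-1` in `ad0` is a line: the
`(-1)`-eigenspace of complex conjugation on `ad0 ⊗ χ`, `χ c = -1`, has `k`-dimension one. -/
theorem finrank_ad0Centralizer_of_involution [FiniteDimensional k V]
    (hV : Module.finrank k V = 2) (h2 : (2 : k) ≠ 0) (c : Module.End k V) (hc : c * c = 1)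
    (hdet : LinearMap.det c = -1) : Module.finrank k (ad0Centralizer c) = 1 := by
  refine finrank_ad0Centralizer hV h2 c 1 (-1) ?_ (charpoly_of_involution hV c hc hdet)
  intro h
  apply h2
  calc (2 : k) = 1 + 1 := by norm_num
    _ = 1 + -1 := by rw [← h]
    _ = 0 := by ring

end Centralizer

section Frozen

/-! ### (N6) Frozen instances -/

local notation "GQ" => AlgebraicClosure ℚ ≃ₐ[ℚ] AlgebraicClosure ℚ

variable {k : Type} [Field k]

/-- The frozen `IsAbsolutelyIrreducible` in the shape `IrredOver`. -/
lemma irredOver_of_isAbsolutelyIrreducible (ρbar : ResidualGaloisRep k)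
    (habs : ρbar.IsAbsolutelyIrreducible) :
    IrredOver (AlgebraicClosure k) (Set.range ρbar.ρ) := by
  intro W hW
  exact habs W (fun σ x hx => hW _ ⟨σ, rfl⟩ x hx)

/-- The frozen index-two hypothesis `hTW` of S56 in the shape `IrredOver`. -/
lemma irredOver_of_index_two (ρbar : ResidualGaloisRep k)
    (hTW : ∀ (K : Type) [Field K] [Algebra k K] (G : Subgroup GQ), G.index = 2 →
      ∀ V : Submodule K (ρbar.baseChange K).V,
        (∀ σ ∈ G, ∀ x ∈ V, (ρbar.baseChange K).ρ σ x ∈ V) → V = ⊥ ∨ V = ⊤)
    (G : Subgroup GQ) (hG : G.index = 2) :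
    IrredOver (AlgebraicClosure k) (ρbar.ρ '' (G : Set GQ)) := by
  intro W hW
  exact hTW (AlgebraicClosure k) G hG W (fun σ hσ x hx => hW _ ⟨σ, hσ, rfl⟩ x hx)

/-- **`H⁰(G_ℚ, ad0 ρbar) = 0`** (frozen hypotheses of S56). -/
theorem ad0_invariant_eq_zero (ρbar : ResidualGaloisRep k) (habs : ρbar.IsAbsolutelyIrreducible)
    (h2 : (2 : k) ≠ 0) (X : Module.End k ρbar.V) (htr : LinearMap.trace k ρbar.V X = 0)
    (hX : ∀ σ : GQ, ρbar.ρ σ * X = X * ρbar.ρ σ) : X = 0 := by
  refine eq_zero_of_commute_of_trace ρbar.finrank_eq h2 (AlgebraicClosure k)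
    (irredOver_of_isAbsolutelyIrreducible ρbar habs) X ?_ htr
  rintro _ ⟨σ, rfl⟩
  exact hX σ

/-- The commutant of `ρbar` is the scalars (frozen `habs`). -/
theorem commutant_eq_scalar (ρbar : ResidualGaloisRep k) (habs : ρbar.IsAbsolutelyIrreducible)
    (h2 : (2 : k) ≠ 0) (X : Module.End k ρbar.V)
    (hX : ∀ σ : GQ, ρbar.ρ σ * X = X * ρbar.ρ σ) :
    X = (LinearMap.trace k ρbar.V X / 2) • (1 : Module.End k ρbar.V) := by
  refine eq_smul_one_of_commute ρbar.finrank_eq h2 (AlgebraicClosure k)
    (irredOver_of_isAbsolutelyIrreducible ρbar habs) X ?_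
  rintro _ ⟨σ, rfl⟩
  exact hX σ

/-- **`H⁰(G_ℚ, ad0 ρbar ⊗ χ) = 0`** for every character `χ` (frozen hypotheses `habs`, `hTW` of
S56; `χ` = the mod `p` cyclotomic character or its inverse). -/
theorem ad0_twist_invariant_eq_zero (ρbar : ResidualGaloisRep k)
    (habs : ρbar.IsAbsolutelyIrreducible)
    (hTW : ∀ (K : Type) [Field K] [Algebra k K] (G : Subgroup GQ), G.index = 2 →
      ∀ V : Submodule K (ρbar.baseChange K).V,
        (∀ σ ∈ G, ∀ x ∈ V, (ρbar.baseChange K).ρ σ x ∈ V) → V = ⊥ ∨ V = ⊤)
    (h2 : (2 : k) ≠ 0) (χ : GQ →* kˣ) (X : Module.End k ρbar.V)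
    (htr : LinearMap.trace k ρbar.V X = 0)
    (hX : ∀ σ : GQ, (χ σ : k) • (ρbar.ρ σ * X) = X * ρbar.ρ σ) : X = 0 :=
  eq_zero_of_twisted_commute ρbar.finrank_eq h2 (AlgebraicClosure k) ρbar.ρ
    (irredOver_of_isAbsolutelyIrreducible ρbar habs)
    (fun G hG => irredOver_of_index_two ρbar hTW G hG) χ X htr hX

/-- Complex conjugation inverts roots of unity. -/
theorem complexConjugation_of_pow_eq_one (μ : AlgebraicClosure ℚ) (n : ℕ) (hn : n ≠ 0)
    (hμ : μ ^ n = 1) : complexConjugation μ = μ⁻¹ := by
  apply complexEmbedding.toRingHom.injective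
  show complexEmbedding (complexConjugation μ) = complexEmbedding μ⁻¹
  rw [complexEmbedding_complexConjugation, map_inv₀]
  have h1 : complexEmbedding μ ^ n = 1 := by rw [← map_pow, hμ, map_one]
  exact (Complex.inv_eq_conj (Complex.norm_eq_one_of_pow_eq_one h1 hn)).symm

/-- In the residue field of the frozen `DetIsCyclotomic`, `p = 0`. -/
theorem natCast_eq_zero_of_detIsCyclotomic (ρbar : ResidualGaloisRep k) (p : ℕ)
    (hdet : (GaloisRepAdic.ofResidualGaloisRep ρbar).DetIsCyclotomic p) : (p : k) = 0 := by
  have hbot : IsLocalRing.maximalIdeal k = ⊥ :=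
    (Ideal.eq_bot_or_top _).resolve_right (Ideal.IsMaximal.ne_top inferInstance)
  have h := hdet.1
  rwa [hbot, Ideal.mem_bot] at h

/-- `2 ≠ 0` in the residue field, from `p ≠ 2`. -/
theorem two_ne_zero_of_detIsCyclotomic (ρbar : ResidualGaloisRep k) (p : ℕ) [Fact p.Prime]
    (hp2 : p ≠ 2) (hdet : (GaloisRepAdic.ofResidualGaloisRep ρbar).DetIsCyclotomic p) :
    (2 : k) ≠ 0 := by
  intro h
  have hp0 := natCast_eq_zero_of_detIsCyclotomic ρbar p hdet
  obtain ⟨m, hm⟩ := ((Fact.out : p.Prime).eq_two_or_odd'.resolve_left hp2)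
  have : Nontrivial ρbar.V := by
    apply Module.nontrivial_of_finrank_pos (R := k)
    rw [ρbar.finrank_eq]
    norm_num
  rw [hm, Nat.cast_add, Nat.cast_mul, Nat.cast_ofNat, h, zero_mul, zero_add, Nat.cast_one] at hp0
  exact one_ne_zero hp0

/-- **`det ρbar(c) = -1`** for the frozen complex conjugation, from the frozen `hdet`. -/
theorem det_complexConjugation (ρbar : ResidualGaloisRep k) (p : ℕ) [Fact p.Prime]
    (hdet : (GaloisRepAdic.ofResidualGaloisRep ρbar).DetIsCyclotomic p) :
    LinearMap.det (ρbar.ρ complexConjugation) = -1 := by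
  have hp : p.Prime := Fact.out
  have hp0 := natCast_eq_zero_of_detIsCyclotomic ρbar p hdet
  have hμ : ∀ μ : AlgebraicClosure ℚ, μ ^ p ^ 1 = 1 → complexConjugation μ = μ ^ (p - 1) := by
    intro μ h
    rw [pow_one] at h
    rw [complexConjugation_of_pow_eq_one μ p hp.ne_zero h]
    symm
    apply eq_inv_of_mul_eq_one_left
    rw [← pow_succ, Nat.sub_add_cancel hp.one_le, h]
  have h := hdet.2 1 complexConjugation (p - 1) hμ
  have h0 : ((p ^ 1 : ℕ) : k) = 0 := by rw [pow_one, hp0]
  rw [h0, Ideal.span_singleton_eq_bot.mpr rfl, Ideal.mem_bot, sub_eq_zero] at h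
  have h' : LinearMap.det (ρbar.ρ complexConjugation) = ((p - 1 : ℕ) : k) := h
  rw [h', Nat.cast_sub hp.one_le, hp0, Nat.cast_one, zero_sub]

/-- **`dimMinus (ad0 ⊗ χ) = 1` over `k`**: the centraliser of `ρbar(c)` in `ad0` is a line. -/
theorem finrank_ad0Centralizer_complexConjugation (ρbar : ResidualGaloisRep k) (p : ℕ)
    [Fact p.Prime] (hp2 : p ≠ 2)
    (hdet : (GaloisRepAdic.ofResidualGaloisRep ρbar).DetIsCyclotomic p) :
    Module.finrank k (ad0Centralizer (ρbar.ρ complexConjugation)) = 1 := by
  refine finrank_ad0Centralizer_of_involution ρbar.finrank_eq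
    (two_ne_zero_of_detIsCyclotomic ρbar p hp2 hdet) _ ?_ (det_complexConjugation ρbar p hdet)
  rw [← map_mul, complexConjugation_mul_self, map_one]

/-- **TW local `H⁰`**: at a Frobenius with two distinct eigenvalues the centraliser in `ad0` is a
line. -/
theorem finrank_ad0Centralizer_frobenius (ρbar : ResidualGaloisRep k) (h2 : (2 : k) ≠ 0)
    (φ : GQ) (α β : k) (hαβ : α ≠ β)
    (hφ : LinearMap.charpoly (ρbar.ρ φ) = (X - C α) * (X - C β)) :
    Module.finrank k (ad0Centralizer (ρbar.ρ φ)) = 1 :=
  finrank_ad0Centralizer ρbar.finrank_eq h2 _ α β hαβ hφ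

end Frozen

end Fermat.Agent.S56.helper1848
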