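/-
S56, leaf R2a (seat helper1962): RIGIDITY of the strict-ordinary datum over a local ring of
characteristic `p` (`p` odd).

`A` a local ring with `(p : A) = 0` (e.g. the residue field `k`, or `k[ε]`), `ρ : GaloisRepAdic A`
with cyclotomic determinant and strictly ordinary at `p`, `P` a place of `ℚ̄` over `p`.  Then there
is a basis `b` of `ρ.V` such that every `σ` in the decomposition group of `P` acts by
`b 0 ↦ (χ(σ) z) • b 0`, `b 1 ↦ z • b 1 + β • b 0` with `z = ± 1` (`χ(σ) = cycloExp p σ`, the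
mod `p` cyclotomic exponent), and `z = 1` on inertia.  So the two diagonal characters of a strict
lift are the constants `χ z`, `z`: only the corner deforms.

Mathlib + Prelude only.
-/
import Mathlib
import Fermat.Prelude.Def_GaloisRep_StrictOrdinary
import Fermat.Prelude.Def_ExtCitation_KummerBridge

set_option autoImplicit false

namespace Fermat.Agent.S56.helper1962

open ExtCitation

local notation "GQ" => (AlgebraicClosure ℚ ≃ₐ[ℚ] AlgebraicClosure ℚ)

section CycloExp

variable (p : ℕ) [Fact p.Prime]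

/-- The defining property of the frozen cyclotomic exponent on `p`-th roots of unity. -/
theorem apply_eq_pow_cycloExp (σ : GQ) (μ : AlgebraicClosure ℚ) (hμ : μ ^ p = 1) :
    σ μ = μ ^ cycloExp p σ := by
  have : NeZero p := ⟨(Fact.out : p.Prime).ne_zero⟩
  have hμ0 : μ ≠ 0 := by
    rintro rfl
    rw [zero_pow (NeZero.ne p)] at hμ
    exact zero_ne_one hμ
  have h := modularCyclotomicCharacter.spec (AlgebraicClosure ℚ) (card_rootsOfUnity_eq_self p)
    (σ : AlgebraicClosure ℚ ≃+* AlgebraicClosure ℚ) (t := Units.mk0 μ hμ0)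
    ((mem_rootsOfUnity _ _).2 (Units.ext (by simpa using hμ)))
  simpa [cycloExp] using h

/-- The cyclotomic exponent is prime to `p`. -/
theorem coprime_cycloExp (σ : GQ) : (cycloExp p σ).Coprime p := by
  have h1 : IsUnit ((cycloExp p σ : ℕ) : ZMod p) := by
    rw [← coe_cycloChar]
    exact Units.isUnit _
  exact (ZMod.isUnit_iff_coprime _ _).1 h1

end CycloExp

section Rigid

variable {A : Type} [CommRing A] [IsLocalRing A] {p : ℕ} [Fact p.Prime]

omit [IsLocalRing A] [Fact p.Prime] in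
/-- In a ring where `p = 0`, integers prime to `p` are units. -/
theorem isUnit_natCast_of_coprime (hpA : (p : A) = 0) {a : ℕ} (h : a.Coprime p) :
    IsUnit (a : A) := by
  obtain ⟨u, v, huv⟩ := (Nat.isCoprime_iff_coprime.2 h)
  have h1 : ((u * (a : ℤ) + v * (p : ℤ) : ℤ) : A) = 1 := by rw [huv]; simp
  push_cast at h1
  rw [hpA, mul_zero, add_zero] at h1
  exact IsUnit.of_mul_eq_one (u : A) (by rw [mul_comm]; exact h1)

/-- In a local ring in which `2` is a unit, a square root of `1` is `± 1`. -/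
theorem eq_one_or_neg_one_of_sq (h2 : IsUnit (2 : A)) {z : A} (hz : z * z = 1) :
    z = 1 ∨ z = -1 := by
  have h3 : IsUnit ((z + 1) + (1 - z)) := by
    have : (z + 1) + (1 - z) = 2 := by ring
    rw [this]; exact h2
  rcases IsLocalRing.isUnit_or_isUnit_of_isUnit_add h3 with h | h
  · left
    have h4 : (z + 1) * (z - 1) = 0 := by ring_nf; rw [show z ^ 2 = z * z by ring, hz]; ring
    have := (h.mul_right_eq_zero).1 h4
    exact sub_eq_zero.1 this
  · right
    have h4 : (1 - z) * (z + 1) = 0 := by ring_nf; rw [show z ^ 2 = z * z by ring, hz]; ring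
    have := (h.mul_right_eq_zero).1 h4
    exact eq_neg_of_add_eq_zero_left this

/-- **Rigidity of the strict datum (R2a).** -/
theorem strict_datum_rigid (hp2 : p ≠ 2) (hpA : (p : A) = 0) (ρ : GaloisRepAdic A)
    (hdet : ρ.DetIsCyclotomic p) (hstr : ρ.IsStrictOrdinaryAt p)
    (P : ValuationSubring (AlgebraicClosure ℚ)) (hP : P.LiesOverPrime p) :
    ∃ b : Module.Basis (Fin 2) A ρ.V,
      (∀ σ ∈ P.decompositionSubgroup ℚ, ∃ z β : A, (z = 1 ∨ z = -1) ∧
        ρ.ρ σ (b 0) = ((cycloExp p σ : A) * z) • b 0 ∧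
        ρ.ρ σ (b 1) = z • b 1 + β • b 0) ∧
      (∀ σ ∈ P.inertiaSubgroupIn ℚ, ∃ β : A,
        ρ.ρ σ (b 0) = (cycloExp p σ : A) • b 0 ∧ ρ.ρ σ (b 1) = b 1 + β • b 0) := by
  have hpr : p.Prime := Fact.out
  obtain ⟨L, ⟨b, rfl⟩, hD, hI, hx⟩ := hstr.2 P hP
  have h2 : IsUnit (2 : A) := by
    have : (2 : ℕ).Coprime p := by
      rw [Nat.coprime_comm, Nat.Prime.coprime_iff_not_dvd hpr]
      intro h
      exact hp2 ((Nat.prime_dvd_prime_iff_eq hpr Nat.prime_two).1 h)
    simpa using isUnit_natCast_of_coprime hpA this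
  have hspan : ∀ n : ℕ, n ≠ 0 → Ideal.span {((p ^ n : ℕ) : A)} = ⊥ := by
    intro n hn
    rw [Ideal.span_singleton_eq_bot]
    push_cast
    rw [hpA, zero_pow hn]
  -- the key computation at one element of the decomposition group
  have key : ∀ σ ∈ P.decompositionSubgroup ℚ, ∃ z β : A, (z = 1 ∨ z = -1) ∧
      ρ.ρ σ (b 0) = ((cycloExp p σ : A) * z) • b 0 ∧ ρ.ρ σ (b 1) = z • b 1 + β • b 0 ∧
      ∀ v : ρ.V, ρ.ρ σ v - z • v ∈ A ∙ b 0 := by
    intro σ hσ
    obtain ⟨x, z, hxL, hzL, hcyc⟩ := hx σ hσ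
    have hpow : ∀ μ : AlgebraicClosure ℚ, μ ^ p ^ 1 = 1 → σ μ = μ ^ cycloExp p σ := by
      intro μ hμ
      exact apply_eq_pow_cycloExp p σ μ (by simpa using hμ)
    have hxz : x = (cycloExp p σ : A) * z := by
      have := hcyc 1 (cycloExp p σ) hpow
      rw [hspan 1 one_ne_zero, Ideal.mem_bot] at this
      exact sub_eq_zero.1 this
    have hdet1 : LinearMap.det (ρ.ρ σ) = (cycloExp p σ : A) := by
      have := hdet.2 1 σ (cycloExp p σ) hpow
      rw [hspan 1 one_ne_zero, Ideal.mem_bot] at this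
      exact sub_eq_zero.1 this
    have hb0 : ρ.ρ σ (b 0) = x • b 0 := hxL _ (Submodule.mem_span_singleton_self _)
    obtain ⟨β, hβ⟩ := Submodule.mem_span_singleton.1 (hzL (b 1))
    have hb1 : ρ.ρ σ (b 1) = z • b 1 + β • b 0 := by
      rw [hβ]; abel
    have hdet2 : LinearMap.det (ρ.ρ σ) = x * z := by
      rw [← LinearMap.det_toMatrix b, Matrix.det_fin_two]
      simp only [LinearMap.toMatrix_apply, hb0, hb1, map_add, map_smul, Module.Basis.repr_self,
        Finsupp.smul_apply, Finsupp.add_apply, Finsupp.single_apply, smul_eq_mul]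
      simp
    have hau : IsUnit (cycloExp p σ : A) := isUnit_natCast_of_coprime hpA (coprime_cycloExp p σ)
    have hzz : z * z = 1 := by
      have h5 : (cycloExp p σ : A) * (z * z) = (cycloExp p σ : A) * 1 := by
        rw [mul_one]
        calc (cycloExp p σ : A) * (z * z) = ((cycloExp p σ : A) * z) * z := by ring
          _ = x * z := by rw [hxz]
          _ = (cycloExp p σ : A) := by rw [← hdet2, hdet1]
      exact hau.mul_left_cancel h5
    exact ⟨z, β, eq_one_or_neg_one_of_sq h2 hzz, by rw [hb0, hxz], hb1, hzL⟩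
  refine ⟨b, fun σ hσ => ?_, fun σ hσ => ?_⟩
  · obtain ⟨z, β, hz, h0, h1, -⟩ := key σ hσ
    exact ⟨z, β, hz, h0, h1⟩
  · have hσD : σ ∈ P.decompositionSubgroup ℚ := by
      obtain ⟨τ, -, rfl⟩ := hσ
      exact τ.2
    obtain ⟨z, β, -, h0, h1, hzL⟩ := key σ hσD
    have hz1 : z = 1 := by
      have h6 : (1 - z) • b 1 ∈ A ∙ b 0 := by
        have h7 := Submodule.sub_mem _ (hzL (b 1)) (hI σ hσ (b 1))
        have h8 : ρ.ρ σ (b 1) - z • b 1 - (ρ.ρ σ (b 1) - b 1) = (1 - z) • b 1 := by
          rw [sub_smul, one_smul]; abel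
        rwa [h8] at h7
      obtain ⟨c, hc⟩ := Submodule.mem_span_singleton.1 h6
      have h9 := congrArg (fun v => b.repr v 1) hc
      simp only [map_smul, Module.Basis.repr_self, Finsupp.smul_apply, Finsupp.single_apply,
        smul_eq_mul] at h9
      simp at h9
      exact (sub_eq_zero.1 h9.symm).symm
    subst hz1
    exact ⟨β, by rw [h0, mul_one], by rw [h1, one_smul]⟩

end Rigid

end Fermat.Agent.S56.helper1962
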