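/-
S56, local layer at `p`, node LOC-R2 (seat helper8900, backup; items (5)+(6) of the owner's plan,
chat #175): NORMAL FORM OF A STRICTLY ORDINARY FIRST-ORDER LIFT and the `End`-level facts.

* `IsDualFrame k ε s` : neutral description of a first-order thickening: `A = k ⊕ k ε`,
  `ε² = 0`, `s : V → V'` additive and `k`-semilinear, every `w : V'` uniquely `s v + ε • s v'`.
  (Instances: `A = DualNumber k`, `V' = A ⊗ V`, `s v = 1 ⊗ v`; or matrices.)
* `strict_normal_form` : a lift `ρ' = (1 + ε c) ρbar` whose strict datum is rigid (the literal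
  conclusion of `helper1962.strict_datum_rigid` is the hypothesis `hrig`) has, on the decomposition
  group, cocycle `c = (W⁰-valued) - ∂φ`: there are `v₀ ≠ 0` and `φ` with
  `c σ + (ρbar σ φ ρbar σ⁻¹ - φ)` killing `v₀` and mapping `V` into `k v₀`.
* `span_eq_range_sub_one` : the line `k v₀` is `range (ρbar σ₀ - 1)` for any `σ₀` of inertia with
  cyclotomic exponent `≠ 1`, so it does not depend on the lift.
* `cornerEnd L`, `borelEnd L`, `borel0End L` : `W⁰ = Hom(V/L, L)`, the Borel and its trace-zero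
  part, with `finrank W⁰ = 1`, `finrank (borel0End) = 2`, conjugation by `ρbar σ` acting on `W⁰`
  through the cyclotomic character and trivially on `Borel / W⁰`.

Mathlib + Prelude only.
-/
import Mathlib
import Fermat.Prelude.Def_GaloisRep_StrictOrdinary
import Fermat.Prelude.Def_ExtCitation_KummerBridge

set_option autoImplicit false

namespace Fermat.Agent.S56.helper8900

open ExtCitation

/-! ## Neutral first-order frames -/

section Frame

variable (k : Type*) [Field k] {A : Type*} [CommRing A] [Algebra k A]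
  {V : Type*} [AddCommGroup V] [Module k V] {V' : Type*} [AddCommGroup V'] [Module A V']

/-- A neutral first-order frame: `A = k ⊕ k ε`, `ε² = 0`, and `V' = s V ⊕ ε • s V` for an additive
`k`-semilinear `s : V → V'`. -/
structure IsDualFrame (ε : A) (s : V →+ V') : Prop where
  eps_mul_eps : ε * ε = 0
  s_smul : ∀ (a : k) (v : V), s (a • v) = algebraMap k A a • s v
  exists_scalar : ∀ a : A, ∃ x y : k, a = algebraMap k A x + algebraMap k A y * ε
  exists_vec : ∀ w : V', ∃ v v' : V, w = s v + ε • s v'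
  eq_zero : ∀ v v' : V, s v + ε • s v' = 0 → v = 0 ∧ v' = 0

variable {k}

namespace IsDualFrame

variable {ε : A} {s : V →+ V'}

theorem eps_smul_eps_smul (h : IsDualFrame k ε s) (w : V') : ε • ε • w = 0 := by
  rw [smul_smul, h.eps_mul_eps, zero_smul]

theorem ext' (h : IsDualFrame k ε s) {v v' u u' : V}
    (e : s v + ε • s v' = s u + ε • s u') : v = u ∧ v' = u' := by
  have e0 : s (v - u) + ε • s (v' - u') = 0 := by
    rw [map_sub, map_sub, smul_sub]
    have e1 := sub_eq_zero.2 e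
    rw [← e1]
    abel
  obtain ⟨h1, h2⟩ := h.eq_zero _ _ e0
  exact ⟨sub_eq_zero.1 h1, sub_eq_zero.1 h2⟩

theorem smul_frame (h : IsDualFrame k ε s) (x y : k) (v v' : V) :
    (algebraMap k A x + algebraMap k A y * ε) • (s v + ε • s v') =
      s (x • v) + ε • s (x • v' + y • v) := by
  have e1 : (algebraMap k A y * ε) • (ε • s v') = 0 := by
    rw [smul_smul, mul_assoc, h.eps_mul_eps, mul_zero, zero_smul]
  have e2 : (algebraMap k A y * ε) • s v = ε • s (y • v) := by
    rw [h.s_smul, smul_smul, mul_comm]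
  have e3 : algebraMap k A x • (ε • s v') = ε • s (x • v') := by
    rw [h.s_smul, smul_comm]
  rw [add_smul, smul_add, smul_add, e1, e2, e3, ← h.s_smul, map_add, smul_add, add_zero]
  abel

theorem smul_frame' (h : IsDualFrame k ε s) (x : k) (v v' : V) :
    algebraMap k A x • (s v + ε • s v') = s (x • v) + ε • s (x • v') := by
  have e := h.smul_frame x 0 v v'
  rwa [map_zero, zero_mul, add_zero, zero_smul, add_zero] at e

/-- **Pointwise reading of a strict datum in a frame.**  `R' = (1 + ε C) R` on `V'`, the frame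
vector `s v₁ + ε • s w₁` is an eigenvector with eigenvalue `x₀ ∈ k` and `R' - z₀` maps `V'` into
its span (`z₀ ∈ k`). -/
theorem pointwise (h : IsDualFrame k ε s) {R' : Module.End A V'} {R C : Module.End k V}
    (hR : ∀ v, R' (s v) = s (R v) + ε • s (C (R v))) {v₁ w₁ : V} {x₀ z₀ : k}
    (hx : R' (s v₁ + ε • s w₁) = algebraMap k A x₀ • (s v₁ + ε • s w₁))
    (hz : ∀ w : V', R' w - algebraMap k A z₀ • w ∈ Submodule.span A {s v₁ + ε • s w₁}) :
    R v₁ = x₀ • v₁ ∧ C (R v₁) + R w₁ = x₀ • w₁ ∧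
      ∀ v, ∃ a₀ a₁ : k, R v - z₀ • v = a₀ • v₁ ∧ C (R v) = a₀ • w₁ + a₁ • v₁ := by
  have hR2 : ∀ v v', R' (s v + ε • s v') = s (R v) + ε • s (C (R v) + R v') := by
    intro v v'
    rw [map_add, map_smul, hR, hR, smul_add, h.eps_smul_eps_smul, add_zero, map_add, smul_add,
      add_assoc]
  have e := hx
  rw [hR2, h.smul_frame'] at e
  refine ⟨(h.ext' e).1, (h.ext' e).2, fun v => ?_⟩
  obtain ⟨a, ha⟩ := Submodule.mem_span_singleton.1 (hz (s v))
  obtain ⟨a₀, a₁, rfl⟩ := h.exists_scalar a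
  refine ⟨a₀, a₁, ?_⟩
  rw [h.smul_frame] at ha
  have e' : s (R v - z₀ • v) + ε • s (C (R v)) = s (a₀ • v₁) + ε • s (a₀ • w₁ + a₁ • v₁) := by
    rw [ha, hR, map_sub, h.s_smul]
    abel
  exact h.ext' e'

end IsDualFrame

/-- **The cocycle of a strict datum is corner-valued up to the coboundary of `φ`.** -/
theorem normal_form_aux {R Rinv C φ : Module.End k V} (hRR : R * Rinv = 1) (hRR' : Rinv * R = 1)
    {v₁ w₁ : V} {x₀ z₀ : k} (hx₀ : x₀ ≠ 0)
    (h1 : R v₁ = x₀ • v₁) (h2 : C (R v₁) + R w₁ = x₀ • w₁)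
    (h3 : ∀ v, ∃ a₀ a₁ : k, R v - z₀ • v = a₀ • v₁ ∧ C (R v) = a₀ • w₁ + a₁ • v₁)
    (hφ : φ v₁ = w₁) :
    (C + (R * φ * Rinv - φ)) v₁ = 0 ∧
      ∀ v, (C + (R * φ * Rinv - φ)) v ∈ Submodule.span k {v₁} := by
  have key : ∀ v, (C + (R * φ * Rinv - φ)) (R v) = C (R v) + R (φ v) - φ (R v) := by
    intro v
    have e : Rinv (R v) = v := by rw [← Module.End.mul_apply, hRR', Module.End.one_apply]
    simp only [LinearMap.add_apply, LinearMap.sub_apply, Module.End.mul_apply, e]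
    abel
  constructor
  · have e : (C + (R * φ * Rinv - φ)) (R v₁) = 0 := by
      rw [key, hφ, h2, h1, map_smul, hφ, sub_self]
    rw [h1, map_smul] at e
    exact (smul_eq_zero.1 e).resolve_left hx₀
  · intro u
    have hu : R (Rinv u) = u := by rw [← Module.End.mul_apply, hRR, Module.End.one_apply]
    obtain ⟨a₀, a₁, e1, e2⟩ := h3 (Rinv u)
    obtain ⟨b₀, b₁, e3, -⟩ := h3 (φ (Rinv u))
    have e4 : R (Rinv u) = z₀ • Rinv u + a₀ • v₁ := by rw [← e1]; abel
    have e5 : R (φ (Rinv u)) = z₀ • φ (Rinv u) + b₀ • v₁ := by rw [← e3]; abel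
    have e6 : (C + (R * φ * Rinv - φ)) u = (a₁ + b₀) • v₁ := by
      rw [← hu, key, e2, e5, e4, map_add, map_smul, map_smul, hφ, add_smul]
      abel
    rw [e6]
    exact Submodule.smul_mem _ _ (Submodule.mem_span_singleton_self _)

/-- The line of a strict datum is `range (R - 1)` for an element `R` of inertia whose eigenvalue
on the line is `≠ 1`. -/
theorem span_eq_range_sub_one {R : Module.End k V} {v₀ : V} {χ : k} (hχ : χ ≠ 1)
    (h0 : R v₀ = χ • v₀) (h1 : ∀ v, R v - v ∈ Submodule.span k {v₀}) :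
    Submodule.span k {v₀} = LinearMap.range (R - 1) := by
  apply le_antisymm
  · rw [Submodule.span_singleton_le_iff_mem]
    refine ⟨(χ - 1)⁻¹ • v₀, ?_⟩
    have e : χ • v₀ - v₀ = (χ - 1) • v₀ := by rw [sub_smul, one_smul]
    rw [map_smul, LinearMap.sub_apply, h0, Module.End.one_apply, e, smul_smul,
      inv_mul_cancel₀ (sub_ne_zero.2 hχ), one_smul]
  · rintro _ ⟨v, rfl⟩
    rw [LinearMap.sub_apply, Module.End.one_apply]
    exact h1 v

end Frame

/-! ## `End`-level subspaces attached to a line -/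

section EndLevel

variable {k : Type*} [Field k] {V : Type*} [AddCommGroup V] [Module k V]

/-- `W⁰ = Hom(V/L, L)`: endomorphisms killing `L` with image in `L`. -/
def cornerEnd (L : Submodule k V) : Submodule k (Module.End k V) where
  carrier := {Y | (∀ v ∈ L, Y v = 0) ∧ ∀ v, Y v ∈ L}
  add_mem' := by
    rintro Y Y' ⟨h1, h2⟩ ⟨h1', h2'⟩
    refine ⟨fun v hv => ?_, fun v => ?_⟩
    · rw [LinearMap.add_apply, h1 v hv, h1' v hv, add_zero]
    · rw [LinearMap.add_apply]; exact L.add_mem (h2 v) (h2' v)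
  zero_mem' := ⟨fun _ _ => rfl, fun _ => L.zero_mem⟩
  smul_mem' := by
    rintro a Y ⟨h1, h2⟩
    refine ⟨fun v hv => ?_, fun v => ?_⟩
    · rw [LinearMap.smul_apply, h1 v hv, smul_zero]
    · rw [LinearMap.smul_apply]; exact L.smul_mem a (h2 v)

/-- The Borel subalgebra of `L`: endomorphisms preserving `L`. -/
def borelEnd (L : Submodule k V) : Submodule k (Module.End k V) where
  carrier := {Y | ∀ v ∈ L, Y v ∈ L}
  add_mem' := by
    intro Y Y' h h' v hv
    rw [LinearMap.add_apply]; exact L.add_mem (h v hv) (h' v hv)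
  zero_mem' := fun _ _ => L.zero_mem
  smul_mem' := by
    intro a Y h v hv
    rw [LinearMap.smul_apply]; exact L.smul_mem a (h v hv)

theorem mem_cornerEnd {L : Submodule k V} {Y : Module.End k V} :
    Y ∈ cornerEnd L ↔ (∀ v ∈ L, Y v = 0) ∧ ∀ v, Y v ∈ L := Iff.rfl

theorem mem_borelEnd {L : Submodule k V} {Y : Module.End k V} :
    Y ∈ borelEnd L ↔ ∀ v ∈ L, Y v ∈ L := Iff.rfl

theorem cornerEnd_le_borelEnd (L : Submodule k V) : cornerEnd L ≤ borelEnd L :=
  fun _ hY v _ => hY.2 v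

/-- The trace-zero part of the Borel subalgebra. -/
noncomputable def borel0End (L : Submodule k V) : Submodule k (Module.End k V) :=
  borelEnd L ⊓ LinearMap.ker (LinearMap.trace k V)

theorem mem_borel0End {L : Submodule k V} {Y : Module.End k V} :
    Y ∈ borel0End L ↔ (∀ v ∈ L, Y v ∈ L) ∧ LinearMap.trace k V Y = 0 := by
  rw [borel0End, Submodule.mem_inf, mem_borelEnd, LinearMap.mem_ker]

/-- Membership in terms of a generator of the line. -/
theorem mem_cornerEnd_span {v₀ : V} {Y : Module.End k V} :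
    Y ∈ cornerEnd (Submodule.span k {v₀}) ↔
      Y v₀ = 0 ∧ ∀ v, Y v ∈ Submodule.span k {v₀} := by
  rw [mem_cornerEnd]
  refine ⟨fun h => ⟨h.1 v₀ (Submodule.mem_span_singleton_self _), h.2⟩, fun h => ⟨?_, h.2⟩⟩
  intro v hv
  obtain ⟨a, rfl⟩ := Submodule.mem_span_singleton.1 hv
  rw [map_smul, h.1, smul_zero]

theorem mem_borelEnd_span {v₀ : V} {Y : Module.End k V} :
    Y ∈ borelEnd (Submodule.span k {v₀}) ↔ Y v₀ ∈ Submodule.span k {v₀} := by
  rw [mem_borelEnd]
  refine ⟨fun h => h v₀ (Submodule.mem_span_singleton_self _), fun h v hv => ?_⟩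
  obtain ⟨a, rfl⟩ := Submodule.mem_span_singleton.1 hv
  rw [map_smul]
  exact Submodule.smul_mem _ _ h

/-- **(hW)** Conjugation by an element acting on `L = k v₀` by `χ z₀` and on `V / L` by `z₀`
multiplies `W⁰` by `χ`. -/
theorem conj_cornerEnd {R Rinv : Module.End k V} (hRR : R * Rinv = 1) {v₀ : V} {χ z₀ : k}
    (h0 : R v₀ = (χ * z₀) • v₀) (h1 : ∀ v, R v - z₀ • v ∈ Submodule.span k {v₀})
    {Y : Module.End k V} (hY : Y ∈ cornerEnd (Submodule.span k {v₀})) :
    R * Y * Rinv = χ • Y := by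
  rw [mem_cornerEnd_span] at hY
  apply LinearMap.ext
  intro u
  have hu : R (Rinv u) = u := by rw [← Module.End.mul_apply, hRR, Module.End.one_apply]
  obtain ⟨t, ht⟩ := Submodule.mem_span_singleton.1 (hY.2 (Rinv u))
  obtain ⟨a, ha⟩ := Submodule.mem_span_singleton.1 (h1 (Rinv u))
  have e4 : u = z₀ • Rinv u + a • v₀ := by rw [ha, hu]; abel
  have e5 : Y u = z₀ • Y (Rinv u) := by
    conv_lhs => rw [e4]
    rw [map_add, map_smul, map_smul, hY.1, smul_zero, add_zero]
  rw [Module.End.mul_apply, Module.End.mul_apply, LinearMap.smul_apply, e5, ← ht, map_smul, h0,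
    smul_smul, smul_smul, smul_smul]
  congr 1
  ring

/-- **(hT)** Conjugation by such an element is trivial on `Borel / W⁰`. -/
theorem conj_sub_mem_cornerEnd {R Rinv : Module.End k V} (hRR : R * Rinv = 1)
    (hRR' : Rinv * R = 1) {v₀ : V} {x₀ z₀ : k}
    (h0 : R v₀ = x₀ • v₀) (h1 : ∀ v, R v - z₀ • v ∈ Submodule.span k {v₀})
    {Y : Module.End k V} (hY : Y ∈ borelEnd (Submodule.span k {v₀})) :
    R * Y * Rinv - Y ∈ cornerEnd (Submodule.span k {v₀}) := by
  rw [mem_borelEnd_span] at hY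
  obtain ⟨y, hy⟩ := Submodule.mem_span_singleton.1 hY
  have key : ∀ v, (R * Y * Rinv - Y) (R v) = R (Y v) - Y (R v) := by
    intro v
    have e : Rinv (R v) = v := by rw [← Module.End.mul_apply, hRR', Module.End.one_apply]
    simp only [LinearMap.sub_apply, Module.End.mul_apply, e]
  have hall : ∀ v, (R * Y * Rinv - Y) (R v) ∈ Submodule.span k {v₀} := by
    intro v
    obtain ⟨a, ha⟩ := Submodule.mem_span_singleton.1 (h1 v)
    obtain ⟨b, hb⟩ := Submodule.mem_span_singleton.1 (h1 (Y v))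
    have e4 : R v = z₀ • v + a • v₀ := by rw [ha]; abel
    have e5 : R (Y v) = z₀ • Y v + b • v₀ := by rw [hb]; abel
    have e6 : (R * Y * Rinv - Y) (R v) = (b - a * y) • v₀ := by
      rw [key, e5, e4, map_add, map_smul, map_smul, ← hy, sub_smul, mul_smul]
      abel
    rw [e6]
    exact Submodule.smul_mem _ _ (Submodule.mem_span_singleton_self _)
  rw [mem_cornerEnd_span]
  constructor
  · by_cases hv₀ : v₀ = 0
    · rw [hv₀, map_zero]
    have hx₀ : x₀ ≠ 0 := by
      rintro rfl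
      rw [zero_smul] at h0
      have e : Rinv (R v₀) = v₀ := by rw [← Module.End.mul_apply, hRR', Module.End.one_apply]
      rw [h0, map_zero] at e
      exact hv₀ e.symm
    have e : (R * Y * Rinv - Y) (R v₀) = 0 := by
      rw [key, ← hy, map_smul, h0, map_smul, ← hy, smul_comm, sub_self]
    rw [h0, map_smul] at e
    exact (smul_eq_zero.1 e).resolve_left hx₀
  · intro u
    have hu : R (Rinv u) = u := by rw [← Module.End.mul_apply, hRR, Module.End.one_apply]
    rw [← hu]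
    exact hall _

/-! ### Dimensions (`dim V = 2`, `L = k v₀`, `v₀ ≠ 0`) -/

section Dim

/-- A basis of a plane starting with a given nonzero vector. -/
theorem exists_basis_fst (hV : Module.finrank k V = 2) {v₀ : V} (hv₀ : v₀ ≠ 0) :
    ∃ e : Module.Basis (Fin 2) k V, e 0 = v₀ := by
  obtain ⟨y, hy⟩ := exists_linearIndependent_pair_of_one_lt_finrank (by rw [hV]; norm_num) hv₀
  refine ⟨basisOfLinearIndependentOfCardEqFinrank hy (by rw [hV]; rfl), ?_⟩
  rw [coe_basisOfLinearIndependentOfCardEqFinrank]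
  rfl

/-- Trace in a basis of a plane. -/
theorem trace_eq_repr (e : Module.Basis (Fin 2) k V) (Y : Module.End k V) :
    LinearMap.trace k V Y = e.repr (Y (e 0)) 0 + e.repr (Y (e 1)) 1 := by
  rw [LinearMap.trace_eq_matrix_trace k e, Matrix.trace_fin_two, LinearMap.toMatrix_apply,
    LinearMap.toMatrix_apply]

/-- The corner generator `E`: `e 0 ↦ 0`, `e 1 ↦ e 0`. -/
noncomputable def cornerGen (e : Module.Basis (Fin 2) k V) : Module.End k V :=
  e.constr k ![0, e 0]

/-- The diagonal generator `H`: `e 0 ↦ e 0`, `e 1 ↦ - e 1`. -/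
noncomputable def diagGen (e : Module.Basis (Fin 2) k V) : Module.End k V :=
  e.constr k ![e 0, - e 1]

@[simp] theorem cornerGen_zero (e : Module.Basis (Fin 2) k V) : cornerGen e (e 0) = 0 := by
  simp [cornerGen]

@[simp] theorem cornerGen_one (e : Module.Basis (Fin 2) k V) : cornerGen e (e 1) = e 0 := by
  simp [cornerGen]

@[simp] theorem diagGen_zero (e : Module.Basis (Fin 2) k V) : diagGen e (e 0) = e 0 := by
  simp [diagGen]

@[simp] theorem diagGen_one (e : Module.Basis (Fin 2) k V) : diagGen e (e 1) = - e 1 := by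
  simp [diagGen]

theorem apply_mem_span_of_basis (e : Module.Basis (Fin 2) k V) {Y : Module.End k V}
    (h0 : Y (e 0) ∈ Submodule.span k {e 0}) (h1 : Y (e 1) ∈ Submodule.span k {e 0}) (v : V) :
    Y v ∈ Submodule.span k {e 0} := by
  have hv : v = e.repr v 0 • e 0 + e.repr v 1 • e 1 := by
    conv_lhs => rw [← e.sum_repr v, Fin.sum_univ_two]
  rw [hv, map_add, map_smul, map_smul]
  exact Submodule.add_mem _ (Submodule.smul_mem _ _ h0) (Submodule.smul_mem _ _ h1)

theorem cornerGen_mem (e : Module.Basis (Fin 2) k V) :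
    cornerGen e ∈ cornerEnd (Submodule.span k {e 0}) := by
  rw [mem_cornerEnd_span]
  refine ⟨cornerGen_zero e, apply_mem_span_of_basis e ?_ ?_⟩
  · rw [cornerGen_zero]; exact Submodule.zero_mem _
  · rw [cornerGen_one]; exact Submodule.mem_span_singleton_self _

theorem cornerGen_ne_zero (e : Module.Basis (Fin 2) k V) : cornerGen e ≠ 0 := by
  intro h
  have h1 := cornerGen_one e
  rw [h, LinearMap.zero_apply] at h1
  exact e.ne_zero 0 h1.symm

/-- `W⁰` is the line spanned by `E`. -/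
theorem cornerEnd_eq_span (e : Module.Basis (Fin 2) k V) :
    cornerEnd (Submodule.span k {e 0}) = Submodule.span k {cornerGen e} := by
  apply le_antisymm
  · intro Y hY
    rw [mem_cornerEnd_span] at hY
    obtain ⟨t, ht⟩ := Submodule.mem_span_singleton.1 (hY.2 (e 1))
    rw [Submodule.mem_span_singleton]
    refine ⟨t, ?_⟩
    apply e.ext
    intro i
    fin_cases i
    · simp [hY.1]
    · simp [ht]
  · rw [Submodule.span_singleton_le_iff_mem]
    exact cornerGen_mem e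

/-- `dim W⁰ = 1`. -/
theorem finrank_cornerEnd (hV : Module.finrank k V = 2) {v₀ : V} (hv₀ : v₀ ≠ 0) :
    Module.finrank k (cornerEnd (Submodule.span k {v₀})) = 1 := by
  obtain ⟨e, rfl⟩ := exists_basis_fst hV hv₀
  rw [cornerEnd_eq_span, finrank_span_singleton (cornerGen_ne_zero e)]

theorem diagGen_mem (e : Module.Basis (Fin 2) k V) :
    diagGen e ∈ borel0End (Submodule.span k {e 0}) := by
  rw [borel0End, Submodule.mem_inf, mem_borelEnd_span, LinearMap.mem_ker, trace_eq_repr e]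
  refine ⟨?_, ?_⟩
  · rw [diagGen_zero]; exact Submodule.mem_span_singleton_self _
  · simp

theorem cornerGen_mem_borel0End (e : Module.Basis (Fin 2) k V) :
    cornerGen e ∈ borel0End (Submodule.span k {e 0}) := by
  rw [borel0End, Submodule.mem_inf, LinearMap.mem_ker, trace_eq_repr e]
  refine ⟨cornerEnd_le_borelEnd _ (cornerGen_mem e), ?_⟩
  simp

/-- `W⁰ ≤` trace-zero Borel. -/
theorem cornerEnd_le_borel0End (hV : Module.finrank k V = 2) {v₀ : V} (hv₀ : v₀ ≠ 0) :
    cornerEnd (Submodule.span k {v₀}) ≤ borel0End (Submodule.span k {v₀}) := by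
  obtain ⟨e, rfl⟩ := exists_basis_fst hV hv₀
  rw [cornerEnd_eq_span, Submodule.span_singleton_le_iff_mem]
  exact cornerGen_mem_borel0End e

/-- The trace-zero Borel is spanned by `E` and `H`. -/
theorem borel0End_eq_span (e : Module.Basis (Fin 2) k V) :
    borel0End (Submodule.span k {e 0}) = Submodule.span k (Set.range ![cornerGen e, diagGen e]) := by
  apply le_antisymm
  · intro Y hY
    rw [borel0End, Submodule.mem_inf, mem_borelEnd_span, LinearMap.mem_ker, trace_eq_repr e] at hY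
    obtain ⟨y, hy⟩ := Submodule.mem_span_singleton.1 hY.1
    have htr : y + e.repr (Y (e 1)) 1 = 0 := by
      have h := hY.2
      rw [← hy] at h
      simpa using h
    have h1 : Y (e 1) = e.repr (Y (e 1)) 0 • e 0 + e.repr (Y (e 1)) 1 • e 1 := by
      conv_lhs => rw [← e.sum_repr (Y (e 1)), Fin.sum_univ_two]
    have hYeq : Y = e.repr (Y (e 1)) 0 • cornerGen e + y • diagGen e := by
      apply e.ext
      intro i
      fin_cases i
      · simp [hy]
      · have h2 : e.repr (Y (e 1)) 1 = - y := eq_neg_of_add_eq_zero_right htr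
        simp only [Fin.mk_one, Fin.isValue, LinearMap.add_apply, LinearMap.smul_apply,
          cornerGen_one, diagGen_one]
        conv_lhs => rw [h1, h2]
        simp
    rw [hYeq]
    refine Submodule.add_mem _ (Submodule.smul_mem _ _ (Submodule.subset_span ⟨0, rfl⟩))
      (Submodule.smul_mem _ _ (Submodule.subset_span ⟨1, rfl⟩))
  · rw [Submodule.span_le]
    rintro _ ⟨i, rfl⟩
    fin_cases i
    · exact cornerGen_mem_borel0End e
    · exact diagGen_mem e

theorem linearIndependent_gens (e : Module.Basis (Fin 2) k V) :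
    LinearIndependent k ![cornerGen e, diagGen e] := by
  rw [LinearIndependent.pair_iff]
  intro a b hab
  have h0 := congrArg (fun Y : Module.End k V => e.repr (Y (e 0)) 0) hab
  have h1 := congrArg (fun Y : Module.End k V => e.repr (Y (e 1)) 0) hab
  simp at h0 h1
  exact ⟨h1, h0⟩

/-- `dim (Borel ∩ sl₂) = 2`. -/
theorem finrank_borel0End (hV : Module.finrank k V = 2) {v₀ : V} (hv₀ : v₀ ≠ 0) :
    Module.finrank k (borel0End (Submodule.span k {v₀})) = 2 := by
  obtain ⟨e, rfl⟩ := exists_basis_fst hV hv₀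
  rw [borel0End_eq_span, finrank_span_eq_card (linearIndependent_gens e)]
  rfl

end Dim

end EndLevel

/-! ## The Galois statement -/

section Galois

local notation "GQ" => (AlgebraicClosure ℚ ≃ₐ[ℚ] AlgebraicClosure ℚ)

variable {k : Type} [Field k] {A : Type} [CommRing A] [IsLocalRing A] [Algebra k A]

theorem rho_mul_rho_inv (ρbar : ResidualGaloisRep k) (σ : GQ) :
    ρbar.ρ σ * ρbar.ρ σ⁻¹ = 1 := by
  rw [← map_mul, mul_inv_cancel, map_one]

theorem rho_inv_mul_rho (ρbar : ResidualGaloisRep k) (σ : GQ) :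
    ρbar.ρ σ⁻¹ * ρbar.ρ σ = 1 := by
  rw [← map_mul, inv_mul_cancel, map_one]

/-- **R2b: normal form of a strictly ordinary first-order lift** (neutral frame form).
`hrig` is the literal conclusion of `helper1962.strict_datum_rigid` for `ρ'`. -/
theorem strict_normal_form {p : ℕ} [Fact p.Prime] (ρbar : ResidualGaloisRep k)
    (ρ' : GaloisRepAdic A) (ε : A) (s : ρbar.V →+ ρ'.V) (hfr : IsDualFrame k ε s)
    (c : GQ → Module.End k ρbar.V)
    (hc : ∀ σ v, ρ'.ρ σ (s v) = s (ρbar.ρ σ v) + ε • s (c σ (ρbar.ρ σ v)))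
    (P : ValuationSubring (AlgebraicClosure ℚ))
    (hrig : ∃ b : Module.Basis (Fin 2) A ρ'.V,
      (∀ σ ∈ P.decompositionSubgroup ℚ, ∃ z β : A, (z = 1 ∨ z = -1) ∧
        ρ'.ρ σ (b 0) = ((cycloExp p σ : A) * z) • b 0 ∧
        ρ'.ρ σ (b 1) = z • b 1 + β • b 0) ∧
      (∀ σ ∈ P.inertiaSubgroupIn ℚ, ∃ β : A,
        ρ'.ρ σ (b 0) = (cycloExp p σ : A) • b 0 ∧ ρ'.ρ σ (b 1) = b 1 + β • b 0)) :
    ∃ (v₀ : ρbar.V) (φ : Module.End k ρbar.V), v₀ ≠ 0 ∧
      (∀ σ ∈ P.decompositionSubgroup ℚ, ∃ z : k, (z = 1 ∨ z = -1) ∧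
        ρbar.ρ σ v₀ = ((cycloExp p σ : k) * z) • v₀ ∧
        (∀ v, ρbar.ρ σ v - z • v ∈ Submodule.span k {v₀}) ∧
        (c σ + (ρbar.ρ σ * φ * ρbar.ρ σ⁻¹ - φ)) v₀ = 0 ∧
        ∀ v, (c σ + (ρbar.ρ σ * φ * ρbar.ρ σ⁻¹ - φ)) v ∈ Submodule.span k {v₀}) ∧
      (∀ σ ∈ P.inertiaSubgroupIn ℚ, ρbar.ρ σ v₀ = (cycloExp p σ : k) • v₀ ∧
        ∀ v, ρbar.ρ σ v - v ∈ Submodule.span k {v₀}) := by
  obtain ⟨b, hD, hI⟩ := hrig
  obtain ⟨v₁, w₁, hb0⟩ := hfr.exists_vec (b 0)
  -- the quotient clause in `∀ w` form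
  have hquot : ∀ (σ : GQ) (x z β : A), ρ'.ρ σ (b 0) = x • b 0 →
      ρ'.ρ σ (b 1) = z • b 1 + β • b 0 → ∀ w : ρ'.V, ρ'.ρ σ w - z • w ∈ Submodule.span A {b 0} := by
    intro σ x z β h0 h1 w
    obtain ⟨r₀, r₁, rfl⟩ : ∃ r₀ r₁ : A, w = r₀ • b 0 + r₁ • b 1 :=
      ⟨b.repr w 0, b.repr w 1, by conv_lhs => rw [← b.sum_repr w, Fin.sum_univ_two]⟩
    rw [Submodule.mem_span_singleton]
    refine ⟨r₀ * x + r₁ * β - z * r₀, ?_⟩
    rw [map_add, map_smul, map_smul, h0, h1]
    module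
  -- `v₁ ≠ 0`
  have hv₁ : v₁ ≠ 0 := by
    rintro rfl
    rw [s.map_zero, zero_add] at hb0
    have h1 : ε • b 0 = 0 := by rw [hb0, hfr.eps_smul_eps_smul]
    have h2 : ε = 0 := by
      have := congrArg (fun v => b.repr v 0) h1
      simpa using this
    have h3 : ∀ u : ρbar.V, u = 0 := fun u =>
      (hfr.eq_zero 0 u (by rw [h2, map_zero, zero_smul, add_zero])).2
    have h4 : Subsingleton ρbar.V := ⟨fun u u' => by rw [h3 u, h3 u']⟩
    have h5 := ρbar.finrank_eq
    rw [Module.finrank_zero_of_subsingleton] at h5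
    exact absurd h5 (by norm_num)
  -- `φ v₁ = w₁`
  obtain ⟨g, hg⟩ := LinearMap.exists_leftInverse_of_injective (LinearMap.toSpanSingleton k ρbar.V v₁)
    (LinearMap.ker_toSpanSingleton k hv₁)
  have hg1 : g v₁ = 1 := by
    have := congrArg (fun f : k →ₗ[k] k => f 1) hg
    simpa using this
  let φ : Module.End k ρbar.V := (LinearMap.toSpanSingleton k ρbar.V w₁).comp g
  have hφ : φ v₁ = w₁ := by
    show (LinearMap.toSpanSingleton k ρbar.V w₁) (g v₁) = w₁
    rw [hg1, LinearMap.toSpanSingleton_apply, one_smul]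
  -- pointwise data at an element with given `z₀`
  have hpt : ∀ (σ : GQ) (z₀ : k) (β : A),
      ρ'.ρ σ (b 0) = ((cycloExp p σ : A) * algebraMap k A z₀) • b 0 →
      ρ'.ρ σ (b 1) = algebraMap k A z₀ • b 1 + β • b 0 →
      ρbar.ρ σ v₁ = ((cycloExp p σ : k) * z₀) • v₁ ∧
        (∀ v, ρbar.ρ σ v - z₀ • v ∈ Submodule.span k {v₁}) ∧
        (c σ + (ρbar.ρ σ * φ * ρbar.ρ σ⁻¹ - φ)) v₁ = 0 ∧
        ∀ v, (c σ + (ρbar.ρ σ * φ * ρbar.ρ σ⁻¹ - φ)) v ∈ Submodule.span k {v₁} := by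
    intro σ z₀ β h0 h1
    have hq := hquot σ _ _ β h0 h1
    have hx : ρ'.ρ σ (s v₁ + ε • s w₁) =
        algebraMap k A ((cycloExp p σ : k) * z₀) • (s v₁ + ε • s w₁) := by
      rw [← hb0, h0, map_mul, map_natCast]
    rw [hb0] at hq
    obtain ⟨e1, e2, e3⟩ := hfr.pointwise (R' := ρ'.ρ σ) (R := ρbar.ρ σ) (C := c σ) (hc σ) hx hq
    have hx₀ : (cycloExp p σ : k) * z₀ ≠ 0 := by
      intro h
      rw [h, zero_smul] at e1
      have e : ρbar.ρ σ⁻¹ (ρbar.ρ σ v₁) = v₁ := by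
        rw [← Module.End.mul_apply, rho_inv_mul_rho, Module.End.one_apply]
      rw [e1, map_zero] at e
      exact hv₁ e.symm
    obtain ⟨e4, e5⟩ := normal_form_aux (rho_mul_rho_inv ρbar σ) (rho_inv_mul_rho ρbar σ) hx₀
      e1 e2 e3 hφ
    refine ⟨e1, fun v => ?_, e4, e5⟩
    obtain ⟨a₀, -, ha, -⟩ := e3 v
    rw [ha]
    exact Submodule.smul_mem _ _ (Submodule.mem_span_singleton_self _)
  refine ⟨v₁, φ, hv₁, fun σ hσ => ?_, fun σ hσ => ?_⟩
  · obtain ⟨z, β, hz, h0, h1⟩ := hD σ hσ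
    rcases hz with rfl | rfl
    · refine ⟨1, Or.inl rfl, hpt σ 1 β ?_ ?_⟩
      · rw [RingHom.map_one]; exact h0
      · rw [RingHom.map_one]; exact h1
    · refine ⟨-1, Or.inr rfl, hpt σ (-1) β ?_ ?_⟩
      · rw [RingHom.map_neg, RingHom.map_one]; exact h0
      · rw [RingHom.map_neg, RingHom.map_one]; exact h1
  · obtain ⟨β, h0, h1⟩ := hI σ hσ
    obtain ⟨e1, e2, -, -⟩ := hpt σ 1 β (by rw [RingHom.map_one, mul_one]; exact h0)
      (by rw [RingHom.map_one, one_smul]; exact h1)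
    refine ⟨by rw [e1, mul_one], fun v => ?_⟩
    have := e2 v
    rwa [one_smul] at this

/-- **R2b, basis form** (the shape consumed by the LOC-R2 assembly): a `k`-basis `v₀, v₁` of
`ρbar.V` in which, on the decomposition group, `ρbar` is upper triangular with diagonal
`(χ z, z)`, `z = ± 1`, and the cocycle `c + ∂φ` is strictly upper triangular. -/
theorem strict_normal_form_basis {p : ℕ} [Fact p.Prime] (ρbar : ResidualGaloisRep k)
    (ρ' : GaloisRepAdic A) (ε : A) (s : ρbar.V →+ ρ'.V) (hfr : IsDualFrame k ε s)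
    (c : GQ → Module.End k ρbar.V)
    (hc : ∀ σ v, ρ'.ρ σ (s v) = s (ρbar.ρ σ v) + ε • s (c σ (ρbar.ρ σ v)))
    (P : ValuationSubring (AlgebraicClosure ℚ))
    (hrig : ∃ b : Module.Basis (Fin 2) A ρ'.V,
      (∀ σ ∈ P.decompositionSubgroup ℚ, ∃ z β : A, (z = 1 ∨ z = -1) ∧
        ρ'.ρ σ (b 0) = ((cycloExp p σ : A) * z) • b 0 ∧
        ρ'.ρ σ (b 1) = z • b 1 + β • b 0) ∧
      (∀ σ ∈ P.inertiaSubgroupIn ℚ, ∃ β : A,
        ρ'.ρ σ (b 0) = (cycloExp p σ : A) • b 0 ∧ ρ'.ρ σ (b 1) = b 1 + β • b 0)) :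
    ∃ (v₀ v₁ : ρbar.V) (φ : Module.End k ρbar.V), LinearIndependent k ![v₀, v₁] ∧
      (∀ σ ∈ P.decompositionSubgroup ℚ, ∃ z β₀ : k, (z = 1 ∨ z = -1) ∧
        ρbar.ρ σ v₀ = ((cycloExp p σ : k) * z) • v₀ ∧
        ρbar.ρ σ v₁ = z • v₁ + β₀ • v₀ ∧
        (c σ + (ρbar.ρ σ * φ * ρbar.ρ σ⁻¹ - φ)) v₀ = 0 ∧
        ∃ t : k, (c σ + (ρbar.ρ σ * φ * ρbar.ρ σ⁻¹ - φ)) v₁ = t • v₀) ∧
      (∀ σ ∈ P.inertiaSubgroupIn ℚ, ∃ β₀ : k,
        ρbar.ρ σ v₀ = (cycloExp p σ : k) • v₀ ∧
        ρbar.ρ σ v₁ = v₁ + β₀ • v₀ ∧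
        (c σ + (ρbar.ρ σ * φ * ρbar.ρ σ⁻¹ - φ)) v₀ = 0 ∧
        ∃ t : k, (c σ + (ρbar.ρ σ * φ * ρbar.ρ σ⁻¹ - φ)) v₁ = t • v₀) := by
  obtain ⟨v₀, φ, hv₀, hD, hI⟩ := strict_normal_form ρbar ρ' ε s hfr c hc P hrig
  obtain ⟨v₁, hv₁⟩ := exists_linearIndependent_pair_of_one_lt_finrank
    (by rw [ρbar.finrank_eq]; norm_num) hv₀
  refine ⟨v₀, v₁, φ, hv₁, fun σ hσ => ?_, fun σ hσ => ?_⟩
  · obtain ⟨z, hz, h0, h1, h2, h3⟩ := hD σ hσ
    obtain ⟨β₀, hβ₀⟩ := Submodule.mem_span_singleton.1 (h1 v₁)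
    obtain ⟨t, ht⟩ := Submodule.mem_span_singleton.1 (h3 v₁)
    exact ⟨z, β₀, hz, h0, by rw [hβ₀]; abel, h2, t, ht.symm⟩
  · have hσD : σ ∈ P.decompositionSubgroup ℚ := by
      obtain ⟨τ, -, rfl⟩ := hσ
      exact τ.2
    obtain ⟨z, -, -, -, h2, h3⟩ := hD σ hσD
    obtain ⟨h0, h1⟩ := hI σ hσ
    obtain ⟨β₀, hβ₀⟩ := Submodule.mem_span_singleton.1 (h1 v₁)
    obtain ⟨t, ht⟩ := Submodule.mem_span_singleton.1 (h3 v₁)
    exact ⟨β₀, h0, by rw [hβ₀]; abel, h2, t, ht.symm⟩

end Galois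

end Fermat.Agent.S56.helper8900
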