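/-
S56, node LOC-R2 (seat helper8900): the normal form of a strictly ordinary first-order lift for
DICT's standard lifts `helper6599.stdLift c` (`V' = k[ε] ⊗ ρbar.V`, `s v = 1 ⊗ v`).

* `isDualFrame_tmul` : `k[ε] ⊗ V` with `s v = 1 ⊗ₜ v` is a first-order frame.
* `stdLift_strict_normal_form` : `helper8900.strict_normal_form_basis` for `stdLift c`
  (hypothesis `hrig` = the literal conclusion of `helper1962.strict_datum_rigid` for `stdLift c`).
-/
import Mathlib
import Fermat.Agent.S56.helper6599_StdLift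
import Fermat.Agent.S56.helper8900_StrictNormalForm

set_option autoImplicit false

namespace Fermat.Agent.S56.helper8900

open TensorProduct ExtCitation
open Fermat.Agent.S56

local notation "GQ" => (AlgebraicClosure ℚ ≃ₐ[ℚ] AlgebraicClosure ℚ)

variable {k : Type} [Field k]

/-- `k[ε] ⊗ V` with `s v = 1 ⊗ₜ v` is a first-order frame. -/
theorem isDualFrame_tmul (V : Type) [AddCommGroup V] [Module k V] :
    IsDualFrame k (DualNumber.eps : DualNumber k)
      ((TensorProduct.mk k (DualNumber k) V 1).toAddMonoidHom) where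
  eps_mul_eps := DualNumber.eps_mul_eps
  s_smul a v := by
    show (1 : DualNumber k) ⊗ₜ[k] (a • v) = algebraMap k (DualNumber k) a • ((1 : DualNumber k) ⊗ₜ[k] v)
    rw [TensorProduct.tmul_smul, TensorProduct.smul_tmul', TensorProduct.smul_tmul',
      Algebra.smul_def, smul_eq_mul]
  exists_scalar a := by
    refine ⟨TrivSqZeroExt.fst a, TrivSqZeroExt.snd a, ?_⟩
    conv_lhs => rw [helper6599.dual_eq a]
    rw [Algebra.smul_def]
  exists_vec w := by
    refine ⟨helper6599.fstC V w, helper6599.sndC V w, ?_⟩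
    show w = (1 : DualNumber k) ⊗ₜ[k] helper6599.fstC V w
      + (DualNumber.eps : DualNumber k) • ((1 : DualNumber k) ⊗ₜ[k] helper6599.sndC V w)
    rw [TensorProduct.smul_tmul', smul_eq_mul, mul_one]
    exact helper6599.eq_one_tmul_add_eps_tmul w
  eq_zero v v' h := by
    have h' : (1 : DualNumber k) ⊗ₜ[k] v + (DualNumber.eps : DualNumber k) ⊗ₜ[k] v' = 0 := by
      have e : (DualNumber.eps : DualNumber k) • ((1 : DualNumber k) ⊗ₜ[k] v')
          = (DualNumber.eps : DualNumber k) ⊗ₜ[k] v' := by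
        rw [TensorProduct.smul_tmul', smul_eq_mul, mul_one]
      rw [← e]
      exact h
    constructor
    · have := congrArg (helper6599.fstC V) h'
      simpa using this
    · have := congrArg (helper6599.sndC V) h'
      simpa using this

/-- **R2b for standard lifts.**  `hrig` is the literal conclusion of
`helper1962.strict_datum_rigid` for `helper6599.stdLift c`. -/
theorem stdLift_strict_normal_form {p : ℕ} [Fact p.Prime] {ρbar : ResidualGaloisRep k}
    (c : helper6599.LiftCocycle ρbar) (P : ValuationSubring (AlgebraicClosure ℚ))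
    (hrig : ∃ b : Module.Basis (Fin 2) (DualNumber k) (helper6599.stdLift c).V,
      (∀ σ ∈ P.decompositionSubgroup ℚ, ∃ z β : DualNumber k, (z = 1 ∨ z = -1) ∧
        (helper6599.stdLift c).ρ σ (b 0) = ((cycloExp p σ : DualNumber k) * z) • b 0 ∧
        (helper6599.stdLift c).ρ σ (b 1) = z • b 1 + β • b 0) ∧
      (∀ σ ∈ P.inertiaSubgroupIn ℚ, ∃ β : DualNumber k,
        (helper6599.stdLift c).ρ σ (b 0) = (cycloExp p σ : DualNumber k) • b 0 ∧
        (helper6599.stdLift c).ρ σ (b 1) = b 1 + β • b 0)) :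
    ∃ (v₀ v₁ : ρbar.V) (φ : Module.End k ρbar.V), LinearIndependent k ![v₀, v₁] ∧
      (∀ σ ∈ P.decompositionSubgroup ℚ, ∃ z β₀ : k, (z = 1 ∨ z = -1) ∧
        ρbar.ρ σ v₀ = ((cycloExp p σ : k) * z) • v₀ ∧
        ρbar.ρ σ v₁ = z • v₁ + β₀ • v₀ ∧
        (c.c σ + (ρbar.ρ σ * φ * ρbar.ρ σ⁻¹ - φ)) v₀ = 0 ∧
        ∃ t : k, (c.c σ + (ρbar.ρ σ * φ * ρbar.ρ σ⁻¹ - φ)) v₁ = t • v₀) ∧
      (∀ σ ∈ P.inertiaSubgroupIn ℚ, ∃ β₀ : k,
        ρbar.ρ σ v₀ = (cycloExp p σ : k) • v₀ ∧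
        ρbar.ρ σ v₁ = v₁ + β₀ • v₀ ∧
        (c.c σ + (ρbar.ρ σ * φ * ρbar.ρ σ⁻¹ - φ)) v₀ = 0 ∧
        ∃ t : k, (c.c σ + (ρbar.ρ σ * φ * ρbar.ρ σ⁻¹ - φ)) v₁ = t • v₀) := by
  refine strict_normal_form_basis (p := p) ρbar (helper6599.stdLift c) DualNumber.eps
    ((TensorProduct.mk k (DualNumber k) ρbar.V 1).toAddMonoidHom) (isDualFrame_tmul ρbar.V)
    c.c ?_ P hrig
  intro σ v
  show helper6599.dualEnd ρbar (ρbar.ρ σ) (c.b σ) ((1 : DualNumber k) ⊗ₜ[k] v)
    = (1 : DualNumber k) ⊗ₜ[k] (ρbar.ρ σ v)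
      + (DualNumber.eps : DualNumber k) • ((1 : DualNumber k) ⊗ₜ[k] (c.c σ (ρbar.ρ σ v)))
  rw [helper6599.dualEnd_tmul, TensorProduct.smul_tmul', smul_eq_mul]
  rfl

end Fermat.Agent.S56.helper8900
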