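/-
S56, leaf LOC-R2 (seat helper1962): the SHAPE of a strict-ordinary first-order lift, in the
vocabulary of the DICT layer (`helper6599.LiftCocycle`, `helper6599.stdLift`, `helper6599.ad0`).

`k` a field, `ρbar : ResidualGaloisRep k`, `P` a place of `ℚ̄` over the odd prime `p`.

* `IsStrictBasis p ρbar P b` : in the basis `b` the decomposition group of `P` acts by
  `b 0 ↦ (χ z) • b 0`, `b 1 ↦ z • b 1 + β • b 0` (`z = ± 1`), with `z = 1` on inertia.
* `inertiaLine ρbar P` : the span of the `(σ - 1) v`, `σ` in the inertia group; for a strict basis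
  it is the line `k ∙ b 0` (`inertiaLine_eq`), so the line does not depend on the basis.
* `IsCorner E N` : `N` maps `V` into `E` and kills `E`.  `conj_corner`, `conj_sub_corner` : the
  decomposition group acts on the corner by `χ`, and `(σ - 1)` maps the Borel into the corner.
* `cornerSub p ρbar E`, `borelSub p ρbar E` : the corresponding `𝔽_p`-subspaces of
  `helper6599.ad0 p ρbar`, with `finrank_cornerSub_le` (`≤ f`) and `two_mul_le_finrank_borelSub`
  (`≥ 2 f`) when `#k = p ^ f`.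
* `exists_strict_normal_form` : **normal form of a strict lift**.  If `stdLift c` has cyclotomic
  determinant and is strictly ordinary at `p`, there are a strict basis `b` of `ρbar.V` and a
  trace-zero `φ` such that `c σ + (ρbar σ ∘ φ ∘ ρbar σ⁻¹ - φ)` is a corner for every `σ` in the
  decomposition group of `P`.  (`strict_datum_rigid` of this seat fed into
  `helper8900.stdLift_strict_normal_form`, plus the trace-zero normalisation of `φ`.)
-/
import Mathlib
import Fermat.Agent.S56.helper6599_Ad0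
import Fermat.Agent.S56.helper1962_StrictRigid
import Fermat.Agent.S56.helper8900_StrictStdLift
import Fermat.Agent.S33.helper6050_CycInertia

set_option autoImplicit false

namespace Fermat.Agent.S56.helper1962

open ExtCitation TensorProduct Module
open Fermat.Agent.S56.helper6599

noncomputable section

/-! ### Corners and strict bases -/

section Shape

variable {k : Type} [Field k]

/-- `N` maps `V` into `E` and kills `E`. -/
def IsCorner {V : Type} [AddCommGroup V] [Module k V] (E : Submodule k V)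
    (N : Module.End k V) : Prop :=
  (∀ v, N v ∈ E) ∧ ∀ e ∈ E, N e = 0

theorem isCorner_of_basis {V : Type} [AddCommGroup V] [Module k V]
    (b : Module.Basis (Fin 2) k V) (N : Module.End k V) (h0 : N (b 0) = 0)
    (h1 : N (b 1) ∈ k ∙ b 0) : IsCorner (k ∙ b 0) N := by
  refine ⟨fun v => ?_, fun e he => ?_⟩
  · have hv := b.sum_repr v
    rw [Fin.sum_univ_two] at hv
    rw [← hv, map_add, map_smul, map_smul, h0, smul_zero, zero_add]
    exact Submodule.smul_mem _ _ h1
  · obtain ⟨a, rfl⟩ := Submodule.mem_span_singleton.1 he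
    rw [map_smul, h0, smul_zero]

theorem IsCorner.apply_zero {V : Type} [AddCommGroup V] [Module k V]
    {b : Module.Basis (Fin 2) k V} {N : Module.End k V} (h : IsCorner (k ∙ b 0) N) :
    N (b 0) = 0 :=
  h.2 _ (Submodule.mem_span_singleton_self _)

theorem IsCorner.exists_apply_one {V : Type} [AddCommGroup V] [Module k V]
    {b : Module.Basis (Fin 2) k V} {N : Module.End k V} (h : IsCorner (k ∙ b 0) N) :
    ∃ t : k, N (b 1) = t • b 0 := by
  obtain ⟨t, ht⟩ := Submodule.mem_span_singleton.1 (h.1 (b 1))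
  exact ⟨t, ht.symm⟩

variable (p : ℕ) [Fact p.Prime] (ρbar : ResidualGaloisRep k)
  (P : ValuationSubring (AlgebraicClosure ℚ))

/-- The strict shape of `ρbar` at `P` in the basis `b`. -/
def IsStrictBasis (b : Module.Basis (Fin 2) k ρbar.V) : Prop :=
  (∀ σ ∈ P.decompositionSubgroup ℚ, ∃ z β : k, (z = 1 ∨ z = -1) ∧
      ρbar.ρ σ (b 0) = ((cycloExp p σ : k) * z) • b 0 ∧ ρbar.ρ σ (b 1) = z • b 1 + β • b 0) ∧
  (∀ σ ∈ P.inertiaSubgroupIn ℚ, ∃ β : k,
      ρbar.ρ σ (b 0) = (cycloExp p σ : k) • b 0 ∧ ρbar.ρ σ (b 1) = b 1 + β • b 0)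

/-- The span of the `(σ - 1) v` for `σ` in the inertia group of `P`. -/
def inertiaLine : Submodule k ρbar.V :=
  Submodule.span k {x | ∃ σ ∈ P.inertiaSubgroupIn ℚ, ∃ v : ρbar.V, x = ρbar.ρ σ v - v}

variable {p}

theorem natCast_cycloExp_ne_zero (hpk : (p : k) = 0) (σ : GQ) :
    (cycloExp p σ : k) ≠ 0 :=
  (isUnit_natCast_of_coprime hpk (coprime_cycloExp p σ)).ne_zero

/-- Some element of the inertia group at the odd prime `p` has cyclotomic exponent `≠ 1` in a
field of characteristic `p`. -/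
theorem exists_inertia_natCast_cycloExp_ne_one (hp2 : p ≠ 2) (hpk : (p : k) = 0)
    (hP : P.LiesOverPrime p) :
    ∃ σ ∈ P.inertiaSubgroupIn ℚ, (cycloExp p σ : k) ≠ 1 := by
  have hp : p.Prime := Fact.out
  have : NeZero (p : ℚ) := ⟨by exact_mod_cast hp.ne_zero⟩
  have : NeZero p := ⟨hp.ne_zero⟩
  obtain ⟨ζ, hζ⟩ := HasEnoughRootsOfUnity.exists_primitiveRoot (AlgebraicClosure ℚ) p
  obtain ⟨t, ht, hne⟩ := Fermat.Agent.S33.helper6050.exists_inertia_apply_ne hp hp2 P hP hζ
  have hmod : ¬ cycloExp p t ≡ 1 [MOD p] := by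
    intro hmod
    apply hne
    rw [apply_eq_pow_cycloExp p t ζ hζ.pow_eq_one]
    have key : ∀ m : ℕ, ζ ^ m = ζ ^ (m % p) := fun m => by
      conv_lhs => rw [← Nat.mod_add_div m p, pow_add, pow_mul, hζ.pow_eq_one, one_pow, mul_one]
    have h1 : ζ ^ cycloExp p t = ζ ^ 1 := by
      rw [key (cycloExp p t), key 1]
      exact congrArg (fun m => ζ ^ m) hmod
    rw [h1, pow_one]
  refine ⟨t, ht, fun h1 => ?_⟩
  have hpk' : (p : k) ∈ IsLocalRing.maximalIdeal k := by
    rw [hpk]
    exact Submodule.zero_mem _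
  have hu := Fermat.Agent.S33.helper6050.isUnit_natCast_sub_one hp hpk' hmod
  rw [h1, sub_self] at hu
  exact not_isUnit_zero hu

variable {ρbar P}

/-- For a strict basis, the inertia line is the line of the first basis vector. -/
theorem inertiaLine_eq (hp2 : p ≠ 2) (hpk : (p : k) = 0) (hP : P.LiesOverPrime p)
    {b : Module.Basis (Fin 2) k ρbar.V} (hb : IsStrictBasis p ρbar P b) :
    inertiaLine ρbar P = k ∙ b 0 := by
  apply le_antisymm
  · rw [inertiaLine, Submodule.span_le]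
    rintro x ⟨σ, hσ, v, rfl⟩
    obtain ⟨β, h0, h1⟩ := hb.2 σ hσ
    have hv := b.sum_repr v
    rw [Fin.sum_univ_two] at hv
    rw [SetLike.mem_coe, Submodule.mem_span_singleton]
    refine ⟨b.repr v 0 * ((cycloExp p σ : k) - 1) + b.repr v 1 * β, ?_⟩
    conv_rhs => rw [← hv]
    rw [map_add, map_smul, map_smul, h0, h1]
    module
  · rw [Submodule.span_singleton_le_iff_mem]
    obtain ⟨σ0, hσ0, hne⟩ := exists_inertia_natCast_cycloExp_ne_one (k := k) P hp2 hpk hP
    obtain ⟨β, h0, -⟩ := hb.2 σ0 hσ0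
    have hne' : (cycloExp p σ0 : k) - 1 ≠ 0 := sub_ne_zero.2 hne
    have h : b 0 = ((cycloExp p σ0 : k) - 1)⁻¹ • (ρbar.ρ σ0 (b 0) - b 0) := by
      rw [h0]
      have : (cycloExp p σ0 : k) • b 0 - b 0 = ((cycloExp p σ0 : k) - 1) • b 0 := by module
      rw [this, smul_smul, inv_mul_cancel₀ hne', one_smul]
    rw [h]
    exact Submodule.smul_mem _ _ (Submodule.subset_span ⟨σ0, hσ0, b 0, rfl⟩)

/-- The decomposition group acts on the corner through the cyclotomic character. -/
theorem conj_corner {b : Module.Basis (Fin 2) k ρbar.V} (hb : IsStrictBasis p ρbar P b)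
    {σ : GQ} (hσ : σ ∈ P.decompositionSubgroup ℚ) {X : Module.End k ρbar.V}
    (hX : IsCorner (k ∙ b 0) X) :
    ρbar.ρ σ * X * ρbar.ρ σ⁻¹ = (cycloExp p σ : k) • X := by
  obtain ⟨z, β, -, h0, h1⟩ := hb.1 σ hσ
  obtain ⟨t, ht⟩ := hX.exists_apply_one
  have hX0 := hX.apply_zero
  have h : ρbar.ρ σ * X = (cycloExp p σ : k) • (X * ρbar.ρ σ) := by
    apply b.ext
    intro i
    fin_cases i
    · show ρbar.ρ σ (X (b 0)) = (cycloExp p σ : k) • X (ρbar.ρ σ (b 0))
      rw [hX0, h0, map_smul, hX0, map_zero, smul_zero, smul_zero]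
    · show ρbar.ρ σ (X (b 1)) = (cycloExp p σ : k) • X (ρbar.ρ σ (b 1))
      rw [ht, h1, map_smul, h0, map_add, map_smul, map_smul, ht, hX0]
      module
  rw [h, smul_mul_assoc, mul_assoc, LiftCocycle.rho_mul_inv, mul_one]

/-- `(σ - 1)` maps the Borel (endomorphisms preserving the line) into the corner. -/
theorem conj_sub_corner {b : Module.Basis (Fin 2) k ρbar.V} (hb : IsStrictBasis p ρbar P b)
    {σ : GQ} (hσ : σ ∈ P.decompositionSubgroup ℚ) {X : Module.End k ρbar.V}
    (hX : ∀ e ∈ k ∙ b 0, X e ∈ k ∙ b 0) :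
    IsCorner (k ∙ b 0) (ρbar.ρ σ * X * ρbar.ρ σ⁻¹ - X) := by
  obtain ⟨z, β, -, h0, h1⟩ := hb.1 σ hσ
  obtain ⟨z', β', -, h0', h1'⟩ := hb.1 σ⁻¹ (inv_mem hσ)
  obtain ⟨a, ha⟩ := Submodule.mem_span_singleton.1 (hX _ (Submodule.mem_span_singleton_self (b 0)))
  have hx := b.sum_repr (X (b 1))
  rw [Fin.sum_univ_two] at hx
  set x0 := b.repr (X (b 1)) 0
  set x1 := b.repr (X (b 1)) 1
  -- the commutator `Y' = ρ X - X ρ`
  have hY : ρbar.ρ σ * X * ρbar.ρ σ⁻¹ - X = (ρbar.ρ σ * X - X * ρbar.ρ σ) * ρbar.ρ σ⁻¹ := by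
    rw [sub_mul, mul_assoc X, LiftCocycle.rho_mul_inv, mul_one]
  have hY0 : (ρbar.ρ σ * X - X * ρbar.ρ σ) (b 0) = 0 := by
    show ρbar.ρ σ (X (b 0)) - X (ρbar.ρ σ (b 0)) = 0
    rw [h0, map_smul, ← ha, map_smul, h0]
    module
  have hY1 : (ρbar.ρ σ * X - X * ρbar.ρ σ) (b 1) =
      (x0 * ((cycloExp p σ : k) * z) + x1 * β - z * x0 - β * a) • b 0 := by
    show ρbar.ρ σ (X (b 1)) - X (ρbar.ρ σ (b 1)) = _
    rw [h1, map_add, map_smul, map_smul, ← ha]
    conv_lhs => rw [← hx]
    rw [map_add, map_smul, map_smul, h0, h1]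
    module
  apply isCorner_of_basis b
  · rw [hY]
    show (ρbar.ρ σ * X - X * ρbar.ρ σ) (ρbar.ρ σ⁻¹ (b 0)) = 0
    rw [h0', map_smul, hY0, smul_zero]
  · rw [hY]
    show (ρbar.ρ σ * X - X * ρbar.ρ σ) (ρbar.ρ σ⁻¹ (b 1)) ∈ k ∙ b 0
    rw [h1', map_add, map_smul, map_smul, hY0, smul_zero, add_zero, hY1]
    exact Submodule.smul_mem _ _ (Submodule.smul_mem _ _ (Submodule.mem_span_singleton_self _))

end Shape

/-! ### The corner and the Borel inside `ad0` -/

section Ad0

variable (p : ℕ) [Fact p.Prime] {k : Type} [Field k] [Algebra (ZMod p) k]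
  (ρbar : ResidualGaloisRep k)

/-- The corner of `ad0` attached to a subspace `E` of `ρbar.V`: the trace-zero endomorphisms
mapping `V` into `E` and killing `E`. -/
def cornerSub (E : Submodule k ρbar.V) : Submodule (ZMod p) (ad0 p ρbar) where
  carrier := {X | IsCorner E (ad0Val p ρbar X)}
  add_mem' := by
    rintro X Y ⟨h1, h2⟩ ⟨h1', h2'⟩
    refine ⟨fun v => ?_, fun e he => ?_⟩
    · rw [map_add, LinearMap.add_apply]
      exact E.add_mem (h1 v) (h1' v)
    · rw [map_add, LinearMap.add_apply, h2 e he, h2' e he, add_zero]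
  zero_mem' := by
    refine ⟨fun v => ?_, fun e _ => ?_⟩
    · rw [map_zero, LinearMap.zero_apply]
      exact E.zero_mem
    · rw [map_zero, LinearMap.zero_apply]
  smul_mem' := by
    rintro a X ⟨h1, h2⟩
    refine ⟨fun v => ?_, fun e he => ?_⟩
    · rw [ad0Val_smul, LinearMap.smul_apply]
      exact E.smul_mem _ (h1 v)
    · rw [ad0Val_smul, LinearMap.smul_apply, h2 e he, smul_zero]

theorem mem_cornerSub_iff (E : Submodule k ρbar.V) (X : ad0 p ρbar) :
    X ∈ cornerSub p ρbar E ↔ IsCorner E (ad0Val p ρbar X) := Iff.rfl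

/-- The Borel of `ad0` attached to `E`: the trace-zero endomorphisms preserving `E`. -/
def borelSub (E : Submodule k ρbar.V) : Submodule (ZMod p) (ad0 p ρbar) where
  carrier := {X | ∀ e ∈ E, ad0Val p ρbar X e ∈ E}
  add_mem' := by
    intro X Y h h' e he
    rw [map_add, LinearMap.add_apply]
    exact E.add_mem (h e he) (h' e he)
  zero_mem' := by
    intro e _
    rw [map_zero, LinearMap.zero_apply]
    exact E.zero_mem
  smul_mem' := by
    intro a X h e he
    rw [ad0Val_smul, LinearMap.smul_apply]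
    exact E.smul_mem _ (h e he)

theorem mem_borelSub_iff (E : Submodule k ρbar.V) (X : ad0 p ρbar) :
    X ∈ borelSub p ρbar E ↔ ∀ e ∈ E, ad0Val p ρbar X e ∈ E := Iff.rfl

theorem natCast_eq_zero_of_algebra : (p : k) = 0 := by
  have h : ((p : ZMod p) : ZMod p) = 0 := ZMod.natCast_self p
  have h2 := congrArg (algebraMap (ZMod p) k) h
  rwa [map_natCast, map_zero] at h2

instance finite_ad0 [Finite k] : Finite (ad0 p ρbar) := by
  have := ad0_finite p ρbar
  exact Module.finite_of_finite (ZMod p)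

variable {ρbar}

theorem card_cornerSub_le [Finite k] (b : Module.Basis (Fin 2) k ρbar.V) :
    Nat.card (cornerSub p ρbar (k ∙ b 0)) ≤ Nat.card k := by
  refine Nat.card_le_card_of_injective
    (fun X : cornerSub p ρbar (k ∙ b 0) => b.repr (ad0Val p ρbar X.1 (b 1)) 0) ?_
  intro X Y h
  apply Subtype.ext
  apply ad0_ext
  apply b.ext
  intro i
  have hX : IsCorner (k ∙ b 0) (ad0Val p ρbar X.1) := X.2
  have hY : IsCorner (k ∙ b 0) (ad0Val p ρbar Y.1) := Y.2
  fin_cases i
  · show ad0Val p ρbar X.1 (b 0) = ad0Val p ρbar Y.1 (b 0)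
    rw [hX.apply_zero, hY.apply_zero]
  · show ad0Val p ρbar X.1 (b 1) = ad0Val p ρbar Y.1 (b 1)
    obtain ⟨t, ht⟩ := hX.exists_apply_one
    obtain ⟨t', ht'⟩ := hY.exists_apply_one
    have h' : b.repr (ad0Val p ρbar X.1 (b 1)) 0 = b.repr (ad0Val p ρbar Y.1 (b 1)) 0 := h
    rw [ht, ht', map_smul, map_smul, Finsupp.smul_apply, Finsupp.smul_apply, b.repr_self,
      Finsupp.single_eq_same, smul_eq_mul, smul_eq_mul, mul_one, mul_one] at h'
    rw [ht, ht', h']

theorem card_borelSub_ge [Finite k] (b : Module.Basis (Fin 2) k ρbar.V) :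
    Nat.card k * Nat.card k ≤ Nat.card (borelSub p ρbar (k ∙ b 0)) := by
  classical
  have htr : ∀ x : k × k, LinearMap.trace k ρbar.V
      (Matrix.toLin b b !![x.1, x.2; 0, -x.1]) = 0 := by
    intro x
    rw [LinearMap.trace_eq_matrix_trace k b, LinearMap.toMatrix_toLin, Matrix.trace_fin_two]
    simp
  have hmem : ∀ x : k × k, ad0Mk p ρbar (Matrix.toLin b b !![x.1, x.2; 0, -x.1]) (htr x) ∈
      borelSub p ρbar (k ∙ b 0) := by
    intro x e he
    obtain ⟨s, rfl⟩ := Submodule.mem_span_singleton.1 he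
    rw [ad0Val_ad0Mk, map_smul, Matrix.toLin_self, Fin.sum_univ_two]
    simp only [Matrix.of_apply, Matrix.cons_val_zero, Matrix.cons_val_one, zero_smul, add_zero]
    exact Submodule.smul_mem _ _ (Submodule.smul_mem _ _ (Submodule.mem_span_singleton_self _))
  rw [← Nat.card_prod]
  refine Nat.card_le_card_of_injective
    (fun x : k × k => (⟨ad0Mk p ρbar (Matrix.toLin b b !![x.1, x.2; 0, -x.1]) (htr x), hmem x⟩ :
      borelSub p ρbar (k ∙ b 0))) ?_
  intro x y h
  have h1 : ad0Val p ρbar (ad0Mk p ρbar (Matrix.toLin b b !![x.1, x.2; 0, -x.1]) (htr x)) =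
      ad0Val p ρbar (ad0Mk p ρbar (Matrix.toLin b b !![y.1, y.2; 0, -y.1]) (htr y)) :=
    congrArg (fun X : borelSub p ρbar (k ∙ b 0) => ad0Val p ρbar X.1) h
  rw [ad0Val_ad0Mk, ad0Val_ad0Mk] at h1
  have h2 := (Matrix.toLin b b).injective h1
  have h3 := congrFun (congrFun h2 0) 0
  have h4 := congrFun (congrFun h2 0) 1
  simp only [Matrix.of_apply, Matrix.cons_val_zero, Matrix.cons_val_one] at h3 h4
  exact Prod.ext h3 h4

theorem finrank_cornerSub_le [Finite k] (b : Module.Basis (Fin 2) k ρbar.V) {f : ℕ}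
    (hf : Nat.card k = p ^ f) : finrank (ZMod p) (cornerSub p ρbar (k ∙ b 0)) ≤ f := by
  have := ad0_finite p ρbar
  have h := card_cornerSub_le p b
  rw [Module.natCard_eq_pow_finrank (K := ZMod p) (V := cornerSub p ρbar (k ∙ b 0)),
    Nat.card_zmod, hf] at h
  exact (Nat.pow_le_pow_iff_right (Fact.out : p.Prime).one_lt).1 h

theorem two_mul_le_finrank_borelSub [Finite k] (b : Module.Basis (Fin 2) k ρbar.V) {f : ℕ}
    (hf : Nat.card k = p ^ f) : 2 * f ≤ finrank (ZMod p) (borelSub p ρbar (k ∙ b 0)) := by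
  have := ad0_finite p ρbar
  have h := card_borelSub_ge p b
  rw [Module.natCard_eq_pow_finrank (K := ZMod p) (V := borelSub p ρbar (k ∙ b 0)),
    Nat.card_zmod, hf, ← pow_add, ← two_mul] at h
  exact (Nat.pow_le_pow_iff_right (Fact.out : p.Prime).one_lt).1 h

end Ad0

/-! ### The normal form of a strict lift -/

section NormalForm

variable {p : ℕ} [Fact p.Prime] {k : Type} [Field k] {ρbar : ResidualGaloisRep k}

/-- **Normal form of a strict first-order lift.**  If the standard lift of the cocycle `c` has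
cyclotomic determinant and is strictly ordinary at the odd prime `p`, then for every place `P`
over `p` there are a strict basis `b` of `ρbar.V` and a trace-zero endomorphism `φ` such that
the cohomologous cocycle `σ ↦ c σ + (ρbar σ ∘ φ ∘ ρbar σ⁻¹ - φ)` takes its values in the corner
of the line `k ∙ b 0` on the decomposition group of `P`. -/
theorem exists_strict_normal_form (hp2 : p ≠ 2) (c : LiftCocycle ρbar)
    (hdet : (stdLift c).DetIsCyclotomic p) (hstr : (stdLift c).IsStrictOrdinaryAt p)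
    (P : ValuationSubring (AlgebraicClosure ℚ)) (hP : P.LiesOverPrime p) :
    ∃ (b : Module.Basis (Fin 2) k ρbar.V) (φ : Module.End k ρbar.V),
      IsStrictBasis p ρbar P b ∧ LinearMap.trace k ρbar.V φ = 0 ∧
      ∀ σ ∈ P.decompositionSubgroup ℚ,
        IsCorner (k ∙ b 0) (c.c σ + (ρbar.ρ σ * φ * ρbar.ρ σ⁻¹ - φ)) := by
  have hpk : (p : k) = 0 := by
    have h := (dual_mem_maximalIdeal_iff _).1 hstr.1
    rwa [TrivSqZeroExt.fst_natCast] at h
  have hpA : (p : DualNumber k) = 0 := by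
    rw [← map_natCast (algebraMap k (DualNumber k)), hpk, map_zero]
  obtain ⟨v₀, v₁, φ, hli, hD, hI⟩ := Fermat.Agent.S56.helper8900.stdLift_strict_normal_form
    (p := p) c P (strict_datum_rigid hp2 hpA (stdLift c) hdet hstr P hP)
  let bv : Module.Basis (Fin 2) k ρbar.V :=
    basisOfLinearIndependentOfCardEqFinrank hli (by rw [Fintype.card_fin, ρbar.finrank_eq])
  have hb0 : bv 0 = v₀ :=
    congrFun (coe_basisOfLinearIndependentOfCardEqFinrank hli _) 0
  have hb1 : bv 1 = v₁ :=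
    congrFun (coe_basisOfLinearIndependentOfCardEqFinrank hli _) 1
  have h2 : (2 : k) ≠ 0 := by
    have hc : (2 : ℕ).Coprime p := by
      rw [Nat.coprime_comm, (Fact.out : p.Prime).coprime_iff_not_dvd]
      intro h
      exact hp2 ((Nat.prime_dvd_prime_iff_eq Fact.out Nat.prime_two).1 h)
    have := (isUnit_natCast_of_coprime hpk hc).ne_zero
    exact_mod_cast this
  have hconj : ∀ (s : k) (σ : GQ),
      ρbar.ρ σ * (φ - s • (1 : Module.End k ρbar.V)) * ρbar.ρ σ⁻¹ - (φ - s • 1) =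
        ρbar.ρ σ * φ * ρbar.ρ σ⁻¹ - φ := by
    intro s σ
    rw [mul_sub, sub_mul, mul_smul_comm, mul_one, smul_mul_assoc, LiftCocycle.rho_mul_inv]
    abel
  refine ⟨bv, φ - ((2 : k)⁻¹ * LinearMap.trace k ρbar.V φ) • 1,
    ⟨fun σ hσ => ?_, fun σ hσ => ?_⟩, ?_, fun σ hσ => ?_⟩
  · obtain ⟨z, β₀, hz, h0, h1, -, -⟩ := hD σ hσ
    refine ⟨z, β₀, hz, ?_, ?_⟩
    · rw [hb0]
      exact h0
    · rw [hb0, hb1]
      exact h1
  · obtain ⟨β₀, h0, h1, -, -⟩ := hI σ hσ
    refine ⟨β₀, ?_, ?_⟩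
    · rw [hb0]
      exact h0
    · rw [hb0, hb1]
      exact h1
  · rw [map_sub, map_smul, LinearMap.trace_one, ρbar.finrank_eq, smul_eq_mul]
    push_cast
    field_simp
    ring
  · rw [hconj]
    obtain ⟨z, β₀, hz, h0, h1, hN0, t, hN1⟩ := hD σ hσ
    apply isCorner_of_basis bv
    · rw [hb0]
      exact hN0
    · rw [hb0, hb1, hN1]
      exact Submodule.smul_mem _ _ (Submodule.mem_span_singleton_self _)

end NormalForm

end

end Fermat.Agent.S56.helper1962
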