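/-
S56, COUNT ASSEMBLY, `S`-form of the local leaves (node COUNT-ASM).  Author: helper2229.

The local leaves of `helper2229_Count` (`LocLeaf`) speak about every level cocycle on the
decomposition group representing a lift cocycle.  Some local owners deliver the membership
statement in the form in which the dictionary (`helper6599.tanBound_of_selmer`) consumes it: for
the localisation `helper15.resTotal S _ (c.toClassS p htr S hu) ⟨q, hq⟩` of the global class of a
lift cocycle `c` unramified outside `S ∋ q`.  This file gives the assembly for that (weaker)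
form:

* `LocLeafS p ρbar q P e` : the `S`-form of a local leaf; `LocLeaf.toS : LocLeaf → LocLeafS`.
* `Stmt_LocUnipS`, `Stmt_LocSOS`, `Stmt_LocFLS` : the three leaves in `S`-form, and
  `stmt_LocUnipS_of`, `stmt_LocSOS_of`, `stmt_LocFLS_of` from the forms of `helper2229_Count`.
* `stmt_CountSO_ofS`, `stmt_CountFL_ofS`, `result_of_leavesS` : the counts and the literal frozen
  statement S56 from Tate's inequality and the `S`-form leaves.
-/
import Mathlib
import Fermat.Agent.S56.helper2229_Count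

set_option autoImplicit false
set_option linter.style.haveILetI false

namespace Fermat.Agent.S56.helper2229

open Polynomial IsLocalRing Module groupCohomology ExtCitation
open Fermat.Agent.S55.helper2945 Fermat.Agent.S55.helper15 Fermat.Agent.S55.helper2906
open Fermat.Agent.S56.helper6599

attribute [local instance] Fermat.Agent.S53.helper413.dualAlgebra

local notation "GQ" => (AlgebraicClosure ℚ ≃ₐ[ℚ] AlgebraicClosure ℚ)

/-! ### The `S`-form of the local leaves -/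

/-- **Local leaf, `S`-form.**  There is a subspace `L` of the local carrier
`H¹(ℚ_q, ad0 ρbar)` of `𝔽_p`-dimension at most `h⁰(ℚ_q, ad0 ρbar) + e` which contains the
localisation at `q` of the global class of every trace-zero lift cocycle `c`, unramified outside
a finite set `S ∋ q`, whose standard lift satisfies `P`. -/
def LocLeafS (p : ℕ) [Fact p.Prime] {k : Type} [Field k] [Algebra (ZMod p) k]
    (ρbar : ResidualGaloisRep k) (q : Nat.Primes)
    (P : GaloisRepAdic (DualNumber k) → Prop) (e : ℕ) : Prop :=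
  ∃ L : Submodule (ZMod p) (LocH1 (ad0 p ρbar) q),
    finrank (ZMod p) ↥L ≤
      finrank (ZMod p)
        ↥(Representation.invariants (Rep.res (primeLocalToGlobal q) (ad0 p ρbar)).ρ) + e ∧
    ∀ (c : LiftCocycle ρbar) (htr : ∀ g, LinearMap.trace k ρbar.V (c.c g) = 0)
      (S : Finset Nat.Primes) (hu : ∀ q' : Nat.Primes, q' ∉ S → (stdLift c).IsUnramifiedAt q')
      (hq : q ∈ S), P (stdLift c) →
      resTotal S (ad0 p ρbar) (c.toClassS p htr S hu) ⟨q, hq⟩ ∈ L

/-- The cocycle form of a local leaf implies its `S`-form. -/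
theorem LocLeaf.toS {p : ℕ} [Fact p.Prime] {k : Type} [Field k] [Algebra (ZMod p) k]
    {ρbar : ResidualGaloisRep k} {q : Nat.Primes}
    {P : GaloisRepAdic (DualNumber k) → Prop} {e : ℕ} (h : LocLeaf p ρbar q P e) :
    LocLeafS p ρbar q P e := by
  obtain ⟨L, h1, h2⟩ := h
  refine ⟨L, h1, fun c htr S hu hq hP => ?_⟩
  have h3 : resTotal S (ad0 p ρbar) (c.toClassS p htr S hu) ⟨q, hq⟩
      = helper6044.locClass (ad0 p ρbar) q
        (helper6044.restrictD (ad0 p ρbar) q S (c.toLevelCocycle p htr S hu)) :=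
    helper6044.resTotal_eq_locClass (ad0 p ρbar) S (c.toLevelCocycle p htr S hu) ⟨q, hq⟩
  rw [h3]
  exact h2 c _ (fun d => rfl) hP

/-- A local leaf in `S`-form for a weaker condition and a larger bound. -/
theorem LocLeafS.mono {p : ℕ} [Fact p.Prime] {k : Type} [Field k] [Algebra (ZMod p) k]
    {ρbar : ResidualGaloisRep k} {q : Nat.Primes}
    {P P' : GaloisRepAdic (DualNumber k) → Prop} {e e' : ℕ}
    (h : LocLeafS p ρbar q P e) (hP : ∀ c : LiftCocycle ρbar, P' (stdLift c) → P (stdLift c))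
    (he : e ≤ e') : LocLeafS p ρbar q P' e' := by
  obtain ⟨L, h1, h2⟩ := h
  exact ⟨L, h1.trans (Nat.add_le_add_left he _),
    fun c htr S hu hq hc => h2 c htr S hu hq (hP c hc)⟩

/-- `Stmt_LocUnip`, `S`-form. -/
def Stmt_LocUnipS : Prop :=
  ∀ (p : ℕ) [Fact p.Prime] {k : Type} [Field k] [Finite k] [Algebra (ZMod p) k]
    (ρbar : ResidualGaloisRep k), p ≠ 2 → ρbar.IsAbsolutelyIrreducible →
    (GaloisRepAdic.ofResidualGaloisRep ρbar).DetIsCyclotomic p →
    (∀ σ : GQ, ∃ α β : k, LinearMap.charpoly (ρbar.ρ σ) = (X - C α) * (X - C β)) →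
    ∀ q : Nat.Primes, (q : ℕ) ≠ p → ¬ ρbar.IsUnramifiedAt (q : ℕ) →
      LocLeafS p ρbar q
        (fun ρ => ρ.DetIsCyclotomic p ∧ ρ.IsUnipotentOnInertiaAt (q : ℕ)) 0

/-- `Stmt_LocSO`, `S`-form. -/
def Stmt_LocSOS : Prop :=
  ∀ (p : ℕ) [Fact p.Prime] {k : Type} [Field k] [Finite k] [Algebra (ZMod p) k]
    (ρbar : ResidualGaloisRep k), p ≠ 2 → ρbar.IsAbsolutelyIrreducible →
    (GaloisRepAdic.ofResidualGaloisRep ρbar).DetIsCyclotomic p →
    (∀ σ : GQ, ∃ α β : k, LinearMap.charpoly (ρbar.ρ σ) = (X - C α) * (X - C β)) →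
      LocLeafS p ρbar (pPrime p)
        (fun ρ => ρ.DetIsCyclotomic p ∧ ρ.IsStrictOrdinaryAt p) (finrank (ZMod p) k)

/-- `Stmt_LocFL`, `S`-form. -/
def Stmt_LocFLS : Prop :=
  ∀ (p : ℕ) [Fact p.Prime] {k : Type} [Field k] [Finite k] [Algebra (ZMod p) k]
    (ρbar : ResidualGaloisRep k), p ≠ 2 → ρbar.IsAbsolutelyIrreducible →
    (GaloisRepAdic.ofResidualGaloisRep ρbar).DetIsCyclotomic p →
    (∀ σ : GQ, ∃ α β : k, LinearMap.charpoly (ρbar.ρ σ) = (X - C α) * (X - C β)) →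
      LocLeafS p ρbar (pPrime p)
        (fun ρ => ρ.DetIsCyclotomic p ∧ ρ.IsFlatAt p) (finrank (ZMod p) k)

theorem stmt_LocUnipS_of (h : Stmt_LocUnip) : Stmt_LocUnipS :=
  fun p _ _ _ _ _ ρbar hp2 habs hdet hsplit q hqp hram =>
    (h p ρbar hp2 habs hdet hsplit q hqp hram).toS

theorem stmt_LocSOS_of (h : Stmt_LocSO) : Stmt_LocSOS :=
  fun p _ _ _ _ _ ρbar hp2 habs hdet hsplit => (h p ρbar hp2 habs hdet hsplit).toS

theorem stmt_LocFLS_of (h : Stmt_LocFL) : Stmt_LocFLS :=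
  fun p _ _ _ _ _ ρbar hp2 habs hdet hsplit => (h p ρbar hp2 habs hdet hsplit).toS

/-! ### The DICT side of the seam from `S`-form local conditions -/

section Assembly

variable {𝒪 : Type} [CommRing 𝒪] [IsLocalRing 𝒪] [Finite (ResidueField 𝒪)]
  (p : ℕ) [Fact p.Prime] [Algebra (ZMod p) (ResidueField 𝒪)]
  (ρbar : ResidualGaloisRep (ResidueField 𝒪))

omit [Finite (ResidueField 𝒪)] in
/-- Membership in `twCond`, componentwise at the primes of `Sg`. -/
theorem mem_twCond_of_forall (Sg T : Finset Nat.Primes)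
    (L : ∀ q : Nat.Primes, Submodule (ZMod p) (LocH1 (ad0 p ρbar) q))
    (x : ∀ q : ↥T, LocH1 (ad0 p ρbar) q.1)
    (h : ∀ (q : Nat.Primes) (hq : q ∈ T), q ∈ Sg → x ⟨q, hq⟩ ∈ L q) :
    x ∈ twCond Sg (ad0 p ρbar) L T := by
  classical
  rw [twCond, Submodule.mem_pi]
  intro q _
  by_cases hq : q.1 ∈ Sg
  · rw [if_pos hq]
    exact h q.1 q.2 hq
  · rw [if_neg hq]
    exact Submodule.mem_top

/-- **DICT side of the seam, strict-ordinary type**, for local conditions `L` given in `S`-form. -/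
theorem dictBound_condSOS {S Smin : Finset ℕ} (hyp : FrozenHyp 𝒪 p ρbar S Smin)
    (L : ∀ q : Nat.Primes, Submodule (ZMod p) (LocH1 (ad0 p ρbar) q))
    (hLp : ∀ (c : LiftCocycle ρbar)
      (htr : ∀ g, LinearMap.trace (ResidueField 𝒪) ρbar.V (c.c g) = 0)
      (T : Finset Nat.Primes) (hu : ∀ q' : Nat.Primes, q' ∉ T → (stdLift c).IsUnramifiedAt q')
      (hq : pPrime p ∈ T),
      ((stdLift c).DetIsCyclotomic p ∧ (stdLift c).IsStrictOrdinaryAt p) →
      resTotal T (ad0 p ρbar) (c.toClassS p htr T hu) ⟨pPrime p, hq⟩ ∈ L (pPrime p))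
    (hLq : ∀ q ∈ primesOf Smin, q ≠ pPrime p → ∀ (c : LiftCocycle ρbar)
      (htr : ∀ g, LinearMap.trace (ResidueField 𝒪) ρbar.V (c.c g) = 0)
      (T : Finset Nat.Primes) (hu : ∀ q' : Nat.Primes, q' ∉ T → (stdLift c).IsUnramifiedAt q')
      (hq : q ∈ T),
      ((stdLift c).DetIsCyclotomic p ∧ (stdLift c).IsUnipotentOnInertiaAt (q : ℕ)) →
      resTotal T (ad0 p ρbar) (c.toClassS p htr T hu) ⟨q, hq⟩ ∈ L q) :
    DictBound 𝒪 p ρbar Smin (condSO 𝒪 p Smin) (primesOf Smin) (ad0 p ρbar) L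
      (finrank (ZMod p) (ResidueField 𝒪)) := by
  classical
  intro r qv hinj hqv hsel
  have hk : Nat.card (ResidueField 𝒪) = p ^ finrank (ZMod p) (ResidueField 𝒪) :=
    helper1848.natCard_eq_pow_finrank_dict p (ResidueField 𝒪)
  have hur : ∀ q : Nat.Primes, q ∉ primesOf Smin → ρbar.IsUnramifiedAt (q : ℕ) :=
    helper4859.isUnramifiedAt_of_hmin p ρbar Smin hyp.hpSmin hyp.hmin
  have hM : IsSMod (primesOf Smin ∪ Finset.univ.image qv) (ad0 p ρbar) :=
    helper1848.isSMod_ad0_dict ρbar _ (fun q hq => hur q fun h => hq (Finset.mem_union_left _ h))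
  have hpT : pPrime p ∈ primesOf Smin ∪ Finset.univ.image qv :=
    Finset.mem_union_left _ (pPrime_mem_primesOf hyp.hpSmin)
  have hfinH1 : Module.Finite (ZMod p)
      ↥(continuousH1S (primesOf Smin ∪ Finset.univ.image qv) (ad0 p ρbar)) :=
    (Fermat.Agent.S55.helper4075.stmt_Fin hyp.hp2 _ hpT (ad0 p ρbar) hM).1
  refine tanBound_condSO_of_selmer p ρbar Smin (Smin ∪ Finset.univ.image fun i => (qv i : ℕ))
    (primesOf Smin ∪ Finset.univ.image qv) ?_
    (twCond (primesOf Smin) (ad0 p ρbar) L (primesOf Smin ∪ Finset.univ.image qv)) ?_ hk hsel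
  · intro q hq hmem
    apply hq
    rcases Finset.mem_union.1 hmem with h | h
    · exact Finset.mem_union_left _ (mem_primesOf.2 h)
    · obtain ⟨i, -, hi⟩ := Finset.mem_image.1 h
      exact Finset.mem_union_right _ (Finset.mem_image.2 ⟨i, Finset.mem_univ _, Subtype.ext hi⟩)
  · intro c htr hu hc
    refine mem_twCond_of_forall p ρbar _ _ L _ (fun q hqT hq => ?_)
    by_cases hqp : q = pPrime p
    · subst hqp
      exact hLp c htr _ hu hqT ⟨hc.1.1, hc.1.2.1⟩
    · exact hLq q hq hqp c htr _ hu hqT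
        ⟨hc.1.1, hc.2 (q : ℕ) (mem_primesOf.1 hq) q.2 fun h => hqp (Subtype.ext h)⟩

/-- **DICT side of the seam, flat type**, for local conditions `L` given in `S`-form. -/
theorem dictBound_condFLS {S Smin : Finset ℕ} (hyp : FrozenHyp 𝒪 p ρbar S Smin)
    (L : ∀ q : Nat.Primes, Submodule (ZMod p) (LocH1 (ad0 p ρbar) q))
    (hLp : ∀ (c : LiftCocycle ρbar)
      (htr : ∀ g, LinearMap.trace (ResidueField 𝒪) ρbar.V (c.c g) = 0)
      (T : Finset Nat.Primes) (hu : ∀ q' : Nat.Primes, q' ∉ T → (stdLift c).IsUnramifiedAt q')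
      (hq : pPrime p ∈ T),
      ((stdLift c).DetIsCyclotomic p ∧ (stdLift c).IsFlatAt p) →
      resTotal T (ad0 p ρbar) (c.toClassS p htr T hu) ⟨pPrime p, hq⟩ ∈ L (pPrime p))
    (hLq : ∀ q ∈ primesOf Smin, q ≠ pPrime p → ∀ (c : LiftCocycle ρbar)
      (htr : ∀ g, LinearMap.trace (ResidueField 𝒪) ρbar.V (c.c g) = 0)
      (T : Finset Nat.Primes) (hu : ∀ q' : Nat.Primes, q' ∉ T → (stdLift c).IsUnramifiedAt q')
      (hq : q ∈ T),
      ((stdLift c).DetIsCyclotomic p ∧ (stdLift c).IsUnipotentOnInertiaAt (q : ℕ)) →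
      resTotal T (ad0 p ρbar) (c.toClassS p htr T hu) ⟨q, hq⟩ ∈ L q) :
    DictBound 𝒪 p ρbar Smin (condFL 𝒪 p Smin) (primesOf Smin) (ad0 p ρbar) L
      (finrank (ZMod p) (ResidueField 𝒪)) := by
  classical
  intro r qv hinj hqv hsel
  have hk : Nat.card (ResidueField 𝒪) = p ^ finrank (ZMod p) (ResidueField 𝒪) :=
    helper1848.natCard_eq_pow_finrank_dict p (ResidueField 𝒪)
  have hur : ∀ q : Nat.Primes, q ∉ primesOf Smin → ρbar.IsUnramifiedAt (q : ℕ) :=
    helper4859.isUnramifiedAt_of_hmin p ρbar Smin hyp.hpSmin hyp.hmin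
  have hM : IsSMod (primesOf Smin ∪ Finset.univ.image qv) (ad0 p ρbar) :=
    helper1848.isSMod_ad0_dict ρbar _ (fun q hq => hur q fun h => hq (Finset.mem_union_left _ h))
  have hpT : pPrime p ∈ primesOf Smin ∪ Finset.univ.image qv :=
    Finset.mem_union_left _ (pPrime_mem_primesOf hyp.hpSmin)
  have hfinH1 : Module.Finite (ZMod p)
      ↥(continuousH1S (primesOf Smin ∪ Finset.univ.image qv) (ad0 p ρbar)) :=
    (Fermat.Agent.S55.helper4075.stmt_Fin hyp.hp2 _ hpT (ad0 p ρbar) hM).1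
  refine tanBound_condFL_of_selmer p ρbar Smin (Smin ∪ Finset.univ.image fun i => (qv i : ℕ))
    (primesOf Smin ∪ Finset.univ.image qv) ?_
    (twCond (primesOf Smin) (ad0 p ρbar) L (primesOf Smin ∪ Finset.univ.image qv)) ?_ hk hsel
  · intro q hq hmem
    apply hq
    rcases Finset.mem_union.1 hmem with h | h
    · exact Finset.mem_union_left _ (mem_primesOf.2 h)
    · obtain ⟨i, -, hi⟩ := Finset.mem_image.1 h
      exact Finset.mem_union_right _ (Finset.mem_image.2 ⟨i, Finset.mem_univ _, Subtype.ext hi⟩)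
  · intro c htr hu hc
    refine mem_twCond_of_forall p ρbar _ _ L _ (fun q hqT hq => ?_)
    by_cases hqp : q = pPrime p
    · subst hqp
      exact hLp c htr _ hu hqT ⟨hc.1.1, hc.1.2.1⟩
    · exact hLq q hq hqp c htr _ hu hqT
        ⟨hc.1.1, hc.2 (q : ℕ) (mem_primesOf.1 hq) q.2 fun h => hqp (Subtype.ext h)⟩

end Assembly

/-! ### The counts -/

/-- **Count, strict-ordinary half**, from Tate's inequality and the local leaves in `S`-form. -/
theorem stmt_CountSO_ofS (hTate : helper3550.Stmt_TateLarge) (hUnip : Stmt_LocUnipS)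
    (hSO : Stmt_LocSOS) : Stmt_CountSO := by
  intro 𝒪 _ _ _ _ _ p _ ρbar S Smin hyp
  classical
  letI : Algebra (ZMod p) (ResidueField 𝒪) := zmodAlgebra 𝒪 p hyp.hp𝒪
  have key : ∀ q : Nat.Primes, ∃ L : Submodule (ZMod p) (LocH1 (ad0 p ρbar) q),
      (q ∈ primesOf Smin → finrank (ZMod p) ↥L ≤
        finrank (ZMod p)
          ↥(Representation.invariants (Rep.res (primeLocalToGlobal q) (ad0 p ρbar)).ρ) +
          (if q = pPrime p then finrank (ZMod p) (ResidueField 𝒪) else 0)) ∧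
      (q = pPrime p → ∀ (c : LiftCocycle ρbar)
        (htr : ∀ g, LinearMap.trace (ResidueField 𝒪) ρbar.V (c.c g) = 0)
        (T : Finset Nat.Primes)
        (hu : ∀ q' : Nat.Primes, q' ∉ T → (stdLift c).IsUnramifiedAt q') (hq : q ∈ T),
        ((stdLift c).DetIsCyclotomic p ∧ (stdLift c).IsStrictOrdinaryAt p) →
        resTotal T (ad0 p ρbar) (c.toClassS p htr T hu) ⟨q, hq⟩ ∈ L) ∧
      (q ∈ primesOf Smin → q ≠ pPrime p → ∀ (c : LiftCocycle ρbar)
        (htr : ∀ g, LinearMap.trace (ResidueField 𝒪) ρbar.V (c.c g) = 0)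
        (T : Finset Nat.Primes)
        (hu : ∀ q' : Nat.Primes, q' ∉ T → (stdLift c).IsUnramifiedAt q') (hq : q ∈ T),
        ((stdLift c).DetIsCyclotomic p ∧ (stdLift c).IsUnipotentOnInertiaAt (q : ℕ)) →
        resTotal T (ad0 p ρbar) (c.toClassS p htr T hu) ⟨q, hq⟩ ∈ L) := by
    intro q
    by_cases hqp : q = pPrime p
    · subst hqp
      obtain ⟨L, h1, h2⟩ := hSO p ρbar hyp.hp2 hyp.habs hyp.hdet hyp.hsplit
      exact ⟨L, fun _ => by rw [if_pos rfl]; exact h1, fun _ => h2, fun _ h => absurd rfl h⟩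
    · by_cases hq : q ∈ primesOf Smin
      · have hqp' : (q : ℕ) ≠ p := fun h => hqp (Subtype.ext h)
        obtain ⟨L, h1, h2⟩ := hUnip p ρbar hyp.hp2 hyp.habs hyp.hdet hyp.hsplit q hqp'
          ((hyp.hmin q q.2 hqp').1 (mem_primesOf.1 hq))
        exact ⟨L, fun _ => by rw [if_neg hqp]; exact h1, fun h => absurd h hqp, fun _ _ => h2⟩
      · exact ⟨⊤, fun h => absurd h hq, fun h => absurd h hqp, fun h => absurd h hq⟩
  choose L hL1 hL2 hL3 using key
  exact countGoal_of_seam hyp.hSmin (globalCount_ad0 p ρbar hTate hyp L hL1)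
    (dictBound_condSOS p ρbar hyp L (hL2 _ rfl) hL3)

/-- **Count, flat half**, from Tate's inequality and the local leaves in `S`-form. -/
theorem stmt_CountFL_ofS (hTate : helper3550.Stmt_TateLarge) (hUnip : Stmt_LocUnipS)
    (hFL : Stmt_LocFLS) : Stmt_CountFL := by
  intro 𝒪 _ _ _ _ _ p _ ρbar S Smin hyp
  classical
  letI : Algebra (ZMod p) (ResidueField 𝒪) := zmodAlgebra 𝒪 p hyp.hp𝒪
  have key : ∀ q : Nat.Primes, ∃ L : Submodule (ZMod p) (LocH1 (ad0 p ρbar) q),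
      (q ∈ primesOf Smin → finrank (ZMod p) ↥L ≤
        finrank (ZMod p)
          ↥(Representation.invariants (Rep.res (primeLocalToGlobal q) (ad0 p ρbar)).ρ) +
          (if q = pPrime p then finrank (ZMod p) (ResidueField 𝒪) else 0)) ∧
      (q = pPrime p → ∀ (c : LiftCocycle ρbar)
        (htr : ∀ g, LinearMap.trace (ResidueField 𝒪) ρbar.V (c.c g) = 0)
        (T : Finset Nat.Primes)
        (hu : ∀ q' : Nat.Primes, q' ∉ T → (stdLift c).IsUnramifiedAt q') (hq : q ∈ T),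
        ((stdLift c).DetIsCyclotomic p ∧ (stdLift c).IsFlatAt p) →
        resTotal T (ad0 p ρbar) (c.toClassS p htr T hu) ⟨q, hq⟩ ∈ L) ∧
      (q ∈ primesOf Smin → q ≠ pPrime p → ∀ (c : LiftCocycle ρbar)
        (htr : ∀ g, LinearMap.trace (ResidueField 𝒪) ρbar.V (c.c g) = 0)
        (T : Finset Nat.Primes)
        (hu : ∀ q' : Nat.Primes, q' ∉ T → (stdLift c).IsUnramifiedAt q') (hq : q ∈ T),
        ((stdLift c).DetIsCyclotomic p ∧ (stdLift c).IsUnipotentOnInertiaAt (q : ℕ)) →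
        resTotal T (ad0 p ρbar) (c.toClassS p htr T hu) ⟨q, hq⟩ ∈ L) := by
    intro q
    by_cases hqp : q = pPrime p
    · subst hqp
      obtain ⟨L, h1, h2⟩ := hFL p ρbar hyp.hp2 hyp.habs hyp.hdet hyp.hsplit
      exact ⟨L, fun _ => by rw [if_pos rfl]; exact h1, fun _ => h2, fun _ h => absurd rfl h⟩
    · by_cases hq : q ∈ primesOf Smin
      · have hqp' : (q : ℕ) ≠ p := fun h => hqp (Subtype.ext h)
        obtain ⟨L, h1, h2⟩ := hUnip p ρbar hyp.hp2 hyp.habs hyp.hdet hyp.hsplit q hqp'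
          ((hyp.hmin q q.2 hqp').1 (mem_primesOf.1 hq))
        exact ⟨L, fun _ => by rw [if_neg hqp]; exact h1, fun h => absurd h hqp, fun _ _ => h2⟩
      · exact ⟨⊤, fun h => absurd h hq, fun h => absurd h hqp, fun h => absurd h hq⟩
  choose L hL1 hL2 hL3 using key
  exact countGoal_of_seam hyp.hSmin (globalCount_ad0 p ρbar hTate hyp L hL1)
    (dictBound_condFLS p ρbar hyp L (hL2 _ rfl) hL3)

/-- **S56 from Tate's inequality and the three local leaves in `S`-form**: the literal frozen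
statement. -/
theorem result_of_leavesS (hTate : helper3550.Stmt_TateLarge) (hUnip : Stmt_LocUnipS)
    (hSO : Stmt_LocSOS) (hFL : Stmt_LocFLS)
    {𝒪 : Type} [CommRing 𝒪] [IsDomain 𝒪] [IsDiscreteValuationRing 𝒪]
    [IsAdicComplete (maximalIdeal 𝒪) 𝒪] [Finite (ResidueField 𝒪)]
    (p : ℕ) [Fact p.Prime] (hp2 : p ≠ 2) (hp𝒪 : (p : 𝒪) ∈ maximalIdeal 𝒪)
    (ρbar : ResidualGaloisRep (ResidueField 𝒪))
    (habs : ρbar.IsAbsolutelyIrreducible)
    (hdet : (GaloisRepAdic.ofResidualGaloisRep ρbar).DetIsCyclotomic p)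
    (hsplit : ∀ σ : AlgebraicClosure ℚ ≃ₐ[ℚ] AlgebraicClosure ℚ,
      ∃ α β : ResidueField 𝒪, LinearMap.charpoly (ρbar.ρ σ) = (X - C α) * (X - C β))
    (hTW : ∀ (K : Type) [Field K] [Algebra (ResidueField 𝒪) K]
      (G : Subgroup (AlgebraicClosure ℚ ≃ₐ[ℚ] AlgebraicClosure ℚ)), G.index = 2 →
      ∀ V : Submodule K (ρbar.baseChange K).V,
        (∀ σ ∈ G, ∀ x ∈ V, (ρbar.baseChange K).ρ σ x ∈ V) → V = ⊥ ∨ V = ⊤)
    (S Smin : Finset ℕ) (hpSmin : p ∈ Smin) (hSmin : Smin ⊆ S) (hS : ∀ q ∈ S, q.Prime)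
    (hmin : ∀ q : ℕ, q.Prime → q ≠ p → (q ∈ Smin ↔ ¬ ρbar.IsUnramifiedAt q)) :
    (∃ r : ℕ, ∀ n : ℕ, ∃ qv : Fin r → ℕ, Function.Injective qv ∧
      (∀ i, (qv i).Prime ∧ qv i ∉ S ∧ p ^ (n + 1) ∣ qv i - 1) ∧
      (∀ i, ∀ P : ValuationSubring (AlgebraicClosure ℚ), P.LiesOverPrime (qv i) →
        ∀ φ : AlgebraicClosure ℚ ≃ₐ[ℚ] AlgebraicClosure ℚ, P.IsFrobeniusAt φ (qv i) →
          ∃ α β : ResidueField 𝒪, α ≠ β ∧ LinearMap.charpoly (ρbar.ρ φ) = (X - C α) * (X - C β)) ∧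
      ∀ DQ : GaloisRep.DeformationRingData 𝒪 ρbar (fun _A _ _ _ ρ =>
          GaloisRep.strictOrdinaryCondition 𝒪 p (Smin ∪ Finset.univ.image qv) ρ ∧
            ∀ q ∈ Smin, q.Prime → q ≠ p → ρ.IsUnipotentOnInertiaAt q),
        ∃ γ : MvPowerSeries (Fin r) 𝒪 →ₐ[𝒪] DQ.R, Function.Surjective γ) ∧
    (∃ r : ℕ, ∀ n : ℕ, ∃ qv : Fin r → ℕ, Function.Injective qv ∧
      (∀ i, (qv i).Prime ∧ qv i ∉ S ∧ p ^ (n + 1) ∣ qv i - 1) ∧
      (∀ i, ∀ P : ValuationSubring (AlgebraicClosure ℚ), P.LiesOverPrime (qv i) →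
        ∀ φ : AlgebraicClosure ℚ ≃ₐ[ℚ] AlgebraicClosure ℚ, P.IsFrobeniusAt φ (qv i) →
          ∃ α β : ResidueField 𝒪, α ≠ β ∧ LinearMap.charpoly (ρbar.ρ φ) = (X - C α) * (X - C β)) ∧
      ∀ DQ : GaloisRep.DeformationRingData 𝒪 ρbar (fun _A _ _ _ ρ =>
          GaloisRep.flatCondition 𝒪 p (Smin ∪ Finset.univ.image qv) ρ ∧
            ∀ q ∈ Smin, q.Prime → q ≠ p → ρ.IsUnipotentOnInertiaAt q),
        ∃ γ : MvPowerSeries (Fin r) 𝒪 →ₐ[𝒪] DQ.R, Function.Surjective γ) :=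
  result_of_counts (stmt_CountSO_ofS hTate hUnip hSO) (stmt_CountFL_ofS hTate hUnip hFL)
    p hp2 hp𝒪 ρbar habs hdet hsplit hTW S Smin hpSmin hSmin hS hmin

end Fermat.Agent.S56.helper2229
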