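/-
S56, COUNT ASSEMBLY: the local leaf at the primes `q ≠ p` of `Smin` (node COUNT-ASM).
Author: helper2229.

`stmt_LocUnip : Stmt_LocUnip` — the leaf `Stmt_LocUnip` of `helper2229_Count` is a theorem: it is
LOC-R1 (`helper245`: `tameLoc`, `finrank_tameLoc_ad0_le`, `mem_tameZq_iff`, the `2 × 2` lemma
`IsAdModel.exists_eq_sub`) in the shape `LocLeaf` consumed by the count.
-/
import Mathlib
import Fermat.Agent.S56.helper2229_LocAdapter
import Fermat.Agent.S56.helper245_TameDict

set_option autoImplicit false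
set_option linter.style.haveILetI false

namespace Fermat.Agent.S56.helper2229

open Polynomial IsLocalRing Module groupCohomology ExtCitation
open Fermat.Agent.S55.helper2945 Fermat.Agent.S55.helper15
open Fermat.Agent.S56.helper6599

local notation "GQ" => (AlgebraicClosure ℚ ≃ₐ[ℚ] AlgebraicClosure ℚ)

/-- **The local leaf at the primes `q ≠ p` of `Smin`** (LOC-R1, `helper245`). -/
theorem stmt_LocUnip : Stmt_LocUnip := by
  intro p _ k _ _ _ ρbar hp2 _ _ _ q hqp hram
  refine ⟨helper245.tameLoc ρbar (ad0 p ρbar) q,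
    by simpa using helper245.finrank_tameLoc_ad0_le p ρbar hp2 q (Ne.symm hqp) hram, ?_⟩
  rintro c z hz ⟨-, hunipc⟩
  have hchar : CharP k p := helper245.charP_of_algebra p
  have hA := Fermat.Agent.S55.helper4145.primeLocalPlace_liesOverPrime q
  have hunip : ∀ σ ∈ (primeLocalPlace q).inertiaSubgroupIn ℚ,
      LinearMap.charpoly (ρbar.ρ σ) = (X - 1) ^ 2 := fun σ hσ =>
    helper245.charpoly_of_stdLift_isUnipotentOnInertiaAt c hunipc _ hA σ hσ
  rw [helper245.tameLoc_of_unip _ hunip]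
  refine helper6044.locClass_mem_locSub z ?_
  rw [helper245.mem_tameZq_iff]
  refine ⟨z.2, fun σ hσ hρσ => ?_⟩
  have hσI : (σ : GQ) ∈ (primeLocalPlace q).inertiaSubgroupIn ℚ := ⟨σ, hσ, rfl⟩
  have hsq : (ρbar.ρ (σ : GQ) - 1) ^ 2 = 0 :=
    helper245.sub_one_sq_eq_zero_of_charpoly _ (hunip (σ : GQ) hσI)
  have h2 : (2 : k) ≠ 0 := two_ne_zero_of_algebra p hp2
  refine (helper245.isAdModel_ad0 p ρbar).exists_eq_sub ρbar.finrank_eq h2 hsq hρσ (z.1 σ)
    (trace_ad0Val p ρbar _) ?_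
  rw [hz σ]
  exact (trace_eq_zero_of_isUnipotentOnInertiaAt c hunipc _ hA (σ : GQ) hσI).1

end Fermat.Agent.S56.helper2229
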