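/-
S56 top wiring (helper6587), part 1: commutative algebra.

* `exists_fin_generators_sharp` : if the `𝒪`-algebra maps `A → k[ε]` inject into `k^r`
  (`k` finite), then `𝔪_A` is generated modulo `𝔪_𝒪 A + 𝔪_A²` by `r` elements.
* `liftHom_surjective_of_generators` : for a complete Noetherian local `𝒪`-algebra `A` with
  residue field `k`, generators of the cotangent space give a surjection from a power series
  ring.
* `exists_mvPowerSeries_surjective` : the two combined.
-/
import Mathlib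
import Fermat.Prelude.Def_GaloisRep_DeformationRingData
import Fermat.Prelude.Def_GaloisRep_DeformationCondition
import Fermat.Agent.S53.helper1433_PowerSeries
import Fermat.Agent.S53.helper413_Tangent
import Fermat.Agent.S53.helper533_TestAlg
import Fermat.Agent.S53.helper1793_TangentBound

set_option autoImplicit false
set_option linter.unusedSectionVars false

namespace Fermat.Agent.S56.helper6587

open IsLocalRing
open Fermat.Agent.S53

attribute [local instance] helper413.dualAlgebra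

/-! ## Sharp generator bound -/

section Gen

variable {𝒪 : Type} [CommRing 𝒪] [IsLocalRing 𝒪]
variable {A : Type} [CommRing A] [IsLocalRing A] [Algebra 𝒪 A] [IsLocalHom (algebraMap 𝒪 A)]

/-- The `ε`-component of an `𝒪`-algebra map `A → k[ε]`, as an `𝒪`-linear functional. -/
noncomputable def sndL (f : A →ₐ[𝒪] DualNumber (ResidueField 𝒪)) : A →ₗ[𝒪] ResidueField 𝒪 where
  toFun a := TrivSqZeroExt.snd (f a)
  map_add' a b := by simp
  map_smul' c a := by
    rw [Algebra.smul_def, map_mul, AlgHom.commutes, helper413.dual_algebraMap_apply,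
      TrivSqZeroExt.snd_mul]
    simp [Algebra.smul_def]

theorem sndL_apply (f : A →ₐ[𝒪] DualNumber (ResidueField 𝒪)) (a : A) :
    sndL f a = TrivSqZeroExt.snd (f a) := rfl

theorem sndL_one (f : A →ₐ[𝒪] DualNumber (ResidueField 𝒪)) : sndL f 1 = 0 := by
  rw [sndL_apply, map_one, TrivSqZeroExt.snd_one]

theorem sndL_mul (hs : Function.Surjective (residue A ∘ algebraMap 𝒪 A))
    (f : A →ₐ[𝒪] DualNumber (ResidueField 𝒪)) (a b : A) :
    sndL f (a * b) = helper413.red hs a * sndL f b + helper413.red hs b * sndL f a := by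
  rw [sndL_apply, sndL_apply, sndL_apply, map_mul, TrivSqZeroExt.snd_mul,
    helper413.fst_algHom hs, helper413.fst_algHom hs]
  simp [mul_comm]

/-- Linear combination of the `ε`-components of finitely many maps. -/
noncomputable def comb (d : ℕ) (f : ℕ → (A →ₐ[𝒪] DualNumber (ResidueField 𝒪)))
    (c : Fin d → ResidueField 𝒪) : A →ₗ[𝒪] ResidueField 𝒪 :=
  ∑ i : Fin d, c i • sndL (f i)

theorem comb_apply (d : ℕ) (f : ℕ → (A →ₐ[𝒪] DualNumber (ResidueField 𝒪)))
    (c : Fin d → ResidueField 𝒪) (a : A) :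
    comb d f c a = ∑ i : Fin d, c i * TrivSqZeroExt.snd (f i a) := by
  simp [comb, sndL_apply]

theorem comb_one (d : ℕ) (f : ℕ → (A →ₐ[𝒪] DualNumber (ResidueField 𝒪)))
    (c : Fin d → ResidueField 𝒪) : comb d f c 1 = 0 := by
  rw [comb_apply]
  simp

theorem comb_mul (hs : Function.Surjective (residue A ∘ algebraMap 𝒪 A)) (d : ℕ)
    (f : ℕ → (A →ₐ[𝒪] DualNumber (ResidueField 𝒪))) (c : Fin d → ResidueField 𝒪) (a b : A) :
    comb d f c (a * b) = helper413.red hs a * comb d f c b + helper413.red hs b * comb d f c a := by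
  rw [comb_apply, comb_apply, comb_apply, Finset.mul_sum, Finset.mul_sum, ← Finset.sum_add_distrib]
  refine Finset.sum_congr rfl fun i _ => ?_
  have h := sndL_mul hs (f i) a b
  rw [sndL_apply, sndL_apply, sndL_apply] at h
  rw [h]
  ring

/-- The algebra map attached to a linear combination. -/
noncomputable def combHom (hs : Function.Surjective (residue A ∘ algebraMap 𝒪 A)) (d : ℕ)
    (f : ℕ → (A →ₐ[𝒪] DualNumber (ResidueField 𝒪))) (c : Fin d → ResidueField 𝒪) :
    A →ₐ[𝒪] DualNumber (ResidueField 𝒪) :=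
  helper413.toDual hs (comb d f c) (comb_one d f c) (comb_mul hs d f c)

theorem snd_combHom (hs : Function.Surjective (residue A ∘ algebraMap 𝒪 A)) (d : ℕ)
    (f : ℕ → (A →ₐ[𝒪] DualNumber (ResidueField 𝒪))) (c : Fin d → ResidueField 𝒪) (a : A) :
    TrivSqZeroExt.snd (combHom hs d f c a) = ∑ i : Fin d, c i * TrivSqZeroExt.snd (f i a) := by
  rw [combHom, helper413.snd_toDual, comb_apply]

/-- A triangular system of size `d`: elements `x i ∈ 𝔪_A` and maps `f i` to `k[ε]` with
`f i (x j) = 0` for `j < i` and `f i (x i) ≠ 0` (on `ε`-components). -/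
def IsTriSys (d : ℕ) (x : ℕ → A) (f : ℕ → (A →ₐ[𝒪] DualNumber (ResidueField 𝒪))) : Prop :=
  (∀ i < d, x i ∈ maximalIdeal A) ∧
  (∀ i < d, ∀ j < i, TrivSqZeroExt.snd (f i (x j)) = 0) ∧
  (∀ i < d, TrivSqZeroExt.snd (f i (x i)) ≠ 0)

theorem combHom_injective (hs : Function.Surjective (residue A ∘ algebraMap 𝒪 A)) (d : ℕ)
    (x : ℕ → A) (f : ℕ → (A →ₐ[𝒪] DualNumber (ResidueField 𝒪))) (h : IsTriSys d x f) :
    Function.Injective (combHom hs d f) := by
  intro c c' hcc
  have key : ∀ n : ℕ, ∀ i : Fin d, (i : ℕ) ≤ n → c i = c' i := by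
    intro n
    induction n using Nat.strong_induction_on with
    | _ n ih =>
      intro i hin
      have hlt : ∀ j : Fin d, (j : ℕ) < (i : ℕ) → c j = c' j := fun j hj =>
        ih j (lt_of_lt_of_le hj hin) j le_rfl
      have h1 := congrArg (fun g => TrivSqZeroExt.snd (g (x i))) hcc
      simp only [snd_combHom] at h1
      have h2 : ∑ j : Fin d, (c j - c' j) * TrivSqZeroExt.snd (f j (x i)) = 0 := by
        simp only [sub_mul, Finset.sum_sub_distrib, h1, sub_self]
      rw [Finset.sum_eq_single i] at h2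
      · have h3 := h.2.2 i i.2
        rcases mul_eq_zero.mp h2 with h4 | h4
        · exact sub_eq_zero.mp h4
        · exact absurd h4 h3
      · intro j _ hji
        rcases lt_or_gt_of_ne (fun hh => hji (Fin.ext hh) : (j : ℕ) ≠ (i : ℕ)) with hlt' | hgt
        · rw [hlt j hlt', sub_self, zero_mul]
        · rw [h.2.1 j j.2 i hgt, mul_zero]
      · intro hi
        exact absurd (Finset.mem_univ i) hi
  funext i
  exact key i i le_rfl

theorem exists_triSys_succ (hs : Function.Surjective (residue A ∘ algebraMap 𝒪 A)) (d : ℕ)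
    (x : ℕ → A) (f : ℕ → (A →ₐ[𝒪] DualNumber (ResidueField 𝒪))) (h : IsTriSys d x f)
    (hnot : ¬ maximalIdeal A ≤ (maximalIdeal 𝒪).map (algebraMap 𝒪 A) ⊔ maximalIdeal A ^ 2 ⊔
      Ideal.span (x '' {i | i < d})) :
    ∃ (x' : ℕ → A) (f' : ℕ → (A →ₐ[𝒪] DualNumber (ResidueField 𝒪))), IsTriSys (d + 1) x' f' := by
  classical
  obtain ⟨y, hym, hyJ⟩ := Set.not_subset.mp hnot
  obtain ⟨g, hgJ, hgy⟩ := helper413.exists_algHom_dual hs _
    (le_sup_of_le_left le_sup_left) (le_sup_of_le_left le_sup_right) hym hyJ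
  have hfst : ∀ a ∈ maximalIdeal A, ∀ φ : A →ₐ[𝒪] DualNumber (ResidueField 𝒪),
      TrivSqZeroExt.fst (φ a) = 0 := fun a ha φ => by
    rw [helper413.fst_algHom hs, (helper413.red_eq_zero_iff hs a).mpr ha]
  refine ⟨Function.update x d y, Function.update f d g, ?_, ?_, ?_⟩
  · intro i hi
    rcases Nat.lt_succ_iff_lt_or_eq.mp hi with hlt | rfl
    · rw [Function.update_of_ne (ne_of_lt hlt)]
      exact h.1 i hlt
    · rw [Function.update_self]
      exact hym
  · intro i hi j hj
    rcases Nat.lt_succ_iff_lt_or_eq.mp hi with hlt | rfl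
    · rw [Function.update_of_ne (ne_of_lt hlt), Function.update_of_ne (ne_of_lt (hj.trans hlt))]
      exact h.2.1 i hlt j hj
    · rw [Function.update_self, Function.update_of_ne (ne_of_lt hj)]
      rw [hgJ _ (Ideal.mem_sup_right (Ideal.subset_span ⟨j, hj, rfl⟩)) (h.1 j hj)]
      rfl
  · intro i hi
    rcases Nat.lt_succ_iff_lt_or_eq.mp hi with hlt | rfl
    · rw [Function.update_of_ne (ne_of_lt hlt), Function.update_of_ne (ne_of_lt hlt)]
      exact h.2.2 i hlt
    · rw [Function.update_self, Function.update_self]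
      intro h0
      apply hgy
      exact TrivSqZeroExt.ext (by rw [hfst y hym g]; rfl) (by rw [h0]; rfl)

/-- **Sharp generator bound**: if the `𝒪`-algebra maps `A → k[ε]` inject into `k^r`, then `𝔪_A`
is generated modulo `𝔪_𝒪 A + 𝔪_A²` by `r` elements. -/
theorem exists_fin_generators_sharp [Finite (ResidueField 𝒪)]
    (hs : Function.Surjective (residue A ∘ algebraMap 𝒪 A)) (r : ℕ)
    (ι : (A →ₐ[𝒪] DualNumber (ResidueField 𝒪)) → (Fin r → ResidueField 𝒪))
    (hι : Function.Injective ι) :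
    ∃ x : Fin r → A, (∀ i, x i ∈ maximalIdeal A) ∧
      maximalIdeal A ≤ (maximalIdeal 𝒪).map (algebraMap 𝒪 A) ⊔ maximalIdeal A ^ 2 ⊔
        Ideal.span (Set.range x) := by
  classical
  by_contra hcon
  have key : ∀ d, d ≤ r + 1 → ∃ (x : ℕ → A) (f : ℕ → (A →ₐ[𝒪] DualNumber (ResidueField 𝒪))),
      IsTriSys d x f := by
    intro d
    induction d with
    | zero =>
      intro _
      exact ⟨fun _ => 0, fun _ => helper413.trivDual hs,
        fun i hi => absurd hi (Nat.not_lt_zero i), fun i hi => absurd hi (Nat.not_lt_zero i),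
        fun i hi => absurd hi (Nat.not_lt_zero i)⟩
    | succ d ih =>
      intro hd
      obtain ⟨x, f, h⟩ := ih (Nat.le_of_succ_le hd)
      have hdr : d ≤ r := Nat.le_of_succ_le_succ hd
      refine exists_triSys_succ hs d x f h (fun hle => hcon ?_)
      refine ⟨fun i : Fin r => if (i : ℕ) < d then x i else 0, fun i => ?_, ?_⟩
      · by_cases hi : (i : ℕ) < d
        · simp only [hi, if_true]
          exact h.1 i hi
        · simp only [hi, if_false]
          exact Submodule.zero_mem _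
      · refine hle.trans (sup_le_sup_left (Ideal.span_mono ?_) _)
        rintro _ ⟨j, hj, rfl⟩
        have hj' : j < d := hj
        exact ⟨⟨j, lt_of_lt_of_le hj' hdr⟩, by simp [hj']⟩
  obtain ⟨x, f, h⟩ := key (r + 1) le_rfl
  have hinj : Function.Injective (fun c : Fin (r + 1) → ResidueField 𝒪 => ι (combHom hs (r + 1) f c)) :=
    hι.comp (combHom_injective hs (r + 1) x f h)
  have hcard := Nat.card_le_card_of_injective _ hinj
  rw [Nat.card_fun, Nat.card_fun, Nat.card_fin, Nat.card_fin] at hcard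
  have h2 : 2 ≤ Nat.card (ResidueField 𝒪) := by
    have : Nontrivial (ResidueField 𝒪) := inferInstance
    exact Finite.one_lt_card
  exact absurd hcard (not_le.mpr (Nat.pow_lt_pow_right h2 (Nat.lt_succ_self r)))

/-- An `𝒪`-algebra map `A → k[ε]` with a nonzero `ε`-component is surjective. -/
theorem surjective_of_snd_ne_zero (hs : Function.Surjective (residue A ∘ algebraMap 𝒪 A))
    (f : A →ₐ[𝒪] DualNumber (ResidueField 𝒪)) {a : A} (ha : TrivSqZeroExt.snd (f a) ≠ 0) :
    Function.Surjective f := by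
  intro z
  obtain ⟨w, -, hrw⟩ := helper413.exists_sub_mem hs a
  obtain ⟨u, hu⟩ := residue_surjective (TrivSqZeroExt.fst z)
  obtain ⟨v, hv⟩ := residue_surjective (TrivSqZeroExt.snd z / TrivSqZeroExt.snd (f a))
  refine ⟨algebraMap 𝒪 A u + algebraMap 𝒪 A v * (a - algebraMap 𝒪 A w), ?_⟩
  have hfa : TrivSqZeroExt.fst (f a) = residue 𝒪 w := by
    rw [helper413.fst_algHom hs, hrw]
  rw [map_add, map_mul, map_sub, AlgHom.commutes, AlgHom.commutes, AlgHom.commutes,
    helper413.dual_algebraMap_apply, helper413.dual_algebraMap_apply,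
    helper413.dual_algebraMap_apply]
  apply TrivSqZeroExt.ext
  · simp [hfa, hu]
  · simp [hfa, hv, div_mul_cancel₀ _ ha]

/-- An `𝒪`-algebra map `A → k[ε]` is the trivial one or surjective. -/
theorem eq_trivDual_or_surjective (hs : Function.Surjective (residue A ∘ algebraMap 𝒪 A))
    (f : A →ₐ[𝒪] DualNumber (ResidueField 𝒪)) :
    f = helper413.trivDual hs ∨ Function.Surjective f := by
  by_cases h : ∀ a, TrivSqZeroExt.snd (f a) = 0
  · left
    refine AlgHom.ext fun a => TrivSqZeroExt.ext ?_ ?_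
    · rw [helper413.fst_algHom hs, helper413.fst_algHom hs]
    · rw [h a, helper413.trivDual_apply, TrivSqZeroExt.snd_inl]
  · right
    obtain ⟨a, ha⟩ := not_forall.mp h
    exact surjective_of_snd_ne_zero hs f ha

/-- **Sharp generator bound, surjective form**: if `#k ≥ 3` and the *surjective* `𝒪`-algebra
maps `A → k[ε]` inject into `k^r`, then `𝔪_A` is generated modulo `𝔪_𝒪 A + 𝔪_A²` by `r`
elements. -/
theorem exists_fin_generators_of_injOn_surjective [Finite (ResidueField 𝒪)]
    (h3 : 3 ≤ Nat.card (ResidueField 𝒪))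
    (hs : Function.Surjective (residue A ∘ algebraMap 𝒪 A)) (r : ℕ)
    (ι : (A →ₐ[𝒪] DualNumber (ResidueField 𝒪)) → (Fin r → ResidueField 𝒪))
    (hι : ∀ f g : A →ₐ[𝒪] DualNumber (ResidueField 𝒪), Function.Surjective f →
      Function.Surjective g → ι f = ι g → f = g) :
    ∃ x : Fin r → A, (∀ i, x i ∈ maximalIdeal A) ∧
      maximalIdeal A ≤ (maximalIdeal 𝒪).map (algebraMap 𝒪 A) ⊔ maximalIdeal A ^ 2 ⊔
        Ideal.span (Set.range x) := by
  classical
  by_contra hcon
  have key : ∀ d, d ≤ r + 1 → ∃ (x : ℕ → A) (f : ℕ → (A →ₐ[𝒪] DualNumber (ResidueField 𝒪))),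
      IsTriSys d x f := by
    intro d
    induction d with
    | zero =>
      intro _
      exact ⟨fun _ => 0, fun _ => helper413.trivDual hs,
        fun i hi => absurd hi (Nat.not_lt_zero i), fun i hi => absurd hi (Nat.not_lt_zero i),
        fun i hi => absurd hi (Nat.not_lt_zero i)⟩
    | succ d ih =>
      intro hd
      obtain ⟨x, f, h⟩ := ih (Nat.le_of_succ_le hd)
      have hdr : d ≤ r := Nat.le_of_succ_le_succ hd
      refine exists_triSys_succ hs d x f h (fun hle => hcon ?_)
      refine ⟨fun i : Fin r => if (i : ℕ) < d then x i else 0, fun i => ?_, ?_⟩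
      · by_cases hi : (i : ℕ) < d
        · simp only [hi, if_true]
          exact h.1 i hi
        · simp only [hi, if_false]
          exact Submodule.zero_mem _
      · refine hle.trans (sup_le_sup_left (Ideal.span_mono ?_) _)
        rintro _ ⟨j, hj, rfl⟩
        have hj' : j < d := hj
        exact ⟨⟨j, lt_of_lt_of_le hj' hdr⟩, by simp [hj']⟩
  obtain ⟨x, f, h⟩ := key (r + 1) le_rfl
  have hcinj := combHom_injective hs (r + 1) x f h
  have hsurj : ∀ c : Fin (r + 1) → ResidueField 𝒪, c ≠ 0 →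
      Function.Surjective (combHom hs (r + 1) f c) := by
    intro c hc
    have hne : combHom hs (r + 1) f c ≠ combHom hs (r + 1) f 0 := fun hh => hc (hcinj hh)
    obtain ⟨a, ha⟩ := DFunLike.ne_iff.mp hne
    refine surjective_of_snd_ne_zero hs _ (a := a) (fun h0 => ha ?_)
    apply TrivSqZeroExt.ext
    · rw [helper413.fst_algHom hs, helper413.fst_algHom hs]
    · rw [h0, snd_combHom]
      simp
  let G : (Fin (r + 1) → ResidueField 𝒪) → Option (Fin r → ResidueField 𝒪) := fun c =>
    if c = 0 then none else some (ι (combHom hs (r + 1) f c))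
  have hG : Function.Injective G := by
    intro c c' hcc
    by_cases hc : c = 0
    · by_cases hc' : c' = 0
      · rw [hc, hc']
      · simp only [G, hc, hc', if_true, if_false] at hcc
        exact absurd hcc (by simp)
    · by_cases hc' : c' = 0
      · simp only [G, hc, hc', if_true, if_false] at hcc
        exact absurd hcc (by simp)
      · simp only [G, hc, hc', if_false, Option.some.injEq] at hcc
        exact hcinj (hι _ _ (hsurj c hc) (hsurj c' hc') hcc)
  have hcard := Nat.card_le_card_of_injective G hG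
  rw [Finite.card_option, Nat.card_fun, Nat.card_fun, Nat.card_fin, Nat.card_fin, pow_succ] at hcard
  have hpos : 1 ≤ Nat.card (ResidueField 𝒪) ^ r := Nat.one_le_pow _ _ (by omega)
  nlinarith

end Gen

/-! ## Complete lifting -/

section Lift

variable {𝒪 : Type} [CommRing 𝒪] [IsLocalRing 𝒪] [IsNoetherianRing 𝒪]
  [IsAdicComplete (maximalIdeal 𝒪) 𝒪]
variable {A : Type} [CommRing A] [IsLocalRing A] [IsNoetherianRing A]
  [IsAdicComplete (maximalIdeal A) A] [Algebra 𝒪 A] [IsLocalHom (algebraMap 𝒪 A)]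

/-- For a complete Noetherian local `𝒪`-algebra `A` with residue field generated by `𝒪`,
generators of `𝔪_A` modulo `𝔪_𝒪 A + 𝔪_A²` give a surjection `𝒪⟦X⟧ → A`. -/
theorem liftHom_surjective_of_generators
    (hs : Function.Surjective (residue A ∘ algebraMap 𝒪 A)) {σ : Type} [Finite σ]
    (x : σ → A) (hx : ∀ i, x i ∈ maximalIdeal A)
    (hgen : maximalIdeal A ≤ (maximalIdeal 𝒪).map (algebraMap 𝒪 A) ⊔ maximalIdeal A ^ 2 ⊔
        Ideal.span (Set.range x)) :
    Function.Surjective (helper1433.liftHom (𝒪 := 𝒪) (maximalIdeal A) x hx) := by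
  set φ : MvPowerSeries σ 𝒪 →ₐ[𝒪] A := helper1433.liftHom (𝒪 := 𝒪) (maximalIdeal A) x hx with hφ
  have hI : maximalIdeal A ≤ (maximalIdeal 𝒪).map (algebraMap 𝒪 A) ⊔ Ideal.span (Set.range x) := by
    apply helper413.maximalIdeal_le_of_le_sup_sq
    rw [sup_right_comm]
    exact hgen
  have hX : ∀ i, φ (MvPowerSeries.X i) = x i := fun i => helper1433.liftHom_X _ x hx i
  have hmap : (maximalIdeal (MvPowerSeries σ 𝒪)).map (φ : MvPowerSeries σ 𝒪 →+* A) =
      maximalIdeal A := by
    apply le_antisymm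
    · rw [helper1433.maximalIdeal_eq_sup, Ideal.map_sup]
      refine sup_le ?_ ?_
      · rw [Ideal.map_span, Ideal.span_le]
        rintro _ ⟨_, ⟨i, rfl⟩, rfl⟩
        rw [RingHom.coe_coe, hX]
        exact hx i
      · rw [Ideal.map_map, Ideal.map_le_iff_le_comap]
        intro c hc
        rw [Ideal.mem_comap, RingHom.comp_apply, RingHom.coe_coe, AlgHom.commutes]
        exact helper1433.algebraMap_mem_maximalIdeal_of_residue_surjective hs hc
    · refine hI.trans (sup_le ?_ ?_)
      · have h1 : (maximalIdeal 𝒪).map (algebraMap 𝒪 A) =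
            ((maximalIdeal 𝒪).map (algebraMap 𝒪 (MvPowerSeries σ 𝒪))).map
              (φ : MvPowerSeries σ 𝒪 →+* A) := by
          rw [Ideal.map_map]
          congr 1
          ext c
          simp
        rw [h1]
        apply Ideal.map_mono
        rw [helper1433.maximalIdeal_eq_sup]
        exact le_sup_right
      · rw [Ideal.span_le]
        rintro _ ⟨i, rfl⟩
        rw [← hX i]
        apply Ideal.mem_map_of_mem
        rw [helper1433.maximalIdeal_eq_sup]
        exact Ideal.mem_sup_left (Ideal.subset_span ⟨i, rfl⟩)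
  have : IsPrecomplete (maximalIdeal (MvPowerSeries σ 𝒪)) (MvPowerSeries σ 𝒪) :=
    (helper1433.isAdicComplete_maximalIdeal_mvPowerSeries (𝒪 := 𝒪) (σ := σ)).toIsPrecomplete
  have : IsHausdorff ((maximalIdeal (MvPowerSeries σ 𝒪)).map (φ : MvPowerSeries σ 𝒪 →+* A)) A := by
    rw [hmap]
    infer_instance
  have hsurj := surjective_of_mk_map_comp_surjective (I := maximalIdeal (MvPowerSeries σ 𝒪))
    (φ : MvPowerSeries σ 𝒪 →+* A) (by
      intro y
      obtain ⟨a, rfl⟩ := Ideal.Quotient.mk_surjective y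
      obtain ⟨c, hc⟩ := hs (residue A a)
      rw [Function.comp_apply] at hc
      refine ⟨algebraMap 𝒪 _ c, ?_⟩
      rw [RingHom.comp_apply, RingHom.coe_coe, AlgHom.commutes,
        Ideal.Quotient.mk_eq_mk_iff_sub_mem, hmap, ← residue_eq_zero_iff, map_sub, hc, sub_self])
  exact hsurj

/-- **(T1) CNL**: if the `𝒪`-algebra maps `A → k[ε]` inject into `k^r`, then `A` is a quotient
of `𝒪⟦X₁, …, X_r⟧`. -/
theorem exists_mvPowerSeries_surjective [Finite (ResidueField 𝒪)]
    (hs : Function.Surjective (residue A ∘ algebraMap 𝒪 A)) (r : ℕ)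
    (ι : (A →ₐ[𝒪] DualNumber (ResidueField 𝒪)) → (Fin r → ResidueField 𝒪))
    (hι : Function.Injective ι) :
    ∃ γ : MvPowerSeries (Fin r) 𝒪 →ₐ[𝒪] A, Function.Surjective γ := by
  obtain ⟨x, hx, hgen⟩ := exists_fin_generators_sharp hs r ι hι
  exact ⟨_, liftHom_surjective_of_generators hs x hx hgen⟩

/-- **(T1) CNL, surjective form**: if `#k ≥ 3` and the surjective `𝒪`-algebra maps `A → k[ε]`
inject into `k^r`, then `A` is a quotient of `𝒪⟦X₁, …, X_r⟧`. -/
theorem exists_mvPowerSeries_surjective_of_injOn_surjective [Finite (ResidueField 𝒪)]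
    (h3 : 3 ≤ Nat.card (ResidueField 𝒪))
    (hs : Function.Surjective (residue A ∘ algebraMap 𝒪 A)) (r : ℕ)
    (ι : (A →ₐ[𝒪] DualNumber (ResidueField 𝒪)) → (Fin r → ResidueField 𝒪))
    (hι : ∀ f g : A →ₐ[𝒪] DualNumber (ResidueField 𝒪), Function.Surjective f →
      Function.Surjective g → ι f = ι g → f = g) :
    ∃ γ : MvPowerSeries (Fin r) 𝒪 →ₐ[𝒪] A, Function.Surjective γ := by
  obtain ⟨x, hx, hgen⟩ := exists_fin_generators_of_injOn_surjective h3 hs r ι hι
  exact ⟨_, liftHom_surjective_of_generators hs x hx hgen⟩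

end Lift

/-- **(T1)** for a deformation ring: a bound `#Hom_𝒪(R, k[ε]) ≤ #k^r` (as an injection) gives a
surjection from the power series ring in `r` variables. -/
theorem exists_surjective_of_deformationRingData {𝒪 : Type} [CommRing 𝒪] [IsDomain 𝒪]
    [IsDiscreteValuationRing 𝒪] [IsAdicComplete (maximalIdeal 𝒪) 𝒪] [Finite (ResidueField 𝒪)]
    {ρbar : ResidualGaloisRep (ResidueField 𝒪)}
    {𝒟 : ∀ ⦃A : Type⦄ [CommRing A] [IsLocalRing A] [Algebra 𝒪 A], GaloisRepAdic A → Prop}
    (DQ : GaloisRep.DeformationRingData 𝒪 ρbar 𝒟) (r : ℕ)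
    (ι : (DQ.R →ₐ[𝒪] DualNumber (ResidueField 𝒪)) → (Fin r → ResidueField 𝒪))
    (hι : Function.Injective ι) :
    ∃ γ : MvPowerSeries (Fin r) 𝒪 →ₐ[𝒪] DQ.R, Function.Surjective γ :=
  exists_mvPowerSeries_surjective DQ.residue_surjective r ι hι

/-! ## (T2) The tangent dictionary, level 0 -/

section Dict

/-- `k[ε]` is complete for its maximal ideal. -/
theorem dual_isAdicComplete (𝒪 : Type) [CommRing 𝒪] [IsLocalRing 𝒪] :
    IsAdicComplete (maximalIdeal (DualNumber (ResidueField 𝒪))) (DualNumber (ResidueField 𝒪)) := by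
  have h1 : IsAdicComplete (maximalIdeal (ResidueField 𝒪)) (ResidueField 𝒪) := by
    rw [IsLocalRing.maximalIdeal_eq_bot]
    infer_instance
  have h2 : IsLocalHom (algebraMap (ResidueField 𝒪) (DualNumber (ResidueField 𝒪))) :=
    ⟨fun x hx => by
      rw [TrivSqZeroExt.algebraMap_eq_inl, TrivSqZeroExt.isUnit_inl_iff] at hx
      exact hx⟩
  exact IsLocalRing.isAdicComplete_of_module_finite (𝒪 := ResidueField 𝒪)

variable {𝒪 : Type} [CommRing 𝒪] [IsDomain 𝒪] [IsDiscreteValuationRing 𝒪]
  [IsAdicComplete (maximalIdeal 𝒪) 𝒪]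

/-- The residual-compatibility clause of `DeformationRingData.universal` for a representation
over `k[ε]` (with the `𝒪`-algebra structure `helper413.dualAlgebra`). -/
def IsDualLift (ρbar : ResidualGaloisRep (ResidueField 𝒪))
    (ρ : GaloisRepAdic (DualNumber (ResidueField 𝒪))) : Prop :=
  ρ.residual.IsEquiv (ρbar.baseChangeAlong
    (ResidueField.map (algebraMap 𝒪 (DualNumber (ResidueField 𝒪)))))

/-- **Tangent classifier**: a `k^r`-valued invariant of representations over `k[ε]` that
separates the equivalence classes of the `𝒟`-deformations of `ρbar` to `k[ε]`. -/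
def TanClassifier (ρbar : ResidualGaloisRep (ResidueField 𝒪))
    (𝒟 : ∀ ⦃A : Type⦄ [CommRing A] [IsLocalRing A] [Algebra 𝒪 A], GaloisRepAdic A → Prop)
    (r : ℕ) : Prop :=
  ∃ c : GaloisRepAdic (DualNumber (ResidueField 𝒪)) → (Fin r → ResidueField 𝒪),
    ∀ ρ ρ' : GaloisRepAdic (DualNumber (ResidueField 𝒪)), 𝒟 ρ → 𝒟 ρ' →
      IsDualLift ρbar ρ → IsDualLift ρbar ρ' → c ρ = c ρ' → ρ.IsEquiv ρ'

/-- Every push-forward of the universal deformation to `k[ε]` lifts `ρbar`. -/
theorem baseChange_isDualLift {ρbar : ResidualGaloisRep (ResidueField 𝒪)}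
    {𝒟 : ∀ ⦃A : Type⦄ [CommRing A] [IsLocalRing A] [Algebra 𝒪 A], GaloisRepAdic A → Prop}
    (DQ : GaloisRep.DeformationRingData 𝒪 ρbar 𝒟)
    (φ : DQ.R →ₐ[𝒪] DualNumber (ResidueField 𝒪))
    (hφ : IsLocalHom (φ : DQ.R →+* DualNumber (ResidueField 𝒪))) :
    IsDualLift ρbar (DQ.ρ.baseChangeAlong (φ : DQ.R →+* DualNumber (ResidueField 𝒪)) hφ) := by
  have := hφ
  obtain ⟨e1⟩ := helper1793.residual_baseChangeAlong
    (φ : DQ.R →+* DualNumber (ResidueField 𝒪)) DQ.ρ
  obtain ⟨e⟩ := DQ.residual_isEquiv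
  have e2 := e.baseChangeAlong (ResidueField.map (φ : DQ.R →+* DualNumber (ResidueField 𝒪)))
  have h3 := helper1793.resBaseChangeAlong_comp (ResidueField.map (algebraMap 𝒪 DQ.R))
    (ResidueField.map (φ : DQ.R →+* DualNumber (ResidueField 𝒪))) ρbar
  have h4 : (ResidueField.map (φ : DQ.R →+* DualNumber (ResidueField 𝒪))).comp
      (ResidueField.map (algebraMap 𝒪 DQ.R)) =
      ResidueField.map (algebraMap 𝒪 (DualNumber (ResidueField 𝒪))) := by
    ext x
    obtain ⟨c, rfl⟩ := residue_surjective x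
    rw [RingHom.comp_apply, ResidueField.map_residue, ResidueField.map_residue,
      ResidueField.map_residue]
    congr 1
    exact φ.commutes c
  rw [h4] at h3
  obtain ⟨e3⟩ := h3
  exact ⟨(e1.trans e2).trans e3⟩

/-- **(T2) DICT-0**: a tangent classifier gives a `k^r`-valued invariant of the `𝒪`-algebra
maps `R → k[ε]` that is injective on the surjective ones.  Only base change of `𝒟` along
*surjective* maps `R → k[ε]` is used. -/
theorem exists_injOn_surjective_of_tanClassifier {ρbar : ResidualGaloisRep (ResidueField 𝒪)}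
    {𝒟 : ∀ ⦃A : Type⦄ [CommRing A] [IsLocalRing A] [Algebra 𝒪 A], GaloisRepAdic A → Prop}
    (DQ : GaloisRep.DeformationRingData 𝒪 ρbar 𝒟) (r : ℕ)
    (hbc : ∀ (φ : DQ.R →ₐ[𝒪] DualNumber (ResidueField 𝒪))
      (hφ : IsLocalHom (φ : DQ.R →+* DualNumber (ResidueField 𝒪))), Function.Surjective φ →
      𝒟 (DQ.ρ.baseChangeAlong (φ : DQ.R →+* DualNumber (ResidueField 𝒪)) hφ))
    (hc : TanClassifier ρbar 𝒟 r) :
    ∃ ι : (DQ.R →ₐ[𝒪] DualNumber (ResidueField 𝒪)) → (Fin r → ResidueField 𝒪),
      ∀ f g : DQ.R →ₐ[𝒪] DualNumber (ResidueField 𝒪), Function.Surjective f →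
        Function.Surjective g → ι f = ι g → f = g := by
  obtain ⟨c, hc⟩ := hc
  have hloc : ∀ φ : DQ.R →ₐ[𝒪] DualNumber (ResidueField 𝒪),
      IsLocalHom (φ : DQ.R →+* DualNumber (ResidueField 𝒪)) := fun φ =>
    helper533.isLocalHom_of_residue_surjective 𝒪 (helper413.dual_residue_surjective 𝒪) φ
  refine ⟨fun φ => c (DQ.ρ.baseChangeAlong (φ : DQ.R →+* DualNumber (ResidueField 𝒪)) (hloc φ)),
    fun f g hf hg hfg => ?_⟩
  have hDf := hbc f (hloc f) hf
  have hDg := hbc g (hloc g) hg
  have heq := hc _ _ hDf hDg (baseChange_isDualLift DQ f (hloc f))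
    (baseChange_isDualLift DQ g (hloc g)) hfg
  have := dual_isAdicComplete 𝒪
  obtain ⟨ψ, -, huniq⟩ := DQ.universal (DualNumber (ResidueField 𝒪))
    (helper413.dual_residue_surjective 𝒪) _ hDg (baseChange_isDualLift DQ g (hloc g))
  have h1 : f = ψ := huniq f ⟨hloc f, heq⟩
  have h2 : g = ψ := huniq g ⟨hloc g, ⟨GaloisRepAdic.Equiv.refl _⟩⟩
  rw [h1, h2]

/-- **(T1)+(T2)**: a tangent classifier with values in `k^r` (and `#k ≥ 3`) makes the
deformation ring a quotient of the power series ring in `r` variables. -/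
theorem exists_surjective_of_tanClassifier [Finite (ResidueField 𝒪)]
    (h3 : 3 ≤ Nat.card (ResidueField 𝒪)) {ρbar : ResidualGaloisRep (ResidueField 𝒪)}
    {𝒟 : ∀ ⦃A : Type⦄ [CommRing A] [IsLocalRing A] [Algebra 𝒪 A], GaloisRepAdic A → Prop}
    (DQ : GaloisRep.DeformationRingData 𝒪 ρbar 𝒟) (r : ℕ)
    (hbc : ∀ (φ : DQ.R →ₐ[𝒪] DualNumber (ResidueField 𝒪))
      (hφ : IsLocalHom (φ : DQ.R →+* DualNumber (ResidueField 𝒪))), Function.Surjective φ →
      𝒟 (DQ.ρ.baseChangeAlong (φ : DQ.R →+* DualNumber (ResidueField 𝒪)) hφ))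
    (hc : TanClassifier ρbar 𝒟 r) :
    ∃ γ : MvPowerSeries (Fin r) 𝒪 →ₐ[𝒪] DQ.R, Function.Surjective γ := by
  obtain ⟨ι, hι⟩ := exists_injOn_surjective_of_tanClassifier DQ r hbc hc
  exact exists_mvPowerSeries_surjective_of_injOn_surjective h3 DQ.residue_surjective r ι hι

end Dict

end Fermat.Agent.S56.helper6587
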