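import Fermat.Agent.S56.helper7539_Stable
import Fermat.Agent.S56.helper2229_TopSpec

/-!
# S56, TOP-STABLE adapter (helper7539)

The two stability `Prop`s of the TOP SPEC (`helper2229.Stmt_StableSO`, `helper2229.Stmt_StableFL`)
are theorems: they are instances of `strictHalf_baseChangeAlong` / `flatHalf_baseChangeAlong`.
-/

set_option autoImplicit false

namespace Fermat.Agent.S56.helper7539

/-- `Stmt_StableSO` of the TOP SPEC holds (surjectivity is not even needed). -/
theorem stmt_StableSO : Fermat.Agent.S56.helper2229.Stmt_StableSO :=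
  fun _𝒪 _ _p _Smin _T _A _B _ _ _ _ _ _ φ hφ _hsurj _ρ h => strictHalf_baseChangeAlong φ hφ h

/-- `Stmt_StableFL` of the TOP SPEC holds. -/
theorem stmt_StableFL : Fermat.Agent.S56.helper2229.Stmt_StableFL :=
  fun _𝒪 _ _p _Smin _T _A _B _ _ _ _ _ _ φ hφ hsurj _ρ h => flatHalf_baseChangeAlong φ hφ hsurj h

end Fermat.Agent.S56.helper7539
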