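/-
S56, TOP ASSEMBLY.  Author: helper2229.

The three commutative-algebra inputs of `helper2229_TopSpec.result_of` are discharged:

* `Stmt_StableSO`, `Stmt_StableFL` : helper7539 (`helper7539_StableSpec`).
* `stmt_CNL` : `Stmt_CNL`, from helper6587's CNL theorem (`helper6587_TopSpec`) by the adapter
  from the family-form tangent bound `TanBound` to an injection of the surjective maps
  `R → k[ε]` into `k^r`; the separation of the surjective maps is the uniqueness clause of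
  `universal`.
* `result_of_counts` : the LITERAL frozen statement S56 from the two count `Prop`s
  `Stmt_CountSO`, `Stmt_CountFL` alone.
-/
import Mathlib
import Fermat.Agent.S56.helper2229_TopSpec
import Fermat.Agent.S56.helper6587_TopSpec
import Fermat.Agent.S56.helper7539_StableSpec

set_option autoImplicit false

namespace Fermat.Agent.S56.helper2229

open Polynomial IsLocalRing
open Fermat.Agent.S53

attribute [local instance] Fermat.Agent.S53.helper413.dualAlgebra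

section CNL

variable {𝒪 : Type} [CommRing 𝒪] [IsDomain 𝒪] [IsDiscreteValuationRing 𝒪]
  [IsAdicComplete (maximalIdeal 𝒪) 𝒪]

/-- Every `𝒪`-algebra map from the deformation ring to `k[ε]` is local. -/
theorem isLocalHom_dual {ρbar : ResidualGaloisRep (ResidueField 𝒪)}
    {𝒟 : ∀ ⦃A : Type⦄ [CommRing A] [IsLocalRing A] [Algebra 𝒪 A], GaloisRepAdic A → Prop}
    (DQ : GaloisRep.DeformationRingData 𝒪 ρbar 𝒟)
    (φ : DQ.R →ₐ[𝒪] DualNumber (ResidueField 𝒪)) :
    IsLocalHom (φ : DQ.R →+* DualNumber (ResidueField 𝒪)) :=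
  helper533.isLocalHom_of_residue_surjective 𝒪 (helper413.dual_residue_surjective 𝒪) φ

/-- **Separation by the universal property.**  Two `𝒪`-algebra maps `f, g : R → k[ε]` whose
push-forwards of the universal deformation are equivalent are equal, as soon as the
push-forward along `g` is of type `𝒟`. -/
theorem eq_of_isEquiv_baseChangeAlong {ρbar : ResidualGaloisRep (ResidueField 𝒪)}
    {𝒟 : ∀ ⦃A : Type⦄ [CommRing A] [IsLocalRing A] [Algebra 𝒪 A], GaloisRepAdic A → Prop}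
    (DQ : GaloisRep.DeformationRingData 𝒪 ρbar 𝒟)
    (f g : DQ.R →ₐ[𝒪] DualNumber (ResidueField 𝒪))
    (hDg : 𝒟 (DQ.ρ.baseChangeAlong (g : DQ.R →+* DualNumber (ResidueField 𝒪))
      (isLocalHom_dual DQ g)))
    (heq : (DQ.ρ.baseChangeAlong (f : DQ.R →+* DualNumber (ResidueField 𝒪))
        (isLocalHom_dual DQ f)).IsEquiv
      (DQ.ρ.baseChangeAlong (g : DQ.R →+* DualNumber (ResidueField 𝒪))
        (isLocalHom_dual DQ g))) : f = g := by
  have := helper6587.dual_isAdicComplete 𝒪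
  obtain ⟨ψ, -, huniq⟩ := DQ.universal (DualNumber (ResidueField 𝒪))
    (helper413.dual_residue_surjective 𝒪) _ hDg
    (helper6587.baseChange_isDualLift DQ g (isLocalHom_dual DQ g))
  have h1 : f = ψ := huniq f ⟨isLocalHom_dual DQ f, heq⟩
  have h2 : g = ψ := huniq g ⟨isLocalHom_dual DQ g, ⟨GaloisRepAdic.Equiv.refl _⟩⟩
  rw [h1, h2]

/-- **Counting the surjective tangent vectors.**  Under the tangent bound `N` (and stability of
`𝒟` along the surjective maps `R → k[ε]`), the set of surjective `𝒪`-algebra maps `R → k[ε]`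
is finite with at most `N` elements. -/
theorem finite_and_card_surjective_le {ρbar : ResidualGaloisRep (ResidueField 𝒪)}
    {𝒟 : ∀ ⦃A : Type⦄ [CommRing A] [IsLocalRing A] [Algebra 𝒪 A], GaloisRepAdic A → Prop}
    (DQ : GaloisRep.DeformationRingData 𝒪 ρbar 𝒟) (N : ℕ)
    (hbc : ∀ (φ : DQ.R →ₐ[𝒪] DualNumber (ResidueField 𝒪))
      (hφ : IsLocalHom (φ : DQ.R →+* DualNumber (ResidueField 𝒪))), Function.Surjective φ →
      𝒟 (DQ.ρ.baseChangeAlong (φ : DQ.R →+* DualNumber (ResidueField 𝒪)) hφ))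
    (hT : TanBound 𝒪 ρbar 𝒟 N) :
    Finite {φ : DQ.R →ₐ[𝒪] DualNumber (ResidueField 𝒪) // Function.Surjective φ} ∧
      Nat.card {φ : DQ.R →ₐ[𝒪] DualNumber (ResidueField 𝒪) // Function.Surjective φ} ≤ N := by
  classical
  -- every finite set of surjective maps has at most `N` elements
  have key : ∀ s : Finset {φ : DQ.R →ₐ[𝒪] DualNumber (ResidueField 𝒪) // Function.Surjective φ},
      s.card ≤ N := by
    intro s
    have h := hT.card_le (ι := ↥s)
      (fun φ => DQ.ρ.baseChangeAlong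
        ((φ.1.1 : DQ.R →ₐ[𝒪] DualNumber (ResidueField 𝒪)) :
          DQ.R →+* DualNumber (ResidueField 𝒪)) (isLocalHom_dual DQ φ.1.1))
      (fun φ => hbc φ.1.1 (isLocalHom_dual DQ φ.1.1) φ.1.2)
      (fun φ => helper6587.baseChange_isDualLift DQ φ.1.1 (isLocalHom_dual DQ φ.1.1))
      (fun φ ψ hφψ => by
        have h1 : φ.1.1 = ψ.1.1 :=
          eq_of_isEquiv_baseChangeAlong DQ φ.1.1 ψ.1.1
            (hbc ψ.1.1 (isLocalHom_dual DQ ψ.1.1) ψ.1.2) hφψ
        exact Subtype.ext (Subtype.ext h1))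
    rwa [Nat.card_eq_fintype_card, Fintype.card_coe] at h
  have hfin : Finite {φ : DQ.R →ₐ[𝒪] DualNumber (ResidueField 𝒪) // Function.Surjective φ} := by
    by_contra hinf
    rw [not_finite_iff_infinite] at hinf
    obtain ⟨s, hs⟩ := Infinite.exists_subset_card_eq
      {φ : DQ.R →ₐ[𝒪] DualNumber (ResidueField 𝒪) // Function.Surjective φ} (N + 1)
    have := key s
    omega
  refine ⟨hfin, ?_⟩
  let _ := Fintype.ofFinite
    {φ : DQ.R →ₐ[𝒪] DualNumber (ResidueField 𝒪) // Function.Surjective φ}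
  rw [Nat.card_eq_fintype_card, ← Finset.card_univ]
  exact key _

/-- **Generator bound from the tangent bound** (helper6587's CNL theorem, in the shape of
`Stmt_CNL`). -/
theorem stmt_CNL : Stmt_CNL := by
  intro 𝒪 _ _ _ _ _ hk ρbar 𝒟 DQ r hbc hT
  classical
  obtain ⟨hfin, hcard⟩ := finite_and_card_surjective_le DQ _ hbc hT
  let _ := Fintype.ofFinite
    {φ : DQ.R →ₐ[𝒪] DualNumber (ResidueField 𝒪) // Function.Surjective φ}
  let _ := Fintype.ofFinite (ResidueField 𝒪)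
  have hcard' : Fintype.card
      {φ : DQ.R →ₐ[𝒪] DualNumber (ResidueField 𝒪) // Function.Surjective φ} ≤
      Fintype.card (Fin r → ResidueField 𝒪) := by
    rw [Nat.card_eq_fintype_card, Nat.card_eq_fintype_card] at hcard
    rwa [Fintype.card_fun, Fintype.card_fin]
  obtain ⟨e⟩ := Function.Embedding.nonempty_of_card_le hcard'
  refine helper6587.exists_mvPowerSeries_surjective_of_injOn_surjective hk DQ.residue_surjective r
    (fun φ => if h : Function.Surjective φ then e ⟨φ, h⟩ else fun _ => 0) ?_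
  intro f g hf hg hfg
  rw [dif_pos hf, dif_pos hg] at hfg
  exact congrArg Subtype.val (e.injective hfg)

end CNL

/-- **TOP of S56, final form.**  The literal frozen statement S56 from the two Selmer counts
`Stmt_CountSO` and `Stmt_CountFL`. -/
theorem result_of_counts (hSO : Stmt_CountSO) (hFL : Stmt_CountFL)
    {𝒪 : Type} [CommRing 𝒪] [IsDomain 𝒪] [IsDiscreteValuationRing 𝒪]
    [IsAdicComplete (maximalIdeal 𝒪) 𝒪] [Finite (ResidueField 𝒪)]
    (p : ℕ) [Fact p.Prime] (hp2 : p ≠ 2) (hp𝒪 : (p : 𝒪) ∈ maximalIdeal 𝒪)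
    (ρbar : ResidualGaloisRep (ResidueField 𝒪))
    (habs : ρbar.IsAbsolutelyIrreducible)
    (hdet : (GaloisRepAdic.ofResidualGaloisRep ρbar).DetIsCyclotomic p)
    (hsplit : ∀ σ : AlgebraicClosure ℚ ≃ₐ[ℚ] AlgebraicClosure ℚ,
      ∃ α β : ResidueField 𝒪, LinearMap.charpoly (ρbar.ρ σ) = (X - C α) * (X - C β))
    (hTW : ∀ (K : Type) [Field K] [Algebra (ResidueField 𝒪) K]
      (G : Subgroup (AlgebraicClosure ℚ ≃ₐ[ℚ] AlgebraicClosure ℚ)), G.index = 2 →
      ∀ V : Submodule K (ρbar.baseChange K).V,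
        (∀ σ ∈ G, ∀ x ∈ V, (ρbar.baseChange K).ρ σ x ∈ V) → V = ⊥ ∨ V = ⊤)
    (S Smin : Finset ℕ) (hpSmin : p ∈ Smin) (hSmin : Smin ⊆ S) (hS : ∀ q ∈ S, q.Prime)
    (hmin : ∀ q : ℕ, q.Prime → q ≠ p → (q ∈ Smin ↔ ¬ ρbar.IsUnramifiedAt q)) :
    (∃ r : ℕ, ∀ n : ℕ, ∃ qv : Fin r → ℕ, Function.Injective qv ∧
      (∀ i, (qv i).Prime ∧ qv i ∉ S ∧ p ^ (n + 1) ∣ qv i - 1) ∧
      (∀ i, ∀ P : ValuationSubring (AlgebraicClosure ℚ), P.LiesOverPrime (qv i) →
        ∀ φ : AlgebraicClosure ℚ ≃ₐ[ℚ] AlgebraicClosure ℚ, P.IsFrobeniusAt φ (qv i) →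
          ∃ α β : ResidueField 𝒪, α ≠ β ∧ LinearMap.charpoly (ρbar.ρ φ) = (X - C α) * (X - C β)) ∧
      ∀ DQ : GaloisRep.DeformationRingData 𝒪 ρbar (fun _A _ _ _ ρ =>
          GaloisRep.strictOrdinaryCondition 𝒪 p (Smin ∪ Finset.univ.image qv) ρ ∧
            ∀ q ∈ Smin, q.Prime → q ≠ p → ρ.IsUnipotentOnInertiaAt q),
        ∃ γ : MvPowerSeries (Fin r) 𝒪 →ₐ[𝒪] DQ.R, Function.Surjective γ) ∧
    (∃ r : ℕ, ∀ n : ℕ, ∃ qv : Fin r → ℕ, Function.Injective qv ∧
      (∀ i, (qv i).Prime ∧ qv i ∉ S ∧ p ^ (n + 1) ∣ qv i - 1) ∧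
      (∀ i, ∀ P : ValuationSubring (AlgebraicClosure ℚ), P.LiesOverPrime (qv i) →
        ∀ φ : AlgebraicClosure ℚ ≃ₐ[ℚ] AlgebraicClosure ℚ, P.IsFrobeniusAt φ (qv i) →
          ∃ α β : ResidueField 𝒪, α ≠ β ∧ LinearMap.charpoly (ρbar.ρ φ) = (X - C α) * (X - C β)) ∧
      ∀ DQ : GaloisRep.DeformationRingData 𝒪 ρbar (fun _A _ _ _ ρ =>
          GaloisRep.flatCondition 𝒪 p (Smin ∪ Finset.univ.image qv) ρ ∧
            ∀ q ∈ Smin, q.Prime → q ≠ p → ρ.IsUnipotentOnInertiaAt q),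
        ∃ γ : MvPowerSeries (Fin r) 𝒪 →ₐ[𝒪] DQ.R, Function.Surjective γ) :=
  result_of stmt_CNL helper7539.stmt_StableSO helper7539.stmt_StableFL hSO hFL p hp2 hp𝒪 ρbar habs hdet hsplit hTW
    S Smin hpSmin hSmin hS hmin

end Fermat.Agent.S56.helper2229
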