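/-
S56, FLAT-LOCAL, design D ("elementwise displacement"), bricks (PT) and (KUM').
Mathlib only.  helper3320.

* (PT)   `translation_identity`, `translation_bound`, `exists_translation_le`,
         `exists_galois_displacement_le` : for a function `h` on a group `V` with an expansion
         `h (a + b) = ∑ i, g₁ i a * g₂ i b`,
         `h t - h 0 = ∑ i, (g₁ i (x + t) - g₁ i x) * g₂ i (-x)`;
         hence some `g₁ i` is displaced by `x ↦ x + t` at least as much as `h` is displaced by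
         `0 ↦ t` (no antipode, no base change, no discriminant).
* (K0)   `valuation_root_pow_sub_one` : `v (ζ ^ j - 1) = v (ζ - 1)` for `p ∤ j`.
* (LEV)  `valuation_sub_one_of_level` : `v (y ^ p - 1) = γ ^ m`, `m < p E` gives
         `v (y - 1) ^ p = γ ^ m` and `γ ^ E < v (y - 1)`.
* (KUM') `kummer_unit_displacement` (unit radicand of level `m`, `p ∤ m`, `0 < m < p E`) and
         `kummer_nonunit_displacement` (radicand of valuation `γ ^ s`, `p ∤ s`):
         every `b = ∑ k < p, a k * λ ^ k` (`λ = y - 1` resp. `y`, coefficients with values in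
         `γ ^ ℤ ∪ {0}`) with `v b ≤ 1` satisfies
         `v (σ b - b) ^ p ≤ γ ^ (p E - m + 1)` resp. `γ ^ (p E + 1)`, where `σ b` is `b` with
         `y` replaced by `ζ y`.  Polynomial forms (`_aeval`) and ring-hom forms (`_ringHom`)
         for coefficients in a subfield `K` follow.

All valuations are multiplicative (`v x ≤ 1` = integral), `γ = v π < 1` is the value of a
uniformiser of the coefficient field, `v (ζ - 1) = γ ^ E`.
-/
import Mathlib

set_option autoImplicit false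

namespace Fermat.Agent.S56.helper3320

open Finset Polynomial

/-! ### (PT) the pointwise translation identity -/

section PT

variable {V R ι : Type*} [AddCommGroup V] [CommRing R]

/-- **(PT)** If `h (a + b) = ∑ i, g₁ i a * g₂ i b` then
`h t - h 0 = ∑ i, (g₁ i (x + t) - g₁ i x) * g₂ i (-x)` for every `x`. -/
theorem translation_identity (s : Finset ι) (h : V → R) (g₁ g₂ : ι → V → R)
    (hΔ : ∀ a b : V, h (a + b) = ∑ i ∈ s, g₁ i a * g₂ i b) (x t : V) :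
    h t - h 0 = ∑ i ∈ s, (g₁ i (x + t) - g₁ i x) * g₂ i (-x) := by
  have h1 : h t = ∑ i ∈ s, g₁ i (x + t) * g₂ i (-x) := by
    rw [← hΔ]
    congr 1
    abel
  have h0 : h 0 = ∑ i ∈ s, g₁ i x * g₂ i (-x) := by
    rw [← hΔ]
    congr 1
    abel
  rw [h1, h0, ← Finset.sum_sub_distrib]
  exact Finset.sum_congr rfl fun i _ => by ring

variable {Γ₀ : Type*} [LinearOrderedCommGroupWithZero Γ₀]

/-- (PT), valuation form: if the second legs are integral at `-x` and every first leg is displaced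
by at most `c` under `x ↦ x + t`, then `h` is displaced by at most `c` under `0 ↦ t`. -/
theorem translation_bound (v : Valuation R Γ₀) (s : Finset ι) (h : V → R) (g₁ g₂ : ι → V → R)
    (hΔ : ∀ a b : V, h (a + b) = ∑ i ∈ s, g₁ i a * g₂ i b) (x t : V)
    (hint : ∀ i ∈ s, v (g₂ i (-x)) ≤ 1) (c : Γ₀)
    (hc : ∀ i ∈ s, v (g₁ i (x + t) - g₁ i x) ≤ c) : v (h t - h 0) ≤ c := by
  rw [translation_identity s h g₁ g₂ hΔ x t]
  refine v.map_sum_le fun i hi => ?_
  rw [map_mul]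
  calc v (g₁ i (x + t) - g₁ i x) * v (g₂ i (-x)) ≤ c * 1 := mul_le_mul' (hc i hi) (hint i hi)
    _ = c := mul_one c

/-- (PT), existence form: if `h t ≠ h 0`, some first leg `g₁ i` satisfies
`v (h t - h 0) ≤ v (g₁ i (x + t) - g₁ i x)`. -/
theorem exists_translation_le (v : Valuation R Γ₀) (s : Finset ι) (h : V → R)
    (g₁ g₂ : ι → V → R) (hΔ : ∀ a b : V, h (a + b) = ∑ i ∈ s, g₁ i a * g₂ i b) (x t : V)
    (hint : ∀ i ∈ s, v (g₂ i (-x)) ≤ 1) (hne : v (h t - h 0) ≠ 0) :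
    ∃ i ∈ s, v (h t - h 0) ≤ v (g₁ i (x + t) - g₁ i x) := by
  by_contra hcon
  push Not at hcon
  have hlt : v (h t - h 0) < v (h t - h 0) := by
    conv_lhs => rw [translation_identity s h g₁ g₂ hΔ x t]
    refine v.map_sum_lt hne fun i hi => ?_
    rw [map_mul]
    calc v (g₁ i (x + t) - g₁ i x) * v (g₂ i (-x)) ≤ v (g₁ i (x + t) - g₁ i x) * 1 :=
          mul_le_mul' le_rfl (hint i hi)
      _ = v (g₁ i (x + t) - g₁ i x) := mul_one _
      _ < v (h t - h 0) := hcon i hi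
  exact lt_irrefl _ hlt

/-- (PT), Galois form: if a ring endomorphism `σ` of the value ring and a map `act` of the points
satisfy `g₁ i (act x) = σ (g₁ i x)` (equivariant functions), then some `z = g₁ i x` has
`v (h (act x - x) - h 0) ≤ v (σ z - z)`: the element `z` is moved by `σ` at least as much as the
depth of the displacement `act x - x`. -/
theorem exists_galois_displacement_le (v : Valuation R Γ₀) (s : Finset ι) (h : V → R)
    (g₁ g₂ : ι → V → R) (hΔ : ∀ a b : V, h (a + b) = ∑ i ∈ s, g₁ i a * g₂ i b)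
    (σ : R →+* R) (act : V → V) (x : V) (hact : ∀ i ∈ s, g₁ i (act x) = σ (g₁ i x))
    (hint : ∀ i ∈ s, v (g₂ i (-x)) ≤ 1) (hne : v (h (act x - x) - h 0) ≠ 0) :
    ∃ i ∈ s, v (h (act x - x) - h 0) ≤ v (σ (g₁ i x) - g₁ i x) := by
  obtain ⟨i, hi, hle⟩ := exists_translation_le v s h g₁ g₂ hΔ x (act x - x) hint hne
  refine ⟨i, hi, ?_⟩
  have : x + (act x - x) = act x := by abel
  rwa [this, hact i hi] at hle

end PT

/-! ### Sums of terms with pairwise distinct valuations -/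

section Distinct

variable {Om : Type*} [Field Om] {Γ₀ : Type*} [LinearOrderedCommGroupWithZero Γ₀]

/-- If the nonzero terms of a finite sum have pairwise distinct valuations and the sum is
integral, then every term is integral. -/
theorem term_le_one_of_sum_le_one (v : Valuation Om Γ₀) (s : Finset ℕ) (f : ℕ → Om)
    (hdist : ∀ i ∈ s, ∀ j ∈ s, i ≠ j → f i ≠ 0 → f j ≠ 0 → v (f i) ≠ v (f j))
    (hsum : v (∑ k ∈ s, f k) ≤ 1) : ∀ k ∈ s, v (f k) ≤ 1 := by
  classical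
  by_contra hcon
  push Not at hcon
  obtain ⟨k₁, hk₁, hk₁1⟩ := hcon
  obtain ⟨k₀, hk₀, hmax⟩ := s.exists_max_image (fun k => v (f k)) ⟨k₁, hk₁⟩
  have h1 : 1 < v (f k₀) := lt_of_lt_of_le hk₁1 (hmax k₁ hk₁)
  have hne0 : v (f k₀) ≠ 0 := ne_of_gt (lt_trans zero_lt_one h1)
  have hfk₀ : f k₀ ≠ 0 := fun h => hne0 (by rw [h, map_zero])
  have hrest : v (∑ k ∈ s.erase k₀, f k) < v (f k₀) := by
    refine v.map_sum_lt hne0 fun k hk => ?_
    have hks : k ∈ s := Finset.mem_of_mem_erase hk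
    have hkne : k ≠ k₀ := Finset.ne_of_mem_erase hk
    by_cases hfk : f k = 0
    · rw [hfk, map_zero]
      exact lt_trans zero_lt_one h1
    · exact lt_of_le_of_ne (hmax k hks) (hdist k hks k₀ hk₀ hkne hfk hfk₀)
  have hsum' : v (∑ k ∈ s, f k) = v (f k₀) := by
    rw [← Finset.add_sum_erase s f hk₀]
    exact v.map_add_eq_of_lt_left hrest
  rw [hsum'] at hsum
  exact absurd hsum (not_le.mpr h1)

end Distinct

/-! ### The abstract core of (KUM') -/

section Core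

variable {Om : Type*} [Field Om] {Γ₀ : Type*} [LinearOrderedCommGroupWithZero Γ₀]

/-- **Core of (KUM').**  `w` has `v w ^ p = γ ^ s` with `p ∤ s`; `w'` is a "conjugate" with
`v (w' ^ k - w ^ k) ^ p ≤ δ * v w ^ (p k)` for `1 ≤ k < p`.  Then every integral
`b = ∑ k < p, a k * w ^ k` with coefficient values in `γ ^ ℤ ∪ {0}` satisfies
`v (∑ k < p, a k * (w' ^ k - w ^ k)) ^ p ≤ δ * γ`. -/
theorem core_displacement (v : Valuation Om Γ₀) {p : ℕ} (hp : p.Prime) {γ : Γ₀} (hγ0 : γ ≠ 0)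
    (hγ1 : γ < 1) (w w' : Om) (s : ℤ) (hs : ¬ (p : ℤ) ∣ s) (hw : v w ^ p = γ ^ s) (δ : Γ₀)
    (hD : ∀ k, 1 ≤ k → k < p → v (w' ^ k - w ^ k) ^ p ≤ δ * v w ^ (p * k))
    (a : ℕ → Om) (ha : ∀ k < p, a k ≠ 0 → ∃ n : ℤ, v (a k) = γ ^ n)
    (hb : v (∑ k ∈ range p, a k * w ^ k) ≤ 1) :
    v (∑ k ∈ range p, a k * (w' ^ k - w ^ k)) ^ p ≤ δ * γ := by
  have hγpos : 0 < γ := lt_of_le_of_ne zero_le (Ne.symm hγ0)
  have hp0 : p ≠ 0 := hp.ne_zero
  have hpZ : Prime (p : ℤ) := Nat.prime_iff_prime_int.mp hp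
  -- the value of a term
  have hsplit : ∀ k : ℕ, v (a k * w ^ k) ^ p = v (a k) ^ p * v w ^ (p * k) := by
    intro k
    rw [map_mul, map_pow, mul_pow, ← pow_mul, mul_comm k p]
  have hterm : ∀ (k : ℕ) (n : ℤ), v (a k) = γ ^ n →
      v (a k * w ^ k) ^ p = γ ^ ((p : ℤ) * n + s * k) := by
    intro k n hn
    rw [hsplit, pow_mul, hw, hn, zpow_add₀ hγ0, ← zpow_natCast (γ ^ n) p, ← zpow_mul,
      ← zpow_natCast (γ ^ s) k, ← zpow_mul, mul_comm n (p : ℤ)]
  -- a multiple of `p` of the form `s * d` with `|d| < p` forces `d = 0`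
  have hdvd : ∀ d : ℤ, (p : ℤ) ∣ s * d → |d| < (p : ℤ) → d = 0 := by
    intro d hd habs
    rcases hpZ.dvd_or_dvd hd with h | h
    · exact absurd h hs
    · exact Int.eq_zero_of_abs_lt_dvd h habs
  -- distinct valuations
  have hdist : ∀ i ∈ range p, ∀ j ∈ range p, i ≠ j → a i * w ^ i ≠ 0 → a j * w ^ j ≠ 0 →
      v (a i * w ^ i) ≠ v (a j * w ^ j) := by
    intro i hi j hj hij hfi hfj heq
    rw [Finset.mem_range] at hi hj
    obtain ⟨ni, hni⟩ := ha i hi (left_ne_zero_of_mul hfi)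
    obtain ⟨nj, hnj⟩ := ha j hj (left_ne_zero_of_mul hfj)
    have h1 : γ ^ ((p : ℤ) * ni + s * i) = γ ^ ((p : ℤ) * nj + s * j) := by
      rw [← hterm i ni hni, ← hterm j nj hnj, heq]
    have h2 : (p : ℤ) * ni + s * i = (p : ℤ) * nj + s * j :=
      zpow_right_injective₀ hγpos (ne_of_lt hγ1) h1
    have h3 : (p : ℤ) ∣ s * ((i : ℤ) - j) := ⟨nj - ni, by linear_combination h2⟩
    have h4 : ((i : ℤ) - j) = 0 := hdvd _ h3 (by rw [abs_lt]; constructor <;> omega)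
    exact hij (by omega)
  have hint := term_le_one_of_sum_le_one v (range p) (fun k => a k * w ^ k) hdist hb
  -- the key gain: a nonzero term of positive index has `p`-th power value at most `γ`
  have hgain : ∀ k, 1 ≤ k → k < p → a k ≠ 0 → v (a k) ^ p * v w ^ (p * k) ≤ γ := by
    intro k hk1 hkp hak
    obtain ⟨n, hn⟩ := ha k hkp hak
    have h1 : v (a k * w ^ k) ^ p ≤ 1 :=
      pow_le_one₀ zero_le (hint k (Finset.mem_range.mpr hkp))
    rw [← hsplit, hterm k n hn] at *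
    have h2 : (0 : ℤ) ≤ (p : ℤ) * n + s * k := by
      rw [← zpow_zero γ] at h1
      exact (zpow_le_zpow_iff_right_of_lt_one₀ hγpos hγ1).mp h1
    have h3 : (p : ℤ) * n + s * k ≠ 0 := by
      intro h0
      have h4 : (p : ℤ) ∣ s * (k : ℤ) := ⟨-n, by linear_combination h0⟩
      have h5 : (k : ℤ) = 0 := hdvd _ h4 (by rw [abs_lt]; constructor <;> omega)
      omega
    have h6 : (1 : ℤ) ≤ (p : ℤ) * n + s * k := by omega
    calc γ ^ ((p : ℤ) * n + s * k) ≤ γ ^ (1 : ℤ) :=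
          (zpow_le_zpow_iff_right_of_lt_one₀ hγpos hγ1).mpr h6
      _ = γ := zpow_one γ
  -- displacement of each term
  have hdisp : ∀ k ∈ range p, v (a k * (w' ^ k - w ^ k)) ^ p ≤ δ * γ := by
    intro k hk
    rw [Finset.mem_range] at hk
    rcases Nat.eq_zero_or_pos k with rfl | hkpos
    · simp [zero_pow hp0]
    by_cases hak : a k = 0
    · simp [hak, zero_pow hp0]
    rw [map_mul, mul_pow]
    calc v (a k) ^ p * v (w' ^ k - w ^ k) ^ p ≤ v (a k) ^ p * (δ * v w ^ (p * k)) :=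
          mul_le_mul' le_rfl (hD k hkpos hk)
      _ = δ * (v (a k) ^ p * v w ^ (p * k)) := mul_left_comm _ _ _
      _ ≤ δ * γ := mul_le_mul' le_rfl (hgain k hkpos hk hak)
  obtain ⟨k₁, hk₁, hmax⟩ := (range p).exists_max_image
    (fun k => v (a k * (w' ^ k - w ^ k))) ⟨0, Finset.mem_range.mpr hp.pos⟩
  have hle : v (∑ k ∈ range p, a k * (w' ^ k - w ^ k)) ≤ v (a k₁ * (w' ^ k₁ - w ^ k₁)) :=
    v.map_sum_le fun k hk => hmax k hk
  exact le_trans (pow_le_pow_left₀ zero_le hle p) (hdisp k₁ hk₁)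

end Core

/-! ### (K0), (LEV) and the two Kummer displacement bounds -/

section Kummer

variable {Om : Type*} [Field Om] {Γ₀ : Type*} [LinearOrderedCommGroupWithZero Γ₀]

theorem valuation_eq_one_of_pow_eq_one (v : Valuation Om Γ₀) {x : Om} {n : ℕ} (hn : n ≠ 0)
    (hx : x ^ n = 1) : v x = 1 := by
  have h : v x ^ n = 1 := by rw [← map_pow, hx, map_one]
  exact (pow_eq_one_iff_of_nonneg zero_le hn).1 h

theorem valuation_geom_sum_le_one (v : Valuation Om Γ₀) {x : Om} (hx : v x = 1) (n : ℕ) :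
    v (∑ i ∈ range n, x ^ i) ≤ 1 :=
  v.map_sum_le fun i _ => by rw [map_pow, hx, one_pow]

/-- **(K0)** `v (ζ ^ j - 1) = v (ζ - 1)` for a primitive `p`-th root of unity `ζ` and `p ∤ j`. -/
theorem valuation_root_pow_sub_one (v : Valuation Om Γ₀) {p : ℕ} (hp : p.Prime) {ζ : Om}
    (hζ : IsPrimitiveRoot ζ p) {j : ℕ} (hj : ¬ p ∣ j) : v (ζ ^ j - 1) = v (ζ - 1) := by
  have hv1 : v ζ = 1 := valuation_eq_one_of_pow_eq_one v hp.ne_zero hζ.pow_eq_one
  apply le_antisymm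
  · rw [← mul_geom_sum, map_mul]
    calc v (ζ - 1) * v (∑ i ∈ range j, ζ ^ i) ≤ v (ζ - 1) * 1 :=
          mul_le_mul' le_rfl (valuation_geom_sum_le_one v hv1 j)
      _ = v (ζ - 1) := mul_one _
  · have hcop : j.Coprime p := ((Nat.Prime.coprime_iff_not_dvd hp).mpr hj).symm
    have hζj : IsPrimitiveRoot (ζ ^ j) p := hζ.pow_of_coprime j hcop
    have : NeZero p := ⟨hp.ne_zero⟩
    obtain ⟨i, -, hi⟩ := hζj.eq_pow_of_pow_eq_one hζ.pow_eq_one
    have hv1' : v (ζ ^ j) = 1 := by rw [map_pow, hv1, one_pow]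
    calc v (ζ - 1) = v ((ζ ^ j) ^ i - 1) := by rw [hi]
      _ = v (ζ ^ j - 1) * v (∑ l ∈ range i, (ζ ^ j) ^ l) := by rw [← mul_geom_sum, map_mul]
      _ ≤ v (ζ ^ j - 1) * 1 := mul_le_mul' le_rfl (valuation_geom_sum_le_one v hv1' i)
      _ = v (ζ ^ j - 1) := mul_one _

/-- Every `p`-th root of unity `η` is `1` or has `v (η - 1) = v (ζ - 1)`. -/
theorem valuation_nthRoot_sub_one (v : Valuation Om Γ₀) {p : ℕ} (hp : p.Prime) {ζ : Om}
    (hζ : IsPrimitiveRoot ζ p) {η : Om} (hη : η ^ p = 1) : η = 1 ∨ v (η - 1) = v (ζ - 1) := by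
  have : NeZero p := ⟨hp.ne_zero⟩
  obtain ⟨i, hip, hi⟩ := hζ.eq_pow_of_pow_eq_one hη
  rcases Nat.eq_zero_or_pos i with rfl | hipos
  · left
    rw [← hi, pow_zero]
  · right
    rw [← hi]
    exact valuation_root_pow_sub_one v hp hζ (Nat.not_dvd_of_pos_of_lt hipos hip)

/-- **(LEV)** level gives value: if `v (y ^ p - 1) = γ ^ m` with `m < p E`, `v (ζ - 1) = γ ^ E`,
then `v (y - 1) ^ p = γ ^ m` and `γ ^ E < v (y - 1)`. -/
theorem valuation_sub_one_of_level (v : Valuation Om Γ₀) {p : ℕ} (hp : p.Prime) {γ : Γ₀}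
    (hγ0 : γ ≠ 0) (hγ1 : γ < 1) {ζ : Om} (hζ : IsPrimitiveRoot ζ p) {E : ℕ}
    (hE : v (ζ - 1) = γ ^ E) {y : Om} {m : ℕ} (hmE : m < p * E) (hy : v (y ^ p - 1) = γ ^ m) :
    v (y - 1) ^ p = γ ^ m ∧ γ ^ E < v (y - 1) := by
  have hγpos : 0 < γ := lt_of_le_of_ne zero_le (Ne.symm hγ0)
  have hprod : y ^ p - 1 = ∏ η ∈ nthRootsFinset p (1 : Om), (y - η) := by
    have h := hζ.pow_sub_pow_eq_prod_sub_mul y 1 hp.pos
    simpa using h
  have hvprod : γ ^ m = ∏ η ∈ nthRootsFinset p (1 : Om), v (y - η) := by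
    rw [← hy, hprod, map_prod]
  have hroot : ∀ η ∈ nthRootsFinset p (1 : Om), η = 1 ∨ v (η - 1) = γ ^ E := by
    intro η hη
    rw [mem_nthRootsFinset hp.pos] at hη
    rw [← hE]
    exact valuation_nthRoot_sub_one v hp hζ hη
  have hcard : (nthRootsFinset p (1 : Om)).card = p := hζ.card_nthRootsFinset
  have hlt : γ ^ E < v (y - 1) := by
    by_contra hcon
    push Not at hcon
    have hfac : ∀ η ∈ nthRootsFinset p (1 : Om), v (y - η) ≤ γ ^ E := by
      intro η hη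
      rcases hroot η hη with rfl | h
      · exact hcon
      · have hsplit : y - η = (y - 1) - (η - 1) := by ring
        rw [hsplit]
        exact le_trans (v.map_sub _ _) (max_le hcon (le_of_eq h))
    have h1 : γ ^ m ≤ γ ^ (p * E) := by
      rw [hvprod]
      calc ∏ η ∈ nthRootsFinset p (1 : Om), v (y - η)
          ≤ ∏ _η ∈ nthRootsFinset p (1 : Om), γ ^ E := Finset.prod_le_prod' hfac
        _ = γ ^ (p * E) := by rw [Finset.prod_const, hcard, ← pow_mul, mul_comm]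
    exact absurd h1 (not_le.mpr (pow_lt_pow_right_of_lt_one₀ hγpos hγ1 hmE))
  refine ⟨?_, hlt⟩
  have hfac : ∀ η ∈ nthRootsFinset p (1 : Om), v (y - η) = v (y - 1) := by
    intro η hη
    rcases hroot η hη with rfl | h
    · rfl
    · have hsplit : y - η = (y - 1) + (1 - η) := by ring
      have h' : v (1 - η) = γ ^ E := by rw [← h, ← v.map_neg]; congr 1; ring
      rw [hsplit]
      exact v.map_add_eq_of_lt_left (by rw [h']; exact hlt)
  rw [hvprod, Finset.prod_congr rfl hfac, Finset.prod_const, hcard]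

/-- **(KUM'), unit radicand.**  `y ^ p = u` with `v (u - 1) = γ ^ m`, `p ∤ m`, `m < p E`,
`v (ζ - 1) = γ ^ E`.  Every integral `b = ∑ k < p, a k * (y - 1) ^ k` with coefficient values in
`γ ^ ℤ ∪ {0}` satisfies `v (b' - b) ^ p ≤ γ ^ (p E - m + 1)`, where `b'` is `b` with `y`
replaced by `ζ y`.  (Additively: `ord (σ b - b) ≥ (p E - m + 1) / p`.) -/
theorem kummer_unit_displacement (v : Valuation Om Γ₀) {p : ℕ} (hp : p.Prime) {γ : Γ₀}
    (hγ0 : γ ≠ 0) (hγ1 : γ < 1) {ζ : Om} (hζ : IsPrimitiveRoot ζ p) {E : ℕ}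
    (hE : v (ζ - 1) = γ ^ E) {y : Om} {m : ℕ} (hmE : m < p * E) (hpm : ¬ p ∣ m)
    (hy : v (y ^ p - 1) = γ ^ m) (a : ℕ → Om)
    (ha : ∀ k < p, a k ≠ 0 → ∃ n : ℤ, v (a k) = γ ^ n)
    (hb : v (∑ k ∈ range p, a k * (y - 1) ^ k) ≤ 1) :
    v (∑ k ∈ range p, a k * ((ζ * y - 1) ^ k - (y - 1) ^ k)) ^ p ≤ γ ^ (p * E - m + 1) := by
  have hγpos : 0 < γ := lt_of_le_of_ne zero_le (Ne.symm hγ0)
  have hp0 : p ≠ 0 := hp.ne_zero
  have hm0 : m ≠ 0 := fun h => hpm (h ▸ dvd_zero p)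
  obtain ⟨hz, hzE⟩ := valuation_sub_one_of_level v hp hγ0 hγ1 hζ hE hmE hy
  have hvy : v y = 1 := by
    have h1 : v (y ^ p - 1) < v (1 : Om) := by
      rw [hy, map_one]
      exact pow_lt_one₀ zero_le hγ1 hm0
    have h2 : v (y ^ p) = 1 := by
      have h3 : y ^ p = (y ^ p - 1) + 1 := by ring
      rw [h3, v.map_add_eq_of_lt_right h1, map_one]
    rw [map_pow] at h2
    exact (pow_eq_one_iff_of_nonneg zero_le hp0).1 h2
  have hdiff : (ζ * y - 1) - (y - 1) = (ζ - 1) * y := by ring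
  have hvdiff : v ((ζ * y - 1) - (y - 1)) = γ ^ E := by
    rw [hdiff, map_mul, hvy, mul_one, hE]
  have hvw' : v (ζ * y - 1) = v (y - 1) := by
    have h1 : ζ * y - 1 = (y - 1) + (ζ - 1) * y := by ring
    rw [h1]
    refine v.map_add_eq_of_lt_left ?_
    rw [map_mul, hvy, mul_one, hE]
    exact hzE
  have hD : ∀ k, 1 ≤ k → k < p →
      v ((ζ * y - 1) ^ k - (y - 1) ^ k) ^ p ≤ γ ^ (p * E - m) * v (y - 1) ^ (p * k) := by
    intro k hk1 _
    have hgeom : v (∑ i ∈ range k, (ζ * y - 1) ^ i * (y - 1) ^ (k - 1 - i)) ≤ v (y - 1) ^ (k - 1) := by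
      refine v.map_sum_le fun i hi => ?_
      rw [Finset.mem_range] at hi
      rw [map_mul, map_pow, map_pow, hvw', ← pow_add]
      have : i + (k - 1 - i) = k - 1 := by omega
      rw [this]
    have h1 : v ((ζ * y - 1) ^ k - (y - 1) ^ k) ≤ v (y - 1) ^ (k - 1) * γ ^ E := by
      rw [← geom_sum₂_mul, map_mul, hvdiff]
      exact mul_le_mul' hgeom le_rfl
    calc v ((ζ * y - 1) ^ k - (y - 1) ^ k) ^ p ≤ (v (y - 1) ^ (k - 1) * γ ^ E) ^ p :=
          pow_le_pow_left₀ zero_le h1 p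
      _ = γ ^ (p * E - m) * v (y - 1) ^ (p * k) := by
          rw [mul_pow, ← pow_mul, mul_comm (k - 1) p, pow_mul, hz, pow_mul (v (y - 1)) p k, hz,
            ← pow_mul, ← pow_mul, ← pow_mul, ← pow_add, ← pow_add]
          congr 1
          have h2 : m * (k - 1) + m = m * k := by
            obtain ⟨k', rfl⟩ : ∃ k', k = k' + 1 := ⟨k - 1, by omega⟩
            simp [Nat.mul_succ]
          have h3 : m ≤ p * E := le_of_lt hmE
          rw [mul_comm E p]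
          omega
  have hs : ¬ (p : ℤ) ∣ (m : ℤ) := fun h => hpm (Int.natCast_dvd_natCast.mp h)
  have hw : v (y - 1) ^ p = γ ^ (m : ℤ) := by rw [zpow_natCast, hz]
  have hcore := core_displacement v hp hγ0 hγ1 (y - 1) (ζ * y - 1) (m : ℤ) hs hw
    (γ ^ (p * E - m)) hD a ha hb
  rwa [← pow_succ] at hcore

/-- **(KUM'), non-unit radicand** (the très ramifié case).  `y ^ p = u` with `v u = γ ^ s`,
`p ∤ s`.  Every integral `b = ∑ k < p, a k * y ^ k` with coefficient values in `γ ^ ℤ ∪ {0}`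
satisfies `v (b' - b) ^ p ≤ γ ^ (p E + 1)`, where `b'` is `b` with `y` replaced by `ζ y`. -/
theorem kummer_nonunit_displacement (v : Valuation Om Γ₀) {p : ℕ} (hp : p.Prime) {γ : Γ₀}
    (hγ0 : γ ≠ 0) (hγ1 : γ < 1) {ζ : Om} (hζ : IsPrimitiveRoot ζ p) {E : ℕ}
    (hE : v (ζ - 1) = γ ^ E) {y : Om} {s : ℤ} (hs : ¬ (p : ℤ) ∣ s) (hy : v (y ^ p) = γ ^ s)
    (a : ℕ → Om) (ha : ∀ k < p, a k ≠ 0 → ∃ n : ℤ, v (a k) = γ ^ n)
    (hb : v (∑ k ∈ range p, a k * y ^ k) ≤ 1) :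
    v (∑ k ∈ range p, a k * ((ζ * y) ^ k - y ^ k)) ^ p ≤ γ ^ (p * E + 1) := by
  have hw : v y ^ p = γ ^ s := by rw [← map_pow, hy]
  have hD : ∀ k, 1 ≤ k → k < p → v ((ζ * y) ^ k - y ^ k) ^ p ≤ γ ^ (p * E) * v y ^ (p * k) := by
    intro k hk1 hkp
    have h1 : (ζ * y) ^ k - y ^ k = (ζ ^ k - 1) * y ^ k := by ring
    have h2 : v (ζ ^ k - 1) = γ ^ E := by
      rw [← hE]
      exact valuation_root_pow_sub_one v hp hζ (Nat.not_dvd_of_pos_of_lt hk1 hkp)
    rw [h1, map_mul, h2, map_pow, mul_pow, ← pow_mul, ← pow_mul, mul_comm E p, mul_comm k p]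
  have hcore := core_displacement v hp hγ0 hγ1 y (ζ * y) s hs hw (γ ^ (p * E)) hD a ha hb
  rwa [← pow_succ] at hcore

end Kummer

/-! ### Polynomial and ring-hom forms over a coefficient subfield -/

section Forms

variable {Om : Type*} [Field Om] {Γ₀ : Type*} [LinearOrderedCommGroupWithZero Γ₀]

/-- `aeval` of a polynomial of degree `< n` over a subfield, as a sum of coefficient * power. -/
theorem aeval_subfield_eq_sum (K : Subfield Om) (f : Polynomial K) {n : ℕ} (hf : f.natDegree < n)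
    (x : Om) : aeval x f = ∑ k ∈ range n, ((f.coeff k : K) : Om) * x ^ k := by
  rw [aeval_eq_sum_range' hf]
  exact Finset.sum_congr rfl fun k _ => by rw [Algebra.smul_def]; rfl

/-- A ring endomorphism fixing the subfield `K` commutes with `aeval` of polynomials over `K`. -/
theorem map_aeval_of_fixed (K : Subfield Om) (σ : Om →+* Om) (hσK : ∀ x ∈ K, σ x = x)
    (f : Polynomial K) (x : Om) : σ (aeval x f) = aeval (σ x) f := by
  rw [aeval_subfield_eq_sum K f (Nat.lt_succ_self _) x,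
    aeval_subfield_eq_sum K f (Nat.lt_succ_self _) (σ x), map_sum]
  exact Finset.sum_congr rfl fun k _ => by
    rw [map_mul, map_pow, hσK _ (f.coeff k).2]

/-- (KUM'), unit radicand, polynomial form: `f` over `K` of degree `< p`, `b = f (y - 1)`. -/
theorem kummer_unit_aeval (v : Valuation Om Γ₀) {p : ℕ} (hp : p.Prime) {γ : Γ₀}
    (hγ0 : γ ≠ 0) (hγ1 : γ < 1) {ζ : Om} (hζ : IsPrimitiveRoot ζ p) {E : ℕ}
    (hE : v (ζ - 1) = γ ^ E) {y : Om} {m : ℕ} (hmE : m < p * E) (hpm : ¬ p ∣ m)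
    (hy : v (y ^ p - 1) = γ ^ m) (K : Subfield Om)
    (hK : ∀ x ∈ K, x ≠ 0 → ∃ n : ℤ, v x = γ ^ n) (f : Polynomial K) (hf : f.natDegree < p)
    (hb : v (aeval (y - 1) f) ≤ 1) :
    v (aeval (ζ * y - 1) f - aeval (y - 1) f) ^ p ≤ γ ^ (p * E - m + 1) := by
  rw [aeval_subfield_eq_sum K f hf] at hb
  rw [aeval_subfield_eq_sum K f hf, aeval_subfield_eq_sum K f hf, ← Finset.sum_sub_distrib]
  have hsum : ∑ k ∈ range p, (((f.coeff k : K) : Om) * (ζ * y - 1) ^ k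
      - ((f.coeff k : K) : Om) * (y - 1) ^ k)
      = ∑ k ∈ range p, ((f.coeff k : K) : Om) * ((ζ * y - 1) ^ k - (y - 1) ^ k) :=
    Finset.sum_congr rfl fun k _ => by ring
  rw [hsum]
  exact kummer_unit_displacement v hp hγ0 hγ1 hζ hE hmE hpm hy
    (fun k => ((f.coeff k : K) : Om)) (fun k _ hk => hK _ (f.coeff k).2 hk) hb

/-- (KUM'), non-unit radicand, polynomial form: `f` over `K` of degree `< p`, `b = f y`. -/
theorem kummer_nonunit_aeval (v : Valuation Om Γ₀) {p : ℕ} (hp : p.Prime) {γ : Γ₀}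
    (hγ0 : γ ≠ 0) (hγ1 : γ < 1) {ζ : Om} (hζ : IsPrimitiveRoot ζ p) {E : ℕ}
    (hE : v (ζ - 1) = γ ^ E) {y : Om} {s : ℤ} (hs : ¬ (p : ℤ) ∣ s) (hy : v (y ^ p) = γ ^ s)
    (K : Subfield Om) (hK : ∀ x ∈ K, x ≠ 0 → ∃ n : ℤ, v x = γ ^ n) (f : Polynomial K)
    (hf : f.natDegree < p) (hb : v (aeval y f) ≤ 1) :
    v (aeval (ζ * y) f - aeval y f) ^ p ≤ γ ^ (p * E + 1) := by
  rw [aeval_subfield_eq_sum K f hf] at hb
  rw [aeval_subfield_eq_sum K f hf, aeval_subfield_eq_sum K f hf, ← Finset.sum_sub_distrib]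
  have hsum : ∑ k ∈ range p, (((f.coeff k : K) : Om) * (ζ * y) ^ k
      - ((f.coeff k : K) : Om) * y ^ k)
      = ∑ k ∈ range p, ((f.coeff k : K) : Om) * ((ζ * y) ^ k - y ^ k) :=
    Finset.sum_congr rfl fun k _ => by ring
  rw [hsum]
  exact kummer_nonunit_displacement v hp hγ0 hγ1 hζ hE hs hy
    (fun k => ((f.coeff k : K) : Om)) (fun k _ hk => hK _ (f.coeff k).2 hk) hb

/-- Every element of `K[y]` is `r(y)` with `deg r < p`, when `y ^ p ∈ K`. -/
theorem exists_aeval_natDegree_lt (K : Subfield Om) {p : ℕ} (hp : p.Prime) {y : Om}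
    (hyK : y ^ p ∈ K) {b : Om} (hb : b ∈ Algebra.adjoin K ({y} : Set Om)) :
    ∃ r : Polynomial K, r.natDegree < p ∧ aeval y r = b := by
  rw [Algebra.adjoin_singleton_eq_range_aeval] at hb
  obtain ⟨g, hg⟩ := hb
  have hg' : aeval y g = b := hg
  set u : K := ⟨y ^ p, hyK⟩ with hu
  set q : Polynomial K := X ^ p - C u with hq
  have hmonic : q.Monic := monic_X_pow_sub_C u hp.ne_zero
  have hdeg : q.natDegree = p := natDegree_X_pow_sub_C
  have hq1 : q ≠ 1 := by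
    intro h
    have h1 : q.natDegree = 0 := by rw [h, natDegree_one]
    rw [hdeg] at h1
    exact hp.ne_zero h1
  have hqy : aeval y q = 0 := by
    rw [hq, map_sub, map_pow, aeval_X, aeval_C]
    exact sub_self _
  refine ⟨g %ₘ q, ?_, ?_⟩
  · have h := natDegree_modByMonic_lt g hmonic hq1
    rwa [hdeg] at h
  · rw [← hg']
    conv_rhs => rw [← modByMonic_add_div g q]
    rw [map_add, map_mul, hqy, zero_mul, add_zero]

/-- **(KUM'), unit radicand, ring-hom form.**  `K` a subfield with value group `γ ^ ℤ`,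
`y ^ p ∈ K` of level `m` (`p ∤ m`, `m < p E`), `σ` a ring endomorphism fixing `K` with
`σ y = ζ y`.  Then every integral `b ∈ K[y]` has `v (σ b - b) ^ p ≤ γ ^ (p E - m + 1)`. -/
theorem kummer_unit_ringHom (v : Valuation Om Γ₀) {p : ℕ} (hp : p.Prime) {γ : Γ₀}
    (hγ0 : γ ≠ 0) (hγ1 : γ < 1) {ζ : Om} (hζ : IsPrimitiveRoot ζ p) {E : ℕ}
    (hE : v (ζ - 1) = γ ^ E) {y : Om} {m : ℕ} (hmE : m < p * E) (hpm : ¬ p ∣ m)
    (hy : v (y ^ p - 1) = γ ^ m) (K : Subfield Om)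
    (hK : ∀ x ∈ K, x ≠ 0 → ∃ n : ℤ, v x = γ ^ n) (hyK : y ^ p ∈ K)
    (σ : Om →+* Om) (hσK : ∀ x ∈ K, σ x = x) (hσy : σ y = ζ * y)
    {b : Om} (hb : b ∈ Algebra.adjoin K ({y} : Set Om)) (hb1 : v b ≤ 1) :
    v (σ b - b) ^ p ≤ γ ^ (p * E - m + 1) := by
  obtain ⟨r, hr, rfl⟩ := exists_aeval_natDegree_lt K hp hyK hb
  set f : Polynomial K := taylor 1 r with hf
  have hfdeg : f.natDegree < p := by rw [hf, natDegree_taylor]; exact hr
  have hshift : ∀ x : Om, aeval (x - 1) f = aeval x r := by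
    intro x
    rw [hf, taylor_apply, aeval_comp]
    congr 1
    simp
  rw [map_aeval_of_fixed K σ hσK, hσy, ← hshift (ζ * y), ← hshift y]
  rw [← hshift y] at hb1
  exact kummer_unit_aeval v hp hγ0 hγ1 hζ hE hmE hpm hy K hK f hfdeg hb1

/-- **(KUM'), non-unit radicand, ring-hom form.**  `y ^ p ∈ K` with `v (y ^ p) = γ ^ s`,
`p ∤ s`, `σ` a ring endomorphism fixing `K` with `σ y = ζ y`.  Then every integral `b ∈ K[y]`
has `v (σ b - b) ^ p ≤ γ ^ (p E + 1)`. -/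
theorem kummer_nonunit_ringHom (v : Valuation Om Γ₀) {p : ℕ} (hp : p.Prime) {γ : Γ₀}
    (hγ0 : γ ≠ 0) (hγ1 : γ < 1) {ζ : Om} (hζ : IsPrimitiveRoot ζ p) {E : ℕ}
    (hE : v (ζ - 1) = γ ^ E) {y : Om} {s : ℤ} (hs : ¬ (p : ℤ) ∣ s) (hy : v (y ^ p) = γ ^ s)
    (K : Subfield Om) (hK : ∀ x ∈ K, x ≠ 0 → ∃ n : ℤ, v x = γ ^ n) (hyK : y ^ p ∈ K)
    (σ : Om →+* Om) (hσK : ∀ x ∈ K, σ x = x) (hσy : σ y = ζ * y)
    {b : Om} (hb : b ∈ Algebra.adjoin K ({y} : Set Om)) (hb1 : v b ≤ 1) :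
    v (σ b - b) ^ p ≤ γ ^ (p * E + 1) := by
  obtain ⟨r, hr, rfl⟩ := exists_aeval_natDegree_lt K hp hyK hb
  rw [map_aeval_of_fixed K σ hσK, hσy]
  exact kummer_nonunit_aeval v hp hγ0 hγ1 hζ hE hs hy K hK r hr hb1

end Forms

/-! ### (PT) + (KUM') combined: the depth of a Galois displacement is at least the Kummer bound -/

section Depth

variable {Om : Type*} [Field Om] {Γ₀ : Type*} [LinearOrderedCommGroupWithZero Γ₀]
variable {V ι : Type*} [AddCommGroup V]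

/-- For `K ⊆ Om` a subfield and `y` with `y ^ p ∈ K`, the field `K(y)` is `K[y]`. -/
theorem mem_algebra_adjoin_of_mem_intermediateField (K : Subfield Om) {p : ℕ} (hp : p.Prime)
    {y : Om} (hyK : y ^ p ∈ K) {b : Om}
    (hb : b ∈ IntermediateField.adjoin K ({y} : Set Om)) :
    b ∈ Algebra.adjoin K ({y} : Set Om) := by
  have hint : IsIntegral K y := by
    refine ⟨X ^ p - C (⟨y ^ p, hyK⟩ : K), monic_X_pow_sub_C _ hp.ne_zero, ?_⟩
    rw [← aeval_def, map_sub, map_pow, aeval_X, aeval_C]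
    exact sub_self _
  have h := IntermediateField.adjoin_simple_toSubalgebra_of_isAlgebraic hint.isAlgebraic
  rw [← h]
  exact hb

/-- **Design D, unit radicand.**  A function `h` of a function order (expansion
`h (a + b) = ∑ i, g₁ i a * g₂ i b` with integral legs), a point `x` whose coordinates `g₁ i x` lie
in `K[y]`, `y ^ p ∈ K` of level `m`, and `σ` with `σ y = ζ y` acting on the points through `act`:
the displacement `act x - x` has depth at least the Kummer bound,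
`v (h (act x - x) - h 0) ^ p ≤ γ ^ (p E - m + 1)`. -/
theorem displacement_depth_unit (v : Valuation Om Γ₀) {p : ℕ} (hp : p.Prime) {γ : Γ₀}
    (hγ0 : γ ≠ 0) (hγ1 : γ < 1) {ζ : Om} (hζ : IsPrimitiveRoot ζ p) {E : ℕ}
    (hE : v (ζ - 1) = γ ^ E) {y : Om} {m : ℕ} (hmE : m < p * E) (hpm : ¬ p ∣ m)
    (hy : v (y ^ p - 1) = γ ^ m) (K : Subfield Om)
    (hK : ∀ x ∈ K, x ≠ 0 → ∃ n : ℤ, v x = γ ^ n) (hyK : y ^ p ∈ K)
    (σ : Om →+* Om) (hσK : ∀ x ∈ K, σ x = x) (hσy : σ y = ζ * y)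
    (s : Finset ι) (h : V → Om) (g₁ g₂ : ι → V → Om)
    (hΔ : ∀ a b : V, h (a + b) = ∑ i ∈ s, g₁ i a * g₂ i b) (act : V → V) (x : V)
    (hact : ∀ i ∈ s, g₁ i (act x) = σ (g₁ i x))
    (hint₂ : ∀ i ∈ s, v (g₂ i (-x)) ≤ 1) (hint₁ : ∀ i ∈ s, v (g₁ i x) ≤ 1)
    (hrat : ∀ i ∈ s, g₁ i x ∈ Algebra.adjoin K ({y} : Set Om)) :
    v (h (act x - x) - h 0) ^ p ≤ γ ^ (p * E - m + 1) := by
  by_cases hne : v (h (act x - x) - h 0) = 0
  · rw [hne, zero_pow hp.ne_zero]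
    exact zero_le
  obtain ⟨i, hi, hle⟩ := exists_galois_displacement_le v s h g₁ g₂ hΔ σ act x hact hint₂ hne
  exact le_trans (pow_le_pow_left₀ zero_le hle p)
    (kummer_unit_ringHom v hp hγ0 hγ1 hζ hE hmE hpm hy K hK hyK σ hσK hσy (hrat i hi)
      (hint₁ i hi))

/-- **Design D, non-unit radicand** (très ramifié): same as `displacement_depth_unit` with
`v (y ^ p) = γ ^ s`, `p ∤ s`; bound `γ ^ (p E + 1)`. -/
theorem displacement_depth_nonunit (v : Valuation Om Γ₀) {p : ℕ} (hp : p.Prime) {γ : Γ₀}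
    (hγ0 : γ ≠ 0) (hγ1 : γ < 1) {ζ : Om} (hζ : IsPrimitiveRoot ζ p) {E : ℕ}
    (hE : v (ζ - 1) = γ ^ E) {y : Om} {s₀ : ℤ} (hs : ¬ (p : ℤ) ∣ s₀) (hy : v (y ^ p) = γ ^ s₀)
    (K : Subfield Om) (hK : ∀ x ∈ K, x ≠ 0 → ∃ n : ℤ, v x = γ ^ n) (hyK : y ^ p ∈ K)
    (σ : Om →+* Om) (hσK : ∀ x ∈ K, σ x = x) (hσy : σ y = ζ * y)
    (s : Finset ι) (h : V → Om) (g₁ g₂ : ι → V → Om)
    (hΔ : ∀ a b : V, h (a + b) = ∑ i ∈ s, g₁ i a * g₂ i b) (act : V → V) (x : V)
    (hact : ∀ i ∈ s, g₁ i (act x) = σ (g₁ i x))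
    (hint₂ : ∀ i ∈ s, v (g₂ i (-x)) ≤ 1) (hint₁ : ∀ i ∈ s, v (g₁ i x) ≤ 1)
    (hrat : ∀ i ∈ s, g₁ i x ∈ Algebra.adjoin K ({y} : Set Om)) :
    v (h (act x - x) - h 0) ^ p ≤ γ ^ (p * E + 1) := by
  by_cases hne : v (h (act x - x) - h 0) = 0
  · rw [hne, zero_pow hp.ne_zero]
    exact zero_le
  obtain ⟨i, hi, hle⟩ := exists_galois_displacement_le v s h g₁ g₂ hΔ σ act x hact hint₂ hne
  exact le_trans (pow_le_pow_left₀ zero_le hle p)
    (kummer_nonunit_ringHom v hp hγ0 hγ1 hζ hE hs hy K hK hyK σ hσK hσy (hrat i hi)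
      (hint₁ i hi))

end Depth

end Fermat.Agent.S56.helper3320
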