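/-
S56, FLAT-LOCAL, track A junction (node FLAT-A-LEVEL): depth ⟹ level.  helper3320.

Twin of the track B junction (layer bound ⟹ level).  Abstract and elementwise:

* `Om` a field with a valuation `v` (multiplicative: `v x ≤ 1` = integral),
* `K` a subfield (the tame field) with uniformiser `π` (`helper4188.IsUnif` for `v` restricted
  to `K`), perfect residue field (`hperf`) and a primitive `p`-th root of unity `ζ`,
  `v (ζ - 1) = v π ^ E`,
* `u ∈ Kˣ` a Kummer radicand, `y ^ p = u`, `σ` a ring endomorphism of `Om` fixing `K` with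
  `σ y = η y`, `η ≠ 1`, `η ^ p = 1`,
* a function `h` of a function order on a group `V` (expansion
  `h (a + b) = ∑ i, g₁ i a * g₂ i b` with integral legs), a point `x` with coordinates
  `g₁ i x ∈ K[y]`, on which `σ` acts through `act`,
* the depth hypothesis `v π ^ d ≤ v (h (act x - x) - h 0)` with `1 ≤ d ≤ E`
  (the displaced point `act x - x` is *not deeper* than `d · v(π)`).

Conclusion (`levelGE_of_depth`): `u` has level `≥ p E + 1 - p d` modulo `p`-th powers, in the
vocabulary `helper4188.LevelGE`.  In particular the radicand is a unit up to `p`-th powers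
(`exists_unit_radicand_of_depth`): the "très ramifié" case is excluded.

`levelGE_of_orderBasis` is the same statement for a function with integral coordinates in an
order basis (a basis of all functions with integral values and integral comultiplication
constants).

Numerology for the niveau 2 case (`e = p² - 1`, `E = p + 1`): `d = p` gives level `≥ p + 1`,
`d = 1` gives level `≥ p² + 1`.
-/
import Mathlib
import Fermat.Agent.S56.helper3320_Pointwise
import Fermat.Agent.S56.helper4188_UnitLevel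

set_option autoImplicit false

namespace Fermat.Agent.S56.helper3320

open Finset

section DepthLevel

variable {Om : Type*} [Field Om] {Γ₀ : Type*} [LinearOrderedCommGroupWithZero Γ₀]
variable {V ι : Type*} [AddCommGroup V]

/-- Replacing the Kummer generator `y` by `y * w` with `w ∈ Kˣ` does not change `K[y]`. -/
theorem adjoin_le_adjoin_mul (K : Subfield Om) (y : Om) {w : K} (hw : w ≠ 0) :
    Algebra.adjoin K ({y} : Set Om) ≤ Algebra.adjoin K ({y * (w : Om)} : Set Om) := by
  refine Algebra.adjoin_le ?_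
  intro z hz
  rw [Set.mem_singleton_iff] at hz
  subst hz
  have h1 : z * (w : Om) ∈ Algebra.adjoin K ({z * (w : Om)} : Set Om) :=
    Algebra.subset_adjoin (Set.mem_singleton _)
  have h2 : algebraMap K Om w⁻¹ ∈ Algebra.adjoin K ({z * (w : Om)} : Set Om) :=
    Subalgebra.algebraMap_mem _ _
  have hw' : (w : Om) ≠ 0 := fun h => hw (Subtype.ext h)
  have e : z = z * (w : Om) * algebraMap K Om w⁻¹ := by
    have : algebraMap K Om w⁻¹ = (w : Om)⁻¹ := rfl
    rw [this, mul_assoc, mul_inv_cancel₀ hw', mul_one]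
  have h3 := Subalgebra.mul_mem _ h1 h2
  rw [← e] at h3
  exact h3

/-- **Track A junction, expansion form.**  See the header of the file. -/
theorem levelGE_of_depth (v : Valuation Om Γ₀) {p : ℕ} (hp : p.Prime) (K : Subfield Om)
    {π ζ : K} (hπ : helper4188.IsUnif (v.comap K.subtype) π)
    (hperf : ∀ a : K, v.comap K.subtype a ≤ 1 → ∃ b : K, v.comap K.subtype (a - b ^ p) < 1)
    (hζ : IsPrimitiveRoot ζ p) {E : ℕ}
    (hE : v.comap K.subtype (ζ - 1) = v.comap K.subtype π ^ E)
    {u : K} (hu : u ≠ 0) {y η : Om} (hy : y ^ p = (u : Om)) (hη : η ^ p = 1) (hη1 : η ≠ 1)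
    (σ : Om →+* Om) (hσK : ∀ x ∈ K, σ x = x) (hσy : σ y = η * y)
    (s : Finset ι) (h : V → Om) (g₁ g₂ : ι → V → Om)
    (hΔ : ∀ a b : V, h (a + b) = ∑ i ∈ s, g₁ i a * g₂ i b) (act : V → V) (x : V)
    (hact : ∀ i ∈ s, g₁ i (act x) = σ (g₁ i x))
    (hint₂ : ∀ i ∈ s, v (g₂ i (-x)) ≤ 1) (hint₁ : ∀ i ∈ s, v (g₁ i x) ≤ 1)
    (hrat : ∀ i ∈ s, g₁ i x ∈ Algebra.adjoin K ({y} : Set Om))
    {d : ℕ} (hd1 : 1 ≤ d) (hdE : d ≤ E)
    (hdepth : v (π : Om) ^ d ≤ v (h (act x - x) - h 0)) :
    helper4188.LevelGE (v.comap K.subtype) π p (p * E + 1 - p * d) u ∧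
      ∃ w : K, w ≠ 0 ∧ v ((u : Om) * (w : Om) ^ p) = 1 := by
  set γ : Γ₀ := v (π : Om) with hγ
  have hγ1 : γ < 1 := hπ.lt_one
  have hγ0 : γ ≠ 0 := hπ.val_ne_zero
  have hγpos : 0 < γ := zero_lt_iff.mpr hγ0
  have hK : ∀ z ∈ K, z ≠ 0 → ∃ n : ℤ, v z = γ ^ n := by
    intro z hz hz0
    exact hπ.exists_zpow ⟨z, hz⟩ (fun h0 => hz0 (congrArg Subtype.val h0))
  have hζ' : IsPrimitiveRoot (ζ : Om) p := hζ.map_of_injective K.subtype_injective
  have hηp : IsPrimitiveRoot η p := helper4188.isPrimitiveRoot_of_ne_one hp hη hη1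
  have hE' : v ((ζ : Om) - 1) = γ ^ E := hE
  have hEη : v (η - 1) = γ ^ E := by
    rcases valuation_nthRoot_sub_one v hp hζ' hη with h1 | h1
    · exact absurd h1 hη1
    · rw [h1, hE']
  have hpow : γ ^ (p * d) ≤ v (h (act x - x) - h 0) ^ p := by
    rw [mul_comm, pow_mul]
    exact pow_le_pow_left₀ zero_le hdepth p
  obtain ⟨w, hw, hnf⟩ := helper4188.exists_normal_form (v.comap K.subtype) hp hζ hπ hperf hu
  have hw' : (w : Om) ≠ 0 := fun h0 => hw (Subtype.ext h0)
  -- the new Kummer generator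
  have hy' : (y * (w : Om)) ^ p = ((u * w ^ p : K) : Om) := by
    rw [mul_pow, hy]; rfl
  have hyK : (y * (w : Om)) ^ p ∈ K := by rw [hy']; exact (u * w ^ p).2
  have hσy' : σ (y * (w : Om)) = η * (y * (w : Om)) := by
    rw [map_mul, hσy, hσK _ w.2, mul_assoc]
  have hrat' : ∀ i ∈ s, g₁ i x ∈ Algebra.adjoin K ({y * (w : Om)} : Set Om) :=
    fun i hi => adjoin_le_adjoin_mul K y hw (hrat i hi)
  rcases hnf with ⟨n, hn, hval⟩ | hUN
  · -- non-unit radicand: impossible
    exfalso
    have hval' : v ((y * (w : Om)) ^ p) = γ ^ n := by rw [hy']; exact hval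
    have hle := displacement_depth_nonunit v hp hγ0 hγ1 hηp hEη hn hval' K hK hyK σ hσK hσy'
      s h g₁ g₂ hΔ act x hact hint₂ hint₁ hrat'
    have h2 : γ ^ (p * d) ≤ γ ^ (p * E + 1) := le_trans hpow hle
    have h3 : p * E + 1 ≤ p * d := (pow_le_pow_iff_right_of_lt_one₀ hγpos hγ1).mp h2
    have h4 : p * d ≤ p * E := Nat.mul_le_mul_left p hdE
    omega
  · rcases hUN with ⟨m, hm0, hpm, htop, hlev⟩ | htop
    · -- exact level `m` below the top
      have hlev' : v ((y * (w : Om)) ^ p - 1) = γ ^ m := by rw [hy']; exact hlev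
      have htop' : γ ^ (E * p) < γ ^ m := by
        have : (v.comap K.subtype (ζ - 1)) ^ p < v.comap K.subtype π ^ m := htop
        rw [hE, ← pow_mul] at this
        exact this
      have hmE : m < p * E := by
        have := (pow_lt_pow_iff_right_of_lt_one₀ hγpos hγ1).mp htop'
        rwa [mul_comm] at this
      have hle := displacement_depth_unit v hp hγ0 hγ1 hηp hEη hmE hpm hlev' K hK hyK σ hσK
        hσy' s h g₁ g₂ hΔ act x hact hint₂ hint₁ hrat'
      have h2 : γ ^ (p * d) ≤ γ ^ (p * E - m + 1) := le_trans hpow hle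
      have h3 : p * E - m + 1 ≤ p * d := (pow_le_pow_iff_right_of_lt_one₀ hγpos hγ1).mp h2
      have h4 : p * E + 1 - p * d ≤ m := by omega
      refine ⟨⟨w, hw, ?_⟩, w, hw, ?_⟩
      · have : v.comap K.subtype (u * w ^ p - 1) = γ ^ m := hlev
        rw [this]
        exact pow_le_pow_of_le_one zero_le hγ1.le h4
      · have h5 : v (((u * w ^ p : K) : Om) - 1) < 1 := by
          have : v (((u * w ^ p : K) : Om) - 1) = γ ^ m := hlev
          rw [this]
          exact pow_lt_one₀ zero_le hγ1 hm0.ne'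
        have h6 : v (((u * w ^ p : K) : Om)) = 1 := by
          have := Valuation.map_one_add_of_lt (v := v) h5
          rwa [add_sub_cancel] at this
        exact h6
    · -- top level
      have htop' : v (((u * w ^ p : K) : Om) - 1) ≤ γ ^ (E * p) := by
        have : v.comap K.subtype (u * w ^ p - 1) ≤ (v.comap K.subtype (ζ - 1)) ^ p := htop
        rw [hE, ← pow_mul] at this
        exact this
      have hp1 : 1 ≤ p := hp.one_lt.le
      have hEp : 1 ≤ E * p := by
        have : 1 ≤ E := le_trans hd1 hdE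
        exact Nat.one_le_iff_ne_zero.mpr (Nat.mul_ne_zero (by omega) hp.ne_zero)
      refine ⟨⟨w, hw, ?_⟩, w, hw, ?_⟩
      · refine le_trans htop' ?_
        apply pow_le_pow_of_le_one zero_le hγ1.le
        have h4 : p * 1 ≤ p * d := Nat.mul_le_mul_left p hd1
        rw [mul_comm E p]
        omega
      · have h5 : v (((u * w ^ p : K) : Om) - 1) < 1 :=
          lt_of_le_of_lt htop' (pow_lt_one₀ zero_le hγ1 (by omega))
        have h6 : v (((u * w ^ p : K) : Om)) = 1 := by
          have := Valuation.map_one_add_of_lt (v := v) h5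
          rwa [add_sub_cancel] at this
        exact h6

/-- **Track A junction, order-basis form.**  `b` a basis of all functions `V → Om` with
integral values and integral comultiplication constants `m` (an order basis), `f` a function
with integral coordinates, `x` a point whose basis coordinates `b j x` lie in `K[y]` and on
which `σ` acts through `act`.  If the displacement `act x - x` has depth at most `d · v(π)`
for `f`, the Kummer radicand `u = y ^ p` has level `≥ p E + 1 - p d`, and is a unit up to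
`p`-th powers. -/
theorem levelGE_of_orderBasis [Fintype ι] (v : Valuation Om Γ₀) {p : ℕ} (hp : p.Prime)
    (K : Subfield Om) {π ζ : K} (hπ : helper4188.IsUnif (v.comap K.subtype) π)
    (hperf : ∀ a : K, v.comap K.subtype a ≤ 1 → ∃ b : K, v.comap K.subtype (a - b ^ p) < 1)
    (hζ : IsPrimitiveRoot ζ p) {E : ℕ}
    (hE : v.comap K.subtype (ζ - 1) = v.comap K.subtype π ^ E)
    {u : K} (hu : u ≠ 0) {y η : Om} (hy : y ^ p = (u : Om)) (hη : η ^ p = 1) (hη1 : η ≠ 1)
    (σ : Om →+* Om) (hσK : ∀ x ∈ K, σ x = x) (hσy : σ y = η * y)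
    (b : Module.Basis ι Om (V → Om)) (m : ι → ι → ι → Om)
    (hbint : ∀ i x, v (b i x) ≤ 1)
    (hbcomul : ∀ i x z, b i (x + z) = ∑ j, ∑ k, m i j k * (b j x * b k z))
    (hbsc : ∀ i j k, v (m i j k) ≤ 1)
    (act : V → V) (x : V) (hact : ∀ j, b j (act x) = σ (b j x))
    (hrat : ∀ j, b j x ∈ Algebra.adjoin K ({y} : Set Om))
    {f : V → Om} (hf : ∀ i, v (b.repr f i) ≤ 1)
    {d : ℕ} (hd1 : 1 ≤ d) (hdE : d ≤ E)
    (hdepth : v (π : Om) ^ d ≤ v (f (act x - x) - f 0)) :
    helper4188.LevelGE (v.comap K.subtype) π p (p * E + 1 - p * d) u ∧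
      ∃ w : K, w ≠ 0 ∧ v ((u : Om) * (w : Om) ^ p) = 1 := by
  classical
  have hfexp : ∀ z : V, f z = ∑ i, b.repr f i * b i z := by
    intro z
    have h1 := congrFun (b.sum_repr f) z
    rw [← h1, Finset.sum_apply]
    exact Finset.sum_congr rfl fun i _ => by rw [Pi.smul_apply, smul_eq_mul]
  have hΔ : ∀ a c : V, f (a + c) =
      ∑ j ∈ (Finset.univ : Finset ι), b j a * ∑ i, ∑ k, b.repr f i * m i j k * b k c := by
    intro a c
    rw [hfexp (a + c)]
    have h2 : ∀ i, b.repr f i * b i (a + c) =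
        ∑ j, b j a * ∑ k, b.repr f i * m i j k * b k c := by
      intro i
      rw [hbcomul i a c, Finset.mul_sum]
      refine Finset.sum_congr rfl fun j _ => ?_
      rw [Finset.mul_sum, Finset.mul_sum]
      exact Finset.sum_congr rfl fun k _ => by ring
    rw [Finset.sum_congr rfl fun i _ => h2 i, Finset.sum_comm]
    refine Finset.sum_congr rfl fun j _ => ?_
    rw [Finset.mul_sum]
  refine levelGE_of_depth v hp K hπ hperf hζ hE hu hy hη hη1 σ hσK hσy Finset.univ f
    (fun j => b j) (fun j z => ∑ i, ∑ k, b.repr f i * m i j k * b k z) hΔ act x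
    (fun j _ => hact j) ?_ (fun j _ => hbint j x) (fun j _ => hrat j) hd1 hdE hdepth
  intro j _
  refine v.map_sum_le fun i _ => v.map_sum_le fun k _ => ?_
  rw [map_mul, map_mul]
  calc v (b.repr f i) * v (m i j k) * v (b k (-x)) ≤ 1 * 1 * 1 :=
        mul_le_mul' (mul_le_mul' (hf i) (hbsc i j k)) (hbint k (-x))
    _ = 1 := by rw [one_mul, one_mul]

/-- Numerology of the niveau 2 case, `E = p + 1`: depth `p · v(π)` gives level `≥ p + 1`. -/
theorem levelGE_succ_of_orderBasis [Fintype ι] (v : Valuation Om Γ₀) {p : ℕ} (hp : p.Prime)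
    (K : Subfield Om) {π ζ : K} (hπ : helper4188.IsUnif (v.comap K.subtype) π)
    (hperf : ∀ a : K, v.comap K.subtype a ≤ 1 → ∃ b : K, v.comap K.subtype (a - b ^ p) < 1)
    (hζ : IsPrimitiveRoot ζ p)
    (hE : v.comap K.subtype (ζ - 1) = v.comap K.subtype π ^ (p + 1))
    {u : K} (hu : u ≠ 0) {y η : Om} (hy : y ^ p = (u : Om)) (hη : η ^ p = 1) (hη1 : η ≠ 1)
    (σ : Om →+* Om) (hσK : ∀ x ∈ K, σ x = x) (hσy : σ y = η * y)
    (b : Module.Basis ι Om (V → Om)) (m : ι → ι → ι → Om)
    (hbint : ∀ i x, v (b i x) ≤ 1)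
    (hbcomul : ∀ i x z, b i (x + z) = ∑ j, ∑ k, m i j k * (b j x * b k z))
    (hbsc : ∀ i j k, v (m i j k) ≤ 1)
    (act : V → V) (x : V) (hact : ∀ j, b j (act x) = σ (b j x))
    (hrat : ∀ j, b j x ∈ Algebra.adjoin K ({y} : Set Om))
    {f : V → Om} (hf : ∀ i, v (b.repr f i) ≤ 1)
    (hdepth : v (π : Om) ^ p ≤ v (f (act x - x) - f 0)) :
    helper4188.LevelGE (v.comap K.subtype) π p (p + 1) u := by
  have h := (levelGE_of_orderBasis v hp K hπ hperf hζ hE hu hy hη hη1 σ hσK hσy b m hbint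
    hbcomul hbsc act x hact hrat hf hp.one_lt.le (Nat.le_succ p) hdepth).1
  have e : p * (p + 1) + 1 - p * p = p + 1 := by
    have : p * (p + 1) = p * p + p := by ring
    omega
  rwa [e] at h

/-- Numerology of the niveau 2 case, `E = p + 1`: depth `v(π)` gives level `≥ p² + 1`. -/
theorem levelGE_sq_succ_of_orderBasis [Fintype ι] (v : Valuation Om Γ₀) {p : ℕ} (hp : p.Prime)
    (K : Subfield Om) {π ζ : K} (hπ : helper4188.IsUnif (v.comap K.subtype) π)
    (hperf : ∀ a : K, v.comap K.subtype a ≤ 1 → ∃ b : K, v.comap K.subtype (a - b ^ p) < 1)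
    (hζ : IsPrimitiveRoot ζ p)
    (hE : v.comap K.subtype (ζ - 1) = v.comap K.subtype π ^ (p + 1))
    {u : K} (hu : u ≠ 0) {y η : Om} (hy : y ^ p = (u : Om)) (hη : η ^ p = 1) (hη1 : η ≠ 1)
    (σ : Om →+* Om) (hσK : ∀ x ∈ K, σ x = x) (hσy : σ y = η * y)
    (b : Module.Basis ι Om (V → Om)) (m : ι → ι → ι → Om)
    (hbint : ∀ i x, v (b i x) ≤ 1)
    (hbcomul : ∀ i x z, b i (x + z) = ∑ j, ∑ k, m i j k * (b j x * b k z))
    (hbsc : ∀ i j k, v (m i j k) ≤ 1)
    (act : V → V) (x : V) (hact : ∀ j, b j (act x) = σ (b j x))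
    (hrat : ∀ j, b j x ∈ Algebra.adjoin K ({y} : Set Om))
    {f : V → Om} (hf : ∀ i, v (b.repr f i) ≤ 1)
    (hdepth : v (π : Om) ≤ v (f (act x - x) - f 0)) :
    helper4188.LevelGE (v.comap K.subtype) π p (p ^ 2 + 1) u := by
  have hdepth' : v (π : Om) ^ 1 ≤ v (f (act x - x) - f 0) := by rwa [pow_one]
  have h := (levelGE_of_orderBasis v hp K hπ hperf hζ hE hu hy hη hη1 σ hσK hσy b m hbint
    hbcomul hbsc act x hact hrat hf le_rfl (Nat.succ_le_succ (Nat.zero_le p)) hdepth').1
  have e : p * (p + 1) + 1 - p * 1 = p ^ 2 + 1 := by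
    have : p * (p + 1) = p ^ 2 + p := by ring
    omega
  rwa [e] at h

end DepthLevel

end Fermat.Agent.S56.helper3320
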