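/-
S56, FLAT-LOCAL, node FLAT-A-RAT: a rationality lemma.  Mathlib only.  helper3320.

`G` a group acting on a field `Om` by ring automorphisms, `H` a subgroup, `K` a subfield
containing every `H`-fixed element, `y` an element with finite `H`-orbit.  If `b` is fixed by
every element of `H` fixing `y`, then `b ∈ K[y]`.

Proof: Lagrange interpolation over the `H`-orbit of `y`.  The interpolating polynomial of the
(well defined) function `τ y ↦ τ b` is `H`-invariant by uniqueness, so its coefficients are in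
`K`, and its value at `y` is `b`.  No Galois correspondence, no normal closure, no topology:
`H` may be any subgroup of an infinite Galois group.
-/
import Mathlib

set_option autoImplicit false

namespace Fermat.Agent.S56.helper3320

open Polynomial

section Rationality

variable {Om G : Type*} [Field Om] [Group G] [MulSemiringAction G Om]

/-- **Rationality lemma.**  If `b` is fixed by the stabiliser of `y` in `H`, and `K` contains
the `H`-fixed elements, then `b` is a polynomial in `y` with coefficients in `K`. -/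
theorem exists_polynomial_of_stabilizer_fixed (H : Subgroup G) {y b : Om}
    (hfin : {z : Om | ∃ τ ∈ H, τ • y = z}.Finite)
    (hb : ∀ τ ∈ H, τ • y = y → τ • b = b) :
    ∃ g : Om[X], eval y g = b ∧ ∀ τ ∈ H, ∀ n : ℕ, τ • g.coeff n = g.coeff n := by
  classical
  set S : Finset Om := hfin.toFinset with hS
  have hmem : ∀ z, z ∈ S ↔ ∃ τ ∈ H, τ • y = z := fun z => by
    rw [hS, Set.Finite.mem_toFinset]; rfl
  let B : Om → Om := fun z => if hz : ∃ τ ∈ H, τ • y = z then (Classical.choose hz) • b else 0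
  have hB : ∀ τ ∈ H, B (τ • y) = τ • b := by
    intro τ hτ
    have hz : ∃ τ' ∈ H, τ' • y = τ • y := ⟨τ, hτ, rfl⟩
    have hBdef : B (τ • y) = (Classical.choose hz) • b := dif_pos hz
    obtain ⟨h1, h2⟩ := Classical.choose_spec hz
    rw [hBdef]
    set τ' := Classical.choose hz
    have h3 : (τ⁻¹ * τ') • y = y := by
      rw [mul_smul, h2, ← mul_smul, inv_mul_cancel, one_smul]
    have h4 := hb (τ⁻¹ * τ') (H.mul_mem (H.inv_mem hτ) h1) h3
    rw [mul_smul] at h4
    have h5 : τ • (τ⁻¹ • τ' • b) = τ • b := by rw [h4]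
    rwa [← mul_smul, mul_inv_cancel, one_smul] at h5
  have hinj : Set.InjOn (id : Om → Om) (S : Set Om) := fun _ _ _ _ h => h
  set g : Om[X] := Lagrange.interpolate S id B with hg
  have hyS : y ∈ S := (hmem y).2 ⟨1, H.one_mem, one_smul _ _⟩
  refine ⟨g, ?_, ?_⟩
  · have h1 := Lagrange.eval_interpolate_at_node (r := B) hinj hyS
    rw [id] at h1
    rw [hg, h1]
    have h2 := hB 1 H.one_mem
    rwa [one_smul, one_smul] at h2
  · intro τ hτ n
    set φ : Om →+* Om := MulSemiringAction.toRingHom G Om τ with hφ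
    have hφapp : ∀ z, φ z = τ • z := fun z => rfl
    have hdeg : g.degree < S.card := Lagrange.degree_interpolate_lt B hinj
    have hdeg' : (g.map φ).degree < S.card := lt_of_le_of_lt degree_map_le hdeg
    have heq : g.map φ = g := by
      refine Polynomial.eq_of_degrees_lt_of_eval_finset_eq S hdeg' hdeg ?_
      intro z hz
      obtain ⟨τ₁, hτ₁, rfl⟩ := (hmem z).1 hz
      -- `z' = τ⁻¹ τ₁ y` is again a node and `z = τ z'`
      set τ₂ := τ⁻¹ * τ₁ with hτ₂
      have hτ₂H : τ₂ ∈ H := H.mul_mem (H.inv_mem hτ) hτ₁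
      have hz' : τ₂ • y ∈ S := (hmem _).2 ⟨τ₂, hτ₂H, rfl⟩
      have e1 : τ₁ • y = φ (τ₂ • y) := by
        rw [hφapp, ← mul_smul, hτ₂, mul_inv_cancel_left]
      have e2 : eval (τ₂ • y) g = B (τ₂ • y) := by
        have h1 := Lagrange.eval_interpolate_at_node (r := B) hinj hz'
        rwa [id] at h1
      have e3 : eval (τ₁ • y) g = B (τ₁ • y) := by
        have h1 := Lagrange.eval_interpolate_at_node (r := B) hinj hz
        rwa [id] at h1
      rw [e3, e1, eval_map, eval₂_at_apply, e2, hB τ₂ hτ₂H, hφapp, ← e1, hB τ₁ hτ₁,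
        ← mul_smul, hτ₂, mul_inv_cancel_left]
    have h1 : (g.map φ).coeff n = g.coeff n := by rw [heq]
    rwa [coeff_map, hφapp] at h1

/-- **Rationality lemma, `K[y]` form.** -/
theorem mem_adjoin_of_stabilizer_fixed (H : Subgroup G) (K : Subfield Om)
    (hK : ∀ x : Om, (∀ τ ∈ H, τ • x = x) → x ∈ K) {y b : Om}
    (hfin : {z : Om | ∃ τ ∈ H, τ • y = z}.Finite)
    (hb : ∀ τ ∈ H, τ • y = y → τ • b = b) :
    b ∈ Algebra.adjoin K ({y} : Set Om) := by
  obtain ⟨g, hgy, hgfix⟩ := exists_polynomial_of_stabilizer_fixed H hfin hb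
  rw [← hgy, eval_eq_sum_range]
  refine Subalgebra.sum_mem _ fun n _ => ?_
  have hc : g.coeff n ∈ K := hK _ fun τ hτ => hgfix τ hτ n
  have h1 : algebraMap K Om ⟨g.coeff n, hc⟩ ∈ Algebra.adjoin K ({y} : Set Om) :=
    Subalgebra.algebraMap_mem _ _
  have h2 : y ^ n ∈ Algebra.adjoin K ({y} : Set Om) :=
    Subalgebra.pow_mem _ (Algebra.subset_adjoin (Set.mem_singleton y)) n
  exact Subalgebra.mul_mem _ h1 h2

end Rationality

section AlgEquiv

variable {k Om : Type*} [Field k] [Field Om] [Algebra k Om] [Algebra.IsAlgebraic k Om]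

/-- The orbit of an algebraic element under any set of `k`-automorphisms is finite. -/
theorem finite_orbit_algEquiv (H : Subgroup (Om ≃ₐ[k] Om)) (y : Om) :
    {z : Om | ∃ τ ∈ H, τ • y = z}.Finite := by
  have hint : IsIntegral k y := (Algebra.IsAlgebraic.isAlgebraic y).isIntegral
  refine (rootSet_finite (minpoly k y) Om).subset ?_
  rintro z ⟨τ, -, rfl⟩
  rw [mem_rootSet]
  refine ⟨minpoly.ne_zero hint, ?_⟩
  show aeval (τ y) (minpoly k y) = 0
  rw [aeval_algHom_apply, minpoly.aeval, map_zero]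

/-- **Rationality lemma for a subgroup of a Galois group** (`Om / k` algebraic, e.g.
`k = ℚ`, `Om = AlgebraicClosure ℚ`): `K` a subfield containing the `H`-fixed elements, `b`
fixed by every `τ ∈ H` fixing `y`; then `b ∈ K[y]`. -/
theorem mem_adjoin_of_stabilizer_fixed_algEquiv (H : Subgroup (Om ≃ₐ[k] Om)) (K : Subfield Om)
    (hK : ∀ x : Om, (∀ τ ∈ H, τ x = x) → x ∈ K) {y b : Om}
    (hb : ∀ τ ∈ H, τ y = y → τ b = b) :
    b ∈ Algebra.adjoin K ({y} : Set Om) :=
  mem_adjoin_of_stabilizer_fixed H K hK (finite_orbit_algEquiv H y) hb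

end AlgEquiv

end Fermat.Agent.S56.helper3320
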