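/-
S56, FLAT-LOCAL, track A junction in group-action form (nodes FLAT-A-LEVEL + FLAT-A-RAT).
helper3320.

`G` a group acting on the field `Om` (a Galois group), `H` a subgroup (the Galois group of the
tame field), `K` a subfield which is exactly the field of `H`-fixed elements (`hKfix`, `hK`),
with uniformiser `π`, perfect residue field and a primitive `p`-th root of unity `ζ`,
`v (ζ - 1) = v π ^ E`.  `u ∈ Kˣ` a radicand, `y ^ p = u`.

`V` a group on which `G` acts (`actV`), with an order basis `b` (integral values, integral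
comultiplication constants) made of `H`-equivariant functions; `x ∈ V` a point which is fixed
by the stabiliser of `y` in `H` (the point is rational over `K(y)`); for every `τ ∈ H` moving
`y` a function `f` with integral coordinates and `v π ^ d ≤ v (f (τ x - x) - f 0)`
(the displacement `τ x - x` has depth at most `d · v(π)`), `1 ≤ d ≤ E`.

Then `u` has level `≥ p E + 1 - p d` modulo `p`-th powers (`helper4188.LevelGE`) and is a unit
modulo `p`-th powers.
-/
import Mathlib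
import Fermat.Agent.S56.helper3320_DepthLevel
import Fermat.Agent.S56.helper3320_Rationality

set_option autoImplicit false

namespace Fermat.Agent.S56.helper3320

open Finset

section DepthAction

variable {Om : Type*} [Field Om] {Γ₀ : Type*} [LinearOrderedCommGroupWithZero Γ₀]
variable {G : Type*} [Group G] [MulSemiringAction G Om]
variable {V ι : Type*} [AddCommGroup V] [Fintype ι]

/-- **Track A junction, group-action form.**  See the header of the file. -/
theorem levelGE_of_depth_action (v : Valuation Om Γ₀) {p : ℕ} (hp : p.Prime) (K : Subfield Om)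
    {π ζ : K} (hπ : helper4188.IsUnif (v.comap K.subtype) π)
    (hperf : ∀ a : K, v.comap K.subtype a ≤ 1 → ∃ b : K, v.comap K.subtype (a - b ^ p) < 1)
    (hζ : IsPrimitiveRoot ζ p) {E : ℕ}
    (hE : v.comap K.subtype (ζ - 1) = v.comap K.subtype π ^ E)
    (H : Subgroup G) (hKfix : ∀ x ∈ K, ∀ τ ∈ H, τ • x = x)
    (hK : ∀ x : Om, (∀ τ ∈ H, τ • x = x) → x ∈ K)
    {u : K} (hu : u ≠ 0) {y : Om} (hy : y ^ p = (u : Om))
    (hfin : {z : Om | ∃ τ ∈ H, τ • y = z}.Finite)
    (b : Module.Basis ι Om (V → Om)) (m : ι → ι → ι → Om)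
    (hbint : ∀ i x, v (b i x) ≤ 1)
    (hbcomul : ∀ i x z, b i (x + z) = ∑ j, ∑ k, m i j k * (b j x * b k z))
    (hbsc : ∀ i j k, v (m i j k) ≤ 1)
    (actV : G → V → V) (hbeq : ∀ τ ∈ H, ∀ j x, b j (actV τ x) = τ • b j x)
    (x : V) (hstab : ∀ τ ∈ H, τ • y = y → actV τ x = x)
    {d : ℕ} (hd1 : 1 ≤ d) (hdE : d ≤ E)
    (hdepth : ∀ τ ∈ H, τ • y ≠ y → ∃ f : V → Om, (∀ i, v (b.repr f i) ≤ 1) ∧
      v (π : Om) ^ d ≤ v (f (actV τ x - x) - f 0)) :
    helper4188.LevelGE (v.comap K.subtype) π p (p * E + 1 - p * d) u ∧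
      ∃ w : K, w ≠ 0 ∧ v ((u : Om) * (w : Om) ^ p) = 1 := by
  have hu' : (u : Om) ≠ 0 := fun h0 => hu (Subtype.ext h0)
  have hy0 : y ≠ 0 := by
    rintro rfl
    rw [zero_pow hp.ne_zero] at hy
    exact hu' hy.symm
  by_cases hall : ∀ τ ∈ H, τ • y = y
  · -- `y ∈ K`: the radicand is a `p`-th power
    have hyK : y ∈ K := hK y hall
    have hyK0 : (⟨y, hyK⟩ : K) ≠ 0 := fun h0 => hy0 (congrArg Subtype.val h0)
    have hupow : u = (⟨y, hyK⟩ : K) ^ p := Subtype.ext hy.symm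
    refine ⟨?_, (⟨y, hyK⟩ : K)⁻¹, inv_ne_zero hyK0, ?_⟩
    · rw [hupow]
      exact helper4188.levelGE_pow_self hπ hyK0
    · have e : (u : Om) * (((⟨y, hyK⟩ : K)⁻¹ : K) : Om) ^ p = 1 := by
        have : (((⟨y, hyK⟩ : K)⁻¹ : K) : Om) = y⁻¹ := rfl
        rw [this, ← hy, inv_pow, mul_inv_cancel₀ (pow_ne_zero p hy0)]
      rw [e, map_one]
  · push Not at hall
    obtain ⟨τ, hτ, hτy⟩ := hall
    obtain ⟨f, hf, hfd⟩ := hdepth τ hτ hτy
    set σ : Om →+* Om := MulSemiringAction.toRingHom G Om τ with hσ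
    have hσapp : ∀ z, σ z = τ • z := fun z => rfl
    have hη : (τ • y * y⁻¹) ^ p = 1 := by
      rw [mul_pow, ← smul_pow', hy, hKfix _ u.2 τ hτ, ← hy, inv_pow,
        mul_inv_cancel₀ (pow_ne_zero p hy0)]
    have hη1 : τ • y * y⁻¹ ≠ 1 := by
      intro h1
      apply hτy
      have := congrArg (· * y) h1
      simpa [mul_assoc, inv_mul_cancel₀ hy0] using this
    have hσy : σ y = τ • y * y⁻¹ * y := by
      rw [hσapp, mul_assoc, inv_mul_cancel₀ hy0, mul_one]
    exact levelGE_of_orderBasis v hp K hπ hperf hζ hE hu hy hη hη1 σ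
      (fun z hz => hKfix z hz τ hτ) hσy b m hbint hbcomul hbsc (actV τ) x
      (fun j => hbeq τ hτ j x)
      (fun j => mem_adjoin_of_stabilizer_fixed H K hK hfin
        (fun τ' hτ' hfix => by rw [← hbeq τ' hτ' j x, hstab τ' hτ' hfix]))
      hf hd1 hdE hfd

end DepthAction

section DepthAlgEquiv

variable {k Om : Type*} [Field k] [Field Om] [Algebra k Om] [Algebra.IsAlgebraic k Om]
variable {Γ₀ : Type*} [LinearOrderedCommGroupWithZero Γ₀]
variable {V ι : Type*} [AddCommGroup V] [Fintype ι]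

/-- **Track A junction for a subgroup of a Galois group** (`Om / k` algebraic, e.g. `k = ℚ`,
`Om = AlgebraicClosure ℚ`, `H` the subgroup fixing the tame field `K`). -/
theorem levelGE_of_depth_algEquiv (v : Valuation Om Γ₀) {p : ℕ} (hp : p.Prime) (K : Subfield Om)
    {π ζ : K} (hπ : helper4188.IsUnif (v.comap K.subtype) π)
    (hperf : ∀ a : K, v.comap K.subtype a ≤ 1 → ∃ b : K, v.comap K.subtype (a - b ^ p) < 1)
    (hζ : IsPrimitiveRoot ζ p) {E : ℕ}
    (hE : v.comap K.subtype (ζ - 1) = v.comap K.subtype π ^ E)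
    (H : Subgroup (Om ≃ₐ[k] Om)) (hKfix : ∀ x ∈ K, ∀ τ ∈ H, τ x = x)
    (hK : ∀ x : Om, (∀ τ ∈ H, τ x = x) → x ∈ K)
    {u : K} (hu : u ≠ 0) {y : Om} (hy : y ^ p = (u : Om))
    (b : Module.Basis ι Om (V → Om)) (m : ι → ι → ι → Om)
    (hbint : ∀ i x, v (b i x) ≤ 1)
    (hbcomul : ∀ i x z, b i (x + z) = ∑ j, ∑ k, m i j k * (b j x * b k z))
    (hbsc : ∀ i j k, v (m i j k) ≤ 1)
    (actV : (Om ≃ₐ[k] Om) → V → V) (hbeq : ∀ τ ∈ H, ∀ j x, b j (actV τ x) = τ (b j x))
    (x : V) (hstab : ∀ τ ∈ H, τ y = y → actV τ x = x)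
    {d : ℕ} (hd1 : 1 ≤ d) (hdE : d ≤ E)
    (hdepth : ∀ τ ∈ H, τ y ≠ y → ∃ f : V → Om, (∀ i, v (b.repr f i) ≤ 1) ∧
      v (π : Om) ^ d ≤ v (f (actV τ x - x) - f 0)) :
    helper4188.LevelGE (v.comap K.subtype) π p (p * E + 1 - p * d) u ∧
      ∃ w : K, w ≠ 0 ∧ v ((u : Om) * (w : Om) ^ p) = 1 :=
  levelGE_of_depth_action v hp K hπ hperf hζ hE H hKfix hK hu hy (finite_orbit_algEquiv H y)
    b m hbint hbcomul hbsc actV hbeq x hstab hd1 hdE hdepth

end DepthAlgEquiv

end Fermat.Agent.S56.helper3320
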