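/-
S56 FLAT-LOCAL, node FLAT-N2COUNT-GEN (helper3366): the niveau-2 level count in GENERAL form
(track B: no pinning of the tame type, arbitrary tame field, arbitrary coefficient field `k`).

Carrier = the LEVEL surface of `helper4188_UnitLevel`: a field `K` with a valuation `v`, a
uniformizer `π`, a primitive `p`-th root of unity `ζ` with `v (ζ - 1) = v π ^ E`,
`e = (p - 1) * E` (so the top level is `p * E = e + E`).
-/
import Mathlib
import Fermat.Agent.S56.helper4188_UnitLevel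

set_option autoImplicit false

namespace Fermat.Agent.S56.helper3366

open Fermat.Agent.S56.helper4188 Polynomial

/-! ### Equality modulo `p`-th powers -/

section PEq

variable {K : Type*} [Field K]

/-- `u` and `u'` differ by a nonzero `p`-th power. -/
def PEq (p : ℕ) (u u' : K) : Prop := ∃ x : K, x ≠ 0 ∧ u = u' * x ^ p

variable {p : ℕ} {u u' u'' w w' : K}

theorem PEq.refl (u : K) : PEq p u u := ⟨1, one_ne_zero, by simp⟩

theorem PEq.of_eq (h : u = u') : PEq p u u' := h ▸ PEq.refl u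

theorem PEq.symm (h : PEq p u u') : PEq p u' u := by
  obtain ⟨x, hx, h⟩ := h
  refine ⟨x⁻¹, inv_ne_zero hx, ?_⟩
  rw [h, inv_pow, mul_assoc, mul_inv_cancel₀ (pow_ne_zero p hx), mul_one]

theorem PEq.trans (h : PEq p u u') (h' : PEq p u' u'') : PEq p u u'' := by
  obtain ⟨x, hx, h⟩ := h
  obtain ⟨y, hy, h'⟩ := h'
  exact ⟨y * x, mul_ne_zero hy hx, by rw [h, h', mul_pow, mul_assoc]⟩

theorem PEq.mul (h : PEq p u u') (h' : PEq p w w') : PEq p (u * w) (u' * w') := by
  obtain ⟨x, hx, h⟩ := h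
  obtain ⟨y, hy, h'⟩ := h'
  exact ⟨x * y, mul_ne_zero hx hy, by rw [h, h', mul_pow]; ring⟩

theorem PEq.pow (h : PEq p u u') (n : ℕ) : PEq p (u ^ n) (u' ^ n) := by
  obtain ⟨x, hx, h⟩ := h
  exact ⟨x ^ n, pow_ne_zero n hx, by rw [h, mul_pow, ← pow_mul, ← pow_mul, mul_comm p n]⟩

theorem PEq.map (g : K →+* K) (h : PEq p u u') : PEq p (g u) (g u') := by
  obtain ⟨x, hx, h⟩ := h
  exact ⟨g x, (map_ne_zero g).2 hx, by rw [h, map_mul, map_pow]⟩

theorem PEq.ne_zero (h : PEq p u u') (hu' : u' ≠ 0) : u ≠ 0 := by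
  obtain ⟨x, hx, h⟩ := h
  rw [h]; exact mul_ne_zero hu' (pow_ne_zero p hx)

theorem peq_pow_self (p : ℕ) {x : K} (hx : x ≠ 0) : PEq p (x ^ p) 1 := ⟨x, hx, by simp⟩

theorem peq_pow_add_mul (p : ℕ) {u : K} (hu : u ≠ 0) (n j : ℕ) :
    PEq p (u ^ (n + p * j)) (u ^ n) :=
  ⟨u ^ j, pow_ne_zero j hu, by rw [pow_add, ← pow_mul, mul_comm j p]⟩

/-- If `u ^ n` is a `p`-th power and `p ∤ n`, then `u` is a `p`-th power. -/
theorem PEq.of_pow (hp : p.Prime) (hu : u ≠ 0) {n : ℕ} (hn : ¬ p ∣ n) (h : PEq p (u ^ n) 1) :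
    PEq p u 1 := by
  have hcop : Nat.Coprime n p := ((Nat.Prime.coprime_iff_not_dvd hp).2 hn).symm
  obtain ⟨i, -, hi⟩ := Nat.exists_mul_mod_eq_one_of_coprime hcop hp.one_lt
  have h1 : n * i = 1 + p * (n * i / p) := by
    have := Nat.mod_add_div (n * i) p
    omega
  have h2 : PEq p ((u ^ n) ^ i) 1 := by simpa using h.pow i
  rw [← pow_mul, h1] at h2
  have h3 := peq_pow_add_mul p hu 1 (n * i / p)
  rw [pow_one] at h3
  exact h3.symm.trans h2

end PEq

/-! ### `PEq` and levels -/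

section PEqLevel

variable {K : Type*} [Field K] {Γ₀ : Type*} [LinearOrderedCommGroupWithZero Γ₀]
  {v : Valuation K Γ₀} {π : K} {p m : ℕ} {u u' a : K}

theorem PEq.lead (hπ : IsUnif v π) (hm : 0 < m) (h : PEq p u' u) (hl : Lead v π p m u a) :
    Lead v π p m u' a := by
  obtain ⟨x, hx, h⟩ := h
  have := hl.mul hπ hm (lead_pow_self (p := p) (m := m) hπ hx)
  rwa [add_zero, ← h] at this

theorem PEq.levelGE (h : PEq p u' u) (hl : LevelGE v π p m u) : LevelGE v π p m u' := by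
  obtain ⟨x, hx, h⟩ := h
  rw [h]; exact hl.mul_pow_self hx

end PEqLevel

/-! ### The residue field of a valuation -/

section Residue

variable {K : Type*} [Field K] {Γ₀ : Type*} [LinearOrderedCommGroupWithZero Γ₀]
  (v : Valuation K Γ₀)

/-- The residue field of `v`. -/
abbrev Res : Type _ := IsLocalRing.ResidueField v.valuationSubring

open Classical in
/-- The reduction map to the residue field (junk value `0` outside the valuation ring). -/
noncomputable def red (x : K) : Res v :=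
  if h : v x ≤ 1 then IsLocalRing.residue v.valuationSubring ⟨x, h⟩ else 0

variable {v} {x y : K}

theorem red_of_le (h : v x ≤ 1) :
    red v x = IsLocalRing.residue v.valuationSubring ⟨x, h⟩ := dif_pos h

theorem red_add (hx : v x ≤ 1) (hy : v y ≤ 1) : red v (x + y) = red v x + red v y := by
  rw [red_of_le hx, red_of_le hy, red_of_le (v.map_add_le hx hy), ← map_add]; rfl

theorem red_mul (hx : v x ≤ 1) (hy : v y ≤ 1) : red v (x * y) = red v x * red v y := by
  have hxy : v (x * y) ≤ 1 := by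
    rw [v.map_mul]; exact mul_le_one' hx hy
  rw [red_of_le hx, red_of_le hy, red_of_le hxy, ← map_mul]; rfl

theorem red_one : red v (1 : K) = 1 := by
  rw [red_of_le (le_of_eq v.map_one)]; exact map_one _

theorem red_zero : red v (0 : K) = 0 := by
  rw [red_of_le (by rw [v.map_zero]; exact zero_le)]; exact map_zero _

theorem val_pow_le_one (hx : v x ≤ 1) (n : ℕ) : v (x ^ n) ≤ 1 := by
  rw [v.map_pow]; exact pow_le_one' hx n

theorem red_pow (hx : v x ≤ 1) (n : ℕ) : red v (x ^ n) = red v x ^ n := by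
  induction n with
  | zero => simp [red_one]
  | succ n ih => rw [pow_succ, red_mul (val_pow_le_one hx n) hx, ih, pow_succ]

theorem val_natCast_le_one (n : ℕ) : v (n : K) ≤ 1 := by
  induction n with
  | zero => simp
  | succ n ih => rw [Nat.cast_succ]; exact v.map_add_le ih (le_of_eq v.map_one)

theorem red_natCast (n : ℕ) : red v (n : K) = (n : Res v) := by
  induction n with
  | zero => simp [red_zero]
  | succ n ih =>
    rw [Nat.cast_succ, red_add (val_natCast_le_one n) (le_of_eq v.map_one), ih, red_one,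
      Nat.cast_succ]

theorem red_eq_zero_iff (hx : v x ≤ 1) : red v x = 0 ↔ v x < 1 := by
  rw [red_of_le hx, IsLocalRing.residue_eq_zero_iff, ValuationSubring.valuation_lt_one_iff,
    (Valuation.isEquiv_valuation_valuationSubring v).lt_one_iff_lt_one]

theorem red_neg (hx : v x ≤ 1) : red v (-x) = -red v x := by
  have h : v (-x) ≤ 1 := by rwa [v.map_neg]
  have := red_add hx h
  rw [add_neg_cancel, red_zero] at this
  exact eq_neg_of_add_eq_zero_right this.symm

theorem red_sub (hx : v x ≤ 1) (hy : v y ≤ 1) : red v (x - y) = red v x - red v y := by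
  have h : v (-y) ≤ 1 := by rwa [v.map_neg]
  rw [sub_eq_add_neg, red_add hx h, red_neg hy, sub_eq_add_neg]

theorem red_eq_iff (hx : v x ≤ 1) (hy : v y ≤ 1) : red v x = red v y ↔ v (x - y) < 1 := by
  rw [← red_eq_zero_iff (v.map_sub_le hx hy), red_sub hx hy, sub_eq_zero]

theorem exists_red_eq (z : Res v) : ∃ x : K, v x ≤ 1 ∧ red v x = z := by
  obtain ⟨⟨x, hx⟩, rfl⟩ := IsLocalRing.residue_surjective z
  exact ⟨x, hx, red_of_le hx⟩

end Residue

/-! ### Fields of characteristic `p`: the prime field and a quadratic lemma -/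

section CharPField

variable {F : Type*} [Field F] {p : ℕ} [Fact p.Prime] [CharP F p]

theorem natCast_pow_char (n : ℕ) : (n : F) ^ p = n := by
  rw [← frobenius_def, map_natCast]

/-- An element fixed by the Frobenius lies in the prime field. -/
theorem exists_natCast_of_pow_eq {x : F} (hx : x ^ p = x) : ∃ n : ℕ, x = n := by
  classical
  have hp : p.Prime := Fact.out
  by_contra hcon
  have hcon' : ∀ n : ℕ, x ≠ n := fun n h => hcon ⟨n, h⟩
  set q : F[X] := X ^ p - X with hq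
  have hq0 : q ≠ 0 := FiniteField.X_pow_card_sub_X_ne_zero F hp.one_lt
  have hdeg : q.natDegree = p := FiniteField.X_pow_card_sub_X_natDegree_eq F hp.one_lt
  set I : Finset F := (Finset.range p).image (fun n : ℕ => (n : F)) with hI
  have hIcard : I.card = p := by
    rw [hI, Finset.card_image_of_injOn, Finset.card_range]
    intro a ha b hb hab
    exact CharP.natCast_injOn_Iio F p (by simpa using ha) (by simpa using hb) hab
  have hxI : x ∉ I := by
    rw [hI, Finset.mem_image]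
    rintro ⟨n, -, hn⟩
    exact hcon' n hn.symm
  have hsub : insert x I ⊆ q.roots.toFinset := by
    intro y hy
    rw [Multiset.mem_toFinset, mem_roots hq0, IsRoot.def, hq]
    simp only [eval_sub, eval_pow, eval_X]
    rcases Finset.mem_insert.1 hy with rfl | hy
    · rw [hx, sub_self]
    · rw [hI, Finset.mem_image] at hy
      obtain ⟨n, -, rfl⟩ := hy
      rw [natCast_pow_char, sub_self]
  have h1 := Finset.card_le_card hsub
  rw [Finset.card_insert_of_notMem hxI, hIcard] at h1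
  have h2 := (Multiset.toFinset_card_le q.roots).trans (card_roots' q)
  omega

/-- A root of `X ^ 2 - s X + 1` (`s` in the prime field) is fixed by Frobenius or has norm
one. -/
theorem pow_eq_or_pow_succ_eq_one {x : F} {s : ℕ} (h : x ^ 2 - s * x + 1 = 0) :
    x ^ p = x ∨ x ^ (p + 1) = 1 := by
  have h2 : (x ^ p) ^ 2 - s * x ^ p + 1 = 0 := by
    have h3 : (x ^ 2 - s * x + 1) ^ p = 0 := by rw [h, zero_pow (Fact.out : p.Prime).ne_zero]
    rw [add_pow_char, sub_pow_char, mul_pow, natCast_pow_char, one_pow] at h3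
    rw [← h3]; ring
  have h4 : (x ^ p - x) * (x ^ p + x - s) = 0 := by
    have e : (x ^ p - x) * (x ^ p + x - s) =
        ((x ^ p) ^ 2 - s * x ^ p + 1) - (x ^ 2 - s * x + 1) := by ring
    rw [e, h2, h, sub_zero]
  rcases mul_eq_zero.1 h4 with h5 | h5
  · left; exact sub_eq_zero.1 h5
  · right
    have h6 : x ^ p = s - x := by linear_combination h5
    rw [pow_succ, h6]
    linear_combination -h

/-- If `X ^ 2 - s X + 1` has a root in the prime field and its roots in `F` are `a`, `a⁻¹`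
with `a ^ (p + 1) = 1`, `a ≠ 1`, then `a = -1`. -/
theorem eq_neg_one_of_natCast_root {a : F} {s n : ℕ} (ha1 : a ≠ 1) (ha : a ^ (p + 1) = 1)
    (hs : a + a⁻¹ = s) (hn : (n : F) ^ 2 - s * n + 1 = 0) : a = -1 := by
  have ha0 : a ≠ 0 := by
    rintro rfl
    rw [zero_pow (Nat.succ_ne_zero p)] at ha
    exact zero_ne_one ha
  have h1 : ((n : F) - a) * ((n : F) - a⁻¹) = 0 := by
    have e : ((n : F) - a) * ((n : F) - a⁻¹) = (n : F) ^ 2 - (a + a⁻¹) * n + a * a⁻¹ := by ring
    rw [e, hs, mul_inv_cancel₀ ha0, hn]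
  have hap : a ^ p = a := by
    rcases mul_eq_zero.1 h1 with h2 | h2
    · rw [← sub_eq_zero.1 h2, natCast_pow_char]
    · have h3 : a = (n : F)⁻¹ := by rw [sub_eq_zero.1 h2, inv_inv]
      rw [h3, inv_pow, natCast_pow_char]
  have h4 : a ^ 2 = 1 := by rw [pow_succ, hap] at ha; rw [pow_two]; exact ha
  have h5 : (a - 1) * (a + 1) = 0 := by linear_combination h4
  rcases mul_eq_zero.1 h5 with h6 | h6
  · exact absurd (sub_eq_zero.1 h6) ha1
  · exact eq_neg_of_add_eq_zero_left h6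

end CharPField

/-- Transfer of a polynomial identity with natural coefficients between two rings of
characteristic `p`. -/
theorem natCast_quad_transfer {F F' : Type*} [Field F] [Field F'] {p : ℕ} [CharP F p]
    [CharP F' p] {s n : ℕ} (h : (n : F) ^ 2 - s * n + 1 = 0) : (n : F') ^ 2 - s * n + 1 = 0 := by
  have h1 : (((n : ℤ) ^ 2 - s * n + 1 : ℤ) : F) = 0 := by push_cast; exact h
  have h2 := (CharP.intCast_eq_zero_iff F p _).1 h1
  have h3 := (CharP.intCast_eq_zero_iff F' p _).2 h2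
  push_cast at h3; exact h3

/-! ### Arithmetic of the window of levels `[e, p * E)` -/

section Window

variable {p e E m : ℕ}

theorem window_not_dvd (hp : p.Prime) (hp2 : p ≠ 2) (he : e = (p - 1) * E)
    (h1 : e ≤ m) (h2 : m < p * E) : ¬ e ∣ m - E := by
  have hp3 : 3 ≤ p := by
    have := hp.two_le; omega
  obtain ⟨P, rfl⟩ : ∃ P, p = P + 1 := ⟨p - 1, by omega⟩
  have hP : 2 ≤ P := by omega
  simp only [Nat.add_sub_cancel] at he
  subst he
  have hEm : E ≤ m := le_trans (Nat.le_mul_of_pos_left E (by omega)) h1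
  obtain ⟨d, rfl⟩ : ∃ d, m = d + E := ⟨m - E, by omega⟩
  simp only [Nat.add_sub_cancel]
  have hd1 : d < P * E := by
    have : (P + 1) * E = P * E + E := by ring
    omega
  have hd0 : 0 < d := by
    have : 2 * E ≤ P * E := Nat.mul_le_mul_right E hP
    omega
  intro hdvd
  exact absurd (Nat.le_of_dvd hd0 hdvd) (not_le.2 hd1)

theorem window_arith (hp : p.Prime) (hp2 : p ≠ 2) (hE : 0 < E) (he : e = (p - 1) * E)
    (h1 : e ≤ m) (h2 : m < p * E) (hd : e ∣ (m - E) * (p + 1)) :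
    (p + 1) * (m - E) = p * e ∨ (p = 3 ∧ m = e) := by
  have hp3 : 3 ≤ p := by
    have := hp.two_le; omega
  obtain ⟨P, rfl⟩ : ∃ P, p = P + 1 := ⟨p - 1, by omega⟩
  have hP : 2 ≤ P := by omega
  simp only [Nat.add_sub_cancel] at he
  subst he
  have hEm : E ≤ m := le_trans (Nat.le_mul_of_pos_left E (by omega)) h1
  obtain ⟨d, rfl⟩ : ∃ d, m = d + E := ⟨m - E, by omega⟩
  simp only [Nat.add_sub_cancel] at hd ⊢
  have hd1 : d < P * E := by
    have : (P + 1) * E = P * E + E := by ring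
    omega
  have hd2 : (P - 1) * E ≤ d := by
    have : P * E = (P - 1) * E + E := by
      obtain ⟨Q, rfl⟩ : ∃ Q, P = Q + 1 := ⟨P - 1, by omega⟩
      simp only [Nat.add_sub_cancel]; ring
    omega
  obtain ⟨n, hn⟩ := hd
  obtain ⟨Q, rfl⟩ : ∃ Q, P = Q + 2 := ⟨P - 2, by omega⟩
  have hd2' : (Q + 1) * E ≤ d := by
    have : Q + 2 - 1 = Q + 1 := by omega
    rwa [this] at hd2
  -- n < P + 2
  have hn1 : n ≤ Q + 3 := by
    by_contra hcon
    have hcon' : Q + 4 ≤ n := by omega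
    have : (Q + 2) * E * (Q + 4) ≤ (Q + 2) * E * n := Nat.mul_le_mul_left _ hcon'
    nlinarith
  rcases Nat.lt_or_ge n (Q + 3) with hlt | hge
  · -- n ≤ P: forces Q = 0
    right
    have hn2 : n ≤ Q + 2 := by omega
    have h3 : (Q + 1) * E * (Q + 2 + 1 + 1) ≤ (Q + 2) * E * (Q + 2) := by
      calc (Q + 1) * E * (Q + 2 + 1 + 1) ≤ d * (Q + 2 + 1 + 1) := Nat.mul_le_mul_right _ hd2'
        _ = (Q + 2) * E * n := hn
        _ ≤ (Q + 2) * E * (Q + 2) := Nat.mul_le_mul_left _ hn2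
    have hQ : Q = 0 := by
      by_contra hQ
      have hQ1 : 1 ≤ Q := Nat.one_le_iff_ne_zero.2 hQ
      nlinarith
    subst hQ
    refine ⟨rfl, ?_⟩
    simp only [zero_add] at hn hd2' h3 hn2 ⊢
    -- d * 4 = 2 * E * n, n ≤ 2, E ≤ d
    have hn3 : n = 2 := by
      by_contra hne
      have : n ≤ 1 := by omega
      have : 2 * E * n ≤ 2 * E * 1 := Nat.mul_le_mul_left _ this
      nlinarith
    subst hn3
    omega
  · left
    have hn3 : n = Q + 3 := by omega
    subst hn3
    have : Q + 2 + 1 + 1 = Q + 4 := by ring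
    rw [mul_comm (Q + 2 + 1 + 1) d, hn]; ring

theorem window_arith_two (hp : p.Prime) (hp2 : p ≠ 2) (hE : 0 < E) (he : e = (p - 1) * E)
    (h1 : e ≤ m) (h2 : m < p * E) (hd : e ∣ (m - E) * 2) : p = 3 := by
  have hp3 : 3 ≤ p := by
    have := hp.two_le; omega
  obtain ⟨P, rfl⟩ : ∃ P, p = P + 1 := ⟨p - 1, by omega⟩
  have hP : 2 ≤ P := by omega
  simp only [Nat.add_sub_cancel] at he
  subst he
  have hEm : E ≤ m := le_trans (Nat.le_mul_of_pos_left E (by omega)) h1
  obtain ⟨d, rfl⟩ : ∃ d, m = d + E := ⟨m - E, by omega⟩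
  simp only [Nat.add_sub_cancel] at hd
  have hd1 : d < P * E := by
    have : (P + 1) * E = P * E + E := by ring
    omega
  obtain ⟨Q, rfl⟩ : ∃ Q, P = Q + 2 := ⟨P - 2, by omega⟩
  have hd2 : (Q + 1) * E ≤ d := by
    have : (Q + 2) * E = (Q + 1) * E + E := by ring
    omega
  obtain ⟨n, hn⟩ := hd
  by_contra hne
  have hQ1 : 1 ≤ Q := by omega
  -- d * 2 = (Q+2) * E * n, with (Q+1) E ≤ d < (Q+2) E
  have hn1 : n ≤ 1 := by
    by_contra hcon
    have hcon' : 2 ≤ n := by omega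
    have : (Q + 2) * E * 2 ≤ (Q + 2) * E * n := Nat.mul_le_mul_left _ hcon'
    omega
  have hn0 : n = 1 := by
    by_contra hcon
    have : n = 0 := by omega
    subst this
    have : 0 < (Q + 1) * E := Nat.mul_pos (by omega) hE
    omega
  subst hn0
  nlinarith

end Window

/-! ### Raising levels inside the window -/

section Raise

variable {K : Type*} [Field K] {Γ₀ : Type*} [LinearOrderedCommGroupWithZero Γ₀]
  {v : Valuation K Γ₀} {π ζ : K} {p E : ℕ}

theorem lt_top_iff (hπ : IsUnif v π) (hvζ : v (ζ - 1) = v π ^ E) (m : ℕ) :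
    v (ζ - 1) ^ p < v π ^ m ↔ m < p * E := by
  rw [hvζ, ← pow_mul, mul_comm E p]
  exact pow_lt_pow_iff_right_of_lt_one₀ hπ.val_pos hπ.lt_one

/-- If no level in `[m, n)` prime to `p` carries a unit leading coefficient, level `≥ m`
implies level `≥ n` (for `n` at most the top level `p * E`). -/
theorem raise (hp : p.Prime) (hζ : IsPrimitiveRoot ζ p) (hπ : IsUnif v π)
    (hperf : ∀ x : K, v x ≤ 1 → ∃ b : K, v (x - b ^ p) < 1) (hvζ : v (ζ - 1) = v π ^ E)
    {y : K} {m n : ℕ} (hm0 : 0 < m) (hmn : m ≤ n) (hn : n ≤ p * E) (h : LevelGE v π p m y)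
    (hex : ∀ j, m ≤ j → j < n → ¬ p ∣ j → ∀ b, Lead v π p j y b → v b < 1) :
    LevelGE v π p n y := by
  induction n, hmn using Nat.le_induction with
  | base => exact h
  | succ n hmn ih =>
    have hn' : n < p * E := by omega
    have ih' := ih (by omega) (fun j hj hjn => hex j hj (by omega))
    have htop := (lt_top_iff hπ hvζ n).2 hn'
    by_cases hpn : p ∣ n
    · exact ih'.succ_of_dvd hp hζ hπ hperf (by omega) hpn htop
    · exact ih'.succ_of_lead hp hζ hπ hpn htop (hex n hmn (by omega) hpn)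

theorem val_p_lt_one (hp : p.Prime) (hζ : IsPrimitiveRoot ζ p) (hlam : v (ζ - 1) < 1) :
    v (p : K) < 1 := by
  have hvζ : v ζ = 1 := val_eq_one_of_pow_eq_one v hp.ne_zero hζ.pow_eq_one
  have h0 : ∑ i ∈ Finset.range p, ζ ^ i = 0 := hζ.geom_sum_eq_zero hp.one_lt
  have h1 : (p : K) = ∑ i ∈ Finset.range p, (1 - ζ ^ i) := by
    rw [Finset.sum_sub_distrib, h0, sub_zero, Finset.sum_const, Finset.card_range, nsmul_eq_mul,
      mul_one]
  rw [h1]
  apply Valuation.map_sum_lt v one_ne_zero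
  intro i _
  rw [v.map_sub_swap]
  exact lt_of_le_of_lt (val_pow_sub_one_le v hvζ i) hlam

end Raise

/-! ### Counting lemmas -/

section Counting

theorem window_j0 {p e E j0 : ℕ} (hp : p.Prime) (hp2 : p ≠ 2) (hE : 0 < E)
    (he : e = (p - 1) * E) (hpE : ¬ p ∣ E) (hEj : E ≤ j0)
    (hj : (p + 1) * (j0 - E) = p * e) : e ≤ j0 ∧ j0 < p * E ∧ ¬ p ∣ j0 := by
  have hp3 : 3 ≤ p := by
    have := hp.two_le; omega
  obtain ⟨P, rfl⟩ : ∃ P, p = P + 1 := ⟨p - 1, by omega⟩
  have hP : 2 ≤ P := by omega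
  simp only [Nat.add_sub_cancel] at he
  subst he
  obtain ⟨d, rfl⟩ : ∃ d, j0 = d + E := ⟨j0 - E, by omega⟩
  simp only [Nat.add_sub_cancel] at hj
  have hPE : 0 < P * E := Nat.mul_pos (by omega) hE
  refine ⟨?_, ?_, ?_⟩
  · by_contra hcon
    push Not at hcon
    have h1 := Nat.mul_le_mul_left (P + 1 + 1) (Nat.succ_le_of_lt hcon)
    nlinarith
  · by_contra hcon
    push Not at hcon
    have h0 : P * E ≤ d := by
      have : (P + 1) * E = P * E + E := by ring
      omega
    have h1 := Nat.mul_le_mul_left (P + 1 + 1) h0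
    nlinarith
  · intro hdvd
    have h1 : (P + 1) ∣ (P + 1 + 1) * d := ⟨P * E, hj⟩
    have hcop : Nat.Coprime (P + 1) (P + 1 + 1) := by simp
    have h2 : (P + 1) ∣ d := hcop.dvd_of_dvd_mul_left h1
    exact hpE ((Nat.dvd_add_right h2).1 hdvd)

/-- In characteristic `p`, the solutions of `A * y ^ p = B * y` form an additive subgroup. -/
def frobRoots (F : Type*) [Field F] (p : ℕ) [Fact p.Prime] [CharP F p] (A B : F) :
    AddSubgroup F where
  carrier := {y | A * y ^ p = B * y}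
  zero_mem' := by
    show A * 0 ^ p = B * 0
    rw [zero_pow (Fact.out : p.Prime).ne_zero, mul_zero, mul_zero]
  add_mem' := by
    intro y y' hy hy'
    have hy1 : A * y ^ p = B * y := hy
    have hy2 : A * y' ^ p = B * y' := hy'
    show A * (y + y') ^ p = B * (y + y')
    rw [add_pow_char, mul_add, mul_add, hy1, hy2]
  neg_mem' := by
    intro y hy
    have hy1 : A * y ^ p = B * y := hy
    show A * (-y) ^ p = B * (-y)
    rw [← frobenius_def, map_neg, frobenius_def, mul_neg, mul_neg, hy1]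

theorem frobRoots_finite_card {F : Type*} [Field F] {p : ℕ} [Fact p.Prime] [CharP F p] {A : F}
    (hA : A ≠ 0) (B : F) :
    Finite (frobRoots F p A B) ∧ Nat.card (frobRoots F p A B) ≤ p := by
  classical
  have hp : p.Prime := Fact.out
  set P : F[X] := C A * X ^ p - C B * X with hP
  have hdeg : P.natDegree ≤ p := by
    refine (natDegree_sub_le _ _).trans (max_le (natDegree_C_mul_X_pow_le A p) ?_)
    exact (natDegree_C_mul_le _ _).trans (natDegree_X_le.trans hp.one_lt.le)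
  have hP0 : P ≠ 0 := by
    intro h0
    have h1 : P.coeff p = A := by
      rw [hP, coeff_sub, coeff_C_mul_X_pow, coeff_C_mul, coeff_X, if_pos rfl,
        if_neg hp.one_lt.ne, mul_zero, sub_zero]
    rw [h0, coeff_zero] at h1
    exact hA h1.symm
  have hsub : ((frobRoots F p A B : AddSubgroup F) : Set F) ⊆ ↑P.roots.toFinset := by
    intro y hy
    have hy' : A * y ^ p = B * y := hy
    rw [Finset.mem_coe, Multiset.mem_toFinset, mem_roots hP0, IsRoot.def, hP]
    simp only [eval_sub, eval_mul, eval_C, eval_pow, eval_X]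
    rw [hy', sub_self]
  have hfin : ((frobRoots F p A B : AddSubgroup F) : Set F).Finite :=
    (Finset.finite_toSet _).subset hsub
  refine ⟨hfin.to_subtype, ?_⟩
  have h1 : Nat.card (frobRoots F p A B) =
      ((frobRoots F p A B : AddSubgroup F) : Set F).ncard := Nat.card_coe_set_eq _
  rw [h1]
  calc ((frobRoots F p A B : AddSubgroup F) : Set F).ncard
      ≤ (↑P.roots.toFinset : Set F).ncard := Set.ncard_le_ncard hsub (Finset.finite_toSet _)
    _ = P.roots.toFinset.card := Set.ncard_coe_finset _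
    _ ≤ Multiset.card P.roots := Multiset.toFinset_card_le _
    _ ≤ P.natDegree := card_roots' P
    _ ≤ p := hdeg

/-- An additive subgroup with at most `p` elements of a field of characteristic `p` is
generated by any of its nonzero elements. -/
theorem exists_natCast_mul_of_card_le {F : Type*} [Field F] {p : ℕ} [Fact p.Prime] [CharP F p]
    (S : AddSubgroup F) [Finite S] (hS : Nat.card S ≤ p) {y y' : F} (hy : y ∈ S) (hy' : y' ∈ S)
    (hy0 : y ≠ 0) : ∃ n : ℕ, y' = n * y := by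
  let f : ZMod p → S := fun c =>
    ⟨(c.val : F) * y, by rw [← nsmul_eq_mul]; exact S.nsmul_mem hy _⟩
  have hf : Function.Injective f := by
    intro c c' hcc
    have h1 : (c.val : F) * y = (c'.val : F) * y := congrArg (fun z : S => (z : F)) hcc
    have h2 : (c.val : F) = (c'.val : F) := mul_right_cancel₀ hy0 h1
    have h3 := CharP.natCast_injOn_Iio F p (ZMod.val_lt c) (ZMod.val_lt c') h2
    exact ZMod.val_injective p h3
  have hbij := hf.bijective_of_nat_card_le (by rw [Nat.card_zmod]; exact hS)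
  obtain ⟨c, hc⟩ := hbij.2 ⟨y', hy'⟩
  exact ⟨c.val, (congrArg (fun z : S => (z : F)) hc).symm⟩

/-- A functional to `𝔽_p` which is injective on a given additive subgroup with at most `p`
elements. -/
theorem exists_addHom_injOn {F : Type*} [Field F] {p : ℕ} [Fact p.Prime] [CharP F p]
    (S : AddSubgroup F) [Finite S] (hS : Nat.card S ≤ p) :
    ∃ τ : F →+ ZMod p, ∀ y ∈ S, τ y = 0 → y = 0 := by
  letI : Algebra (ZMod p) F := ZMod.algebra F p
  by_cases hS0 : ∀ y ∈ S, y = 0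
  · exact ⟨0, fun y hy _ => hS0 y hy⟩
  · push Not at hS0
    obtain ⟨y₁, hy₁, hy₁0⟩ := hS0
    have hex : ∃ φ : Module.Dual (ZMod p) F, φ y₁ ≠ 0 := by
      by_contra hcon
      push Not at hcon
      exact hy₁0 ((Module.forall_dual_apply_eq_zero_iff (ZMod p) y₁).1 hcon)
    obtain ⟨φ, hφ⟩ := hex
    refine ⟨φ.toAddMonoidHom, ?_⟩
    intro y hy hτ
    obtain ⟨n, rfl⟩ := exists_natCast_mul_of_card_le S hS hy₁ hy hy₁0
    have h1 : φ ((n : F) * y₁) = (n : ZMod p) * φ y₁ := by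
      rw [← nsmul_eq_mul, map_nsmul, nsmul_eq_mul]
    have h2 : (n : ZMod p) * φ y₁ = 0 := by rw [← h1]; exact hτ
    have h3 : (n : ZMod p) = 0 := (mul_eq_zero.1 h2).resolve_right hφ
    have h4 : (n : F) = 0 := by
      rw [CharP.cast_eq_zero_iff F p]; exact (ZMod.natCast_eq_zero_iff n p).1 h3
    rw [h4, zero_mul]

theorem card_dual_zmod (X : Type*) [AddCommGroup X] [Finite X] (p : ℕ) [Fact p.Prime]
    [Module (ZMod p) X] : Nat.card (Module.Dual (ZMod p) X) = Nat.card X := by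
  haveI : Module.Finite (ZMod p) X := Module.Finite.of_finite
  have h1 := Module.natCard_eq_pow_finrank (K := ZMod p) (V := Module.Dual (ZMod p) X)
  have h2 := Module.natCard_eq_pow_finrank (K := ZMod p) (V := X)
  rw [Subspace.dual_finrank_eq] at h1
  exact h1.trans h2.symm

/-- A finite abelian group killed by `p` has at most as many `𝔽_p`-valued characters as
elements. -/
theorem card_addHom_zmod_le (X : Type*) [AddCommGroup X] [Finite X] (p : ℕ) [Fact p.Prime]
    (hX : ∀ x : X, p • x = 0) :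
    Finite (X →+ ZMod p) ∧ Nat.card (X →+ ZMod p) ≤ Nat.card X := by
  letI : Module (ZMod p) X := AddCommGroup.zmodModule hX
  haveI : Finite (X →+ ZMod p) :=
    Finite.of_injective (fun f : X →+ ZMod p => (f : X → ZMod p)) DFunLike.coe_injective
  refine ⟨inferInstance, ?_⟩
  have e : (X →+ ZMod p) ≃ (X →ₗ[ZMod p] ZMod p) := (AddMonoidHom.toZModLinearMapEquiv p).toEquiv
  rw [Nat.card_congr e]
  exact le_of_eq (card_dual_zmod X p)

/-- If a homomorphism to a finite group has kernel inside `C₀`, the quotient by `C₀` is finite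
of cardinality at most that of the target. -/
theorem card_quotient_le_of_hom {C Y : Type*} [AddCommGroup C] [AddCommGroup Y] [Finite Y]
    (B : C →+ Y) (C₀ : AddSubgroup C) (hker : ∀ c, B c = 0 → c ∈ C₀) :
    Finite (C ⧸ C₀) ∧ Nat.card (C ⧸ C₀) ≤ Nat.card Y := by
  classical
  let g : B.range → C ⧸ C₀ := fun y => QuotientAddGroup.mk (Classical.choose y.2)
  have hg : Function.Surjective g := by
    intro q
    obtain ⟨c, rfl⟩ := QuotientAddGroup.mk_surjective q
    refine ⟨⟨B c, c, rfl⟩, ?_⟩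
    have h1 : B (Classical.choose (⟨B c, c, rfl⟩ : B.range).2) = B c :=
      Classical.choose_spec (⟨B c, c, rfl⟩ : B.range).2
    show QuotientAddGroup.mk _ = QuotientAddGroup.mk c
    rw [QuotientAddGroup.eq]
    apply hker
    rw [map_add, map_neg, h1, neg_add_cancel]
  haveI : Finite B.range :=
    Finite.of_injective (fun y : B.range => (y : Y)) Subtype.val_injective
  haveI : Finite (C ⧸ C₀) := Finite.of_surjective g hg
  refine ⟨inferInstance, ?_⟩
  exact (Nat.card_le_card_of_surjective g hg).trans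
    (Nat.card_le_card_of_injective _ Subtype.val_injective)

end Counting

theorem levelGE_mul {K : Type*} [Field K] {Γ₀ : Type*} [LinearOrderedCommGroupWithZero Γ₀]
    {v : Valuation K Γ₀} {π : K} {p m : ℕ} {u u' : K} (hπ : IsUnif v π) (hm : 0 < m)
    (h : LevelGE v π p m u) (h' : LevelGE v π p m u') : LevelGE v π p m (u * u') := by
  obtain ⟨a, ha⟩ := h.exists_lead hπ
  obtain ⟨a', ha'⟩ := h'.exists_lead hπ
  exact (ha.mul hπ hm ha').levelGE

theorem PEq.cancel {K : Type*} [Field K] {p : ℕ} {x x' y : K} (h : PEq p (x * y) (x' * y))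
    (hy : y ≠ 0) : PEq p x x' := by
  obtain ⟨z, hz, h⟩ := h
  refine ⟨z, hz, ?_⟩
  have e : x * y = x' * z ^ p * y := by rw [h]; ring
  exact mul_right_cancel₀ hy e

/-! ### The datum of the general niveau-2 count -/

section Main

variable {K : Type*} [Field K] {Γ₀ : Type*} [LinearOrderedCommGroupWithZero Γ₀]
  {k : Type*} [Field k] {Λ : Type*} [AddCommGroup Λ] {X : Type*} [AddCommGroup X]
  {C : Type*} [AddCommGroup C]

/-- **The tame field datum.**

`K`, `v`, `π`, `ζ`: a tame field with uniformizer `π`, `ζ` a primitive `p`-th root of unity,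
`v (ζ - 1) = v π ^ E`, `e = (p - 1) * E` prime to `p`, perfect residue field;
`gt`: a tame generator (`gt π = π * ct`, trivial on the residue field, `ct` of exact order
`e` in the residue field, `ct ^ E ≡ wt` = the value of the cyclotomic character at `gt`);
`gφ`: a Frobenius lift (`x ↦ x ^ p` on the residue field), `gφ π = π * cφ`. -/
structure IsTameDatum (v : Valuation K Γ₀) (p : ℕ) (π ζ : K) (e E : ℕ) (gt gφ : K →+* K)
    (ct cφ : K) (wt : ℕ) : Prop where
  E_pos : 0 < E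
  e_eq : e = (p - 1) * E
  not_dvd_E : ¬ p ∣ E
  unif : IsUnif v π
  prim : IsPrimitiveRoot ζ p
  val_zeta : v (ζ - 1) = v π ^ E
  perf : ∀ x : K, v x ≤ 1 → ∃ b : K, v (x - b ^ p) < 1
  gt_val : ∀ x, v (gt x) = v x
  gt_tame : ∀ x, v x ≤ 1 → v (gt x - x) < 1
  gt_unif : gt π = π * ct
  ct_order : ∀ n : ℕ, v (ct ^ n - 1) < 1 → e ∣ n
  wt_eq : v (ct ^ E - (wt : K)) < 1
  wt_unit : ¬ p ∣ wt
  gφ_val : ∀ x, v (gφ x) = v x
  gφ_frob : ∀ x, v x ≤ 1 → v (gφ x - x ^ p) < 1
  gφ_unif : gφ π = π * cφ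

/-- **The family of radicands.**

`u c l` is the Kummer radicand of the functional `l` of the class `c`: additive in `c` and `l`
modulo `p`-th powers, equivariant under `gt` (through `T`, with cyclotomic exponent `wt`) and
under `gφ` (through `Φ`, exponent `wφ`), of level `≥ e`; top-level members are invariant. -/
structure IsRadicandFamily (v : Valuation K Γ₀) (p : ℕ) (π : K) (e E : ℕ) (gt gφ : K →+* K)
    (wt wφ : ℕ) (T Φ : Λ →+ Λ) (u : C → Λ → K) : Prop where
  u_ne : ∀ c l, u c l ≠ 0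
  u_addC : ∀ c c' l, PEq p (u (c + c') l) (u c l * u c' l)
  u_addΛ : ∀ c l l', PEq p (u c (l + l')) (u c l * u c l')
  u_T : ∀ c l, PEq p (gt (u c l)) (u c (T l) ^ wt)
  u_Φ : ∀ c l, PEq p (gφ (u c l)) (u c (Φ l) ^ wφ)
  u_level : ∀ c l, LevelGE v π p e (u c l)
  top_T : ∀ c l, LevelGE v π p (p * E) (u c l) → PEq p (u c (T l)) (u c l)
  top_Φ : ∀ c l, LevelGE v π p (p * E) (u c l) → PEq p (u c (Φ l)) (u c l)

/-- **Hypotheses of the general niveau-2 count.**

* a tame field datum and a family of radicands (see `IsTameDatum`, `IsRadicandFamily`);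
* `a`: an element of some field `k` of characteristic `p` (a witness for the eigenvalue of
  the tame generator on `ad⁰`): `a ≠ 1`, `a ^ (p + 1) = 1`, `a + a⁻¹ = s`, and `a ≠ -1` if
  `p = 3`;
* `Λ`: the additive group of functionals, with the operators `T`, `Φ` induced by `gt`, `gφ`:
  every functional is `l₀ + l₂` with `T l₀ = l₀`, `Φ l₀ = -l₀` and `l₂` in the quadratic part
  `Λ₂ = ker (T² - s T + 1)`; `T - 1` is onto on `Λ₂`; if `a ≠ -1`, `Λ₂ = W + T W` for the
  image `W` of `w : X →+ Λ`, which consists of `Φ`-fixed elements of `Λ₂`. -/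
structure IsN2Datum (v : Valuation K Γ₀) (p : ℕ) (π ζ : K) (e E : ℕ) (gt gφ : K →+* K)
    (ct cφ : K) (wt wφ s : ℕ) (a : k) (T Φ : Λ →+ Λ) (w : X →+ Λ) (u : C → Λ → K) : Prop
    extends IsTameDatum v p π ζ e E gt gφ ct cφ wt,
      IsRadicandFamily v p π e E gt gφ wt wφ T Φ u where
  a_ne_one : a ≠ 1
  a_norm : a ^ (p + 1) = 1
  a_trace : a + a⁻¹ = (s : k)
  a_three : p = 3 → a ≠ -1
  dec : ∀ l : Λ, ∃ l₀ l₂ : Λ,
    l = l₀ + l₂ ∧ T l₀ = l₀ ∧ Φ l₀ = -l₀ ∧ T (T l₂) + l₂ = s • T l₂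
  solve : ∀ l : Λ, T (T l) + l = s • T l → ∃ μ : Λ, T (T μ) + μ = s • T μ ∧ T μ = μ + l
  w_quad : ∀ x : X, T (T (w x)) + w x = s • T (w x)
  w_Φ : ∀ x : X, Φ (w x) = w x
  gen : a ≠ -1 → ∀ l : Λ, T (T l) + l = s • T l → ∃ x x' : X, l = w x + T (w x')

namespace IsN2Datum

variable {v : Valuation K Γ₀} {p : ℕ} {π ζ : K} {e E : ℕ} {gt gφ : K →+* K} {ct cφ : K}
  {wt wφ s : ℕ} {a : k} {T Φ : Λ →+ Λ} {w : X →+ Λ} {u : C → Λ → K}
  (h : IsN2Datum v p π ζ e E gt gφ ct cφ wt wφ s a T Φ w u)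

include h

theorem e_le_top : e ≤ p * E := by
  rw [h.e_eq]; exact Nat.mul_le_mul_right E (Nat.sub_le p 1)

theorem e_pos (hp : p.Prime) : 0 < e := by
  rw [h.e_eq]
  exact Nat.mul_pos (by have := hp.two_le; omega) h.E_pos

theorem E_le_e (hp : p.Prime) : E ≤ e := by
  rw [h.e_eq]
  exact Nat.le_mul_of_pos_left E (by have := hp.two_le; omega)

theorem val_zeta_lt : v (ζ - 1) < 1 := by
  rw [h.val_zeta]; exact pow_lt_one₀ zero_le h.unif.lt_one h.E_pos.ne'

theorem val_ct : v ct = 1 := by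
  have h1 := h.gt_val π
  rw [h.gt_unif, v.map_mul] at h1
  have h2 : v π * v ct = v π * 1 := by rw [h1, mul_one]
  exact mul_left_cancel₀ h.unif.val_ne_zero h2

theorem val_cφ : v cφ = 1 := by
  have h1 := h.gφ_val π
  rw [h.gφ_unif, v.map_mul] at h1
  have h2 : v π * v cφ = v π * 1 := by rw [h1, mul_one]
  exact mul_left_cancel₀ h.unif.val_ne_zero h2

theorem charP_res (hp : p.Prime) : CharP (Res v) p := by
  refine (CharP.charP_iff_prime_eq_zero hp).2 ?_
  rw [← red_natCast, red_eq_zero_iff (val_natCast_le_one p)]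
  exact val_p_lt_one hp h.prim h.val_zeta_lt

theorem red_ct_ne : red v ct ≠ 0 := by
  intro h0
  rw [red_eq_zero_iff (le_of_eq h.val_ct), h.val_ct] at h0
  exact lt_irrefl _ h0

theorem red_ct_pow_E : red v ct ^ E = (wt : Res v) := by
  rw [← red_pow (le_of_eq h.val_ct), ← red_natCast,
    red_eq_iff (val_pow_le_one (le_of_eq h.val_ct) E) (val_natCast_le_one wt)]
  exact h.wt_eq

theorem dvd_of_red_ct_pow {n : ℕ} (hn : red v ct ^ n = 1) : e ∣ n := by
  apply h.ct_order
  rwa [← red_pow (le_of_eq h.val_ct), ← red_one,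
    red_eq_iff (val_pow_le_one (le_of_eq h.val_ct) n) (le_of_eq v.map_one)] at hn

theorem u_zero (c : C) : PEq p (u c 0) 1 := by
  have h1 := h.u_addΛ c 0 0
  rw [add_zero] at h1
  have h2 : PEq p (1 * u c 0) (u c 0 * u c 0) := by rwa [one_mul]
  exact (h2.cancel (h.u_ne c 0)).symm

theorem u_neg (c : C) (l : Λ) : PEq p (u c (-l) * u c l) 1 := by
  have h1 := h.u_addΛ c (-l) l
  rw [neg_add_cancel] at h1
  exact h1.symm.trans (h.u_zero c)

theorem u_nsmul (c : C) (l : Λ) (n : ℕ) : PEq p (u c (n • l)) (u c l ^ n) := by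
  induction n with
  | zero => rw [zero_smul, pow_zero]; exact h.u_zero c
  | succ n ih =>
    rw [succ_nsmul, pow_succ]
    exact (h.u_addΛ c (n • l) l).trans (ih.mul (PEq.refl _))

/-- **The `T`-invariant part is trivial**: a functional fixed by `T` and negated by `Φ` has a
`p`-th power as radicand. -/
theorem fixed_part (hp : p.Prime) (hp2 : p ≠ 2) (c : C) {l : Λ} (hT : T l = l)
    (hΦ : Φ l = -l) : PEq p (u c l) 1 := by
  have hy0 : u c l ≠ 0 := h.u_ne c l
  have h1 : PEq p (gt (u c l)) (u c l ^ wt) := by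
    have := h.u_T c l
    rwa [hT] at this
  obtain ⟨x, hx, hgx⟩ := h1
  have htop : LevelGE v π p (p * E) (u c l) := by
    refine raise hp h.prim h.unif h.perf h.val_zeta (h.e_pos hp) h.e_le_top le_rfl
      (h.u_level c l) ?_
    intro j hj hjn hpj b hb
    by_contra hcon
    have hb1 : v b = 1 := le_antisymm hb.1 (not_lt.1 hcon)
    have h2 := hb.eigen hp h.prim h.unif hpj ((lt_top_iff h.unif h.val_zeta j).2 hjn) gt
      h.gt_val h.gt_tame h.gt_unif hb1 hx hgx
    have h3 : red v ct ^ j = (wt : Res v) := by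
      rw [← red_pow (le_of_eq h.val_ct), ← red_natCast,
        red_eq_iff (val_pow_le_one (le_of_eq h.val_ct) j) (val_natCast_le_one wt)]
      exact h2
    have hEj : E ≤ j := (h.E_le_e hp).trans hj
    have h6 : red v ct ^ (j - E) = 1 := by
      have h7 : red v ct ^ (j - E) * red v ct ^ E = 1 * red v ct ^ E := by
        rw [← pow_add, Nat.sub_add_cancel hEj, one_mul, h3, h.red_ct_pow_E]
      exact mul_right_cancel₀ (pow_ne_zero E h.red_ct_ne) h7
    exact window_not_dvd hp hp2 h.e_eq hj hjn (h.dvd_of_red_ct_pow h6)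
  have h3 := h.top_Φ c l htop
  rw [hΦ] at h3
  have h4 := h.u_neg c l
  have h5 : PEq p (u c l ^ 2) 1 := by
    rw [pow_two]
    exact ((h3.mul (PEq.refl (u c l))).symm).trans h4
  refine h5.of_pow hp hy0 ?_
  intro hdvd
  have := Nat.le_of_dvd (by norm_num) hdvd
  have := hp.two_le
  omega

theorem u_T_inv {i₁ : ℕ} (hi : wt * i₁ % p = 1) (c : C) (l : Λ) :
    PEq p (gt (u c l) ^ i₁) (u c (T l)) := by
  have hwi : wt * i₁ = 1 + p * (wt * i₁ / p) := by
    have := Nat.mod_add_div (wt * i₁) p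
    omega
  have h1 := (h.u_T c l).pow i₁
  rw [← pow_mul, hwi] at h1
  have h3 := peq_pow_add_mul p (h.u_ne c (T l)) 1 (wt * i₁ / p)
  rw [pow_one] at h3
  exact h1.trans h3

/-- **The quadratic constraint at an exact level**: if a functional of the quadratic part has
exact level `m` (prime to `p`, below the top), then `ϱ = ct ^ (m - E)` is a root of
`X ^ 2 - s X + 1` in the residue field. -/
theorem quad_of_lead (hp : p.Prime) (c : C) {l : Λ} (hQ : T (T l) + l = s • T l) {m : ℕ}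
    {b : K} (hm : ¬ p ∣ m) (hEm : E ≤ m) (hmtop : m < p * E) (hb : Lead v π p m (u c l) b)
    (hvb : v b = 1) :
    (red v ct ^ (m - E)) ^ 2 - (s : Res v) * red v ct ^ (m - E) + 1 = 0 := by
  haveI := h.charP_res hp
  have hcop : Nat.Coprime wt p := ((Nat.Prime.coprime_iff_not_dvd hp).2 h.wt_unit).symm
  obtain ⟨i₁, -, hi⟩ := Nat.exists_mul_mod_eq_one_of_coprime hcop hp.one_lt
  have hwi : wt * i₁ = 1 + p * (wt * i₁ / p) := by
    have := Nat.mod_add_div (wt * i₁) p
    omega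
  have h1 : PEq p (gt (u c l) ^ i₁) (u c (T l)) := h.u_T_inv hi c l
  have h2 : PEq p (gt (gt (u c l)) ^ (i₁ * i₁)) (u c (T (T l))) := by
    have e1 := (h1.map gt).pow i₁
    rw [map_pow, ← pow_mul] at e1
    exact e1.trans (h.u_T_inv hi c (T l))
  have h3 : PEq p (gt (gt (u c l)) ^ (i₁ * i₁) * u c l ^ 1) (gt (u c l) ^ (i₁ * s)) := by
    have e1 := h2.mul (PEq.of_eq (p := p) (pow_one (u c l)))
    have e2 := (h.u_addΛ c (T (T l)) l).symm
    rw [hQ] at e2
    have e3 := h.u_nsmul c (T l) s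
    have e4 := (h1.symm).pow s
    rw [← pow_mul] at e4
    exact e1.trans (e2.trans (e3.trans e4))
  obtain ⟨x, hx, hgx⟩ := h3
  have h4 := hb.eigen_three hp h.prim h.unif hm ((lt_top_iff h.unif h.val_zeta m).2 hmtop) gt
    h.gt_val h.gt_tame h.gt_unif hvb hx hgx
  have hc1 : v ct ≤ 1 := le_of_eq h.val_ct
  have hcm : v (ct ^ m) ≤ 1 := val_pow_le_one hc1 m
  have hA : v (((i₁ * i₁ : ℕ) : K) * (ct ^ m) ^ 2) ≤ 1 := by
    rw [v.map_mul]; exact mul_le_one' (val_natCast_le_one _) (val_pow_le_one hcm 2)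
  have hB : v (((i₁ * s : ℕ) : K) * ct ^ m) ≤ 1 := by
    rw [v.map_mul]; exact mul_le_one' (val_natCast_le_one _) hcm
  have h1' : v (((1 : ℕ) : K)) ≤ 1 := val_natCast_le_one 1
  have hred := (red_eq_zero_iff (le_of_lt h4)).2 h4
  rw [red_sub (v.map_add_le hA h1') hB, red_add hA h1',
    red_mul (val_natCast_le_one _) (val_pow_le_one hcm 2),
    red_mul (val_natCast_le_one _) hcm, red_pow hcm, red_pow hc1, red_natCast, red_natCast,
    red_natCast] at hred
  have hIW : ((i₁ : ℕ) : Res v) * (wt : Res v) = 1 := by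
    have := congrArg (fun n : ℕ => (n : Res v)) hwi
    simp only [Nat.cast_mul, Nat.cast_add, Nat.cast_one, CharP.cast_eq_zero, zero_mul,
      add_zero] at this
    rw [mul_comm]; exact this
  have hϱ : red v ct ^ m = red v ct ^ (m - E) * (wt : Res v) := by
    rw [← h.red_ct_pow_E, ← pow_add, Nat.sub_add_cancel hEm]
  rw [hϱ] at hred
  push_cast at hred
  linear_combination hred -
    ((red v ct ^ (m - E)) ^ 2 * (1 + (i₁ : Res v) * wt) - s * red v ct ^ (m - E)) * hIW

theorem s_cast_of_neg_one (hp : p.Prime) [CharP k p] (ha : a = -1) : (s : Res v) = -2 := by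
  haveI := h.charP_res hp
  have h1 : ((s + 2 : ℕ) : k) = 0 := by
    have h0 := h.a_trace
    rw [ha] at h0
    push_cast
    rw [← h0]; norm_num
  have h2 := (CharP.cast_eq_zero_iff k p (s + 2)).1 h1
  have h3 := (CharP.cast_eq_zero_iff (Res v) p (s + 2)).2 h2
  push_cast at h3
  linear_combination h3

/-- **The only admissible exact level.** -/
theorem exact_level (hp : p.Prime) (hp2 : p ≠ 2) [CharP k p] (c : C) {l : Λ}
    (hQ : T (T l) + l = s • T l) {m : ℕ} {b : K} (hm : ¬ p ∣ m) (hem : e ≤ m)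
    (hmtop : m < p * E) (hb : Lead v π p m (u c l) b) (hvb : v b = 1) :
    (p + 1) * (m - E) = p * e ∧ a ≠ -1 := by
  haveI : Fact p.Prime := ⟨hp⟩
  haveI := h.charP_res hp
  have hEm : E ≤ m := (h.E_le_e hp).trans hem
  have hq := h.quad_of_lead hp c hQ hm hEm hmtop hb hvb
  set ϱ := red v ct ^ (m - E) with hϱ
  have hneg : a ≠ -1 := by
    intro ha
    have hs := h.s_cast_of_neg_one hp ha
    rw [hs] at hq
    have h1 : (ϱ + 1) ^ 2 = 0 := by linear_combination hq
    have h2 : ϱ = -1 := eq_neg_of_add_eq_zero_left (pow_eq_zero_iff two_ne_zero |>.1 h1)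
    have h3 : red v ct ^ ((m - E) * 2) = 1 := by rw [pow_mul, ← hϱ, h2]; norm_num
    have h4 := h.dvd_of_red_ct_pow h3
    have h5 := window_arith_two hp hp2 h.E_pos h.e_eq hem hmtop h4
    exact h.a_three h5 ha
  refine ⟨?_, hneg⟩
  have hfr : ϱ ^ p ≠ ϱ := by
    intro hfix
    obtain ⟨n, hn⟩ := exists_natCast_of_pow_eq hfix
    rw [hn] at hq
    have hk : (n : k) ^ 2 - s * n + 1 = 0 := natCast_quad_transfer (p := p) hq
    exact hneg (eq_neg_one_of_natCast_root h.a_ne_one h.a_norm h.a_trace hk)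
  rcases pow_eq_or_pow_succ_eq_one hq with h1 | h1
  · exact absurd h1 hfr
  · have h3 : red v ct ^ ((m - E) * (p + 1)) = 1 := by rw [pow_mul]; exact h1
    have h4 := h.dvd_of_red_ct_pow h3
    rcases window_arith hp hp2 h.E_pos h.e_eq hem hmtop h4 with h5 | ⟨h5, h6⟩
    · exact h5
    · exfalso
      apply hfr
      have hm2 : m = 2 * E := by rw [h6, h.e_eq, h5]
      have hmE : m - E = E := by omega
      rw [hϱ, hmE, h.red_ct_pow_E, natCast_pow_char]

/-- Raising the level of a functional of the quadratic part through non-admissible levels. -/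
theorem levelGE_raise (hp : p.Prime) (hp2 : p ≠ 2) [CharP k p] (c : C) {l : Λ}
    (hQ : T (T l) + l = s • T l) {m n : ℕ} (hem : e ≤ m) (hmn : m ≤ n) (hn : n ≤ p * E)
    (hlev : LevelGE v π p m (u c l))
    (hex : ∀ j, m ≤ j → j < n → (p + 1) * (j - E) = p * e → a = -1) :
    LevelGE v π p n (u c l) := by
  refine raise hp h.prim h.unif h.perf h.val_zeta (lt_of_lt_of_le (h.e_pos hp) hem) hmn hn
    hlev ?_
  intro j hj hjn hpj b hb
  by_contra hcon
  have hvb : v b = 1 := le_antisymm hb.1 (not_lt.1 hcon)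
  obtain ⟨h1, h2⟩ := h.exact_level hp hp2 c hQ hpj (hem.trans hj) (lt_of_lt_of_le hjn hn) hb hvb
  exact h2 (hex j hj hjn h1)

/-- If the whole quadratic part is at the top level, all radicands are `p`-th powers. -/
theorem trivial_of_top (hp : p.Prime) (hp2 : p ≠ 2) (c : C)
    (htop : ∀ l, T (T l) + l = s • T l → LevelGE v π p (p * E) (u c l)) (l : Λ) :
    PEq p (u c l) 1 := by
  have h2 : ∀ l₂, T (T l₂) + l₂ = s • T l₂ → PEq p (u c l₂) 1 := by
    intro l₂ hQ
    obtain ⟨μ, hμ, hTμ⟩ := h.solve l₂ hQ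
    have e1 := h.top_T c μ (htop μ hμ)
    rw [hTμ] at e1
    have e2 := (h.u_addΛ c μ l₂).symm.trans e1
    have e3 : PEq p (u c l₂ * u c μ) (1 * u c μ) := by rw [one_mul, mul_comm]; exact e2
    exact e3.cancel (h.u_ne c μ)
  obtain ⟨l₀, l₂, rfl, hT0, hΦ0, hQ⟩ := h.dec l
  have e1 := h.u_addΛ c l₀ l₂
  have e2 := (h.fixed_part hp hp2 c hT0 hΦ0).mul (h2 l₂ hQ)
  rw [one_mul] at e2
  exact e1.trans e2

/-- **The leading-coefficient homomorphism**: a homomorphism from the classes to the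
`𝔽_p`-characters of `X` whose kernel consists of classes with trivial radicands. -/
theorem exists_hom (hp : p.Prime) (hp2 : p ≠ 2) [CharP k p] :
    ∃ B : C →+ (X →+ ZMod p), ∀ c, B c = 0 → ∀ l, PEq p (u c l) 1 := by
  haveI : Fact p.Prime := ⟨hp⟩
  haveI := h.charP_res hp
  by_cases hcase : a ≠ -1 ∧ ∃ j0, E ≤ j0 ∧ (p + 1) * (j0 - E) = p * e
  swap
  · refine ⟨0, fun c _ => h.trivial_of_top hp hp2 c (fun l hl => ?_)⟩
    refine h.levelGE_raise hp hp2 c hl le_rfl h.e_le_top le_rfl (h.u_level c l)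
      (fun j hj _ hj' => ?_)
    by_contra ha
    exact hcase ⟨ha, j, (h.E_le_e hp).trans hj, hj'⟩
  obtain ⟨ha, j0, hEj, hj0⟩ := hcase
  obtain ⟨hej, hjtop, hpj⟩ := window_j0 hp hp2 h.E_pos h.e_eq h.not_dvd_E hEj hj0
  have hlt := (lt_top_iff h.unif h.val_zeta j0).2 hjtop
  have hj0pos : 0 < j0 := lt_of_lt_of_le (h.e_pos hp) hej
  have huniq : ∀ j, e ≤ j → (p + 1) * (j - E) = p * e → j = j0 := by
    intro j hj hj'
    have hEj' : E ≤ j := (h.E_le_e hp).trans hj
    have h1 : (p + 1) * (j - E) = (p + 1) * (j0 - E) := hj'.trans hj0.symm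
    have h2 : j - E = j0 - E := Nat.eq_of_mul_eq_mul_left (Nat.succ_pos p) h1
    omega
  have hlev : ∀ c x, LevelGE v π p j0 (u c (w x)) := fun c x =>
    h.levelGE_raise hp hp2 c (h.w_quad x) le_rfl hej hjtop.le (h.u_level c _)
      (fun j hj hjn hj' => absurd (huniq j hj hj') (ne_of_lt hjn))
  choose b hb using fun c x => (hlev c x).exists_lead h.unif
  have hb1 : ∀ c x, v (b c x) ≤ 1 := fun c x => (hb c x).1
  have hβC : ∀ c c' x, red v (b (c + c') x) = red v (b c x) + red v (b c' x) := by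
    intro c c' x
    have h1 := (hb c x).mul h.unif hj0pos (hb c' x)
    have h2 := (h.u_addC c c' (w x)).lead h.unif hj0pos h1
    have h3 := (hb (c + c') x).unique hp h.prim h.unif hpj hlt h2
    rw [← red_add (hb1 c x) (hb1 c' x)]
    exact (red_eq_iff (hb1 _ _) (v.map_add_le (hb1 c x) (hb1 c' x))).2 h3
  have hβX : ∀ c x x', red v (b c (x + x')) = red v (b c x) + red v (b c x') := by
    intro c x x'
    have h1 := (hb c x).mul h.unif hj0pos (hb c x')
    have h2' := h.u_addΛ c (w x) (w x')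
    rw [← map_add] at h2'
    have h2 := h2'.lead h.unif hj0pos h1
    have h3 := (hb c (x + x')).unique hp h.prim h.unif hpj hlt h2
    rw [← red_add (hb1 c x) (hb1 c x')]
    exact (red_eq_iff (hb1 _ _) (v.map_add_le (hb1 c x) (hb1 c x'))).2 h3
  have hcφ1 : v cφ ≤ 1 := le_of_eq h.val_cφ
  have hA : red v cφ ^ j0 ≠ 0 := by
    apply pow_ne_zero
    intro h0
    rw [red_eq_zero_iff hcφ1, h.val_cφ] at h0
    exact lt_irrefl _ h0
  have hβΦ : ∀ c x, red v (b c x) ∈ frobRoots (Res v) p (red v cφ ^ j0) (wφ : Res v) := by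
    intro c x
    have h1 := (hb c x).map h.unif gφ h.gφ_val h.gφ_unif
    have h2' := h.u_Φ c (w x)
    rw [h.w_Φ] at h2'
    have h2 := h2'.lead h.unif hj0pos ((hb c x).pow h.unif hj0pos wφ)
    have h3 := h1.unique hp h.prim h.unif hpj hlt h2
    have hg1 : v (gφ (b c x)) ≤ 1 := by rw [h.gφ_val]; exact hb1 c x
    have h4 := (red_eq_iff (by rw [v.map_mul]; exact mul_le_one' (val_pow_le_one hcφ1 j0) hg1)
      (by rw [v.map_mul]; exact mul_le_one' (val_natCast_le_one wφ) (hb1 c x))).2 h3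
    rw [red_mul (val_pow_le_one hcφ1 j0) hg1, red_pow hcφ1,
      red_mul (val_natCast_le_one wφ) (hb1 c x), red_natCast] at h4
    have h5 : red v (gφ (b c x)) = red v (b c x) ^ p := by
      rw [← red_pow (hb1 c x)]
      exact (red_eq_iff hg1 (val_pow_le_one (hb1 c x) p)).2 (h.gφ_frob _ (hb1 c x))
    rw [h5] at h4
    exact h4
  obtain ⟨hfin, hcard⟩ := frobRoots_finite_card hA (wφ : Res v)
  obtain ⟨τ, hτ⟩ := exists_addHom_injOn (frobRoots (Res v) p (red v cφ ^ j0) (wφ : Res v)) hcard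
  let B₁ : C → (X →+ ZMod p) := fun c =>
    AddMonoidHom.mk' (fun x => τ (red v (b c x))) (fun x x' => by rw [hβX, map_add])
  let B : C →+ (X →+ ZMod p) := AddMonoidHom.mk' B₁ (fun c c' => by
    ext x
    show τ (red v (b (c + c') x)) = τ (red v (b c x)) + τ (red v (b c' x))
    rw [hβC, map_add])
  refine ⟨B, fun c hc => h.trivial_of_top hp hp2 c ?_⟩
  have hw : ∀ x, LevelGE v π p (p * E) (u c (w x)) := by
    intro x
    have h1 : τ (red v (b c x)) = 0 := congrArg (fun f : X →+ ZMod p => f x) hc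
    have h2 : red v (b c x) = 0 := hτ _ (hβΦ c x) h1
    have h3 : v (b c x) < 1 := (red_eq_zero_iff (hb1 c x)).1 h2
    have h4 := ((hb c x).val_lt_one_iff hp h.prim h.unif hpj hlt).1 h3
    refine h.levelGE_raise hp hp2 c (h.w_quad x) (by omega) (by omega) le_rfl h4
      (fun j hj hjn hj' => ?_)
    have := huniq j (by omega) hj'
    omega
  intro l hQ
  obtain ⟨x, x', rfl⟩ := h.gen ha l hQ
  have h2 : LevelGE v π p (p * E) (u c (T (w x'))) := (h.top_T c _ (hw x')).levelGE (hw x')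
  exact (h.u_addΛ c (w x) (T (w x'))).levelGE
    (levelGE_mul h.unif (Nat.mul_pos hp.pos h.E_pos) (hw x) h2)

/-- **The general niveau-2 count.** If `C₀` contains every class all of whose radicands are
`p`-th powers, then `C ⧸ C₀` is finite with at most `|X|` elements (`X` finite, killed by `p`;
in the application `X ≃ k` additively, so the bound is `|k|`). -/
theorem card_quotient_le (hp : p.Prime) (hp2 : p ≠ 2) [CharP k p] [Finite X]
    (hX : ∀ x : X, p • x = 0) (C₀ : AddSubgroup C)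
    (hC₀ : ∀ c, (∀ l, PEq p (u c l) 1) → c ∈ C₀) :
    Finite (C ⧸ C₀) ∧ Nat.card (C ⧸ C₀) ≤ Nat.card X := by
  haveI : Fact p.Prime := ⟨hp⟩
  obtain ⟨B, hB⟩ := h.exists_hom hp hp2
  obtain ⟨hfin, hcard⟩ := card_addHom_zmod_le X p hX
  obtain ⟨h1, h2⟩ := card_quotient_le_of_hom B C₀ (fun c hc => hC₀ c (hB c hc))
  exact ⟨h1, h2.trans hcard⟩

end IsN2Datum

/-! ### Supplying `top_T` / `top_Φ` when top-level radicands are `p`-th powers -/

/-- If `g y ≡ y' ^ j` modulo `p`-th powers with `p ∤ j` and `y` is a `p`-th power, then so is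
`y'`; in particular `y' ≡ y`. This gives the fields `top_T`, `top_Φ` of `IsRadicandFamily`
whenever every top-level radicand is a `p`-th power (e.g. over a field with algebraically
closed residue field, or by Hensel). -/
theorem PEq.of_map_pow {p : ℕ} {g : K →+* K} {j : ℕ} (hp : p.Prime) (hj : ¬ p ∣ j) {y y' : K}
    (hy' : y' ≠ 0) (hg : PEq p (g y) (y' ^ j)) (hy : PEq p y 1) : PEq p y' y := by
  have h1 : PEq p (g y) 1 := by
    have := hy.map g
    rwa [map_one] at this
  have h2 : PEq p (y' ^ j) 1 := hg.symm.trans h1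
  exact (h2.of_pow hp hy' hj).trans hy.symm

/-! ### Supplying `wt_eq`: the cyclotomic value of a tame automorphism -/

/-- If a tame automorphism `g` (`g π = π * c`) maps `ζ` to `ζ ^ j`, then `c ^ E ≡ j` in the
residue field (`v (ζ - 1) = v π ^ E`). This is the field `wt_eq` of `IsTameDatum`. -/
theorem val_pow_sub_natCast_lt {v : Valuation K Γ₀} {π ζ : K} {E : ℕ} (hπ : IsUnif v π)
    (hE : 0 < E) (hvζ : v (ζ - 1) = v π ^ E) (g : K →+* K) (hg : ∀ x, v (g x) = v x)
    (htame : ∀ x, v x ≤ 1 → v (g x - x) < 1) {c : K} (hc : g π = π * c) {j : ℕ}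
    (hj : g ζ = ζ ^ j) : v (c ^ E - (j : K)) < 1 := by
  have hπE : π ^ E ≠ 0 := pow_ne_zero E hπ.ne_zero
  have hlt : v (ζ - 1) < 1 := by
    rw [hvζ]; exact pow_lt_one₀ zero_le hπ.lt_one hE.ne'
  have hζ1 : v ζ = 1 := by
    have e : ζ = 1 + (ζ - 1) := by ring
    rw [e]; exact v.map_one_add_of_lt hlt
  have hvc : v c = 1 := by
    have h1 := hg π
    rw [hc, v.map_mul] at h1
    have h2 : v π * v c = v π * 1 := by rw [h1, mul_one]
    exact mul_left_cancel₀ hπ.val_ne_zero h2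
  set η : K := (ζ - 1) / π ^ E with hη
  have hvη : v η = 1 := by
    rw [hη, v.map_div, hvζ, v.map_pow]
    exact div_self (pow_ne_zero E hπ.val_ne_zero)
  have hηπ : η * π ^ E = ζ - 1 := by rw [hη]; field_simp
  set G : K := ∑ i ∈ Finset.range j, ζ ^ i with hG
  have hgeom : (ζ - 1) * G = ζ ^ j - 1 := mul_geom_sum ζ j
  -- g η * c ^ E = η * G
  have h1 : g η * c ^ E = η * G := by
    have e1 : g (η * π ^ E) = g η * (π ^ E * c ^ E) := by
      rw [map_mul, map_pow, hc, mul_pow]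
    have e2 : g (η * π ^ E) = η * π ^ E * G := by
      rw [hηπ, map_sub, map_one, hj, ← hgeom]
    have e3 : (g η * c ^ E) * π ^ E = (η * G) * π ^ E := by
      calc (g η * c ^ E) * π ^ E = g η * (π ^ E * c ^ E) := by ring
        _ = g (η * π ^ E) := e1.symm
        _ = η * π ^ E * G := e2
        _ = (η * G) * π ^ E := by ring
    exact mul_right_cancel₀ hπE e3
  have hGj : v (G - (j : K)) < 1 := by
    have e : G - (j : K) = ∑ i ∈ Finset.range j, (ζ ^ i - 1) := by
      rw [Finset.sum_sub_distrib, Finset.sum_const, Finset.card_range, nsmul_eq_mul, mul_one]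
    rw [e]
    apply Valuation.map_sum_lt v one_ne_zero
    intro i _
    exact lt_of_le_of_lt (val_pow_sub_one_le v hζ1 i) hlt
  have h2 : v (η * (c ^ E - (j : K))) < 1 := by
    have e : η * (c ^ E - (j : K)) = -((g η - η) * c ^ E) + η * (G - (j : K)) := by
      have : η * c ^ E = g η * c ^ E - (g η - η) * c ^ E := by ring
      rw [mul_sub, this, h1]; ring
    rw [e]
    apply v.map_add_lt
    · rw [v.map_neg, v.map_mul, v.map_pow, hvc, one_pow, mul_one]
      exact htame η (le_of_eq hvη)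
    · rw [v.map_mul, hvη, one_mul]; exact hGj
  rwa [v.map_mul, hvη, one_mul] at h2

/-! ### The eigen form (linear front end)

When the eigenvalue `a` of the tame generator lies in the coefficient field `k` (e.g. under
a splitting hypothesis), `Λ` is a `k`-vector space, `T`, `Φ` are `k`-linear,
`Λ = Λ₀ ⊕ E₊ ⊕ Φ E₊` with `T = a` on `E₊`, and `E₊ = k • l₁` when `a ≠ -1`. -/

section Eigen

variable [Module k Λ]

/-- The parametrization `x ↦ x • l₁ + Φ (x • l₁)` of the `Φ`-fixed part of `E₊ ⊕ Φ E₊`. -/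
def wOf (Φ : Λ →ₗ[k] Λ) (l₁ : Λ) : k →+ Λ :=
  AddMonoidHom.mk' (fun x => x • l₁ + Φ (x • l₁)) (by
    intro x y
    simp only [add_smul, map_add]
    abel)

theorem wOf_apply (Φ : Λ →ₗ[k] Λ) (l₁ : Λ) (x : k) : wOf Φ l₁ x = x • l₁ + Φ (x • l₁) := rfl

variable {v : Valuation K Γ₀} {p : ℕ} {π ζ : K} {e E : ℕ} {gt gφ : K →+* K} {ct cφ : K}
  {wt wφ s : ℕ} {a : k} {T Φ : Λ →ₗ[k] Λ} {u : C → Λ → K}

/-- **The eigen form implies the general datum.** -/
theorem IsN2Datum.of_eigen (htame : IsTameDatum v p π ζ e E gt gφ ct cφ wt)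
    (hfam : IsRadicandFamily v p π e E gt gφ wt wφ T.toAddMonoidHom Φ.toAddMonoidHom u)
    (ha1 : a ≠ 1) (han : a ^ (p + 1) = 1) (has : a + a⁻¹ = (s : k)) (ha3 : p = 3 → a ≠ -1)
    (hdec : ∀ l : Λ, ∃ l₀ l₁ μ : Λ,
      l = l₀ + l₁ + Φ μ ∧ T l₀ = l₀ ∧ Φ l₀ = -l₀ ∧ T l₁ = a • l₁ ∧ T μ = a • μ)
    (hΦsq : ∀ l, Φ (Φ l) = l) (hΦT : ∀ l, T l = a • l → T (Φ l) = a⁻¹ • Φ l)
    {l₁ : Λ} (hl₁ : T l₁ = a • l₁)
    (hline : a ≠ -1 → ∀ l : Λ, T l = a • l → ∃ c : k, l = c • l₁) :
    IsN2Datum v p π ζ e E gt gφ ct cφ wt wφ s a T.toAddMonoidHom Φ.toAddMonoidHom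
      (wOf Φ l₁) u := by
  have ha0 : a ≠ 0 := by
    rintro rfl
    rw [zero_pow (Nat.succ_ne_zero p)] at han
    exact zero_ne_one han
  have hai1 : a⁻¹ ≠ 1 := fun h => ha1 (by rw [← inv_inv a, h, inv_one])
  -- eigenvectors lie in the quadratic part
  have hQ1 : ∀ l, T l = a • l → T (T l) + l = s • T l := by
    intro l hl
    rw [hl, map_smul, hl, ← Nat.cast_smul_eq_nsmul k, ← has, smul_smul, smul_smul]
    have e : (a + a⁻¹) * a = a * a + 1 := by
      rw [add_mul, inv_mul_cancel₀ ha0]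
    rw [e, add_smul, one_smul]
  have hQ2 : ∀ l, T l = a⁻¹ • l → T (T l) + l = s • T l := by
    intro l hl
    rw [hl, map_smul, hl, ← Nat.cast_smul_eq_nsmul k, ← has, smul_smul, smul_smul]
    have e : (a + a⁻¹) * a⁻¹ = a⁻¹ * a⁻¹ + 1 := by
      rw [add_mul, mul_inv_cancel₀ ha0, add_comm]
    rw [e, add_smul, one_smul]
  have hQadd : ∀ l l', T (T l) + l = s • T l → T (T l') + l' = s • T l' →
      T (T (l + l')) + (l + l') = s • T (l + l') := by
    intro l l' h h'
    rw [map_add, map_add, smul_add, ← h, ← h']; abel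
  -- the quadratic part is `E₊ ⊕ Φ E₊`
  have hsplit : ∀ l, T (T l) + l = s • T l →
      ∃ l₁' μ : Λ, l = l₁' + Φ μ ∧ T l₁' = a • l₁' ∧ T μ = a • μ := by
    intro l hl
    obtain ⟨l₀, l₁', μ, rfl, hT0, -, hT1, hTμ⟩ := hdec l
    have h1 := hQ1 l₁' hT1
    have h2 := hQ2 (Φ μ) (hΦT μ hTμ)
    have h3 : T (T l₀) + l₀ = s • T l₀ := by
      have e1 : T (T (l₀ + l₁' + Φ μ)) + (l₀ + l₁' + Φ μ) =
          (T (T l₀) + l₀) + (T (T l₁') + l₁') + (T (T (Φ μ)) + Φ μ) := by
        simp only [map_add]; abel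
      have e2 : s • T (l₀ + l₁' + Φ μ) = s • T l₀ + s • T l₁' + s • T (Φ μ) := by
        simp only [map_add, smul_add]
      rw [e1, e2, h1, h2] at hl
      exact add_right_cancel (add_right_cancel hl)
    rw [hT0, hT0, ← Nat.cast_smul_eq_nsmul k, ← has] at h3
    have h4 : ((2 : k) - (a + a⁻¹)) • l₀ = 0 := by
      rw [sub_smul, two_smul, h3, sub_self]
    have h5 : (2 : k) - (a + a⁻¹) ≠ 0 := by
      intro h0
      apply ha1
      have h6 : (a - 1) ^ 2 = 0 := by
        have : (a - 1) ^ 2 = -a * (2 - (a + a⁻¹)) := by field_simp; ring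
        rw [this, h0, mul_zero]
      exact sub_eq_zero.1 (pow_eq_zero_iff two_ne_zero |>.1 h6)
    have h7 : l₀ = 0 := (smul_eq_zero.1 h4).resolve_left h5
    exact ⟨l₁', μ, by rw [h7, zero_add], hT1, hTμ⟩
  refine { htame, hfam with
    a_ne_one := ha1
    a_norm := han
    a_trace := has
    a_three := ha3
    dec := ?_
    solve := ?_
    w_quad := ?_
    w_Φ := ?_
    gen := ?_ }
  · intro l
    obtain ⟨l₀, l₁', μ, rfl, hT0, hΦ0, hT1, hTμ⟩ := hdec l
    refine ⟨l₀, l₁' + Φ μ, by rw [add_assoc], hT0, hΦ0, ?_⟩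
    exact hQadd _ _ (hQ1 l₁' hT1) (hQ2 (Φ μ) (hΦT μ hTμ))
  · intro l hl
    obtain ⟨l₁', μ, rfl, hT1, hTμ⟩ := hsplit l hl
    have hTΦ := hΦT μ hTμ
    have hb1 : a - 1 ≠ 0 := sub_ne_zero.2 ha1
    have hb2 : a⁻¹ - 1 ≠ 0 := sub_ne_zero.2 hai1
    refine ⟨(a - 1)⁻¹ • l₁' + (a⁻¹ - 1)⁻¹ • Φ μ, ?_, ?_⟩
    · refine hQadd _ _ (hQ1 _ ?_) (hQ2 _ ?_)
      · rw [map_smul, hT1, smul_comm]
      · rw [map_smul, hTΦ, smul_comm]
    · show T ((a - 1)⁻¹ • l₁' + (a⁻¹ - 1)⁻¹ • Φ μ) =
        (a - 1)⁻¹ • l₁' + (a⁻¹ - 1)⁻¹ • Φ μ + (l₁' + Φ μ)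
      rw [map_add, map_smul, map_smul, hT1, hTΦ, smul_smul, smul_smul]
      have e1 : (a - 1)⁻¹ * a = (a - 1)⁻¹ + 1 := by field_simp; ring
      have e2 : (a⁻¹ - 1)⁻¹ * a⁻¹ = (a⁻¹ - 1)⁻¹ + 1 := by
        have : (a⁻¹ - 1)⁻¹ * a⁻¹ = (a⁻¹ - 1)⁻¹ * (a⁻¹ - 1) + (a⁻¹ - 1)⁻¹ := by ring
        rw [this, inv_mul_cancel₀ hb2, add_comm]
      rw [e1, e2, add_smul, add_smul, one_smul, one_smul]; abel
  · intro x
    show T (T (x • l₁ + Φ (x • l₁))) + (x • l₁ + Φ (x • l₁)) = s • T (x • l₁ + Φ (x • l₁))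
    have hx : T (x • l₁) = a • (x • l₁) := by rw [map_smul, hl₁, smul_comm]
    exact hQadd _ _ (hQ1 _ hx) (hQ2 _ (hΦT _ hx))
  · intro x
    show Φ (x • l₁ + Φ (x • l₁)) = x • l₁ + Φ (x • l₁)
    rw [map_add, hΦsq, add_comm]
  · intro ha l hl
    obtain ⟨l₁', μ, rfl, hT1, hTμ⟩ := hsplit l hl
    obtain ⟨c₁, rfl⟩ := hline ha l₁' hT1
    obtain ⟨c₂, rfl⟩ := hline ha μ hTμ
    have hd : a - a⁻¹ ≠ 0 := by
      intro h0
      have h1 : a * a = 1 := by
        have : a = a⁻¹ := sub_eq_zero.1 h0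
        calc a * a = a * a⁻¹ := by rw [← this]
          _ = 1 := mul_inv_cancel₀ ha0
      have h2 : (a - 1) * (a + 1) = 0 := by linear_combination h1
      rcases mul_eq_zero.1 h2 with h3 | h3
      · exact ha1 (sub_eq_zero.1 h3)
      · exact ha (eq_neg_of_add_eq_zero_left h3)
    refine ⟨c₁ - a * ((c₁ - c₂) * (a - a⁻¹)⁻¹), (c₁ - c₂) * (a - a⁻¹)⁻¹, ?_⟩
    set x' : k := (c₁ - c₂) * (a - a⁻¹)⁻¹ with hx'
    have hx'1 : T (x' • l₁) = a • (x' • l₁) := by rw [map_smul, hl₁, smul_comm]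
    show c₁ • l₁ + Φ (c₂ • l₁) =
      ((c₁ - a * x') • l₁ + Φ ((c₁ - a * x') • l₁)) + T (x' • l₁ + Φ (x' • l₁))
    rw [map_add, hx'1, hΦT _ hx'1]
    have e1 : c₂ = (c₁ - a * x') + a⁻¹ * x' := by
      have : (a - a⁻¹) * x' = c₁ - c₂ := by
        rw [hx', mul_comm (c₁ - c₂), ← mul_assoc, mul_inv_cancel₀ hd, one_mul]
      linear_combination this
    have e2 : Φ (c₂ • l₁) = Φ ((c₁ - a * x') • l₁) + a⁻¹ • Φ (x' • l₁) := by
      rw [← map_smul, ← map_add, smul_smul, ← add_smul, ← e1]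
    have e3 : c₁ • l₁ = (c₁ - a * x') • l₁ + a • (x' • l₁) := by
      rw [smul_smul, ← add_smul, sub_add_cancel]
    rw [e2, e3]; abel

/-- **The niveau-2 count, eigen form**: at most `|k|` classes modulo those with trivial
radicands. -/
theorem card_quotient_le_of_eigen (hp : p.Prime) (hp2 : p ≠ 2) [CharP k p] [Finite k]
    (htame : IsTameDatum v p π ζ e E gt gφ ct cφ wt)
    (hfam : IsRadicandFamily v p π e E gt gφ wt wφ T.toAddMonoidHom Φ.toAddMonoidHom u)
    (ha1 : a ≠ 1) (han : a ^ (p + 1) = 1) (has : a + a⁻¹ = (s : k)) (ha3 : p = 3 → a ≠ -1)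
    (hdec : ∀ l : Λ, ∃ l₀ l₁ μ : Λ,
      l = l₀ + l₁ + Φ μ ∧ T l₀ = l₀ ∧ Φ l₀ = -l₀ ∧ T l₁ = a • l₁ ∧ T μ = a • μ)
    (hΦsq : ∀ l, Φ (Φ l) = l) (hΦT : ∀ l, T l = a • l → T (Φ l) = a⁻¹ • Φ l)
    {l₁ : Λ} (hl₁ : T l₁ = a • l₁)
    (hline : a ≠ -1 → ∀ l : Λ, T l = a • l → ∃ c : k, l = c • l₁)
    (C₀ : AddSubgroup C) (hC₀ : ∀ c, (∀ l, PEq p (u c l) 1) → c ∈ C₀) :
    Finite (C ⧸ C₀) ∧ Nat.card (C ⧸ C₀) ≤ Nat.card k :=
  (IsN2Datum.of_eigen htame hfam ha1 han has ha3 hdec hΦsq hΦT hl₁ hline).card_quotient_le hp hp2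
    (fun x => by rw [nsmul_eq_mul, CharP.cast_eq_zero k p, zero_mul]) C₀ hC₀

end Eigen

end Main

end Fermat.Agent.S56.helper3366
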