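/-
S56 (Taylor–Wiles primes), GLOBAL side of the COUNT-ASM seam, instantiated at `ad0`.
Author: helper3550.

`globalCount_ad0` : under the frozen hypotheses of S56 on `ρbar`, the `Prop`
`helper2229.GlobalCount 𝒪 p ρbar S (primesOf Smin) (ad0 p ρbar) L [k : 𝔽_p]` follows from Tate's
inequality `Stmt_TateLarge` and the local bound `∑_{q ∈ Smin} dim L_q ≤ π₀(ad0) + [k : 𝔽_p]`
alone: the numerics of `ad0` (`helper1848`), the local bound at the Taylor–Wiles primes
(`helper6606`) and the supply of Taylor–Wiles primes (`helper4859`) are theorems on main.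
-/
import Mathlib
import Fermat.Agent.S56.helper3550_GlobalSeam
import Fermat.Agent.S56.helper4859_KillAd0
import Fermat.Agent.S56.helper1848_Ad0Dict
import Fermat.Agent.S56.helper6606_TWLocalFinal

set_option autoImplicit false

namespace Fermat.Agent.S56.helper3550

open CategoryTheory Module groupCohomology ExtCitation Polynomial IsLocalRing
open Fermat.Agent.S55.helper2945 Fermat.Agent.S55.helper7860 Fermat.Agent.S55.helper15
open Fermat.Agent.S55.helper2906 Fermat.Agent.S56.helper2906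

local notation "Qb" => AlgebraicClosure ℚ
local notation "GQ" => (AlgebraicClosure ℚ ≃ₐ[ℚ] AlgebraicClosure ℚ)

/-- **The GLOBAL side of the seam at `ad0`.**  Under the frozen hypotheses of S56 on `ρbar`
(`p` odd, absolutely irreducible, cyclotomic determinant, split characteristic polynomials, the
index-two clause, `Smin` = `p` and the ramified primes), for any family `L` of local conditions
with `∑_{q ∈ Smin} dim L_q ≤ π₀(ad0) + [k : 𝔽_p]`: the count `helper2229.GlobalCount` with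
`f = [k : 𝔽_p]`, from Tate's inequality alone. -/
theorem globalCount_ad0 {𝒪 : Type} [CommRing 𝒪] [IsLocalRing 𝒪] [Finite (ResidueField 𝒪)]
    {p : ℕ} [Fact p.Prime] [Algebra (ZMod p) (ResidueField 𝒪)]
    (hTate : Stmt_TateLarge) (hp2 : p ≠ 2) (ρbar : ResidualGaloisRep (ResidueField 𝒪))
    (habs : ρbar.IsAbsolutelyIrreducible)
    (hdet : (GaloisRepAdic.ofResidualGaloisRep ρbar).DetIsCyclotomic p)
    (hsplit : ∀ σ : GQ, ∃ α β : ResidueField 𝒪,
      LinearMap.charpoly (ρbar.ρ σ) = (X - C α) * (X - C β))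
    (hTW : ∀ (K : Type) [Field K] [Algebra (ResidueField 𝒪) K] (G : Subgroup GQ), G.index = 2 →
      ∀ V : Submodule K (ρbar.baseChange K).V,
        (∀ σ ∈ G, ∀ x ∈ V, (ρbar.baseChange K).ρ σ x ∈ V) → V = ⊥ ∨ V = ⊤)
    (S Smin : Finset ℕ) (hpSmin : p ∈ Smin)
    (hmin : ∀ q : ℕ, q.Prime → q ≠ p → (q ∈ Smin ↔ ¬ ρbar.IsUnramifiedAt q))
    (L : ∀ q : Nat.Primes,
      Submodule (ZMod p) (LocH1 (Fermat.Agent.S56.helper6599.ad0 p ρbar) q))
    (hlocS : ∑ q ∈ Fermat.Agent.S56.helper2229.primesOf Smin, finrank (ZMod p) ↥(L q) ≤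
      pi0 (Fermat.Agent.S56.helper2229.primesOf Smin) (Fermat.Agent.S56.helper6599.ad0 p ρbar) +
        finrank (ZMod p) (ResidueField 𝒪)) :
    Fermat.Agent.S56.helper2229.GlobalCount 𝒪 p ρbar S
      (Fermat.Agent.S56.helper2229.primesOf Smin) (Fermat.Agent.S56.helper6599.ad0 p ρbar) L
      (finrank (ZMod p) (ResidueField 𝒪)) := by
  have hf : Nat.card (ResidueField 𝒪) = p ^ finrank (ZMod p) (ResidueField 𝒪) :=
    Fermat.Agent.S56.helper1848.natCard_eq_pow_finrank_dict p (ResidueField 𝒪)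
  have h2 : (2 : ResidueField 𝒪) ≠ 0 :=
    Fermat.Agent.S56.helper1848.two_ne_zero_of_detIsCyclotomic ρbar p hp2 hdet
  have hur : ∀ q : Nat.Primes, q ∉ Fermat.Agent.S56.helper2229.primesOf Smin →
      ρbar.IsUnramifiedAt (q : ℕ) :=
    Fermat.Agent.S56.helper4859.isUnramifiedAt_of_hmin p ρbar Smin hpSmin hmin
  have hM : IsSMod (Fermat.Agent.S56.helper2229.primesOf Smin)
      (Fermat.Agent.S56.helper6599.ad0 p ρbar) :=
    Fermat.Agent.S56.helper1848.isSMod_ad0_dict ρbar _ hur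
  have hfinM := hM.finite
  refine globalCount_of hTate hp2 ρbar S (Fermat.Agent.S56.helper2229.primesOf Smin)
    (Fermat.Agent.S56.helper2229.pPrime_mem_primesOf hpSmin)
    (Fermat.Agent.S56.helper6599.ad0 p ρbar) hM L (finrank (ZMod p) (ResidueField 𝒪))
    (Fermat.Agent.S56.helper1848.h0_ad0_dict ρbar habs h2)
    (Fermat.Agent.S56.helper1848.dimMinus_dualT_ad0_dict ρbar hp2 hdet _ hf).ge hlocS ?_
    (Fermat.Agent.S56.helper4859.killSupply_ad0_of_hmin p ρbar s55Inputs.fin hp2 habs hdet hsplit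
      hTW Smin hpSmin hmin)
  intro n q hq hqS
  have hqp : (q : ℕ) ≠ p := by
    intro h
    exact hqS (Fermat.Agent.S56.helper2229.mem_primesOf.2 (h ▸ hpSmin))
  have hq1 : p ∣ (q : ℕ) - 1 := dvd_trans (dvd_pow_self p (Nat.succ_ne_zero n)) hq.1
  exact Fermat.Agent.S56.helper6606.finrank_locH1_le_add q hqp hq1
    (Fermat.Agent.S56.helper6599.ad0 p ρbar) hM.smooth (hM.unram q hqS)
    (finrank (ZMod p) (ResidueField 𝒪))
    (Fermat.Agent.S56.helper1848.finrank_invariants_res_ad0_dict_le ρbar h2 q hq.2 _ hf)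

end Fermat.Agent.S56.helper3550
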