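/-
S56 (Taylor–Wiles primes), GLOBAL SPEC, adapter to the S55 integration ledger.
Author: helper3550.

`s55Inputs_of_frontier` : the S55 inputs `helper3550.S55Inputs` of the Selmer count from the S55
frontier `helper2945.Frontier` (the only file of the S56 global chain which imports the S55
ledger `helper2945_Integration`).
-/
import Mathlib
import Fermat.Agent.S55.helper2945_Integration
import Fermat.Agent.S56.helper3550_GlobalSpec

set_option autoImplicit false

namespace Fermat.Agent.S56.helper3550

open Fermat.Agent.S55.helper2945

/-- The S55 inputs of the Selmer count, from the S55 frontier. -/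
theorem s55Inputs_of_frontier (h : Frontier) : S55Inputs where
  fin := h.stmt_Fin
  stepA := h.stmt_A
  stepB := h.stmt_B
  stepC := h.stmt_C
  l2num := stmt_L2num
  stepE := h.stmt_E
  recip := h.stmt_R
  localL2 := localL2

end Fermat.Agent.S56.helper3550
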