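/-
S56, leaf LOC-UNRBOUND (helper3915), closing file: `Stmt_UnrBound` of the GLOBAL-SPEC
(`Fermat.Agent.S56.helper3550.Stmt_UnrBound`, verbatim) from `helper3915.finrank_unr_le_locH1`.
-/
import Fermat.Agent.S56.helper3550_GlobalSpec
import Fermat.Agent.S56.helper3915_UnrBound

set_option autoImplicit false

namespace Fermat.Agent.S56.helper3915

open Module groupCohomology ExtCitation

/-- **`Stmt_UnrBound`** (leaf of `helper3550_GlobalSpec`): for an `S`-module `M` and a prime
`t ∉ S`, `dim H¹_ur(ℚ_t, M) ≤ h⁰(ℚ_t, M)`. -/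
theorem stmt_UnrBound : Fermat.Agent.S56.helper3550.Stmt_UnrBound := by
  intro p _ _ S _ M hM t ht
  have hfin : FiniteDimensional (ZMod p) M := hM.finite
  refine finrank_unr_le_locH1 M t hM.smooth
    (hM.unram t ht _ (Fermat.Agent.S55.helper4145.primeLocalPlace_liesOverPrime t)) _ ?_
  intro x hx
  obtain ⟨c, hc, hcx⟩ := (Fermat.Agent.S56.helper3550.mem_unrCond M t x).1 hx
  exact ⟨c.1, c.2, hc, by rw [← hcx]; rfl⟩

end Fermat.Agent.S56.helper3915
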