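/-
S56 (Taylor–Wiles primes), global chain, brick T1a of findings #2752 (seat helper4029):
the EQUIVARIANT DIRICHLET (S-)UNIT THEOREM (Dirichlet–Herbrand) in integral lattice form.

`K` a number field, `Γ` a finite group acting on `K` by field automorphisms
(`[MulSemiringAction Γ K]`).  We construct explicit `Γ`-equivariant Minkowski units and deduce an
integral `Γ`-equivariant lattice map `ℤ[S_∞] ⊇ {Σ = 0} → 𝓞ˣ` which is injective with image of
finite index modulo torsion; the `S`-part is the valuation vector of the landed S14 `S`-unit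
file.  No logarithmic embedding, no representation theory over `ℝ` or `ℚ`.
-/
import Mathlib
import Fermat.Agent.S14.helper2613_SUnit

set_option autoImplicit false
set_option linter.unusedSectionVars false

open IsDedekindDomain NumberField WithZero Module
open scoped Pointwise

namespace Fermat.Agent.S56.helper4029

open Fermat.Agent.S14.helper2613 (ordAt SUnits mem_SUnits mem_SUnits_iff_ordAt valVec)

noncomputable section

variable {K : Type*} [Field K] [NumberField K] {Γ : Type*} [Group Γ] [MulSemiringAction Γ K]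

/-! ## The action on infinite places -/

/-- The translate `g • w` of an infinite place: `(g • w) x = w (g⁻¹ • x)`. -/
def infAct (g : Γ) (w : InfinitePlace K) : InfinitePlace K :=
  w.comap (MulSemiringAction.toRingHom Γ K g⁻¹)

theorem infAct_apply (g : Γ) (w : InfinitePlace K) (x : K) : infAct g w x = w (g⁻¹ • x) := rfl

theorem infAct_one (w : InfinitePlace K) : infAct (1 : Γ) w = w := by
  apply InfinitePlace.ext
  intro x
  simp [infAct_apply]

theorem infAct_mul (g h : Γ) (w : InfinitePlace K) :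
    infAct (g * h) w = infAct g (infAct h w) := by
  apply InfinitePlace.ext
  intro x
  simp [infAct_apply, mul_smul]

theorem infAct_inv_infAct (g : Γ) (w : InfinitePlace K) : infAct g⁻¹ (infAct g w) = w := by
  rw [← infAct_mul, inv_mul_cancel, infAct_one]

theorem infAct_infAct_inv (g : Γ) (w : InfinitePlace K) : infAct g (infAct g⁻¹ w) = w := by
  rw [← infAct_mul, mul_inv_cancel, infAct_one]

theorem infAct_smul (g : Γ) (w : InfinitePlace K) (x : K) : infAct g w (g • x) = w x := by
  rw [infAct_apply, inv_smul_smul]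

theorem infAct_injective (g : Γ) : Function.Injective (infAct (K := K) g) := by
  intro w w' h
  have := congrArg (infAct g⁻¹) h
  rwa [infAct_inv_infAct, infAct_inv_infAct] at this

variable (K Γ) in
/-- The action of `Γ` on the infinite places, as a `MulAction` (not an instance: for
`Γ = Gal(K/k)` Mathlib has its own instance, which has the same `smul`). -/
@[reducible] def infMulAction : MulAction Γ (InfinitePlace K) where
  smul g w := infAct g w
  one_smul := infAct_one
  mul_smul := infAct_mul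

/-! ## The action on the units of `𝓞 K` -/

/-- The action of `g : Γ` on the units of the ring of integers. -/
def uAct (g : Γ) : (𝓞 K)ˣ ≃* (𝓞 K)ˣ :=
  Units.mapEquiv (MulSemiringAction.toRingEquiv Γ (𝓞 K) g).toMulEquiv

theorem coe_uAct (g : Γ) (u : (𝓞 K)ˣ) :
    (((uAct g u : (𝓞 K)ˣ) : 𝓞 K) : K) = g • (((u : (𝓞 K)ˣ) : 𝓞 K) : K) := rfl

theorem uAct_one (u : (𝓞 K)ˣ) : uAct (1 : Γ) u = u := by
  apply Units.ext
  apply RingOfIntegers.ext
  rw [coe_uAct, one_smul]

theorem uAct_mul (g h : Γ) (u : (𝓞 K)ˣ) : uAct (g * h) u = uAct g (uAct h u) := by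
  apply Units.ext
  apply RingOfIntegers.ext
  rw [coe_uAct, coe_uAct, coe_uAct, mul_smul]

theorem infAct_uAct (g : Γ) (w : InfinitePlace K) (u : (𝓞 K)ˣ) :
    infAct g w (((uAct g u : (𝓞 K)ˣ) : 𝓞 K) : K) = w (((u : (𝓞 K)ˣ) : 𝓞 K) : K) := by
  rw [coe_uAct, infAct_smul]

theorem apply_uAct (g : Γ) (w : InfinitePlace K) (u : (𝓞 K)ˣ) :
    w (((uAct g u : (𝓞 K)ˣ) : 𝓞 K) : K) = infAct g⁻¹ w (((u : (𝓞 K)ˣ) : 𝓞 K) : K) := by
  rw [coe_uAct, infAct_apply, inv_inv]

/-! ## Absolute values of units -/

/-- `u ↦ w u` as a monoid hom `(𝓞 K)ˣ →* ℝ`. -/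
def absAt (w : InfinitePlace K) : (𝓞 K)ˣ →* ℝ where
  toFun u := w (((u : (𝓞 K)ˣ) : 𝓞 K) : K)
  map_one' := by simp
  map_mul' u v := by simp

theorem absAt_apply (w : InfinitePlace K) (u : (𝓞 K)ˣ) :
    absAt w u = w (((u : (𝓞 K)ˣ) : 𝓞 K) : K) := rfl

theorem absAt_pos (w : InfinitePlace K) (u : (𝓞 K)ˣ) : 0 < absAt w u :=
  NumberField.Units.pos_at_place u w

theorem absAt_uAct (g : Γ) (w : InfinitePlace K) (u : (𝓞 K)ˣ) :
    absAt w (uAct g u) = absAt (infAct g⁻¹ w) u := apply_uAct g w u

/-! ## (U1) Equivariant Minkowski units -/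

/-- **Equivariant Minkowski units.**  There is a `Γ`-equivariant family `ε w` of units, indexed by
the infinite places, with `w' (ε w) < 1` for every `w' ≠ w`. -/
theorem exists_equivariant_minkowski [Finite Γ] :
    ∃ ε : InfinitePlace K → (𝓞 K)ˣ,
      (∀ w w' : InfinitePlace K, w' ≠ w → w' (((ε w : (𝓞 K)ˣ) : 𝓞 K) : K) < 1) ∧
      ∀ (g : Γ) (w : InfinitePlace K), ε (infAct g w) = uAct g (ε w) := by
  classical
  have := Fintype.ofFinite Γ
  choose u hu using fun w => NumberField.Units.dirichletUnitTheorem.exists_unit K w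
  have hu' : ∀ w w' : InfinitePlace K, w' ≠ w → absAt w' (u w) < 1 := by
    intro w w' hne
    have h := hu w w' hne
    by_contra hcon
    push Not at hcon
    have := Real.log_nonneg hcon
    rw [absAt_apply] at this
    linarith
  refine ⟨fun w => ∏ g : Γ, uAct g (u (infAct g⁻¹ w)), ?_, ?_⟩
  · intro w w' hne
    show absAt w' (∏ g : Γ, uAct g (u (infAct g⁻¹ w))) < 1
    rw [map_prod]
    have h1 : ∀ g : Γ, absAt w' (uAct g (u (infAct g⁻¹ w))) < 1 := by
      intro g
      rw [absAt_uAct]
      apply hu'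
      intro h
      exact hne (infAct_injective g⁻¹ h)
    calc ∏ g : Γ, absAt w' (uAct g (u (infAct g⁻¹ w))) < ∏ _g : Γ, (1 : ℝ) := by
          apply Finset.prod_lt_prod
          · intro g _
            exact absAt_pos _ _
          · intro g _
            exact (h1 g).le
          · exact ⟨1, Finset.mem_univ _, h1 1⟩
      _ = 1 := by simp
  · intro g w
    show ∏ h : Γ, uAct h (u (infAct h⁻¹ (infAct g w))) = uAct g (∏ h : Γ, uAct h (u (infAct h⁻¹ w)))
    rw [map_prod]
    rw [← Equiv.prod_comp (Equiv.mulLeft g)]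
    refine Finset.prod_congr rfl fun h _ => ?_
    simp only [Equiv.coe_mulLeft, mul_inv_rev]
    rw [uAct_mul, infAct_mul, infAct_inv_infAct]

/-! ## (U2) The unit lattice -/

/-- Kernel vectors of an "M-matrix" with vanishing weighted column sums have constant sign. -/
theorem mmatrix_kernel {ι : Type*} [Fintype ι] (a : ι → ι → ℝ) (m : ι → ℝ)
    (hm : ∀ i, 0 < m i) (hneg : ∀ i j, i ≠ j → a i j < 0)
    (hcol : ∀ j, ∑ i, m i * a i j = 0) (n : ι → ℝ)
    (hn : ∀ i, ∑ j, a i j * n j = 0) : (∀ j, 0 < n j) ∨ (∀ j, n j ≤ 0) := by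
  classical
  by_contra hcon
  push Not at hcon
  obtain ⟨⟨j0, hj0⟩, ⟨j1, hj1⟩⟩ := hcon
  set P : Finset ι := Finset.univ.filter (fun j => 0 < n j) with hP
  have h0 : ∑ i ∈ P, m i * ∑ j, a i j * n j = 0 := by simp [hn]
  have h1 : ∑ i ∈ P, m i * ∑ j, a i j * n j = ∑ j, n j * ∑ i ∈ P, m i * a i j := by
    simp_rw [Finset.mul_sum]
    rw [Finset.sum_comm]
    refine Finset.sum_congr rfl fun j _ => Finset.sum_congr rfl fun i _ => by ring
  have hc : ∀ j, ∑ i ∈ P, m i * a i j = - ∑ i ∈ Pᶜ, m i * a i j := by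
    intro j
    have := hcol j
    rw [← Finset.sum_add_sum_compl P] at this
    linarith
  have hpos : 0 < ∑ j, n j * ∑ i ∈ P, m i * a i j := by
    rw [← Finset.sum_add_sum_compl P]
    apply add_pos_of_pos_of_nonneg
    · apply Finset.sum_pos
      · intro j hj
        have hnj : 0 < n j := (Finset.mem_filter.mp hj).2
        apply mul_pos hnj
        rw [hc j]
        have : ∑ i ∈ Pᶜ, m i * a i j < 0 := by
          apply Finset.sum_neg
          · intro i hi
            have hij : i ≠ j := by
              rintro rfl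
              exact (Finset.mem_compl.mp hi) hj
            exact mul_neg_of_pos_of_neg (hm i) (hneg i j hij)
          · exact ⟨j0, by simpa [hP] using hj0⟩
        linarith
      · exact ⟨j1, by simp [hP, hj1]⟩
    · apply Finset.sum_nonneg
      intro j hj
      have hnj : n j ≤ 0 := by simpa [hP] using hj
      apply mul_nonneg_of_nonpos_of_nonpos hnj
      apply Finset.sum_nonpos
      intro i hi
      have hij : i ≠ j := by
        rintro rfl
        exact (Finset.mem_compl.mp hj) hi
      exact (mul_neg_of_pos_of_neg (hm i) (hneg i j hij)).le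
  linarith

/-- A submodule of full rank of a finitely generated `ℤ`-module has finite index. -/
theorem finite_quotient_of_finrank_eq {M : Type*} [AddCommGroup M] [Module.Finite ℤ M]
    (N : Submodule ℤ M) (h : finrank ℤ N = finrank ℤ M) : Finite (M ⧸ N) := by
  have h1 := Submodule.finrank_quotient_add_finrank N
  have h2 : finrank ℤ (M ⧸ N) = 0 := by omega
  have h3 : Module.IsTorsion ℤ (M ⧸ N) := Module.finrank_eq_zero_iff_isTorsion.mp h2
  exact Module.finite_of_fg_torsion _ h3

/-- The `ℤ`-linear map `n ↦ ∏_w ε w ^ n w` (in additive notation). -/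
def unitMap (ε : InfinitePlace K → (𝓞 K)ˣ) : (InfinitePlace K → ℤ) →ₗ[ℤ] Additive (𝓞 K)ˣ :=
  Fintype.linearCombination ℤ (fun w => Additive.ofMul (ε w))

theorem toMul_unitMap (ε : InfinitePlace K → (𝓞 K)ˣ) (n : InfinitePlace K → ℤ) :
    Additive.toMul (unitMap ε n) = ∏ w, ε w ^ n w := by
  rw [unitMap, Fintype.linearCombination_apply, toMul_sum]
  refine Finset.prod_congr rfl fun w _ => ?_
  rw [toMul_zsmul, toMul_ofMul]

theorem log_absAt_unitMap (ε : InfinitePlace K → (𝓞 K)ˣ) (n : InfinitePlace K → ℤ)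
    (w' : InfinitePlace K) :
    Real.log (absAt w' (Additive.toMul (unitMap ε n))) =
      ∑ w, Real.log (absAt w' (ε w)) * (n w : ℝ) := by
  rw [toMul_unitMap, map_prod, Real.log_prod]
  · refine Finset.sum_congr rfl fun w _ => ?_
    rw [map_zpow, Real.log_zpow, mul_comm]
  · intro w _
    rw [map_zpow]
    exact zpow_ne_zero _ (absAt_pos _ _).ne'

/-- **Sign lemma.**  If `∏ ε_w ^ n_w` is a root of unity then the exponent vector `n` is strictly
positive, strictly negative or zero. -/
theorem sign_of_unitMap_mem_torsion (ε : InfinitePlace K → (𝓞 K)ˣ)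
    (hε : ∀ w w' : InfinitePlace K, w' ≠ w → w' (((ε w : (𝓞 K)ˣ) : 𝓞 K) : K) < 1)
    (n : InfinitePlace K → ℤ)
    (h : Additive.toMul (unitMap ε n) ∈ NumberField.Units.torsion K) :
    (∀ w, 0 < n w) ∨ (∀ w, n w < 0) ∨ n = 0 := by
  have hneg : ∀ w' w : InfinitePlace K, w' ≠ w → Real.log (absAt w' (ε w)) < 0 := by
    intro w' w hne
    exact Real.log_neg (absAt_pos _ _) (hε w w' hne)
  have hcol : ∀ w : InfinitePlace K,
      ∑ w' : InfinitePlace K, (w'.mult : ℝ) * Real.log (absAt w' (ε w)) = 0 := by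
    intro w
    exact NumberField.Units.sum_mult_mul_log (ε w)
  have hm : ∀ w : InfinitePlace K, 0 < (w.mult : ℝ) := by
    intro w
    exact_mod_cast InfinitePlace.mult_pos
  have hker : ∀ w' : InfinitePlace K, ∑ w, Real.log (absAt w' (ε w)) * (n w : ℝ) = 0 := by
    intro w'
    rw [← log_absAt_unitMap]
    have := (NumberField.Units.mem_torsion K).mp h w'
    rw [absAt_apply, this, Real.log_one]
  have hker' : ∀ w' : InfinitePlace K,
      ∑ w, Real.log (absAt w' (ε w)) * (-(n w : ℝ)) = 0 := by
    intro w'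
    have := hker w'
    simp only [mul_neg, Finset.sum_neg_distrib, this, neg_zero]
  have h1 := mmatrix_kernel (fun w' w => Real.log (absAt w' (ε w))) (fun w => (w.mult : ℝ))
    hm hneg hcol (fun w => (n w : ℝ)) hker
  have h2 := mmatrix_kernel (fun w' w => Real.log (absAt w' (ε w))) (fun w => (w.mult : ℝ))
    hm hneg hcol (fun w => -(n w : ℝ)) hker'
  rcases h1 with h1 | h1
  · left
    intro w
    exact_mod_cast h1 w
  · rcases h2 with h2 | h2
    · right; left
      intro w
      have := h2 w
      have h3 : (n w : ℝ) < 0 := by linarith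
      exact_mod_cast h3
    · right; right
      funext w
      have h3 := h1 w
      have h4 := h2 w
      have h5 : (n w : ℝ) = 0 := by linarith
      exact_mod_cast h5

/-- The sum map `ℤ[X] → ℤ`. -/
def sumMap (X : Type*) [Fintype X] : (X → ℤ) →ₗ[ℤ] ℤ :=
  Fintype.linearCombination ℤ (fun _ => (1 : ℤ))

theorem sumMap_apply (X : Type*) [Fintype X] (n : X → ℤ) : sumMap X n = ∑ x, n x := by
  simp [sumMap, Fintype.linearCombination_apply]

/-- The augmentation lattice `{n : X → ℤ | ∑ n = 0}`. -/
def sumZero (X : Type*) [Fintype X] : Submodule ℤ (X → ℤ) := LinearMap.ker (sumMap X)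

theorem mem_sumZero {X : Type*} [Fintype X] {n : X → ℤ} : n ∈ sumZero X ↔ ∑ x, n x = 0 := by
  rw [sumZero, LinearMap.mem_ker, sumMap_apply]

theorem finrank_sumZero (X : Type*) [Fintype X] [Nonempty X] :
    finrank ℤ (sumZero X) + 1 = Fintype.card X := by
  classical
  have h1 := Submodule.finrank_quotient_add_finrank (sumZero X)
  have h2 : finrank ℤ ((X → ℤ) ⧸ sumZero X) = finrank ℤ (LinearMap.range (sumMap X)) :=
    LinearEquiv.finrank_eq (sumMap X).quotKerEquivRange
  have h3 : LinearMap.range (sumMap X) = ⊤ := by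
    rw [LinearMap.range_eq_top]
    intro c
    obtain ⟨x0⟩ := ‹Nonempty X›
    refine ⟨Pi.single x0 c, ?_⟩
    rw [sumMap_apply, Finset.sum_pi_single']
    simp
  rw [h3, finrank_top] at h2
  have h4 : finrank ℤ (X → ℤ) = Fintype.card X := by simp
  have h5 : finrank ℤ ℤ = 1 := Module.finrank_self ℤ
  omega

/-- **(U2), injectivity.**  On the augmentation lattice the unit map is injective, even modulo
roots of unity. -/
theorem eq_zero_of_unitMap_mem_torsion (ε : InfinitePlace K → (𝓞 K)ˣ)
    (hε : ∀ w w' : InfinitePlace K, w' ≠ w → w' (((ε w : (𝓞 K)ˣ) : 𝓞 K) : K) < 1)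
    (n : InfinitePlace K → ℤ) (hn : n ∈ sumZero (InfinitePlace K))
    (h : Additive.toMul (unitMap ε n) ∈ NumberField.Units.torsion K) : n = 0 := by
  rw [mem_sumZero] at hn
  rcases sign_of_unitMap_mem_torsion ε hε n h with h1 | h1 | h1
  · exfalso
    have : 0 < ∑ w, n w := Finset.sum_pos (fun w _ => h1 w) Finset.univ_nonempty
    omega
  · exfalso
    have : ∑ w, n w < 0 := Finset.sum_neg (fun w _ => h1 w) Finset.univ_nonempty
    omega
  · exact h1

theorem unitMap_injOn_sumZero (ε : InfinitePlace K → (𝓞 K)ˣ)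
    (hε : ∀ w w' : InfinitePlace K, w' ≠ w → w' (((ε w : (𝓞 K)ˣ) : 𝓞 K) : K) < 1) :
    Function.Injective ((unitMap ε).comp (sumZero (InfinitePlace K)).subtype) := by
  rw [← LinearMap.ker_eq_bot, LinearMap.ker_eq_bot']
  intro n hn
  apply Subtype.ext
  apply eq_zero_of_unitMap_mem_torsion ε hε n.1 n.2
  have h0 : unitMap ε n.1 = 0 := hn
  rw [h0]
  exact one_mem _

/-- **(U2), finite index.**  The image of the augmentation lattice under the unit map has finite
index in the unit group. -/
theorem finite_quotient_unitMap (ε : InfinitePlace K → (𝓞 K)ˣ)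
    (hε : ∀ w w' : InfinitePlace K, w' ≠ w → w' (((ε w : (𝓞 K)ˣ) : 𝓞 K) : K) < 1) :
    Finite (Additive (𝓞 K)ˣ ⧸
      LinearMap.range ((unitMap ε).comp (sumZero (InfinitePlace K)).subtype)) := by
  apply finite_quotient_of_finrank_eq
  rw [LinearMap.finrank_range_of_inj (unitMap_injOn_sumZero ε hε), NumberField.Units.finrank_eq,
    NumberField.Units.rank]
  have := finrank_sumZero (InfinitePlace K)
  omega

/-- The permutation of the infinite places induced by `g`. -/
def infEquiv (g : Γ) : InfinitePlace K ≃ InfinitePlace K where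
  toFun := infAct g
  invFun := infAct g⁻¹
  left_inv := infAct_inv_infAct g
  right_inv := infAct_infAct_inv g

/-- **(U2), equivariance.**  For an equivariant family `ε`, the unit map intertwines the
permutation action `(g • n) w = n (g⁻¹ • w)` on `ℤ[S_∞]` with the action on units. -/
theorem unitMap_equivariant (ε : InfinitePlace K → (𝓞 K)ˣ)
    (hεq : ∀ (g : Γ) (w : InfinitePlace K), ε (infAct g w) = uAct g (ε w)) (g : Γ)
    (n : InfinitePlace K → ℤ) :
    Additive.toMul (unitMap ε (fun w => n (infAct g⁻¹ w))) =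
      uAct g (Additive.toMul (unitMap ε n)) := by
  rw [toMul_unitMap, toMul_unitMap, map_prod, ← Equiv.prod_comp (infEquiv g)]
  refine Finset.prod_congr rfl fun w _ => ?_
  show ε (infAct g w) ^ n (infAct g⁻¹ (infAct g w)) = uAct g (ε w ^ n w)
  rw [infAct_inv_infAct, hεq, map_zpow]

/-- **(U1)+(U2), packaged.**  There is a `ℤ`-linear map `j : ℤ[S_∞] → 𝓞ˣ` (additive notation)
which is `Γ`-equivariant, injective modulo torsion on the augmentation lattice `{∑ n = 0}`, and
maps the augmentation lattice onto a subgroup of finite index. -/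
theorem exists_equivariant_unit_lattice [Finite Γ] :
    ∃ j : (InfinitePlace K → ℤ) →ₗ[ℤ] Additive (𝓞 K)ˣ,
      (∀ (g : Γ) (n : InfinitePlace K → ℤ),
        Additive.toMul (j (fun w => n (infAct g⁻¹ w))) = uAct g (Additive.toMul (j n))) ∧
      (∀ n ∈ sumZero (InfinitePlace K),
        Additive.toMul (j n) ∈ NumberField.Units.torsion K → n = 0) ∧
      Function.Injective (j.comp (sumZero (InfinitePlace K)).subtype) ∧
      Finite (Additive (𝓞 K)ˣ ⧸ LinearMap.range (j.comp (sumZero (InfinitePlace K)).subtype)) := by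
  obtain ⟨ε, hε, hεq⟩ := exists_equivariant_minkowski (K := K) (Γ := Γ)
  exact ⟨unitMap ε, unitMap_equivariant ε hεq, eq_zero_of_unitMap_mem_torsion ε hε,
    unitMap_injOn_sumZero ε hε, finite_quotient_unitMap ε hε⟩

/-! ## (U3) The `S`-part: finite places and the valuation vector -/

/-- The translate `g • v` of a finite place. -/
def finAct (g : Γ) (v : HeightOneSpectrum (𝓞 K)) : HeightOneSpectrum (𝓞 K) where
  asIdeal := g • v.asIdeal
  isPrime := inferInstance
  ne_bot := by
    intro h
    apply v.ne_bot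
    have h2 : g⁻¹ • (g • v.asIdeal) = g⁻¹ • (⊥ : Ideal (𝓞 K)) := by rw [h]
    rw [inv_smul_smul] at h2
    rw [h2]
    simp

@[simp] theorem finAct_asIdeal (g : Γ) (v : HeightOneSpectrum (𝓞 K)) :
    (finAct g v).asIdeal = g • v.asIdeal := rfl

theorem finAct_one (v : HeightOneSpectrum (𝓞 K)) : finAct (1 : Γ) v = v := by
  apply HeightOneSpectrum.ext
  simp

theorem finAct_mul (g h : Γ) (v : HeightOneSpectrum (𝓞 K)) :
    finAct (g * h) v = finAct g (finAct h v) := by
  apply HeightOneSpectrum.ext
  simp [mul_smul]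

theorem finAct_inv_finAct (g : Γ) (v : HeightOneSpectrum (𝓞 K)) :
    finAct g⁻¹ (finAct g v) = v := by
  rw [← finAct_mul, inv_mul_cancel, finAct_one]

theorem finAct_finAct_inv (g : Γ) (v : HeightOneSpectrum (𝓞 K)) :
    finAct g (finAct g⁻¹ v) = v := by
  rw [← finAct_mul, mul_inv_cancel, finAct_one]

variable (K Γ) in
/-- The action of `Γ` on the finite places, as a `MulAction` (not an instance). -/
@[reducible] def finMulAction : MulAction Γ (HeightOneSpectrum (𝓞 K)) where
  smul g v := finAct g v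
  one_smul := finAct_one
  mul_smul := finAct_mul

theorem intValuation_finAct_le (g : Γ) (v : HeightOneSpectrum (𝓞 K)) (x : 𝓞 K) :
    (finAct g v).intValuation (g • x) ≤ v.intValuation x := by
  rcases eq_or_ne x 0 with rfl | hx
  · simp
  · rw [HeightOneSpectrum.intValuation_eq_exp_neg_multiplicity v hx,
      HeightOneSpectrum.intValuation_le_pow_iff_mem]
    have h1 : x ∈ v.asIdeal ^ (multiplicity v.asIdeal (Ideal.span {x})) := by
      rw [← HeightOneSpectrum.intValuation_le_pow_iff_mem,
        HeightOneSpectrum.intValuation_eq_exp_neg_multiplicity v hx]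
    have h2 := Ideal.smul_mem_pointwise_smul g x _ h1
    rwa [smul_pow'] at h2

theorem intValuation_finAct (g : Γ) (v : HeightOneSpectrum (𝓞 K)) (x : 𝓞 K) :
    (finAct g v).intValuation (g • x) = v.intValuation x := by
  apply le_antisymm (intValuation_finAct_le g v x)
  have h := intValuation_finAct_le g⁻¹ (finAct g v) (g • x)
  rwa [finAct_inv_finAct, inv_smul_smul] at h

/-- `|g • x|_{g • v} = |x|_v`. -/
theorem valuation_finAct (g : Γ) (v : HeightOneSpectrum (𝓞 K)) (x : K) :
    (finAct g v).valuation K (g • x) = v.valuation K x := by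
  obtain ⟨a, b, hb, rfl⟩ := IsFractionRing.div_surjective (A := 𝓞 K) x
  have ha' : g • (algebraMap (𝓞 K) K a) = algebraMap (𝓞 K) K (g • a) := rfl
  have hb' : g • (algebraMap (𝓞 K) K b) = algebraMap (𝓞 K) K (g • b) := rfl
  rw [smul_div₀', ha', hb', map_div₀, map_div₀, HeightOneSpectrum.valuation_of_algebraMap,
    HeightOneSpectrum.valuation_of_algebraMap, HeightOneSpectrum.valuation_of_algebraMap,
    HeightOneSpectrum.valuation_of_algebraMap, intValuation_finAct, intValuation_finAct]

/-- The action of `g : Γ` on `Kˣ`. -/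
def kAct (g : Γ) : Kˣ ≃* Kˣ := Units.mapEquiv (MulSemiringAction.toRingEquiv Γ K g).toMulEquiv

theorem coe_kAct (g : Γ) (x : Kˣ) : ((kAct g x : Kˣ) : K) = g • (x : K) := rfl

theorem kAct_one (x : Kˣ) : kAct (1 : Γ) x = x := by
  apply Units.ext
  rw [coe_kAct, one_smul]

theorem kAct_mul (g h : Γ) (x : Kˣ) : kAct (g * h) x = kAct g (kAct h x) := by
  apply Units.ext
  rw [coe_kAct, coe_kAct, coe_kAct, mul_smul]

/-- `ord_{g • v} (g • x) = ord_v x`. -/
theorem ordAt_finAct (g : Γ) (v : HeightOneSpectrum (𝓞 K)) (x : Kˣ) :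
    ordAt (finAct g v) (kAct g x) = ordAt v x := by
  unfold ordAt
  rw [coe_kAct, valuation_finAct]

/-- `S`-units are stable under `Γ` when `S` is. -/
theorem kAct_mem_SUnits {S : Finset (HeightOneSpectrum (𝓞 K))}
    (hS : ∀ (g : Γ), ∀ v ∈ S, finAct g v ∈ S) (g : Γ) {x : Kˣ} (hx : x ∈ SUnits K S) :
    kAct g x ∈ SUnits K S := by
  rw [mem_SUnits_iff_ordAt] at hx ⊢
  intro v hv
  have hv' : finAct g⁻¹ v ∉ S := by
    intro h
    apply hv
    have := hS g _ h
    rwa [finAct_finAct_inv] at this
  have := ordAt_finAct g (finAct g⁻¹ v) x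
  rw [finAct_finAct_inv] at this
  rw [this]
  exact hx _ hv'

/-- The action of `g : Γ` on the `S`-units, for a `Γ`-stable `S`. -/
def sAct {S : Finset (HeightOneSpectrum (𝓞 K))}
    (hS : ∀ (g : Γ), ∀ v ∈ S, finAct g v ∈ S) (g : Γ) : SUnits K S →* SUnits K S where
  toFun x := ⟨kAct g x.1, kAct_mem_SUnits hS g x.2⟩
  map_one' := by
    apply Subtype.ext
    simp
  map_mul' x y := by
    apply Subtype.ext
    simp

theorem coe_sAct {S : Finset (HeightOneSpectrum (𝓞 K))}
    (hS : ∀ (g : Γ), ∀ v ∈ S, finAct g v ∈ S) (g : Γ) (x : SUnits K S) :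
    ((sAct hS g x : SUnits K S) : Kˣ) = kAct g (x : Kˣ) := rfl

/-- **(U3), equivariance.**  The valuation vector intertwines the action on `S`-units with the
permutation action on `S`. -/
theorem valVec_sAct {S : Finset (HeightOneSpectrum (𝓞 K))}
    (hS : ∀ (g : Γ), ∀ v ∈ S, finAct g v ∈ S) (g : Γ) (x : SUnits K S) (v : S) :
    valVec S (Additive.ofMul (sAct hS g x)) ⟨finAct g v.1, hS g v.1 v.2⟩ =
      valVec S (Additive.ofMul x) v := by
  show ordAt (finAct g v.1) (kAct g (x : Kˣ)) = ordAt v.1 (x : Kˣ)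
  exact ordAt_finAct g v.1 x

/-- **(U3), finite index.**  The valuation vectors of the `S`-units have finite index in
`ℤ[S]`. -/
theorem finite_quotient_valVec (S : Finset (HeightOneSpectrum (𝓞 K))) :
    Finite ((S → ℤ) ⧸ LinearMap.range (valVec (K := K) S)) := by
  apply finite_quotient_of_finrank_eq
  rw [Fermat.Agent.S14.helper2613.finrank_range_valVec]
  simp

end

end Fermat.Agent.S56.helper4029
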