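/-
S56 (Taylor–Wiles primes), global chain, brick T1a (seat helper4029), part 2:
the FIXED-RANK FORM of the equivariant `S`-unit theorem.

For a finite group `Γ` acting on a number field `K`, a `Γ`-stable finite set `S` of finite places
and EVERY subgroup `D ≤ Γ`:

  `rank_ℤ (O_{K,S}ˣ)^D + 1 = #(D \ S_∞(K)) + #(D \ S)`.

Proof from the equivariant integral lattice map of `helper4029_EquivUnits` only: no subfields,
no `S`-unit theorem for `K^D`.
-/
import Mathlib
import Fermat.Agent.S56.helper4029_EquivUnits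

set_option autoImplicit false
set_option linter.unusedSectionVars false

open IsDedekindDomain NumberField Module

namespace Fermat.Agent.S56.helper4029

open Fermat.Agent.S14.helper2613 (ordAt SUnits mem_SUnits mem_SUnits_iff_ordAt valVec)

noncomputable section

/-! ## Generic rank lemmas for finitely generated `ℤ`-modules -/

section Generic

variable {M N M₁ M₂ : Type*} [AddCommGroup M] [AddCommGroup N] [AddCommGroup M₁] [AddCommGroup M₂]

/-- An injective map with torsion cokernel preserves the rank. -/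
theorem finrank_eq_of_injective_of_torsion [Module.Finite ℤ M] [Module.Finite ℤ N]
    (φ : M →ₗ[ℤ] N) (hinj : Function.Injective φ)
    (htor : ∀ y : N, ∃ m : ℤ, m ≠ 0 ∧ m • y ∈ LinearMap.range φ) :
    finrank ℤ M = finrank ℤ N := by
  have h1 := Submodule.finrank_quotient_add_finrank (LinearMap.range φ)
  have h2 : finrank ℤ (LinearMap.range φ) = finrank ℤ M := LinearMap.finrank_range_of_inj hinj
  have h3 : finrank ℤ (N ⧸ LinearMap.range φ) = 0 := by
    rw [Module.finrank_eq_zero_iff_isTorsion]
    intro x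
    obtain ⟨y, rfl⟩ := Submodule.Quotient.mk_surjective _ x
    obtain ⟨m, hm, hy⟩ := htor y
    refine ⟨⟨m, mem_nonZeroDivisors_of_ne_zero hm⟩, ?_⟩
    show m • (Submodule.Quotient.mk y : N ⧸ LinearMap.range φ) = 0
    rw [← Submodule.Quotient.mk_smul, Submodule.Quotient.mk_eq_zero]
    exact hy
  omega

/-- Rank additivity for `0 → M₁ → M → M₂` exact with torsion cokernel on the right. -/
theorem finrank_eq_add_of_exact [Module.Finite ℤ M] [Module.Finite ℤ M₁] [Module.Finite ℤ M₂]
    (ι : M₁ →ₗ[ℤ] M) (ψ : M →ₗ[ℤ] M₂) (hι : Function.Injective ι)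
    (hex : LinearMap.ker ψ = LinearMap.range ι)
    (htor : ∀ y : M₂, ∃ m : ℤ, m ≠ 0 ∧ m • y ∈ LinearMap.range ψ) :
    finrank ℤ M = finrank ℤ M₁ + finrank ℤ M₂ := by
  have h1 := Submodule.finrank_quotient_add_finrank (LinearMap.ker ψ)
  have h2 : finrank ℤ (M ⧸ LinearMap.ker ψ) = finrank ℤ (LinearMap.range ψ) :=
    LinearEquiv.finrank_eq ψ.quotKerEquivRange
  have h3 : finrank ℤ (LinearMap.ker ψ) = finrank ℤ M₁ := by
    rw [hex]
    exact LinearMap.finrank_range_of_inj hι
  have h4 : finrank ℤ (LinearMap.range ψ) = finrank ℤ M₂ := by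
    apply finrank_eq_of_injective_of_torsion (LinearMap.range ψ).subtype
      (Submodule.subtype_injective _)
    intro y
    obtain ⟨m, hm, hy⟩ := htor y
    refine ⟨m, hm, ?_⟩
    rw [Submodule.range_subtype]
    exact hy
  omega

/-- The submodule of invariants of a family of additive endomorphisms. -/
def invSub {ι : Type*} (a : ι → M →+ M) : Submodule ℤ M where
  carrier := {x | ∀ i, a i x = x}
  add_mem' := by
    intro x y hx hy i
    rw [map_add, hx i, hy i]
  zero_mem' := by
    intro i
    exact map_zero _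
  smul_mem' := by
    intro c x hx i
    rw [map_zsmul, hx i]

theorem mem_invSub {ι : Type*} {a : ι → M →+ M} {x : M} : x ∈ invSub a ↔ ∀ i, a i x = x :=
  Iff.rfl

end Generic

/-! ## Invariants of permutation lattices -/

section Perm

variable (D : Type*) [Group D] (X : Type*) [MulAction D X]

/-- The permutation action on `ℤ[X] = (X → ℤ)`: `(d • n) x = n (d⁻¹ • x)`. -/
def permAdd (d : D) : (X → ℤ) →+ (X → ℤ) where
  toFun n := fun x => n (d⁻¹ • x)
  map_zero' := rfl
  map_add' _ _ := rfl

@[simp] theorem permAdd_apply (d : D) (n : X → ℤ) (x : X) : permAdd D X d n x = n (d⁻¹ • x) := rfl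

theorem mem_invSub_permAdd {n : X → ℤ} :
    n ∈ invSub (permAdd D X) ↔ ∀ (d : D) (x : X), n (d • x) = n x := by
  rw [mem_invSub]
  constructor
  · intro h d x
    have := congrFun (h d⁻¹) x
    simpa using this
  · intro h d
    funext x
    exact h d⁻¹ x

/-- Pull-back of functions on the orbit space. -/
def orbitPull : (MulAction.orbitRel.Quotient D X → ℤ) →ₗ[ℤ] (X → ℤ) where
  toFun φ := fun x => φ (Quotient.mk'' x)
  map_add' _ _ := rfl
  map_smul' _ _ := rfl

theorem orbitPull_injective : Function.Injective (orbitPull D X) := by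
  intro φ ψ h
  funext q
  obtain ⟨x, rfl⟩ := Quotient.mk''_surjective q
  exact congrFun h x

theorem range_orbitPull : LinearMap.range (orbitPull D X) = invSub (permAdd D X) := by
  ext n
  rw [mem_invSub_permAdd]
  constructor
  · rintro ⟨φ, rfl⟩ d x
    show φ (Quotient.mk'' (d • x)) = φ (Quotient.mk'' x)
    congr 1
    apply Quotient.sound'
    exact MulAction.mem_orbit x d
  · intro h
    refine ⟨fun q => n q.out, ?_⟩
    funext x
    show n (Quotient.mk'' x : MulAction.orbitRel.Quotient D X).out = n x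
    have h1 : (Quotient.mk'' x : MulAction.orbitRel.Quotient D X).out ∈ MulAction.orbit D x := by
      have := Quotient.mk_out (s := MulAction.orbitRel D X) x
      exact this
    obtain ⟨d, hd⟩ := h1
    rw [← hd]
    exact h d x

/-- The invariants of `ℤ[X]` have rank the number of orbits. -/
theorem finrank_invSub_permAdd [Finite X] :
    finrank ℤ (invSub (permAdd D X)) = Nat.card (MulAction.orbitRel.Quotient D X) := by
  classical
  have := Fintype.ofFinite X
  have : Fintype (MulAction.orbitRel.Quotient D X) := Fintype.ofFinite _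
  rw [← range_orbitPull, LinearMap.finrank_range_of_inj (orbitPull_injective D X)]
  simp [Nat.card_eq_fintype_card]

end Perm

/-! ## The number-field instance -/

section NF

variable {K : Type*} [Field K] [NumberField K] {Γ : Type*} [Group Γ] [MulSemiringAction Γ K]

/-- The action on units, in additive notation. -/
def uActAdd (g : Γ) : Additive (𝓞 K)ˣ →+ Additive (𝓞 K)ˣ :=
  MonoidHom.toAdditive (uAct g).toMonoidHom

theorem uActAdd_apply (g : Γ) (x : Additive (𝓞 K)ˣ) :
    uActAdd g x = Additive.ofMul (uAct g (Additive.toMul x)) := rfl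

/-- The action on `S`-units, in additive notation. -/
def sActAdd {S : Finset (HeightOneSpectrum (𝓞 K))}
    (hS : ∀ (g : Γ), ∀ v ∈ S, finAct g v ∈ S) (g : Γ) :
    Additive (SUnits K S) →+ Additive (SUnits K S) :=
  MonoidHom.toAdditive (sAct hS g)

theorem sActAdd_apply {S : Finset (HeightOneSpectrum (𝓞 K))}
    (hS : ∀ (g : Γ), ∀ v ∈ S, finAct g v ∈ S) (g : Γ) (x : Additive (SUnits K S)) :
    sActAdd hS g x = Additive.ofMul (sAct hS g (Additive.toMul x)) := rfl

theorem sActAdd_mul {S : Finset (HeightOneSpectrum (𝓞 K))}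
    (hS : ∀ (g : Γ), ∀ v ∈ S, finAct g v ∈ S) (g h : Γ) (x : Additive (SUnits K S)) :
    sActAdd hS (g * h) x = sActAdd hS g (sActAdd hS h x) := by
  apply Additive.toMul.injective
  apply Subtype.ext
  exact kAct_mul g h _

/-- The action of a subgroup on the infinite places (not an instance). -/
@[reducible] def infMulActionSub (D : Subgroup Γ) : MulAction D (InfinitePlace K) where
  smul d w := infAct (d : Γ) w
  one_smul := infAct_one
  mul_smul d e w := infAct_mul (d : Γ) (e : Γ) w

/-- The action of a subgroup on a stable finite set of finite places (not an instance). -/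
@[reducible] def finMulActionSub {S : Finset (HeightOneSpectrum (𝓞 K))}
    (hS : ∀ (g : Γ), ∀ v ∈ S, finAct g v ∈ S) (D : Subgroup Γ) : MulAction D S where
  smul d v := ⟨finAct (d : Γ) v.1, hS d v.1 v.2⟩
  one_smul v := Subtype.ext (finAct_one v.1)
  mul_smul d e v := Subtype.ext (finAct_mul (d : Γ) (e : Γ) v.1)

/-- The permutation action of `D` on `ℤ[S_∞]`. -/
def infPerm (D : Subgroup Γ) (d : D) : (InfinitePlace K → ℤ) →+ (InfinitePlace K → ℤ) :=
  @permAdd D _ (InfinitePlace K) (infMulActionSub D) d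

theorem infPerm_apply (D : Subgroup Γ) (d : D) (n : InfinitePlace K → ℤ) (w : InfinitePlace K) :
    infPerm D d n w = n (infAct (d : Γ)⁻¹ w) := rfl

/-- The permutation action of `D` on `ℤ[S]`. -/
def finPerm {S : Finset (HeightOneSpectrum (𝓞 K))}
    (hS : ∀ (g : Γ), ∀ v ∈ S, finAct g v ∈ S) (D : Subgroup Γ) (d : D) : (S → ℤ) →+ (S → ℤ) :=
  @permAdd D _ S (finMulActionSub hS D) d

theorem finPerm_apply {S : Finset (HeightOneSpectrum (𝓞 K))}
    (hS : ∀ (g : Γ), ∀ v ∈ S, finAct g v ∈ S) (D : Subgroup Γ) (d : D) (n : S → ℤ) (v : S) :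
    finPerm hS D d n v = n ⟨finAct (d : Γ)⁻¹ v.1, hS _ v.1 v.2⟩ := rfl

theorem infPerm_mem_sumZero (D : Subgroup Γ) (d : D) {n : InfinitePlace K → ℤ}
    (hn : n ∈ sumZero (InfinitePlace K)) : infPerm D d n ∈ sumZero (InfinitePlace K) := by
  rw [mem_sumZero] at hn ⊢
  rw [← hn]
  exact Equiv.sum_comp (infEquiv (d : Γ)⁻¹) n

/-- Step (a): the invariant units have the rank of the invariant augmentation lattice. -/
theorem finrank_invSub_units [Finite Γ] (D : Subgroup Γ) :
    finrank ℤ ↥(invSub (infPerm (K := K) D) ⊓ sumZero (InfinitePlace K)) =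
      finrank ℤ ↥(invSub (fun d : D => uActAdd (K := K) (d : Γ))) := by
  obtain ⟨j, hjeq, -, hjinj, hjfin⟩ := exists_equivariant_unit_lattice (K := K) (Γ := Γ)
  have hjeq' : ∀ (d : D) (n : InfinitePlace K → ℤ), j (infPerm D d n) = uActAdd (d : Γ) (j n) := by
    intro d n
    apply Additive.toMul.injective
    exact hjeq (d : Γ) n
  set T : Submodule ℤ (InfinitePlace K → ℤ) :=
    invSub (infPerm (K := K) D) ⊓ sumZero (InfinitePlace K) with hT
  have hmem : ∀ n : ↥T, (j.comp T.subtype) n ∈ invSub (fun d : D => uActAdd (K := K) (d : Γ)) := by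
    intro n d
    show uActAdd (d : Γ) (j n.1) = j n.1
    rw [← hjeq']
    congr 1
    exact n.2.1 d
  let φ : ↥T →ₗ[ℤ] ↥(invSub (fun d : D => uActAdd (K := K) (d : Γ))) :=
    (j.comp T.subtype).codRestrict _ hmem
  apply finrank_eq_of_injective_of_torsion φ
  · intro a b hab
    have h1 : j a.1 = j b.1 := congrArg Subtype.val hab
    have h2 := @hjinj ⟨a.1, a.2.2⟩ ⟨b.1, b.2.2⟩ h1
    have h3 : (a.1 : InfinitePlace K → ℤ) = b.1 :=
      congrArg (fun z : ↥(sumZero (InfinitePlace K)) => (z : InfinitePlace K → ℤ)) h2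
    exact Subtype.ext h3
  · intro y
    set Q := Additive (𝓞 K)ˣ ⧸ LinearMap.range (j.comp (sumZero (InfinitePlace K)).subtype)
    have hm0 : Nat.card Q ≠ 0 := Nat.card_ne_zero.mpr ⟨⟨0⟩, hjfin⟩
    refine ⟨(Nat.card Q : ℤ), by exact_mod_cast hm0, ?_⟩
    have h1 : (Nat.card Q : ℤ) • (y.1 : Additive (𝓞 K)ˣ) ∈
        LinearMap.range (j.comp (sumZero (InfinitePlace K)).subtype) := by
      rw [← Submodule.Quotient.mk_eq_zero, Submodule.Quotient.mk_smul, natCast_zsmul]
      have := Fintype.ofFinite Q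
      rw [Nat.card_eq_fintype_card]
      exact card_nsmul_eq_zero
    obtain ⟨n0, hn0⟩ := h1
    have hn0' : j n0.1 = (Nat.card Q : ℤ) • (y.1 : Additive (𝓞 K)ˣ) := hn0
    have hinv : n0.1 ∈ invSub (infPerm (K := K) D) := by
      intro d
      have h2 : j (infPerm D d n0.1) = j n0.1 := by
        rw [hjeq', hn0', map_zsmul, y.2 d]
      have h3 := @hjinj ⟨infPerm D d n0.1, infPerm_mem_sumZero D d n0.2⟩ n0 h2
      exact congrArg Subtype.val h3
    refine ⟨⟨n0.1, hinv, n0.2⟩, ?_⟩
    apply Subtype.ext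
    exact hn0'

/-- Step (b): the invariant augmentation lattice has corank one in the invariants of `ℤ[S_∞]`. -/
theorem finrank_invSub_infPerm (D : Subgroup Γ) :
    finrank ℤ ↥(invSub (infPerm (K := K) D)) =
      finrank ℤ ↥(invSub (infPerm (K := K) D) ⊓ sumZero (InfinitePlace K)) + 1 := by
  have key := finrank_eq_add_of_exact
    (Submodule.inclusion (inf_le_left :
      invSub (infPerm (K := K) D) ⊓ sumZero (InfinitePlace K) ≤ invSub (infPerm (K := K) D)))
    ((sumMap (InfinitePlace K)).comp (invSub (infPerm (K := K) D)).subtype)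
    (Submodule.inclusion_injective _) ?_ ?_
  · rw [key, Module.finrank_self]
  · ext x
    rw [LinearMap.mem_ker, Submodule.range_inclusion, Submodule.mem_comap]
    constructor
    · intro h
      exact ⟨x.2, h⟩
    · intro h
      exact h.2
  · intro y
    refine ⟨(Fintype.card (InfinitePlace K) : ℤ), by
      exact_mod_cast Fintype.card_ne_zero, ?_⟩
    have hc : (fun _ : InfinitePlace K => y) ∈ invSub (infPerm (K := K) D) := by
      intro d
      rfl
    refine ⟨⟨_, hc⟩, ?_⟩
    show sumMap (InfinitePlace K) (fun _ => y) = _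
    rw [sumMap_apply]
    simp

theorem unitsLin_uActAdd {S : Finset (HeightOneSpectrum (𝓞 K))}
    (hS : ∀ (g : Γ), ∀ v ∈ S, finAct g v ∈ S) (g : Γ) (u : Additive (𝓞 K)ˣ) :
    Fermat.Agent.S14.helper2613.unitsLin S (uActAdd g u) =
      sActAdd hS g (Fermat.Agent.S14.helper2613.unitsLin S u) := by
  apply Additive.toMul.injective
  apply Subtype.ext
  apply Units.ext
  rfl

theorem valVec_sActAdd {S : Finset (HeightOneSpectrum (𝓞 K))}
    (hS : ∀ (g : Γ), ∀ v ∈ S, finAct g v ∈ S) (D : Subgroup Γ) (d : D)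
    (x : Additive (SUnits K S)) :
    valVec S (sActAdd hS (d : Γ) x) = finPerm hS D d (valVec S x) := by
  funext v
  rw [finPerm_apply]
  have h := valVec_sAct hS (d : Γ) (Additive.toMul x) ⟨finAct (d : Γ)⁻¹ v.1, hS _ v.1 v.2⟩
  have h2 : (⟨finAct (d : Γ) (finAct (d : Γ)⁻¹ v.1), hS (d : Γ) _ (hS _ v.1 v.2)⟩ : S) = v :=
    Subtype.ext (finAct_finAct_inv (d : Γ) v.1)
  rw [h2] at h
  exact h

/-- Step (c): invariant `S`-units versus invariant units and invariant valuation vectors. -/
theorem finrank_invSub_sUnits [Finite Γ] {S : Finset (HeightOneSpectrum (𝓞 K))}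
    (hS : ∀ (g : Γ), ∀ v ∈ S, finAct g v ∈ S) (D : Subgroup Γ) :
    finrank ℤ ↥(invSub (fun d : D => sActAdd hS (d : Γ))) =
      finrank ℤ ↥(invSub (fun d : D => uActAdd (K := K) (d : Γ))) +
        finrank ℤ ↥(invSub (finPerm hS D)) := by
  classical
  have : Fintype D := Fintype.ofFinite D
  have hι : ∀ u : ↥(invSub (fun d : D => uActAdd (K := K) (d : Γ))),
      ((Fermat.Agent.S14.helper2613.unitsLin S).comp
        (invSub (fun d : D => uActAdd (K := K) (d : Γ))).subtype) u ∈
        invSub (fun d : D => sActAdd hS (d : Γ)) := by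
    intro u d
    show sActAdd hS (d : Γ) (Fermat.Agent.S14.helper2613.unitsLin S u.1) = _
    rw [← unitsLin_uActAdd, u.2 d]
    rfl
  have hψ : ∀ x : ↥(invSub (fun d : D => sActAdd hS (d : Γ))),
      ((valVec S).comp (invSub (fun d : D => sActAdd hS (d : Γ))).subtype) x ∈
        invSub (finPerm hS D) := by
    intro x d
    show finPerm hS D d (valVec S x.1) = valVec S x.1
    rw [← valVec_sActAdd, x.2 d]
  apply finrank_eq_add_of_exact
    (((Fermat.Agent.S14.helper2613.unitsLin S).comp
      (invSub (fun d : D => uActAdd (K := K) (d : Γ))).subtype).codRestrict _ hι)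
    (((valVec S).comp (invSub (fun d : D => sActAdd hS (d : Γ))).subtype).codRestrict _ hψ)
  · intro a b hab
    have h1 : Fermat.Agent.S14.helper2613.unitsLin S a.1 =
        Fermat.Agent.S14.helper2613.unitsLin S b.1 := congrArg Subtype.val hab
    exact Subtype.ext (Fermat.Agent.S14.helper2613.unitsLin_injective S h1)
  · ext x
    rw [LinearMap.mem_ker]
    constructor
    · intro h
      have h1 : valVec S x.1 = 0 := congrArg Subtype.val h
      have h2 : x.1 ∈ LinearMap.ker (valVec (K := K) S) := h1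
      rw [Fermat.Agent.S14.helper2613.ker_valVec] at h2
      obtain ⟨u, hu⟩ := h2
      have hu' : u ∈ invSub (fun d : D => uActAdd (K := K) (d : Γ)) := by
        intro d
        apply Fermat.Agent.S14.helper2613.unitsLin_injective S
        rw [unitsLin_uActAdd hS, hu, x.2 d]
      exact ⟨⟨u, hu'⟩, Subtype.ext hu⟩
    · rintro ⟨u, rfl⟩
      apply Subtype.ext
      show valVec S (Fermat.Agent.S14.helper2613.unitsLin S u.1) = 0
      have : Fermat.Agent.S14.helper2613.unitsLin S u.1 ∈ LinearMap.ker (valVec (K := K) S) := by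
        rw [Fermat.Agent.S14.helper2613.ker_valVec]
        exact ⟨u.1, rfl⟩
      exact this
  · intro y
    set Q := (S → ℤ) ⧸ LinearMap.range (valVec (K := K) S)
    have hQ : Finite Q := finite_quotient_valVec S
    have hm0 : Nat.card Q ≠ 0 := Nat.card_ne_zero.mpr ⟨⟨0⟩, hQ⟩
    have h1 : (Nat.card Q : ℤ) • (y.1 : S → ℤ) ∈ LinearMap.range (valVec (K := K) S) := by
      rw [← Submodule.Quotient.mk_eq_zero, Submodule.Quotient.mk_smul, natCast_zsmul]
      have := Fintype.ofFinite Q
      rw [Nat.card_eq_fintype_card]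
      exact card_nsmul_eq_zero
    obtain ⟨x, hx⟩ := h1
    have hx'mem : (∑ d : D, sActAdd hS (d : Γ) x) ∈ invSub (fun d : D => sActAdd hS (d : Γ)) := by
      intro e
      show sActAdd hS (e : Γ) (∑ d : D, sActAdd hS (d : Γ) x) = ∑ d : D, sActAdd hS (d : Γ) x
      rw [map_sum]
      exact Fintype.sum_equiv (Equiv.mulLeft e) _ _ (fun d => by
        rw [Equiv.coe_mulLeft, Subgroup.coe_mul, sActAdd_mul])
    refine ⟨(Fintype.card D : ℤ) * (Nat.card Q : ℤ), ?_, ⟨⟨_, hx'mem⟩, ?_⟩⟩
    · have : Fintype.card D ≠ 0 := Fintype.card_ne_zero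
      exact mul_ne_zero (by exact_mod_cast this) (by exact_mod_cast hm0)
    · apply Subtype.ext
      show valVec S (∑ d : D, sActAdd hS (d : Γ) x) = ((Fintype.card D : ℤ) * (Nat.card Q : ℤ)) • y.1
      rw [map_sum]
      have h2 : ∀ d : D, valVec S (sActAdd hS (d : Γ) x) = (Nat.card Q : ℤ) • y.1 := by
        intro d
        rw [valVec_sActAdd hS D d, hx, map_zsmul, y.2 d]
      rw [Finset.sum_congr rfl (fun d _ => h2 d), Finset.sum_const, Finset.card_univ, mul_smul]
      simp only [natCast_zsmul]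

/-- **(RK) Fixed-rank form of the equivariant `S`-unit theorem.**  For every subgroup `D ≤ Γ`,
`rank (O_{K,S}ˣ)^D + 1 = #(D \ S_∞) + #(D \ S)`. -/
theorem finrank_invariants_sUnits [Finite Γ] {S : Finset (HeightOneSpectrum (𝓞 K))}
    (hS : ∀ (g : Γ), ∀ v ∈ S, finAct g v ∈ S) (D : Subgroup Γ) :
    finrank ℤ ↥(invSub (fun d : D => sActAdd hS (d : Γ))) + 1 =
      Nat.card (@MulAction.orbitRel.Quotient D (InfinitePlace K) _ (infMulActionSub D)) +
        Nat.card (@MulAction.orbitRel.Quotient D S _ (finMulActionSub hS D)) := by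
  have h1 := finrank_invSub_sUnits hS D
  have h2 := finrank_invSub_units (K := K) D
  have h3 := finrank_invSub_infPerm (K := K) D
  have h4 : finrank ℤ ↥(invSub (infPerm (K := K) D)) =
      Nat.card (@MulAction.orbitRel.Quotient D (InfinitePlace K) _ (infMulActionSub D)) :=
    @finrank_invSub_permAdd D _ (InfinitePlace K) (infMulActionSub D) _
  have h5 : finrank ℤ ↥(invSub (finPerm hS D)) =
      Nat.card (@MulAction.orbitRel.Quotient D S _ (finMulActionSub hS D)) :=
    @finrank_invSub_permAdd D _ S (finMulActionSub hS D) _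
  omega

end NF

end

end Fermat.Agent.S56.helper4029
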