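/-
Copyright (c) 2026. Released under Apache 2.0 license.

# The cyclic form of the fixed-rank `S`-unit theorem

Adapter from `(RK)` (`finrank_invariants_sUnits` and its pre-orbit form) to the shape consumed by
an abstract eigenvalue-multiplicity argument: for one element `g` of the acting group,

* `sLin hS g : Module.End ℤ (Additive (SUnits K S))`, the action on the `S`-units;
* `placePerm hS g : Equiv.Perm (InfinitePlace K ⊕ S)`, the permutation of the places in
  `S_∞ ⊔ S`, and `placeLin hS g = LinearMap.funLeft ℤ ℤ (placePerm hS g).symm`, the permutation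
  action on `ℤ[S_∞ ⊔ S]`;
* `sLin_pow_eq_one`, `placeLin_pow_eq_one` (finite order), and for every `e`
  `finrank ℤ (ker (sLin hS g ^ e - 1)) + 1 = finrank ℤ (ker (placeLin hS g ^ e - 1))`.
-/
import Mathlib
import Fermat.Agent.S56.helper4029_UnitRank

open IsDedekindDomain NumberField Module

namespace Fermat.Agent.S56.helper4029

open Fermat.Agent.S14.helper2613 (SUnits)

noncomputable section

/-! ## Generic lemmas -/

section GenericCyc

variable {M : Type*} [AddCommGroup M] {Γ : Type*} [Group Γ]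

/-- Invariants of a cyclic group are the fixed points of a generator. -/
theorem invSub_zpowers (a : Γ → M →+ M) (h1 : ∀ x, a 1 x = x)
    (hmul : ∀ g h x, a (g * h) x = a g (a h x)) (g : Γ) :
    invSub (fun d : Subgroup.zpowers g => a (d : Γ)) =
      LinearMap.ker ((a g).toIntLinearMap - 1) := by
  ext x
  rw [mem_invSub, LinearMap.mem_ker, LinearMap.sub_apply, sub_eq_zero]
  constructor
  · intro h
    exact h ⟨g, Subgroup.mem_zpowers g⟩
  · intro h d
    have hg : a g x = x := h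
    have hg' : a g⁻¹ x = x := by
      have := hmul g⁻¹ g x
      rw [inv_mul_cancel, h1, hg] at this
      exact this.symm
    have key : ∀ k : ℤ, a (g ^ k) x = x := by
      intro k
      induction k using Int.induction_on with
      | zero => rw [zpow_zero]; exact h1 x
      | succ n ih => rw [zpow_add_one, hmul, hg]; exact ih
      | pred n ih => rw [zpow_sub_one, hmul, hg']; exact ih
    obtain ⟨k, hk⟩ := Subgroup.mem_zpowers_iff.mp d.2
    show a (d : Γ) x = x
    rw [← hk]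
    exact key k

/-- The fixed functions of a sum of two permutations. -/
theorem finrank_ker_funLeft_sumCongr {X Y : Type*} [Finite X] [Finite Y]
    (σ : Equiv.Perm X) (τ : Equiv.Perm Y) :
    finrank ℤ (LinearMap.ker (LinearMap.funLeft ℤ ℤ (Equiv.sumCongr σ τ).symm - 1)) =
      finrank ℤ (LinearMap.ker (LinearMap.funLeft ℤ ℤ σ.symm - 1)) +
        finrank ℤ (LinearMap.ker (LinearMap.funLeft ℤ ℤ τ.symm - 1)) := by
  have hA : ∀ n : X ⊕ Y → ℤ, n ∈ LinearMap.ker (LinearMap.funLeft ℤ ℤ (Equiv.sumCongr σ τ).symm - 1)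
      ↔ (∀ x, n (Sum.inl (σ.symm x)) = n (Sum.inl x)) ∧
        (∀ y, n (Sum.inr (τ.symm y)) = n (Sum.inr y)) := by
    intro n
    rw [LinearMap.mem_ker, LinearMap.sub_apply, sub_eq_zero]
    constructor
    · intro h
      exact ⟨fun x => congrFun h (Sum.inl x), fun y => congrFun h (Sum.inr y)⟩
    · rintro ⟨h1, h2⟩
      funext z
      rcases z with x | y
      · exact h1 x
      · exact h2 y
  have hB : ∀ n : X → ℤ, n ∈ LinearMap.ker (LinearMap.funLeft ℤ ℤ σ.symm - 1)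
      ↔ ∀ x, n (σ.symm x) = n x := by
    intro n
    rw [LinearMap.mem_ker, LinearMap.sub_apply, sub_eq_zero]
    exact ⟨fun h x => congrFun h x, fun h => funext h⟩
  have hC : ∀ n : Y → ℤ, n ∈ LinearMap.ker (LinearMap.funLeft ℤ ℤ τ.symm - 1)
      ↔ ∀ y, n (τ.symm y) = n y := by
    intro n
    rw [LinearMap.mem_ker, LinearMap.sub_apply, sub_eq_zero]
    exact ⟨fun h y => congrFun h y, fun h => funext h⟩
  let e : ↥(LinearMap.ker (LinearMap.funLeft ℤ ℤ (Equiv.sumCongr σ τ).symm - 1)) ≃ₗ[ℤ]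
      ↥(LinearMap.ker (LinearMap.funLeft ℤ ℤ σ.symm - 1)) ×
        ↥(LinearMap.ker (LinearMap.funLeft ℤ ℤ τ.symm - 1)) :=
    { toFun := fun n => (⟨fun x => n.1 (Sum.inl x), (hB _).mpr ((hA _).mp n.2).1⟩,
        ⟨fun y => n.1 (Sum.inr y), (hC _).mpr ((hA _).mp n.2).2⟩)
      map_add' := fun _ _ => rfl
      map_smul' := fun _ _ => rfl
      invFun := fun m => ⟨Sum.elim m.1.1 m.2.1,
        (hA _).mpr ⟨(hB _).mp m.1.2, (hC _).mp m.2.2⟩⟩
      left_inv := fun n => by
        apply Subtype.ext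
        funext z
        rcases z with x | y <;> rfl
      right_inv := fun m => rfl }
  rw [e.finrank_eq, Module.finrank_prod]

end GenericCyc

/-! ## The number field instance -/

section Cyc

variable {K : Type*} [Field K] [NumberField K] {Γ : Type*} [Group Γ] [MulSemiringAction Γ K]
  {S : Finset (HeightOneSpectrum (𝓞 K))}

theorem sActAdd_one (hS : ∀ (g : Γ), ∀ v ∈ S, finAct g v ∈ S) (x : Additive (SUnits K S)) :
    sActAdd hS 1 x = x := by
  apply Additive.toMul.injective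
  apply Subtype.ext
  exact kAct_one _

/-- The action of `g` on the `S`-units as a `ℤ`-linear endomorphism. -/
def sLin (hS : ∀ (g : Γ), ∀ v ∈ S, finAct g v ∈ S) (g : Γ) :
    Module.End ℤ (Additive (SUnits K S)) :=
  (sActAdd hS g).toIntLinearMap

theorem sLin_apply (hS : ∀ (g : Γ), ∀ v ∈ S, finAct g v ∈ S) (g : Γ)
    (x : Additive (SUnits K S)) :
    sLin hS g x = Additive.ofMul (sAct hS g (Additive.toMul x)) := rfl

theorem sLin_one (hS : ∀ (g : Γ), ∀ v ∈ S, finAct g v ∈ S) : sLin hS (1 : Γ) = 1 := by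
  apply LinearMap.ext
  intro x
  exact sActAdd_one hS x

theorem sLin_mul (hS : ∀ (g : Γ), ∀ v ∈ S, finAct g v ∈ S) (g h : Γ) :
    sLin hS (g * h) = sLin hS g * sLin hS h := by
  apply LinearMap.ext
  intro x
  exact sActAdd_mul hS g h x

theorem sLin_pow (hS : ∀ (g : Γ), ∀ v ∈ S, finAct g v ∈ S) (g : Γ) (e : ℕ) :
    sLin hS (g ^ e) = sLin hS g ^ e := by
  induction e with
  | zero => rw [pow_zero, pow_zero, sLin_one]
  | succ n ih => rw [pow_succ, pow_succ, sLin_mul, ih]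

theorem sLin_pow_eq_one (hS : ∀ (g : Γ), ∀ v ∈ S, finAct g v ∈ S) {g : Γ} {n : ℕ}
    (hg : g ^ n = 1) : sLin hS g ^ n = 1 := by
  rw [← sLin_pow, hg, sLin_one]

/-- The permutation of a stable finite set of finite places induced by `g`. -/
def finEquivS (hS : ∀ (g : Γ), ∀ v ∈ S, finAct g v ∈ S) (g : Γ) : Equiv.Perm S where
  toFun v := ⟨finAct g v.1, hS g v.1 v.2⟩
  invFun v := ⟨finAct g⁻¹ v.1, hS g⁻¹ v.1 v.2⟩
  left_inv v := Subtype.ext (finAct_inv_finAct g v.1)
  right_inv v := Subtype.ext (finAct_finAct_inv g v.1)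

/-- The permutation of `S_∞ ⊔ S` induced by `g`. -/
def placePerm (hS : ∀ (g : Γ), ∀ v ∈ S, finAct g v ∈ S) (g : Γ) :
    Equiv.Perm (InfinitePlace K ⊕ S) :=
  Equiv.sumCongr (infEquiv g) (finEquivS hS g)

@[simp] theorem placePerm_inl (hS : ∀ (g : Γ), ∀ v ∈ S, finAct g v ∈ S) (g : Γ)
    (w : InfinitePlace K) : placePerm hS g (Sum.inl w) = Sum.inl (infAct g w) := rfl

@[simp] theorem placePerm_inr (hS : ∀ (g : Γ), ∀ v ∈ S, finAct g v ∈ S) (g : Γ) (v : S) :
    placePerm hS g (Sum.inr v) = Sum.inr ⟨finAct g v.1, hS g v.1 v.2⟩ := rfl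

@[simp] theorem placePerm_symm_inl (hS : ∀ (g : Γ), ∀ v ∈ S, finAct g v ∈ S) (g : Γ)
    (w : InfinitePlace K) : (placePerm hS g).symm (Sum.inl w) = Sum.inl (infAct g⁻¹ w) := rfl

@[simp] theorem placePerm_symm_inr (hS : ∀ (g : Γ), ∀ v ∈ S, finAct g v ∈ S) (g : Γ) (v : S) :
    (placePerm hS g).symm (Sum.inr v) = Sum.inr ⟨finAct g⁻¹ v.1, hS g⁻¹ v.1 v.2⟩ := rfl

theorem placePerm_one (hS : ∀ (g : Γ), ∀ v ∈ S, finAct g v ∈ S) : placePerm hS (1 : Γ) = 1 := by
  ext z
  rcases z with w | v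
  · rw [placePerm_inl, infAct_one]; rfl
  · rw [placePerm_inr]
    exact congrArg Sum.inr (Subtype.ext (finAct_one v.1))

theorem placePerm_mul (hS : ∀ (g : Γ), ∀ v ∈ S, finAct g v ∈ S) (g h : Γ) :
    placePerm hS (g * h) = placePerm hS g * placePerm hS h := by
  ext z
  rcases z with w | v
  · rw [placePerm_inl, infAct_mul]; rfl
  · rw [placePerm_inr]
    exact congrArg Sum.inr (Subtype.ext (finAct_mul g h v.1))

theorem placePerm_pow (hS : ∀ (g : Γ), ∀ v ∈ S, finAct g v ∈ S) (g : Γ) (e : ℕ) :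
    placePerm hS (g ^ e) = placePerm hS g ^ e := by
  induction e with
  | zero => rw [pow_zero, pow_zero, placePerm_one]
  | succ n ih => rw [pow_succ, pow_succ, placePerm_mul, ih]

/-- The permutation action of `g` on `ℤ[S_∞ ⊔ S]`: `(g • n) y = n (g⁻¹ • y)`. -/
def placeLin (hS : ∀ (g : Γ), ∀ v ∈ S, finAct g v ∈ S) (g : Γ) :
    Module.End ℤ (InfinitePlace K ⊕ S → ℤ) :=
  LinearMap.funLeft ℤ ℤ (placePerm hS g).symm

theorem placeLin_apply (hS : ∀ (g : Γ), ∀ v ∈ S, finAct g v ∈ S) (g : Γ)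
    (n : InfinitePlace K ⊕ S → ℤ) (y : InfinitePlace K ⊕ S) :
    placeLin hS g n y = n ((placePerm hS g).symm y) := rfl

theorem placeLin_one (hS : ∀ (g : Γ), ∀ v ∈ S, finAct g v ∈ S) : placeLin hS (1 : Γ) = 1 := by
  apply LinearMap.ext
  intro n
  funext y
  rw [placeLin_apply, placePerm_one]
  rfl

theorem placeLin_mul (hS : ∀ (g : Γ), ∀ v ∈ S, finAct g v ∈ S) (g h : Γ) :
    placeLin hS (g * h) = placeLin hS g * placeLin hS h := by
  apply LinearMap.ext
  intro n
  funext y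
  rw [placeLin_apply, placePerm_mul]
  rfl

theorem placeLin_pow (hS : ∀ (g : Γ), ∀ v ∈ S, finAct g v ∈ S) (g : Γ) (e : ℕ) :
    placeLin hS (g ^ e) = placeLin hS g ^ e := by
  induction e with
  | zero => rw [pow_zero, pow_zero, placeLin_one]
  | succ n ih => rw [pow_succ, pow_succ, placeLin_mul, ih]

theorem placeLin_pow_eq_one (hS : ∀ (g : Γ), ∀ v ∈ S, finAct g v ∈ S) {g : Γ} {n : ℕ}
    (hg : g ^ n = 1) : placeLin hS g ^ n = 1 := by
  rw [← placeLin_pow, hg, placeLin_one]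

/-- **(RK), pre-orbit form.**  `rank (O_{K,S}ˣ)^D + 1 = rank ℤ[S_∞]^D + rank ℤ[S]^D`. -/
theorem finrank_invariants_sUnits' [Finite Γ] (hS : ∀ (g : Γ), ∀ v ∈ S, finAct g v ∈ S)
    (D : Subgroup Γ) :
    finrank ℤ ↥(invSub (fun d : D => sActAdd hS (d : Γ))) + 1 =
      finrank ℤ ↥(invSub (infPerm (K := K) D)) + finrank ℤ ↥(invSub (finPerm hS D)) := by
  have h1 := finrank_invSub_sUnits hS D
  have h2 := finrank_invSub_units (K := K) D
  have h3 := finrank_invSub_infPerm (K := K) D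
  omega

/-- The permutation action on `ℤ[S_∞]`, indexed by the whole group. -/
def infAdd (g : Γ) : (InfinitePlace K → ℤ) →+ (InfinitePlace K → ℤ) where
  toFun n := fun w => n (infAct g⁻¹ w)
  map_zero' := rfl
  map_add' _ _ := rfl

/-- The permutation action on `ℤ[S]`, indexed by the whole group. -/
def finAdd (hS : ∀ (g : Γ), ∀ v ∈ S, finAct g v ∈ S) (g : Γ) : (S → ℤ) →+ (S → ℤ) where
  toFun n := fun v => n ⟨finAct g⁻¹ v.1, hS g⁻¹ v.1 v.2⟩
  map_zero' := rfl
  map_add' _ _ := rfl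

theorem ker_sLin_pow (hS : ∀ (g : Γ), ∀ v ∈ S, finAct g v ∈ S) (g : Γ) (e : ℕ) :
    LinearMap.ker (sLin hS g ^ e - 1) =
      invSub (fun d : Subgroup.zpowers (g ^ e) => sActAdd hS (d : Γ)) := by
  rw [← sLin_pow]
  exact (invSub_zpowers (sActAdd hS) (sActAdd_one hS) (sActAdd_mul hS) (g ^ e)).symm

theorem ker_infEquiv (g : Γ) :
    LinearMap.ker (LinearMap.funLeft ℤ ℤ (infEquiv (K := K) g).symm - 1) =
      invSub (infPerm (K := K) (Subgroup.zpowers g)) := by
  have h := invSub_zpowers (infAdd (K := K) (Γ := Γ)) (fun n => by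
      funext w
      show n (infAct (1 : Γ)⁻¹ w) = n w
      rw [inv_one, infAct_one]) (fun a b n => by
      funext w
      show n (infAct (a * b)⁻¹ w) = n (infAct b⁻¹ (infAct a⁻¹ w))
      rw [mul_inv_rev, infAct_mul]) g
  exact h.symm

theorem ker_finEquivS (hS : ∀ (g : Γ), ∀ v ∈ S, finAct g v ∈ S) (g : Γ) :
    LinearMap.ker (LinearMap.funLeft ℤ ℤ (finEquivS hS g).symm - 1) =
      invSub (finPerm hS (Subgroup.zpowers g)) := by
  have h := invSub_zpowers (finAdd hS) (fun n => by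
      funext v
      show n ⟨finAct (1 : Γ)⁻¹ v.1, _⟩ = n v
      congr 1
      apply Subtype.ext
      show finAct (1 : Γ)⁻¹ v.1 = v.1
      rw [inv_one, finAct_one]) (fun a b n => by
      funext v
      show n ⟨finAct (a * b)⁻¹ v.1, _⟩ = n ⟨finAct b⁻¹ (finAct a⁻¹ v.1), _⟩
      congr 1
      apply Subtype.ext
      show finAct (a * b)⁻¹ v.1 = finAct b⁻¹ (finAct a⁻¹ v.1)
      rw [mul_inv_rev, finAct_mul]) g
  exact h.symm

/-- **(RK), cyclic form.**  For every `g` and every `e`,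
`rank (fixed points of g^e on O_{K,S}ˣ) + 1 = rank (fixed points of g^e on ℤ[S_∞ ⊔ S])`. -/
theorem finrank_ker_sLin_pow [Finite Γ] (hS : ∀ (g : Γ), ∀ v ∈ S, finAct g v ∈ S) (g : Γ)
    (e : ℕ) :
    finrank ℤ ↥(LinearMap.ker (sLin hS g ^ e - 1)) + 1 =
      finrank ℤ ↥(LinearMap.ker (placeLin hS g ^ e - 1)) := by
  rw [ker_sLin_pow, ← placeLin_pow]
  have h := finrank_invariants_sUnits' hS (Subgroup.zpowers (g ^ e))
  rw [h, ← ker_infEquiv, ← ker_finEquivS hS]
  exact (finrank_ker_funLeft_sumCongr (infEquiv (K := K) (g ^ e)) (finEquivS hS (g ^ e))).symm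

/-! ## The torsion eigen-line -/

/-- The `p`-primary torsion subgroup of the `S`-units. -/
def pTorsion (S : Finset (HeightOneSpectrum (𝓞 K))) (p : ℕ) : Subgroup (SUnits K S) where
  carrier := {x | ∃ k : ℕ, x ^ (p ^ k) = 1}
  one_mem' := ⟨0, one_pow _⟩
  mul_mem' := by
    rintro x y ⟨k, hk⟩ ⟨l, hl⟩
    refine ⟨k + l, ?_⟩
    rw [mul_pow, pow_add, pow_mul, hk, one_pow, mul_comm (p ^ k), pow_mul, hl, one_pow, mul_one]
  inv_mem' := by
    rintro x ⟨k, hk⟩
    exact ⟨k, by rw [inv_pow, hk, inv_one]⟩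

theorem mem_pTorsion {p : ℕ} {x : SUnits K S} : x ∈ pTorsion S p ↔ ∃ k : ℕ, x ^ (p ^ k) = 1 :=
  Iff.rfl

theorem finite_pTorsion {p : ℕ} (hp : 0 < p) : Finite ↥(pTorsion S p) := by
  have hfin : Finite ↥(Submodule.torsion ℤ (Additive (SUnits K S))) :=
    Module.finite_of_fg_torsion _ Submodule.torsion_isTorsion
  have hmem : ∀ x : ↥(pTorsion S p),
      Additive.ofMul (x : SUnits K S) ∈ Submodule.torsion ℤ (Additive (SUnits K S)) := by
    intro x
    obtain ⟨k, hk⟩ := x.2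
    rw [Submodule.mem_torsion_iff]
    refine ⟨⟨((p ^ k : ℕ) : ℤ), ?_⟩, ?_⟩
    · rw [mem_nonZeroDivisors_iff_ne_zero]
      exact_mod_cast (pow_pos hp k).ne'
    · show ((p ^ k : ℕ) : ℤ) • Additive.ofMul (x : SUnits K S) = 0
      rw [natCast_zsmul, ← ofMul_pow, hk]
      rfl
  apply Finite.of_injective (fun x : ↥(pTorsion S p) =>
    (⟨Additive.ofMul (x : SUnits K S), hmem x⟩ : ↥(Submodule.torsion ℤ (Additive (SUnits K S)))))
  intro x y hxy
  apply Subtype.ext
  have := congrArg Subtype.val hxy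
  exact Additive.ofMul.injective this

theorem isCyclic_pTorsion {p : ℕ} (hp : 0 < p) : IsCyclic ↥(pTorsion S p) := by
  have := finite_pTorsion (S := S) hp
  let f : ↥(pTorsion S p) →* K :=
    (Units.coeHom K).comp ((SUnits K S).subtype.comp (pTorsion S p).subtype)
  apply isCyclic_of_injective_ringHom f
  intro x y hxy
  apply Subtype.ext
  apply Subtype.ext
  apply Units.ext
  exact hxy

theorem sAct_mem_pTorsion (hS : ∀ (g : Γ), ∀ v ∈ S, finAct g v ∈ S) (g : Γ) {p : ℕ}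
    {x : SUnits K S} (hx : x ∈ pTorsion S p) : sAct hS g x ∈ pTorsion S p := by
  obtain ⟨k, hk⟩ := hx
  exact ⟨k, by rw [← map_pow, hk, map_one]⟩

/-- A root of unity is an `S`-unit. -/
theorem unit_mem_SUnits_of_pow_eq_one (S : Finset (HeightOneSpectrum (𝓞 K))) {x : Kˣ} {n : ℕ}
    (hn : n ≠ 0) (hx : x ^ n = 1) : x ∈ SUnits K S := by
  rw [Fermat.Agent.S14.helper2613.mem_SUnits]
  intro v _
  have h2 : (v.valuation K (x : K)) ^ n = 1 := by
    rw [← map_pow, ← Units.val_pow_eq_pow_val, hx, Units.val_one, map_one]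
  exact (pow_eq_one_iff_left hn).mp h2

/-- **The torsion eigen-line.**  If `K` contains a primitive `p`-th root of unity `ζ`, a generator
`t` of the `p`-primary torsion of the `S`-units is a torsion element which is not a `p`-th
multiple, on which every `g` acts by an integer `z` with `g • ζ = ζ ^ z`. -/
theorem exists_torsion_line (hS : ∀ (g : Γ), ∀ v ∈ S, finAct g v ∈ S) {p : ℕ} (hp : p.Prime)
    {ζ : K} (hζ : IsPrimitiveRoot ζ p) :
    ∃ t : Additive (SUnits K S), IsOfFinAddOrder t ∧ (∀ a : Additive (SUnits K S), t ≠ p • a) ∧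
      ∀ g : Γ, ∃ z : ℤ, sLin hS g t = z • t ∧ g • ζ = ζ ^ z := by
  have hcyc := isCyclic_pTorsion (S := S) hp.pos
  obtain ⟨t₀, ht₀⟩ := IsCyclic.exists_generator (α := ↥(pTorsion S p))
  -- the root of unity as an element of the `p`-primary torsion
  have hζ0 : ζ ≠ 0 := hζ.ne_zero hp.ne_zero
  let ζu : Kˣ := Units.mk0 ζ hζ0
  have hζu : ζu ^ p = 1 := by
    apply Units.ext
    rw [Units.val_pow_eq_pow_val, Units.val_one]
    exact hζ.pow_eq_one
  let ζs : SUnits K S := ⟨ζu, unit_mem_SUnits_of_pow_eq_one S hp.ne_zero hζu⟩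
  have hζs : ζs ^ p = 1 := Subtype.ext hζu
  have hζmem : ζs ∈ pTorsion S p := ⟨1, by rw [pow_one]; exact hζs⟩
  let ζg : ↥(pTorsion S p) := ⟨ζs, hζmem⟩
  have hζg : ζg ^ p = 1 := Subtype.ext hζs
  have hζg1 : ζg ≠ 1 := by
    intro h
    have h1 : ζ = 1 := congrArg (fun x : ↥(pTorsion S p) => (((x : SUnits K S) : Kˣ) : K)) h
    exact hζ.ne_one hp.one_lt h1
  obtain ⟨j, hj⟩ := Subgroup.mem_zpowers_iff.mp (ht₀ ζg)
  refine ⟨Additive.ofMul (t₀ : SUnits K S), ?_, ?_, ?_⟩
  · obtain ⟨k, hk⟩ := t₀.2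
    rw [isOfFinAddOrder_iff_nsmul_eq_zero]
    refine ⟨p ^ k, pow_pos hp.pos k, ?_⟩
    rw [← ofMul_pow, hk]
    rfl
  · intro a ha
    -- `a ^ p = t₀`, so `a` lies in the `p`-primary torsion
    have ha' : (Additive.toMul a) ^ p = (t₀ : SUnits K S) := by
      have := congrArg Additive.toMul ha
      exact this.symm
    have hamem : Additive.toMul a ∈ pTorsion S p := by
      obtain ⟨k, hk⟩ := t₀.2
      refine ⟨k + 1, ?_⟩
      rw [pow_succ', pow_mul, ha', hk]
    obtain ⟨m, hm⟩ := Subgroup.mem_zpowers_iff.mp (ht₀ ⟨Additive.toMul a, hamem⟩)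
    have h1 : t₀ ^ (m * (p : ℤ) - 1) = 1 := by
      have h2 : t₀ ^ (m * (p : ℤ)) = t₀ := by
        rw [zpow_mul, hm, zpow_natCast]
        exact Subtype.ext ha'
      rw [zpow_sub_one, h2, mul_inv_cancel]
    have h3 : ζg ^ (m * (p : ℤ) - 1) = 1 := by
      rw [← hj, ← zpow_mul, mul_comm, zpow_mul, h1, one_zpow]
    have h4 : ζg ^ (m * (p : ℤ)) = 1 := by
      rw [mul_comm, zpow_mul, zpow_natCast, hζg, one_zpow]
    rw [zpow_sub_one, h4, one_mul, inv_eq_one] at h3
    exact hζg1 h3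
  · intro g
    obtain ⟨z, hz⟩ := Subgroup.mem_zpowers_iff.mp
      (ht₀ ⟨sAct hS g (t₀ : SUnits K S), sAct_mem_pTorsion hS g t₀.2⟩)
    have hz' : sAct hS g (t₀ : SUnits K S) = (t₀ : SUnits K S) ^ z := by
      have := congrArg (fun x : ↥(pTorsion S p) => (x : SUnits K S)) hz
      simpa using this.symm
    refine ⟨z, ?_, ?_⟩
    · rw [sLin_apply, toMul_ofMul, hz']
      rfl
    · have hζj : ζs = (t₀ : SUnits K S) ^ j := by
        have := congrArg (fun x : ↥(pTorsion S p) => (x : SUnits K S)) hj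
        simpa using this.symm
      have h5 : sAct hS g ζs = ζs ^ z := by
        rw [hζj, map_zpow, hz', ← zpow_mul, ← zpow_mul, mul_comm]
      have h7 : (((sAct hS g ζs : SUnits K S) : Kˣ) : K) = g • ζ := rfl
      have h8 : (((ζs ^ z : SUnits K S) : Kˣ) : K) = ζ ^ z := by
        rw [Subgroup.coe_zpow, Units.val_zpow_eq_zpow_val]
        rfl
      rw [← h7, ← h8, h5]

end Cyc

end

end Fermat.Agent.S56.helper4029
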