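/-
S56 (Taylor–Wiles primes), global chain, seam of T1 (H1): the PLACES DICTIONARY.
Author: helper4713 (registry row TATE-T1-PLACEDICT).

The Mackey side of Tate's Euler characteristic counts on double cosets
`G_F \ G_ℚ / ⟨c⟩` and `G_F \ G_ℚ / D_q`; the unit side counts on `InfinitePlace F` and on the
primes of `𝓞 F`.  This file identifies the two, compatibly with left translation by `σ ∈ G_ℚ`.

* `infPlaceOf F g` : the infinite place of `F` given by `x ↦ complexEmbedding (g⁻¹ x)`;
  `infPlaceOf_eq_iff`, `infPlaceOf_surjective`, `infPlacesEquiv`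
  (`G_F \ G_ℚ / ⟨c⟩ ≃ InfinitePlace F`, `c` the frozen `complexConjugation`),
  `isReal_infPlaceOf_iff`.
* `infPlaceOf_mul_left_eq_comap` : left translation by `σ` is the natural action on places.
* `placeOf_mul_left_asIdeal` : the same for the finite places `helper4727.placeOf`.
* `finrank_ker_aeval_conj`, `finrank_ker_aeval_funLeft_of_equiv` : transport of
  `dim ker φ(a • perm)` along an equivariant bijection; sum form.
-/
import Mathlib
import Fermat.Prelude.Def_GaloisRep_ComplexConjugation
import Fermat.Agent.S55.helper4727_Places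

set_option autoImplicit false
set_option linter.style.haveILetI false

namespace Fermat.Agent.S56.helper4713

open scoped Pointwise NumberField
open NumberField IsDedekindDomain

local notation "Qb" => AlgebraicClosure ℚ
local notation "GQ" => (AlgebraicClosure ℚ ≃ₐ[ℚ] AlgebraicClosure ℚ)

/-! ## Infinite places of `F ≤ ℚ̄` and double cosets `G_F \ G_ℚ / ⟨c⟩` -/

section Infinite

variable (F : IntermediateField ℚ Qb)

/-- The complex embedding of `F` attached to `g ∈ G_ℚ`: `x ↦ complexEmbedding (g⁻¹ x)`. -/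
noncomputable def infEmb (g : GQ) : ↥F →+* ℂ :=
  (complexEmbedding : Qb →+* ℂ).comp
    ((((g⁻¹ : GQ) : Qb ≃+* Qb) : Qb →+* Qb).comp (algebraMap ↥F Qb))

theorem infEmb_apply (g : GQ) (x : ↥F) :
    infEmb F g x = complexEmbedding ((g⁻¹ : GQ) (x : Qb)) := rfl

/-- The infinite place of `F` attached to `g ∈ G_ℚ`. -/
noncomputable def infPlaceOf (g : GQ) : InfinitePlace ↥F := InfinitePlace.mk (infEmb F g)

theorem infPlaceOf_apply (g : GQ) (x : ↥F) :
    infPlaceOf F g x = ‖complexEmbedding ((g⁻¹ : GQ) (x : Qb))‖ :=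
  InfinitePlace.apply (infEmb F g) x

theorem complexEmbedding_injective : Function.Injective (complexEmbedding : Qb → ℂ) :=
  (complexEmbedding : Qb →+* ℂ).injective

/-- Left translation by `Gal(ℚ̄/F)` does not change the embedding. -/
theorem infEmb_mul_left (h : GQ) (hh : h ∈ F.fixingSubgroup) (g : GQ) :
    infEmb F (h * g) = infEmb F g := by
  ext x
  rw [infEmb_apply, infEmb_apply, mul_inv_rev, AlgEquiv.mul_apply]
  have hfix : (h⁻¹ : GQ) (x : Qb) = (x : Qb) :=
    (IntermediateField.mem_fixingSubgroup_iff F h⁻¹).1 (F.fixingSubgroup.inv_mem hh) _ x.2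
  rw [hfix]

/-- Left translation by `Gal(ℚ̄/F)` does not change the infinite place. -/
theorem infPlaceOf_mul_left (h : GQ) (hh : h ∈ F.fixingSubgroup) (g : GQ) :
    infPlaceOf F (h * g) = infPlaceOf F g := by
  unfold infPlaceOf
  rw [infEmb_mul_left F h hh g]

/-- Right translation by complex conjugation conjugates the embedding. -/
theorem infEmb_mul_conj (g : GQ) :
    infEmb F (g * complexConjugation) = ComplexEmbedding.conjugate (infEmb F g) := by
  ext x
  rw [ComplexEmbedding.conjugate_coe_eq, infEmb_apply, infEmb_apply, mul_inv_rev,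
    AlgEquiv.mul_apply, complexConjugation_inv, complexEmbedding_complexConjugation]

/-- Right translation by complex conjugation does not change the infinite place. -/
theorem infPlaceOf_mul_conj (g : GQ) :
    infPlaceOf F (g * complexConjugation) = infPlaceOf F g := by
  unfold infPlaceOf
  rw [infEmb_mul_conj, InfinitePlace.mk_conjugate_eq]

theorem mem_archimedeanDecomposition_iff (d : GQ) :
    d ∈ ExtCitation.archimedeanDecomposition ↔ d = 1 ∨ d = complexConjugation := by
  constructor
  · intro hd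
    obtain ⟨k, rfl⟩ := Subgroup.mem_zpowers_iff.1 hd
    rcases Int.even_or_odd' k with ⟨m, rfl | rfl⟩
    · left
      rw [zpow_mul, zpow_ofNat, complexConjugation_sq, one_zpow]
    · right
      rw [zpow_add, zpow_mul, zpow_ofNat, complexConjugation_sq, one_zpow, one_mul, zpow_one]
  · rintro (rfl | rfl)
    · exact Subgroup.one_mem _
    · exact Subgroup.mem_zpowers _

/-- Right translation by the archimedean decomposition group does not change the place. -/
theorem infPlaceOf_mul_right (g d : GQ) (hd : d ∈ ExtCitation.archimedeanDecomposition) :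
    infPlaceOf F (g * d) = infPlaceOf F g := by
  rcases (mem_archimedeanDecomposition_iff d).1 hd with rfl | rfl
  · rw [mul_one]
  · exact infPlaceOf_mul_conj F g

/-- **Injectivity on double cosets**: two elements of `G_ℚ` define the same infinite place of
`F` iff they lie in the same double coset `Gal(ℚ̄/F) \ G_ℚ / ⟨c⟩`. -/
theorem infPlaceOf_eq_iff (g g' : GQ) :
    infPlaceOf F g = infPlaceOf F g' ↔
      ∃ h ∈ F.fixingSubgroup, ∃ d ∈ ExtCitation.archimedeanDecomposition, g' = h * g * d := by
  constructor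
  · intro hgg
    rcases InfinitePlace.mk_eq_iff.1 hgg with h1 | h1
    · refine ⟨g' * g⁻¹, ?_, 1, Subgroup.one_mem _, by group⟩
      rw [IntermediateField.mem_fixingSubgroup_iff]
      intro x hx
      have h2 := congrArg (fun φ : ↥F →+* ℂ => φ ⟨x, hx⟩) h1
      simp only [infEmb_apply] at h2
      have h3 : (g⁻¹ : GQ) x = (g'⁻¹ : GQ) x := complexEmbedding_injective h2
      change (g' * g⁻¹) x = x
      rw [AlgEquiv.mul_apply, h3]
      exact AlgEquiv.apply_symm_apply g' x
    · refine ⟨g' * complexConjugation * g⁻¹, ?_, complexConjugation, Subgroup.mem_zpowers _, ?_⟩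
      · rw [IntermediateField.mem_fixingSubgroup_iff]
        intro x hx
        have h2 := congrArg (fun φ : ↥F →+* ℂ => φ ⟨x, hx⟩) h1
        simp only [ComplexEmbedding.conjugate_coe_eq, infEmb_apply] at h2
        rw [← complexEmbedding_complexConjugation] at h2
        have h3 : complexConjugation ((g⁻¹ : GQ) x) = (g'⁻¹ : GQ) x :=
          complexEmbedding_injective h2
        change (g' * complexConjugation * g⁻¹) x = x
        rw [AlgEquiv.mul_apply, AlgEquiv.mul_apply, h3]
        exact AlgEquiv.apply_symm_apply g' x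
      · have hc : complexConjugation * complexConjugation = 1 := complexConjugation_mul_self
        calc g' = g' * (complexConjugation * complexConjugation) := by rw [hc, mul_one]
          _ = g' * complexConjugation * g⁻¹ * g * complexConjugation := by group
  · rintro ⟨h, hh, d, hd, rfl⟩
    rw [infPlaceOf_mul_right F _ d hd, infPlaceOf_mul_left F h hh]

/-- **Surjectivity**: every infinite place of `F` is attached to some `g ∈ G_ℚ`. -/
theorem infPlaceOf_surjective (w : InfinitePlace ↥F) : ∃ g : GQ, infPlaceOf F g = w := by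
  classical
  -- extend the embedding of `w` to `ℚ̄`
  letI algFC : Algebra ↥F ℂ := w.embedding.toAlgebra
  haveI : Algebra.IsAlgebraic ℚ Qb := AlgebraicClosure.isAlgebraic ℚ
  haveI : Algebra.IsAlgebraic ↥F Qb := Algebra.IsAlgebraic.tower_top (K := ℚ) ↥F
  let ι' : Qb →ₐ[↥F] ℂ := IsAlgClosed.lift
  let ι'' : Qb →ₐ[ℚ] ℂ := (ι' : Qb →+* ℂ).toRatAlgHom
  letI : Algebra Qb ℂ := complexEmbedding.toRingHom.toAlgebra
  haveI : IsScalarTower ℚ Qb ℂ := IsScalarTower.of_algebraMap_eq' (Subsingleton.elim _ _)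
  haveI : IsAlgClosure ℚ Qb := ⟨inferInstance, inferInstance⟩
  haveI : Normal ℚ Qb := IsAlgClosure.normal ℚ Qb
  let ρ : Qb →ₐ[ℚ] Qb := ι''.restrictNormal Qb
  have hρ : ∀ y : Qb, complexEmbedding (ρ y) = ι' y := fun y =>
    ι''.restrictNormal_commutes Qb y
  have hbij : Function.Bijective ρ := Algebra.IsAlgebraic.algHom_bijective ρ
  let τ : GQ := (AlgEquiv.ofBijective ρ hbij).symm
  refine ⟨τ, ?_⟩
  rw [← InfinitePlace.mk_embedding w]
  unfold infPlaceOf
  congr 1
  ext x
  rw [infEmb_apply]
  have h1 : (τ⁻¹ : GQ) (x : Qb) = ρ (x : Qb) := rfl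
  rw [h1, hρ]
  exact ι'.commutes x

/-- **The infinite places of `F` are the double cosets `Gal(ℚ̄/F) \ G_ℚ / ⟨c⟩`**, with `c` the
frozen complex conjugation. -/
noncomputable def infPlacesEquiv :
    DoubleCoset.Quotient (F.fixingSubgroup : Set GQ)
        (ExtCitation.archimedeanDecomposition : Set GQ) ≃ InfinitePlace ↥F :=
  Equiv.ofBijective
    (Quotient.lift (fun g => infPlaceOf F g)
      (fun g g' hgg => (infPlaceOf_eq_iff F g g').2 (DoubleCoset.rel_iff.1 hgg)))
    (by
      constructor
      · intro x y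
        induction x using Quotient.inductionOn with
        | _ g =>
          induction y using Quotient.inductionOn with
          | _ g' =>
            intro hxy
            apply Quotient.sound
            exact DoubleCoset.rel_iff.2 ((infPlaceOf_eq_iff F g g').1 hxy)
      · intro w
        obtain ⟨g, hg⟩ := infPlaceOf_surjective F w
        exact ⟨Quotient.mk _ g, hg⟩)

@[simp]
theorem infPlacesEquiv_mk (g : GQ) :
    infPlacesEquiv F
      (DoubleCoset.mk F.fixingSubgroup ExtCitation.archimedeanDecomposition g) =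
      infPlaceOf F g := rfl

/-- **Counting form**: the number of double cosets `Gal(ℚ̄/F) \ G_ℚ / ⟨c⟩` is the number of
infinite places of `F`. -/
theorem card_doubleCoset_inf :
    Nat.card (DoubleCoset.Quotient (F.fixingSubgroup : Set GQ)
        (ExtCitation.archimedeanDecomposition : Set GQ)) = Nat.card (InfinitePlace ↥F) :=
  Nat.card_congr (infPlacesEquiv F)

/-- The place attached to `g` is real iff `g c g⁻¹` fixes `F`. -/
theorem isReal_infPlaceOf_iff (g : GQ) :
    (infPlaceOf F g).IsReal ↔ g * complexConjugation * g⁻¹ ∈ F.fixingSubgroup := by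
  unfold infPlaceOf
  rw [InfinitePlace.isReal_mk_iff, ComplexEmbedding.isReal_iff,
    IntermediateField.mem_fixingSubgroup_iff]
  constructor
  · intro h x hx
    have h2 := congrArg (fun φ : ↥F →+* ℂ => φ ⟨x, hx⟩) h
    simp only [ComplexEmbedding.conjugate_coe_eq, infEmb_apply] at h2
    rw [← complexEmbedding_complexConjugation] at h2
    have h3 : complexConjugation ((g⁻¹ : GQ) x) = (g⁻¹ : GQ) x :=
      complexEmbedding_injective h2
    change (g * complexConjugation * g⁻¹) x = x
    rw [AlgEquiv.mul_apply, AlgEquiv.mul_apply, h3]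
    exact AlgEquiv.apply_symm_apply g x
  · intro h
    ext x
    rw [ComplexEmbedding.conjugate_coe_eq, infEmb_apply, ← complexEmbedding_complexConjugation]
    congr 1
    have h2 : g (complexConjugation ((g⁻¹ : GQ) (x : Qb))) = (x : Qb) := h x x.2
    calc complexConjugation ((g⁻¹ : GQ) (x : Qb))
        = (g⁻¹ : GQ) (g (complexConjugation ((g⁻¹ : GQ) (x : Qb)))) :=
          (AlgEquiv.symm_apply_apply g _).symm
      _ = (g⁻¹ : GQ) (x : Qb) := by rw [h2]

/-! ### Equivariance: left translation by `σ` is the natural action on infinite places -/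

section Equivariance

variable {Γ : Type*} [Group Γ] [MulSemiringAction Γ ↥F]

theorem coe_inv_smul_eq (γ : Γ) (σ : GQ) (hγ : ∀ x : ↥F, ((γ • x : ↥F) : Qb) = σ (x : Qb))
    (x : ↥F) : ((γ⁻¹ • x : ↥F) : Qb) = (σ⁻¹ : GQ) (x : Qb) := by
  have h1 := hγ (γ⁻¹ • x)
  rw [smul_inv_smul] at h1
  rw [h1]
  exact (AlgEquiv.symm_apply_apply σ _).symm

theorem infEmb_mul_left_eq_comp (γ : Γ) (σ : GQ)
    (hγ : ∀ x : ↥F, ((γ • x : ↥F) : Qb) = σ (x : Qb)) (g : GQ) :
    infEmb F (σ * g) = (infEmb F g).comp (MulSemiringAction.toRingHom Γ ↥F γ⁻¹) := by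
  ext x
  rw [RingHom.comp_apply, infEmb_apply, infEmb_apply, mul_inv_rev, AlgEquiv.mul_apply,
    MulSemiringAction.toRingHom_apply, coe_inv_smul_eq F γ σ hγ x]

/-- **Equivariance of the infinite-place dictionary.**  If `γ` acts on `F` as `σ ∈ G_ℚ` does,
then `infPlaceOf F (σ * g)` is the translate `w ↦ w ∘ γ⁻¹` of `infPlaceOf F g`
(this is `helper4029.infAct γ (infPlaceOf F g)` by `rfl`). -/
theorem infPlaceOf_mul_left_eq_comap (γ : Γ) (σ : GQ)
    (hγ : ∀ x : ↥F, ((γ • x : ↥F) : Qb) = σ (x : Qb)) (g : GQ) :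
    infPlaceOf F (σ * g) =
      (infPlaceOf F g).comap (MulSemiringAction.toRingHom Γ ↥F γ⁻¹) := by
  unfold infPlaceOf
  rw [InfinitePlace.comap_mk, infEmb_mul_left_eq_comp F γ σ hγ g]

end Equivariance

end Infinite

/-! ## Finite places: equivariance of `helper4727.placeOf` -/

section Finite

open Fermat.Agent.S55 Fermat.Agent.Lib.helper54

attribute [local instance] numberField_intermediate

variable (q : ℕ) [Fact q.Prime] (F : IntermediateField ℚ Qb) [FiniteDimensional ℚ F]

/-- Elementwise equivariance of the finite-place dictionary. -/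
theorem mem_placeOf_mul_left_iff (σ g : GQ) (a b : 𝓞 F)
    (hab : algebraMap F Qb (b : F) = (σ⁻¹ : GQ) (algebraMap F Qb (a : F))) :
    a ∈ (helper4727.placeOf q F (σ * g)).asIdeal ↔ b ∈ (helper4727.placeOf q F g).asIdeal := by
  rw [helper4727.mem_placeOf_asIdeal, helper4727.mem_placeOf_asIdeal, hab, mul_inv_rev,
    AlgEquiv.mul_apply]

/-- **Equivariance of the finite-place dictionary.**  If `γ` acts on `F` as `σ ∈ G_ℚ` does, then
the prime attached to `σ * g` is the translate `γ • 𝔭` of the prime attached to `g`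
(this is `helper4029.finAct γ (placeOf q F g)` by `rfl` on `asIdeal`). -/
theorem placeOf_mul_left_asIdeal {Γ : Type*} [Group Γ] [MulSemiringAction Γ ↥F] (γ : Γ) (σ : GQ)
    (hγ : ∀ x : ↥F, ((γ • x : ↥F) : Qb) = σ (x : Qb)) (g : GQ) :
    (helper4727.placeOf q F (σ * g)).asIdeal = γ • (helper4727.placeOf q F g).asIdeal := by
  ext a
  rw [Ideal.mem_pointwise_smul_iff_inv_smul_mem]
  apply mem_placeOf_mul_left_iff
  exact coe_inv_smul_eq F γ σ hγ (a : F)

end Finite

/-! ## Transport of `dim ker φ(a • perm)` along equivariant maps -/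

section Transport

open Module

variable {k : Type*} [Field k]

section Abstract

variable {V W : Type*} [AddCommGroup V] [Module k V] [AddCommGroup W] [Module k W]

theorem pow_intertwine (R : V →ₗ[k] W) (T : Module.End k V) (T' : Module.End k W)
    (h : ∀ v, R (T v) = T' (R v)) (n : ℕ) (v : V) : R ((T ^ n) v) = (T' ^ n) (R v) := by
  induction n generalizing v with
  | zero => simp
  | succ n ih => rw [pow_succ, pow_succ, Module.End.mul_apply, Module.End.mul_apply, ih, h]

/-- An intertwiner of two endomorphisms intertwines every polynomial in them. -/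
theorem aeval_intertwine (R : V →ₗ[k] W) (T : Module.End k V) (T' : Module.End k W)
    (h : ∀ v, R (T v) = T' (R v)) (φ : Polynomial k) (v : V) :
    R (Polynomial.aeval T φ v) = Polynomial.aeval T' φ (R v) := by
  induction φ using Polynomial.induction_on' with
  | add p q hp hq =>
    rw [map_add, map_add, LinearMap.add_apply, LinearMap.add_apply, map_add, hp, hq]
  | monomial n c =>
    rw [Polynomial.aeval_monomial, Polynomial.aeval_monomial, Module.End.mul_apply,
      Module.End.mul_apply, Module.algebraMap_end_apply, Module.algebraMap_end_apply, map_smul,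
      pow_intertwine R T T' h]

/-- Conjugate endomorphisms have kernels of the same dimension for every polynomial. -/
theorem finrank_ker_aeval_conj (E : V ≃ₗ[k] W) (T : Module.End k V) (T' : Module.End k W)
    (h : ∀ v, E (T v) = T' (E v)) (φ : Polynomial k) :
    finrank k (LinearMap.ker (Polynomial.aeval T φ)) =
      finrank k (LinearMap.ker (Polynomial.aeval T' φ)) := by
  have hker : LinearMap.ker (Polynomial.aeval T' φ) =
      (LinearMap.ker (Polynomial.aeval T φ)).map (E : V →ₗ[k] W) := by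
    ext w
    rw [Submodule.mem_map_equiv, LinearMap.mem_ker, LinearMap.mem_ker]
    have h1 := aeval_intertwine (E : V →ₗ[k] W) T T' h φ (E.symm w)
    simp only [LinearEquiv.coe_coe, LinearEquiv.apply_symm_apply] at h1
    rw [← h1]
    exact (LinearEquiv.map_eq_zero_iff E)
  rw [hker, LinearEquiv.finrank_map_eq]

end Abstract

/-- **(KD)** Transport along an equivariant bijection: if `e (s x) = t (e x)` then
`a • (f ↦ f ∘ s)` on `X → k` and `a • (f ↦ f ∘ t)` on `Y → k` have kernels of the same
dimension for every polynomial. -/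
theorem finrank_ker_aeval_funLeft_of_equiv {X Y : Type*} (e : X ≃ Y) (s : X → X) (t : Y → Y)
    (h : ∀ x, e (s x) = t (e x)) (a : k) (φ : Polynomial k) :
    finrank k (LinearMap.ker (Polynomial.aeval (a • LinearMap.funLeft k k s) φ)) =
      finrank k (LinearMap.ker (Polynomial.aeval (a • LinearMap.funLeft k k t) φ)) := by
  apply finrank_ker_aeval_conj (LinearEquiv.funCongrLeft k k e.symm)
  intro f
  funext y
  have h1 : s (e.symm y) = e.symm (t y) := by
    apply e.injective
    rw [h, e.apply_symm_apply, e.apply_symm_apply]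
  simp only [LinearEquiv.funCongrLeft_apply, LinearMap.smul_apply, LinearMap.funLeft_apply,
    Pi.smul_apply, h1]

/-- Permutation form of `finrank_ker_aeval_funLeft_of_equiv` (the operators are
`f ↦ f ∘ s⁻¹`, `f ↦ f ∘ t⁻¹`, i.e. the permutation representations). -/
theorem finrank_ker_aeval_funLeft_symm_of_equiv {X Y : Type*} (e : X ≃ Y) (s : Equiv.Perm X)
    (t : Equiv.Perm Y) (h : ∀ x, e (s x) = t (e x)) (a : k) (φ : Polynomial k) :
    finrank k (LinearMap.ker (Polynomial.aeval (a • LinearMap.funLeft k k ⇑s.symm) φ)) =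
      finrank k (LinearMap.ker (Polynomial.aeval (a • LinearMap.funLeft k k ⇑t.symm) φ)) := by
  apply finrank_ker_aeval_funLeft_of_equiv e
  intro x
  apply t.injective
  rw [Equiv.apply_symm_apply, ← h, Equiv.apply_symm_apply]

/-- **Sigma form**: on a disjoint union the kernel dimensions add. -/
theorem finrank_ker_aeval_funLeft_sigma {ι : Type*} [Fintype ι] {Z : ι → Type*}
    [∀ i, Finite (Z i)] (s : ∀ i, Z i → Z i) (a : k) (φ : Polynomial k) :
    finrank k (LinearMap.ker
        (Polynomial.aeval (a • LinearMap.funLeft k k (Sigma.map id s)) φ)) =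
      ∑ i, finrank k (LinearMap.ker (Polynomial.aeval (a • LinearMap.funLeft k k (s i)) φ)) := by
  classical
  set T : Module.End k ((Σ i, Z i) → k) := a • LinearMap.funLeft k k (Sigma.map id s) with hT
  set Ti : ∀ i, Module.End k (Z i → k) := fun i => a • LinearMap.funLeft k k (s i) with hTi
  let R : ∀ i, ((Σ i, Z i) → k) →ₗ[k] (Z i → k) := fun i => LinearMap.funLeft k k (Sigma.mk i)
  have hR : ∀ i f, R i (T f) = Ti i (R i f) := by
    intro i f
    funext x
    simp [R, hT, hTi, LinearMap.funLeft_apply, Sigma.map]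
  have hint : ∀ i f, R i (Polynomial.aeval T φ f) = Polynomial.aeval (Ti i) φ (R i f) :=
    fun i f => aeval_intertwine (R i) T (Ti i) (hR i) φ f
  let Φ : ↥(LinearMap.ker (Polynomial.aeval T φ)) ≃ₗ[k]
      (∀ i, ↥(LinearMap.ker (Polynomial.aeval (Ti i) φ))) :=
    { toFun := fun f i => ⟨R i f.1, by
        rw [LinearMap.mem_ker, ← hint i f.1, LinearMap.mem_ker.1 f.2, map_zero]⟩
      map_add' := fun f g => by
        funext i
        apply Subtype.ext
        simp
      map_smul' := fun c f => by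
        funext i
        apply Subtype.ext
        simp
      invFun := fun g => ⟨fun x => (g x.1).1 x.2, by
        rw [LinearMap.mem_ker]
        funext x
        obtain ⟨i, z⟩ := x
        have h1 := congrFun (hint i (fun x => (g x.1).1 x.2)) z
        have h2 : R i (fun x : Σ i, Z i => (g x.1).1 x.2) = (g i).1 := by
          funext z'
          rfl
        rw [h2, LinearMap.mem_ker.1 (g i).2] at h1
        exact h1⟩
      left_inv := fun f => by
        apply Subtype.ext
        funext x
        obtain ⟨i, z⟩ := x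
        rfl
      right_inv := fun g => by
        funext i
        apply Subtype.ext
        funext z
        rfl }
  rw [LinearEquiv.finrank_eq Φ, Module.finrank_pi_fintype]

/-- **Sum form**: on `X ⊕ Y` the kernel dimensions add. -/
theorem finrank_ker_aeval_funLeft_sum {X Y : Type*} [Finite X] [Finite Y] (s : X → X)
    (t : Y → Y) (a : k) (φ : Polynomial k) :
    finrank k (LinearMap.ker (Polynomial.aeval (a • LinearMap.funLeft k k (Sum.map s t)) φ)) =
      finrank k (LinearMap.ker (Polynomial.aeval (a • LinearMap.funLeft k k s) φ)) +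
        finrank k (LinearMap.ker (Polynomial.aeval (a • LinearMap.funLeft k k t) φ)) := by
  classical
  set T : Module.End k ((X ⊕ Y) → k) := a • LinearMap.funLeft k k (Sum.map s t) with hT
  set T₁ : Module.End k (X → k) := a • LinearMap.funLeft k k s with hT₁
  set T₂ : Module.End k (Y → k) := a • LinearMap.funLeft k k t with hT₂
  let R₁ : ((X ⊕ Y) → k) →ₗ[k] (X → k) := LinearMap.funLeft k k Sum.inl
  let R₂ : ((X ⊕ Y) → k) →ₗ[k] (Y → k) := LinearMap.funLeft k k Sum.inr
  have hR₁ : ∀ f, R₁ (T f) = T₁ (R₁ f) := by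
    intro f
    funext x
    simp [R₁, hT, hT₁, LinearMap.funLeft_apply]
  have hR₂ : ∀ f, R₂ (T f) = T₂ (R₂ f) := by
    intro f
    funext x
    simp [R₂, hT, hT₂, LinearMap.funLeft_apply]
  have hint₁ : ∀ f, R₁ (Polynomial.aeval T φ f) = Polynomial.aeval T₁ φ (R₁ f) :=
    fun f => aeval_intertwine R₁ T T₁ hR₁ φ f
  have hint₂ : ∀ f, R₂ (Polynomial.aeval T φ f) = Polynomial.aeval T₂ φ (R₂ f) :=
    fun f => aeval_intertwine R₂ T T₂ hR₂ φ f
  let Φ : ↥(LinearMap.ker (Polynomial.aeval T φ)) ≃ₗ[k]
      (↥(LinearMap.ker (Polynomial.aeval T₁ φ)) × ↥(LinearMap.ker (Polynomial.aeval T₂ φ))) :=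
    { toFun := fun f =>
        (⟨R₁ f.1, by rw [LinearMap.mem_ker, ← hint₁ f.1, LinearMap.mem_ker.1 f.2, map_zero]⟩,
         ⟨R₂ f.1, by rw [LinearMap.mem_ker, ← hint₂ f.1, LinearMap.mem_ker.1 f.2, map_zero]⟩)
      map_add' := fun f g => by
        apply Prod.ext <;> apply Subtype.ext <;> simp
      map_smul' := fun c f => by
        apply Prod.ext <;> apply Subtype.ext <;> simp
      invFun := fun g => ⟨Sum.elim g.1.1 g.2.1, by
        rw [LinearMap.mem_ker]
        funext x
        rcases x with x | y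
        · have h1 := congrFun (hint₁ (Sum.elim g.1.1 g.2.1)) x
          have h2 : R₁ (Sum.elim g.1.1 g.2.1) = g.1.1 := by
            funext z
            rfl
          rw [h2, LinearMap.mem_ker.1 g.1.2] at h1
          exact h1
        · have h1 := congrFun (hint₂ (Sum.elim g.1.1 g.2.1)) y
          have h2 : R₂ (Sum.elim g.1.1 g.2.1) = g.2.1 := by
            funext z
            rfl
          rw [h2, LinearMap.mem_ker.1 g.2.2] at h1
          exact h1⟩
      left_inv := fun f => by
        apply Subtype.ext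
        funext x
        rcases x with x | y <;> rfl
      right_inv := fun g => by
        apply Prod.ext <;> apply Subtype.ext <;> funext z <;> rfl }
  rw [LinearEquiv.finrank_eq Φ, Module.finrank_prod]

end Transport

/-! ## Left translation on double cosets `U \ G / D`, `U` normal -/

section DoubleCosetLeft

variable {G : Type*} [Group G] (U D : Subgroup G) [hU : U.Normal]

/-- Left translation by `σ` on `U \ G / D` (`U` normal). -/
def dcMulLeft (σ : G) :
    DoubleCoset.Quotient (U : Set G) (D : Set G) → DoubleCoset.Quotient (U : Set G) (D : Set G) :=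
  Quotient.map (fun g => σ * g) (by
    intro g g' hgg
    obtain ⟨u, hu, d, hd, rfl⟩ := DoubleCoset.rel_iff.1 hgg
    exact DoubleCoset.rel_iff.2 ⟨σ * u * σ⁻¹, hU.conj_mem u hu σ, d, hd, by group⟩)

@[simp]
theorem dcMulLeft_mk (σ g : G) :
    dcMulLeft U D σ (DoubleCoset.mk U D g) = DoubleCoset.mk U D (σ * g) := rfl

theorem dcMulLeft_one (x : DoubleCoset.Quotient (U : Set G) (D : Set G)) :
    dcMulLeft U D 1 x = x := by
  induction x using Quotient.inductionOn with
  | _ g =>
    change dcMulLeft U D 1 (DoubleCoset.mk U D g) = DoubleCoset.mk U D g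
    rw [dcMulLeft_mk, one_mul]

theorem dcMulLeft_mul (σ τ : G) (x : DoubleCoset.Quotient (U : Set G) (D : Set G)) :
    dcMulLeft U D (σ * τ) x = dcMulLeft U D σ (dcMulLeft U D τ x) := by
  induction x using Quotient.inductionOn with
  | _ g =>
    change dcMulLeft U D (σ * τ) (DoubleCoset.mk U D g) =
      dcMulLeft U D σ (dcMulLeft U D τ (DoubleCoset.mk U D g))
    rw [dcMulLeft_mk, dcMulLeft_mk, dcMulLeft_mk, mul_assoc]

/-- Left translation by `σ` on `U \ G / D` as a permutation. -/
def dcMulLeftPerm (σ : G) : Equiv.Perm (DoubleCoset.Quotient (U : Set G) (D : Set G)) where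
  toFun := dcMulLeft U D σ
  invFun := dcMulLeft U D σ⁻¹
  left_inv x := by rw [← dcMulLeft_mul, inv_mul_cancel, dcMulLeft_one]
  right_inv x := by rw [← dcMulLeft_mul, mul_inv_cancel, dcMulLeft_one]

@[simp]
theorem dcMulLeftPerm_apply (σ : G) (x : DoubleCoset.Quotient (U : Set G) (D : Set G)) :
    dcMulLeftPerm U D σ x = dcMulLeft U D σ x := rfl

theorem dcMulLeftPerm_mk (σ g : G) :
    dcMulLeftPerm U D σ (DoubleCoset.mk U D g) = DoubleCoset.mk U D (σ * g) := rfl

end DoubleCosetLeft

/-! ## The assembled dictionary: kernel dimensions on double cosets = on places -/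

section Assembled

open Module Fermat.Agent.S55 Fermat.Agent.Lib.helper54

attribute [local instance] numberField_intermediate

variable {k : Type*} [Field k]
variable (F : IntermediateField ℚ Qb) [hFn : F.fixingSubgroup.Normal]
variable {Γ : Type*} [Group Γ] [MulSemiringAction Γ ↥F]

/-- Equivariance of `infPlacesEquiv` for the left translation on double cosets. -/
theorem infPlacesEquiv_dcMulLeft (γ : Γ) (σ : GQ)
    (hγ : ∀ x : ↥F, ((γ • x : ↥F) : Qb) = σ (x : Qb))
    (x : DoubleCoset.Quotient (F.fixingSubgroup : Set GQ)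
      (ExtCitation.archimedeanDecomposition : Set GQ)) :
    infPlacesEquiv F (dcMulLeft F.fixingSubgroup ExtCitation.archimedeanDecomposition σ x) =
      (infPlacesEquiv F x).comap (MulSemiringAction.toRingHom Γ ↥F γ⁻¹) := by
  induction x using Quotient.inductionOn with
  | _ g => exact infPlaceOf_mul_left_eq_comap F γ σ hγ g

/-- **(KD-inf)** `dim ker φ(a • perm_σ)` on functions on `G_F \ G_ℚ / ⟨c⟩` equals the same on
functions on `InfinitePlace F`, for any permutation `π` of the infinite places that is the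
natural action of `γ` (e.g. `helper4029.infEquiv γ`, `hπ := fun _ => rfl`). -/
theorem finrank_ker_aeval_dcInf (γ : Γ) (σ : GQ)
    (hγ : ∀ x : ↥F, ((γ • x : ↥F) : Qb) = σ (x : Qb))
    (π : Equiv.Perm (InfinitePlace ↥F))
    (hπ : ∀ w, π w = w.comap (MulSemiringAction.toRingHom Γ ↥F γ⁻¹))
    (a : k) (φ : Polynomial k) :
    finrank k (LinearMap.ker (Polynomial.aeval (a • LinearMap.funLeft k k
        ⇑(dcMulLeftPerm F.fixingSubgroup ExtCitation.archimedeanDecomposition σ).symm) φ)) =
      finrank k (LinearMap.ker (Polynomial.aeval (a • LinearMap.funLeft k k ⇑π.symm) φ)) := by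
  apply finrank_ker_aeval_funLeft_symm_of_equiv (infPlacesEquiv F)
  intro x
  rw [hπ, dcMulLeftPerm_apply, infPlacesEquiv_dcMulLeft F γ σ hγ x]

variable [FiniteDimensional ℚ F]

/-- Equivariance of `helper4727.placesEquiv` for the left translation on double cosets. -/
theorem placesEquiv_dcMulLeft (q : ℕ) [Fact q.Prime] (γ : Γ) (σ : GQ)
    (hγ : ∀ x : ↥F, ((γ • x : ↥F) : Qb) = σ (x : Qb))
    (x : DoubleCoset.Quotient (F.fixingSubgroup : Set GQ)
      ((padicPlace q).decompositionSubgroup ℚ : Set GQ)) :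
    (helper4727.placesEquiv q F
        (dcMulLeft F.fixingSubgroup ((padicPlace q).decompositionSubgroup ℚ) σ x)).1.asIdeal =
      γ • (helper4727.placesEquiv q F x).1.asIdeal := by
  induction x using Quotient.inductionOn with
  | _ g => exact placeOf_mul_left_asIdeal q F γ σ hγ g

/-- **(KD-fin)** `dim ker φ(a • perm_σ)` on functions on `G_F \ G_ℚ / D_q` equals the same on
functions on the primes of `𝓞 F` over `q`, for any permutation `π` of these primes that is the
natural action of `γ`. -/
theorem finrank_ker_aeval_dcFin (q : ℕ) [Fact q.Prime] (γ : Γ) (σ : GQ)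
    (hγ : ∀ x : ↥F, ((γ • x : ↥F) : Qb) = σ (x : Qb))
    (π : Equiv.Perm {v : HeightOneSpectrum (𝓞 F) // ((q : ℕ) : 𝓞 F) ∈ v.asIdeal})
    (hπ : ∀ v, (π v).1.asIdeal = γ • v.1.asIdeal)
    (a : k) (φ : Polynomial k) :
    finrank k (LinearMap.ker (Polynomial.aeval (a • LinearMap.funLeft k k
        ⇑(dcMulLeftPerm F.fixingSubgroup ((padicPlace q).decompositionSubgroup ℚ) σ).symm) φ)) =
      finrank k (LinearMap.ker (Polynomial.aeval (a • LinearMap.funLeft k k ⇑π.symm) φ)) := by
  apply finrank_ker_aeval_funLeft_symm_of_equiv (helper4727.placesEquiv q F)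
  intro x
  apply Subtype.ext
  apply HeightOneSpectrum.ext
  rw [hπ, dcMulLeftPerm_apply, placesEquiv_dcMulLeft F q γ σ hγ x]

/-- The double cosets `G_F \ G_ℚ / D_q`, `q ∈ S`, as one type over `S`. -/
abbrev DcS (S : Finset Nat.Primes) (q : ↥S) : Type :=
  DoubleCoset.Quotient (F.fixingSubgroup : Set GQ)
    ((ExtCitation.primeLocalPlace q.1).decompositionSubgroup ℚ : Set GQ)

instance (S : Finset Nat.Primes) (q : ↥S) : Finite (DcS F S q) :=
  haveI : Fact ((q.1 : Nat.Primes) : ℕ).Prime := ⟨q.1.2⟩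
  helper4727.finite_doubleCoset (q.1 : ℕ) F

/-- The prime of `𝓞 F` attached to a double coset over `q ∈ S`. -/
noncomputable def dcSPlace (S : Finset Nat.Primes) (x : Σ q : ↥S, DcS F S q) :
    HeightOneSpectrum (𝓞 F) :=
  haveI : Fact ((x.1.1 : Nat.Primes) : ℕ).Prime := ⟨x.1.1.2⟩
  (helper4727.placesEquiv (x.1.1 : ℕ) F x.2).1

omit hFn in
theorem natCast_mem_dcSPlace (S : Finset Nat.Primes) (x : Σ q : ↥S, DcS F S q) :
    (((x.1.1 : Nat.Primes) : ℕ) : 𝓞 F) ∈ (dcSPlace F S x).asIdeal :=
  haveI : Fact ((x.1.1 : Nat.Primes) : ℕ).Prime := ⟨x.1.1.2⟩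
  (helper4727.placesEquiv (x.1.1 : ℕ) F x.2).2

omit hFn in
theorem dcSPlace_injective (S : Finset Nat.Primes) : Function.Injective (dcSPlace F S) := by
  rintro ⟨q, x⟩ ⟨q', x'⟩ h
  have hq : ((q.1 : Nat.Primes) : ℕ) = ((q'.1 : Nat.Primes) : ℕ) := by
    have h1 := natCast_mem_dcSPlace F S ⟨q, x⟩
    have h2 := natCast_mem_dcSPlace F S ⟨q', x'⟩
    rw [← h] at h2
    exact helper4727.prime_unique_of_mem F _ q.1.2 q'.1.2 h1 h2
  have hqq : q = q' := Subtype.ext (Subtype.ext hq)
  subst hqq
  haveI : Fact ((q.1 : Nat.Primes) : ℕ).Prime := ⟨q.1.2⟩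
  have hx : x = x' := (helper4727.placesEquiv (q.1 : ℕ) F).injective (Subtype.ext h)
  rw [hx]

omit hFn in
theorem dcSPlace_surjective (S : Finset Nat.Primes) (v : HeightOneSpectrum (𝓞 F))
    (hv : ∃ q ∈ S, (((q : Nat.Primes) : ℕ) : 𝓞 F) ∈ v.asIdeal) :
    ∃ x, dcSPlace F S x = v := by
  obtain ⟨q, hq, hqv⟩ := hv
  haveI : Fact ((q : Nat.Primes) : ℕ).Prime := ⟨q.2⟩
  refine ⟨⟨⟨q, hq⟩, (helper4727.placesEquiv (q : ℕ) F).symm ⟨v, hqv⟩⟩, ?_⟩
  change ((helper4727.placesEquiv (q : ℕ) F)
    ((helper4727.placesEquiv (q : ℕ) F).symm ⟨v, hqv⟩)).1 = v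
  rw [Equiv.apply_symm_apply]

/-- Equivariance of `dcSPlace`. -/
theorem dcSPlace_dcMulLeft (S : Finset Nat.Primes) (γ : Γ) (σ : GQ)
    (hγ : ∀ x : ↥F, ((γ • x : ↥F) : Qb) = σ (x : Qb)) (q : ↥S) (x : DcS F S q) :
    (dcSPlace F S ⟨q, dcMulLeft F.fixingSubgroup
        ((ExtCitation.primeLocalPlace q.1).decompositionSubgroup ℚ) σ x⟩).asIdeal =
      γ • (dcSPlace F S ⟨q, x⟩).asIdeal :=
  haveI : Fact ((q.1 : Nat.Primes) : ℕ).Prime := ⟨q.1.2⟩
  placesEquiv_dcMulLeft F (q.1 : ℕ) γ σ hγ x

/-- **(KD-S)** The sum over `q ∈ S` of `dim ker φ(a • perm_σ)` on functions on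
`G_F \ G_ℚ / D_q` equals `dim ker φ(a • perm_γ)` on functions on the primes of `𝓞 F` over `S`
(`T` any finset with the membership property of `helper9292.SF F S`, `π` any permutation of it
which is the natural action of `γ`, e.g. `helper4029.finEquivS hS γ`). -/
theorem sum_finrank_ker_aeval_dcFin (S : Finset Nat.Primes)
    (T : Finset (HeightOneSpectrum (𝓞 F)))
    (hT : ∀ v, v ∈ T ↔ ∃ q ∈ S, (((q : Nat.Primes) : ℕ) : 𝓞 F) ∈ v.asIdeal)
    (γ : Γ) (σ : GQ) (hγ : ∀ x : ↥F, ((γ • x : ↥F) : Qb) = σ (x : Qb))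
    (π : Equiv.Perm ↥T) (hπ : ∀ v : ↥T, (π v).1.asIdeal = γ • v.1.asIdeal)
    (a : k) (φ : Polynomial k) :
    ∑ q ∈ S, finrank k (LinearMap.ker (Polynomial.aeval (a • LinearMap.funLeft k k
        ⇑(dcMulLeftPerm F.fixingSubgroup
          ((ExtCitation.primeLocalPlace q).decompositionSubgroup ℚ) σ).symm) φ)) =
      finrank k (LinearMap.ker (Polynomial.aeval (a • LinearMap.funLeft k k ⇑π.symm) φ)) := by
  classical
  rw [← Finset.sum_coe_sort S]
  rw [← finrank_ker_aeval_funLeft_sigma (Z := DcS F S)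
    (fun q => ⇑(dcMulLeftPerm F.fixingSubgroup
      ((ExtCitation.primeLocalPlace q.1).decompositionSubgroup ℚ) σ).symm) a φ]
  let e : (Σ q : ↥S, DcS F S q) ≃ ↥T :=
    Equiv.ofBijective
      (fun x => ⟨dcSPlace F S x, (hT _).2 ⟨x.1.1, x.1.2, natCast_mem_dcSPlace F S x⟩⟩)
      ⟨fun x y hxy => dcSPlace_injective F S (congrArg Subtype.val hxy),
        fun v => by
          obtain ⟨x, hx⟩ := dcSPlace_surjective F S v.1 ((hT _).1 v.2)
          exact ⟨x, Subtype.ext hx⟩⟩
  apply finrank_ker_aeval_funLeft_of_equiv e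
  rintro ⟨q, x⟩
  apply π.injective
  rw [Equiv.apply_symm_apply]
  apply Subtype.ext
  apply HeightOneSpectrum.ext
  rw [hπ]
  change γ • (dcSPlace F S ⟨q, (dcMulLeftPerm F.fixingSubgroup
      ((ExtCitation.primeLocalPlace q.1).decompositionSubgroup ℚ) σ).symm x⟩).asIdeal =
    (dcSPlace F S ⟨q, x⟩).asIdeal
  rw [← dcSPlace_dcMulLeft F S γ σ hγ q, ← dcMulLeftPerm_apply, Equiv.apply_symm_apply]

/-- **(KD-total)** The whole places side of (H1): `dim ker φ(a • perm_γ)` on functions on
`InfinitePlace F ⊕ T` (`T` the primes of `𝓞 F` over `S`; the permutation is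
`helper4029.placePerm hS γ = Equiv.sumCongr (infEquiv γ) (finEquivS hS γ)`) is the sum of the
double-coset terms `X_inf = G_F \ G_ℚ / ⟨c⟩` and `X_q = G_F \ G_ℚ / D_q`, `q ∈ S`. -/
theorem finrank_ker_aeval_places (S : Finset Nat.Primes)
    (T : Finset (HeightOneSpectrum (𝓞 F)))
    (hT : ∀ v, v ∈ T ↔ ∃ q ∈ S, (((q : Nat.Primes) : ℕ) : 𝓞 F) ∈ v.asIdeal)
    (γ : Γ) (σ : GQ) (hγ : ∀ x : ↥F, ((γ • x : ↥F) : Qb) = σ (x : Qb))
    (πinf : Equiv.Perm (InfinitePlace ↥F))
    (hπinf : ∀ w, πinf w = w.comap (MulSemiringAction.toRingHom Γ ↥F γ⁻¹))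
    (π : Equiv.Perm ↥T) (hπ : ∀ v : ↥T, (π v).1.asIdeal = γ • v.1.asIdeal)
    (a : k) (φ : Polynomial k) :
    finrank k (LinearMap.ker (Polynomial.aeval
        (a • LinearMap.funLeft k k ⇑(Equiv.sumCongr πinf π).symm) φ)) =
      finrank k (LinearMap.ker (Polynomial.aeval (a • LinearMap.funLeft k k
        ⇑(dcMulLeftPerm F.fixingSubgroup ExtCitation.archimedeanDecomposition σ).symm) φ)) +
      ∑ q ∈ S, finrank k (LinearMap.ker (Polynomial.aeval (a • LinearMap.funLeft k k
        ⇑(dcMulLeftPerm F.fixingSubgroup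
          ((ExtCitation.primeLocalPlace q).decompositionSubgroup ℚ) σ).symm) φ)) := by
  have h1 : (⇑(Equiv.sumCongr πinf π).symm : InfinitePlace ↥F ⊕ ↥T → InfinitePlace ↥F ⊕ ↥T) =
      Sum.map ⇑πinf.symm ⇑π.symm := by
    funext x
    rcases x with x | x <;> rfl
  rw [h1, finrank_ker_aeval_funLeft_sum, finrank_ker_aeval_dcInf F γ σ hγ πinf hπinf a φ,
    sum_finrank_ker_aeval_dcFin F S T hT γ σ hγ π hπ a φ]

/-- **(KD-total), carrier-free form** for consumers with their own double-coset shift maps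
(e.g. `helper9859.dcShift K σ D`, with `hs := fun _ _ => rfl`) and their own spelling of the
decomposition groups (`Dinf = Subgroup.zpowers complexConjugation`, `hDinf := rfl`;
`D q = (primeLocalToGlobal q).range`, `hD` = `helper4145.primeLocalToGlobal_range`):
`sinf`, `s q` are ANY maps with `mk g ↦ mk (σ⁻¹ * g)`. -/
theorem finrank_ker_aeval_places' (S : Finset Nat.Primes)
    (T : Finset (HeightOneSpectrum (𝓞 F)))
    (hT : ∀ v, v ∈ T ↔ ∃ q ∈ S, (((q : Nat.Primes) : ℕ) : 𝓞 F) ∈ v.asIdeal)
    (γ : Γ) (σ : GQ) (hγ : ∀ x : ↥F, ((γ • x : ↥F) : Qb) = σ (x : Qb))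
    (πinf : Equiv.Perm (InfinitePlace ↥F))
    (hπinf : ∀ w, πinf w = w.comap (MulSemiringAction.toRingHom Γ ↥F γ⁻¹))
    (π : Equiv.Perm ↥T) (hπ : ∀ v : ↥T, (π v).1.asIdeal = γ • v.1.asIdeal)
    (Dinf : Subgroup GQ) (hDinf : Dinf = ExtCitation.archimedeanDecomposition)
    (D : Nat.Primes → Subgroup GQ)
    (hD : ∀ q, D q = (ExtCitation.primeLocalPlace q).decompositionSubgroup ℚ)
    (sinf : DoubleCoset.Quotient (F.fixingSubgroup : Set GQ) (Dinf : Set GQ) →
      DoubleCoset.Quotient (F.fixingSubgroup : Set GQ) (Dinf : Set GQ))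
    (hsinf : ∀ g, sinf (DoubleCoset.mk F.fixingSubgroup Dinf g) =
      DoubleCoset.mk F.fixingSubgroup Dinf (σ⁻¹ * g))
    (s : ∀ q : Nat.Primes, DoubleCoset.Quotient (F.fixingSubgroup : Set GQ) (D q : Set GQ) →
      DoubleCoset.Quotient (F.fixingSubgroup : Set GQ) (D q : Set GQ))
    (hs : ∀ q g, s q (DoubleCoset.mk F.fixingSubgroup (D q) g) =
      DoubleCoset.mk F.fixingSubgroup (D q) (σ⁻¹ * g))
    (a : k) (φ : Polynomial k) :
    finrank k (LinearMap.ker (Polynomial.aeval
        (a • LinearMap.funLeft k k ⇑(Equiv.sumCongr πinf π).symm) φ)) =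
      finrank k (LinearMap.ker (Polynomial.aeval (a • LinearMap.funLeft k k sinf) φ)) +
      ∑ q ∈ S, finrank k (LinearMap.ker (Polynomial.aeval
        (a • LinearMap.funLeft k k (s q)) φ)) := by
  subst hDinf
  obtain rfl : D = fun q => (ExtCitation.primeLocalPlace q).decompositionSubgroup ℚ :=
    funext hD
  have h1 : sinf =
      ⇑(dcMulLeftPerm F.fixingSubgroup ExtCitation.archimedeanDecomposition σ).symm := by
    funext x
    induction x using Quotient.inductionOn with
    | _ g => exact hsinf g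
  have h2 : ∀ q : Nat.Primes, s q = ⇑(dcMulLeftPerm F.fixingSubgroup
      ((ExtCitation.primeLocalPlace q).decompositionSubgroup ℚ) σ).symm := by
    intro q
    funext x
    induction x using Quotient.inductionOn with
    | _ g => exact hs q g
  rw [h1, Finset.sum_congr rfl (fun q _ => by rw [h2 q])]
  exact finrank_ker_aeval_places F S T hT γ σ hγ πinf hπinf π hπ a φ

end Assembled

end Fermat.Agent.S56.helper4713
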