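/-
S56 (Taylor–Wiles primes), global chain, seam of T1 (H1): the PLACES DICTIONARY in the carrier of
`helper9859_TateCycSpec` (`DC`, `dcShift`, `dcOp`, `decQ`, `decInf`, `kd`, `twist`).
Author: helper4713 (registry row TATE-T1-PLACEDICT).

`kd_dcOp_places` : the double-coset side of `Stmt_H1`,
`kd φ (dcOp K σ decInf p) + ∑ q ∈ S, kd φ (dcOp K σ (decQ q) p)`,
equals `kd φ (twist σ p • perm)` on the functions on `InfinitePlace K ⊕ T`, `T` the primes of
`𝓞 K` over `S`, `perm` the permutation representation of `γ = σ|_K`.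
-/
import Mathlib
import Fermat.Agent.S56.helper4713_PlaceDict
import Fermat.Agent.S56.helper9859_TateCycSpec
import Fermat.Agent.S55.helper4145_Decomp
import Fermat.Agent.S55.helper9292_SelmerDict

set_option autoImplicit false

namespace Fermat.Agent.S56.helper4713

open scoped Pointwise NumberField
open NumberField IsDedekindDomain Module Polynomial ExtCitation
open Fermat.Agent.S55 Fermat.Agent.Lib.helper54 Fermat.Agent.S56.helper9859

attribute [local instance] numberField_intermediate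

local notation "Qb" => AlgebraicClosure ℚ
local notation "GQ" => (AlgebraicClosure ℚ ≃ₐ[ℚ] AlgebraicClosure ℚ)

variable {p : ℕ} [Fact p.Prime] (K : IntermediateField ℚ Qb) [hN : K.fixingSubgroup.Normal]
  [FiniteDimensional ℚ K] {Γ : Type*} [Group Γ] [MulSemiringAction Γ ↥K]

/-- **The places dictionary in the carrier of `TateCycSpec`.**  `T` is any finset of primes of
`𝓞 K` with the membership property of `helper9292.SF K S`; `πinf`, `π` are any permutations
of the infinite places / of `T` which are the natural action of `γ`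
(`helper4029.infEquiv γ`, `helper4029.finEquivS hS γ`, with `fun _ => rfl`). -/
theorem kd_dcOp_places (S : Finset Nat.Primes) (T : Finset (HeightOneSpectrum (𝓞 K)))
    (hT : ∀ v, v ∈ T ↔ ∃ q ∈ S, (((q : Nat.Primes) : ℕ) : 𝓞 K) ∈ v.asIdeal)
    (γ : Γ) (σ : GQ) (hγ : ∀ x : ↥K, ((γ • x : ↥K) : Qb) = σ (x : Qb))
    (πinf : Equiv.Perm (InfinitePlace ↥K))
    (hπinf : ∀ w, πinf w = w.comap (MulSemiringAction.toRingHom Γ ↥K γ⁻¹))
    (π : Equiv.Perm ↥T) (hπ : ∀ v : ↥T, (π v).1.asIdeal = γ • v.1.asIdeal)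
    (φ : (ZMod p)[X]) :
    kd φ (dcOp K σ decInf p) + ∑ q ∈ S, kd φ (dcOp K σ (decQ q) p) =
      kd φ (twist σ p •
        LinearMap.funLeft (ZMod p) (ZMod p) ⇑(Equiv.sumCongr πinf π).symm) :=
  (finrank_ker_aeval_places' K S T hT γ σ hγ πinf hπinf π hπ decInf rfl decQ
    (fun q => helper4145.primeLocalToGlobal_range q)
    (dcShift K σ decInf) (fun _ => rfl) (fun q => dcShift K σ (decQ q)) (fun _ _ => rfl)
    (twist σ p) φ).symm

/-- The same with `T = helper9292.SF K S`. -/
theorem kd_dcOp_places_SF (S : Finset Nat.Primes)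
    (γ : Γ) (σ : GQ) (hγ : ∀ x : ↥K, ((γ • x : ↥K) : Qb) = σ (x : Qb))
    (πinf : Equiv.Perm (InfinitePlace ↥K))
    (hπinf : ∀ w, πinf w = w.comap (MulSemiringAction.toRingHom Γ ↥K γ⁻¹))
    (π : Equiv.Perm ↥(helper9292.SF K S))
    (hπ : ∀ v : ↥(helper9292.SF K S), (π v).1.asIdeal = γ • v.1.asIdeal)
    (φ : (ZMod p)[X]) :
    kd φ (dcOp K σ decInf p) + ∑ q ∈ S, kd φ (dcOp K σ (decQ q) p) =
      kd φ (twist σ p •
        LinearMap.funLeft (ZMod p) (ZMod p) ⇑(Equiv.sumCongr πinf π).symm) :=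
  kd_dcOp_places K S (helper9292.SF K S) (fun _ => helper9292.mem_SF) γ σ hγ πinf hπinf π hπ φ

end Fermat.Agent.S56.helper4713
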