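/-
S56, FLAT-TAMEK0 (helper4753), seventh file: the tame package in carrier-free form
(statement (D) of N2-ASM, `helper2999`): everything is said about elements of `ℚ̄` fixed by
the tame subgroup `J`, with the valuation of the place `P` over `p`.
-/
import Mathlib
import Fermat.Agent.S56.helper4753_TameAdapt

set_option autoImplicit false

namespace Fermat.Agent.S56.helper4753

open Fermat.Agent.Lib.helper54 Fermat.Agent.Lib.helper2489
open Fermat.Agent.S56.helper4188 (IsUnif)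

attribute [local instance] isAlgebraic_Qbar isAlgClosure_Qbar isGalois_Qbar isIntegral_Qbar

local notation "Qb" => AlgebraicClosure ℚ
local notation "GQ" => (AlgebraicClosure ℚ ≃ₐ[ℚ] AlgebraicClosure ℚ)

/-- **(D) The tame data, carrier-free.**  `J ≤ I` a tame subgroup at the place `P` over `p`
fixing a primitive `p`-th root of unity `ζ`.  There are a generator `s` of `I` modulo `J`, a
uniformizer `π` of the fixed field of `J` and `E > 0` with `v (ζ - 1) = v π ^ E`, such that the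
residue classes of the fixed field are `p`-th powers and the tame coefficient `s π / π` has
exact order `(p - 1) * E` in the residue field. -/
theorem exists_tameData {p : ℕ} (hp : p.Prime) {P : ValuationSubring Qb}
    (hP : P.LiesOverPrime p) {J : Subgroup GQ} (h : IsTameSub p P J) {ζ : Qb}
    (hζ : IsPrimitiveRoot ζ p) (hJζ : ∀ σ ∈ J, σ ζ = ζ) :
    ∃ (s : GQ) (E : ℕ) (π : Qb), s ∈ P.inertiaSubgroupIn ℚ ∧
      (∀ σ ∈ P.inertiaSubgroupIn ℚ, ∃ n : ℕ, σ⁻¹ * s ^ n ∈ J) ∧ 0 < E ∧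
      (∀ σ ∈ J, σ π = π) ∧ π ≠ 0 ∧ P.valuation π < 1 ∧
      (∀ x : Qb, (∀ σ ∈ J, σ x = x) → x ≠ 0 →
        ∃ n : ℤ, P.valuation x = P.valuation π ^ n) ∧
      P.valuation (ζ - 1) = P.valuation π ^ E ∧
      (∀ a : Qb, (∀ σ ∈ J, σ a = a) → P.valuation a ≤ 1 →
        ∃ b : Qb, (∀ σ ∈ J, σ b = b) ∧ P.valuation (a - b ^ p) < 1) ∧
      ∀ n : ℕ, P.valuation ((s π / π) ^ n - 1) < 1 ↔ (p - 1) * E ∣ n := by
  have hζK : IsPrimitiveRoot (⟨ζ, mem_fixSub.2 hJζ⟩ : fixSub J) p :=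
    IsPrimitiveRoot.of_map_of_injective (f := (fixSub J).subtype) hζ Subtype.val_injective
  obtain ⟨π, E, t, ht, hπ, hE, hlam, -, -, hgen, -, hcord, -⟩ :=
    h.exists_tame_package hp hP hζK
  refine ⟨t, E, (π : Qb), ht, hgen, hE, mem_fixSub.1 π.2,
    fun h0 => hπ.ne_zero (Subtype.ext h0), hπ.lt_one, ?_, hlam, ?_, ?_⟩
  · intro x hx hx0
    obtain ⟨n, hn⟩ := hπ.exists_zpow ⟨x, mem_fixSub.2 hx⟩ (fun h0 => hx0 (congrArg Subtype.val h0))
    exact ⟨n, hn⟩
  · intro a ha ha1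
    obtain ⟨b, hb⟩ := exists_pow_sub_lt P J hp hP ⟨a, mem_fixSub.2 ha⟩ ha1
    exact ⟨(b : Qb), mem_fixSub.1 b.2, hb⟩
  · intro n
    exact hcord n

end Fermat.Agent.S56.helper4753
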