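import Mathlib
import Fermat.Agent.S56.helper4753_TameAdapt

/-!
# Tame subgroups of finite index, without a level hypothesis (helper4753, FLAT-TAMEK0)

`IsTameSub` (in `helper4753_TameField.lean`) asks that `J` contain the inertia elements fixing a
finite level.  Here only the index is used: `IsTameIdx p P J` says that `J ≤ I` is normalised by
`I` and `[I : J]` is finite and prime to `p`.  The image `G` of `I` in the automorphisms of
`fixSub J` is then a finite group of order dividing `[I : J]`, and the abstract tame layer gives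
a uniformizer `π` of `fixSub J` with `v π ^ e = v p`, `e = |G|`, `e ∣ [I : J]`, `p ∤ e`.

Main consumer shape (`exists_tame_exponent_of_normal`): for `N` normal in the decomposition
group `D` with `p ∤ [D : N]` (the binders of `helper6366.Stmt_FB`), every nonzero `N`-fixed `x`
has `v x ^ e₀ ∈ v p ^ ℤ` for one `e₀` prime to `p`.
-/

set_option autoImplicit false

namespace Fermat.Agent.S56.helper4753

open Fermat.Agent.Lib.helper54 Fermat.Agent.Lib.helper2489
open Fermat.Agent.S56.helper4188 (IsUnif)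

attribute [local instance] isAlgebraic_Qbar isAlgClosure_Qbar isGalois_Qbar isIntegral_Qbar

local notation "Qb" => AlgebraicClosure ℚ
local notation "GQ" => (AlgebraicClosure ℚ ≃ₐ[ℚ] AlgebraicClosure ℚ)

/-- `J` is a subgroup of the inertia group `I` at `P`, normalised by `I`, of finite index prime
to `p` in `I`. -/
structure IsTameIdx (p : ℕ) (P : ValuationSubring Qb) (J : Subgroup GQ) : Prop where
  le : J ≤ P.inertiaSubgroupIn ℚ
  conj : ∀ σ ∈ P.inertiaSubgroupIn ℚ, ∀ τ ∈ J, σ⁻¹ * τ * σ ∈ J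
  index : ¬ p ∣ J.relIndex (P.inertiaSubgroupIn ℚ)

theorem IsTameSub.isTameIdx {p : ℕ} {P : ValuationSubring Qb} {J : Subgroup GQ}
    (h : IsTameSub p P J) (hp : p.Prime) : IsTameIdx p P J :=
  ⟨h.le, h.conj, h.not_dvd_relIndex hp⟩

/-- For `N` normal in the decomposition group `D` at `P` with `p ∤ [D : N]`, the subgroup
`I ⊓ N` of the inertia group has finite index prime to `p` and is normalised by `D`. -/
theorem IsTameIdx.of_normal {p : ℕ} {P : ValuationSubring Qb} (N : Subgroup GQ)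
    (hnorm : (N.subgroupOf (P.decompositionSubgroup ℚ)).Normal)
    (hidx : ¬ p ∣ N.relIndex (P.decompositionSubgroup ℚ)) :
    IsTameIdx p P (P.inertiaSubgroupIn ℚ ⊓ N) where
  le := inf_le_left
  conj := fun σ hσ τ hτ => by
    have hσD := Fermat.Agent.S05.helper4205.mem_decomposition_of_mem_inertiaSubgroupIn hσ
    have hτD := Fermat.Agent.S05.helper4205.mem_decomposition_of_mem_inertiaSubgroupIn hτ.1
    have hI : σ⁻¹ * τ * σ ∈ P.inertiaSubgroupIn ℚ :=
      (P.inertiaSubgroupIn ℚ).mul_mem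
        ((P.inertiaSubgroupIn ℚ).mul_mem ((P.inertiaSubgroupIn ℚ).inv_mem hσ) hτ.1) hσ
    refine Subgroup.mem_inf.2 ⟨hI, ?_⟩
    have h1 : (⟨τ, hτD⟩ : ↥(P.decompositionSubgroup ℚ)) ∈
        N.subgroupOf (P.decompositionSubgroup ℚ) := Subgroup.mem_subgroupOf.2 hτ.2
    have h2 := hnorm.conj_mem _ h1 (⟨σ, hσD⟩⁻¹ : ↥(P.decompositionSubgroup ℚ))
    have h3 := Subgroup.mem_subgroupOf.1 h2
    simpa using h3
  index := fun hdvd => by
    apply hidx
    have hID : P.inertiaSubgroupIn ℚ ≤ P.decompositionSubgroup ℚ := fun σ hσ =>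
      Fermat.Agent.S05.helper4205.mem_decomposition_of_mem_inertiaSubgroupIn hσ
    have h1 : (P.inertiaSubgroupIn ℚ ⊓ N).relIndex (P.inertiaSubgroupIn ℚ) =
        N.relIndex (P.inertiaSubgroupIn ℚ) := Subgroup.inf_relIndex_left _ _
    have h2 : N.relIndex (P.inertiaSubgroupIn ℚ) ∣ N.relIndex (P.decompositionSubgroup ℚ) := by
      rw [← Subgroup.relIndex_subgroupOf (H := N) hID]
      exact Subgroup.relIndex_dvd_index_of_normal _ _
    rw [h1] at hdvd
    exact hdvd.trans h2

/-- The subgroup `I ⊓ N` is normalised by the decomposition group when `N` is. -/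
theorem conj_mem_inf_of_normal {P : ValuationSubring Qb} (N : Subgroup GQ)
    (hnorm : (N.subgroupOf (P.decompositionSubgroup ℚ)).Normal) {g : GQ}
    (hg : g ∈ P.decompositionSubgroup ℚ) :
    ∀ τ ∈ P.inertiaSubgroupIn ℚ ⊓ N, g⁻¹ * τ * g ∈ P.inertiaSubgroupIn ℚ ⊓ N := by
  intro τ hτ
  have hτD := Fermat.Agent.S05.helper4205.mem_decomposition_of_mem_inertiaSubgroupIn hτ.1
  have h0 := Fermat.Agent.S56.helper6024.conj_mem_inertiaSubgroupIn (inv_mem hg) hτ.1
  rw [inv_inv] at h0
  refine Subgroup.mem_inf.2 ⟨h0, ?_⟩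
  have h1 : (⟨τ, hτD⟩ : ↥(P.decompositionSubgroup ℚ)) ∈
      N.subgroupOf (P.decompositionSubgroup ℚ) := Subgroup.mem_subgroupOf.2 hτ.2
  have h2 := hnorm.conj_mem _ h1 (⟨g, hg⟩⁻¹ : ↥(P.decompositionSubgroup ℚ))
  have h3 := Subgroup.mem_subgroupOf.1 h2
  simpa using h3

namespace IsTameIdx

variable {p : ℕ} {P : ValuationSubring Qb} {J : Subgroup GQ} (h : IsTameIdx p P J)

/-- The automorphism of the fixed field of `J` induced by an inertia element. -/
noncomputable def resEquiv (σ : ↥(P.inertiaSubgroupIn ℚ)) : RingAut (fixSub J) :=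
  RingEquiv.ofRingHom (resHom J σ.1 (h.conj σ.1 σ.2))
    (resHom J σ.1⁻¹ (h.conj σ.1⁻¹ (inv_mem σ.2)))
    (by
      ext x
      simp only [RingHom.comp_apply, coe_resHom, RingHom.id_apply]
      exact AlgEquiv.apply_symm_apply σ.1 _)
    (by
      ext x
      simp only [RingHom.comp_apply, coe_resHom, RingHom.id_apply]
      exact AlgEquiv.symm_apply_apply σ.1 _)

/-- The action of the inertia group on the fixed field of `J`, as a homomorphism. -/
noncomputable def resMonoidHom : ↥(P.inertiaSubgroupIn ℚ) →* RingAut (fixSub J) where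
  toFun := h.resEquiv
  map_one' := by
    ext x
    rfl
  map_mul' σ τ := by
    ext x
    rfl

theorem resMonoidHom_apply (σ : ↥(P.inertiaSubgroupIn ℚ)) (x : fixSub J) :
    h.resMonoidHom σ x = resHom J σ.1 (h.conj σ.1 σ.2) x := rfl

theorem resMonoidHom_eq_one_of_mem {σ : ↥(P.inertiaSubgroupIn ℚ)} (hσ : σ.1 ∈ J) :
    h.resMonoidHom σ = 1 := by
  ext x
  rw [resMonoidHom_apply, coe_resHom]
  exact mem_fixSub.1 x.2 _ hσ

theorem subgroupOf_le_ker :
    J.subgroupOf (P.inertiaSubgroupIn ℚ) ≤ h.resMonoidHom.ker := by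
  intro σ hσ
  rw [MonoidHom.mem_ker]
  exact h.resMonoidHom_eq_one_of_mem (Subgroup.mem_subgroupOf.1 hσ)

include h in
theorem relIndex_ne_zero : J.relIndex (P.inertiaSubgroupIn ℚ) ≠ 0 := fun h0 =>
  h.index (h0 ▸ dvd_zero p)

theorem finite_range : Finite h.resMonoidHom.range := by
  have h1 : (J.subgroupOf (P.inertiaSubgroupIn ℚ)).FiniteIndex := ⟨h.relIndex_ne_zero⟩
  have h2 : h.resMonoidHom.ker.FiniteIndex := Subgroup.finiteIndex_of_le h.subgroupOf_le_ker
  have h3 : Finite (↥(P.inertiaSubgroupIn ℚ) ⧸ h.resMonoidHom.ker) :=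
    Subgroup.finite_quotient_of_finiteIndex
  exact Finite.of_equiv _ (QuotientGroup.quotientKerEquivRange h.resMonoidHom).toEquiv

theorem card_range_dvd :
    Nat.card h.resMonoidHom.range ∣ J.relIndex (P.inertiaSubgroupIn ℚ) := by
  rw [← Subgroup.index_ker]
  exact Subgroup.index_dvd_of_le h.subgroupOf_le_ker

theorem not_dvd_card_range : ¬ p ∣ Nat.card h.resMonoidHom.range := fun hdvd =>
  h.index (hdvd.trans h.card_range_dvd)

/-- The image of inertia in the automorphisms of the fixed field of `J` is an inertial action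
in the sense of `helper4753_TameLayer`. -/
theorem inertialAction (hp : p.Prime) (hP : P.LiesOverPrime p) :
    InertialAction (vK P J) h.resMonoidHom.range (p : fixSub J) where
  val_smul g x := by
    obtain ⟨σ, hσ⟩ := g.2
    have e : g • x = resHom J σ.1 (h.conj σ.1 σ.2) x := by
      change (g : RingAut (fixSub J)) x = _
      rw [← hσ]
      rfl
    rw [e]
    exact vK_resHom P J
      (Fermat.Agent.S05.helper4205.mem_decomposition_of_mem_inertiaSubgroupIn σ.2) _ x
  res_triv g x hx := by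
    obtain ⟨σ, hσ⟩ := g.2
    have e : g • x = resHom J σ.1 (h.conj σ.1 σ.2) x := by
      change (g : RingAut (fixSub J)) x = _
      rw [← hσ]
      rfl
    rw [e]
    exact vK_resHom_sub_lt P J σ.2 _ x hx
  fixed g := by
    change (g : RingAut (fixSub J)) (p : fixSub J) = p
    exact map_natCast _ p
  lt_one := vK_natCast_prime_lt_one P J hP
  ne_zero := Nat.cast_ne_zero.2 hp.ne_zero
  fixed_disc x hx hx0 := by
    have hfix : ∀ σ ∈ P.inertiaSubgroupIn ℚ, σ (x : Qb) = x := by
      intro σ hσ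
      have h1 := hx ⟨h.resMonoidHom ⟨σ, hσ⟩, ⟨_, rfl⟩⟩
      exact congrArg Subtype.val h1
    have hx0' : (x : Qb) ≠ 0 := fun h0 => hx0 (Subtype.ext h0)
    obtain ⟨n, hn⟩ := Fermat.Agent.S58.helper6024.exists_zpow_valuation_eq P hp hP x hfix hx0'
    exact ⟨n, by rw [vK_apply, vK_apply]; simpa using hn⟩

include h in
theorem vK_card_range (hp : p.Prime) (hP : P.LiesOverPrime p) :
    vK P J (Nat.card h.resMonoidHom.range : fixSub J) = 1 := by
  rw [vK_apply]
  have := Fermat.Agent.S05.helper4205.valuation_natCast_eq_one (A := P) hp hP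
    h.not_dvd_card_range
  simpa using this

include h in
/-- **(K2), index form.** The fixed field of `J` has a uniformizer `π` with `v π ^ e = v p`,
where `e` divides `[I : J]` (so `p ∤ e`). -/
theorem exists_unif (hp : p.Prime) (hP : P.LiesOverPrime p) :
    ∃ (π : fixSub J) (e : ℕ), IsUnif (vK P J) π ∧ 0 < e ∧
      e ∣ J.relIndex (P.inertiaSubgroupIn ℚ) ∧ ¬ p ∣ e ∧
      vK P J π ^ e = vK P J (p : fixSub J) := by
  have := h.finite_range
  obtain ⟨π, k, h1, h2, h3, -⟩ := (h.inertialAction hp hP).exists_unif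
  exact ⟨π, Nat.card h.resMonoidHom.range, ⟨h2, h1, h3⟩, Nat.card_pos, h.card_range_dvd,
    h.not_dvd_card_range,
    (h.inertialAction hp hP).val_unif_pow_card (h.vK_card_range hp hP) h1 h2 h3⟩

include h in
/-- **Carrier-free value-group statement.** One exponent `e₀` prime to `p` with
`v x ^ e₀ ∈ v p ^ ℤ` for every nonzero `J`-fixed `x`. -/
theorem exists_zpow_valuation_pow_eq (hp : p.Prime) (hP : P.LiesOverPrime p) :
    ∃ e₀ : ℕ, 0 < e₀ ∧ ¬ p ∣ e₀ ∧ e₀ ∣ J.relIndex (P.inertiaSubgroupIn ℚ) ∧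
      ∀ x : Qb, x ≠ 0 → (∀ τ ∈ J, τ x = x) →
        ∃ n : ℤ, P.valuation x ^ e₀ = P.valuation (p : Qb) ^ n := by
  obtain ⟨π, e, hπ, he0, hedvd, hpe, hpow⟩ := h.exists_unif hp hP
  refine ⟨e, he0, hpe, hedvd, fun x hx hfix => ?_⟩
  obtain ⟨n, hn⟩ := hπ.exists_zpow ⟨x, mem_fixSub.2 hfix⟩
    (fun h0 => hx (congrArg Subtype.val h0))
  refine ⟨n, ?_⟩
  have h1 : P.valuation x = vK P J π ^ n := hn
  have h2 : P.valuation (p : Qb) = vK P J π ^ e := hpow.symm
  rw [h1, h2, ← zpow_natCast, ← zpow_natCast, ← zpow_mul, ← zpow_mul, mul_comm]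

end IsTameIdx

/-- **The tame exponent under the binders of `helper6366.Stmt_FB`.**  For `N` normal in the
decomposition group `D` at `P` (over `p`) with `p ∤ [D : N]`, there is `e₀` prime to `p` such
that every nonzero `x` fixed by `N` (even by `I ⊓ N`) has `v x ^ e₀ ∈ v p ^ ℤ`. -/
theorem exists_tame_exponent_of_normal {p : ℕ} (hp : p.Prime) {P : ValuationSubring Qb}
    (hP : P.LiesOverPrime p) (N : Subgroup GQ)
    (hnorm : (N.subgroupOf (P.decompositionSubgroup ℚ)).Normal)
    (hidx : ¬ p ∣ N.relIndex (P.decompositionSubgroup ℚ)) :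
    ∃ e₀ : ℕ, 0 < e₀ ∧ ¬ p ∣ e₀ ∧
      (∀ x : Qb, x ≠ 0 → (∀ τ ∈ P.inertiaSubgroupIn ℚ, τ ∈ N → τ x = x) →
        ∃ n : ℤ, P.valuation x ^ e₀ = P.valuation (p : Qb) ^ n) ∧
      ∀ x : Qb, x ≠ 0 → (∀ τ ∈ N, τ x = x) →
        ∃ n : ℤ, P.valuation x ^ e₀ = P.valuation (p : Qb) ^ n := by
  obtain ⟨e₀, he0, hpe, -, hval⟩ :=
    (IsTameIdx.of_normal N hnorm hidx).exists_zpow_valuation_pow_eq hp hP
  exact ⟨e₀, he0, hpe, fun x hx hfix => hval x hx (fun τ hτ => hfix τ hτ.1 hτ.2),
    fun x hx hfix => hval x hx (fun τ hτ => hfix τ hτ.2)⟩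

end Fermat.Agent.S56.helper4753
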