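/-
S56 (Taylor–Wiles primes), layer 5 in the shape of the GLOBAL seam (helper4859):
the hypothesis `hKill` of `helper3550.globalCount_of` for `Sg := helper2229.primesOf Smin`,
`M := helper6599.ad0 p ρbar`, with the constant `helper3550.TWGood 𝒪 p ρbar`, under the frozen
hypotheses of S56 only (finiteness of the global `H¹` is `helper4075.stmt_Fin`).
-/
import Mathlib
import Fermat.Agent.S56.helper4859_KillAd0
import Fermat.Agent.S56.helper3550_GlobalSeam

set_option autoImplicit false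

namespace Fermat.Agent.S56.helper4859

open Polynomial IsLocalRing groupCohomology ExtCitation
open Fermat.Agent.S55.helper2945

local notation "GQ" => (AlgebraicClosure ℚ ≃ₐ[ℚ] AlgebraicClosure ℚ)

/-- **KILL supply, seam shape**: `hKill` of `helper3550.globalCount_of`, unconditional under the
frozen hypotheses of S56. -/
theorem killSupply_seam {𝒪 : Type} [CommRing 𝒪] [IsLocalRing 𝒪] [Finite (ResidueField 𝒪)]
    (p : ℕ) [Fact p.Prime] [Algebra (ZMod p) (ResidueField 𝒪)] (hp2 : p ≠ 2)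
    (ρbar : ResidualGaloisRep (ResidueField 𝒪))
    (habs : ρbar.IsAbsolutelyIrreducible)
    (hdet : (GaloisRepAdic.ofResidualGaloisRep ρbar).DetIsCyclotomic p)
    (hsplit : ∀ σ : GQ, ∃ α β : ResidueField 𝒪,
      LinearMap.charpoly (ρbar.ρ σ) = (X - C α) * (X - C β))
    (hTW : ∀ (K : Type) [Field K] [Algebra (ResidueField 𝒪) K] (G : Subgroup GQ), G.index = 2 →
      ∀ V : Submodule K (ρbar.baseChange K).V,
        (∀ σ ∈ G, ∀ x ∈ V, (ρbar.baseChange K).ρ σ x ∈ V) → V = ⊥ ∨ V = ⊤)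
    (Smin : Finset ℕ) (hpSmin : p ∈ Smin)
    (hmin : ∀ q : ℕ, q.Prime → q ≠ p → (q ∈ Smin ↔ ¬ ρbar.IsUnramifiedAt q)) :
    helper3550.KillSupply (helper2229.primesOf Smin) (dualT (helper6599.ad0 p ρbar))
      (helper3550.TWGood 𝒪 p ρbar) :=
  killSupply_ad0_of_hmin p ρbar Fermat.Agent.S55.helper4075.stmt_Fin hp2 habs hdet hsplit hTW
    Smin hpSmin hmin

end Fermat.Agent.S56.helper4859
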