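/-
S56, FLAT-LOCAL, design D ("elementwise displacement"), helper4982.

Mathlib-only bricks about function orders (integral, comultiplication-closed
algebras of functions on a finite abelian group with values in a valued field).

* `disp_le`, `disp_ge`  : the pointwise displacement identity (PT).
* `char_repr_le_one`    : characters have integral coordinates (D0).
* `exists_depth_le`     : depth bound for points of order `p` (D1).
* `gaussSum_val`        : valuation of the Teichmueller Gauss sum (D2).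
* `sandwich`            : the Gauss sandwich (D3) = C1/C2 without discriminants.
-/
import Mathlib

namespace Fermat.Agent.S56.helper4982

open Finset

section Displacement

variable {Ω : Type*} [Field Ω] {Γ₀ : Type*} [LinearOrderedCommGroupWithZero Γ₀]
variable (v : Valuation Ω Γ₀)
variable {V : Type*} [AddCommGroup V]

/-- `B` is a family of functions with integral values which is closed under the
comultiplication `f ↦ ((x, y) ↦ f (x + y))`. -/
structure IsFunOrder (B : Set (V → Ω)) : Prop where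
  int : ∀ f ∈ B, ∀ x, v (f x) ≤ 1
  comul : ∀ f ∈ B, ∃ (n : ℕ) (g h : Fin n → V → Ω), (∀ i, g i ∈ B) ∧ (∀ i, h i ∈ B) ∧
    ∀ x y, f (x + y) = ∑ i, g i x * h i y

/-- (PT), easy half: a translation by `x'` moves the value of any `f ∈ B` at any point `x`
by at most the depth of `x'`. -/
theorem disp_le {B : Set (V → Ω)} (hB : IsFunOrder v B) {f : V → Ω} (hf : f ∈ B)
    (x x' : V) {c : Γ₀} (hc : ∀ h ∈ B, v (h x' - h 0) ≤ c) :
    v (f (x + x') - f x) ≤ c := by
  obtain ⟨n, g, h, hg, hh, hfgh⟩ := hB.comul f hf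
  have h1 : f (x + x') - f x = ∑ i, g i x * (h i x' - h i 0) := by
    have e1 := hfgh x x'
    have e2 := hfgh x 0
    rw [add_zero] at e2
    rw [e1, e2, ← Finset.sum_sub_distrib]
    exact Finset.sum_congr rfl fun i _ => by ring
  rw [h1]
  refine v.map_sum_le fun i _ => ?_
  rw [map_mul]
  calc v (g i x) * v (h i x' - h i 0) ≤ 1 * c :=
        mul_le_mul' (hB.int _ (hg i) x) (hc _ (hh i))
    _ = c := one_mul c

/-- (PT), key half: the depth of `x'` is attained (up to `≤`) by the displacement of some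
`g ∈ B` at the point `x`. No antipode and no base change is used. -/
theorem disp_ge {B : Set (V → Ω)} (hB : IsFunOrder v B) {Z : V → Ω} (hZ : Z ∈ B)
    (x x' : V) {c : Γ₀} (hc : ∀ g ∈ B, v (g (x + x') - g x) ≤ c) :
    v (Z x' - Z 0) ≤ c := by
  obtain ⟨n, g, h, hg, hh, hfgh⟩ := hB.comul Z hZ
  have h1 : Z x' - Z 0 = ∑ i, (g i (x + x') - g i x) * h i (-x) := by
    have e1 := hfgh (x + x') (-x)
    have e2 := hfgh x (-x)
    rw [show x + x' + -x = x' by abel] at e1
    rw [show x + -x = 0 by abel] at e2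
    rw [e1, e2, ← Finset.sum_sub_distrib]
    exact Finset.sum_congr rfl fun i _ => by ring
  rw [h1]
  refine v.map_sum_le fun i _ => ?_
  rw [map_mul]
  calc v (g i (x + x') - g i x) * v (h i (-x)) ≤ c * 1 :=
        mul_le_mul' (hc _ (hg i)) (hB.int _ (hh i) (-x))
    _ = c := mul_one c

/-- (PT) in existential form: some `g ∈ B` is displaced at `x` by at least as much as `Z` is
displaced at `0`. -/
theorem exists_disp_ge {B : Set (V → Ω)} (hB : IsFunOrder v B) {Z : V → Ω} (hZ : Z ∈ B)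
    (x x' : V) : ∃ g ∈ B, v (Z x' - Z 0) ≤ v (g (x + x') - g x) := by
  by_contra hcon
  push Not at hcon
  obtain ⟨n, g, h, hg, hh, hfgh⟩ := hB.comul Z hZ
  have h1 : Z x' - Z 0 = ∑ i, (g i (x + x') - g i x) * h i (-x) := by
    have e1 := hfgh (x + x') (-x)
    have e2 := hfgh x (-x)
    rw [show x + x' + -x = x' by abel] at e1
    rw [show x + -x = 0 by abel] at e2
    rw [e1, e2, ← Finset.sum_sub_distrib]
    exact Finset.sum_congr rfl fun i _ => by ring
  have hne : v (Z x' - Z 0) ≠ 0 := by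
    intro h0
    have := hcon Z hZ
    rw [h0] at this
    exact not_lt_zero this
  have hlt : v (∑ i, (g i (x + x') - g i x) * h i (-x)) < v (Z x' - Z 0) := by
    refine v.map_sum_lt hne fun i _ => ?_
    rw [map_mul]
    calc v (g i (x + x') - g i x) * v (h i (-x)) ≤ v (g i (x + x') - g i x) * 1 :=
          mul_le_mul' le_rfl (hB.int _ (hh i) (-x))
      _ = v (g i (x + x') - g i x) := mul_one _
      _ < v (Z x' - Z 0) := hcon _ (hg i)
  rw [← h1] at hlt
  exact lt_irrefl _ hlt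

/-- Galois form of (PT): if `σ` is a ring endomorphism of `Ω` and every `f ∈ B` is
`σ`-equivariant for an additive action `s` on `V`, then the displacement of the point `x`
bounds how far `σ` moves the values `f x`; and conversely it is attained. -/
theorem galois_disp_le {B : Set (V → Ω)} (hB : IsFunOrder v B) (σ : Ω →+* Ω) (s : V → V)
    (hσ : ∀ f ∈ B, ∀ x, σ (f x) = f (s x)) {f : V → Ω} (hf : f ∈ B) (x : V) {c : Γ₀}
    (hc : ∀ h ∈ B, v (h (s x - x) - h 0) ≤ c) : v (σ (f x) - f x) ≤ c := by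
  rw [hσ f hf x]
  have := disp_le v hB hf x (s x - x) hc
  rwa [show x + (s x - x) = s x by abel] at this

theorem galois_exists_disp_ge {B : Set (V → Ω)} (hB : IsFunOrder v B) (σ : Ω →+* Ω) (s : V → V)
    (hσ : ∀ f ∈ B, ∀ x, σ (f x) = f (s x)) {Z : V → Ω} (hZ : Z ∈ B) (x : V) :
    ∃ g ∈ B, v (Z (s x - x) - Z 0) ≤ v (σ (g x) - g x) := by
  obtain ⟨g, hg, hle⟩ := exists_disp_ge v hB hZ x (s x - x)
  refine ⟨g, hg, ?_⟩
  rw [hσ g hg x]
  rwa [show x + (s x - x) = s x by abel] at hle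

end Displacement

section CharInt

variable {Ω : Type*} [Field Ω] {Γ₀ : Type*} [LinearOrderedCommGroupWithZero Γ₀]
variable (v : Valuation Ω Γ₀)
variable {V : Type*} [AddCommGroup V]
variable {ι : Type*} [Fintype ι]

/-- An `Ω`-basis of the functions on `V` whose members are integral valued and whose
comultiplication has integral structure constants: the basis of a finite free function
order over the valuation ring. -/
structure IsOrderBasis (b : Module.Basis ι Ω (V → Ω)) (m : ι → ι → ι → Ω) : Prop where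
  int : ∀ i x, v (b i x) ≤ 1
  comul : ∀ i x y, b i (x + y) = ∑ j, ∑ k, m i j k * (b j x * b k y)
  sc : ∀ i j k, v (m i j k) ≤ 1

omit [AddCommGroup V] in
theorem apply_eq_sum_repr (b : Module.Basis ι Ω (V → Ω)) (f : V → Ω) (x : V) :
    f x = ∑ i, b.repr f i * b i x := by
  have h := congrFun (b.sum_repr f) x
  rw [Finset.sum_apply] at h
  rw [← h]
  exact Finset.sum_congr rfl fun i _ => by simp

/-- A function all of whose coordinates are integral has integral values. -/
theorem val_apply_le_one {b : Module.Basis ι Ω (V → Ω)} {m : ι → ι → ι → Ω}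
    (hb : IsOrderBasis v b m) {f : V → Ω} (hf : ∀ i, v (b.repr f i) ≤ 1) (x : V) :
    v (f x) ≤ 1 := by
  rw [apply_eq_sum_repr b f x]
  refine v.map_sum_le fun i _ => ?_
  rw [map_mul]
  calc v (b.repr f i) * v (b i x) ≤ 1 * 1 := mul_le_mul' (hf i) (hb.int i x)
    _ = 1 := one_mul 1

/-- The coordinates of a multiplicative function satisfy the structure-constant relations. -/
theorem char_repr_mul {b : Module.Basis ι Ω (V → Ω)} {m : ι → ι → ι → Ω}
    (hb : IsOrderBasis v b m) {ξ : V → Ω} (hξ : ∀ x y, ξ (x + y) = ξ x * ξ y) (j k : ι) :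
    b.repr ξ j * b.repr ξ k = ∑ i, b.repr ξ i * m i j k := by
  classical
  set α : ι → Ω := fun i => b.repr ξ i with hα
  set c : ι → ι → Ω := fun j k => α j * α k - ∑ i, α i * m i j k with hc
  have hli := Fintype.linearIndependent_iff.mp b.linearIndependent
  have key : ∀ x y, ∑ j, ∑ k, c j k * (b j x * b k y) = 0 := by
    intro x y
    have e1 : ∑ j, ∑ k, α j * α k * (b j x * b k y) = ξ x * ξ y := by
      rw [apply_eq_sum_repr b ξ x, apply_eq_sum_repr b ξ y, Finset.sum_mul_sum]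
      exact Finset.sum_congr rfl fun j _ => Finset.sum_congr rfl fun k _ => by ring
    have e2 : ∑ j, ∑ k, (∑ i, α i * m i j k) * (b j x * b k y) = ξ (x + y) := by
      rw [apply_eq_sum_repr b ξ (x + y)]
      have : ∀ i, b.repr ξ i * b i (x + y) = ∑ j, ∑ k, α i * m i j k * (b j x * b k y) := by
        intro i
        rw [hb.comul i x y, Finset.mul_sum]
        refine Finset.sum_congr rfl fun j _ => ?_
        rw [Finset.mul_sum]
        exact Finset.sum_congr rfl fun k _ => by ring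
      symm
      calc ∑ i, b.repr ξ i * b i (x + y)
          = ∑ i, ∑ j, ∑ k, α i * m i j k * (b j x * b k y) :=
            Finset.sum_congr rfl fun i _ => this i
        _ = ∑ j, ∑ i, ∑ k, α i * m i j k * (b j x * b k y) := Finset.sum_comm
        _ = ∑ j, ∑ k, ∑ i, α i * m i j k * (b j x * b k y) :=
            Finset.sum_congr rfl fun j _ => Finset.sum_comm
        _ = ∑ j, ∑ k, (∑ i, α i * m i j k) * (b j x * b k y) :=
            Finset.sum_congr rfl fun j _ => Finset.sum_congr rfl fun k _ =>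
              (Finset.sum_mul _ _ _).symm
    have e3 : ∑ j, ∑ k, c j k * (b j x * b k y) =
        ∑ j, ∑ k, α j * α k * (b j x * b k y) -
          ∑ j, ∑ k, (∑ i, α i * m i j k) * (b j x * b k y) := by
      rw [← Finset.sum_sub_distrib]
      refine Finset.sum_congr rfl fun j _ => ?_
      rw [← Finset.sum_sub_distrib]
      exact Finset.sum_congr rfl fun k _ => by rw [hc]; ring
    rw [e3, e1, e2, hξ x y, sub_self]
  have step1 : ∀ y j, ∑ k, c j k * b k y = 0 := by
    intro y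
    refine hli (fun j => ∑ k, c j k * b k y) ?_
    funext x
    rw [Finset.sum_apply, Pi.zero_apply, ← key x y]
    refine Finset.sum_congr rfl fun j _ => ?_
    rw [Pi.smul_apply, smul_eq_mul, Finset.sum_mul]
    exact Finset.sum_congr rfl fun k _ => by ring
  have step2 : ∀ j k, c j k = 0 := by
    intro j
    refine hli (fun k => c j k) ?_
    funext y
    rw [Finset.sum_apply, Pi.zero_apply, ← step1 y j]
    exact Finset.sum_congr rfl fun k _ => by rw [Pi.smul_apply, smul_eq_mul]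
  have := step2 j k
  rw [hc] at this
  exact sub_eq_zero.mp this

/-- (D0) Characters are integral: the coordinates of a multiplicative function `ξ` in an
order basis have valuation `≤ 1`. (The largest coordinate `M` satisfies `M * M ≤ M`.) -/
theorem char_repr_le_one {b : Module.Basis ι Ω (V → Ω)} {m : ι → ι → ι → Ω}
    (hb : IsOrderBasis v b m) {ξ : V → Ω} (hξ : ∀ x y, ξ (x + y) = ξ x * ξ y) (i : ι) :
    v (b.repr ξ i) ≤ 1 := by
  classical
  obtain ⟨j0, -, hj0⟩ := Finset.exists_max_image Finset.univ (fun j => v (b.repr ξ j))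
    ⟨i, Finset.mem_univ i⟩
  have hmax : ∀ j, v (b.repr ξ j) ≤ v (b.repr ξ j0) := fun j => hj0 j (Finset.mem_univ j)
  have hsq : v (b.repr ξ j0) * v (b.repr ξ j0) ≤ v (b.repr ξ j0) * 1 := by
    rw [← map_mul, char_repr_mul v hb hξ j0 j0, mul_one]
    refine v.map_sum_le fun i _ => ?_
    rw [map_mul]
    calc v (b.repr ξ i) * v (m i j0 j0) ≤ v (b.repr ξ j0) * 1 :=
          mul_le_mul' (hmax i) (hb.sc i j0 j0)
      _ = v (b.repr ξ j0) := mul_one _
  by_cases h0 : v (b.repr ξ j0) = 0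
  · exact (hmax i).trans (h0.le.trans zero_le_one)
  · exact (hmax i).trans (le_of_mul_le_mul_left hsq (zero_lt_iff.mpr h0))

end CharInt

section Zeta

variable {Ω : Type*} [Field Ω] {Γ₀ : Type*} [LinearOrderedCommGroupWithZero Γ₀]
variable (v : Valuation Ω Γ₀)

theorem val_natCast_le_one (n : ℕ) : v (n : Ω) ≤ 1 := by
  induction n with
  | zero => simp
  | succ n ih =>
    rw [Nat.cast_succ]
    exact v.map_add_le ih (le_of_eq v.map_one)

theorem val_eq_one_of_pow_eq_one {z : Ω} {n : ℕ} (hn : n ≠ 0) (hz : z ^ n = 1) : v z = 1 := by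
  have h : v z ^ n = 1 := by rw [← map_pow, hz, map_one]
  exact (pow_eq_one_iff_of_nonneg zero_le hn).mp h

theorem val_one_sub_pow_le {z : Ω} (hz : v z ≤ 1) (k : ℕ) : v (1 - z ^ k) ≤ v (1 - z) := by
  have h : 1 - z ^ k = (1 - z) * ∑ i ∈ range k, z ^ i := by
    have := mul_geom_sum z k
    linear_combination this
  rw [h, map_mul]
  calc v (1 - z) * v (∑ i ∈ range k, z ^ i) ≤ v (1 - z) * 1 := by
        refine mul_le_mul' le_rfl (v.map_sum_le fun i _ => ?_)
        rw [map_pow]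
        exact pow_le_one' hz i
    _ = v (1 - z) := mul_one _

variable {p : ℕ} [hp : Fact p.Prime]

theorem val_one_sub_pow_eq {ζ : Ω} (hζ : IsPrimitiveRoot ζ p) {k : ℕ} (hk : ¬ p ∣ k) :
    v (1 - ζ ^ k) = v (1 - ζ) := by
  have hζ1 : v ζ = 1 := val_eq_one_of_pow_eq_one v hp.out.ne_zero hζ.pow_eq_one
  refine le_antisymm (val_one_sub_pow_le v hζ1.le k) ?_
  have hcop : Nat.Coprime k p := ((Nat.Prime.coprime_iff_not_dvd hp.out).mpr hk).symm
  obtain ⟨k', -, hk'⟩ := Nat.exists_mul_mod_eq_one_of_coprime hcop hp.out.one_lt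
  have h1 : (ζ ^ k) ^ k' = ζ := by
    rw [← pow_mul, pow_eq_pow_mod (k * k') hζ.pow_eq_one, hk', pow_one]
  have h2 := val_one_sub_pow_le v (z := ζ ^ k) (by rw [map_pow, hζ1, one_pow]) k'
  rwa [h1] at h2

/-- `v (ζ - 1) ^ (p - 1) = v p` for a primitive `p`-th root of unity. -/
theorem val_zeta_sub_one_pow {ζ : Ω} (hζ : IsPrimitiveRoot ζ p) :
    v (ζ - 1) ^ (p - 1) = v (p : Ω) := by
  have hp1 : p - 1 + 1 = p := Nat.succ_pred_eq_of_pos hp.out.pos
  have hζ' : IsPrimitiveRoot ζ (p - 1 + 1) := by rwa [hp1]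
  have hprod := hζ'.prod_one_sub_pow_eq_order
  have hcast : ((p - 1 : ℕ) : Ω) + 1 = (p : Ω) := by
    rw [← Nat.cast_succ, Nat.succ_eq_add_one, hp1]
  rw [hcast] at hprod
  rw [← hprod, map_prod]
  have : ∀ k ∈ range (p - 1), v (1 - ζ ^ (k + 1)) = v (ζ - 1) := by
    intro k hk
    rw [val_one_sub_pow_eq v hζ, v.map_sub_swap]
    intro hdvd
    have := Nat.le_of_dvd (Nat.succ_pos k) hdvd
    have := Finset.mem_range.mp hk
    omega
  rw [Finset.prod_congr rfl this, Finset.prod_const, Finset.card_range]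

theorem val_zeta_sub_one_lt_one {ζ : Ω} (hζ : IsPrimitiveRoot ζ p) (hvp : v (p : Ω) < 1) :
    v (ζ - 1) < 1 := by
  have h := val_zeta_sub_one_pow v hζ
  have hp1 : p - 1 ≠ 0 := by have := hp.out.two_le; omega
  exact (pow_lt_one_iff_of_nonneg zero_le hp1).mp (h ▸ hvp)

theorem val_zeta_sub_one_ne_zero {ζ : Ω} (hζ : IsPrimitiveRoot ζ p) : v (ζ - 1) ≠ 0 := by
  rw [Ne, Valuation.zero_iff, sub_eq_zero]
  exact hζ.ne_one hp.out.one_lt

/-- `ζ ^ n ≡ 1 + n (ζ - 1)` modulo `(ζ - 1) ^ 2`, for any `ζ` with `v (ζ - 1) ≤ 1`. -/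
theorem val_pow_sub_linear_le {ζ : Ω} (hζ : v (ζ - 1) ≤ 1) (n : ℕ) :
    v (ζ ^ n - 1 - n * (ζ - 1)) ≤ v (ζ - 1) ^ 2 := by
  have hζ1 : v ζ ≤ 1 := by
    have : ζ = (ζ - 1) + 1 := by ring
    rw [this]
    exact v.map_add_le hζ (le_of_eq v.map_one)
  induction n with
  | zero => simp
  | succ n ih =>
    have h : ζ ^ (n + 1) - 1 - ((n + 1 : ℕ) : Ω) * (ζ - 1) =
        ζ * (ζ ^ n - 1 - n * (ζ - 1)) + n * (ζ - 1) ^ 2 := by
      push_cast
      ring
    rw [h]
    refine v.map_add_le ?_ ?_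
    · rw [map_mul]
      calc v ζ * v (ζ ^ n - 1 - n * (ζ - 1)) ≤ 1 * v (ζ - 1) ^ 2 := mul_le_mul' hζ1 ih
        _ = v (ζ - 1) ^ 2 := one_mul _
    · rw [map_mul, map_pow]
      calc v (n : Ω) * v (ζ - 1) ^ 2 ≤ 1 * v (ζ - 1) ^ 2 :=
            mul_le_mul' (val_natCast_le_one v n) le_rfl
        _ = v (ζ - 1) ^ 2 := one_mul _

end Zeta

section Depth

variable {Ω : Type*} [Field Ω] {Γ₀ : Type*} [LinearOrderedCommGroupWithZero Γ₀]
variable (v : Valuation Ω Γ₀)
variable {V : Type*} [AddCommGroup V]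
variable {ι : Type*} [Fintype ι]
variable {p : ℕ} [hp : Fact p.Prime] [Module (ZMod p) V]

/-- Characters of an elementary abelian `p`-group separate points with value `ζ`. -/
theorem exists_char_apply_eq {ζ : Ω} (hζ : ζ ^ p = 1) {x' : V} (hx' : x' ≠ 0) :
    ∃ ξ : V → Ω, (∀ x y, ξ (x + y) = ξ x * ξ y) ∧ ξ 0 = 1 ∧ ξ x' = ζ := by
  obtain ⟨φ, hφ⟩ := Module.Projective.exists_dual_eq_one (ZMod p) hx'
  refine ⟨fun x => ζ ^ (φ x).val, fun x y => ?_, ?_, ?_⟩
  · show ζ ^ (φ (x + y)).val = ζ ^ (φ x).val * ζ ^ (φ y).val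
    rw [map_add, ZMod.val_add, ← pow_add, ← pow_eq_pow_mod _ hζ]
  · show ζ ^ (φ 0).val = 1
    rw [map_zero, ZMod.val_zero, pow_zero]
  · show ζ ^ (φ x').val = ζ
    rw [hφ, ZMod.val_one, pow_one]

/-- (D1) Depth bound: a nonzero point `x'` of an elementary abelian `p`-group is separated
from `0` by an integral function `f` with `v (f x' - f 0) = v (ζ - 1)`.
(Additively: the depth of `x'` is at most `1 / (p - 1)`.) -/
theorem exists_depth_eq {b : Module.Basis ι Ω (V → Ω)} {m : ι → ι → ι → Ω}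
    (hb : IsOrderBasis v b m) {ζ : Ω} (hζ : ζ ^ p = 1) {x' : V} (hx' : x' ≠ 0) :
    ∃ f : V → Ω, (∀ i, v (b.repr f i) ≤ 1) ∧ v (f x' - f 0) = v (ζ - 1) := by
  obtain ⟨ξ, hmul, h0, h1⟩ := exists_char_apply_eq (p := p) hζ hx'
  exact ⟨ξ, fun i => char_repr_le_one v hb hmul i, by rw [h0, h1]⟩

/-- (D1') For `p` odd, a nonzero point of an elementary abelian `p`-group is never congruent
to `0` modulo `p` under all integral functions: "the kernel of reduction has no nonzero point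
which is rational over an unramified base". -/
theorem exists_depth_gt_p (hp2 : p ≠ 2) (hvp : v (p : Ω) < 1)
    {b : Module.Basis ι Ω (V → Ω)} {m : ι → ι → ι → Ω}
    (hb : IsOrderBasis v b m) {ζ : Ω} (hζ : IsPrimitiveRoot ζ p) {x' : V} (hx' : x' ≠ 0) :
    ∃ f : V → Ω, (∀ i, v (b.repr f i) ≤ 1) ∧ v (p : Ω) < v (f x' - f 0) := by
  obtain ⟨f, hf, hval⟩ := exists_depth_eq v hb hζ.pow_eq_one hx'
  refine ⟨f, hf, ?_⟩
  rw [hval, ← val_zeta_sub_one_pow v hζ]
  have h1 : v (ζ - 1) < 1 := val_zeta_sub_one_lt_one v hζ hvp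
  have h0 : 0 < v (ζ - 1) := zero_lt_iff.mpr (val_zeta_sub_one_ne_zero v hζ)
  have hp1 : 1 < p - 1 := by
    have := hp.out.two_le
    omega
  calc v (ζ - 1) ^ (p - 1) < v (ζ - 1) ^ 1 := (pow_lt_pow_iff_right_of_lt_one₀ h0 h1).mpr hp1
    _ = v (ζ - 1) := pow_one _

end Depth

section Gauss

variable {Ω : Type*} [Field Ω] {Γ₀ : Type*} [LinearOrderedCommGroupWithZero Γ₀]
variable (v : Valuation Ω Γ₀)
variable {F : Type*} [Field F] [Fintype F]

/-- A Teichmueller-like character of a finite field: multiplicative, and additive modulo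
the maximal ideal of the valuation. -/
structure IsTeich (τ : F →*₀ Ω) : Prop where
  add : ∀ x y, v (τ (x + y) - (τ x + τ y)) < 1

omit [Fintype F] in
theorem teich_val_eq_one [Finite F] (τ : F →*₀ Ω) {x : F} (hx : x ≠ 0) : v (τ x) = 1 := by
  classical
  have := Fintype.ofFinite F
  have h : (τ x) ^ (Fintype.card F - 1) = 1 := by
    rw [← map_pow, FiniteField.pow_card_sub_one_eq_one x hx, map_one]
  have hcard : Fintype.card F - 1 ≠ 0 := by
    have := Fintype.one_lt_card (α := F)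
    omega
  exact val_eq_one_of_pow_eq_one v hcard h

theorem teich_val_le_one (τ : F →*₀ Ω) (x : F) : v (τ x) ≤ 1 := by
  rcases eq_or_ne x 0 with rfl | hx
  · simp
  · exact (teich_val_eq_one v τ hx).le

variable {v}

omit [Fintype F] in
theorem IsTeich.sum {τ : F →*₀ Ω} (hτ : IsTeich v τ) {α : Type*} (s : Finset α) (f : α → F) :
    v (τ (∑ i ∈ s, f i) - ∑ i ∈ s, τ (f i)) < 1 := by
  classical
  induction s using Finset.induction_on with
  | empty => simp
  | insert a s ha ih =>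
    rw [Finset.sum_insert ha, Finset.sum_insert ha]
    have : τ (f a + ∑ i ∈ s, f i) - (τ (f a) + ∑ i ∈ s, τ (f i)) =
        (τ (f a + ∑ i ∈ s, f i) - (τ (f a) + τ (∑ i ∈ s, f i))) +
          (τ (∑ i ∈ s, f i) - ∑ i ∈ s, τ (f i)) := by ring
    rw [this]
    exact v.map_add_lt (hτ.add _ _) ih

omit [Fintype F] in
theorem IsTeich.natCast {τ : F →*₀ Ω} (hτ : IsTeich v τ) (k : ℕ) :
    v ((k : Ω) - τ (k : F)) < 1 := by
  induction k with
  | zero => simp
  | succ k ih =>
    have : ((k + 1 : ℕ) : Ω) - τ ((k + 1 : ℕ) : F) =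
        ((k : Ω) - τ (k : F)) - (τ ((k : F) + 1) - (τ (k : F) + τ 1)) := by
      push_cast
      rw [map_one]
      ring
    rw [this]
    exact v.map_sub_lt ih (hτ.add _ _)

/-- The finite field identity behind Stickelberger's congruence for the Teichmueller
character: `∑_{x ≠ 0} x⁻¹ Tr(β x) = -β`. -/
theorem sum_units_inv_mul_trace [DecidableEq F] (p : ℕ) [hp : Fact p.Prime]
    [Algebra (ZMod p) F] (β : F) :
    ∑ x : Fˣ, ((x⁻¹ : Fˣ) : F) * algebraMap (ZMod p) F (Algebra.trace (ZMod p) F (β * x))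
      = -β := by
  have hcard : Fintype.card F = p ^ Module.finrank (ZMod p) F := by
    rw [Module.card_eq_pow_finrank (K := ZMod p) (V := F), ZMod.card]
  have hf : 0 < Module.finrank (ZMod p) F := Module.finrank_pos
  have h1 : ∀ x : Fˣ,
      ((x⁻¹ : Fˣ) : F) * algebraMap (ZMod p) F (Algebra.trace (ZMod p) F (β * x))
        = ∑ j ∈ range (Module.finrank (ZMod p) F), β ^ (p ^ j) * (x : F) ^ (p ^ j - 1) := by
    intro x
    rw [FiniteField.algebraMap_trace_eq_sum_pow, Nat.card_zmod, Finset.mul_sum]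
    refine Finset.sum_congr rfl fun j _ => ?_
    have hpj : 0 < p ^ j := pow_pos hp.out.pos j
    have hpow : (x : F) ^ (p ^ j) = (x : F) * (x : F) ^ (p ^ j - 1) := by
      rw [← pow_succ', Nat.sub_add_cancel hpj]
    have hx : ((x⁻¹ : Fˣ) : F) * (x : F) = 1 := by simp
    rw [mul_pow, hpow]
    linear_combination β ^ p ^ j * (x : F) ^ (p ^ j - 1) * hx
  rw [Finset.sum_congr rfl fun x _ => h1 x, Finset.sum_comm]
  have h2 : ∀ j ∈ range (Module.finrank (ZMod p) F),
      ∑ x : Fˣ, β ^ (p ^ j) * (x : F) ^ (p ^ j - 1) = if j = 0 then -β else 0 := by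
    intro j hj
    rw [← Finset.mul_sum, FiniteField.sum_pow_units]
    by_cases hj0 : j = 0
    · subst hj0
      simp
    · rw [if_neg hj0, if_neg, mul_zero]
      intro hdvd
      have hlt : p ^ j < p ^ Module.finrank (ZMod p) F :=
        Nat.pow_lt_pow_right hp.out.one_lt (Finset.mem_range.mp hj)
      have h2j : 2 ≤ p ^ j := by
        calc 2 ≤ p := hp.out.two_le
          _ = p ^ 1 := (pow_one p).symm
          _ ≤ p ^ j := Nat.pow_le_pow_right hp.out.pos (Nat.one_le_iff_ne_zero.mpr hj0)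
      have := Nat.le_of_dvd (by omega) hdvd
      rw [hcard] at this
      omega
  rw [Finset.sum_congr rfl h2, Finset.sum_ite_eq' (range (Module.finrank (ZMod p) F)) 0
    (fun _ => -β), if_pos (Finset.mem_range.mpr hf)]

variable (v)

/-- The sum of the inverse of a Teichmueller-like character over the units vanishes
(`p` odd). -/
theorem sum_teich_inv_eq_zero [DecidableEq F] {p : ℕ} [hp : Fact p.Prime] [Algebra (ZMod p) F]
    (hp2 : p ≠ 2) {τ : F →*₀ Ω} (hτ : IsTeich v τ) : ∑ x : Fˣ, τ ((x⁻¹ : Fˣ) : F) = 0 := by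
  let f : Fˣ →* Ω := (τ.toMonoidHom.comp (Units.coeHom F)).comp invMonoidHom
  have hf : f ≠ 1 := by
    intro h1
    have hchar : CharP F p :=
      charP_of_injective_algebraMap (algebraMap (ZMod p) F).injective p
    have h2 : (2 : F) ≠ 0 := by
      intro h
      have h' : ((2 : ℕ) : F) = 0 := by exact_mod_cast h
      rw [CharP.cast_eq_zero_iff F p] at h'
      exact hp2 ((Nat.prime_dvd_prime_iff_eq hp.out Nat.prime_two).mp h')
    have hτ2 : τ 2 = 1 := by
      have := DFunLike.congr_fun h1 (Units.mk0 2 h2)⁻¹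
      simpa [f] using this
    have hadd := hτ.add 1 1
    rw [one_add_one_eq_two, hτ2, map_one] at hadd
    have e : (1 : Ω) - (1 + 1) = -1 := by ring
    rw [e, v.map_neg, v.map_one] at hadd
    exact lt_irrefl _ hadd
  exact sum_hom_units_eq_zero f hf

/-- (D2) The valuation of the Gauss sum of the inverse of a Teichmueller-like character
against a trace character is `v (ζ - 1)` (Stickelberger for digit sum one). -/
theorem gaussSum_val [DecidableEq F] {p : ℕ} [hp : Fact p.Prime] [Algebra (ZMod p) F]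
    (hp2 : p ≠ 2)
    (hvp : v (p : Ω) < 1) {τ : F →*₀ Ω} (hτ : IsTeich v τ) {ζ : Ω} (hζ : IsPrimitiveRoot ζ p)
    {β : F} (hβ : β ≠ 0) :
    v (∑ x : Fˣ, τ ((x⁻¹ : Fˣ) : F) * ζ ^ (Algebra.trace (ZMod p) F (β * x)).val)
      = v (ζ - 1) := by
  set n : Fˣ → ℕ := fun x => (Algebra.trace (ZMod p) F (β * x)).val with hn
  set π := ζ - 1 with hπ
  have hπ1 : v π < 1 := val_zeta_sub_one_lt_one v hζ hvp
  have hπ0 : v π ≠ 0 := val_zeta_sub_one_ne_zero v hζ
  have hsum0 : ∑ x : Fˣ, τ ((x⁻¹ : Fˣ) : F) = 0 := sum_teich_inv_eq_zero v hp2 hτ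
  set S : Ω := ∑ x : Fˣ, τ ((x⁻¹ : Fˣ) : F) * (n x : Ω) with hS
  have hSval : v S = 1 := by
    have hcong : v (S - τ (-β)) < 1 := by
      have e : S - τ (-β) =
          (∑ x : Fˣ, τ ((x⁻¹ : Fˣ) : F) *
            ((n x : Ω) - τ (algebraMap (ZMod p) F (Algebra.trace (ZMod p) F (β * x))))) -
          (τ (∑ x : Fˣ, ((x⁻¹ : Fˣ) : F) *
              algebraMap (ZMod p) F (Algebra.trace (ZMod p) F (β * x))) -
            ∑ x : Fˣ, τ (((x⁻¹ : Fˣ) : F) *
              algebraMap (ZMod p) F (Algebra.trace (ZMod p) F (β * x)))) := by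
        rw [sum_units_inv_mul_trace p β, hS]
        simp only [map_mul, mul_sub, Finset.sum_sub_distrib]
        ring
      rw [e]
      refine v.map_sub_lt (v.map_sum_lt one_ne_zero fun x _ => ?_) (hτ.sum _ _)
      rw [map_mul]
      have h1 : v ((n x : Ω) -
          τ (algebraMap (ZMod p) F (Algebra.trace (ZMod p) F (β * x)))) < 1 := by
        have h := hτ.natCast (n x)
        have e2 : algebraMap (ZMod p) F (Algebra.trace (ZMod p) F (β * x)) = ((n x : ℕ) : F) := by
          conv_lhs => rw [← ZMod.natCast_zmod_val (Algebra.trace (ZMod p) F (β * x))]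
          exact map_natCast _ _
        rwa [e2]
      calc v (τ ((x⁻¹ : Fˣ) : F)) *
            v ((n x : Ω) - τ (algebraMap (ZMod p) F (Algebra.trace (ZMod p) F (β * x))))
          ≤ 1 * v ((n x : Ω) -
              τ (algebraMap (ZMod p) F (Algebra.trace (ZMod p) F (β * x)))) :=
            mul_le_mul' (teich_val_le_one v τ _) le_rfl
        _ < 1 := by rw [one_mul]; exact h1
    have hβ' : v (τ (-β)) = 1 := teich_val_eq_one v τ (neg_ne_zero.mpr hβ)
    have := v.map_eq_of_sub_lt (x := τ (-β)) (y := S) (by rw [hβ']; exact hcong)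
    rw [this, hβ']
  have hG : ∑ x : Fˣ, τ ((x⁻¹ : Fˣ) : F) * ζ ^ n x =
      π * S + ∑ x : Fˣ, τ ((x⁻¹ : Fˣ) : F) * (ζ ^ n x - 1 - n x * π) := by
    have : ∀ x : Fˣ, τ ((x⁻¹ : Fˣ) : F) * ζ ^ n x =
        π * (τ ((x⁻¹ : Fˣ) : F) * (n x : Ω)) +
          τ ((x⁻¹ : Fˣ) : F) * (ζ ^ n x - 1 - n x * π) + τ ((x⁻¹ : Fˣ) : F) := fun x => by ring
    rw [Finset.sum_congr rfl fun x _ => this x, Finset.sum_add_distrib, Finset.sum_add_distrib,
      hsum0, add_zero, ← Finset.mul_sum]
  rw [hG]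
  have hrest : v (∑ x : Fˣ, τ ((x⁻¹ : Fˣ) : F) * (ζ ^ n x - 1 - n x * π)) ≤ v π ^ 2 := by
    refine v.map_sum_le fun x _ => ?_
    rw [map_mul]
    calc v (τ ((x⁻¹ : Fˣ) : F)) * v (ζ ^ n x - 1 - n x * π) ≤ 1 * v π ^ 2 :=
          mul_le_mul' (teich_val_le_one v τ _) (val_pow_sub_linear_le v hπ1.le (n x))
      _ = v π ^ 2 := one_mul _
  have hmain : v (π * S) = v π := by rw [map_mul, hSval, mul_one]
  have hlt : v π ^ 2 < v π := by
    rw [pow_two]
    calc v π * v π < v π * 1 := mul_lt_mul_of_pos_left hπ1 (zero_lt_iff.mpr hπ0)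
      _ = v π := mul_one _
  rw [v.map_add_eq_of_lt_left (lt_of_le_of_lt hrest (hmain ▸ hlt)), hmain]

end Gauss

section Sandwich

variable {Ω : Type*} [Field Ω] {Γ₀ : Type*} [LinearOrderedCommGroupWithZero Γ₀]
variable (v : Valuation Ω Γ₀)
variable {F : Type*} [Field F] [Fintype F] [DecidableEq F]
variable {ι : Type*} [Fintype ι]
variable {p : ℕ} [hp : Fact p.Prime] [Algebra (ZMod p) F]

omit [Fintype F] [DecidableEq F] in
/-- The trace characters `x ↦ ζ ^ Tr(μ x)` are multiplicative. -/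
theorem trChar_mul {ζ : Ω} (hζ : ζ ^ p = 1) (μ x y : F) :
    ζ ^ (Algebra.trace (ZMod p) F (μ * (x + y))).val =
      ζ ^ (Algebra.trace (ZMod p) F (μ * x)).val * ζ ^ (Algebra.trace (ZMod p) F (μ * y)).val := by
  rw [mul_add, map_add, ZMod.val_add, ← pow_add, ← pow_eq_pow_mod _ hζ]

/-- (D3) The Gauss sandwich. Let `b` be an order basis of the functions on a finite field `F`
of odd characteristic `p` (the closure of an `F`-line in a function order over an unramified
base), `τ` a Teichmueller-like character and `t` a `τ`-eigenfunction whose coordinates have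
valuations in `v p ^ ℤ` (a rational eigenfunction) and with `v (t 1) ^ (q - 1) = v p ^ a`,
`0 ≤ a < q - 1`. Then `a (p - 1) ≤ q - 1` and `t` itself has integral coordinates. -/
theorem sandwich (hp2 : p ≠ 2) (hvp : v (p : Ω) < 1) (hp0 : (p : Ω) ≠ 0)
    {b : Module.Basis ι Ω (F → Ω)} {m : ι → ι → ι → Ω} (hb : IsOrderBasis v b m)
    {τ : F →*₀ Ω} (hτ : IsTeich v τ) {ζ : Ω} (hζ : IsPrimitiveRoot ζ p)
    {t : F → Ω} (ht : ∀ c x, t (c * x) = τ c * t x)
    (hrat : ∀ i, b.repr t i = 0 ∨ ∃ n : ℤ, v (b.repr t i) = v (p : Ω) ^ n)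
    {a : ℕ} (ha : a < Fintype.card F - 1)
    (hval : v (t 1) ^ (Fintype.card F - 1) = v (p : Ω) ^ a) :
    a * (p - 1) ≤ Fintype.card F - 1 ∧ ∀ i, v (b.repr t i) ≤ 1 := by
  classical
  set w : Γ₀ := v (p : Ω) with hw
  have hw0 : w ≠ 0 := by rw [hw, Ne, Valuation.zero_iff]; exact hp0
  have hw0' : 0 < w := zero_lt_iff.mpr hw0
  have hQ : 0 < Fintype.card F - 1 := by
    have := Fintype.one_lt_card (α := F)
    omega
  have hP : 2 ≤ p - 1 := by
    have := hp.out.two_le
    omega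
  -- `t 1 ≠ 0`
  have ht1 : t 1 ≠ 0 := by
    intro h
    rw [h, map_zero, zero_pow hQ.ne'] at hval
    exact pow_ne_zero a hw0 hval.symm
  have htx : ∀ x, t x = τ x * t 1 := fun x => by
    have := ht x 1
    rwa [mul_one] at this
  -- the Gauss eigenfunction
  set ξ : Fˣ → F → Ω := fun μ x => ζ ^ (Algebra.trace (ZMod p) F ((μ : F) * x)).val with hξ
  set g : F → Ω := ∑ μ : Fˣ, τ ((μ⁻¹ : Fˣ) : F) • ξ μ with hg
  have hξint : ∀ μ i, v (b.repr (ξ μ) i) ≤ 1 := fun μ i =>
    char_repr_le_one v hb (fun x y => trChar_mul hζ.pow_eq_one (μ : F) x y) i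
  have hgint : ∀ i, v (b.repr g i) ≤ 1 := by
    intro i
    rw [hg, map_sum, Finsupp.coe_finsetSum, Finset.sum_apply]
    refine v.map_sum_le fun μ _ => ?_
    rw [map_smul, Finsupp.smul_apply, smul_eq_mul, map_mul]
    calc v (τ ((μ⁻¹ : Fˣ) : F)) * v (b.repr (ξ μ) i) ≤ 1 * 1 :=
          mul_le_mul' (teich_val_le_one v τ _) (hξint μ i)
      _ = 1 := one_mul 1
  have hgapp : ∀ x, g x = ∑ μ : Fˣ, τ ((μ⁻¹ : Fˣ) : F) * ξ μ x := by
    intro x
    rw [hg, Finset.sum_apply]
    exact Finset.sum_congr rfl fun μ _ => by rw [Pi.smul_apply, smul_eq_mul]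
  have hg0 : g 0 = 0 := by
    rw [hgapp 0, ← sum_teich_inv_eq_zero v hp2 hτ]
    refine Finset.sum_congr rfl fun μ _ => ?_
    rw [hξ]
    simp
  have hg1 : v (g 1) = v (ζ - 1) := by
    rw [hgapp 1, ← gaussSum_val v hp2 hvp hτ hζ (one_ne_zero (α := F))]
    refine congrArg v (Finset.sum_congr rfl fun μ _ => ?_)
    rw [hξ]
    simp
  have hgu : ∀ u : Fˣ, g (u : F) = τ (u : F) * g 1 := by
    intro u
    rw [hgapp, hgapp, Finset.mul_sum]
    refine Fintype.sum_equiv (Equiv.mulRight u) _ _ fun μ => ?_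
    have e1 : τ ((μ⁻¹ : Fˣ) : F) = τ (u : F) * τ (((μ * u)⁻¹ : Fˣ) : F) := by
      rw [← map_mul]
      congr 1
      rw [mul_inv_rev, Units.val_mul, ← mul_assoc, ← Units.val_mul, mul_inv_cancel,
        Units.val_one, one_mul]
    rw [hξ]
    simp only [Equiv.coe_mulRight, Units.val_mul, mul_one]
    rw [e1]
    ring
  have hgt : g = (g 1 / t 1) • t := by
    funext x
    rw [Pi.smul_apply, smul_eq_mul, htx x]
    rcases eq_or_ne x 0 with rfl | hx
    · rw [hg0, map_zero, zero_mul, mul_zero]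
    · have := hgu (Units.mk0 x hx)
      rw [Units.val_mk0] at this
      rw [this]
      field_simp
  -- the largest coordinate of `t`
  obtain ⟨i1, hi1⟩ : ∃ i, b.repr t i ≠ 0 := by
    by_contra hcon
    push Not at hcon
    have : t = 0 := by
      apply b.repr.injective
      ext i
      simpa using hcon i
    exact ht1 (by rw [this]; rfl)
  obtain ⟨i0, -, hi0⟩ := Finset.exists_max_image Finset.univ (fun j => v (b.repr t j))
    ⟨i1, Finset.mem_univ i1⟩
  have hmax : ∀ j, v (b.repr t j) ≤ v (b.repr t i0) := fun j => hi0 j (Finset.mem_univ j)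
  have hM0 : b.repr t i0 ≠ 0 := by
    intro h
    have := hmax i1
    rw [h, map_zero] at this
    exact hi1 ((Valuation.zero_iff v).mp (le_antisymm this zero_le))
  obtain ⟨n, hn⟩ : ∃ n : ℤ, v (b.repr t i0) = w ^ n := (hrat i0).resolve_left hM0
  -- (1) integrality at the point `1`
  have h1 : v (t 1) ≤ w ^ n := by
    rw [apply_eq_sum_repr b t 1, ← hn]
    refine v.map_sum_le fun i _ => ?_
    rw [map_mul]
    calc v (b.repr t i) * v (b i 1) ≤ v (b.repr t i0) * 1 := mul_le_mul' (hmax i) (hb.int i 1)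
      _ = v (b.repr t i0) := mul_one _
  -- (2) the sandwich
  have h2 : v (ζ - 1) * w ^ n ≤ v (t 1) := by
    have hrepr : b.repr g i0 = (g 1 / t 1) * b.repr t i0 := by
      rw [hgt, map_smul, Finsupp.smul_apply, smul_eq_mul]
      congr 2
      rw [← hgt]
    have := hgint i0
    rw [hrepr, map_mul, map_div₀, hg1, hn] at this
    have ht1' : v (t 1) ≠ 0 := by rwa [Ne, Valuation.zero_iff]
    have h3 : v (ζ - 1) / v (t 1) * w ^ n * v (t 1) ≤ 1 * v (t 1) :=
      mul_le_mul' this le_rfl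
    rw [one_mul] at h3
    calc v (ζ - 1) * w ^ n = v (ζ - 1) / v (t 1) * w ^ n * v (t 1) := by
          field_simp
      _ ≤ v (t 1) := h3
  -- exponent arithmetic
  have e1 : n * ((Fintype.card F - 1 : ℕ) : ℤ) ≤ (a : ℤ) := by
    have := pow_le_pow_left' h1 (Fintype.card F - 1)
    rw [hval, ← zpow_natCast w a, ← zpow_natCast (w ^ n), ← zpow_mul] at this
    exact (zpow_le_zpow_iff_right_of_lt_one₀ hw0' hvp).mp this
  have e2 : (a : ℤ) * ((p - 1 : ℕ) : ℤ) ≤
      ((Fintype.card F - 1 : ℕ) : ℤ) +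
        n * ((Fintype.card F - 1 : ℕ) : ℤ) * ((p - 1 : ℕ) : ℤ) := by
    have := pow_le_pow_left' h2 ((Fintype.card F - 1) * (p - 1))
    have hl : (v (ζ - 1) * w ^ n) ^ ((Fintype.card F - 1) * (p - 1)) =
        w ^ (((Fintype.card F - 1 : ℕ) : ℤ) +
          n * ((Fintype.card F - 1 : ℕ) : ℤ) * ((p - 1 : ℕ) : ℤ)) := by
      rw [mul_pow, mul_comm (Fintype.card F - 1) (p - 1), pow_mul, val_zeta_sub_one_pow v hζ,
        zpow_add₀ hw0, zpow_natCast, ← zpow_natCast (w ^ n), ← zpow_mul]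
      congr 2
      push_cast
      ring
    have hr : v (t 1) ^ ((Fintype.card F - 1) * (p - 1)) =
        w ^ ((a : ℤ) * ((p - 1 : ℕ) : ℤ)) := by
      rw [pow_mul, hval, ← pow_mul, ← zpow_natCast]
      congr 1
    rw [hl, hr] at this
    exact (zpow_le_zpow_iff_right_of_lt_one₀ hw0' hvp).mp this
  have hQ' : (0 : ℤ) < ((Fintype.card F - 1 : ℕ) : ℤ) := by exact_mod_cast hQ
  have hP' : (2 : ℤ) ≤ ((p - 1 : ℕ) : ℤ) := by exact_mod_cast hP
  have ha' : (a : ℤ) < ((Fintype.card F - 1 : ℕ) : ℤ) := by exact_mod_cast ha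
  have hn0 : n = 0 := by
    have hle : n ≤ 0 := by
      by_contra hcon
      push Not at hcon
      nlinarith
    have hge : 0 ≤ n := by
      by_contra hcon
      push Not at hcon
      have h5 : n ≤ -1 := by omega
      have h6 : (0 : ℤ) ≤ (a : ℤ) * ((p - 1 : ℕ) : ℤ) := by positivity
      nlinarith [mul_pos hQ' (by linarith : (0 : ℤ) < ((p - 1 : ℕ) : ℤ))]
    omega
  refine ⟨?_, fun i => ?_⟩
  · rw [hn0] at e2
    have : (a : ℤ) * ((p - 1 : ℕ) : ℤ) ≤ ((Fintype.card F - 1 : ℕ) : ℤ) := by linarith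
    exact_mod_cast this
  · have := hmax i
    rwa [hn, hn0, zpow_zero] at this

/-- Raynaud's exponents for `F_{p^2}`-lines: if the two Teichmueller eigen-exponents
satisfy the sandwich bound `a (p - 1) ≤ p^2 - 1` and `a₂ ≡ p a₁` modulo `p^2 - 1`, then
`(a₁, a₂)` is `(0,0)`, `(1,p)`, `(p,1)` or `(p+1,p+1)`. -/
theorem raynaud_exponents {p a₁ a₂ : ℕ} (hp : 3 ≤ p)
    (h1 : a₁ * (p - 1) ≤ p ^ 2 - 1) (h2 : a₂ * (p - 1) ≤ p ^ 2 - 1)
    (hcong : a₂ ≡ p * a₁ [MOD p ^ 2 - 1]) :
    (a₁ = 0 ∧ a₂ = 0) ∨ (a₁ = 1 ∧ a₂ = p) ∨ (a₁ = p ∧ a₂ = 1) ∨ (a₁ = p + 1 ∧ a₂ = p + 1) := by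
  obtain ⟨P, rfl⟩ : ∃ P, p = P + 1 := ⟨p - 1, by omega⟩
  have hP : 2 ≤ P := by omega
  have hsq : (P + 1) ^ 2 - 1 = (P + 2) * P := by
    have : (P + 1) ^ 2 = (P + 2) * P + 1 := by ring
    omega
  rw [Nat.add_sub_cancel] at h1 h2
  rw [hsq] at h1 h2 hcong
  have ha1 : a₁ ≤ P + 2 := Nat.le_of_mul_le_mul_right h1 (by omega)
  have ha2 : a₂ ≤ P + 2 := Nat.le_of_mul_le_mul_right h2 (by omega)
  have hdvd : (((P + 2) * P : ℕ) : ℤ) ∣ (((P + 1) * a₁ : ℕ) : ℤ) - (a₂ : ℤ) :=
    (Nat.modEq_iff_dvd.mp hcong)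
  obtain ⟨k, hk⟩ := hdvd
  push_cast at hk
  have hP' : (2 : ℤ) ≤ (P : ℤ) := by exact_mod_cast hP
  have ha1' : (a₁ : ℤ) ≤ P + 2 := by exact_mod_cast ha1
  have ha2' : (a₂ : ℤ) ≤ P + 2 := by exact_mod_cast ha2
  have ha1'' : (0 : ℤ) ≤ a₁ := Int.natCast_nonneg _
  have ha2'' : (0 : ℤ) ≤ a₂ := Int.natCast_nonneg _
  have hPP : (2 : ℤ) * P ≤ (P : ℤ) * P := mul_le_mul_of_nonneg_right hP' (by linarith)
  have hc0 : (0 : ℤ) ≤ ((P : ℤ) + 2) * P := mul_nonneg (by linarith) (by linarith)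
  have hPa : (0 : ℤ) ≤ (P : ℤ) * a₁ := mul_nonneg (by linarith) ha1''
  have hPa' : (P : ℤ) * a₁ ≤ (P : ℤ) * (P + 2) :=
    mul_le_mul_of_nonneg_left ha1' (by linarith)
  have hkge : 0 ≤ k := by
    by_contra hcon
    have hk1 : k ≤ -1 := by omega
    have := mul_le_mul_of_nonneg_left hk1 hc0
    nlinarith
  have hkle : k ≤ 1 := by
    by_contra hcon
    have hk2 : 2 ≤ k := by omega
    have := mul_le_mul_of_nonneg_left hk2 hc0
    nlinarith
  have hk01 : k = 0 ∨ k = 1 := by omega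
  rcases hk01 with rfl | rfl
  · have h3 : ((P : ℤ) + 1) * a₁ = a₂ := by linarith
    have h4 : a₁ = 0 ∨ a₁ = 1 ∨ 2 ≤ a₁ := by omega
    rcases h4 with h | h | h
    · left
      subst h
      refine ⟨rfl, ?_⟩
      have : (a₂ : ℤ) = 0 := by simpa using h3.symm
      exact_mod_cast this
    · right; left
      subst h
      refine ⟨rfl, ?_⟩
      have : (a₂ : ℤ) = P + 1 := by simpa using h3.symm
      exact_mod_cast this
    · exfalso
      have h' : (2 : ℤ) ≤ a₁ := by exact_mod_cast h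
      have := mul_le_mul_of_nonneg_left h' (by linarith : (0 : ℤ) ≤ (P : ℤ) + 1)
      nlinarith
  · have h3 : ((P : ℤ) + 1) * a₁ = a₂ + (P + 2) * P := by linarith
    have h4 : a₁ ≤ P ∨ a₁ = P + 1 ∨ a₁ = P + 2 := by omega
    rcases h4 with h | h | h
    · exfalso
      have h' : (a₁ : ℤ) ≤ P := by exact_mod_cast h
      have := mul_le_mul_of_nonneg_left h' (by linarith : (0 : ℤ) ≤ (P : ℤ) + 1)
      nlinarith
    · right; right; left
      subst h
      refine ⟨rfl, ?_⟩
      push_cast at h3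
      have : (a₂ : ℤ) = 1 := by nlinarith
      exact_mod_cast this
    · right; right; right
      subst h
      refine ⟨rfl, ?_⟩
      push_cast at h3
      have : (a₂ : ℤ) = P + 2 := by nlinarith
      exact_mod_cast this

end Sandwich

end Fermat.Agent.S56.helper4982
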