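/-
S56, FLAT-LOCAL, design D, helper4982: the niveau-2 depth theorem (DEP-N2 = "C2") from the
Gauss sandwich, in an abstract carrier with a family of inertia-like automorphisms.

Main statement `exists_uniformizing_function`: for an order on an `F_{p^2}`-line on which an
inertia-like family acts through a character which is not `F_p`-valued, there is an equivariant
function `X` in the order with `X 0 = 0` and `v (X x - X y) ^ (p ^ 2 - 1) = v p` for `x ≠ y`.
-/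
import Fermat.Agent.S56.helper4982_Depth

namespace Fermat.Agent.S56.helper4982

open Finset

section N2

variable {Ω : Type*} [Field Ω] {Γ₀ : Type*} [LinearOrderedCommGroupWithZero Γ₀]
variable (v : Valuation Ω Γ₀)
variable {F : Type*} [Field F] [Fintype F] [DecidableEq F]
variable {ι : Type*} [Fintype ι]
variable {p : ℕ} [hp : Fact p.Prime] [Algebra (ZMod p) F]
variable {G : Type*} (σ : G → Ω →+* Ω) (ψ : G → Fˣ)

omit [Fintype F] [DecidableEq F] [Algebra (ZMod p) F] in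
/-- The coordinates of an equivariant function in an equivariant basis are fixed. -/
theorem repr_fixed_of_equivariant {b : Module.Basis ι Ω (F → Ω)}
    (hbeq : ∀ g i x, b i ((ψ g : F) * x) = σ g (b i x)) {t : F → Ω}
    (hteq : ∀ g x, t ((ψ g : F) * x) = σ g (t x)) (g : G) (i : ι) :
    σ g (b.repr t i) = b.repr t i := by
  classical
  have hli := Fintype.linearIndependent_iff.mp b.linearIndependent
  have key : ∑ j, (σ g (b.repr t j) - b.repr t j) • b j = 0 := by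
    funext x
    have hx : x = (ψ g : F) * (((ψ g)⁻¹ : Fˣ) : F) * x := by
      rw [← Units.val_mul, mul_inv_cancel, Units.val_one, one_mul]
    set z : F := (((ψ g)⁻¹ : Fˣ) : F) * x with hz
    have hx' : x = (ψ g : F) * z := by rw [hz, ← mul_assoc]; exact hx
    have e1 : t x = ∑ j, σ g (b.repr t j) * b j x := by
      rw [hx', hteq g z, apply_eq_sum_repr b t z, map_sum]
      exact Finset.sum_congr rfl fun j _ => by rw [map_mul, hbeq g j z]
    have e2 := apply_eq_sum_repr b t x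
    rw [Finset.sum_apply, Pi.zero_apply]
    have e3 : ∑ j, ((σ g (b.repr t j) - b.repr t j) • b j) x =
        ∑ j, σ g (b.repr t j) * b j x - ∑ j, b.repr t j * b j x := by
      rw [← Finset.sum_sub_distrib]
      exact Finset.sum_congr rfl fun j _ => by rw [Pi.smul_apply, smul_eq_mul, sub_mul]
    rw [e3, ← e1, ← e2, sub_self]
  exact sub_eq_zero.mp (hli _ key i)

omit [Fintype F] [DecidableEq F] [Algebra (ZMod p) F] in
/-- A Teichmueller-like character separates points modulo the maximal ideal. -/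
theorem IsTeich.val_sub_eq_one [Finite F] {τ : F →*₀ Ω} (hτ : IsTeich v τ) {x y : F}
    (hxy : x ≠ y) : v (τ x - τ y) = 1 := by
  have h1 := hτ.add (x - y) y
  rw [sub_add_cancel] at h1
  have h2 : v (τ (x - y)) = 1 := teich_val_eq_one v τ (sub_ne_zero.mpr hxy)
  have h3 : τ x - τ y = τ (x - y) + (τ x - (τ (x - y) + τ y)) := by ring
  rw [h3, v.map_add_eq_of_lt_left (by rw [h2]; exact h1), h2]

/-- The eigen-sandwich: an eigenvector `y` of the inertia-like family for the character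
`τ ∘ ψ` has a well-defined exponent `N` (`v y ^ (q - 1) = v p ^ N`); with `a = N mod (q - 1)`
one has `a (p - 1) ≤ q - 1` and the normalised eigenfunction `x ↦ τ x * (y / p ^ n)` lies in
the order. -/
theorem eigen_sandwich (hp2 : p ≠ 2) (hvp : v (p : Ω) < 1) (hp0 : (p : Ω) ≠ 0)
    {b : Module.Basis ι Ω (F → Ω)} {m : ι → ι → ι → Ω} (hb : IsOrderBasis v b m)
    (hbeq : ∀ g i x, b i ((ψ g : F) * x) = σ g (b i x))
    (hE2 : ∀ y : Ω, y ≠ 0 → (∀ g, σ g y = y) → ∃ n : ℤ, v y = v (p : Ω) ^ n)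
    {ζ : Ω} (hζ : IsPrimitiveRoot ζ p)
    {τ : F →*₀ Ω} (hτ : IsTeich v τ) (hτfix : ∀ g x, σ g (τ x) = τ x)
    {y : Ω} (hy : y ≠ 0) (hyeig : ∀ g, σ g y = τ (ψ g) * y) :
    ∃ (a : ℕ) (n : ℤ), a < Fintype.card F - 1 ∧
      v y ^ (Fintype.card F - 1) = v (p : Ω) ^ ((a : ℤ) + ((Fintype.card F - 1 : ℕ) : ℤ) * n) ∧
      v (y / (p : Ω) ^ n) ^ (Fintype.card F - 1) = v (p : Ω) ^ a ∧
      a * (p - 1) ≤ Fintype.card F - 1 ∧
      ∀ i, v (b.repr (fun x => τ x * (y / (p : Ω) ^ n)) i) ≤ 1 := by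
  classical
  set q1 : ℕ := Fintype.card F - 1 with hq1
  have hq1pos : 0 < q1 := by
    have := Fintype.one_lt_card (α := F)
    omega
  have hw0 : v (p : Ω) ≠ 0 := by rwa [Ne, Valuation.zero_iff]
  have hσp : ∀ g, σ g (p : Ω) = p := fun g => map_natCast (σ g) p
  -- `y ^ q1` is fixed
  have hfix : ∀ g, σ g (y ^ q1) = y ^ q1 := by
    intro g
    rw [map_pow, hyeig g, mul_pow, ← map_pow, ← Units.val_pow_eq_pow_val]
    have : ((ψ g ^ q1 : Fˣ) : F) = 1 := by
      rw [Units.val_pow_eq_pow_val]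
      exact FiniteField.pow_card_sub_one_eq_one _ (Units.ne_zero _)
    rw [this, map_one, one_mul]
  obtain ⟨N, hN⟩ := hE2 (y ^ q1) (pow_ne_zero _ hy) hfix
  rw [map_pow] at hN
  have hq1' : (0 : ℤ) < (q1 : ℤ) := by exact_mod_cast hq1pos
  set n : ℤ := N / (q1 : ℤ) with hn
  have hmod0 : 0 ≤ N % (q1 : ℤ) := Int.emod_nonneg _ hq1'.ne'
  have hmodlt : N % (q1 : ℤ) < (q1 : ℤ) := Int.emod_lt_of_pos _ hq1'
  obtain ⟨a, ha⟩ : ∃ a : ℕ, (a : ℤ) = N % (q1 : ℤ) := ⟨(N % (q1 : ℤ)).toNat, Int.toNat_of_nonneg hmod0⟩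
  have hNa : N = (a : ℤ) + (q1 : ℤ) * n := by
    rw [ha, hn]
    exact (Int.emod_add_mul_ediv N (q1 : ℤ)).symm
  have haq : a < q1 := by
    have : (a : ℤ) < (q1 : ℤ) := by rw [ha]; exact hmodlt
    exact_mod_cast this
  set c : Ω := y / (p : Ω) ^ n with hc
  have hcval : v c ^ q1 = v (p : Ω) ^ a := by
    rw [hc, map_div₀, div_pow, hN, map_zpow₀, ← zpow_natCast (v (p : Ω) ^ n) q1, ← zpow_mul,
      ← zpow_sub₀ hw0, ← zpow_natCast (v (p : Ω)) a]
    congr 1
    rw [hNa]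
    ring
  have hc0 : c ≠ 0 := by
    rw [hc]
    exact div_ne_zero hy (zpow_ne_zero _ hp0)
  have hceig : ∀ g, σ g c = τ (ψ g) * c := by
    intro g
    rw [hc, map_div₀, map_zpow₀, hσp g, hyeig g, mul_div_assoc]
  set t : F → Ω := fun x => τ x * c with ht
  have hteig : ∀ d x, t (d * x) = τ d * t x := by
    intro d x
    rw [ht]
    simp only [map_mul]
    ring
  have hteq : ∀ g x, t ((ψ g : F) * x) = σ g (t x) := by
    intro g x
    rw [ht]
    simp only [map_mul]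
    rw [hτfix g x, hceig g]
    ring
  have hrat : ∀ i, b.repr t i = 0 ∨ ∃ n : ℤ, v (b.repr t i) = v (p : Ω) ^ n := by
    intro i
    by_cases h0 : b.repr t i = 0
    · exact Or.inl h0
    · exact Or.inr (hE2 _ h0 fun g => repr_fixed_of_equivariant σ ψ hbeq hteq g i)
  have hval : v (t 1) ^ (Fintype.card F - 1) = v (p : Ω) ^ a := by
    rw [ht]
    simp only [map_one, one_mul]
    exact hcval
  obtain ⟨h1, h2⟩ := sandwich v hp2 hvp hp0 hb hτ hζ hteig hrat haq hval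
  exact ⟨a, n, haq, by rw [hN, hNa], hcval, h1, h2⟩

/-- (Raynaud, niveau 2) **The eigen-uniformizer.** Let `F` be a field with `p ^ 2` elements,
`p` odd, and `b` an order basis of the functions on `F` which is equivariant for a family `σ`
of inertia-like automorphisms acting on `F` through `ψ`, where `ψ` is not `F_p^×`-valued.
Assume fixed elements have valuations in `v p ^ ℤ`, and that the character `τ ∘ ψ` has an
eigenvector `y` (Hilbert 90). Then one of the two characters `τ ∘ ψ`, `(τ ∘ ψ) ^ p` has an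
eigenvector `c` with `v c ^ (p ^ 2 - 1) = v p` whose eigenfunction lies in the order. -/
theorem exists_eigen_uniformizer (hp2 : p ≠ 2) (hvp : v (p : Ω) < 1) (hp0 : (p : Ω) ≠ 0)
    (hq : Fintype.card F = p ^ 2)
    {b : Module.Basis ι Ω (F → Ω)} {m : ι → ι → ι → Ω} (hb : IsOrderBasis v b m)
    (hbeq : ∀ g i x, b i ((ψ g : F) * x) = σ g (b i x))
    (hin : ∀ g x, v x ≤ 1 → v (σ g x - x) < 1)
    (hE2 : ∀ y : Ω, y ≠ 0 → (∀ g, σ g y = y) → ∃ n : ℤ, v y = v (p : Ω) ^ n)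
    {ζ : Ω} (hζ : IsPrimitiveRoot ζ p)
    {τ : F →*₀ Ω} (hτ : IsTeich v τ) (hτfix : ∀ g x, σ g (τ x) = τ x)
    {y : Ω} (hy : y ≠ 0) (hyeig : ∀ g, σ g y = τ (ψ g) * y)
    (hn2 : ∃ g, (ψ g : F) ^ (p - 1) ≠ 1) :
    (∃ c : Ω, v c ^ (p ^ 2 - 1) = v (p : Ω) ∧ (∀ g, σ g c = τ (ψ g) * c) ∧
        ∀ i, v (b.repr (fun x => τ x * c) i) ≤ 1) ∨
    (∃ c : Ω, v c ^ (p ^ 2 - 1) = v (p : Ω) ∧ (∀ g, σ g c = τ ((ψ g : F) ^ p) * c) ∧
        ∀ i, v (b.repr (fun x => τ (x ^ p) * c) i) ≤ 1) := by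
  classical
  have hchar : CharP F p := charP_of_injective_algebraMap (algebraMap (ZMod p) F).injective p
  have hp3 : 3 ≤ p := by
    have := hp.out.two_le
    omega
  have hw0 : v (p : Ω) ≠ 0 := by rwa [Ne, Valuation.zero_iff]
  have hw0' : 0 < v (p : Ω) := zero_lt_iff.mpr hw0
  have hq1 : Fintype.card F - 1 = p ^ 2 - 1 := by rw [hq]
  have hq1pos : 0 < p ^ 2 - 1 := by
    have : 2 ^ 2 ≤ p ^ 2 := Nat.pow_le_pow_left hp.out.two_le 2
    omega
  -- the second Teichmueller character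
  set τ₂ : F →*₀ Ω := τ.comp (powMonoidWithZeroHom hp.out.ne_zero) with hτ₂
  have hτ₂app : ∀ x, τ₂ x = τ (x ^ p) := fun x => rfl
  have hτ₂T : IsTeich v τ₂ := by
    refine ⟨fun x x' => ?_⟩
    rw [hτ₂app, hτ₂app, hτ₂app, add_pow_char]
    exact hτ.add _ _
  have hτ₂fix : ∀ g x, σ g (τ₂ x) = τ₂ x := fun g x => hτfix g _
  have hy₂ : y ^ p ≠ 0 := pow_ne_zero _ hy
  have hyeig₂ : ∀ g, σ g (y ^ p) = τ₂ (ψ g) * y ^ p := by
    intro g
    rw [map_pow, hyeig g, mul_pow, hτ₂app, map_pow]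
  obtain ⟨a₁, n₁, ha₁, hN₁, hc₁, hb₁, hint₁⟩ :=
    eigen_sandwich v σ ψ hp2 hvp hp0 hb hbeq hE2 hζ hτ hτfix hy hyeig
  obtain ⟨a₂, n₂, ha₂, hN₂, hc₂, hb₂, hint₂⟩ :=
    eigen_sandwich v σ ψ hp2 hvp hp0 hb hbeq hE2 hζ hτ₂T hτ₂fix hy₂ hyeig₂
  rw [hq1] at ha₁ hN₁ hc₁ hb₁ ha₂ hN₂ hc₂ hb₂
  -- the congruence `a₂ ≡ p a₁`
  have hNN : (a₂ : ℤ) + ((p ^ 2 - 1 : ℕ) : ℤ) * n₂ =
      (p : ℤ) * ((a₁ : ℤ) + ((p ^ 2 - 1 : ℕ) : ℤ) * n₁) := by
    have h1 : v (y ^ p) ^ (p ^ 2 - 1) =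
        v (p : Ω) ^ ((p : ℤ) * ((a₁ : ℤ) + ((p ^ 2 - 1 : ℕ) : ℤ) * n₁)) := by
      rw [map_pow, ← pow_mul, mul_comm p, pow_mul, hN₁, ← zpow_natCast, ← zpow_mul]
      congr 1
      ring
    rw [hN₂] at h1
    exact zpow_right_injective₀ hw0' hvp.ne h1
  have hcong : a₂ ≡ p * a₁ [MOD p ^ 2 - 1] := by
    rw [Nat.modEq_iff_dvd]
    refine ⟨n₂ - p * n₁, ?_⟩
    push_cast
    have := hNN
    linarith
  -- unit characters are distinguished modulo the maximal ideal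
  have hunit : ∀ u : F, u ≠ 1 → v (τ u - 1) = 1 := by
    intro u hu
    have := hτ.val_sub_eq_one v hu
    rwa [map_one] at this
  obtain ⟨g₀, hg₀⟩ := hn2
  have hg₀1 : (ψ g₀ : F) ≠ 1 := by
    intro h
    rw [h, one_pow] at hg₀
    exact hg₀ rfl
  -- an eigenvector of valuation one forces a trivial character
  have hkill : ∀ (z : Ω) (u : F), v z = 1 → σ g₀ z = τ u * z → u = 1 := by
    intro z u hz hzeig
    by_contra hu
    have h1 := hin g₀ z hz.le
    rw [hzeig] at h1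
    have h2 : τ u * z - z = (τ u - 1) * z := by ring
    rw [h2, map_mul, hunit u hu, hz, one_mul] at h1
    exact lt_irrefl _ h1
  have hval1 : ∀ z : Ω, v z ^ (p ^ 2 - 1) = 1 → v z = 1 := fun z hz =>
    (pow_eq_one_iff_of_nonneg zero_le hq1pos.ne').mp hz
  set c₁ : Ω := y / (p : Ω) ^ n₁ with hc₁def
  set c₂ : Ω := y ^ p / (p : Ω) ^ n₂ with hc₂def
  have hσp : ∀ g, σ g (p : Ω) = p := fun g => map_natCast (σ g) p
  have hceig₁ : ∀ g, σ g c₁ = τ (ψ g) * c₁ := by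
    intro g
    rw [hc₁def, map_div₀, map_zpow₀, hσp g, hyeig g, mul_div_assoc]
  have hceig₂ : ∀ g, σ g c₂ = τ₂ (ψ g) * c₂ := by
    intro g
    rw [hc₂def, map_div₀, map_zpow₀, hσp g, hyeig₂ g, mul_div_assoc]
  rcases raynaud_exponents hp3 hb₁ hb₂ hcong with ⟨h1, -⟩ | ⟨h1, h2⟩ | ⟨h1, h2⟩ | ⟨h1, -⟩
  · -- `a₁ = 0`: the character would be trivial
    exfalso
    rw [h1, pow_zero] at hc₁
    exact hg₀1 (hkill c₁ (ψ g₀ : F) (hval1 _ hc₁) (hceig₁ g₀))
  · -- `a₁ = 1`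
    refine Or.inl ⟨c₁, ?_, hceig₁, hint₁⟩
    rw [hc₁, h1, pow_one]
  · -- `a₂ = 1`
    refine Or.inr ⟨c₂, ?_, hceig₂, hint₂⟩
    rw [hc₂, h2, pow_one]
  · -- `a₁ = p + 1`: the character would be `F_p^×`-valued
    exfalso
    set z : Ω := c₁ ^ (p - 1) / (p : Ω) with hz
    have hzval : v z ^ (p ^ 2 - 1) = 1 := by
      rw [hz, map_div₀, div_pow, map_pow, ← pow_mul, mul_comm (p - 1), pow_mul, hc₁, h1,
        ← pow_mul]
      have : (p + 1) * (p - 1) = p ^ 2 - 1 := by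
        obtain ⟨P, rfl⟩ : ∃ P, p = P + 1 := ⟨p - 1, by omega⟩
        have : (P + 1) ^ 2 = (P + 1 + 1) * P + 1 := by ring
        simp only [Nat.add_sub_cancel]
        omega
      rw [this]
      exact div_self (pow_ne_zero _ hw0)
    have hzeig : σ g₀ z = τ ((ψ g₀ : F) ^ (p - 1)) * z := by
      rw [hz, map_div₀, map_pow, hσp, hceig₁ g₀, mul_pow, map_pow, mul_div_assoc]
    exact hg₀ (hkill z _ (hval1 _ hzval) hzeig)

/-- (DEP-N2, "C2") **The niveau-2 depth theorem.** Let `F` be a field with `p ^ 2` elements,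
`p` odd, and `b` an order basis of the functions on `F` which is equivariant for a family `σ`
of inertia-like automorphisms acting on `F` through `ψ`, where `ψ` is not `F_p^×`-valued.
Assume fixed elements have valuations in `v p ^ ℤ`, and that the character `τ ∘ ψ` has an
eigenvector `y` (Hilbert 90). Then the order contains an equivariant function `X` with
`X 0 = 0` all of whose differences `X x - X y`, `x ≠ y`, have valuation `v p ^ (1 / (p^2 - 1))`:
every nonzero point has depth exactly `1 / (p ^ 2 - 1)`. -/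
theorem exists_uniformizing_function (hp2 : p ≠ 2) (hvp : v (p : Ω) < 1) (hp0 : (p : Ω) ≠ 0)
    (hq : Fintype.card F = p ^ 2)
    {b : Module.Basis ι Ω (F → Ω)} {m : ι → ι → ι → Ω} (hb : IsOrderBasis v b m)
    (hbeq : ∀ g i x, b i ((ψ g : F) * x) = σ g (b i x))
    (hin : ∀ g x, v x ≤ 1 → v (σ g x - x) < 1)
    (hE2 : ∀ y : Ω, y ≠ 0 → (∀ g, σ g y = y) → ∃ n : ℤ, v y = v (p : Ω) ^ n)
    {ζ : Ω} (hζ : IsPrimitiveRoot ζ p)
    {τ : F →*₀ Ω} (hτ : IsTeich v τ) (hτfix : ∀ g x, σ g (τ x) = τ x)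
    {y : Ω} (hy : y ≠ 0) (hyeig : ∀ g, σ g y = τ (ψ g) * y)
    (hn2 : ∃ g, (ψ g : F) ^ (p - 1) ≠ 1) :
    ∃ X : F → Ω, (∀ i, v (b.repr X i) ≤ 1) ∧ (∀ g x, X ((ψ g : F) * x) = σ g (X x)) ∧
      X 0 = 0 ∧ ∀ x x', x ≠ x' → v (X x - X x') ^ (p ^ 2 - 1) = v (p : Ω) := by
  classical
  have hchar : CharP F p := charP_of_injective_algebraMap (algebraMap (ZMod p) F).injective p
  have hfrob : ∀ x x' : F, x ≠ x' → x ^ p ≠ x' ^ p := fun x x' hxx h =>
    hxx (frobenius_inj F p h)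
  rcases exists_eigen_uniformizer v σ ψ hp2 hvp hp0 hq hb hbeq hin hE2 hζ hτ hτfix hy hyeig hn2
    with ⟨c, hc, hceig, hint⟩ | ⟨c, hc, hceig, hint⟩
  · refine ⟨fun x => τ x * c, hint, fun g x => ?_, by simp, fun x x' hxx => ?_⟩
    · simp only [map_mul]
      rw [hτfix g x, hceig g]
      ring
    · have e : τ x * c - τ x' * c = (τ x - τ x') * c := by ring
      rw [e, map_mul, hτ.val_sub_eq_one v hxx, one_mul, hc]
  · refine ⟨fun x => τ (x ^ p) * c, hint, fun g x => ?_, ?_, fun x x' hxx => ?_⟩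
    · simp only [map_mul]
      rw [hτfix g, hceig g, mul_pow, map_mul]
      ring
    · simp [zero_pow hp.out.ne_zero]
    · have e : τ (x ^ p) * c - τ (x' ^ p) * c = (τ (x ^ p) - τ (x' ^ p)) * c := by ring
      rw [e, map_mul, hτ.val_sub_eq_one v (hfrob x x' hxx), one_mul, hc]

/-- (Raynaud, niveau 2) **The type.** In the situation of `exists_eigen_uniformizer`, let `π`
be an element with `v π ^ (p ^ 2 - 1) = v p` on which the family acts through unit multipliers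
`c g` (a uniformizer of the tame field of degree `p ^ 2 - 1`, `c` its tame character). Then the
character `ψ` is the fundamental character of niveau 2 or its `p`-th power: modulo the maximal
ideal, `τ (ψ g) ≡ c g` for all `g`, or `τ (ψ g) ≡ c g ^ p` for all `g`. -/
theorem n2_type (hp2 : p ≠ 2) (hvp : v (p : Ω) < 1) (hp0 : (p : Ω) ≠ 0)
    (hq : Fintype.card F = p ^ 2)
    {b : Module.Basis ι Ω (F → Ω)} {m : ι → ι → ι → Ω} (hb : IsOrderBasis v b m)
    (hbeq : ∀ g i x, b i ((ψ g : F) * x) = σ g (b i x))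
    (hin : ∀ g x, v x ≤ 1 → v (σ g x - x) < 1)
    (hE2 : ∀ y : Ω, y ≠ 0 → (∀ g, σ g y = y) → ∃ n : ℤ, v y = v (p : Ω) ^ n)
    {ζ : Ω} (hζ : IsPrimitiveRoot ζ p)
    {τ : F →*₀ Ω} (hτ : IsTeich v τ) (hτfix : ∀ g x, σ g (τ x) = τ x)
    {y : Ω} (hy : y ≠ 0) (hyeig : ∀ g, σ g y = τ (ψ g) * y)
    (hn2 : ∃ g, (ψ g : F) ^ (p - 1) ≠ 1)
    {π : Ω} (hπ : v π ^ (p ^ 2 - 1) = v (p : Ω)) {c : G → Ω} (hc : ∀ g, σ g π = c g * π)
    (hc1 : ∀ g, v (c g) = 1) :
    (∀ g, v (τ (ψ g) - c g) < 1) ∨ (∀ g, v (τ (ψ g) - c g ^ p) < 1) := by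
  classical
  have hw0 : v (p : Ω) ≠ 0 := by rwa [Ne, Valuation.zero_iff]
  have hq1pos : 0 < p ^ 2 - 1 := by
    have : 2 ^ 2 ≤ p ^ 2 := Nat.pow_le_pow_left hp.out.two_le 2
    omega
  have hπ0 : π ≠ 0 := by
    rintro rfl
    rw [map_zero, zero_pow hq1pos.ne'] at hπ
    exact hw0 hπ.symm
  have hval1 : ∀ z : Ω, v z ^ (p ^ 2 - 1) = 1 → v z = 1 := fun z hz =>
    (pow_eq_one_iff_of_nonneg zero_le hq1pos.ne').mp hz
  -- an eigenvector `d` with `v d ^ (p ^ 2 - 1) = v p` and multiplier `μ g` has `μ g ≡ c g`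
  have key : ∀ (d : Ω) (μ : G → Ω), v d ^ (p ^ 2 - 1) = v (p : Ω) → (∀ g, σ g d = μ g * d) →
      ∀ g, v (μ g - c g) < 1 := by
    intro d μ hd hdeig g
    have hu : v (d / π) = 1 := by
      apply hval1
      rw [map_div₀, div_pow, hd, hπ]
      exact div_self hw0
    have h1 := hin g (d / π) hu.le
    have hcg0 : c g ≠ 0 := by
      intro h0
      have := hc1 g
      rw [h0, map_zero] at this
      exact zero_ne_one this
    have e : σ g (d / π) - d / π = (μ g - c g) * ((c g)⁻¹ * (d / π)) := by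
      rw [map_div₀, hdeig g, hc g]
      field_simp
    rw [e, map_mul, map_mul, map_inv₀, hc1 g, inv_one, one_mul, hu, mul_one] at h1
    exact h1
  rcases exists_eigen_uniformizer v σ ψ hp2 hvp hp0 hq hb hbeq hin hE2 hζ hτ hτfix hy hyeig hn2
    with ⟨d, hd, hdeig, -⟩ | ⟨d, hd, hdeig, -⟩
  · exact Or.inl (key d (fun g => τ (ψ g)) hd hdeig)
  · refine Or.inr fun g => ?_
    have h1 : v (τ ((ψ g : F) ^ p) - c g) < 1 := key d (fun g => τ ((ψ g : F) ^ p)) hd hdeig g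
    -- raise to the `p`-th power: `τ (ψ g) = τ (ψ g ^ p) ^ p`
    have h2 : τ (ψ g : F) = τ ((ψ g : F) ^ p) ^ p := by
      rw [← map_pow, ← pow_mul, ← sq, ← hq, FiniteField.pow_card]
    rw [h2]
    have h3 : τ ((ψ g : F) ^ p) ^ p - c g ^ p =
        (τ ((ψ g : F) ^ p) - c g) * ∑ i ∈ Finset.range p, τ ((ψ g : F) ^ p) ^ i * c g ^ (p - 1 - i) :=
      (Commute.all _ _).mul_geom_sum₂ p |>.symm
    rw [h3, map_mul]
    have h4 : v (∑ i ∈ Finset.range p, τ ((ψ g : F) ^ p) ^ i * c g ^ (p - 1 - i)) ≤ 1 := by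
      refine v.map_sum_le fun i _ => ?_
      rw [map_mul, v.map_pow, v.map_pow, hc1 g, one_pow, mul_one]
      exact pow_le_one₀ zero_le (teich_val_le_one v τ _)
    calc v (τ ((ψ g : F) ^ p) - c g) * v (∑ i ∈ Finset.range p, τ ((ψ g : F) ^ p) ^ i * c g ^ (p - 1 - i))
        ≤ v (τ ((ψ g : F) ^ p) - c g) * 1 := mul_le_mul_right h4 _
      _ < 1 := by rw [mul_one]; exact h1

/-- (Raynaud, niveau 1, "C1") **The type of a line.** Let `F` be a field with `p` elements, `p`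
odd, and `b` an order basis of the functions on `F`, equivariant for a family `σ` of
inertia-like automorphisms acting on `F` through `ψ`. Let `π` be an element with
`v π ^ (p - 1) = v p` on which the family acts through unit multipliers `c g`. Then `ψ` is
trivial, or `τ (ψ g) ≡ c g` modulo the maximal ideal for all `g`. -/
theorem line_type (hp2 : p ≠ 2) (hvp : v (p : Ω) < 1) (hp0 : (p : Ω) ≠ 0)
    (hq : Fintype.card F = p)
    {b : Module.Basis ι Ω (F → Ω)} {m : ι → ι → ι → Ω} (hb : IsOrderBasis v b m)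
    (hbeq : ∀ g i x, b i ((ψ g : F) * x) = σ g (b i x))
    (hin : ∀ g x, v x ≤ 1 → v (σ g x - x) < 1)
    (hE2 : ∀ y : Ω, y ≠ 0 → (∀ g, σ g y = y) → ∃ n : ℤ, v y = v (p : Ω) ^ n)
    {ζ : Ω} (hζ : IsPrimitiveRoot ζ p)
    {τ : F →*₀ Ω} (hτ : IsTeich v τ) (hτfix : ∀ g x, σ g (τ x) = τ x)
    {y : Ω} (hy : y ≠ 0) (hyeig : ∀ g, σ g y = τ (ψ g) * y)
    {π : Ω} (hπ : v π ^ (p - 1) = v (p : Ω)) {c : G → Ω} (hc : ∀ g, σ g π = c g * π)
    (hc1 : ∀ g, v (c g) = 1) :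
    (∀ g, ψ g = 1) ∨ (∀ g, v (τ (ψ g) - c g) < 1) := by
  classical
  have hw0 : v (p : Ω) ≠ 0 := by rwa [Ne, Valuation.zero_iff]
  have hp1pos : 0 < p - 1 := by
    have := hp.out.two_le
    omega
  have hq1 : Fintype.card F - 1 = p - 1 := by rw [hq]
  have hval1 : ∀ z : Ω, v z ^ (p - 1) = 1 → v z = 1 := fun z hz =>
    (pow_eq_one_iff_of_nonneg zero_le hp1pos.ne').mp hz
  obtain ⟨a, n, ha, -, hcval, hb₁, -⟩ :=
    eigen_sandwich v σ ψ hp2 hvp hp0 hb hbeq hE2 hζ hτ hτfix hy hyeig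
  rw [hq1] at ha hcval hb₁
  set d : Ω := y / (p : Ω) ^ n with hd
  have hσp : ∀ g, σ g (p : Ω) = p := fun g => map_natCast (σ g) p
  have hdeig : ∀ g, σ g d = τ (ψ g) * d := by
    intro g
    rw [hd, map_div₀, map_zpow₀, hσp g, hyeig g, mul_div_assoc]
  have ha1 : a ≤ 1 := by
    by_contra h
    have h2 : 2 ≤ a := by omega
    have : 2 * (p - 1) ≤ a * (p - 1) := Nat.mul_le_mul_right _ h2
    omega
  rcases Nat.le_one_iff_eq_zero_or_eq_one.mp ha1 with h0 | h1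
  · -- `a = 0`: trivial character
    left
    intro g
    rw [h0, pow_zero] at hcval
    have hdv : v d = 1 := hval1 d hcval
    by_contra hne
    have hne' : (ψ g : F) ≠ 1 := fun h => hne (Units.ext h)
    have h1 := hin g d hdv.le
    rw [hdeig g] at h1
    have h2 : τ (ψ g) * d - d = (τ (ψ g) - 1) * d := by ring
    have h3 : v (τ (ψ g : F) - 1) = 1 := by
      have := hτ.val_sub_eq_one v hne'
      rwa [map_one] at this
    rw [h2, map_mul, h3, hdv, one_mul] at h1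
    exact lt_irrefl _ h1
  · -- `a = 1`
    right
    intro g
    rw [h1, pow_one] at hcval
    have hu : v (d / π) = 1 := by
      apply hval1
      rw [map_div₀, div_pow, hcval, hπ]
      exact div_self hw0
    have h2 := hin g (d / π) hu.le
    have hπ0 : π ≠ 0 := by
      rintro rfl
      rw [map_zero, zero_pow hp1pos.ne'] at hπ
      exact hw0 hπ.symm
    have hcg0 : c g ≠ 0 := by
      intro h0
      have := hc1 g
      rw [h0, map_zero] at this
      exact zero_ne_one this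
    have e : σ g (d / π) - d / π = (τ (ψ g) - c g) * ((c g)⁻¹ * (d / π)) := by
      rw [map_div₀, hdeig g, hc g]
      field_simp
    rw [e, map_mul, map_mul, map_inv₀, hc1 g, inv_one, one_mul, hu, mul_one] at h2
    exact h2

/-- (Raynaud, niveau 1, "C1") **The inertia character of a line is trivial or cyclotomic.**
In the situation of `line_type`, if the family acts on the `p`-th root of unity `ζ` through
`σ g ζ = ζ ^ k g`, then `ψ` is trivial or `ψ g = k g` in `F` for all `g`. -/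
theorem line_type_cyclotomic (hp2 : p ≠ 2) (hvp : v (p : Ω) < 1) (hp0 : (p : Ω) ≠ 0)
    (hq : Fintype.card F = p)
    {b : Module.Basis ι Ω (F → Ω)} {m : ι → ι → ι → Ω} (hb : IsOrderBasis v b m)
    (hbeq : ∀ g i x, b i ((ψ g : F) * x) = σ g (b i x))
    (hin : ∀ g x, v x ≤ 1 → v (σ g x - x) < 1)
    (hE2 : ∀ y : Ω, y ≠ 0 → (∀ g, σ g y = y) → ∃ n : ℤ, v y = v (p : Ω) ^ n)
    {ζ : Ω} (hζ : IsPrimitiveRoot ζ p)
    {τ : F →*₀ Ω} (hτ : IsTeich v τ) (hτfix : ∀ g x, σ g (τ x) = τ x)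
    {y : Ω} (hy : y ≠ 0) (hyeig : ∀ g, σ g y = τ (ψ g) * y)
    (k : G → ℕ) (hk : ∀ g, σ g ζ = ζ ^ k g) :
    (∀ g, ψ g = 1) ∨ (∀ g, (ψ g : F) = (k g : F)) := by
  classical
  have hζ1 : v ζ = 1 := val_eq_one_of_pow_eq_one v hp.out.ne_zero hζ.pow_eq_one
  have hlt : v (ζ - 1) < 1 := val_zeta_sub_one_lt_one v hζ hvp
  have hne0 : v (ζ - 1) ≠ 0 := val_zeta_sub_one_ne_zero v hζ
  have hζne : ζ ≠ 1 := hζ.ne_one hp.out.one_lt
  have hkdvd : ∀ g, ¬ p ∣ k g := by
    intro g hdvd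
    have h1 : σ g ζ = 1 := by
      rw [hk g]
      exact (hζ.pow_eq_one_iff_dvd _).mpr hdvd
    have h2 : σ g ζ = σ g 1 := by rw [h1, map_one]
    exact hζne ((σ g).injective h2)
  set c : G → Ω := fun g => ∑ i ∈ Finset.range (k g), ζ ^ i with hcdef
  have hc : ∀ g, σ g (ζ - 1) = c g * (ζ - 1) := by
    intro g
    rw [map_sub, map_one, hk g, hcdef]
    exact (geom_sum_mul ζ (k g)).symm
  have hc1 : ∀ g, v (c g) = 1 := by
    intro g
    have h1 : v (c g) * v (ζ - 1) = v (ζ - 1) := by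
      rw [← map_mul, ← hc g, map_sub, map_one, hk g, ← v.map_sub_swap 1 (ζ ^ k g),
        val_one_sub_pow_eq v hζ (hkdvd g), v.map_sub_swap]
    have h2 : v (c g) * v (ζ - 1) = 1 * v (ζ - 1) := by rw [h1, one_mul]
    exact mul_right_cancel₀ hne0 h2
  have hck : ∀ g, v (c g - (k g : Ω)) < 1 := by
    intro g
    have e : c g - (k g : Ω) = ∑ i ∈ Finset.range (k g), (ζ ^ i - 1) := by
      rw [hcdef, Finset.sum_sub_distrib, Finset.sum_const, Finset.card_range, nsmul_eq_mul,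
        mul_one]
    rw [e]
    refine v.map_sum_lt one_ne_zero fun i _ => ?_
    rw [v.map_sub_swap]
    exact lt_of_le_of_lt (val_one_sub_pow_le v hζ1.le i) (by rw [v.map_sub_swap]; exact hlt)
  rcases line_type v σ ψ hp2 hvp hp0 hq hb hbeq hin hE2 hζ hτ hτfix hy hyeig
    (val_zeta_sub_one_pow v hζ) hc hc1 with h | h
  · exact Or.inl h
  · refine Or.inr fun g => ?_
    by_contra hne
    have h1 : v (τ (ψ g : F) - τ (k g : F)) = 1 := hτ.val_sub_eq_one v hne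
    have h2 : τ (ψ g : F) - τ (k g : F) =
        (τ (ψ g : F) - c g) + (c g - (k g : Ω)) + ((k g : Ω) - τ (k g : F)) := by ring
    have h3 : v (τ (ψ g : F) - τ (k g : F)) < 1 := by
      rw [h2]
      exact v.map_add_lt (v.map_add_lt (h g) (hck g)) (hτ.natCast (k g))
    rw [h1] at h3
    exact lt_irrefl _ h3

end N2

end Fermat.Agent.S56.helper4982
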