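/-
S56, FLAT-LOCAL, track A (node FLAT-A-N2UNIF), helper4982: the Raynaud type theorems and the
niveau-2 uniformizing function in the frozen vocabulary.

`Qb := AlgebraicClosure ℚ`, `GQ := Qb ≃ₐ[ℚ] Qb`, `A` a valuation subring of `Qb` over the odd
prime `p`, `I := A.inertiaSubgroupIn ℚ`, `v := A.valuation`.

* `exists_teich` : for every finite field `F` of characteristic `p` there is a Teichmüller
  character `τ : F →*₀ Qb` (multiplicative, additive modulo the maximal ideal of `A`) whose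
  values are fixed by `I`.
* `valuation_sub_lt_one_of_mem_inertia` : inertia elements move integral elements by elements
  of the maximal ideal.
* `exists_uniformizing_function_inertia` : instance of `exists_uniformizing_function` at the
  inertia group (Hilbert 90 from `helper164.hilbert90_on`, value group of the inertia field from
  `S58/helper6024.exists_zpow_valuation_eq`).
* `n2_type_inertia` : the niveau 2 type (the character of `I` on a flat `F_{p²}`-line is the
  tame character of a uniformizer of the tame extension of degree `p² - 1`, or its `p`-th power).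
* `line_type_inertia` : the niveau 1 type (the character of `I` on a flat `F_p`-line is trivial
  or the cyclotomic character).
-/
import Mathlib
import Fermat.Prelude.Def_FLTPrelim_Ramification
import Fermat.Agent.Lib.helper3858_ResidueRoots
import Fermat.Agent.S05.helper4205_Inertia
import Fermat.Agent.S58.helper6024_Unram
import Fermat.Agent.S56.helper164_KummerDict
import Fermat.Agent.S56.helper4982_DepthN2

namespace Fermat.Agent.S56.helper4982

open IsLocalRing

local notation "Qb" => AlgebraicClosure ℚ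
local notation "GQ" => (AlgebraicClosure ℚ ≃ₐ[ℚ] AlgebraicClosure ℚ)

section Teich

/-- **Teichmüller character.** For a valuation subring `A` of `ℚ̄` over `p` and a finite field
`F` of characteristic `p` there is a multiplicative map `τ : F → ℚ̄` which is additive modulo
the maximal ideal of `A` and whose values are fixed by the inertia group of `A`. -/
theorem exists_teich {p : ℕ} (hp : p.Prime) (A : ValuationSubring Qb) (hA : A.LiesOverPrime p)
    (F : Type*) [Field F] [Finite F] [CharP F p] :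
    ∃ τ : F →*₀ Qb, IsTeich A.valuation τ ∧
      ∀ σ ∈ A.inertiaSubgroupIn ℚ, ∀ x, σ (τ x) = τ x := by
  classical
  have : Fact p.Prime := ⟨hp⟩
  have := Fintype.ofFinite F
  have hchar : CharP (ResidueField A) p :=
    Fermat.Agent.Lib.helper3858.charP_residueField A hp hA
  have : IsAlgClosed (ResidueField A) := Fermat.Agent.Lib.helper3858.isAlgClosed_residueField A
  let : Algebra (ZMod p) F := ZMod.algebra F p
  let : Algebra (ZMod p) (ResidueField A) := ZMod.algebra _ p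
  have : Algebra.IsAlgebraic (ZMod p) F := Algebra.IsAlgebraic.of_finite (ZMod p) F
  let j : F →ₐ[ZMod p] ResidueField A := IsAlgClosed.lift
  set q := Fintype.card F with hqdef
  obtain ⟨n, -, hn⟩ := FiniteField.card F p
  have hq1 : ¬ p ∣ q - 1 := by
    intro hdvd
    have hpos : 0 < p ^ (n : ℕ) := pow_pos hp.pos _
    have h1 : p ∣ p ^ (n : ℕ) := dvd_pow_self p n.ne_zero
    rw [hqdef, hn] at hdvd
    have h2 : p ∣ p ^ (n : ℕ) - (p ^ (n : ℕ) - 1) := Nat.dvd_sub h1 hdvd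
    have h3 : p ^ (n : ℕ) - (p ^ (n : ℕ) - 1) = 1 := by omega
    rw [h3] at h2
    exact hp.one_lt.ne' (Nat.dvd_one.mp h2)
  have hpow : ∀ x : F, x ≠ 0 → j x ^ (q - 1) = 1 := fun x hx => by
    rw [← map_pow, FiniteField.pow_card_sub_one_eq_one x hx, map_one]
  have hex : ∀ x : F, ∃ z : A, residue A z = j x ∧ (x ≠ 0 → z ^ (q - 1) = 1) ∧
      (x = 0 → z = 0) := by
    intro x
    by_cases hx : x = 0
    · exact ⟨0, by rw [hx, map_zero, map_zero], fun h => absurd hx h, fun _ => rfl⟩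
    · obtain ⟨z, hz1, hz2⟩ :=
        Fermat.Agent.Lib.helper3858.exists_pow_eq_one_residue_eq A hp hA hq1 (hpow x hx)
      exact ⟨z, hz2, fun _ => hz1, fun h => absurd h hx⟩
  choose t htres htpow htzero using hex
  have huniq : ∀ z z' : A, z ^ (q - 1) = 1 → z' ^ (q - 1) = 1 →
      residue A z = residue A z' → z = z' :=
    fun z z' h h' hr => Fermat.Agent.Lib.helper3858.eq_of_residue_eq A hp hA hq1 z z' h h' hr
  have hmul : ∀ x y, t (x * y) = t x * t y := by
    intro x y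
    by_cases hx : x = 0
    · rw [hx, zero_mul, htzero 0 rfl, zero_mul]
    by_cases hy : y = 0
    · rw [hy, mul_zero, htzero 0 rfl, mul_zero]
    refine huniq _ _ (htpow _ (mul_ne_zero hx hy)) ?_ ?_
    · rw [mul_pow, htpow x hx, htpow y hy, one_mul]
    · rw [map_mul, htres, htres, htres, map_mul]
  have hone : t 1 = 1 :=
    huniq _ _ (htpow 1 one_ne_zero) (one_pow _) (by rw [htres, map_one, map_one])
  let τ : F →*₀ Qb :=
    { toFun := fun x => ((t x : A) : Qb)
      map_zero' := by rw [htzero 0 rfl]; rfl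
      map_one' := by rw [hone]; rfl
      map_mul' := fun x y => by rw [hmul x y]; rfl }
  have hτapp : ∀ x, τ x = ((t x : A) : Qb) := fun x => rfl
  refine ⟨τ, ⟨fun x y => ?_⟩, fun σ hσ x => ?_⟩
  · have h0 : residue A (t (x + y) - (t x + t y)) = 0 := by
      rw [map_sub, map_add, htres, htres, htres, map_add, sub_self]
    have h1 : (t (x + y) - (t x + t y)) ∈ maximalIdeal A := (residue_eq_zero_iff _).mp h0
    have h2 := (ValuationSubring.valuation_lt_one_iff A _).mp h1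
    rw [hτapp, hτapp, hτapp]
    exact h2
  · rw [hτapp]
    by_cases hx : x = 0
    · rw [hx, htzero 0 rfl]
      exact map_zero σ
    · have hmem : σ ((t x : A) : Qb) ∈ A :=
        Fermat.Agent.Lib.helper3858.apply_mem_of_mem_inertiaSubgroupIn hσ (t x).2
      have h1 : (⟨σ ((t x : A) : Qb), hmem⟩ : A) = t x := by
        refine huniq _ _ ?_ (htpow x hx) ?_
        · apply Subtype.ext
          have h2 : (((t x) ^ (q - 1) : A) : Qb) = 1 := by rw [htpow x hx]; rfl
          have h3 : (((t x) ^ (q - 1) : A) : Qb) = ((t x : A) : Qb) ^ (q - 1) := rfl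
          show σ ((t x : A) : Qb) ^ (q - 1) = 1
          rw [← map_pow, ← h3, h2, map_one]
        · exact Fermat.Agent.Lib.helper3858.residue_apply_of_mem_inertiaSubgroupIn hσ
            (t x).2 hmem
      exact congrArg (fun a : A => (a : Qb)) h1

end Teich

section Frozen

variable {p : ℕ} [hp : Fact p.Prime] (A : ValuationSubring Qb)

/-- Inertia elements move integral elements by elements of the maximal ideal. -/
theorem valuation_sub_lt_one_of_mem_inertia {σ : GQ} (hσ : σ ∈ A.inertiaSubgroupIn ℚ) {x : Qb}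
    (hx : A.valuation x ≤ 1) : A.valuation (σ x - x) < 1 :=
  (ValuationSubring.mem_nonunits_iff A).mp
    (Fermat.Agent.Lib.helper954.apply_sub_mem_nonunits_of_mem_inertia hσ
      ((ValuationSubring.valuation_le_one_iff A x).mp hx))

variable {F : Type*} [Field F] [Fintype F] [DecidableEq F] [Algebra (ZMod p) F]
variable {ι : Type*} [Fintype ι]

omit [Fintype F] [DecidableEq F] hp [Algebra (ZMod p) F] in
/-- **Hilbert 90 eigenvector** of a level character of the inertia group composed with a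
Teichmüller character. -/
theorem exists_eigenvector (ψ : GQ → Fˣ)
    (hψ : ∀ g ∈ A.inertiaSubgroupIn ℚ, ∀ h ∈ A.inertiaSubgroupIn ℚ, ψ (g * h) = ψ g * ψ h)
    (hlev : helper164.IsLevelOn (A.inertiaSubgroupIn ℚ) ψ)
    {τ : F →*₀ Qb} (hτfix : ∀ σ ∈ A.inertiaSubgroupIn ℚ, ∀ x, σ (τ x) = τ x) :
    ∃ y : Qb, y ≠ 0 ∧ ∀ σ ∈ A.inertiaSubgroupIn ℚ, σ y = τ (ψ σ) * y := by
  refine helper164.hilbert90_on (A.inertiaSubgroupIn ℚ) (fun g => τ (ψ g : F))
    (fun g _ => (map_ne_zero τ).mpr (Units.ne_zero _)) (fun g hg h hh => ?_)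
    (hlev.comp fun u => τ (u : F))
  show τ (ψ (g * h) : F) = τ (ψ g : F) * g (τ (ψ h : F))
  rw [hψ g hg h hh, Units.val_mul, map_mul, hτfix g hg]

/-- The primitive `p`-th root of unity used below. -/
theorem exists_primitiveRoot_qb : ∃ ζ : Qb, IsPrimitiveRoot ζ p := by
  have : NeZero (p : Qb) := ⟨Nat.cast_ne_zero.mpr hp.out.ne_zero⟩
  exact HasEnoughRootsOfUnity.exists_primitiveRoot Qb p

variable {A}

/-- (DEP-N2 in the frozen vocabulary) **The niveau 2 uniformizing function.** `F` a field with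
`p ^ 2` elements, `ψ` a level character of the inertia group `I` of `A` with values in `Fˣ`
which is not `F_p^×`-valued, `b` an order basis of the functions on `F` (integral values,
integral comultiplication constants) with `b i (ψ σ * x) = σ (b i x)` for `σ ∈ I`. Then there
is a function `X` with integral coordinates, `I`-equivariant, `X 0 = 0`, all of whose
differences have valuation `v p ^ (1 / (p ^ 2 - 1))`. -/
theorem exists_uniformizing_function_inertia (hp2 : p ≠ 2) (hA : A.LiesOverPrime p)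
    (hq : Fintype.card F = p ^ 2) (ψ : GQ → Fˣ)
    (hψ : ∀ g ∈ A.inertiaSubgroupIn ℚ, ∀ h ∈ A.inertiaSubgroupIn ℚ, ψ (g * h) = ψ g * ψ h)
    (hlev : helper164.IsLevelOn (A.inertiaSubgroupIn ℚ) ψ)
    {b : Module.Basis ι Qb (F → Qb)} {m : ι → ι → ι → Qb} (hb : IsOrderBasis A.valuation b m)
    (hbeq : ∀ σ ∈ A.inertiaSubgroupIn ℚ, ∀ i x, b i ((ψ σ : F) * x) = σ (b i x))
    (hn2 : ∃ σ ∈ A.inertiaSubgroupIn ℚ, (ψ σ : F) ^ (p - 1) ≠ 1) :
    ∃ X : F → Qb, (∀ i, A.valuation (b.repr X i) ≤ 1) ∧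
      (∀ σ ∈ A.inertiaSubgroupIn ℚ, ∀ x, X ((ψ σ : F) * x) = σ (X x)) ∧ X 0 = 0 ∧
      ∀ x x', x ≠ x' → A.valuation (X x - X x') ^ (p ^ 2 - 1) = A.valuation (p : Qb) := by
  have hchar : CharP F p := charP_of_injective_algebraMap (algebraMap (ZMod p) F).injective p
  obtain ⟨τ, hτ, hτfix⟩ := exists_teich hp.out A hA F
  obtain ⟨y, hy, hyeig⟩ := exists_eigenvector A ψ hψ hlev hτfix
  obtain ⟨ζ, hζ⟩ := exists_primitiveRoot_qb (p := p)
  have hvp : A.valuation (p : Qb) < 1 := (ValuationSubring.mem_nonunits_iff A).mp hA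
  have hp0 : (p : Qb) ≠ 0 := Nat.cast_ne_zero.mpr hp.out.ne_zero
  obtain ⟨σ₀, hσ₀, hσ₀ne⟩ := hn2
  obtain ⟨X, hX1, hX2, hX3, hX4⟩ := exists_uniformizing_function (G := ↥(A.inertiaSubgroupIn ℚ))
    A.valuation (fun g => ((g : GQ) : Qb →+* Qb)) (fun g => ψ (g : GQ)) hp2 hvp hp0 hq hb
    (fun g i x => hbeq g g.2 i x)
    (fun g x hx => valuation_sub_lt_one_of_mem_inertia A g.2 hx)
    (fun y hy0 hfix => Fermat.Agent.S58.helper6024.exists_zpow_valuation_eq A hp.out hA y
      (fun σ hσ => hfix ⟨σ, hσ⟩) hy0)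
    hζ hτ (fun g x => hτfix g g.2 x) hy (fun g => hyeig g g.2) ⟨⟨σ₀, hσ₀⟩, hσ₀ne⟩
  exact ⟨X, hX1, fun σ hσ x => hX2 ⟨σ, hσ⟩ x, hX3, hX4⟩

/-- (Raynaud, niveau 2, frozen vocabulary) **The type.** In the situation of
`exists_uniformizing_function_inertia`, for every Teichmüller character `τ` with inertia-fixed
values and every `π` with `v π ^ (p ^ 2 - 1) = v p`: `τ (ψ σ) ≡ σ π / π` for all `σ ∈ I`, or
`τ (ψ σ) ≡ (σ π / π) ^ p` for all `σ ∈ I`, modulo the maximal ideal of `A`. -/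
theorem n2_type_inertia (hp2 : p ≠ 2) (hA : A.LiesOverPrime p)
    (hq : Fintype.card F = p ^ 2) (ψ : GQ → Fˣ)
    (hψ : ∀ g ∈ A.inertiaSubgroupIn ℚ, ∀ h ∈ A.inertiaSubgroupIn ℚ, ψ (g * h) = ψ g * ψ h)
    (hlev : helper164.IsLevelOn (A.inertiaSubgroupIn ℚ) ψ)
    {b : Module.Basis ι Qb (F → Qb)} {m : ι → ι → ι → Qb} (hb : IsOrderBasis A.valuation b m)
    (hbeq : ∀ σ ∈ A.inertiaSubgroupIn ℚ, ∀ i x, b i ((ψ σ : F) * x) = σ (b i x))
    (hn2 : ∃ σ ∈ A.inertiaSubgroupIn ℚ, (ψ σ : F) ^ (p - 1) ≠ 1)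
    {τ : F →*₀ Qb} (hτ : IsTeich A.valuation τ)
    (hτfix : ∀ σ ∈ A.inertiaSubgroupIn ℚ, ∀ x, σ (τ x) = τ x)
    {π : Qb} (hπ : A.valuation π ^ (p ^ 2 - 1) = A.valuation (p : Qb)) :
    (∀ σ ∈ A.inertiaSubgroupIn ℚ, A.valuation (τ (ψ σ) - σ π / π) < 1) ∨
      (∀ σ ∈ A.inertiaSubgroupIn ℚ, A.valuation (τ (ψ σ) - (σ π / π) ^ p) < 1) := by
  obtain ⟨y, hy, hyeig⟩ := exists_eigenvector A ψ hψ hlev hτfix
  obtain ⟨ζ, hζ⟩ := exists_primitiveRoot_qb (p := p)
  have hvp : A.valuation (p : Qb) < 1 := (ValuationSubring.mem_nonunits_iff A).mp hA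
  have hp0 : (p : Qb) ≠ 0 := Nat.cast_ne_zero.mpr hp.out.ne_zero
  have hw0 : A.valuation (p : Qb) ≠ 0 := by rwa [Ne, Valuation.zero_iff]
  have hπ0 : π ≠ 0 := by
    rintro rfl
    have hq1 : p ^ 2 - 1 ≠ 0 := by
      have : 2 ^ 2 ≤ p ^ 2 := Nat.pow_le_pow_left hp.out.two_le 2
      omega
    rw [map_zero, zero_pow hq1] at hπ
    exact hw0 hπ.symm
  have hvπ0 : A.valuation π ≠ 0 := by rwa [Ne, Valuation.zero_iff]
  obtain ⟨σ₀, hσ₀, hσ₀ne⟩ := hn2
  have halg : Algebra.IsAlgebraic ℚ Qb := AlgebraicClosure.isAlgebraic ℚ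
  have key := n2_type (G := ↥(A.inertiaSubgroupIn ℚ))
    A.valuation (fun g => ((g : GQ) : Qb →+* Qb)) (fun g => ψ (g : GQ)) hp2 hvp hp0 hq hb
    (fun g i x => hbeq g g.2 i x)
    (fun g x hx => valuation_sub_lt_one_of_mem_inertia A g.2 hx)
    (fun y hy0 hfix => Fermat.Agent.S58.helper6024.exists_zpow_valuation_eq A hp.out hA y
      (fun σ hσ => hfix ⟨σ, hσ⟩) hy0)
    hζ hτ (fun g x => hτfix g g.2 x) hy (fun g => hyeig g g.2) ⟨⟨σ₀, hσ₀⟩, hσ₀ne⟩ hπ
    (c := fun g => (g : GQ) π / π)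
    (fun g => by
      show (g : GQ) π = (g : GQ) π / π * π
      rw [div_mul_cancel₀ _ hπ0])
    (fun g => by
      show A.valuation ((g : GQ) π / π) = 1
      rw [map_div₀, Fermat.Agent.S05.helper4205.valuation_apply_of_mem_decomposition
        (Fermat.Agent.S05.helper4205.mem_decomposition_of_mem_inertiaSubgroupIn g.2) π]
      exact div_self hvπ0)
  rcases key with h | h
  · exact Or.inl fun σ hσ => h ⟨σ, hσ⟩
  · exact Or.inr fun σ hσ => h ⟨σ, hσ⟩

/-- (Raynaud, niveau 1, "C1", frozen vocabulary) **The inertia character of a flat line.** `F`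
a field with `p` elements, `ψ` a level character of the inertia group `I` of `A` with values in
`Fˣ`, `b` an order basis of the functions on `F` with `b i (ψ σ * x) = σ (b i x)` for `σ ∈ I`.
Then `ψ` is trivial on `I`, or `ψ` is the cyclotomic character on `I`: `ψ σ = k σ` whenever
`σ ζ = ζ ^ k σ`. -/
theorem line_type_inertia (hp2 : p ≠ 2) (hA : A.LiesOverPrime p)
    (hq : Fintype.card F = p) (ψ : GQ → Fˣ)
    (hψ : ∀ g ∈ A.inertiaSubgroupIn ℚ, ∀ h ∈ A.inertiaSubgroupIn ℚ, ψ (g * h) = ψ g * ψ h)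
    (hlev : helper164.IsLevelOn (A.inertiaSubgroupIn ℚ) ψ)
    {b : Module.Basis ι Qb (F → Qb)} {m : ι → ι → ι → Qb} (hb : IsOrderBasis A.valuation b m)
    (hbeq : ∀ σ ∈ A.inertiaSubgroupIn ℚ, ∀ i x, b i ((ψ σ : F) * x) = σ (b i x))
    {ζ : Qb} (hζ : IsPrimitiveRoot ζ p) (k : GQ → ℕ)
    (hk : ∀ σ ∈ A.inertiaSubgroupIn ℚ, σ ζ = ζ ^ k σ) :
    (∀ σ ∈ A.inertiaSubgroupIn ℚ, ψ σ = 1) ∨
      (∀ σ ∈ A.inertiaSubgroupIn ℚ, (ψ σ : F) = (k σ : F)) := by
  have hchar : CharP F p := charP_of_injective_algebraMap (algebraMap (ZMod p) F).injective p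
  obtain ⟨τ, hτ, hτfix⟩ := exists_teich hp.out A hA F
  obtain ⟨y, hy, hyeig⟩ := exists_eigenvector A ψ hψ hlev hτfix
  have hvp : A.valuation (p : Qb) < 1 := (ValuationSubring.mem_nonunits_iff A).mp hA
  have hp0 : (p : Qb) ≠ 0 := Nat.cast_ne_zero.mpr hp.out.ne_zero
  have key := line_type_cyclotomic (G := ↥(A.inertiaSubgroupIn ℚ))
    A.valuation (fun g => ((g : GQ) : Qb →+* Qb)) (fun g => ψ (g : GQ)) hp2 hvp hp0 hq hb
    (fun g i x => hbeq g g.2 i x)
    (fun g x hx => valuation_sub_lt_one_of_mem_inertia A g.2 hx)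
    (fun y hy0 hfix => Fermat.Agent.S58.helper6024.exists_zpow_valuation_eq A hp.out hA y
      (fun σ hσ => hfix ⟨σ, hσ⟩) hy0)
    hζ hτ (fun g x => hτfix g g.2 x) hy (fun g => hyeig g g.2) (fun g => k (g : GQ))
    (fun g => hk g g.2)
  rcases key with h | h
  · exact Or.inl fun σ hσ => h ⟨σ, hσ⟩
  · exact Or.inr fun σ hσ => h ⟨σ, hσ⟩

end Frozen

/-! ### Transport of an order basis along an additive equivalence

The theorems above are stated for functions on the field `F` itself (the line with a chosen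
generator).  For a group `W` with an additive equivalence `e : F ≃+ W` (an `F_q`-line in a
module, `e x = x • w₀`) an order basis of the functions on `W` is transported to `F`. -/

section Transport

variable {Ω : Type*} [Field Ω] {Γ₀ : Type*} [LinearOrderedCommGroupWithZero Γ₀]
variable {v : Valuation Ω Γ₀}
variable {F W : Type*} [AddCommGroup F] [AddCommGroup W] {ι : Type*} [Fintype ι]

/-- The pull-back of a basis of the functions on `W` along an equivalence `F ≃+ W`. -/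
noncomputable def pullBasis (b : Module.Basis ι Ω (W → Ω)) (e : F ≃+ W) :
    Module.Basis ι Ω (F → Ω) :=
  b.map (LinearEquiv.funCongrLeft Ω Ω e.toEquiv)

omit [Fintype ι] in
@[simp] theorem pullBasis_apply (b : Module.Basis ι Ω (W → Ω)) (e : F ≃+ W) (i : ι) (x : F) :
    pullBasis b e i x = b i (e x) := by
  simp [pullBasis, LinearEquiv.funCongrLeft]

omit [Fintype ι] in
theorem pullBasis_repr (b : Module.Basis ι Ω (W → Ω)) (e : F ≃+ W) (f : W → Ω) (i : ι) :
    (pullBasis b e).repr (fun x => f (e x)) i = b.repr f i := by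
  have h : (LinearEquiv.funCongrLeft Ω Ω e.toEquiv).symm (fun x => f (e x)) = f := by
    rw [LinearEquiv.symm_apply_eq]
    rfl
  rw [pullBasis, Module.Basis.map_repr, LinearEquiv.trans_apply, h]

theorem IsOrderBasis.pull {b : Module.Basis ι Ω (W → Ω)} {m : ι → ι → ι → Ω}
    (hb : IsOrderBasis v b m) (e : F ≃+ W) : IsOrderBasis v (pullBasis b e) m where
  int := fun i x => by rw [pullBasis_apply]; exact hb.int i (e x)
  comul := fun i x y => by
    simp only [pullBasis_apply, map_add]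
    exact hb.comul i (e x) (e y)
  sc := hb.sc

end Transport

section FrozenOn

variable {p : ℕ} [hp : Fact p.Prime] {A : ValuationSubring Qb}
variable {F : Type*} [Field F] [Fintype F] [DecidableEq F] [Algebra (ZMod p) F]
variable {ι : Type*} [Fintype ι]
variable {W : Type*} [AddCommGroup W]

/-- `exists_uniformizing_function_inertia` for an `F_{p²}`-line `W` with a chosen generator
(`e : F ≃+ W`, `e x = x • w₀`) on which the inertia group acts through `ψ`. -/
theorem exists_uniformizing_function_on (hp2 : p ≠ 2) (hA : A.LiesOverPrime p)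
    (hq : Fintype.card F = p ^ 2) (ψ : GQ → Fˣ)
    (hψ : ∀ g ∈ A.inertiaSubgroupIn ℚ, ∀ h ∈ A.inertiaSubgroupIn ℚ, ψ (g * h) = ψ g * ψ h)
    (hlev : helper164.IsLevelOn (A.inertiaSubgroupIn ℚ) ψ)
    (e : F ≃+ W) (actW : GQ → W → W)
    (he : ∀ σ ∈ A.inertiaSubgroupIn ℚ, ∀ x, actW σ (e x) = e ((ψ σ : F) * x))
    {b : Module.Basis ι Qb (W → Qb)} {m : ι → ι → ι → Qb} (hb : IsOrderBasis A.valuation b m)
    (hbeq : ∀ σ ∈ A.inertiaSubgroupIn ℚ, ∀ i w, b i (actW σ w) = σ (b i w))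
    (hn2 : ∃ σ ∈ A.inertiaSubgroupIn ℚ, (ψ σ : F) ^ (p - 1) ≠ 1) :
    ∃ X : W → Qb, (∀ i, A.valuation (b.repr X i) ≤ 1) ∧
      (∀ σ ∈ A.inertiaSubgroupIn ℚ, ∀ w, X (actW σ w) = σ (X w)) ∧ X 0 = 0 ∧
      ∀ w w', w ≠ w' → A.valuation (X w - X w') ^ (p ^ 2 - 1) = A.valuation (p : Qb) := by
  obtain ⟨X, hX1, hX2, hX3, hX4⟩ := exists_uniformizing_function_inertia hp2 hA hq ψ hψ hlev
    (hb.pull e) (fun σ hσ i x => by rw [pullBasis_apply, pullBasis_apply, ← he σ hσ, hbeq σ hσ])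
    hn2
  refine ⟨fun w => X (e.symm w), fun i => ?_, fun σ hσ w => ?_, ?_, fun w w' hww => ?_⟩
  · have h := pullBasis_repr b e (fun w => X (e.symm w)) i
    simp only [AddEquiv.symm_apply_apply] at h
    rw [← h]
    exact hX1 i
  · have h1 : actW σ w = e ((ψ σ : F) * e.symm w) := by
      rw [← he σ hσ, AddEquiv.apply_symm_apply]
    show X (e.symm (actW σ w)) = σ (X (e.symm w))
    rw [h1, AddEquiv.symm_apply_apply, hX2 σ hσ]
  · show X (e.symm 0) = 0
    rw [map_zero, hX3]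
  · exact hX4 _ _ fun h => hww (e.symm.injective h)

/-- `n2_type_inertia` for an `F_{p²}`-line `W` with a chosen generator. -/
theorem n2_type_on (hp2 : p ≠ 2) (hA : A.LiesOverPrime p)
    (hq : Fintype.card F = p ^ 2) (ψ : GQ → Fˣ)
    (hψ : ∀ g ∈ A.inertiaSubgroupIn ℚ, ∀ h ∈ A.inertiaSubgroupIn ℚ, ψ (g * h) = ψ g * ψ h)
    (hlev : helper164.IsLevelOn (A.inertiaSubgroupIn ℚ) ψ)
    (e : F ≃+ W) (actW : GQ → W → W)
    (he : ∀ σ ∈ A.inertiaSubgroupIn ℚ, ∀ x, actW σ (e x) = e ((ψ σ : F) * x))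
    {b : Module.Basis ι Qb (W → Qb)} {m : ι → ι → ι → Qb} (hb : IsOrderBasis A.valuation b m)
    (hbeq : ∀ σ ∈ A.inertiaSubgroupIn ℚ, ∀ i w, b i (actW σ w) = σ (b i w))
    (hn2 : ∃ σ ∈ A.inertiaSubgroupIn ℚ, (ψ σ : F) ^ (p - 1) ≠ 1)
    {τ : F →*₀ Qb} (hτ : IsTeich A.valuation τ)
    (hτfix : ∀ σ ∈ A.inertiaSubgroupIn ℚ, ∀ x, σ (τ x) = τ x)
    {π : Qb} (hπ : A.valuation π ^ (p ^ 2 - 1) = A.valuation (p : Qb)) :
    (∀ σ ∈ A.inertiaSubgroupIn ℚ, A.valuation (τ (ψ σ) - σ π / π) < 1) ∨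
      (∀ σ ∈ A.inertiaSubgroupIn ℚ, A.valuation (τ (ψ σ) - (σ π / π) ^ p) < 1) :=
  n2_type_inertia hp2 hA hq ψ hψ hlev (hb.pull e)
    (fun σ hσ i x => by rw [pullBasis_apply, pullBasis_apply, ← he σ hσ, hbeq σ hσ]) hn2 hτ
    hτfix hπ

/-- `line_type_inertia` for an `F_p`-line `W` with a chosen generator. -/
theorem line_type_on (hp2 : p ≠ 2) (hA : A.LiesOverPrime p)
    (hq : Fintype.card F = p) (ψ : GQ → Fˣ)
    (hψ : ∀ g ∈ A.inertiaSubgroupIn ℚ, ∀ h ∈ A.inertiaSubgroupIn ℚ, ψ (g * h) = ψ g * ψ h)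
    (hlev : helper164.IsLevelOn (A.inertiaSubgroupIn ℚ) ψ)
    (e : F ≃+ W) (actW : GQ → W → W)
    (he : ∀ σ ∈ A.inertiaSubgroupIn ℚ, ∀ x, actW σ (e x) = e ((ψ σ : F) * x))
    {b : Module.Basis ι Qb (W → Qb)} {m : ι → ι → ι → Qb} (hb : IsOrderBasis A.valuation b m)
    (hbeq : ∀ σ ∈ A.inertiaSubgroupIn ℚ, ∀ i w, b i (actW σ w) = σ (b i w))
    {ζ : Qb} (hζ : IsPrimitiveRoot ζ p) (k : GQ → ℕ)
    (hk : ∀ σ ∈ A.inertiaSubgroupIn ℚ, σ ζ = ζ ^ k σ) :
    (∀ σ ∈ A.inertiaSubgroupIn ℚ, ψ σ = 1) ∨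
      (∀ σ ∈ A.inertiaSubgroupIn ℚ, (ψ σ : F) = (k σ : F)) :=
  line_type_inertia hp2 hA hq ψ hψ hlev (hb.pull e)
    (fun σ hσ i x => by rw [pullBasis_apply, pullBasis_apply, ← he σ hσ, hbeq σ hσ]) hζ k hk

end FrozenOn

end Fermat.Agent.S56.helper4982
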