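/-
S56, FLAT-LOCAL, track A (node FLAT-A-NORM), helper4982: the norm / invariance junction.

Setting of the track A junction of `helper3320_DepthAction`: `Om` a field with a valuation `v`,
`H` a subgroup of a Galois group with fixed field `K` (the tame field, uniformiser `π`,
`v (ζ - 1) = v π ^ E`), `u ∈ Kˣ` a Kummer radicand, `y ^ p = u`; `V` a group with an order basis
`b` (integral values, integral comultiplication constants) made of `H`-equivariant functions.

In `levelGE_of_depth_algEquiv` the point `x ∈ V` has to be fixed by the stabiliser of `y` in `H`.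
For a general radicand this fails on every quotient that carries an order over the inertia
ring: the stabiliser of `y` only moves `x` inside a subgroup `l` which is `H`-stable but not
inertia-stable.  This file removes the hypothesis without any quotient order:

* `transl b f i` : the translation coordinates of a function, `f (x + z) = ∑ i, transl b f i x *
  b i z`; they are integral if `f` has integral coordinates, `l`-invariant if `f` is, and
  equivariant if `f` and the basis are;
* `levelGE_of_depth_invariant` : the junction with `hstab` weakened to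
  `τ y = y → actV τ x - x ∈ l` and a depth witness `f` which is `l`-invariant and
  `H`-equivariant;
* `normFun l F` : the norm `z ↦ ∏ a ∈ l, F (z + a)` of a function along a finite subgroup; it
  has integral coordinates (if products of basis members have), is `l`-invariant, equivariant,
  vanishes at `0` if `F` does, and `v (normFun l F w) ≥ γ ^ #l` if `v (F (w + a)) ≥ γ` on `l`;
* `levelGE_of_norm` : the resulting level bound `≥ p E + 1 - p #l`;
* `levelGE_succ_of_norm` : `E = p + 1`, `#l = p`: level `≥ p + 1` (the niveau 2 input).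
-/
import Mathlib
import Fermat.Agent.S56.helper3320_DepthLevel
import Fermat.Agent.S56.helper3320_Rationality
import Fermat.Agent.S56.helper4982_Depth

namespace Fermat.Agent.S56.helper4982

open Finset

section Transl

variable {Ω : Type*} [Field Ω] {Γ₀ : Type*} [LinearOrderedCommGroupWithZero Γ₀]
variable (v : Valuation Ω Γ₀)
variable {V : Type*} [AddCommGroup V] {ι : Type*} [Fintype ι]

/-- The translation coordinates of a function `f` in a basis `b` of all functions:
`f (x + z) = ∑ i, transl b f i x * b i z`. -/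
noncomputable def transl (b : Module.Basis ι Ω (V → Ω)) (f : V → Ω) (i : ι) (x : V) : Ω :=
  b.repr (fun z => f (x + z)) i

theorem apply_add_eq_sum_transl (b : Module.Basis ι Ω (V → Ω)) (f : V → Ω) (x z : V) :
    f (x + z) = ∑ i, transl b f i x * b i z :=
  apply_eq_sum_repr b (fun z => f (x + z)) z

theorem transl_eq_of_forall {b : Module.Basis ι Ω (V → Ω)} {f : V → Ω} {x : V} {g : ι → Ω}
    (h : ∀ z, f (x + z) = ∑ i, g i * b i z) (i : ι) : transl b f i x = g i := by
  have h' : (fun z => f (x + z)) = ∑ i, g i • b i := by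
    funext z
    rw [h z, Finset.sum_apply]
    exact Finset.sum_congr rfl fun i _ => by rw [Pi.smul_apply, smul_eq_mul]
  rw [transl, h', b.repr_sum_self]

variable {b : Module.Basis ι Ω (V → Ω)} {m : ι → ι → ι → Ω}

theorem transl_eq (hb : IsOrderBasis v b m) (f : V → Ω) (i : ι) (x : V) :
    transl b f i x = ∑ j, ∑ k, b.repr f j * m j k i * b k x := by
  refine transl_eq_of_forall (b := b) (f := f) (x := x)
    (g := fun i => ∑ j, ∑ k, b.repr f j * m j k i * b k x) (fun z => ?_) i
  rw [apply_eq_sum_repr b f (x + z)]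
  calc ∑ j, b.repr f j * b j (x + z)
      = ∑ j, ∑ k, ∑ i, b.repr f j * m j k i * b k x * b i z := by
        refine Finset.sum_congr rfl fun j _ => ?_
        rw [hb.comul j x z, Finset.mul_sum]
        refine Finset.sum_congr rfl fun k _ => ?_
        rw [Finset.mul_sum]
        exact Finset.sum_congr rfl fun i _ => by ring
    _ = ∑ j, ∑ i, ∑ k, b.repr f j * m j k i * b k x * b i z :=
        Finset.sum_congr rfl fun j _ => Finset.sum_comm
    _ = ∑ i, ∑ j, ∑ k, b.repr f j * m j k i * b k x * b i z := Finset.sum_comm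
    _ = ∑ i, (∑ j, ∑ k, b.repr f j * m j k i * b k x) * b i z := by
        refine Finset.sum_congr rfl fun i _ => ?_
        rw [Finset.sum_mul]
        exact Finset.sum_congr rfl fun j _ => (Finset.sum_mul _ _ _).symm

/-- The translation coordinates of a function with integral coordinates are integral. -/
theorem val_transl_le_one (hb : IsOrderBasis v b m) {f : V → Ω}
    (hf : ∀ j, v (b.repr f j) ≤ 1) (i : ι) (x : V) : v (transl b f i x) ≤ 1 := by
  rw [transl_eq v hb f i x]
  refine v.map_sum_le fun j _ => v.map_sum_le fun k _ => ?_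
  rw [map_mul, map_mul]
  calc v (b.repr f j) * v (m j k i) * v (b k x) ≤ 1 * 1 * 1 :=
        mul_le_mul' (mul_le_mul' (hf j) (hb.sc j k i)) (hb.int k x)
    _ = 1 := by rw [one_mul, one_mul]

omit [Fintype ι] in
/-- The translation coordinates of an `a`-invariant function are `a`-invariant. -/
theorem transl_add_of_invariant (b : Module.Basis ι Ω (V → Ω)) {f : V → Ω} {a : V}
    (ha : ∀ z, f (z + a) = f z) (i : ι) (x : V) : transl b f i (x + a) = transl b f i x := by
  unfold transl
  have h : (fun z => f (x + a + z)) = fun z => f (x + z) := by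
    funext z
    rw [add_right_comm, ha]
  rw [h]

/-- The translation coordinates of an equivariant function in an equivariant basis are
equivariant. -/
theorem transl_equivariant (b : Module.Basis ι Ω (V → Ω)) {f : V → Ω} (σ : Ω →+* Ω)
    {act : V → V} (hadd : ∀ x z, act (x + z) = act x + act z)
    (hsurj : Function.Surjective act) (hbeq : ∀ j z, b j (act z) = σ (b j z))
    (hf : ∀ z, f (act z) = σ (f z)) (i : ι) (x : V) :
    transl b f i (act x) = σ (transl b f i x) := by
  refine transl_eq_of_forall (b := b) (f := f) (x := act x)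
    (g := fun i => σ (transl b f i x)) (fun w => ?_) i
  obtain ⟨z, rfl⟩ := hsurj w
  rw [← hadd, hf, apply_add_eq_sum_transl b f x z, map_sum]
  exact Finset.sum_congr rfl fun j _ => by rw [map_mul, hbeq]

/-! ### Closure properties of the functions with integral coordinates -/

/-- The constant function `1` has integral coordinates. -/
theorem repr_one_le_one (hb : IsOrderBasis v b m) (k : ι) : v (b.repr (1 : V → Ω) k) ≤ 1 :=
  char_repr_le_one v hb (ξ := (1 : V → Ω)) (fun x y => by simp) k

/-- Translates of a function with integral coordinates have integral coordinates. -/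
theorem repr_translate_le_one (hb : IsOrderBasis v b m) {f : V → Ω}
    (hf : ∀ j, v (b.repr f j) ≤ 1) (a : V) (k : ι) :
    v (b.repr (fun z => f (z + a)) k) ≤ 1 := by
  have h : (fun z => f (z + a)) = ∑ k, (∑ j, ∑ i, b.repr f j * m j k i * b i a) • b k := by
    funext z
    rw [apply_eq_sum_repr b f (z + a), Finset.sum_apply]
    calc ∑ j, b.repr f j * b j (z + a)
        = ∑ j, ∑ k, ∑ i, b.repr f j * m j k i * b i a * b k z := by
          refine Finset.sum_congr rfl fun j _ => ?_
          rw [hb.comul j z a, Finset.mul_sum]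
          refine Finset.sum_congr rfl fun k _ => ?_
          rw [Finset.mul_sum]
          exact Finset.sum_congr rfl fun i _ => by ring
      _ = ∑ k, ∑ j, ∑ i, b.repr f j * m j k i * b i a * b k z := Finset.sum_comm
      _ = ∑ k, ((∑ j, ∑ i, b.repr f j * m j k i * b i a) • b k) z := by
          refine Finset.sum_congr rfl fun k _ => ?_
          rw [Pi.smul_apply, smul_eq_mul, Finset.sum_mul]
          exact Finset.sum_congr rfl fun j _ => (Finset.sum_mul _ _ _).symm
  rw [h, b.repr_sum_self]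
  refine v.map_sum_le fun j _ => v.map_sum_le fun i _ => ?_
  rw [map_mul, map_mul]
  calc v (b.repr f j) * v (m j k i) * v (b i a) ≤ 1 * 1 * 1 :=
        mul_le_mul' (mul_le_mul' (hf j) (hb.sc j k i)) (hb.int i a)
    _ = 1 := by rw [one_mul, one_mul]

omit [AddCommGroup V] in
/-- Products of functions with integral coordinates have integral coordinates, if the
products of the basis members have. -/
theorem repr_mul_le_one (hmul : ∀ i j k, v (b.repr (b i * b j) k) ≤ 1) {f g : V → Ω}
    (hf : ∀ j, v (b.repr f j) ≤ 1) (hg : ∀ j, v (b.repr g j) ≤ 1) (k : ι) :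
    v (b.repr (f * g) k) ≤ 1 := by
  have h : f * g = ∑ i, ∑ j, (b.repr f i * b.repr g j) • (b i * b j) := by
    funext x
    simp only [Pi.mul_apply, Finset.sum_apply, Pi.smul_apply, smul_eq_mul]
    rw [apply_eq_sum_repr b f x, apply_eq_sum_repr b g x, Finset.sum_mul_sum]
    exact Finset.sum_congr rfl fun i _ => Finset.sum_congr rfl fun j _ => by ring
  have h2 : b.repr (f * g) k = ∑ i, ∑ j, b.repr f i * b.repr g j * b.repr (b i * b j) k := by
    rw [h]
    simp only [map_sum, map_smul, Finsupp.coe_finsetSum, Finset.sum_apply, Finsupp.coe_smul,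
      Pi.smul_apply, smul_eq_mul]
  rw [h2]
  refine v.map_sum_le fun i _ => v.map_sum_le fun j _ => ?_
  rw [map_mul, map_mul]
  calc v (b.repr f i) * v (b.repr g j) * v (b.repr (b i * b j) k) ≤ 1 * 1 * 1 :=
        mul_le_mul' (mul_le_mul' (hf i) (hg j)) (hmul i j k)
    _ = 1 := by rw [one_mul, one_mul]

/-- Finite products of functions with integral coordinates have integral coordinates. -/
theorem repr_prod_le_one (hb : IsOrderBasis v b m)
    (hmul : ∀ i j k, v (b.repr (b i * b j) k) ≤ 1) {κ : Type*} (s : Finset κ)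
    (f : κ → V → Ω) (hf : ∀ c ∈ s, ∀ j, v (b.repr (f c) j) ≤ 1) (k : ι) :
    v (b.repr (∏ c ∈ s, f c) k) ≤ 1 := by
  classical
  induction s using Finset.induction_on generalizing k with
  | empty =>
    rw [Finset.prod_empty]
    exact repr_one_le_one v hb k
  | insert a s ha ih =>
    rw [Finset.prod_insert ha]
    exact repr_mul_le_one v hmul (hf a (Finset.mem_insert_self a s))
      (fun j => ih (fun c hc => hf c (Finset.mem_insert_of_mem hc)) j) k

/-! ### The norm along a finite subgroup -/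

/-- The norm of a function `F` along a finite subgroup `l`: `z ↦ ∏ a ∈ l, F (z + a)`. -/
noncomputable def normFun (l : AddSubgroup V) [Fintype l] (F : V → Ω) : V → Ω :=
  fun z => ∏ a : l, F (z + (a : V))

variable (l : AddSubgroup V) [Fintype l]

theorem repr_normFun_le_one (hb : IsOrderBasis v b m)
    (hmul : ∀ i j k, v (b.repr (b i * b j) k) ≤ 1) {F : V → Ω}
    (hF : ∀ j, v (b.repr F j) ≤ 1) (k : ι) : v (b.repr (normFun l F) k) ≤ 1 := by
  have h : normFun l F = ∏ a : l, fun z => F (z + (a : V)) := by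
    funext z
    rw [Finset.prod_apply]
    rfl
  rw [h]
  exact repr_prod_le_one v hb hmul Finset.univ (fun (a : l) => fun z => F (z + (a : V)))
    (fun a _ => repr_translate_le_one v hb hF (a : V)) k

omit [Fintype ι] in
/-- The norm along `l` is `l`-invariant. -/
theorem normFun_add_mem (F : V → Ω) {a : V} (ha : a ∈ l) (z : V) :
    normFun l F (z + a) = normFun l F z := by
  unfold normFun
  refine Fintype.prod_equiv (Equiv.addLeft (⟨a, ha⟩ : l)) _ _ fun c => ?_
  rw [Equiv.coe_addLeft, AddSubgroup.coe_add, add_assoc]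

omit [Fintype ι] in
/-- The norm of an equivariant function along a pointwise fixed subgroup is equivariant. -/
theorem normFun_equivariant {F : V → Ω} (σ : Ω →+* Ω) {act : V → V}
    (hadd : ∀ x z, act (x + z) = act x + act z) (hfix : ∀ a ∈ l, act a = a)
    (hF : ∀ z, F (act z) = σ (F z)) (z : V) : normFun l F (act z) = σ (normFun l F z) := by
  unfold normFun
  rw [map_prod]
  refine Finset.prod_congr rfl fun a _ => ?_
  rw [← hF, hadd, hfix _ a.2]

omit [Fintype ι] in
theorem normFun_zero {F : V → Ω} (hF0 : F 0 = 0) : normFun l F 0 = 0 := by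
  unfold normFun
  refine Finset.prod_eq_zero (Finset.mem_univ (0 : l)) ?_
  rw [AddSubgroup.coe_zero, add_zero, hF0]

omit [Fintype ι] in
theorem val_normFun_ge {F : V → Ω} {γ : Γ₀} {w : V}
    (h : ∀ a ∈ l, γ ≤ v (F (w + a))) : γ ^ Fintype.card l ≤ v (normFun l F w) := by
  unfold normFun
  rw [map_prod, ← Finset.card_univ, ← Finset.prod_const]
  exact Finset.prod_le_prod' fun a _ => h _ a.2

end Transl

section Junction

variable {k Om : Type*} [Field k] [Field Om] [Algebra k Om] [Algebra.IsAlgebraic k Om]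
variable {Γ₀ : Type*} [LinearOrderedCommGroupWithZero Γ₀]
variable {V ι : Type*} [AddCommGroup V] [Fintype ι]

open Fermat.Agent.S56 in
/-- **Track A junction with an invariance subgroup.**  As `helper3320.levelGE_of_depth_algEquiv`,
but the stabiliser of the Kummer generator `y` in `H` is only required to move the point `x`
inside a subgroup `l`, and the depth witness `f` is `l`-invariant and `H`-equivariant. -/
theorem levelGE_of_depth_invariant (v : Valuation Om Γ₀) {p : ℕ} (hp : p.Prime)
    (K : Subfield Om) {π ζ : K} (hπ : helper4188.IsUnif (v.comap K.subtype) π)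
    (hperf : ∀ a : K, v.comap K.subtype a ≤ 1 → ∃ b : K, v.comap K.subtype (a - b ^ p) < 1)
    (hζ : IsPrimitiveRoot ζ p) {E : ℕ}
    (hE : v.comap K.subtype (ζ - 1) = v.comap K.subtype π ^ E)
    (H : Subgroup (Om ≃ₐ[k] Om)) (hKfix : ∀ x ∈ K, ∀ τ ∈ H, τ x = x)
    (hK : ∀ x : Om, (∀ τ ∈ H, τ x = x) → x ∈ K)
    {u : K} (hu : u ≠ 0) {y : Om} (hy : y ^ p = (u : Om))
    {b : Module.Basis ι Om (V → Om)} {m : ι → ι → ι → Om} (hb : IsOrderBasis v b m)
    (actV : (Om ≃ₐ[k] Om) → V → V)
    (hadd : ∀ τ ∈ H, ∀ x z, actV τ (x + z) = actV τ x + actV τ z)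
    (hsurj : ∀ τ ∈ H, Function.Surjective (actV τ))
    (hbeq : ∀ τ ∈ H, ∀ j x, b j (actV τ x) = τ (b j x))
    (l : AddSubgroup V) (x : V) (hstab : ∀ τ ∈ H, τ y = y → actV τ x - x ∈ l)
    {d : ℕ} (hd1 : 1 ≤ d) (hdE : d ≤ E)
    (hdepth : ∀ τ ∈ H, τ y ≠ y → ∃ f : V → Om, (∀ i, v (b.repr f i) ≤ 1) ∧
      (∀ a ∈ l, ∀ z, f (z + a) = f z) ∧ (∀ τ' ∈ H, ∀ z, f (actV τ' z) = τ' (f z)) ∧
      v (π : Om) ^ d ≤ v (f (actV τ x - x) - f 0)) :
    helper4188.LevelGE (v.comap K.subtype) π p (p * E + 1 - p * d) u ∧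
      ∃ w : K, w ≠ 0 ∧ v ((u : Om) * (w : Om) ^ p) = 1 := by
  have hu' : (u : Om) ≠ 0 := fun h0 => hu (Subtype.ext h0)
  have hy0 : y ≠ 0 := by
    rintro rfl
    rw [zero_pow hp.ne_zero] at hy
    exact hu' hy.symm
  by_cases hall : ∀ τ ∈ H, τ y = y
  · -- `y ∈ K`: the radicand is a `p`-th power
    have hyK : y ∈ K := hK y hall
    have hyK0 : (⟨y, hyK⟩ : K) ≠ 0 := fun h0 => hy0 (congrArg Subtype.val h0)
    have hupow : u = (⟨y, hyK⟩ : K) ^ p := Subtype.ext hy.symm
    refine ⟨?_, (⟨y, hyK⟩ : K)⁻¹, inv_ne_zero hyK0, ?_⟩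
    · rw [hupow]
      exact helper4188.levelGE_pow_self hπ hyK0
    · have e : (u : Om) * (((⟨y, hyK⟩ : K)⁻¹ : K) : Om) ^ p = 1 := by
        have : (((⟨y, hyK⟩ : K)⁻¹ : K) : Om) = y⁻¹ := rfl
        rw [this, ← hy, inv_pow, mul_inv_cancel₀ (pow_ne_zero p hy0)]
      rw [e, map_one]
  · push Not at hall
    obtain ⟨τ, hτ, hτy⟩ := hall
    obtain ⟨f, hf, hfinv, hfeq, hfd⟩ := hdepth τ hτ hτy
    set σ : Om →+* Om := (τ : Om →+* Om) with hσ
    have hσapp : ∀ z, σ z = τ z := fun z => rfl
    have hη : (τ y * y⁻¹) ^ p = 1 := by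
      rw [mul_pow, ← map_pow, hy, hKfix _ u.2 τ hτ, ← hy, inv_pow,
        mul_inv_cancel₀ (pow_ne_zero p hy0)]
    have hη1 : τ y * y⁻¹ ≠ 1 := by
      intro h1
      apply hτy
      have := congrArg (· * y) h1
      simpa [mul_assoc, inv_mul_cancel₀ hy0] using this
    have hσy : σ y = τ y * y⁻¹ * y := by
      rw [hσapp, mul_assoc, inv_mul_cancel₀ hy0, mul_one]
    refine helper3320.levelGE_of_depth v hp K hπ hperf hζ hE hu hy hη hη1 σ
      (fun z hz => hKfix z hz τ hτ) hσy Finset.univ f (transl b f) (fun i => b i)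
      (fun a c => apply_add_eq_sum_transl b f a c) (actV τ) x
      (fun i _ => transl_equivariant b σ (hadd τ hτ) (hsurj τ hτ) (hbeq τ hτ) (hfeq τ hτ) i x)
      (fun i _ => hb.int i (-x)) (fun i _ => val_transl_le_one v hb hf i x)
      (fun i _ => ?_) hd1 hdE hfd
    refine helper3320.mem_adjoin_of_stabilizer_fixed_algEquiv H K hK (fun τ' hτ' hfix => ?_)
    have h1 : transl b f i (actV τ' x) = τ' (transl b f i x) :=
      transl_equivariant b (τ' : Om →+* Om) (hadd τ' hτ') (hsurj τ' hτ') (hbeq τ' hτ')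
        (hfeq τ' hτ') i x
    have h2 : transl b f i (actV τ' x) = transl b f i x := by
      have e : actV τ' x = x + (actV τ' x - x) := by abel
      rw [e]
      exact transl_add_of_invariant b (hfinv _ (hstab τ' hτ' hfix)) i x
    rw [← h1, h2]

open Fermat.Agent.S56 in
/-- **The norm junction.**  `F` a function with integral coordinates, `H`-equivariant,
`F 0 = 0`; `l` a finite subgroup fixed pointwise by `H` such that the stabiliser of `y` in `H`
moves `x` inside `l`, while for `τ ∈ H` moving `y` all the values `F (τ x - x + a)`, `a ∈ l`,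
have valuation at least `v π`.  Then the radicand `u = y ^ p` has level at least
`p E + 1 - p #l` modulo `p`-th powers. -/
theorem levelGE_of_norm (v : Valuation Om Γ₀) {p : ℕ} (hp : p.Prime)
    (K : Subfield Om) {π ζ : K} (hπ : helper4188.IsUnif (v.comap K.subtype) π)
    (hperf : ∀ a : K, v.comap K.subtype a ≤ 1 → ∃ b : K, v.comap K.subtype (a - b ^ p) < 1)
    (hζ : IsPrimitiveRoot ζ p) {E : ℕ}
    (hE : v.comap K.subtype (ζ - 1) = v.comap K.subtype π ^ E)
    (H : Subgroup (Om ≃ₐ[k] Om)) (hKfix : ∀ x ∈ K, ∀ τ ∈ H, τ x = x)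
    (hK : ∀ x : Om, (∀ τ ∈ H, τ x = x) → x ∈ K)
    {u : K} (hu : u ≠ 0) {y : Om} (hy : y ^ p = (u : Om))
    {b : Module.Basis ι Om (V → Om)} {m : ι → ι → ι → Om} (hb : IsOrderBasis v b m)
    (hmul : ∀ i j k, v (b.repr (b i * b j) k) ≤ 1)
    (actV : (Om ≃ₐ[k] Om) → V → V)
    (hadd : ∀ τ ∈ H, ∀ x z, actV τ (x + z) = actV τ x + actV τ z)
    (hsurj : ∀ τ ∈ H, Function.Surjective (actV τ))
    (hbeq : ∀ τ ∈ H, ∀ j x, b j (actV τ x) = τ (b j x))
    (l : AddSubgroup V) [Fintype l] (hl : ∀ τ ∈ H, ∀ a ∈ l, actV τ a = a)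
    (x : V) (hstab : ∀ τ ∈ H, τ y = y → actV τ x - x ∈ l)
    (hlE : Fintype.card l ≤ E)
    {F : V → Om} (hF : ∀ i, v (b.repr F i) ≤ 1) (hFeq : ∀ τ ∈ H, ∀ z, F (actV τ z) = τ (F z))
    (hF0 : F 0 = 0)
    (hdepth : ∀ τ ∈ H, τ y ≠ y → ∀ a ∈ l, v (π : Om) ≤ v (F (actV τ x - x + a))) :
    helper4188.LevelGE (v.comap K.subtype) π p (p * E + 1 - p * Fintype.card l) u ∧
      ∃ w : K, w ≠ 0 ∧ v ((u : Om) * (w : Om) ^ p) = 1 := by
  have hd1 : 1 ≤ Fintype.card l := Fintype.card_pos
  refine levelGE_of_depth_invariant v hp K hπ hperf hζ hE H hKfix hK hu hy hb actV hadd hsurj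
    hbeq l x hstab hd1 hlE fun τ hτ hτy => ?_
  refine ⟨normFun l F, repr_normFun_le_one v l hb hmul hF, fun a ha z => normFun_add_mem l F ha z,
    fun τ' hτ' z => normFun_equivariant l (τ' : Om →+* Om) (hadd τ' hτ') (hl τ' hτ')
      (hFeq τ' hτ') z, ?_⟩
  rw [normFun_zero l hF0, sub_zero]
  exact val_normFun_ge v l (hdepth τ hτ hτy)

open Fermat.Agent.S56 in
/-- **The niveau 2 level input of track A.**  `E = p + 1` and `#l = p`: the radicand has level
at least `p + 1` modulo `p`-th powers. -/
theorem levelGE_succ_of_norm (v : Valuation Om Γ₀) {p : ℕ} (hp : p.Prime)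
    (K : Subfield Om) {π ζ : K} (hπ : helper4188.IsUnif (v.comap K.subtype) π)
    (hperf : ∀ a : K, v.comap K.subtype a ≤ 1 → ∃ b : K, v.comap K.subtype (a - b ^ p) < 1)
    (hζ : IsPrimitiveRoot ζ p)
    (hE : v.comap K.subtype (ζ - 1) = v.comap K.subtype π ^ (p + 1))
    (H : Subgroup (Om ≃ₐ[k] Om)) (hKfix : ∀ x ∈ K, ∀ τ ∈ H, τ x = x)
    (hK : ∀ x : Om, (∀ τ ∈ H, τ x = x) → x ∈ K)
    {u : K} (hu : u ≠ 0) {y : Om} (hy : y ^ p = (u : Om))
    {b : Module.Basis ι Om (V → Om)} {m : ι → ι → ι → Om} (hb : IsOrderBasis v b m)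
    (hmul : ∀ i j k, v (b.repr (b i * b j) k) ≤ 1)
    (actV : (Om ≃ₐ[k] Om) → V → V)
    (hadd : ∀ τ ∈ H, ∀ x z, actV τ (x + z) = actV τ x + actV τ z)
    (hsurj : ∀ τ ∈ H, Function.Surjective (actV τ))
    (hbeq : ∀ τ ∈ H, ∀ j x, b j (actV τ x) = τ (b j x))
    (l : AddSubgroup V) [Fintype l] (hl : ∀ τ ∈ H, ∀ a ∈ l, actV τ a = a)
    (x : V) (hstab : ∀ τ ∈ H, τ y = y → actV τ x - x ∈ l)
    (hcard : Fintype.card l = p)
    {F : V → Om} (hF : ∀ i, v (b.repr F i) ≤ 1) (hFeq : ∀ τ ∈ H, ∀ z, F (actV τ z) = τ (F z))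
    (hF0 : F 0 = 0)
    (hdepth : ∀ τ ∈ H, τ y ≠ y → ∀ a ∈ l, v (π : Om) ≤ v (F (actV τ x - x + a))) :
    helper4188.LevelGE (v.comap K.subtype) π p (p + 1) u ∧
      ∃ w : K, w ≠ 0 ∧ v ((u : Om) * (w : Om) ^ p) = 1 := by
  have h := levelGE_of_norm v hp K hπ hperf hζ hE H hKfix hK hu hy hb hmul actV hadd hsurj hbeq
    l hl x hstab (by rw [hcard]; exact Nat.le_succ p) hF hFeq hF0 hdepth
  have e : p * (p + 1) + 1 - p * Fintype.card l = p + 1 := by
    rw [hcard, Nat.mul_succ]
    omega
  rwa [e] at h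

end Junction

end Fermat.Agent.S56.helper4982
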