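import Mathlib

/-
helper7407 — S56, T1 (C3)(d)(ii): eigenspace multiplicities of a finitely generated
abelian group with a cyclic action, from fixed ranks only.  Mathlib-only.

Main results (`T`-form, one endomorphism `T` of order dividing `n`):
* `charpoly_mul_eq_of_finrank_ker` : fixed ranks determine the characteristic polynomial
  of a lattice automorphism of finite order.
* `finrank_eigenspace_eq_of_free`, `eigen_mult_ge`, `eigen_mult_ge_succ` : comparison of
  the eigenspace dimensions of the reductions in characteristic `p ∤ n`.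
* `kd_baseChange_le`, `kd_smul_baseChange_le`, `kd_field_le`, `kd_field_smul_le` : the same
  in operator form (kernel dimensions of an arbitrary polynomial in the operator).
-/

namespace Fermat.Agent.S56.helper7407

open Module Polynomial TensorProduct

section Roots

variable {L : Type*} [Field L] [CharZero L]

/-- Rationality: the multiplicity of a primitive `d`-th root of unity as a root of an
integer polynomial only depends on `d`. -/
theorem rootMultiplicity_eq_of_primitive (P : ℤ[X]) {d : ℕ} (hd : 0 < d) {ζ ζ' : L}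
    (hζ : IsPrimitiveRoot ζ d) (hζ' : IsPrimitiveRoot ζ' d) :
    rootMultiplicity ζ (P.map (Int.castRingHom L)) =
      rootMultiplicity ζ' (P.map (Int.castRingHom L)) := by
  classical
  by_cases hP : P = 0
  · simp [hP]
  have hmonic : (cyclotomic d ℤ).Monic := cyclotomic.monic d ℤ
  have hdeg : (0 : WithBot ℕ) < degree (cyclotomic d ℤ) := by
    rw [degree_cyclotomic]
    exact_mod_cast Nat.totient_pos.mpr hd
  obtain ⟨R, hPR, hR⟩ :=
    (finiteMultiplicity_of_degree_pos_of_monic hdeg hmonic hP).exists_eq_pow_mul_and_not_dvd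
  set k := multiplicity (cyclotomic d ℤ) P with hk
  have hinj : Function.Injective (Int.castRingHom L) := Int.cast_injective
  have hne : NeZero ((d : ℕ) : L) := ⟨by exact_mod_cast hd.ne'⟩
  have key : ∀ ξ : L, IsPrimitiveRoot ξ d →
      rootMultiplicity ξ (P.map (Int.castRingHom L)) = k := by
    intro ξ hξ
    have hP' : P.map (Int.castRingHom L) ≠ 0 := by
      rwa [Ne, Polynomial.map_eq_zero_iff hinj]
    have hmap : P.map (Int.castRingHom L) =
        cyclotomic d L ^ k * R.map (Int.castRingHom L) := by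
      conv_lhs => rw [hPR]
      rw [Polynomial.map_mul, Polynomial.map_pow, map_cyclotomic]
    rw [hmap] at hP' ⊢
    rw [rootMultiplicity_mul hP']
    have h1 : rootMultiplicity ξ (cyclotomic d L ^ k) = k := by
      have hc1 : rootMultiplicity ξ (cyclotomic d L) = 1 := by
        apply le_antisymm
        · exact rootMultiplicity_le_one_of_separable (separable_cyclotomic d L) ξ
        · exact (rootMultiplicity_pos (cyclotomic_ne_zero d L)).mpr
            ((isRoot_cyclotomic_iff).mpr hξ)
      rw [← count_roots, roots_pow, Multiset.count_nsmul, count_roots, hc1, mul_one]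
    have h2 : rootMultiplicity ξ (R.map (Int.castRingHom L)) = 0 := by
      apply rootMultiplicity_eq_zero
      intro hroot
      apply hR
      rw [cyclotomic_eq_minpoly hξ hd]
      apply minpoly.isIntegrallyClosed_dvd (hξ.isIntegral hd)
      rw [IsRoot.def, eval_map] at hroot
      rw [aeval_def, algebraMap_int_eq]
      exact hroot
    rw [h1, h2, add_zero]
  rw [key ζ hζ, key ζ' hζ']

/-- Counting: two monic integer polynomials whose roots are `n`-th roots of unity and which
have, for every `e ∣ n`, the same number of roots killed by `e`, are equal. -/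
theorem eq_of_card_roots_filter [IsAlgClosed L] [DecidableEq L] {n : ℕ} (hn : 0 < n)
    {P Q : ℤ[X]} (hP : P.Monic) (hQ : Q.Monic)
    (hPr : ∀ ζ ∈ (P.map (Int.castRingHom L)).roots, ζ ^ n = 1)
    (hQr : ∀ ζ ∈ (Q.map (Int.castRingHom L)).roots, ζ ^ n = 1)
    (h : ∀ e, e ∣ n →
      ((P.map (Int.castRingHom L)).roots.filter (fun ζ => ζ ^ e = 1)).card =
        ((Q.map (Int.castRingHom L)).roots.filter (fun ζ => ζ ^ e = 1)).card) :
    P = Q := by
  classical
  set RP := (P.map (Int.castRingHom L)).roots with hRP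
  set RQ := (Q.map (Int.castRingHom L)).roots with hRQ
  -- sums of counts over the `d`-th roots of unity
  have hsum : ∀ (R : Multiset L) (d : ℕ), 0 < d →
      ∑ ζ ∈ nthRootsFinset d (1 : L), R.count ζ = (R.filter (fun ζ => ζ ^ d = 1)).card := by
    intro R d hd
    rw [← Multiset.sum_count_eq_card (s := nthRootsFinset d (1 : L))
      (m := R.filter (fun ζ => ζ ^ d = 1))]
    · apply Finset.sum_congr rfl
      intro ζ hζ
      rw [mem_nthRootsFinset hd] at hζ
      rw [Multiset.count_filter_of_pos (p := fun ζ => ζ ^ d = 1) hζ]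
    · intro ζ hζ
      rw [mem_nthRootsFinset hd]
      exact (Multiset.mem_filter.mp hζ).2
  have key : ∀ d, d ∣ n → ∀ ζ : L, IsPrimitiveRoot ζ d → RP.count ζ = RQ.count ζ := by
    intro d
    induction d using Nat.strong_induction_on with
    | _ d ih =>
      intro hdn ζ₀ hζ₀
      have hd : 0 < d := Nat.pos_of_dvd_of_pos hdn hn
      have h1 := hsum RP d hd
      have h2 := hsum RQ d hd
      rw [h d hdn, ← h2] at h1
      rw [← Finset.sum_filter_add_sum_filter_not (nthRootsFinset d (1 : L))
        (fun ζ => IsPrimitiveRoot ζ d),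
        ← Finset.sum_filter_add_sum_filter_not (nthRootsFinset d (1 : L))
        (fun ζ => IsPrimitiveRoot ζ d) (fun ζ => RQ.count ζ)] at h1
      have hnp : ∑ ζ ∈ (nthRootsFinset d (1 : L)).filter (fun ζ => ¬ IsPrimitiveRoot ζ d),
          RP.count ζ =
          ∑ ζ ∈ (nthRootsFinset d (1 : L)).filter (fun ζ => ¬ IsPrimitiveRoot ζ d),
          RQ.count ζ := by
        apply Finset.sum_congr rfl
        intro ζ hζ
        rw [Finset.mem_filter, mem_nthRootsFinset hd] at hζ
        have hdvd : orderOf ζ ∣ d := orderOf_dvd_of_pow_eq_one hζ.1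
        have hne : orderOf ζ ≠ d := fun hh => hζ.2 (IsPrimitiveRoot.iff_orderOf.mpr hh)
        exact ih (orderOf ζ) (lt_of_le_of_ne (Nat.le_of_dvd hd hdvd) hne)
          (hdvd.trans hdn) ζ (IsPrimitiveRoot.orderOf ζ)
      rw [hnp] at h1
      have h3 := add_right_cancel h1
      have hcP : ∀ ζ ∈ (nthRootsFinset d (1 : L)).filter (fun ζ => IsPrimitiveRoot ζ d),
          RP.count ζ = RP.count ζ₀ := by
        intro ζ hζ
        rw [hRP, count_roots, count_roots]
        exact rootMultiplicity_eq_of_primitive P hd (Finset.mem_filter.mp hζ).2 hζ₀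
      have hcQ : ∀ ζ ∈ (nthRootsFinset d (1 : L)).filter (fun ζ => IsPrimitiveRoot ζ d),
          RQ.count ζ = RQ.count ζ₀ := by
        intro ζ hζ
        rw [hRQ, count_roots, count_roots]
        exact rootMultiplicity_eq_of_primitive Q hd (Finset.mem_filter.mp hζ).2 hζ₀
      rw [Finset.sum_congr rfl hcP, Finset.sum_congr rfl hcQ, Finset.sum_const,
        Finset.sum_const, smul_eq_mul, smul_eq_mul] at h3
      have hmem : ζ₀ ∈ (nthRootsFinset d (1 : L)).filter (fun ζ => IsPrimitiveRoot ζ d) := by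
        rw [Finset.mem_filter, mem_nthRootsFinset hd]
        exact ⟨hζ₀.pow_eq_one, hζ₀⟩
      exact Nat.eq_of_mul_eq_mul_left (Finset.card_pos.mpr ⟨ζ₀, hmem⟩) h3
  have hR : RP = RQ := by
    ext ζ
    by_cases hζ : ζ ^ n = 1
    · exact key (orderOf ζ) (orderOf_dvd_of_pow_eq_one hζ) ζ (IsPrimitiveRoot.orderOf ζ)
    · rw [Multiset.count_eq_zero_of_notMem (fun hm => hζ (hPr ζ hm)),
        Multiset.count_eq_zero_of_notMem (fun hm => hζ (hQr ζ hm))]
  have hPQ : P.map (Int.castRingHom L) = Q.map (Int.castRingHom L) := by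
    rw [(IsAlgClosed.splits (P.map (Int.castRingHom L))).eq_prod_roots_of_monic (hP.map _),
      (IsAlgClosed.splits (Q.map (Int.castRingHom L))).eq_prod_roots_of_monic (hQ.map _),
      ← hRP, ← hRQ, hR]
  exact Polynomial.map_injective (Int.castRingHom L) Int.cast_injective hPQ

end Roots


section Split

variable {F : Type*} [Field F] {V : Type*} [AddCommGroup V] [Module F V]

theorem isCompl_ker_aeval (S : Module.End F V) {q q' : F[X]} (hco : IsCoprime q q')
    (h0 : aeval S (q * q') = 0) :
    IsCompl (LinearMap.ker (aeval S q)) (LinearMap.ker (aeval S q')) := by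
  constructor
  · exact disjoint_ker_aeval_of_isCoprime S hco
  · rw [codisjoint_iff, sup_ker_aeval_eq_ker_aeval_mul_of_coprime S hco, h0, LinearMap.ker_zero]

theorem map_mem_ker_aeval (S : Module.End F V) (q : F[X]) (x : V)
    (hx : x ∈ LinearMap.ker (aeval S q)) : S x ∈ LinearMap.ker (aeval S q) := by
  rw [LinearMap.mem_ker] at hx ⊢
  have h : aeval S q * S = S * aeval S q := by
    have h1 : aeval S (q * X) = aeval S (X * q) := by rw [mul_comm]
    simpa [aeval_mul, aeval_X] using h1
  calc aeval S q (S x) = (aeval S q * S) x := rfl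
    _ = (S * aeval S q) x := by rw [h]
    _ = S (aeval S q x) := rfl
    _ = 0 := by rw [hx, map_zero]

theorem charpoly_eq_mul_of_isCompl [FiniteDimensional F V]
    (S : Module.End F V) {W₁ W₂ : Submodule F V} (hc : IsCompl W₁ W₂)
    (h₁ : ∀ x ∈ W₁, S x ∈ W₁) (h₂ : ∀ x ∈ W₂, S x ∈ W₂) :
    S.charpoly = (S.restrict h₁).charpoly * (S.restrict h₂).charpoly := by
  let e := Submodule.prodEquivOfIsCompl W₁ W₂ hc
  have hψ : (S.restrict h₁).prodMap (S.restrict h₂) = e.symm.conj S := by
    apply LinearMap.ext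
    rintro ⟨x, y⟩
    rw [LinearEquiv.conj_apply, LinearMap.comp_apply, LinearMap.comp_apply,
      LinearEquiv.coe_coe, LinearEquiv.coe_coe, LinearEquiv.eq_symm_apply]
    simp [e]
  rw [← e.symm.charpoly_conj S, ← hψ, LinearMap.charpoly_prodMap]

theorem coe_aeval_restrict (S : Module.End F V) {W : Submodule F V} (h : ∀ x ∈ W, S x ∈ W)
    (q : F[X]) (x : W) : ((aeval (S.restrict h) q x : W) : V) = aeval S q x := by
  have hpow : ∀ (k : ℕ) (y : W), (((S.restrict h) ^ k) y : V) = (S ^ k) y := by
    intro k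
    induction k with
    | zero => intro y; simp
    | succ k ih =>
      intro y
      rw [pow_succ, pow_succ, Module.End.mul_apply, Module.End.mul_apply, ih]
      rfl
  induction q using Polynomial.induction_on' with
  | add p q hp hq => simp [hp, hq]
  | monomial n a =>
    rw [aeval_monomial, aeval_monomial]
    simp [Algebra.algebraMap_eq_smul_one, hpow]

/-- All roots of the characteristic polynomial of an endomorphism killed by `q` are roots
of `q`. -/
theorem isRoot_of_aeval_eq_zero [FiniteDimensional F V] (S : Module.End F V) (q : F[X])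
    (hq : aeval S q = 0) (μ : F) (hμ : S.charpoly.IsRoot μ) : q.IsRoot μ := by
  have hev : S.HasEigenvalue μ := (Module.End.hasEigenvalue_iff_isRoot_charpoly S μ).mpr hμ
  obtain ⟨v, hv⟩ := hev.exists_hasEigenvector
  have h1 := Module.End.aeval_apply_of_hasEigenvector hv (p := q)
  rw [hq, LinearMap.zero_apply] at h1
  rcases smul_eq_zero.mp h1.symm with h | h
  · exact h
  · exact absurd h hv.2

theorem finrank_ker_pow_sub_one_eq_card_roots [IsAlgClosed F] [FiniteDimensional F V]
    [DecidableEq F] {n : ℕ} (hn : (n : F) ≠ 0) (S : Module.End F V) (hS : S ^ n = 1)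
    {e : ℕ} (he : e ∣ n) :
    finrank F (LinearMap.ker (S ^ e - 1)) =
      (S.charpoly.roots.filter (fun ζ => ζ ^ e = 1)).card := by
  obtain ⟨m, rfl⟩ := he
  set q : F[X] := X ^ e - 1 with hq
  obtain ⟨q', hq'⟩ : q ∣ X ^ (e * m) - 1 := by
    have := sub_dvd_pow_sub_pow ((X : F[X]) ^ e) 1 m
    rwa [one_pow, ← pow_mul] at this
  have hsep : (X ^ (e * m) - 1 : F[X]).Separable := X_pow_sub_one_separable_iff.mpr hn
  have hco : IsCoprime q q' := by
    rw [hq'] at hsep
    exact hsep.isCoprime
  have h0 : aeval S (q * q') = 0 := by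
    rw [← hq']
    simp [hS]
  have hc := isCompl_ker_aeval S hco h0
  have h₁ := map_mem_ker_aeval S q
  have h₂ := map_mem_ker_aeval S q'
  have hchar := charpoly_eq_mul_of_isCompl S hc h₁ h₂
  have hker : LinearMap.ker (S ^ e - 1) = LinearMap.ker (aeval S q) := by
    simp [hq]
  have hne : (S.restrict h₁).charpoly * (S.restrict h₂).charpoly ≠ 0 :=
    mul_ne_zero (LinearMap.charpoly_monic _).ne_zero (LinearMap.charpoly_monic _).ne_zero
  have hq1 : aeval (S.restrict h₁) q = 0 := by
    apply LinearMap.ext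
    intro x
    apply Subtype.ext
    rw [LinearMap.zero_apply, ZeroMemClass.coe_zero, coe_aeval_restrict]
    exact LinearMap.mem_ker.mp x.2
  have hq2 : aeval (S.restrict h₂) q' = 0 := by
    apply LinearMap.ext
    intro x
    apply Subtype.ext
    rw [LinearMap.zero_apply, ZeroMemClass.coe_zero, coe_aeval_restrict]
    exact LinearMap.mem_ker.mp x.2
  rw [hchar, roots_mul hne, Multiset.filter_add, Multiset.card_add]
  have hf1 : (S.restrict h₁).charpoly.roots.filter (fun ζ => ζ ^ e = 1) =
      (S.restrict h₁).charpoly.roots := by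
    apply Multiset.filter_eq_self.mpr
    intro ζ hζ
    have := isRoot_of_aeval_eq_zero (S.restrict h₁) q hq1 ζ (isRoot_of_mem_roots hζ)
    simpa [hq, sub_eq_zero] using this
  have hf2 : (S.restrict h₂).charpoly.roots.filter (fun ζ => ζ ^ e = 1) = 0 := by
    apply Multiset.filter_eq_nil.mpr
    intro ζ hζ hζe
    have h2 := isRoot_of_aeval_eq_zero (S.restrict h₂) q' hq2 ζ (isRoot_of_mem_roots hζ)
    obtain ⟨a, b, hab⟩ := hco
    have h3 := congrArg (eval ζ) hab
    simp [hq, hζe, h2.eq_zero] at h3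
  rw [hf1, hf2, Multiset.card_zero, add_zero,
    ← (IsAlgClosed.splits (S.restrict h₁).charpoly).natDegree_eq_card_roots,
    LinearMap.charpoly_natDegree, hker]

end Split


section Lattice

variable {Λ : Type*} [AddCommGroup Λ] [Module.Finite ℤ Λ] [Module.Free ℤ Λ]

/-- Flat base change of a kernel, for lattices. -/
theorem finrank_ker_baseChange (L : Type*) [Field L] [CharZero L] (f : Λ →ₗ[ℤ] Λ) :
    finrank L (LinearMap.ker (f.baseChange L)) = finrank ℤ (LinearMap.ker f) := by
  have e := LinearMap.tensorKerEquiv L L f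
  rw [← Module.finrank_baseChange (R := L) (S := ℤ) (M' := LinearMap.ker f)]
  exact (LinearEquiv.finrank_eq e).symm

theorem pow_eq_one_of_mem_roots_charpoly (L : Type*) [Field L] [CharZero L] {n : ℕ}
    (T : Module.End ℤ Λ) (hT : T ^ n = 1) (ζ : L)
    (hζ : ζ ∈ (T.charpoly.map (Int.castRingHom L)).roots) : ζ ^ n = 1 := by
  have h1 : (T.baseChange L).charpoly.IsRoot ζ := by
    rw [LinearMap.charpoly_baseChange, algebraMap_int_eq]
    exact isRoot_of_mem_roots hζ
  have h2 : aeval (T.baseChange L) (X ^ n - 1 : L[X]) = 0 := by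
    simp [← LinearMap.baseChange_pow, hT, LinearMap.baseChange_one]
  have := isRoot_of_aeval_eq_zero (T.baseChange L) _ h2 ζ h1
  simpa [sub_eq_zero] using this

theorem finrank_ker_pow_sub_one_int (L : Type*) [Field L] [CharZero L] [IsAlgClosed L]
    [DecidableEq L] {n : ℕ} (hn : 0 < n) (T : Module.End ℤ Λ) (hT : T ^ n = 1) {e : ℕ}
    (he : e ∣ n) :
    finrank ℤ (LinearMap.ker (T ^ e - 1)) =
      ((T.charpoly.map (Int.castRingHom L)).roots.filter (fun ζ => ζ ^ e = 1)).card := by
  have hn' : ((n : ℕ) : L) ≠ 0 := by exact_mod_cast hn.ne'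
  have hT' : (T.baseChange L) ^ n = 1 := by
    rw [← LinearMap.baseChange_pow, hT, LinearMap.baseChange_one]
  rw [← finrank_ker_baseChange L, LinearMap.baseChange_sub, LinearMap.baseChange_pow,
    LinearMap.baseChange_one, finrank_ker_pow_sub_one_eq_card_roots hn' (T.baseChange L) hT' he,
    LinearMap.charpoly_baseChange, algebraMap_int_eq]

/-- **Fixed ranks determine the characteristic polynomial.** -/
theorem charpoly_mul_eq_of_finrank_ker {B : Type*} [AddCommGroup B] [Module.Finite ℤ B]
    [Module.Free ℤ B] {n : ℕ} (hn : 0 < n) (T : Module.End ℤ Λ) (hT : T ^ n = 1)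
    (P : Module.End ℤ B) (hP : P ^ n = 1)
    (h : ∀ e, e ∣ n →
      finrank ℤ (LinearMap.ker (T ^ e - 1)) + 1 = finrank ℤ (LinearMap.ker (P ^ e - 1))) :
    T.charpoly * (X - C 1) = P.charpoly := by
  classical
  let L := AlgebraicClosure ℚ
  have hmap : (T.charpoly * (X - C 1)).map (Int.castRingHom L) =
      T.charpoly.map (Int.castRingHom L) * (X - C 1) := by
    simp
  have hne : T.charpoly.map (Int.castRingHom L) * (X - C (1 : L)) ≠ 0 :=
    mul_ne_zero ((LinearMap.charpoly_monic T).map _).ne_zero (X_sub_C_ne_zero 1)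
  have hroots : ((T.charpoly * (X - C 1)).map (Int.castRingHom L)).roots =
      (T.charpoly.map (Int.castRingHom L)).roots + {1} := by
    rw [hmap, roots_mul hne, roots_X_sub_C]
  apply eq_of_card_roots_filter (L := L) hn
    ((LinearMap.charpoly_monic T).mul (monic_X_sub_C 1)) (LinearMap.charpoly_monic P)
  · intro ζ hζ
    rw [hroots, Multiset.mem_add] at hζ
    rcases hζ with hζ | hζ
    · exact pow_eq_one_of_mem_roots_charpoly L T hT ζ hζ
    · rw [Multiset.mem_singleton.mp hζ, one_pow]
  · exact pow_eq_one_of_mem_roots_charpoly L P hP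
  · intro e he
    rw [hroots, Multiset.filter_add, Multiset.card_add,
      ← finrank_ker_pow_sub_one_int L hn T hT he, ← finrank_ker_pow_sub_one_int L hn P hP he,
      ← h e he]
    congr 1
    rw [Multiset.filter_singleton, if_pos (one_pow e), Multiset.card_singleton]

end Lattice


section CharP

variable {F : Type*} [Field F] {V : Type*} [AddCommGroup V] [Module F V]

theorem finrank_eigenspace_eq_rootMultiplicity [FiniteDimensional F V] {n : ℕ}
    (hn : (n : F) ≠ 0) (S : Module.End F V) (hS : S ^ n = 1) (c : F) :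
    finrank F (S.eigenspace c) = rootMultiplicity c S.charpoly := by
  have hss : S.IsSemisimple := by
    apply Module.End.isSemisimple_of_squarefree_aeval_eq_zero
      (X_pow_sub_one_separable_iff.mpr hn).squarefree
    simp [hS]
  rw [← hss.isFinitelySemisimple.maxGenEigenspace_eq_eigenspace c,
    LinearMap.finrank_maxGenEigenspace_eq]

theorem aeval_intertwine {V' : Type*} [AddCommGroup V'] [Module F V'] (pr : V →ₗ[F] V')
    (S : Module.End F V) (S' : Module.End F V') (hint : pr ∘ₗ S = S' ∘ₗ pr) (q : F[X]) (x : V) :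
    pr (aeval S q x) = aeval S' q (pr x) := by
  have hpow : ∀ (k : ℕ) (y : V), pr ((S ^ k) y) = (S' ^ k) (pr y) := by
    intro k
    induction k with
    | zero => intro y; simp
    | succ k ih =>
      intro y
      rw [pow_succ, pow_succ, Module.End.mul_apply, Module.End.mul_apply, ih]
      exact congrArg _ (LinearMap.congr_fun hint y)
  induction q using Polynomial.induction_on' with
  | add p q hp hq => simp [hp, hq]
  | monomial n a =>
    rw [aeval_monomial, aeval_monomial]
    simp [Algebra.algebraMap_eq_smul_one, hpow]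

theorem exists_eigen_lift {V' : Type*} [AddCommGroup V'] [Module F V'] (pr : V →ₗ[F] V')
    (hpr : Function.Surjective pr) (S : Module.End F V) (S' : Module.End F V')
    (hint : pr ∘ₗ S = S' ∘ₗ pr) {n : ℕ} (hn : (n : F) ≠ 0) (hS : S ^ n = 1) (c : F)
    (hc : c ^ n = 1) (y : V') (hy : y ∈ S'.eigenspace c) :
    ∃ x ∈ S.eigenspace c, pr x = y := by
  obtain ⟨q', hq'⟩ : (X - C c : F[X]) ∣ X ^ n - 1 := by
    rw [dvd_iff_isRoot]
    simp [hc]
  have hsep : (X ^ n - 1 : F[X]).Separable := X_pow_sub_one_separable_iff.mpr hn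
  have hco : IsCoprime (X - C c) q' := by
    rw [hq'] at hsep
    exact hsep.isCoprime
  have h0 : aeval S ((X - C c) * q') = 0 := by
    rw [← hq']
    simp [hS]
  have hcompl := isCompl_ker_aeval S hco h0
  have hdisj := disjoint_ker_aeval_of_isCoprime S' hco
  have heig : ∀ (R : Module.End F V') (v : V'),
      v ∈ LinearMap.ker (aeval R (X - C c : F[X])) ↔ v ∈ R.eigenspace c := by
    intro R v
    rw [Module.End.mem_eigenspace_iff, LinearMap.mem_ker]
    simp [sub_eq_zero, Algebra.algebraMap_eq_smul_one]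
  have heig' : ∀ (v : V),
      v ∈ LinearMap.ker (aeval S (X - C c : F[X])) ↔ v ∈ S.eigenspace c := by
    intro v
    rw [Module.End.mem_eigenspace_iff, LinearMap.mem_ker]
    simp [sub_eq_zero, Algebra.algebraMap_eq_smul_one]
  obtain ⟨x, rfl⟩ := hpr y
  have hx : x ∈ LinearMap.ker (aeval S (X - C c : F[X])) ⊔ LinearMap.ker (aeval S q') := by
    rw [hcompl.sup_eq_top]; exact Submodule.mem_top
  obtain ⟨x₁, hx₁, x₂, hx₂, rfl⟩ := Submodule.mem_sup.mp hx
  refine ⟨x₁, (heig' x₁).mp hx₁, ?_⟩
  have h1 : pr x₁ ∈ LinearMap.ker (aeval S' (X - C c : F[X])) := by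
    rw [LinearMap.mem_ker, ← aeval_intertwine pr S S' hint, LinearMap.mem_ker.mp hx₁, map_zero]
  have h2 : pr x₂ ∈ LinearMap.ker (aeval S' q') := by
    rw [LinearMap.mem_ker, ← aeval_intertwine pr S S' hint, LinearMap.mem_ker.mp hx₂, map_zero]
  have h3 : pr x₂ ∈ LinearMap.ker (aeval S' (X - C c : F[X])) := by
    have : pr x₂ = pr (x₁ + x₂) - pr x₁ := by rw [map_add]; abel
    rw [this]
    exact Submodule.sub_mem _ ((heig S' _).mpr hy) h1
  have h4 : pr x₂ = 0 := by
    have := hdisj.le_bot (Submodule.mem_inf.mpr ⟨h3, h2⟩)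
    simpa using this
  rw [map_add, h4, add_zero]

end CharP


section Torsion

variable {A : Type*} [AddCommGroup A]

theorem torsion_le_comap (f : Module.End ℤ A) :
    Submodule.torsion ℤ A ≤ (Submodule.torsion ℤ A).comap f := by
  intro x hx
  rw [Submodule.mem_comap, Submodule.mem_torsion_iff] at *
  obtain ⟨a, ha⟩ := hx
  refine ⟨a, ?_⟩
  have h1 : (a : ℤ) • f x = f ((a : ℤ) • x) := (map_smul f (a : ℤ) x).symm
  have h2 : (a : ℤ) • x = 0 := ha
  change (a : ℤ) • f x = 0
  rw [h1, h2, map_zero]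

/-- The endomorphism induced on the quotient by the torsion subgroup. -/
noncomputable def modTors (f : Module.End ℤ A) : Module.End ℤ (A ⧸ Submodule.torsion ℤ A) :=
  (Submodule.torsion ℤ A).mapQ _ f (torsion_le_comap f)

theorem modTors_mk (f : Module.End ℤ A) (x : A) :
    modTors f (Submodule.Quotient.mk x) = Submodule.Quotient.mk (f x) := rfl

theorem modTors_comp_mkQ (f : Module.End ℤ A) :
    modTors f ∘ₗ (Submodule.torsion ℤ A).mkQ = (Submodule.torsion ℤ A).mkQ ∘ₗ f := rfl

theorem modTors_one : modTors (1 : Module.End ℤ A) = 1 := by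
  apply LinearMap.ext
  intro x
  induction x using Submodule.Quotient.induction_on with
  | _ x => rfl

theorem modTors_pow (f : Module.End ℤ A) (k : ℕ) : modTors (f ^ k) = modTors f ^ k := by
  induction k with
  | zero =>
    apply LinearMap.ext
    intro x
    induction x using Submodule.Quotient.induction_on with
    | _ x => rfl
  | succ k ih =>
    rw [pow_succ, pow_succ, ← ih]
    apply LinearMap.ext
    intro x
    induction x using Submodule.Quotient.induction_on with
    | _ x => rfl

theorem modTors_pow_sub_one (f : Module.End ℤ A) (k : ℕ) :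
    modTors (f ^ k - 1) = modTors f ^ k - 1 := by
  rw [← modTors_pow]
  apply LinearMap.ext
  intro x
  induction x using Submodule.Quotient.induction_on with
  | _ x => rfl

theorem finrank_ker_modTors [Module.Finite ℤ A] (f : Module.End ℤ A) :
    finrank ℤ (LinearMap.ker (modTors f)) = finrank ℤ (LinearMap.ker f) := by
  set tors := Submodule.torsion ℤ A with htors
  have hmem : ∀ x ∈ LinearMap.ker f, tors.mkQ x ∈ LinearMap.ker (modTors f) := by
    intro x hx
    rw [LinearMap.mem_ker] at hx ⊢
    rw [Submodule.mkQ_apply, modTors_mk, hx, Submodule.Quotient.mk_zero]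
  let φ : LinearMap.ker f →ₗ[ℤ] LinearMap.ker (modTors f) := (tors.mkQ).restrict hmem
  have h1 : finrank ℤ (LinearMap.ker f) = finrank ℤ (LinearMap.range φ) := by
    have hle : LinearMap.ker φ ≤ Submodule.torsion ℤ (LinearMap.ker f) := by
      intro x hx
      rw [LinearMap.mem_ker] at hx
      have hx' : tors.mkQ (x : A) = 0 := congrArg Subtype.val hx
      rw [Submodule.mkQ_apply, Submodule.Quotient.mk_eq_zero, Submodule.mem_torsion_iff] at hx'
      obtain ⟨a, ha⟩ := hx'
      rw [Submodule.mem_torsion_iff]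
      exact ⟨a, Subtype.ext ha⟩
    rw [← finrank_quotient_eq_of_le_torsion hle]
    exact LinearEquiv.finrank_eq φ.quotKerEquivRange
  have h2 : finrank ℤ (LinearMap.ker (modTors f) ⧸ LinearMap.range φ) = 0 := by
    rw [Module.finrank_eq_zero_iff]
    intro y
    induction y using Submodule.Quotient.induction_on with
    | _ y =>
      obtain ⟨y, hy⟩ := y
      induction y using Submodule.Quotient.induction_on with
      | _ z =>
        have hz : f z ∈ tors := by
          rw [LinearMap.mem_ker, modTors_mk, Submodule.Quotient.mk_eq_zero] at hy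
          exact hy
        rw [Submodule.mem_torsion_iff] at hz
        obtain ⟨a, ha⟩ := hz
        refine ⟨(a : ℤ), nonZeroDivisors.coe_ne_zero a, ?_⟩
        have hker : (a : ℤ) • z ∈ LinearMap.ker f := by
          rw [LinearMap.mem_ker, map_smul]
          exact ha
        rw [← Submodule.Quotient.mk_smul, Submodule.Quotient.mk_eq_zero]
        exact ⟨⟨(a : ℤ) • z, hker⟩, Subtype.ext rfl⟩
  have h3 := Submodule.finrank_quotient_add_finrank (LinearMap.range φ)
  omega

end Torsion


section Main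

theorem finrank_eigenspace_add_le_of_surjective {F : Type*} [Field F] {V V' : Type*}
    [AddCommGroup V] [Module F V] [AddCommGroup V'] [Module F V'] [FiniteDimensional F V]
    (pr : V →ₗ[F] V') (hpr : Function.Surjective pr) (S : Module.End F V)
    (S' : Module.End F V') (hint : pr ∘ₗ S = S' ∘ₗ pr) {n : ℕ} (hn : (n : F) ≠ 0)
    (hS : S ^ n = 1) (c : F) (hc : c ^ n = 1) :
    finrank F (S'.eigenspace c) ≤ finrank F (S.eigenspace c) ∧
    ((∃ x₀ : V, x₀ ≠ 0 ∧ x₀ ∈ S.eigenspace c ∧ pr x₀ = 0) →
      finrank F (S'.eigenspace c) + 1 ≤ finrank F (S.eigenspace c)) := by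
  have hmem : ∀ x ∈ S.eigenspace c, pr x ∈ S'.eigenspace c := by
    intro x hx
    rw [Module.End.mem_eigenspace_iff] at hx ⊢
    have := LinearMap.congr_fun hint x
    simp only [LinearMap.comp_apply] at this
    rw [← this, hx, map_smul]
  let ψ : S.eigenspace c →ₗ[F] S'.eigenspace c := pr.restrict hmem
  have hsurj : Function.Surjective ψ := by
    rintro ⟨y, hy⟩
    obtain ⟨x, hx, hxy⟩ := exists_eigen_lift pr hpr S S' hint hn hS c hc y hy
    exact ⟨⟨x, hx⟩, Subtype.ext hxy⟩
  have h1 := LinearMap.finrank_range_add_finrank_ker ψ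
  have h2 : finrank F (LinearMap.range ψ) = finrank F (S'.eigenspace c) := by
    rw [LinearMap.range_eq_top.mpr hsurj, finrank_top]
  refine ⟨by omega, ?_⟩
  rintro ⟨x₀, hx₀, hx₀e, hx₀k⟩
  have h3 : 0 < finrank F (LinearMap.ker ψ) := by
    rw [Module.finrank_pos_iff_exists_ne_zero]
    refine ⟨⟨⟨x₀, hx₀e⟩, ?_⟩, ?_⟩
    · rw [LinearMap.mem_ker]
      exact Subtype.ext hx₀k
    · intro h
      apply hx₀
      have := congrArg (fun z : LinearMap.ker ψ => ((z : S.eigenspace c) : V)) h
      simpa using this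
  omega

theorem exists_addHom_ne_zero_aux {p : ℕ} [Fact p.Prime] {Q : Type*} [AddCommGroup Q]
    [Module (ZMod p) Q] (x : Q) (hx : x ≠ 0) : ∃ f : Q →+ ZMod p, f x ≠ 0 := by
  by_contra hcon
  apply hx
  apply (Module.forall_dual_apply_eq_zero_iff (ZMod p) x).mp
  intro φ
  by_contra hφ
  exact hcon ⟨φ.toAddMonoidHom, hφ⟩

/-- A pure tensor `1 ⊗ t` in `k' ⊗[ℤ] A` is nonzero when `t` is not divisible by the
characteristic. -/
theorem one_tmul_ne_zero {p : ℕ} (hp : p.Prime) {A : Type*} [AddCommGroup A] (k' : Type*)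
    [Field k'] [CharP k' p] (t : A) (ht : ∀ a : A, t ≠ p • a) : (1 : k') ⊗ₜ[ℤ] t ≠ 0 := by
  have : Fact p.Prime := ⟨hp⟩
  have hH : ∀ x : A, p • x ∈ (nsmulAddMonoidHom (α := A) p).range := fun x => ⟨x, rfl⟩
  have ht' : (QuotientAddGroup.mk t : A ⧸ (nsmulAddMonoidHom (α := A) p).range) ≠ 0 := by
    intro h
    rw [QuotientAddGroup.eq_zero_iff] at h
    obtain ⟨a, ha⟩ := h
    exact ht a ha.symm
  obtain ⟨f, hf⟩ := @exists_addHom_ne_zero_aux p _ _ _ (QuotientAddGroup.zmodModule hH) _ ht'
  let lam : A →+ k' := (ZMod.castHom (dvd_refl p) k').toAddMonoidHom.comp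
    (f.comp (QuotientAddGroup.mk' _))
  have hlam : lam t ≠ 0 := by
    change (ZMod.castHom (dvd_refl p) k') (f (QuotientAddGroup.mk t)) ≠ 0
    rw [Ne, map_eq_zero_iff _ (RingHom.injective _)]
    exact hf
  intro h0
  have : TensorProduct.lift ((LinearMap.mul ℤ k').compl₂ lam.toIntLinearMap)
      ((1 : k') ⊗ₜ[ℤ] t) = lam t := by
    rw [TensorProduct.lift.tmul, LinearMap.compl₂_apply, LinearMap.mul_apply', one_mul]
    rfl
  rw [h0, map_zero] at this
  exact hlam this.symm

variable {n p : ℕ} {A : Type*} [AddCommGroup A] [Module.Finite ℤ A]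
  {B : Type*} [AddCommGroup B] [Module.Finite ℤ B] [Module.Free ℤ B]

/-- The lattice case: equality. -/
theorem finrank_eigenspace_eq_of_free [Module.Free ℤ A] (hn : 0 < n)
    (T : Module.End ℤ A) (hT : T ^ n = 1) (P : Module.End ℤ B) (hP : P ^ n = 1)
    (hrank : ∀ e, e ∣ n →
      finrank ℤ (LinearMap.ker (T ^ e - 1)) + 1 = finrank ℤ (LinearMap.ker (P ^ e - 1)))
    {k' : Type*} [Field k'] [DecidableEq k'] (hnk : (n : k') ≠ 0) (c : k') :
    finrank k' (Module.End.eigenspace (P.baseChange k') c) =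
      finrank k' (Module.End.eigenspace (T.baseChange k') c) + (if c = 1 then 1 else 0) := by
  have hT' : (T.baseChange k') ^ n = 1 := by
    rw [← LinearMap.baseChange_pow, hT, LinearMap.baseChange_one]
  have hP' : (P.baseChange k') ^ n = 1 := by
    rw [← LinearMap.baseChange_pow, hP, LinearMap.baseChange_one]
  have hne : T.charpoly.map (algebraMap ℤ k') * (X - C (1 : k')) ≠ 0 :=
    mul_ne_zero ((LinearMap.charpoly_monic T).map _).ne_zero (X_sub_C_ne_zero 1)
  rw [finrank_eigenspace_eq_rootMultiplicity hnk _ hP',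
    finrank_eigenspace_eq_rootMultiplicity hnk _ hT', LinearMap.charpoly_baseChange,
    LinearMap.charpoly_baseChange, ← charpoly_mul_eq_of_finrank_ker hn T hT P hP hrank,
    Polynomial.map_mul, Polynomial.map_sub, map_X, map_C, map_one, rootMultiplicity_mul hne,
    rootMultiplicity_X_sub_C]

theorem eigen_mult_ge_aux (hn : 0 < n) (hpn : ¬ p ∣ n)
    (T : Module.End ℤ A) (hT : T ^ n = 1) (P : Module.End ℤ B) (hP : P ^ n = 1)
    (hrank : ∀ e, e ∣ n →
      finrank ℤ (LinearMap.ker (T ^ e - 1)) + 1 = finrank ℤ (LinearMap.ker (P ^ e - 1)))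
    {k' : Type*} [Field k'] [CharP k' p] [DecidableEq k'] (c : k') (hc : c ^ n = 1) :
    finrank k' (Module.End.eigenspace (P.baseChange k') c) ≤
        finrank k' (Module.End.eigenspace (T.baseChange k') c) + (if c = 1 then 1 else 0) ∧
    ((∃ x₀ : k' ⊗[ℤ] A, x₀ ≠ 0 ∧ x₀ ∈ Module.End.eigenspace (T.baseChange k') c ∧
        ((Submodule.torsion ℤ A).mkQ.baseChange k') x₀ = 0) →
      finrank k' (Module.End.eigenspace (P.baseChange k') c) + 1 ≤
        finrank k' (Module.End.eigenspace (T.baseChange k') c) + (if c = 1 then 1 else 0)) := by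
  have hnk : (n : k') ≠ 0 := by
    rw [Ne, CharP.cast_eq_zero_iff k' p]
    exact hpn
  have hTbar : modTors T ^ n = 1 := by
    rw [← modTors_pow, hT, modTors_one]
  have hrank' : ∀ e, e ∣ n → finrank ℤ (LinearMap.ker (modTors T ^ e - 1)) + 1 =
      finrank ℤ (LinearMap.ker (P ^ e - 1)) := by
    intro e he
    rw [← modTors_pow_sub_one, finrank_ker_modTors]
    exact hrank e he
  have heq := finrank_eigenspace_eq_of_free hn (modTors T) hTbar P hP hrank' hnk c
  have hT' : (T.baseChange k') ^ n = 1 := by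
    rw [← LinearMap.baseChange_pow, hT, LinearMap.baseChange_one]
  have hint : (Submodule.torsion ℤ A).mkQ.baseChange k' ∘ₗ T.baseChange k' =
      (modTors T).baseChange k' ∘ₗ (Submodule.torsion ℤ A).mkQ.baseChange k' := by
    rw [← LinearMap.baseChange_comp, ← LinearMap.baseChange_comp, modTors_comp_mkQ]
  have hsurj : Function.Surjective ((Submodule.torsion ℤ A).mkQ.baseChange k') := by
    rw [LinearMap.baseChange_eq_ltensor]
    exact LinearMap.lTensor_surjective _ (Submodule.mkQ_surjective _)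
  have hle := finrank_eigenspace_add_le_of_surjective _ hsurj (T.baseChange k')
    ((modTors T).baseChange k') hint hnk hT' c hc
  rw [heq]
  refine ⟨by have := hle.1; omega, fun hx => ?_⟩
  have := hle.2 hx
  omega

/-- **Eigenspace multiplicity, lower bound.**  `A` a finitely generated abelian group with
an automorphism `T` of order dividing `n`, `B` a lattice with an automorphism `P` of order
dividing `n`, such that the fixed ranks of `T ^ e` and `P ^ e` differ by one for all `e ∣ n`.
Then in characteristic `p ∤ n` the `c`-eigenspace of `k' ⊗ A` is at least as large as that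
of `k' ⊗ B`, up to the correction `[c = 1]`. -/
theorem eigen_mult_ge (hn : 0 < n) (_hp : p.Prime) (hpn : ¬ p ∣ n)
    (T : Module.End ℤ A) (hT : T ^ n = 1) (P : Module.End ℤ B) (hP : P ^ n = 1)
    (hrank : ∀ e, e ∣ n →
      finrank ℤ (LinearMap.ker (T ^ e - 1)) + 1 = finrank ℤ (LinearMap.ker (P ^ e - 1)))
    {k' : Type*} [Field k'] [CharP k' p] [DecidableEq k'] (c : k') (hc : c ^ n = 1) :
    finrank k' (Module.End.eigenspace (P.baseChange k') c) ≤
      finrank k' (Module.End.eigenspace (T.baseChange k') c) + (if c = 1 then 1 else 0) :=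
  (eigen_mult_ge_aux hn hpn T hT P hP hrank c hc).1

/-- The same with one more dimension, coming from a torsion eigen-element not divisible by
`p` (the line of the `p`-power roots of unity). -/
theorem eigen_mult_ge_succ (hn : 0 < n) (hp : p.Prime) (hpn : ¬ p ∣ n)
    (T : Module.End ℤ A) (hT : T ^ n = 1) (P : Module.End ℤ B) (hP : P ^ n = 1)
    (hrank : ∀ e, e ∣ n →
      finrank ℤ (LinearMap.ker (T ^ e - 1)) + 1 = finrank ℤ (LinearMap.ker (P ^ e - 1)))
    {k' : Type*} [Field k'] [CharP k' p] [DecidableEq k'] (c : k') (hc : c ^ n = 1)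
    (t : A) (ht : IsOfFinAddOrder t) (htp : ∀ a : A, t ≠ p • a) (z : ℤ) (hz : (z : k') = c)
    (hTt : T t = z • t) :
    finrank k' (Module.End.eigenspace (P.baseChange k') c) + 1 ≤
      finrank k' (Module.End.eigenspace (T.baseChange k') c) + (if c = 1 then 1 else 0) := by
  apply (eigen_mult_ge_aux hn hpn T hT P hP hrank c hc).2
  refine ⟨(1 : k') ⊗ₜ[ℤ] t, one_tmul_ne_zero hp k' t htp, ?_, ?_⟩
  · rw [Module.End.mem_eigenspace_iff, LinearMap.baseChange_tmul, hTt, TensorProduct.tmul_smul,
      ← hz, Int.cast_smul_eq_zsmul]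
  · rw [LinearMap.baseChange_tmul]
    have hmem : t ∈ Submodule.torsion ℤ A := by
      obtain ⟨m, hm, hmt⟩ := isOfFinAddOrder_iff_nsmul_eq_zero.mp ht
      rw [Submodule.mem_torsion_iff]
      refine ⟨⟨(m : ℤ), mem_nonZeroDivisors_of_ne_zero (by exact_mod_cast hm.ne')⟩, ?_⟩
      change (m : ℤ) • t = 0
      rw [natCast_zsmul, hmt]
    rw [Submodule.mkQ_apply, (Submodule.Quotient.mk_eq_zero _).mpr hmem, TensorProduct.tmul_zero]

end Main

section Operator

variable {F : Type*} [Field F] {V : Type*} [AddCommGroup V] [Module F V]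

/-- Base change of an annihilating polynomial. -/
theorem aeval_baseChange_map (K : Type*) [Field K] [Algebra F K] (R : Module.End F V)
    (g : F[X]) :
    aeval (R.baseChange K) (g.map (algebraMap F K)) = (aeval R g).baseChange K := by
  rw [aeval_map_algebraMap]
  exact aeval_algHom_apply (Module.End.baseChangeHom F K V) R g

theorem isRoot_map_of_aeval_eq_zero [FiniteDimensional F V] (K : Type*) [Field K]
    [Algebra F K] (R : Module.End F V) (g : F[X]) (hg : aeval R g = 0) (c : K)
    (hc : (R.charpoly.map (algebraMap F K)).IsRoot c) : (g.map (algebraMap F K)).IsRoot c := by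
  apply isRoot_of_aeval_eq_zero (R.baseChange K) (g.map (algebraMap F K)) ?_ c
    (by rw [LinearMap.charpoly_baseChange]; exact hc)
  rw [aeval_baseChange_map, hg, LinearMap.baseChange_zero]

/-- Kernel dimensions of a divisor of `X ^ n - 1` evaluated at an endomorphism of order
dividing `n` (with `n` invertible) are read off the characteristic polynomial. -/
theorem finrank_ker_aeval_eq_card_roots [FiniteDimensional F V] (K : Type*) [Field K]
    [IsAlgClosed K] [Algebra F K] [DecidableEq K] {n : ℕ} (hn : (n : F) ≠ 0)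
    (S : Module.End F V) (hS : S ^ n = 1) {q q' : F[X]} (hqq' : X ^ n - 1 = q * q') :
    finrank F (LinearMap.ker (aeval S q)) =
      ((S.charpoly.map (algebraMap F K)).roots.filter
        (fun c => (q.map (algebraMap F K)).IsRoot c)).card := by
  have hsep : (X ^ n - 1 : F[X]).Separable := X_pow_sub_one_separable_iff.mpr hn
  have hco : IsCoprime q q' := by
    rw [hqq'] at hsep
    exact hsep.isCoprime
  have h0 : aeval S (q * q') = 0 := by
    rw [← hqq']
    simp [hS]
  have hc := isCompl_ker_aeval S hco h0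
  have h₁ := map_mem_ker_aeval S q
  have h₂ := map_mem_ker_aeval S q'
  have hchar := charpoly_eq_mul_of_isCompl S hc h₁ h₂
  have hne : (S.restrict h₁).charpoly.map (algebraMap F K) *
      (S.restrict h₂).charpoly.map (algebraMap F K) ≠ 0 :=
    mul_ne_zero ((LinearMap.charpoly_monic _).map _).ne_zero
      ((LinearMap.charpoly_monic _).map _).ne_zero
  have hq1 : aeval (S.restrict h₁) q = 0 := by
    apply LinearMap.ext
    intro x
    apply Subtype.ext
    rw [LinearMap.zero_apply, ZeroMemClass.coe_zero, coe_aeval_restrict]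
    exact LinearMap.mem_ker.mp x.2
  have hq2 : aeval (S.restrict h₂) q' = 0 := by
    apply LinearMap.ext
    intro x
    apply Subtype.ext
    rw [LinearMap.zero_apply, ZeroMemClass.coe_zero, coe_aeval_restrict]
    exact LinearMap.mem_ker.mp x.2
  rw [hchar, Polynomial.map_mul, roots_mul hne, Multiset.filter_add, Multiset.card_add]
  have hf1 : ((S.restrict h₁).charpoly.map (algebraMap F K)).roots.filter
      (fun c => (q.map (algebraMap F K)).IsRoot c) =
      ((S.restrict h₁).charpoly.map (algebraMap F K)).roots := by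
    apply Multiset.filter_eq_self.mpr
    intro c hc'
    exact isRoot_map_of_aeval_eq_zero K (S.restrict h₁) q hq1 c (isRoot_of_mem_roots hc')
  have hf2 : ((S.restrict h₂).charpoly.map (algebraMap F K)).roots.filter
      (fun c => (q.map (algebraMap F K)).IsRoot c) = 0 := by
    apply Multiset.filter_eq_nil.mpr
    intro c hc' hcq
    have h2 := isRoot_map_of_aeval_eq_zero K (S.restrict h₂) q' hq2 c (isRoot_of_mem_roots hc')
    obtain ⟨a, b, hab⟩ := hco
    have h3 := congrArg (fun r : F[X] => eval c (r.map (algebraMap F K))) hab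
    simp only [Polynomial.map_add, Polynomial.map_mul, eval_add, eval_mul, Polynomial.map_one,
      eval_one] at h3
    rw [hcq.eq_zero, h2.eq_zero, mul_zero, mul_zero, add_zero] at h3
    exact zero_ne_one h3
  rw [hf1, hf2, Multiset.card_zero, add_zero,
    ← (IsAlgClosed.splits ((S.restrict h₁).charpoly.map (algebraMap F K))).natDegree_eq_card_roots,
    natDegree_map, LinearMap.charpoly_natDegree]

theorem exists_gcd_data (n : ℕ) (ψ : F[X]) :
    ∃ g q' h a b : F[X], X ^ n - 1 = g * q' ∧ ψ = g * h ∧ g = ψ * a + (X ^ n - 1) * b := by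
  classical
  obtain ⟨q', hq'⟩ := EuclideanDomain.gcd_dvd_right ψ (X ^ n - 1)
  obtain ⟨h, hh⟩ := EuclideanDomain.gcd_dvd_left ψ (X ^ n - 1)
  exact ⟨_, q', h, _, _, hq', hh, EuclideanDomain.gcd_eq_gcd_ab ψ (X ^ n - 1)⟩

theorem ker_aeval_eq_of_gcd_data {n : ℕ} (S : Module.End F V) (hS : S ^ n = 1)
    {ψ g h a b : F[X]} (hh : ψ = g * h) (hab : g = ψ * a + (X ^ n - 1) * b) :
    LinearMap.ker (aeval S ψ) = LinearMap.ker (aeval S g) := by
  have hn0 : aeval S (X ^ n - 1 : F[X]) = 0 := by simp [hS]
  apply le_antisymm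
  · intro x hx
    rw [LinearMap.mem_ker] at hx ⊢
    have h1 : g = a * ψ + b * (X ^ n - 1) := by
      rw [hab]
      ring
    rw [h1, aeval_add, aeval_mul, aeval_mul, hn0, mul_zero, add_zero, Module.End.mul_apply, hx,
      map_zero]
  · intro x hx
    rw [LinearMap.mem_ker] at hx ⊢
    have h1 : aeval S ψ = aeval S h * aeval S g := by
      rw [hh, mul_comm, aeval_mul]
    rw [h1, Module.End.mul_apply, hx, map_zero]

/-- The same for an arbitrary polynomial `ψ`. -/
theorem finrank_ker_aeval_eq_card_roots' [FiniteDimensional F V] (K : Type*) [Field K]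
    [IsAlgClosed K] [Algebra F K] [DecidableEq K] {n : ℕ} (hn : (n : F) ≠ 0)
    (S : Module.End F V) (hS : S ^ n = 1) (ψ : F[X]) :
    finrank F (LinearMap.ker (aeval S ψ)) =
      ((S.charpoly.map (algebraMap F K)).roots.filter
        (fun c => (ψ.map (algebraMap F K)).IsRoot c)).card := by
  obtain ⟨g, q', h, a, b, hq', hh, hab⟩ := exists_gcd_data n ψ
  rw [ker_aeval_eq_of_gcd_data S hS hh hab, finrank_ker_aeval_eq_card_roots K hn S hS hq']
  congr 1
  apply Multiset.filter_congr
  intro c hc
  have hcn : ((X ^ n - 1 : F[X]).map (algebraMap F K)).IsRoot c :=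
    isRoot_map_of_aeval_eq_zero K S (X ^ n - 1) (by simp [hS]) c (isRoot_of_mem_roots hc)
  constructor
  · intro hg
    rw [IsRoot.def, hh, Polynomial.map_mul, eval_mul, hg.eq_zero, zero_mul]
  · intro hψ
    rw [IsRoot.def, hab, Polynomial.map_add, Polynomial.map_mul, Polynomial.map_mul, eval_add,
      eval_mul, eval_mul, hψ.eq_zero, hcn.eq_zero, zero_mul, zero_mul, add_zero]

theorem exists_ker_aeval_lift {V' : Type*} [AddCommGroup V'] [Module F V'] (pr : V →ₗ[F] V')
    (hpr : Function.Surjective pr) (S : Module.End F V) (S' : Module.End F V')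
    (hint : pr ∘ₗ S = S' ∘ₗ pr) {n : ℕ} (hn : (n : F) ≠ 0) (hS : S ^ n = 1) {q q' : F[X]}
    (hqq' : X ^ n - 1 = q * q') (y : V') (hy : y ∈ LinearMap.ker (aeval S' q)) :
    ∃ x ∈ LinearMap.ker (aeval S q), pr x = y := by
  have hsep : (X ^ n - 1 : F[X]).Separable := X_pow_sub_one_separable_iff.mpr hn
  have hco : IsCoprime q q' := by
    rw [hqq'] at hsep
    exact hsep.isCoprime
  have h0 : aeval S (q * q') = 0 := by
    rw [← hqq']
    simp [hS]
  have hcompl := isCompl_ker_aeval S hco h0
  have hdisj := disjoint_ker_aeval_of_isCoprime S' hco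
  obtain ⟨x, rfl⟩ := hpr y
  have hx : x ∈ LinearMap.ker (aeval S q) ⊔ LinearMap.ker (aeval S q') := by
    rw [hcompl.sup_eq_top]; exact Submodule.mem_top
  obtain ⟨x₁, hx₁, x₂, hx₂, rfl⟩ := Submodule.mem_sup.mp hx
  refine ⟨x₁, hx₁, ?_⟩
  have h1 : pr x₁ ∈ LinearMap.ker (aeval S' q) := by
    rw [LinearMap.mem_ker, ← aeval_intertwine pr S S' hint, LinearMap.mem_ker.mp hx₁, map_zero]
  have h2 : pr x₂ ∈ LinearMap.ker (aeval S' q') := by
    rw [LinearMap.mem_ker, ← aeval_intertwine pr S S' hint, LinearMap.mem_ker.mp hx₂, map_zero]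
  have h3 : pr x₂ ∈ LinearMap.ker (aeval S' q) := by
    have : pr x₂ = pr (x₁ + x₂) - pr x₁ := by rw [map_add]; abel
    rw [this]
    exact Submodule.sub_mem _ hy h1
  have h4 : pr x₂ = 0 := by
    have := hdisj.le_bot (Submodule.mem_inf.mpr ⟨h3, h2⟩)
    simpa using this
  rw [map_add, h4, add_zero]

theorem finrank_ker_aeval_add_le_of_surjective {V' : Type*} [AddCommGroup V'] [Module F V']
    [FiniteDimensional F V] (pr : V →ₗ[F] V') (hpr : Function.Surjective pr)
    (S : Module.End F V) (S' : Module.End F V') (hint : pr ∘ₗ S = S' ∘ₗ pr) {n : ℕ}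
    (hn : (n : F) ≠ 0) (hS : S ^ n = 1) (hS' : S' ^ n = 1) (ψ : F[X]) :
    finrank F (LinearMap.ker (aeval S' ψ)) ≤ finrank F (LinearMap.ker (aeval S ψ)) ∧
    ((∃ x₀ : V, x₀ ≠ 0 ∧ x₀ ∈ LinearMap.ker (aeval S ψ) ∧ pr x₀ = 0) →
      finrank F (LinearMap.ker (aeval S' ψ)) + 1 ≤ finrank F (LinearMap.ker (aeval S ψ))) := by
  have hmem : ∀ x ∈ LinearMap.ker (aeval S ψ), pr x ∈ LinearMap.ker (aeval S' ψ) := by
    intro x hx
    rw [LinearMap.mem_ker, ← aeval_intertwine pr S S' hint, LinearMap.mem_ker.mp hx, map_zero]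
  let φ : LinearMap.ker (aeval S ψ) →ₗ[F] LinearMap.ker (aeval S' ψ) := pr.restrict hmem
  have hsurj : Function.Surjective φ := by
    rintro ⟨y, hy⟩
    obtain ⟨g, q', h, a, b, hq', hh, hab⟩ := exists_gcd_data n ψ
    rw [ker_aeval_eq_of_gcd_data S' hS' hh hab] at hy
    obtain ⟨x, hx, hxy⟩ := exists_ker_aeval_lift pr hpr S S' hint hn hS hq' y hy
    rw [← ker_aeval_eq_of_gcd_data S hS hh hab] at hx
    exact ⟨⟨x, hx⟩, Subtype.ext hxy⟩
  have h1 := LinearMap.finrank_range_add_finrank_ker φ
  have h2 : finrank F (LinearMap.range φ) = finrank F (LinearMap.ker (aeval S' ψ)) := by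
    rw [LinearMap.range_eq_top.mpr hsurj, finrank_top]
  refine ⟨by omega, ?_⟩
  rintro ⟨x₀, hx₀, hx₀e, hx₀k⟩
  have h3 : 0 < finrank F (LinearMap.ker φ) := by
    rw [Module.finrank_pos_iff_exists_ne_zero]
    refine ⟨⟨⟨x₀, hx₀e⟩, ?_⟩, ?_⟩
    · rw [LinearMap.mem_ker]
      exact Subtype.ext hx₀k
    · intro h
      apply hx₀
      have := congrArg (fun z : LinearMap.ker φ => ((z : LinearMap.ker (aeval S ψ)) : V)) h
      simpa using this
  omega

end Operator

section OperatorMain

variable {n p : ℕ} {A : Type*} [AddCommGroup A] [Module.Finite ℤ A]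
  {B : Type*} [AddCommGroup B] [Module.Finite ℤ B] [Module.Free ℤ B]

/-- Operator form, lattice case: equality of the kernel dimensions of `ψ`. -/
theorem finrank_ker_aeval_eq_of_free [Module.Free ℤ A] (hn : 0 < n)
    (T : Module.End ℤ A) (hT : T ^ n = 1) (P : Module.End ℤ B) (hP : P ^ n = 1)
    (hrank : ∀ e, e ∣ n →
      finrank ℤ (LinearMap.ker (T ^ e - 1)) + 1 = finrank ℤ (LinearMap.ker (P ^ e - 1)))
    {k' : Type*} [Field k'] [DecidableEq k'] (hnk : (n : k') ≠ 0) (ψ : k'[X]) :
    finrank k' (LinearMap.ker (aeval (P.baseChange k') ψ)) =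
      finrank k' (LinearMap.ker (aeval (T.baseChange k') ψ)) +
        (if ψ.eval 1 = 0 then 1 else 0) := by
  classical
  let K := AlgebraicClosure k'
  have hT' : (T.baseChange k') ^ n = 1 := by
    rw [← LinearMap.baseChange_pow, hT, LinearMap.baseChange_one]
  have hP' : (P.baseChange k') ^ n = 1 := by
    rw [← LinearMap.baseChange_pow, hP, LinearMap.baseChange_one]
  rw [finrank_ker_aeval_eq_card_roots' K hnk _ hP' ψ,
    finrank_ker_aeval_eq_card_roots' K hnk _ hT' ψ, LinearMap.charpoly_baseChange,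
    LinearMap.charpoly_baseChange, ← charpoly_mul_eq_of_finrank_ker hn T hT P hP hrank]
  have hmap : ((T.charpoly * (X - C 1)).map (algebraMap ℤ k')).map (algebraMap k' K) =
      (T.charpoly.map (algebraMap ℤ k')).map (algebraMap k' K) * (X - C 1) := by
    simp
  have hne : (T.charpoly.map (algebraMap ℤ k')).map (algebraMap k' K) * (X - C (1 : K)) ≠ 0 :=
    mul_ne_zero (((LinearMap.charpoly_monic T).map _).map _).ne_zero (X_sub_C_ne_zero 1)
  rw [hmap, roots_mul hne, roots_X_sub_C, Multiset.filter_add, Multiset.card_add,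
    Multiset.filter_singleton]
  congr 1
  have hiff : (ψ.map (algebraMap k' K)).IsRoot 1 ↔ ψ.eval 1 = 0 := by
    rw [IsRoot.def, eval_one_map, map_eq_zero_iff _ (algebraMap k' K).injective]
  by_cases h1 : ψ.eval 1 = 0
  · rw [if_pos (hiff.mpr h1), if_pos h1, Multiset.card_singleton]
  · rw [if_neg (fun h => h1 (hiff.mp h)), if_neg h1]
    rfl

theorem kd_le_aux (hn : 0 < n) (hpn : ¬ p ∣ n)
    (T : Module.End ℤ A) (hT : T ^ n = 1) (P : Module.End ℤ B) (hP : P ^ n = 1)
    (hrank : ∀ e, e ∣ n →
      finrank ℤ (LinearMap.ker (T ^ e - 1)) + 1 = finrank ℤ (LinearMap.ker (P ^ e - 1)))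
    {k' : Type*} [Field k'] [CharP k' p] [DecidableEq k'] (ψ : k'[X]) :
    finrank k' (LinearMap.ker (aeval (P.baseChange k') ψ)) ≤
        finrank k' (LinearMap.ker (aeval (T.baseChange k') ψ)) +
          (if ψ.eval 1 = 0 then 1 else 0) ∧
    ((∃ x₀ : k' ⊗[ℤ] A, x₀ ≠ 0 ∧ x₀ ∈ LinearMap.ker (aeval (T.baseChange k') ψ) ∧
        ((Submodule.torsion ℤ A).mkQ.baseChange k') x₀ = 0) →
      finrank k' (LinearMap.ker (aeval (P.baseChange k') ψ)) + 1 ≤
        finrank k' (LinearMap.ker (aeval (T.baseChange k') ψ)) +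
          (if ψ.eval 1 = 0 then 1 else 0)) := by
  have hnk : (n : k') ≠ 0 := by
    rw [Ne, CharP.cast_eq_zero_iff k' p]
    exact hpn
  have hTbar : modTors T ^ n = 1 := by
    rw [← modTors_pow, hT, modTors_one]
  have hrank' : ∀ e, e ∣ n → finrank ℤ (LinearMap.ker (modTors T ^ e - 1)) + 1 =
      finrank ℤ (LinearMap.ker (P ^ e - 1)) := by
    intro e he
    rw [← modTors_pow_sub_one, finrank_ker_modTors]
    exact hrank e he
  have heq := finrank_ker_aeval_eq_of_free hn (modTors T) hTbar P hP hrank' hnk ψ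
  have hT' : (T.baseChange k') ^ n = 1 := by
    rw [← LinearMap.baseChange_pow, hT, LinearMap.baseChange_one]
  have hTbar' : ((modTors T).baseChange k') ^ n = 1 := by
    rw [← LinearMap.baseChange_pow, hTbar, LinearMap.baseChange_one]
  have hint : (Submodule.torsion ℤ A).mkQ.baseChange k' ∘ₗ T.baseChange k' =
      (modTors T).baseChange k' ∘ₗ (Submodule.torsion ℤ A).mkQ.baseChange k' := by
    rw [← LinearMap.baseChange_comp, ← LinearMap.baseChange_comp, modTors_comp_mkQ]
  have hsurj : Function.Surjective ((Submodule.torsion ℤ A).mkQ.baseChange k') := by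
    rw [LinearMap.baseChange_eq_ltensor]
    exact LinearMap.lTensor_surjective _ (Submodule.mkQ_surjective _)
  have hle := finrank_ker_aeval_add_le_of_surjective _ hsurj (T.baseChange k')
    ((modTors T).baseChange k') hint hnk hT' hTbar' ψ
  rw [heq]
  refine ⟨by have := hle.1; omega, fun hx => ?_⟩
  have := hle.2 hx
  omega

/-- **Operator form of the unit multiplicity bound** over any field `k'` of characteristic
`p ∤ n`: for every polynomial `ψ`, with the line of a torsion element `t ∉ pA` on which `T`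
acts by `w` modulo `p`. -/
theorem kd_field_le (hn : 0 < n) (hp : p.Prime) (hpn : ¬ p ∣ n)
    (T : Module.End ℤ A) (hT : T ^ n = 1) (P : Module.End ℤ B) (hP : P ^ n = 1)
    (hrank : ∀ e, e ∣ n →
      finrank ℤ (LinearMap.ker (T ^ e - 1)) + 1 = finrank ℤ (LinearMap.ker (P ^ e - 1)))
    {k' : Type*} [Field k'] [CharP k' p] [DecidableEq k']
    (t : A) (ht : IsOfFinAddOrder t) (htp : ∀ y : A, t ≠ p • y) (w : ℤ)
    (hw : ∃ y : A, T t - w • t = p • y) (ψ : k'[X]) :
    finrank k' (LinearMap.ker (aeval (P.baseChange k') ψ)) +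
        (if ψ.eval (w : k') = 0 then 1 else 0) ≤
      finrank k' (LinearMap.ker (aeval (T.baseChange k') ψ)) +
        (if ψ.eval 1 = 0 then 1 else 0) := by
  have haux := kd_le_aux hn hpn T hT P hP hrank ψ
  by_cases hψw : ψ.eval (w : k') = 0
  · rw [if_pos hψw]
    apply haux.2
    have hne := one_tmul_ne_zero hp k' t htp
    refine ⟨(1 : k') ⊗ₜ[ℤ] t, hne, ?_, ?_⟩
    · obtain ⟨y, hy⟩ := hw
      have hTt : T t = w • t + (p : ℤ) • y := by
        rw [natCast_zsmul, ← hy]
        abel
      have hev : (T.baseChange k') ((1 : k') ⊗ₜ[ℤ] t) = (w : k') • ((1 : k') ⊗ₜ[ℤ] t) := by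
        rw [LinearMap.baseChange_tmul, hTt, TensorProduct.tmul_add, TensorProduct.tmul_smul,
          TensorProduct.tmul_smul, ← Int.cast_smul_eq_zsmul k' w,
          ← Int.cast_smul_eq_zsmul k' (p : ℤ), Int.cast_natCast, CharP.cast_eq_zero k' p,
          zero_smul, add_zero]
      have hvec : Module.End.HasEigenvector (T.baseChange k') (w : k') ((1 : k') ⊗ₜ[ℤ] t) :=
        ⟨Module.End.mem_eigenspace_iff.mpr hev, hne⟩
      rw [LinearMap.mem_ker, Module.End.aeval_apply_of_hasEigenvector hvec, hψw, zero_smul]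
    · rw [LinearMap.baseChange_tmul]
      have hmem : t ∈ Submodule.torsion ℤ A := by
        obtain ⟨m, hm, hmt⟩ := isOfFinAddOrder_iff_nsmul_eq_zero.mp ht
        rw [Submodule.mem_torsion_iff]
        refine ⟨⟨(m : ℤ), mem_nonZeroDivisors_of_ne_zero (by exact_mod_cast hm.ne')⟩, ?_⟩
        change (m : ℤ) • t = 0
        rw [natCast_zsmul, hmt]
      rw [Submodule.mkQ_apply, (Submodule.Quotient.mk_eq_zero _).mpr hmem,
        TensorProduct.tmul_zero]
  · rw [if_neg hψw, add_zero]
    exact haux.1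

/-- The same without a torsion line. -/
theorem kd_field_le' (hn : 0 < n) (hpn : ¬ p ∣ n)
    (T : Module.End ℤ A) (hT : T ^ n = 1) (P : Module.End ℤ B) (hP : P ^ n = 1)
    (hrank : ∀ e, e ∣ n →
      finrank ℤ (LinearMap.ker (T ^ e - 1)) + 1 = finrank ℤ (LinearMap.ker (P ^ e - 1)))
    {k' : Type*} [Field k'] [CharP k' p] [DecidableEq k'] (ψ : k'[X]) :
    finrank k' (LinearMap.ker (aeval (P.baseChange k') ψ)) ≤
      finrank k' (LinearMap.ker (aeval (T.baseChange k') ψ)) +
        (if ψ.eval 1 = 0 then 1 else 0) :=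
  (kd_le_aux hn hpn T hT P hP hrank ψ).1

/-- **(INV), operator form over `ZMod p`** (the statement (H1c) of the T1 chain). -/
theorem kd_baseChange_le {n p : ℕ} (hn : 0 < n) [Fact p.Prime] (hpn : ¬ p ∣ n)
    {A : Type*} [AddCommGroup A] [Module.Finite ℤ A] (T : Module.End ℤ A) (hT : T ^ n = 1)
    {B : Type*} [AddCommGroup B] [Module.Finite ℤ B] [Module.Free ℤ B]
    (P : Module.End ℤ B) (hP : P ^ n = 1)
    (hrank : ∀ e, e ∣ n →
      finrank ℤ (LinearMap.ker (T ^ e - 1)) + 1 = finrank ℤ (LinearMap.ker (P ^ e - 1)))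
    (t : A) (ht : IsOfFinAddOrder t) (htp : ∀ y : A, t ≠ p • y) (w : ℤ)
    (hw : ∃ y : A, T t - w • t = p • y) (ψ : (ZMod p)[X]) :
    finrank (ZMod p) (LinearMap.ker (aeval (P.baseChange (ZMod p)) ψ)) +
        (if ψ.eval (w : ZMod p) = 0 then 1 else 0) ≤
      finrank (ZMod p) (LinearMap.ker (aeval (T.baseChange (ZMod p)) ψ)) +
        (if ψ.eval 1 = 0 then 1 else 0) :=
  kd_field_le hn Fact.out hpn T hT P hP hrank t ht htp w hw ψ

theorem aeval_smul_eq_aeval_comp {F : Type*} [Field F] {V : Type*} [AddCommGroup V] [Module F V]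
    (a : F) (S : Module.End F V) (φ : F[X]) :
    aeval (a • S) φ = aeval S (φ.comp (C a * X)) := by
  rw [aeval_comp, aeval_mul, aeval_C, aeval_X, Algebra.algebraMap_eq_smul_one, smul_mul_assoc,
    one_mul]

/-- Twisted operator form over a field `k'` of characteristic `p ∤ n`. -/
theorem kd_field_smul_le (hn : 0 < n) (hp : p.Prime) (hpn : ¬ p ∣ n)
    (T : Module.End ℤ A) (hT : T ^ n = 1) (P : Module.End ℤ B) (hP : P ^ n = 1)
    (hrank : ∀ e, e ∣ n →
      finrank ℤ (LinearMap.ker (T ^ e - 1)) + 1 = finrank ℤ (LinearMap.ker (P ^ e - 1)))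
    {k' : Type*} [Field k'] [CharP k' p] [DecidableEq k']
    (t : A) (ht : IsOfFinAddOrder t) (htp : ∀ y : A, t ≠ p • y) (w : ℤ)
    (hw : ∃ y : A, T t - w • t = p • y) (a : k') (φ : k'[X]) :
    finrank k' (LinearMap.ker (aeval (a • P.baseChange k') φ)) +
        (if φ.eval (a * (w : k')) = 0 then 1 else 0) ≤
      finrank k' (LinearMap.ker (aeval (a • T.baseChange k') φ)) +
        (if φ.eval a = 0 then 1 else 0) := by
  have h := kd_field_le hn hp hpn T hT P hP hrank t ht htp w hw (φ.comp (C a * X))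
  rw [aeval_smul_eq_aeval_comp, aeval_smul_eq_aeval_comp]
  simpa [eval_comp] using h

/-- **(INV), twisted operator form over `ZMod p`**: with `a * w = 1` (i.e. `a = ω(σ)⁻¹`,
`w` a lift of `ω(σ)`) this is the unit half of (H1):
`kd φ (a • P) + [φ(1) = 0] ≤ kd φ (a • T) + [φ(a) = 0]`. -/
theorem kd_smul_baseChange_le {n p : ℕ} (hn : 0 < n) [Fact p.Prime] (hpn : ¬ p ∣ n)
    {A : Type*} [AddCommGroup A] [Module.Finite ℤ A] (T : Module.End ℤ A) (hT : T ^ n = 1)
    {B : Type*} [AddCommGroup B] [Module.Finite ℤ B] [Module.Free ℤ B]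
    (P : Module.End ℤ B) (hP : P ^ n = 1)
    (hrank : ∀ e, e ∣ n →
      finrank ℤ (LinearMap.ker (T ^ e - 1)) + 1 = finrank ℤ (LinearMap.ker (P ^ e - 1)))
    (t : A) (ht : IsOfFinAddOrder t) (htp : ∀ y : A, t ≠ p • y) (w : ℤ)
    (hw : ∃ y : A, T t - w • t = p • y) (a : ZMod p) (haw : a * (w : ZMod p) = 1)
    (φ : (ZMod p)[X]) :
    finrank (ZMod p) (LinearMap.ker (aeval (a • P.baseChange (ZMod p)) φ)) +
        (if φ.eval 1 = 0 then 1 else 0) ≤
      finrank (ZMod p) (LinearMap.ker (aeval (a • T.baseChange (ZMod p)) φ)) +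
        (if φ.eval a = 0 then 1 else 0) := by
  have h := kd_field_smul_le hn Fact.out hpn T hT P hP hrank t ht htp w hw a φ
  rwa [haw] at h

end OperatorMain

section PermGlue

/-- Conjugate operators have the same kernel dimensions. -/
theorem finrank_ker_aeval_congr {F : Type*} [Field F] {V V' : Type*} [AddCommGroup V]
    [Module F V] [AddCommGroup V'] [Module F V'] (e : V ≃ₗ[F] V') (S : Module.End F V)
    (S' : Module.End F V') (h : ∀ x, e (S x) = S' (e x)) (ψ : F[X]) :
    finrank F (LinearMap.ker (aeval S ψ)) = finrank F (LinearMap.ker (aeval S' ψ)) := by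
  have hint : (e : V →ₗ[F] V') ∘ₗ S = S' ∘ₗ (e : V →ₗ[F] V') := LinearMap.ext h
  have hmap : (LinearMap.ker (aeval S ψ)).map (e : V →ₗ[F] V') = LinearMap.ker (aeval S' ψ) := by
    ext x
    rw [Submodule.mem_map_equiv, LinearMap.mem_ker, LinearMap.mem_ker]
    have h1 := aeval_intertwine (e : V →ₗ[F] V') S S' hint ψ (e.symm x)
    simp only [LinearEquiv.coe_coe, LinearEquiv.apply_symm_apply] at h1
    rw [← h1]
    exact (LinearEquiv.map_eq_zero_iff e).symm
  rw [← hmap]
  exact (LinearEquiv.finrank_eq (e.submoduleMap _))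

/-- Base change of a permutation (or any substitution) operator on `Y → ℤ` is the
substitution operator on `Y → k'`, as far as kernel dimensions are concerned. -/
theorem finrank_ker_aeval_funLeft_baseChange {Y : Type*} [Finite Y] (π : Y → Y)
    {k' : Type*} [Field k'] (a : k') (φ : k'[X]) :
    finrank k' (LinearMap.ker (aeval (a • (LinearMap.funLeft ℤ ℤ π).baseChange k') φ)) =
      finrank k' (LinearMap.ker (aeval (a • LinearMap.funLeft k' k' π) φ)) := by
  classical
  have := Fintype.ofFinite Y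
  apply finrank_ker_aeval_congr (TensorProduct.piScalarRight ℤ k' k' Y)
  intro x
  rw [LinearMap.smul_apply, LinearMap.smul_apply, map_smul]
  congr 1
  induction x using TensorProduct.induction_on with
  | zero => simp
  | tmul c f =>
    rw [LinearMap.baseChange_tmul, TensorProduct.piScalarRight_apply,
      TensorProduct.piScalarRightHom_tmul, TensorProduct.piScalarRight_apply,
      TensorProduct.piScalarRightHom_tmul]
    rfl
  | add x y hx hy => rw [map_add, map_add, hx, hy, map_add, map_add]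

end PermGlue

end Fermat.Agent.S56.helper7407
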