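import Mathlib
import Fermat.Agent.S56.helper4029_UnitCyclic
import Fermat.Agent.S56.helper7407_UnitMult

/-
helper7407 — S56, T1 (H1): the unit half of the arithmetic heart in operator form, on the
number field carrier of `helper4029_UnitCyclic` (`sLin` on the `S`-units, `placePerm` on
`InfinitePlace K ⊕ S`).  It is the instance of `kd_smul_baseChange_le` at the fixed ranks
`finrank_ker_sLin_pow` and the torsion line `exists_torsion_line` of helper4029.
-/

open IsDedekindDomain NumberField Module Polynomial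

namespace Fermat.Agent.S56.helper7407

open Fermat.Agent.S14.helper2613 (SUnits)
open Fermat.Agent.S56.helper4029

variable {K : Type*} [Field K] [NumberField K] {Γ : Type*} [Group Γ] [MulSemiringAction Γ K]
  {S : Finset (HeightOneSpectrum (𝓞 K))}

/-- **(HERBRAND), operator form.**  `K` a number field with a primitive `p`-th root of unity
`ζ`, `g` an automorphism of finite order `n` prime to `p` in a finite group `Γ` acting on `K`
and stabilising `S`, `g • ζ = ζ ^ z`, and `a * z = 1` in `ZMod p`.  Then for every `φ`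
`kd φ (a • perm_g | InfinitePlace K ⊕ S) + [φ(1) = 0] ≤ kd φ (a • g | O_{K,S}ˣ / p) + [φ(a) = 0]`. -/
theorem herbrand_places_le [Finite Γ] (hS : ∀ (g : Γ), ∀ v ∈ S, finAct g v ∈ S) {p : ℕ}
    [Fact p.Prime] {ζ : K} (hζ : IsPrimitiveRoot ζ p) (g : Γ) {n : ℕ} (hn : 0 < n)
    (hg : g ^ n = 1) (hpn : ¬ p ∣ n) (z : ℤ) (hz : g • ζ = ζ ^ z) (a : ZMod p)
    (haz : a * (z : ZMod p) = 1) (φ : (ZMod p)[X]) :
    finrank (ZMod p) (LinearMap.ker (aeval
        (a • LinearMap.funLeft (ZMod p) (ZMod p) ⇑(placePerm hS g).symm) φ)) +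
        (if φ.eval 1 = 0 then 1 else 0) ≤
      finrank (ZMod p) (LinearMap.ker (aeval (a • (sLin hS g).baseChange (ZMod p)) φ)) +
        (if φ.eval a = 0 then 1 else 0) := by
  obtain ⟨t, ht, htp, hline⟩ := exists_torsion_line hS (Fact.out : p.Prime) hζ
  obtain ⟨z', hz't, hz'ζ⟩ := hline g
  have hdvd : (p : ℤ) ∣ z' - z := by
    rw [← hζ.zpow_eq_one_iff_dvd, zpow_sub₀ (hζ.ne_zero (Fact.out : p.Prime).ne_zero), ← hz'ζ,
      ← hz]
    exact div_self (by
      rw [hz]
      exact zpow_ne_zero _ (hζ.ne_zero (Fact.out : p.Prime).ne_zero))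
  obtain ⟨m, hm⟩ := hdvd
  have hw : ∃ y : Additive (SUnits K S), sLin hS g t - z • t = p • y := by
    refine ⟨m • t, ?_⟩
    rw [hz't, ← sub_smul, hm, mul_smul, natCast_zsmul]
  have h := kd_smul_baseChange_le hn hpn (sLin hS g) (sLin_pow_eq_one hS hg) (placeLin hS g)
    (placeLin_pow_eq_one hS hg) (fun e _ => finrank_ker_sLin_pow hS g e) t ht htp z hw a haz φ
  rw [placeLin, finrank_ker_aeval_funLeft_baseChange] at h
  exact h

/-- The same without the root-of-unity line (no `ζ` needed):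
`kd φ (a • perm_g) ≤ kd φ (a • g | O_{K,S}ˣ / p) + [φ(a) = 0]`. -/
theorem herbrand_places_le' [Finite Γ] (hS : ∀ (g : Γ), ∀ v ∈ S, finAct g v ∈ S) {p : ℕ}
    [Fact p.Prime] (g : Γ) {n : ℕ} (hn : 0 < n) (hg : g ^ n = 1) (hpn : ¬ p ∣ n) (a : ZMod p)
    (φ : (ZMod p)[X]) :
    finrank (ZMod p) (LinearMap.ker (aeval
        (a • LinearMap.funLeft (ZMod p) (ZMod p) ⇑(placePerm hS g).symm) φ)) ≤
      finrank (ZMod p) (LinearMap.ker (aeval (a • (sLin hS g).baseChange (ZMod p)) φ)) +
        (if φ.eval a = 0 then 1 else 0) := by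
  have h := kd_field_le' hn hpn (sLin hS g) (sLin_pow_eq_one hS hg) (placeLin hS g)
    (placeLin_pow_eq_one hS hg) (fun e _ => finrank_ker_sLin_pow hS g e) (k' := ZMod p)
    (φ.comp (C a * X))
  rw [← aeval_smul_eq_aeval_comp, ← aeval_smul_eq_aeval_comp, placeLin,
    finrank_ker_aeval_funLeft_baseChange] at h
  simpa [eval_comp] using h

end Fermat.Agent.S56.helper7407
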