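import Mathlib
import Fermat.Prelude.Def_GroupCohomology_ContinuousUnramified
import Fermat.Agent.S55.helper3071_GlobalBridge
import Fermat.Agent.S55.helper62_GBShapiro
import Fermat.Agent.S55.helper9763_IsoTransport
import Fermat.Agent.S55.helper324_FieldH1

/-!
# S56 / TATE-T1-KUM (helper7860): the Kummer–Shapiro isomorphism is Galois-equivariant

Part 1 (generic): left translation on `coind_H^G W` (`H` normal, trivial coefficients) is a
`G`-automorphism; on `H¹` it corresponds, under Shapiro, to conjugation of characters of `H`.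
-/

set_option autoImplicit false

open CategoryTheory groupCohomology

noncomputable section

namespace Fermat.Agent.S56.helper7860

open Fermat.Agent.S55.helper5550

universe u

/-! ## Part 1: left translation on a module coinduced from a normal subgroup -/

section LeftTr

variable {k G : Type u} [CommRing k] [Group G] (H : Subgroup G)
  (W : Type u) [AddCommGroup W] [Module k W]

/-- `coind_H^G W` with trivial action of `H` on `W`. -/
abbrev coindTriv : Rep.{u} k G := Rep.coind H.subtype (Rep.trivial k H W)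

variable {H W}

lemma coindTriv_val_mul (f : coindTriv (k := k) H W) (h : H) (x : G) :
    f.1 ((h : G) * x) = f.1 x := by
  have := coind_val_mul H (Rep.trivial k H W) f h x
  simpa using this

variable [hn : H.Normal]

variable (H W) in
/-- Left translation by `δ` on `coind_H^G W`: `(leftTrLin δ f) g = f (δ⁻¹ * g)`. -/
def leftTrLin (δ : G) : coindTriv (k := k) H W →ₗ[k] coindTriv (k := k) H W where
  toFun f := ⟨fun g => f.1 (δ⁻¹ * g), by
    intro h x
    show f.1 (δ⁻¹ * ((h : G) * x)) = (Rep.trivial k H W).ρ h (f.1 (δ⁻¹ * x))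
    have h1 : δ⁻¹ * ((h : G) * x) = ((⟨δ⁻¹ * (h : G) * δ⁻¹⁻¹, hn.conj_mem _ h.2 δ⁻¹⟩ : H) : G)
        * (δ⁻¹ * x) := by
      simp [mul_assoc]
    rw [h1, coindTriv_val_mul]
    simp⟩
  map_add' f f' := rfl
  map_smul' c f := rfl

@[simp] lemma leftTrLin_val (δ : G) (f : coindTriv (k := k) H W) (g : G) :
    (leftTrLin H W δ f).1 g = f.1 (δ⁻¹ * g) := rfl

variable (H W) in
/-- Left translation as an endomorphism of the representation `coind_H^G W`. -/
def leftTr (δ : G) : coindTriv (k := k) H W ⟶ coindTriv (k := k) H W :=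
  Rep.ofHom ⟨leftTrLin H W δ, fun g => LinearMap.ext fun f => by
    apply coind_ext
    intro x
    show f.1 (δ⁻¹ * x * g) = f.1 (δ⁻¹ * (x * g))
    rw [mul_assoc]⟩

@[simp] lemma leftTr_hom_val (δ : G) (f : coindTriv (k := k) H W) (g : G) :
    ((leftTr H W δ).hom f).1 g = f.1 (δ⁻¹ * g) := rfl

lemma leftTr_comp (δ δ' : G) :
    leftTr (k := k) H W δ' ≫ leftTr H W δ = leftTr H W (δ * δ') := by
  apply Rep.hom_ext
  ext f x
  show f.1 (δ'⁻¹ * (δ⁻¹ * x)) = f.1 ((δ * δ')⁻¹ * x)
  rw [mul_inv_rev, mul_assoc]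

lemma leftTr_of_mem {δ : G} (hδ : δ ∈ H) : leftTr (k := k) H W δ = 𝟙 _ := by
  apply Rep.hom_ext
  ext f x
  show f.1 (δ⁻¹ * x) = f.1 x
  exact coindTriv_val_mul f ⟨δ⁻¹, H.inv_mem hδ⟩ x

lemma leftTr_one : leftTr (k := k) H W 1 = 𝟙 _ := leftTr_of_mem H.one_mem

variable (H W) in
/-- Left translation as an automorphism of the representation `coind_H^G W`. -/
def leftTrIso (δ : G) : coindTriv (k := k) H W ≅ coindTriv (k := k) H W where
  hom := leftTr H W δ
  inv := leftTr H W δ⁻¹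
  hom_inv_id := by rw [leftTr_comp, inv_mul_cancel, leftTr_one]
  inv_hom_id := by rw [leftTr_comp, mul_inv_cancel, leftTr_one]

/-- Powers of left translation. -/
lemma leftTr_pow (δ : G) (n : ℕ) (x : coindTriv (k := k) H W) :
    ((leftTr (k := k) H W δ).hom.toLinearMap ^ n) x = (leftTr (k := k) H W (δ ^ n)).hom x := by
  induction n generalizing x with
  | zero =>
    rw [pow_zero, pow_zero, leftTr_one]
    rfl
  | succ n ih =>
    rw [pow_succ, Module.End.mul_apply, ih, pow_succ, ← leftTr_comp]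
    rfl

/-- If `δ ^ n ∈ H`, left translation by `δ` is killed by `X ^ n - 1`. -/
lemma aeval_leftTr_X_pow_sub_one {δ : G} {n : ℕ} (hδ : δ ^ n ∈ H) (x : coindTriv (k := k) H W) :
    Polynomial.aeval (leftTr (k := k) H W δ).hom.toLinearMap
      (Polynomial.X ^ n - 1 : Polynomial k) x = 0 := by
  rw [map_sub, map_pow, Polynomial.aeval_X, map_one, LinearMap.sub_apply, leftTr_pow,
    leftTr_of_mem hδ]
  exact sub_self x

end LeftTr

/-! ## Part 2: Shapiro's lemma intertwines left translation and conjugation of characters -/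

section ShapiroEquiv

variable {k G : Type u} [CommRing k] [Group G] {H : Subgroup G} [hn : H.Normal]
  {W : Type u} [AddCommGroup W] [Module k W]

omit hn in
/-- A 1-cocycle vanishes at `1` (coinduced form). -/
lemma cocycle_one_val {c : G → coindTriv (k := k) H W}
    (hc : c ∈ cocycles₁ (coindTriv (k := k) H W)) (x : G) : (c 1).1 x = 0 := by
  have h := (mem_cocycles₁_coind_iff c).1 hc 1 1 x
  rw [mul_one, mul_one] at h
  have h2 : (c 1).1 x + 0 = (c 1).1 x + (c 1).1 x := by rw [add_zero]; exact h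
  exact (add_left_cancel h2).symm

/-- **Cochain-level equivariance of Shapiro's map**: restricting `leftTr δ ∘ c` to `H` and
evaluating at `1` is the same as conjugating the argument of `sh₁ c` by `δ`. -/
theorem sh₁_leftTr {c : G → coindTriv (k := k) H W}
    (hc : c ∈ cocycles₁ (coindTriv (k := k) H W)) (δ : G) (h : H) :
    sh₁ H (Rep.trivial k H W) (fun g => (leftTr H W δ).hom (c g)) h =
      sh₁ H (Rep.trivial k H W) c (MulAut.conjNormal δ⁻¹ h) := by
  have hcoc := (mem_cocycles₁_coind_iff c).1 hc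
  rw [sh₁_apply, sh₁_apply, leftTr_hom_val, mul_one, MulAut.conjNormal_apply, inv_inv]
  -- `c (δ⁻¹ h δ) 1 = c (h δ) δ⁻¹ + c δ⁻¹ 1`
  have e1 : (c (δ⁻¹ * (h : G) * δ)).1 1 = (c ((h : G) * δ)).1 δ⁻¹ + (c δ⁻¹).1 1 := by
    have := hcoc δ⁻¹ ((h : G) * δ) 1
    rwa [one_mul, ← mul_assoc] at this
  -- `c (h δ) δ⁻¹ = c δ (δ⁻¹ h) + c h δ⁻¹`
  have e2 : (c ((h : G) * δ)).1 δ⁻¹ = (c δ).1 (δ⁻¹ * (h : G)) + (c (h : G)).1 δ⁻¹ :=
    hcoc (h : G) δ δ⁻¹
  -- `c δ (δ⁻¹ h) = c δ δ⁻¹`
  have e3 : (c δ).1 (δ⁻¹ * (h : G)) = (c δ).1 δ⁻¹ := by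
    have h1 : δ⁻¹ * (h : G) = ((MulAut.conjNormal δ⁻¹ h : H) : G) * δ⁻¹ := by
      rw [MulAut.conjNormal_apply, inv_inv, mul_inv_cancel_right]
    rw [h1, coindTriv_val_mul]
  -- `0 = c δ δ⁻¹ + c δ⁻¹ 1`
  have e4 : (c δ).1 δ⁻¹ + (c δ⁻¹).1 1 = 0 := by
    have := hcoc δ⁻¹ δ 1
    rw [one_mul, inv_mul_cancel, cocycle_one_val hc] at this
    exact this.symm
  rw [e1, e2, e3]
  have e5 : (c δ).1 δ⁻¹ + (c (h : G)).1 δ⁻¹ + (c δ⁻¹).1 1
      = (c (h : G)).1 δ⁻¹ + ((c δ).1 δ⁻¹ + (c δ⁻¹).1 1) := by abel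
  rw [e5, e4, add_zero]

/-- Conjugation of additive characters of the normal subgroup `H` by `δ ∈ G`:
`(conjChar δ χ) h = χ (δ⁻¹ h δ)`. -/
def conjChar (δ : G) : (Additive H →+ W) →ₗ[k] (Additive H →+ W) where
  toFun χ := χ.comp (MonoidHom.toAdditive (MulAut.conjNormal δ⁻¹ : H ≃* H).toMonoidHom)
  map_add' _ _ := rfl
  map_smul' _ _ := rfl

lemma conjChar_apply (δ : G) (χ : Additive H →+ W) (h : H) :
    conjChar (k := k) δ χ (Additive.ofMul h) = χ (Additive.ofMul (MulAut.conjNormal δ⁻¹ h)) :=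
  rfl

lemma conjChar_conjChar (δ δ' : G) (χ : Additive H →+ W) :
    conjChar (k := k) δ (conjChar (k := k) δ' χ) = conjChar (k := k) (δ * δ') χ := by
  refine DFunLike.ext _ _ fun h => ?_
  show χ (Additive.ofMul (MulAut.conjNormal δ'⁻¹ (MulAut.conjNormal δ⁻¹ (Additive.toMul h))))
    = χ (Additive.ofMul (MulAut.conjNormal (δ * δ')⁻¹ (Additive.toMul h)))
  rw [mul_inv_rev, map_mul]
  rfl

lemma conjChar_of_mem {δ : G} (hδ : δ ∈ H) (χ : Additive H →+ W) :
    conjChar (k := k) δ χ = χ := by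
  refine DFunLike.ext _ _ fun h => ?_
  show χ (Additive.ofMul (MulAut.conjNormal δ⁻¹ (Additive.toMul h))) = χ h
  have h1 : MulAut.conjNormal δ⁻¹ (Additive.toMul h)
      = (⟨δ, hδ⟩ : H)⁻¹ * Additive.toMul h * ⟨δ, hδ⟩ := by
    apply Subtype.ext
    rw [MulAut.conjNormal_apply, inv_inv]
    rfl
  rw [h1, ofMul_mul, ofMul_mul, map_add, map_add, ofMul_inv, map_neg, ofMul_toMul]
  abel

lemma conjChar_one (χ : Additive H →+ W) : conjChar (k := k) (1 : G) χ = χ :=
  conjChar_of_mem H.one_mem χ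

/-- **Shapiro's isomorphism in degree 1 intertwines left translation on `coind_H^G W` with
conjugation of characters of `H`.** -/
theorem shapiro_leftTr (δ : G) (x : H1 (coindTriv (k := k) H W)) :
    (H1IsoOfIsTrivial (Rep.trivial k H W)).hom
        (shapiroH1Map H (Rep.trivial k H W)
          (Fermat.Agent.S55.helper9763.H1Map (leftTr H W δ) x)) =
      conjChar (k := k) δ ((H1IsoOfIsTrivial (Rep.trivial k H W)).hom
        (shapiroH1Map H (Rep.trivial k H W) x)) := by
  refine H1_induction_on x fun c => ?_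
  rw [Fermat.Agent.S55.helper9763.H1Map_H1π]
  have h1 := shapiroH1Map_H1π (H := H) (N := Rep.trivial k H W)
    ((mapCocycles₁ (MonoidHom.id G) (leftTr H W δ)).hom c)
  have h2 := shapiroH1Map_H1π (H := H) (N := Rep.trivial k H W) c
  refine DFunLike.ext _ _ fun h => ?_
  have h3 : (H1IsoOfIsTrivial (Rep.trivial k H W)).hom
      (shapiroH1Map H (Rep.trivial k H W)
        ((H1π _).hom ((mapCocycles₁ (MonoidHom.id G) (leftTr H W δ)).hom c))) h
      = sh₁ H (Rep.trivial k H W) ((mapCocycles₁ (MonoidHom.id G) (leftTr H W δ)).hom c)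
          (Additive.toMul h) := by
    rw [h1]
    exact H1IsoOfIsTrivial_H1π_apply_apply _ h
  have h4 : conjChar (k := k) δ ((H1IsoOfIsTrivial (Rep.trivial k H W)).hom
        (shapiroH1Map H (Rep.trivial k H W) ((H1π _).hom c))) h
      = sh₁ H (Rep.trivial k H W) c (MulAut.conjNormal δ⁻¹ (Additive.toMul h)) := by
    rw [h2]
    exact H1IsoOfIsTrivial_H1π_apply_apply _ _
  rw [h3, h4, Fermat.Agent.S55.helper9763.coe_mapCocycles₁_id]
  exact sh₁_leftTr c.2 δ (Additive.toMul h)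

end ShapiroEquiv

/-! ## Part 3: the frozen `S`-level carriers over `G_ℚ` -/

section Global

open Fermat.Agent.S55.helper3071 Fermat.Agent.S55.helper62 Fermat.Agent.S55.helper324

local notation "Qbar" => AlgebraicClosure ℚ

variable (S : Finset Nat.Primes) (p : ℕ) (K : IntermediateField ℚ Qbar)
  (W : Type) [AddCommGroup W] [Module (ZMod p) W]

/-- `coind_{G_K}^{G_ℚ} W` with trivial action of `G_K` on the `𝔽_p`-module `W`.  For
`W = ZMod p` this is `helper3071.indRep p K` (by `rfl`). -/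
abbrev indRepW : Rep (ZMod p) GQ := coindTriv (k := ZMod p) K.fixingSubgroup W

lemma indRepW_zmod : indRepW p K (ZMod p) = indRep p K := rfl

/-- The trivial representation of `G_K` on `W`.  For `W = ZMod p` this is `helper3071.trivF`. -/
abbrev trivW : Rep (ZMod p) ↥K.fixingSubgroup := Rep.trivial (ZMod p) ↥K.fixingSubgroup W

/-- The `S`-level additive characters `G_K → W`, as a submodule.  For `W = ZMod p` the carrier
is `helper324.levChars S p K`. -/
def levCharSub : Submodule (ZMod p) (Additive ↥K.fixingSubgroup →+ W) where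
  carrier := {χ | IsLevS₁ S K.fixingSubgroup.subtype
    (fun g : ↥K.fixingSubgroup => χ (Additive.ofMul g))}
  add_mem' hf hf' := hf.add hf'
  zero_mem' := isLevS₁_const S K.fixingSubgroup.subtype (0 : W)
  smul_mem' c _ hf := hf.comp (c • ·)

lemma mem_levCharSub_iff (χ : Additive ↥K.fixingSubgroup →+ W) :
    χ ∈ levCharSub S p K W ↔ IsLevS₁ S K.fixingSubgroup.subtype
      (fun g : ↥K.fixingSubgroup => χ (Additive.ofMul g)) := Iff.rfl

lemma coe_levCharSub_zmod :
    (levCharSub S p K (ZMod p) : Set (Additive ↥K.fixingSubgroup →+ ZMod p)) = levChars S p K :=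
  rfl

/-- The relative `S`-level `H¹` of `G_K` with trivial coefficients `W` corresponds to the
`S`-level characters under `H1IsoOfIsTrivial` (general-coefficient form of
`helper324.mem_fieldH1_iff`). -/
theorem mem_relH1S_trivW_iff (x : H1 (trivW p K W)) :
    x ∈ relH1S S K.fixingSubgroup.subtype (trivW p K W) ↔
      (H1IsoOfIsTrivial (trivW p K W)).hom x ∈ levCharSub S p K W := by
  constructor
  · intro hx
    obtain ⟨c, hc, rfl⟩ := (mem_relH1S_iff S K.fixingSubgroup.subtype (trivW p K W) x).1 hx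
    show IsLevS₁ S K.fixingSubgroup.subtype (fun g : ↥K.fixingSubgroup =>
        (H1IsoOfIsTrivial (trivW p K W)).hom ((H1π (trivW p K W)).hom c) (Additive.ofMul g))
    have h : (fun g : ↥K.fixingSubgroup =>
        (H1IsoOfIsTrivial (trivW p K W)).hom ((H1π (trivW p K W)).hom c) (Additive.ofMul g))
          = ⇑c := by
      funext g
      exact H1IsoOfIsTrivial_H1π_apply_apply c (Additive.ofMul g)
    rw [h]
    exact hc
  · intro hx
    refine (mem_relH1S_iff S K.fixingSubgroup.subtype (trivW p K W) x).2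
      ⟨(cocycles₁IsoOfIsTrivial (trivW p K W)).inv ((H1IsoOfIsTrivial (trivW p K W)).hom x), hx, ?_⟩
    have h := H1IsoOfIsTrivial_inv_apply (A := trivW p K W)
      ((H1IsoOfIsTrivial (trivW p K W)).hom x)
    have h2 : (H1IsoOfIsTrivial (trivW p K W)).inv ((H1IsoOfIsTrivial (trivW p K W)).hom x) = x := by
      simp
    rw [h2] at h
    exact h.symm

/-- `H¹(G_{K,S}, W) ≃ S`-level characters `G_K → W`. -/
def relH1SChar : ↥(relH1S S K.fixingSubgroup.subtype (trivW p K W)) ≃ₗ[ZMod p]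
    ↥(levCharSub S p K W) where
  toFun x := ⟨(H1IsoOfIsTrivial (trivW p K W)).hom x.1, (mem_relH1S_trivW_iff S p K W x.1).1 x.2⟩
  invFun χ := ⟨(H1IsoOfIsTrivial (trivW p K W)).inv χ.1,
    (mem_relH1S_trivW_iff S p K W _).2 (by
      have h : (H1IsoOfIsTrivial (trivW p K W)).hom ((H1IsoOfIsTrivial (trivW p K W)).inv χ.1)
          = χ.1 := by simp
      rw [h]
      exact χ.2)⟩
  map_add' x y := Subtype.ext (map_add _ _ _)
  map_smul' c x := Subtype.ext (map_smul _ _ _)
  left_inv x := Subtype.ext (by simp)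
  right_inv χ := Subtype.ext (by simp)

@[simp] lemma relH1SChar_coe (x : ↥(relH1S S K.fixingSubgroup.subtype (trivW p K W))) :
    (relH1SChar S p K W x : Additive ↥K.fixingSubgroup →+ W)
      = (H1IsoOfIsTrivial (trivW p K W)).hom x.1 := rfl

/-- **Shapiro + `H¹ = Hom`**: `H¹(G_S, coind_{G_K} W) ≃ S`-level characters `G_K → W`. -/
def shapChar (hK : K.IsUnramifiedOutside S) :
    ↥(continuousH1S S (indRepW p K W)) ≃ₗ[ZMod p] ↥(levCharSub S p K W) :=
  (shapiroH1SEquiv S K (trivW p K W) hK).trans (relH1SChar S p K W)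

lemma shapChar_coe (hK : K.IsUnramifiedOutside S) (x : ↥(continuousH1S S (indRepW p K W))) :
    (shapChar S p K W hK x : Additive ↥K.fixingSubgroup →+ W)
      = (H1IsoOfIsTrivial (trivW p K W)).hom
          (shapiroH1Map K.fixingSubgroup (trivW p K W) (x : H1 (indRepW p K W))) := rfl

/-- On the class of a cocycle `c`, `shapChar` is `h ↦ c h 1`. -/
lemma shapChar_H1π_apply (hK : K.IsUnramifiedOutside S)
    (c : cocycles₁ (indRepW p K W)) (hc : (H1π (indRepW p K W)).hom c ∈ continuousH1S S (indRepW p K W))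
    (h : ↥K.fixingSubgroup) :
    (shapChar S p K W hK ⟨(H1π (indRepW p K W)).hom c, hc⟩ : Additive ↥K.fixingSubgroup →+ W)
        (Additive.ofMul h) = ((c : GQ → indRepW p K W) (h : GQ)).1 1 := by
  rw [shapChar_coe]
  have h1 := shapiroH1Map_H1π (H := K.fixingSubgroup) (N := trivW p K W) c
  show (H1IsoOfIsTrivial (trivW p K W)).hom
      (shapiroH1Map K.fixingSubgroup (trivW p K W) ((H1π (indRepW p K W)).hom c)) (Additive.ofMul h) = _
  rw [h1]
  exact H1IsoOfIsTrivial_H1π_apply_apply _ _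

variable [hn : K.fixingSubgroup.Normal]

/-- **The action of `δ ∈ G_ℚ` on `H¹(G_S, coind_{G_K} W)`** induced by left translation
`f ↦ f (δ⁻¹ ·)` on the coinduced module (`K/ℚ` normal). -/
def galH1Act (δ : GQ) :
    ↥(continuousH1S S (indRepW p K W)) ≃ₗ[ZMod p] ↥(continuousH1S S (indRepW p K W)) :=
  Fermat.Agent.S55.helper9763.continuousH1SEquiv S (leftTrIso K.fixingSubgroup W δ)

lemma galH1Act_coe (δ : GQ) (x : ↥(continuousH1S S (indRepW p K W))) :
    (galH1Act S p K W δ x : H1 (indRepW p K W))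
      = Fermat.Agent.S55.helper9763.H1Map (leftTr K.fixingSubgroup W δ) (x : H1 (indRepW p K W)) :=
  rfl

lemma galH1Act_mul (δ δ' : GQ) (x : ↥(continuousH1S S (indRepW p K W))) :
    galH1Act S p K W (δ * δ') x = galH1Act S p K W δ (galH1Act S p K W δ' x) := by
  apply Subtype.ext
  rw [galH1Act_coe, galH1Act_coe, galH1Act_coe, ← Fermat.Agent.S55.helper9763.H1Map_comp,
    leftTr_comp]

lemma galH1Act_of_mem {δ : GQ} (hδ : δ ∈ K.fixingSubgroup)
    (x : ↥(continuousH1S S (indRepW p K W))) : galH1Act S p K W δ x = x := by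
  apply Subtype.ext
  rw [galH1Act_coe, leftTr_of_mem hδ, Fermat.Agent.S55.helper9763.H1Map_id]

lemma galH1Act_one (x : ↥(continuousH1S S (indRepW p K W))) : galH1Act S p K W 1 x = x :=
  galH1Act_of_mem S p K W (Subgroup.one_mem _) x

/-- **(E2) Shapiro is Galois-equivariant**: left translation by `δ` on
`H¹(G_S, coind_{G_K} W)` is conjugation `χ ↦ χ (δ⁻¹ · δ)` on `S`-level characters of `G_K`. -/
theorem shapChar_galH1Act (hK : K.IsUnramifiedOutside S) (δ : GQ)
    (x : ↥(continuousH1S S (indRepW p K W))) :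
    (shapChar S p K W hK (galH1Act S p K W δ x) : Additive ↥K.fixingSubgroup →+ W)
      = conjChar (k := ZMod p) δ (shapChar S p K W hK x : Additive ↥K.fixingSubgroup →+ W) := by
  rw [shapChar_coe, shapChar_coe, galH1Act_coe]
  exact shapiro_leftTr δ (x : H1 (indRepW p K W))

/-- Conjugation by `δ ∈ G_ℚ` preserves the `S`-level characters of `G_K` (`K` an `S`-field,
normal over `ℚ`). -/
theorem conjChar_mem_levCharSub (hK : K.IsUnramifiedOutside S) (δ : GQ)
    {χ : Additive ↥K.fixingSubgroup →+ W} (hχ : χ ∈ levCharSub S p K W) :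
    conjChar (k := ZMod p) δ χ ∈ levCharSub S p K W := by
  have h := shapChar_galH1Act S p K W hK δ ((shapChar S p K W hK).symm ⟨χ, hχ⟩)
  rw [LinearEquiv.apply_symm_apply] at h
  rw [← h]
  exact (shapChar S p K W hK _).2

/-- Conjugation by `δ` as a linear automorphism of the `S`-level characters. -/
def conjCharS (hK : K.IsUnramifiedOutside S) (δ : GQ) :
    ↥(levCharSub S p K W) →ₗ[ZMod p] ↥(levCharSub S p K W) :=
  (conjChar (k := ZMod p) δ).restrict fun _ hχ => conjChar_mem_levCharSub S p K W hK δ hχ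

@[simp] lemma conjCharS_coe (hK : K.IsUnramifiedOutside S) (δ : GQ) (χ : ↥(levCharSub S p K W)) :
    (conjCharS S p K W hK δ χ : Additive ↥K.fixingSubgroup →+ W)
      = conjChar (k := ZMod p) δ (χ : Additive ↥K.fixingSubgroup →+ W) := rfl

/-- (E2), bundled form. -/
theorem shapChar_galH1Act' (hK : K.IsUnramifiedOutside S) (δ : GQ)
    (x : ↥(continuousH1S S (indRepW p K W))) :
    shapChar S p K W hK (galH1Act S p K W δ x) = conjCharS S p K W hK δ (shapChar S p K W hK x) :=
  Subtype.ext (shapChar_galH1Act S p K W hK δ x)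

end Global

/-! ## Part 4: the Kummer character under Galois conjugation -/

section KummerTwist

open Fermat.Agent.S55.helper3071 Fermat.Agent.S55.helper324 ExtCitation

local notation "Qbar" => AlgebraicClosure ℚ

variable {p : ℕ} [Fact p.Prime] {K : IntermediateField ℚ Qbar} {ζ : Qbar}

/-- The frozen mod `p` cyclotomic character on a `p`-th root of unity:
`δ ζ = ζ ^ (cycloChar p δ).val`. -/
theorem cycloChar_spec (δ : GQ) {ξ : Qbar} (hξ : ξ ^ p = 1) :
    δ ξ = ξ ^ ((cycloChar p δ : (ZMod p)ˣ) : ZMod p).val := by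
  have : NeZero p := ⟨(Fact.out : p.Prime).ne_zero⟩
  have hdef : cycloChar p δ = modularCyclotomicCharacter Qbar (card_rootsOfUnity_eq_self p)
      (δ : Qbar ≃+* Qbar) := rfl
  have hξ0 : ξ ≠ 0 := by
    rintro rfl
    rw [zero_pow (Fact.out : p.Prime).ne_zero] at hξ
    exact zero_ne_one hξ
  have ht : Units.mk0 ξ hξ0 ∈ rootsOfUnity p Qbar := by
    rw [mem_rootsOfUnity]
    ext
    simpa using hξ
  have := modularCyclotomicCharacter.spec Qbar (card_rootsOfUnity_eq_self p) (δ : Qbar ≃+* Qbar) ht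
  rw [← hdef] at this
  simpa using this

variable [hn : K.fixingSubgroup.Normal]

/-- A field `K` with `Gal(ℚ̄/K)` normal is stable under `G_ℚ`. -/
theorem map_mem_of_normal (δ : GQ) {x : Qbar} (hx : x ∈ K) : δ x ∈ K := by
  refine mem_of_fixed fun σ hσ => ?_
  have h1 : δ⁻¹ * σ * δ ∈ K.fixingSubgroup := by
    have := hn.conj_mem σ hσ δ⁻¹
    rwa [inv_inv] at this
  have h2 : (δ⁻¹ * σ * δ) x = x := fix_of_mem h1 hx
  have h3 : σ (δ x) = δ ((δ⁻¹ * σ * δ) x) := by
    simp only [AlgEquiv.mul_apply]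
    rw [AlgEquiv.aut_inv, AlgEquiv.apply_symm_apply]
  rw [h3, h2]

/-- **(E3), root form.** If `δ ζ = ζ ^ ω`, the Kummer character of `δ α` is `ω` times the
`δ`-conjugate of the Kummer character of `α`:
`kum(δ α)(σ) = ω · kum(α)(δ⁻¹ σ δ)`. -/
theorem kum_twist (hζ : IsPrimitiveRoot ζ p) (hζK : ζ ∈ K) (δ : GQ) {ω : ZMod p}
    (hω : δ ζ = ζ ^ ω.val) {α : Qbar} (hα : α ≠ 0) (hαK : α ^ p ∈ K)
    (hδα : δ α ≠ 0) (hδαK : (δ α) ^ p ∈ K) :
    kum hζ hζK hδα hδαK = ω • conjChar (k := ZMod p) δ (kum hζ hζK hα hαK) := by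
  refine DFunLike.ext _ _ fun σ => ?_
  refine kum_eq_of hζ hζK hδα hδαK (Additive.toMul σ) ?_
  have h1 := kum_apply hζ hζK hα hαK (MulAut.conjNormal δ⁻¹ (Additive.toMul σ))
  have h2 : ((Additive.toMul σ : ↥K.fixingSubgroup) : GQ) (δ α)
      = δ (((MulAut.conjNormal δ⁻¹ (Additive.toMul σ) : ↥K.fixingSubgroup) : GQ) α) := by
    rw [MulAut.conjNormal_apply, inv_inv]
    simp only [AlgEquiv.mul_apply]
    rw [AlgEquiv.aut_inv, AlgEquiv.apply_symm_apply]
  rw [h2, h1, map_mul, map_pow, hω, ← pow_mul]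
  congr 1
  have h3 : (ω • conjChar (k := ZMod p) δ (kum hζ hζK hα hαK)) σ
      = ((ω.val * (kum hζ hζK hα hαK
          (Additive.ofMul (MulAut.conjNormal δ⁻¹ (Additive.toMul σ)))).val : ℕ) : ZMod p) := by
    rw [Nat.cast_mul, ZMod.natCast_zmod_val, ZMod.natCast_zmod_val]
    rfl
  rw [h3, zpow_val_natCast hζ]

/-- **(E3), unit form.** For `a, b ∈ Kˣ` with `δ a = b` and `δ ζ = ζ ^ ω`:
`kumHom b = ω • conj_δ (kumHom a)`. -/
theorem kumHom_twist (hζ : IsPrimitiveRoot ζ p) (hζK : ζ ∈ K) (δ : GQ) {ω : ZMod p}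
    (hω : δ ζ = ζ ^ ω.val) (a b : (↥K)ˣ) (hab : δ ((a : ↥K) : Qbar) = ((b : ↥K) : Qbar)) :
    Multiplicative.toAdd (kumHom hζ hζK b) =
      ω • conjChar (k := ZMod p) δ (Multiplicative.toAdd (kumHom hζ hζK a)) := by
  have hα0 : rootOf p ((a : ↥K) : Qbar) ≠ 0 := rootOf_ne_zero (unit_coe_ne_zero a)
  have hδα0 : δ (rootOf p ((a : ↥K) : Qbar)) ≠ 0 := by
    intro h
    exact hα0 ((map_eq_zero_iff δ δ.injective).1 h)
  have hpow : (δ (rootOf p ((a : ↥K) : Qbar))) ^ p = ((b : ↥K) : Qbar) := by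
    rw [← map_pow, rootOf_pow, hab]
  rw [kumHom_eq hζ hζK b hδα0 hpow, kumHom_eq hζ hζK a hα0 (rootOf_pow _)]
  exact kum_twist hζ hζK δ hω hα0 _ hδα0 _

/-- (E3) with the frozen cyclotomic character `ω = cycloChar p δ`. -/
theorem kumHom_twist_cycloChar (hζ : IsPrimitiveRoot ζ p) (hζK : ζ ∈ K) (δ : GQ)
    (a b : (↥K)ˣ) (hab : δ ((a : ↥K) : Qbar) = ((b : ↥K) : Qbar)) :
    Multiplicative.toAdd (kumHom hζ hζK b) =
      ((cycloChar p δ : (ZMod p)ˣ) : ZMod p) •
        conjChar (k := ZMod p) δ (Multiplicative.toAdd (kumHom hζ hζK a)) :=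
  kumHom_twist hζ hζK δ (cycloChar_spec δ hζ.pow_eq_one) a b hab

end KummerTwist

/-! ## Part 5: the Kummer–Shapiro map `Kum_S(K) → H¹(G_S, coind_{G_K} 𝔽_p)` and its twist -/

section KummerShapiro

open Fermat.Agent.S55.helper3071 Fermat.Agent.S55.helper324 Fermat.Agent.S55.helper9292
  Fermat.Agent.Lib.helper54 ExtCitation
open scoped NumberField

attribute [local instance] numberField_intermediate

local notation "Qbar" => AlgebraicClosure ℚ

variable {S : Finset Nat.Primes} {p : ℕ} [Fact p.Prime] {K : IntermediateField ℚ Qbar}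
  [FiniteDimensional ℚ K] {ζ : Qbar}

/-- Membership in the `S`-Kummer group is detected by the Kummer character. -/
theorem mem_kumS_iff_kumHom (hK : K.IsUnramifiedOutside S)
    (hpS : ∀ q : Nat.Primes, (q : ℕ) ∣ p → q ∈ S)
    (hζ : IsPrimitiveRoot ζ p) (hζK : ζ ∈ K) (a : (↥K)ˣ) :
    a ∈ kumS (𝓞 K) K (SF K S : Set (IsDedekindDomain.HeightOneSpectrum (𝓞 K))) p ↔
      Multiplicative.toAdd (kumHom hζ hζK a) ∈ levChars S p K := by
  constructor
  · exact kumHom_mem_levChars hK hpS hζ hζK a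
  · intro h
    obtain ⟨a', ha', hae⟩ := exists_kumHom_eq hK hpS hζ hζK _ h
    have hker : a * a'⁻¹ ∈ (kumHom hζ hζK).ker := by
      rw [MonoidHom.mem_ker, map_mul, map_inv]
      have : kumHom hζ hζK a' = kumHom hζ hζK a := by
        apply Multiplicative.toAdd.injective
        exact hae
      rw [this, mul_inv_cancel]
    rw [kumHom_ker] at hker
    have hpow : a * a'⁻¹ ∈ kumS (𝓞 K) K
        (SF K S : Set (IsDedekindDomain.HeightOneSpectrum (𝓞 K))) p :=
      powSub_le_kumSub _ _ _ hker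
    have := Subgroup.mul_mem _ hpow ha'
    rwa [inv_mul_cancel_right] at this

/-- **The Kummer–Shapiro map** `Kum_S(K) → H¹(G_S, coind_{G_K}^{G_ℚ} 𝔽_p)`:
the Kummer character of `a`, transported by the inverse of Shapiro's isomorphism. -/
def kumH1 (hK : K.IsUnramifiedOutside S) (hpS : ∀ q : Nat.Primes, (q : ℕ) ∣ p → q ∈ S)
    (hζ : IsPrimitiveRoot ζ p) (hζK : ζ ∈ K) :
    Additive ↥(kumS (𝓞 K) K (SF K S : Set (IsDedekindDomain.HeightOneSpectrum (𝓞 K))) p) →+
      ↥(continuousH1S S (indRep p K)) :=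
  AddMonoidHom.mk' (fun a => (shapChar S p K (ZMod p) hK).symm
      ⟨Multiplicative.toAdd (kumHom hζ hζK ((Additive.toMul a : ↥(kumS (𝓞 K) K
          (SF K S : Set (IsDedekindDomain.HeightOneSpectrum (𝓞 K))) p)) : (↥K)ˣ)),
        kumHom_mem_levChars hK hpS hζ hζK _ (Additive.toMul a).2⟩)
    (by
      intro a b
      rw [← map_add]
      congr 1
      apply Subtype.ext
      show Multiplicative.toAdd (kumHom hζ hζK _) = Multiplicative.toAdd (kumHom hζ hζK _)
        + Multiplicative.toAdd (kumHom hζ hζK _)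
      rw [← toAdd_mul, ← map_mul]
      rfl)

/-- Under Shapiro, `kumH1 a` is the Kummer character of `a`. -/
theorem shapChar_kumH1 (hK : K.IsUnramifiedOutside S)
    (hpS : ∀ q : Nat.Primes, (q : ℕ) ∣ p → q ∈ S)
    (hζ : IsPrimitiveRoot ζ p) (hζK : ζ ∈ K)
    (a : ↥(kumS (𝓞 K) K (SF K S : Set (IsDedekindDomain.HeightOneSpectrum (𝓞 K))) p)) :
    (shapChar S p K (ZMod p) hK (kumH1 hK hpS hζ hζK (Additive.ofMul a)) :
        Additive ↥K.fixingSubgroup →+ ZMod p) =
      Multiplicative.toAdd (kumHom hζ hζK (a : (↥K)ˣ)) := by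
  show ((shapChar S p K (ZMod p) hK) ((shapChar S p K (ZMod p) hK).symm _) :
    Additive ↥K.fixingSubgroup →+ ZMod p) = _
  rw [LinearEquiv.apply_symm_apply]
  rfl

/-- The kernel of the Kummer–Shapiro map is the group of `p`-th powers. -/
theorem kumH1_eq_zero_iff (hK : K.IsUnramifiedOutside S)
    (hpS : ∀ q : Nat.Primes, (q : ℕ) ∣ p → q ∈ S)
    (hζ : IsPrimitiveRoot ζ p) (hζK : ζ ∈ K)
    (a : ↥(kumS (𝓞 K) K (SF K S : Set (IsDedekindDomain.HeightOneSpectrum (𝓞 K))) p)) :
    kumH1 hK hpS hζ hζK (Additive.ofMul a) = 0 ↔ (a : (↥K)ˣ) ∈ powSub (↥K)ˣ p := by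
  have hk : (a : (↥K)ˣ) ∈ powSub (↥K)ˣ p ↔ kumHom hζ hζK (a : (↥K)ˣ) = 1 := by
    rw [← MonoidHom.mem_ker, kumHom_ker hζ hζK]
  rw [← (shapChar S p K (ZMod p) hK).map_eq_zero_iff, hk]
  rw [← Subtype.coe_inj, shapChar_kumH1]
  constructor
  · intro h
    apply Multiplicative.toAdd.injective
    exact h
  · intro h
    rw [h]
    rfl

/-- The Kummer–Shapiro map is onto `H¹(G_S, coind_{G_K} 𝔽_p)`. -/
theorem kumH1_surjective (hK : K.IsUnramifiedOutside S)
    (hpS : ∀ q : Nat.Primes, (q : ℕ) ∣ p → q ∈ S)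
    (hζ : IsPrimitiveRoot ζ p) (hζK : ζ ∈ K) :
    Function.Surjective (kumH1 hK hpS hζ hζK) := by
  intro x
  obtain ⟨a, ha, hae⟩ := exists_kumHom_eq hK hpS hζ hζK
    (shapChar S p K (ZMod p) hK x : Additive ↥K.fixingSubgroup →+ ZMod p)
    (shapChar S p K (ZMod p) hK x).2
  refine ⟨Additive.ofMul ⟨a, ha⟩, ?_⟩
  apply (shapChar S p K (ZMod p) hK).injective
  apply Subtype.ext
  rw [shapChar_kumH1]
  exact hae

variable [hn : K.fixingSubgroup.Normal]

/-- **(E1)+(E2)+(E3): the Kummer–Shapiro map is twisted-equivariant.**  For `a, b ∈ Kum_S(K)`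
with `δ a = b` and `δ ζ = ζ ^ ω`:  `kumH1 b = ω • (leftTr δ)_* (kumH1 a)`. -/
theorem kumH1_twist (hK : K.IsUnramifiedOutside S)
    (hpS : ∀ q : Nat.Primes, (q : ℕ) ∣ p → q ∈ S)
    (hζ : IsPrimitiveRoot ζ p) (hζK : ζ ∈ K) (δ : GQ) {ω : ZMod p} (hω : δ ζ = ζ ^ ω.val)
    (a b : ↥(kumS (𝓞 K) K (SF K S : Set (IsDedekindDomain.HeightOneSpectrum (𝓞 K))) p))
    (hab : δ (((a : (↥K)ˣ) : ↥K) : Qbar) = (((b : (↥K)ˣ) : ↥K) : Qbar)) :
    kumH1 hK hpS hζ hζK (Additive.ofMul b) =
      ω • galH1Act S p K (ZMod p) δ (kumH1 hK hpS hζ hζK (Additive.ofMul a)) := by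
  apply (shapChar S p K (ZMod p) hK).injective
  apply Subtype.ext
  rw [map_smul, Submodule.coe_smul, shapChar_galH1Act, shapChar_kumH1, shapChar_kumH1]
  exact kumHom_twist hζ hζK δ hω (a : (↥K)ˣ) (b : (↥K)ˣ) hab

end KummerShapiro

/-! ## Part 6: linear algebra of intertwiners and of `ZMod p ⊗[ℤ] A` -/

section LinAlg

open Polynomial TensorProduct

/-- An intertwiner commutes with polynomials in the two endomorphisms. -/
theorem aeval_intertwine {k V V' : Type*} [CommRing k] [AddCommGroup V] [Module k V]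
    [AddCommGroup V'] [Module k V'] (J : V →ₗ[k] V') (T : Module.End k V) (T' : Module.End k V')
    (hJ : ∀ v, J (T v) = T' (J v)) (φ : Polynomial k) (v : V) :
    J (aeval T φ v) = aeval T' φ (J v) := by
  have hpow : ∀ (n : ℕ) (v : V), J ((T ^ n) v) = (T' ^ n) (J v) := by
    intro n
    induction n with
    | zero => intro v; simp
    | succ n ih =>
      intro v
      rw [pow_succ, pow_succ, Module.End.mul_apply, Module.End.mul_apply, ih, hJ]
  rw [aeval_eq_sum_range, aeval_eq_sum_range, LinearMap.sum_apply, LinearMap.sum_apply, map_sum]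
  refine Finset.sum_congr rfl fun i _ => ?_
  rw [LinearMap.smul_apply, LinearMap.smul_apply, map_smul, hpow]

/-- An injective intertwiner embeds `ker φ(T)` into `ker φ(T')`. -/
theorem finrank_ker_aeval_le_of_injective {k V V' : Type*} [Field k] [AddCommGroup V]
    [Module k V] [AddCommGroup V'] [Module k V'] [Module.Finite k V'] (J : V →ₗ[k] V')
    (hinj : Function.Injective J) (T : Module.End k V) (T' : Module.End k V')
    (hJ : ∀ v, J (T v) = T' (J v)) (φ : Polynomial k) :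
    Module.finrank k (LinearMap.ker (aeval T φ)) ≤ Module.finrank k (LinearMap.ker (aeval T' φ)) := by
  let J' : LinearMap.ker (aeval T φ) →ₗ[k] LinearMap.ker (aeval T' φ) :=
    J.restrict (p := LinearMap.ker (aeval T φ)) (q := LinearMap.ker (aeval T' φ)) (by
      intro v hv
      rw [LinearMap.mem_ker] at hv ⊢
      rw [← aeval_intertwine J T T' hJ φ v, hv, map_zero])
  have hJ' : Function.Injective J' := by
    intro x y hxy
    apply Subtype.ext
    apply hinj
    exact congrArg Subtype.val hxy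
  exact LinearMap.finrank_le_finrank_of_injective hJ'

/-- A bijective intertwiner identifies `ker φ(T)` and `ker φ(T')`. -/
theorem finrank_ker_aeval_eq_of_equiv {k V V' : Type*} [Field k] [AddCommGroup V]
    [Module k V] [AddCommGroup V'] [Module k V'] [Module.Finite k V] [Module.Finite k V']
    (J : V ≃ₗ[k] V') (T : Module.End k V) (T' : Module.End k V')
    (hJ : ∀ v, J (T v) = T' (J v)) (φ : Polynomial k) :
    Module.finrank k (LinearMap.ker (aeval T φ)) = Module.finrank k (LinearMap.ker (aeval T' φ)) := by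
  apply le_antisymm
  · exact finrank_ker_aeval_le_of_injective J.toLinearMap J.injective T T' hJ φ
  · refine finrank_ker_aeval_le_of_injective J.symm.toLinearMap J.symm.injective T' T ?_ φ
    intro v
    apply J.injective
    show J (J.symm (T' v)) = J (T (J.symm v))
    rw [hJ, LinearEquiv.apply_symm_apply, LinearEquiv.apply_symm_apply]

variable {p : ℕ} [Fact p.Prime] {A : Type*} [AddCommGroup A]

/-- Every element of `ZMod p ⊗[ℤ] A` is a pure tensor `1 ⊗ x`. -/
theorem exists_one_tmul (z : ZMod p ⊗[ℤ] A) : ∃ x : A, z = (1 : ZMod p) ⊗ₜ[ℤ] x := by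
  induction z using TensorProduct.induction_on with
  | zero => exact ⟨0, (tmul_zero _ _).symm⟩
  | tmul c x =>
    refine ⟨(c.val : ℤ) • x, ?_⟩
    rw [← smul_tmul]
    congr 1
    rw [zsmul_eq_mul, mul_one]
    simp
  | add z z' hz hz' =>
    obtain ⟨x, rfl⟩ := hz
    obtain ⟨y, rfl⟩ := hz'
    exact ⟨x + y, (tmul_add _ _ _).symm⟩

/-- A homomorphism `f : A → M` to an `𝔽_p`-vector space whose kernel is `pA` induces an injection
`ZMod p ⊗[ℤ] A → M`. -/
theorem liftBaseChange_injective {M : Type*} [AddCommGroup M] [Module (ZMod p) M]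
    (f : A →+ M) (hf : ∀ x, f x = 0 → ∃ y, x = p • y) :
    Function.Injective (f.toIntLinearMap.liftBaseChange (ZMod p)) := by
  rw [← LinearMap.ker_eq_bot, LinearMap.ker_eq_bot']
  intro z hz
  obtain ⟨x, rfl⟩ := exists_one_tmul z
  rw [LinearMap.liftBaseChange_tmul, one_smul] at hz
  obtain ⟨y, rfl⟩ := hf x hz
  have h1 : (1 : ZMod p) ⊗ₜ[ℤ] (p • y) = ((p : ℤ) • (1 : ZMod p)) ⊗ₜ[ℤ] y := by
    rw [smul_tmul]
    simp
  rw [h1]
  have h2 : ((p : ℤ) • (1 : ZMod p)) = 0 := by
    rw [zsmul_eq_mul, mul_one]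
    simp
  rw [h2, zero_tmul]

end LinAlg

/-! ## Part 7: (K1) — the operator form of the equivariant Kummer lower bound -/

section K1

open Fermat.Agent.S55.helper3071 Fermat.Agent.S55.helper62 Fermat.Agent.S55.helper324
  Fermat.Agent.S55.helper9292 Fermat.Agent.Lib.helper54 ExtCitation Polynomial TensorProduct
open scoped NumberField

attribute [local instance] numberField_intermediate

local notation "Qbar" => AlgebraicClosure ℚ

variable {S : Finset Nat.Primes} {p : ℕ} [Fact p.Prime] {K : IntermediateField ℚ Qbar}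
  [FiniteDimensional ℚ K]

omit [Fact p.Prime] [FiniteDimensional ℚ K] in
/-- `p ∈ S` in the divisibility form used by `helper324`. -/
theorem hpS_of_isSFieldZeta (h : IsSFieldZeta S p K) :
    ∀ q : Nat.Primes, (q : ℕ) ∣ p → q ∈ S := by
  obtain ⟨q0, hq0S, hq0⟩ := h.mem
  intro q hq
  have h1 : (q : ℕ) = p := (Nat.prime_dvd_prime_iff_eq q.2 h.prime).1 hq
  have h2 : q = q0 := Subtype.ext (h1.trans hq0.symm)
  rw [h2]
  exact hq0S

/-- `H¹(G_S, coind_{G_K} 𝔽_p)` is finite-dimensional for an `S`-field `K ∋ ζ_p`. -/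
theorem finite_continuousH1S_indRep (h : IsSFieldZeta S p K) :
    Module.Finite (ZMod p) ↥(continuousH1S S (indRep p K)) := by
  have hfin : Module.Finite (ZMod p) ↥(relH1S S K.fixingSubgroup.subtype (trivF p K)) :=
    finite_fieldH1 h
  exact Module.Finite.equiv (shapiroH1SEquiv S K (trivF p K) h.unram).symm

variable [hn : K.fixingSubgroup.Normal]

/-- **(K1), operator form.**  Let `K` be a normal `S`-field containing `ζ_p`, `σ ∈ G_ℚ`, and let
`(A, T)` be an abelian group with an endomorphism, mapped `σ`-equivariantly by `j` into the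
`S`-Kummer group of `K` (e.g. `A` = the `S`-units, any carrier), such that an element of `A`
which becomes a `p`-th power in `Kˣ` lies in `pA`.  Then for every polynomial `φ` over `𝔽_p`

`dim ker φ(ω(σ)⁻¹ • T | A/p) ≤ dim ker φ(λ_σ | H¹(G_S, coind_{G_K} 𝔽_p))`,

where `λ_σ = galH1Act σ` is induced by left translation by `σ` on the coinduced module and
`ω = cycloChar p` is the frozen mod `p` cyclotomic character. -/
theorem kd_le_kd_H1 (h : IsSFieldZeta S p K) (σ : GQ)
    {A : Type*} [AddCommGroup A] (j : A →+ Additive (↥K)ˣ)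
    (hj : ∀ x, Additive.toMul (j x) ∈
      kumS (𝓞 K) K (SF K S : Set (IsDedekindDomain.HeightOneSpectrum (𝓞 K))) p)
    (hjp : ∀ x, Additive.toMul (j x) ∈ powSub (↥K)ˣ p → ∃ y, x = p • y)
    (T : A →+ A)
    (hT : ∀ x, (((Additive.toMul (j (T x)) : (↥K)ˣ) : ↥K) : Qbar)
      = σ (((Additive.toMul (j x) : (↥K)ˣ) : ↥K) : Qbar))
    (φ : Polynomial (ZMod p)) :
    Module.finrank (ZMod p) (LinearMap.ker (aeval
        ((((cycloChar p σ)⁻¹ : (ZMod p)ˣ) : ZMod p) • T.toIntLinearMap.baseChange (ZMod p)) φ))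
      ≤ Module.finrank (ZMod p) (LinearMap.ker
        (aeval (galH1Act S p K (ZMod p) σ).toLinearMap φ)) := by
  obtain ⟨ζ, hζK, hζ⟩ := h.zeta
  have hpS := hpS_of_isSFieldZeta h
  have hK := h.unram
  have hfin := finite_continuousH1S_indRep h
  let j' : A →+ Additive ↥(kumS (𝓞 K) K
      (SF K S : Set (IsDedekindDomain.HeightOneSpectrum (𝓞 K))) p) :=
    AddMonoidHom.mk' (fun x => Additive.ofMul ⟨Additive.toMul (j x), hj x⟩) (by
      intro x y
      apply Additive.toMul.injective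
      apply Subtype.ext
      show Additive.toMul (j (x + y)) = Additive.toMul (j x) * Additive.toMul (j y)
      rw [map_add]
      rfl)
  let f : A →+ ↥(continuousH1S S (indRep p K)) := (kumH1 hK hpS hζ hζK).comp j'
  have hf : ∀ x, f x = 0 → ∃ y, x = p • y := fun x hx =>
    hjp x ((kumH1_eq_zero_iff hK hpS hζ hζK ⟨Additive.toMul (j x), hj x⟩).1 hx)
  have hinj := liftBaseChange_injective f hf
  refine finrank_ker_aeval_le_of_injective (f.toIntLinearMap.liftBaseChange (ZMod p)) hinj _ _ ?_ φ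
  intro z
  obtain ⟨x, rfl⟩ := exists_one_tmul z
  have htw : f (T x) = ((cycloChar p σ : (ZMod p)ˣ) : ZMod p) •
      galH1Act S p K (ZMod p) σ (f x) :=
    kumH1_twist hK hpS hζ hζK σ (cycloChar_spec σ hζ.pow_eq_one)
      ⟨Additive.toMul (j x), hj x⟩ ⟨Additive.toMul (j (T x)), hj (T x)⟩ (hT x).symm
  rw [LinearMap.smul_apply, LinearMap.baseChange_tmul, map_smul, LinearMap.liftBaseChange_tmul,
    LinearMap.liftBaseChange_tmul, one_smul, one_smul]
  show (((cycloChar p σ)⁻¹ : (ZMod p)ˣ) : ZMod p) • f (T x) = galH1Act S p K (ZMod p) σ (f x)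
  rw [htw, smul_smul, ← Units.val_mul, inv_mul_cancel, Units.val_one, one_smul]

end K1

/-! ## Part 8: (H1a) — the retract step: `H¹(G_S, ker φ(λ)) = ker φ(H¹(λ))` -/

section Retract

open Fermat.Agent.S55.helper3071 Fermat.Agent.S55.helper9763 Polynomial

variable {k : Type} [CommRing k] (S : Finset Nat.Primes) {A B C : Rep k GQ}

/-- The map induced on the frozen `H¹(G_S, -)` by a morphism of representations. -/
def h1SMap (ψ : A ⟶ B) : ↥(continuousH1S S A) →ₗ[k] ↥(continuousH1S S B) :=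
  (H1Map ψ).restrict fun _ hx => H1Map_mem_continuousH1S S ψ hx

@[simp] lemma h1SMap_coe (ψ : A ⟶ B) (x : ↥(continuousH1S S A)) :
    (h1SMap S ψ x : H1 B) = H1Map ψ (x : H1 A) := rfl

lemma h1SMap_id (x : ↥(continuousH1S S A)) : h1SMap S (𝟙 A) x = x :=
  Subtype.ext (H1Map_id _)

lemma h1SMap_comp (ψ : A ⟶ B) (χ : B ⟶ C) (x : ↥(continuousH1S S A)) :
    h1SMap S (ψ ≫ χ) x = h1SMap S χ (h1SMap S ψ x) :=
  Subtype.ext (H1Map_comp ψ χ _)

/-- The endomorphism `f(λ)` of a representation, for `λ : P ⟶ P` and a polynomial `f`. -/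
def polyHom {P : Rep k GQ} (lam : P ⟶ P) (f : Polynomial k) : P ⟶ P :=
  Rep.ofHom ⟨aeval lam.hom.toLinearMap f, fun g => LinearMap.ext fun x =>
    (aeval_intertwine (P.ρ g) lam.hom.toLinearMap lam.hom.toLinearMap
      (fun v => (Rep.hom_comm_apply lam g v).symm) f x).symm⟩

@[simp] lemma polyHom_hom_apply {P : Rep k GQ} (lam : P ⟶ P) (f : Polynomial k) (x : P) :
    (polyHom lam f).hom x = aeval lam.hom.toLinearMap f x := rfl

/-- `H¹` is compatible with polynomials in an endomorphism. -/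
theorem H1Map_polyHom {P : Rep k GQ} (lam : P ⟶ P) (f : Polynomial k) (x : H1 P) :
    H1Map (polyHom lam f) x = aeval (H1Map lam) f x := by
  refine H1_induction_on x fun c => ?_
  rw [H1Map_H1π]
  have h1 := aeval_intertwine (H1π P).hom (mapCocycles₁ (MonoidHom.id GQ) lam).hom (H1Map lam)
    (fun c => (H1Map_H1π lam c).symm) f c
  refine Eq.trans ?_ h1
  congr 1
  apply Subtype.ext
  funext g
  have h3 : ((mapCocycles₁ (MonoidHom.id GQ) (polyHom lam f)).hom c : GQ → P) g
      = (polyHom lam f).hom ((c : GQ → P) g) :=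
    congrFun (coe_mapCocycles₁_id (polyHom lam f) c) g
  have h2 := aeval_intertwine
    ((LinearMap.proj g : (GQ → P) →ₗ[k] P) ∘ₗ (cocycles₁ P).subtype)
    (mapCocycles₁ (MonoidHom.id GQ) lam).hom lam.hom.toLinearMap
    (fun c => congrFun (coe_mapCocycles₁_id lam c) g) f c
  exact h3.trans h2.symm

theorem h1SMap_polyHom {P : Rep k GQ} (lam : P ⟶ P) (f : Polynomial k)
    (x : ↥(continuousH1S S P)) :
    h1SMap S (polyHom lam f) x = aeval (h1SMap S lam) f x := by
  apply Subtype.ext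
  rw [h1SMap_coe, H1Map_polyHom]
  exact (aeval_intertwine (continuousH1S S P).subtype (h1SMap S lam) (H1Map lam)
    (fun v => rfl) f x).symm

/-- A morphism which is zero on elements induces zero on `H¹`. -/
theorem H1Map_eq_zero_of_hom_eq_zero (ψ : A ⟶ B) (h : ∀ x : A, ψ.hom x = 0) (y : H1 A) :
    H1Map ψ y = 0 := by
  refine H1_induction_on y fun c => ?_
  rw [H1Map_H1π]
  have h0 : (mapCocycles₁ (MonoidHom.id GQ) ψ).hom c = 0 := by
    apply Subtype.ext
    funext g
    exact (congrFun (coe_mapCocycles₁_id ψ c) g).trans (h _)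
  rw [h0, map_zero]

end Retract

section RetractField

open Fermat.Agent.S55.helper3071 Fermat.Agent.S55.helper9763 Polynomial

variable {k : Type} [Field k] (S : Finset Nat.Primes) {P X : Rep k GQ}

/-- **Retract step, generic form.**  Let `λ : P ⟶ P` be an endomorphism of a representation
with `(φ φ')(λ) = 0`, `φ, φ'` coprime, and let `ι : X ⟶ P` be an injection with image
`ker φ(λ)`.  Then `H¹(G_S, ι)` is injective with image `ker φ(H¹(λ))`. -/
theorem h1SMap_kernel (lam : P ⟶ P) (φ φ' : Polynomial k) (hcop : IsCoprime φ φ')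
    (hann : ∀ x : P, aeval lam.hom.toLinearMap (φ * φ') x = 0)
    (ι : X ⟶ P) (hι : Function.Injective ι.hom)
    (hrange : ∀ e : P, (∃ x, ι.hom x = e) ↔ aeval lam.hom.toLinearMap φ e = 0) :
    Function.Injective (h1SMap S ι) ∧
      LinearMap.range (h1SMap S ι) = LinearMap.ker (aeval (h1SMap S lam) φ) := by
  obtain ⟨u, v, huv⟩ := hcop
  -- the projector `e = (v φ')(λ)`
  have he1 : ∀ x : P, aeval lam.hom.toLinearMap φ (aeval lam.hom.toLinearMap (v * φ') x) = 0 := by
    intro x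
    rw [← Module.End.mul_apply, ← map_mul]
    have h1 : φ * (v * φ') = v * (φ * φ') := by ring
    rw [h1, map_mul, Module.End.mul_apply, hann, map_zero]
  have he2 : ∀ x : P, aeval lam.hom.toLinearMap φ x = 0 →
      aeval lam.hom.toLinearMap (v * φ') x = x := by
    intro x hx
    have h1 : aeval lam.hom.toLinearMap (u * φ + v * φ') x = x := by
      rw [huv, map_one, Module.End.one_apply]
    rw [map_add, LinearMap.add_apply, map_mul, Module.End.mul_apply, hx, map_zero, zero_add] at h1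
    exact h1
  -- the retraction `π : P ⟶ X`
  have hex : ∀ x : P, ∃ y : X, ι.hom y = aeval lam.hom.toLinearMap (v * φ') x :=
    fun x => (hrange _).2 (he1 x)
  choose πf hπf using hex
  have hπ_add : ∀ x y, πf (x + y) = πf x + πf y := by
    intro x y
    apply hι
    rw [map_add, hπf, hπf, hπf, map_add]
  have hπ_smul : ∀ (c : k) x, πf (c • x) = c • πf x := by
    intro c x
    apply hι
    rw [map_smul, hπf, hπf, map_smul]
  let πl : P →ₗ[k] X :=
    { toFun := πf
      map_add' := hπ_add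
      map_smul' := hπ_smul }
  have hπ_comm : ∀ (g : GQ) (x : P), πl (P.ρ g x) = X.ρ g (πl x) := by
    intro g x
    apply hι
    show ι.hom (πf (P.ρ g x)) = ι.hom (X.ρ g (πf x))
    rw [Rep.hom_comm_apply, hπf, hπf]
    exact (aeval_intertwine (P.ρ g) lam.hom.toLinearMap lam.hom.toLinearMap
      (fun w => (Rep.hom_comm_apply lam g w).symm) (v * φ') x).symm
  let π : P ⟶ X := Rep.ofHom ⟨πl, fun g => LinearMap.ext fun x => hπ_comm g x⟩
  have hιπ : ι ≫ π = 𝟙 X := by
    apply Rep.hom_ext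
    ext x
    apply hι
    show ι.hom (πf (ι.hom x)) = ι.hom x
    rw [hπf]
    exact he2 _ ((hrange _).1 ⟨x, rfl⟩)
  have hπι : π ≫ ι = polyHom lam (v * φ') := by
    apply Rep.hom_ext
    ext x
    show ι.hom (πf x) = aeval lam.hom.toLinearMap (v * φ') x
    exact hπf x
  -- consequences on `H¹`
  have h1 : ∀ z : ↥(continuousH1S S X), h1SMap S π (h1SMap S ι z) = z := by
    intro z
    rw [← h1SMap_comp, hιπ, h1SMap_id]
  have h2 : ∀ y : ↥(continuousH1S S P),
      h1SMap S ι (h1SMap S π y) = aeval (h1SMap S lam) (v * φ') y := by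
    intro y
    rw [← h1SMap_comp, hπι, h1SMap_polyHom]
  have h3 : ∀ y : ↥(continuousH1S S P), aeval (h1SMap S lam) (φ * φ') y = 0 := by
    intro y
    rw [← h1SMap_polyHom]
    apply Subtype.ext
    exact H1Map_eq_zero_of_hom_eq_zero (polyHom lam (φ * φ')) hann _
  refine ⟨fun z z' hzz' => ?_, ?_⟩
  · rw [← h1 z, ← h1 z', hzz']
  · apply le_antisymm
    · rintro _ ⟨z, rfl⟩
      rw [LinearMap.mem_ker]
      have hz : h1SMap S ι z = aeval (h1SMap S lam) (v * φ') (h1SMap S ι z) := by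
        rw [← h2, h1]
      rw [hz, ← Module.End.mul_apply, ← map_mul]
      have h4 : φ * (v * φ') = v * (φ * φ') := by ring
      rw [h4, map_mul, Module.End.mul_apply, h3, map_zero]
    · intro y hy
      rw [LinearMap.mem_ker] at hy
      refine ⟨h1SMap S π y, ?_⟩
      rw [h2]
      have h5 : aeval (h1SMap S lam) (u * φ + v * φ') y = y := by
        rw [huv, map_one, Module.End.one_apply]
      rw [map_add, LinearMap.add_apply, map_mul, Module.End.mul_apply, hy, map_zero, zero_add] at h5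
      exact h5

/-- **Retract step, dimension form**: `h¹(G_S, ker φ(λ)) = dim ker φ(H¹(λ))`. -/
theorem finrank_continuousH1S_kernel (lam : P ⟶ P) (φ φ' : Polynomial k) (hcop : IsCoprime φ φ')
    (hann : ∀ x : P, aeval lam.hom.toLinearMap (φ * φ') x = 0)
    (ι : X ⟶ P) (hι : Function.Injective ι.hom)
    (hrange : ∀ e : P, (∃ x, ι.hom x = e) ↔ aeval lam.hom.toLinearMap φ e = 0) :
    Module.finrank k ↥(continuousH1S S X) =
      Module.finrank k ↥(LinearMap.ker (aeval (h1SMap S lam) φ)) := by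
  obtain ⟨hinj, hr⟩ := h1SMap_kernel S lam φ φ' hcop hann ι hι hrange
  rw [← hr]
  exact (LinearEquiv.ofInjective (h1SMap S ι) hinj).finrank_eq

end RetractField

/-! ## Part 9: (H1a) and (H1a)+(H1b) for `P = indRep p K`, `λ = ` left translation by `σ` -/

section H1a

open Fermat.Agent.S55.helper3071 Fermat.Agent.S55.helper324 Fermat.Agent.S55.helper9292
  Fermat.Agent.S55.helper9763 Fermat.Agent.Lib.helper54 ExtCitation Polynomial TensorProduct
open scoped NumberField

attribute [local instance] numberField_intermediate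

local notation "Qbar" => AlgebraicClosure ℚ

variable {S : Finset Nat.Primes} {p : ℕ} [Fact p.Prime] {K : IntermediateField ℚ Qbar}
  [hn : K.fixingSubgroup.Normal]

/-- `galH1Act σ` is the map induced on `H¹(G_S, -)` by `leftTr σ`. -/
lemma galH1Act_toLinearMap (W : Type) [AddCommGroup W] [Module (ZMod p) W] (σ : GQ) :
    (galH1Act S p K W σ).toLinearMap = h1SMap S (leftTr K.fixingSubgroup W σ) :=
  LinearMap.ext fun _ => Subtype.ext rfl

/-- **(H1a) RETRACT.**  `K/ℚ` normal, `σ ^ n ∈ G_K`, `p ∤ n`, `φ φ' = X ^ n - 1` over `𝔽_p`,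
and `ι : Y ⟶ indRep p K` ANY model of the kernel sub-representation `ker φ(λ_σ)` with its
inclusion.  Then `h¹(G_S, Y) = dim ker φ(H¹(λ_σ))`.
(The left side is `helper2945.h1 S Y` by definition.) -/
theorem h1_kernel_eq_kd (σ : GQ) {n : ℕ} (hσn : σ ^ n ∈ K.fixingSubgroup) (hpn : ¬ p ∣ n)
    (φ φ' : Polynomial (ZMod p)) (hφ : φ * φ' = X ^ n - 1)
    {Y : Rep (ZMod p) GQ} (ι : Y ⟶ indRep p K) (hι : Function.Injective ι.hom)
    (hrange : ∀ e : indRep p K, (∃ x, ι.hom x = e) ↔
      aeval (leftTr K.fixingSubgroup (ZMod p) σ).hom.toLinearMap φ e = 0) :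
    Module.finrank (ZMod p) ↥(continuousH1S S Y) =
      Module.finrank (ZMod p) ↥(LinearMap.ker
        (aeval (galH1Act S p K (ZMod p) σ).toLinearMap φ)) := by
  have hsep : (X ^ n - C (1 : ZMod p)).Separable :=
    separable_X_pow_sub_C' p n 1 hpn one_ne_zero
  rw [map_one, ← hφ] at hsep
  rw [galH1Act_toLinearMap]
  refine finrank_continuousH1S_kernel S (leftTr K.fixingSubgroup (ZMod p) σ) φ φ' hsep.isCoprime
    ?_ ι hι hrange
  intro x
  rw [hφ]
  exact aeval_leftTr_X_pow_sub_one hσn x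

variable [FiniteDimensional ℚ K]

/-- **(H1a)+(H1b): the equivariant Kummer lower bound for the kernel sub-representation.**
`dim ker φ(ω(σ)⁻¹ • T | A/p) ≤ h¹(G_S, ker φ(λ_σ))` for every `σ`-equivariant Kummer datum
`(A, j, T)` (see `kd_le_kd_H1`) and every model `ι : Y ⟶ indRep p K` of `ker φ(λ_σ)`. -/
theorem kd_le_h1_kernel (h : IsSFieldZeta S p K) (σ : GQ) {n : ℕ}
    (hσn : σ ^ n ∈ K.fixingSubgroup) (hpn : ¬ p ∣ n)
    (φ φ' : Polynomial (ZMod p)) (hφ : φ * φ' = X ^ n - 1)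
    {Y : Rep (ZMod p) GQ} (ι : Y ⟶ indRep p K) (hι : Function.Injective ι.hom)
    (hrange : ∀ e : indRep p K, (∃ x, ι.hom x = e) ↔
      aeval (leftTr K.fixingSubgroup (ZMod p) σ).hom.toLinearMap φ e = 0)
    {A : Type*} [AddCommGroup A] (j : A →+ Additive (↥K)ˣ)
    (hj : ∀ x, Additive.toMul (j x) ∈
      kumS (𝓞 K) K (SF K S : Set (IsDedekindDomain.HeightOneSpectrum (𝓞 K))) p)
    (hjp : ∀ x, Additive.toMul (j x) ∈ powSub (↥K)ˣ p → ∃ y, x = p • y)
    (T : A →+ A)
    (hT : ∀ x, (((Additive.toMul (j (T x)) : (↥K)ˣ) : ↥K) : Qbar)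
      = σ (((Additive.toMul (j x) : (↥K)ˣ) : ↥K) : Qbar)) :
    Module.finrank (ZMod p) (LinearMap.ker (aeval
        ((((cycloChar p σ)⁻¹ : (ZMod p)ˣ) : ZMod p) • T.toIntLinearMap.baseChange (ZMod p)) φ))
      ≤ Module.finrank (ZMod p) ↥(continuousH1S S Y) := by
  rw [h1_kernel_eq_kd σ hσn hpn φ φ' hφ ι hι hrange]
  exact kd_le_kd_H1 h σ j hj hjp T hT φ

end H1a

/-! ## Part 10: the `S`-unit instance of the Kummer datum `(A, j)` -/

section SUnitInstance

open Fermat.Agent.S55.helper3071 Fermat.Agent.S55.helper324 Fermat.Agent.S55.helper9292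
  Fermat.Agent.S14.helper2613 Fermat.Agent.Lib.helper54 ExtCitation Polynomial TensorProduct
open scoped NumberField

attribute [local instance] numberField_intermediate

local notation "Qbar" => AlgebraicClosure ℚ

variable (S : Finset Nat.Primes) {p : ℕ} [Fact p.Prime] (K : IntermediateField ℚ Qbar)
  [FiniteDimensional ℚ K]

/-- The inclusion of the `S`-units of `K` (S14 carrier `SUnits ↥K (SF K S)` = Mathlib's
`Set.unit`) into `Kˣ`, additively. -/
def sUnitIncl : Additive ↥(SUnits ↥K (SF K S)) →+ Additive (↥K)ˣ :=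
  MonoidHom.toAdditive (SUnits ↥K (SF K S)).subtype

@[simp] lemma toMul_sUnitIncl (x : Additive ↥(SUnits ↥K (SF K S))) :
    Additive.toMul (sUnitIncl S K x) = ((Additive.toMul x : ↥(SUnits ↥K (SF K S))) : (↥K)ˣ) := rfl

variable {S K}

omit [Fact p.Prime] in
/-- `S`-units lie in the `S`-Kummer group. -/
theorem sUnitIncl_mem_kumS (x : Additive ↥(SUnits ↥K (SF K S))) :
    Additive.toMul (sUnitIncl S K x) ∈
      kumS (𝓞 K) K (SF K S : Set (IsDedekindDomain.HeightOneSpectrum (𝓞 K))) p := by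
  rw [mem_kumS_iff_ordAt]
  intro v hv
  rw [toMul_sUnitIncl, mem_SUnits_iff_ordAt.1 (Additive.toMul x).2 v hv]
  exact dvd_zero _

/-- An `S`-unit which is a `p`-th power in `Kˣ` is a `p`-th power of an `S`-unit. -/
theorem sUnitIncl_pow (x : Additive ↥(SUnits ↥K (SF K S)))
    (hx : Additive.toMul (sUnitIncl S K x) ∈ powSub (↥K)ˣ p) : ∃ y, x = p • y := by
  obtain ⟨b, hb⟩ := mem_powSub.1 hx
  have hbS : b ∈ SUnits ↥K (SF K S) := by
    rw [mem_SUnits_iff_ordAt]
    intro v hv
    have h1 := ordAt_pow v b p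
    rw [hb, toMul_sUnitIncl, mem_SUnits_iff_ordAt.1 (Additive.toMul x).2 v hv] at h1
    have hp0 : (p : ℤ) ≠ 0 := by exact_mod_cast (Fact.out : p.Prime).ne_zero
    rcases mul_eq_zero.mp h1.symm with h0 | h0
    · exact absurd h0 hp0
    · exact h0
  refine ⟨Additive.ofMul ⟨b, hbS⟩, ?_⟩
  apply Additive.toMul.injective
  apply Subtype.ext
  rw [toMul_nsmul, toMul_ofMul]
  exact hb.symm

variable [hn : K.fixingSubgroup.Normal]

omit [Fact p.Prime] [FiniteDimensional ℚ K] in
/-- `K/ℚ` is a normal extension when `Gal(ℚ̄/K)` is a normal subgroup. -/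
theorem normal_of_fixingSubgroup_normal : Normal ℚ ↥K := by
  have : Algebra.IsAlgebraic ℚ Qbar := AlgebraicClosure.isAlgebraic ℚ
  have : IsAlgClosure ℚ Qbar := ⟨inferInstance, inferInstance⟩
  have : Normal ℚ Qbar := IsAlgClosure.normal ℚ Qbar
  have : IsGalois ℚ Qbar := inferInstance
  have hgal : IsGalois ℚ ↥K := (InfiniteGalois.normal_iff_isGalois K).1 hn
  infer_instance

variable (K) in
/-- The restriction `G_ℚ → Gal(K/ℚ)` for `K/ℚ` normal (`Gal(ℚ̄/K)` a normal subgroup). -/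
def galRes : GQ →* (↥K ≃ₐ[ℚ] ↥K) :=
  haveI : Normal ℚ ↥K := normal_of_fixingSubgroup_normal
  AlgEquiv.restrictNormalHom ↥K

omit [Fact p.Prime] [FiniteDimensional ℚ K] in
lemma galRes_coe (σ : GQ) (x : ↥K) : ((galRes K σ x : ↥K) : Qbar) = σ (x : Qbar) :=
  @AlgEquiv.restrictNormalHom_apply ℚ _ Qbar _ _ K normal_of_fixingSubgroup_normal σ x

/-- **(H1a)+(H1b) for the `S`-units.**  `T` is the action of `σ` on the `S`-units of `K`
(any additive endomorphism of `Additive (SUnits ↥K (SF K S))` inducing `σ` on elements). -/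
theorem kd_sUnits_le_h1_kernel (h : IsSFieldZeta S p K) (σ : GQ) {n : ℕ}
    (hσn : σ ^ n ∈ K.fixingSubgroup) (hpn : ¬ p ∣ n)
    (φ φ' : Polynomial (ZMod p)) (hφ : φ * φ' = X ^ n - 1)
    {Y : Rep (ZMod p) GQ} (ι : Y ⟶ indRep p K) (hι : Function.Injective ι.hom)
    (hrange : ∀ e : indRep p K, (∃ x, ι.hom x = e) ↔
      aeval (leftTr K.fixingSubgroup (ZMod p) σ).hom.toLinearMap φ e = 0)
    (T : Additive ↥(SUnits ↥K (SF K S)) →+ Additive ↥(SUnits ↥K (SF K S)))
    (hT : ∀ x : Additive ↥(SUnits ↥K (SF K S)),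
      ((((Additive.toMul (T x) : ↥(SUnits ↥K (SF K S))) : (↥K)ˣ) : ↥K) : Qbar)
        = σ ((((Additive.toMul x : ↥(SUnits ↥K (SF K S))) : (↥K)ˣ) : ↥K) : Qbar)) :
    Module.finrank (ZMod p) (LinearMap.ker (aeval
        ((((cycloChar p σ)⁻¹ : (ZMod p)ˣ) : ZMod p) • T.toIntLinearMap.baseChange (ZMod p)) φ))
      ≤ Module.finrank (ZMod p) ↥(continuousH1S S Y) :=
  kd_le_h1_kernel h σ hσn hpn φ φ' hφ ι hι hrange (sUnitIncl S K) sUnitIncl_mem_kumS
    sUnitIncl_pow T hT

end SUnitInstance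

end Fermat.Agent.S56.helper7860
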