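/-
S56 (Taylor–Wiles primes), global chain, node TATE-T1-H1 — BACKUP ASSEMBLY (helper55).

`stmt_H1 : helper9859.Stmt_H1`, the arithmetic heart of the cyclic core of Tate's formula, from
the compiled owner surfaces, by pure hypothesis passing:

* helper7860 `kd_sUnits_le_h1_kernel`   (equivariant Kummer lower bound, `S`-units of `K`);
* helper7407 `herbrand_places_le`       (Dirichlet–Herbrand, operator form, with the `μ_p` line);
* helper4713 `finrank_ker_aeval_places` (places of `K` ↔ double cosets `U \ G_ℚ / D`).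

No new mathematics here: only the dictionary between the carriers.
-/
import Mathlib
import Fermat.Agent.S55.helper4145_Decomp
import Fermat.Agent.S56.helper9859_TateCycSpec
import Fermat.Agent.S56.helper7860_EquivKummer
import Fermat.Agent.S56.helper7407_UnitOpNF
import Fermat.Agent.S56.helper4713_PlaceDict

set_option autoImplicit false

namespace Fermat.Agent.S56.helper55

open CategoryTheory Module Polynomial ExtCitation IsDedekindDomain NumberField
open Fermat.Agent.S55
open Fermat.Agent.S55.helper3071 hiding GQ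
open Fermat.Agent.S55.helper2945 hiding GQ
open Fermat.Agent.S55.helper9292 (SF mem_SF)
open Fermat.Agent.Lib.helper54 (numberField_intermediate)
open Fermat.Agent.S56.helper9859

attribute [local instance] numberField_intermediate

local notation "Qb" => AlgebraicClosure ℚ
local notation "GQ" => (AlgebraicClosure ℚ ≃ₐ[ℚ] AlgebraicClosure ℚ)

noncomputable section

/-! ## 1. Carrier dictionary for the Spec operators -/

section Dict

variable (K : IntermediateField ℚ Qb) [hN : K.fixingSubgroup.Normal] (σ : GQ) (D : Subgroup GQ)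

/-- The Spec's shift on `U \ G_ℚ / D` is the inverse of PLACEDICT's left translation. -/
lemma dcShift_eq :
    dcShift K σ D = ⇑(helper4713.dcMulLeftPerm K.fixingSubgroup D σ).symm := by
  funext x
  induction x using Quotient.inductionOn with
  | _ g => rfl

/-- The Spec's `kd φ (dcOp ..)` in PLACEDICT's shape. -/
lemma kd_dcOp (p : ℕ) [Fact p.Prime] (φ : (ZMod p)[X]) :
    kd φ (dcOp K σ D p) =
      finrank (ZMod p) (LinearMap.ker (aeval (twist σ p • LinearMap.funLeft (ZMod p) (ZMod p)
        ⇑(helper4713.dcMulLeftPerm K.fixingSubgroup D σ).symm) φ)) := by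
  unfold kd dcOp dcPerm
  rw [dcShift_eq]

end Dict

/-- `rootInd` with any decidability instance. -/
lemma rootInd_eq {k : Type*} [Field k] (φ : k[X]) (a : k) [Decidable (φ.eval a = 0)] :
    rootInd φ a = if φ.eval a = 0 then 1 else 0 := by
  unfold rootInd
  split_ifs <;> rfl

/-! ## 2. The number field side -/

section Field

variable {S : Finset Nat.Primes} {p : ℕ} [Fact p.Prime] {K : IntermediateField ℚ Qb}
  [FiniteDimensional ℚ K] [hN : K.fixingSubgroup.Normal]

omit hN in
/-- The primes of `𝓞 K` over `S` are stable under `Gal(K/ℚ)`. -/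
lemma finAct_mem_SF (g : ↥K ≃ₐ[ℚ] ↥K) (v : HeightOneSpectrum (𝓞 ↥K)) (hv : v ∈ SF K S) :
    helper4029.finAct g v ∈ SF K S := by
  rw [mem_SF] at hv ⊢
  obtain ⟨q, hq, hqv⟩ := hv
  refine ⟨q, hq, ?_⟩
  rw [helper4029.finAct_asIdeal]
  have h1 : (((q : Nat.Primes) : ℕ) : 𝓞 ↥K) = g • (((q : Nat.Primes) : ℕ) : 𝓞 ↥K) :=
    (map_natCast (MulSemiringAction.toRingHom (↥K ≃ₐ[ℚ] ↥K) (𝓞 ↥K) g) _).symm
  rw [h1]
  exact Ideal.smul_mem_pointwise_smul _ _ _ hqv

omit [FiniteDimensional ℚ K] in
/-- `galRes K σ` has order dividing `n` when `σ ^ n ∈ Gal(ℚ̄/K)`. -/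
lemma galRes_pow_eq_one (σ : GQ) {n : ℕ} (h : σ ^ n ∈ K.fixingSubgroup) :
    helper7860.galRes K σ ^ n = 1 := by
  rw [← map_pow]
  apply AlgEquiv.ext
  intro x
  apply Subtype.ext
  rw [helper7860.galRes_coe]
  exact (IntermediateField.mem_fixingSubgroup_iff K (σ ^ n)).1 h x x.2

end Field

/-! ## 3. The assembly -/

section Assembly

variable {S : Finset Nat.Primes} {p : ℕ} [Fact p.Prime] {K : IntermediateField ℚ Qb}
  [hN : K.fixingSubgroup.Normal] {σ : GQ}

/-- The Spec's `kd φ (dcOp ..)` in PLACEDICT's shape, for any presentation of the subgroup. -/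
lemma kd_dcOp' {D D' : Subgroup GQ} (hD : D = D') (φ : (ZMod p)[X]) :
    kd φ (dcOp K σ D p) =
      finrank (ZMod p) (LinearMap.ker (aeval (twist σ p • LinearMap.funLeft (ZMod p) (ZMod p)
        ⇑(helper4713.dcMulLeftPerm K.fixingSubgroup D' σ).symm) φ)) := by
  subst hD
  exact kd_dcOp K σ D p φ

/-- `lam` of the Spec is `leftTr` of the Kummer file. -/
lemma endOf_lam :
    (helper7860.leftTr K.fixingSubgroup (ZMod p) σ).hom.toLinearMap =
      endOf (indRep p K) (lam p K σ) := by
  apply LinearMap.ext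
  intro f
  rfl

/-- **(H1), the arithmetic heart of the cyclic core** — `helper9859.Stmt_H1`. -/
theorem stmt_H1 : Stmt_H1 := by
  intro S p _ K _ σ n h φ hφ
  have : FiniteDimensional ℚ K := h.unram.1
  obtain ⟨ψ, hψ⟩ := hφ
  obtain ⟨ζ, hζK, hζ⟩ := h.zeta
  -- the Galois group of `K/ℚ` and the image of `σ`
  have hγ : ∀ x : ↥K, ((helper7860.galRes K σ • x : ↥K) : Qb) = σ (x : Qb) :=
    fun x => helper7860.galRes_coe σ x
  have hg : helper7860.galRes K σ ^ n = 1 := galRes_pow_eq_one σ h.pow
  have hS : ∀ (g : ↥K ≃ₐ[ℚ] ↥K), ∀ v ∈ SF K S, helper4029.finAct g v ∈ SF K S :=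
    fun g v hv => finAct_mem_SF g v hv
  -- the root of unity inside `K` and the cyclotomic character
  have hζ' : IsPrimitiveRoot (⟨ζ, hζK⟩ : ↥K) p :=
    IsPrimitiveRoot.of_map_of_injective (f := algebraMap ↥K Qb) hζ (algebraMap ↥K Qb).injective
  have hz : helper7860.galRes K σ • (⟨ζ, hζK⟩ : ↥K) =
      (⟨ζ, hζK⟩ : ↥K) ^ ((((cycloChar p σ : (ZMod p)ˣ) : ZMod p).val : ℕ) : ℤ) := by
    apply Subtype.ext
    rw [hγ, zpow_natCast]
    exact helper7860.cycloChar_spec σ hζ.pow_eq_one
  have haz : twist σ p * (((((cycloChar p σ : (ZMod p)ˣ) : ZMod p).val : ℕ) : ℤ) : ZMod p) = 1 := by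
    unfold twist
    rw [Int.cast_natCast, ZMod.natCast_val, ZMod.cast_id', id, Units.inv_mul]
  -- the three inputs
  have e1 : finrank (ZMod p) (LinearMap.ker (aeval (twist σ p • LinearMap.funLeft (ZMod p) (ZMod p)
        ⇑(helper4029.placePerm hS (helper7860.galRes K σ)).symm) φ)) =
      finrank (ZMod p) (LinearMap.ker (aeval (twist σ p • LinearMap.funLeft (ZMod p) (ZMod p)
        ⇑(helper4713.dcMulLeftPerm K.fixingSubgroup ExtCitation.archimedeanDecomposition σ).symm)
          φ)) +
      ∑ q ∈ S, finrank (ZMod p) (LinearMap.ker (aeval (twist σ p •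
        LinearMap.funLeft (ZMod p) (ZMod p) ⇑(helper4713.dcMulLeftPerm K.fixingSubgroup
          ((ExtCitation.primeLocalPlace q).decompositionSubgroup ℚ) σ).symm) φ)) :=
    helper4713.finrank_ker_aeval_places K S (SF K S) (fun v => mem_SF)
      (helper7860.galRes K σ) σ hγ
      (helper4029.infEquiv (helper7860.galRes K σ)) (fun _ => rfl)
      (helper4029.finEquivS hS (helper7860.galRes K σ)) (fun _ => rfl) (twist σ p) φ
  have e2 := helper7407.herbrand_places_le hS hζ' (helper7860.galRes K σ) h.pos hg h.cop _ hz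
    (twist σ p) haz φ
  have hrange : ∀ e : indRep p K, (∃ x, (kerIncl (indRep p K) (lam p K σ) φ).hom x = e) ↔
      aeval (helper7860.leftTr K.fixingSubgroup (ZMod p) σ).hom.toLinearMap φ e = 0 := by
    intro e
    rw [endOf_lam]
    constructor
    · rintro ⟨x, rfl⟩
      exact (mem_kerSub (indRep p K) (lam p K σ) φ _).1 x.2
    · intro he
      exact ⟨⟨e, (mem_kerSub (indRep p K) (lam p K σ) φ e).2 he⟩, rfl⟩
  have e3 : finrank (ZMod p) (LinearMap.ker (aeval
        (twist σ p • (helper4029.sLin hS (helper7860.galRes K σ)).baseChange (ZMod p)) φ)) ≤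
      h1 S (kap p K σ φ) :=
    helper7860.kd_sUnits_le_h1_kernel h.isSFieldZeta σ h.pow h.cop φ ψ hψ.symm
      (kerIncl (indRep p K) (lam p K σ) φ) (kerIncl_injective _ _ φ) hrange
      (helper4029.sActAdd hS (helper7860.galRes K σ)) (fun x => hγ _)
  -- the Spec's operators
  have d1 : kd φ (dcOp K σ decInf p) = _ := kd_dcOp' (K := K) (σ := σ) (D := decInf)
    (D' := ExtCitation.archimedeanDecomposition) rfl φ
  have d2 : ∑ q ∈ S, kd φ (dcOp K σ (decQ q) p) = _ := Finset.sum_congr rfl
    (fun q _ => kd_dcOp' (K := K) (σ := σ) (helper4145.primeLocalToGlobal_range q) φ)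
  rw [d1, d2, rootInd_eq φ 1, rootInd_eq φ (twist σ p)]
  omega

end Assembly

end

end Fermat.Agent.S56.helper55
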