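/-
S56, FLAT-LOCAL, irreducible case at `p` (node FLAT-N2-ASM, backup copy).  Author: helper6022.

Abstract core of the end-game assembly, Mathlib only:

* `cobOn ρ D` : the coboundary map `X ↦ (σ ↦ ρ σ X ρ σ⁻¹ - X)` on a subgroup `D`.
* `IsCocOn ρ D c` : the cocycle identity on `D` for the adjoint action.
* `IsCocOn.mem_range_cobOn` : INFLATION-RESTRICTION by averaging.  If the image of `D` is finite
  of order invertible in `k`, a cocycle vanishing on the kernel of `ρ` on `D` is a coboundary.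
* `IsCocOn.eq_zero_of_vanish` : a trace-zero cocycle vanishing on a subgroup `J` of the kernel
  which contains all commutators `[g, n]` (`g ∈ D`, `n` in the kernel) vanishes on the kernel,
  if the commutant of `ρ(D)` is reduced to the scalars (`dim V = 2`, `2 ≠ 0`).
* `exists_smul_sub_mem` : linear algebra over a finite field `k` with `p ^ f` elements: if any
  `f + 1` elements of a `k`-subspace `Z` are `𝔽_p`-dependent modulo a subspace `B`, then `Z` has
  dimension at most one modulo `B`.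
* `finrank_range_cobOn_sup_le` : the assembly: `dim (B¹ ⊔ Z) ≤ dim B¹ + 1`.
-/
import Mathlib

set_option autoImplicit false
set_option linter.style.haveILetI false

namespace Fermat.Agent.S56.helper6022

open Module

section Cocycles

variable {k : Type*} [Field k] {V : Type*} [AddCommGroup V] [Module k V]
  {G : Type*} [Group G] (ρ : G →* Module.End k V) (D : Subgroup G)

theorem rho_mul_rho_inv (g : G) : ρ g * ρ g⁻¹ = 1 := by
  rw [← map_mul, mul_inv_cancel, map_one]

theorem rho_inv_mul_rho (g : G) : ρ g⁻¹ * ρ g = 1 := by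
  rw [← map_mul, inv_mul_cancel, map_one]

/-- The coboundary `σ ↦ ρ σ X ρ σ⁻¹ - X` on the subgroup `D`, as a `k`-linear map in `X`. -/
def cobOn : Module.End k V →ₗ[k] (↥D → Module.End k V) where
  toFun X := fun σ => ρ (σ : G) * X * ρ (σ : G)⁻¹ - X
  map_add' X Y := by
    funext σ
    simp only [Pi.add_apply, mul_add, add_mul]
    abel
  map_smul' a X := by
    funext σ
    simp only [Pi.smul_apply, RingHom.id_apply, mul_smul_comm, smul_mul_assoc, smul_sub]

@[simp] theorem cobOn_apply (X : Module.End k V) (σ : ↥D) :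
    cobOn ρ D X σ = ρ (σ : G) * X * ρ (σ : G)⁻¹ - X := rfl

/-- The cocycle identity on `D` for the adjoint action of `ρ`. -/
def IsCocOn (c : ↥D → Module.End k V) : Prop :=
  ∀ σ τ : ↥D, c (σ * τ) = c σ + ρ (σ : G) * c τ * ρ (σ : G)⁻¹

variable {ρ D}

theorem IsCocOn.add {c c' : ↥D → Module.End k V} (hc : IsCocOn ρ D c) (hc' : IsCocOn ρ D c') :
    IsCocOn ρ D (c + c') := by
  intro σ τ
  simp only [Pi.add_apply, hc σ τ, hc' σ τ, mul_add, add_mul]
  abel

theorem IsCocOn.smul {c : ↥D → Module.End k V} (hc : IsCocOn ρ D c) (a : k) :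
    IsCocOn ρ D (a • c) := by
  intro σ τ
  simp only [Pi.smul_apply, hc σ τ, smul_add, mul_smul_comm, smul_mul_assoc]

theorem IsCocOn.map_one {c : ↥D → Module.End k V} (hc : IsCocOn ρ D c) : c 1 = 0 := by
  have h := hc 1 1
  rw [mul_one, Subgroup.coe_one, _root_.map_one, inv_one, _root_.map_one, one_mul, mul_one] at h
  exact left_eq_add.mp h

/-- On the kernel of `ρ`, a cocycle is conjugation-equivariant. -/
theorem IsCocOn.conj {c : ↥D → Module.End k V} (hc : IsCocOn ρ D c) (g n : ↥D)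
    (hn : ρ (n : G) = 1) :
    c (g * n * g⁻¹) = ρ (g : G) * c n * ρ (g : G)⁻¹ := by
  have hn' : ρ (n : G)⁻¹ = 1 := by
    have h := rho_inv_mul_rho ρ (n : G)
    rwa [hn, mul_one] at h
  have h1 : c (g * g⁻¹) = c g + ρ (g : G) * c g⁻¹ * ρ (g : G)⁻¹ := hc g g⁻¹
  rw [mul_inv_cancel, hc.map_one] at h1
  have h2 : c (n * g⁻¹) = c n + c g⁻¹ := by
    rw [hc n g⁻¹, hn, hn', one_mul, mul_one]
  rw [mul_assoc, hc g (n * g⁻¹), h2, mul_add, add_mul, add_comm (ρ (g : G) * c n * ρ (g : G)⁻¹),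
    ← add_assoc, ← h1, zero_add]

/-- **Inflation–restriction by averaging.**  If the image of `D` under `ρ` is finite of order
invertible in `k`, then a cocycle on `D` vanishing on the kernel of `ρ` is a coboundary. -/
theorem IsCocOn.mem_range_cobOn [Finite (↥D ⧸ (ρ.comp D.subtype).ker)]
    (hcard : (Nat.card (↥D ⧸ (ρ.comp D.subtype).ker) : k) ≠ 0)
    {c : ↥D → Module.End k V} (hc : IsCocOn ρ D c)
    (hker : ∀ n : ↥D, ρ (n : G) = 1 → c n = 0) :
    c ∈ LinearMap.range (cobOn ρ D) := by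
  classical
  set N : Subgroup ↥D := (ρ.comp D.subtype).ker with hN
  haveI : Fintype (↥D ⧸ N) := Fintype.ofFinite _
  have hmem : ∀ n : ↥D, n ∈ N → ρ (n : G) = 1 := fun n hn => by
    rw [hN, MonoidHom.mem_ker] at hn
    exact hn
  set X : Module.End k V := ∑ q : ↥D ⧸ N, c (Quotient.out q) with hX
  have key : ∀ (σ : ↥D) (q : ↥D ⧸ N),
      c (σ * Quotient.out q) = c (Quotient.out ((σ : ↥D ⧸ N) * q)) := by
    intro σ q
    set a : ↥D := Quotient.out ((σ : ↥D ⧸ N) * q) with ha
    have h1 : ((a : ↥D) : ↥D ⧸ N) = ((σ * Quotient.out q : ↥D) : ↥D ⧸ N) := by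
      rw [ha, QuotientGroup.out_eq', QuotientGroup.mk_mul, QuotientGroup.out_eq']
    have h2 : a⁻¹ * (σ * Quotient.out q) ∈ N := QuotientGroup.eq.1 h1
    have h3 : σ * Quotient.out q = a * (a⁻¹ * (σ * Quotient.out q)) := by group
    rw [h3, hc, hker _ (hmem _ h2), mul_zero, zero_mul, add_zero]
  have hsum : ∀ σ : ↥D,
      (Nat.card (↥D ⧸ N)) • c σ + ρ (σ : G) * X * ρ (σ : G)⁻¹ = X := by
    intro σ
    have e1 : ∑ q : ↥D ⧸ N, c (σ * Quotient.out q) = X := by
      rw [hX, Finset.sum_congr rfl (fun q _ => key σ q)]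
      exact Fintype.sum_equiv (Equiv.mulLeft (σ : ↥D ⧸ N)) _ _ (fun q => rfl)
    have e2 : ∑ q : ↥D ⧸ N, c (σ * Quotient.out q)
        = (Nat.card (↥D ⧸ N)) • c σ + ρ (σ : G) * X * ρ (σ : G)⁻¹ := by
      have e0 : ∀ q : ↥D ⧸ N, c (σ * Quotient.out q)
          = c σ + ρ (σ : G) * c (Quotient.out q) * ρ (σ : G)⁻¹ := fun q => hc σ _
      rw [Finset.sum_congr rfl (fun q _ => e0 q), Finset.sum_add_distrib,
        Finset.sum_const, Finset.card_univ, ← Nat.card_eq_fintype_card, hX, Finset.mul_sum,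
        Finset.sum_mul]
    rw [← e2, e1]
  refine ⟨-((Nat.card (↥D ⧸ N) : k)⁻¹ • X), ?_⟩
  funext σ
  have h' : (Nat.card (↥D ⧸ N) : k) • c σ = X - ρ (σ : G) * X * ρ (σ : G)⁻¹ := by
    rw [Nat.cast_smul_eq_nsmul]
    exact eq_sub_of_add_eq (hsum σ)
  rw [cobOn_apply]
  simp only [mul_neg, neg_mul, mul_smul_comm, smul_mul_assoc, sub_neg_eq_add]
  rw [neg_add_eq_sub, ← smul_sub, ← h', smul_smul, inv_mul_cancel₀ hcard, one_smul]

/-- A trace-zero cocycle on `D` which vanishes on a subgroup `J` containing all commutators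
`g n g⁻¹ n⁻¹` (`g ∈ D`, `n ∈ D` in the kernel of `ρ`) and on which `ρ` is trivial, vanishes on the
kernel of `ρ`, provided the commutant of `ρ(D)` consists of scalars, `dim V = 2` and `2 ≠ 0`. -/
theorem IsCocOn.eq_zero_of_vanish (hV : Module.finrank k V = 2) (h2 : (2 : k) ≠ 0)
    (J : Subgroup G) (hJρ : ∀ σ ∈ J, ρ σ = 1)
    (hcomm : ∀ g n : ↥D, ρ (n : G) = 1 → ((g : G) * n * (g : G)⁻¹ * (n : G)⁻¹) ∈ J)
    (hcent : ∀ X : Module.End k V, (∀ g ∈ D, ρ g * X = X * ρ g) → ∃ a : k, X = a • 1)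
    {c : ↥D → Module.End k V} (hc : IsCocOn ρ D c)
    (htr : ∀ σ, LinearMap.trace k V (c σ) = 0)
    (hJ : ∀ σ : ↥D, (σ : G) ∈ J → c σ = 0)
    (n : ↥D) (hn : ρ (n : G) = 1) : c n = 0 := by
  have hfix : ∀ g ∈ D, ρ g * c n = c n * ρ g := by
    intro g hg
    set g' : ↥D := ⟨g, hg⟩ with hg'
    set j : ↥D := g' * n * g'⁻¹ * n⁻¹ with hj
    have hjJ : (j : G) ∈ J := by
      have := hcomm g' n hn
      simpa [hj, hg'] using this
    have hjρ : ρ (j : G) = 1 := hJρ _ hjJ
    have hjρ' : ρ (j : G)⁻¹ = 1 := by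
      have h := rho_inv_mul_rho ρ (j : G)
      rwa [hjρ, mul_one] at h
    have e1 : g' * n * g'⁻¹ = j * n := by rw [hj]; group
    have e2 : c (j * n) = c n := by
      rw [hc j n, hJ j hjJ, zero_add, hjρ, hjρ', one_mul, mul_one]
    have e3 : ρ g * c n * ρ g⁻¹ = c n := by
      have := hc.conj g' n hn
      rw [e1, e2] at this
      exact this.symm
    calc ρ g * c n = ρ g * c n * (ρ g⁻¹ * ρ g) := by rw [rho_inv_mul_rho, mul_one]
      _ = (ρ g * c n * ρ g⁻¹) * ρ g := by simp only [mul_assoc]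
      _ = c n * ρ g := by rw [e3]
  obtain ⟨a, ha⟩ := hcent (c n) hfix
  haveI : Module.Finite k V := Module.finite_of_finrank_pos (by rw [hV]; norm_num)
  have h3 := htr n
  rw [ha, map_smul, LinearMap.trace_one, hV, smul_eq_mul] at h3
  have ha0 : a = 0 := by
    rcases mul_eq_zero.1 h3 with h | h
    · exact h
    · exact absurd (by exact_mod_cast h) h2
  rw [ha, ha0, zero_smul]

end Cocycles

section LinearAlgebra

/-- **Dimension one from `𝔽_p`-dependence.**  `k` a finite field with `p ^ f` elements, `Z` and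
`B` subspaces of a `k`-vector space.  If any `f + 1` elements of `Z` have a combination with
natural coefficients, not all divisible by `p`, lying in `B`, then for `c₀ ∈ Z` outside `B`
every `c ∈ Z` is a `k`-multiple of `c₀` modulo `B`. -/
theorem exists_smul_sub_mem {p : ℕ} [Fact p.Prime] {k : Type*} [Field k] [CharP k p] [Finite k]
    {f : ℕ} (hf : Nat.card k = p ^ f)
    {M : Type*} [AddCommGroup M] [Module k M] (B Z : Submodule k M)
    (hdep : ∀ v : Fin (f + 1) → M, (∀ i, v i ∈ Z) →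
      ∃ n : Fin (f + 1) → ℕ, (∃ i, ¬ p ∣ n i) ∧ ∑ i, n i • v i ∈ B)
    {c₀ : M} (hc₀ : c₀ ∈ Z) (hc₀B : c₀ ∉ B) {c : M} (hc : c ∈ Z) :
    ∃ a : k, c - a • c₀ ∈ B := by
  classical
  have hp : p.Prime := Fact.out
  letI : Algebra (ZMod p) k := ZMod.algebra k p
  haveI : Module.Finite (ZMod p) k := Module.Finite.of_finite
  have hfin : Module.finrank (ZMod p) k = f := by
    have h := Module.natCard_eq_pow_finrank (K := ZMod p) (V := k)
    rw [Nat.card_zmod, hf] at h
    exact (Nat.pow_right_injective hp.two_le h).symm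
  let b : Basis (Fin f) (ZMod p) k := Module.finBasisOfFinrankEq (ZMod p) k hfin
  have hcast : ∀ m : ℕ, algebraMap (ZMod p) k (m : ZMod p) = (m : k) := fun m => map_natCast _ m
  -- the key independence statement
  have hb : ∀ n : Fin f → ℕ, (∑ i, (n i : k) * b i) = 0 → ∀ i, p ∣ n i := by
    intro n h i
    have h' : ∑ i, ((n i : ℕ) : ZMod p) • b i = 0 := by
      rw [← h]
      refine Finset.sum_congr rfl fun i _ => ?_
      rw [Algebra.smul_def, hcast]
    have := (Fintype.linearIndependent_iff.1 b.linearIndependent) (fun i => ((n i : ℕ) : ZMod p)) h' i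
    exact (ZMod.natCast_eq_zero_iff _ _).1 this
  let v : Fin (f + 1) → M := Fin.lastCases c (fun i => b i • c₀)
  have hv : ∀ i, v i ∈ Z := by
    intro i
    induction i using Fin.lastCases with
    | last => simpa [v] using hc
    | cast i => simpa [v] using Z.smul_mem (b i) hc₀
  obtain ⟨n, ⟨i₀, hi₀⟩, hn⟩ := hdep v hv
  rw [Fin.sum_univ_castSucc] at hn
  have hv1 : v (Fin.last f) = c := by simp [v]
  have hv2 : ∀ i : Fin f, v i.castSucc = b i • c₀ := fun i => by simp [v]
  have hsum : ∑ i : Fin f, n i.castSucc • v i.castSucc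
      = (∑ i : Fin f, (n i.castSucc : k) * b i) • c₀ := by
    rw [Finset.sum_smul]
    refine Finset.sum_congr rfl fun i _ => ?_
    rw [hv2, mul_smul, Nat.cast_smul_eq_nsmul]
  rw [hsum, hv1] at hn
  set β : k := ∑ i : Fin f, (n i.castSucc : k) * b i with hβ
  by_cases hlast : p ∣ n (Fin.last f)
  · -- the last coefficient vanishes: `β • c₀ ∈ B` with `β ≠ 0`
    exfalso
    have h0 : n (Fin.last f) • c = 0 := by
      rw [← Nat.cast_smul_eq_nsmul k, (CharP.cast_eq_zero_iff k p _).2 hlast, zero_smul]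
    rw [h0, add_zero] at hn
    have hβ0 : β ≠ 0 := by
      intro h
      have hall := hb (fun i => n i.castSucc) h
      induction i₀ using Fin.lastCases with
      | last => exact hi₀ hlast
      | cast i => exact hi₀ (hall i)
    have : c₀ ∈ B := by
      have h1 := B.smul_mem β⁻¹ hn
      rwa [smul_smul, inv_mul_cancel₀ hβ0, one_smul] at h1
    exact hc₀B this
  · have hν : (n (Fin.last f) : k) ≠ 0 := fun h => hlast ((CharP.cast_eq_zero_iff k p _).1 h)
    refine ⟨-((n (Fin.last f) : k)⁻¹ * β), ?_⟩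
    have h1 := B.smul_mem (n (Fin.last f) : k)⁻¹ hn
    rw [smul_add, smul_smul, ← Nat.cast_smul_eq_nsmul k, smul_smul, inv_mul_cancel₀ hν,
      one_smul] at h1
    rw [neg_smul, sub_neg_eq_add, add_comm]
    exact h1

end LinearAlgebra

section Assembly

variable {p : ℕ} [Fact p.Prime] {k : Type*} [Field k] [CharP k p] [Finite k]
  {V : Type*} [AddCommGroup V] [Module k V] [Module.Finite k V]
  {G : Type*} [Group G] (ρ : G →* Module.End k V) (D : Subgroup G)

/-- **Abstract end-game.**  `Z` a `k`-space of trace-zero cocycles on `D`; if any `f + 1`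
elements of `Z` (`#k = p ^ f`) have a combination with natural coefficients not all divisible by
`p` which vanishes on `J`, then `B¹ ⊔ Z` is finite-dimensional of dimension at most
`dim B¹ + 1`. -/
theorem finrank_range_cobOn_sup_le (hV : Module.finrank k V = 2) (h2 : (2 : k) ≠ 0)
    [Finite (↥D ⧸ (ρ.comp D.subtype).ker)]
    (hcard : (Nat.card (↥D ⧸ (ρ.comp D.subtype).ker) : k) ≠ 0)
    (J : Subgroup G) (hJρ : ∀ σ ∈ J, ρ σ = 1)
    (hcomm : ∀ g n : ↥D, ρ (n : G) = 1 → ((g : G) * n * (g : G)⁻¹ * (n : G)⁻¹) ∈ J)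
    (hcent : ∀ X : Module.End k V, (∀ g ∈ D, ρ g * X = X * ρ g) → ∃ a : k, X = a • 1)
    {f : ℕ} (hf : Nat.card k = p ^ f)
    (Z : Submodule k (↥D → Module.End k V))
    (hcoc : ∀ c ∈ Z, IsCocOn ρ D c)
    (htr : ∀ c ∈ Z, ∀ σ, LinearMap.trace k V (c σ) = 0)
    (hdep : ∀ c : Fin (f + 1) → ↥D → Module.End k V, (∀ i, c i ∈ Z) →
      ∃ n : Fin (f + 1) → ℕ, (∃ i, ¬ p ∣ n i) ∧
        ∀ σ : ↥D, (σ : G) ∈ J → ∑ i, n i • c i σ = 0) :
    Module.Finite k ↥(LinearMap.range (cobOn ρ D) ⊔ Z) ∧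
      Module.finrank k ↥(LinearMap.range (cobOn ρ D) ⊔ Z)
        ≤ Module.finrank k ↥(LinearMap.range (cobOn ρ D)) + 1 := by
  classical
  set B : Submodule k (↥D → Module.End k V) := LinearMap.range (cobOn ρ D) with hB
  haveI : Module.Finite k ↥B := Module.Finite.range (cobOn ρ D)
  -- elements of `Z` vanishing on `J` are coboundaries
  have hvan : ∀ d ∈ Z, (∀ σ : ↥D, (σ : G) ∈ J → d σ = 0) → d ∈ B := by
    intro d hd hdJ
    refine (hcoc d hd).mem_range_cobOn hcard fun n hn => ?_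
    exact (hcoc d hd).eq_zero_of_vanish hV h2 J hJρ hcomm hcent (htr d hd) hdJ n hn
  -- dependence modulo `B`
  have hdep' : ∀ v : Fin (f + 1) → ↥D → Module.End k V, (∀ i, v i ∈ Z) →
      ∃ n : Fin (f + 1) → ℕ, (∃ i, ¬ p ∣ n i) ∧ ∑ i, n i • v i ∈ B := by
    intro v hv
    obtain ⟨n, hn, hJ⟩ := hdep v hv
    refine ⟨n, hn, hvan _ ?_ ?_⟩
    · refine Z.sum_mem fun i _ => ?_
      rw [← Nat.cast_smul_eq_nsmul k]
      exact Z.smul_mem _ (hv i)
    · intro σ hσ
      rw [Finset.sum_apply]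
      simpa using hJ σ hσ
  by_cases hZB : Z ≤ B
  · rw [sup_eq_left.2 hZB]
    exact ⟨inferInstance, Nat.le_succ _⟩
  · obtain ⟨c₀, hc₀, hc₀B⟩ := SetLike.not_le_iff_exists.1 hZB
    have hle : B ⊔ Z = B ⊔ Submodule.span k {c₀} := by
      apply le_antisymm
      · refine sup_le le_sup_left fun c hc => ?_
        obtain ⟨a, ha⟩ := exists_smul_sub_mem hf B Z hdep' hc₀ hc₀B hc
        have : c = (c - a • c₀) + a • c₀ := by abel
        rw [this]
        exact Submodule.add_mem _ (Submodule.mem_sup_left ha)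
          (Submodule.mem_sup_right (Submodule.smul_mem _ a (Submodule.mem_span_singleton_self c₀)))
      · refine sup_le le_sup_left ?_
        rw [Submodule.span_singleton_le_iff_mem]
        exact Submodule.mem_sup_right hc₀
    rw [hle]
    haveI : Module.Finite k ↥(Submodule.span k {c₀}) :=
      Module.Finite.span_of_finite k (Set.finite_singleton c₀)
    refine ⟨inferInstance, ?_⟩
    have h1 := Submodule.finrank_add_le_finrank_add_finrank B (Submodule.span k {c₀})
    have h2' : Module.finrank k ↥(Submodule.span k {c₀}) ≤ 1 := by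
      have := finrank_span_le_card (R := k) ({c₀} : Set (↥D → Module.End k V))
      simpa using this
    omega

end Assembly

end Fermat.Agent.S56.helper6022
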