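/-
S56, FLAT-LOCAL: the SEAM between the flat tangent bound `FlatTangentAt` (captain's Spec,
`helper6366_FlatSpec`) and the Selmer layer (node SEAM-FLAT, helper6366).

From `FlatTangentAt p ρbar` (a `k`-space `LL` of functions `D_p → End_k V` of dimension `≤ 4`
containing the coboundaries and the cocycles of all flat lifts with cyclotomic determinant) we
produce the `𝔽_p`-space `flatZ p ρbar LL` of level cocycles `D_p → ad0 p ρbar` (the carrier of
the DICT layer, `helper6599.ad0`) on the decomposition group of the LOC-CARRIER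
(`helper6044.decomp (pPrime p)`), with

* `locB1 ≤ flatZ ≤ locZ1`;
* `dim_{𝔽_p} locSub (flatZ) ≤ h⁰(ℚ_p, ad0) + [k : 𝔽_p]`  (the `p`-term of the Greenberg–Wiles
  count in the flat half);
* the restriction to `D_p` of the cocycle of every flat lift with cyclotomic determinant lies in
  `flatZ`.

Main statement: `flat_seam`.
-/
import Mathlib
import Fermat.Agent.S56.helper6366_FlatSpec
import Fermat.Agent.S56.helper6599_Ad0
import Fermat.Agent.S56.helper6044_LocCarrier

set_option autoImplicit false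
set_option linter.style.haveILetI false

noncomputable section

namespace Fermat.Agent.S56.helper6366

open Module ExtCitation groupCohomology
open Fermat.Agent.S56.helper6599

/-- The decomposition group of the Spec is the decomposition group of the LOC-CARRIER. -/
theorem decP_eq_decomp (p : ℕ) [Fact p.Prime] : decP p = helper6044.decomp (pPrime p) := rfl

/-- The identity map from the decomposition group of the Spec to that of the LOC-CARRIER. -/
def toD (p : ℕ) [Fact p.Prime] (σ : ↥(decP p)) : ↥(helper6044.decomp (pPrime p)) := ⟨σ.1, σ.2⟩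

@[simp] theorem coe_toD (p : ℕ) [Fact p.Prime] (σ : ↥(decP p)) :
    ((toD p σ : ↥(helper6044.decomp (pPrime p))) : GQ) = (σ : GQ) := rfl

section Seam

variable (p : ℕ) [Fact p.Prime] {k : Type} [Field k] [Algebra (ZMod p) k]
  (ρbar : ResidualGaloisRep k)

/-- The `𝔽_p`-space of level cocycles `D_p → ad0` whose underlying `End_k V`-valued function
lies in `LL`. -/
def flatZ (LL : Submodule k (↥(decP p) → Module.End k ρbar.V)) :
    Submodule (ZMod p) (↥(helper6044.decomp (pPrime p)) → ad0 p ρbar) where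
  carrier := {z | z ∈ helper6044.locZ1 (ad0 p ρbar) (pPrime p) ∧
    (fun σ : ↥(decP p) => ad0Val p ρbar (z (toD p σ))) ∈ LL}
  add_mem' := by
    rintro z z' ⟨hz, hL⟩ ⟨hz', hL'⟩
    refine ⟨Submodule.add_mem _ hz hz', ?_⟩
    have h := LL.add_mem hL hL'
    have e : (fun σ : ↥(decP p) => ad0Val p ρbar ((z + z') (toD p σ))) =
        (fun σ : ↥(decP p) => ad0Val p ρbar (z (toD p σ))) + fun σ : ↥(decP p) => ad0Val p ρbar (z' (toD p σ)) := by
      funext σ
      simp only [Pi.add_apply, map_add]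
    rw [e]
    exact h
  zero_mem' := by
    refine ⟨Submodule.zero_mem _, ?_⟩
    have e : (fun σ : ↥(decP p) => ad0Val p ρbar
        ((0 : ↥(helper6044.decomp (pPrime p)) → ad0 p ρbar) (toD p σ))) = 0 := by
      funext σ
      simp only [Pi.zero_apply, map_zero]
    rw [e]
    exact LL.zero_mem
  smul_mem' := by
    rintro a z ⟨hz, hL⟩
    refine ⟨Submodule.smul_mem _ a hz, ?_⟩
    have h := LL.smul_mem (algebraMap (ZMod p) k a) hL
    have e : (fun σ : ↥(decP p) => ad0Val p ρbar ((a • z) (toD p σ))) =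
        algebraMap (ZMod p) k a • fun σ : ↥(decP p) => ad0Val p ρbar (z (toD p σ)) := by
      funext σ
      simp only [Pi.smul_apply, ad0Val_smul]
    rw [e]
    exact h

variable {p ρbar} in
theorem mem_flatZ_iff {LL : Submodule k (↥(decP p) → Module.End k ρbar.V)}
    {z : ↥(helper6044.decomp (pPrime p)) → ad0 p ρbar} :
    z ∈ flatZ p ρbar LL ↔ z ∈ helper6044.locZ1 (ad0 p ρbar) (pPrime p) ∧
      (fun σ : ↥(decP p) => ad0Val p ρbar (z (toD p σ))) ∈ LL := Iff.rfl

theorem flatZ_le_locZ1 (LL : Submodule k (↥(decP p) → Module.End k ρbar.V)) :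
    flatZ p ρbar LL ≤ helper6044.locZ1 (ad0 p ρbar) (pPrime p) := fun _ hz => hz.1

theorem ad0_isSmoothRep : helper6044.IsSmoothRep (ad0 p ρbar) := fun m => ad0_smooth p ρbar m

theorem locB1_le_flatZ (LL : Submodule k (↥(decP p) → Module.End k ρbar.V))
    (hB : B1 p ρbar ≤ LL) : helper6044.locB1 (ad0 p ρbar) (pPrime p) ≤ flatZ p ρbar LL := by
  intro z hz
  refine ⟨helper6044.locB1_le_locZ1 (pPrime p) (ad0_isSmoothRep p ρbar) hz, hB ?_⟩
  obtain ⟨m, rfl⟩ := hz
  refine ⟨ad0Val p ρbar m, ?_⟩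
  funext σ
  rw [cobD_apply, helper6044.locD_apply, map_sub, ad0Val_ρ]
  rfl

/-- The cocycle of a lift, restricted to `D_p`, is a level cocycle. -/
theorem toCocycle_mem_locZ1 (c : LiftCocycle ρbar)
    (htr : ∀ g, LinearMap.trace k ρbar.V (c.c g) = 0) :
    (fun d : ↥(helper6044.decomp (pPrime p)) => (c.toCocycle p htr).1 (d : GQ)) ∈
      helper6044.locZ1 (ad0 p ρbar) (pPrime p) := by
  refine ⟨fun g h => ?_, ?_⟩
  · have h1 := (mem_cocycles₁_iff (A := ad0 p ρbar) (c.toCocycle p htr).1).1 (c.toCocycle p htr).2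
      (g : GQ) (h : GQ)
    change (c.toCocycle p htr).1 ((g : GQ) * (h : GQ)) = _
    rw [h1, add_comm]
  · obtain ⟨F₀, hF₀, h₀⟩ := c.level'
    obtain ⟨F₁, hF₁, h₁⟩ := ρbar.factorsThroughFiniteLevel
    have := hF₀
    have := hF₁
    refine ⟨F₀ ⊔ F₁, IntermediateField.finiteDimensional_sup F₀ F₁, fun g s hs => ?_⟩
    have hs' := (IntermediateField.mem_fixingSubgroup_iff (F₀ ⊔ F₁) (s : GQ)).1 hs
    have hker : (s : GQ) ∈ c.kerSubgroup :=
      (c.mem_kerSubgroup _).2 ⟨h₀ _ fun x hx => hs' x ((le_sup_left : F₀ ≤ F₀ ⊔ F₁) hx),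
        h₁ _ fun x hx => hs' x ((le_sup_right : F₁ ≤ F₀ ⊔ F₁) hx)⟩
    apply ad0_ext p ρbar
    exact c.c_mul_of_mem (g : GQ) (s : GQ) hker

theorem finrank_trace_ker_ge : 3 ≤ finrank k ↥(LinearMap.ker (LinearMap.trace k ρbar.V)) := by
  have h := LinearMap.finrank_range_add_finrank_ker (LinearMap.trace k ρbar.V)
  rw [finrank_End] at h
  have h1 : finrank k ↥(LinearMap.range (LinearMap.trace k ρbar.V)) ≤ finrank k k :=
    Submodule.finrank_le _
  rw [finrank_self] at h1
  omega

variable [Finite k]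

theorem finrank_ad0_ge : 3 * finrank (ZMod p) k ≤ finrank (ZMod p) (ad0 p ρbar) := by
  letI := ad0Module p ρbar
  haveI := ad0Module_isScalarTower p ρbar
  haveI : Module.Finite (ZMod p) k := Module.Finite.of_finite
  have h := Module.finrank_mul_finrank (ZMod p) k ↥(LinearMap.ker (LinearMap.trace k ρbar.V))
  have h3 := finrank_trace_ker_ge ρbar
  have h4 : finrank (ZMod p) (ad0 p ρbar) =
      finrank (ZMod p) ↥(LinearMap.ker (LinearMap.trace k ρbar.V)) := rfl
  rw [h4, ← h]
  calc 3 * finrank (ZMod p) k = finrank (ZMod p) k * 3 := Nat.mul_comm _ _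
    _ ≤ _ := Nat.mul_le_mul_left _ h3

theorem finrank_flatZ_le (LL : Submodule k (↥(decP p) → Module.End k ρbar.V))
    [Module.Finite k ↥LL] :
    Module.Finite (ZMod p) ↥(flatZ p ρbar LL) ∧
      finrank (ZMod p) ↥(flatZ p ρbar LL) ≤ finrank (ZMod p) k * finrank k ↥LL := by
  letI : Module (ZMod p) ↥LL := Module.compHom _ (algebraMap (ZMod p) k)
  haveI : IsScalarTower (ZMod p) k ↥LL := ⟨fun a b x => by
    change (a • b) • x = algebraMap (ZMod p) k a • (b • x)
    rw [Algebra.smul_def, mul_smul]⟩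
  haveI : Module.Finite (ZMod p) k := Module.Finite.of_finite
  haveI : Module.Finite (ZMod p) ↥LL := Module.Finite.trans (R := ZMod p) k ↥LL
  let ψ : ↥(flatZ p ρbar LL) →ₗ[ZMod p] ↥LL :=
    { toFun := fun z => ⟨fun σ : ↥(decP p) => ad0Val p ρbar (z.1 (toD p σ)), z.2.2⟩
      map_add' := fun z z' => Subtype.ext (by
        funext σ
        simp only [Submodule.coe_add, Pi.add_apply]
        exact map_add (ad0Val p ρbar) _ _)
      map_smul' := fun a z => Subtype.ext (by
        funext σ
        change ad0Val p ρbar ((a • z.1) (toD p σ)) = algebraMap (ZMod p) k a • ad0Val p ρbar (z.1 (toD p σ))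
        rw [Pi.smul_apply, ad0Val_smul]) }
  have hψ : Function.Injective ψ := by
    intro z z' h
    apply Subtype.ext
    funext σ
    apply ad0_ext p ρbar
    exact congrFun (congrArg Subtype.val h) σ
  refine ⟨Module.Finite.of_injective ψ hψ, ?_⟩
  have h1 := LinearMap.finrank_le_finrank_of_injective hψ
  have h2 := Module.finrank_mul_finrank (ZMod p) k ↥LL
  rw [h2]
  exact h1

/-- **The seam** between the flat tangent bound and the Selmer layer. -/
theorem flat_seam (hFT : FlatTangentAt p ρbar) :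
    ∃ Z : Submodule (ZMod p) (↥(helper6044.decomp (pPrime p)) → ad0 p ρbar),
      helper6044.locB1 (ad0 p ρbar) (pPrime p) ≤ Z ∧
      Z ≤ helper6044.locZ1 (ad0 p ρbar) (pPrime p) ∧
      Module.Finite (ZMod p) ↥Z ∧
      finrank (ZMod p) ↥(helper6044.locSub (ad0 p ρbar) (pPrime p) Z) ≤
        finrank (ZMod p) ↥(Representation.invariants
          (Rep.res (primeLocalToGlobal (pPrime p)) (ad0 p ρbar)).ρ) + finrank (ZMod p) k ∧
      ∀ (c : LiftCocycle ρbar) (htr : ∀ g, LinearMap.trace k ρbar.V (c.c g) = 0),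
        (stdLift c).IsFlatAt p → (stdLift c).DetIsCyclotomic p →
        (fun d : ↥(helper6044.decomp (pPrime p)) => (c.toCocycle p htr).1 (d : GQ)) ∈ Z := by
  obtain ⟨LL, hfin, hrank, hB, hmem⟩ := hFT
  have := hfin
  obtain ⟨hZfin, hZrank⟩ := finrank_flatZ_le p ρbar LL
  have := hZfin
  have : Module.Finite (ZMod p) (ad0 p ρbar) := ad0_finite p ρbar
  have hB' := locB1_le_flatZ p ρbar LL hB
  have hZ' := flatZ_le_locZ1 p ρbar LL
  refine ⟨flatZ p ρbar LL, hB', hZ', hZfin, ?_, fun c htr hfl hdet => ?_⟩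
  · refine helper6044.finrank_locSub_le hB' hZ' ?_
    have h1 := helper6044.finrank_locB1_add (ad0 p ρbar) (pPrime p)
    have h2 := finrank_ad0_ge p ρbar
    have h3 : finrank (ZMod p) k * finrank k ↥LL ≤ finrank (ZMod p) k * 4 :=
      Nat.mul_le_mul_left _ hrank
    omega
  · exact ⟨toCocycle_mem_locZ1 p ρbar c htr, hmem c hfl hdet⟩

end Seam

end Fermat.Agent.S56.helper6366
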