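/-
S56, FLAT-LOCAL: the flat leaf of the count assembly (helper6366).

`stmt_LocFL_of : Stmt_FlatTangent → helper2229.Stmt_LocFL` — the flat tangent bound of the
captain's Spec (`helper6366_FlatSpec`) gives the local leaf at `p`, flat type, of the count
assembly (`helper2229_Count.result_of_leaves`), with `L := locSub (flatZ p ρbar LL)`.
-/
import Mathlib
import Fermat.Agent.S56.helper6366_FlatSeam
import Fermat.Agent.S56.helper2229_Count

set_option autoImplicit false

noncomputable section

namespace Fermat.Agent.S56.helper6366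

open Module ExtCitation Polynomial
open Fermat.Agent.S56.helper6599

/-- The dimension bound of the seam, for the space `flatZ`. -/
theorem finrank_locSub_flatZ_le (p : ℕ) [Fact p.Prime] {k : Type} [Field k] [Finite k]
    [Algebra (ZMod p) k] (ρbar : ResidualGaloisRep k)
    (LL : Submodule k (↥(decP p) → Module.End k ρbar.V)) [Module.Finite k ↥LL]
    (hrank : finrank k ↥LL ≤ 4) (hB : B1 p ρbar ≤ LL) :
    finrank (ZMod p) ↥(helper6044.locSub (ad0 p ρbar) (pPrime p) (flatZ p ρbar LL)) ≤
      finrank (ZMod p) ↥(Representation.invariants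
        (Rep.res (primeLocalToGlobal (pPrime p)) (ad0 p ρbar)).ρ) + finrank (ZMod p) k := by
  obtain ⟨hZfin, hZrank⟩ := finrank_flatZ_le p ρbar LL
  have := hZfin
  have : Module.Finite (ZMod p) (ad0 p ρbar) := ad0_finite p ρbar
  have hB' := locB1_le_flatZ p ρbar LL hB
  have hZ' := flatZ_le_locZ1 p ρbar LL
  refine helper6044.finrank_locSub_le hB' hZ' ?_
  have h1 := helper6044.finrank_locB1_add (ad0 p ρbar) (pPrime p)
  have h2 := finrank_ad0_ge p ρbar
  have h3 : finrank (ZMod p) k * finrank k ↥LL ≤ finrank (ZMod p) k * 4 :=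
    Nat.mul_le_mul_left _ hrank
  omega

/-- **The flat leaf of the count assembly** from the flat tangent bound. -/
theorem stmt_LocFL_of (h : Stmt_FlatTangent) : helper2229.Stmt_LocFL := by
  intro p _ k _ _ _ ρbar hp2 _ hdet hsplit
  obtain ⟨LL, hfin, hrank, hB, hmem⟩ := h p k ρbar ⟨hp2, inferInstance, hdet, hsplit⟩
  have := hfin
  refine ⟨helper6044.locSub (ad0 p ρbar) (pPrime p) (flatZ p ρbar LL),
    finrank_locSub_flatZ_le p ρbar LL hrank hB, fun c z hz hP => ?_⟩
  refine helper6044.locClass_mem_locSub z ⟨z.2, ?_⟩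
  have h1 := hmem c hP.2 hP.1
  have e : (fun σ : ↥(decP p) => ad0Val p ρbar (z.1 (toD p σ))) =
      fun σ : ↥(decP p) => c.c (σ : GQ) := by
    funext σ
    exact hz (toD p σ)
  rw [e]
  exact h1

/-- The flat leaf from the two cases of the Spec. -/
theorem stmt_LocFL_of_cases (hI : Stmt_FlatIrr) (hR : Stmt_FlatRed) : helper2229.Stmt_LocFL :=
  stmt_LocFL_of (stmt_FlatTangent_of hI hR)

end Fermat.Agent.S56.helper6366
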