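/-
S56 node DICT (helper6599), seam with COUNT-ASM: the Prop `helper2229.DictBound` for
`M := ad0 p ρbar`, from the local layer only.

* `dictBound_of_loc`     : general condition family `cond : Finset ℕ → …`.
* `dictBound_condSO`, `dictBound_condFL` : the two frozen condition families.
* `finite_continuousH1S_ad0` : `H¹(G_S, ad0)` is finite-dimensional (S55 `stmt_FinOne`).
* `dictBound_condSO_of_frozen`, `dictBound_condFL_of_frozen` : the same under the frozen
  hypotheses `helper2229.FrozenHyp` (finiteness discharged).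
-/
import Mathlib
import Fermat.Agent.S56.helper2229_CountAsm
import Fermat.Agent.S55.helper4075_Closed
import Fermat.Agent.S56.helper6599_Dict

set_option autoImplicit false
set_option linter.style.haveILetI false

noncomputable section

namespace Fermat.Agent.S56.helper6599

open groupCohomology IsLocalRing ExtCitation
open Fermat.Agent.S55

attribute [local instance] Fermat.Agent.S53.helper413.dualAlgebra

section Finite

variable (p : ℕ) [Fact p.Prime] {k : Type} [Field k] [Algebra (ZMod p) k] [Finite k]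
  (ρbar : ResidualGaloisRep k)

/-- `H¹(G_S, ad0 ρbar)` is finite-dimensional (`p` odd, `p ∈ S`, `ρbar` unramified outside
`S`): the S55 finiteness theorem. -/
theorem finite_continuousH1S_ad0 (hp2 : p ≠ 2) (S : Finset Nat.Primes) (hpS : pPrime p ∈ S)
    (hur : ∀ q : Nat.Primes, q ∉ S → ρbar.IsUnramifiedAt q) :
    Module.Finite (ZMod p) ↥(continuousH1S S (ad0 p ρbar)) :=
  (helper4075.stmt_FinOne hp2 S hpS (ad0 p ρbar) (isSMod_ad0 p ρbar S hur)).1

end Finite

section DictBound

variable {𝒪 : Type} [CommRing 𝒪] [IsLocalRing 𝒪] (p : ℕ) [Fact p.Prime]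
  [Algebra (ZMod p) (ResidueField 𝒪)] (ρbar : ResidualGaloisRep (ResidueField 𝒪))

theorem not_mem_union_image_of_not_mem (Smin : Finset ℕ) {r : ℕ} (qv : Fin r → Nat.Primes)
    (q : Nat.Primes) (hq : q ∉ helper2229.primesOf Smin ∪ Finset.univ.image qv) :
    (q : ℕ) ∉ Smin ∪ Finset.univ.image fun i => (qv i : ℕ) := by
  intro h
  rw [← helper2229.mem_primesOf, helper2229.primesOf_union_image] at h
  exact hq h

/-- **DICT side of the COUNT-ASM seam**, general condition family.  The only inputs are the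
formal properties of `cond`, finiteness of `H¹(G_{Σ ∪ Q}, ad0)` and the LOCAL layer: at every
`q ∈ Σ = primesOf Smin` the localisation of the class of an admissible cocycle lies in `L q`. -/
theorem dictBound_of_loc (Smin : Finset ℕ)
    (cond : Finset ℕ → ∀ ⦃A : Type⦄ [CommRing A] [IsLocalRing A] [Algebra 𝒪 A],
      GaloisRepAdic A → Prop)
    (hequiv : ∀ (T : Finset ℕ) (ρ ρ' : GaloisRepAdic (DualNumber (ResidueField 𝒪))),
      ρ.IsEquiv ρ' → cond T ρ → cond T ρ')
    (hdet : ∀ (T : Finset ℕ) (ρ : GaloisRepAdic (DualNumber (ResidueField 𝒪))),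
      cond T ρ → ρ.DetIsCyclotomic p)
    (hur : ∀ (T : Finset ℕ) (ρ : GaloisRepAdic (DualNumber (ResidueField 𝒪))),
      cond T ρ → ∀ q : ℕ, q.Prime → q ∉ T → ρ.IsUnramifiedAt q)
    (L : ∀ q : Nat.Primes, Submodule (ZMod p) (helper15.LocH1 (ad0 p ρbar) q))
    (f : ℕ) (hk : Nat.card (ResidueField 𝒪) = p ^ f)
    (hfin : ∀ (r : ℕ) (qv : Fin r → Nat.Primes), Function.Injective qv →
      (∀ i, (qv i : ℕ) ∉ Smin) → Module.Finite (ZMod p)
        ↥(continuousH1S (helper2229.primesOf Smin ∪ Finset.univ.image qv) (ad0 p ρbar)))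
    (hloc : ∀ (r : ℕ) (qv : Fin r → Nat.Primes) (c : LiftCocycle ρbar)
      (htr : ∀ g, LinearMap.trace (ResidueField 𝒪) ρbar.V (c.c g) = 0)
      (hu : ∀ q : Nat.Primes, q ∉ helper2229.primesOf Smin ∪ Finset.univ.image qv →
        (stdLift c).IsUnramifiedAt q),
      cond (Smin ∪ Finset.univ.image fun i => (qv i : ℕ)) (stdLift c) →
      ∀ q : ↥(helper2229.primesOf Smin ∪ Finset.univ.image qv),
        q.1 ∈ helper2229.primesOf Smin →
        helper15.resTotal _ (ad0 p ρbar) (c.toClassS p htr _ hu) q ∈ L q.1) :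
    helper2229.DictBound 𝒪 p ρbar Smin cond (helper2229.primesOf Smin) (ad0 p ρbar) L f := by
  intro r qv hinj hqv hsel
  haveI := hfin r qv hinj hqv
  exact tanBound_of_selmer p ρbar (cond _) _ _ (hequiv _) (hdet _)
    (fun ρ h q hq => hur _ ρ h q q.2 (not_mem_union_image_of_not_mem Smin qv q hq))
    (fun c htr hu h𝒟 => (Submodule.mem_pi).2 fun q _ => by
      by_cases hq : q.1 ∈ helper2229.primesOf Smin
      · rw [if_pos hq]; exact hloc r qv c htr hu h𝒟 q hq
      · rw [if_neg hq]; exact Submodule.mem_top) hk hsel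

/-- **DICT side of the seam, strict-ordinary type.** -/
theorem dictBound_condSO (Smin : Finset ℕ)
    (L : ∀ q : Nat.Primes, Submodule (ZMod p) (helper15.LocH1 (ad0 p ρbar) q))
    (f : ℕ) (hk : Nat.card (ResidueField 𝒪) = p ^ f)
    (hfin : ∀ (r : ℕ) (qv : Fin r → Nat.Primes), Function.Injective qv →
      (∀ i, (qv i : ℕ) ∉ Smin) → Module.Finite (ZMod p)
        ↥(continuousH1S (helper2229.primesOf Smin ∪ Finset.univ.image qv) (ad0 p ρbar)))
    (hloc : ∀ (r : ℕ) (qv : Fin r → Nat.Primes) (c : LiftCocycle ρbar)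
      (htr : ∀ g, LinearMap.trace (ResidueField 𝒪) ρbar.V (c.c g) = 0)
      (hu : ∀ q : Nat.Primes, q ∉ helper2229.primesOf Smin ∪ Finset.univ.image qv →
        (stdLift c).IsUnramifiedAt q),
      helper2229.condSO 𝒪 p Smin (Smin ∪ Finset.univ.image fun i => (qv i : ℕ)) (stdLift c) →
      ∀ q : ↥(helper2229.primesOf Smin ∪ Finset.univ.image qv),
        q.1 ∈ helper2229.primesOf Smin →
        helper15.resTotal _ (ad0 p ρbar) (c.toClassS p htr _ hu) q ∈ L q.1) :
    helper2229.DictBound 𝒪 p ρbar Smin (helper2229.condSO 𝒪 p Smin)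
      (helper2229.primesOf Smin) (ad0 p ρbar) L f :=
  dictBound_of_loc p ρbar Smin (helper2229.condSO 𝒪 p Smin)
    (fun _ _ _ hE h => Fermat.Agent.S56.helper7539.strictHalf_of_isEquiv hE h)
    (fun _ _ h => h.1.1) (fun _ _ h => h.1.2.2) L f hk hfin hloc

/-- **DICT side of the seam, flat type.** -/
theorem dictBound_condFL (Smin : Finset ℕ)
    (L : ∀ q : Nat.Primes, Submodule (ZMod p) (helper15.LocH1 (ad0 p ρbar) q))
    (f : ℕ) (hk : Nat.card (ResidueField 𝒪) = p ^ f)
    (hfin : ∀ (r : ℕ) (qv : Fin r → Nat.Primes), Function.Injective qv →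
      (∀ i, (qv i : ℕ) ∉ Smin) → Module.Finite (ZMod p)
        ↥(continuousH1S (helper2229.primesOf Smin ∪ Finset.univ.image qv) (ad0 p ρbar)))
    (hloc : ∀ (r : ℕ) (qv : Fin r → Nat.Primes) (c : LiftCocycle ρbar)
      (htr : ∀ g, LinearMap.trace (ResidueField 𝒪) ρbar.V (c.c g) = 0)
      (hu : ∀ q : Nat.Primes, q ∉ helper2229.primesOf Smin ∪ Finset.univ.image qv →
        (stdLift c).IsUnramifiedAt q),
      helper2229.condFL 𝒪 p Smin (Smin ∪ Finset.univ.image fun i => (qv i : ℕ)) (stdLift c) →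
      ∀ q : ↥(helper2229.primesOf Smin ∪ Finset.univ.image qv),
        q.1 ∈ helper2229.primesOf Smin →
        helper15.resTotal _ (ad0 p ρbar) (c.toClassS p htr _ hu) q ∈ L q.1) :
    helper2229.DictBound 𝒪 p ρbar Smin (helper2229.condFL 𝒪 p Smin)
      (helper2229.primesOf Smin) (ad0 p ρbar) L f :=
  dictBound_of_loc p ρbar Smin (helper2229.condFL 𝒪 p Smin)
    (fun _ _ _ hE h => Fermat.Agent.S56.helper7539.flatHalf_of_isEquiv hE h)
    (fun _ _ h => h.1.1) (fun _ _ h => h.1.2.2) L f hk hfin hloc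

end DictBound

/-! ### Under the frozen hypotheses -/

section Frozen

variable {𝒪 : Type} [CommRing 𝒪] [IsLocalRing 𝒪] [Finite (ResidueField 𝒪)]
  (p : ℕ) [Fact p.Prime] [Algebra (ZMod p) (ResidueField 𝒪)]
  (ρbar : ResidualGaloisRep (ResidueField 𝒪)) {S Smin : Finset ℕ}

omit [Finite (ResidueField 𝒪)] [Fact (Nat.Prime p)] [Algebra (ZMod p) (ResidueField 𝒪)] in
/-- Under the frozen hypotheses `ρbar` is unramified outside `Smin ∪ Q`. -/
theorem isUnramifiedAt_of_frozen (hyp : helper2229.FrozenHyp 𝒪 p ρbar S Smin)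
    (Sg : Finset Nat.Primes) (hSg : helper2229.primesOf Smin ⊆ Sg) (q : Nat.Primes)
    (hq : q ∉ Sg) : ρbar.IsUnramifiedAt q := by
  have hqS : (q : ℕ) ∉ Smin := fun h => hq (hSg (helper2229.mem_primesOf.2 h))
  have hqp : (q : ℕ) ≠ p := fun h => hqS (h ▸ hyp.hpSmin)
  by_contra hcon
  exact hqS ((hyp.hmin q q.2 hqp).2 hcon)

/-- Finiteness of `H¹(G_{Σ ∪ Q}, ad0)` under the frozen hypotheses. -/
theorem finite_continuousH1S_ad0_of_frozen (hyp : helper2229.FrozenHyp 𝒪 p ρbar S Smin)
    (Sg : Finset Nat.Primes) (hSg : helper2229.primesOf Smin ⊆ Sg) :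
    Module.Finite (ZMod p) ↥(continuousH1S Sg (ad0 p ρbar)) :=
  finite_continuousH1S_ad0 p ρbar hyp.hp2 Sg
    (hSg (helper2229.pPrime_mem_primesOf hyp.hpSmin))
    (isUnramifiedAt_of_frozen p ρbar hyp Sg hSg)

/-- **DICT side of the seam under the frozen hypotheses, strict-ordinary type**:
only the local layer remains. -/
theorem dictBound_condSO_of_frozen (hyp : helper2229.FrozenHyp 𝒪 p ρbar S Smin)
    (L : ∀ q : Nat.Primes, Submodule (ZMod p) (helper15.LocH1 (ad0 p ρbar) q))
    (hloc : ∀ (r : ℕ) (qv : Fin r → Nat.Primes) (c : LiftCocycle ρbar)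
      (htr : ∀ g, LinearMap.trace (ResidueField 𝒪) ρbar.V (c.c g) = 0)
      (hu : ∀ q : Nat.Primes, q ∉ helper2229.primesOf Smin ∪ Finset.univ.image qv →
        (stdLift c).IsUnramifiedAt q),
      helper2229.condSO 𝒪 p Smin (Smin ∪ Finset.univ.image fun i => (qv i : ℕ)) (stdLift c) →
      ∀ q : ↥(helper2229.primesOf Smin ∪ Finset.univ.image qv),
        q.1 ∈ helper2229.primesOf Smin →
        helper15.resTotal _ (ad0 p ρbar) (c.toClassS p htr _ hu) q ∈ L q.1) :
    helper2229.DictBound 𝒪 p ρbar Smin (helper2229.condSO 𝒪 p Smin)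
      (helper2229.primesOf Smin) (ad0 p ρbar) L
      (Module.finrank (ZMod p) (ResidueField 𝒪)) :=
  dictBound_condSO p ρbar Smin L _ (natCard_eq_pow_finrank p _)
    (fun _ _ _ _ => finite_continuousH1S_ad0_of_frozen p ρbar hyp _ Finset.subset_union_left)
    hloc

/-- **DICT side of the seam under the frozen hypotheses, flat type.** -/
theorem dictBound_condFL_of_frozen (hyp : helper2229.FrozenHyp 𝒪 p ρbar S Smin)
    (L : ∀ q : Nat.Primes, Submodule (ZMod p) (helper15.LocH1 (ad0 p ρbar) q))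
    (hloc : ∀ (r : ℕ) (qv : Fin r → Nat.Primes) (c : LiftCocycle ρbar)
      (htr : ∀ g, LinearMap.trace (ResidueField 𝒪) ρbar.V (c.c g) = 0)
      (hu : ∀ q : Nat.Primes, q ∉ helper2229.primesOf Smin ∪ Finset.univ.image qv →
        (stdLift c).IsUnramifiedAt q),
      helper2229.condFL 𝒪 p Smin (Smin ∪ Finset.univ.image fun i => (qv i : ℕ)) (stdLift c) →
      ∀ q : ↥(helper2229.primesOf Smin ∪ Finset.univ.image qv),
        q.1 ∈ helper2229.primesOf Smin →
        helper15.resTotal _ (ad0 p ρbar) (c.toClassS p htr _ hu) q ∈ L q.1) :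
    helper2229.DictBound 𝒪 p ρbar Smin (helper2229.condFL 𝒪 p Smin)
      (helper2229.primesOf Smin) (ad0 p ρbar) L
      (Module.finrank (ZMod p) (ResidueField 𝒪)) :=
  dictBound_condFL p ρbar Smin L _ (natCard_eq_pow_finrank p _)
    (fun _ _ _ _ => finite_continuousH1S_ad0_of_frozen p ρbar hyp _ Finset.subset_union_left)
    hloc

end Frozen

end Fermat.Agent.S56.helper6599
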