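/-
S56 / LOC-TW (helper6606): the hypothesis `hGood` of the Selmer count
(`helper3550.selmer_count_tw`, `helper3550.globalCount_of`) at the Taylor–Wiles primes.
-/
import Mathlib
import Fermat.Agent.S56.helper3550_GlobalCount
import Fermat.Agent.S56.helper6606_TWLocalFinal

set_option autoImplicit false

namespace Fermat.Agent.S56.helper6606

open groupCohomology ExtCitation Module IsLocalRing
open Fermat.Agent.S55.helper2945 Fermat.Agent.S55.helper15 Fermat.Agent.S56.helper3550

/-- **The local bound at the Taylor–Wiles primes, in the shape consumed by the Selmer count.**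
For an `Sg`-module `M` (with `p ∈ Sg`): if `h⁰(ℚ_q, M) ≤ f` at the Taylor–Wiles primes `q ∉ Sg`
then `dim H¹(ℚ_q, M) ≤ h⁰(ℚ_q, M) + f` there. -/
theorem hGood_of {𝒪 : Type} [CommRing 𝒪] [IsLocalRing 𝒪] {p : ℕ} [Fact p.Prime]
    (ρbar : ResidualGaloisRep (ResidueField 𝒪)) (Sg : Finset Nat.Primes) (hpS : pPrime p ∈ Sg)
    (M : Rep.{0, 0, 0} (ZMod p) (AlgebraicClosure ℚ ≃ₐ[ℚ] AlgebraicClosure ℚ))
    (hM : IsSMod Sg M) (f : ℕ)
    (hinv : ∀ n q, TWGood 𝒪 p ρbar n q → q ∉ Sg →
      finrank (ZMod p)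
        (Representation.invariants (Rep.res (primeLocalToGlobal q) M).ρ) ≤ f) :
    ∀ n q, TWGood 𝒪 p ρbar n q → q ∉ Sg →
      finrank (ZMod p) (LocH1 M q) ≤
        finrank (ZMod p) (Representation.invariants (Rep.res (primeLocalToGlobal q) M).ρ) + f := by
  intro n q hG hq
  have := hM.finite
  have hqp : (q : ℕ) ≠ p := by
    intro h
    have h' : q = pPrime p := Subtype.ext h
    exact hq (h' ▸ hpS)
  have hq1 : p ∣ (q : ℕ) - 1 := dvd_trans (dvd_pow_self p (Nat.succ_ne_zero n)) hG.1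
  exact finrank_locH1_le_add q hqp hq1 M hM.smooth (hM.unram q hq) f (hinv n q hG hq)

end Fermat.Agent.S56.helper6606
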