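import Fermat.Agent.Lib.helper6909_HopfLift
import Fermat.Agent.S55.helper862_LocalIntegers

/-!
# Points of a Hopf algebra killed by `p` are rational over any field carrying an approximate
# copy of their field of definition

`helper6909`, S56 flat wall, design B (findings #2978), brick (L3) = "M2" of the S56 project chat.
Concrete form of Fontaine's property `(P_m)` inside `PadicAlgCl p`.
-/

set_option autoImplicit false
set_option linter.unusedSectionVars false

namespace Fermat.Agent.S56.helper6909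

open Fermat.Agent.Lib.helper6909 Fermat.Agent.S55.helper862 IsLocalRing WithConv

variable {p : ℕ} [Fact p.Prime]

section Integers

variable (E : IntermediateField ℚ_[p] (PadicAlgCl p))

/-- The coercion from the ring of integers of `E` to `PadicAlgCl p`. -/
noncomputable def intCoe : integerRing p E →+* PadicAlgCl p :=
  (algebraMap E (PadicAlgCl p)).comp (integerRing p E).subtype

theorem intCoe_injective : Function.Injective (intCoe E) := fun _ _ h =>
  Subtype.ext (Subtype.ext h)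

theorem norm_intCoe_le_one (y : integerRing p E) : ‖intCoe E y‖ ≤ 1 :=
  (mem_integerRing_iff_norm_le_one p E y).mp y.2

theorem intCoe_mem (y : integerRing p E) : intCoe E y ∈ E := (y : E).2

/-- An element of `E` of norm at most one, as an element of the ring of integers. -/
noncomputable def intMk (y : PadicAlgCl p) (hy : y ∈ E) (h1 : ‖y‖ ≤ 1) : integerRing p E :=
  ⟨⟨y, hy⟩, (mem_integerRing_iff_norm_le_one p E _).mpr h1⟩

@[simp] theorem intCoe_intMk (y : PadicAlgCl p) (hy : y ∈ E) (h1 : ‖y‖ ≤ 1) :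
    intCoe E (intMk E y hy h1) = y := rfl

theorem intCoe_natCast (n : ℕ) : intCoe E (n : integerRing p E) = n := map_natCast _ n

/-- Divisibility in the ring of integers is comparison of norms. -/
theorem mem_span_singleton_iff_norm_le (y b : integerRing p E) (hb : b ≠ 0) :
    y ∈ Ideal.span {b} ↔ ‖intCoe E y‖ ≤ ‖intCoe E b‖ := by
  have hb' : intCoe E b ≠ 0 := fun h => hb (intCoe_injective E (by rw [h, map_zero]))
  rw [Ideal.mem_span_singleton]
  constructor
  · rintro ⟨z, rfl⟩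
    rw [map_mul, norm_mul]
    exact mul_le_of_le_one_right (norm_nonneg _) (norm_intCoe_le_one E z)
  · intro h
    have hz : ‖intCoe E y / intCoe E b‖ ≤ 1 := by
      rw [norm_div]
      exact div_le_one_of_le₀ h (norm_nonneg _)
    refine ⟨intMk E (intCoe E y / intCoe E b) (E.div_mem (intCoe_mem E y) (intCoe_mem E b)) hz, ?_⟩
    apply intCoe_injective E
    rw [map_mul, intCoe_intMk, mul_div_cancel₀ _ hb']

theorem mem_maximalIdeal_iff_norm_lt [FiniteDimensional ℚ_[p] E] (y : integerRing p E) :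
    y ∈ maximalIdeal (integerRing p E) ↔ ‖intCoe E y‖ < 1 := by
  rw [mem_maximalIdeal_integerRing_iff, ← PadicAlgCl.spectralNorm_eq,
    spectralNorm.eq_of_tower (E := E) (L := PadicAlgCl p)]
  rfl

end Integers

section Base

variable {O : Type*} [CommRing O] [Algebra O (PadicAlgCl p)]
  (E : IntermediateField ℚ_[p] (PadicAlgCl p))

/-- The image of the base ring `O` lies in the ring of integers of `E`. -/
class IsIntBase (O : Type*) [CommRing O] [Algebra O (PadicAlgCl p)]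
    (E : IntermediateField ℚ_[p] (PadicAlgCl p)) : Prop where
  mem : ∀ r : O, algebraMap O (PadicAlgCl p) r ∈ E
  norm_le : ∀ r : O, ‖algebraMap O (PadicAlgCl p) r‖ ≤ 1

/-- The structure map `O → 𝒪_E`. -/
noncomputable def intBaseMap [IsIntBase O E] : O →+* integerRing p E where
  toFun r := intMk E (algebraMap O (PadicAlgCl p) r) (IsIntBase.mem r) (IsIntBase.norm_le E r)
  map_one' := intCoe_injective E (by simp)
  map_mul' r s := intCoe_injective E (by simp)
  map_zero' := intCoe_injective E (by simp)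
  map_add' r s := intCoe_injective E (by simp)

/-- The `O`-algebra structure on `𝒪_E` (not a global instance). -/
@[reducible] noncomputable def intBaseAlgebra [IsIntBase O E] : Algebra O (integerRing p E) :=
  (intBaseMap E).toAlgebra

attribute [local instance] intBaseAlgebra

/-- The coercion `𝒪_E → PadicAlgCl p` as an `O`-algebra homomorphism. -/
noncomputable def intCoeAlg [IsIntBase O E] : integerRing p E →ₐ[O] PadicAlgCl p :=
  { intCoe E with commutes' := fun _ => rfl }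

@[simp] theorem intCoeAlg_apply [IsIntBase O E] (y : integerRing p E) :
    intCoeAlg (O := O) E y = intCoe E y := rfl

variable {H : Type*} [CommRing H] [Algebra O H]

/-- A point with integral values in `E`, as a point of `𝒪_E`. -/
noncomputable def pointMk [IsIntBase O E] (x : H →ₐ[O] PadicAlgCl p) (hx : ∀ h, x h ∈ E)
    (hx1 : ∀ h, ‖x h‖ ≤ 1) : H →ₐ[O] integerRing p E where
  toFun h := intMk E (x h) (hx h) (hx1 h)
  map_one' := intCoe_injective E (by simp)
  map_mul' r s := intCoe_injective E (by simp)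
  map_zero' := intCoe_injective E (by simp)
  map_add' r s := intCoe_injective E (by simp)
  commutes' r := intCoe_injective E (by
    rw [intCoe_intMk, x.commutes]; rfl)

@[simp] theorem intCoe_pointMk [IsIntBase O E] (x : H →ₐ[O] PadicAlgCl p) (hx : ∀ h, x h ∈ E)
    (hx1 : ∀ h, ‖x h‖ ≤ 1) (h : H) : intCoe E (pointMk E x hx hx1 h) = x h := rfl

/-- A linear map with integral values in `E`, as a linear map to `𝒪_E`. -/
noncomputable def linMk [IsIntBase O E] (g : H →ₗ[O] PadicAlgCl p) (hg : ∀ h, g h ∈ E)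
    (hg1 : ∀ h, ‖g h‖ ≤ 1) : H →ₗ[O] integerRing p E where
  toFun h := intMk E (g h) (hg h) (hg1 h)
  map_add' r s := intCoe_injective E (by simp)
  map_smul' r s := intCoe_injective E (by
    rw [intCoe_intMk, map_smul, RingHom.id_apply, Algebra.smul_def, Algebra.smul_def, map_mul,
      intCoe_intMk]; rfl)

@[simp] theorem intCoe_linMk [IsIntBase O E] (g : H →ₗ[O] PadicAlgCl p) (hg : ∀ h, g h ∈ E)
    (hg1 : ∀ h, ‖g h‖ ≤ 1) (h : H) : intCoe E (linMk E g hg hg1 h) = g h := rfl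

theorem isIntBase_mono {E F : IntermediateField ℚ_[p] (PadicAlgCl p)} (hEF : E ≤ F)
    [IsIntBase O E] : IsIntBase O F :=
  ⟨fun r => hEF (IsIntBase.mem r), fun r => IsIntBase.norm_le E r⟩

/-- Elements integral over `O` have norm at most one. -/
theorem norm_le_one_of_isIntegral (hO : ∀ r : O, ‖algebraMap O (PadicAlgCl p) r‖ ≤ 1)
    {y : PadicAlgCl p} (hy : IsIntegral O y) : ‖y‖ ≤ 1 := by
  obtain ⟨f, hfm, hfy⟩ := hy
  by_contra hlt
  rw [not_le] at hlt
  rw [hfm.as_sum, Polynomial.eval₂_add, Polynomial.eval₂_pow, Polynomial.eval₂_X,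
    Polynomial.eval₂_finsetSum, add_eq_zero_iff_eq_neg] at hfy
  have h1 : ‖y ^ f.natDegree‖ = ‖y‖ ^ f.natDegree := norm_pow _ _
  have h2 : ‖∑ i ∈ Finset.range f.natDegree,
      Polynomial.eval₂ (algebraMap O (PadicAlgCl p)) y (Polynomial.C (f.coeff i) * Polynomial.X ^ i)‖
      < ‖y‖ ^ f.natDegree := by
    rcases Nat.eq_zero_or_pos f.natDegree with h0 | h0
    · rw [h0, Finset.range_zero, Finset.sum_empty, norm_zero, pow_zero]; exact one_pos
    · refine lt_of_le_of_lt (IsUltrametricDist.norm_sum_le_of_forall_le_of_nonneg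
        (C := ‖y‖ ^ (f.natDegree - 1)) (by positivity) ?_) ?_
      · intro i hi
        rw [Polynomial.eval₂_mul, Polynomial.eval₂_pow, Polynomial.eval₂_C, Polynomial.eval₂_X,
          norm_mul, norm_pow]
        calc ‖algebraMap O (PadicAlgCl p) (f.coeff i)‖ * ‖y‖ ^ i ≤ 1 * ‖y‖ ^ i :=
              mul_le_mul_of_nonneg_right (hO _) (by positivity)
          _ = ‖y‖ ^ i := one_mul _
          _ ≤ ‖y‖ ^ (f.natDegree - 1) :=
              pow_le_pow_right₀ hlt.le (Nat.le_sub_one_of_lt (Finset.mem_range.mp hi))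
      · exact pow_lt_pow_right₀ hlt (Nat.sub_lt h0 one_pos)
  rw [hfy, norm_neg] at h1
  exact absurd h1 (ne_of_lt h2)

/-- Points of a finite `O`-algebra have integral values. -/
theorem norm_point_le_one [Module.Finite O H] (hO : ∀ r : O, ‖algebraMap O (PadicAlgCl p) r‖ ≤ 1)
    (x : H →ₐ[O] PadicAlgCl p) (h : H) : ‖x h‖ ≤ 1 :=
  norm_le_one_of_isIntegral hO ((Algebra.IsIntegral.isIntegral (R := O) h).map x)

end Base

section Main

variable {O H : Type*} [CommRing O] [CommRing H] [Bialgebra O H] [Coalgebra.IsCocomm O H]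
  [Module.Free O H] [Module.Finite O H] [Algebra O (PadicAlgCl p)]

attribute [local instance] intBaseAlgebra

theorem natCast_prime_ne_zero' : (p : PadicAlgCl p) ≠ 0 :=
  Nat.cast_ne_zero.mpr (Fact.out : p.Prime).ne_zero

theorem norm_natCast_prime_lt_one : ‖(p : PadicAlgCl p)‖ < 1 := by
  have h := PadicAlgCl.norm_extends p (p : ℚ_[p])
  rw [map_natCast] at h
  rw [h]
  exact Padic.norm_p_lt_one

/-- The elements `a` and `a₀ = a ^ (p - 1) / p` of the ring of integers of `F`. -/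
theorem exists_setup (F : IntermediateField ℚ_[p] (PadicAlgCl p)) [FiniteDimensional ℚ_[p] F]
    {a : PadicAlgCl p} (haF : a ∈ F) (ha0 : a ≠ 0) (ha : ‖a‖ ^ (p - 1) < ‖(p : PadicAlgCl p)‖) :
    ∃ aS a₀S : integerRing p F, intCoe F aS = a ∧ aS ∈ maximalIdeal (integerRing p F) ∧
      a₀S ∈ maximalIdeal (integerRing p F) ∧ aS ^ (p - 1) = (p : integerRing p F) * a₀S ∧
      (∀ y : integerRing p F, (p : integerRing p F) * aS * y = 0 → y = 0) ∧
      (p : integerRing p F) * aS ≠ 0 := by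
  have hp := (Fact.out : p.Prime)
  have hpn0 : (p : PadicAlgCl p) ≠ 0 := natCast_prime_ne_zero'
  have hppos : 0 < ‖(p : PadicAlgCl p)‖ := norm_pos_iff.mpr hpn0
  have hlt : ‖a‖ < 1 := by
    by_contra hge
    rw [not_lt] at hge
    have h1 : (1 : ℝ) ≤ ‖a‖ ^ (p - 1) := one_le_pow₀ hge
    linarith [norm_natCast_prime_lt_one (p := p)]
  have ha₀F : a ^ (p - 1) / (p : PadicAlgCl p) ∈ F := F.div_mem (pow_mem haF _) (natCast_mem F p)
  have hlt₀ : ‖a ^ (p - 1) / (p : PadicAlgCl p)‖ < 1 := by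
    rw [norm_div, norm_pow, div_lt_one hppos]
    exact ha
  refine ⟨intMk F a haF hlt.le, intMk F _ ha₀F hlt₀.le, rfl, ?_, ?_, ?_, ?_⟩
  · rw [mem_maximalIdeal_iff_norm_lt]; exact hlt
  · rw [mem_maximalIdeal_iff_norm_lt]; exact hlt₀
  · apply intCoe_injective F
    rw [map_pow, map_mul, intCoe_natCast, intCoe_intMk, intCoe_intMk, mul_div_cancel₀ _ hpn0]
  · have hne : (p : integerRing p F) * intMk F a haF hlt.le ≠ 0 := by
      intro h0
      have := congrArg (intCoe F) h0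
      rw [map_mul, intCoe_natCast, intCoe_intMk, map_zero] at this
      exact mul_ne_zero hpn0 ha0 this
    exact ⟨fun y hy => (mul_eq_zero.mp hy).resolve_left hne, hne⟩

/-- Rigidity for points with values in a finite extension `F`. -/
theorem point_eq_of_norm_sub_le_of_mem
    (hO : ∀ r : O, ‖algebraMap O (PadicAlgCl p) r‖ ≤ 1)
    (F : IntermediateField ℚ_[p] (PadicAlgCl p)) [FiniteDimensional ℚ_[p] F]
    (hOF : ∀ r : O, algebraMap O (PadicAlgCl p) r ∈ F)
    {a : PadicAlgCl p} (haF : a ∈ F) (ha : ‖a‖ ^ (p - 1) < ‖(p : PadicAlgCl p)‖)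
    (x x' : H →ₐ[O] PadicAlgCl p)
    (hx : (toConv x.toLinearMap : WithConv (H →ₗ[O] PadicAlgCl p)) ^ p = 1)
    (hx' : (toConv x'.toLinearMap : WithConv (H →ₗ[O] PadicAlgCl p)) ^ p = 1)
    (hxF : ∀ h, x h ∈ F) (hx'F : ∀ h, x' h ∈ F)
    (hxx' : ∀ h, ‖x h - x' h‖ ≤ ‖a‖) : x = x' := by
  rcases eq_or_ne a 0 with rfl | ha0
  · ext h
    have := hxx' h
    rwa [norm_zero, norm_le_zero_iff, sub_eq_zero] at this
  have : IsIntBase O F := ⟨hOF, hO⟩
  obtain ⟨aS, a₀S, haS, ham, ha₀m, hpa, htf, -⟩ := exists_setup F haF ha0 ha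
  have haS0 : aS ≠ 0 := by
    rintro rfl
    rw [map_zero] at haS
    exact ha0 haS.symm
  have key := algHom_eq_of_sub_mem_of_pow (Fact.out : p.Prime) (maximalIdeal (integerRing p F))
    ham ha₀m hpa htf (pointMk F x hxF (norm_point_le_one hO x))
    (pointMk F x' hx'F (norm_point_le_one hO x'))
    (pow_eq_one_of_algHom_comp (intCoeAlg F) (intCoe_injective F) _ p hx)
    (pow_eq_one_of_algHom_comp (intCoeAlg F) (intCoe_injective F) _ p hx') (by
      intro h
      rw [mem_span_singleton_iff_norm_le F _ _ haS0, map_sub, intCoe_pointMk, intCoe_pointMk, haS]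
      exact hxx' h)
  ext h
  have := congrArg (fun χ => intCoe F (χ h)) key
  simpa using this

/-- **Rigidity** for points with values in `PadicAlgCl p`: two points killed by `p` and congruent
modulo an element `a` with `|a| < |p|^(1/(p-1))` are equal. -/
theorem point_eq_of_norm_sub_le
    (hO : ∀ r : O, ‖algebraMap O (PadicAlgCl p) r‖ ≤ 1)
    (E : IntermediateField ℚ_[p] (PadicAlgCl p)) [FiniteDimensional ℚ_[p] E]
    (hOE : ∀ r : O, algebraMap O (PadicAlgCl p) r ∈ E)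
    {a : PadicAlgCl p} (haE : a ∈ E) (ha : ‖a‖ ^ (p - 1) < ‖(p : PadicAlgCl p)‖)
    (x x' : H →ₐ[O] PadicAlgCl p)
    (hx : (toConv x.toLinearMap : WithConv (H →ₗ[O] PadicAlgCl p)) ^ p = 1)
    (hx' : (toConv x'.toLinearMap : WithConv (H →ₗ[O] PadicAlgCl p)) ^ p = 1)
    (hxx' : ∀ h, ‖x h - x' h‖ ≤ ‖a‖) : x = x' := by
  classical
  have : Nontrivial O := (algebraMap O (PadicAlgCl p)).domain_nontrivial
  let b := Module.Free.chooseBasis O H
  let s : Set (PadicAlgCl p) := Set.range (fun i => x (b i)) ∪ Set.range (fun i => x' (b i))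
  have : Finite s := ((Set.finite_range _).union (Set.finite_range _)).to_subtype
  have : FiniteDimensional ℚ_[p] (IntermediateField.adjoin ℚ_[p] s) :=
    IntermediateField.finiteDimensional_adjoin (fun y _ => Algebra.IsIntegral.isIntegral y)
  let F : IntermediateField ℚ_[p] (PadicAlgCl p) := E ⊔ IntermediateField.adjoin ℚ_[p] s
  have hEF : E ≤ F := le_sup_left
  have hsF : s ⊆ F := fun y hy =>
    (le_sup_right : IntermediateField.adjoin ℚ_[p] s ≤ F) (IntermediateField.subset_adjoin _ _ hy)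
  have hval : ∀ z : H →ₐ[O] PadicAlgCl p, (∀ i, z (b i) ∈ F) → ∀ h, z h ∈ F := by
    intro z hz h
    rw [← b.sum_repr h, map_sum]
    refine sum_mem fun i _ => ?_
    rw [map_smul, Algebra.smul_def]
    exact F.mul_mem (hEF (hOE _)) (hz i)
  exact point_eq_of_norm_sub_le_of_mem hO F (fun r => hEF (hOE r)) (hEF haE) ha x x' hx hx'
    (hval x fun i => hsF (Or.inl ⟨i, rfl⟩)) (hval x' fun i => hsF (Or.inr ⟨i, rfl⟩)) hxx'

/-- **Rigidity, sharp form**: two distinct points killed by `p` differ by at least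
`|p|^(1/(p-1))` on some element. -/
theorem point_eq_of_forall_norm_sub_lt
    (hO : ∀ r : O, ‖algebraMap O (PadicAlgCl p) r‖ ≤ 1)
    (E : IntermediateField ℚ_[p] (PadicAlgCl p)) [FiniteDimensional ℚ_[p] E]
    (hOE : ∀ r : O, algebraMap O (PadicAlgCl p) r ∈ E)
    (x x' : H →ₐ[O] PadicAlgCl p)
    (hx : (toConv x.toLinearMap : WithConv (H →ₗ[O] PadicAlgCl p)) ^ p = 1)
    (hx' : (toConv x'.toLinearMap : WithConv (H →ₗ[O] PadicAlgCl p)) ^ p = 1)
    (hxx' : ∀ h, ‖x h - x' h‖ ^ (p - 1) < ‖(p : PadicAlgCl p)‖) : x = x' := by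
  classical
  have : Nontrivial O := (algebraMap O (PadicAlgCl p)).domain_nontrivial
  let b := Module.Free.chooseBasis O H
  rcases isEmpty_or_nonempty (Module.Free.ChooseBasisIndex O H) with hemp | hne
  · ext h
    rw [← b.sum_repr h]
    simp
  obtain ⟨i₀, hi₀⟩ := Finite.exists_max (fun i => ‖x (b i) - x' (b i)‖)
  have hle : ∀ h, ‖x h - x' h‖ ≤ ‖x (b i₀) - x' (b i₀)‖ := by
    intro h
    have hsum : x h - x' h = ∑ i, algebraMap O (PadicAlgCl p) (b.repr h i)
        * (x (b i) - x' (b i)) := by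
      conv_lhs => rw [← b.sum_repr h]
      rw [map_sum, map_sum, ← Finset.sum_sub_distrib]
      refine Finset.sum_congr rfl fun i _ => ?_
      rw [map_smul, map_smul, Algebra.smul_def, Algebra.smul_def, mul_sub]
    rw [hsum]
    refine IsUltrametricDist.norm_sum_le_of_forall_le_of_nonneg (norm_nonneg _) fun i _ => ?_
    rw [norm_mul]
    calc ‖algebraMap O (PadicAlgCl p) (b.repr h i)‖ * ‖x (b i) - x' (b i)‖
        ≤ 1 * ‖x (b i) - x' (b i)‖ := mul_le_mul_of_nonneg_right (hO _) (norm_nonneg _)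
      _ = ‖x (b i) - x' (b i)‖ := one_mul _
      _ ≤ ‖x (b i₀) - x' (b i₀)‖ := hi₀ i
  let F : IntermediateField ℚ_[p] (PadicAlgCl p) :=
    E ⊔ IntermediateField.adjoin ℚ_[p] {x (b i₀) - x' (b i₀)}
  have : FiniteDimensional ℚ_[p] (IntermediateField.adjoin ℚ_[p] {x (b i₀) - x' (b i₀)}) :=
    IntermediateField.finiteDimensional_adjoin (fun y _ => Algebra.IsIntegral.isIntegral y)
  have hEF : E ≤ F := le_sup_left
  have haF : x (b i₀) - x' (b i₀) ∈ F :=
    (le_sup_right : IntermediateField.adjoin ℚ_[p] {x (b i₀) - x' (b i₀)} ≤ F)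
      (IntermediateField.subset_adjoin _ _ rfl)
  exact point_eq_of_norm_sub_le hO F (fun r => hEF (hOE r)) haF (hxx' _) x x' hx hx' hle

/-- **(L3) / M2, core form** (Fontaine's property `(P_m)` for points killed by `p`; the
hypothesis `hptsL` is the point-level killing in linear form).  `T` is an `O`-algebra inside `PadicAlgCl p` containing all values of all points of `H`
(e.g. the ring of integers of the field they generate), `E` is a finite extension of `ℚ_p` and
`τ : T → 𝒪_E` is an `O`-linear map which is unital and multiplicative modulo `c`, with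
`|c| < |p|^(p/(p-1))`, and reflects the inequality `|·| ≤ |c/p|`.  Then every point of `H` has
all its values in `E`. -/
theorem points_mem_of_approx_hom_aux {T : Type*} [CommRing T] [Algebra O T]
    (hptsL : ∀ x : H →ₐ[O] PadicAlgCl p,
      (toConv x.toLinearMap : WithConv (H →ₗ[O] PadicAlgCl p)) ^ p = 1)
    (E : IntermediateField ℚ_[p] (PadicAlgCl p)) [FiniteDimensional ℚ_[p] E]
    (hOE : ∀ r : O, algebraMap O (PadicAlgCl p) r ∈ E)
    (hO : ∀ r : O, ‖algebraMap O (PadicAlgCl p) r‖ ≤ 1)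
    (j : T →ₐ[O] PadicAlgCl p) (hj : Function.Injective j)
    (hT : ∀ (x : H →ₐ[O] PadicAlgCl p) (h : H), x h ∈ j.range)
    (τ : T →ₗ[O] PadicAlgCl p) (hτE : ∀ t, τ t ∈ E) (hτint : ∀ t, ‖τ t‖ ≤ 1)
    (c : PadicAlgCl p) (hcE : c ∈ E) (hc0 : c ≠ 0)
    (hc : ‖c‖ ^ (p - 1) < ‖(p : PadicAlgCl p)‖ ^ p)
    (hτrefl : ∀ t, ‖(p : PadicAlgCl p)‖ * ‖τ t‖ ≤ ‖c‖ → ‖(p : PadicAlgCl p)‖ * ‖j t‖ ≤ ‖c‖)
    (hτ1 : ‖τ 1 - 1‖ ≤ ‖c‖) (hτmul : ∀ s t, ‖τ (s * t) - τ s * τ t‖ ≤ ‖c‖)
    (x : H →ₐ[O] PadicAlgCl p) (h : H) : x h ∈ E := by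
  classical
  have hp := (Fact.out : p.Prime)
  have hpn0 : (p : PadicAlgCl p) ≠ 0 := natCast_prime_ne_zero'
  have hppos : 0 < ‖(p : PadicAlgCl p)‖ := norm_pos_iff.mpr hpn0
  have : IsIntBase O E := ⟨hOE, hO⟩
  have : Nontrivial O := (algebraMap O (PadicAlgCl p)).domain_nontrivial
  obtain ⟨a, ha_def⟩ : ∃ a : PadicAlgCl p, a = c / p := ⟨_, rfl⟩
  have haE : a ∈ E := ha_def ▸ E.div_mem hcE (natCast_mem E p)
  have ha0 : a ≠ 0 := ha_def ▸ div_ne_zero hc0 hpn0
  have hna : ‖a‖ = ‖c‖ / ‖(p : PadicAlgCl p)‖ := ha_def ▸ norm_div _ _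
  have hpa_norm : ‖(p : PadicAlgCl p)‖ * ‖a‖ = ‖c‖ := by
    rw [hna, mul_div_cancel₀ _ hppos.ne']
  have ha : ‖a‖ ^ (p - 1) < ‖(p : PadicAlgCl p)‖ := by
    rw [hna, div_pow, div_lt_iff₀ (pow_pos hppos _)]
    calc ‖c‖ ^ (p - 1) < ‖(p : PadicAlgCl p)‖ ^ p := hc
      _ = ‖(p : PadicAlgCl p)‖ * ‖(p : PadicAlgCl p)‖ ^ (p - 1) := by
          rw [← pow_succ']
          congr 1
          have := hp.one_le
          omega
  obtain ⟨aS, a₀S, haS, ham, ha₀m, hpa, htf, hpaS⟩ := exists_setup E haE ha0 ha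
  have hcS : intCoe E ((p : integerRing p E) * aS) = c := by
    rw [map_mul, intCoe_natCast, haS, ha_def, mul_div_cancel₀ _ hpn0]
  have haS0 : aS ≠ 0 := by
    rintro rfl
    rw [map_zero] at haS
    exact ha0 haS.symm
  -- the lifting step
  have step : ∀ z : H →ₐ[O] PadicAlgCl p, ∃ y : H →ₐ[O] PadicAlgCl p, (∀ h, y h ∈ E) ∧
      ∃ zT : H →ₗ[O] T, (∀ h, j (zT h) = z h) ∧ ∀ h, ‖y h - τ (zT h)‖ ≤ ‖a‖ := by
    intro z
    let b := Module.Free.chooseBasis O H
    choose t ht using fun i => hT z (b i)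
    let zT : H →ₗ[O] T := b.constr O t
    have hzT : ∀ h, j (zT h) = z h := by
      intro h
      have hcomp : j.toLinearMap ∘ₗ zT = z.toLinearMap := b.ext fun i => by
        simp only [LinearMap.comp_apply, AlgHom.toLinearMap_apply, zT, Module.Basis.constr_basis]
        exact ht i
      exact LinearMap.congr_fun hcomp h
    have hzT1 : zT 1 = 1 := hj (by rw [hzT, map_one, map_one])
    have hzTmul : ∀ u v, zT (u * v) = zT u * zT v := fun u v =>
      hj (by rw [hzT, map_mul, map_mul, hzT, hzT])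
    let τS : T →ₗ[O] integerRing p E := linMk E τ hτE hτint
    have hτco : ∀ t, intCoe E (τS t) = τ t := fun t => rfl
    have hτS1 : τS 1 - 1 ∈ Ideal.span {(p : integerRing p E) * aS} := by
      rw [mem_span_singleton_iff_norm_le E _ _ hpaS, hcS, map_sub, map_one (intCoe E), hτco]
      exact hτ1
    have hτSmul : ∀ s t, τS (s * t) - τS s * τS t
        ∈ Ideal.span {(p : integerRing p E) * aS} := by
      intro s t
      rw [mem_span_singleton_iff_norm_le E _ _ hpaS, hcS, map_sub, map_mul (intCoe E), hτco,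
        hτco, hτco]
      exact hτmul s t
    let g : H →ₗ[O] integerRing p E := τS ∘ₗ zT
    have hgco : ∀ h, intCoe E (g h) = τ (zT h) := fun h => rfl
    have hzTp : (toConv zT : WithConv (H →ₗ[O] T)) ^ p = 1 := by
      refine pow_eq_one_of_algHom_comp j hj (toConv zT) p ?_
      have hcomp : j.toLinearMap ∘ₗ zT = z.toLinearMap := LinearMap.ext fun h => hzT h
      rw [WithConv.ofConv_toConv, hcomp]
      exact hptsL z
    have hgp : (toConv g : WithConv (H →ₗ[O] integerRing p E)) ^ p - 1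
        ∈ mapsInto (Ideal.span {(p : integerRing p E) * aS}) := by
      have h0 := comp_pow_sub_mem (Ideal.span {(p : integerRing p E) * aS}) τS hτS1 hτSmul
        (toConv zT : WithConv (H →ₗ[O] T)) 0
      have h1 := comp_pow_sub_mem (Ideal.span {(p : integerRing p E) * aS}) τS hτS1 hτSmul
        (toConv zT : WithConv (H →ₗ[O] T)) p
      rw [hzTp] at h1
      rw [pow_zero, pow_zero] at h0
      have h2 := Ideal.sub_mem _ h0 h1
      have e : (toConv g : WithConv (H →ₗ[O] integerRing p E)) ^ p - 1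
          = (toConv (τS ∘ₗ (1 : WithConv (H →ₗ[O] T)).ofConv) - 1) -
            (toConv (τS ∘ₗ (1 : WithConv (H →ₗ[O] T)).ofConv)
              - toConv (τS ∘ₗ (toConv zT : WithConv (H →ₗ[O] T)).ofConv) ^ p) := by
        rw [sub_sub_sub_cancel_left]
      rw [e]
      exact h2
    obtain ⟨χ, -, hχ⟩ := exists_algHom_lift_of_pow hp (maximalIdeal (integerRing p E)) ham ha₀m
      hpa htf g (by
        have : g 1 = τS 1 := by change τS (zT 1) = τS 1; rw [hzT1]
        rw [this]; exact hτS1) (by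
        intro u v
        have : g (u * v) = τS (zT u * zT v) := by change τS (zT (u * v)) = _; rw [hzTmul]
        rw [this]
        exact hτSmul _ _) hgp
    refine ⟨(intCoeAlg E).comp χ, fun h => intCoe_mem E _, zT, hzT, fun h => ?_⟩
    have h1 := (mem_span_singleton_iff_norm_le E _ _ haS0).mp (hχ h)
    rw [map_sub, haS, hgco] at h1
    exact h1
  choose f hfE zT hzT hf using step
  have hinj : Function.Injective f := by
    intro z z' hzz'
    apply point_eq_of_norm_sub_le hO E hOE haE ha z z' (hptsL z) (hptsL z')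
    intro h
    have h1 := hf z h
    have h2 := hf z' h
    rw [hzz'] at h1
    have h3 : ‖τ (zT z h - zT z' h)‖ ≤ ‖a‖ := by
      rw [map_sub]
      have hrw : τ (zT z h) - τ (zT z' h)
          = (f z' h - τ (zT z' h)) - (f z' h - τ (zT z h)) := by ring
      rw [hrw]
      rw [sub_eq_add_neg]
      exact (IsUltrametricDist.norm_add_le_max _ _).trans (max_le h2 (by rw [norm_neg]; exact h1))
    have h4 := hτrefl (zT z h - zT z' h) (by
      rw [← hpa_norm]; exact mul_le_mul_of_nonneg_left h3 hppos.le)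
    rw [← hpa_norm, map_sub, hzT, hzT] at h4
    exact le_of_mul_le_mul_left h4 hppos
  obtain ⟨x₀, hx₀⟩ := (Finite.injective_iff_surjective.mp hinj) x
  rw [← hx₀]
  exact hfE x₀ h

/-- **(L3) / M2, isometric core form**: `τ` is an `O`-linear isometry from `T` (containing all
values of all points of `H`) to `E`, unital and multiplicative modulo `c`, where
`|c| < |p|^(p/(p-1))`.  Then every point of `H` has all its values in `E`. -/
theorem points_mem_of_approx_hom_isom_aux {T : Type*} [CommRing T] [Algebra O T]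
    (hptsL : ∀ x : H →ₐ[O] PadicAlgCl p,
      (toConv x.toLinearMap : WithConv (H →ₗ[O] PadicAlgCl p)) ^ p = 1)
    (E : IntermediateField ℚ_[p] (PadicAlgCl p)) [FiniteDimensional ℚ_[p] E]
    (hOE : ∀ r : O, algebraMap O (PadicAlgCl p) r ∈ E)
    (hO : ∀ r : O, ‖algebraMap O (PadicAlgCl p) r‖ ≤ 1)
    (j : T →ₐ[O] PadicAlgCl p) (hj : Function.Injective j)
    (hT : ∀ (x : H →ₐ[O] PadicAlgCl p) (h : H), x h ∈ j.range)
    (τ : T →ₗ[O] PadicAlgCl p) (hτE : ∀ t, τ t ∈ E) (hτnorm : ∀ t, ‖τ t‖ = ‖j t‖)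
    (hjint : ∀ t, ‖j t‖ ≤ 1)
    (c : PadicAlgCl p) (hcE : c ∈ E) (hc : ‖c‖ ^ (p - 1) < ‖(p : PadicAlgCl p)‖ ^ p)
    (hτ1 : ‖τ 1 - 1‖ ≤ ‖c‖) (hτmul : ∀ s t, ‖τ (s * t) - τ s * τ t‖ ≤ ‖c‖)
    (x : H →ₐ[O] PadicAlgCl p) (h : H) : x h ∈ E := by
  have hp := (Fact.out : p.Prime)
  have hpn0 : (p : PadicAlgCl p) ≠ 0 := natCast_prime_ne_zero'
  have hppos : 0 < ‖(p : PadicAlgCl p)‖ := norm_pos_iff.mpr hpn0
  rcases eq_or_ne c 0 with rfl | hc0
  · -- exact homomorphism: replace `c` by `p ^ 3`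
    have hc' : ‖(p : PadicAlgCl p) ^ 3‖ ^ (p - 1) < ‖(p : PadicAlgCl p)‖ ^ p := by
      rw [norm_pow, ← pow_mul]
      apply pow_lt_pow_right_of_lt_one₀ hppos norm_natCast_prime_lt_one
      have := hp.two_le
      omega
    have h0 : (0 : ℝ) ≤ ‖(p : PadicAlgCl p) ^ 3‖ := norm_nonneg _
    rw [norm_zero] at hτ1 hτmul
    exact points_mem_of_approx_hom_aux hptsL E hOE hO j hj hT τ hτE
      (fun t => (hτnorm t).le.trans (hjint t)) (p ^ 3) (pow_mem (natCast_mem E p) 3)
      (pow_ne_zero 3 hpn0) hc' (fun t ht => by rwa [← hτnorm t]) (hτ1.trans h0)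
      (fun s t => (hτmul s t).trans h0) x h
  · exact points_mem_of_approx_hom_aux hptsL E hOE hO j hj hT τ hτE
      (fun t => (hτnorm t).le.trans (hjint t)) c hcE hc0 hc (fun t ht => by rwa [← hτnorm t])
      hτ1 hτmul x h

/-- Point-level killing in linear form, from the convolution monoid of points. -/
theorem toLinearMap_pow_eq_one_of_pts
    (hpts : ∀ x : WithConv (H →ₐ[O] PadicAlgCl p), x ^ p = 1) (z : H →ₐ[O] PadicAlgCl p) :
    (toConv z.toLinearMap : WithConv (H →ₗ[O] PadicAlgCl p)) ^ p = 1 := by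
  have h1 := AlgHom.toLinearMap_convPow (toConv z) p
  rw [hpts (toConv z)] at h1
  exact h1.symm

/-- **(L3) / M2, general form, for a Hopf algebra killed by `p`** (`hkill`: the `p`-th
convolution power of the identity of `H` is the unit).  `T` is an `O`-algebra inside
`PadicAlgCl p` containing all values of all points of `H`, `E` is a finite extension of `ℚ_p` and
`τ : T → 𝒪_E` is an `O`-linear map which is unital and multiplicative modulo `c`, with
`|c| < |p|^(p/(p-1))`, and reflects the inequality `|·| ≤ |c/p|`.  Then every point of `H` has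
all its values in `E`. -/
theorem points_mem_of_approx_hom' {T : Type*} [CommRing T] [Algebra O T]
    (hkill : (toConv (LinearMap.id : H →ₗ[O] H)) ^ p = 1)
    (E : IntermediateField ℚ_[p] (PadicAlgCl p)) [FiniteDimensional ℚ_[p] E]
    (hOE : ∀ r : O, algebraMap O (PadicAlgCl p) r ∈ E)
    (hO : ∀ r : O, ‖algebraMap O (PadicAlgCl p) r‖ ≤ 1)
    (j : T →ₐ[O] PadicAlgCl p) (hj : Function.Injective j)
    (hT : ∀ (x : H →ₐ[O] PadicAlgCl p) (h : H), x h ∈ j.range)
    (τ : T →ₗ[O] PadicAlgCl p) (hτE : ∀ t, τ t ∈ E) (hτint : ∀ t, ‖τ t‖ ≤ 1)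
    (c : PadicAlgCl p) (hcE : c ∈ E) (hc0 : c ≠ 0)
    (hc : ‖c‖ ^ (p - 1) < ‖(p : PadicAlgCl p)‖ ^ p)
    (hτrefl : ∀ t, ‖(p : PadicAlgCl p)‖ * ‖τ t‖ ≤ ‖c‖ → ‖(p : PadicAlgCl p)‖ * ‖j t‖ ≤ ‖c‖)
    (hτ1 : ‖τ 1 - 1‖ ≤ ‖c‖) (hτmul : ∀ s t, ‖τ (s * t) - τ s * τ t‖ ≤ ‖c‖)
    (x : H →ₐ[O] PadicAlgCl p) (h : H) : x h ∈ E :=
  points_mem_of_approx_hom_aux (fun z => algHom_pow_eq_one z hkill) E hOE hO j hj hT τ hτE hτint
    c hcE hc0 hc hτrefl hτ1 hτmul x h

/-- **(L3) / M2, general form, point-level killing** (`hpts`: every point is killed by `p` in the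
convolution monoid of points; nothing is assumed on `H` itself). -/
theorem points_mem_of_approx_hom_of_pts' {T : Type*} [CommRing T] [Algebra O T]
    (hpts : ∀ x : WithConv (H →ₐ[O] PadicAlgCl p), x ^ p = 1)
    (E : IntermediateField ℚ_[p] (PadicAlgCl p)) [FiniteDimensional ℚ_[p] E]
    (hOE : ∀ r : O, algebraMap O (PadicAlgCl p) r ∈ E)
    (hO : ∀ r : O, ‖algebraMap O (PadicAlgCl p) r‖ ≤ 1)
    (j : T →ₐ[O] PadicAlgCl p) (hj : Function.Injective j)
    (hT : ∀ (x : H →ₐ[O] PadicAlgCl p) (h : H), x h ∈ j.range)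
    (τ : T →ₗ[O] PadicAlgCl p) (hτE : ∀ t, τ t ∈ E) (hτint : ∀ t, ‖τ t‖ ≤ 1)
    (c : PadicAlgCl p) (hcE : c ∈ E) (hc0 : c ≠ 0)
    (hc : ‖c‖ ^ (p - 1) < ‖(p : PadicAlgCl p)‖ ^ p)
    (hτrefl : ∀ t, ‖(p : PadicAlgCl p)‖ * ‖τ t‖ ≤ ‖c‖ → ‖(p : PadicAlgCl p)‖ * ‖j t‖ ≤ ‖c‖)
    (hτ1 : ‖τ 1 - 1‖ ≤ ‖c‖) (hτmul : ∀ s t, ‖τ (s * t) - τ s * τ t‖ ≤ ‖c‖)
    (x : H →ₐ[O] PadicAlgCl p) (h : H) : x h ∈ E :=
  points_mem_of_approx_hom_aux (toLinearMap_pow_eq_one_of_pts hpts) E hOE hO j hj hT τ hτE hτint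
    c hcE hc0 hc hτrefl hτ1 hτmul x h

/-- **(L3) / M2, isometric form, for a Hopf algebra killed by `p`**: the form consumed by the
Eisenstein argument.  `τ` is an `O`-linear isometry from `T` (containing all values of all
points of `H`) to `E`, unital and multiplicative modulo `c`, where `|c| < |p|^(p/(p-1))`.  Then
every point of `H` has all its values in `E`. -/
theorem points_mem_of_approx_hom {T : Type*} [CommRing T] [Algebra O T]
    (hkill : (toConv (LinearMap.id : H →ₗ[O] H)) ^ p = 1)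
    (E : IntermediateField ℚ_[p] (PadicAlgCl p)) [FiniteDimensional ℚ_[p] E]
    (hOE : ∀ r : O, algebraMap O (PadicAlgCl p) r ∈ E)
    (hO : ∀ r : O, ‖algebraMap O (PadicAlgCl p) r‖ ≤ 1)
    (j : T →ₐ[O] PadicAlgCl p) (hj : Function.Injective j)
    (hT : ∀ (x : H →ₐ[O] PadicAlgCl p) (h : H), x h ∈ j.range)
    (τ : T →ₗ[O] PadicAlgCl p) (hτE : ∀ t, τ t ∈ E) (hτnorm : ∀ t, ‖τ t‖ = ‖j t‖)
    (hjint : ∀ t, ‖j t‖ ≤ 1)
    (c : PadicAlgCl p) (hcE : c ∈ E) (hc : ‖c‖ ^ (p - 1) < ‖(p : PadicAlgCl p)‖ ^ p)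
    (hτ1 : ‖τ 1 - 1‖ ≤ ‖c‖) (hτmul : ∀ s t, ‖τ (s * t) - τ s * τ t‖ ≤ ‖c‖)
    (x : H →ₐ[O] PadicAlgCl p) (h : H) : x h ∈ E :=
  points_mem_of_approx_hom_isom_aux (fun z => algHom_pow_eq_one z hkill) E hOE hO j hj hT τ hτE
    hτnorm hjint c hcE hc hτ1 hτmul x h

/-- **(L3) / M2, isometric form, point-level killing**: the same with the hypothesis that
every point is killed by `p` in the convolution monoid of points (nothing on `H` itself). -/
theorem points_mem_of_approx_hom_of_pts {T : Type*} [CommRing T] [Algebra O T]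
    (hpts : ∀ x : WithConv (H →ₐ[O] PadicAlgCl p), x ^ p = 1)
    (E : IntermediateField ℚ_[p] (PadicAlgCl p)) [FiniteDimensional ℚ_[p] E]
    (hOE : ∀ r : O, algebraMap O (PadicAlgCl p) r ∈ E)
    (hO : ∀ r : O, ‖algebraMap O (PadicAlgCl p) r‖ ≤ 1)
    (j : T →ₐ[O] PadicAlgCl p) (hj : Function.Injective j)
    (hT : ∀ (x : H →ₐ[O] PadicAlgCl p) (h : H), x h ∈ j.range)
    (τ : T →ₗ[O] PadicAlgCl p) (hτE : ∀ t, τ t ∈ E) (hτnorm : ∀ t, ‖τ t‖ = ‖j t‖)
    (hjint : ∀ t, ‖j t‖ ≤ 1)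
    (c : PadicAlgCl p) (hcE : c ∈ E) (hc : ‖c‖ ^ (p - 1) < ‖(p : PadicAlgCl p)‖ ^ p)
    (hτ1 : ‖τ 1 - 1‖ ≤ ‖c‖) (hτmul : ∀ s t, ‖τ (s * t) - τ s * τ t‖ ≤ ‖c‖)
    (x : H →ₐ[O] PadicAlgCl p) (h : H) : x h ∈ E :=
  points_mem_of_approx_hom_isom_aux (toLinearMap_pow_eq_one_of_pts hpts) E hOE hO j hj hT τ hτE
    hτnorm hjint c hcE hc hτ1 hτmul x h

/-! ### The interface with FLAT-BOUND-B: `RigProp` and `LiftProp` for `PadicAlgCl p` -/

theorem rpow_div_pow_pred {r : ℝ} (hr : 0 ≤ r) {q : ℕ} (hq : 2 ≤ q) (k : ℝ) :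
    (r ^ (k / ((q : ℝ) - 1))) ^ (q - 1) = r ^ k := by
  have h2 : (2 : ℝ) ≤ q := by exact_mod_cast hq
  rw [← Real.rpow_natCast, ← Real.rpow_mul hr, Nat.cast_sub (by omega), Nat.cast_one,
    div_mul_cancel₀]
  linarith

/-- A linear map bounded on a basis is bounded. -/
theorem norm_le_of_basis (hO : ∀ r : O, ‖algebraMap O (PadicAlgCl p) r‖ ≤ 1)
    {ι : Type*} [Fintype ι] (b : Module.Basis ι O H) (f : H →ₗ[O] PadicAlgCl p) {C : ℝ}
    (hC : 0 ≤ C) (hf : ∀ i, ‖f (b i)‖ ≤ C) (h : H) : ‖f h‖ ≤ C := by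
  rw [← b.sum_repr h, map_sum]
  refine IsUltrametricDist.norm_sum_le_of_forall_le_of_nonneg hC fun i _ => ?_
  rw [map_smul, Algebra.smul_def, norm_mul]
  calc ‖algebraMap O (PadicAlgCl p) (b.repr h i)‖ * ‖f (b i)‖ ≤ 1 * C :=
        mul_le_mul (hO _) (hf i) (norm_nonneg _) zero_le_one
    _ = C := one_mul C

/-- **(L1) in the shape of `helper453.RigProp`** for `Cp = PadicAlgCl p`: two points of a finite
free cocommutative bialgebra, all of whose points are killed by `p`, which are congruent modulo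
an ideal of valuation `> 1/(p-1)` are equal. -/
theorem rigProp_padic
    (hO : ∀ r : O, ‖algebraMap O (PadicAlgCl p) r‖ ≤ 1)
    (E₀ : IntermediateField ℚ_[p] (PadicAlgCl p)) [FiniteDimensional ℚ_[p] E₀]
    (hOE : ∀ r : O, algebraMap O (PadicAlgCl p) r ∈ E₀)
    (hpts : ∀ x : WithConv (H →ₐ[O] PadicAlgCl p), x ^ p = 1) :
    ∀ (x y : H →ₐ[O] PadicAlgCl p) (θ : ℝ),
      θ < ‖(p : PadicAlgCl p)‖ ^ ((1 : ℝ) / ((p : ℝ) - 1)) →
      (∀ a, ‖x a - y a‖ ≤ θ) → x = y := by
  intro x y θ hθ hxy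
  have hp := (Fact.out : p.Prime)
  refine point_eq_of_forall_norm_sub_lt hO E₀ hOE x y (toLinearMap_pow_eq_one_of_pts hpts x)
    (toLinearMap_pow_eq_one_of_pts hpts y) fun h => ?_
  have h1 : ‖x h - y h‖ ^ (p - 1)
      < (‖(p : PadicAlgCl p)‖ ^ ((1 : ℝ) / ((p : ℝ) - 1))) ^ (p - 1) :=
    pow_lt_pow_left₀ (lt_of_le_of_lt (hxy h) hθ) (norm_nonneg _)
      (by have := hp.two_le; omega)
  rwa [rpow_div_pow_pred (norm_nonneg _) hp.two_le, Real.rpow_one] at h1

/-- **(L2) in the shape of `helper453.LiftProp`** for `Cp = PadicAlgCl p` and `E` a finite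
extension of `ℚ_p`: a linear map `g` with integral values in `E` which is a point killed by `p`
modulo an ideal of valuation `> p/(p-1)` is congruent to a genuine point with values in `E`,
modulo that ideal divided by `p`.  No hypothesis on `H` beyond finite free cocommutative. -/
theorem liftProp_padic (E : IntermediateField ℚ_[p] (PadicAlgCl p)) [FiniteDimensional ℚ_[p] E] :
    ∀ (g : H →ₗ[O] PadicAlgCl p) (ρ : ℝ),
      ρ < ‖(p : PadicAlgCl p)‖ ^ ((p : ℝ) / ((p : ℝ) - 1)) →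
      (∀ a, g a ∈ (E : Set (PadicAlgCl p))) → (∀ a, ‖g a‖ ≤ 1) →
      (∀ a b, ‖g (a * b) - g a * g b‖ ≤ ρ) → g 1 = 1 →
      (∀ a, ‖(toConv g ^ p).ofConv a - algebraMap O (PadicAlgCl p) (Coalgebra.counit a)‖ ≤ ρ) →
      ∃ χ : H →ₐ[O] PadicAlgCl p, (∀ a, χ a ∈ (E : Set (PadicAlgCl p))) ∧
        ∀ a, ‖χ a - g a‖ ≤ ρ / ‖(p : PadicAlgCl p)‖ := by
  classical
  intro g ρ hρ hgE hgint hgmul hg1 hgpow
  have hp := (Fact.out : p.Prime)
  have hpn0 : (p : PadicAlgCl p) ≠ 0 := natCast_prime_ne_zero'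
  have hppos : 0 < ‖(p : PadicAlgCl p)‖ := norm_pos_iff.mpr hpn0
  have hρ0 : 0 ≤ ρ := (norm_nonneg _).trans (hgmul 1 1)
  have hsm : ∀ r : O, algebraMap O (PadicAlgCl p) r = g (r • 1) := by
    intro r
    rw [map_smul, hg1, Algebra.algebraMap_eq_smul_one]
  have hOE : ∀ r : O, algebraMap O (PadicAlgCl p) r ∈ E := fun r => by
    rw [hsm]; exact hgE _
  have hO : ∀ r : O, ‖algebraMap O (PadicAlgCl p) r‖ ≤ 1 := fun r => by
    rw [hsm]; exact hgint _
  have : IsIntBase O E := ⟨hOE, hO⟩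
  have : Nontrivial O := (algebraMap O (PadicAlgCl p)).domain_nontrivial
  let b := Module.Free.chooseBasis O H
  -- the defects, as (bi)linear maps
  let Δ : H →ₗ[O] H →ₗ[O] PadicAlgCl p :=
    (LinearMap.mul O H).compr₂ g - (LinearMap.mul O (PadicAlgCl p)).compl₁₂ g g
  have hΔ : ∀ u v, Δ u v = g (u * v) - g u * g v := fun u v => rfl
  let P : H →ₗ[O] PadicAlgCl p :=
    (toConv g ^ p).ofConv - (1 : WithConv (H →ₗ[O] PadicAlgCl p)).ofConv
  have hP : ∀ u, P u = (toConv g ^ p).ofConv u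
      - algebraMap O (PadicAlgCl p) (Coalgebra.counit u) := fun u => rfl
  -- an element of `E` of maximal norm among the defects on the basis
  obtain ⟨c, hcE, hcρ, hcΔ, hcP⟩ : ∃ c : PadicAlgCl p, c ∈ E ∧ ‖c‖ ≤ ρ ∧
      (∀ i j, ‖Δ (b i) (b j)‖ ≤ ‖c‖) ∧ ∀ i, ‖P (b i)‖ ≤ ‖c‖ := by
    let d : (Module.Free.ChooseBasisIndex O H × Module.Free.ChooseBasisIndex O H)
        ⊕ Module.Free.ChooseBasisIndex O H → PadicAlgCl p :=
      Sum.elim (fun ij => Δ (b ij.1) (b ij.2)) (fun i => P (b i))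
    have hdE : ∀ k, d k ∈ E := by
      rintro (⟨i, j⟩ | i)
      · exact E.sub_mem (hgE _) (E.mul_mem (hgE _) (hgE _))
      · change P (b i) ∈ E
        rw [hP]
        refine E.sub_mem ?_ (hOE _)
        -- the convolution power of `g` has values in `E`
        have key := algHom_comp_pow (intCoeAlg (O := O) E)
          (toConv (linMk E g hgE hgint) : WithConv (H →ₗ[O] integerRing p E)) p
        have key2 := congrArg (fun q : WithConv (H →ₗ[O] PadicAlgCl p) => q.ofConv (b i)) key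
        have e : (intCoeAlg (O := O) E).toLinearMap ∘ₗ (linMk E g hgE hgint) = g :=
          LinearMap.ext fun _ => rfl
        simp only [e] at key2
        rw [← key2]
        exact intCoe_mem E _
    have hdρ : ∀ k, ‖d k‖ ≤ ρ := by
      rintro (⟨i, j⟩ | i)
      · exact hgmul _ _
      · exact hgpow _
    rcases isEmpty_or_nonempty (Module.Free.ChooseBasisIndex O H) with hemp | hne
    · exact ⟨0, E.zero_mem, by rw [norm_zero]; exact hρ0, fun i => isEmptyElim i,
        fun i => isEmptyElim i⟩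
    · obtain ⟨k₀, hk₀⟩ := Finite.exists_max (fun k => ‖d k‖)
      exact ⟨d k₀, hdE k₀, hdρ k₀, fun i j => hk₀ (Sum.inl (i, j)), fun i => hk₀ (Sum.inr i)⟩
  have hmulc : ∀ u v, ‖g (u * v) - g u * g v‖ ≤ ‖c‖ := by
    intro u v
    rw [← hΔ]
    refine norm_le_of_basis hO b (Δ u) (norm_nonneg _) (fun j => ?_) v
    exact norm_le_of_basis hO b (Δ.flip (b j)) (norm_nonneg _) (fun i => hcΔ i j) u
  have hpowc : ∀ u, ‖(toConv g ^ p).ofConv u
      - algebraMap O (PadicAlgCl p) (Coalgebra.counit u)‖ ≤ ‖c‖ := by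
    intro u
    rw [← hP]
    exact norm_le_of_basis hO b P (norm_nonneg _) hcP u
  rcases eq_or_ne c 0 with rfl | hc0
  · -- `g` is already a point
    rw [norm_zero] at hmulc
    refine ⟨AlgHom.ofLinearMap g hg1 fun u v => ?_, hgE, fun a => ?_⟩
    · have := hmulc u v
      rwa [norm_le_zero_iff, sub_eq_zero] at this
    · rw [AlgHom.ofLinearMap_apply, sub_self, norm_zero]
      exact div_nonneg hρ0 hppos.le
  obtain ⟨a, ha_def⟩ : ∃ a : PadicAlgCl p, a = c / p := ⟨_, rfl⟩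
  have haE : a ∈ E := ha_def ▸ E.div_mem hcE (natCast_mem E p)
  have ha0 : a ≠ 0 := ha_def ▸ div_ne_zero hc0 hpn0
  have hna : ‖a‖ = ‖c‖ / ‖(p : PadicAlgCl p)‖ := ha_def ▸ norm_div _ _
  have hc : ‖c‖ ^ (p - 1) < ‖(p : PadicAlgCl p)‖ ^ p := by
    have h1 : ‖c‖ ^ (p - 1)
        < (‖(p : PadicAlgCl p)‖ ^ ((p : ℝ) / ((p : ℝ) - 1))) ^ (p - 1) :=
      pow_lt_pow_left₀ (lt_of_le_of_lt hcρ hρ) (norm_nonneg _)
        (by have := hp.two_le; omega)
    rwa [rpow_div_pow_pred (norm_nonneg _) hp.two_le, Real.rpow_natCast] at h1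
  have ha : ‖a‖ ^ (p - 1) < ‖(p : PadicAlgCl p)‖ := by
    rw [hna, div_pow, div_lt_iff₀ (pow_pos hppos _)]
    calc ‖c‖ ^ (p - 1) < ‖(p : PadicAlgCl p)‖ ^ p := hc
      _ = ‖(p : PadicAlgCl p)‖ * ‖(p : PadicAlgCl p)‖ ^ (p - 1) := by
          rw [← pow_succ']
          congr 1
          have := hp.one_le
          omega
  obtain ⟨aS, a₀S, haS, ham, ha₀m, hpa, htf, hpaS⟩ := exists_setup E haE ha0 ha
  have hcS : intCoe E ((p : integerRing p E) * aS) = c := by
    rw [map_mul, intCoe_natCast, haS, ha_def, mul_div_cancel₀ _ hpn0]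
  have haS0 : aS ≠ 0 := by
    rintro rfl
    rw [map_zero] at haS
    exact ha0 haS.symm
  let gS : H →ₗ[O] integerRing p E := linMk E g hgE hgint
  have hgco : ∀ h, intCoe E (gS h) = g h := fun h => rfl
  have hgS1 : gS 1 = 1 := intCoe_injective E (by rw [hgco, hg1, map_one])
  have hcomp : (intCoeAlg (O := O) E).toLinearMap ∘ₗ gS = g := LinearMap.ext fun _ => rfl
  have hpowS : ∀ u, intCoe E (((toConv gS : WithConv (H →ₗ[O] integerRing p E)) ^ p).ofConv u)
      = (toConv g ^ p).ofConv u := by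
    intro u
    have key := algHom_comp_pow (intCoeAlg (O := O) E)
      (toConv gS : WithConv (H →ₗ[O] integerRing p E)) p
    have key2 := congrArg (fun q : WithConv (H →ₗ[O] PadicAlgCl p) => q.ofConv u) key
    simp only [hcomp] at key2
    exact key2
  obtain ⟨χ, -, hχ⟩ := exists_algHom_lift_of_pow hp (maximalIdeal (integerRing p E)) ham ha₀m
    hpa htf gS (by rw [hgS1, sub_self]; exact Ideal.zero_mem _) (by
      intro u v
      rw [mem_span_singleton_iff_norm_le E _ _ hpaS, hcS, map_sub, map_mul (intCoe E), hgco,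
        hgco, hgco]
      exact hmulc u v) (by
      intro u
      rw [mem_span_singleton_iff_norm_le E _ _ hpaS, hcS, WithConv.ofConv_sub,
        LinearMap.sub_apply, map_sub, hpowS]
      have e1 : (1 : WithConv (H →ₗ[O] integerRing p E)).ofConv u
          = algebraMap O (integerRing p E) (Coalgebra.counit (R := O) u) :=
        LinearMap.convOne_apply u
      rw [e1]
      exact hpowc u)
  refine ⟨(intCoeAlg E).comp χ, fun h => intCoe_mem E _, fun h => ?_⟩
  have h1 := (mem_span_singleton_iff_norm_le E _ _ haS0).mp (hχ h)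
  rw [map_sub, haS, hgco] at h1
  exact h1.trans (by rw [hna]; exact div_le_div_of_nonneg_right hcρ hppos.le)

/-- `liftProp_padic` for an intermediate field of a tower `ℚ_p ⊆ K' ⊆ PadicAlgCl p`, the exact
form of the hypothesis `hlift` of `helper453.TotRam.fontaine_bound`. -/
theorem liftProp_padic_tower {K' : Type*} [Field K'] [Algebra ℚ_[p] K']
    [Algebra K' (PadicAlgCl p)] [IsScalarTower ℚ_[p] K' (PadicAlgCl p)]
    [FiniteDimensional ℚ_[p] K'] (E : IntermediateField K' (PadicAlgCl p))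
    (hE : FiniteDimensional K' E) :
    ∀ (g : H →ₗ[O] PadicAlgCl p) (ρ : ℝ),
      ρ < ‖(p : PadicAlgCl p)‖ ^ ((p : ℝ) / ((p : ℝ) - 1)) →
      (∀ a, g a ∈ (E : Set (PadicAlgCl p))) → (∀ a, ‖g a‖ ≤ 1) →
      (∀ a b, ‖g (a * b) - g a * g b‖ ≤ ρ) → g 1 = 1 →
      (∀ a, ‖(toConv g ^ p).ofConv a - algebraMap O (PadicAlgCl p) (Coalgebra.counit a)‖ ≤ ρ) →
      ∃ χ : H →ₐ[O] PadicAlgCl p, (∀ a, χ a ∈ (E : Set (PadicAlgCl p))) ∧
        ∀ a, ‖χ a - g a‖ ≤ ρ / ‖(p : PadicAlgCl p)‖ := by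
  have : FiniteDimensional ℚ_[p] (E.restrictScalars ℚ_[p]) :=
    FiniteDimensional.trans ℚ_[p] K' E
  exact liftProp_padic (E.restrictScalars ℚ_[p])

end Main

section Kill

open Coalgebra

variable {O H K : Type*} [CommRing O] [CommRing H] [Bialgebra O H] [Coalgebra.IsCocomm O H]
  [CommRing K] [Algebra O K]

/-- If the `K`-valued points separate the elements of `H` and every point is killed by `n` in
the convolution monoid, then `H` itself is killed by `n`: the `n`-th convolution power of the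
identity is the unit.  (For a function order the points are the evaluations.) -/
theorem hkill_of_points (n : ℕ)
    (hsep : ∀ h : H, (∀ x : H →ₐ[O] K, x h = 0) → h = 0)
    (hpts : ∀ x : H →ₐ[O] K, (toConv x.toLinearMap : WithConv (H →ₗ[O] K)) ^ n = 1) :
    (toConv (LinearMap.id : H →ₗ[O] H)) ^ n = 1 := by
  have hcomp : ∀ (x : H →ₐ[O] K) (m : ℕ),
      toConv (x.toLinearMap ∘ₗ ((toConv (LinearMap.id : H →ₗ[O] H)) ^ m).ofConv)
        = (toConv x.toLinearMap : WithConv (H →ₗ[O] K)) ^ m := by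
    intro x m
    have h := comp_pow_sub_mem (⊥ : Ideal K) x.toLinearMap (by simp) (by intro u v; simp)
      (toConv (LinearMap.id : H →ₗ[O] H)) m
    have h2 := mapsInto_bot_eq h
    rw [sub_eq_zero] at h2
    rw [h2]
    rfl
  apply WithConv.ofConv_injective
  ext h
  rw [← sub_eq_zero]
  apply hsep
  intro x
  have h1 := congrArg (fun f : WithConv (H →ₗ[O] K) => f.ofConv h) ((hcomp x n).trans (hpts x))
  simp only [LinearMap.comp_apply, AlgHom.toLinearMap_apply] at h1
  rw [map_sub, h1, sub_eq_zero]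
  simp [LinearMap.convOne_apply, Algebra.algebraMap_eq_smul_one]

end Kill

end Fermat.Agent.S56.helper6909
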