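import Mathlib
import Fermat.Agent.S56.helper9859_TateCycSpec
import Fermat.Agent.S56.helper7860_EquivKummer

/-!
# S56 / TATE-T1-KUM (helper7860): (H1a) and (H1b) of `Stmt_H1` on the carriers of the T1 Spec

The retract step and the equivariant Kummer lower bound of `helper7860_EquivKummer`, stated for
`helper9859.kap`, `helper9859.kd`, `helper9859.twist` verbatim:

* `lam_eq_leftTr`   : the Spec's `lam p K σ` is `leftTr K.fixingSubgroup (ZMod p) σ`;
* `h1_kap_eq_kd`    : `h1 S (kap p K σ φ) = kd φ (H¹(lam))`                      — (H1a);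
* `kd_le_h1_kap`    : `kd φ (twist σ p • T.baseChange (ZMod p)) ≤ h1 S (kap p K σ φ)` for a
  `σ`-equivariant Kummer datum `(A, j, T)`                                       — (H1a)+(H1b);
* `kd_sUnits_le_h1_kap` : the same for `A = Additive (SUnits ↥K (SF K S))`.
-/

set_option autoImplicit false

open CategoryTheory groupCohomology

noncomputable section

namespace Fermat.Agent.S56.helper7860

open Fermat.Agent.S55.helper3071 Fermat.Agent.S55.helper324 Fermat.Agent.S55.helper9292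
  Fermat.Agent.S14.helper2613 Fermat.Agent.Lib.helper54 ExtCitation Polynomial TensorProduct
open Fermat.Agent.S55.helper2945 hiding GQ
open scoped NumberField

attribute [local instance] numberField_intermediate

local notation "Qbar" => AlgebraicClosure ℚ

variable {S : Finset Nat.Primes} {p : ℕ} [Fact p.Prime] {K : IntermediateField ℚ Qbar}
  [hn : K.fixingSubgroup.Normal] {σ : GQ} {n : ℕ}

/-- The Spec's left translation is `leftTr`. -/
theorem lam_eq_leftTr (p : ℕ) [Fact p.Prime] (K : IntermediateField ℚ Qbar)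
    [K.fixingSubgroup.Normal] (σ : GQ) :
    helper9859.lam p K σ = leftTr K.fixingSubgroup (ZMod p) σ := by
  apply Rep.hom_ext
  ext f x
  rfl

/-- `galH1Act σ` is `H¹(lam)` for the Spec's `lam`. -/
theorem galH1Act_eq_h1SMap_lam (S : Finset Nat.Primes) (p : ℕ) [Fact p.Prime]
    (K : IntermediateField ℚ Qbar) [K.fixingSubgroup.Normal] (σ : GQ) :
    (galH1Act S p K (ZMod p) σ).toLinearMap = h1SMap S (helper9859.lam p K σ) := by
  rw [lam_eq_leftTr, galH1Act_toLinearMap]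

/-- **(H1a) RETRACT on the Spec carriers**: `h¹(G_S, kap φ) = kd φ (H¹(lam))`. -/
theorem h1_kap_eq_kd (h : helper9859.CycData S p K σ n) {φ : Polynomial (ZMod p)}
    (hφ : φ ∣ X ^ n - 1) :
    h1 S (helper9859.kap p K σ φ) =
      helper9859.kd φ (galH1Act S p K (ZMod p) σ).toLinearMap := by
  obtain ⟨φ', hφ'⟩ := hφ
  refine h1_kernel_eq_kd σ h.pow h.cop φ φ' hφ'.symm
    (helper9859.kerIncl (indRep p K) (helper9859.lam p K σ) φ)
    (helper9859.kerIncl_injective _ _ φ) ?_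
  intro e
  rw [← lam_eq_leftTr]
  constructor
  · rintro ⟨x, rfl⟩
    exact (helper9859.mem_kerSub _ _ φ _).1 x.2
  · intro he
    exact ⟨⟨e, (helper9859.mem_kerSub _ _ φ e).2 he⟩, rfl⟩

variable [FiniteDimensional ℚ K]

/-- **(H1b) on the Spec carriers**: `kd φ (ω(σ)⁻¹ • T | A/p) ≤ kd φ (H¹(lam))`. -/
theorem kd_le_kd_galH1Act (h : helper9859.CycData S p K σ n)
    {A : Type*} [AddCommGroup A] (j : A →+ Additive (↥K)ˣ)
    (hj : ∀ x, Additive.toMul (j x) ∈
      kumS (𝓞 K) K (SF K S : Set (IsDedekindDomain.HeightOneSpectrum (𝓞 K))) p)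
    (hjp : ∀ x, Additive.toMul (j x) ∈ powSub (↥K)ˣ p → ∃ y, x = p • y)
    (T : A →+ A)
    (hT : ∀ x, (((Additive.toMul (j (T x)) : (↥K)ˣ) : ↥K) : Qbar)
      = σ (((Additive.toMul (j x) : (↥K)ˣ) : ↥K) : Qbar))
    (φ : Polynomial (ZMod p)) :
    helper9859.kd φ (helper9859.twist σ p • T.toIntLinearMap.baseChange (ZMod p)) ≤
      helper9859.kd φ (galH1Act S p K (ZMod p) σ).toLinearMap :=
  kd_le_kd_H1 h.isSFieldZeta σ j hj hjp T hT φ

/-- **(H1a)+(H1b) on the Spec carriers**: for every `σ`-equivariant Kummer datum `(A, j, T)`,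
`kd φ (ω(σ)⁻¹ • T | A/p) ≤ h¹(G_S, kap φ)`. -/
theorem kd_le_h1_kap (h : helper9859.CycData S p K σ n) {φ : Polynomial (ZMod p)}
    (hφ : φ ∣ X ^ n - 1)
    {A : Type*} [AddCommGroup A] (j : A →+ Additive (↥K)ˣ)
    (hj : ∀ x, Additive.toMul (j x) ∈
      kumS (𝓞 K) K (SF K S : Set (IsDedekindDomain.HeightOneSpectrum (𝓞 K))) p)
    (hjp : ∀ x, Additive.toMul (j x) ∈ powSub (↥K)ˣ p → ∃ y, x = p • y)
    (T : A →+ A)
    (hT : ∀ x, (((Additive.toMul (j (T x)) : (↥K)ˣ) : ↥K) : Qbar)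
      = σ (((Additive.toMul (j x) : (↥K)ˣ) : ↥K) : Qbar)) :
    helper9859.kd φ (helper9859.twist σ p • T.toIntLinearMap.baseChange (ZMod p)) ≤
      h1 S (helper9859.kap p K σ φ) := by
  rw [h1_kap_eq_kd h hφ]
  exact kd_le_kd_galH1Act h j hj hjp T hT φ

/-- **(H1a)+(H1b) for the `S`-units of `K`** (`SUnits ↥K (SF K S)`, S14 carrier): for every
additive endomorphism `T` of the `S`-units inducing `σ` on elements,
`kd φ (ω(σ)⁻¹ • T | O_{K,S}ˣ/p) ≤ h¹(G_S, kap φ)`. -/
theorem kd_sUnits_le_h1_kap (h : helper9859.CycData S p K σ n) {φ : Polynomial (ZMod p)}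
    (hφ : φ ∣ X ^ n - 1)
    (T : Additive ↥(SUnits ↥K (SF K S)) →+ Additive ↥(SUnits ↥K (SF K S)))
    (hT : ∀ x : Additive ↥(SUnits ↥K (SF K S)),
      ((((Additive.toMul (T x) : ↥(SUnits ↥K (SF K S))) : (↥K)ˣ) : ↥K) : Qbar)
        = σ ((((Additive.toMul x : ↥(SUnits ↥K (SF K S))) : (↥K)ˣ) : ↥K) : Qbar)) :
    helper9859.kd φ (helper9859.twist σ p • T.toIntLinearMap.baseChange (ZMod p)) ≤
      h1 S (helper9859.kap p K σ φ) :=
  kd_le_h1_kap h hφ (sUnitIncl S K) sUnitIncl_mem_kumS sUnitIncl_pow T hT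

end Fermat.Agent.S56.helper7860
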