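/-
S56 (Taylor–Wiles primes), global chain, node TATE-T1 (helper9859): MODEL-INDEPENDENCE of the
target of `helper9859_TateCycSpec`.

`Stmt_TateCyc` is stated for the concrete subrepresentation `kap φ = ker φ(lam) ⊆ indRep p K`.
The junction (J) (`helper5022.eq_zero_on_coind_of_kernels`, hypothesis `hker`) and the glue
(`helper3887` (G5)) consume the vanishing of `tateDef S` on ANY model `(Y, ι)` of `ker φ(lam)`:
`ι : Y ⟶ indRep p K` injective with range `ker φ(lam)`.  This file provides that form:

* `modelLift`, `modelLift_bijective` : a model of `ker φ(T)` is isomorphic to `kerRep A T φ`;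
* `isSMod_of_injective`            : a subobject of an `S`-module is an `S`-module;
* `tateDef_eq_zero_of_model`       : `Stmt_TateCyc` ⟹ `tateDef S Y = 0` for every model;
* bridges: `kerIncl_range` (`kap φ` is a model), `dcShift_eq_symm`, `kd_dcOp_eq` (PLACEDICT shape
  of `kd φ (dcOp ..)`), `decQ_eq`, `decInf_eq`, `twist_mul_cycloChar`.
-/
import Mathlib
import Fermat.Agent.S56.helper9859_TateCycSpec
import Fermat.Agent.S55.helper4145_Decomp

set_option autoImplicit false

namespace Fermat.Agent.S56.helper9859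

open CategoryTheory Module Polynomial ExtCitation
open Fermat.Agent.S55
open Fermat.Agent.S55.helper3071 hiding GQ
open Fermat.Agent.S55.helper2945 hiding GQ
open Fermat.Agent.S56.helper2906

local notation "Qb" => AlgebraicClosure ℚ
local notation "GQ" => (AlgebraicClosure ℚ ≃ₐ[ℚ] AlgebraicClosure ℚ)

noncomputable section

section Model

variable {k G : Type} [Field k] [Group G] (A : Rep.{0, 0, 0} k G) (T : A ⟶ A) (φ : k[X])
  {Y : Rep.{0, 0, 0} k G} (ι : Y ⟶ A)

/-- A morphism into `A` with values in `ker φ(T)` factors through `kerRep A T φ`. -/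
def modelLift (h : ∀ y : Y, aeval (endOf A T) φ (ι.hom y) = 0) : Y ⟶ kerRep A T φ :=
  Rep.ofHom ⟨LinearMap.codRestrict (kerSub A T φ) ι.hom.toLinearMap
      (fun y => (mem_kerSub A T φ _).2 (h y)),
    fun g => by
      apply LinearMap.ext
      intro y
      apply Subtype.ext
      exact Rep.hom_comm_apply ι g y⟩

@[simp] lemma modelLift_hom_apply_coe (h : ∀ y : Y, aeval (endOf A T) φ (ι.hom y) = 0) (y : Y) :
    (((modelLift A T φ ι h).hom y : kerSub A T φ) : A) = ι.hom y := rfl

lemma modelLift_comp_kerIncl (h : ∀ y : Y, aeval (endOf A T) φ (ι.hom y) = 0) :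
    modelLift A T φ ι h ≫ kerIncl A T φ = ι := by
  apply Rep.hom_ext
  apply Representation.IntertwiningMap.ext
  apply LinearMap.ext
  intro y
  rfl

/-- A model of `ker φ(T)` (injective, with range `ker φ(T)`) is isomorphic to `kerRep A T φ`. -/
lemma modelLift_bijective (hι : Function.Injective ι.hom)
    (hrange : ∀ e : A, (∃ y, ι.hom y = e) ↔ aeval (endOf A T) φ e = 0) :
    Function.Bijective
      (modelLift A T φ ι (fun y => (hrange (ι.hom y)).1 ⟨y, rfl⟩)).hom := by
  constructor
  · intro a b hab
    apply hι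
    exact congrArg Subtype.val hab
  · intro x
    obtain ⟨y, hy⟩ := (hrange ((x : kerSub A T φ) : A)).2 ((mem_kerSub A T φ _).1 x.2)
    exact ⟨y, Subtype.ext hy⟩

end Model

section SMod

variable {p : ℕ} [Fact p.Prime]

/-- A subobject of an `S`-module is an `S`-module. -/
lemma isSMod_of_injective {S : Finset Nat.Primes} {Y A : Rep.{0, 0, 0} (ZMod p) GQ}
    (ι : Y ⟶ A) (hι : Function.Injective ι.hom) (hA : IsSMod S A) : IsSMod S Y where
  finite := by
    have := hA.finite
    exact Module.Finite.of_injective ι.hom.toLinearMap hι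
  smooth := fun m => by
    obtain ⟨F, hF, h⟩ := hA.smooth (ι.hom m)
    refine ⟨F, hF, fun s hs => hι ?_⟩
    rw [Rep.hom_comm_apply, h s hs]
  unram := fun q hq B hB g hg => by
    apply LinearMap.ext
    intro m
    apply hι
    rw [Rep.hom_comm_apply, hA.unram q hq B hB g hg]
    rfl

variable {S : Finset Nat.Primes} {K : IntermediateField ℚ Qb} [K.fixingSubgroup.Normal]
  {σ : GQ} {n : ℕ}

/-- **Model-independent form of the target**: Tate's formula for every model `(Y, ι)` of
`ker φ(lam)` (the hypothesis `hker` of the junction (J), with `E = tateDef S`). -/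
theorem tateDef_eq_zero_of_model (hT : Stmt_TateCyc) (h : CycData S p K σ n)
    (hsha : groupCohomology.sha₂ S (indRep p K) = ⊥) {φ : (ZMod p)[X]} (hφ : φ ∣ X ^ n - 1)
    (Y : Rep.{0, 0, 0} (ZMod p) GQ) (ι : Y ⟶ indRep p K) (hι : Function.Injective ι.hom)
    (hrange : ∀ e : indRep p K,
      (∃ y, ι.hom y = e) ↔ aeval (endOf (indRep p K) (lam p K σ)) φ e = 0) :
    tateDef S Y = 0 := by
  have hP : IsSMod S (indRep p K) := helper1127.isSMod_indRep (p := p) S K h.unram
  have hbij := modelLift_bijective (indRep p K) (lam p K σ) φ ι hι hrange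
  have h1 := Closed.tateDef_of_bijective h.odd S h.mem Y (kap p K σ φ) _
    (isSMod_of_injective ι hι hP) (h.isSMod_kap φ) hbij
  rw [← h1]
  exact hT S p K σ n h hsha φ hφ

end SMod

/-! ### Bridges for the leaf owners (carriers of `helper4713` PLACEDICT / "any model" forms) -/

section Bridges

variable {k G : Type} [Field k] [Group G] (A : Rep.{0, 0, 0} k G) (T : A ⟶ A) (φ : k[X])

/-- `kerRep A T φ` with `kerIncl` IS a model of `ker φ(T)`: range of the inclusion. -/
lemma kerIncl_range (e : A) :
    (∃ x, (kerIncl A T φ).hom x = e) ↔ aeval (endOf A T) φ e = 0 := by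
  constructor
  · rintro ⟨x, rfl⟩
    exact (mem_kerSub A T φ _).1 x.2
  · intro h
    exact ⟨⟨e, (mem_kerSub A T φ e).2 h⟩, rfl⟩

lemma kerIncl_mem_range (e : A) :
    e ∈ Set.range (kerIncl A T φ).hom ↔ aeval (endOf A T) φ e = 0 :=
  kerIncl_range A T φ e

variable (K : IntermediateField ℚ Qb) [K.fixingSubgroup.Normal] (σ : GQ) (D : Subgroup GQ)

/-- `dcShift` is the inverse of any permutation of `U \ G_ℚ / D` given by left multiplication
by `σ` (e.g. `helper4713.dcMulLeftPerm U D σ`). -/
lemma dcShift_eq_symm (π : Equiv.Perm (DC K D))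
    (hπ : ∀ g : GQ, π (DoubleCoset.mk K.fixingSubgroup D g) =
      DoubleCoset.mk K.fixingSubgroup D (σ * g)) :
    dcShift K σ D = ⇑π.symm := by
  funext x
  obtain ⟨g, rfl⟩ : ∃ g : GQ, DoubleCoset.mk K.fixingSubgroup D g = x :=
    Quotient.inductionOn' x fun g => ⟨g, rfl⟩
  apply (Equiv.eq_symm_apply π).2
  rw [dcShift_mk, hπ, mul_inv_cancel_left]

/-- `kd φ (dcOp ..)` in the PLACEDICT shape `finrank ker (aeval (a • funLeft π.symm) φ)`. -/
lemma kd_dcOp_eq (p : ℕ) [Fact p.Prime] (π : Equiv.Perm (DC K D))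
    (hπ : ∀ g : GQ, π (DoubleCoset.mk K.fixingSubgroup D g) =
      DoubleCoset.mk K.fixingSubgroup D (σ * g)) (φ : (ZMod p)[X]) :
    kd φ (dcOp K σ D p) =
      finrank (ZMod p) (LinearMap.ker
        (aeval (twist σ p • LinearMap.funLeft (ZMod p) (ZMod p) ⇑π.symm) φ)) := by
  unfold kd dcOp dcPerm
  rw [dcShift_eq_symm K σ D π hπ]

/-- `decQ q` is the decomposition group of the frozen place `primeLocalPlace q`. -/
lemma decQ_eq (q : Nat.Primes) : decQ q = (primeLocalPlace q).decompositionSubgroup ℚ :=
  helper4145.primeLocalToGlobal_range q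

/-- `decInf` is the frozen archimedean decomposition group. -/
lemma decInf_eq : decInf = ExtCitation.archimedeanDecomposition := rfl

/-- The twist is the inverse of the cyclotomic character. -/
lemma twist_mul_cycloChar (p : ℕ) [Fact p.Prime] :
    twist σ p * ((cycloChar p σ : (ZMod p)ˣ) : ZMod p) = 1 := by
  unfold twist
  rw [← Units.val_mul, inv_mul_cancel, Units.val_one]

end Bridges

end

end Fermat.Agent.S56.helper9859
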